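import Mathlib

/-!
# P1 (S56), module EC, package ART: Artin induction in functional form (helper24)

`Γ` is a finite group, `p` a prime, `h : Rep (ZMod p) Γ → ℤ` a function which is invariant under
isomorphisms and additive on short exact sequences of finite dimensional representations.

**Deliverable** (`helper24_Art.lean`): `artin_vanish` : if `h (𝔽_p[Γ/B]) = 0` for every cyclic
subgroup `B` of `Γ`, then `h (trivial) = 0`.

This file: the exact statements of the sub-packages.

* `ArtCombStatement`  : **[ART-COMB]** Artin's identity for fixed point counts, with the signs and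
                        multiplicities resolved: two finite families of cyclic subgroups
                        `B i`, `C j` with `|Γ| + ∑_i #Fix(g, Γ/B i) = ∑_j #Fix(g, Γ/C j)`;
* `ArtCharStatement`  : **[ART-CHAR]** two finite `Γ`-sets with the same fixed point counts have
                        isomorphic rational permutation representations (matrix form);
* `ArtSumStatement`   : **[ART-SUM]** `h (𝔽_p[Σ i, Γ/B i]) = ∑ i, h (𝔽_p[Γ/B i])`;
* `ArtLatStatement`   : **[ART-LAT]** an invertible equivariant rational matrix between two finite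
                        `Γ`-sets gives `h (𝔽_p[X]) = h (𝔽_p[Y])` (permutation lattices).

DEFINITIONS ONLY.
-/

set_option autoImplicit false

noncomputable section

namespace Fermat.Agent.P1.helper24

/-- `h` is invariant under isomorphisms of finite dimensional representations. -/
def RepIsoInv {p : ℕ} {Γ : Type} [Group Γ] (h : Rep.{0} (ZMod p) Γ → ℤ) : Prop :=
  ∀ (A B : Rep.{0} (ZMod p) Γ) (e : A →ₗ[ZMod p] B), (∀ s a, e (A.ρ s a) = B.ρ s (e a)) →
    Function.Bijective e → Module.Finite (ZMod p) A → h A = h B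

/-- `h` is additive on short exact sequences of finite dimensional representations. -/
def RepExtAdd {p : ℕ} {Γ : Type} [Group Γ] (h : Rep.{0} (ZMod p) Γ → ℤ) : Prop :=
  ∀ (A₁ A A₂ : Rep.{0} (ZMod p) Γ) (i : A₁ →ₗ[ZMod p] A) (q : A →ₗ[ZMod p] A₂),
    (∀ s a, i (A₁.ρ s a) = A.ρ s (i a)) → (∀ s a, q (A.ρ s a) = A₂.ρ s (q a)) →
    Function.Injective i → Function.Surjective q → LinearMap.range i = LinearMap.ker q →
    Module.Finite (ZMod p) A → h A = h A₁ + h A₂

/-- **[ART-COMB]** Artin's induction theorem for the trivial character, as an identity between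
fixed point counts of finite `Γ`-sets, signs and multiplicities resolved. -/
def ArtCombStatement : Prop :=
  ∀ (Γ : Type) [Group Γ] [Finite Γ],
    ∃ (I J : Type) (_ : Fintype I) (_ : Fintype J) (B : I → Subgroup Γ) (C : J → Subgroup Γ),
      (∀ i, IsCyclic ↥(B i)) ∧ (∀ j, IsCyclic ↥(C j)) ∧
      ∀ g : Γ, Nat.card Γ + ∑ i, Nat.card ↥(MulAction.fixedBy (Γ ⧸ B i) g) =
        ∑ j, Nat.card ↥(MulAction.fixedBy (Γ ⧸ C j) g)

/-- **[ART-CHAR]** Two finite `Γ`-sets with the same fixed point counts have isomorphic rational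
permutation representations: there is an invertible `Γ`-equivariant rational matrix. -/
def ArtCharStatement : Prop :=
  ∀ (Γ : Type) [Group Γ] [Finite Γ] (X Y : Type) [Fintype X] [Fintype Y] [DecidableEq X]
    [DecidableEq Y] [MulAction Γ X] [MulAction Γ Y],
    (∀ g : Γ, Nat.card ↥(MulAction.fixedBy X g) = Nat.card ↥(MulAction.fixedBy Y g)) →
    ∃ (M : Matrix Y X ℚ) (M' : Matrix X Y ℚ), M * M' = 1 ∧ M' * M = 1 ∧
      ∀ (g : Γ) (y : Y) (x : X), M (g • y) (g • x) = M y x

/-- **[ART-SUM]** `h` of the permutation module of a finite disjoint union of coset spaces. -/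
def ArtSumStatement : Prop :=
  ∀ (p : ℕ) [Fact p.Prime] (Γ : Type) [Group Γ] [Finite Γ] (h : Rep.{0} (ZMod p) Γ → ℤ),
    RepIsoInv h → RepExtAdd h →
    ∀ (I : Type) [Fintype I] (B : I → Subgroup Γ),
      h (Rep.ofMulAction (ZMod p) Γ (Σ i, Γ ⧸ B i)) =
        ∑ i, h (Rep.ofMulAction (ZMod p) Γ (Γ ⧸ B i))

/-- **[ART-LAT]** An invertible equivariant rational matrix between two finite `Γ`-sets gives
`h (𝔽_p[X]) = h (𝔽_p[Y])`. -/
def ArtLatStatement : Prop :=
  ∀ (p : ℕ) [Fact p.Prime] (Γ : Type) [Group Γ] [Finite Γ] (h : Rep.{0} (ZMod p) Γ → ℤ),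
    RepIsoInv h → RepExtAdd h →
    ∀ (X Y : Type) [Fintype X] [Fintype Y] [DecidableEq X] [DecidableEq Y] [MulAction Γ X]
      [MulAction Γ Y] (M : Matrix Y X ℚ) (M' : Matrix X Y ℚ), M * M' = 1 → M' * M = 1 →
      (∀ (g : Γ) (y : Y) (x : X), M (g • y) (g • x) = M y x) →
      h (Rep.ofMulAction (ZMod p) Γ X) = h (Rep.ofMulAction (ZMod p) Γ Y)

/-- The deliverable of ART. -/
def ArtinVanishStatement : Prop :=
  ∀ (p : ℕ) [Fact p.Prime] (Γ : Type) [Group Γ] [Finite Γ] (h : Rep.{0} (ZMod p) Γ → ℤ),
    RepIsoInv h → RepExtAdd h →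
    (∀ B : Subgroup Γ, IsCyclic ↥B → h (Rep.ofMulAction (ZMod p) Γ (Γ ⧸ B)) = 0) →
    h (Rep.trivial (ZMod p) Γ (ZMod p)) = 0

end Fermat.Agent.P1.helper24
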