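import Mathlib
import Fermat.Agent.P1.helper24_ArtDefs

/-!
# P1 (S56), module EC, package ART-SUM (helper10, task 757)

`artSum : helper24.ArtSumStatement` : for an isomorphism invariant additive function `h` on
representations over `𝔽_p`, `h (𝔽_p[Σ i, Γ/B i]) = ∑ i, h (𝔽_p[Γ/B i])`.

More generally (`h_perm_sigma`) for every finite family of finite `Γ`-sets `Z i`:
`h (𝔽_p[Σ i, Z i]) = ∑ i, h (𝔽_p[Z i])`.  The proof is an induction on the index type
(`Fintype.induction_empty_option`), using

* `h_perm_congr`  : equivariant bijections of finite `Γ`-sets do not change `h (𝔽_p[X])`;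
* `h_perm_empty`  : `h (𝔽_p[∅]) = 0`;
* `h_perm_decomp` : `h (𝔽_p[X]) = h (𝔽_p[X₁]) + h (𝔽_p[X₂])` if `X` is the disjoint union of the
                    images of two injective equivariant maps `X₁ → X`, `X₂ → X`.
-/

set_option autoImplicit false
set_option linter.unusedSectionVars false
set_option linter.unusedVariables false
set_option linter.style.haveILetI false

noncomputable section

namespace Fermat.Agent.P1.helper10

open Fermat.Agent.P1.helper24 MonoidAlgebra

section Perm

variable {p : ℕ} [Fact p.Prime] {Γ : Type} [Group Γ]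

/-- The permutation module of a finite set is finite dimensional. -/
theorem perm_module_finite (X : Type) [Finite X] :
    Module.Finite (ZMod p) (MonoidAlgebra (ZMod p) X) :=
  Module.Finite.of_basis (MonoidAlgebra.basis X (ZMod p))

/-- Equivariance of `mapDomainLinearMap` along an equivariant map. -/
theorem mapDomainLinearMap_equivariant {X Y : Type} [MulAction Γ X] [MulAction Γ Y] (f : X → Y)
    (hf : ∀ (g : Γ) (x : X), f (g • x) = g • f x) (g : Γ) (a : MonoidAlgebra (ZMod p) X) :
    mapDomainLinearMap (ZMod p) (ZMod p) f (Representation.ofMulAction (ZMod p) Γ X g a) =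
      Representation.ofMulAction (ZMod p) Γ Y g (mapDomainLinearMap (ZMod p) (ZMod p) f a) := by
  have h : (mapDomainLinearMap (ZMod p) (ZMod p) f) ∘ₗ
      (Representation.ofMulAction (ZMod p) Γ X g) =
      (Representation.ofMulAction (ZMod p) Γ Y g) ∘ₗ
        (mapDomainLinearMap (ZMod p) (ZMod p) f) := by
    ext x
    simp [hf]
  exact LinearMap.congr_fun h a

theorem mapDomainLinearMap_injective {X Y : Type} {f : X → Y} (hf : Function.Injective f) :
    Function.Injective (mapDomainLinearMap (ZMod p) (ZMod p) f) := by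
  intro a b hab
  apply MonoidAlgebra.coeff_injective
  apply Finsupp.mapDomain_injective hf
  have := congrArg MonoidAlgebra.coeff hab
  simpa using this

/-- The restriction of coefficients along an injective map. -/
def comapLin {X Y : Type} (f : X → Y) (hf : Function.Injective f) :
    MonoidAlgebra (ZMod p) Y →ₗ[ZMod p] MonoidAlgebra (ZMod p) X :=
  (coeffLinearEquiv (ZMod p)).symm.toLinearMap ∘ₗ Finsupp.lcomapDomain f hf ∘ₗ
    (coeffLinearEquiv (ZMod p)).toLinearMap

theorem coeff_comapLin {X Y : Type} (f : X → Y) (hf : Function.Injective f)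
    (a : MonoidAlgebra (ZMod p) Y) (x : X) :
    (comapLin (p := p) f hf a).coeff x = a.coeff (f x) := rfl

theorem comapLin_equivariant {X Y : Type} [MulAction Γ X] [MulAction Γ Y] (f : X → Y)
    (hinj : Function.Injective f)
    (hf : ∀ (g : Γ) (x : X), f (g • x) = g • f x) (g : Γ) (a : MonoidAlgebra (ZMod p) Y) :
    comapLin f hinj (Representation.ofMulAction (ZMod p) Γ Y g a) =
      Representation.ofMulAction (ZMod p) Γ X g (comapLin f hinj a) := by
  apply MonoidAlgebra.coeff_injective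
  ext x
  rw [coeff_comapLin, Representation.coeff_ofMulAction, Representation.coeff_ofMulAction,
    coeff_comapLin, hf]

theorem comapLin_mapDomain {X Y : Type} (f : X → Y) (hf : Function.Injective f)
    (b : MonoidAlgebra (ZMod p) X) :
    comapLin f hf (mapDomainLinearMap (ZMod p) (ZMod p) f b) = b := by
  apply MonoidAlgebra.coeff_injective
  ext x
  rw [coeff_comapLin, coeff_mapDomainLinearMap, Finsupp.mapDomain_apply hf]

variable (h : Rep.{0} (ZMod p) Γ → ℤ)

/-- Equivariant bijections of finite `Γ`-sets do not change `h (𝔽_p[X])`. -/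
theorem h_perm_congr (hiso : RepIsoInv h) {X Y : Type} [MulAction Γ X] [MulAction Γ Y]
    [Finite X] (e : X ≃ Y) (he : ∀ (g : Γ) (x : X), e (g • x) = g • e x) :
    h (Rep.ofMulAction (ZMod p) Γ X) = h (Rep.ofMulAction (ZMod p) Γ Y) := by
  refine hiso (Rep.ofMulAction (ZMod p) Γ X) (Rep.ofMulAction (ZMod p) Γ Y)
    (mapDomainLinearMap (ZMod p) (ZMod p) e) (mapDomainLinearMap_equivariant e he) ⟨?_, ?_⟩
    (perm_module_finite X)
  · exact mapDomainLinearMap_injective e.injective
  · intro b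
    refine ⟨mapDomainLinearMap (ZMod p) (ZMod p) e.symm b, ?_⟩
    have h1 : (mapDomainLinearMap (ZMod p) (ZMod p) (e : X → Y)) ∘ₗ
        (mapDomainLinearMap (ZMod p) (ZMod p) (e.symm : Y → X)) = LinearMap.id := by
      ext y
      simp
    exact LinearMap.congr_fun h1 b

/-- `h (𝔽_p[∅]) = 0`. -/
theorem h_perm_empty (hadd : RepExtAdd h) {X : Type} [MulAction Γ X] [IsEmpty X] :
    h (Rep.ofMulAction (ZMod p) Γ X) = 0 := by
  haveI : Subsingleton (MonoidAlgebra (ZMod p) X) :=
    (coeffEquiv (R := ZMod p) (M := X)).subsingleton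
  have h1 := hadd (Rep.ofMulAction (ZMod p) Γ X) (Rep.ofMulAction (ZMod p) Γ X)
    (Rep.ofMulAction (ZMod p) Γ X) LinearMap.id LinearMap.id (fun _ _ => rfl) (fun _ _ => rfl)
    Function.injective_id Function.surjective_id (Subsingleton.elim _ _) (perm_module_finite X)
  linarith

/-- `h (𝔽_p[X]) = h (𝔽_p[X₁]) + h (𝔽_p[X₂])` if `X` is the disjoint union of the images of the
injective equivariant maps `ι₁ : X₁ → X` and `ι₂ : X₂ → X`. -/
theorem h_perm_decomp (hadd : RepExtAdd h) {X X₁ X₂ : Type} [MulAction Γ X] [MulAction Γ X₁]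
    [MulAction Γ X₂] [Finite X] (ι₁ : X₁ → X) (ι₂ : X₂ → X)
    (h₁ : Function.Injective ι₁) (h₂ : Function.Injective ι₂)
    (he₁ : ∀ (g : Γ) (x : X₁), ι₁ (g • x) = g • ι₁ x)
    (he₂ : ∀ (g : Γ) (x : X₂), ι₂ (g • x) = g • ι₂ x)
    (hcover : ∀ x : X, x ∈ Set.range ι₁ ∨ x ∈ Set.range ι₂)
    (hdisj : ∀ (x₁ : X₁) (x₂ : X₂), ι₁ x₁ ≠ ι₂ x₂) :
    h (Rep.ofMulAction (ZMod p) Γ X) =
      h (Rep.ofMulAction (ZMod p) Γ X₁) + h (Rep.ofMulAction (ZMod p) Γ X₂) := by
  refine hadd (Rep.ofMulAction (ZMod p) Γ X₁) (Rep.ofMulAction (ZMod p) Γ X)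
    (Rep.ofMulAction (ZMod p) Γ X₂) (mapDomainLinearMap (ZMod p) (ZMod p) ι₁) (comapLin ι₂ h₂)
    (mapDomainLinearMap_equivariant ι₁ he₁) (comapLin_equivariant ι₂ h₂ he₂)
    (mapDomainLinearMap_injective h₁) ?_ ?_ (perm_module_finite X)
  · intro b
    exact ⟨mapDomainLinearMap (ZMod p) (ZMod p) ι₂ b, comapLin_mapDomain ι₂ h₂ b⟩
  · ext a
    rw [LinearMap.mem_range, LinearMap.mem_ker]
    constructor
    · rintro ⟨b, rfl⟩
      apply MonoidAlgebra.coeff_injective
      ext x₂
      rw [coeff_comapLin, coeff_mapDomainLinearMap]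
      refine Finsupp.mapDomain_of_notMem_range _ _ ?_
      rintro ⟨x₁, hx₁⟩
      exact hdisj x₁ x₂ hx₁
    · intro ha
      have h3 : a.coeff ∈ Set.range (Finsupp.mapDomain ι₁ : (X₁ →₀ ZMod p) → (X →₀ ZMod p)) := by
        rw [Finsupp.mem_range_mapDomain_iff ι₁ h₁]
        intro x hx
        rcases hcover x with hx' | ⟨x₂, rfl⟩
        · exact absurd hx' hx
        · have := congrArg (fun c : MonoidAlgebra (ZMod p) X₂ => c.coeff x₂) ha
          simpa [coeff_comapLin] using this
      obtain ⟨b, hb⟩ := h3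
      refine ⟨MonoidAlgebra.ofCoeff b, ?_⟩
      apply MonoidAlgebra.coeff_injective
      rw [coeff_mapDomainLinearMap]
      exact hb

/-- `h (𝔽_p[Σ i, Z i]) = ∑ i, h (𝔽_p[Z i])` for every finite family of finite `Γ`-sets. -/
theorem h_perm_sigma (hiso : RepIsoInv h) (hadd : RepExtAdd h) (I : Type) [Fintype I] :
    ∀ (Z : I → Type) [∀ i, MulAction Γ (Z i)] [∀ i, Finite (Z i)],
      h (Rep.ofMulAction (ZMod p) Γ (Σ i, Z i)) = ∑ i, h (Rep.ofMulAction (ZMod p) Γ (Z i)) := by
  refine Fintype.induction_empty_option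
    (P := fun (I : Type) [Fintype I] => ∀ (Z : I → Type) [∀ i, MulAction Γ (Z i)]
      [∀ i, Finite (Z i)], h (Rep.ofMulAction (ZMod p) Γ (Σ i, Z i)) =
        ∑ i, h (Rep.ofMulAction (ZMod p) Γ (Z i))) ?_ ?_ ?_ I
  · intro α β _ e hα Z _ _
    letI : Fintype α := Fintype.ofEquiv β e.symm
    have h1 := hα (fun a => Z (e a))
    have h2 : h (Rep.ofMulAction (ZMod p) Γ (Σ a, Z (e a))) =
        h (Rep.ofMulAction (ZMod p) Γ (Σ b, Z b)) :=
      h_perm_congr h hiso (Equiv.sigmaCongrLeft (β := Z) e) (fun g x => rfl)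
    rw [← h2, h1]
    exact Fintype.sum_equiv e _ _ (fun a => rfl)
  · intro Z _ _
    rw [h_perm_empty h hadd]
    simp
  · intro α _ ih Z _ _
    have h1 := ih (fun a => Z (some a))
    have h2 := h_perm_decomp h hadd (X := Σ i, Z i) (X₁ := Σ a : α, Z (some a)) (X₂ := Z none)
      (fun x => ⟨some x.1, x.2⟩) (fun z => ⟨none, z⟩)
      (by
        rintro ⟨a, z⟩ ⟨a', z'⟩ hxy
        simp only [Sigma.mk.injEq, Option.some.injEq] at hxy
        obtain ⟨rfl, hz⟩ := hxy
        rw [eq_of_heq hz])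
      (by
        intro z z' hzz
        simp only [Sigma.mk.injEq, heq_eq_eq, true_and] at hzz
        exact hzz)
      (fun g x => rfl) (fun g x => rfl)
      (by
        rintro ⟨i, z⟩
        cases i with
        | none => exact Or.inr ⟨z, rfl⟩
        | some a => exact Or.inl ⟨⟨a, z⟩, rfl⟩)
      (by
        rintro ⟨a, z⟩ z' hxy
        simp only [Sigma.mk.injEq] at hxy
        exact Option.some_ne_none a hxy.1)
    rw [h2, h1, Fintype.sum_option]
    ring

end Perm

/-- **[ART-SUM]** -/
theorem artSum : ArtSumStatement := by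
  intro p _ Γ _ _ h hiso hadd I _ B
  exact h_perm_sigma h hiso hadd I (fun i => Γ ⧸ B i)

end Fermat.Agent.P1.helper10
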