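import Fermat.Agent.P1.helper63_ECDefs2
import Fermat.Agent.S55.TopTr
import Fermat.Agent.S55.helper45_ZeroRet

/-!
# P1 / module EC, package H3 (helper10, task 731): `H³(G_T, N) = 0`

`h3Out_of : H3Out p T` (interface `helper63_ECDefs`), by the dévissage `helper57.devissage`
applied to the property `P(N) := Z3 (galLevels T) N ≤ B3 (galLevels T) N`:

* `h3_retractClosed` : `P` passes to retracts (functoriality of the level cochain complex);
* `h3_extClosed`     : `P` is closed under extensions, from the statement of EC-LES-3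
                       (`h3_ext` of the blueprint), which enters as the hypothesis `hext`;
* `h3_perm_of_base`  : `P (k[G/U])` for `U` open with `χ_cyc|U = 1`, from Shapiro's lemma in
                       degree 3 (EC-SHAP, `shapiro_perm` of the blueprint), which enters as the
                       hypothesis `hshap`, and the field `h3` of `BaseInput` (module B of S55).
-/

set_option autoImplicit false
set_option linter.unusedSectionVars false
set_option linter.unusedVariables false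
set_option linter.style.haveILetI false

open groupCohomology ExtCitation

noncomputable section

namespace Fermat.Agent.P1.helper10

open Fermat.Agent.S55 Fermat.Agent.P1.helper70 Fermat.Agent.P1.helper63

section Abstract

variable {k G : Type} [Field k] [Group G] (𝒩 : Levels G)

/-- The vanishing of `H³` passes to retracts. -/
theorem h3_retractClosed :
    helper57.RetractClosed 𝒩 (fun A : Rep.{0} k G => Z3 𝒩 A ≤ B3 𝒩 A) := by
  intro A B i r hi hr hri _ _ _ _ hB z hz
  have hiz : (fun g => i (z g)) ∈ Z3 𝒩 B := by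
    refine ⟨helper45.isLev₃_map ⟨i, hi⟩ hz.1, ?_⟩
    have h : d₃₄ A z = 0 := hz.2
    change d₃₄ B (fun g => i (z g)) = 0
    rw [helper45.d34_map ⟨i, hi⟩ z, h]
    funext g
    exact map_zero i
  obtain ⟨y, hy, hyz⟩ := hB hiz
  refine ⟨fun g => r (y g), helper45.isLev₂_map ⟨r, hr⟩ hy, ?_⟩
  rw [helper45.d23_map ⟨r, hr⟩ y, hyz]
  funext g
  exact hri (z g)

/-- The vanishing of `H³` is closed under extensions, given the statement of EC-LES-3. -/
theorem h3_extClosed
    (hext : ∀ (A₁ A A₂ : Rep.{0} k G) (i : A₁ →ₗ[k] A) (q : A →ₗ[k] A₂),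
      (∀ s a, i (A₁.ρ s a) = A.ρ s (i a)) → (∀ s a, q (A.ρ s a) = A₂.ρ s (q a)) →
      Function.Injective i → Function.Surjective q → LinearMap.range i = LinearMap.ker q →
      IsSmooth 𝒩 A → Z3 𝒩 A₁ ≤ B3 𝒩 A₁ → Z3 𝒩 A₂ ≤ B3 𝒩 A₂ → Z3 𝒩 A ≤ B3 𝒩 A) :
    helper57.ExtClosed 𝒩 (fun A : Rep.{0} k G => Z3 𝒩 A ≤ B3 𝒩 A) :=
  fun A₁ A A₂ i q hi hq hinj hsurj hex _ _ _ _ hsm _ h1 h2 =>
    hext A₁ A A₂ i q hi hq hinj hsurj hex hsm h1 h2

/-- The vanishing of `H³` is transported by a linear equivalence of the `H³`'s. -/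
theorem z3_le_b3_of_equiv {G' : Type} [Group G'] (𝒩' : Levels G') (A : Rep.{0} k G)
    (A' : Rep.{0} k G') (e : S55.H3 𝒩 A ≃ₗ[k] S55.H3 𝒩' A') (h : Z3 𝒩' A' ≤ B3 𝒩' A') :
    Z3 𝒩 A ≤ B3 𝒩 A := by
  intro z hz
  have h1 : e (Submodule.Quotient.mk ⟨z, hz⟩) = 0 := by
    obtain ⟨⟨w, hw⟩, hw'⟩ := Submodule.Quotient.mk_surjective _
      (e (Submodule.Quotient.mk ⟨z, hz⟩))
    rw [← hw', Submodule.Quotient.mk_eq_zero]
    exact h hw
  have h2 : (Submodule.Quotient.mk ⟨z, hz⟩ : S55.H3 𝒩 A) = 0 :=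
    e.injective (by rw [h1, map_zero])
  rw [Submodule.Quotient.mk_eq_zero] at h2
  exact h2

end Abstract

section Arith

variable (p : ℕ) [Fact p.Prime] (T : Finset Nat.Primes)

/-- The base case of the dévissage: `H³(G_T, k[G/U]) = 0` for `U` open with `χ_cyc|U = 1`, from
Shapiro's lemma in degree 3 and the field `h3` of `BaseInput`. -/
theorem h3_perm_of_base (hp2 : p ≠ 2) (hpT : pPrime p ∈ T) (hB : BaseInputStatement p T)
    (hshap : ∀ (U : Subgroup GQ) (hU : ∃ N ∈ (galLevels T).mem, N ≤ U),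
      Nonempty (S55.H3 (galLevels T) (permRep (ZMod p) U) ≃ₗ[ZMod p]
        S55.H3 (helper35.restrictLevels (galLevels T) U hU) (helper35.trivRep (ZMod p) ↥U)))
    (U : Subgroup GQ) (hU : ∃ N ∈ (galLevels T).mem, N ≤ U)
    (hχ : ∀ g ∈ U, cycloChar p g = 1) :
    Z3 (galLevels T) (permRep (ZMod p) U) ≤ B3 (galLevels T) (permRep (ZMod p) U) := by
  obtain ⟨hfin, -⟩ := helper92.levelStatement p T hpT
  obtain ⟨F, hF, rfl⟩ := exists_field_of_open T U hU
  have : FiniteDimensional ℚ F := hF.1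
  have hζF := hasZeta_of_cycloChar_eq_one F p hχ
  have : Finite (GQ ⧸ F.fixingSubgroup) := by
    obtain ⟨N', hN', hle⟩ := hU
    have := hfin N' hN'
    have : N'.FiniteIndex := Subgroup.finiteIndex_of_finite_quotient
    have : F.fixingSubgroup.FiniteIndex := Subgroup.finiteIndex_of_le hle
    infer_instance
  obtain ⟨D⟩ := helper57.nonempty_shData (L := galLocal T) (U := F.fixingSubgroup)
  obtain ⟨I, -, -, -, -⟩ := hB hp2 hpT F hF hζF hU D
  obtain ⟨e⟩ := hshap F.fixingSubgroup hU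
  exact z3_le_b3_of_equiv _ _ _ _ e I.h3

/-- **EC-H3**: `H³(G_T, N) = 0` for every finite smooth module `N`, given the statements of
EC-LES-3 (`hext`) and of EC-SHAP in degree 3 (`hshap`). -/
theorem h3Out_of (hp2 : p ≠ 2) (hpT : pPrime p ∈ T) (hB : BaseInputStatement p T)
    (hext : ∀ (A₁ A A₂ : Rep.{0} (ZMod p) GQ) (i : A₁ →ₗ[ZMod p] A) (q : A →ₗ[ZMod p] A₂),
      (∀ s a, i (A₁.ρ s a) = A.ρ s (i a)) → (∀ s a, q (A.ρ s a) = A₂.ρ s (q a)) →
      Function.Injective i → Function.Surjective q → LinearMap.range i = LinearMap.ker q →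
      IsSmooth (galLevels T) A → Z3 (galLevels T) A₁ ≤ B3 (galLevels T) A₁ →
      Z3 (galLevels T) A₂ ≤ B3 (galLevels T) A₂ → Z3 (galLevels T) A ≤ B3 (galLevels T) A)
    (hshap : ∀ (U : Subgroup GQ) (hU : ∃ N ∈ (galLevels T).mem, N ≤ U),
      Nonempty (S55.H3 (galLevels T) (permRep (ZMod p) U) ≃ₗ[ZMod p]
        S55.H3 (helper35.restrictLevels (galLevels T) U hU) (helper35.trivRep (ZMod p) ↥U))) :
    H3Out p T := by
  obtain ⟨hfin, hχ⟩ := helper92.levelStatement p T hpT
  exact helper57.devissage (P := fun A : Rep.{0} (ZMod p) GQ =>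
      Z3 (galLevels T) A ≤ B3 (galLevels T) A) p hfin (cycloChar p) hχ
    (h3_retractClosed (galLevels T)) (h3_extClosed (galLevels T) hext)
    (fun U hU hχU => h3_perm_of_base p T hp2 hpT hB hshap U hU hχU)

end Arith

end Fermat.Agent.P1.helper10
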