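import Fermat.Agent.S55.ABasic

/-!
# P1 / module EC, package LES-B (helper5, task 725)

The three small pieces of the long exact cohomology sequence for level-constant cochains
(statements VERBATIM from the blueprint `helper63_ECInterface`):

* `h1_finite_ext` : finiteness of `H¹` passes to extensions;
* `h3_ext` : `H³` is half exact (in the form `Z³ ≤ B³`);
* `h2_surjective_of_h3` : `H²(A) → H²(A₂)` is onto if `H³(A₁) = 0`.
-/

set_option autoImplicit false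

open groupCohomology

noncomputable section

namespace Fermat.Agent.P1.helper5

open Fermat.Agent.S55

section Algebra

variable {G : Type} [Group G] (𝒩 : Levels G)

variable {k : Type} [Field k]

/-! ## Auxiliary: lifting cochains with values in the image of an injective map -/

section Aux

variable {𝒩}

/-- a cochain (on any index type) with values in the kernel of `q` comes from `A₁`. -/
lemma exists_lift_of_ker {X : Type} (A₁ A A₂ : Rep.{0} k G) (i : A₁ →ₗ[k] A) (q : A →ₗ[k] A₂)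
    (hinj : Function.Injective i) (hex : LinearMap.range i = LinearMap.ker q)
    (z : X → A) (hz : ∀ x, q (z x) = 0) :
    ∃ ret : A →ₗ[k] A₁, (∀ a, ret (i a) = a) ∧ ∀ x, i (ret (z x)) = z x := by
  obtain ⟨ret, hret⟩ := LinearMap.exists_leftInverse_of_injective i (LinearMap.ker_eq_bot.2 hinj)
  have hret' : ∀ a, ret (i a) = a := fun a => LinearMap.congr_fun hret a
  refine ⟨ret, hret', fun x => ?_⟩
  have hx : z x ∈ LinearMap.range i := by
    rw [hex]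
    exact hz x
  obtain ⟨a, ha⟩ := hx
  rw [← ha, hret']

end Aux

/-! ## `H³` -/

/-- **EC-LES-3** (the end of the long exact sequence): `H³` is half exact. -/
theorem h3_ext (A₁ A A₂ : Rep.{0} k G) (i : A₁ →ₗ[k] A) (q : A →ₗ[k] A₂)
    (hi : ∀ s a, i (A₁.ρ s a) = A.ρ s (i a)) (hq : ∀ s a, q (A.ρ s a) = A₂.ρ s (q a))
    (hinj : Function.Injective i) (hsurj : Function.Surjective q)
    (hex : LinearMap.range i = LinearMap.ker q) (hsm : IsSmooth 𝒩 A)
    (h1 : Z3 𝒩 A₁ ≤ B3 𝒩 A₁) (h2 : Z3 𝒩 A₂ ≤ B3 𝒩 A₂) : Z3 𝒩 A ≤ B3 𝒩 A := by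
  intro z hz
  rw [mem_Z3] at hz
  obtain ⟨sec, hsec⟩ :=
    LinearMap.exists_rightInverse_of_surjective q (LinearMap.range_eq_top.2 hsurj)
  have hsec' : ∀ a, q (sec a) = a := fun a => LinearMap.congr_fun hsec a
  -- `q ∘ z` is a level cocycle of `A₂`
  have hqz : (fun g => q (z g)) ∈ Z3 𝒩 A₂ := by
    rw [mem_Z3]
    refine ⟨map_mem_C3 q hz.1, ?_⟩
    have h := d₃₄_map (⟨q, hq⟩ : EqHom A A₂) z
    rw [hz.2] at h
    rw [h]
    funext g
    exact map_zero q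
  obtain ⟨y₂, hy₂, hy₂z⟩ := mem_B3.1 (h2 hqz)
  have hy : (fun g => sec (y₂ g)) ∈ C2 𝒩 A := map_mem_C2 sec hy₂
  -- the corrected cocycle
  have hz'C : z - (d₂₃ A).hom (fun g => sec (y₂ g)) ∈ C3 𝒩 A :=
    Submodule.sub_mem _ hz.1 (d₂₃_mem_C3 hsm hy)
  have hz'd : d₃₄ A (z - (d₂₃ A).hom (fun g => sec (y₂ g))) = 0 := by
    rw [map_sub, hz.2, d₃₄_d₂₃, sub_zero]
  have hz'q : ∀ g, q ((z - (d₂₃ A).hom (fun g => sec (y₂ g))) g) = 0 := by
    intro g
    have h := congrFun (d₂₃_map (⟨q, hq⟩ : EqHom A A₂) (fun g => sec (y₂ g))) g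
    have h3 : (fun g => q (sec (y₂ g))) = y₂ := by
      funext g
      exact hsec' _
    change (d₂₃ A₂).hom (fun g => q (sec (y₂ g))) g = _ at h
    rw [h3, hy₂z] at h
    rw [Pi.sub_apply, map_sub]
    change q (z g) - q ((d₂₃ A).hom (fun g => sec (y₂ g)) g) = 0
    rw [← h, sub_self]
  obtain ⟨ret, hret, hlift⟩ := exists_lift_of_ker A₁ A A₂ i q hinj hex _ hz'q
  -- the cocycle of `A₁`
  have hz₁ : (fun g => ret ((z - (d₂₃ A).hom (fun g => sec (y₂ g))) g)) ∈ Z3 𝒩 A₁ := by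
    rw [mem_Z3]
    refine ⟨map_mem_C3 ret hz'C, ?_⟩
    funext g
    apply hinj
    have h := congrFun (d₃₄_map (⟨i, hi⟩ : EqHom A₁ A)
      (fun g => ret ((z - (d₂₃ A).hom (fun g => sec (y₂ g))) g))) g
    change d₃₄ A (fun g => i (ret ((z - (d₂₃ A).hom (fun g => sec (y₂ g))) g))) g = _ at h
    have h4 : (fun g => i (ret ((z - (d₂₃ A).hom (fun g => sec (y₂ g))) g))) =
        z - (d₂₃ A).hom (fun g => sec (y₂ g)) := by
      funext g
      exact hlift g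
    rw [h4, hz'd] at h
    rw [Pi.zero_apply, map_zero]
    exact h.symm
  obtain ⟨y₁, hy₁, hy₁z⟩ := mem_B3.1 (h1 hz₁)
  refine mem_B3.2 ⟨(fun g => i (y₁ g)) + fun g => sec (y₂ g),
    Submodule.add_mem _ (map_mem_C2 i hy₁) hy, ?_⟩
  rw [map_add]
  have h := d₂₃_map (⟨i, hi⟩ : EqHom A₁ A) y₁
  change (d₂₃ A).hom (fun g => i (y₁ g)) = _ at h
  rw [h, hy₁z]
  funext g
  rw [Pi.add_apply]
  change i (ret ((z - (d₂₃ A).hom (fun g => sec (y₂ g))) g)) + _ = _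
  rw [hlift g, Pi.sub_apply, sub_add_cancel]

/-! ## `H²` -/

/-- **EC-LES-R** (right exactness of `H²` when `H³` of the kernel vanishes). -/
theorem h2_surjective_of_h3 (A₁ A A₂ : Rep.{0} k G) (i : A₁ →ₗ[k] A) (q : A →ₗ[k] A₂)
    (hi : ∀ s a, i (A₁.ρ s a) = A.ρ s (i a)) (hq : ∀ s a, q (A.ρ s a) = A₂.ρ s (q a))
    (hinj : Function.Injective i) (hsurj : Function.Surjective q)
    (hex : LinearMap.range i = LinearMap.ker q) (hsm : IsSmooth 𝒩 A)
    (h1 : Z3 𝒩 A₁ ≤ B3 𝒩 A₁) :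
    ∀ z ∈ Z2 𝒩 A₂, ∃ x ∈ Z2 𝒩 A, (fun s => q (x s)) - z ∈ B2 𝒩 A₂ := by
  intro z hz
  rw [mem_Z2] at hz
  obtain ⟨sec, hsec⟩ :=
    LinearMap.exists_rightInverse_of_surjective q (LinearMap.range_eq_top.2 hsurj)
  have hsec' : ∀ a, q (sec a) = a := fun a => LinearMap.congr_fun hsec a
  have hx₀ : (fun g => sec (z g)) ∈ C2 𝒩 A := map_mem_C2 sec hz.1
  have hqx₀ : (fun g => q (sec (z g))) = z := by
    funext g
    exact hsec' _
  have hdC : (d₂₃ A).hom (fun g => sec (z g)) ∈ C3 𝒩 A := d₂₃_mem_C3 hsm hx₀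
  have hdq : ∀ g, q ((d₂₃ A).hom (fun g => sec (z g)) g) = 0 := by
    intro g
    have h := congrFun (d₂₃_map (⟨q, hq⟩ : EqHom A A₂) (fun g => sec (z g))) g
    change (d₂₃ A₂).hom (fun g => q (sec (z g))) g = _ at h
    rw [hqx₀, hz.2] at h
    exact h.symm
  obtain ⟨ret, hret, hlift⟩ := exists_lift_of_ker A₁ A A₂ i q hinj hex _ hdq
  have hw : (fun g => ret ((d₂₃ A).hom (fun g => sec (z g)) g)) ∈ Z3 𝒩 A₁ := by
    rw [mem_Z3]
    refine ⟨map_mem_C3 ret hdC, ?_⟩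
    funext g
    apply hinj
    have h := congrFun (d₃₄_map (⟨i, hi⟩ : EqHom A₁ A)
      (fun g => ret ((d₂₃ A).hom (fun g => sec (z g)) g))) g
    change d₃₄ A (fun g => i (ret ((d₂₃ A).hom (fun g => sec (z g)) g))) g = _ at h
    have h4 : (fun g => i (ret ((d₂₃ A).hom (fun g => sec (z g)) g))) =
        (d₂₃ A).hom (fun g => sec (z g)) := by
      funext g
      exact hlift g
    rw [h4, d₃₄_d₂₃] at h
    rw [Pi.zero_apply, map_zero]
    exact h.symm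
  obtain ⟨y₁, hy₁, hy₁w⟩ := mem_B3.1 (h1 hw)
  refine ⟨(fun g => sec (z g)) - fun g => i (y₁ g), ?_, ?_⟩
  · rw [mem_Z2]
    refine ⟨Submodule.sub_mem _ hx₀ (map_mem_C2 i hy₁), ?_⟩
    rw [map_sub]
    have h := d₂₃_map (⟨i, hi⟩ : EqHom A₁ A) y₁
    change (d₂₃ A).hom (fun g => i (y₁ g)) = _ at h
    rw [h, hy₁w]
    funext g
    rw [Pi.sub_apply, Pi.zero_apply]
    change (d₂₃ A).hom (fun g => sec (z g)) g - i (ret ((d₂₃ A).hom (fun g => sec (z g)) g)) = 0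
    rw [hlift g, sub_self]
  · have hzero : (fun s => q (((fun g => sec (z g)) - fun g => i (y₁ g)) s)) - z = 0 := by
      funext g
      have hqi : q (i (y₁ g)) = 0 := by
        have : i (y₁ g) ∈ LinearMap.ker q := by
          rw [← hex]
          exact ⟨_, rfl⟩
        exact this
      rw [Pi.sub_apply, Pi.zero_apply]
      change q (sec (z g) - i (y₁ g)) - z g = 0
      rw [map_sub, hsec', hqi, sub_zero, sub_self]
    rw [hzero]
    exact Submodule.zero_mem _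

/-! ## `H¹` -/

section H1

variable {𝒩}

/-- the map on level 1-cocycles induced by an equivariant map -/
def mapZ1 {A A' : Rep.{0} k G} (f : EqHom A A') : ↥(Z1 𝒩 A) →ₗ[k] ↥(Z1 𝒩 A') where
  toFun x := ⟨fun g => f.f ((x : G → A) g), map_mem_Z1 f x.2⟩
  map_add' x y := by
    apply Subtype.ext
    funext g
    change f.f ((x : G → A) g + (y : G → A) g) = f.f ((x : G → A) g) + f.f ((y : G → A) g)
    rw [map_add]
  map_smul' c x := by
    apply Subtype.ext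
    funext g
    change f.f (c • (x : G → A) g) = c • f.f ((x : G → A) g)
    rw [map_smul]

lemma mapZ1_apply {A A' : Rep.{0} k G} (f : EqHom A A') (x : ↥(Z1 𝒩 A)) (g : G) :
    ((mapZ1 f x : ↥(Z1 𝒩 A')) : G → A') g = f.f ((x : G → A) g) := rfl

/-- the map on `H¹` induced by an equivariant map -/
def mapH1 {A A' : Rep.{0} k G} (f : EqHom A A') : S55.H1 𝒩 A →ₗ[k] S55.H1 𝒩 A' :=
  Submodule.mapQ _ _ (mapZ1 f) (by
    intro x hx
    rw [Submodule.mem_comap] at hx ⊢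
    exact map_mem_B1 f hx)

lemma mapH1_mk {A A' : Rep.{0} k G} (f : EqHom A A') (x : ↥(Z1 𝒩 A)) :
    mapH1 f (Submodule.Quotient.mk x) = Submodule.Quotient.mk (mapZ1 f x) := rfl

/-- middle exactness of `H¹(A₁) → H¹(A) → H¹(A₂)`. -/
lemma ker_mapH1_le_range (A₁ A A₂ : Rep.{0} k G) (i : A₁ →ₗ[k] A) (q : A →ₗ[k] A₂)
    (hi : ∀ s a, i (A₁.ρ s a) = A.ρ s (i a)) (hq : ∀ s a, q (A.ρ s a) = A₂.ρ s (q a))
    (hinj : Function.Injective i) (hsurj : Function.Surjective q)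
    (hex : LinearMap.range i = LinearMap.ker q) (hsm : IsSmooth 𝒩 A) :
    LinearMap.ker (mapH1 (𝒩 := 𝒩) (⟨q, hq⟩ : EqHom A A₂)) ≤
      LinearMap.range (mapH1 (𝒩 := 𝒩) (⟨i, hi⟩ : EqHom A₁ A)) := by
  intro c hc
  obtain ⟨x, rfl⟩ := Submodule.Quotient.mk_surjective _ c
  rw [LinearMap.mem_ker, mapH1_mk, Submodule.Quotient.mk_eq_zero, Submodule.mem_comap] at hc
  obtain ⟨a₂, ha₂⟩ := mem_B1.1 hc
  obtain ⟨a, rfl⟩ := hsurj a₂
  have hxZ := x.2
  rw [mem_Z1] at hxZ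
  have hx'C : (x : G → A) - (d₀₁ A).hom a ∈ C1 𝒩 A :=
    Submodule.sub_mem _ hxZ.1 (d₀₁_mem_C1 hsm a)
  have hx'd : (d₁₂ A).hom ((x : G → A) - (d₀₁ A).hom a) = 0 := by
    rw [map_sub, hxZ.2, d₀₁_comp_d₁₂_apply, sub_zero]
  have hx'q : ∀ g, q (((x : G → A) - (d₀₁ A).hom a) g) = 0 := by
    intro g
    have h := congrFun (d₀₁_map (⟨q, hq⟩ : EqHom A A₂) a) g
    change (d₀₁ A₂).hom (q a) g = q ((d₀₁ A).hom a g) at h
    have h2 := congrFun ha₂ g
    change (d₀₁ A₂).hom (q a) g = q ((x : G → A) g) at h2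
    rw [Pi.sub_apply, map_sub, ← h, h2, sub_self]
  obtain ⟨ret, hret, hlift⟩ := exists_lift_of_ker A₁ A A₂ i q hinj hex _ hx'q
  have hx₁ : (fun g => ret (((x : G → A) - (d₀₁ A).hom a) g)) ∈ Z1 𝒩 A₁ := by
    rw [mem_Z1]
    refine ⟨map_mem_C1 ret hx'C, ?_⟩
    funext g
    apply hinj
    have h := congrFun (d₁₂_map (⟨i, hi⟩ : EqHom A₁ A)
      (fun g => ret (((x : G → A) - (d₀₁ A).hom a) g))) g
    change (d₁₂ A).hom (fun g => i (ret (((x : G → A) - (d₀₁ A).hom a) g))) g = _ at h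
    have h4 : (fun g => i (ret (((x : G → A) - (d₀₁ A).hom a) g))) =
        (x : G → A) - (d₀₁ A).hom a := by
      funext g
      exact hlift g
    rw [h4, hx'd] at h
    rw [Pi.zero_apply, map_zero]
    exact h.symm
  refine ⟨Submodule.Quotient.mk ⟨_, hx₁⟩, ?_⟩
  rw [mapH1_mk, Submodule.Quotient.eq, Submodule.mem_comap]
  refine mem_B1.2 ⟨-a, ?_⟩
  funext g
  rw [map_neg]
  change -((d₀₁ A).hom a g) =
    i (ret (((x : G → A) - (d₀₁ A).hom a) g)) - (x : G → A) g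
  rw [hlift g, Pi.sub_apply]
  abel

end H1

/-- **EC-LES-1** (middle exactness in degree 1): finiteness of `H¹` passes to extensions. -/
theorem h1_finite_ext (A₁ A A₂ : Rep.{0} k G) (i : A₁ →ₗ[k] A) (q : A →ₗ[k] A₂)
    (hi : ∀ s a, i (A₁.ρ s a) = A.ρ s (i a)) (hq : ∀ s a, q (A.ρ s a) = A₂.ρ s (q a))
    (hinj : Function.Injective i) (hsurj : Function.Surjective q)
    (hex : LinearMap.range i = LinearMap.ker q) (hfin : Module.Finite k A) (hsm : IsSmooth 𝒩 A)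
    (h1 : Module.Finite k (S55.H1 𝒩 A₁)) (h2 : Module.Finite k (S55.H1 𝒩 A₂)) :
    Module.Finite k (S55.H1 𝒩 A) := by
  have hle := ker_mapH1_le_range (𝒩 := 𝒩) A₁ A A₂ i q hi hq hinj hsurj hex hsm
  have hr : Module.Finite k (LinearMap.range (mapH1 (𝒩 := 𝒩) (⟨i, hi⟩ : EqHom A₁ A))) :=
    Module.Finite.range _
  have hk : Module.Finite k (LinearMap.ker (mapH1 (𝒩 := 𝒩) (⟨q, hq⟩ : EqHom A A₂))) :=
    Submodule.finiteDimensional_of_le hle
  have hq' : Module.Finite k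
      (S55.H1 𝒩 A ⧸ LinearMap.ker (mapH1 (𝒩 := 𝒩) (⟨q, hq⟩ : EqHom A A₂))) :=
    Module.Finite.equiv
      (LinearMap.quotKerEquivRange (mapH1 (𝒩 := 𝒩) (⟨q, hq⟩ : EqHom A A₂))).symm
  exact Module.Finite.of_submodule_quotient
    (LinearMap.ker (mapH1 (𝒩 := 𝒩) (⟨q, hq⟩ : EqHom A A₂)))

end Algebra

end Fermat.Agent.P1.helper5
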