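import Fermat.Agent.P1.helper63_ECDefs

/-!
# P1 (S56), module EC: the archimedean term (helper24)

* `cycloChar_complexConjugation` : the mod `p` cyclotomic character maps complex conjugation to
  `-1`;
* `archOut (hp2 : p ≠ 2) : ArchOut p` : `h⁰(ℝ, N') + h⁰(ℝ, N) = dim N`.
-/

set_option autoImplicit false
set_option linter.style.haveILetI false

open groupCohomology ExtCitation

noncomputable section

namespace Fermat.Agent.P1.helper24

open Fermat.Agent.S55 Fermat.Agent.P1.helper70 Fermat.Agent.P1.helper63

local notation "Qbar" => AlgebraicClosure ℚ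

/-- complex conjugation inverts roots of unity -/
lemma complexConjugation_apply_root {N : ℕ} (hN : N ≠ 0) {ζ : Qbar}
    (hζ : ζ ^ N = 1) : complexConjugation ζ = ζ⁻¹ := by
  apply complexEmbedding.toRingHom.injective
  change complexEmbedding (complexConjugation ζ) = complexEmbedding ζ⁻¹
  rw [complexEmbedding_complexConjugation, map_inv₀]
  have hz : (complexEmbedding ζ) ^ N = 1 := by rw [← map_pow, hζ, map_one]
  have hnorm : ‖complexEmbedding ζ‖ = 1 := Complex.norm_eq_one_of_pow_eq_one hz hN
  exact (Complex.inv_eq_conj hnorm).symm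

variable (p : ℕ) [Fact p.Prime]

/-- The mod `p` cyclotomic character maps complex conjugation to `-1`. -/
theorem cycloChar_complexConjugation :
    ((cycloChar p complexConjugation : (ZMod p)ˣ) : ZMod p) = -1 := by
  have hp : p.Prime := Fact.out
  haveI : NeZero p := ⟨hp.ne_zero⟩
  haveI : NeZero (p : Qbar) := ⟨Nat.cast_ne_zero.mpr hp.ne_zero⟩
  obtain ⟨ζ, hζ⟩ := HasEnoughRootsOfUnity.exists_primitiveRoot Qbar p
  have hζ0 : ζ ≠ 0 := hζ.ne_zero hp.ne_zero
  set t : Qbarˣ := Units.mk0 ζ hζ0 with ht
  have htm : t ∈ rootsOfUnity p Qbar := by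
    rw [mem_rootsOfUnity]
    exact Units.ext (by simpa [t] using hζ.pow_eq_one)
  have h1 := modularCyclotomicCharacter.spec Qbar (card_rootsOfUnity_eq_self p)
    ((complexConjugation : Qbar ≃ₐ[ℚ] Qbar) : Qbar ≃+* Qbar) htm
  have h2 : complexConjugation ζ =
      ζ ^ ((cycloChar p complexConjugation : (ZMod p)ˣ) : ZMod p).val := by
    simpa [t, cycloChar] using h1
  rw [complexConjugation_apply_root hp.ne_zero hζ.pow_eq_one] at h2
  have h3 : ζ ^ (((cycloChar p complexConjugation : (ZMod p)ˣ) : ZMod p).val + 1) = 1 := by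
    rw [pow_succ, ← h2, inv_mul_cancel₀ hζ0]
  have h4 := (hζ.pow_eq_one_iff_dvd _).mp h3
  have h5 : ((((cycloChar p complexConjugation : (ZMod p)ˣ) : ZMod p).val + 1 : ℕ) : ZMod p)
      = 0 := (ZMod.natCast_eq_zero_iff _ _).mpr h4
  rw [Nat.cast_add, ZMod.natCast_val, ZMod.cast_id, Nat.cast_one] at h5
  exact eq_neg_of_add_eq_zero_left h5

/-- **[EC-ARCH]** `h⁰(ℝ, N') + h⁰(ℝ, N) = dim N` for `p` odd. -/
theorem archOut (hp2 : p ≠ 2) : ArchOut p := by
  intro N hN
  have hp : p.Prime := Fact.out
  have h2 : (2 : ZMod p) ≠ 0 := by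
    intro h
    have h1 : ((2 : ℕ) : ZMod p) = 0 := by exact_mod_cast h
    rw [ZMod.natCast_eq_zero_iff] at h1
    exact hp2 ((Nat.prime_dvd_prime_iff_eq hp Nat.prime_two).mp h1)
  -- the fixed space of the dual is the annihilator of the fixed space
  have hcc : ∀ x : N, N.ρ complexConjugation (N.ρ complexConjugation x) = x := by
    intro x
    rw [← Module.End.mul_apply, ← map_mul, complexConjugation_mul_self, map_one,
      Module.End.one_apply]
  have key : ∀ f : Module.Dual (ZMod p) N,
      f ∈ realH0 (dualT p N) ↔ f ∈ (realH0 N).dualAnnihilator := by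
    intro f
    rw [Submodule.mem_dualAnnihilator]
    have hf : f ∈ realH0 (dualT p N) ↔ ∀ x : N, -(f (N.ρ complexConjugation x)) = f x := by
      unfold realH0
      rw [LinearMap.mem_ker, LinearMap.sub_apply, Module.End.one_apply, sub_eq_zero]
      have e : (dualT p N).ρ complexConjugation f =
          ((cycloChar p complexConjugation : (ZMod p)ˣ) : ZMod p) •
            (f ∘ₗ N.ρ complexConjugation⁻¹) := Rep.dualTwist_ρ_apply N _ _ f
      rw [e, cycloChar_complexConjugation, complexConjugation_inv]
      constructor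
      · intro h x
        have := LinearMap.congr_fun h x
        simpa using this
      · intro h
        refine LinearMap.ext fun x => ?_
        simpa using h x
    rw [hf]
    constructor
    · intro h x hx
      unfold realH0 at hx
      rw [LinearMap.mem_ker, LinearMap.sub_apply, Module.End.one_apply, sub_eq_zero] at hx
      have h1 := h x
      rw [hx] at h1
      have h3 : (2 : ZMod p) * f x = 0 := by linear_combination -h1
      exact (mul_eq_zero.mp h3).resolve_left h2
    · intro h x
      have hx : x + N.ρ complexConjugation x ∈ realH0 N := by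
        unfold realH0
        rw [LinearMap.mem_ker, LinearMap.sub_apply, Module.End.one_apply, map_add, hcc]
        abel
      have h1 := h _ hx
      rw [map_add] at h1
      linear_combination -h1
  have hcarrier : (realH0 (dualT p N) : Set (Module.Dual (ZMod p) N)) =
      ((realH0 N).dualAnnihilator : Set (Module.Dual (ZMod p) N)) := Set.ext key
  have heq : realH0d p (dualT p N) = Module.finrank (ZMod p) ↥(realH0 N).dualAnnihilator := by
    unfold realH0d
    exact LinearEquiv.finrank_eq (LinearEquiv.ofEq _ _ (SetLike.coe_injective hcarrier))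
  rw [heq]
  unfold realH0d
  rw [add_comm]
  exact Subspace.finrank_add_finrank_dualAnnihilator_eq (realH0 N)

end Fermat.Agent.P1.helper24
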