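import Fermat.Agent.P1.helper8_SelDefs
import Fermat.Agent.S55.helper45_DD
import Fermat.Agent.S55.helper92_SmoothLevel
import Fermat.Agent.S55.helper4_BridgeLevels
import Fermat.Agent.S55.helper51_LocalLevels
import Fermat.Agent.S55.helper51_Krasner
import Fermat.Agent.S55.helper74_LocalLevels
import Fermat.Agent.S55.helper7_LocUnram
import Fermat.Agent.S55.helper7_LocUnram2
import Fermat.Agent.S55.helper1_Symbol
import Fermat.Agent.S55.helper42_KumG2a
import Fermat.Agent.S13.helper92_Minkowski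

/-!
# P1 (S56), module SEL, package SEL-TR (helper33, task 693)

`trStatement p T : helper8.TRStatement p T`: a trace functional for `(G_ℚ, T, μ_p)` which kills
cone coboundaries and satisfies the S55 `Claim` for all finite smooth modules is nonzero on the
local 2-cocycles at EVERY `v ∈ T`.

* `exists_unram_char_loc` : the unramified character of order `p` of `Gal(Ω_q/ℚ_q)`;
* `eq_zero_of_unramified` : Minkowski for level-constant additive characters of `G_ℚ`;
* `trStatement`.
-/

set_option autoImplicit false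
set_option linter.style.haveILetI false
set_option linter.unusedSectionVars false

open groupCohomology ExtCitation

noncomputable section

namespace Fermat.Agent.P1.helper33

open Fermat.Agent.S55 Fermat.Agent.P1.helper70

local notation "Qbar" => AlgebraicClosure ℚ

/-! ## Integers are units away from the residue characteristic -/

theorem valuation_natCast_eq_one_of_not_dvd (A : ValuationSubring Qbar) {q n : ℕ}
    (hq : q.Prime) (hA : A.LiesOverPrime q) (hn : ¬ q ∣ n) :
    A.valuation ((n : ℕ) : Qbar) = 1 := by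
  have hint : ∀ z : ℤ, A.valuation ((z : ℤ) : Qbar) ≤ 1 := fun z =>
    (A.valuation_le_one_iff _).2 (intCast_mem A z)
  have hle : A.valuation ((n : ℕ) : Qbar) ≤ 1 := by
    have := hint (n : ℤ)
    exact_mod_cast this
  refine le_antisymm hle (not_lt.1 fun hlt => ?_)
  have hcop : IsCoprime ((n : ℕ) : ℤ) ((q : ℕ) : ℤ) :=
    Nat.isCoprime_iff_coprime.2 ((Nat.Coprime.symm ((Nat.Prime.coprime_iff_not_dvd hq).2 hn)))
  obtain ⟨u, w, huw⟩ := hcop
  have hqlt : A.valuation ((q : ℕ) : Qbar) < 1 := A.mem_nonunits_iff.mp hA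
  have h1 : A.valuation (1 : Qbar) < 1 := by
    have h2 : (1 : Qbar) = (u : Qbar) * ((n : ℕ) : Qbar) + (w : Qbar) * ((q : ℕ) : Qbar) := by
      have := congrArg (Int.cast : ℤ → Qbar) huw
      push_cast at this
      exact this.symm
    rw [h2]
    refine Valuation.map_add_lt _ ?_ ?_
    · rw [map_mul]
      exact lt_of_le_of_lt (mul_le_of_le_one_left' (hint u)) hlt
    · rw [map_mul]
      exact lt_of_le_of_lt (mul_le_of_le_one_left' (hint w)) hqlt
  rw [map_one] at h1
  exact lt_irrefl _ h1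

/-! ## The unramified character of order `p` of the local Galois group at `q` -/

section Local

variable (p : ℕ) [Fact p.Prime] (q : ℕ) [Fact q.Prime]

/-- the inertia group of `padicPlace q` fixes the roots of unity of order prime to `q` of
`PadicAlgCl q` -/
theorem apply_eq_of_mem_inertia (s : PadicAlgCl q ≃ₐ[ℚ_[q]] PadicAlgCl q)
    (hs : localGaloisToGlobal q s ∈ (padicPlace q).inertiaSubgroupIn ℚ)
    {n : ℕ} (hn : ¬ q ∣ n) {ζ : PadicAlgCl q} (hζ : ζ ^ n = 1) : s ζ = ζ := by
  have hn0 : n ≠ 0 := fun h => hn (h ▸ dvd_zero q)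
  have halg : IsAlgebraic ℚ ζ := by
    refine IsIntegral.isAlgebraic (IsIntegral.of_pow (Nat.pos_of_ne_zero hn0) ?_)
    rw [hζ]
    exact isIntegral_one
  obtain ⟨ζ₀, rfl⟩ := helper51.mem_range_padicEmbedding_of_isAlgebraic q halg
  have hζ₀ : ζ₀ ^ n = 1 := by
    apply (padicEmbedding q).toRingHom.injective
    change padicEmbedding q (ζ₀ ^ n) = padicEmbedding q 1
    rw [map_pow, hζ, map_one]
  have hA : (padicPlace q).LiesOverPrime q :=
    helper74.primeLocalPlace_liesOverPrime ⟨q, Fact.out⟩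
  have hnA := valuation_natCast_eq_one_of_not_dvd (padicPlace q) (Fact.out : q.Prime) hA hn
  have hfix : localGaloisToGlobal q s ζ₀ = ζ₀ :=
    helper42.apply_eq_of_mem_inertia_of_pow (padicPlace q) hs hnA
      (by rw [hζ₀, map_one]) (by rw [hζ₀, map_one])
  rw [← padicEmbedding_localGaloisToGlobal, hfix]

/-- **The unramified character of order `p`** of `Gal(PadicAlgCl q / ℚ_q)`: a nonzero additive
character, constant on the cosets of the fixing subgroup of a finite extension, trivial on the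
inertia group of `padicPlace q`. -/
theorem exists_unram_char_loc :
    ∃ (E : IntermediateField ℚ_[q] (PadicAlgCl q)) (_ : FiniteDimensional ℚ_[q] E)
      (y : (PadicAlgCl q ≃ₐ[ℚ_[q]] PadicAlgCl q) → ZMod p),
      (∀ s t, y (s * t) = y s + y t) ∧ (∃ s, y s ≠ 0) ∧
      (∀ g s, s ∈ E.fixingSubgroup → y (g * s) = y g) ∧
      (∀ s, localGaloisToGlobal q s ∈ (padicPlace q).inertiaSubgroupIn ℚ → y s = 0) := by
  have hp : p.Prime := Fact.out
  obtain ⟨E, hEfd, hEgal, hEdeg, hEunr⟩ :=
    helper7.exists_unram q ℚ_[q] (PadicAlgCl q) p hp.pos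
  haveI := hEfd
  haveI := hEgal
  obtain ⟨ζ', hζ', htop⟩ := helper7.exists_primitiveRoot_adjoin_of_isUnram q ℚ_[q] E hEunr
  obtain ⟨φ, -, hgen, hord, -⟩ := helper7.exists_frob_of_isUnram q ℚ_[q] E hEunr
  have hordp : orderOf φ = p := hord.trans hEdeg
  obtain ⟨χ, hχ⟩ := helper1.exists_dlogChar ℚ_[q] E φ hgen
  have hsurj : Function.Surjective
      (AlgEquiv.restrictNormalHom (F := ℚ_[q]) (K₁ := PadicAlgCl q) E) :=
    AlgEquiv.restrictNormalHom_surjective (PadicAlgCl q)
  -- the character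
  let y : (PadicAlgCl q ≃ₐ[ℚ_[q]] PadicAlgCl q) → ZMod p := fun s =>
    ZMod.ringEquivCongr hordp (Multiplicative.toAdd (χ (AlgEquiv.restrictNormalHom E s)))
  have hy : ∀ s, y s =
    ZMod.ringEquivCongr hordp (Multiplicative.toAdd (χ (AlgEquiv.restrictNormalHom E s))) :=
    fun _ => rfl
  have hadd : ∀ s t, y (s * t) = y s + y t := by
    intro s t
    rw [hy, hy, hy, map_mul, map_mul, toAdd_mul, map_add]
  have hone : y 1 = 0 := by
    have := hadd 1 1
    rw [mul_one] at this
    exact left_eq_add.mp this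
  have hlev : ∀ g s, s ∈ E.fixingSubgroup → y (g * s) = y g := by
    intro g s hs
    have h1 : AlgEquiv.restrictNormalHom (F := ℚ_[q]) (K₁ := PadicAlgCl q) E s = 1 := by
      rw [← MonoidHom.mem_ker, IntermediateField.restrictNormalHom_ker]
      exact hs
    rw [hadd, hy s, h1, map_one, toAdd_one, map_zero, add_zero]
  refine ⟨E, hEfd, y, hadd, ?_, hlev, ?_⟩
  · obtain ⟨s, hs⟩ := hsurj φ
    refine ⟨s, ?_⟩
    rw [hy, hs, hχ, toAdd_ofAdd, map_one]
    haveI : Fact (1 < p) := ⟨hp.one_lt⟩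
    exact one_ne_zero
  · intro s hs
    have hNq : ¬ q ∣ (q ^ helper8.fdeg q ℚ_[q]) ^ Module.finrank ℚ_[q] E - 1 :=
      helper7.not_dvd_pow_sub_one q ℚ_[q] Module.finrank_pos
    have hζpow : ((ζ' : E) : PadicAlgCl q) ^
        ((q ^ helper8.fdeg q ℚ_[q]) ^ Module.finrank ℚ_[q] E - 1) = 1 := by
      have := congrArg (fun z : E => (z : PadicAlgCl q)) hζ'.pow_eq_one
      simpa using this
    have hfix : s (ζ' : PadicAlgCl q) = ζ' := apply_eq_of_mem_inertia q s hs hNq hζpow
    have hmem : s ∈ E.fixingSubgroup := by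
      have hα : IntermediateField.adjoin ℚ_[q] {ζ'} = ⊤ :=
        IntermediateField.adjoin_eq_top_of_algebra _ _ htop
      have hM : E = IntermediateField.adjoin ℚ_[q] {(ζ' : PadicAlgCl q)} := by
        rw [← IntermediateField.lift_adjoin_simple, hα, IntermediateField.lift_top]
      have key : (s : PadicAlgCl q →ₐ[ℚ_[q]] PadicAlgCl q).comp E.val = E.val := by
        refine IntermediateField.algHom_ext_of_eq_adjoin ℚ_[q] hM fun x hx => ?_
        rw [Set.mem_singleton_iff] at hx
        subst hx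
        exact hfix
      rw [IntermediateField.mem_fixingSubgroup_iff]
      intro x hx
      exact congrArg (fun φ : E →ₐ[ℚ_[q]] PadicAlgCl q => φ ⟨x, hx⟩) key
    have := hlev 1 s hmem
    rw [one_mul, hone] at this
    exact this

end Local

/-- **The unramified character of order `p`** of the local Galois group at `q`, in the S55
vocabulary. -/
theorem exists_unram_char (p : ℕ) [Fact p.Prime] (q : Nat.Primes) :
    ∃ y : primeLocalGaloisGroup q → ZMod p,
      (∀ s t, y (s * t) = y s + y t) ∧ (∃ s, y s ≠ 0) ∧ IsLev₁ (locLevels q) y ∧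
      (∀ s, primeLocalToGlobal q s ∈ (primeLocalPlace q).inertiaSubgroupIn ℚ → y s = 0) := by
  haveI : Fact (q : ℕ).Prime := ⟨q.2⟩
  obtain ⟨E, hEfd, y, hadd, hne, hlev, hin⟩ := exists_unram_char_loc p (q : ℕ)
  refine ⟨y, hadd, hne, ?_, hin⟩
  rw [helper4.isLev₁_locLevels_iff, helper51.isLevelConstant₁_primeLocalToGlobal_iff]
  exact ⟨E, hEfd, hlev⟩

/-! ## Minkowski for additive characters -/

/-- A level-constant additive character `G_ℚ → ZMod p` (for the levels of `T`) which is trivial on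
the inertia groups of the places `primeLocalPlace u`, `u ∈ T`, is zero (Minkowski). -/
theorem eq_zero_of_unramified (p : ℕ) (T : Finset Nat.Primes) (a : GQ → ZMod p)
    (hlev : IsLev₁ (galLevels T) a) (hadd : ∀ g h, a (g * h) = a g + a h)
    (hloc : ∀ u : Nat.Primes, u ∈ T → ∀ s : primeLocalGaloisGroup u,
      primeLocalToGlobal u s ∈ (primeLocalPlace u).inertiaSubgroupIn ℚ →
        a (primeLocalToGlobal u s) = 0)
    (g : GQ) : a g = 0 := by
  have hone : a 1 = 0 := by
    have := hadd 1 1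
    rw [mul_one] at this
    exact left_eq_add.mp this
  let χ : GQ →* Multiplicative (ZMod p) :=
    { toFun := fun g => Multiplicative.ofAdd (a g)
      map_one' := by rw [hone]; rfl
      map_mul' := fun g h => by rw [hadd, ofAdd_add] }
  have hχ : ∀ g, χ g = Multiplicative.ofAdd (a g) := fun _ => rfl
  obtain ⟨N, ⟨-, F, hu, rfl⟩, h⟩ := hlev
  have hle : F.fixingSubgroup ≤ χ.ker := by
    intro s hs
    rw [MonoidHom.mem_ker, hχ]
    have := h 1 s hs
    rw [one_mul, hone] at this
    rw [this]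
    rfl
  haveI := hu.1
  have hopen : IsOpen (χ.ker : Set GQ) :=
    Subgroup.isOpen_mono hle (IntermediateField.fixingSubgroup_isOpen F)
  have key := Fermat.Agent.S13.helper92.monoidHom_eq_one_of_unramified χ hopen (fun ℓ hℓ => ?_) g
  · exact Multiplicative.ofAdd.injective key
  · refine ⟨primeLocalPlace ⟨ℓ, hℓ⟩, helper74.primeLocalPlace_liesOverPrime ⟨ℓ, hℓ⟩,
      fun σ hσ => ?_⟩
    by_cases hT : (⟨ℓ, hℓ⟩ : Nat.Primes) ∈ T
    · have hdec : σ ∈ (primeLocalPlace ⟨ℓ, hℓ⟩).decompositionSubgroup ℚ :=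
        ((Fermat.Agent.S14.helper91.mem_inertiaSubgroupIn_iff_valuation _ σ).1 hσ).1
      obtain ⟨s, rfl⟩ := helper74.exists_primeLocalToGlobal_eq ⟨ℓ, hℓ⟩ hdec
      rw [hχ, hloc _ hT s hσ]
      rfl
    · exact hle (hu.2 ⟨ℓ, hℓ⟩ hT _ (helper74.primeLocalPlace_liesOverPrime ⟨ℓ, hℓ⟩) hσ)

/-! ## The local cup product of two 1-cocycles is a 2-cocycle -/

section Cup

variable {k G : Type} [Field k] [Group G] {𝒩 : Levels G} {ι : Type} (L : LocalData G 𝒩 ι)
  {A B C : Rep.{0} k G} (φ : EqPairing A B C)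

theorem locCup_mem_Z2 (hB : IsSmooth 𝒩 B) (v : ι) {x : G → A} (hx : x ∈ Z1 𝒩 A)
    {y : L.Gv v → L.loc B v} (hy : y ∈ Z1 (L.lev v) (L.loc B v)) :
    helper8.locCup L φ v (res₁ L A v x) y ∈ Z2 (L.lev v) (L.loc C v) := by
  obtain ⟨hxC, hxd⟩ := hx
  obtain ⟨hyC, hyd⟩ := hy
  have hxadd : ∀ g h : G, x (g * h) = x g + A.ρ g (x h) := by
    intro g h
    have := congrFun (LinearMap.mem_ker.1 hxd) (g, h)
    rw [d₁₂_hom_apply] at this
    have h2 : A.ρ g (x h) - x (g * h) + x g = 0 := this
    have h3 : x g + A.ρ g (x h) - x (g * h) = 0 := by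
      rw [← h2]
      abel
    exact (sub_eq_zero.1 h3).symm
  have hyadd : ∀ s t : L.Gv v, y (s * t) = y s + B.ρ (L.r v s) (y t) := by
    intro s t
    have := congrFun (LinearMap.mem_ker.1 hyd) (s, t)
    rw [d₁₂_hom_apply] at this
    have h2 : B.ρ (L.r v s) (y t) - y (s * t) + y s = 0 := this
    have h3 : y s + B.ρ (L.r v s) (y t) - y (s * t) = 0 := by
      rw [← h2]
      abel
    exact (sub_eq_zero.1 h3).symm
  refine ⟨?_, ?_⟩
  · -- level-constancy
    obtain ⟨N₁, hN₁, h₁⟩ := res₁_mem_C1 L hxC v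
    obtain ⟨N₂, hN₂, h₂⟩ := hyC
    obtain ⟨N₃, hN₃, h₃⟩ := isSmooth_loc L hB v
    obtain ⟨N₄, hN₄, hle₄⟩ := (L.lev v).directed N₁ hN₁ N₂ hN₂
    obtain ⟨N, hN, hle⟩ := (L.lev v).directed N₄ hN₄ N₃ hN₃
    refine ⟨N, hN, fun g₁ g₂ s₁ hs₁ s₂ hs₂ => ?_⟩
    have e1 := h₁ g₁ s₁ (hle₄ (hle hs₁).1).1
    have e2 := h₂ g₂ s₂ (hle₄ (hle hs₂).1).2
    have e3 : B.ρ (L.r v s₁) (y g₂) = y g₂ := h₃ s₁ (hle hs₁).2 (y g₂)
    rw [helper8.locCup_apply, helper8.locCup_apply, e1, e2, map_mul, map_mul,
      Module.End.mul_apply, e3]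
  · -- the cocycle identity
    apply LinearMap.mem_ker.2
    funext ⟨s, t, u⟩
    rw [d₂₃_hom_apply]
    change C.ρ (L.r v s) (helper8.locCup L φ v (res₁ L A v x) y (t, u)) -
      helper8.locCup L φ v (res₁ L A v x) y (s * t, u) +
      helper8.locCup L φ v (res₁ L A v x) y (s, t * u) -
      helper8.locCup L φ v (res₁ L A v x) y (s, t) = 0
    simp only [helper8.locCup_apply, res₁_apply, map_mul, hxadd, hyadd, φ.ρ_apply, map_add,
      LinearMap.add_apply, Module.End.mul_apply]
    abel

end Cup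

/-! ## The main theorem -/

section Main

variable (p : ℕ) [Fact p.Prime] (T : Finset Nat.Primes)

/-- the trivial module `ZMod p` of `G_ℚ` -/
abbrev trivRep : Rep.{0} (ZMod p) GQ := Rep.trivial (ZMod p) GQ (ZMod p)

lemma isSmooth_trivRep : IsSmooth (galLevels T) (trivRep p) := by
  obtain ⟨N, hN⟩ := (galLevels T).nonempty
  exact ⟨N, hN, fun s _ a => rfl⟩

/-- **[SEL-TR]** -/
theorem trStatement : Fermat.Agent.P1.helper8.TRStatement p T := by
  intro hpT tr htr hclaim v
  obtain ⟨-, hχ⟩ := Fermat.Agent.S55.helper92.levelStatement p T hpT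
  have hTrsm := isSmooth_trivRep p T
  have hfin : Module.Finite (ZMod p) (trivRep p) := by
    change Module.Finite (ZMod p) (ZMod p)
    infer_instance
  have hfin' : Module.Finite (ZMod p) ((trivRep p).dualTwist (cycloChar p)) := by
    change Module.Finite (ZMod p) (Module.Dual (ZMod p) (ZMod p))
    infer_instance
  have hcl : Claim (galLocal T) (evPairing' (trivRep p) (cycloChar p)) tr :=
    helper45.ddStatement (galLocal T) (cycloChar p) tr (trivRep p) hfin
      (hclaim _ hfin' (isSmooth_dualTwist hχ hTrsm))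
  -- the unramified character at `v`
  obtain ⟨y, hyadd, ⟨s₀, hs₀⟩, hylev, hyin⟩ :
      ∃ y : (galLocal T).Gv v → (galLocal T).loc (trivRep p) v,
        (∀ s t, y (s * t) = y s + y t) ∧ (∃ s, y s ≠ 0) ∧ IsLev₁ ((galLocal T).lev v) y ∧
        (∀ s, (galLocal T).r v s ∈ (primeLocalPlace v.1).inertiaSubgroupIn ℚ → y s = 0) :=
    exists_unram_char p (v : Nat.Primes)
  have hyZ : y ∈ Z1 ((galLocal T).lev v) ((galLocal T).loc (trivRep p) v) := by
    refine ⟨hylev, LinearMap.mem_ker.2 ?_⟩
    funext ⟨s, t⟩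
    rw [d₁₂_hom_apply]
    change y t - y (s * t) + y s = 0
    rw [hyadd]
    abel
  -- the family `Y = single v y`
  obtain ⟨Y, hYv, hYu⟩ : ∃ Y : ∀ u : ↥T, (galLocal T).Gv u → (galLocal T).loc (trivRep p) u,
      Y v = y ∧ ∀ u, u ≠ v → Y u = 0 :=
    ⟨Pi.single v y, by rw [Pi.single_eq_same], fun u hu => by rw [Pi.single_eq_of_ne hu]⟩
  -- the cone cocycle `z = (0, Y)`
  have hzZ : ((0, Y) : CcAmb2 (galLocal T) (trivRep p)) ∈ Zc2 (galLocal T) (trivRep p) := by
    refine ⟨(mem_Cc2 (galLocal T)).2 ⟨(C2 _ _).zero_mem, fun u => ?_⟩, LinearMap.mem_ker.2 ?_⟩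
    · by_cases hu : u = v
      · subst hu
        change Y u ∈ C1 _ _
        rw [hYv]
        exact hylev
      · change Y u ∈ C1 _ _
        rw [hYu u hu]
        exact (C1 _ _).zero_mem
    · refine Prod.ext ?_ ?_
      · change (d₂₃ (trivRep p)).hom 0 = 0
        rw [map_zero]
      · funext u
        change res₂ (galLocal T) (trivRep p) u 0 -
          (d₁₂ ((galLocal T).loc (trivRep p) u)).hom (Y u) = 0
        rw [map_zero, zero_sub, neg_eq_zero]
        by_cases hu : u = v
        · subst hu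
          rw [hYv]
          exact LinearMap.mem_ker.1 hyZ.2
        · rw [hYu u hu, map_zero]
  have hznot : ((0, Y) : CcAmb2 (galLocal T) (trivRep p)) ∉ Bc2 (galLocal T) (trivRep p) := by
    rintro ⟨⟨a, b⟩, hab, hd⟩
    have haC : a ∈ C1 (galLevels T) (trivRep p) := (mem_Cc1 (galLocal T)).1 hab
    have hd1 : (d₁₂ (trivRep p)).hom a = 0 := congrArg Prod.fst hd
    have haadd : ∀ g h : GQ, a (g * h) = a g + a h := by
      intro g h
      have := congrFun hd1 (g, h)
      rw [d₁₂_hom_apply] at this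
      have h2 : a h - a (g * h) + a g = 0 := this
      have h3 : a g + a h - a (g * h) = 0 := by
        rw [← h2]
        abel
      exact (sub_eq_zero.1 h3).symm
    have hares : ∀ u (s : (galLocal T).Gv u), a ((galLocal T).r u s) = Y u s := by
      intro u s
      have h1 : (dc₁₂ (galLocal T) (trivRep p) (a, b)).2 u s = Y u s :=
        congrFun (congrFun (congrArg Prod.snd hd) u) s
      rw [dc₁₂_snd] at h1
      have h2 : a ((galLocal T).r u s) - (b u - b u) = Y u s := h1
      rw [sub_self, sub_zero] at h2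
      exact h2
    have hzero := eq_zero_of_unramified p T a haC haadd (fun u hu s hs => by
      have h1 := hares ⟨u, hu⟩ s
      by_cases huv : (⟨u, hu⟩ : ↥T) = v
      · subst huv
        rw [hYv] at h1
        exact h1.trans (hyin s hs)
      · rw [hYu _ huv] at h1
        exact h1)
    apply hs₀
    have h1 := hares v s₀
    rw [hYv] at h1
    rw [← h1]
    exact hzero _
  obtain ⟨ψ, hψz, hψB⟩ := Submodule.exists_le_ker_of_notMem hznot
  obtain ⟨x, hx, hxψ⟩ := hcl.surj1 ψ (fun w hw => LinearMap.mem_ker.1 (hψB hw))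
  have hne : tr (cupc₁₂ (galLocal T) (evPairing' (trivRep p) (cycloChar p)) x
      ((0, Y) : CcAmb2 (galLocal T) (trivRep p))) ≠ 0 := by
    rw [← hxψ _ hzZ]
    exact hψz
  refine ⟨- helper8.locCup (galLocal T) (evPairing' (trivRep p) (cycloChar p)) v
    (res₁ (galLocal T) _ v x) y, (Z2 _ _).neg_mem
      (locCup_mem_Z2 (galLocal T) (evPairing' (trivRep p) (cycloChar p)) hTrsm v hx hyZ), ?_⟩
  have e : cupc₁₂ (galLocal T) (evPairing' (trivRep p) (cycloChar p)) x
        ((0, Y) : CcAmb2 (galLocal T) (trivRep p)) =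
      ((0, Pi.single v (- helper8.locCup (galLocal T)
        (evPairing' (trivRep p) (cycloChar p)) v (res₁ (galLocal T) _ v x) y)) :
        CcAmb3 (galLocal T) (groupCohomology.ofChar (k := ZMod p) (cycloChar p))) := by
    refine Prod.ext ?_ ?_
    · funext g
      change (evPairing' (trivRep p) (cycloChar p)).φ (x g.1) ((trivRep p).ρ g.1 0) = 0
      rw [map_zero, map_zero]
    · funext u s
      change - (evPairing' (trivRep p) (cycloChar p)).φ (x ((galLocal T).r u s.1))
          ((trivRep p).ρ ((galLocal T).r u s.1) (Y u s.2)) =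
        (Pi.single v (- helper8.locCup (galLocal T)
          (evPairing' (trivRep p) (cycloChar p)) v (res₁ (galLocal T) _ v x) y) :
          ∀ u : ↥T, (galLocal T).Gv u × (galLocal T).Gv u →
            (galLocal T).loc (groupCohomology.ofChar (k := ZMod p) (cycloChar p)) u) u s
      by_cases hu : u = v
      · subst hu
        rw [Pi.single_eq_same, hYv]
        rfl
      · rw [Pi.single_eq_of_ne hu, hYu u hu]
        change - (evPairing' (trivRep p) (cycloChar p)).φ (x ((galLocal T).r u s.1))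
          ((trivRep p).ρ ((galLocal T).r u s.1) 0) = 0
        rw [map_zero, map_zero, neg_zero]
  rw [← e]
  exact hne

end Main

end Fermat.Agent.P1.helper33
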