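import Fermat.Agent.P1.helper70_Interface

/-!
# P1 (S56): second layer of module interfaces = the inputs of module SEL

Standing notation: `k = ResidueField 𝒪`, `M = ad0Rep ρbar p`, `M' = ad0Dual p ρbar`,
`d = finrank (ZMod p) k`, `T' = primesOf T`; ALL dimensions are over `ZMod p`.

* `S55Claim p T'` : the output of S55 module A for the local data `galLocal T'` (all finite smooth
  modules satisfy `Claim` for one trace functional);
* `ECOut`      : the Euler characteristic inequality (module EC);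
* `LocPOut`    : the local term at `p` (modules LSO and FLAT-CNT+ORDF);
* `LocSminOut` : the local term at the primes of `Smin` different from `p` (module LQ);
* `LocQOut`    : the local term at the Taylor-Wiles primes (module LQ);
* `OddOut`     : the archimedean term.

DEFINITIONS ONLY.
-/

set_option autoImplicit false

open IsLocalRing ExtCitation groupCohomology Polynomial

noncomputable section

namespace Fermat.Agent.P1.helper70

open Fermat.Agent.S55

/-- OUTPUT of S55 module A (closed on main) applied to the base case `BaseTargetP p T'`: one trace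
functional for which `Claim` holds for every finite smooth module. -/
def S55Claim (p : ℕ) [Fact p.Prime] (T' : Finset Nat.Primes) : Prop :=
  ∃ tr : CcAmb3 (galLocal T') (groupCohomology.ofChar (k := ZMod p) (cycloChar p)) →ₗ[ZMod p]
      ZMod p,
    (∀ c ∈ Bc3 (galLocal T') (groupCohomology.ofChar (k := ZMod p) (cycloChar p)), tr c = 0) ∧
    ∀ N : Rep (ZMod p) GQ, Module.Finite (ZMod p) N → IsSmooth (galLevels T') N →
      Claim (galLocal T') (evPairing N (cycloChar p)) tr

/-- The fixed space of complex conjugation: `H⁰(ℝ, N)`. -/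
def realH0 {p : ℕ} (N : Rep (ZMod p) GQ) : Submodule (ZMod p) N :=
  LinearMap.ker (N.ρ complexConjugation - 1)

variable {𝒪 : Type} [CommRing 𝒪] [IsDomain 𝒪] [IsDiscreteValuationRing 𝒪]
  [IsAdicComplete (maximalIdeal 𝒪) 𝒪] [Finite (ResidueField 𝒪)]
  (p : ℕ) [Fact p.Prime]
  (ρbar : ResidualGaloisRep (ResidueField 𝒪))
  (S Smin : Finset ℕ)
  [Algebra (ZMod p) (ResidueField 𝒪)]

/-- OUTPUT of module EC: finiteness of `H¹(G_T, M)`, `H¹(G_T, M')` and the Euler characteristic
inequality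
`dim Ш¹_T(M) + ∑_{v ∈ T} h⁰(G_v, M) + h⁰(ℝ, M) + h⁰(M') ≤ h¹(G_T, M') + h⁰(M)`. -/
def ECOut : Prop :=
  ∀ T : Finset ℕ, Smin ⊆ T →
    Module.Finite (ZMod p) (H1 (galLevels (primesOf T)) (ad0Rep ρbar p)) ∧
    Module.Finite (ZMod p) (H1 (galLevels (primesOf T)) (ad0Dual p ρbar)) ∧
    Module.finrank (ZMod p) ↥(Sha1 (galLocal (primesOf T)) (ad0Rep ρbar p)) +
        ∑ v : ↥(primesOf T),
          Module.finrank (ZMod p) ↥(S55.H0 ((galLocal (primesOf T)).loc (ad0Rep ρbar p) v)) +
        Module.finrank (ZMod p) ↥(realH0 (ad0Rep ρbar p)) +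
        Module.finrank (ZMod p) ↥(S55.H0 (ad0Dual p ρbar)) ≤
      Module.finrank (ZMod p) (H1 (galLevels (primesOf T)) (ad0Dual p ρbar)) +
        Module.finrank (ZMod p) ↥(S55.H0 (ad0Rep ρbar p))

/-- OUTPUT of modules LSO (for `condSO`) and FLAT-CNT+ORDF (for `condFlat`): the local tangent
classes at `p` span a space of dimension `≤ h⁰(G_p, M) + d`. -/
def LocPOut (𝒟fam : Finset ℕ →
    ∀ ⦃A : Type⦄ [CommRing A] [IsLocalRing A] [Algebra 𝒪 A], GaloisRepAdic A → Prop) : Prop :=
  ∀ T : Finset ℕ, Smin ⊆ T → ∀ v : ↥(primesOf T), ((v : Nat.Primes) : ℕ) = p →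
    Module.Finite (ZMod p) ↥(locTanH ρbar p (𝒟fam T) (primesOf T) v) ∧
    Module.finrank (ZMod p) ↥(locTanH ρbar p (𝒟fam T) (primesOf T) v) ≤
      Module.finrank (ZMod p) ↥(S55.H0 ((galLocal (primesOf T)).loc (ad0Rep ρbar p) v)) +
        Module.finrank (ZMod p) (ResidueField 𝒪)

/-- OUTPUT of module LQ, part (i): at a prime `q ≠ p` of `Smin` the local tangent classes span a
space of dimension `≤ h⁰(G_q, M)`. -/
def LocSminOut (𝒟fam : Finset ℕ →
    ∀ ⦃A : Type⦄ [CommRing A] [IsLocalRing A] [Algebra 𝒪 A], GaloisRepAdic A → Prop) : Prop :=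
  ∀ T : Finset ℕ, Smin ⊆ T → ∀ v : ↥(primesOf T), ((v : Nat.Primes) : ℕ) ∈ Smin →
    ((v : Nat.Primes) : ℕ) ≠ p →
    Module.Finite (ZMod p) ↥(locTanH ρbar p (𝒟fam T) (primesOf T) v) ∧
    Module.finrank (ZMod p) ↥(locTanH ρbar p (𝒟fam T) (primesOf T) v) ≤
      Module.finrank (ZMod p) ↥(S55.H0 ((galLocal (primesOf T)).loc (ad0Rep ρbar p) v))

/-- OUTPUT of module LQ, part (ii): at a Taylor-Wiles prime `q` (not in `Smin`, `q ≡ 1 mod p`,
Frobenius with distinct eigenvalues) `h¹(G_q, M) ≤ h⁰(G_q, M) + d`. -/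
def LocQOut : Prop :=
  ∀ q : Nat.Primes, (q : ℕ) ∉ Smin → p ∣ (q : ℕ) - 1 → FrobDistinct ρbar (q : ℕ) →
    Module.Finite (ZMod p) (H1 (locLevels q) (Rep.res (primeLocalToGlobal q) (ad0Rep ρbar p))) ∧
    Module.finrank (ZMod p)
        (H1 (locLevels q) (Rep.res (primeLocalToGlobal q) (ad0Rep ρbar p))) ≤
      Module.finrank (ZMod p) ↥(S55.H0 (Rep.res (primeLocalToGlobal q) (ad0Rep ρbar p))) +
        Module.finrank (ZMod p) (ResidueField 𝒪)

/-- The archimedean term: `h⁰(ℝ, M) ≥ d` (in fact `= d`: `ρbar` is odd). -/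
def OddOut : Prop :=
  Module.finrank (ZMod p) (ResidueField 𝒪) ≤ Module.finrank (ZMod p) ↥(realH0 (ad0Rep ρbar p))

/-- `ad⁰` and its twisted dual have no invariants (module TW-GT, GT-A). -/
def NoInvOut : Prop :=
  S55.H0 (ad0Rep ρbar p) = ⊥ ∧ S55.H0 (ad0Dual p ρbar) = ⊥

end Fermat.Agent.P1.helper70
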