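import Fermat.Agent.S55.ABasic
import Fermat.Agent.S55.Arith
import Fermat.Agent.P1.helper70_Interface2

/-!
# P1 (S56), module SEL: shared definitions and the exact statements of the packages
(helper8, sub-coordinator, task 494)

Standing notation: `M = ad0Rep ρbar p`, `M' = ad0Dual p ρbar = M.dualTwist (cycloChar p)`,
`χ = cycloChar p`, `T' = primesOf T`, `L = galLocal T'`; all dimensions over `ZMod p`.

## Abstract part (any `Levels` / `LocalData` / trace functional)

* `selZ L B Lv`         : Selmer cocycles: level cocycles of `B` whose restriction to every local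
                          group `v` lies in the given space `Lv v` of local cochains;
* `dualSelZ L φ tr Lv`  : dual Selmer cocycles for a pairing `φ : A × B → C` and a trace functional
                          `tr`: level cocycles `x` of `A` with `tr (x ∪ (0, y)) = 0` for all
                          families `y` of local cochains with `y v ∈ Lv v`;
* `GWStatement`         : **[SEL-GW]** the Greenberg–Wiles inequality
  `dim Sel_L(B) + h¹(A) ≤ dim Ш¹(B) + ∑_v dim (L_v / B¹_v) + dim Sel_{L^⊥}(A)`
  (pure linear algebra on the S55 cone; NO duality theorem is needed for this inequality).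

## Arithmetic part

* `TRStatement p T'`    : **[SEL-TR]** a trace functional satisfying the S55 `Claim` is nonzero on
                          the local 2-cocycles at EVERY `v ∈ T'` (Minkowski + `Claim.surj1`);
* `ExtStatement p`      : **[SEL-EXT]** characters of order `p` of an open normal subgroup of
                          index prime to `p` of the local Galois group at `q ≡ 1 mod p` are
                          invariant under conjugation;
* `LDLocStatement p`    : **[SEL-LDLOC]** local duality at a prime `q ≡ 1 mod p` for a module on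
                          which the local Galois group acts through a quotient of order prime to
                          `p` (from S55 LOC `helper8.LocalDuality` over `ℚ_q`);
* `PrimeToPStatement`   : **[SEL-PTP]** at a Taylor–Wiles prime the local Galois group acts on
                          `ad⁰ ρbar` through a quotient of order prime to `p`;
* `InflStatement p`     : **[SEL-INFL]** a level-`T'` cocycle of a module of level `S₀ ⊆ T'` which
                          is locally a coboundary at the primes of `T' \ S₀` has level `S₀`;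
* `LDOut`               : the deliverable of TR + LDLOC + PTP consumed by the final count.

DEFINITIONS ONLY.
-/

set_option autoImplicit false

open IsLocalRing ExtCitation groupCohomology Polynomial

noncomputable section

namespace Fermat.Agent.P1.helper8

open Fermat.Agent.S55 Fermat.Agent.P1.helper70

/-! ## Abstract part -/

section Abstract

variable {k G : Type} [Field k] [Group G] {𝒩 : Levels G} {ι : Type} (L : LocalData G 𝒩 ι)

/-- Selmer cocycles: level cocycles whose restriction to every local group `v` lies in `Lv v`. -/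
def selZ (B : Rep k G) (Lv : ∀ v, Submodule k (L.Gv v → L.loc B v)) : Submodule k (G → B) :=
  Z1 𝒩 B ⊓ ⨅ v, (Lv v).comap (res₁ L B v)

lemma mem_selZ {B : Rep k G} {Lv : ∀ v, Submodule k (L.Gv v → L.loc B v)} {x : G → B} :
    x ∈ selZ L B Lv ↔ x ∈ Z1 𝒩 B ∧ ∀ v, res₁ L B v x ∈ Lv v := by
  simp only [selZ, Submodule.mem_inf, Submodule.mem_iInf, Submodule.mem_comap]

variable {A B C : Rep k G} (φ : EqPairing A B C)

/-- The local cup product of 1-cochains at `v`:
`(x ∪ y)(s, t) = φ (x s) (s • y t)`. -/
def locCup (v : ι) (x : L.Gv v → L.loc A v) (y : L.Gv v → L.loc B v) :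
    L.Gv v × L.Gv v → L.loc C v :=
  fun s => φ.φ (x s.1) (B.ρ (L.r v s.1) (y s.2))

@[simp] lemma locCup_apply (v : ι) (x : L.Gv v → L.loc A v) (y : L.Gv v → L.loc B v)
    (s t : L.Gv v) : locCup L φ v x y (s, t) = φ.φ (x s) (B.ρ (L.r v s) (y t)) := rfl

/-- Dual Selmer cocycles: level cocycles `x` of `A` which are orthogonal, for the pairing
`(x, y) ↦ tr (x ∪ (0, y))`, to all families `y` of local cochains of `B` with `y v ∈ Lv v`. -/
def dualSelZ (tr : CcAmb3 L C →ₗ[k] k) (Lv : ∀ v, Submodule k (L.Gv v → L.loc B v)) :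
    Submodule k (G → A) where
  carrier := {x | x ∈ Z1 𝒩 A ∧ ∀ y : ∀ v, L.Gv v → L.loc B v, (∀ v, y v ∈ Lv v) →
    tr (cupc₁₂ L φ x ((0, y) : CcAmb2 L B)) = 0}
  add_mem' := by
    rintro x x' ⟨hx, h⟩ ⟨hx', h'⟩
    refine ⟨(Z1 𝒩 A).add_mem hx hx', fun y hy => ?_⟩
    have e : cupc₁₂ L φ (x + x') ((0, y) : CcAmb2 L B) =
        cupc₁₂ L φ x ((0, y) : CcAmb2 L B) + cupc₁₂ L φ x' ((0, y) : CcAmb2 L B) := by
      rw [← cupL₁₂_apply, ← cupL₁₂_apply, ← cupL₁₂_apply, map_add, LinearMap.add_apply]
    rw [e, map_add, h y hy, h' y hy, add_zero]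
  zero_mem' := by
    refine ⟨(Z1 𝒩 A).zero_mem, fun y _ => ?_⟩
    have e : cupc₁₂ L φ (0 : G → A) ((0, y) : CcAmb2 L B) = 0 := by
      rw [← cupL₁₂_apply, map_zero, LinearMap.zero_apply]
    rw [e, map_zero]
  smul_mem' := by
    rintro c x ⟨hx, h⟩
    refine ⟨(Z1 𝒩 A).smul_mem c hx, fun y hy => ?_⟩
    have e : cupc₁₂ L φ (c • x) ((0, y) : CcAmb2 L B) =
        c • cupc₁₂ L φ x ((0, y) : CcAmb2 L B) := by
      rw [← cupL₁₂_apply, ← cupL₁₂_apply, map_smul, LinearMap.smul_apply]
    rw [e, map_smul, h y hy, smul_zero]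

lemma mem_dualSelZ {tr : CcAmb3 L C →ₗ[k] k} {Lv : ∀ v, Submodule k (L.Gv v → L.loc B v)}
    {x : G → A} :
    x ∈ dualSelZ L φ tr Lv ↔ x ∈ Z1 𝒩 A ∧ ∀ y : ∀ v, L.Gv v → L.loc B v, (∀ v, y v ∈ Lv v) →
      tr (cupc₁₂ L φ x ((0, y) : CcAmb2 L B)) = 0 := Iff.rfl

end Abstract

/-- **[SEL-GW]** The Greenberg–Wiles inequality on the S55 cone, for an arbitrary pairing
`φ : A × B → C`, a trace functional killing cone coboundaries and local conditions
`B¹_v ≤ L_v ≤ Z¹_v`:
`dim Sel_L(B) + h¹(A) ≤ dim Ш¹(B) + ∑_v dim (L_v / B¹_v) + dim Sel_{L^⊥}(A)`. -/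
def GWStatement : Prop :=
  ∀ (k G : Type) [Field k] [Group G] (𝒩 : Levels G) (ι : Type) [Fintype ι]
    (L : LocalData G 𝒩 ι) (A B C : Rep k G) (φ : EqPairing A B C)
    (tr : CcAmb3 L C →ₗ[k] k), (∀ c ∈ Bc3 L C, tr c = 0) →
    IsSmooth 𝒩 A → IsSmooth 𝒩 B →
    ∀ Lv : ∀ v, Submodule k (L.Gv v → L.loc B v),
      (∀ v, B1 (L.loc B v) ≤ Lv v) → (∀ v, Lv v ≤ Z1 (L.lev v) (L.loc B v)) →
      Module.Finite k (H1 𝒩 A) → Module.Finite k (H1 𝒩 B) →
      (∀ v, Module.Finite k ↥(classes (L.lev v) (L.loc B v) (Lv v))) →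
      Module.finrank k ↥(classes 𝒩 B (selZ L B Lv)) + Module.finrank k (H1 𝒩 A) ≤
        Module.finrank k ↥(Sha1 L B) +
          ∑ v, Module.finrank k ↥(classes (L.lev v) (L.loc B v) (Lv v)) +
          Module.finrank k ↥(classes 𝒩 A (dualSelZ L φ tr Lv))

/-! ## Arithmetic part -/

/-- **[SEL-TR]** A trace functional for `(G_ℚ, T', μ_p)` which kills cone coboundaries and
satisfies the S55 `Claim` for all finite smooth modules is NONZERO on the local 2-cocycles at
every `v ∈ T'`. -/
def TRStatement (p : ℕ) [Fact p.Prime] (T' : Finset Nat.Primes) : Prop :=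
  pPrime p ∈ T' →
  ∀ tr : CcAmb3 (galLocal T') (groupCohomology.ofChar (k := ZMod p) (cycloChar p)) →ₗ[ZMod p]
      ZMod p,
    (∀ c ∈ Bc3 (galLocal T') (groupCohomology.ofChar (k := ZMod p) (cycloChar p)), tr c = 0) →
    (∀ N : Rep (ZMod p) GQ, Module.Finite (ZMod p) N → IsSmooth (galLevels T') N →
      Claim (galLocal T') (evPairing N (cycloChar p)) tr) →
    ∀ v : ↥T', ∃ c ∈ Z2 ((galLocal T').lev v)
        ((galLocal T').loc (groupCohomology.ofChar (k := ZMod p) (cycloChar p)) v),
      tr ((0, Pi.single v c) :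
        CcAmb3 (galLocal T') (groupCohomology.ofChar (k := ZMod p) (cycloChar p))) ≠ 0

/-- The local Galois group at `q` acts on `N` through a quotient by a level, of order prime to
`p`. -/
def ActsPrimeToP (p : ℕ) (q : Nat.Primes) (N : Rep (ZMod p) GQ) : Prop :=
  ∃ H ∈ (locLevels q).mem, (∀ s ∈ H, ∀ a : N, N.ρ (primeLocalToGlobal q s) a = a) ∧
    ¬ p ∣ Nat.card (primeLocalGaloisGroup q ⧸ H)

/-- **[SEL-EXT]** At a prime `q ≡ 1 mod p`, for a level `H` of the local Galois group of index
prime to `p`: every level-constant function `y` to `ZMod p` which is additive on `H` is invariant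
under conjugation by the whole local Galois group on `H`. (Every character of order `p` of `G_K`,
`K/ℚ_q` finite Galois of degree prime to `p`, extends to `G_{ℚ_q}`: both groups have exactly `p²`
characters of order dividing `p` by Kummer theory, `ζ_p ∈ ℚ_q`, and restriction is injective.) -/
def ExtStatement (p : ℕ) [Fact p.Prime] : Prop :=
  ∀ (q : Nat.Primes), p ∣ (q : ℕ) - 1 →
  ∀ H ∈ (locLevels q).mem, ¬ p ∣ Nat.card (primeLocalGaloisGroup q ⧸ H) →
  ∀ y : primeLocalGaloisGroup q → ZMod p, IsLev₁ (locLevels q) y →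
    (∀ h ∈ H, ∀ h' ∈ H, y (h * h') = y h + y h') →
    ∀ g : primeLocalGaloisGroup q, ∀ h ∈ H, y (g * h * g⁻¹) = y h

/-- **[SEL-LDLOC]** Local duality at a prime `q ≡ 1 mod p`, for a finite module `N` on which the
local Galois group acts through a quotient of order prime to `p`, and for ANY functional `τ` on
local 2-cochains with values in `μ_p` which kills the level coboundaries and is nonzero on the
level cocycles: a local cocycle `x` of `N^*(1)` with `τ (x ∪ y) = 0` for all local cocycles `y` of
`N` is a coboundary. -/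
def LDLocStatement (p : ℕ) [Fact p.Prime] : Prop :=
  ∀ (q : Nat.Primes), p ∣ (q : ℕ) - 1 →
  ∀ N : Rep (ZMod p) GQ, Module.Finite (ZMod p) N → ActsPrimeToP p q N →
  ∀ τ : (primeLocalGaloisGroup q × primeLocalGaloisGroup q →
      Rep.res (primeLocalToGlobal q) (groupCohomology.ofChar (k := ZMod p) (cycloChar p)))
        →ₗ[ZMod p] ZMod p,
    (∀ c ∈ B2 (locLevels q)
      (Rep.res (primeLocalToGlobal q) (groupCohomology.ofChar (k := ZMod p) (cycloChar p))),
        τ c = 0) →
    (∃ c ∈ Z2 (locLevels q)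
      (Rep.res (primeLocalToGlobal q) (groupCohomology.ofChar (k := ZMod p) (cycloChar p))),
        τ c ≠ 0) →
    ∀ x ∈ Z1 (locLevels q) (Rep.res (primeLocalToGlobal q) (N.dualTwist (cycloChar p))),
      (∀ y ∈ Z1 (locLevels q) (Rep.res (primeLocalToGlobal q) N),
        τ (fun s => (evPairing' N (cycloChar p)).φ (x s.1)
          (N.ρ (primeLocalToGlobal q s.1) (y s.2))) = 0) →
      x ∈ B1 (Rep.res (primeLocalToGlobal q) (N.dualTwist (cycloChar p)))

/-- **[SEL-INFL]** A level-`T'` cocycle of a module `N` of level `S₀ ⊆ T'` whose restrictions to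
the local Galois groups at the primes of `T' \ S₀` are coboundaries has level `S₀`. -/
def InflStatement (p : ℕ) : Prop :=
  ∀ (S₀ T' : Finset Nat.Primes), S₀ ⊆ T' →
  ∀ N : Rep (ZMod p) GQ, IsSmooth (galLevels S₀) N →
  ∀ x ∈ Z1 (galLevels T') N,
    (∀ v : ↥T', (v : Nat.Primes) ∉ S₀ →
      res₁ (galLocal T') N v x ∈ B1 ((galLocal T').loc N v)) →
    x ∈ Z1 (galLevels S₀) N

variable {𝒪 : Type} [CommRing 𝒪] [IsDomain 𝒪] [IsDiscreteValuationRing 𝒪]
  [IsAdicComplete (maximalIdeal 𝒪) 𝒪] [Finite (ResidueField 𝒪)]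
  (p : ℕ) [Fact p.Prime]
  (ρbar : ResidualGaloisRep (ResidueField 𝒪))
  (S Smin : Finset ℕ)
  [Algebra (ZMod p) (ResidueField 𝒪)]

/-- **[SEL-PTP]** At a prime `q ≠ p` where `ρbar` is unramified and the Frobenius elements have
distinct eigenvalues in the residue field, the local Galois group acts on `ad⁰ ρbar` through a
quotient of order prime to `p`. -/
def PrimeToPStatement : Prop :=
  ∀ q : Nat.Primes, (q : ℕ) ≠ p → ρbar.IsUnramifiedAt (q : ℕ) → FrobDistinct ρbar (q : ℕ) →
    ActsPrimeToP p q (ad0Rep ρbar p)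

/-- The smoothness of `ad⁰ ρbar` for the levels of `Smin` (dictionary). -/
def SmoothOut : Prop :=
  IsSmooth (galLevels (primesOf Smin)) (ad0Rep ρbar p)

/-- DELIVERABLE of TR + LDLOC + PTP (consumed by the final count): for every `T ⊇ Smin` there is
a trace functional killing the cone coboundaries such that, at every Taylor–Wiles prime `v` of
`T`, a level cocycle `x` of `M'` which is orthogonal to ALL local cocycles of `M` at `v` is
locally a coboundary at `v`. -/
def LDOut : Prop :=
  ∀ T : Finset ℕ, Smin ⊆ T →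
    ∃ tr : CcAmb3 (galLocal (primesOf T))
        (groupCohomology.ofChar (k := ZMod p) (cycloChar p)) →ₗ[ZMod p] ZMod p,
      (∀ c ∈ Bc3 (galLocal (primesOf T))
        (groupCohomology.ofChar (k := ZMod p) (cycloChar p)), tr c = 0) ∧
      ∀ v : ↥(primesOf T), ((v : Nat.Primes) : ℕ) ∉ Smin → p ∣ ((v : Nat.Primes) : ℕ) - 1 →
        FrobDistinct ρbar ((v : Nat.Primes) : ℕ) →
        ∀ x ∈ Z1 (galLevels (primesOf T)) (ad0Dual p ρbar),
          (∀ y ∈ Z1 ((galLocal (primesOf T)).lev v)
              ((galLocal (primesOf T)).loc (ad0Rep ρbar p) v),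
            tr (cupc₁₂ (galLocal (primesOf T)) (evPairing' (ad0Rep ρbar p) (cycloChar p)) x
              ((0, Pi.single v y) : CcAmb2 (galLocal (primesOf T)) (ad0Rep ρbar p))) = 0) →
          res₁ (galLocal (primesOf T)) (ad0Dual p ρbar) v x ∈
            B1 ((galLocal (primesOf T)).loc (ad0Dual p ρbar) v)

end Fermat.Agent.P1.helper8
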