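import Fermat.Agent.P1.helper63_ECDefs2
import Fermat.Agent.P1.helper8_SelDefs
import Fermat.Agent.S55.TopTr

/-!
# P1 / module EC, package BASE-GE (helper65, task 736)

`baseGeOut`: `0 ≤ tateDefect` for the induced modules `Ind_C^G Y` of `BaseStarOut`; the
statement is verbatim the one of the blueprint `blueprints/P1/helper63_ECInterface.lean`
(branch `origin/helper63`).  It is the sum of the three inequalities
`PTEndLeOut`, `BaseStarOut` and `ArchOut` for `N = Ind_C^G Y`.
-/

set_option autoImplicit false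

open groupCohomology ExtCitation

noncomputable section

namespace Fermat.Agent.P1.helper65

open Fermat.Agent.S55 Fermat.Agent.P1.helper70 Fermat.Agent.P1.helper63

section Arith

variable (p : ℕ) [Fact p.Prime] (T : Finset Nat.Primes)

/-- The induced module `Ind_C^G Y` is finite dimensional, `C` containing a level. -/
lemma ecBaseGe_finite (hpT : pPrime p ∈ T) {N₀ : Subgroup GQ} (hN₀ : N₀ ∈ (galLevels T).mem)
    {C : Subgroup GQ} (hle : N₀ ≤ C) (Y : Rep.{0} (ZMod p) ↥C)
    (hY : Module.Finite (ZMod p) Y) : Module.Finite (ZMod p) (indRep Y) := by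
  obtain ⟨hfin, -⟩ := helper92.levelStatement p T hpT
  have : Finite (GQ ⧸ N₀) := hfin N₀ hN₀
  have hfi : N₀.FiniteIndex := Subgroup.finiteIndex_of_finite_quotient
  have hfiC : C.FiniteIndex := Subgroup.finiteIndex_of_le hle
  have hfinC : Finite (GQ ⧸ C) := inferInstance
  exact (inferInstance : Module.Finite (ZMod p) (GQ ⧸ C → Y))

/-- The induced module `Ind_C^G Y` is smooth, `Y` being trivial on the level `N₀ ≤ C`. -/
lemma ecBaseGe_smooth {N₀ : Subgroup GQ} (hN₀ : N₀ ∈ (galLevels T).mem)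
    {C : Subgroup GQ} (hle : N₀ ≤ C) (Y : Rep.{0} (ZMod p) ↥C)
    (hYt : ∀ u : ↥C, (u : GQ) ∈ N₀ → ∀ y : Y, Y.ρ u y = y) :
    IsSmooth (galLevels T) (indRep Y) := by
  have : N₀.Normal := (galLevels T).normal N₀ hN₀
  exact ⟨N₀, hN₀, fun s hs f => helper57.indRepn_trivial_of_mem hle Y.ρ hYt hs f⟩

/-- **EC-BASE-GE**. -/
theorem baseGeOut (hpT : pPrime p ∈ T) (hF : FinOut p T) (hLe : PTEndLeOut p T)
    (hArch : ArchOut p) (hStar : BaseStarOut p T) : BaseGeOut p T := by
  intro N₀ hN₀ hχ C hle hcyc Y hY hYp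
  have hfin : Module.Finite (ZMod p) (indRep Y) := ecBaseGe_finite p T hpT hN₀ hle Y hY
  have hsm : IsSmooth (galLevels T) (indRep Y) :=
    ecBaseGe_smooth p T hN₀ hle Y (fun u hu y => hYp u ⟨0, by simpa using hu⟩ y)
  have h1 := hLe (indRep Y) hfin hsm
  have h2 := hStar N₀ hN₀ hχ C hle hcyc Y hY hYp
  have h3 := hArch (indRep Y) hfin
  unfold tateDefect
  zify at h1 h2 h3
  linarith

end Arith

end Fermat.Agent.P1.helper65
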