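import Fermat.Agent.P1.helper63_ECTop
import Fermat.Agent.P1.helper24_ECArch
import Fermat.Agent.P1.helper65_ECBaseGe
import Fermat.Agent.P1.helper33_SelTR
import Fermat.Agent.S55.AExport2

/-!
# P1 / module EC (helper63): conditional assembly of `helper70.ECOut`

The statements of the packages of module EC (blueprint
`origin/helper63:blueprints/P1/helper63_ECInterface.lean`) as `Prop`s `Pkg*`, and the assembly

  `ecOut_of_packages : Setting → (∀ T', BaseInputStatement p T') → (∀ T', Pkg* p T') → ECOut`.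

Already plugged in: `helper24.archOut`, `helper65.baseGeOut`, `helper33.trStatement`,
`ecGenOut_of`, `ecOut_of_gen`, `S55.exists_tr_claim_all_of_baseInput`.
A verbatim proof `thm` of a blueprint statement proves the corresponding `Pkg*` by
`fun ... => thm ...`.
-/

set_option autoImplicit false

open IsLocalRing groupCohomology ExtCitation

noncomputable section

namespace Fermat.Agent.P1.helper63

open Fermat.Agent.S55 Fermat.Agent.P1.helper70

section Pkg

variable (p : ℕ) [Fact p.Prime] (T : Finset Nat.Primes)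

/-- finiteness of `H¹` for all finite smooth modules -/
def Fin1Out : Prop :=
  ∀ N : Rep.{0} (ZMod p) GQ, Module.Finite (ZMod p) N → IsSmooth (galLevels T) N →
    Module.Finite (ZMod p) (S55.H1 (galLevels T) N)

/-- `Claim` for all finite smooth modules, for a given trace -/
def ClaimAll (tr : CcAmb3 (galLocal T) (mu p) →ₗ[ZMod p] ZMod p) : Prop :=
  ∀ N : Rep.{0} (ZMod p) GQ, Module.Finite (ZMod p) N → IsSmooth (galLevels T) N →
    Claim (galLocal T) (evPairing N (cycloChar p)) tr

/-- blueprint `fin1Out` -/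
def PkgFin1 : Prop := p ≠ 2 → pPrime p ∈ T → BaseInputStatement p T → Fin1Out p T
/-- blueprint `finOut` -/
def PkgFin : Prop := pPrime p ∈ T → S55Claim p T → Fin1Out p T → FinOut p T
/-- blueprint `ptEndLeOut` -/
def PkgLe : Prop := pPrime p ∈ T → S55Claim p T → FinOut p T → PTEndLeOut p T
/-- blueprint `h3Out` -/
def PkgH3 : Prop := p ≠ 2 → pPrime p ∈ T → BaseInputStatement p T → H3Out p T
/-- blueprint `addOut` -/
def PkgAdd : Prop := p ≠ 2 → pPrime p ∈ T → FinOut p T → H3Out p T → AddOut p T
/-- blueprint `locH3BaseOut` -/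
def PkgLocH3Base : Prop := p ≠ 2 → pPrime p ∈ T → LocH3BaseOut p T
/-- blueprint `locH3Out` -/
def PkgLocH3 : Prop := pPrime p ∈ T → LocH3BaseOut p T → LocH3Out p T
/-- blueprint `loc2Out` -/
def PkgLoc2 : Prop :=
  pPrime p ∈ T → helper8.TRStatement p T → LocH3Out p T →
    ∀ tr : CcAmb3 (galLocal T) (mu p) →ₗ[ZMod p] ZMod p,
      (∀ c ∈ Bc3 (galLocal T) (mu p), tr c = 0) → ClaimAll p T tr → Loc2Out p T tr
/-- blueprint `ptEndGeOut` -/
def PkgGe : Prop :=
  pPrime p ∈ T → FinOut p T →
    ∀ tr : CcAmb3 (galLocal T) (mu p) →ₗ[ZMod p] ZMod p,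
      (∀ c ∈ Bc3 (galLocal T) (mu p), tr c = 0) → ClaimAll p T tr → Loc2Out p T tr →
      PTEndGeOut p T
/-- target of BASE-STAR (helper7) -/
def PkgStar : Prop := p ≠ 2 → pPrime p ∈ T → BaseInputStatement p T → BaseStarOut p T
/-- blueprint `baseNumOut` -/
def PkgNum : Prop := p ≠ 2 → pPrime p ∈ T → BaseInputStatement p T → BaseNumOut p T
/-- blueprint `baseOut` -/
def PkgBaseAsm : Prop :=
  pPrime p ∈ T → AddOut p T → BaseGeOut p T → BaseNumOut p T → BaseOut p T
/-- blueprint `tateOut` -/
def PkgTate : Prop := pPrime p ∈ T → AddOut p T → BaseOut p T → TateOut p T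

/-- All packages of module EC at the set `T`. -/
structure Packages : Prop where
  fin1 : PkgFin1 p T
  fin : PkgFin p T
  le : PkgLe p T
  h3 : PkgH3 p T
  add : PkgAdd p T
  locH3Base : PkgLocH3Base p T
  locH3 : PkgLocH3 p T
  loc2 : PkgLoc2 p T
  ge : PkgGe p T
  star : PkgStar p T
  num : PkgNum p T
  baseAsm : PkgBaseAsm p T
  tate : PkgTate p T

variable {p T}

/-- Tate's global Euler characteristic formula from the packages. -/
theorem tateOut_of_packages (P : Packages p T) (hp2 : p ≠ 2) (hpT : pPrime p ∈ T)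
    (hB : BaseInputStatement p T) : FinOut p T ∧ TateOut p T := by
  obtain ⟨tr, htr, -, hC, -⟩ := exists_tr_claim_all_of_baseInput p T hB hp2 hpT
  have hS : S55Claim p T := ⟨tr, htr, hC⟩
  have hF : FinOut p T := P.fin hpT hS (P.fin1 hp2 hpT hB)
  have hLe : PTEndLeOut p T := P.le hpT hS hF
  have h3 : H3Out p T := P.h3 hp2 hpT hB
  have hA : AddOut p T := P.add hp2 hpT hF h3
  have hArch : ArchOut p := helper24.archOut p hp2
  have hGe : BaseGeOut p T := helper65.baseGeOut p T hpT hF hLe hArch (P.star hp2 hpT hB)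
  have hBase : BaseOut p T := P.baseAsm hpT hA hGe (P.num hp2 hpT hB)
  exact ⟨hF, P.tate hpT hA hBase⟩

/-- The general Euler characteristic inequality from the packages. -/
theorem ecGenOut_of_packages (P : Packages p T) (hp2 : p ≠ 2) (hpT : pPrime p ∈ T)
    (hB : BaseInputStatement p T) : ECGenOut p T := by
  obtain ⟨tr, htr, -, hC, -⟩ := exists_tr_claim_all_of_baseInput p T hB hp2 hpT
  obtain ⟨hF, hTate⟩ := tateOut_of_packages P hp2 hpT hB
  have hL3 : LocH3Out p T := P.locH3 hpT (P.locH3Base hp2 hpT)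
  have hL2 : Loc2Out p T tr := P.loc2 hpT (helper33.trStatement p T) hL3 tr htr hC
  have hGe : PTEndGeOut p T := P.ge hpT hF tr htr hC hL2
  exact ecGenOut_of p T hpT hF (tateGeOut_of_tateOut p T hTate) hGe (helper24.archOut p hp2)

end Pkg

section Top

variable {𝒪 : Type} [CommRing 𝒪] [IsDomain 𝒪] [IsDiscreteValuationRing 𝒪]
  [IsAdicComplete (maximalIdeal 𝒪) 𝒪] [Finite (ResidueField 𝒪)]
  (p : ℕ) [Fact p.Prime]
  (ρbar : ResidualGaloisRep (ResidueField 𝒪))
  (S Smin : Finset ℕ)
  [Algebra (ZMod p) (ResidueField 𝒪)]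

/-- **The output of module EC** from the packages and the base case of S55. -/
theorem ecOut_of_packages (hset : Setting 𝒪 p ρbar S Smin)
    (hB : ∀ T' : Finset Nat.Primes, BaseInputStatement p T')
    (P : ∀ T' : Finset Nat.Primes, Packages p T') : ECOut p ρbar Smin :=
  ecOut_of_gen p ρbar S Smin hset fun T' hpT =>
    ecGenOut_of_packages (P T') hset.hp2 hpT (hB T')

end Top

end Fermat.Agent.P1.helper63
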