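import Fermat.Agent.P1.helper9_ECShapMain

/-!
# P1 / EC-SHAP (helper9, task 726): Shapiro's lemma for level-constant cochains

Deliverables (statements VERBATIM from the blueprint `helper63_ECInterface.lean`):

* `shapiro_ind`  : `Hⁿ(G, Ind_U^G W) ≃ Hⁿ(U, W)` for `n = 0, 1, 2, 3` (level-constant cochains),
  `U` containing a level, `W` smooth;
* `shapiro_perm` : `Hⁿ(G, k[G/U]) ≃ Hⁿ(U, k)` for `n = 1, 2, 3`.

Also `nonempty_H*_equiv_of_equiv` : invariance of the level-constant `Hⁿ` under equivariant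
linear isomorphisms.  The hypothesis `hfin` is not used in `shapiro_ind`.
-/

set_option autoImplicit false
set_option linter.unusedSectionVars false
set_option linter.unusedVariables false

open groupCohomology

noncomputable section

namespace Fermat.Agent.P1.helper9

open Fermat.Agent.S55 Fermat.Agent.P1.helper63

/-! ### Invariance of the level-constant cohomology under isomorphisms -/

section Iso

variable {k G : Type} [Field k] [Group G] (𝒩 : Levels G) {A B : Rep.{0} k G}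
  (f : A →ₗ[k] B) (hf : ∀ g a, f (A.ρ g a) = B.ρ g (f a))

include hf

lemma compLeft_d₀₁ (a : A) :
    f.compLeft G ((d₀₁ A).hom a) = (d₀₁ B).hom (f a) := by
  funext g
  simp only [LinearMap.compLeft_apply, Function.comp_apply, d₀₁_hom_apply, map_sub, hf]

lemma compLeft_d₁₂ (z : G → A) :
    f.compLeft (G × G) ((d₁₂ A).hom z) = (d₁₂ B).hom (f.compLeft G z) := by
  funext g
  simp only [LinearMap.compLeft_apply, Function.comp_apply, d₁₂_hom_apply, map_sub, map_add, hf]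

lemma compLeft_d₂₃ (z : G × G → A) :
    f.compLeft (G × G × G) ((d₂₃ A).hom z) = (d₂₃ B).hom (f.compLeft (G × G) z) := by
  funext g
  simp only [LinearMap.compLeft_apply, Function.comp_apply, d₂₃_hom_apply, map_sub, map_add, hf]

lemma compLeft_d₃₄ (z : G × G × G → A) :
    f.compLeft (G × G × G × G) (d₃₄ A z) = d₃₄ B (f.compLeft (G × G × G) z) := by
  funext ⟨g₁, g₂, g₃, g₄⟩
  simp only [LinearMap.compLeft_apply, Function.comp_apply, d₃₄_apply, map_sub, map_add, hf]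

omit hf in
lemma compLeft_mem_C1 {z : G → A} (hz : z ∈ C1 𝒩 A) : f.compLeft G z ∈ C1 𝒩 B := by
  obtain ⟨N, hN, h⟩ := hz
  exact ⟨N, hN, fun g s hs => by
    simp only [LinearMap.compLeft_apply, Function.comp_apply, h g s hs]⟩

omit hf in
lemma compLeft_mem_C2 {z : G × G → A} (hz : z ∈ C2 𝒩 A) : f.compLeft (G × G) z ∈ C2 𝒩 B := by
  obtain ⟨N, hN, h⟩ := hz
  exact ⟨N, hN, fun g₁ g₂ s₁ hs₁ s₂ hs₂ => by
    simp only [LinearMap.compLeft_apply, Function.comp_apply, h g₁ g₂ s₁ hs₁ s₂ hs₂]⟩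

omit hf in
lemma compLeft_mem_C3 {z : G × G × G → A} (hz : z ∈ C3 𝒩 A) :
    f.compLeft (G × G × G) z ∈ C3 𝒩 B := by
  obtain ⟨N, hN, h⟩ := hz
  exact ⟨N, hN, fun g₁ g₂ g₃ s₁ hs₁ s₂ hs₂ s₃ hs₃ => by
    simp only [LinearMap.compLeft_apply, Function.comp_apply, h g₁ g₂ g₃ s₁ hs₁ s₂ hs₂ s₃ hs₃]⟩

lemma compLeft_mem_Z1 {z : G → A} (hz : z ∈ Z1 𝒩 A) : f.compLeft G z ∈ Z1 𝒩 B := by
  refine ⟨compLeft_mem_C1 𝒩 f hz.1, ?_⟩
  have h : (d₁₂ A).hom z = 0 := hz.2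
  rw [SetLike.mem_coe, LinearMap.mem_ker, ← compLeft_d₁₂ f hf, h, map_zero]

lemma compLeft_mem_Z2 {z : G × G → A} (hz : z ∈ Z2 𝒩 A) : f.compLeft (G × G) z ∈ Z2 𝒩 B := by
  refine ⟨compLeft_mem_C2 𝒩 f hz.1, ?_⟩
  have h : (d₂₃ A).hom z = 0 := hz.2
  rw [SetLike.mem_coe, LinearMap.mem_ker, ← compLeft_d₂₃ f hf, h, map_zero]

lemma compLeft_mem_Z3 {z : G × G × G → A} (hz : z ∈ Z3 𝒩 A) :
    f.compLeft (G × G × G) z ∈ Z3 𝒩 B := by
  refine ⟨compLeft_mem_C3 𝒩 f hz.1, ?_⟩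
  have h : d₃₄ A z = 0 := hz.2
  rw [SetLike.mem_coe, LinearMap.mem_ker, ← compLeft_d₃₄ f hf, h, map_zero]

lemma compLeft_mem_B1 {z : G → A} (hz : z ∈ B1 A) : f.compLeft G z ∈ B1 B := by
  obtain ⟨a, rfl⟩ := hz
  exact ⟨f a, (compLeft_d₀₁ f hf a).symm⟩

lemma compLeft_mem_B2 {z : G × G → A} (hz : z ∈ B2 𝒩 A) : f.compLeft (G × G) z ∈ B2 𝒩 B := by
  obtain ⟨b, hb, rfl⟩ := hz
  exact ⟨f.compLeft G b, compLeft_mem_C1 𝒩 f hb, (compLeft_d₁₂ f hf b).symm⟩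

lemma compLeft_mem_B3 {z : G × G × G → A} (hz : z ∈ B3 𝒩 A) :
    f.compLeft (G × G × G) z ∈ B3 𝒩 B := by
  obtain ⟨b, hb, rfl⟩ := hz
  exact ⟨f.compLeft (G × G) b, compLeft_mem_C2 𝒩 f hb, (compLeft_d₂₃ f hf b).symm⟩

end Iso

section IsoEquiv

variable {k G : Type} [Field k] [Group G] (𝒩 : Levels G) {A B : Rep.{0} k G}
  (e : A ≃ₗ[k] B) (he : ∀ g a, e (A.ρ g a) = B.ρ g (e a))

include he

lemma symm_equivariant (g : G) (b : B) : e.symm (B.ρ g b) = A.ρ g (e.symm b) := by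
  apply e.injective
  rw [he, e.apply_symm_apply, e.apply_symm_apply]

omit he in
lemma compLeft_symm_compLeft {X : Type} (z : X → A) :
    e.symm.toLinearMap.compLeft X (e.toLinearMap.compLeft X z) = z := by
  funext x
  simp

omit he in
lemma compLeft_compLeft_symm {X : Type} (y : X → B) :
    e.toLinearMap.compLeft X (e.symm.toLinearMap.compLeft X y) = y := by
  funext x
  simp

/-- invariance of `H¹` under equivariant isomorphisms -/
theorem nonempty_H1_equiv_of_equiv : Nonempty (H1 𝒩 A ≃ₗ[k] H1 𝒩 B) := by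
  refine nonempty_quotEquiv (Z1 𝒩 A) (B1 A) (Z1 𝒩 B) (B1 B) (e.toLinearMap.compLeft G)
    (fun z hz => compLeft_mem_Z1 𝒩 _ he hz) (fun z _ hz => compLeft_mem_B1 _ he hz) ?_ ?_
  · intro z _ hz
    have := compLeft_mem_B1 e.symm.toLinearMap (symm_equivariant e he) hz
    rwa [compLeft_symm_compLeft] at this
  · intro y hy
    refine ⟨e.symm.toLinearMap.compLeft G y,
      compLeft_mem_Z1 𝒩 _ (symm_equivariant e he) hy, ?_⟩
    rw [compLeft_compLeft_symm, sub_self]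
    exact Submodule.zero_mem _

/-- invariance of `H²` under equivariant isomorphisms -/
theorem nonempty_H2_equiv_of_equiv : Nonempty (H2 𝒩 A ≃ₗ[k] H2 𝒩 B) := by
  refine nonempty_quotEquiv (Z2 𝒩 A) (B2 𝒩 A) (Z2 𝒩 B) (B2 𝒩 B)
    (e.toLinearMap.compLeft (G × G))
    (fun z hz => compLeft_mem_Z2 𝒩 _ he hz) (fun z _ hz => compLeft_mem_B2 𝒩 _ he hz) ?_ ?_
  · intro z _ hz
    have := compLeft_mem_B2 𝒩 e.symm.toLinearMap (symm_equivariant e he) hz
    rwa [compLeft_symm_compLeft] at this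
  · intro y hy
    refine ⟨e.symm.toLinearMap.compLeft (G × G) y,
      compLeft_mem_Z2 𝒩 _ (symm_equivariant e he) hy, ?_⟩
    rw [compLeft_compLeft_symm, sub_self]
    exact Submodule.zero_mem _

/-- invariance of `H³` under equivariant isomorphisms -/
theorem nonempty_H3_equiv_of_equiv : Nonempty (H3 𝒩 A ≃ₗ[k] H3 𝒩 B) := by
  refine nonempty_quotEquiv (Z3 𝒩 A) (B3 𝒩 A) (Z3 𝒩 B) (B3 𝒩 B)
    (e.toLinearMap.compLeft (G × G × G))
    (fun z hz => compLeft_mem_Z3 𝒩 _ he hz) (fun z _ hz => compLeft_mem_B3 𝒩 _ he hz) ?_ ?_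
  · intro z _ hz
    have := compLeft_mem_B3 𝒩 e.symm.toLinearMap (symm_equivariant e he) hz
    rwa [compLeft_symm_compLeft] at this
  · intro y hy
    refine ⟨e.symm.toLinearMap.compLeft (G × G × G) y,
      compLeft_mem_Z3 𝒩 _ (symm_equivariant e he) hy, ?_⟩
    rw [compLeft_compLeft_symm, sub_self]
    exact Submodule.zero_mem _

end IsoEquiv

/-! ### The deliverables -/

variable {G : Type} [Group G] (𝒩 : Levels G)

variable {k : Type} [Field k]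

/-- `Hⁿ(G, Ind W) ≃ Hⁿ(U, W)` for `n = 1, 2, 3`, without the finiteness hypothesis -/
theorem shapiro_ind_aux (U : Subgroup G) (hU : ∃ N ∈ 𝒩.mem, N ≤ U) (W : Rep.{0} k ↥U)
    (hW : IsSmooth (helper35.restrictLevels 𝒩 U hU) W) :
    Nonempty (↥(S55.H0 (indRep W)) ≃ₗ[k] ↥(S55.H0 W)) ∧
    Nonempty (S55.H1 𝒩 (indRep W) ≃ₗ[k] S55.H1 (helper35.restrictLevels 𝒩 U hU) W) ∧
    Nonempty (S55.H2 𝒩 (indRep W) ≃ₗ[k] S55.H2 (helper35.restrictLevels 𝒩 U hU) W) ∧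
    Nonempty (S55.H3 𝒩 (indRep W) ≃ₗ[k] S55.H3 (helper35.restrictLevels 𝒩 U hU) W) := by
  refine ⟨nonempty_H0_equiv W, ?_, ?_, ?_⟩
  · refine nonempty_quotEquiv _ _ _ _ (shRes1 W) (fun z hz => shRes1_mem_Z1 hU hz)
      (fun z _ hz => shRes1_mem_B1 hz) (fun z hz h => mem_B1_of_shRes1 hz h) ?_
    intro y hy
    obtain ⟨z, hz, h⟩ := exists_shRes1_eq hU hW hy
    exact ⟨z, hz, by rw [h, sub_self]; exact Submodule.zero_mem _⟩
  · refine nonempty_quotEquiv _ _ _ _ (shRes2 W) (fun z hz => shRes2_mem_Z2 hU hz)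
      (fun z _ hz => shRes2_mem_B2 hU hz) (fun z hz h => mem_B2_of_shRes2 hU hW hz h) ?_
    intro y hy
    obtain ⟨z, hz, h⟩ := exists_shRes2_eq hU hW hy
    exact ⟨z, hz, by rw [h, sub_self]; exact Submodule.zero_mem _⟩
  · refine nonempty_quotEquiv _ _ _ _ (shRes3 W) (fun z hz => shRes3_mem_Z3 hU hz)
      (fun z _ hz => shRes3_mem_B3 hU hz) (fun z hz h => mem_B3_of_shRes3 hU hW hz h) ?_
    intro y hy
    obtain ⟨z, hz, h⟩ := exists_shRes3_eq hU hW hy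
    exact ⟨z, hz, by rw [h, sub_self]; exact Submodule.zero_mem _⟩

/-- **EC-SHAP** (Shapiro's lemma for level-constant cochains, degrees `0..3`). -/
theorem shapiro_ind (hfin : ∀ N ∈ 𝒩.mem, Finite (G ⧸ N)) (U : Subgroup G)
    (hU : ∃ N ∈ 𝒩.mem, N ≤ U) (W : Rep.{0} k ↥U)
    (hW : IsSmooth (helper35.restrictLevels 𝒩 U hU) W) :
    Nonempty (↥(S55.H0 (indRep W)) ≃ₗ[k] ↥(S55.H0 W)) ∧
    Nonempty (S55.H1 𝒩 (indRep W) ≃ₗ[k] S55.H1 (helper35.restrictLevels 𝒩 U hU) W) ∧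
    Nonempty (S55.H2 𝒩 (indRep W) ≃ₗ[k] S55.H2 (helper35.restrictLevels 𝒩 U hU) W) ∧
    Nonempty (S55.H3 𝒩 (indRep W) ≃ₗ[k] S55.H3 (helper35.restrictLevels 𝒩 U hU) W) :=
  shapiro_ind_aux 𝒩 U hU W hW

/-! ### The permutation module -/

/-- the permutation module `k[G/U]` is the module induced from the trivial module -/
theorem exists_permRep_equiv (U : Subgroup G) [Finite (G ⧸ U)] :
    ∃ e : (permRep k U) ≃ₗ[k] (indRep (helper35.trivRep k ↥U)),
      ∀ g a, e ((permRep k U).ρ g a) = (indRep (helper35.trivRep k ↥U)).ρ g (e a) := by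
  have hbij : Function.Bijective (helper57.permToInd (k := k) (U := U) (1 : k)) := by
    refine ⟨helper57.permToInd_injective one_ne_zero, fun f => ?_⟩
    have h := (helper57.mem_range_permToInd (k := k) (U := U) (1 : k) f).2 (fun x => by
      rw [Submodule.mem_span_singleton]
      exact ⟨f x, by simp⟩)
    exact h
  refine ⟨LinearEquiv.ofBijective (helper57.permToInd (k := k) (U := U) (1 : k)) hbij, ?_⟩
  intro g a
  exact helper57.permToInd_equivariant (helper35.trivRep k ↥U).ρ (w := (1 : k))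
    (fun u => rfl) g a

theorem isSmooth_trivRep (U : Subgroup G) (hU : ∃ N ∈ 𝒩.mem, N ≤ U) :
    IsSmooth (helper35.restrictLevels 𝒩 U hU) (helper35.trivRep k ↥U) := by
  obtain ⟨N', hN'⟩ := (helper35.restrictLevels 𝒩 U hU).nonempty
  exact ⟨N', hN', fun _ _ _ => rfl⟩

/-- **EC-SHAP** (second statement): the same for the permutation module `k[G/U]`. -/
theorem shapiro_perm (hfin : ∀ N ∈ 𝒩.mem, Finite (G ⧸ N)) (U : Subgroup G)
    (hU : ∃ N ∈ 𝒩.mem, N ≤ U) :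
    Nonempty (S55.H1 𝒩 (permRep k U) ≃ₗ[k]
      S55.H1 (helper35.restrictLevels 𝒩 U hU) (helper35.trivRep k ↥U)) ∧
    Nonempty (S55.H2 𝒩 (permRep k U) ≃ₗ[k]
      S55.H2 (helper35.restrictLevels 𝒩 U hU) (helper35.trivRep k ↥U)) ∧
    Nonempty (S55.H3 𝒩 (permRep k U) ≃ₗ[k]
      S55.H3 (helper35.restrictLevels 𝒩 U hU) (helper35.trivRep k ↥U)) := by
  have hfinU : Finite (G ⧸ U) := by
    obtain ⟨N, hN, hNU⟩ := hU
    have h1 := hfin N hN
    have h2 : N.FiniteIndex := Subgroup.finiteIndex_of_finite_quotient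
    have h3 : U.FiniteIndex := Subgroup.finiteIndex_of_le hNU
    exact Subgroup.finite_quotient_of_finiteIndex
  obtain ⟨e, he⟩ := exists_permRep_equiv (k := k) U
  obtain ⟨-, ⟨e₁⟩, ⟨e₂⟩, ⟨e₃⟩⟩ :=
    shapiro_ind_aux 𝒩 U hU (helper35.trivRep k ↥U) (isSmooth_trivRep 𝒩 U hU)
  obtain ⟨f₁⟩ := nonempty_H1_equiv_of_equiv 𝒩 e he
  obtain ⟨f₂⟩ := nonempty_H2_equiv_of_equiv 𝒩 e he
  obtain ⟨f₃⟩ := nonempty_H3_equiv_of_equiv 𝒩 e he
  exact ⟨⟨f₁.trans e₁⟩, ⟨f₂.trans e₂⟩, ⟨f₃.trans e₃⟩⟩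

end Fermat.Agent.P1.helper9
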