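import Fermat.Agent.P1.helper10_ECH3
import Fermat.Agent.P1.helper5_ECLesB
import Fermat.Agent.P1.helper9_ECShap
import Fermat.Agent.P1.helper63_ECAsm

/-!
# P1 / module EC, package EC-H3 (helper10): the unconditional statement

`h3Out` : blueprint statement `h3Out` (`H³(G_T, N) = 0` for all finite smooth `N`), obtained
from `h3Out_of` (helper10_ECH3) with the two inputs now on main:
`helper5.h3_ext` (EC-LES-3) and `helper9.shapiro_perm` (EC-SHAP, degree 3).

`pkgH3 : helper63.PkgH3 p T` : the field `h3` of `helper63.Packages`.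
-/

set_option autoImplicit false

open groupCohomology ExtCitation

noncomputable section

namespace Fermat.Agent.P1.helper10

open Fermat.Agent.S55 Fermat.Agent.P1.helper63 Fermat.Agent.P1.helper70

/-- **EC-H3** (blueprint `h3Out`), unconditional. -/
theorem h3Out (p : ℕ) [Fact p.Prime] (T : Finset Nat.Primes) (hp2 : p ≠ 2)
    (hpT : pPrime p ∈ T) (hB : BaseInputStatement p T) : H3Out p T :=
  h3Out_of p T hp2 hpT hB
    (fun A₁ A A₂ i q hi hq hinj hsurj hex hsm h1 h2 =>
      Fermat.Agent.P1.helper5.h3_ext (galLevels T) A₁ A A₂ i q hi hq hinj hsurj hex hsm h1 h2)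
    (fun U hU =>
      (Fermat.Agent.P1.helper9.shapiro_perm (galLevels T)
        (helper92.levelStatement p T hpT).1 U hU).2.2)

/-- The field `h3` of `helper63.Packages`. -/
theorem pkgH3 (p : ℕ) [Fact p.Prime] (T : Finset Nat.Primes) : PkgH3 p T :=
  fun hp2 hpT hB => h3Out p T hp2 hpT hB

end Fermat.Agent.P1.helper10
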