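import Mathlib
import Fermat.Agent.S55.helper7_LocUnram

/-!
# P1 / FLAT-KR+KUM (helper14): definitions and interface

Module FLAT-KR+KUM of BLUEPRINT P1: converse Krasner inequality `(F3)` and Kummer levels `(F4)`,
giving the boundedness statement `(BD)`.

Vocabulary = S55 LOC (`helper8_LocDefs`): a `p`-adic field is a field `L` with
`[Algebra ℚ_[p] L] [FiniteDimensional ℚ_[p] L]`; `ordT p L : L → WithTop ℤ` is the normalised
valuation, `Oq p L` the ring of integers (`helper7_LocVal`).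

This file contains DEFINITIONS and the package statements as `Prop`s only.
-/

set_option autoImplicit false

namespace Fermat.Agent.P1.helper14

open Fermat.Agent.S55.helper8 Fermat.Agent.S55.helper7 Fermat.Agent.S55.helper33

variable (p : ℕ) [Fact p.Prime]

section defs

variable (L : Type) [Field L] [Algebra ℚ_[p] L] [FiniteDimensional ℚ_[p] L]

/-- The ideal `{x ∈ 𝒪_L | N ≤ ord x}` of the ring of integers. -/
def ballIdeal (N : ℕ) : Ideal (Oq p L) where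
  carrier := {x | ((N : ℤ) : WithTop ℤ) ≤ ordT p L (x : L)}
  add_mem' := by
    intro a b ha hb
    exact le_trans (le_min ha hb) (Fermat.Agent.S55.helper7.ordT_add_ge p L a b)
  zero_mem' := by
    show ((N : ℤ) : WithTop ℤ) ≤ ordT p L ((0 : Oq p L) : L)
    rw [ZeroMemClass.coe_zero, Fermat.Agent.S55.helper7.ordT_zero]
    exact le_top
  smul_mem' := by
    intro c x hx
    show ((N : ℤ) : WithTop ℤ) ≤ ordT p L ((c : L) * (x : L))
    rw [Fermat.Agent.S55.helper7.ordT_mul]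
    exact le_trans hx (le_add_of_nonneg_left c.2)

lemma mem_ballIdeal {N : ℕ} {x : Oq p L} :
    x ∈ ballIdeal p L N ↔ ((N : ℤ) : WithTop ℤ) ≤ ordT p L (x : L) := Iff.rfl

/-- **Fontaine's embedding property** of the `p`-adic field `L` (output of module HOPF, for
`L = ℚ_p(points of the reduced Hopf order)`): a ring homomorphism
`𝒪_L → 𝒪_E / {ord ≥ N}` with `N / e_E > p / (p - 1)` forces an embedding `L → E`. -/
def EmbProperty : Prop :=
  ∀ (E : Type) [Field E] [Algebra ℚ_[p] E] [FiniteDimensional ℚ_[p] E] (N : ℕ),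
    edeg p E * p < N * (p - 1) →
    Nonempty (Oq p L →+* (Oq p E ⧸ ballIdeal p E N)) →
    Nonempty (L →ₐ[ℚ_[p]] E)

/-- Galois invariance of the valuation. -/
lemma ordT_algEquiv (s : L ≃ₐ[ℚ_[p]] L) (x : L) : ordT p L (s x) = ordT p L x := by
  by_cases hx : x = 0
  · subst hx; simp
  · have hsx : s x ≠ 0 := by simpa using hx
    rw [Fermat.Agent.S55.helper7.ordT_of_ne_zero p L hx, Fermat.Agent.S55.helper7.ordT_of_ne_zero p L hsx]
    have := ord_algEquiv p ℚ_[p] L s (Units.mk0 x hx)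
    have h2 : Units.map (s : L →* L) (Units.mk0 x hx) = Units.mk0 (s x) hsx := by
      ext; rfl
    rw [h2] at this
    rw [this]

/-- The inertia subgroup of `Gal(L/ℚ_p)`: the automorphisms acting trivially on the residue
field. -/
def inertia : Subgroup (L ≃ₐ[ℚ_[p]] L) where
  carrier := {s | ∀ x : L, 0 ≤ ordT p L x → 0 < ordT p L (s x - x)}
  one_mem' := by
    intro x _
    simp [Fermat.Agent.S55.helper7.ordT_zero]
  mul_mem' := by
    intro s t hs ht x hx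
    have h1 : (s * t) x - x = s (t x - x) + (s x - x) := by
      simp [AlgEquiv.mul_apply]
    rw [h1]
    refine Fermat.Agent.S55.helper7.ordT_add_pos p L ?_ (hs x hx)
    rw [ordT_algEquiv]
    exact ht x hx
  inv_mem' := by
    intro s hs x hx
    have h1 : s⁻¹ x - x = - (s⁻¹ (s x - x)) := by
      have : s⁻¹ (s x) = x := by
        change s.symm (s x) = x
        simp
      rw [map_sub, this]
      ring
    rw [h1, Fermat.Agent.S55.helper7.ordT_neg, ordT_algEquiv]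
    exact hs x hx

lemma mem_inertia {s : L ≃ₐ[ℚ_[p]] L} :
    s ∈ inertia p L ↔ ∀ x : L, 0 ≤ ordT p L x → 0 < ordT p L (s x - x) := Iff.rfl

/-- `i(s) = ord (s ϖ - ϖ)` as a natural number (junk value `0` if `s ϖ = ϖ`). -/
noncomputable def iNat (ϖ : L) (s : L ≃ₐ[ℚ_[p]] L) : ℕ :=
  ((ordT p L (s ϖ - ϖ)).untopD 0).toNat

end defs

/-! ## Outputs of the module -/

/-- **(F3) Converse Krasner inequality**: `x_max + D ≤ e p/(p-1) + 1`, where
`D = ∑_{s ∈ I, s ≠ 1} i(s)` and `x_max = max i(s)`. -/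
def ConverseKrasner : Prop :=
  ∀ (L : Type) [Field L] [Algebra ℚ_[p] L] [FiniteDimensional ℚ_[p] L] [IsGalois ℚ_[p] L],
    EmbProperty p L → ∀ ϖ : L, ordT p L ϖ = 1 →
    ∀ s₀ ∈ inertia p L, s₀ ≠ 1 →
      (p - 1) * (iNat p L ϖ s₀ + ∑ᶠ s ∈ {s | s ∈ inertia p L ∧ s ≠ 1}, iNat p L ϖ s) ≤
        edeg p L * p + (p - 1)

/-- **(BD) Kummer classes are bounded**: if `T ⊆ L` is tamely ramified over `ℚ_p`, contains
`ζ_p`, and `L/T` is a `p`-extension, then every `a ∈ T` with a `p`-th root in `L` lies in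
`(1 + p 𝒪_T) (Tˣ)^p`. -/
def KummerBounded : Prop :=
  ∀ (L : Type) [Field L] [Algebra ℚ_[p] L] [FiniteDimensional ℚ_[p] L] [IsGalois ℚ_[p] L],
    EmbProperty p L →
    ∀ (T : Type) [Field T] [Algebra ℚ_[p] T] [FiniteDimensional ℚ_[p] T] [Algebra T L]
      [IsScalarTower ℚ_[p] T L],
      ¬ p ∣ edeg p T → (∃ ζ : T, IsPrimitiveRoot ζ p) → IsPGroup p (L ≃ₐ[T] L) →
      ∀ (a : T) (α : L), a ≠ 0 → α ^ p = algebraMap T L a →
        ∃ b u : T, a = u * b ^ p ∧ ((edeg p T : ℤ) : WithTop ℤ) ≤ ordT p T (u - 1)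

/-! ## Package statements (KR) -/

/-- **KR-CORE** (pure valuation combinatorics, no local fields). -/
def KRCoreStatement : Prop :=
  ∀ (E : Type) [Field E] (v : E → WithTop ℤ),
    (∀ x, v x = ⊤ ↔ x = 0) → (∀ x y, min (v x) (v y) ≤ v (x + y)) → (∀ x, v (-x) = v x) →
    ∀ (ι : Type) [Fintype ι] [DecidableEq ι] [Nonempty ι] (c : ι → E) (xmax D : ℤ),
      (∀ s t, s ≠ t → v (c s - c t) ≤ ((xmax : ℤ) : WithTop ℤ)) →
      (∀ s, ∃ t, t ≠ s ∧ v (c s - c t) = ((xmax : ℤ) : WithTop ℤ)) →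
      (∀ s, ∑ t ∈ Finset.univ.filter (· ≠ s), v (c s - c t) = ((D : ℤ) : WithTop ℤ)) →
      ∀ y : E, ∑ s, v (y - c s) ≠ (((xmax + D - 1 : ℤ)) : WithTop ℤ)

/-- **KR-EIS**: an Eisenstein polynomial over a `p`-adic field has a root in a totally ramified
extension, where the root is a uniformiser. -/
def KREisStatement : Prop :=
  ∀ (K0 : Type) [Field K0] [Algebra ℚ_[p] K0] [FiniteDimensional ℚ_[p] K0]
    (F : Polynomial K0),
    F.Monic → 0 < F.natDegree → (∀ i, i < F.natDegree → 0 < ordT p K0 (F.coeff i)) →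
    ordT p K0 (F.coeff 0) = 1 →
    ∃ (E : Type) (_ : Field E) (_ : Algebra ℚ_[p] E) (_ : FiniteDimensional ℚ_[p] E)
      (_ : Algebra K0 E) (_ : IsScalarTower ℚ_[p] K0 E) (ϖ : E),
      Polynomial.aeval ϖ F = 0 ∧ ordT p E ϖ = 1 ∧
      edeg p E = F.natDegree * edeg p K0 ∧ fdeg p E = fdeg p K0

/-- **KR-TOT**: in a totally ramified extension `L/K0` with uniformiser `ϖ`, the minimal
polynomial of `ϖ` is Eisenstein of degree `[L : K0]` and `𝒪_L = 𝒪_K0[ϖ]`. -/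
def KRTotStatement : Prop :=
  ∀ (K0 L : Type) [Field K0] [Algebra ℚ_[p] K0] [FiniteDimensional ℚ_[p] K0]
    [Field L] [Algebra ℚ_[p] L] [FiniteDimensional ℚ_[p] L] [Algebra K0 L]
    [IsScalarTower ℚ_[p] K0 L],
    fdeg p L = fdeg p K0 → ∀ ϖ : L, ordT p L ϖ = 1 →
      ((minpoly K0 ϖ).natDegree = Module.finrank K0 L ∧
        (∀ i, i < (minpoly K0 ϖ).natDegree → 0 < ordT p K0 ((minpoly K0 ϖ).coeff i)) ∧
        ordT p K0 ((minpoly K0 ϖ).coeff 0) = 1) ∧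
      ∀ x : L, 0 ≤ ordT p L x →
        ∃ g : Polynomial K0, (∀ i, 0 ≤ ordT p K0 (g.coeff i)) ∧ Polynomial.aeval ϖ g = x

/-- **KR-ETA**: an approximate root of the minimal polynomial of `ϖ` gives a ring homomorphism
`𝒪_L → 𝒪_E / {ord ≥ N}`. -/
def KREtaStatement : Prop :=
  ∀ (K0 L E : Type) [Field K0] [Algebra ℚ_[p] K0] [FiniteDimensional ℚ_[p] K0]
    [Field L] [Algebra ℚ_[p] L] [FiniteDimensional ℚ_[p] L] [Algebra K0 L]
    [IsScalarTower ℚ_[p] K0 L]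
    [Field E] [Algebra ℚ_[p] E] [FiniteDimensional ℚ_[p] E] [Algebra K0 E]
    [IsScalarTower ℚ_[p] K0 E],
    fdeg p L = fdeg p K0 → ∀ ϖ : L, ordT p L ϖ = 1 →
    ∀ (y : E) (N : ℕ), 0 ≤ ordT p E y →
      ((N : ℤ) : WithTop ℤ) ≤ ordT p E (Polynomial.aeval y (minpoly K0 ϖ)) →
      Nonempty (Oq p L →+* (Oq p E ⧸ ballIdeal p E N))

/-- **KR-INERT**: the inertia field. -/
def KRInertStatement : Prop :=
  ∀ (L : Type) [Field L] [Algebra ℚ_[p] L] [FiniteDimensional ℚ_[p] L] [IsGalois ℚ_[p] L],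
    ∃ K0 : IntermediateField ℚ_[p] L,
      edeg p K0 = 1 ∧ fdeg p L = fdeg p K0 ∧ IsGalois ℚ_[p] K0 ∧
      ∀ s : L ≃ₐ[ℚ_[p]] L, s ∈ inertia p L ↔ ∀ x ∈ K0, s x = x

/-! ## Package statements (KUM) -/

/-- **KUM-COSET** (pure combinatorics on a finite group with a depth function). -/
def KumCosetStatement : Prop :=
  ∀ (P : Type) [Group P] [Fintype P] [DecidableEq P] (i : P → ℕ),
    (∀ s, i s⁻¹ = i s) →
    (∀ s t, s ≠ 1 → t ≠ 1 → s * t ≠ 1 → min (i s) (i t) ≤ i (s * t)) →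
    ∀ (H : Subgroup P) [DecidablePred (· ∈ H)] (σ : P), σ ∉ H →
    ∀ xmax : ℕ, (∀ s, s ≠ 1 → i s ≤ xmax) →
      ∑ s ∈ Finset.univ.filter (fun s => σ⁻¹ * s ∈ H), i s ≤
        xmax + ∑ h ∈ Finset.univ.filter (fun h => h ∈ H ∧ h ≠ 1), i h

/-- **KUM-SERRE** (the easy inequality of Serre, Local Fields IV Prop. 3). -/
def KumSerreStatement : Prop :=
  ∀ (T1 M L : Type) [Field T1] [Algebra ℚ_[p] T1] [FiniteDimensional ℚ_[p] T1]
    [Field M] [Algebra ℚ_[p] M] [FiniteDimensional ℚ_[p] M]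
    [Field L] [Algebra ℚ_[p] L] [FiniteDimensional ℚ_[p] L]
    [Algebra T1 M] [Algebra M L] [Algebra T1 L] [IsScalarTower T1 M L]
    [IsScalarTower ℚ_[p] T1 M] [IsScalarTower ℚ_[p] M L] [IsScalarTower ℚ_[p] T1 L]
    [IsGalois M L],
    fdeg p L = fdeg p T1 →
    ∀ (ϖL : L) (ϖM : M), ordT p L ϖL = 1 → ordT p M ϖM = 1 →
    ∀ σ : L ≃ₐ[T1] L,
      ordT p L (σ (algebraMap M L ϖM) - algebraMap M L ϖM) ≤
        ∑ᶠ h : L ≃ₐ[M] L, ordT p L (σ (h ϖL) - ϖL)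

/-- **KUM-WILD**: the wild inertia group is a normal `p`-subgroup, and `i(s) = 1` outside. -/
def KumWildStatement : Prop :=
  ∀ (L : Type) [Field L] [Algebra ℚ_[p] L] [FiniteDimensional ℚ_[p] L] [IsGalois ℚ_[p] L]
    (ϖ : L), ordT p L ϖ = 1 →
    ∃ G1 : Subgroup (L ≃ₐ[ℚ_[p]] L), G1 ≤ inertia p L ∧ G1.Normal ∧ IsPGroup p G1 ∧
      ∀ s ∈ inertia p L, s ∉ G1 → ordT p L (s ϖ - ϖ) = 1

/-- **KUM-NF**: normal form of an element of `Tˣ` modulo `p`-th powers, up to level `e_T`. -/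
def KumNFStatement : Prop :=
  ∀ (T : Type) [Field T] [Algebra ℚ_[p] T] [FiniteDimensional ℚ_[p] T] (a : T), a ≠ 0 →
    ∃ b u : T, b ≠ 0 ∧ a = u * b ^ p ∧
      ((((edeg p T : ℤ) : WithTop ℤ) ≤ ordT p T (u - 1)) ∨
        (∃ k : ℤ, ordT p T u = ((k : ℤ) : WithTop ℤ) ∧ ¬ (p : ℤ) ∣ k) ∨
        (∃ i : ℕ, ordT p T (u - 1) = (((i : ℤ)) : WithTop ℤ) ∧ ¬ p ∣ i ∧ 0 < i ∧ i < edeg p T))

/-- **KUM-BRK**: lower bound for the ramification break of `T1(u^(1/p))/T1` when `u` is in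
normal form of level `< e`. -/
def KumBrkStatement : Prop :=
  ∀ (T1 M : Type) [Field T1] [Algebra ℚ_[p] T1] [FiniteDimensional ℚ_[p] T1]
    [Field M] [Algebra ℚ_[p] M] [FiniteDimensional ℚ_[p] M] [Algebra T1 M]
    [IsScalarTower ℚ_[p] T1 M],
    Module.finrank T1 M ≤ p → (∃ ζ : T1, IsPrimitiveRoot ζ p) →
    ∀ (u : T1) (α : M), α ^ p = algebraMap T1 M u →
      ((∃ k : ℤ, ordT p T1 u = ((k : ℤ) : WithTop ℤ) ∧ ¬ (p : ℤ) ∣ k) ∨
        (∃ i : ℕ, ordT p T1 (u - 1) = (((i : ℤ)) : WithTop ℤ) ∧ ¬ p ∣ i ∧ 0 < i ∧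
          i < edeg p T1)) →
      Module.finrank T1 M = p ∧ fdeg p M = fdeg p T1 ∧
      ∃ ϖM : M, ordT p M ϖM = 1 ∧ ∀ σ : M ≃ₐ[T1] M, σ ≠ 1 →
        ((edeg p T1 : ℤ) : WithTop ℤ) + ((p - 1 : ℕ) : ℤ) <
          (((p - 1 : ℕ) : ℤ) : WithTop ℤ) * ordT p M (σ ϖM - ϖM)

end Fermat.Agent.P1.helper14
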