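import Mathlib
import Fermat.Agent.P1.helper14_KRDefs

/-!
# P1 / FLAT-KR (helper14): tools for the assembly of the converse Krasner inequality

* `ordT_equiv` : the normalised valuation is invariant under `ℚ_p`-algebra isomorphisms;
* `ordT_finset_prod` : valuation of a finite product;
* `aeval_minpoly_eq_prod` : for `L/F` finite Galois, `K0` an intermediate field and `x : L` whose
  minimal polynomial over `K0` has degree `[L : K0]`, `(minpoly K0 x)(z) = ∏_{s ∈ Gal(L/K0)} (z - s x)`.
-/

set_option autoImplicit false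

namespace Fermat.Agent.P1.helper14

open Fermat.Agent.S55.helper8 Fermat.Agent.S55.helper7 Fermat.Agent.S55.helper33
open Polynomial

section iso

variable (p : ℕ) [Fact p.Prime]
variable {L E : Type} [Field L] [Algebra ℚ_[p] L] [Field E] [Algebra ℚ_[p] E]

lemma normVal_equiv (Ψ : L ≃ₐ[ℚ_[p]] E) (a : Lˣ) :
    normVal p E (Units.map (Ψ : L →* E) a) = normVal p L a := by
  change Multiplicative.ofAdd (Padic.valuation (Algebra.norm ℚ_[p] (Ψ (a : L)))) =
    Multiplicative.ofAdd (Padic.valuation (Algebra.norm ℚ_[p] (a : L)))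
  rw [Algebra.norm_eq_of_algEquiv]

lemma fdeg_equiv (Ψ : L ≃ₐ[ℚ_[p]] E) : fdeg p E = fdeg p L := by
  unfold fdeg
  congr 1
  ext n
  constructor
  · rintro ⟨hn, a, ha⟩
    refine ⟨hn, Units.map (Ψ.symm : E →* L) a, ?_⟩
    rw [normVal_equiv p Ψ.symm a]
    exact ha
  · rintro ⟨hn, a, ha⟩
    refine ⟨hn, Units.map (Ψ : L →* E) a, ?_⟩
    rw [normVal_equiv p Ψ a]
    exact ha

lemma ord_equiv (Ψ : L ≃ₐ[ℚ_[p]] E) (a : Lˣ) :
    ord p E (Units.map (Ψ : L →* E) a) = ord p L a := by
  unfold ord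
  rw [normVal_equiv p Ψ a, fdeg_equiv p Ψ]

lemma ordT_equiv (Ψ : L ≃ₐ[ℚ_[p]] E) (x : L) : ordT p E (Ψ x) = ordT p L x := by
  by_cases hx : x = 0
  · subst hx
    simp [ordT]
  · have hΨ : Ψ x ≠ 0 := by simpa using hx
    unfold ordT
    rw [dif_neg hx, dif_neg hΨ]
    have h := ord_equiv p Ψ (Units.mk0 x hx)
    have h2 : Units.map (Ψ : L →* E) (Units.mk0 x hx) = Units.mk0 (Ψ x) hΨ := by
      ext; rfl
    rw [h2] at h
    rw [h]

lemma edeg_equiv (Ψ : L ≃ₐ[ℚ_[p]] E) : edeg p E = edeg p L := by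
  unfold edeg
  rw [← ord_equiv p Ψ]
  congr 2
  ext
  simp

end iso

section prod

variable (p : ℕ) [Fact p.Prime]
variable (L : Type) [Field L] [Algebra ℚ_[p] L] [FiniteDimensional ℚ_[p] L]

lemma ordT_finset_prod {ι : Type*} (S : Finset ι) (f : ι → L) :
    ordT p L (∏ s ∈ S, f s) = ∑ s ∈ S, ordT p L (f s) := by
  classical
  induction S using Finset.induction_on with
  | empty => simp [Fermat.Agent.S55.helper7.ordT_one]
  | insert a S ha ih =>
    rw [Finset.prod_insert ha, Finset.sum_insert ha, Fermat.Agent.S55.helper7.ordT_mul, ih]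

end prod

section galois

variable {F L : Type} [Field F] [Field L] [Algebra F L] [FiniteDimensional F L] [IsGalois F L]

/-- The minimal polynomial over an intermediate field `K0` of a generator `x` of `L/K0` is the
product of the `X - s x` over the fixing subgroup of `K0`. -/
lemma map_minpoly_eq_prod (K0 : IntermediateField F L) (I : Subgroup (L ≃ₐ[F] L))
    (hI : ∀ s : L ≃ₐ[F] L, s ∈ I ↔ ∀ x ∈ K0, s x = x) [Fintype I] (x : L)
    (hdeg : (minpoly K0 x).natDegree = Module.finrank K0 L) :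
    (minpoly K0 x).map (algebraMap K0 L) = ∏ s : I, (X - C ((s : L ≃ₐ[F] L) x)) := by
  classical
  obtain rfl : I = K0.fixingSubgroup := by
    ext s
    rw [hI, IntermediateField.mem_fixingSubgroup_iff]
  set G : L[X] := ∏ s : K0.fixingSubgroup, (X - C ((s : L ≃ₐ[F] L) x)) with hG
  have hGmonic : G.Monic := monic_prod_of_monic _ _ (fun s _ => monic_X_sub_C _)
  have hGdeg : G.natDegree = Nat.card K0.fixingSubgroup := by
    rw [hG, natDegree_prod_of_monic _ _ (fun s _ => monic_X_sub_C _)]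
    simp [Nat.card_eq_fintype_card]
  -- invariance
  have hinv : ∀ t : K0.fixingSubgroup, G.map ((t : L ≃ₐ[F] L) : L →+* L) = G := by
    intro t
    rw [hG, Polynomial.map_prod]
    have : ∀ s : K0.fixingSubgroup,
        (X - C ((s : L ≃ₐ[F] L) x)).map ((t : L ≃ₐ[F] L) : L →+* L) =
          X - C (((t * s : K0.fixingSubgroup) : L ≃ₐ[F] L) x) := by
      intro s
      simp [AlgEquiv.mul_apply]
    simp_rw [this]
    exact Fintype.prod_equiv (Equiv.mulLeft t) _ _ (fun s => rfl)
  have hcoeff : ∀ n, G.coeff n ∈ Set.range (algebraMap K0 L) := by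
    intro n
    have hfix : G.coeff n ∈ IntermediateField.fixedField K0.fixingSubgroup := by
      rw [IntermediateField.mem_fixedField_iff]
      intro t ht
      have := congrArg (fun P => P.coeff n) (hinv ⟨t, ht⟩)
      simpa [Polynomial.coeff_map] using this
    rw [IsGalois.fixedField_fixingSubgroup] at hfix
    exact ⟨⟨G.coeff n, hfix⟩, rfl⟩
  have hlift : G ∈ Polynomial.lifts (algebraMap K0 L) :=
    (Polynomial.lifts_iff_coeff_lifts G).mpr hcoeff
  obtain ⟨G0, hG0map, hG0deg, hG0monic⟩ :=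
    Polynomial.lifts_and_natDegree_eq_and_monic hlift hGmonic
  have hroot : aeval x G0 = 0 := by
    rw [Polynomial.aeval_def, ← Polynomial.eval_map, hG0map, hG, Polynomial.eval_prod]
    apply Finset.prod_eq_zero (Finset.mem_univ (1 : K0.fixingSubgroup))
    simp
  have hdvd : minpoly K0 x ∣ G0 := minpoly.dvd K0 x hroot
  have hint : IsIntegral K0 x := IsIntegral.of_finite K0 x
  have heq : G0 = minpoly K0 x := by
    refine Polynomial.eq_of_monic_of_dvd_of_natDegree_le (minpoly.monic hint) hG0monic hdvd ?_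
    rw [hG0deg, hGdeg, hdeg, IsGalois.card_fixingSubgroup_eq_finrank]
  rw [← heq, hG0map]

lemma aeval_minpoly_eq_prod (K0 : IntermediateField F L) (I : Subgroup (L ≃ₐ[F] L))
    (hI : ∀ s : L ≃ₐ[F] L, s ∈ I ↔ ∀ x ∈ K0, s x = x) [Fintype I] (x : L)
    (hdeg : (minpoly K0 x).natDegree = Module.finrank K0 L) (z : L) :
    aeval z (minpoly K0 x) = ∏ s : I, (z - (s : L ≃ₐ[F] L) x) := by
  rw [Polynomial.aeval_def, ← Polynomial.eval_map, map_minpoly_eq_prod K0 I hI x hdeg,
    Polynomial.eval_prod]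
  simp

/-- `s ↦ s x` is injective on the fixing subgroup of `K0` when `x` generates `L/K0`. -/
lemma apply_injective_of_natDegree (K0 : IntermediateField F L) (I : Subgroup (L ≃ₐ[F] L))
    (hI : ∀ s : L ≃ₐ[F] L, s ∈ I ↔ ∀ x ∈ K0, s x = x) (x : L)
    (hdeg : (minpoly K0 x).natDegree = Module.finrank K0 L) :
    Function.Injective (fun s : I => (s : L ≃ₐ[F] L) x) := by
  classical
  haveI : Fintype I := Fintype.ofFinite _
  have hsep : (minpoly K0 x).Separable := Algebra.IsSeparable.isSeparable K0 x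
  have h2 : ((minpoly K0 x).map (algebraMap K0 L)).Separable := hsep.map
  rw [map_minpoly_eq_prod K0 I hI x hdeg] at h2
  exact Polynomial.separable_prod_X_sub_C_iff.mp h2

end galois

end Fermat.Agent.P1.helper14
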