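import Mathlib
import Fermat.Agent.P1.helper14_KRDefs

/-!
# P1 / FLAT-CNT / KUMEQ (helper14): interface, part 1 (pure algebra + Kummer homomorphisms)

Sub-module KUMEQ of BLUEPRINT P1-FLAT-CNT v1: equivariant Kummer theory of a tame `p`-adic field
`T ⊆ Ω = PadicAlgCl p`, on the FUNCTION side: a homomorphism `f : G_T → ZMod p`
(`G_T = T.fixingSubgroup ≤ G_p = Gal(Ω/ℚ_p)`) is a *Kummer homomorphism of `a ∈ T`* if
`g α = ζ ^ f(g) α` for a `p`-th root `α` of `a`; it has *level `≥ m`* if `a` can be chosen with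
`ord_T (a - 1) ≥ m`, and it is *bounded* if it has level `≥ e_T`.

DEFINITIONS and package statements (`Prop`s) only.
-/

set_option autoImplicit false

namespace Fermat.Agent.P1.helper14

open Fermat.Agent.S55.helper8 Fermat.Agent.S55.helper7

/-! ## Pure arithmetic and linear algebra -/

/-- **FC-ARITH**: the congruences `m ≡ e' ± β mod e`, `e ≤ m < e + e'`, have at most one
solution `(m, ±)` in total (`e = (p-1) e'`, `e' ∣ p + 1`, `(p+1) α ≡ e'`, `β = (1-p) α`). -/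
def FCArithStatement : Prop :=
  ∀ (p e' : ℕ) (α : ℤ), p.Prime → 2 < p → e' ∣ p + 1 →
    (((p : ℤ) + 1) * α ≡ (e' : ℤ) [ZMOD (((p - 1) * e' : ℕ) : ℤ)]) →
    ∀ (m₁ m₂ : ℕ) (s₁ s₂ : ℤ), (s₁ = 1 ∨ s₁ = -1) → (s₂ = 1 ∨ s₂ = -1) →
      (p - 1) * e' ≤ m₁ → m₁ < (p - 1) * e' + e' →
      (p - 1) * e' ≤ m₂ → m₂ < (p - 1) * e' + e' →
      ((m₁ : ℤ) ≡ (e' : ℤ) + s₁ * ((1 - (p : ℤ)) * α) [ZMOD (((p - 1) * e' : ℕ) : ℤ)]) →
      ((m₂ : ℤ) ≡ (e' : ℤ) + s₂ * ((1 - (p : ℤ)) * α) [ZMOD (((p - 1) * e' : ℕ) : ℤ)]) →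
      m₁ = m₂ ∧ s₁ = s₂

/-- The fixed field of `Frob ^ a` in a field of characteristic `p`. -/
def frobFixed (p : ℕ) [Fact p.Prime] (κ : Type) [Field κ] [CharP κ p] (a : ℕ) : Subfield κ where
  carrier := {x | x ^ (p ^ a) = x}
  mul_mem' := by
    intro x y hx hy
    show (x * y) ^ (p ^ a) = x * y
    rw [mul_pow, hx, hy]
  one_mem' := one_pow _
  add_mem' := by
    intro x y hx hy
    show (x + y) ^ (p ^ a) = x + y
    rw [add_pow_char_pow, hx, hy]
  zero_mem' := by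
    show (0 : κ) ^ (p ^ a) = 0
    exact zero_pow (pow_ne_zero _ (Fact.out : p.Prime).ne_zero)
  neg_mem' := by
    intro x hx
    have h1 : (-1 : κ) ^ (p ^ a) = -1 := by
      rcases (Fact.out : p.Prime).eq_two_or_odd' with h2 | hodd
      · have h := CharP.cast_eq_zero κ p
        rw [h2] at h
        have h3 : (-1 : κ) = 1 := by
          have h4 : (1 : κ) + 1 = 0 := by
            have : ((2 : ℕ) : κ) = 1 + 1 := by norm_num
            rw [← this]; exact h
          exact neg_eq_of_add_eq_zero_left h4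
        rw [h3, one_pow]
      · exact (hodd.pow).neg_one_pow
    show (-x) ^ (p ^ a) = -x
    rw [neg_pow, hx, h1, neg_one_mul]
  inv_mem' := by
    intro x hx
    show (x⁻¹) ^ (p ^ a) = x⁻¹
    rw [inv_pow, hx]

lemma mem_frobFixed {p : ℕ} [Fact p.Prime] {κ : Type} [Field κ] [CharP κ p] {a : ℕ} {x : κ} :
    x ∈ frobFixed p κ a ↔ x ^ (p ^ a) = x := Iff.rfl

/-- **FC-CYC**: the `k₀`-linear operator `x ↦ c x^(p^a)` on a finite field `κ` is cyclic
(`k₀` = fixed field of `Frob^a`): some `x₀` generates `κ` over `k₀` under its iterates. -/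
def FCCycStatement : Prop :=
  ∀ (p : ℕ) [Fact p.Prime] (κ : Type) [Field κ] [Fintype κ] [CharP κ p] (a : ℕ) (c : κ),
    c ≠ 0 →
    ∃ x₀ : κ, ∀ x : κ, ∃ (n : ℕ) (y : Fin n → frobFixed p κ a),
      x = ∑ j : Fin n, (y j : κ) * ((fun z : κ => c * z ^ (p ^ a))^[(j : ℕ)] x₀)

/-- **FC-EIG-LIN**: eigenspaces in a quotient of `κ ⊗ k`.  `W` is a `k`-vector space spanned
by the image of an additive map `q : κ → W`, with operators `ρ s` (`s ∈ S`) and `ρφ` lifting
the multiplications by `θ s ∈ k₀` and the semilinear map `x ↦ c x^(p^a)`.  Every subspace of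
joint eigenvectors (`ρ s w = lam s • w`, `ρφ w = μ • w`) has dimension at most the number of
embeddings `σ : k₀ → k` with `σ (θ s) = lam s` for all `s`. -/
def FCEigLinStatement : Prop :=
  ∀ (p : ℕ) [Fact p.Prime] (κ k : Type) [Field κ] [Fintype κ] [CharP κ p]
    [Field k] [Fintype k] [CharP k p]
    (W : Type) [AddCommGroup W] [Module k W] [Module.Finite k W]
    (q : κ →+ W), Submodule.span k (Set.range q) = ⊤ →
    ∀ (S : Type) (θ : S → κ) (ρ : S → (W →ₗ[k] W)) (lam : S → k),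
      (∀ s x, ρ s (q x) = q (θ s * x)) →
    ∀ (a : ℕ) (c : κ) (ρφ : W →ₗ[k] W) (μ : k), c ≠ 0 →
      (∀ x, ρφ (q x) = q (c * x ^ (p ^ a))) →
      (∀ s, θ s ^ (p ^ a) = θ s) →
      Nonempty (frobFixed p κ a →+* k) →
      ∀ E : Submodule k W, (∀ w ∈ E, (∀ s, ρ s w = lam s • w) ∧ ρφ w = μ • w) →
        Module.finrank k E ≤
          Nat.card {σ : frobFixed p κ a →+* k // ∀ s (h : θ s ∈ frobFixed p κ a), σ ⟨θ s, h⟩ = lam s}

end Fermat.Agent.P1.helper14
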