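import Mathlib
import Fermat.Agent.P1.helper14_KRDefs
import Fermat.Agent.P1.helper14_KumEqDefs

/-!
# P1 / FLAT-CNT / KUMEQ (helper14): interface, part 2 (field side)

Equivariant Kummer theory of a tame Galois `p`-adic field `T ⊆ Ω = PadicAlgCl p`, on the FUNCTION
side.  `G_p = Gal(Ω/ℚ_p)` (`GalP p`), `G_T = T.fixingSubgroup`.

* `IsKumHom p T ζ a f` : the restriction of `f : G_p → ZMod p` to `G_T` is the Kummer homomorphism
  of `a` (`g α = ζ ^ f(g) α`, `α ^ p = a`);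
* `HasLevel p T ζ m f` : `f` is the Kummer homomorphism of some `a ∈ T` with `ord_T (a - 1) ≥ m`;
* `HasLevelK p T ζ k m f` : the same for `k`-valued `f` (all `ℓ ∘ f`, `ℓ : k → 𝔽_p` linear);
  `f` is BOUNDED if it has level `≥ e_T = edeg p T`;
* `inertiaOf p T` : the preimage in `G_p` of the inertia subgroup of `Gal(T/ℚ_p)`;
* `IsCycl p ζ ω` : `ω` is the mod `p` cyclotomic character (`g ζ = ζ ^ ω(g)`).

CONSUMER-FACING OUTPUTS (for CASE I / CASE II of BLUEPRINT P1-FLAT-CNT):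
`KumEqIStatement`, `KumEqInvStatement`, `KumEqIIStatement`.

PACKAGES: `FCG1Statement`, `FCTopAStatement`, `FCFrobStatement`, `FCThetaStatement`,
`FCGrStatement`, `FCKumStatement`, `FCBdStatement`, `FCEigLinQStatement`, `FCInStatement`,
`FCTopBStatement`, `FCStepStatement`.

DEFINITIONS and package statements (`Prop`s) only.
-/

set_option autoImplicit false

namespace Fermat.Agent.P1.helper14

open Fermat.Agent.S55.helper8 Fermat.Agent.S55.helper7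

variable (p : ℕ) [Fact p.Prime]

/-- The local Galois group `G_p = Gal(Ω/ℚ_p)`, `Ω = PadicAlgCl p`
(defeq to the Prelude's `primeLocalGaloisGroup`). -/
abbrev GalP : Type := PadicAlgCl p ≃ₐ[ℚ_[p]] PadicAlgCl p

/-! ## Vocabulary: residues in a `p`-adic field (type level) -/

section residue

variable (T : Type) [Field T] [Algebra ℚ_[p] T] [FiniteDimensional ℚ_[p] T]

open Classical in
/-- The residue class of `x ∈ T` in `k_T = kq p T` (junk value `0` if `x` is not integral). -/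
noncomputable def resT (x : T) : kq p T :=
  if h : 0 ≤ ordT p T x then res p T ⟨x, h⟩ else 0

/-- The leading coefficient of `a ∈ U^(m)` with respect to the uniformiser `ϖ`:
the residue class of `(a - 1) / ϖ ^ m`. -/
noncomputable def lcoef (ϖ : T) (m : ℕ) (a : T) : kq p T :=
  resT p T ((a - 1) / ϖ ^ m)

/-- `θ_ϖ(s) = res (s ϖ / ϖ)`: the fundamental character (on inertia), in general the
multiplier of the action of `s` on the graded pieces. -/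
noncomputable def thetaRes (ϖ : T) (s : T ≃ₐ[ℚ_[p]] T) : kq p T :=
  resT p T (s ϖ / ϖ)

end residue

/-! ## Vocabulary: Kummer homomorphisms on `G_T ≤ G_p` -/

section kummer

variable (T : IntermediateField ℚ_[p] (PadicAlgCl p))

/-- The restriction of `f` to `G_T` is the Kummer homomorphism of `a` with respect to `ζ`. -/
def IsKumHom (ζ a : PadicAlgCl p) (f : GalP p → ZMod p) : Prop :=
  ∃ α : PadicAlgCl p, α ^ p = a ∧ ∀ g ∈ T.fixingSubgroup, g α = ζ ^ (f g).val * α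

/-- `f` is the Kummer homomorphism of some `a ∈ Tˣ` with `ord_T (a - 1) ≥ m`. -/
def HasLevel [FiniteDimensional ℚ_[p] T] (ζ : PadicAlgCl p) (m : ℕ)
    (f : GalP p → ZMod p) : Prop :=
  ∃ a : T, a ≠ 0 ∧ ((m : ℤ) : WithTop ℤ) ≤ ordT p T (a - 1) ∧
    IsKumHom p T ζ (a : PadicAlgCl p) f

/-- `k`-valued version: every `𝔽_p`-linear functional of `f` has level `≥ m`. -/
def HasLevelK [FiniteDimensional ℚ_[p] T] (ζ : PadicAlgCl p) (k : Type) [Field k]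
    [Algebra (ZMod p) k] (m : ℕ) (f : GalP p → k) : Prop :=
  ∀ ℓ : k →ₗ[ZMod p] ZMod p, HasLevel p T ζ m (fun g => ℓ (f g))

/-- The preimage in `G_p` of the inertia subgroup of `Gal(T/ℚ_p)`. -/
noncomputable def inertiaOf [FiniteDimensional ℚ_[p] T] [Normal ℚ_[p] T] : Subgroup (GalP p) :=
  (inertia p T).comap (AlgEquiv.restrictNormalHom T)

/-- `ω` is the mod `p` cyclotomic character with respect to `ζ`. -/
def IsCycl (ζ : PadicAlgCl p) (ω : GalP p → ZMod p) : Prop :=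
  ∀ g : GalP p, g ζ = ζ ^ (ω g).val

/-- `f` has level `≥ m` and is semi-invariant under `Γ` with multiplier `lam`:
`f (γ g γ⁻¹) = lam γ * f g` for `γ ∈ Γ`, `g ∈ G_T`. -/
def IsEqv [FiniteDimensional ℚ_[p] T] (ζ : PadicAlgCl p) (k : Type) [Field k]
    [Algebra (ZMod p) k] (Γ : Subgroup (GalP p)) (lam : GalP p → k) (m : ℕ)
    (f : GalP p → k) : Prop :=
  HasLevelK p T ζ k m f ∧
    ∀ γ ∈ Γ, ∀ g ∈ T.fixingSubgroup, f (γ * g * γ⁻¹) = lam γ * f g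

end kummer

/-! ## CONSUMER-FACING OUTPUTS -/

/-- **KUMEQ-I** (CASE I, components `f_±`).  `T/ℚ_p` tame Galois with `ζ_p`, `Γ ⊇ I G_T` with
`Γ / G_T` abelian and `g² ∈ Γ` for all `g`; `ψ` a character of inertia with `ψ^(p+1) = ω` and
`ψ^p ≠ ψ`; `lam` a character of `Γ / G_T` with `lam = ψ^(1-p)` on inertia.  Then any two bounded
`lam`-semi-invariant homomorphisms `G_T → k` are linearly dependent. -/
def KumEqIStatement : Prop :=
  ∀ (T : IntermediateField ℚ_[p] (PadicAlgCl p)) [FiniteDimensional ℚ_[p] T] [Normal ℚ_[p] T]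
    (ζ : PadicAlgCl p) (ω : GalP p → ZMod p)
    (k : Type) [Field k] [Finite k] [Algebra (ZMod p) k]
    (Γ : Subgroup (GalP p)) (ψ lam : GalP p → k),
    p ≠ 2 → ¬ p ∣ edeg p T → IsPrimitiveRoot ζ p → ζ ∈ T → IsCycl p ζ ω →
    T.fixingSubgroup ≤ Γ → inertiaOf p T ≤ Γ → (∀ g : GalP p, g * g ∈ Γ) →
    (∀ γ ∈ Γ, ∀ γ' ∈ Γ, γ * γ' * γ⁻¹ * γ'⁻¹ ∈ T.fixingSubgroup) →
    (∀ γ ∈ Γ, ∀ γ' ∈ Γ, lam (γ * γ') = lam γ * lam γ') →
    (∀ g ∈ T.fixingSubgroup, lam g = 1) →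
    (∀ s ∈ inertiaOf p T, ∀ s' ∈ inertiaOf p T, ψ (s * s') = ψ s * ψ s') →
    (∀ g ∈ T.fixingSubgroup, ψ g = 1) →
    (∀ s ∈ inertiaOf p T, ψ s ^ (p + 1) = algebraMap (ZMod p) k (ω s)) →
    (∀ s ∈ inertiaOf p T, lam s * ψ s ^ p = ψ s) →
    (∃ s ∈ inertiaOf p T, ψ s ^ p ≠ ψ s) →
    ∀ f f' : GalP p → k,
      IsEqv p T ζ k Γ lam (edeg p T) f → IsEqv p T ζ k Γ lam (edeg p T) f' →
      ∃ c c' : k, (c ≠ 0 ∨ c' ≠ 0) ∧ ∀ g ∈ T.fixingSubgroup, c * f g + c' * f' g = 0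

/-- **KUMEQ-INV** (CASE I, component `f_0`).  A bounded homomorphism `G_T → k` which is invariant
under conjugation by inertia is invariant under conjugation by all of `G_p`. -/
def KumEqInvStatement : Prop :=
  ∀ (T : IntermediateField ℚ_[p] (PadicAlgCl p)) [FiniteDimensional ℚ_[p] T] [Normal ℚ_[p] T]
    (ζ : PadicAlgCl p) (k : Type) [Field k] [Finite k] [Algebra (ZMod p) k],
    p ≠ 2 → ¬ p ∣ edeg p T → IsPrimitiveRoot ζ p → ζ ∈ T →
    ∀ f : GalP p → k, HasLevelK p T ζ k (edeg p T) f →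
      (∀ s ∈ inertiaOf p T, ∀ g ∈ T.fixingSubgroup, f (s * g * s⁻¹) = f g) →
      ∀ γ : GalP p, ∀ g ∈ T.fixingSubgroup, f (γ * g * γ⁻¹) = f g

/-- **KUMEQ-II** (CASE II).  `T/ℚ_p` tame ABELIAN with `ζ_p`, `lam : G_p → kˣ` a character trivial
on `G_T` with `lam = ω` on inertia.  Then any two bounded `lam`-semi-invariant homomorphisms
`G_T → k` are linearly dependent. -/
def KumEqIIStatement : Prop :=
  ∀ (T : IntermediateField ℚ_[p] (PadicAlgCl p)) [FiniteDimensional ℚ_[p] T] [Normal ℚ_[p] T]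
    (ζ : PadicAlgCl p) (ω : GalP p → ZMod p)
    (k : Type) [Field k] [Finite k] [Algebra (ZMod p) k] (lam : GalP p → k),
    p ≠ 2 → ¬ p ∣ edeg p T → IsPrimitiveRoot ζ p → ζ ∈ T → IsCycl p ζ ω →
    (∀ γ γ' : GalP p, γ * γ' * γ⁻¹ * γ'⁻¹ ∈ T.fixingSubgroup) →
    (∀ γ γ' : GalP p, lam (γ * γ') = lam γ * lam γ') →
    (∀ g ∈ T.fixingSubgroup, lam g = 1) →
    (∀ s ∈ inertiaOf p T, lam s = algebraMap (ZMod p) k (ω s)) →
    ∀ f f' : GalP p → k,
      IsEqv p T ζ k ⊤ lam (edeg p T) f → IsEqv p T ζ k ⊤ lam (edeg p T) f' →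
      ∃ c c' : k, (c ≠ 0 ∨ c' ≠ 0) ∧ ∀ g ∈ T.fixingSubgroup, c * f g + c' * f' g = 0

/-! ## LEAF PACKAGES: local fields (type level, S55 LOC vocabulary) -/

/-- **FC-G1** (sharp): `U^(m) ⊆ (Tˣ)^p` for `m > p e / (p - 1)`, when `ζ_p ∈ T`. -/
def FCG1Statement : Prop :=
  ∀ (T : Type) [Field T] [Algebra ℚ_[p] T] [FiniteDimensional ℚ_[p] T] (ζ : T),
    IsPrimitiveRoot ζ p →
    ∀ (a : T) (m : ℕ), p * edeg p T < (p - 1) * m →
      ((m : ℤ) : WithTop ℤ) ≤ ordT p T (a - 1) → ∃ b : T, b ^ p = a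

/-- **FC-TOP-A**: `ord (ζ - 1) = e / (p - 1)`, and `1 + (ζ - 1)^p c` is a `p`-th power as soon
as `c ≡ d^p - d` modulo the maximal ideal. -/
def FCTopAStatement : Prop :=
  ∀ (T : Type) [Field T] [Algebra ℚ_[p] T] [FiniteDimensional ℚ_[p] T] (ζ : T),
    IsPrimitiveRoot ζ p →
    (((p - 1 : ℕ) : ℤ) : WithTop ℤ) * ordT p T (ζ - 1) = ((edeg p T : ℤ) : WithTop ℤ) ∧
    ∀ c d : T, 0 ≤ ordT p T c → 0 ≤ ordT p T d → 0 < ordT p T (c - (d ^ p - d)) →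
      ∃ b : T, b ^ p = 1 + (ζ - 1) ^ p * c

/-- **FC-FROB**: a Frobenius element exists in `Gal(T/ℚ_p)`, and every element of `Gal(T/ℚ_p)`
acts on the residue field as a power of the Frobenius. -/
def FCFrobStatement : Prop :=
  ∀ (T : Type) [Field T] [Algebra ℚ_[p] T] [FiniteDimensional ℚ_[p] T] [IsGalois ℚ_[p] T],
    (∃ φ : T ≃ₐ[ℚ_[p]] T, ∀ x : T, 0 ≤ ordT p T x → 0 < ordT p T (φ x - x ^ p)) ∧
    (∀ δ : T ≃ₐ[ℚ_[p]] T, ∃ j : ℕ, ∀ x : T, 0 ≤ ordT p T x → 0 < ordT p T (δ x - x ^ (p ^ j)))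

/-- **FC-THETA**: the fundamental character `θ_ϖ : I → k_Tˣ`: multiplicative, injective for tame
`T`, `#I = e`, and `θ^(e/(p-1)) = ω` on inertia. -/
def FCThetaStatement : Prop :=
  ∀ (T : Type) [Field T] [Algebra ℚ_[p] T] [FiniteDimensional ℚ_[p] T] [IsGalois ℚ_[p] T]
    (ϖ : T), ordT p T ϖ = 1 →
    (∀ s ∈ inertia p T, ∀ s' ∈ inertia p T,
      thetaRes p T ϖ (s * s') = thetaRes p T ϖ s * thetaRes p T ϖ s') ∧
    (∀ s ∈ inertia p T, thetaRes p T ϖ s ≠ 0) ∧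
    (¬ p ∣ edeg p T → ∀ s ∈ inertia p T, thetaRes p T ϖ s = 1 → s = 1) ∧
    Nat.card (inertia p T) = edeg p T ∧
    (∀ (ζ : T) (n : ℕ), IsPrimitiveRoot ζ p → ∀ s ∈ inertia p T, s ζ = ζ ^ n →
      thetaRes p T ϖ s ^ (edeg p T / (p - 1)) = (n : kq p T))

/-- **FC-GR**: the leading coefficient `U^(m) → k_T` is a surjective homomorphism with kernel
`U^(m+1)`, and `δ ∈ Gal(T/ℚ_p)` acts on it by `x ↦ θ_ϖ(δ)^m x^(p^j)` when `δ` acts on the
residue field as `Frob^j`. -/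
def FCGrStatement : Prop :=
  ∀ (T : Type) [Field T] [Algebra ℚ_[p] T] [FiniteDimensional ℚ_[p] T]
    (ϖ : T) (m : ℕ), ordT p T ϖ = 1 → 1 ≤ m →
    (∀ a b : T, ((m : ℤ) : WithTop ℤ) ≤ ordT p T (a - 1) →
      ((m : ℤ) : WithTop ℤ) ≤ ordT p T (b - 1) →
      lcoef p T ϖ m (a * b) = lcoef p T ϖ m a + lcoef p T ϖ m b) ∧
    (∀ a : T, ((m : ℤ) : WithTop ℤ) ≤ ordT p T (a - 1) →
      (lcoef p T ϖ m a = 0 ↔ (((m + 1 : ℕ) : ℤ) : WithTop ℤ) ≤ ordT p T (a - 1))) ∧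
    (∀ x : kq p T, ∃ a : T, ((m : ℤ) : WithTop ℤ) ≤ ordT p T (a - 1) ∧ lcoef p T ϖ m a = x) ∧
    (∀ (δ : T ≃ₐ[ℚ_[p]] T) (j : ℕ),
      (∀ x : T, 0 ≤ ordT p T x → 0 < ordT p T (δ x - x ^ (p ^ j))) →
      ∀ a : T, ((m : ℤ) : WithTop ℤ) ≤ ordT p T (a - 1) →
        lcoef p T ϖ m (δ a) = thetaRes p T ϖ δ ^ m * lcoef p T ϖ m a ^ (p ^ j))

/-! ## LEAF PACKAGES: Kummer homomorphisms -/

/-- **FC-KUM**: basic properties of Kummer homomorphisms on `G_T ≤ G_p`. -/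
def FCKumStatement : Prop :=
  ∀ (T : IntermediateField ℚ_[p] (PadicAlgCl p)) [FiniteDimensional ℚ_[p] T]
    (ζ : PadicAlgCl p), IsPrimitiveRoot ζ p → ζ ∈ T →
    -- existence
    (∀ a : PadicAlgCl p, a ∈ T → a ≠ 0 → ∃ f : GalP p → ZMod p, IsKumHom p T ζ a f) ∧
    -- additivity on `G_T`
    (∀ (a : PadicAlgCl p) (f : GalP p → ZMod p), a ∈ T → a ≠ 0 → IsKumHom p T ζ a f →
      ∀ g ∈ T.fixingSubgroup, ∀ h ∈ T.fixingSubgroup, f (g * h) = f g + f h) ∧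
    -- products and powers
    (∀ (a b : PadicAlgCl p) (f f' : GalP p → ZMod p), IsKumHom p T ζ a f → IsKumHom p T ζ b f' →
      IsKumHom p T ζ (a * b) (fun g => f g + f' g)) ∧
    (∀ (a : PadicAlgCl p) (f : GalP p → ZMod p) (c : ZMod p), IsKumHom p T ζ a f →
      IsKumHom p T ζ (a ^ c.val) (fun g => c * f g)) ∧
    -- `p`-th powers
    (∀ b : PadicAlgCl p, b ∈ T → IsKumHom p T ζ (b ^ p) (fun _ => 0)) ∧
    -- uniqueness
    (∀ (a : PadicAlgCl p) (f f' : GalP p → ZMod p), a ≠ 0 → IsKumHom p T ζ a f →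
      IsKumHom p T ζ a f' → ∀ g ∈ T.fixingSubgroup, f g = f' g) ∧
    (∀ (a a' : PadicAlgCl p) (f f' : GalP p → ZMod p), a ∈ T → a' ∈ T → a ≠ 0 → a' ≠ 0 →
      IsKumHom p T ζ a f → IsKumHom p T ζ a' f' → (∀ g ∈ T.fixingSubgroup, f g = f' g) →
      ∃ b : PadicAlgCl p, b ∈ T ∧ a' = a * b ^ p) ∧
    -- equivariance
    (∀ (ω : GalP p → ZMod p), IsCycl p ζ ω → Normal ℚ_[p] T →
      ∀ (a : PadicAlgCl p) (f : GalP p → ZMod p) (γ : GalP p), IsKumHom p T ζ a f →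
        IsKumHom p T ζ (γ a) (fun g => ω γ * f (γ⁻¹ * g * γ)))

/-- **FC-BD** (`(BD')` of the blueprint, from `KummerBounded`): `T ≤ L`, `L/ℚ_p` Galois with the
embedding property, `T` tame with `ζ_p`, `Gal(L/T)` a `p`-group.  Then every homomorphism
`G_T → 𝔽_p` which is trivial on `G_L` is bounded. -/
def FCBdStatement : Prop :=
  ∀ (L T : IntermediateField ℚ_[p] (PadicAlgCl p)) [FiniteDimensional ℚ_[p] L]
    [FiniteDimensional ℚ_[p] T] [Normal ℚ_[p] L] (ζ : PadicAlgCl p),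
    T ≤ L → EmbProperty p L → ¬ p ∣ edeg p T → IsPrimitiveRoot ζ p → ζ ∈ T →
    (∀ g ∈ T.fixingSubgroup, ∃ n : ℕ, g ^ (p ^ n) ∈ L.fixingSubgroup) →
    ∀ f : GalP p → ZMod p,
      (∀ g ∈ T.fixingSubgroup, ∀ h ∈ T.fixingSubgroup, f (g * h) = f g + f h) →
      (∀ g ∈ L.fixingSubgroup, f g = 0) →
      HasLevel p T ζ (edeg p T) f

/-- **FC-IN**: the absolute inertia group of `G_p` (defined by the norm of `Ω`, as in
`helper92.LocNormStatement`) maps ONTO the inertia subgroup of `Gal(T/ℚ_p)`. -/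
def FCInStatement : Prop :=
  ∀ (T : IntermediateField ℚ_[p] (PadicAlgCl p)) [FiniteDimensional ℚ_[p] T] [Normal ℚ_[p] T],
    (∀ i : GalP p, (∀ x : PadicAlgCl p, ‖x‖ ≤ 1 → ‖i x - x‖ < 1) → i ∈ inertiaOf p T) ∧
    (∀ s ∈ inertiaOf p T, ∃ i : GalP p, (∀ x : PadicAlgCl p, ‖x‖ ≤ 1 → ‖i x - x‖ < 1) ∧
      i⁻¹ * s ∈ T.fixingSubgroup)

/-! ## LEAF PACKAGE: linear algebra (quotient form of FC-EIG-LIN) -/

/-- **FC-EIG-LIN-Q**: `W` a finite-dimensional `k`-space spanned by the image of an additive map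
`q : κ → W` (`κ`, `k` finite fields of characteristic `p`), with operators `ρu`, `ρφ` lifting the
multiplication by `u` and the semilinear map `x ↦ c x^(p^t)`, where `u` is fixed by `Frob^t`.
(1) If the fixed field `κ₀` of `Frob^t` embeds in `k`, every subspace of joint eigenvectors
(`ρu w = a w`, `ρφ w = ℓ w`) has dimension at most `#{σ : κ₀ → k | σ u = a}`.
(2) An eigenvector of `ρu` with eigenvalue `n` in the prime field is zero unless `u = n`. -/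
def FCEigLinQStatement : Prop :=
  ∀ (p : ℕ) [Fact p.Prime] (κ k : Type) [Field κ] [Finite κ] [CharP κ p]
    [Field k] [Finite k] [Algebra (ZMod p) k]
    (W : Type) [AddCommGroup W] [Module k W] [Module.Finite k W]
    (q : κ →+ W), Submodule.span k (Set.range q) = ⊤ →
    ∀ (u : κ) (ρu : W →ₗ[k] W), (∀ x, ρu (q x) = q (u * x)) →
    (∀ (t : ℕ) (c : κ) (ρφ : W →ₗ[k] W) (a ℓ : k), 0 < t → c ≠ 0 → ℓ ≠ 0 →
      u ^ (p ^ t) = u → (∀ x, ρφ (q x) = q (c * x ^ (p ^ t))) →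
      Nonempty (frobFixed p κ t →+* k) →
      ∀ E : Submodule k W, (∀ w ∈ E, ρu w = a • w ∧ ρφ w = ℓ • w) →
        Module.finrank k E ≤
          Nat.card {σ : frobFixed p κ t →+* k // ∀ h : u ∈ frobFixed p κ t, σ ⟨u, h⟩ = a}) ∧
    (∀ (n : ℕ) (w : W), u ≠ (n : κ) → ρu w = (n : k) • w → w = 0)

/-! ## ASSEMBLY PACKAGES -/

/-- **FC-TOP-B**: function form of (G1) and (G3).
(1) level `> p e/(p-1)` ⟹ zero on `G_T`;
(2) level `≥ p e/(p-1)` ⟹ invariant under conjugation by `G_p`;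
(3) the homomorphisms of level `≥ p e/(p-1)` form a group of order `≤ p`. -/
def FCTopBStatement : Prop :=
  ∀ (T : IntermediateField ℚ_[p] (PadicAlgCl p)) [FiniteDimensional ℚ_[p] T] [Normal ℚ_[p] T]
    (ζ : PadicAlgCl p), IsPrimitiveRoot ζ p → ζ ∈ T →
    (∀ (m : ℕ) (f : GalP p → ZMod p), p * edeg p T < (p - 1) * m → HasLevel p T ζ m f →
      ∀ g ∈ T.fixingSubgroup, f g = 0) ∧
    (∀ (m : ℕ) (f : GalP p → ZMod p), p * edeg p T ≤ (p - 1) * m → HasLevel p T ζ m f →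
      ∀ γ : GalP p, ∀ g ∈ T.fixingSubgroup, f (γ * g * γ⁻¹) = f g) ∧
    (∀ m : ℕ, p * edeg p T ≤ (p - 1) * m → ∃ f₀ : GalP p → ZMod p,
      ∀ f : GalP p → ZMod p, HasLevel p T ζ m f →
        ∃ c : ZMod p, ∀ g ∈ T.fixingSubgroup, f g = c * f₀ g)

/-- **FC-STEP**: the graded piece of level `m`.  `s₀` in inertia and `φ` acting on the residue
field as `Frob^t`, commuting modulo `G_T`.  Among `N + 1` homomorphisms of level `≥ m` which are
semi-invariant under `s₀` (multiplier `as`) and `φ` (multiplier `aφ`), some non-trivial linear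
combination has level `≥ m + 1`, where `N` bounds the number of embeddings `σ` of the fixed
field of `Frob^t` with `σ (θ(s₀)^m) = ω(s₀) / as`. -/
def FCStepStatement : Prop :=
  ∀ (T : IntermediateField ℚ_[p] (PadicAlgCl p)) [FiniteDimensional ℚ_[p] T] [Normal ℚ_[p] T]
    (ζ : PadicAlgCl p) (ω : GalP p → ZMod p)
    (k : Type) [Field k] [Finite k] [Algebra (ZMod p) k]
    (m : ℕ) (ϖ : T) (s₀ φ : GalP p) (t : ℕ) (as aφ : k),
    IsPrimitiveRoot ζ p → ζ ∈ T → IsCycl p ζ ω →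
    1 ≤ m → ordT p T ϖ = 1 → s₀ ∈ inertiaOf p T → 0 < t →
    (∀ x : T, 0 ≤ ordT p T x →
      0 < ordT p T (AlgEquiv.restrictNormalHom T φ x - x ^ (p ^ t))) →
    s₀ * φ * s₀⁻¹ * φ⁻¹ ∈ T.fixingSubgroup →
    as ≠ 0 → aφ ≠ 0 →
    Nonempty (frobFixed p (kq p T) t →+* k) →
    ∀ N : ℕ,
      Nat.card {σ : frobFixed p (kq p T) t →+* k //
        ∀ h : thetaRes p T ϖ (AlgEquiv.restrictNormalHom T s₀) ^ m ∈ frobFixed p (kq p T) t,
          σ ⟨_, h⟩ * as = algebraMap (ZMod p) k (ω s₀)} ≤ N →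
    ∀ F : Fin (N + 1) → (GalP p → k),
      (∀ i, HasLevelK p T ζ k m (F i) ∧
        (∀ g ∈ T.fixingSubgroup, F i (s₀ * g * s₀⁻¹) = as * F i g) ∧
        (∀ g ∈ T.fixingSubgroup, F i (φ * g * φ⁻¹) = aφ * F i g)) →
      ∃ c : Fin (N + 1) → k, c ≠ 0 ∧
        HasLevelK p T ζ k (m + 1) (fun g => ∑ i, c i * F i g)

end Fermat.Agent.P1.helper14
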