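import Fermat.Agent.P1.helper14_KRDefs
import Fermat.Agent.S55.helper7_LocUnram3

/-!
# P1 / FLAT-KR, package KR-INERT (helper78): the inertia field of a Galois `p`-adic field

`krInert : KRInertStatement p` : for `L/ℚ_p` finite Galois, `K0 := ℚ_p(ζ)` with `ζ` a primitive
`(p ^ f - 1)`-th root of unity (`f = fdeg p L`) is Galois and unramified over `ℚ_p`, has the same
residue degree as `L`, and the inertia subgroup of `Gal(L/ℚ_p)` is the fixing subgroup of `K0`.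
-/

set_option autoImplicit false

namespace Fermat.Agent.P1.helper78

open Fermat.Agent.S55.helper8 Fermat.Agent.S55.helper7 Fermat.Agent.S55.helper33
open Fermat.Agent.P1.helper14 IntermediateField

variable (p : ℕ) [Fact p.Prime]

/-- `e(ℚ_p) f(ℚ_p) = 1` -/
theorem edeg_fdeg_padic : edeg p ℚ_[p] = 1 ∧ fdeg p ℚ_[p] = 1 := by
  have h := edeg_mul_fdeg p ℚ_[p]
  rw [Module.finrank_self] at h
  exact ⟨Nat.eq_one_of_mul_eq_one_right h, Nat.eq_one_of_mul_eq_one_left h⟩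

section

variable (L : Type) [Field L] [Algebra ℚ_[p] L]

/-- the fixed field of a single automorphism -/
def fixOne (s : L ≃ₐ[ℚ_[p]] L) : IntermediateField ℚ_[p] L where
  carrier := {x | s x = x}
  mul_mem' := by
    intro a b ha hb
    show s (a * b) = a * b
    rw [map_mul, ha, hb]
  add_mem' := by
    intro a b ha hb
    show s (a + b) = a + b
    rw [map_add, ha, hb]
  algebraMap_mem' := fun r => s.commutes r
  inv_mem' := by
    intro a ha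
    show s a⁻¹ = a⁻¹
    rw [map_inv₀, ha]

theorem mem_fixOne {s : L ≃ₐ[ℚ_[p]] L} {x : L} : x ∈ fixOne p L s ↔ s x = x := Iff.rfl

end

/-- **KR-INERT** -/
theorem krInert : KRInertStatement p := by
  intro L _ _ _ _
  obtain ⟨ζ, hζ⟩ := exists_primitiveRoot_card_sub_one p L
  obtain ⟨he1, hf1⟩ := edeg_fdeg_padic p
  have hf : 0 < fdeg p L := fdeg_pos p L
  have hζ' : IsPrimitiveRoot ζ (p ^ (fdeg p ℚ_[p] * fdeg p L) - 1) := by
    rw [hf1, one_mul]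
    exact hζ
  obtain ⟨hfd, hgal, hdeg, hunr⟩ := isUnram_adjoin_primitiveRoot p ℚ_[p] L (fdeg p L) hf ζ hζ'
  have hN : ¬ p ∣ p ^ fdeg p L - 1 := not_dvd_card_sub_one p L
  have hN0 : p ^ fdeg p L - 1 ≠ 0 := fun h => hN (h ▸ dvd_zero p)
  have hrelE : relE p ℚ_[p] ℚ_[p]⟮ζ⟯ = 1 := (isUnram_iff p ℚ_[p] ℚ_[p]⟮ζ⟯).mp hunr
  have hedeg : edeg p ℚ_[p]⟮ζ⟯ = 1 := by
    rw [edeg_eq_relE_mul p ℚ_[p] ℚ_[p]⟮ζ⟯, hrelE, he1]
  have hfdeg : fdeg p ℚ_[p]⟮ζ⟯ = fdeg p L := by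
    have h := edeg_mul_fdeg p ℚ_[p]⟮ζ⟯
    rw [hedeg, one_mul, hdeg] at h
    exact h
  refine ⟨ℚ_[p]⟮ζ⟯, hedeg, hfdeg.symm, hgal, fun s => ⟨fun hs => ?_, fun hs => ?_⟩⟩
  · -- inertia fixes `ζ`
    have hζ0 : 0 ≤ ordT p L ζ := (ordT_eq_zero_of_pow_eq_one p L hN0 hζ.pow_eq_one).ge
    have h1 : 0 < ordT p L (s ζ - ζ) := hs ζ hζ0
    have h2 : (s ζ) ^ (p ^ fdeg p L - 1) = 1 := by
      rw [← map_pow, hζ.pow_eq_one, map_one]
    have h3 : s ζ = ζ := eq_of_pow_eq_one_of_ordT_sub_pos p L hN h2 hζ.pow_eq_one h1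
    have hle : ℚ_[p]⟮ζ⟯ ≤ fixOne p L s := by
      rw [adjoin_simple_le_iff]
      exact h3
    intro x hx
    exact hle hx
  · -- automorphisms fixing `K0` act trivially on the residue field
    intro x hx
    have hinj : Function.Injective (resMap p ℚ_[p]⟮ζ⟯ L) := (resMap p ℚ_[p]⟮ζ⟯ L).injective
    have hcard : Nat.card (kq p L) ≤ Nat.card (kq p ℚ_[p]⟮ζ⟯) := by
      rw [card_kq, card_kq, hfdeg]
    have hbij : Function.Bijective (resMap p ℚ_[p]⟮ζ⟯ L) :=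
      hinj.bijective_of_nat_card_le hcard
    obtain ⟨a, ha⟩ := hbij.2 (res p L ⟨x, hx⟩)
    obtain ⟨x₀, rfl⟩ := res_surjective p ℚ_[p]⟮ζ⟯ a
    rw [resMap_res, res_eq_iff] at ha
    have hm : 0 < ordT p L (x - algebraMap ℚ_[p]⟮ζ⟯ L (x₀ : ℚ_[p]⟮ζ⟯)) := by
      rw [Fermat.Agent.S55.helper7.ordT_sub_comm]
      exact ha
    have hx₀ : s (algebraMap ℚ_[p]⟮ζ⟯ L (x₀ : ℚ_[p]⟮ζ⟯)) =
        algebraMap ℚ_[p]⟮ζ⟯ L (x₀ : ℚ_[p]⟮ζ⟯) := hs _ (x₀ : ℚ_[p]⟮ζ⟯).2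
    have key : s x - x = s (x - algebraMap ℚ_[p]⟮ζ⟯ L (x₀ : ℚ_[p]⟮ζ⟯)) -
        (x - algebraMap ℚ_[p]⟮ζ⟯ L (x₀ : ℚ_[p]⟮ζ⟯)) := by
      rw [map_sub, hx₀]
      ring
    rw [key]
    refine Fermat.Agent.S55.helper7.ordT_sub_pos p L ?_ hm
    rw [Fermat.Agent.P1.helper14.ordT_algEquiv]
    exact hm

end Fermat.Agent.P1.helper78
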