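import Mathlib
import Fermat.Agent.P1.helper14_KumEqDefs2
import Fermat.Agent.P1.helper14_KRTools
import Fermat.Agent.P1.helper78_KRInert
import Fermat.Agent.S55.helper97_LocVal

/-!
# P1 / FLAT-CNT / KUMEQ, package FC-IN (helper10)

`fcIn : FCInStatement p` : for `T ⊆ Ω = PadicAlgCl p` finite normal over `ℚ_p`, the absolute
inertia group of `G_p = Gal(Ω/ℚ_p)` (defined by the norm of `Ω`) maps ONTO the inertia subgroup
of `Gal(T/ℚ_p)`.

Steps:
* `norm_algHom_eq_spectralNorm`, `ordT_nonneg_iff_norm_le_one`, `ordT_pos_iff_norm_lt_one` :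
  the norm of `Ω` restricted to a `p`-adic field is its spectral norm, hence controls `ordT`;
* `mem_inertiaOf_iff` : `σ ∈ inertiaOf p L ↔ ∀ x ∈ L, ‖x‖ ≤ 1 → ‖σ x - x‖ < 1`;
* `exists_inertiaField` : the inertia field of `L` (from `helper78.krInert`) as a subfield of `Ω`;
* `mem_inertiaOf_iff_of_edeg_eq_one` : for unramified `E`, `inertiaOf p E = E.fixingSubgroup`;
* `exists_mem_inertiaOf_mul` : the finite-level statement (infinite Galois correspondence);
* `exists_lift_of_mem_inertiaOf` : the compactness argument.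
-/

set_option autoImplicit false
set_option linter.unusedSectionVars false
set_option linter.unusedVariables false
set_option linter.style.haveILetI false

noncomputable section

namespace Fermat.Agent.P1.helper10

open Fermat.Agent.S55.helper8 Fermat.Agent.S55.helper7 Fermat.Agent.S55.helper33
open Fermat.Agent.P1.helper14 IntermediateField

variable (p : ℕ) [Fact p.Prime]

section Bridge

variable {E : Type} [Field E] [Algebra ℚ_[p] E] [FiniteDimensional ℚ_[p] E]

/-- The norm of `PadicAlgCl p` restricts to the spectral norm of every `p`-adic field. -/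
theorem norm_algHom_eq_spectralNorm (φ : E →ₐ[ℚ_[p]] PadicAlgCl p) (x : E) :
    ‖φ x‖ = spectralNorm ℚ_[p] E x := by
  rw [← PadicAlgCl.spectralNorm_eq]
  unfold spectralNorm
  rw [minpoly.algHom_eq φ φ.injective]

theorem ordT_nonneg_iff_norm_le_one (φ : E →ₐ[ℚ_[p]] PadicAlgCl p) (x : E) :
    0 ≤ ordT p E x ↔ ‖φ x‖ ≤ 1 := by
  rw [norm_algHom_eq_spectralNorm]
  by_cases hx : x = 0
  · subst hx
    rw [Fermat.Agent.S55.helper97.ordT_zero, spectralNorm_zero]
    simp
  · rw [Fermat.Agent.S55.helper97.ordT_of_ne p E hx]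
    have h := Fermat.Agent.S55.helper97.spectralNorm_le_one_iff_ord p E (Units.mk0 x hx)
    rw [Units.val_mk0] at h
    rw [h]
    exact_mod_cast Iff.rfl

theorem ordT_pos_iff_norm_lt_one (φ : E →ₐ[ℚ_[p]] PadicAlgCl p) (x : E) :
    0 < ordT p E x ↔ ‖φ x‖ < 1 := by
  rw [norm_algHom_eq_spectralNorm]
  by_cases hx : x = 0
  · subst hx
    rw [Fermat.Agent.S55.helper97.ordT_zero, spectralNorm_zero]
    simp
  · rw [Fermat.Agent.S55.helper97.ordT_of_ne p E hx]
    have h := Fermat.Agent.S55.helper97.spectralNorm_le_iff_ord p E 1 (Units.mk0 x hx)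
    rw [Units.val_mk0, Units.val_one, spectralNorm_one, Fermat.Agent.S55.helper97.ord_one] at h
    have h0 : (0 : WithTop ℤ) < ((ord p E (Units.mk0 x hx) : ℤ) : WithTop ℤ) ↔
        0 < ord p E (Units.mk0 x hx) := by exact_mod_cast Iff.rfl
    rw [h0, ← not_le, ← h, not_le]

end Bridge

section InertiaNorm

variable (L : IntermediateField ℚ_[p] (PadicAlgCl p)) [FiniteDimensional ℚ_[p] L]
  [Normal ℚ_[p] L]

/-- **Bridge**: the inertia condition for `Gal(L/ℚ_p)` in terms of the norm of `Ω`. -/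
theorem mem_inertiaOf_iff (σ : GalP p) :
    σ ∈ inertiaOf p L ↔ ∀ x ∈ L, ‖x‖ ≤ 1 → ‖σ x - x‖ < 1 := by
  unfold inertiaOf
  rw [Subgroup.mem_comap, mem_inertia]
  constructor
  · intro h x hx hx1
    have h1 := h ⟨x, hx⟩ ((ordT_nonneg_iff_norm_le_one p L.val ⟨x, hx⟩).2 hx1)
    rw [ordT_pos_iff_norm_lt_one p L.val] at h1
    have h2 : L.val (AlgEquiv.restrictNormalHom L σ ⟨x, hx⟩ - ⟨x, hx⟩) = σ x - x := by
      rw [map_sub]
      congr 1
      exact AlgEquiv.restrictNormal_commutes σ L ⟨x, hx⟩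
    rw [h2] at h1
    exact h1
  · intro h x hx0
    rw [ordT_pos_iff_norm_lt_one p L.val]
    have h2 : L.val (AlgEquiv.restrictNormalHom L σ x - x) = σ (x : PadicAlgCl p) - x := by
      rw [map_sub]
      congr 1
      exact AlgEquiv.restrictNormal_commutes σ L x
    rw [h2]
    exact h x x.2 ((ordT_nonneg_iff_norm_le_one p L.val x).1 hx0)

end InertiaNorm

section InertiaField

variable (L : IntermediateField ℚ_[p] (PadicAlgCl p)) [FiniteDimensional ℚ_[p] L]
  [Normal ℚ_[p] L]

/-- The inertia field of a finite normal `L ⊆ Ω`, as a subfield of `Ω`. -/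
theorem exists_inertiaField :
    ∃ K : IntermediateField ℚ_[p] (PadicAlgCl p), K ≤ L ∧ FiniteDimensional ℚ_[p] K ∧
      Normal ℚ_[p] K ∧ edeg p K = 1 ∧ fdeg p K = fdeg p L ∧
      ∀ σ : GalP p, σ ∈ inertiaOf p L ↔ σ ∈ K.fixingSubgroup := by
  haveI : IsGalois ℚ_[p] L := ⟨⟩
  obtain ⟨K0, he, hf, hgal, hin⟩ := Fermat.Agent.P1.helper78.krInert p L
  have hle : IntermediateField.lift K0 ≤ L := IntermediateField.lift_le K0
  haveI hfd0 : FiniteDimensional ℚ_[p] K0 := inferInstance
  have hfd : FiniteDimensional ℚ_[p] (IntermediateField.lift K0) :=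
    Module.Finite.equiv (IntermediateField.liftAlgEquiv K0).toLinearEquiv
  haveI := hfd
  refine ⟨IntermediateField.lift K0, hle, hfd, ?_, ?_, ?_, ?_⟩
  · haveI : Normal ℚ_[p] K0 := hgal.to_normal
    exact Normal.of_algEquiv (IntermediateField.liftAlgEquiv K0)
  · rw [edeg_equiv p (IntermediateField.liftAlgEquiv K0)]
    exact he
  · rw [fdeg_equiv p (IntermediateField.liftAlgEquiv K0)]
    exact hf.symm
  · intro σ
    unfold inertiaOf
    rw [Subgroup.mem_comap, hin, IntermediateField.mem_fixingSubgroup_iff]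
    constructor
    · intro h y hy
      have hyL : y ∈ L := hle hy
      have h1 := h ⟨y, hyL⟩ ((IntermediateField.mem_lift ⟨y, hyL⟩).1 hy)
      have h2 : ((AlgEquiv.restrictNormalHom L σ ⟨y, hyL⟩ : L) : PadicAlgCl p) = σ y :=
        AlgEquiv.restrictNormal_commutes σ L ⟨y, hyL⟩
      rw [← h2, h1]
    · intro h x hx
      have h1 := h x ((IntermediateField.mem_lift x).2 hx)
      have h2 := AlgEquiv.restrictNormal_commutes σ L x
      apply Subtype.ext
      rw [← h1]
      exact h2

end InertiaField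

section Unram

theorem edeg_eq_one_of_le {E K : IntermediateField ℚ_[p] (PadicAlgCl p)}
    [FiniteDimensional ℚ_[p] K] (h : E ≤ K) (hK : edeg p K = 1) : edeg p E = 1 := by
  letI : Algebra E K := (IntermediateField.inclusion h).toRingHom.toAlgebra
  haveI : IsScalarTower ℚ_[p] E K := IsScalarTower.of_algebraMap_eq (fun x => rfl)
  haveI : FiniteDimensional ℚ_[p] E :=
    FiniteDimensional.of_injective (IntermediateField.inclusion h).toLinearMap
      (IntermediateField.inclusion h).injective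
  haveI : FiniteDimensional E K := FiniteDimensional.right ℚ_[p] E K
  have h1 := edeg_eq_relE_mul p E K
  rw [hK] at h1
  exact Nat.eq_one_of_mul_eq_one_left h1.symm

theorem mem_inertiaOf_iff_of_edeg_eq_one (E : IntermediateField ℚ_[p] (PadicAlgCl p))
    [FiniteDimensional ℚ_[p] E] [Normal ℚ_[p] E] (hE : edeg p E = 1) (σ : GalP p) :
    σ ∈ inertiaOf p E ↔ σ ∈ E.fixingSubgroup := by
  obtain ⟨K, hle, hfd, hn, he, hf, hin⟩ := exists_inertiaField p E
  haveI := hfd
  have h1 := Fermat.Agent.S55.helper33.edeg_mul_fdeg p K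
  have h2 := Fermat.Agent.S55.helper33.edeg_mul_fdeg p E
  rw [he, hf, one_mul] at h1
  rw [hE, one_mul] at h2
  have hKE : K = E := IntermediateField.eq_of_le_of_finrank_eq hle (h1.symm.trans h2)
  rw [hin, hKE]

end Unram


section FiniteLevel

variable (T : IntermediateField ℚ_[p] (PadicAlgCl p)) [FiniteDimensional ℚ_[p] T]
  [Normal ℚ_[p] T]

theorem mem_fixingSubgroup_inf_of_mem_inertiaOf (K : IntermediateField ℚ_[p] (PadicAlgCl p))
    [FiniteDimensional ℚ_[p] K] [Normal ℚ_[p] K] (hK : edeg p K = 1) {s : GalP p}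
    (hs : s ∈ inertiaOf p T) : s ∈ (K ⊓ T).fixingSubgroup := by
  haveI : FiniteDimensional ℚ_[p] ↥(K ⊓ T) :=
    FiniteDimensional.of_injective (IntermediateField.inclusion (inf_le_left : K ⊓ T ≤ K)).toLinearMap
      (IntermediateField.inclusion (inf_le_left : K ⊓ T ≤ K)).injective
  have hE := edeg_eq_one_of_le p (inf_le_left : K ⊓ T ≤ K) hK
  rw [← mem_inertiaOf_iff_of_edeg_eq_one p (K ⊓ T) hE, mem_inertiaOf_iff]
  intro x hx hx1
  exact (mem_inertiaOf_iff p T s).1 hs x hx.2 hx1

theorem fixingSubgroup_inf_le_sup (K : IntermediateField ℚ_[p] (PadicAlgCl p))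
    [FiniteDimensional ℚ_[p] K] :
    (K ⊓ T).fixingSubgroup ≤ K.fixingSubgroup ⊔ T.fixingSubgroup := by
  haveI : IsGalois ℚ_[p] (PadicAlgCl p) := IsAlgClosure.isGalois _ _
  have hopen : IsOpen ((K.fixingSubgroup ⊔ T.fixingSubgroup : Subgroup (GalP p)) : Set (GalP p)) :=
    Subgroup.isOpen_mono (le_sup_left : K.fixingSubgroup ≤ K.fixingSubgroup ⊔ T.fixingSubgroup)
      (IntermediateField.fixingSubgroup_isOpen K)
  have hclosed : IsClosed ((K.fixingSubgroup ⊔ T.fixingSubgroup : Subgroup (GalP p)) :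
      Set (GalP p)) := Subgroup.isClosed_of_isOpen _ hopen
  have h1 : (IntermediateField.fixedField
      (K.fixingSubgroup ⊔ T.fixingSubgroup)).fixingSubgroup =
      K.fixingSubgroup ⊔ T.fixingSubgroup :=
    InfiniteGalois.fixingSubgroup_fixedField
      (⟨K.fixingSubgroup ⊔ T.fixingSubgroup, hclosed⟩ : ClosedSubgroup (GalP p))
  have h2 : IntermediateField.fixedField (K.fixingSubgroup ⊔ T.fixingSubgroup) ≤ K ⊓ T := by
    intro x hx
    rw [IntermediateField.mem_fixedField_iff] at hx
    have hxK : x ∈ IntermediateField.fixedField K.fixingSubgroup := by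
      rw [IntermediateField.mem_fixedField_iff]
      intro f hf
      exact hx f (Subgroup.mem_sup_left hf)
    have hxT : x ∈ IntermediateField.fixedField T.fixingSubgroup := by
      rw [IntermediateField.mem_fixedField_iff]
      intro f hf
      exact hx f (Subgroup.mem_sup_right hf)
    rw [InfiniteGalois.fixedField_fixingSubgroup K] at hxK
    rw [InfiniteGalois.fixedField_fixingSubgroup T] at hxT
    exact IntermediateField.mem_inf.2 ⟨hxK, hxT⟩
  have h3 := IntermediateField.fixingSubgroup_antitone h2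
  intro σ hσ
  have h4 := h3 hσ
  rw [h1] at h4
  exact h4

/-- **Finite level**: an element of the inertia of `T` agrees on `T` with an element of the
inertia of `L`, for every finite normal `L`. -/
theorem exists_mem_inertiaOf_mul (L : IntermediateField ℚ_[p] (PadicAlgCl p))
    [FiniteDimensional ℚ_[p] L] [Normal ℚ_[p] L] {s : GalP p} (hs : s ∈ inertiaOf p T) :
    ∃ i ∈ inertiaOf p L, i⁻¹ * s ∈ T.fixingSubgroup := by
  haveI : IsGalois ℚ_[p] (PadicAlgCl p) := IsAlgClosure.isGalois _ _
  haveI : IsGalois ℚ_[p] T := ⟨⟩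
  obtain ⟨K, hle, hfd, hn, he, hf, hin⟩ := exists_inertiaField p L
  haveI := hfd
  haveI := hn
  have hs' := fixingSubgroup_inf_le_sup p T K (mem_fixingSubgroup_inf_of_mem_inertiaOf p T K he hs)
  haveI : T.fixingSubgroup.Normal := IsGalois.fixingSubgroup_normal_of_isGalois T
  have hmul : s ∈ ((K.fixingSubgroup ⊔ T.fixingSubgroup : Subgroup (GalP p)) : Set (GalP p)) := hs'
  rw [Subgroup.mul_normal] at hmul
  obtain ⟨i, hi, t, ht, rfl⟩ := Set.mem_mul.1 hmul
  refine ⟨i, (hin i).2 hi, ?_⟩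
  rw [inv_mul_cancel_left]
  exact ht

end FiniteLevel

section Compactness

variable (T : IntermediateField ℚ_[p] (PadicAlgCl p)) [FiniteDimensional ℚ_[p] T]
  [Normal ℚ_[p] T]

/-- The closed sets whose intersection is the set of lifts of `s` to the absolute inertia. -/
def fcSet (s : GalP p) (L : FiniteGaloisIntermediateField ℚ_[p] (PadicAlgCl p)) :
    Set (GalP p) :=
  {σ | σ ∈ inertiaOf p L.toIntermediateField ∧ σ⁻¹ * s ∈ T.fixingSubgroup}

theorem isClosed_fcSet (s : GalP p)
    (L : FiniteGaloisIntermediateField ℚ_[p] (PadicAlgCl p)) : IsClosed (fcSet p T s L) := by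
  haveI : IsGalois ℚ_[p] (PadicAlgCl p) := IsAlgClosure.isGalois _ _
  obtain ⟨K, hle, hfd, hn, he, hf, hin⟩ := exists_inertiaField p L.toIntermediateField
  have h1 : {σ : GalP p | σ ∈ inertiaOf p L.toIntermediateField} =
      (K.fixingSubgroup : Set (GalP p)) := by
    ext σ
    exact hin σ
  have hc1 : IsClosed {σ : GalP p | σ ∈ inertiaOf p L.toIntermediateField} := by
    rw [h1]
    exact InfiniteGalois.fixingSubgroup_isClosed K
  have hc2 : IsClosed {σ : GalP p | σ⁻¹ * s ∈ T.fixingSubgroup} := by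
    have hcont : Continuous (fun σ : GalP p => σ⁻¹ * s) := continuous_inv.mul continuous_const
    exact (InfiniteGalois.fixingSubgroup_isClosed T).preimage hcont
  exact hc1.inter hc2

theorem fcSet_anti (s : GalP p) {L₁ L₂ : FiniteGaloisIntermediateField ℚ_[p] (PadicAlgCl p)}
    (h : L₁ ≤ L₂) : fcSet p T s L₂ ⊆ fcSet p T s L₁ := by
  rintro σ ⟨h1, h2⟩
  refine ⟨?_, h2⟩
  rw [mem_inertiaOf_iff] at h1 ⊢
  intro x hx
  exact h1 x (h hx)

/-- **Surjectivity of inertia**: every element of the inertia subgroup of `Gal(T/ℚ_p)` is the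
restriction of an element of the absolute inertia group. -/
theorem exists_lift_of_mem_inertiaOf {s : GalP p} (hs : s ∈ inertiaOf p T) :
    ∃ i : GalP p, (∀ x : PadicAlgCl p, ‖x‖ ≤ 1 → ‖i x - x‖ < 1) ∧
      i⁻¹ * s ∈ T.fixingSubgroup := by
  haveI : IsGalois ℚ_[p] (PadicAlgCl p) := IsAlgClosure.isGalois _ _
  have hdir : Directed (· ⊇ ·) (fcSet p T s) := by
    intro a b
    exact ⟨a ⊔ b, fcSet_anti p T s le_sup_left, fcSet_anti p T s le_sup_right⟩
  have hne : ∀ L, (fcSet p T s L).Nonempty := by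
    intro L
    obtain ⟨i, hi, hi'⟩ := exists_mem_inertiaOf_mul p T L.toIntermediateField hs
    exact ⟨i, hi, hi'⟩
  obtain ⟨i, hi⟩ := IsCompact.nonempty_iInter_of_directed_nonempty_isCompact_isClosed
    (fcSet p T s) hdir hne (fun L => (isClosed_fcSet p T s L).isCompact) (isClosed_fcSet p T s)
  rw [Set.mem_iInter] at hi
  refine ⟨i, fun x hx => ?_, (hi ⊥).2⟩
  have h1 := (hi (FiniteGaloisIntermediateField.adjoin ℚ_[p] {x})).1
  rw [mem_inertiaOf_iff] at h1
  exact h1 x (FiniteGaloisIntermediateField.subset_adjoin ℚ_[p] {x} (Set.mem_singleton x)) hx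

end Compactness

/-- **FC-IN**: the absolute inertia group of `G_p` (defined by the norm of `Ω`) maps onto the
inertia subgroup of `Gal(T/ℚ_p)`. -/
theorem fcIn : FCInStatement p := by
  intro T _ _
  refine ⟨fun i hi => ?_, fun s hs => exists_lift_of_mem_inertiaOf p T hs⟩
  rw [mem_inertiaOf_iff]
  intro x _ hx
  exact hi x hx

end Fermat.Agent.P1.helper10
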