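import Fermat.Agent.P1.helper47_HopfInterface

/-!
# P1 / FLAT-HOPF, package HOPF-CNT (helper10, task 638)

Counting points: if `L` is generated over `ℚ_p` by the values of the finitely many ring
homomorphisms `H → L`, every ring homomorphism from `H` to an extension field of `L` factors
through `L`, and there are at least as many ring homomorphisms `H → E` as `H → L`, then `L`
embeds into `E` over `ℚ_p`.
-/

set_option autoImplicit false
set_option linter.style.haveILetI false

namespace Fermat.Agent.P1.helper10

/-- **HOPF-CNT**, verbatim. -/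
theorem hopfCnt (p : ℕ) [Fact p.Prime] : Fermat.Agent.P1.helper47.HopfCntStatement p := by
  intro L E _ _ _ _ _ _ H _ hfin hgen hfac hex
  obtain ⟨f, hf⟩ := hex
  haveI := hfin
  let ι : E →ₐ[ℚ_[p]] AlgebraicClosure E := IsScalarTower.toAlgHom ℚ_[p] E (AlgebraicClosure E)
  have hι : Function.Injective ι := (algebraMap E (AlgebraicClosure E)).injective
  haveI : Algebra.IsAlgebraic ℚ_[p] L := Algebra.IsAlgebraic.of_finite _ _
  let j : L →ₐ[ℚ_[p]] AlgebraicClosure E := IsAlgClosed.lift
  choose g hg using fun x : H →+* L =>
    hfac (AlgebraicClosure E) (j : L →+* AlgebraicClosure E)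
      ((ι : E →+* AlgebraicClosure E).comp (f x))
  have hginj : Function.Injective g := by
    intro x₁ x₂ h
    apply hf
    have h1 := hg x₁
    rw [h, ← hg x₂] at h1
    ext a
    have := congrArg (fun φ : H →+* AlgebraicClosure E => φ a) h1
    exact hι this
  have hgsurj : Function.Surjective g := Finite.surjective_of_injective hginj
  have hrange : ∀ z : L, j z ∈ ι.range := by
    have hle : Algebra.adjoin ℚ_[p] {z : L | ∃ (x : H →+* L) (h : H), x h = z} ≤
        ι.range.comap j := by
      apply Algebra.adjoin_le
      rintro z ⟨x, a, rfl⟩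
      obtain ⟨x₀, rfl⟩ := hgsurj x
      have := congrArg (fun φ : H →+* AlgebraicClosure E => φ a) (hg x₀)
      exact ⟨f x₀ a, this⟩
    intro z
    have hz : z ∈ (⊤ : Subalgebra ℚ_[p] L) := Algebra.mem_top
    rw [← hgen] at hz
    exact hle hz
  exact ⟨(AlgEquiv.ofInjective ι hι).symm.toAlgHom.comp (j.codRestrict ι.range hrange)⟩

end Fermat.Agent.P1.helper10
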