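import Fermat.Agent.P1.helper63_ECDefs2
import Fermat.Agent.P1.helper8_SelDefs
import Fermat.Agent.S55.ABasic
import Fermat.Agent.S55.AInterface
import Fermat.Agent.S55.helper92_SmoothLevel
import Mathlib.RepresentationTheory.Subrepresentation

/-!
# P1 / module EC, package LOC2 (helper11, task 734)

* `exists_lift_Z2` : right exactness of `H²` on level-constant cochains when `H³` of the kernel
  vanishes (exact lifting form of EC-LES-R): every level 2-cocycle of `A₂` is the image of a
  level 2-cocycle of `A`;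
* `loc2Out` : **EC-LOC2**, local duality `H⁰(G_v, M) ↪ H²(G_v, M')^*` in trace form, from
  `helper8.TRStatement` and `helper63.LocH3Out`.
-/

set_option autoImplicit false

open groupCohomology ExtCitation

noncomputable section

namespace Fermat.Agent.P1.helper11

open Fermat.Agent.S55 Fermat.Agent.P1.helper70 Fermat.Agent.P1.helper63

/-! ## Right exactness of `H²` -/

section LES

variable {k G : Type} [Field k] [Group G] (𝒩 : Levels G)

/-- **EC-LES-R**, exact lifting form: for a short exact sequence `0 → A₁ → A → A₂ → 0` with `A`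
smooth and `H³(A₁) = 0`, every level 2-cocycle of `A₂` lifts to a level 2-cocycle of `A`. -/
theorem exists_lift_Z2 (A₁ A A₂ : Rep.{0} k G) (i : A₁ →ₗ[k] A) (q : A →ₗ[k] A₂)
    (hi : ∀ s a, i (A₁.ρ s a) = A.ρ s (i a)) (hq : ∀ s a, q (A.ρ s a) = A₂.ρ s (q a))
    (hinj : Function.Injective i) (hsurj : Function.Surjective q)
    (hex : LinearMap.range i = LinearMap.ker q) (hsm : IsSmooth 𝒩 A)
    (h1 : Z3 𝒩 A₁ ≤ B3 𝒩 A₁) :
    ∀ z ∈ Z2 𝒩 A₂, ∃ x ∈ Z2 𝒩 A, (fun s => q (x s)) = z := by
  intro z hz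
  obtain ⟨hzC, hzd⟩ := mem_Z2.1 hz
  -- equivariant maps
  let Q : EqHom A A₂ := ⟨q, hq⟩
  let I : EqHom A₁ A := ⟨i, hi⟩
  -- a set-theoretic lift of `z`
  let x₀ : G × G → A := fun g => Function.surjInv hsurj (z g)
  have hqx₀ : (fun g => q (x₀ g)) = z := by
    funext g
    exact Function.surjInv_eq hsurj (z g)
  have hx₀C : x₀ ∈ C2 𝒩 A := by
    obtain ⟨N, hN, h⟩ := hzC
    exact ⟨N, hN, fun g₁ g₂ s₁ hs₁ s₂ hs₂ => by
      change Function.surjInv hsurj (z (g₁ * s₁, g₂ * s₂)) = Function.surjInv hsurj (z (g₁, g₂))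
      rw [h g₁ g₂ s₁ hs₁ s₂ hs₂]⟩
  -- its coboundary has values in the kernel of `q`
  let t : G × G × G → A := (d₂₃ A).hom x₀
  have htC : t ∈ C3 𝒩 A := d₂₃_mem_C3 hsm hx₀C
  have hqt : ∀ g, q (t g) = 0 := by
    intro g
    have h := d₂₃_map Q x₀
    have h' : (d₂₃ A₂).hom (fun g => q (x₀ g)) = fun g => q ((d₂₃ A).hom x₀ g) := h
    rw [hqx₀, hzd] at h'
    exact (congrFun h' g).symm
  have hmem : ∀ g, ∃ a : A₁, i a = t g := by
    intro g
    have : t g ∈ LinearMap.range i := by
      rw [hex]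
      exact hqt g
    exact this
  choose y hy using hmem
  have hyC : y ∈ C3 𝒩 A₁ := by
    obtain ⟨N, hN, h⟩ := htC
    exact ⟨N, hN, fun g₁ g₂ g₃ s₁ hs₁ s₂ hs₂ s₃ hs₃ => hinj (by
      rw [hy, hy]
      exact h g₁ g₂ g₃ s₁ hs₁ s₂ hs₂ s₃ hs₃)⟩
  have hiy : (fun g => i (y g)) = t := funext hy
  have hyd : d₃₄ A₁ y = 0 := by
    have h := d₃₄_map I y
    have h' : d₃₄ A (fun g => i (y g)) = fun g => i (d₃₄ A₁ y g) := h
    rw [hiy] at h'
    have h0 : d₃₄ A t = 0 := d₃₄_d₂₃ A x₀
    rw [h0] at h'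
    funext g
    apply hinj
    have h2 := (congrFun h' g).symm
    simpa using h2
  obtain ⟨w, hwC, hwd⟩ := mem_B3.1 (h1 (mem_Z3.2 ⟨hyC, hyd⟩))
  -- correct the lift
  have hiwC : (fun g => i (w g)) ∈ C2 𝒩 A := map_mem_C2 i hwC
  refine ⟨x₀ - fun g => i (w g), mem_Z2.2 ⟨(C2 𝒩 A).sub_mem hx₀C hiwC, ?_⟩, ?_⟩
  · rw [map_sub]
    have h := d₂₃_map I w
    have h' : (d₂₃ A).hom (fun g => i (w g)) = fun g => i ((d₂₃ A₁).hom w g) := h
    rw [h', hwd, hiy]
    exact sub_self _
  · funext g
    have hqi : q (i (w g)) = 0 := by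
      have : i (w g) ∈ LinearMap.ker q := by
        rw [← hex]
        exact ⟨w g, rfl⟩
      exact this
    change q (x₀ g - i (w g)) = z g
    rw [map_sub, hqi, sub_zero]
    exact congrFun hqx₀ g

end LES

/-! ## EC-LOC2 -/

section Loc2

variable (p : ℕ) [Fact p.Prime] (T : Finset Nat.Primes)

/-- the cone 3-cochain supported at `v` with local component a level coboundary is a cone
coboundary -/
lemma single_mem_Bc3 {p : ℕ} [Fact p.Prime] {T : Finset Nat.Primes}
    (A : Rep.{0} (ZMod p) GQ) (v : ↥T)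
    {c : (galLocal T).Gv v × (galLocal T).Gv v → (galLocal T).loc A v}
    (hc : c ∈ B2 ((galLocal T).lev v) ((galLocal T).loc A v)) :
    ((0, Pi.single v c) : CcAmb3 (galLocal T) A) ∈ Bc3 (galLocal T) A := by
  classical
  obtain ⟨b, hbC, hbd⟩ := mem_B2.1 hc
  refine (mem_Bc3 (galLocal T)).2 ⟨-((0, Pi.single v b) : CcAmb2 (galLocal T) A), ?_, ?_⟩
  · refine (Cc2 (galLocal T) A).neg_mem ((mem_Cc2 (galLocal T)).2 ⟨(C2 _ A).zero_mem, ?_⟩)
    intro w
    by_cases hw : w = v
    · subst hw
      simpa using hbC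
    · have : (Pi.single v b : ∀ w : ↥T, (galLocal T).Gv w → (galLocal T).loc A w) w = 0 :=
        Pi.single_eq_of_ne (M := fun w : ↥T => (galLocal T).Gv w → (galLocal T).loc A w) hw b
      change (Pi.single v b : ∀ w : ↥T, (galLocal T).Gv w → (galLocal T).loc A w) w ∈ _
      rw [this]
      exact (C1 _ _).zero_mem
  · rw [map_neg]
    refine Prod.ext ?_ ?_
    · change -((d₂₃ A).hom 0) = 0
      rw [map_zero, neg_zero]
    · funext w
      change -(res₂ (galLocal T) A w 0 - (d₁₂ ((galLocal T).loc A w)).hom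
        ((Pi.single v b : ∀ w : ↥T, (galLocal T).Gv w → (galLocal T).loc A w) w)) =
        (Pi.single v c : ∀ w : ↥T, (galLocal T).Gv w × (galLocal T).Gv w →
          (galLocal T).loc A w) w
      rw [map_zero, zero_sub, neg_neg]
      by_cases hw : w = v
      · subst hw
        simpa using hbd
      · rw [Pi.single_eq_of_ne (M := fun w : ↥T => (galLocal T).Gv w → (galLocal T).loc A w)
          hw b, Pi.single_eq_of_ne (M := fun w : ↥T => (galLocal T).Gv w × (galLocal T).Gv w →
          (galLocal T).loc A w) hw c, map_zero]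

/-- **EC-LOC2**: local duality `H⁰ × H²` in trace form, from `TRStatement` (the trace is
nonzero on `H²(G_v, μ_p)`) and right exactness of the local `H²`. -/
theorem loc2Out (hpT : pPrime p ∈ T) (hTR : helper8.TRStatement p T) (hH3 : LocH3Out p T)
    (tr : CcAmb3 (galLocal T) (mu p) →ₗ[ZMod p] ZMod p)
    (htr : ∀ c ∈ Bc3 (galLocal T) (mu p), tr c = 0)
    (hC : ∀ N : Rep.{0} (ZMod p) GQ, Module.Finite (ZMod p) N → IsSmooth (galLevels T) N →
      Claim (galLocal T) (evPairing N (cycloChar p)) tr) :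
    Loc2Out p T tr := by
  classical
  intro M hMfin hMsm v n hn hn0
  have hχ : ∃ N ∈ (galLevels T).mem, ∀ g ∈ N, cycloChar p g = 1 :=
    (Fermat.Agent.S55.helper92.levelStatement p T hpT).2
  have hM'sm : IsSmooth (galLevels T) (dualT p M) := isSmooth_dualTwist hχ hMsm
  have hAsm : IsSmooth ((galLocal T).lev v) ((galLocal T).loc (dualT p M) v) :=
    isSmooth_loc (galLocal T) hM'sm v
  -- evaluation at `n`
  let q : ((galLocal T).loc (dualT p M) v) →ₗ[ZMod p] ((galLocal T).loc (mu p) v) :=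
    (evPairing M (cycloChar p)).φ n
  have hq : ∀ s a, q (((galLocal T).loc (dualT p M) v).ρ s a) =
      ((galLocal T).loc (mu p) v).ρ s (q a) := by
    intro s ξ
    have h := (evPairing M (cycloChar p)).equivariant ((galLocal T).r v s) n ξ
    rw [hn s] at h
    exact h
  have hsurj : Function.Surjective q := by
    have hex : ∃ f : Module.Dual (ZMod p) M, f n ≠ 0 := by
      by_contra hcon
      refine hn0 ((Module.forall_dual_apply_eq_zero_iff (ZMod p) n).1 fun f => ?_)
      by_contra hf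
      exact hcon ⟨f, hf⟩
    obtain ⟨f, hf⟩ := hex
    intro c
    refine ⟨((c : ZMod p) * (f n)⁻¹) • f, ?_⟩
    change (((c : ZMod p) * (f n)⁻¹) • f) n = c
    rw [LinearMap.smul_apply, smul_eq_mul, mul_assoc, inv_mul_cancel₀ hf, mul_one]
  -- the kernel
  let Ksub : Subrepresentation ((galLocal T).loc (dualT p M) v).ρ :=
    ⟨LinearMap.ker q, fun s ξ hξ => by
      rw [LinearMap.mem_ker] at hξ ⊢
      rw [hq, hξ, map_zero]⟩
  let K : Rep.{0} (ZMod p) ((galLocal T).Gv v) := Rep.of Ksub.toRepresentation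
  let i : K →ₗ[ZMod p] ((galLocal T).loc (dualT p M) v) := (LinearMap.ker q).subtype
  have hi : ∀ s a, i (K.ρ s a) = ((galLocal T).loc (dualT p M) v).ρ s (i a) := fun s a => rfl
  have hinj : Function.Injective i := Subtype.val_injective
  have hex : LinearMap.range i = LinearMap.ker q := Submodule.range_subtype _
  have hKfin : Module.Finite (ZMod p) K := by
    haveI : Module.Finite (ZMod p) M := hMfin
    haveI : Module.Finite (ZMod p) (Module.Dual (ZMod p) M) := inferInstance
    change Module.Finite (ZMod p) ↥(LinearMap.ker q)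
    exact Module.Finite.of_injective (LinearMap.ker q).subtype Subtype.val_injective
  have hKsm : IsSmooth ((galLocal T).lev v) K := by
    obtain ⟨N, hN, h⟩ := hAsm
    exact ⟨N, hN, fun s hs a => Subtype.ext (h s hs a.1)⟩
  have hK3 := hH3 v K hKfin hKsm
  -- the trace is nonzero on `H²(G_v, μ_p)`
  obtain ⟨c0, hc0, htr0⟩ := hTR hpT tr htr hC v
  obtain ⟨x, hx, hqx⟩ := exists_lift_Z2 ((galLocal T).lev v) K
    ((galLocal T).loc (dualT p M) v) ((galLocal T).loc (mu p) v) i q hi hq hinj hsurj hex hAsm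
    hK3 c0 hc0
  refine ⟨x, hx, ?_⟩
  have hcup : cupc₀₃ (galLocal T) (evPairing M (cycloChar p)) n
      ((0, Pi.single v x) : CcAmb3 (galLocal T) (dualT p M)) =
      ((0, Pi.single v c0) : CcAmb3 (galLocal T) (mu p)) := by
    refine Prod.ext ?_ ?_
    · funext g
      change (evPairing M (cycloChar p)).φ n 0 = 0
      rw [map_zero]
    · funext w s
      change (evPairing M (cycloChar p)).φ n
        ((Pi.single v x : ∀ w : ↥T, (galLocal T).Gv w × (galLocal T).Gv w →
          (galLocal T).loc (dualT p M) w) w s) =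
        (Pi.single v c0 : ∀ w : ↥T, (galLocal T).Gv w × (galLocal T).Gv w →
          (galLocal T).loc (mu p) w) w s
      by_cases hw : w = v
      · subst hw
        rw [Pi.single_eq_same, Pi.single_eq_same]
        exact congrFun hqx s
      · rw [Pi.single_eq_of_ne (M := fun w : ↥T => (galLocal T).Gv w × (galLocal T).Gv w →
          (galLocal T).loc (dualT p M) w) hw x, Pi.single_eq_of_ne (M := fun w : ↥T =>
          (galLocal T).Gv w × (galLocal T).Gv w → (galLocal T).loc (mu p) w) hw c0]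
        change (evPairing M (cycloChar p)).φ n 0 = 0
        rw [map_zero]
  rw [hcup]
  exact htr0

end Loc2

end Fermat.Agent.P1.helper11
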