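import Fermat.Agent.P1.helper30_FlatCntPkgs
import Fermat.Agent.S55.helper51_Krasner

/-!
# P1 / FLAT-CNT, package LF (helper65, task 789): LF-OPEN and LF-ZETA

* `lfOpen : LFOpenStatement p` : every subgroup of `G_p` containing a level is the fixing subgroup
  of a finite extension of `ℚ_p` inside `Ω` (infinite Galois correspondence; the subgroup is open,
  hence closed);
* `lfZeta : LFZetaStatement p` : `ζ_p ∈ T` iff `G_T` fixes the `p`-th roots of unity.
-/

set_option autoImplicit false

open IsLocalRing ExtCitation groupCohomology Polynomial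

noncomputable section

namespace Fermat.Agent.P1.helper65

open Fermat.Agent.S55 Fermat.Agent.P1.helper70 Fermat.Agent.P1.helper30
open Fermat.Agent.S55.helper8 Fermat.Agent.S55.helper7

variable (p : ℕ) [Fact p.Prime]

/-- `Ω / ℚ_p` is Galois. -/
lemma lf_isGalois : IsGalois ℚ_[p] (PadicAlgCl p) := IsGalois.mk

/-- **LF-OPEN**. -/
theorem lfOpen : LFOpenStatement p := by
  intro U hU
  obtain ⟨N, ⟨F, hFfin, -, rfl⟩, hNU⟩ := hU
  have := hFfin
  obtain ⟨K, hK, hKF⟩ :=
    Fermat.Agent.S55.helper51.exists_finiteDimensional_fixingSubgroup_eq_comap p F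
  have := hK
  have : IsGalois ℚ_[p] (PadicAlgCl p) := lf_isGalois p
  have hKU : K.fixingSubgroup ≤ U := by
    intro g hg
    apply hNU
    rw [hKF] at hg
    exact hg
  have hUopen : IsOpen (U : Set (Gp p)) :=
    Subgroup.isOpen_mono hKU K.fixingSubgroup_isOpen
  have hUclosed : IsClosed (U : Set (Gp p)) := Subgroup.isClosed_of_isOpen U hUopen
  have hfix : (IntermediateField.fixedField U).fixingSubgroup = U :=
    InfiniteGalois.fixingSubgroup_fixedField ⟨U, hUclosed⟩
  have hle : IntermediateField.fixedField U ≤ K := by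
    have h1 : IntermediateField.fixedField U ≤ IntermediateField.fixedField K.fixingSubgroup :=
      IntermediateField.fixedField_antitone hKU
    rwa [InfiniteGalois.fixedField_fixingSubgroup] at h1
  refine ⟨IntermediateField.fixedField U, ?_, hfix⟩
  have hle' : (IntermediateField.fixedField U).toSubalgebra.toSubmodule ≤
      K.toSubalgebra.toSubmodule := hle
  exact Submodule.finiteDimensional_of_le hle'

/-- **LF-ZETA**. -/
theorem lfZeta : LFZetaStatement p := by
  intro T _
  have : IsGalois ℚ_[p] (PadicAlgCl p) := lf_isGalois p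
  constructor
  · rintro ⟨ζ₀, hζ₀T, hζ₀⟩ g hg ζ hζ
    have hp : 0 < p := (Fact.out : p.Prime).pos
    obtain ⟨i, -, rfl⟩ := hζ₀.eq_pow_of_pow_eq_one hζ
    rw [map_pow]
    congr 1
    exact (IntermediateField.mem_fixingSubgroup_iff T g).mp hg ζ₀ hζ₀T
  · intro h
    have : NeZero (p : PadicAlgCl p) := ⟨by
      exact_mod_cast (Fact.out : p.Prime).ne_zero⟩
    obtain ⟨ζ₀, hζ₀⟩ := HasEnoughRootsOfUnity.exists_primitiveRoot (PadicAlgCl p) p
    refine ⟨ζ₀, ?_, hζ₀⟩
    rw [← InfiniteGalois.fixedField_fixingSubgroup T, IntermediateField.mem_fixedField_iff]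
    intro g hg
    exact h g hg ζ₀ hζ₀.pow_eq_one

end Fermat.Agent.P1.helper65
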