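import Fermat.Agent.P1.helper14_KRDefs
import Fermat.Agent.S55.helper7_LocRes

/-!
# P1 / FLAT-KR / KR-EIS (helper86): Eisenstein polynomials over a `p`-adic field

`krEis p : KREisStatement p` : for an Eisenstein polynomial `F` over a `p`-adic field `K0`
there is a `p`-adic field `E ⊇ K0` with a root `ϖ` of `F` such that `ord_E ϖ = 1`,
`e(E) = deg F * e(K0)` and `f(E) = f(K0)`.

Proof without the Eisenstein criterion: `E := AdjoinRoot G` for an irreducible factor `G` of `F`;
the Newton polygon (`eis_val`) gives `deg F * ord ϖ = e(E/K0) ≤ [E : K0] = deg G ≤ deg F`.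
-/

set_option autoImplicit false
set_option linter.style.haveILetI false
set_option linter.unusedSectionVars false
set_option linter.unusedVariables false

namespace Fermat.Agent.P1.helper86

open Fermat.Agent.S55.helper8 Fermat.Agent.S55.helper7 Fermat.Agent.S55.helper33
open Fermat.Agent.P1.helper14

variable (p : ℕ) [Fact p.Prime]

section val

variable (E : Type) [Field E] [Algebra ℚ_[p] E] [FiniteDimensional ℚ_[p] E]

/-- strict ultrametric inequality -/
theorem ordT_add_eq_of_lt' {x y : E} (h : ordT p E x < ordT p E y) :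
    ordT p E (x + y) = ordT p E x := by
  apply le_antisymm
  · by_contra hlt
    rw [not_le] at hlt
    have h1 := ordT_add_ge p E (x + y) (-y)
    rw [add_neg_cancel_right, ordT_neg] at h1
    exact absurd h1 (not_le.2 (lt_min hlt h))
  · have := ordT_add_ge p E x y
    rwa [min_eq_left h.le] at this

/-- a sum of elements of valuation `≥ m` has valuation `≥ m` -/
theorem le_ordT_sum {ι : Type*} (s : Finset ι) (f : ι → E) (m : WithTop ℤ)
    (h : ∀ i ∈ s, m ≤ ordT p E (f i)) : m ≤ ordT p E (∑ i ∈ s, f i) := by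
  classical
  induction s using Finset.induction_on with
  | empty => simp [Fermat.Agent.S55.helper7.ordT_zero]
  | insert a s ha ih =>
    rw [Finset.sum_insert ha]
    refine le_trans (le_min (h a (Finset.mem_insert_self a s)) (ih fun i hi => h i (Finset.mem_insert_of_mem hi)))
      (ordT_add_ge p E _ _)


/-- the Newton polygon of an Eisenstein-type equation: if `ϖ ^ n + ∑_{i<n} c i ϖ ^ i = 0` with
`ord (c i) ≥ e'` and `ord (c 0) = e' > 0`, then `n * ord ϖ = e'`. -/
theorem eis_val (ϖ : E) (n : ℕ) (c : ℕ → E) (e' : ℤ) (he' : 0 < e')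
    (hc : ∀ i, i < n → ((e' : ℤ) : WithTop ℤ) ≤ ordT p E (c i))
    (hc0 : ordT p E (c 0) = ((e' : ℤ) : WithTop ℤ))
    (hroot : ϖ ^ n + ∑ i ∈ Finset.range n, c i * ϖ ^ i = 0) :
    ∃ w : ℤ, ordT p E ϖ = ((w : ℤ) : WithTop ℤ) ∧ (n : ℤ) * w = e' := by
  -- `n > 0`
  have hn : 0 < n := by
    rcases Nat.eq_zero_or_pos n with h | h
    · subst h
      simp at hroot
    · exact h
  obtain ⟨m, rfl⟩ : ∃ m, n = m + 1 := ⟨n - 1, by omega⟩
  have hc0ne : c 0 ≠ 0 := by
    intro h
    rw [h, Fermat.Agent.S55.helper7.ordT_zero] at hc0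
    exact WithTop.coe_ne_top hc0.symm
  have hϖ : ϖ ≠ 0 := by
    intro h
    rw [h, Finset.sum_range_succ'] at hroot
    simp at hroot
    exact hc0ne hroot
  set w : ℤ := ord p E (Units.mk0 ϖ hϖ) with hw
  have hordϖ : ordT p E ϖ = ((w : ℤ) : WithTop ℤ) := Fermat.Agent.S55.helper7.ordT_of_ne_zero p E hϖ
  have hpow : ∀ i : ℕ, ordT p E (ϖ ^ i) = (((i : ℤ) * w : ℤ) : WithTop ℤ) := by
    intro i
    rw [Fermat.Agent.S55.helper7.ordT_pow, hordϖ, ← WithTop.coe_nsmul, nsmul_eq_mul]
  have hterm : ∀ i, i < m + 1 → (((e' + (i : ℤ) * w : ℤ)) : WithTop ℤ) ≤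
      ordT p E (c i * ϖ ^ i) := by
    intro i hi
    rw [Fermat.Agent.S55.helper7.ordT_mul, hpow]
    push_cast
    exact add_le_add (hc i hi) le_rfl
  have hsum : ordT p E (∑ i ∈ Finset.range (m + 1), c i * ϖ ^ i) =
      ((((m + 1 : ℕ) : ℤ) * w : ℤ) : WithTop ℤ) := by
    have h1 : ∑ i ∈ Finset.range (m + 1), c i * ϖ ^ i = - ϖ ^ (m + 1) := by
      rw [eq_neg_iff_add_eq_zero, add_comm]
      exact hroot
    rw [h1, Fermat.Agent.S55.helper7.ordT_neg, hpow]
  refine ⟨w, hordϖ, ?_⟩
  rcases le_or_gt w 0 with hw0 | hw1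
  · -- impossible
    exfalso
    have h2 : (((1 + ((m + 1 : ℕ) : ℤ) * w : ℤ)) : WithTop ℤ) ≤
        ordT p E (∑ i ∈ Finset.range (m + 1), c i * ϖ ^ i) := by
      apply le_ordT_sum
      intro i hi
      rw [Finset.mem_range] at hi
      refine le_trans ?_ (hterm i hi)
      rw [WithTop.coe_le_coe]
      have h3 : ((m + 1 : ℕ) : ℤ) * w ≤ (i : ℤ) * w := by
        apply mul_le_mul_of_nonpos_right _ hw0
        exact_mod_cast hi.le
      linarith
    rw [hsum, WithTop.coe_le_coe] at h2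
    linarith
  · -- the term `i = 0` dominates
    have h2 : ordT p E (∑ i ∈ Finset.range (m + 1), c i * ϖ ^ i) = ((e' : ℤ) : WithTop ℤ) := by
      rw [Finset.sum_range_succ', pow_zero, mul_one, add_comm]
      have h3 : (((e' + 1 : ℤ)) : WithTop ℤ) ≤
          ordT p E (∑ i ∈ Finset.range m, c (i + 1) * ϖ ^ (i + 1)) := by
        apply le_ordT_sum
        intro i hi
        rw [Finset.mem_range] at hi
        refine le_trans ?_ (hterm (i + 1) (by omega))
        rw [WithTop.coe_le_coe]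
        have h4 : (1 : ℤ) ≤ ((i + 1 : ℕ) : ℤ) * w := by
          have h5 : (1 : ℤ) ≤ ((i + 1 : ℕ) : ℤ) := by exact_mod_cast Nat.succ_le_succ (Nat.zero_le i)
          nlinarith
        linarith
      rw [ordT_add_eq_of_lt' p E, hc0]
      rw [hc0]
      refine lt_of_lt_of_le ?_ h3
      rw [WithTop.coe_lt_coe]
      linarith
    rw [hsum] at h2
    exact_mod_cast h2

end val


/-- **KR-EIS**: an Eisenstein polynomial over a `p`-adic field has a root in a totally ramified
extension, where the root is a uniformiser. -/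
theorem krEis : KREisStatement p := by
  intro K0 _ _ _ F hF hn hpos h0
  classical
  have hF0 : F ≠ 0 := hF.ne_zero
  have hFu : ¬ IsUnit F := Polynomial.not_isUnit_of_natDegree_pos F hn
  obtain ⟨G, hGirr, hGF⟩ := WfDvdMonoid.exists_irreducible_factor hFu hF0
  haveI : Fact (Irreducible G) := ⟨hGirr⟩
  have hG0 : G ≠ 0 := hGirr.ne_zero
  haveI : FiniteDimensional K0 (AdjoinRoot G) := (AdjoinRoot.powerBasis hG0).finite
  haveI : FiniteDimensional ℚ_[p] (AdjoinRoot G) := Module.Finite.trans K0 (AdjoinRoot G)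
  have hfin : Module.finrank K0 (AdjoinRoot G) = G.natDegree := by
    rw [(AdjoinRoot.powerBasis hG0).finrank, AdjoinRoot.powerBasis_dim]
  have hdeg : G.natDegree ≤ F.natDegree := Polynomial.natDegree_le_of_dvd hGF hF0
  have hroot : Polynomial.aeval (AdjoinRoot.root G) F = 0 := by
    obtain ⟨H, rfl⟩ := hGF
    rw [map_mul, AdjoinRoot.aeval_eq, AdjoinRoot.mk_self, zero_mul]
  have hexp : (AdjoinRoot.root G) ^ F.natDegree + ∑ i ∈ Finset.range F.natDegree,
      algebraMap K0 (AdjoinRoot G) (F.coeff i) * (AdjoinRoot.root G) ^ i = 0 := by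
    rw [← hroot]
    conv_rhs => rw [hF.as_sum]
    simp only [map_add, map_pow, Polynomial.aeval_X, map_sum, map_mul, Polynomial.aeval_C]
  have hrelE : 0 < relE p K0 (AdjoinRoot G) := relE_pos p K0 (AdjoinRoot G)
  have hrelF : 0 < relF p K0 (AdjoinRoot G) := relF_pos p K0 (AdjoinRoot G)
  have hc : ∀ i, i < F.natDegree → (((relE p K0 (AdjoinRoot G) : ℤ)) : WithTop ℤ) ≤
      ordT p (AdjoinRoot G) (algebraMap K0 (AdjoinRoot G) (F.coeff i)) := by
    intro i hi
    by_cases hz : F.coeff i = 0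
    · rw [hz, map_zero, Fermat.Agent.S55.helper7.ordT_zero]
      exact le_top
    · rw [ordT_algebraMap_of_ne_zero p K0 _ hz, WithTop.coe_le_coe]
      have h1 := hpos i hi
      rw [Fermat.Agent.S55.helper7.ordT_of_ne_zero p K0 hz] at h1
      have h2 : (1 : ℤ) ≤ ord p K0 (Units.mk0 _ hz) := by
        have : (0 : ℤ) < ord p K0 (Units.mk0 _ hz) := by exact_mod_cast h1
        omega
      have h3 : (0 : ℤ) < (relE p K0 (AdjoinRoot G) : ℤ) := by exact_mod_cast hrelE
      nlinarith
  have hc0 : ordT p (AdjoinRoot G) (algebraMap K0 (AdjoinRoot G) (F.coeff 0)) =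
      (((relE p K0 (AdjoinRoot G) : ℤ)) : WithTop ℤ) := by
    have hz : F.coeff 0 ≠ 0 := by
      intro h
      rw [h, Fermat.Agent.S55.helper7.ordT_zero] at h0
      exact absurd h0 (by simp)
    rw [ordT_algebraMap_of_ne_zero p K0 _ hz]
    rw [Fermat.Agent.S55.helper7.ordT_of_ne_zero p K0 hz] at h0
    have h1 : ord p K0 (Units.mk0 _ hz) = 1 := by exact_mod_cast h0
    rw [h1, mul_one]
  obtain ⟨w, hw, hnw⟩ := eis_val p (AdjoinRoot G) (AdjoinRoot.root G) F.natDegree
    (fun i => algebraMap K0 (AdjoinRoot G) (F.coeff i)) (relE p K0 (AdjoinRoot G))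
    (by exact_mod_cast hrelE) hc hc0 hexp
  have h1 := relE_mul_relF p K0 (AdjoinRoot G)
  rw [hfin] at h1
  -- numerics
  have hnZ : (0 : ℤ) < (F.natDegree : ℤ) := by exact_mod_cast hn
  have hEZ : (0 : ℤ) < (relE p K0 (AdjoinRoot G) : ℤ) := by exact_mod_cast hrelE
  have hle : relE p K0 (AdjoinRoot G) ≤ F.natDegree := by
    calc relE p K0 (AdjoinRoot G) ≤ relE p K0 (AdjoinRoot G) * relF p K0 (AdjoinRoot G) :=
          Nat.le_mul_of_pos_right _ hrelF
      _ = G.natDegree := h1
      _ ≤ F.natDegree := hdeg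
  have hleZ : (relE p K0 (AdjoinRoot G) : ℤ) ≤ (F.natDegree : ℤ) := by exact_mod_cast hle
  have hw0 : 0 < w := by
    by_contra hcon
    rw [not_lt] at hcon
    nlinarith
  have hw1 : w = 1 := by
    by_contra hcon
    have : 2 ≤ w := by omega
    nlinarith
  have hE : relE p K0 (AdjoinRoot G) = F.natDegree := by
    rw [hw1, mul_one] at hnw
    exact_mod_cast hnw.symm
  have hFrel : relF p K0 (AdjoinRoot G) = 1 := by
    have h2 : F.natDegree * relF p K0 (AdjoinRoot G) ≤ F.natDegree := by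
      rw [← hE]
      rw [h1, hE]
      exact hdeg
    have h3 : relF p K0 (AdjoinRoot G) ≤ 1 := by
      by_contra hcon
      rw [not_le] at hcon
      have : F.natDegree * 2 ≤ F.natDegree * relF p K0 (AdjoinRoot G) :=
        Nat.mul_le_mul_left _ hcon
      omega
    omega
  refine ⟨AdjoinRoot G, inferInstance, inferInstance, inferInstance, inferInstance,
    inferInstance, AdjoinRoot.root G, hroot, ?_, ?_, ?_⟩
  · rw [hw, hw1]
    rfl
  · rw [edeg_eq_relE_mul p K0 (AdjoinRoot G), hE]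
  · rw [fdeg_eq_relF_mul p K0 (AdjoinRoot G), hFrel, one_mul]

end Fermat.Agent.P1.helper86
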