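import Fermat.Agent.P1.helper30_FlatCntL3
import Fermat.Agent.P1.helper86_KREis

/-!
# P1 / FLAT-CNT / BDD-SUB (helper86, task 787)

`bddSub p : BddSubStatement p` : the bounded Kummer characters `G_p → 𝔽_p` over a `p`-adic field
`T` form a subgroup, stable under the scalars of `𝔽_p`.

If `f₁`, `f₂` are given by `(u₁, α₁, ζ₁)` and `(u₂, α₂, ζ₂)`, write `ζ₁ = ζ₂ ^ i`; then
`f₁ + f₂` is given by `(u₁ u₂ ^ i, α₁ α₂ ^ i, ζ₁)` and `a f₁` by `(u₁ ^ a, α₁ ^ a, ζ₁)`.
The units `u` with `ord_T (u - 1) ≥ e_T` are stable under products.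
-/

set_option autoImplicit false
set_option linter.unusedSectionVars false
set_option linter.unusedVariables false
set_option linter.style.haveILetI false

namespace Fermat.Agent.P1.helper86

open Fermat.Agent.S55.helper8 Fermat.Agent.S55.helper7
open Fermat.Agent.P1.helper30

variable (p : ℕ) [Fact p.Prime]

namespace BddSub

section val

variable (L : Type) [Field L] [Algebra ℚ_[p] L] [FiniteDimensional ℚ_[p] L]

/-- the ramification index is positive -/
theorem edeg_cast_pos : (0 : WithTop ℤ) < ((edeg p L : ℤ) : WithTop ℤ) := by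
  rw [← Fermat.Agent.S55.helper7.ordT_q]
  exact Fermat.Agent.S55.helper7.ordT_q_pos p L

/-- a principal unit has valuation `0` -/
theorem ordT_eq_zero_of_pos_sub_one {u : L} (h : 0 < ordT p L (u - 1)) : ordT p L u = 0 := by
  have h1 : ordT p L (1 : L) < ordT p L (u - 1) := by
    rw [Fermat.Agent.S55.helper7.ordT_one]; exact h
  have h2 := ordT_add_eq_of_lt' p L h1
  rw [Fermat.Agent.S55.helper7.ordT_one] at h2
  have h3 : (1 : L) + (u - 1) = u := by ring
  rw [h3] at h2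
  exact h2

/-- the units `u` with `ord (u - 1) ≥ m > 0` are stable under products -/
theorem le_ordT_mul_sub_one {m : WithTop ℤ} (hm : 0 < m) {u v : L}
    (hu : m ≤ ordT p L (u - 1)) (hv : m ≤ ordT p L (v - 1)) :
    m ≤ ordT p L (u * v - 1) := by
  have hv0 : ordT p L v = 0 := ordT_eq_zero_of_pos_sub_one p L (lt_of_lt_of_le hm hv)
  have h1 : u * v - 1 = (u - 1) * v + (v - 1) := by ring
  rw [h1]
  refine le_trans ?_ (Fermat.Agent.S55.helper7.ordT_add_ge p L _ _)
  rw [Fermat.Agent.S55.helper7.ordT_mul, hv0, add_zero]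
  exact le_min hu hv

/-- the units `u` with `ord (u - 1) ≥ m > 0` are stable under powers -/
theorem le_ordT_pow_sub_one {m : WithTop ℤ} (hm : 0 < m) {u : L}
    (hu : m ≤ ordT p L (u - 1)) (n : ℕ) :
    m ≤ ordT p L (u ^ n - 1) := by
  induction n with
  | zero =>
    rw [pow_zero, sub_self, Fermat.Agent.S55.helper7.ordT_zero]
    exact le_top
  | succ n ih =>
    rw [pow_succ]
    exact le_ordT_mul_sub_one p L hm ih hu

end val

/-- powers of a `p`-th root of unity only depend on the exponent modulo `p` -/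
theorem pow_val_add {M : Type*} [Monoid M] {ζ : M} (hζ : ζ ^ p = 1) (a b : ZMod p) :
    ζ ^ (a + b).val = ζ ^ a.val * ζ ^ b.val := by
  rw [ZMod.val_add, ← pow_eq_pow_mod _ hζ, pow_add]

theorem pow_val_mul {M : Type*} [Monoid M] {ζ : M} (hζ : ζ ^ p = 1) (a b : ZMod p) :
    ζ ^ (a * b).val = (ζ ^ b.val) ^ a.val := by
  rw [ZMod.val_mul, ← pow_eq_pow_mod _ hζ, ← pow_mul, mul_comm]

end BddSub

open BddSub in
/-- **BDD-SUB**: the bounded functions form a subgroup, stable under scalars. -/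
theorem bddSub : BddSubStatement p := by
  intro T _ f₁ f₂ a h₁ h₂
  obtain ⟨u₁, α₁, ζ₁, hv₁, hα₁, hζ₁, hg₁⟩ := h₁
  obtain ⟨u₂, α₂, ζ₂, hv₂, hα₂, hζ₂, hg₂⟩ := h₂
  obtain ⟨i, -, hi⟩ := hζ₂.eq_pow_of_pow_eq_one hζ₁.pow_eq_one
  have hpos := edeg_cast_pos p T
  constructor
  · refine ⟨u₁ * u₂ ^ i, α₁ * α₂ ^ i, ζ₁, ?_, ?_, hζ₁, ?_⟩
    · exact le_ordT_mul_sub_one p T hpos hv₁ (le_ordT_pow_sub_one p T hpos hv₂ i)
    · rw [mul_pow, ← pow_mul, mul_comm i p, pow_mul, hα₁, hα₂]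
      push_cast
      rfl
    · intro g hg
      rw [map_mul, map_pow, hg₁ g hg, hg₂ g hg, pow_val_add p hζ₁.pow_eq_one, mul_pow,
        ← pow_mul, mul_comm (f₂ g).val i, pow_mul, hi]
      ring
  · refine ⟨u₁ ^ a.val, α₁ ^ a.val, ζ₁, ?_, ?_, hζ₁, ?_⟩
    · exact le_ordT_pow_sub_one p T hpos hv₁ a.val
    · rw [← pow_mul, mul_comm a.val p, pow_mul, hα₁]
      push_cast
      rfl
    · intro g hg
      rw [map_pow, hg₁ g hg, pow_val_mul p hζ₁.pow_eq_one, mul_pow]

end Fermat.Agent.P1.helper86
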