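import Fermat.Agent.P1.helper11_FlatKQII
import Fermat.Agent.P1.helper86_FlatBddSub
import Fermat.Agent.P1.helper10_FCIn
import Fermat.Agent.P1.helper65_LFOpenZeta

/-!
# P1 / FLAT-CNT (helper11): the bridge `J1` and KQ-II with the landed bridges wired in

* `bddLevel : BddLevelStatement p` : a bounded function (`helper30.IsBddHom`, with ITS OWN
  primitive root of unity `ζ'`) has level `≥ e_T` with respect to ANY primitive `p`-th root of
  unity `ζ` (`helper14.HasLevel`): if `ζ' = ζ ^ j`, replace `(u, α)` by `(u ^ j', α ^ j')` with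
  `j j' ≡ 1 mod p`.
* `kqII_of_kumEqII : KumEqIIStatement p → LFEdegStatement p → KQIIStatement p`
  (`J1`, FC-IN = `helper10.fcIn`, LF-ZETA = `helper65.lfZeta` wired in).
-/

set_option autoImplicit false
set_option linter.style.haveILetI false
set_option linter.unusedSectionVars false

open IsLocalRing ExtCitation groupCohomology

noncomputable section

namespace Fermat.Agent.P1.helper11

open Fermat.Agent.S55 Fermat.Agent.P1.helper70 Fermat.Agent.P1.helper7
open Fermat.Agent.P1.helper30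
open Fermat.Agent.S55.helper8 Fermat.Agent.S55.helper7

variable (p : ℕ) [Fact p.Prime]

/-- powers of a `p`-th root of unity only depend on the exponent modulo `p` -/
lemma pow_eq_pow_of_zmod_eq {M : Type*} [Monoid M] {ζ : M} (hζ : ζ ^ p = 1) {m n : ℕ}
    (h : (m : ZMod p) = (n : ZMod p)) : ζ ^ m = ζ ^ n := by
  rw [pow_eq_pow_mod m hζ, pow_eq_pow_mod n hζ]
  have := (ZMod.natCast_eq_natCast_iff' m n p).mp h
  rw [this]

/-- **J1** (`ζ`-independence). -/
theorem bddLevel : BddLevelStatement p := by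
  intro T _ ζ hζ _ f hf
  obtain ⟨u, α, ζ', hv, hα, hζ', hg⟩ := hf
  haveI : NeZero p := ⟨(Fact.out : p.Prime).ne_zero⟩
  obtain ⟨j, -, hj⟩ := hζ.eq_pow_of_pow_eq_one hζ'.pow_eq_one
  have hpos := helper86.BddSub.edeg_cast_pos p T
  -- `j` is invertible modulo `p`
  have hj0 : (j : ZMod p) ≠ 0 := by
    intro h0
    have h1 : ζ ^ j = ζ ^ 0 := pow_eq_pow_of_zmod_eq p hζ.pow_eq_one (by simpa using h0)
    rw [pow_zero, hj] at h1
    exact hζ'.ne_one (Fact.out : p.Prime).one_lt h1
  set n : ℕ := ((j : ZMod p)⁻¹).val with hn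
  have hjn : ((j * n : ℕ) : ZMod p) = 1 := by
    rw [Nat.cast_mul, hn, ZMod.natCast_zmod_val, mul_inv_cancel₀ hj0]
  have hu0 : ordT p T u = 0 :=
    helper86.BddSub.ordT_eq_zero_of_pos_sub_one p T (lt_of_lt_of_le hpos hv)
  have hune : u ≠ 0 := by
    intro h0
    rw [h0, Fermat.Agent.S55.helper7.ordT_zero] at hu0
    exact WithTop.top_ne_zero hu0
  refine ⟨u ^ n, pow_ne_zero n hune, helper86.BddSub.le_ordT_pow_sub_one p T hpos hv n,
    α ^ n, ?_, fun g hg' => ?_⟩
  · rw [← pow_mul, mul_comm n p, pow_mul, hα]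
    push_cast
    rfl
  · rw [map_pow, hg g hg', mul_pow, ← hj, ← pow_mul, ← pow_mul]
    congr 1
    apply pow_eq_pow_of_zmod_eq p hζ.pow_eq_one
    have e : j * ((f g).val * n) = (j * n) * (f g).val := by ring
    rw [e, Nat.cast_mul, hjn, one_mul]

/-- **KQ-II** from KUMEQ-II and LF-EDEG (`J1`, FC-IN and LF-ZETA are landed theorems). -/
theorem kqII_of_kumEqII (hII : helper14.KumEqIIStatement p) (hEdeg : LFEdegStatement p) :
    KQIIStatement p :=
  kqII_of p hII (bddLevel p) (helper10.fcIn p) (helper65.lfZeta p) hEdeg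

end Fermat.Agent.P1.helper11
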