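import Fermat.Agent.P1.helper7_LSODefs

/-!
# P1 / LSO-DIM (helper93)

`dimStatement : Fermat.Agent.P1.helper7.DimStatement` : for a line `L` of the two-dimensional
space `V`, `dim W(L) = 1` and `dim B⁰(L) = 2`.  Proof: matrices in a basis adapted to `L`.
-/

set_option autoImplicit false

noncomputable section

namespace Fermat.Agent.P1.helper93

open Fermat.Agent.P1.helper70 Fermat.Agent.P1.helper7

section

variable {k : Type} [Field k] (ρbar : ResidualGaloisRep k)

/-- A basis of `V` adapted to a line `L`: `L` is the locus where the second coordinate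
vanishes. -/
lemma lso_exists_adapted_basis (L : Submodule k ρbar.V) (hL : Module.finrank k L = 1) :
    ∃ b : Module.Basis (Fin 2) k ρbar.V, ∀ u : ρbar.V, u ∈ L ↔ b.repr u 1 = 0 := by
  obtain ⟨v, hv0, hv⟩ := finrank_eq_one_iff'.mp hL
  have hv0' : (v : ρbar.V) ≠ 0 := fun h => hv0 (Subtype.ext h)
  have hLspan : ∀ u : ρbar.V, u ∈ L ↔ ∃ c : k, c • (v : ρbar.V) = u := by
    intro u
    constructor
    · intro hu
      obtain ⟨c, hc⟩ := hv ⟨u, hu⟩
      exact ⟨c, congrArg Subtype.val hc⟩
    · rintro ⟨c, rfl⟩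
      exact L.smul_mem c v.2
  -- a vector outside `L`
  have hne : L ≠ ⊤ := by
    intro h
    have := ρbar.finrank_eq
    rw [← finrank_top k ρbar.V, ← h, hL] at this
    omega
  obtain ⟨w, -, hw⟩ := SetLike.exists_of_lt (lt_top_iff_ne_top.mpr hne)
  have hli : LinearIndependent k ![(v : ρbar.V), w] := by
    rw [LinearIndependent.pair_iff]
    intro s t hst
    have ht : t = 0 := by
      by_contra ht
      apply hw
      rw [hLspan]
      refine ⟨-(t⁻¹ * s), ?_⟩
      have : t • w = -(s • (v : ρbar.V)) := eq_neg_of_add_eq_zero_right hst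
      calc (-(t⁻¹ * s)) • (v : ρbar.V) = t⁻¹ • (-(s • (v : ρbar.V))) := by
            rw [neg_smul, mul_smul, smul_neg]
        _ = t⁻¹ • (t • w) := by rw [this]
        _ = w := by rw [smul_smul, inv_mul_cancel₀ ht, one_smul]
    subst ht
    rw [zero_smul, add_zero] at hst
    exact ⟨(smul_eq_zero.mp hst).resolve_right hv0', rfl⟩
  have hcard : Fintype.card (Fin 2) = Module.finrank k ρbar.V := by
    rw [ρbar.finrank_eq, Fintype.card_fin]
  let b := basisOfLinearIndependentOfCardEqFinrank hli hcard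
  have hb0 : b 0 = v := by
    simp [b]
  have hb1 : b 1 = w := by
    simp [b]
  refine ⟨b, fun u => ?_⟩
  constructor
  · intro hu
    obtain ⟨c, rfl⟩ := (hLspan u).mp hu
    rw [← hb0, map_smul, b.repr_self]
    simp
  · intro hu
    rw [hLspan]
    refine ⟨b.repr u 0, ?_⟩
    conv_rhs => rw [← b.sum_repr u]
    rw [Fin.sum_univ_two, hu, zero_smul, add_zero, hb0]

variable {ρbar}

/-- The matrix of an element of `ad⁰` in a basis, as a linear map. -/
def lsoMat (b : Module.Basis (Fin 2) k ρbar.V) : Ad0 ρbar →ₗ[k] Matrix (Fin 2) (Fin 2) k :=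
  (LinearMap.toMatrix b b).toLinearMap ∘ₗ Ad0.toEnd ρbar

lemma lsoMat_apply (b : Module.Basis (Fin 2) k ρbar.V) (x : Ad0 ρbar) :
    lsoMat b x = LinearMap.toMatrix b b (Ad0.toEnd ρbar x) := rfl

lemma lsoMat_injective (b : Module.Basis (Fin 2) k ρbar.V) :
    Function.Injective (lsoMat b) := by
  intro x y h
  exact Ad0.toEnd_injective ρbar ((LinearMap.toMatrix b b).injective h)

lemma lsoMat_trace (b : Module.Basis (Fin 2) k ρbar.V) (x : Ad0 ρbar) :
    lsoMat b x 0 0 + lsoMat b x 1 1 = 0 := by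
  have h := Ad0.trace_toEnd ρbar x
  rw [LinearMap.trace_eq_matrix_trace k b, Matrix.trace_fin_two] at h
  exact h

lemma lsoMat_repr (b : Module.Basis (Fin 2) k ρbar.V) (x : Ad0 ρbar) (w : ρbar.V)
    (i : Fin 2) :
    b.repr (Ad0.toEnd ρbar x w) i =
      lsoMat b x i 0 * b.repr w 0 + lsoMat b x i 1 * b.repr w 1 := by
  have h := LinearMap.toMatrix_mulVec_repr b b (Ad0.toEnd ρbar x) w
  have h' := congrFun h i
  rw [Matrix.mulVec, dotProduct, Fin.sum_univ_two] at h'
  rw [lsoMat_apply]
  exact h'.symm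

lemma lsoMat_exists (b : Module.Basis (Fin 2) k ρbar.V) (M : Matrix (Fin 2) (Fin 2) k)
    (hM : M 0 0 + M 1 1 = 0) : ∃ x : Ad0 ρbar, lsoMat b x = M := by
  have hmem : Matrix.toLin b b M ∈ LinearMap.ker (LinearMap.trace k ρbar.V) := by
    rw [LinearMap.mem_ker, LinearMap.trace_eq_matrix_trace k b, LinearMap.toMatrix_toLin,
      Matrix.trace_fin_two]
    exact hM
  let x : Ad0 ρbar := ⟨Matrix.toLin b b M, hmem⟩
  refine ⟨x, ?_⟩
  rw [lsoMat_apply]
  exact LinearMap.toMatrix_toLin b b M

lemma mem_borelSub_iff_lsoMat (b : Module.Basis (Fin 2) k ρbar.V) (L : Submodule k ρbar.V)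
    (hb : ∀ u : ρbar.V, u ∈ L ↔ b.repr u 1 = 0) (x : Ad0 ρbar) :
    x ∈ borelSub ρbar L ↔ lsoMat b x 1 0 = 0 := by
  rw [mem_borelSub]
  constructor
  · intro h
    have h0 : b 0 ∈ L := by
      rw [hb, b.repr_self]
      simp
    have := (hb _).mp (h _ h0)
    rw [lsoMat_repr, b.repr_self] at this
    simpa using this
  · intro h w hw
    rw [hb] at hw ⊢
    rw [lsoMat_repr, h, hw, zero_mul, mul_zero, add_zero]

lemma mem_nilSub_iff_lsoMat (b : Module.Basis (Fin 2) k ρbar.V) (L : Submodule k ρbar.V)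
    (hb : ∀ u : ρbar.V, u ∈ L ↔ b.repr u 1 = 0) (x : Ad0 ρbar) :
    x ∈ nilSub ρbar L ↔ lsoMat b x 0 0 = 0 ∧ lsoMat b x 1 0 = 0 ∧ lsoMat b x 1 1 = 0 := by
  rw [mem_nilSub]
  constructor
  · rintro ⟨h1, h2⟩
    have h0 : b 0 ∈ L := by
      rw [hb, b.repr_self]
      simp
    have e0 := h2 _ h0
    have e00 : lsoMat b x 0 0 = 0 := by
      have := congrArg (fun u => b.repr u 0) e0
      simp only [lsoMat_repr, b.repr_self, map_zero] at this
      simpa using this
    have e10 : lsoMat b x 1 0 = 0 := by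
      have := congrArg (fun u => b.repr u 1) e0
      simp only [lsoMat_repr, b.repr_self, map_zero] at this
      simpa using this
    refine ⟨e00, e10, ?_⟩
    have := lsoMat_trace b x
    rw [e00, zero_add] at this
    exact this
  · rintro ⟨e00, e10, e11⟩
    refine ⟨fun w => ?_, fun w hw => ?_⟩
    · rw [hb, lsoMat_repr, e10, e11, zero_mul, zero_mul, add_zero]
    · rw [hb] at hw
      apply b.repr.injective
      ext i
      rw [lsoMat_repr, hw, mul_zero, add_zero, LinearEquiv.map_zero, Finsupp.zero_apply]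
      fin_cases i
      · simp [e00]
      · simp [e10]

/-- **LSO-DIM** for `B⁰(L)`. -/
lemma finrank_borelSub (L : Submodule k ρbar.V) (hL : Module.finrank k L = 1) :
    Module.finrank k ↥(borelSub ρbar L) = 2 := by
  obtain ⟨b, hb⟩ := lso_exists_adapted_basis ρbar L hL
  let φ : ↥(borelSub ρbar L) →ₗ[k] (Fin 2 → k) :=
    { toFun := fun x => ![lsoMat b x.1 0 0, lsoMat b x.1 0 1]
      map_add' := fun x y => by
        ext i
        fin_cases i <;> simp
      map_smul' := fun c x => by
        ext i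
        fin_cases i <;> simp }
  have hφ : ∀ x : ↥(borelSub ρbar L), φ x = ![lsoMat b x.1 0 0, lsoMat b x.1 0 1] :=
    fun _ => rfl
  have hinj : Function.Injective φ := by
    rw [← LinearMap.ker_eq_bot, LinearMap.ker_eq_bot']
    intro x hx
    rw [hφ] at hx
    have e00 : lsoMat b x.1 0 0 = 0 := by simpa using congrFun hx 0
    have e01 : lsoMat b x.1 0 1 = 0 := by simpa using congrFun hx 1
    have e10 : lsoMat b x.1 1 0 = 0 := (mem_borelSub_iff_lsoMat b L hb x.1).mp x.2
    have e11 : lsoMat b x.1 1 1 = 0 := by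
      have := lsoMat_trace b x.1
      rw [e00, zero_add] at this
      exact this
    apply Subtype.ext
    apply lsoMat_injective b
    rw [Submodule.coe_zero, map_zero]
    ext i j
    fin_cases i <;> fin_cases j
    · exact e00
    · exact e01
    · exact e10
    · exact e11
  have hsurj : Function.Surjective φ := by
    intro v
    obtain ⟨x, hx⟩ := lsoMat_exists (ρbar := ρbar) b !![v 0, v 1; 0, -v 0] (by simp)
    have hxB : x ∈ borelSub ρbar L := by
      rw [mem_borelSub_iff_lsoMat b L hb, hx]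
      simp
    refine ⟨⟨x, hxB⟩, ?_⟩
    rw [hφ]
    ext i
    fin_cases i <;> simp [hx]
  rw [(LinearEquiv.ofBijective φ ⟨hinj, hsurj⟩).finrank_eq, Module.finrank_fin_fun]

/-- **LSO-DIM** for `W(L)`. -/
lemma finrank_nilSub (L : Submodule k ρbar.V) (hL : Module.finrank k L = 1) :
    Module.finrank k ↥(nilSub ρbar L) = 1 := by
  obtain ⟨b, hb⟩ := lso_exists_adapted_basis ρbar L hL
  let φ : ↥(nilSub ρbar L) →ₗ[k] k :=
    { toFun := fun x => lsoMat b x.1 0 1
      map_add' := fun x y => by simp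
      map_smul' := fun c x => by simp }
  have hφ : ∀ x : ↥(nilSub ρbar L), φ x = lsoMat b x.1 0 1 := fun _ => rfl
  have hinj : Function.Injective φ := by
    rw [← LinearMap.ker_eq_bot, LinearMap.ker_eq_bot']
    intro x hx
    rw [hφ] at hx
    obtain ⟨e00, e10, e11⟩ := (mem_nilSub_iff_lsoMat b L hb x.1).mp x.2
    apply Subtype.ext
    apply lsoMat_injective b
    rw [Submodule.coe_zero, map_zero]
    ext i j
    fin_cases i <;> fin_cases j
    · exact e00
    · exact hx
    · exact e10
    · exact e11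
  have hsurj : Function.Surjective φ := by
    intro a
    obtain ⟨x, hx⟩ := lsoMat_exists (ρbar := ρbar) b !![0, a; 0, 0] (by simp)
    have hxB : x ∈ nilSub ρbar L := by
      rw [mem_nilSub_iff_lsoMat b L hb, hx]
      simp
    refine ⟨⟨x, hxB⟩, ?_⟩
    rw [hφ]
    simp [hx]
  rw [(LinearEquiv.ofBijective φ ⟨hinj, hsurj⟩).finrank_eq, Module.finrank_self]

end

/-- **LSO-DIM**. -/
theorem dimStatement : Fermat.Agent.P1.helper7.DimStatement := by
  intro k _ ρbar L hL
  exact ⟨finrank_nilSub L hL, finrank_borelSub L hL⟩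

end Fermat.Agent.P1.helper93
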