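import Fermat.Agent.P1.helper30_FlatCntPkgs
import Fermat.Agent.P1.helper14_KumEqDefs2
import Fermat.Agent.P1.helper93_LSODim

/-!
# P1 / FLAT-CNT / KQ-II (helper11, task 797): the Kummer count of CASE II

`kqII_of : KumEqIIStatement p → (bridges) → helper30.KQIIStatement p`.

`ρbar` reducible on `G_p`, `L = ramLine` a stable line, `W = W(L)`, `T̂` the field of
`IsHatField`.  `G_p` acts on `W = k x₀` through the character `ψ = χ₁ / χ₂`; the restriction to
`G_T̂` of a bounded `W`-valued level cocycle is a `ψ`-semi-invariant homomorphism of level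
`≥ e`, so by KUMEQ-II all these restrictions lie on ONE `k`-line; a `W`-valued cocycle which
vanishes on `G_T̂` is the coboundary of an element of `W` (`Gal(T̂/ℚ_p)` is abelian and `ψ ≠ 1`
on inertia).  Hence the span has `𝔽_p`-dimension `≤ d + d`.

Inputs (all `Prop`s of the interface):
* `helper14.KumEqIIStatement p`  (KUMEQ-II);
* `BddLevelStatement p`          (J1, `ζ`-independence: `IsBddHom → HasLevel`);
* `helper14.FCInStatement p`     (FC-IN, `inertiaΩ` maps onto the inertia group of `Gal(T/ℚ_p)`);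
* `helper30.LFZetaStatement p`, `helper30.LFEdegStatement p` (LF dictionary).
-/

set_option autoImplicit false
set_option linter.style.haveILetI false
set_option linter.unusedSectionVars false

open IsLocalRing ExtCitation groupCohomology

noncomputable section

namespace Fermat.Agent.P1.helper11

open Fermat.Agent.S55 Fermat.Agent.P1.helper70 Fermat.Agent.P1.helper7
open Fermat.Agent.P1.helper30 Fermat.Agent.P1.helper93
open Fermat.Agent.S55.helper8 Fermat.Agent.S55.helper7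

/-! ## Part 1: twisted cocycles with values in a field -/

section Abs

variable {G k : Type} [Group G] [Field k]

/-- `f (g h) = f g + ψ g f h`. -/
def IsTwCoc (ψ f : G → k) : Prop := ∀ g h : G, f (g * h) = f g + ψ g * f h

variable {ψ f : G → k}

lemma twCoc_one (hψ1 : ψ 1 = 1) (hf : IsTwCoc ψ f) : f 1 = 0 := by
  have h := hf 1 1
  rw [mul_one, hψ1, one_mul] at h
  have h2 : f 1 + f 1 = f 1 + 0 := by rw [← h, add_zero]
  exact add_left_cancel h2

lemma twCoc_conj {N : Subgroup G} (hψ1 : ψ 1 = 1)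
    (hψmul : ∀ g h : G, ψ (g * h) = ψ g * ψ h) (hψN : ∀ g ∈ N, ψ g = 1)
    (hf : IsTwCoc ψ f) (γ g : G) (hg : g ∈ N) : f (γ * g * γ⁻¹) = ψ γ * f g := by
  have h0 : f γ + ψ γ * f γ⁻¹ = 0 := by
    rw [← hf γ γ⁻¹, mul_inv_cancel, twCoc_one hψ1 hf]
  rw [hf (γ * g) γ⁻¹, hf γ g, hψmul γ g, hψN g hg, mul_one]
  linear_combination h0

lemma twCoc_eq_cob {N : Subgroup G} (hcomm : ∀ γ γ' : G, γ * γ' * γ⁻¹ * γ'⁻¹ ∈ N)
    (hψN : ∀ g ∈ N, ψ g = 1) (hf : IsTwCoc ψ f) (hfN : ∀ g ∈ N, f g = 0)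
    {s : G} (hs : ψ s ≠ 1) (γ : G) : f γ = (ψ γ - 1) * ((ψ s - 1)⁻¹ * f s) := by
  have hs' : ψ s - 1 ≠ 0 := sub_ne_zero.mpr hs
  have e : γ * s = (γ * s * γ⁻¹ * s⁻¹) * (s * γ) := by group
  have h1 : f (γ * s) = f (s * γ) := by
    conv_lhs => rw [e]
    rw [hf, hfN _ (hcomm γ s), hψN _ (hcomm γ s), zero_add, one_mul]
  rw [hf γ s, hf s γ] at h1
  have h2 : (ψ s - 1) * f γ = (ψ γ - 1) * f s := by linear_combination (-1 : k) * h1
  calc f γ = (ψ s - 1)⁻¹ * ((ψ s - 1) * f γ) := by rw [inv_mul_cancel_left₀ hs']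
    _ = (ψ γ - 1) * ((ψ s - 1)⁻¹ * f s) := by rw [h2]; ring

/-- An additive function vanishes on commutators. -/
lemma addHom_comm_eq_zero {A : Type} [AddCommGroup A] (u : G → A)
    (hadd : ∀ a b : G, u (a * b) = u a + u b) (γ γ' : G) : u (γ * γ' * γ⁻¹ * γ'⁻¹) = 0 := by
  have hu1 : u 1 = 0 := by
    have h := hadd 1 1
    rw [mul_one] at h
    have h2 : u 1 + u 1 = u 1 + 0 := by rw [← h, add_zero]
    exact add_left_cancel h2
  have hinv : ∀ g, u g⁻¹ = - u g := by
    intro g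
    have h := hadd g g⁻¹
    rw [mul_inv_cancel, hu1] at h
    exact eq_neg_of_add_eq_zero_right h.symm
  rw [hadd, hadd, hadd, hinv, hinv]
  abel

/-- The span of a set contained in the range of a linear map from `k × k`. -/
theorem span_bound_of_subset_range {F M : Type} [Field F] [Algebra F k] [FiniteDimensional F k]
    [AddCommGroup M] [Module F M] (Φ : (k × k) →ₗ[F] M) (𝒞 : Set M)
    (h : 𝒞 ⊆ Set.range Φ) :
    Module.Finite F ↥(Submodule.span F 𝒞) ∧
      Module.finrank F ↥(Submodule.span F 𝒞) ≤ 2 * Module.finrank F k := by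
  have hle : Submodule.span F 𝒞 ≤ LinearMap.range Φ := by
    rw [Submodule.span_le]
    exact h
  have : FiniteDimensional F ↥(LinearMap.range Φ) := inferInstance
  refine ⟨Submodule.finiteDimensional_of_le hle, ?_⟩
  calc Module.finrank F ↥(Submodule.span F 𝒞)
      ≤ Module.finrank F ↥(LinearMap.range Φ) := Submodule.finrank_mono hle
    _ ≤ Module.finrank F (k × k) := LinearMap.finrank_range_le Φ
    _ = 2 * Module.finrank F k := by rw [Module.finrank_prod]; ring

end Abs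


/-! ## Part 2: matrices in a basis adapted to a stable line -/

section Mat

variable {k : Type} [Field k] (ρbar : ResidualGaloisRep k) (p : ℕ) [Fact p.Prime]
  (b : Module.Basis (Fin 2) k ρbar.V)

/-- The matrix of `ρbar g`, `g ∈ G_p`. -/
def locMat (g : Gp p) : Matrix (Fin 2) (Fin 2) k :=
  LinearMap.toMatrix b b (ρbar.ρ (localGaloisToGlobal p g))

lemma locMat_one : locMat ρbar p b 1 = 1 := by
  unfold locMat
  rw [map_one, map_one]
  exact LinearMap.toMatrix_one b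

lemma locMat_mul (g h : Gp p) : locMat ρbar p b (g * h) = locMat ρbar p b g * locMat ρbar p b h := by
  unfold locMat
  rw [map_mul, map_mul]
  exact LinearMap.toMatrix_mul b _ _

lemma locMat_det (g : Gp p) :
    LinearMap.det (ρbar.ρ (localGaloisToGlobal p g)) = (locMat ρbar p b g).det := by
  unfold locMat
  rw [LinearMap.det_toMatrix]

lemma locMat_repr (g : Gp p) (w : ρbar.V) (i : Fin 2) :
    b.repr (ρbar.ρ (localGaloisToGlobal p g) w) i =
      locMat ρbar p b g i 0 * b.repr w 0 + locMat ρbar p b g i 1 * b.repr w 1 := by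
  have h := LinearMap.toMatrix_mulVec_repr b b (ρbar.ρ (localGaloisToGlobal p g)) w
  have h' := congrFun h i
  rw [Matrix.mulVec, dotProduct, Fin.sum_univ_two] at h'
  exact h'.symm

lemma lsoMat_ad0Hom (g : Gp p) (x : Ad0 ρbar) :
    lsoMat b (ad0Hom ρbar (localGaloisToGlobal p g) x) =
      locMat ρbar p b g * lsoMat b x * locMat ρbar p b g⁻¹ := by
  rw [lsoMat_apply, toEnd_ad0Hom, LinearMap.toMatrix_mul, LinearMap.toMatrix_mul, lsoMat_apply]
  unfold locMat
  rw [map_inv (localGaloisToGlobal p) g]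

variable {ρbar p b}
variable {L : Submodule k ρbar.V} (hb : ∀ u : ρbar.V, u ∈ L ↔ b.repr u 1 = 0)

include hb

lemma basis0_mem : b 0 ∈ L := by
  rw [hb, b.repr_self]
  simp

lemma locMat_10 (g : Gp p)
    (hg : ∀ x ∈ L, ρbar.ρ (localGaloisToGlobal p g) x ∈ L) : locMat ρbar p b g 1 0 = 0 := by
  have h := (hb _).mp (hg _ (basis0_mem hb))
  rw [locMat_repr, b.repr_self] at h
  simpa using h

lemma locMat_00_mul (g h : Gp p)
    (hh : ∀ x ∈ L, ρbar.ρ (localGaloisToGlobal p h) x ∈ L) :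
    locMat ρbar p b (g * h) 0 0 = locMat ρbar p b g 0 0 * locMat ρbar p b h 0 0 := by
  rw [locMat_mul, Matrix.mul_apply, Fin.sum_univ_two, locMat_10 hb h hh, mul_zero, add_zero]

lemma locMat_11_mul (g h : Gp p)
    (hg : ∀ x ∈ L, ρbar.ρ (localGaloisToGlobal p g) x ∈ L) :
    locMat ρbar p b (g * h) 1 1 = locMat ρbar p b g 1 1 * locMat ρbar p b h 1 1 := by
  rw [locMat_mul, Matrix.mul_apply, Fin.sum_univ_two, locMat_10 hb g hg, zero_mul, zero_add]

lemma locMat_det_eq (g : Gp p)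
    (hg : ∀ x ∈ L, ρbar.ρ (localGaloisToGlobal p g) x ∈ L) :
    LinearMap.det (ρbar.ρ (localGaloisToGlobal p g)) =
      locMat ρbar p b g 0 0 * locMat ρbar p b g 1 1 := by
  rw [locMat_det ρbar p b, Matrix.det_fin_two, locMat_10 hb g hg, mul_zero, sub_zero]

lemma triv_on_iff (g : Gp p)
    (hg : ∀ x ∈ L, ρbar.ρ (localGaloisToGlobal p g) x ∈ L) :
    (∀ x ∈ L, ρbar.ρ (localGaloisToGlobal p g) x = x) ↔ locMat ρbar p b g 0 0 = 1 := by
  constructor
  · intro h
    have h1 := congrArg (fun u => b.repr u 0) (h _ (basis0_mem hb))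
    simp only [locMat_repr, b.repr_self] at h1
    simpa using h1
  · intro h x hx
    apply b.repr.injective
    ext i
    rw [locMat_repr, (hb x).mp hx, mul_zero, add_zero]
    fin_cases i
    · simp [h]
    · simp [locMat_10 hb g hg, (hb x).mp hx]

lemma triv_mod_iff (g : Gp p)
    (hg : ∀ x ∈ L, ρbar.ρ (localGaloisToGlobal p g) x ∈ L) :
    (∀ x : ρbar.V, ρbar.ρ (localGaloisToGlobal p g) x - x ∈ L) ↔
      locMat ρbar p b g 1 1 = 1 := by
  constructor
  · intro h
    have h1 := (hb _).mp (h (b 1))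
    rw [map_sub, Finsupp.sub_apply, locMat_repr, b.repr_self] at h1
    simp at h1
    exact sub_eq_zero.mp h1
  · intro h x
    rw [hb, map_sub, Finsupp.sub_apply, locMat_repr, locMat_10 hb g hg, h]
    ring

lemma lsoMat_ad0Hom_01 (g : Gp p) (x : Ad0 ρbar) (hx : x ∈ nilSub ρbar L) :
    lsoMat b (ad0Hom ρbar (localGaloisToGlobal p g) x) 0 1 =
      locMat ρbar p b g 0 0 * locMat ρbar p b g⁻¹ 1 1 * lsoMat b x 0 1 := by
  obtain ⟨e00, e10, e11⟩ := (mem_nilSub_iff_lsoMat b L hb x).mp hx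
  rw [lsoMat_ad0Hom ρbar p b, Matrix.mul_apply, Fin.sum_univ_two, Matrix.mul_apply,
    Matrix.mul_apply,
    Fin.sum_univ_two, Fin.sum_univ_two, e00, e10, e11]
  ring

end Mat


/-! ## Part 3: the cyclotomic character and the bridge `J1` -/

/-- **J1** (`ζ`-independence): a bounded function has level `≥ e_T` with respect to any
primitive `p`-th root of unity `ζ ∈ T`. -/
def BddLevelStatement (p : ℕ) [Fact p.Prime] : Prop :=
  ∀ (T : IntermediateField ℚ_[p] (PadicAlgCl p)) [FiniteDimensional ℚ_[p] T]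
    (ζ : PadicAlgCl p), IsPrimitiveRoot ζ p → ζ ∈ T →
    ∀ f : Gp p → ZMod p, IsBddHom p T f → helper14.HasLevel p T ζ (edeg p T) f

section Cyc

variable (p : ℕ) [Fact p.Prime]

/-- The mod `p` cyclotomic character of `G_p`. -/
lemma exists_cyc : ∃ ω : Gp p → ZMod p,
    ∀ (g : Gp p) (ζ : PadicAlgCl p), ζ ^ p = 1 → g ζ = ζ ^ (ω g).val := by
  haveI : NeZero p := ⟨(Fact.out : p.Prime).ne_zero⟩
  obtain ⟨ζ₀, hζ₀⟩ : ∃ ζ : PadicAlgCl p, IsPrimitiveRoot ζ p :=
    HasEnoughRootsOfUnity.exists_primitiveRoot _ _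
  have h1 : ∀ g : Gp p, ∃ i : ℕ, i < p ∧ ζ₀ ^ i = g ζ₀ := fun g => by
    have h : (g ζ₀) ^ p = 1 := by rw [← map_pow, hζ₀.pow_eq_one, map_one]
    obtain ⟨i, hi, h'⟩ := hζ₀.eq_pow_of_pow_eq_one h
    exact ⟨i, hi, h'⟩
  choose i hi hi' using h1
  refine ⟨fun g => (i g : ZMod p), fun g ζ hζ => ?_⟩
  obtain ⟨j, -, rfl⟩ := hζ₀.eq_pow_of_pow_eq_one hζ
  rw [ZMod.val_natCast_of_lt (hi g), map_pow, ← hi' g, ← pow_mul, ← pow_mul, mul_comm]

/-- the cocycle relation -/
lemma z1_mul' {k G : Type} [Field k] [Group G] (𝒩 : Levels G) (A : Rep.{0} k G)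
    {c : G → A} (hc : c ∈ Z1 𝒩 A) (g h : G) : c (g * h) = c g + A.ρ g (c h) := by
  have h1 : (d₁₂ A).hom c (g, h) = 0 := by
    rw [LinearMap.mem_ker.1 hc.2]
    rfl
  rw [d₁₂_hom_apply] at h1
  have h2 : A.ρ g (c h) - c (g * h) + c g = 0 := h1
  have h3 : c (g * h) = A.ρ g (c h) + c g := by
    rw [sub_add_eq_add_sub, sub_eq_zero] at h2
    exact h2.symm
  rw [h3, add_comm]

end Cyc

/-! ## Part 4: KQ-II -/

/-- **KQ-II** from KUMEQ-II and the dictionary bridges. -/
theorem kqII_of (p : ℕ) [Fact p.Prime] (hII : helper14.KumEqIIStatement p)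
    (hJ1 : BddLevelStatement p) (hIn : helper14.FCInStatement p)
    (hZeta : LFZetaStatement p) (hEdeg : LFEdegStatement p) : KQIIStatement p := by
  intro 𝒪 _ _ _ ρbar _ hset hL hstab T _ hT
  classical
  obtain ⟨b, hb⟩ := lso_exists_adapted_basis ρbar (ramLine p ρbar) hL
  -- the matrices
  have hM10 : ∀ g : Gp p, locMat ρbar p b g 1 0 = 0 := fun g => locMat_10 hb g (hstab g)
  have hM00 : ∀ g h : Gp p,
      locMat ρbar p b (g * h) 0 0 = locMat ρbar p b g 0 0 * locMat ρbar p b h 0 0 :=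
    fun g h => locMat_00_mul hb g h (hstab h)
  have hM11 : ∀ g h : Gp p,
      locMat ρbar p b (g * h) 1 1 = locMat ρbar p b g 1 1 * locMat ρbar p b h 1 1 :=
    fun g h => locMat_11_mul hb g h (hstab g)
  have hM00one : locMat ρbar p b 1 0 0 = 1 := by rw [locMat_one]; simp
  have hM11one : locMat ρbar p b 1 1 1 = 1 := by rw [locMat_one]; simp
  have hM00inv : ∀ g : Gp p, locMat ρbar p b g 0 0 * locMat ρbar p b g⁻¹ 0 0 = 1 := by
    intro g
    rw [← hM00, mul_inv_cancel, hM00one]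
  have hM11inv : ∀ g : Gp p, locMat ρbar p b g 1 1 * locMat ρbar p b g⁻¹ 1 1 = 1 := by
    intro g
    rw [← hM11, mul_inv_cancel, hM11one]
  -- the character `ψ = χ₁ / χ₂`
  set ψ : Gp p → ResidueField 𝒪 :=
    fun g => locMat ρbar p b g 0 0 * locMat ρbar p b g⁻¹ 1 1 with hψdef
  have hψmul : ∀ g h : Gp p, ψ (g * h) = ψ g * ψ h := by
    intro g h
    simp only [hψdef]
    rw [hM00, mul_inv_rev, hM11]
    ring
  have hψ1 : ψ 1 = 1 := by
    simp only [hψdef]
    rw [inv_one, hM00one, hM11one, one_mul]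
  -- the cyclotomic character
  obtain ⟨ω, hω⟩ := exists_cyc p
  have hdet : ∀ g : Gp p, locMat ρbar p b g 0 0 * locMat ρbar p b g 1 1 =
      algebraMap (ZMod p) (ResidueField 𝒪) (ω g) := by
    intro g
    rw [← locMat_det_eq hb g (hstab g), hset.hdet g (ω g).val (hω g),
      ← map_natCast (algebraMap (ZMod p) (ResidueField 𝒪)), ZMod.natCast_zmod_val]
  have hinj : Function.Injective (algebraMap (ZMod p) (ResidueField 𝒪)) :=
    (algebraMap (ZMod p) (ResidueField 𝒪)).injective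
  -- the elements of `G_T`
  have hGT : ∀ g ∈ T.fixingSubgroup,
      locMat ρbar p b g 0 0 = 1 ∧ locMat ρbar p b g 1 1 = 1 := by
    intro g hg
    obtain ⟨h1, h2, -⟩ := (hT g).mp hg
    exact ⟨(triv_on_iff hb g (hstab g)).mp h1, (triv_mod_iff hb g (hstab g)).mp h2⟩
  have hψT : ∀ g ∈ T.fixingSubgroup, ψ g = 1 := by
    intro g hg
    have h := hGT g⁻¹ (inv_mem hg)
    simp only [hψdef]
    rw [(hGT g hg).1, h.2, one_mul]
  -- inertia
  have hI11 : ∀ i ∈ inertiaΩ p, locMat ρbar p b i 1 1 = 1 := by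
    intro i hi
    apply (triv_mod_iff hb i (hstab i)).mp
    intro x
    exact Submodule.subset_span ⟨i, hi, x, rfl⟩
  have hψI0 : ∀ i ∈ inertiaΩ p, ψ i = algebraMap (ZMod p) (ResidueField 𝒪) (ω i) := by
    intro i hi
    rw [← hdet i, hI11 i hi]
    simp only [hψdef]
    rw [hI11 i⁻¹ (inv_mem hi)]
  -- commutators
  have hcomm : ∀ γ γ' : Gp p, γ * γ' * γ⁻¹ * γ'⁻¹ ∈ T.fixingSubgroup := by
    intro γ γ'
    rw [hT]
    refine ⟨?_, ?_, ?_⟩
    · rw [triv_on_iff hb _ (hstab _), hM00, hM00, hM00]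
      linear_combination (locMat ρbar p b γ' 0 0 * locMat ρbar p b γ'⁻¹ 0 0) * hM00inv γ +
        hM00inv γ'
    · rw [triv_mod_iff hb _ (hstab _), hM11, hM11, hM11]
      linear_combination (locMat ρbar p b γ' 1 1 * locMat ρbar p b γ'⁻¹ 1 1) * hM11inv γ +
        hM11inv γ'
    · intro u _ hadd _
      exact addHom_comm_eq_zero u hadd γ γ'
  -- `T` is normal
  haveI hnormal : Normal ℚ_[p] T := by
    have hN : (T.fixingSubgroup).Normal := by
      refine ⟨fun n hn g => ?_⟩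
      have e : g * n * g⁻¹ = (g * n * g⁻¹ * n⁻¹) * n := by group
      rw [e]
      exact mul_mem (hcomm g n) hn
    haveI := (InfiniteGalois.normal_iff_isGalois T).mp hN
    exact IsGalois.to_normal
  -- `ζ_p ∈ T`
  obtain ⟨ζ, hζT, hζ⟩ : ∃ ζ ∈ T, IsPrimitiveRoot ζ p := by
    rw [hZeta T]
    intro g hg ζ hζ
    have h1 : algebraMap (ZMod p) (ResidueField 𝒪) (ω g) = 1 := by
      rw [← hdet g, (hGT g hg).1, (hGT g hg).2, one_mul]
    have h2 : ω g = 1 := hinj (h1.trans (map_one _).symm)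
    rw [hω g ζ hζ, h2, ZMod.val_one, pow_one]
  have hcycl : helper14.IsCycl p ζ ω := fun g => hω g ζ hζ.pow_eq_one
  -- `T` is tame
  have htame : ¬ p ∣ edeg p T := by
    rw [(hEdeg T).1]
    let χ : Gp p →* ResidueField 𝒪 :=
      { toFun := fun g => locMat ρbar p b g 0 0
        map_one' := hM00one
        map_mul' := hM00 }
    let φ : ↥(inertiaΩ p) →* (ResidueField 𝒪)ˣ := χ.toHomUnits.comp (inertiaΩ p).subtype
    have hφ : ∀ i : ↥(inertiaΩ p), ((φ i : (ResidueField 𝒪)ˣ) : ResidueField 𝒪) =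
        locMat ρbar p b (i : Gp p) 0 0 := fun i => rfl
    have hker : φ.ker = T.fixingSubgroup.subgroupOf (inertiaΩ p) := by
      ext i
      rw [MonoidHom.mem_ker, Subgroup.mem_subgroupOf, hT]
      constructor
      · intro h
        have h00 : locMat ρbar p b (i : Gp p) 0 0 = 1 := by
          rw [← hφ i, h, Units.val_one]
        exact ⟨(triv_on_iff hb _ (hstab _)).mpr h00,
          (triv_mod_iff hb _ (hstab _)).mpr (hI11 i i.2), fun u _ _ hui => hui i i.2⟩
      · rintro ⟨h1, -, -⟩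
        apply Units.ext
        rw [hφ i, Units.val_one]
        exact (triv_on_iff hb _ (hstab _)).mp h1
    have hrel : T.fixingSubgroup.relIndex (inertiaΩ p) = Nat.card ↥φ.range := by
      rw [← Subgroup.index_ker, hker]
      rfl
    rw [hrel]
    intro hdvd
    have h1 : p ∣ Nat.card (ResidueField 𝒪)ˣ := hdvd.trans (Subgroup.card_subgroup_dvd_card _)
    rw [Nat.card_units] at h1
    have h2 : Nat.card (ResidueField 𝒪) =
        p ^ Module.finrank (ZMod p) (ResidueField 𝒪) := by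
      rw [Module.natCard_eq_pow_finrank (K := ZMod p), Nat.card_zmod]
    have h3 : 0 < Module.finrank (ZMod p) (ResidueField 𝒪) := Module.finrank_pos
    have h4 : p ∣ Nat.card (ResidueField 𝒪) := by
      rw [h2]
      exact dvd_pow_self p h3.ne'
    have h5 : 0 < Nat.card (ResidueField 𝒪) := Nat.card_pos
    have h6 : p ∣ 1 := by
      have := Nat.dvd_sub h4 h1
      rwa [Nat.sub_sub_self h5] at this
    exact (Fact.out : p.Prime).one_lt.ne' (Nat.dvd_one.mp h6)
  -- `ψ = ω` on the inertia group of `Gal(T/ℚ_p)`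
  have hψI : ∀ s ∈ helper14.inertiaOf p T,
      ψ s = algebraMap (ZMod p) (ResidueField 𝒪) (ω s) := by
    intro s hs
    obtain ⟨i, hi, hit⟩ := (hIn T).2 s hs
    have hi' : i ∈ inertiaΩ p := hi
    have e : s = i * (i⁻¹ * s) := by group
    have h1 : ψ s = ψ i := by
      conv_lhs => rw [e]
      rw [hψmul, hψT _ hit, mul_one]
    have h2 : algebraMap (ZMod p) (ResidueField 𝒪) (ω s) =
        algebraMap (ZMod p) (ResidueField 𝒪) (ω i) := by
      rw [← hdet s, ← hdet i]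
      conv_lhs => rw [e]
      rw [hM00, hM11, (hGT _ hit).1, (hGT _ hit).2, mul_one, mul_one]
    rw [h1, h2]
    exact hψI0 i hi'
  -- `ψ ≠ 1` on inertia
  obtain ⟨s, hs⟩ : ∃ s : Gp p, ψ s ≠ 1 := by
    obtain ⟨σ, hσ, ζ', hζ', hne⟩ := hset.hram
    refine ⟨σ, fun h => hne ?_⟩
    rw [hψI0 σ hσ] at h
    have h2 : ω σ = 1 := hinj (h.trans (map_one _).symm)
    rw [hω σ ζ' hζ', h2, ZMod.val_one, pow_one]
  -- the coordinate on `W`
  let φ₀ : Ad0 ρbar →ₗ[ZMod p] ResidueField 𝒪 :=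
    { toFun := fun x => lsoMat b x 0 1
      map_add' := fun x y => by rw [map_add, Matrix.add_apply]
      map_smul' := fun r x => by
        change lsoMat b ((algebraMap (ZMod p) (ResidueField 𝒪) r) • x) 0 1 =
          r • lsoMat b x 0 1
        rw [map_smul, Matrix.smul_apply, smul_eq_mul, Algebra.smul_def] }
  obtain ⟨x₀, hx₀⟩ := lsoMat_exists (ρbar := ρbar) b !![0, 1; 0, 0] (by simp)
  have hWx₀ : ∀ x ∈ nilSub ρbar (ramLine p ρbar), x = (lsoMat b x 0 1) • x₀ := by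
    intro x hx
    obtain ⟨e00, e10, e11⟩ := (mem_nilSub_iff_lsoMat b _ hb x).mp hx
    apply lsoMat_injective b
    rw [map_smul, hx₀]
    ext i j
    fin_cases i <;> fin_cases j <;> simp [e00, e10, e11]
  -- the coordinate function of a bounded cocycle is a twisted cocycle of level `≥ e`
  have hfc : ∀ c ∈ bddCocycles p ρbar T (nilSub ρbar (ramLine p ρbar))
      (nilSub ρbar (ramLine p ρbar)),
      IsTwCoc ψ (fun g : Gp p => lsoMat b (c g : Ad0 ρbar) 0 1) := by
    intro c hc g h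
    obtain ⟨hcZ, hcW, -, -⟩ := hc
    have h1 := z1_mul' _ _ hcZ g h
    have key : ∀ x y z : Ad0 ρbar, x = y + z →
        lsoMat b x 0 1 = lsoMat b y 0 1 + lsoMat b z 0 1 := by
      intro x y z e
      rw [e, map_add, Matrix.add_apply]
    have h3 := key _ _ _ h1
    exact h3.trans (congrArg (lsoMat b (c g : Ad0 ρbar) 0 1 + ·)
      (lsoMat_ad0Hom_01 hb g _ (hcW h)))
  have hlev : ∀ c ∈ bddCocycles p ρbar T (nilSub ρbar (ramLine p ρbar))
      (nilSub ρbar (ramLine p ρbar)),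
      helper14.IsEqv p T ζ (ResidueField 𝒪) ⊤ ψ (edeg p T)
        (fun g : Gp p => lsoMat b (c g : Ad0 ρbar) 0 1) := by
    intro c hc
    refine ⟨fun ℓ => ?_, fun γ _ g hg => twCoc_conj hψ1 hψmul hψT (hfc c hc) γ g hg⟩
    exact hJ1 T ζ hζ hζT _ (hc.2.2.2 (ℓ ∘ₗ φ₀))
  have hdep : ∀ c ∈ bddCocycles p ρbar T (nilSub ρbar (ramLine p ρbar))
      (nilSub ρbar (ramLine p ρbar)),
      ∀ c' ∈ bddCocycles p ρbar T (nilSub ρbar (ramLine p ρbar))
        (nilSub ρbar (ramLine p ρbar)),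
      ∃ a a' : ResidueField 𝒪, (a ≠ 0 ∨ a' ≠ 0) ∧ ∀ g ∈ T.fixingSubgroup,
        a * lsoMat b (c g : Ad0 ρbar) 0 1 + a' * lsoMat b (c' g : Ad0 ρbar) 0 1 = 0 :=
    fun c hc c' hc' => hII T ζ ω (ResidueField 𝒪) ψ hset.hp2 htame hζ hζT hcycl hcomm hψmul
      hψT hψI _ _ (hlev c hc) (hlev c' hc')
  -- the reference function
  obtain ⟨f₀, hf₀, hf₀'⟩ : ∃ f₀ : Gp p → ResidueField 𝒪, IsTwCoc ψ f₀ ∧
      ∀ c ∈ bddCocycles p ρbar T (nilSub ρbar (ramLine p ρbar))
        (nilSub ρbar (ramLine p ρbar)),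
      ∃ t : ResidueField 𝒪, ∀ g ∈ T.fixingSubgroup,
        lsoMat b (c g : Ad0 ρbar) 0 1 = t * f₀ g := by
    by_cases hex : ∃ c₀ ∈ bddCocycles p ρbar T (nilSub ρbar (ramLine p ρbar))
        (nilSub ρbar (ramLine p ρbar)), ∃ g₀ ∈ T.fixingSubgroup,
        lsoMat b (c₀ g₀ : Ad0 ρbar) 0 1 ≠ 0
    · obtain ⟨c₀, hc₀, g₀, hg₀, hne⟩ := hex
      refine ⟨_, hfc c₀ hc₀, fun c hc => ?_⟩
      obtain ⟨a, a', haa, h⟩ := hdep c hc c₀ hc₀
      have ha : a ≠ 0 := by
        intro ha0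
        rcases haa with h1 | h1
        · exact h1 ha0
        · have h2 := h g₀ hg₀
          rw [ha0, zero_mul, zero_add] at h2
          exact hne ((mul_eq_zero.mp h2).resolve_left h1)
      refine ⟨-(a⁻¹ * a'), fun g hg => ?_⟩
      have h2 := h g hg
      have h3 : lsoMat b (c g : Ad0 ρbar) 0 1 =
          a⁻¹ * (a * lsoMat b (c g : Ad0 ρbar) 0 1) := by
        rw [inv_mul_cancel_left₀ ha]
      rw [h3]
      linear_combination a⁻¹ * h2
    · push Not at hex
      refine ⟨fun _ => 0, fun g h => by simp, fun c hc => ⟨0, fun g hg => ?_⟩⟩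
      rw [zero_mul]
      exact hex c hc g hg
  -- the parametrisation of the bounded cocycles by `k × k`
  let Φ : (ResidueField 𝒪 × ResidueField 𝒪) →ₗ[ZMod p]
      (primeLocalGaloisGroup (pPrime p) → locM ρbar p) :=
    { toFun := fun ab g => ((ab.1 * f₀ g + (ψ g - 1) * ab.2) • x₀ : Ad0 ρbar)
      map_add' := fun ab ab' => by
        funext g
        change ((ab + ab').1 * f₀ g + (ψ g - 1) * (ab + ab').2) • x₀ =
          (ab.1 * f₀ g + (ψ g - 1) * ab.2) • x₀ + (ab'.1 * f₀ g + (ψ g - 1) * ab'.2) • x₀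
        rw [← add_smul, Prod.fst_add, Prod.snd_add]
        congr 1
        ring
      map_smul' := fun r ab => by
        funext g
        change ((r • ab).1 * f₀ g + (ψ g - 1) * (r • ab).2) • x₀ =
          (algebraMap (ZMod p) (ResidueField 𝒪) r) • ((ab.1 * f₀ g + (ψ g - 1) * ab.2) • x₀)
        rw [smul_smul, Prod.smul_fst, Prod.smul_snd, Algebra.smul_def, Algebra.smul_def]
        congr 1
        ring }
  refine span_bound_of_subset_range Φ _ ?_
  intro c hc
  obtain ⟨t, ht⟩ := hf₀' c hc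
  have hh : IsTwCoc ψ (fun g : Gp p => lsoMat b (c g : Ad0 ρbar) 0 1 - t * f₀ g) := by
    intro g h
    have e1 := hfc c hc g h
    have e2 := hf₀ g h
    simp only at e1 ⊢
    rw [e1, e2]
    ring
  have hhN : ∀ g ∈ T.fixingSubgroup,
      (fun g : Gp p => lsoMat b (c g : Ad0 ρbar) 0 1 - t * f₀ g) g = 0 := by
    intro g hg
    simp only
    rw [ht g hg, sub_self]
  have hcob := twCoc_eq_cob hcomm hψT hh hhN hs
  refine ⟨(t, (ψ s - 1)⁻¹ * (lsoMat b (c s : Ad0 ρbar) 0 1 - t * f₀ s)), ?_⟩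
  funext g
  change ((t * f₀ g + (ψ g - 1) * ((ψ s - 1)⁻¹ * (lsoMat b (c s : Ad0 ρbar) 0 1 - t * f₀ s))) •
    x₀ : Ad0 ρbar) = c g
  have e := hWx₀ (c g) (hc.2.1 g)
  have e2 := hcob g
  refine Eq.trans ?_ e.symm
  congr 1
  linear_combination (-1 : ResidueField 𝒪) * e2

end Fermat.Agent.P1.helper11
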