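import Fermat.Agent.P1.helper68_ArtDefs

/-!
# P1 / EC, package [EC-ART-ASM] (helper12, task 753): Artin induction for additive invariants

`art_of : BNStatement → PermStatement → ArtStatement`.

With `n, I₁, I₂, C₁, C₂` from `PermStatement` and a representation `N` on which `N₀` acts
trivially put `V := ∏_{i : I₁} Ind_{C₁ i} Res N` and
`W := (∏_{i : I₂} Ind_{C₂ i} Res N) × (Fin n → N)`.  For every `x : G` the bijection `β` of
`G`-sets (for the cyclic group generated by `x`) induces a linear isomorphism `V ≃ W` commuting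
with the action of `x`, so `x` has the same characteristic polynomial on `V` and on `W`;
Brauer-Nesbitt gives `g V = g W`, and additive invariants are additive on finite products.
-/

set_option autoImplicit false
set_option linter.style.haveILetI false

open groupCohomology

noncomputable section

namespace Fermat.Agent.P1.helper12

open Fermat.Agent.S55 Fermat.Agent.P1.helper63 Fermat.Agent.P1.helper68

variable {k G : Type} [Field k] [Group G]

/-! ### Finite products of representations -/

/-- the product of a family of representations -/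
def piRepn {I : Type} (A : I → Rep.{0} k G) : Representation k G (∀ i, A i) where
  toFun x := LinearMap.pi fun i => (A i).ρ x ∘ₗ LinearMap.proj i
  map_one' := by
    refine LinearMap.ext fun f => funext fun i => ?_
    simp
  map_mul' x y := by
    refine LinearMap.ext fun f => funext fun i => ?_
    simp

@[simp] lemma piRepn_apply {I : Type} (A : I → Rep.{0} k G) (x : G) (f : ∀ i, A i) (i : I) :
    piRepn A x f i = (A i).ρ x (f i) := rfl

/-- the product of a family of representations, as an object of `Rep` -/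
def piRep {I : Type} (A : I → Rep.{0} k G) : Rep.{0} k G := Rep.of (piRepn A)

/-- the product of two representations, as an object of `Rep` -/
def prodRep (A B : Rep.{0} k G) : Rep.{0} k G := Rep.of (A.ρ.prod B.ρ)

instance piRep_finite {I : Type} [Finite I] (A : I → Rep.{0} k G) [∀ i, Module.Finite k (A i)] :
    Module.Finite k (piRep A) :=
  (inferInstance : Module.Finite k (∀ i, A i))

instance prodRep_finite (A B : Rep.{0} k G) [Module.Finite k A] [Module.Finite k B] :
    Module.Finite k (prodRep A B) :=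
  (inferInstance : Module.Finite k (A × B))

variable (𝒩 : Levels G) {g : Rep.{0} k G → ℤ}

lemma isSmooth_piRep {I : Type} (A : I → Rep.{0} k G) {N₀ : Subgroup G} (hN₀ : N₀ ∈ 𝒩.mem)
    (htriv : ∀ i, ∀ s ∈ N₀, ∀ a : A i, (A i).ρ s a = a) : IsSmooth 𝒩 (piRep A) :=
  ⟨N₀, hN₀, fun s hs f => funext fun i => htriv i s hs (f i)⟩

lemma isSmooth_prodRep (A B : Rep.{0} k G) {N₀ : Subgroup G} (hN₀ : N₀ ∈ 𝒩.mem)
    (hA : ∀ s ∈ N₀, ∀ a : A, A.ρ s a = a) (hB : ∀ s ∈ N₀, ∀ b : B, B.ρ s b = b) :
    IsSmooth 𝒩 (prodRep A B) :=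
  ⟨N₀, hN₀, fun s hs f => Prod.ext (hA s hs f.1) (hB s hs f.2)⟩

/-! ### Additivity on finite products -/

/-- an additive invariant vanishes on the zero representation -/
lemma addInv_eq_zero_of_subsingleton (hg : IsAddInv 𝒩 g) (Z : Rep.{0} k G) [Subsingleton Z] :
    g Z = 0 := by
  obtain ⟨N, hN⟩ := 𝒩.nonempty
  have h := hg.add Z Z Z 0 0 (fun s a => Subsingleton.elim _ _) (fun s a => Subsingleton.elim _ _)
    (fun a b _ => Subsingleton.elim _ _) (fun a => ⟨a, Subsingleton.elim _ _⟩)
    (by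
      ext a
      simp only [LinearMap.mem_range, LinearMap.mem_ker]
      exact ⟨fun _ => Subsingleton.elim _ _, fun _ => ⟨a, Subsingleton.elim _ _⟩⟩)
    inferInstance ⟨N, hN, fun s _ a => Subsingleton.elim _ _⟩
  linarith

/-- an additive invariant is additive on binary products -/
lemma addInv_prodRep (hg : IsAddInv 𝒩 g) (A B : Rep.{0} k G) [Module.Finite k A]
    [Module.Finite k B] {N₀ : Subgroup G} (hN₀ : N₀ ∈ 𝒩.mem)
    (hA : ∀ s ∈ N₀, ∀ a : A, A.ρ s a = a) (hB : ∀ s ∈ N₀, ∀ b : B, B.ρ s b = b) :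
    g (prodRep A B) = g A + g B := by
  refine hg.add A (prodRep A B) B (LinearMap.inl k A B) (LinearMap.snd k A B) ?_ ?_
    LinearMap.inl_injective LinearMap.snd_surjective (LinearMap.range_inl k A B) inferInstance
    (isSmooth_prodRep 𝒩 A B hN₀ hA hB)
  · intro s a
    refine Prod.ext rfl ?_
    change (0 : B) = B.ρ s 0
    rw [map_zero]
  · intro s a
    rfl

/-- an additive invariant is additive on finite products -/
theorem addInv_piRep (hg : IsAddInv 𝒩 g) {N₀ : Subgroup G} (hN₀ : N₀ ∈ 𝒩.mem) (I : Type)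
    [Finite I] : ∀ [Fintype I] (A : I → Rep.{0} k G), (∀ i, Module.Finite k (A i)) →
      (∀ i, ∀ s ∈ N₀, ∀ a : A i, (A i).ρ s a = a) → g (piRep A) = ∑ i, g (A i) := by
  classical
  induction I using Finite.induction_empty_option with
  | of_equiv e ih =>
    rename_i α β
    intro instβ A hfin htriv
    letI : Fintype α := Fintype.ofEquiv β e.symm
    haveI := hfin
    have h1 := ih (fun a => A (e a)) (fun a => hfin (e a)) (fun a => htriv (e a))
    have h2 : ∑ a, g (A (e a)) = ∑ b, g (A b) :=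
      Fintype.sum_equiv e _ _ fun _ => rfl
    have h3 : g (piRep fun a => A (e a)) = g (piRep A) := by
      refine hg.iso (piRep fun a => A (e a)) (piRep A)
        (LinearEquiv.piCongrLeft k (fun b => A b) e).toLinearMap ?_
        (LinearEquiv.piCongrLeft k (fun b => A b) e).bijective inferInstance
        (isSmooth_piRep 𝒩 _ hN₀ fun a => htriv (e a))
      intro s f
      funext b
      obtain ⟨a, rfl⟩ := e.surjective b
      have e1 : ∀ f' : ∀ a, A (e a), (Equiv.piCongrLeft (fun b => A b) e) f' (e a) = f' a :=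
        fun f' => Equiv.piCongrLeft_apply_apply (fun b => A b) e f' a
      exact (e1 (piRepn (fun a => A (e a)) s f)).trans
        (congrArg ((A (e a)).ρ s) (e1 f).symm)
    rw [← h3, h1, h2]
  | h_empty =>
    intro inst A hfin htriv
    haveI : Subsingleton (piRep A) := (inferInstance : Subsingleton (∀ i : PEmpty, A i))
    rw [addInv_eq_zero_of_subsingleton 𝒩 hg, Finset.univ_eq_empty, Finset.sum_empty]
  | h_option ih =>
    rename_i α instα
    intro inst A hfin htriv
    haveI := hfin
    have hinst : inst = instFintypeOption := Subsingleton.elim _ _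
    subst hinst
    have h1 := ih (fun a => A (some a)) (fun a => hfin (some a)) (fun a => htriv (some a))
    have h2 : g (piRep A) = g (A none) + g (piRep fun a => A (some a)) := by
      refine hg.add (A none) (piRep A) (piRep fun a => A (some a))
        (LinearMap.single k (fun o => A o) none)
        (LinearMap.pi fun a => LinearMap.proj (some a)) ?_ ?_ ?_ ?_ ?_ inferInstance
        (isSmooth_piRep 𝒩 A hN₀ htriv)
      · intro s a
        funext o
        cases o with
        | none =>
          change Pi.single (M := fun o => A o) none ((A none).ρ s a) none =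
            (A none).ρ s (Pi.single (M := fun o => A o) none a none)
          rw [Pi.single_eq_same, Pi.single_eq_same]
        | some b =>
          change Pi.single (M := fun o => A o) none ((A none).ρ s a) (some b) =
            (A (some b)).ρ s (Pi.single (M := fun o => A o) none a (some b))
          rw [Pi.single_eq_of_ne (Option.some_ne_none b), Pi.single_eq_of_ne (Option.some_ne_none b),
            map_zero]
      · intro s f
        rfl
      · exact Pi.single_injective (M := fun o => A o) none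
      · intro h
        refine ⟨fun o => match o with
          | none => 0
          | some a => h a, rfl⟩
      · refine Submodule.ext fun f => ⟨?_, fun hf => ?_⟩
        · rintro ⟨a, rfl⟩
          refine LinearMap.mem_ker.mpr (funext fun b => ?_)
          exact Pi.single_eq_of_ne (M := fun o => A o) (Option.some_ne_none b) a
        · refine ⟨f none, funext fun o => ?_⟩
          cases o with
          | none => exact Pi.single_eq_same (M := fun o => A o) none _
          | some b =>
            have hq : (fun a : α => f (some a)) = fun _ => 0 := hf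
            have hb : f (some b) = 0 := congrFun hq b
            rw [hb]
            exact Pi.single_eq_of_ne (M := fun o => A o) (Option.some_ne_none b) (f none)
    rw [h2, h1, Fintype.sum_option]

/-! ### Characteristic polynomials and the permutation model -/

/-- conjugate endomorphisms have the same characteristic polynomial -/
lemma charpoly_eq_of_equiv {M₁ M₂ : Type} [AddCommGroup M₁] [Module k M₁] [Module.Finite k M₁]
    [AddCommGroup M₂] [Module k M₂] [Module.Finite k M₂] (e : M₁ ≃ₗ[k] M₂)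
    (φ₁ : Module.End k M₁) (φ₂ : Module.End k M₂) (h : ∀ v, e (φ₁ v) = φ₂ (e v)) :
    LinearMap.charpoly φ₁ = LinearMap.charpoly φ₂ := by
  have h1 : e.conj φ₁ = φ₂ := by
    refine LinearMap.ext fun w => ?_
    rw [LinearEquiv.conj_apply]
    change e (φ₁ (e.symm w)) = φ₂ w
    rw [h, LinearEquiv.apply_symm_apply]
  rw [← h1, LinearEquiv.charpoly_conj]

variable (N : Rep.{0} k G)

/-- the endomorphism `F ↦ (ξ ↦ N.ρ x (F (π ξ)))` of the space of functions `X → N` -/
def modelEnd {X : Type} (x : G) (π : X → X) : (X → N) →ₗ[k] (X → N) :=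
  LinearMap.pi fun ξ => N.ρ x ∘ₗ LinearMap.proj (π ξ)

@[simp] lemma modelEnd_apply {X : Type} (x : G) (π : X → X) (F : X → N) (ξ : X) :
    modelEnd N x π F ξ = N.ρ x (F (π ξ)) := rfl

/-- the linear automorphism `N.ρ x` -/
def rhoEquiv (x : G) : N ≃ₗ[k] N :=
  LinearEquiv.ofLinearMap (N.ρ x) (N.ρ x⁻¹)
    (by rw [← Module.End.mul_eq_comp, ← map_mul, mul_inv_cancel, map_one]; rfl)
    (by rw [← Module.End.mul_eq_comp, ← map_mul, inv_mul_cancel, map_one]; rfl)

@[simp] lemma rhoEquiv_apply (x : G) (a : N) : rhoEquiv N x a = N.ρ x a := rfl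

/-- the family of the modules induced from the restrictions of `N` to the subgroups `C i` -/
def indFam {I : Type} (C : I → Subgroup G) (i : I) : Rep.{0} k G :=
  indRep (Rep.res (C i).subtype N)

/-- the untwisting isomorphism from the product of the induced modules to the permutation
model -/
def twist {I : Type} (C : I → Subgroup G) :
    (piRep (indFam N C)) ≃ₗ[k] ((Σ i, G ⧸ C i) → N) :=
  (LinearEquiv.piCongrRight fun i => LinearEquiv.piCongrRight fun q : G ⧸ C i =>
    rhoEquiv N (helper57.cosetRep (C i) q)) ≪≫ₗ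
    (LinearEquiv.piCurry k (fun (i : I) (_ : G ⧸ C i) => (N : Type))).symm

lemma twist_apply {I : Type} (C : I → Subgroup G) (f : piRep (indFam N C)) (i : I)
    (q : G ⧸ C i) : twist N C f ⟨i, q⟩ = N.ρ (helper57.cosetRep (C i) q) (f i q) := rfl

lemma twist_rho {I : Type} (C : I → Subgroup G) (x : G) (f : piRep (indFam N C)) :
    twist N C ((piRep (indFam N C)).ρ x f) = modelEnd N x (sigAct C x⁻¹) (twist N C f) := by
  funext ⟨i, q⟩
  change N.ρ (helper57.cosetRep (C i) q)
      (N.ρ (helper57.cocyc (C i) x q : G) (f i (x⁻¹ • q))) =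
    N.ρ x (N.ρ (helper57.cosetRep (C i) (x⁻¹ • q)) (f i (x⁻¹ • q)))
  rw [← Module.End.mul_apply, ← map_mul, ← Module.End.mul_apply, ← map_mul,
    helper57.coe_cocyc]
  congr 2
  group

/-- the untwisting isomorphism for the product with `n` copies of `N` -/
def twistSum {I : Type} (C : I → Subgroup G) (n : ℕ) :
    (prodRep (piRep (indFam N C)) (piRep fun _ : Fin n => N)) ≃ₗ[k]
      (((Σ i, G ⧸ C i) ⊕ Fin n) → N) :=
  (LinearEquiv.prodCongr (twist N C) (LinearEquiv.refl k (Fin n → N))) ≪≫ₗ
    (LinearEquiv.sumArrowLequivProdArrow (Σ i, G ⧸ C i) (Fin n) k N).symm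

lemma twistSum_rho {I : Type} (C : I → Subgroup G) (n : ℕ) (x : G)
    (f : prodRep (piRep (indFam N C)) (piRep fun _ : Fin n => N)) :
    twistSum N C n ((prodRep (piRep (indFam N C)) (piRep fun _ : Fin n => N)).ρ x f) =
      modelEnd N x (Sum.map (sigAct C x⁻¹) id) (twistSum N C n f) := by
  funext ξ
  cases ξ with
  | inl ξ => exact congrFun (twist_rho N C x f.1) ξ
  | inr j => rfl

lemma sigAct_inv_sigAct {I : Type} (C : I → Subgroup G) (x : G) (ξ : Σ i, G ⧸ C i) :
    sigAct C x⁻¹ (sigAct C x ξ) = ξ := by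
  obtain ⟨i, q⟩ := ξ
  change (⟨i, x⁻¹ • x • q⟩ : Σ i, G ⧸ C i) = ⟨i, q⟩
  rw [inv_smul_smul]

lemma sigAct_sigAct_inv {I : Type} (C : I → Subgroup G) (x : G) (ξ : Σ i, G ⧸ C i) :
    sigAct C x (sigAct C x⁻¹ ξ) = ξ := by
  obtain ⟨i, q⟩ := ξ
  change (⟨i, x • x⁻¹ • q⟩ : Σ i, G ⧸ C i) = ⟨i, q⟩
  rw [smul_inv_smul]

/-- a bijection commuting with the action of `x` commutes with the action of `x⁻¹` -/
lemma perm_inv {I₁ I₂ : Type} (C₁ : I₁ → Subgroup G) (C₂ : I₂ → Subgroup G) (n : ℕ) (x : G)
    (β : (Σ i, G ⧸ C₁ i) ≃ ((Σ i, G ⧸ C₂ i) ⊕ Fin n))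
    (hβ : ∀ ξ, β (sigAct C₁ x ξ) = Sum.map (sigAct C₂ x) id (β ξ)) (ξ : Σ i, G ⧸ C₁ i) :
    β (sigAct C₁ x⁻¹ ξ) = Sum.map (sigAct C₂ x⁻¹) id (β ξ) := by
  have h := hβ (sigAct C₁ x⁻¹ ξ)
  rw [sigAct_sigAct_inv] at h
  rw [h]
  cases β (sigAct C₁ x⁻¹ ξ) with
  | inl η => simp only [Sum.map_inl, sigAct_inv_sigAct]
  | inr j => rfl

lemma finite_quotient_of_le {N₀ C : Subgroup G} [Finite (G ⧸ N₀)] (h : N₀ ≤ C) :
    Finite (G ⧸ C) :=
  Finite.of_surjective (Quotient.map' id fun a b hab => by
      rw [QuotientGroup.leftRel_apply] at hab ⊢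
      exact h hab : G ⧸ N₀ → G ⧸ C)
    (by
      intro q
      induction q using QuotientGroup.induction_on with
      | H g => exact ⟨(g : G ⧸ N₀), rfl⟩)

lemma le_of_cycMod {N₀ C : Subgroup G} (h : CycMod N₀ C) : N₀ ≤ C := by
  obtain ⟨c, rfl⟩ := h
  exact le_sup_left

/-- `N₀` acts trivially on the induced modules -/
lemma indFam_trivial {I : Type} (C : I → Subgroup G) {N₀ : Subgroup G} [N₀.Normal]
    (hC : ∀ i, N₀ ≤ C i) (hN : ∀ s ∈ N₀, ∀ a : N, N.ρ s a = a) (i : I) :
    ∀ s ∈ N₀, ∀ a : indFam N C i, (indFam N C i).ρ s a = a := fun _ hs a =>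
  helper57.indRepn_trivial_of_mem (hC i) (Rep.res (C i).subtype N).ρ
    (fun u hu w => hN (u : G) hu w) hs a

/-- **the characteristic polynomials agree** -/
theorem charpoly_eq {I₁ I₂ : Type} [Finite I₁] [Finite I₂] (C₁ : I₁ → Subgroup G)
    (C₂ : I₂ → Subgroup G) [∀ i, Finite (G ⧸ C₁ i)] [∀ i, Finite (G ⧸ C₂ i)] (n : ℕ)
    [Module.Finite k N] (x : G)
    (β : (Σ i, G ⧸ C₁ i) ≃ ((Σ i, G ⧸ C₂ i) ⊕ Fin n))
    (hβ : ∀ ξ, β (sigAct C₁ x ξ) = Sum.map (sigAct C₂ x) id (β ξ))
    [Module.Finite k (piRep (indFam N C₁))]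
    [Module.Finite k (prodRep (piRep (indFam N C₂)) (piRep fun _ : Fin n => N))] :
    LinearMap.charpoly ((piRep (indFam N C₁)).ρ x) =
      LinearMap.charpoly ((prodRep (piRep (indFam N C₂)) (piRep fun _ : Fin n => N)).ρ x) := by
  have h1 := charpoly_eq_of_equiv (twist N C₁) ((piRep (indFam N C₁)).ρ x)
    (modelEnd N x (sigAct C₁ x⁻¹)) (twist_rho N C₁ x)
  have h2 := charpoly_eq_of_equiv (twistSum N C₂ n)
    ((prodRep (piRep (indFam N C₂)) (piRep fun _ : Fin n => N)).ρ x)
    (modelEnd N x (Sum.map (sigAct C₂ x⁻¹) id)) (twistSum_rho N C₂ n x)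
  have h3 := charpoly_eq_of_equiv (LinearEquiv.funCongrLeft k N β)
    (modelEnd N x (Sum.map (sigAct C₂ x⁻¹) id)) (modelEnd N x (sigAct C₁ x⁻¹)) (by
      intro F
      funext ξ
      change N.ρ x (F (Sum.map (sigAct C₂ x⁻¹) id (β ξ))) = N.ρ x (F (β (sigAct C₁ x⁻¹ ξ)))
      rw [perm_inv C₁ C₂ n x β hβ ξ])
  rw [h1, h2, h3]

/-! ### The assembly -/

/-- **[EC-ART-ASM]** Artin induction for additive invariants from Brauer-Nesbitt and Artin
induction on the level of `G`-sets. -/
theorem art_of (hBN : BNStatement) (hPerm : PermStatement) : ArtStatement := by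
  intro G _ N₀ _ _
  obtain ⟨n, I₁, I₂, f₁, f₂, C₁, C₂, hn, hC₁, hC₂, hβ⟩ := hPerm G N₀
  refine ⟨n, I₁, I₂, f₁, f₂, C₁, C₂, hn, hC₁, hC₂, ?_⟩
  intro k _ _ 𝒩 hN₀ g hg N hNfin hNtriv
  haveI := hNfin
  haveI : ∀ i, Finite (G ⧸ C₁ i) := fun i => finite_quotient_of_le (le_of_cycMod (hC₁ i))
  haveI : ∀ i, Finite (G ⧸ C₂ i) := fun i => finite_quotient_of_le (le_of_cycMod (hC₂ i))
  haveI : ∀ i, Module.Finite k (indFam N C₁ i) := fun i =>
    (inferInstance : Module.Finite k (G ⧸ C₁ i → N))
  haveI : ∀ i, Module.Finite k (indFam N C₂ i) := fun i =>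
    (inferInstance : Module.Finite k (G ⧸ C₂ i → N))
  have ht₁ := indFam_trivial N C₁ (fun i => le_of_cycMod (hC₁ i)) hNtriv
  have ht₂ := indFam_trivial N C₂ (fun i => le_of_cycMod (hC₂ i)) hNtriv
  have hV := addInv_piRep 𝒩 hg hN₀ I₁ (indFam N C₁) (fun _ => inferInstance) ht₁
  have hW₁ := addInv_piRep 𝒩 hg hN₀ I₂ (indFam N C₂) (fun _ => inferInstance) ht₂
  have hW₂ := addInv_piRep 𝒩 hg hN₀ (Fin n) (fun _ => N) (fun _ => hNfin) (fun _ => hNtriv)
  have hW := addInv_prodRep 𝒩 hg (piRep (indFam N C₂)) (piRep fun _ : Fin n => N) hN₀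
    (fun s hs f => funext fun i => ht₂ i s hs (f i))
    (fun s hs f => funext fun i => hNtriv s hs (f i))
  have hVW : g (piRep (indFam N C₁)) =
      g (prodRep (piRep (indFam N C₂)) (piRep fun _ : Fin n => N)) :=
    hBN k G 𝒩 g hg (piRep (indFam N C₁))
      (prodRep (piRep (indFam N C₂)) (piRep fun _ : Fin n => N))
      (isSmooth_piRep 𝒩 _ hN₀ ht₁)
      (isSmooth_prodRep 𝒩 _ _ hN₀ (fun s hs f => funext fun i => ht₂ i s hs (f i))
        (fun s hs f => funext fun i => hNtriv s hs (f i)))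
      (fun x => by
        obtain ⟨β, hβx⟩ := hβ x
        exact charpoly_eq N C₁ C₂ n x β hβx)
  rw [Finset.sum_const, Finset.card_univ, Fintype.card_fin, nsmul_eq_mul] at hW₂
  have e₁ : ∑ i, g (indRep (Rep.res (C₁ i).subtype N)) = ∑ i, g (indFam N C₁ i) := rfl
  have e₂ : ∑ i, g (indRep (Rep.res (C₂ i).subtype N)) = ∑ i, g (indFam N C₂ i) := rfl
  rw [e₁, e₂, ← hV, ← hW₁, hVW, hW, hW₂]
  ring

end Fermat.Agent.P1.helper12

end
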