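import Fermat.Agent.P1.helper30_FlatCntDefs

/-!
# P1 / module FLAT-CNT+ORDF (helper30): the package statements

All statements are `Prop`s; deliver `theorem xxx : XxxStatement p` (or with the listed inputs as
hypotheses).  Notation: `Ω = PadicAlgCl p`, `G_p = Gp p`, `I = inertiaΩ p`,
`toGQ = localGaloisToGlobal p`, `O = GaloisRep.ratLocalizedAt p = ℤ_(p)`.

## A. Hopf side (the "flat theory" of the points of a finite flat group scheme)
`Pts p H`, `ptsAct`, `IsRed0`; `FTIStatement`, `FTQStatement`, `FTOTStatement`,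
`FTEmbStatement`, `FCBdStatement`, `FTPtsStatement`, `FlatTanStatement`.

## B. Local fields dictionary
`LFOpenStatement`, `LFEdegStatement`, `LFZetaStatement`, `LFUnramStatement`, `LFDetStatement`,
`LFRamStatement`, `LFInertiaStatement`.

## C. Structure of `ρbar` and of the flat lifts on `G_p`
`TameIStatement`, `Ord1Statement`, `Ord2Statement`.

## D. Counting
`bddCocycles`, `bbOf`, `ResInjStatement`, `KQIStatement`, `KQIIStatement`, `CountIStatement`,
`CountIIStatement`.

## E. Membership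
`MemIStatement`, `HatExistsStatement`, `MemIIStatement`.

DEFINITIONS ONLY.
-/

set_option autoImplicit false

open IsLocalRing ExtCitation groupCohomology Polynomial

noncomputable section

namespace Fermat.Agent.P1.helper30

open Fermat.Agent.S55 Fermat.Agent.P1.helper70
open Fermat.Agent.S55.helper8 Fermat.Agent.S55.helper7
open WithConv

/-! ## A. Hopf side -/

section HopfSide

variable (p : ℕ) [Fact p.Prime]
  (H : Type) [CommRing H] [HopfAlgebra (GaloisRep.ratLocalizedAt p) H]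

/-- The monoid (in fact group) of `Ω`-points of `H`, under convolution. -/
abbrev Pts : Type := WithConv (H →ₐ[GaloisRep.ratLocalizedAt p] PadicAlgCl p)

/-- An element of `G_p`, as a `ℤ_(p)`-algebra endomorphism of `Ω`. -/
def gpAlgHom (g : Gp p) : PadicAlgCl p →ₐ[GaloisRep.ratLocalizedAt p] PadicAlgCl p :=
  { (g : PadicAlgCl p →+* PadicAlgCl p) with
    commutes' := fun r => by
      change g (algebraMap ℚ (PadicAlgCl p) (r : ℚ)) = algebraMap ℚ (PadicAlgCl p) (r : ℚ)
      rw [eq_ratCast (algebraMap ℚ (PadicAlgCl p)) (r : ℚ)]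
      exact map_ratCast g _ }

/-- The action of `G_p` on the points: `(g x) h = g (x h)`. -/
def ptsAct (g : Gp p) (x : Pts p H) : Pts p H :=
  toConv ((gpAlgHom p g).comp x.ofConv)

lemma ptsAct_apply (g : Gp p) (x : Pts p H) (h : H) :
    (ptsAct p H g x).ofConv h = g (x.ofConv h) := rfl

/-- The point `x` reduces to the identity modulo the maximal ideal of `Ω`
(`x` lies in the connected component). -/
def IsRed0 (x : Pts p H) : Prop :=
  ∀ h : H, ‖x.ofConv h - algebraMap (GaloisRep.ratLocalizedAt p) (PadicAlgCl p)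
    (Coalgebra.counit h)‖ < 1

end HopfSide

variable (p : ℕ) [Fact p.Prime]

/-- **FT-I**. The points reducing to the identity form a submonoid, and inertia acts trivially
modulo them: `σ x = y * x` with `y` reducing to the identity. -/
def FTIStatement : Prop :=
  ∀ (H : Type) [CommRing H] [HopfAlgebra (GaloisRep.ratLocalizedAt p) H]
    [Module.Finite (GaloisRep.ratLocalizedAt p) H],
    IsRed0 p H 1 ∧
    (∀ x y : Pts p H, IsRed0 p H x → IsRed0 p H y → IsRed0 p H (x * y)) ∧
    ∀ σ ∈ inertiaΩ p, ∀ x : Pts p H, ∃ y : Pts p H, IsRed0 p H y ∧ ptsAct p H σ x = y * x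

/-- **FT-Q** (no inertia invariants in the image of the connected part in any quotient).
`p` odd, all points killed by `p`, `N₁` an inertia-stable submonoid of the points, `x` a point
reducing to the identity with `σ x ∈ N₁ x` for all `σ` in inertia.  Then `x ∈ N₁`. -/
def FTQStatement : Prop :=
  p ≠ 2 →
  ∀ (H : Type) [CommRing H] [HopfAlgebra (GaloisRep.ratLocalizedAt p) H]
    [Module.Finite (GaloisRep.ratLocalizedAt p) H] [Module.Flat (GaloisRep.ratLocalizedAt p) H]
    [Coalgebra.IsCocomm (GaloisRep.ratLocalizedAt p) H],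
    (∀ x : Pts p H, x ^ p = 1) →
    ∀ N₁ : Submonoid (Pts p H), (∀ σ ∈ inertiaΩ p, ∀ n ∈ N₁, ptsAct p H σ n ∈ N₁) →
    ∀ x : Pts p H, IsRed0 p H x →
      (∀ σ ∈ inertiaΩ p, ∃ n ∈ N₁, ptsAct p H σ x = n * x) → x ∈ N₁

/-- **FT-OT** (Oort-Tate). If inertia acts on the line spanned by a nontrivial point `x` killed
by `p` and reducing to the identity through `ψ`, i.e. `σ x = x ^ ψ σ`, then `ψ` is the
cyclotomic character: `σ ζ = ζ ^ ψ σ` for the `p`-th roots of unity. -/
def FTOTStatement : Prop :=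
  p ≠ 2 →
  ∀ (H : Type) [CommRing H] [HopfAlgebra (GaloisRep.ratLocalizedAt p) H]
    [Module.Finite (GaloisRep.ratLocalizedAt p) H] [Module.Flat (GaloisRep.ratLocalizedAt p) H]
    [Coalgebra.IsCocomm (GaloisRep.ratLocalizedAt p) H],
    ∀ x : Pts p H, IsRed0 p H x → x ≠ 1 → x ^ p = 1 → ∀ ψ : Gp p → ℕ,
      (∀ σ ∈ inertiaΩ p, ptsAct p H σ x = x ^ ψ σ) →
      ∀ σ ∈ inertiaΩ p, ∀ ζ : PadicAlgCl p, ζ ^ p = 1 → σ ζ = ζ ^ ψ σ

/-- **FT-EMB**. The field `L ⊆ Ω` generated by the values of the points of `H` (all killed by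
`p`) is finite Galois over `ℚ_p`, its fixing subgroup is the kernel of the action on the
points, and it has Fontaine's embedding property (by `helper47.HopfMainStatement`). -/
def FTEmbStatement : Prop :=
  helper47.HopfMainStatement p →
  ∀ (H : Type) [CommRing H] [HopfAlgebra (GaloisRep.ratLocalizedAt p) H]
    [Module.Finite (GaloisRep.ratLocalizedAt p) H] [Module.Flat (GaloisRep.ratLocalizedAt p) H]
    [Coalgebra.IsCocomm (GaloisRep.ratLocalizedAt p) H],
    (∀ x : Pts p H, x ^ p = 1) →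
    ∃ (L : IntermediateField ℚ_[p] (PadicAlgCl p)) (_ : FiniteDimensional ℚ_[p] L)
      (_ : IsGalois ℚ_[p] L),
      helper14.EmbProperty p L ∧
      ∀ g : Gp p, g ∈ L.fixingSubgroup ↔ ∀ x : Pts p H, ptsAct p H g x = x

/-- **FC-BD** (`(BD')` of the blueprint: Kummer theory + `helper14.KummerBounded`).
`L ⊆ Ω` finite Galois over `ℚ_p` with the embedding property, `T ⊆ L` tame containing `ζ_p`
with `Gal(L/T)` a `p`-group.  Then every homomorphism `G_T → 𝔽_p` trivial on `G_L` is
bounded. -/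
def FCBdStatement : Prop :=
  helper14.KummerBounded p →
  ∀ (L : IntermediateField ℚ_[p] (PadicAlgCl p)) [FiniteDimensional ℚ_[p] L]
    [IsGalois ℚ_[p] L], helper14.EmbProperty p L →
  ∀ (T : IntermediateField ℚ_[p] (PadicAlgCl p)) [FiniteDimensional ℚ_[p] T],
    L.fixingSubgroup ≤ T.fixingSubgroup → ¬ p ∣ edeg p T → (∃ ζ ∈ T, IsPrimitiveRoot ζ p) →
    (∀ g ∈ T.fixingSubgroup, ∃ n : ℕ, g ^ p ^ n ∈ L.fixingSubgroup) →
    ∀ f : Gp p → ZMod p,
      (∀ g ∈ T.fixingSubgroup, ∀ h ∈ T.fixingSubgroup, f (g * h) = f g + f h) →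
      (∀ g ∈ L.fixingSubgroup, f g = 0) → IsBddHom p T f

/-- **FT-PTS** (dictionary `ℚbar`-points / `Ω`-points). The Hopf algebras of `IsFlatAt`, with
their `Ω`-points and the action of `G_p`. -/
def FTPtsStatement : Prop :=
  ∀ (A : Type) [CommRing A] [IsLocalRing A] (ρ : GaloisRepAdic A), ρ.IsFlatAt p →
    ∀ I : Ideal A, Finite (A ⧸ I) →
    ∃ (H : Type) (_ : CommRing H) (_ : HopfAlgebra (GaloisRep.ratLocalizedAt p) H),
      Module.Finite (GaloisRep.ratLocalizedAt p) H ∧
      Module.Flat (GaloisRep.ratLocalizedAt p) H ∧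
      Coalgebra.IsCocomm (GaloisRep.ratLocalizedAt p) H ∧
      ∃ e : Pts p H ≃ (ρ.V ⧸ (I • (⊤ : Submodule A ρ.V))),
        (∀ f g : Pts p H, e (f * g) = e f + e g) ∧
        ∀ (σ : Gp p) (f : Pts p H),
          e (ptsAct p H σ f) = ρ.levelAction I (localGaloisToGlobal p σ) (e f)

/-- **FLAT-TAN** (output of part A). For a flat tangent lift `ρ = (1 + ε c) ρbar`, the
`G_p`-modules `ρ.V` and `ρbar.V` are flat in the sense of `IsFlatGp`. -/
def FlatTanStatement : Prop :=
  p ≠ 2 →
  ∀ (𝒪 : Type) [CommRing 𝒪] [IsLocalRing 𝒪] [Finite (ResidueField 𝒪)]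
    (ρbar : ResidualGaloisRep (ResidueField 𝒪)), ((p : ℕ) : ResidueField 𝒪) = 0 →
    ∀ (ρ : GaloisRepAdic (DualNumber (ResidueField 𝒪))) (c : GQ → Ad0 ρbar),
      ρ.IsFlatAt p → IsTanLift ρbar ρ c →
      IsFlatGp p (locAct p ρ) ∧ IsFlatGp p (locActBar p ρbar)

/-! ## B. Local fields dictionary -/

/-- **LF-OPEN**. Every subgroup of `G_p` containing a level is the fixing subgroup of a finite
extension of `ℚ_p` inside `Ω`. -/
def LFOpenStatement : Prop :=
  ∀ U : Subgroup (Gp p), (∃ N ∈ (locLevels (pPrime p)).mem, N ≤ U) →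
    ∃ T : IntermediateField ℚ_[p] (PadicAlgCl p), FiniteDimensional ℚ_[p] T ∧
      T.fixingSubgroup = U

/-- **LF-EDEG**. The ramification index of a finite `T ⊆ Ω` is the index of `I ∩ G_T` in the
inertia group `I`; the degree is the index of `G_T`. -/
def LFEdegStatement : Prop :=
  ∀ (T : IntermediateField ℚ_[p] (PadicAlgCl p)) [FiniteDimensional ℚ_[p] T],
    edeg p T = (T.fixingSubgroup).relIndex (inertiaΩ p) ∧
    Module.finrank ℚ_[p] T = (T.fixingSubgroup).index

/-- **LF-ZETA**. `ζ_p ∈ T` iff `G_T` fixes the `p`-th roots of unity. -/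
def LFZetaStatement : Prop :=
  ∀ (T : IntermediateField ℚ_[p] (PadicAlgCl p)) [FiniteDimensional ℚ_[p] T],
    (∃ ζ ∈ T, IsPrimitiveRoot ζ p) ↔
      ∀ g ∈ T.fixingSubgroup, ∀ ζ : PadicAlgCl p, ζ ^ p = 1 → g ζ = ζ

/-- **LF-UNRAM**. Boundedness passes to extensions with the same ramification index. -/
def LFUnramStatement : Prop :=
  ∀ (T T' : IntermediateField ℚ_[p] (PadicAlgCl p)) [FiniteDimensional ℚ_[p] T]
    [FiniteDimensional ℚ_[p] T'], T ≤ T' → edeg p T = edeg p T' →
    ∀ f : Gp p → ZMod p, IsBddHom p T f → IsBddHom p T' f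

/-- **LF-DET**. The local form of `DetIsCyclotomic` for a residual representation. -/
def LFDetStatement : Prop :=
  ∀ (k : Type) [Field k] (ρbar : ResidualGaloisRep k),
    (GaloisRepAdic.ofResidualGaloisRep ρbar).DetIsCyclotomic p →
    ∀ (g : Gp p) (a : ℕ), (∀ ζ : PadicAlgCl p, ζ ^ p = 1 → g ζ = ζ ^ a) →
      LinearMap.det (ρbar.ρ (localGaloisToGlobal p g)) = (a : k)

/-- **LF-RAM**. The cyclotomic character is ramified at `p` (`p` odd). -/
def LFRamStatement : Prop :=
  p ≠ 2 → ∃ σ ∈ inertiaΩ p, ∃ ζ : PadicAlgCl p, ζ ^ p = 1 ∧ σ ζ ≠ ζ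

/-- **LF-INERTIA**. `inertiaΩ p` is the inertia group of the Prelude's place over `p`, and the
local Galois group has a tame structure (`helper24.TameStructure`) with respect to it. -/
def LFInertiaStatement : Prop :=
  (∀ g : Gp p, g ∈ inertiaΩ p ↔
    localGaloisToGlobal p g ∈ (padicPlace p).inertiaSubgroupIn ℚ) ∧
  ∃ σ : Gp p, helper24.TameStructure (locLevels (pPrime p)) (inertiaΩ p) σ p

/-! ## C. Structure -/

/-- The hypotheses on `ρbar` restricted to `G_p` shared by the packages of parts C and D: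
`p = 0` in `k`, `det = ω`, all characteristic polynomials split. -/
structure LocSetting {k : Type} [Field k] (ρbar : ResidualGaloisRep k) : Prop where
  hp2 : p ≠ 2
  hpk : ((p : ℕ) : k) = 0
  hdet : ∀ (g : Gp p) (a : ℕ), (∀ ζ : PadicAlgCl p, ζ ^ p = 1 → g ζ = ζ ^ a) →
    LinearMap.det (ρbar.ρ (localGaloisToGlobal p g)) = (a : k)
  hsplit : ∀ g : Gp p, ∃ α β : k,
    LinearMap.charpoly (ρbar.ρ (localGaloisToGlobal p g)) = (X - C α) * (X - C β)
  hram : ∃ σ ∈ inertiaΩ p, ∃ ζ : PadicAlgCl p, ζ ^ p = 1 ∧ σ ζ ≠ ζ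
  htame : ∃ σ : Gp p, helper24.TameStructure (locLevels (pPrime p)) (inertiaΩ p) σ p
  hlev : ∃ N ∈ (locLevels (pPrime p)).mem, ∀ g ∈ N, ρbar.ρ (localGaloisToGlobal p g) = 1

/-- **TAME-I** (CASE I). If `ρbar` restricted to `G_p` is irreducible, the field `T` cut out by
it is tamely ramified, of degree prime to `p`, and contains `ζ_p`. -/
def TameIStatement : Prop :=
  LFEdegStatement p → LFZetaStatement p →
  ∀ (k : Type) [Field k] [Finite k] (ρbar : ResidualGaloisRep k), LocSetting p ρbar →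
    ¬ LocRed p ρbar →
    ∀ (T : IntermediateField ℚ_[p] (PadicAlgCl p)) [FiniteDimensional ℚ_[p] T],
      (∀ g : Gp p, g ∈ T.fixingSubgroup ↔ ρbar.ρ (localGaloisToGlobal p g) = 1) →
      ¬ p ∣ edeg p T ∧ ¬ p ∣ Module.finrank ℚ_[p] T ∧ ∃ ζ ∈ T, IsPrimitiveRoot ζ p

/-- **ORD-1** (CASE II, the ordinary line). If `ρbar` restricted to `G_p` is reducible and flat,
then `ramLine` is a `G_p`-stable line (with unramified quotient, by definition). -/
def Ord1Statement : Prop :=
  ∀ (k : Type) [Field k] [Finite k] (ρbar : ResidualGaloisRep k), LocSetting p ρbar →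
    LocRed p ρbar → IsFlatGp p (locActBar p ρbar) →
    Module.finrank k ↥(ramLine p ρbar) = 1 ∧
    ∀ g : Gp p, ∀ x ∈ ramLine p ρbar, ρbar.ρ (localGaloisToGlobal p g) x ∈ ramLine p ρbar

/-- **ORD-2** (CASE II, flat lifts are ordinary). Let `ramLine` be a stable line. The cocycle
`c` of a flat tangent lift with cyclotomic determinant is, on `G_p`, cohomologous to a cocycle
with values in the Borel `B⁰(ramLine)` and with values in `W(ramLine)` on inertia. -/
def Ord2Statement : Prop :=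
  ∀ (𝒪 : Type) [CommRing 𝒪] [IsLocalRing 𝒪] [Finite (ResidueField 𝒪)]
    (ρbar : ResidualGaloisRep (ResidueField 𝒪)), LocSetting p ρbar →
    Module.finrank (ResidueField 𝒪) ↥(ramLine p ρbar) = 1 →
    (∀ g : Gp p, ∀ x ∈ ramLine p ρbar,
      ρbar.ρ (localGaloisToGlobal p g) x ∈ ramLine p ρbar) →
    ∀ (ρ : GaloisRepAdic (DualNumber (ResidueField 𝒪))) (c : GQ → Ad0 ρbar),
      ρ.DetIsCyclotomic p → IsTanLift ρbar ρ c → IsFlatGp p (locAct p ρ) →
      ∃ X : Ad0 ρbar,
        (∀ g : Gp p, c (localGaloisToGlobal p g) -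
            (ad0Hom ρbar (localGaloisToGlobal p g) X - X) ∈
          helper7.borelSub ρbar (ramLine p ρbar)) ∧
        ∀ g ∈ inertiaΩ p, c (localGaloisToGlobal p g) -
            (ad0Hom ρbar (localGaloisToGlobal p g) X - X) ∈
          helper7.nilSub ρbar (ramLine p ρbar)

/-! ## D. Counting -/

section Count

variable {𝒪 : Type} [CommRing 𝒪] [IsLocalRing 𝒪]
  (ρbar : ResidualGaloisRep (ResidueField 𝒪)) [Algebra (ZMod p) (ResidueField 𝒪)]

/-- The level cocycles of `G_p` with values in `B`, with values in `W` on inertia, which are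
bounded over `T` (coordinatewise). -/
def bddCocycles (T : IntermediateField ℚ_[p] (PadicAlgCl p)) [FiniteDimensional ℚ_[p] T]
    (B W : Submodule (ResidueField 𝒪) (Ad0 ρbar)) :
    Set (primeLocalGaloisGroup (pPrime p) → locM ρbar p) :=
  {c | c ∈ Z1 (locLevels (pPrime p)) (locM ρbar p) ∧
    (∀ g : Gp p, (c g : Ad0 ρbar) ∈ B) ∧
    (∀ g ∈ inertiaΩ p, (c g : Ad0 ρbar) ∈ W) ∧
    ∀ ℓ : Ad0 ρbar →ₗ[ZMod p] ZMod p, IsBddHom p T (fun g => ℓ (c g))}

/-- The classes of the span of `bddCocycles`. -/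
def bbOf (T : IntermediateField ℚ_[p] (PadicAlgCl p)) [FiniteDimensional ℚ_[p] T]
    (B W : Submodule (ResidueField 𝒪) (Ad0 ρbar)) :
    Submodule (ZMod p) (H1 (locLevels (pPrime p)) (locM ρbar p)) :=
  classes (locLevels (pPrime p)) (locM ρbar p)
    (Submodule.span (ZMod p) (bddCocycles p ρbar T B W) ⊔ B1 (locM ρbar p))

end Count

/-- **RES-INJ** (abstract). A level cocycle vanishing on a normal subgroup `U` of finite index
prime to `p` which acts trivially is a coboundary. -/
def ResInjStatement : Prop :=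
  ∀ (G : Type) [Group G] (𝒩 : Levels G) (M : Rep (ZMod p) G) (U : Subgroup G), U.Normal →
    ¬ p ∣ U.index → (∀ u ∈ U, ∀ m : M, M.ρ u m = m) →
    ∀ c ∈ Z1 𝒩 M, (∀ u ∈ U, c u = 0) → c ∈ B1 M

/-- **KQ-I** (CASE I, the Kummer count; KUMEQ + character bookkeeping). `ρbar` irreducible on
`G_p`, `T` the field cut out by it.  The restrictions to `G_T` of the bounded cocycles span a
space of dimension `≤ d = [k : 𝔽_p]`. -/
def KQIStatement : Prop :=
  ∀ (𝒪 : Type) [CommRing 𝒪] [IsLocalRing 𝒪] [Finite (ResidueField 𝒪)]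
    (ρbar : ResidualGaloisRep (ResidueField 𝒪)) [Algebra (ZMod p) (ResidueField 𝒪)],
    LocSetting p ρbar → ¬ LocRed p ρbar →
    ∀ (T : IntermediateField ℚ_[p] (PadicAlgCl p)) [FiniteDimensional ℚ_[p] T],
      (∀ g : Gp p, g ∈ T.fixingSubgroup ↔ ρbar.ρ (localGaloisToGlobal p g) = 1) →
      Module.Finite (ZMod p)
        ↥((Submodule.span (ZMod p) (bddCocycles p ρbar T ⊤ ⊤)).map
          (LinearMap.funLeft (ZMod p) (locM ρbar p)
            (Subtype.val : ↥T.fixingSubgroup → Gp p))) ∧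
      Module.finrank (ZMod p)
        ↥((Submodule.span (ZMod p) (bddCocycles p ρbar T ⊤ ⊤)).map
          (LinearMap.funLeft (ZMod p) (locM ρbar p)
            (Subtype.val : ↥T.fixingSubgroup → Gp p))) ≤
        Module.finrank (ZMod p) (ResidueField 𝒪)

/-- The condition on the field `T̂` of CASE II: its fixing subgroup consists of the `g` acting
trivially on `ramLine` and on `V / ramLine` on which all unramified level homomorphisms
`G_p → 𝔽_p` vanish. -/
def IsHatField {k : Type} [Field k] (ρbar : ResidualGaloisRep k)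
    (T : IntermediateField ℚ_[p] (PadicAlgCl p)) : Prop :=
  ∀ g : Gp p, g ∈ T.fixingSubgroup ↔
    (∀ x ∈ ramLine p ρbar, ρbar.ρ (localGaloisToGlobal p g) x = x) ∧
    (∀ x : ρbar.V, ρbar.ρ (localGaloisToGlobal p g) x - x ∈ ramLine p ρbar) ∧
    ∀ u : primeLocalGaloisGroup (pPrime p) → ZMod p, IsLev₁ (locLevels (pPrime p)) u →
      (∀ a b, u (a * b) = u a + u b) → (∀ i ∈ inertiaΩ p, u i = 0) → u g = 0

/-- **KQ-II** (CASE II, the Kummer count). `ramLine` a stable line, `W = W(ramLine)`: the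
bounded level cocycles with values in `W` span a space of dimension `≤ 2 d`. -/
def KQIIStatement : Prop :=
  ∀ (𝒪 : Type) [CommRing 𝒪] [IsLocalRing 𝒪] [Finite (ResidueField 𝒪)]
    (ρbar : ResidualGaloisRep (ResidueField 𝒪)) [Algebra (ZMod p) (ResidueField 𝒪)],
    LocSetting p ρbar → Module.finrank (ResidueField 𝒪) ↥(ramLine p ρbar) = 1 →
    (∀ g : Gp p, ∀ x ∈ ramLine p ρbar,
      ρbar.ρ (localGaloisToGlobal p g) x ∈ ramLine p ρbar) →
    ∀ (T : IntermediateField ℚ_[p] (PadicAlgCl p)) [FiniteDimensional ℚ_[p] T],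
      IsHatField p ρbar T →
      Module.Finite (ZMod p) ↥(Submodule.span (ZMod p) (bddCocycles p ρbar T
        (helper7.nilSub ρbar (ramLine p ρbar)) (helper7.nilSub ρbar (ramLine p ρbar)))) ∧
      Module.finrank (ZMod p) ↥(Submodule.span (ZMod p) (bddCocycles p ρbar T
        (helper7.nilSub ρbar (ramLine p ρbar)) (helper7.nilSub ρbar (ramLine p ρbar)))) ≤
        2 * Module.finrank (ZMod p) (ResidueField 𝒪)

/-- **COUNT-I** (from KQ-I + RES-INJ + TAME-I). -/
def CountIStatement : Prop :=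
  ∀ (𝒪 : Type) [CommRing 𝒪] [IsLocalRing 𝒪] [Finite (ResidueField 𝒪)]
    (ρbar : ResidualGaloisRep (ResidueField 𝒪)) [Algebra (ZMod p) (ResidueField 𝒪)],
    LocSetting p ρbar → ¬ LocRed p ρbar →
    ∀ (T : IntermediateField ℚ_[p] (PadicAlgCl p)) [FiniteDimensional ℚ_[p] T],
      (∀ g : Gp p, g ∈ T.fixingSubgroup ↔ ρbar.ρ (localGaloisToGlobal p g) = 1) →
      Module.Finite (ZMod p) ↥(bbOf p ρbar T ⊤ ⊤) ∧
      Module.finrank (ZMod p) ↥(bbOf p ρbar T ⊤ ⊤) ≤ Module.finrank (ZMod p) (ResidueField 𝒪)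

/-- **COUNT-II** (from KQ-II + unramified homomorphisms + linear algebra). -/
def CountIIStatement : Prop :=
  ∀ (𝒪 : Type) [CommRing 𝒪] [IsLocalRing 𝒪] [Finite (ResidueField 𝒪)]
    (ρbar : ResidualGaloisRep (ResidueField 𝒪)) [Algebra (ZMod p) (ResidueField 𝒪)],
    LocSetting p ρbar → IsFlatGp p (locActBar p ρbar) →
    Module.finrank (ResidueField 𝒪) ↥(ramLine p ρbar) = 1 →
    (∀ g : Gp p, ∀ x ∈ ramLine p ρbar,
      ρbar.ρ (localGaloisToGlobal p g) x ∈ ramLine p ρbar) →
    ∀ (T : IntermediateField ℚ_[p] (PadicAlgCl p)) [FiniteDimensional ℚ_[p] T],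
      IsHatField p ρbar T →
      Module.Finite (ZMod p) ↥(bbOf p ρbar T
        (helper7.borelSub ρbar (ramLine p ρbar)) (helper7.nilSub ρbar (ramLine p ρbar))) ∧
      Module.finrank (ZMod p) ↥(bbOf p ρbar T
        (helper7.borelSub ρbar (ramLine p ρbar)) (helper7.nilSub ρbar (ramLine p ρbar))) ≤
        Module.finrank (ZMod p) ↥(S55.H0 (locM ρbar p)) +
          Module.finrank (ZMod p) (ResidueField 𝒪)

/-! ## E. Membership -/

/-- **MEM-I** (CASE I). The restriction to `G_p` of a flat tangent cocycle is bounded over the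
(tame) field `T` cut out by `ρbar` on `G_p`. -/
def MemIStatement : Prop :=
  ∀ (𝒪 : Type) [CommRing 𝒪] [IsLocalRing 𝒪] [Finite (ResidueField 𝒪)]
    (ρbar : ResidualGaloisRep (ResidueField 𝒪)) [Algebra (ZMod p) (ResidueField 𝒪)],
    LocSetting p ρbar →
    ∀ (T : IntermediateField ℚ_[p] (PadicAlgCl p)) [FiniteDimensional ℚ_[p] T],
      (∀ g : Gp p, g ∈ T.fixingSubgroup ↔ ρbar.ρ (localGaloisToGlobal p g) = 1) →
      ¬ p ∣ edeg p T → (∃ ζ ∈ T, IsPrimitiveRoot ζ p) →
      ∀ (ρ : GaloisRepAdic (DualNumber (ResidueField 𝒪))) (c : GQ → Ad0 ρbar),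
        IsTanLift ρbar ρ c → IsFlatGp p (locAct p ρ) →
        (fun g : primeLocalGaloisGroup (pPrime p) =>
            (c (primeLocalToGlobal (pPrime p) g) : locM ρbar p)) ∈
          Z1 (locLevels (pPrime p)) (locM ρbar p) →
        (fun g : primeLocalGaloisGroup (pPrime p) =>
            (c (primeLocalToGlobal (pPrime p) g) : locM ρbar p)) ∈
          bddCocycles p ρbar T ⊤ ⊤

/-- **HAT-EX** (CASE II). The field `T̂` exists. -/
def HatExistsStatement : Prop :=
  LFOpenStatement p →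
  ∀ (k : Type) [Field k] [Finite k] (ρbar : ResidualGaloisRep k), LocSetting p ρbar →
    ∃ T : IntermediateField ℚ_[p] (PadicAlgCl p), FiniteDimensional ℚ_[p] T ∧
      IsHatField p ρbar T

/-- **MEM-II** (CASE II). If `c - ∂X` has values in the Borel and in `W` on inertia (ORD-2),
then it is bounded over `T̂`. -/
def MemIIStatement : Prop :=
  LFOpenStatement p → LFEdegStatement p → LFZetaStatement p → LFUnramStatement p →
  ∀ (𝒪 : Type) [CommRing 𝒪] [IsLocalRing 𝒪] [Finite (ResidueField 𝒪)]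
    (ρbar : ResidualGaloisRep (ResidueField 𝒪)) [Algebra (ZMod p) (ResidueField 𝒪)],
    LocSetting p ρbar → Module.finrank (ResidueField 𝒪) ↥(ramLine p ρbar) = 1 →
    (∀ g : Gp p, ∀ x ∈ ramLine p ρbar,
      ρbar.ρ (localGaloisToGlobal p g) x ∈ ramLine p ρbar) →
    ∀ (T : IntermediateField ℚ_[p] (PadicAlgCl p)) [FiniteDimensional ℚ_[p] T],
      IsHatField p ρbar T →
      ∀ (ρ : GaloisRepAdic (DualNumber (ResidueField 𝒪))) (c : GQ → Ad0 ρbar) (X : Ad0 ρbar),
        IsTanLift ρbar ρ c → IsFlatGp p (locAct p ρ) →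
        (∀ g : Gp p, c (localGaloisToGlobal p g) -
            (ad0Hom ρbar (localGaloisToGlobal p g) X - X) ∈
          helper7.borelSub ρbar (ramLine p ρbar)) →
        (∀ g ∈ inertiaΩ p, c (localGaloisToGlobal p g) -
            (ad0Hom ρbar (localGaloisToGlobal p g) X - X) ∈
          helper7.nilSub ρbar (ramLine p ρbar)) →
        (fun g : primeLocalGaloisGroup (pPrime p) =>
            (c (primeLocalToGlobal (pPrime p) g) : locM ρbar p)) ∈
          Z1 (locLevels (pPrime p)) (locM ρbar p) →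
        (fun g : primeLocalGaloisGroup (pPrime p) =>
            ((c (primeLocalToGlobal (pPrime p) g) -
              (ad0Hom ρbar (primeLocalToGlobal (pPrime p) g) X - X) : Ad0 ρbar) :
                locM ρbar p)) ∈
          bddCocycles p ρbar T
            (helper7.borelSub ρbar (ramLine p ρbar)) (helper7.nilSub ρbar (ramLine p ρbar))

end Fermat.Agent.P1.helper30
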