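import Fermat.Agent.P1.helper12_FlatKQIStruct
import Fermat.Agent.P1.helper30_FlatCntPkgs
import Fermat.Agent.P1.helper14_KumEqDefs2
import Fermat.Agent.P1.helper93_LSODim

/-!
# P1 / FLAT-CNT / KQ-I (helper12, task 796): the Kummer count of CASE I

`kqI_of : TameIStatement p → LFEdegStatement p → LFZetaStatement p → FCInStatement p →
  KumEqIStatement p → KumEqInvStatement p → (J1 bridge) → helper30.KQIStatement p`.

`ρbar` irreducible on `G_p`, `T` the field cut out by it.  By STRUCT-I (`kqi_structI`) there is a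
basis `(e₁, e₂)` of `V` in which every `ρbar g` is diagonal or antidiagonal; `Γ` = the diagonal
elements, `χ₁, χ₂` the diagonal characters, `χ₂ = χ₁ ^ p` on inertia.  For a bounded cocycle `c`
write `c g = [[f₀, f₊], [f₋, -f₀]]` on `G_T`:

* `f₀` is `Γ`-invariant, hence `G_p`-invariant (KUMEQ-INV), but an antidiagonal `φ` maps it to
  `-f₀`: `f₀ = 0`;
* `f₊` is `χ₁ / χ₂`-semi-invariant under `Γ`: any two are linearly dependent (KUMEQ-I);
* `f₋ (φ g φ⁻¹) = const * f₊ g`.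

Hence any two restrictions are `k`-linearly dependent, and their `𝔽_p`-span has dimension
`≤ [k : 𝔽_p]`.
-/

set_option autoImplicit false
set_option linter.style.haveILetI false
set_option linter.unusedSectionVars false
set_option linter.unusedTactic false

open IsLocalRing ExtCitation groupCohomology Polynomial

noncomputable section

namespace Fermat.Agent.P1.helper12

open Fermat.Agent.S55 Fermat.Agent.P1.helper70 Fermat.Agent.P1.helper30
open Fermat.Agent.S55.helper8 Fermat.Agent.S55.helper7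
open Fermat.Agent.P1.helper93

/-! ## Fields and characters -/

section Field

variable (p : ℕ) [Fact p.Prime]

/-- A subfield of `Ω` with normal fixing subgroup is normal over `ℚ_p`. -/
lemma kqi_normal_field (T : IntermediateField ℚ_[p] (PadicAlgCl p))
    (hN : (T.fixingSubgroup).Normal) : Normal ℚ_[p] T := by
  have hgalΩ : IsGalois ℚ_[p] (PadicAlgCl p) := IsGalois.mk
  rw [IntermediateField.normal_iff_forall_map_le']
  intro σ x hx
  obtain ⟨y, hy, rfl⟩ := (IntermediateField.mem_map T).1 hx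
  rw [← InfiniteGalois.fixedField_fixingSubgroup T, IntermediateField.mem_fixedField_iff]
  intro g hg
  have h1 : σ⁻¹ * g * σ ∈ T.fixingSubgroup := by
    have := hN.conj_mem g hg σ⁻¹
    rwa [inv_inv] at this
  have h2 : (σ⁻¹ * g * σ) y = y := (IntermediateField.mem_fixingSubgroup_iff T _).1 h1 y hy
  have h3 : σ ((σ⁻¹ * g * σ) y) = g (σ y) := by
    change σ (σ⁻¹ (g (σ y))) = g (σ y)
    change σ (σ.symm (g (σ y))) = g (σ y)
    exact σ.apply_symm_apply _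
  rw [h2] at h3
  exact h3.symm

/-- The mod `p` cyclotomic character with respect to `ζ`. -/
lemma kqi_exists_cycl {ζ : PadicAlgCl p} (hζ : IsPrimitiveRoot ζ p) :
    ∃ ω : helper14.GalP p → ZMod p, helper14.IsCycl p ζ ω := by
  have h1 : ∀ g : helper14.GalP p, ∃ i : ℕ, i < p ∧ ζ ^ i = g ζ := fun g => by
    have h : (g ζ) ^ p = 1 := by rw [← map_pow, hζ.pow_eq_one, map_one]
    obtain ⟨i, hi, h'⟩ := hζ.eq_pow_of_pow_eq_one h
    exact ⟨i, hi, h'⟩
  choose i hi hi' using h1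
  refine ⟨fun g => (i g : ZMod p), fun g => ?_⟩
  rw [ZMod.val_natCast_of_lt (hi g), hi' g]

/-- The cyclotomic character gives the action on all `p`-th roots of unity. -/
lemma kqi_cycl_apply {ζ : PadicAlgCl p} (hζ : IsPrimitiveRoot ζ p)
    {ω : helper14.GalP p → ZMod p} (hω : helper14.IsCycl p ζ ω) (g : helper14.GalP p)
    (ξ : PadicAlgCl p) (hξ : ξ ^ p = 1) : g ξ = ξ ^ (ω g).val := by
  obtain ⟨j, -, rfl⟩ := hζ.eq_pow_of_pow_eq_one hξ
  rw [map_pow, hω g, ← pow_mul, ← pow_mul, mul_comm]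

end Field

/-! ## Matrices -/

section Mat

variable (p : ℕ) [Fact p.Prime] {𝒪 : Type} [CommRing 𝒪] [IsLocalRing 𝒪]
  (ρbar : ResidualGaloisRep (ResidueField 𝒪))

/-- `ρbar` on `G_p`. -/
def kqiLoc : Gp p →* Module.End (ResidueField 𝒪) ρbar.V :=
  ρbar.ρ.comp (localGaloisToGlobal p)

lemma kqiLoc_apply (g : Gp p) : kqiLoc p ρbar g = ρbar.ρ (localGaloisToGlobal p g) := rfl

variable [Algebra (ZMod p) (ResidueField 𝒪)] (b : Module.Basis (Fin 2) (ResidueField 𝒪) ρbar.V)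

/-- The adjoint action in matrix form. -/
lemma kqi_lsoMat_act (g : Gp p) (x : Ad0 ρbar) :
    lsoMat b ((locM ρbar p).ρ g x) =
      kqiMat b (kqiLoc p ρbar) g * lsoMat b x * kqiMat b (kqiLoc p ρbar) g⁻¹ := by
  have h1 : lsoMat b ((locM ρbar p).ρ g x) =
      LinearMap.toMatrix b b (ρbar.ρ (localGaloisToGlobal p g) * Ad0.toEnd ρbar x *
        ρbar.ρ (localGaloisToGlobal p g)⁻¹) := rfl
  rw [h1, LinearMap.toMatrix_mul, LinearMap.toMatrix_mul, lsoMat_apply,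
    kqiMat_apply, kqiMat_apply, kqiLoc_apply, kqiLoc_apply, map_inv (localGaloisToGlobal p) g]

/-- An element of the kernel of `ρbar` acts trivially on `ad⁰`. -/
lemma kqi_act_eq_self (g : Gp p) (hg : ρbar.ρ (localGaloisToGlobal p g) = 1) (x : Ad0 ρbar) :
    (locM ρbar p).ρ g x = x := by
  have hinv : ρbar.ρ (localGaloisToGlobal p g)⁻¹ = 1 := by
    have h1 := map_mul ρbar.ρ (localGaloisToGlobal p g)⁻¹ (localGaloisToGlobal p g)
    rw [inv_mul_cancel, map_one, hg, mul_one] at h1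
    exact h1.symm
  have key : ∀ y : Ad0 ρbar, (ad0Rep ρbar p).ρ (localGaloisToGlobal p g) y = y := by
    intro y
    apply Ad0.toEnd_injective ρbar
    rw [ad0Rep_ρ_apply, hg, hinv, one_mul, mul_one]
  exact key x

/-- The cocycle relation. -/
lemma kqi_z1_mul {c : primeLocalGaloisGroup (pPrime p) → locM ρbar p}
    (hc : c ∈ Z1 (locLevels (pPrime p)) (locM ρbar p)) (g h : Gp p) :
    c (g * h) = (locM ρbar p).ρ g (c h) + c g := by
  have h1 : (d₁₂ (locM ρbar p)).hom c (g, h) = 0 := by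
    rw [LinearMap.mem_ker.1 hc.2]
    rfl
  rw [d₁₂_hom_apply] at h1
  have h2 : (locM ρbar p).ρ g (c h) - c (g * h) + c g = 0 := h1
  rw [sub_add_eq_add_sub, sub_eq_zero] at h2
  exact h2.symm

/-- On the kernel of `ρbar`, a cocycle is equivariant for conjugation. -/
lemma kqi_cocycle_conj {c : primeLocalGaloisGroup (pPrime p) → locM ρbar p}
    (hc : c ∈ Z1 (locLevels (pPrime p)) (locM ρbar p)) (γ g : Gp p)
    (hg : ρbar.ρ (localGaloisToGlobal p g) = 1) :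
    c (γ * g * γ⁻¹) = (locM ρbar p).ρ γ (c g) := by
  have hconj : ρbar.ρ (localGaloisToGlobal p (γ * g * γ⁻¹)) = 1 := by
    rw [map_mul, map_mul, map_mul, map_mul, hg, mul_one, ← map_mul, ← map_mul, mul_inv_cancel,
      map_one, map_one]
  have h1 := kqi_z1_mul p ρbar hc γ g
  have h2 := kqi_z1_mul p ρbar hc (γ * g * γ⁻¹) γ
  rw [inv_mul_cancel_right] at h2
  have h3 : (locM ρbar p).ρ (γ * g * γ⁻¹) (c γ) = c γ :=
    kqi_act_eq_self p ρbar (γ * g * γ⁻¹) hconj (c γ)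
  rw [h3, h1] at h2
  have h4 : (locM ρbar p).ρ γ (c g) + c γ = c γ + c (γ * g * γ⁻¹) := h2
  rw [add_comm (c γ)] at h4
  exact (add_right_cancel h4).symm

/-- A cocycle in matrix form, on conjugates of elements of the kernel of `ρbar`. -/
lemma kqi_lsoMat_conj {c : primeLocalGaloisGroup (pPrime p) → locM ρbar p}
    (hc : c ∈ Z1 (locLevels (pPrime p)) (locM ρbar p)) (γ g : Gp p)
    (hg : ρbar.ρ (localGaloisToGlobal p g) = 1) :
    lsoMat b (c (γ * g * γ⁻¹)) =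
      kqiMat b (kqiLoc p ρbar) γ * lsoMat b (c g) * kqiMat b (kqiLoc p ρbar) γ⁻¹ := by
  rw [kqi_cocycle_conj p ρbar hc γ g hg]
  exact kqi_lsoMat_act p ρbar b γ (c g)

/-- The identification of the carrier of `locM` with `Ad0`. -/
def kqiVal (x : locM ρbar p) : Ad0 ρbar := x

/-- The coordinates of a bounded cocycle have level `≥ e_T`. -/
lemma kqi_hasLevelK
    (hBr : ∀ (T : IntermediateField ℚ_[p] (PadicAlgCl p)) [FiniteDimensional ℚ_[p] T]
      (ζ : PadicAlgCl p), IsPrimitiveRoot ζ p → ζ ∈ T →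
      ∀ f : Gp p → ZMod p, IsBddHom p T f → helper14.HasLevel p T ζ (edeg p T) f)
    (T : IntermediateField ℚ_[p] (PadicAlgCl p)) [FiniteDimensional ℚ_[p] T]
    {ζ : PadicAlgCl p} (hζ : IsPrimitiveRoot ζ p) (hζT : ζ ∈ T) (i j : Fin 2)
    {c : primeLocalGaloisGroup (pPrime p) → locM ρbar p}
    (hc : c ∈ bddCocycles p ρbar T ⊤ ⊤) :
    helper14.HasLevelK p T ζ (ResidueField 𝒪) (edeg p T)
      (fun g => lsoMat b (c g) i j) := by
  intro ℓ
  have h1 := hc.2.2.2 (ℓ ∘ₗ ((Matrix.entryLinearMap (ResidueField 𝒪) (ResidueField 𝒪) i j ∘ₗ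
    lsoMat b).restrictScalars (ZMod p)))
  exact hBr T ζ hζ hζT _ h1

end Mat

/-! ## The main theorem -/

section Main

variable (p : ℕ) [Fact p.Prime]

/-- In characteristic `p ≠ 2`, `2 ≠ 0`. -/
lemma kqi_two_ne_zero {k : Type} [Field k] (hp2 : p ≠ 2) (hpk : ((p : ℕ) : k) = 0) :
    (2 : k) ≠ 0 := by
  intro h2
  obtain ⟨m, hm⟩ := (Fact.out : p.Prime).odd_of_ne_two hp2
  rw [hm] at hpk
  push_cast at hpk
  rw [h2, zero_mul, zero_add] at hpk
  exact one_ne_zero hpk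

/-- **Pairwise dependence**: the restrictions to `G_T` of any two bounded cocycles are
`k`-linearly dependent. -/
theorem kqi_dep (hTameI : TameIStatement p) (hEdeg : LFEdegStatement p)
    (hZeta : LFZetaStatement p) (hIn : helper14.FCInStatement p)
    (hKI : helper14.KumEqIStatement p) (hKInv : helper14.KumEqInvStatement p)
    (hBr : ∀ (T : IntermediateField ℚ_[p] (PadicAlgCl p)) [FiniteDimensional ℚ_[p] T]
      (ζ : PadicAlgCl p), IsPrimitiveRoot ζ p → ζ ∈ T →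
      ∀ f : Gp p → ZMod p, IsBddHom p T f → helper14.HasLevel p T ζ (edeg p T) f)
    {𝒪 : Type} [CommRing 𝒪] [IsLocalRing 𝒪] [Finite (ResidueField 𝒪)]
    (ρbar : ResidualGaloisRep (ResidueField 𝒪)) [Algebra (ZMod p) (ResidueField 𝒪)]
    (hset : LocSetting p ρbar) (hirr : ¬ LocRed p ρbar)
    (T : IntermediateField ℚ_[p] (PadicAlgCl p)) [FiniteDimensional ℚ_[p] T]
    (hT : ∀ g : Gp p, g ∈ T.fixingSubgroup ↔ ρbar.ρ (localGaloisToGlobal p g) = 1)
    {z z' : primeLocalGaloisGroup (pPrime p) → locM ρbar p}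
    (hz : z ∈ bddCocycles p ρbar T ⊤ ⊤) (hz' : z' ∈ bddCocycles p ρbar T ⊤ ⊤) :
    ∃ a a' : ResidueField 𝒪, (a ≠ 0 ∨ a' ≠ 0) ∧
      ∀ g : Gp p, g ∈ T.fixingSubgroup →
        a • kqiVal p ρbar (z g) + a' • kqiVal p ρbar (z' g) = 0 := by
  classical
  have hp : p.Prime := Fact.out
  haveI : NeZero p := ⟨hp.ne_zero⟩
  obtain ⟨hpe, hpfin, ζ, hζT, hζ⟩ := hTameI hEdeg hZeta (ResidueField 𝒪) ρbar hset hirr T hT
  obtain ⟨-, hidx⟩ := hEdeg T
  have hnormal : (T.fixingSubgroup).Normal := by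
    refine ⟨fun n hn g => ?_⟩
    rw [hT] at hn ⊢
    rw [map_mul, map_mul, map_mul, map_mul, hn, mul_one, ← map_mul, ← map_mul, mul_inv_cancel,
      map_one, map_one]
  haveI hNT : Normal ℚ_[p] T := kqi_normal_field p T hnormal
  obtain ⟨ω, hω⟩ := kqi_exists_cycl p hζ
  -- STRUCT-I
  obtain ⟨σ, hσ⟩ := hset.htame
  have hidx' : ∃ m : ℕ, ¬ p ∣ m ∧ ∀ g, kqiLoc p ρbar g ^ m = 1 := by
    refine ⟨(T.fixingSubgroup).index, by rw [← hidx]; exact hpfin, fun g => ?_⟩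
    rw [← map_pow, kqiLoc_apply]
    exact (hT _).1 (Subgroup.pow_index_mem _ g)
  have hlev' : ∃ N ∈ (locLevels (pPrime p)).mem, ∀ g ∈ N, kqiLoc p ρbar g = 1 := hset.hlev
  have hsplit' : ∀ g, ∃ α β : ResidueField 𝒪,
      LinearMap.charpoly (kqiLoc p ρbar g) = (X - C α) * (X - C β) := hset.hsplit
  have hirr' : ¬ ∃ ℓ : Submodule (ResidueField 𝒪) ρbar.V,
      Module.finrank (ResidueField 𝒪) ℓ = 1 ∧ ∀ g, ∀ x ∈ ℓ, kqiLoc p ρbar g x ∈ ℓ := hirr
  obtain ⟨b, hmono, hI, hs₀', hφ'⟩ :=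
    kqi_structI hp hσ ρbar.finrank_eq (kqiLoc p ρbar) hlev' hidx' hsplit' hirr'
  obtain ⟨s₀, hs₀I, hs₀⟩ : ∃ s : Gp p, s ∈ inertiaΩ p ∧
      kqiMat b (kqiLoc p ρbar) s 0 0 ^ p ≠ kqiMat b (kqiLoc p ρbar) s 0 0 := hs₀'
  obtain ⟨φ, hφ00, hφ11⟩ : ∃ φ : Gp p, kqiMat b (kqiLoc p ρbar) φ 0 0 = 0 ∧
      kqiMat b (kqiLoc p ρbar) φ 1 1 = 0 := hφ'
  -- the kernel
  have hker : ∀ g : Gp p, g ∈ T.fixingSubgroup → kqiMat b (kqiLoc p ρbar) g = 1 := by
    intro g hg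
    rw [kqiMat_apply, kqiLoc_apply, (hT g).1 hg, LinearMap.toMatrix_one]
  have hker' : ∀ g : Gp p, kqiMat b (kqiLoc p ρbar) g = 1 → g ∈ T.fixingSubgroup := by
    intro g hg
    rw [hT]
    rw [kqiMat_apply, kqiLoc_apply, ← LinearMap.toMatrix_one b] at hg
    exact (LinearMap.toMatrix b b).injective hg
  have hGT : T.fixingSubgroup ≤ kqiDiag (kqiMat b (kqiLoc p ρbar)) :=
    fun g hg => kqi_mem_diag_of_eq_one (hker g hg)
  -- inertia
  have hIO : ∀ s ∈ helper14.inertiaOf p T, ∃ i ∈ inertiaΩ p,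
      kqiMat b (kqiLoc p ρbar) s = kqiMat b (kqiLoc p ρbar) i := by
    intro s hs
    obtain ⟨i, hi, his⟩ := (hIn T).2 s hs
    refine ⟨i, hi, ?_⟩
    have h2 : kqiMat b (kqiLoc p ρbar) (i * (i⁻¹ * s)) = kqiMat b (kqiLoc p ρbar) i := by
      rw [map_mul, hker _ his, mul_one]
    rwa [mul_inv_cancel_left] at h2
  have hOI : ∀ i ∈ inertiaΩ p, i ∈ helper14.inertiaOf p T := fun i hi => (hIn T).1 i hi
  have hIΓ : helper14.inertiaOf p T ≤ kqiDiag (kqiMat b (kqiLoc p ρbar)) := by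
    intro s hs
    obtain ⟨i, hi, his⟩ := hIO s hs
    rw [mem_kqiDiag, his]
    exact ⟨(hI i hi).1, (hI i hi).2.1⟩
  have hIχ : ∀ s ∈ helper14.inertiaOf p T,
      kqiMat b (kqiLoc p ρbar) s 1 1 = kqiMat b (kqiLoc p ρbar) s 0 0 ^ p := by
    intro s hs
    obtain ⟨i, hi, his⟩ := hIO s hs
    rw [his]
    exact (hI i hi).2.2
  have hcomm : ∀ γ ∈ kqiDiag (kqiMat b (kqiLoc p ρbar)),
      ∀ γ' ∈ kqiDiag (kqiMat b (kqiLoc p ρbar)), γ * γ' * γ⁻¹ * γ'⁻¹ ∈ T.fixingSubgroup :=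
    fun γ hγ γ' hγ' => hker' _ (kqi_diag_comm _ hγ hγ')
  have hp2 : p ≠ 2 := hset.hp2
  have h2k : (2 : ResidueField 𝒪) ≠ 0 := kqi_two_ne_zero p hp2 hset.hpk
  -- the component `f₀` vanishes
  have hf0 : ∀ c ∈ bddCocycles p ρbar T ⊤ ⊤, ∀ g : Gp p, g ∈ T.fixingSubgroup →
      lsoMat b (c g) 0 0 = 0 := by
    intro c hc g hg
    have hinv := hKInv T ζ (ResidueField 𝒪) hp2 hpe hζ hζT (fun g => lsoMat b (c g) 0 0)
      (kqi_hasLevelK p ρbar b hBr T hζ hζT 0 0 hc) (by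
        intro s hs g hg
        change lsoMat b (c (s * g * s⁻¹)) 0 0 = lsoMat b (c g) 0 0
        rw [kqi_lsoMat_conj p ρbar b hc.1 s g ((hT g).1 hg)]
        exact (kqi_conj_diag _ (hIΓ hs) _).1) φ g hg
    have h1 : lsoMat b (c (φ * g * φ⁻¹)) 0 0 = lsoMat b (c g) 1 1 := by
      rw [kqi_lsoMat_conj p ρbar b hc.1 φ g ((hT g).1 hg)]
      exact (kqi_conj_anti _ hφ00 hφ11 _).1
    have h2 : lsoMat b (c g) 0 0 = lsoMat b (c g) 1 1 := by
      rw [← h1]
      exact hinv.symm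
    have h3 := lsoMat_trace b (c g : Ad0 ρbar)
    rw [← h2] at h3
    have h4 : (2 : ResidueField 𝒪) * lsoMat b (c g) 0 0 = 0 := by
      rw [two_mul]
      exact h3
    rcases mul_eq_zero.1 h4 with h | h
    · exact absurd h h2k
    · exact h
  have hf11 : ∀ c ∈ bddCocycles p ρbar T ⊤ ⊤, ∀ g : Gp p, g ∈ T.fixingSubgroup →
      lsoMat b (c g) 1 1 = 0 := by
    intro c hc g hg
    have h3 := lsoMat_trace b (c g : Ad0 ρbar)
    rw [hf0 c hc g hg, zero_add] at h3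
    exact h3
  -- the component `f₋` is determined by `f₊`
  have hfm : ∀ c ∈ bddCocycles p ρbar T ⊤ ⊤, ∀ g : Gp p, g ∈ T.fixingSubgroup →
      lsoMat b (c g) 1 0 = kqiMat b (kqiLoc p ρbar) φ 1 0 *
        kqiMat b (kqiLoc p ρbar) φ⁻¹ 1 0 * lsoMat b (c (φ⁻¹ * g * φ)) 0 1 := by
    intro c hc g hg
    have hg' : φ⁻¹ * g * φ ∈ T.fixingSubgroup := by
      have := hnormal.conj_mem g hg φ⁻¹
      rwa [inv_inv] at this
    have h1 : g = φ * (φ⁻¹ * g * φ) * φ⁻¹ := by group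
    conv_lhs => rw [h1]
    rw [kqi_lsoMat_conj p ρbar b hc.1 φ (φ⁻¹ * g * φ) ((hT _).1 hg')]
    exact (kqi_conj_anti _ hφ00 hφ11 _).2
  -- KUMEQ-I for the components `f₊`
  have heqv : ∀ c ∈ bddCocycles p ρbar T ⊤ ⊤,
      helper14.IsEqv p T ζ (ResidueField 𝒪) (kqiDiag (kqiMat b (kqiLoc p ρbar)))
        (fun g => kqiMat b (kqiLoc p ρbar) g 0 0 * (kqiMat b (kqiLoc p ρbar) g 1 1)⁻¹)
        (edeg p T) (fun g => lsoMat b (c g) 0 1) := by
    intro c hc
    refine ⟨kqi_hasLevelK p ρbar b hBr T hζ hζT 0 1 hc, fun γ hγ g hg => ?_⟩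
    change lsoMat b (c (γ * g * γ⁻¹)) 0 1 = _
    rw [kqi_lsoMat_conj p ρbar b hc.1 γ g ((hT g).1 hg)]
    exact (kqi_conj_diag _ hγ _).2
  obtain ⟨a, a', hne, hdep⟩ := hKI T ζ ω (ResidueField 𝒪)
    (kqiDiag (kqiMat b (kqiLoc p ρbar)))
    (fun g => kqiMat b (kqiLoc p ρbar) g 0 0)
    (fun g => kqiMat b (kqiLoc p ρbar) g 0 0 * (kqiMat b (kqiLoc p ρbar) g 1 1)⁻¹)
    hp2 hpe hζ hζT hω hGT hIΓ (kqi_sq_mem _ hmono) hcomm
    (by
      intro γ hγ γ' hγ'
      change kqiMat b (kqiLoc p ρbar) (γ * γ') 0 0 *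
          (kqiMat b (kqiLoc p ρbar) (γ * γ') 1 1)⁻¹ =
        kqiMat b (kqiLoc p ρbar) γ 0 0 * (kqiMat b (kqiLoc p ρbar) γ 1 1)⁻¹ *
          (kqiMat b (kqiLoc p ρbar) γ' 0 0 * (kqiMat b (kqiLoc p ρbar) γ' 1 1)⁻¹)
      rw [(kqi_diag_mul _ hγ hγ').1, (kqi_diag_mul _ hγ hγ').2, mul_inv]
      ring)
    (by
      intro g hg
      change kqiMat b (kqiLoc p ρbar) g 0 0 * (kqiMat b (kqiLoc p ρbar) g 1 1)⁻¹ = 1
      rw [hker g hg, Matrix.one_apply_eq, Matrix.one_apply_eq, inv_one, mul_one])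
    (by
      intro s hs s' hs'
      exact (kqi_diag_mul _ (hIΓ hs) (hIΓ hs')).1)
    (by
      intro g hg
      change kqiMat b (kqiLoc p ρbar) g 0 0 = 1
      rw [hker g hg, Matrix.one_apply_eq])
    (by
      intro s hs
      change kqiMat b (kqiLoc p ρbar) s 0 0 ^ (p + 1) = algebraMap (ZMod p) _ (ω s)
      have hd := hset.hdet s (ω s).val (kqi_cycl_apply p hζ hω s)
      rw [← LinearMap.det_toMatrix b, Matrix.det_fin_two] at hd
      have h01 : kqiMat b (kqiLoc p ρbar) s 0 1 = 0 := (hIΓ hs).1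
      rw [kqiMat_apply, kqiLoc_apply] at h01
      have h11 := hIχ s hs
      rw [kqiMat_apply, kqiLoc_apply] at h11
      rw [h01, zero_mul, sub_zero, h11, ← pow_succ'] at hd
      rw [kqiMat_apply, kqiLoc_apply, hd]
      conv_rhs => rw [← ZMod.natCast_zmod_val (ω s)]
      rw [map_natCast])
    (by
      intro s hs
      change kqiMat b (kqiLoc p ρbar) s 0 0 * (kqiMat b (kqiLoc p ρbar) s 1 1)⁻¹ *
          kqiMat b (kqiLoc p ρbar) s 0 0 ^ p = kqiMat b (kqiLoc p ρbar) s 0 0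
      have hne := (kqi_diag_ne_zero _ (hIΓ hs).1 (hIΓ hs).2).2
      rw [← hIχ s hs, mul_assoc, inv_mul_cancel₀ hne, mul_one])
    ⟨s₀, hOI s₀ hs₀I, hs₀⟩
    (fun g => lsoMat b (z g) 0 1) (fun g => lsoMat b (z' g) 0 1) (heqv z hz) (heqv z' hz')
  refine ⟨a, a', hne, fun g hg => ?_⟩
  apply lsoMat_injective b
  rw [map_add, map_smul, map_smul, map_zero]
  change a • lsoMat b (z g) + a' • lsoMat b (z' g) = 0
  have hg' : φ⁻¹ * g * φ ∈ T.fixingSubgroup := by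
    have := hnormal.conj_mem g hg φ⁻¹
    rwa [inv_inv] at this
  ext i j
  rw [Matrix.add_apply, Matrix.smul_apply, Matrix.smul_apply, Matrix.zero_apply, smul_eq_mul,
    smul_eq_mul]
  fin_cases i <;> fin_cases j
  · change a * lsoMat b (z g) 0 0 + a' * lsoMat b (z' g) 0 0 = 0
    rw [hf0 z hz g hg, hf0 z' hz' g hg, mul_zero, mul_zero, add_zero]
  · exact hdep g hg
  · change a * lsoMat b (z g) 1 0 + a' * lsoMat b (z' g) 1 0 = 0
    rw [hfm z hz g hg, hfm z' hz' g hg]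
    have h1 : a * lsoMat b (z (φ⁻¹ * g * φ)) 0 1 +
        a' * lsoMat b (z' (φ⁻¹ * g * φ)) 0 1 = 0 := hdep _ hg'
    have h2 : a * (kqiMat b (kqiLoc p ρbar) φ 1 0 * kqiMat b (kqiLoc p ρbar) φ⁻¹ 1 0 *
          lsoMat b (z (φ⁻¹ * g * φ)) 0 1) +
        a' * (kqiMat b (kqiLoc p ρbar) φ 1 0 * kqiMat b (kqiLoc p ρbar) φ⁻¹ 1 0 *
          lsoMat b (z' (φ⁻¹ * g * φ)) 0 1) =
        kqiMat b (kqiLoc p ρbar) φ 1 0 * kqiMat b (kqiLoc p ρbar) φ⁻¹ 1 0 *
          (a * lsoMat b (z (φ⁻¹ * g * φ)) 0 1 + a' * lsoMat b (z' (φ⁻¹ * g * φ)) 0 1) := by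
      ring
    rw [h2, h1, mul_zero]
  · change a * lsoMat b (z g) 1 1 + a' * lsoMat b (z' g) 1 1 = 0
    rw [hf11 z hz g hg, hf11 z' hz' g hg, mul_zero, mul_zero, add_zero]

/-- Transport of the conclusion along an equality of submodules. -/
lemma kqi_transport {R M : Type} [Semiring R] [AddCommMonoid M] [Module R M]
    {A B : Submodule R M} (h : A = B) {n : ℕ}
    (hB : Module.Finite R ↥B ∧ Module.finrank R ↥B ≤ n) :
    Module.Finite R ↥A ∧ Module.finrank R ↥A ≤ n := by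
  subst h
  exact hB

/-- **KQ-I** from TAME-I, the LF dictionary, FC-IN, KUMEQ-I, KUMEQ-INV and the bridge J1
(`IsBddHom → HasLevel`). -/
theorem kqI_of (hTameI : TameIStatement p) (hEdeg : LFEdegStatement p)
    (hZeta : LFZetaStatement p) (hIn : helper14.FCInStatement p)
    (hKI : helper14.KumEqIStatement p) (hKInv : helper14.KumEqInvStatement p)
    (hBr : ∀ (T : IntermediateField ℚ_[p] (PadicAlgCl p)) [FiniteDimensional ℚ_[p] T]
      (ζ : PadicAlgCl p), IsPrimitiveRoot ζ p → ζ ∈ T →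
      ∀ f : Gp p → ZMod p, IsBddHom p T f → helper14.HasLevel p T ζ (edeg p T) f) :
    KQIStatement p := by
  intro 𝒪 _ _ _ ρbar _ hset hirr T _ hT
  have key := kqi_finrank_span_le (F := ZMod p) (k := ResidueField 𝒪)
    (W := ↥T.fixingSubgroup → Ad0 ρbar)
    ((LinearMap.funLeft (ZMod p) (locM ρbar p) (Subtype.val : ↥T.fixingSubgroup → Gp p)) ''
      (bddCocycles p ρbar T ⊤ ⊤)) (by
      rintro _ ⟨z, hz, rfl⟩ _ ⟨z', hz', rfl⟩
      obtain ⟨a, a', hne, h⟩ :=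
        kqi_dep p hTameI hEdeg hZeta hIn hKI hKInv hBr ρbar hset hirr T hT hz hz'
      refine ⟨a, a', hne, ?_⟩
      funext g
      exact h g.1 g.2)
  exact kqi_transport (Submodule.map_span _ _) key

end Main

end Fermat.Agent.P1.helper12
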