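import Mathlib
import Fermat.Agent.P1.helper14_KumEqDefs

/-!
# P1 / FLAT-CNT / KUMEQ (helper14): interface, part 4 (two pure algebra packages for the finals)

* `FCFinFieldStatement` : embeddings of the fixed field of `Frob^t` (`t ≤ 2`) of a finite field
  into a finite field `k`, and any two embeddings differ by a power of Frobenius;
* `FCActStatement` : the "active levels": with `χ` of order `e = (p-1) e'`, `ψ₀^(p+1) = χ^e'`,
  `as = ψ₀^(1-p)`, the equations `χ^(m p^j) * as = χ^e'` (`e ≤ m < e + e'`, `j < t ≤ 2`) have at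
  most one solution `(m, j)`, and none if `as = 1`.  (From FC-ARITH.)
-/

set_option autoImplicit false

namespace Fermat.Agent.P1.helper14

/-- **FC-FF**. -/
def FCFinFieldStatement : Prop :=
  ∀ (p : ℕ) [Fact p.Prime] (κ k : Type) [Field κ] [Finite κ] [CharP κ p]
    [Field k] [Finite k] [Algebra (ZMod p) k],
    Nonempty (frobFixed p κ 1 →+* k) ∧
    ((∃ x : k, x ^ (p ^ 2) = x ∧ x ^ p ≠ x) → Nonempty (frobFixed p κ 2 →+* k)) ∧
    (∀ (t : ℕ) (σ₁ σ : frobFixed p κ t →+* k), 0 < t →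
      ∃ j : ℕ, j < t ∧ ∀ x, σ x = (σ₁ x) ^ (p ^ j))

/-- **FC-ACT**. -/
def FCActStatement : Prop :=
  ∀ (p : ℕ) [Fact p.Prime] (k : Type) [Field k] (e' t : ℕ) (χ ψ₀ as : k),
    p ≠ 2 → 0 < e' → orderOf χ = (p - 1) * e' → (t = 1 ∨ t = 2) → χ ^ (p ^ t) = χ →
    ψ₀ ^ ((p - 1) * e') = 1 → ψ₀ ^ (p + 1) = χ ^ e' → as * ψ₀ ^ p = ψ₀ →
    (∀ m₁ m₂ j₁ j₂ : ℕ, (p - 1) * e' ≤ m₁ → m₁ < (p - 1) * e' + e' →
      (p - 1) * e' ≤ m₂ → m₂ < (p - 1) * e' + e' → j₁ < t → j₂ < t →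
      χ ^ (m₁ * p ^ j₁) * as = χ ^ e' → χ ^ (m₂ * p ^ j₂) * as = χ ^ e' →
      m₁ = m₂ ∧ j₁ = j₂) ∧
    (as = 1 → ∀ m j : ℕ, (p - 1) * e' ≤ m → m < (p - 1) * e' + e' → j < t →
      χ ^ (m * p ^ j) * as ≠ χ ^ e')

end Fermat.Agent.P1.helper14
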