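import Mathlib
import Fermat.Agent.P1.helper14_KumEqDefs2

/-!
# P1 / FLAT-CNT / KUMEQ (helper14): interface, part 3

* `FCStep0Statement` : the graded piece of level `m` for the INERTIA action alone (variant of
  `FCStepStatement` without Frobenius, multiplier `1`): a homomorphism of level `≥ m` which is
  invariant under conjugation by `s₀ ∈ I` has level `≥ m + 1` unless `θ(s₀)^m = ω(s₀)`.
  (Needed for `KumEqInvStatement`; proof = the proof of FC-STEP with part (2) of
  `FCEigLinQStatement` instead of part (1).)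
-/

set_option autoImplicit false

namespace Fermat.Agent.P1.helper14

open Fermat.Agent.S55.helper8 Fermat.Agent.S55.helper7

variable (p : ℕ) [Fact p.Prime]

/-- **FC-STEP0**. -/
def FCStep0Statement : Prop :=
  ∀ (T : IntermediateField ℚ_[p] (PadicAlgCl p)) [FiniteDimensional ℚ_[p] T] [Normal ℚ_[p] T]
    (ζ : PadicAlgCl p) (ω : GalP p → ZMod p)
    (k : Type) [Field k] [Finite k] [Algebra (ZMod p) k]
    (m : ℕ) (ϖ : T) (s₀ : GalP p),
    IsPrimitiveRoot ζ p → ζ ∈ T → IsCycl p ζ ω →
    1 ≤ m → ordT p T ϖ = 1 → s₀ ∈ inertiaOf p T →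
    thetaRes p T ϖ (AlgEquiv.restrictNormalHom T s₀) ^ m ≠ (((ω s₀).val : ℕ) : kq p T) →
    ∀ f : GalP p → k, HasLevelK p T ζ k m f →
      (∀ g ∈ T.fixingSubgroup, f (s₀ * g * s₀⁻¹) = f g) →
      HasLevelK p T ζ k (m + 1) f

end Fermat.Agent.P1.helper14
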