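import Mathlib
import Fermat.Agent.P1.helper14_KRDefs
import Fermat.Agent.S55.helper7_LocUnram3

/-!
# P1 / FLAT-KUM, KUM-ASM (helper41): auxiliary field lemmas

The depth function `i(s) = ord (s ϖ - ϖ)` on the inertia group, the order of the inertia group,
and the combination of KUM-SERRE with KUM-BRK.
-/

set_option autoImplicit false

namespace Fermat.Agent.P1.helper41

open Fermat.Agent.S55.helper8 Fermat.Agent.S55.helper7 Fermat.Agent.S55.helper33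
  Fermat.Agent.P1.helper14

variable (p : ℕ) [Fact p.Prime]

/-- `e(ℚ_p) = f(ℚ_p) = 1`. -/
theorem kum_edeg_fdeg_padic : edeg p ℚ_[p] = 1 ∧ fdeg p ℚ_[p] = 1 := by
  have h := edeg_mul_fdeg p ℚ_[p]
  rw [Module.finrank_self] at h
  exact ⟨Nat.eq_one_of_mul_eq_one_right h, Nat.eq_one_of_mul_eq_one_left h⟩

section basic

variable (L : Type) [Field L] [Algebra ℚ_[p] L] [FiniteDimensional ℚ_[p] L]

/-- existence of a uniformiser. -/
theorem kum_exists_unif : ∃ ϖ : L, ordT p L ϖ = 1 := by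
  obtain ⟨π, hπ⟩ := exists_ord_eq_one p L
  refine ⟨(π : L), ?_⟩
  rw [ordT_of_ne_zero p L π.ne_zero]
  have : Units.mk0 (π : L) π.ne_zero = π := Units.ext rfl
  rw [this, hπ]
  rfl

/-- For `x ≠ 0`, either `x` or `x⁻¹` is integral. -/
theorem kum_integral_or_inv {x : L} (hx : x ≠ 0) : 0 ≤ ordT p L x ∨ 0 ≤ ordT p L x⁻¹ := by
  have h := ordT_inv p L hx
  have hx' : x⁻¹ ≠ 0 := inv_ne_zero hx
  rw [ordT_of_ne_zero p L hx, ordT_of_ne_zero p L hx'] at h ⊢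
  have h' : ord p L (Units.mk0 x hx) + ord p L (Units.mk0 x⁻¹ hx') = 0 := by
    exact_mod_cast h
  rcases le_total 0 (ord p L (Units.mk0 x hx)) with h1 | h1
  · left; exact_mod_cast h1
  · right
    have : 0 ≤ ord p L (Units.mk0 x⁻¹ hx') := by omega
    exact_mod_cast this

/-- An automorphism fixing `K0` pointwise and the uniformiser is trivial, when `L/K0` is
totally ramified. -/
theorem kum_eq_one_of_fix (hTot : KRTotStatement p) (K0 : IntermediateField ℚ_[p] L)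
    (hf : fdeg p L = fdeg p K0) (ϖ : L) (hϖ : ordT p L ϖ = 1)
    (s : L ≃ₐ[ℚ_[p]] L) (hs : ∀ x ∈ K0, s x = x) (hsϖ : s ϖ = ϖ) : s = 1 := by
  obtain ⟨-, hint⟩ := hTot K0 L hf ϖ hϖ
  have hcomp : ((s : L →+* L).comp (algebraMap K0 L)) = algebraMap K0 L :=
    RingHom.ext fun y => hs y y.2
  have key : ∀ x : L, 0 ≤ ordT p L x → s x = x := by
    intro x hx
    obtain ⟨g, -, rfl⟩ := hint x hx
    have h1 := Polynomial.hom_eval₂ g (algebraMap K0 L) (s : L →+* L) ϖ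
    rw [hcomp] at h1
    have h2 : (s : L →+* L) ϖ = ϖ := hsϖ
    rw [h2] at h1
    exact h1
  ext x
  change s x = x
  by_cases hx : x = 0
  · subst hx; simp
  · rcases kum_integral_or_inv p L hx with h | h
    · exact key x h
    · have h1 := key x⁻¹ h
      rw [map_inv₀] at h1
      exact inv_injective h1

/-- Galois invariance of `i`. -/
theorem kum_iNat_inv (ϖ : L) (s : L ≃ₐ[ℚ_[p]] L) : iNat p L ϖ s⁻¹ = iNat p L ϖ s := by
  unfold iNat
  have h1 : s⁻¹ ϖ - ϖ = - (s⁻¹ (s ϖ - ϖ)) := by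
    have : s⁻¹ (s ϖ) = ϖ := by
      change s.symm (s ϖ) = ϖ
      simp
    rw [map_sub, this]
    ring
  rw [h1, ordT_neg, Fermat.Agent.P1.helper14.ordT_algEquiv]

end basic

section inert

variable (L : Type) [Field L] [Algebra ℚ_[p] L] [FiniteDimensional ℚ_[p] L]
variable (K0 : IntermediateField ℚ_[p] L)

/-- On the inertia group, `i` has no junk values. -/
theorem kum_ordT_eq_iNat (hTot : KRTotStatement p) (hf : fdeg p L = fdeg p K0)
    (hK0 : ∀ s : L ≃ₐ[ℚ_[p]] L, s ∈ inertia p L ↔ ∀ x ∈ K0, s x = x)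
    (ϖ : L) (hϖ : ordT p L ϖ = 1) (s : L ≃ₐ[ℚ_[p]] L) (hs : s ∈ inertia p L) (hs1 : s ≠ 1) :
    ordT p L (s ϖ - ϖ) = (((iNat p L ϖ s : ℕ) : ℤ) : WithTop ℤ) ∧ 1 ≤ iNat p L ϖ s := by
  have hne : s ϖ - ϖ ≠ 0 := by
    intro h
    exact hs1 (kum_eq_one_of_fix p L hTot K0 hf ϖ hϖ s ((hK0 s).1 hs) (sub_eq_zero.1 h))
  have hpos : 0 < ordT p L (s ϖ - ϖ) := by
    apply (mem_inertia p L).1 hs
    rw [hϖ]
    exact zero_le_one
  unfold iNat
  rw [ordT_of_ne_zero p L hne] at hpos ⊢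
  have hpos' : 0 < ord p L (Units.mk0 (s ϖ - ϖ) hne) := by exact_mod_cast hpos
  rw [WithTop.untopD_coe]
  constructor
  · rw [Int.toNat_of_nonneg hpos'.le]
  · omega

/-- The ultrametric inequality for `i` on the inertia group. -/
theorem kum_iNat_mul (hTot : KRTotStatement p) (hf : fdeg p L = fdeg p K0)
    (hK0 : ∀ s : L ≃ₐ[ℚ_[p]] L, s ∈ inertia p L ↔ ∀ x ∈ K0, s x = x)
    (ϖ : L) (hϖ : ordT p L ϖ = 1) (s t : L ≃ₐ[ℚ_[p]] L) (hs : s ∈ inertia p L)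
    (ht : t ∈ inertia p L) (hs1 : s ≠ 1) (ht1 : t ≠ 1) (hst : s * t ≠ 1) :
    min (iNat p L ϖ s) (iNat p L ϖ t) ≤ iNat p L ϖ (s * t) := by
  have h1 := (kum_ordT_eq_iNat p L K0 hTot hf hK0 ϖ hϖ s hs hs1).1
  have h2 := (kum_ordT_eq_iNat p L K0 hTot hf hK0 ϖ hϖ t ht ht1).1
  have h3 := (kum_ordT_eq_iNat p L K0 hTot hf hK0 ϖ hϖ (s * t)
    ((inertia p L).mul_mem hs ht) hst).1
  have h4 : (s * t) ϖ - ϖ = s (t ϖ - ϖ) + (s ϖ - ϖ) := by
    simp [AlgEquiv.mul_apply]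
  have h5 := ordT_add_ge p L (s (t ϖ - ϖ)) (s ϖ - ϖ)
  rw [← h4, Fermat.Agent.P1.helper14.ordT_algEquiv, h1, h2, h3] at h5
  have h6 : min ((iNat p L ϖ t : ℕ) : ℤ) ((iNat p L ϖ s : ℕ) : ℤ) ≤
      ((iNat p L ϖ (s * t) : ℕ) : ℤ) := by
    rcases le_total ((iNat p L ϖ t : ℕ) : ℤ) ((iNat p L ϖ s : ℕ) : ℤ) with h | h
    · rw [min_eq_left h]
      rw [min_eq_left (by exact_mod_cast h)] at h5
      exact_mod_cast h5
    · rw [min_eq_right h]
      rw [min_eq_right (by exact_mod_cast h)] at h5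
      exact_mod_cast h5
  rw [min_comm]
  omega

variable [IsGalois ℚ_[p] L]

/-- The inertia group has order `e(L/ℚ_p)`. -/
theorem kum_card_inertia (hK0e : edeg p K0 = 1) (hf : fdeg p L = fdeg p K0)
    (hK0 : ∀ s : L ≃ₐ[ℚ_[p]] L, s ∈ inertia p L ↔ ∀ x ∈ K0, s x = x) :
    Nat.card (inertia p L) = edeg p L := by
  have h1 : inertia p L = K0.fixingSubgroup := by
    ext s
    rw [hK0, IntermediateField.mem_fixingSubgroup_iff]
  rw [h1, IsGalois.card_fixingSubgroup_eq_finrank, ← relE_mul_relF p K0 L]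
  unfold relE relF
  rw [hK0e, ← hf, Nat.div_one, Nat.div_self (fdeg_pos p L), mul_one]

end inert

section serre

variable (L : Type) [Field L] [Algebra ℚ_[p] L] [FiniteDimensional ℚ_[p] L] [IsGalois ℚ_[p] L]
variable (K0 : IntermediateField ℚ_[p] L)
variable (T1 M : Type) [Field T1] [Algebra ℚ_[p] T1] [FiniteDimensional ℚ_[p] T1]
    [Field M] [Algebra ℚ_[p] M] [FiniteDimensional ℚ_[p] M]
    [Algebra T1 M] [Algebra M L] [Algebra T1 L] [IsScalarTower T1 M L]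
    [IsScalarTower ℚ_[p] T1 M] [IsScalarTower ℚ_[p] M L] [IsScalarTower ℚ_[p] T1 L]

theorem kum_serre_bound (hTot : KRTotStatement p) (hSerre : KumSerreStatement p)
    (hK0f : fdeg p L = fdeg p K0)
    (hK0 : ∀ s : L ≃ₐ[ℚ_[p]] L, s ∈ inertia p L ↔ ∀ x ∈ K0, s x = x)
    [Normal T1 M]
    (hT1f : fdeg p L = fdeg p T1) (hMf : fdeg p M = fdeg p T1)
    (hT1I : ∀ σ : L ≃ₐ[T1] L, σ.restrictScalars ℚ_[p] ∈ inertia p L)
    (ϖL : L) (hϖL : ordT p L ϖL = 1) (ϖM : M) (hϖM : ordT p M ϖM = 1)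
    (hbrk : ∀ σ : M ≃ₐ[T1] M, σ ≠ 1 →
        ((edeg p T1 : ℤ) : WithTop ℤ) + ((p - 1 : ℕ) : ℤ) <
          (((p - 1 : ℕ) : ℤ) : WithTop ℤ) * ordT p M (σ ϖM - ϖM))
    (σ : L ≃ₐ[T1] L) (hσ : ∃ x : M, σ (algebraMap M L x) ≠ algebraMap M L x) :
    Nat.card (L ≃ₐ[M] L) * (edeg p T1 + p) ≤
      (p - 1) * ∑ᶠ h : L ≃ₐ[M] L,
        iNat p L ϖL (σ.restrictScalars ℚ_[p] * h.restrictScalars ℚ_[p]) := by
  classical
  have : FiniteDimensional M L := Module.Finite.of_restrictScalars_finite ℚ_[p] M L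
  have : IsGalois M L := IsGalois.tower_top_of_isGalois ℚ_[p] M L
  have hS := hSerre T1 M L hT1f ϖL ϖM hϖL hϖM σ
  -- terms of the sum
  have hterm : ∀ h : L ≃ₐ[M] L, ordT p L (σ (h ϖL) - ϖL) =
      (((iNat p L ϖL (σ.restrictScalars ℚ_[p] * h.restrictScalars ℚ_[p]) : ℕ) : ℤ) :
        WithTop ℤ) := by
    intro h
    have hmem : σ.restrictScalars ℚ_[p] * h.restrictScalars ℚ_[p] ∈ inertia p L := by
      refine (inertia p L).mul_mem (hT1I σ) ?_
      exact (mem_inertia p L).2 (fun x hx => (mem_inertia p L).1 (hT1I (h.restrictScalars T1)) x hx)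
    have hne : σ.restrictScalars ℚ_[p] * h.restrictScalars ℚ_[p] ≠ 1 := by
      intro h1
      obtain ⟨x, hx⟩ := hσ
      apply hx
      have h2 : σ (h (algebraMap M L x)) = algebraMap M L x :=
        AlgEquiv.congr_fun h1 (algebraMap M L x)
      rw [h.commutes] at h2
      exact h2
    exact (kum_ordT_eq_iNat p L K0 hTot hK0f hK0 ϖL hϖL _ hmem hne).1
  rw [finsum_congr hterm, finsum_eq_sum_of_fintype] at hS
  rw [finsum_eq_sum_of_fintype]
  set S : ℕ := ∑ h : L ≃ₐ[M] L,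
    iNat p L ϖL (σ.restrictScalars ℚ_[p] * h.restrictScalars ℚ_[p]) with hSdef
  have hsum : (∑ h : L ≃ₐ[M] L,
      (((iNat p L ϖL (σ.restrictScalars ℚ_[p] * h.restrictScalars ℚ_[p]) : ℕ) : ℤ) :
        WithTop ℤ)) = (((S : ℕ) : ℤ) : WithTop ℤ) := by
    rw [hSdef, Nat.cast_sum, WithTop.coe_sum]
  rw [hsum] at hS
  -- the restriction of `σ` to `M`
  set σM : M ≃ₐ[T1] M := σ.restrictNormal M with hσM
  have hcomm : ∀ x : M, algebraMap M L (σM x) = σ (algebraMap M L x) :=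
    fun x => AlgEquiv.restrictNormal_commutes σ M x
  have hσM1 : σM ≠ 1 := by
    intro h1
    obtain ⟨x, hx⟩ := hσ
    apply hx
    have := hcomm x
    rw [h1] at this
    exact this.symm
  have hB := hbrk σM hσM1
  have hL : σ (algebraMap M L ϖM) - algebraMap M L ϖM = algebraMap M L (σM ϖM - ϖM) := by
    rw [map_sub, hcomm]
  rw [hL] at hS
  by_cases hy : σM ϖM - ϖM = 0
  · rw [hy, map_zero, ordT_zero] at hS
    exact absurd (top_le_iff.1 hS) (WithTop.coe_ne_top)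
  · rw [ordT_algebraMap_of_ne_zero p M L hy] at hS
    rw [ordT_of_ne_zero p M hy] at hB
    set m : ℤ := ord p M (Units.mk0 (σM ϖM - ϖM) hy) with hm
    have hS' : (relE p M L : ℤ) * m ≤ (S : ℤ) := by exact_mod_cast hS
    have hB' : (edeg p T1 : ℤ) + ((p - 1 : ℕ) : ℤ) < ((p - 1 : ℕ) : ℤ) * m := by
      exact_mod_cast hB
    have hrel : relE p M L = Nat.card (L ≃ₐ[M] L) := by
      rw [IsGalois.card_aut_eq_finrank, ← relE_mul_relF p M L]
      unfold relF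
      rw [hT1f, ← hMf, Nat.div_self (fdeg_pos p M), mul_one]
    rw [hrel] at hS'
    have hp1 : ((p - 1 : ℕ) : ℤ) = (p : ℤ) - 1 := by
      have := (Fact.out : p.Prime).one_le
      omega
    rw [hp1] at hB'
    have hp0 : (0 : ℤ) ≤ (p : ℤ) - 1 := by
      have := (Fact.out : p.Prime).one_le
      omega
    have hc0 : (0 : ℤ) ≤ (Nat.card (L ≃ₐ[M] L) : ℤ) := Int.natCast_nonneg _
    have h1 : (edeg p T1 : ℤ) + p ≤ ((p : ℤ) - 1) * m := by omega
    have hfin : (Nat.card (L ≃ₐ[M] L) : ℤ) * ((edeg p T1 : ℤ) + p) ≤ ((p : ℤ) - 1) * S := by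
      calc (Nat.card (L ≃ₐ[M] L) : ℤ) * ((edeg p T1 : ℤ) + p)
          ≤ (Nat.card (L ≃ₐ[M] L) : ℤ) * (((p : ℤ) - 1) * m) :=
            mul_le_mul_of_nonneg_left h1 hc0
        _ = ((p : ℤ) - 1) * ((Nat.card (L ≃ₐ[M] L) : ℤ) * m) := by ring
        _ ≤ ((p : ℤ) - 1) * S := mul_le_mul_of_nonneg_left hS' hp0
    rw [← hp1] at hfin
    exact_mod_cast hfin

end serre

end Fermat.Agent.P1.helper41
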