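import Fermat.Agent.P1.helper14_KRDefs

/-!
# P1 / FLAT-KUM (helper50): KUM-WILD, the wild inertia group

`kumWild p : KumWildStatement p` (unconditional): for a finite Galois extension `L/ℚ_p` with
uniformiser `ϖ`, the first ramification group `G₁ = {s | ∀ x ∈ 𝒪_L, 2 ≤ ord (s x - x)}` is a
normal `p`-subgroup contained in the inertia group, and `ord (s ϖ - ϖ) = 1` for every inertial
`s ∉ G₁`.

The proof uses Teichmüller representatives (S55 LOC, `helper7`) instead of the inertia field.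
-/

set_option autoImplicit false
set_option linter.unusedSectionVars false
set_option linter.unusedVariables false

namespace Fermat.Agent.P1.helper50

open Fermat.Agent.P1.helper14
open Fermat.Agent.S55.helper8 Fermat.Agent.S55.helper7

/-! ## `WithTop ℤ` arithmetic -/

lemma wt_le_of_add_one_le {a : WithTop ℤ} {m : ℤ}
    (h : ((m + 1 : ℤ) : WithTop ℤ) ≤ 1 + a) : ((m : ℤ) : WithTop ℤ) ≤ a := by
  induction a using WithTop.recTopCoe with
  | top => exact le_top
  | coe k =>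
    have h' : ((m + 1 : ℤ) : WithTop ℤ) ≤ ((1 + k : ℤ) : WithTop ℤ) := by
      simpa using h
    rw [WithTop.coe_le_coe] at h' ⊢
    omega

lemma wt_pos_iff_one_le (a : WithTop ℤ) : 0 < a ↔ ((1 : ℤ) : WithTop ℤ) ≤ a := by
  induction a using WithTop.recTopCoe with
  | top => simp
  | coe k =>
    rw [← WithTop.coe_zero, WithTop.coe_lt_coe, WithTop.coe_le_coe]
    omega

lemma wt_eq_one_of {a : WithTop ℤ} (h1 : 0 < a) (h2 : ¬ ((2 : ℤ) : WithTop ℤ) ≤ a) :
    a = 1 := by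
  induction a using WithTop.recTopCoe with
  | top => exact absurd le_top h2
  | coe k =>
    rw [← WithTop.coe_zero, WithTop.coe_lt_coe] at h1
    rw [WithTop.coe_le_coe] at h2
    rw [← WithTop.coe_one, WithTop.coe_eq_coe]
    omega

lemma wt_nonneg_of_add_eq_zero {a b : WithTop ℤ} (h : a + b = 0) (ha : ¬ 0 ≤ a) : 0 ≤ b := by
  induction b using WithTop.recTopCoe with
  | top => exact le_top
  | coe k =>
    induction a using WithTop.recTopCoe with
    | top => exact absurd le_top ha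
    | coe j =>
      rw [← WithTop.coe_add, ← WithTop.coe_zero, WithTop.coe_eq_coe] at h
      rw [← WithTop.coe_zero, WithTop.coe_le_coe] at ha ⊢
      omega

lemma wt_eq_top_of_forall {a : WithTop ℤ} (h : ∀ n : ℕ, (((n : ℤ) + 1 : ℤ) : WithTop ℤ) ≤ a) :
    a = ⊤ := by
  induction a using WithTop.recTopCoe with
  | top => rfl
  | coe k =>
    have := h k.toNat
    rw [WithTop.coe_le_coe] at this
    omega

section

variable (p : ℕ) [Fact p.Prime]
variable (L : Type) [Field L] [Algebra ℚ_[p] L] [FiniteDimensional ℚ_[p] L]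

lemma le_ordT_add {a : WithTop ℤ} {x y : L} (hx : a ≤ ordT p L x) (hy : a ≤ ordT p L y) :
    a ≤ ordT p L (x + y) :=
  le_trans (le_min hx hy) (Fermat.Agent.S55.helper7.ordT_add_ge p L x y)

lemma le_ordT_sub {a : WithTop ℤ} {x y : L} (hx : a ≤ ordT p L x) (hy : a ≤ ordT p L y) :
    a ≤ ordT p L (x - y) :=
  le_trans (le_min hx hy) (Fermat.Agent.S55.helper7.ordT_sub_ge p L x y)

lemma le_ordT_mul {a b : WithTop ℤ} {x y : L} (hx : a ≤ ordT p L x) (hy : b ≤ ordT p L y) :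
    a + b ≤ ordT p L (x * y) := by
  rw [Fermat.Agent.S55.helper7.ordT_mul]
  exact add_le_add hx hy

lemma ordT_aut (s : L ≃ₐ[ℚ_[p]] L) (x : L) : ordT p L (s x) = ordT p L x :=
  Fermat.Agent.P1.helper14.ordT_algEquiv p L s x

lemma ordT_natCast_nonneg (k : ℕ) : 0 ≤ ordT p L (k : L) := by
  have : (k : L) ∈ Oq p L := natCast_mem _ k
  exact this

/-- elements of valuation `≥ m + 1` are `ϖ` times elements of valuation `≥ m` -/
lemma exists_eq_unif_mul {ϖ : L} (hϖ : ordT p L ϖ = 1) {y : L} {m : ℤ}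
    (h : ((m + 1 : ℤ) : WithTop ℤ) ≤ ordT p L y) :
    ∃ u : L, y = ϖ * u ∧ ((m : ℤ) : WithTop ℤ) ≤ ordT p L u := by
  have hϖ0 : ϖ ≠ 0 := by
    rintro rfl
    rw [Fermat.Agent.S55.helper7.ordT_zero] at hϖ
    exact WithTop.top_ne_one hϖ
  refine ⟨y * ϖ⁻¹, by field_simp, ?_⟩
  have e : y = ϖ * (y * ϖ⁻¹) := by field_simp
  have h2 : ordT p L y = 1 + ordT p L (y * ϖ⁻¹) := by
    conv_lhs => rw [e]
    rw [Fermat.Agent.S55.helper7.ordT_mul, hϖ]
  rw [h2] at h
  exact wt_le_of_add_one_le h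

/-! ## Teichmüller representatives -/

/-- every integral element is congruent to `0` or to a root of unity of order prime to `p` -/
lemma exists_teich (x : L) (hx : 0 ≤ ordT p L x) :
    ∃ r : L, (r = 0 ∨ r ^ (p ^ fdeg p L - 1) = 1) ∧ 0 < ordT p L (x - r) := by
  obtain ⟨ζ, hζ⟩ := exists_primitiveRoot_card_sub_one p L
  have hN : ¬ p ∣ p ^ fdeg p L - 1 := not_dvd_card_sub_one p L
  have hcard : p ^ fdeg p L - 1 + 1 = p ^ fdeg p L :=
    Nat.sub_add_cancel (Nat.one_le_pow _ _ (Fact.out : p.Prime).pos)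
  have hbij := teichMap_bijective p L hN hζ hcard
  obtain ⟨o, ho⟩ := hbij.2 (res p L ⟨x, hx⟩)
  rcases o with _ | i
  · refine ⟨0, Or.inl rfl, ?_⟩
    rw [sub_zero]
    have : res p L ⟨x, hx⟩ = 0 := ho.symm
    exact (res_eq_zero_iff p L).1 this
  · refine ⟨ζ ^ (i : ℕ), Or.inr ?_, ?_⟩
    · rw [← pow_mul, mul_comm, pow_mul, hζ.pow_eq_one, one_pow]
    · have h1 := (res_eq_iff p L).1 ho.symm
      exact h1


/-! ## The ramification groups -/

/-- The ramification groups `G_n = {s | ∀ x ∈ 𝒪_L, n + 1 ≤ ord (s x - x)}`. -/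
def ramGroup (n : ℕ) : Subgroup (L ≃ₐ[ℚ_[p]] L) where
  carrier := {s | ∀ x : L, 0 ≤ ordT p L x → (((n : ℤ) + 1 : ℤ) : WithTop ℤ) ≤ ordT p L (s x - x)}
  one_mem' := by
    intro x _
    simp [Fermat.Agent.S55.helper7.ordT_zero]
  mul_mem' := by
    intro s t hs ht x hx
    have h1 : (s * t) x - x = s (t x - x) + (s x - x) := by
      simp [AlgEquiv.mul_apply]
    rw [h1]
    refine le_ordT_add p L ?_ (hs x hx)
    rw [ordT_aut]
    exact ht x hx
  inv_mem' := by
    intro s hs x hx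
    have h1 : s⁻¹ x - x = - (s⁻¹ (s x - x)) := by
      have : s⁻¹ (s x) = x := by
        change s.symm (s x) = x
        simp
      rw [map_sub, this]
      ring
    rw [h1, Fermat.Agent.S55.helper7.ordT_neg, ordT_aut]
    exact hs x hx

lemma mem_ramGroup {n : ℕ} {s : L ≃ₐ[ℚ_[p]] L} :
    s ∈ ramGroup p L n ↔
      ∀ x : L, 0 ≤ ordT p L x → (((n : ℤ) + 1 : ℤ) : WithTop ℤ) ≤ ordT p L (s x - x) := Iff.rfl

lemma ramGroup_normal (n : ℕ) : (ramGroup p L n).Normal := by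
  refine ⟨fun s hs g x hx => ?_⟩
  have h1 : (g * s * g⁻¹) x - x = g (s (g⁻¹ x) - g⁻¹ x) := by
    have : g (g⁻¹ x) = x := by
      change g (g.symm x) = x
      simp
    rw [map_sub, this]
    simp [AlgEquiv.mul_apply]
  rw [h1, ordT_aut]
  refine hs _ ?_
  rw [ordT_aut]
  exact hx

lemma ramGroup_le_inertia (n : ℕ) : ramGroup p L n ≤ inertia p L := by
  intro s hs x hx
  refine lt_of_lt_of_le ?_ (hs x hx)
  rw [← WithTop.coe_zero, WithTop.coe_lt_coe]
  omega

lemma ramGroup_anti {m n : ℕ} (h : m ≤ n) : ramGroup p L n ≤ ramGroup p L m := by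
  intro s hs x hx
  refine le_trans ?_ (hs x hx)
  rw [WithTop.coe_le_coe]
  omega

/-- inertial automorphisms fix the Teichmüller representatives -/
lemma inertia_fix_teich {s : L ≃ₐ[ℚ_[p]] L} (hs : s ∈ inertia p L) {r : L}
    (hr : r = 0 ∨ r ^ (p ^ fdeg p L - 1) = 1) : s r = r := by
  rcases hr with rfl | hr
  · simp
  · have hN : ¬ p ∣ p ^ fdeg p L - 1 := not_dvd_card_sub_one p L
    have hN0 : p ^ fdeg p L - 1 ≠ 0 := fun h => hN (h ▸ dvd_zero p)
    have h1 : (s r) ^ (p ^ fdeg p L - 1) = 1 := by rw [← map_pow, hr, map_one]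
    have h2 : 0 < ordT p L (s r - r) :=
      hs r (ordT_eq_zero_of_pow_eq_one p L hN0 hr).ge
    exact eq_of_pow_eq_one_of_ordT_sub_pos p L hN h1 hr h2

/-- the product rule for `s - 1` -/
lemma map_mul_sub (s : L ≃ₐ[ℚ_[p]] L) (x y : L) :
    s (x * y) - x * y = (s x - x) * s y + x * (s y - y) := by
  rw [map_mul]
  ring

/-- **The uniformiser criterion**: an inertial automorphism moving `ϖ` by valuation `≥ n + 1`
lies in `G_n`. -/
theorem mem_ramGroup_of_unif {ϖ : L} (hϖ : ordT p L ϖ = 1) {s : L ≃ₐ[ℚ_[p]] L}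
    (hs : s ∈ inertia p L) {n : ℕ}
    (h : (((n : ℤ) + 1 : ℤ) : WithTop ℤ) ≤ ordT p L (s ϖ - ϖ)) : s ∈ ramGroup p L n := by
  -- induction on the level
  have key : ∀ j : ℕ, j ≤ n + 1 → ∀ x : L, 0 ≤ ordT p L x →
      ((j : ℤ) : WithTop ℤ) ≤ ordT p L (s x - x) := by
    intro j
    induction j with
    | zero =>
      intro _ x hx
      have h1 : 0 ≤ ordT p L (s x) := by rw [ordT_aut]; exact hx
      simpa using le_ordT_sub p L h1 hx
    | succ j ih =>
      intro hj x hx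
      obtain ⟨r, hr, hxr⟩ := exists_teich p L x hx
      have hsr : s r = r := inertia_fix_teich p L hs hr
      have hxr' : (((0 : ℤ) + 1 : ℤ) : WithTop ℤ) ≤ ordT p L (x - r) := by
        have := (wt_pos_iff_one_le _).1 hxr
        simpa using this
      obtain ⟨u, hu, hu0⟩ := exists_eq_unif_mul p L hϖ hxr'
      have hu0' : 0 ≤ ordT p L u := by simpa using hu0
      have e : s x - x = (s ϖ - ϖ) * s u + ϖ * (s u - u) := by
        have hx' : x = r + ϖ * u := by rw [← hu]; ring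
        rw [← map_mul_sub]
        conv_lhs => rw [hx', map_add, hsr]
        ring
      rw [e]
      have h1 : (((j + 1 : ℕ) : ℤ) : WithTop ℤ) ≤ ordT p L ((s ϖ - ϖ) * s u) := by
        have h2 : (0 : WithTop ℤ) ≤ ordT p L (s u) := by rw [ordT_aut]; exact hu0'
        have h3 := le_ordT_mul p L h h2
        refine le_trans ?_ h3
        rw [add_zero, WithTop.coe_le_coe]
        push_cast
        omega
      have h2 : (((j + 1 : ℕ) : ℤ) : WithTop ℤ) ≤ ordT p L (ϖ * (s u - u)) := by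
        have h3 := le_ordT_mul p L (le_of_eq hϖ.symm) (ih (by omega) u hu0')
        refine le_trans (le_of_eq ?_) h3
        rw [← WithTop.coe_one, ← WithTop.coe_add, WithTop.coe_eq_coe]
        push_cast
        ring
      exact le_ordT_add p L h1 h2
  intro x hx
  have := key (n + 1) le_rfl x hx
  simpa using this

/-- an inertial automorphism outside `G₁` moves `ϖ` by valuation exactly `1` -/
theorem ordT_eq_one_of_notMem {ϖ : L} (hϖ : ordT p L ϖ = 1) {s : L ≃ₐ[ℚ_[p]] L}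
    (hs : s ∈ inertia p L) (hs1 : s ∉ ramGroup p L 1) : ordT p L (s ϖ - ϖ) = 1 := by
  refine wt_eq_one_of (hs ϖ (by rw [hϖ]; exact zero_le_one)) fun h => hs1 ?_
  exact mem_ramGroup_of_unif p L hϖ hs (by simpa using h)


/-! ## `G₁` is a `p`-group -/

/-- `s ∈ G_n`, `n ≥ 1`, implies `s ^ p ∈ G_{n+1}`. -/
theorem pow_mem_ramGroup_succ {ϖ : L} (hϖ : ordT p L ϖ = 1) {s : L ≃ₐ[ℚ_[p]] L} {n : ℕ}
    (hn : 1 ≤ n) (hs : s ∈ ramGroup p L n) : s ^ p ∈ ramGroup p L (n + 1) := by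
  have hsI : s ∈ inertia p L := ramGroup_le_inertia p L n hs
  have hϖint : 0 ≤ ordT p L ϖ := by rw [hϖ]; exact zero_le_one
  refine mem_ramGroup_of_unif p L hϖ ((inertia p L).pow_mem hsI p) ?_
  -- `δ = s ϖ - ϖ = ϖ u`
  have hδ : (((n : ℤ) + 1 : ℤ) : WithTop ℤ) ≤ ordT p L (s ϖ - ϖ) := hs ϖ hϖint
  obtain ⟨u, hu, hun⟩ := exists_eq_unif_mul p L hϖ hδ
  have hu0 : 0 ≤ ordT p L u := by
    refine le_trans ?_ hun
    rw [← WithTop.coe_zero, WithTop.coe_le_coe]
    omega
  -- `s δ - δ` has valuation `≥ n + 2`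
  have hsδ : ((((n + 1 : ℕ) : ℤ) + 1 : ℤ) : WithTop ℤ) ≤ ordT p L (s (s ϖ - ϖ) - (s ϖ - ϖ)) := by
    have e : s (s ϖ - ϖ) - (s ϖ - ϖ) = (s ϖ - ϖ) * s u + ϖ * (s u - u) := by
      rw [← map_mul_sub, ← hu]
    rw [e]
    refine le_ordT_add p L ?_ ?_
    · have h2 : ((n : ℤ) : WithTop ℤ) ≤ ordT p L (s u) := by rw [ordT_aut]; exact hun
      refine le_trans ?_ (le_ordT_mul p L hδ h2)
      rw [← WithTop.coe_add, WithTop.coe_le_coe]
      push_cast
      omega
    · refine le_trans (le_of_eq ?_) (le_ordT_mul p L (le_of_eq hϖ.symm) (hs u hu0))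
      rw [← WithTop.coe_one, ← WithTop.coe_add, WithTop.coe_eq_coe]
      push_cast
      ring
  -- `s ^ k ϖ ≡ ϖ + k δ`
  have key : ∀ k : ℕ, ((((n + 1 : ℕ) : ℤ) + 1 : ℤ) : WithTop ℤ) ≤
      ordT p L ((s ^ k) ϖ - ϖ - (k : L) * (s ϖ - ϖ)) := by
    intro k
    induction k with
    | zero => simp [Fermat.Agent.S55.helper7.ordT_zero]
    | succ k ih =>
      have e : (s ^ (k + 1)) ϖ - ϖ - ((k + 1 : ℕ) : L) * (s ϖ - ϖ) =
          s ((s ^ k) ϖ - ϖ - (k : L) * (s ϖ - ϖ)) + (k : L) * (s (s ϖ - ϖ) - (s ϖ - ϖ)) := by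
        have h1 : (s ^ (k + 1)) ϖ = s ((s ^ k) ϖ) := by
          rw [pow_succ', AlgEquiv.mul_apply]
        rw [h1]
        simp only [map_sub, map_mul, map_natCast]
        push_cast
        ring
      rw [e]
      refine le_ordT_add p L ?_ ?_
      · rw [ordT_aut]
        exact ih
      · have := le_ordT_mul p L (ordT_natCast_nonneg p L k) hsδ
        rwa [zero_add] at this
  have hp : ((1 : ℤ) : WithTop ℤ) ≤ ordT p L ((p : ℕ) : L) :=
    (wt_pos_iff_one_le _).1 (ordT_q_pos p L)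
  have e : (s ^ p) ϖ - ϖ = ((s ^ p) ϖ - ϖ - (p : L) * (s ϖ - ϖ)) + (p : L) * (s ϖ - ϖ) := by
    ring
  rw [e]
  refine le_ordT_add p L (key p) ?_
  refine le_trans ?_ (le_ordT_mul p L hp hδ)
  rw [← WithTop.coe_add, WithTop.coe_le_coe]
  push_cast
  omega

/-- `s ∈ G₁` implies `s ^ (p ^ k) ∈ G_{k+1}`. -/
theorem pow_pow_mem_ramGroup {ϖ : L} (hϖ : ordT p L ϖ = 1) {s : L ≃ₐ[ℚ_[p]] L}
    (hs : s ∈ ramGroup p L 1) (k : ℕ) : s ^ p ^ k ∈ ramGroup p L (k + 1) := by
  induction k with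
  | zero => simpa using hs
  | succ k ih =>
    rw [pow_succ, pow_mul]
    exact pow_mem_ramGroup_succ p L hϖ (by omega) ih

/-- the ramification groups have trivial intersection -/
theorem eq_one_of_forall_mem_ramGroup {s : L ≃ₐ[ℚ_[p]] L} (h : ∀ n, s ∈ ramGroup p L n) :
    s = 1 := by
  have hint : ∀ x : L, 0 ≤ ordT p L x → s x = x := by
    intro x hx
    have h1 : ordT p L (s x - x) = ⊤ := wt_eq_top_of_forall fun n => h n x hx
    exact sub_eq_zero.1 ((Fermat.Agent.S55.helper7.ordT_eq_top_iff p L).1 h1)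
  ext x
  change s x = x
  by_cases hx : 0 ≤ ordT p L x
  · exact hint x hx
  · have hx0 : x ≠ 0 := by
      rintro rfl
      rw [Fermat.Agent.S55.helper7.ordT_zero] at hx
      exact hx le_top
    have hinv : 0 ≤ ordT p L x⁻¹ :=
      wt_nonneg_of_add_eq_zero (Fermat.Agent.S55.helper7.ordT_inv p L hx0) hx
    have h2 := hint x⁻¹ hinv
    rw [map_inv₀] at h2
    exact inv_injective h2

/-- the ramification groups are eventually trivial -/
theorem exists_ramGroup_eq_bot [IsGalois ℚ_[p] L] : ∃ N : ℕ, ramGroup p L N = ⊥ := by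
  classical
  have : Finite (L ≃ₐ[ℚ_[p]] L) := inferInstance
  let _ : Fintype (L ≃ₐ[ℚ_[p]] L) := Fintype.ofFinite _
  have hex : ∀ s : L ≃ₐ[ℚ_[p]] L, ∃ n : ℕ, s ≠ 1 → s ∉ ramGroup p L n := by
    intro s
    by_cases hs : s = 1
    · exact ⟨0, fun h => absurd hs h⟩
    · have : ¬ ∀ n, s ∈ ramGroup p L n := fun h => hs (eq_one_of_forall_mem_ramGroup p L h)
      rw [not_forall] at this
      obtain ⟨n, hn⟩ := this
      exact ⟨n, fun _ => hn⟩
  choose f hf using hex
  refine ⟨Finset.univ.sup f, ?_⟩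
  rw [Subgroup.eq_bot_iff_forall]
  intro s hs
  by_contra hne
  exact hf s hne (ramGroup_anti p L (Finset.le_sup (Finset.mem_univ s)) hs)

/-- `G₁` is a `p`-group -/
theorem isPGroup_ramGroup_one [IsGalois ℚ_[p] L] {ϖ : L} (hϖ : ordT p L ϖ = 1) :
    IsPGroup p (ramGroup p L 1) := by
  obtain ⟨N, hN⟩ := exists_ramGroup_eq_bot p L
  intro s
  refine ⟨N, ?_⟩
  have h1 := pow_pow_mem_ramGroup p L hϖ s.2 N
  have h2 : (s : L ≃ₐ[ℚ_[p]] L) ^ p ^ N ∈ ramGroup p L N :=
    ramGroup_anti p L (Nat.le_succ N) h1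
  rw [hN, Subgroup.mem_bot] at h2
  exact Subtype.ext h2

end

/-- **KUM-WILD**: the wild inertia group is a normal `p`-subgroup of the inertia group, and
inertial automorphisms outside it move the uniformiser by valuation exactly `1`. -/
theorem kumWild (p : ℕ) [Fact p.Prime] : KumWildStatement p := by
  intro L _ _ _ _ ϖ hϖ
  exact ⟨ramGroup p L 1, ramGroup_le_inertia p L 1, ramGroup_normal p L 1,
    isPGroup_ramGroup_one p L hϖ, fun s hs hs1 => ordT_eq_one_of_notMem p L hϖ hs hs1⟩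

end Fermat.Agent.P1.helper50
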