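import Mathlib
import Fermat.Agent.P1.helper14_KRDefs
import Fermat.Agent.P1.helper41_KumAux
import Fermat.Agent.P1.helper50_KumWild
import Fermat.Agent.P1.helper78_KRInert

/-!
# P1 / FLAT-CNT, package FT-OT (helper88): the tame character of the inertia group

`F / ℚ_p` finite Galois, `ϖ` a uniformiser (`ordT p F ϖ = 1`).  For `σ ∈ Gal(F/ℚ_p)` put
`θ_σ = σ ϖ / ϖ ∈ 𝒪_F^×` and `χ(σ) = res θ_σ ∈ k_F` (`ftChi`).

* `ftChi_mul`     : `χ (σ τ) = χ σ * χ τ` for `σ` in the inertia group;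
* `ftChi_pow_eq`  : if `ord v = m` and `ord (σ v - a v) > m` (`σ` inertial, `a : ℕ`), then
                    `χ σ ^ m = a` in `k_F`;
* `exists_ftChi_gen` : if `F` is tame (`p ∤ e`), there is an inertial `σ` such that
                    `χ σ ^ N = 1` implies `e ∣ N` (the inertia group is cyclic of order `e` and
                    `χ` is injective on it).
-/

set_option autoImplicit false
set_option linter.unusedSectionVars false

namespace Fermat.Agent.P1.helper88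

open Fermat.Agent.S55.helper8 Fermat.Agent.S55.helper7 Fermat.Agent.S55.helper33
  Fermat.Agent.P1.helper14

/-! ## `WithTop ℤ` arithmetic -/

lemma ft_wt_pos_of_add_lt {x : WithTop ℤ} {m : ℤ}
    (h : ((m : ℤ) : WithTop ℤ) < ((m : ℤ) : WithTop ℤ) + x) : 0 < x := by
  induction x using WithTop.recTopCoe with
  | top => exact WithTop.top_pos
  | coe j =>
    rw [← WithTop.coe_add, WithTop.coe_lt_coe] at h
    rw [← WithTop.coe_zero, WithTop.coe_lt_coe]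
    omega

lemma ft_wt_eq_zero_of_add_eq {x : WithTop ℤ} {m : ℤ}
    (h : x + ((m : ℤ) : WithTop ℤ) = ((m : ℤ) : WithTop ℤ)) : x = 0 := by
  induction x using WithTop.recTopCoe with
  | top => simp at h
  | coe j =>
    rw [← WithTop.coe_add, WithTop.coe_eq_coe] at h
    rw [← WithTop.coe_zero, WithTop.coe_eq_coe]
    omega

lemma ft_wt_two_le_one_add {x : WithTop ℤ} (h : 0 < x) :
    (((1 : ℕ) : ℤ) + 1 : ℤ) ≤ (1 : WithTop ℤ) + x := by
  induction x using WithTop.recTopCoe with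
  | top => simp
  | coe j =>
    rw [← WithTop.coe_zero, WithTop.coe_lt_coe] at h
    rw [← WithTop.coe_one, ← WithTop.coe_add, WithTop.coe_le_coe]
    omega

section tame

variable (p : ℕ) [Fact p.Prime]
variable (F : Type) [Field F] [Algebra ℚ_[p] F] [FiniteDimensional ℚ_[p] F]

lemma ft_unif_ne_zero {ϖ : F} (hϖ : ordT p F ϖ = 1) : ϖ ≠ 0 := by
  rintro rfl
  rw [ordT_zero] at hϖ
  exact WithTop.top_ne_one hϖ

lemma ft_ordT_unif_pow {ϖ : F} (hϖ : ordT p F ϖ = 1) (m : ℕ) :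
    ordT p F (ϖ ^ m) = ((m : ℤ) : WithTop ℤ) := by
  rw [ordT_pow, hϖ]
  simp

lemma ft_ordT_theta {ϖ : F} (hϖ : ordT p F ϖ = 1) (σ : F ≃ₐ[ℚ_[p]] F) :
    ordT p F (σ ϖ * ϖ⁻¹) = 0 := by
  rw [ordT_mul, Fermat.Agent.P1.helper14.ordT_algEquiv p F,
    ordT_inv p F (ft_unif_ne_zero p F hϖ)]

/-- `θ_σ = σ ϖ / ϖ`, an element of the valuation ring. -/
noncomputable def ftTheta {ϖ : F} (hϖ : ordT p F ϖ = 1) (σ : F ≃ₐ[ℚ_[p]] F) : Oq p F :=
  ⟨σ ϖ * ϖ⁻¹, (ft_ordT_theta p F hϖ σ).ge⟩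

lemma ftTheta_coe {ϖ : F} (hϖ : ordT p F ϖ = 1) (σ : F ≃ₐ[ℚ_[p]] F) :
    ((ftTheta p F hϖ σ : Oq p F) : F) = σ ϖ * ϖ⁻¹ := rfl

/-- The tame character `χ(σ) = res (σ ϖ / ϖ)`. -/
noncomputable def ftChi {ϖ : F} (hϖ : ordT p F ϖ = 1) (σ : F ≃ₐ[ℚ_[p]] F) : kq p F :=
  res p F (ftTheta p F hϖ σ)

lemma ftChi_ne_zero {ϖ : F} (hϖ : ordT p F ϖ = 1) (σ : F ≃ₐ[ℚ_[p]] F) :
    ftChi p F hϖ σ ≠ 0 := by
  intro h
  rw [ftChi, res_eq_zero_iff, ftTheta_coe, ft_ordT_theta p F hϖ σ] at h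
  exact lt_irrefl _ h

lemma ftChi_one {ϖ : F} (hϖ : ordT p F ϖ = 1) : ftChi p F hϖ 1 = 1 := by
  have h1 : ftTheta p F hϖ 1 = 1 := by
    apply Subtype.ext
    rw [ftTheta_coe]
    simp [ft_unif_ne_zero p F hϖ]
  rw [ftChi, h1, map_one]

lemma ftChi_mul {ϖ : F} (hϖ : ordT p F ϖ = 1) {σ : F ≃ₐ[ℚ_[p]] F} (hσ : σ ∈ inertia p F)
    (τ : F ≃ₐ[ℚ_[p]] F) :
    ftChi p F hϖ (σ * τ) = ftChi p F hϖ σ * ftChi p F hϖ τ := by
  have hϖ0 := ft_unif_ne_zero p F hϖ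
  rw [ftChi, ftChi, ftChi, ← map_mul, res_eq_iff]
  have e1 : ((ftTheta p F hϖ (σ * τ) : Oq p F) : F) -
      ((ftTheta p F hϖ σ * ftTheta p F hϖ τ : Oq p F) : F) =
      (σ (τ ϖ * ϖ⁻¹) - τ ϖ * ϖ⁻¹) * (σ ϖ * ϖ⁻¹) := by
    rw [Subring.coe_mul, ftTheta_coe, ftTheta_coe, ftTheta_coe, AlgEquiv.mul_apply, map_mul,
      map_inv₀]
    have hσϖ : σ ϖ ≠ 0 := by simpa using hϖ0
    field_simp
  rw [e1, ordT_mul, ft_ordT_theta p F hϖ σ, add_zero]
  exact hσ _ (ft_ordT_theta p F hϖ τ).ge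

/-- **Tame character and eigenvectors.**  If `ord v = m` and `σ v ≡ a v` modulo valuation
`> m`, then `χ σ ^ m = a` in the residue field. -/
theorem ftChi_pow_eq {ϖ : F} (hϖ : ordT p F ϖ = 1) {σ : F ≃ₐ[ℚ_[p]] F}
    (hσ : σ ∈ inertia p F) {v : F} {m a : ℕ} (hv : ordT p F v = ((m : ℤ) : WithTop ℤ))
    (h : ((m : ℤ) : WithTop ℤ) < ordT p F (σ v - (a : F) * v)) :
    ftChi p F hϖ σ ^ m = (a : kq p F) := by
  have hϖ0 := ft_unif_ne_zero p F hϖ
  have hσϖ : σ ϖ ≠ 0 := by simpa using hϖ0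
  have hϖm : ϖ ^ m ≠ 0 := pow_ne_zero _ hϖ0
  set u : F := v * (ϖ ^ m)⁻¹ with hu_def
  have hvu : v = u * ϖ ^ m := by
    rw [hu_def]; field_simp
  have hu : ordT p F u = 0 := by
    have h1 : ordT p F u + ordT p F (ϖ ^ m) = ordT p F v := by
      rw [← ordT_mul, ← hvu]
    rw [ft_ordT_unif_pow p F hϖ, hv] at h1
    exact ft_wt_eq_zero_of_add_eq h1
  have hσu : ordT p F (σ u) = 0 := by rw [Fermat.Agent.P1.helper14.ordT_algEquiv p F, hu]
  have e2 : ϖ ^ m * (σ ϖ * ϖ⁻¹) ^ m = σ ϖ ^ m := by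
    rw [← mul_pow]
    congr 1
    field_simp
  have key : σ v - (a : F) * v = ϖ ^ m * (σ u * (σ ϖ * ϖ⁻¹) ^ m - (a : F) * u) := by
    conv_lhs => rw [hvu]
    rw [map_mul, map_pow]
    linear_combination (-(σ u)) * e2
  rw [key, ordT_mul, ft_ordT_unif_pow p F hϖ] at h
  have hpos : 0 < ordT p F (σ u * (σ ϖ * ϖ⁻¹) ^ m - (a : F) * u) := ft_wt_pos_of_add_lt h
  -- pass to the residue field
  let U : Oq p F := ⟨u, hu.ge⟩
  let SU : Oq p F := ⟨σ u, hσu.ge⟩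
  have hres : res p F (SU * ftTheta p F hϖ σ ^ m) = res p F ((a : Oq p F) * U) := by
    rw [res_eq_iff]
    simpa [SU, U, ftTheta_coe] using hpos
  have hSU : res p F SU = res p F U := by
    rw [res_eq_iff]
    exact hσ u hu.ge
  have hU : res p F U ≠ 0 := by
    intro h0
    rw [res_eq_zero_iff] at h0
    have : ordT p F ((U : Oq p F) : F) = 0 := hu
    rw [this] at h0
    exact lt_irrefl _ h0
  rw [map_mul, map_mul, map_pow, map_natCast, hSU] at hres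
  have h2 : res p F U * ftChi p F hϖ σ ^ m = res p F U * (a : kq p F) := by
    rw [ftChi, hres, mul_comm]
  exact mul_left_cancel₀ hU h2

variable [IsGalois ℚ_[p] F]

/-- The order of the inertia group is the ramification index. -/
theorem ft_card_inertia : Nat.card (inertia p F) = edeg p F := by
  obtain ⟨K0, hK0e, hf, -, hK0⟩ := Fermat.Agent.P1.helper78.krInert p F
  exact Fermat.Agent.P1.helper41.kum_card_inertia p F K0 hK0e hf hK0

/-- In the tame case the tame character is faithful on inertia. -/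
theorem ft_eq_one_of_ftChi_eq_one (htame : ¬ p ∣ edeg p F) {ϖ : F} (hϖ : ordT p F ϖ = 1)
    {σ : F ≃ₐ[ℚ_[p]] F} (hσ : σ ∈ inertia p F) (h : ftChi p F hϖ σ = 1) : σ = 1 := by
  have hϖ0 := ft_unif_ne_zero p F hϖ
  have hp : p.Prime := Fact.out
  -- `σ` moves the uniformiser by valuation `≥ 2`
  have h1 : 0 < ordT p F (σ ϖ * ϖ⁻¹ - 1) := by
    have : res p F (ftTheta p F hϖ σ) = res p F 1 := by rw [map_one]; exact h
    rw [res_eq_iff] at this
    simpa [ftTheta_coe] using this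
  have h2 : (((1 : ℕ) : ℤ) + 1 : ℤ) ≤ ordT p F (σ ϖ - ϖ) := by
    have e : σ ϖ - ϖ = ϖ * (σ ϖ * ϖ⁻¹ - 1) := by field_simp
    rw [e, ordT_mul, hϖ]
    exact ft_wt_two_le_one_add h1
  have h3 : σ ∈ Fermat.Agent.P1.helper50.ramGroup p F 1 :=
    Fermat.Agent.P1.helper50.mem_ramGroup_of_unif p F hϖ hσ h2
  obtain ⟨k, hk⟩ := Fermat.Agent.P1.helper50.isPGroup_ramGroup_one p F hϖ ⟨σ, h3⟩
  have hk' : σ ^ p ^ k = 1 := by
    have := congrArg Subtype.val hk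
    simpa using this
  have he : σ ^ edeg p F = 1 := by
    have h4 : (⟨σ, hσ⟩ : inertia p F) ^ Nat.card (inertia p F) = 1 := pow_card_eq_one'
    rw [ft_card_inertia p F] at h4
    have := congrArg Subtype.val h4
    simpa using this
  have hcop : (p ^ k).Coprime (edeg p F) :=
    Nat.Coprime.pow_left k ((Nat.Prime.coprime_iff_not_dvd hp).2 htame)
  exact (pow_eq_one_iff_of_coprime hcop).1 ⟨hk', he⟩

/-- The tame character, as a monoid homomorphism on the inertia group. -/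
noncomputable def ftChiHom {ϖ : F} (hϖ : ordT p F ϖ = 1) : inertia p F →* kq p F where
  toFun σ := ftChi p F hϖ (σ : F ≃ₐ[ℚ_[p]] F)
  map_one' := ftChi_one p F hϖ
  map_mul' σ τ := ftChi_mul p F hϖ σ.2 τ

lemma ftChiHom_apply {ϖ : F} (hϖ : ordT p F ϖ = 1) (σ : inertia p F) :
    ftChiHom p F hϖ σ = ftChi p F hϖ (σ : F ≃ₐ[ℚ_[p]] F) := rfl

theorem ftChiHom_injective (htame : ¬ p ∣ edeg p F) {ϖ : F} (hϖ : ordT p F ϖ = 1) :
    Function.Injective (ftChiHom p F hϖ) := by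
  intro s t hst
  have h1 : ftChiHom p F hϖ (s * t⁻¹) * ftChiHom p F hϖ t = 1 * ftChiHom p F hϖ t := by
    rw [← map_mul, inv_mul_cancel_right, one_mul, hst]
  have h2 : ftChiHom p F hϖ (s * t⁻¹) = 1 :=
    mul_right_cancel₀ (ftChi_ne_zero p F hϖ _) h1
  have h3 : ((s * t⁻¹ : inertia p F) : F ≃ₐ[ℚ_[p]] F) = 1 :=
    ft_eq_one_of_ftChi_eq_one p F htame hϖ (s * t⁻¹).2 h2
  have h4 : s * t⁻¹ = 1 := Subtype.ext h3
  exact mul_inv_eq_one.mp h4

/-- **The tame inertia group is cyclic of order `e`, detected by the tame character.** -/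
theorem exists_ftChi_gen (htame : ¬ p ∣ edeg p F) {ϖ : F} (hϖ : ordT p F ϖ = 1) :
    ∃ σ ∈ inertia p F, ∀ N : ℕ, ftChi p F hϖ σ ^ N = 1 → edeg p F ∣ N := by
  have hinj := ftChiHom_injective p F htame hϖ
  have : IsCyclic (inertia p F) := isCyclic_of_injective_ringHom (ftChiHom p F hϖ) hinj
  obtain ⟨g, hg⟩ := IsCyclic.exists_generator (α := inertia p F)
  have hord : orderOf g = edeg p F := by
    rw [orderOf_eq_card_of_forall_mem_zpowers hg, ft_card_inertia p F]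
  refine ⟨g, g.2, fun N hN => ?_⟩
  rw [← hord]
  apply orderOf_dvd_of_pow_eq_one
  apply hinj
  rw [map_pow, map_one, ftChiHom_apply]
  exact hN

end tame

end Fermat.Agent.P1.helper88
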