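import Mathlib
import Fermat.Agent.P1.helper14_KumEqDefs3
import Fermat.Agent.P1.helper88_FTTame

/-!
# P1 / FLAT-CNT / KUMEQ (helper14): finals, part A (tools)

* basic closure properties of `HasLevel` / `HasLevelK`;
* `k`-valued forms of the three parts of `FCTopBStatement`;
* `thetaRes` versus `helper88.ftChi`, the generator of tame inertia, lifts to `G_p`;
* `thetaRes_conj` : `θ (φ s φ⁻¹) = θ(s)^(p^t)` when `φ` acts on the residue field as `Frob^t`.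
-/

set_option autoImplicit false

namespace Fermat.Agent.P1.helper14

open Fermat.Agent.S55.helper8 Fermat.Agent.S55.helper7

section basics

variable {p : ℕ} [Fact p.Prime]
variable {T : IntermediateField ℚ_[p] (PadicAlgCl p)} [FiniteDimensional ℚ_[p] T]
variable {ζ : PadicAlgCl p}

lemma HasLevel.mono {m m' : ℕ} (h : m' ≤ m) {f : GalP p → ZMod p}
    (hf : HasLevel p T ζ m f) : HasLevel p T ζ m' f := by
  obtain ⟨a, ha0, ha, hk⟩ := hf
  refine ⟨a, ha0, le_trans ?_ ha, hk⟩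
  exact_mod_cast h

/-- Only the values on `G_T` matter. -/
lemma IsKumHom.congr {a : PadicAlgCl p} {f f' : GalP p → ZMod p}
    (h : ∀ g ∈ T.fixingSubgroup, f g = f' g) (hf : IsKumHom p T ζ a f) :
    IsKumHom p T ζ a f' := by
  obtain ⟨α, hα, hg⟩ := hf
  exact ⟨α, hα, fun g hgT => by rw [← h g hgT]; exact hg g hgT⟩

lemma HasLevel.congr {m : ℕ} {f f' : GalP p → ZMod p}
    (h : ∀ g ∈ T.fixingSubgroup, f g = f' g) (hf : HasLevel p T ζ m f) :
    HasLevel p T ζ m f' := by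
  obtain ⟨a, ha0, ha, hk⟩ := hf
  exact ⟨a, ha0, ha, hk.congr h⟩

variable {k : Type} [Field k] [Algebra (ZMod p) k]

lemma HasLevelK.mono {m m' : ℕ} (h : m' ≤ m) {f : GalP p → k}
    (hf : HasLevelK p T ζ k m f) : HasLevelK p T ζ k m' f :=
  fun ℓ => (hf ℓ).mono h

lemma HasLevelK.congr {m : ℕ} {f f' : GalP p → k}
    (h : ∀ g ∈ T.fixingSubgroup, f g = f' g) (hf : HasLevelK p T ζ k m f) :
    HasLevelK p T ζ k m f' :=
  fun ℓ => (hf ℓ).congr (fun g hg => by simp only [h g hg])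

lemma HasLevelK.smul (c : k) {m : ℕ} {f : GalP p → k}
    (hf : HasLevelK p T ζ k m f) : HasLevelK p T ζ k m (fun g => c * f g) := by
  intro ℓ
  exact hf (ℓ.comp (LinearMap.mulLeft (ZMod p) c))

/-- linear functionals separate the points of `k`. -/
lemma eq_zero_of_forall_dual {y : k} (h : ∀ ℓ : k →ₗ[ZMod p] ZMod p, ℓ y = 0) : y = 0 :=
  (Module.forall_dual_apply_eq_zero_iff (ZMod p) y).mp h

lemma eq_of_forall_dual {y y' : k} (h : ∀ ℓ : k →ₗ[ZMod p] ZMod p, ℓ y = ℓ y') : y = y' := by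
  rw [← sub_eq_zero]
  apply eq_zero_of_forall_dual (p := p)
  intro ℓ
  rw [map_sub, h ℓ, sub_self]

end basics

/-! ## The top level, `k`-valued -/

section top

variable {p : ℕ} [Fact p.Prime]
variable {T : IntermediateField ℚ_[p] (PadicAlgCl p)} [FiniteDimensional ℚ_[p] T]
  [Normal ℚ_[p] T]
variable {ζ : PadicAlgCl p}
variable {k : Type} [Field k] [Algebra (ZMod p) k]

lemma levelK_zero (hTopB : FCTopBStatement p) (hζ : IsPrimitiveRoot ζ p) (hζT : ζ ∈ T)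
    {m : ℕ} (hm : p * edeg p T < (p - 1) * m) {f : GalP p → k}
    (hf : HasLevelK p T ζ k m f) : ∀ g ∈ T.fixingSubgroup, f g = 0 := by
  intro g hg
  apply eq_zero_of_forall_dual (p := p)
  intro ℓ
  exact (hTopB T ζ hζ hζT).1 m _ hm (hf ℓ) g hg

lemma levelK_inv (hTopB : FCTopBStatement p) (hζ : IsPrimitiveRoot ζ p) (hζT : ζ ∈ T)
    {m : ℕ} (hm : p * edeg p T ≤ (p - 1) * m) {f : GalP p → k}
    (hf : HasLevelK p T ζ k m f) :
    ∀ γ : GalP p, ∀ g ∈ T.fixingSubgroup, f (γ * g * γ⁻¹) = f g := by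
  intro γ g hg
  apply eq_of_forall_dual (p := p)
  intro ℓ
  exact (hTopB T ζ hζ hζT).2.1 m _ hm (hf ℓ) γ g hg

lemma levelK_dep (hTopB : FCTopBStatement p) (hζ : IsPrimitiveRoot ζ p) (hζT : ζ ∈ T)
    {m : ℕ} (hm : p * edeg p T ≤ (p - 1) * m) {f f' : GalP p → k}
    (hf : HasLevelK p T ζ k m f) (hf' : HasLevelK p T ζ k m f') :
    ∃ c c' : k, (c ≠ 0 ∨ c' ≠ 0) ∧ ∀ g ∈ T.fixingSubgroup, c * f g + c' * f' g = 0 := by
  obtain ⟨f₀, hf₀⟩ := (hTopB T ζ hζ hζT).2.2 m hm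
  by_cases h0 : ∀ g ∈ T.fixingSubgroup, f₀ g = 0
  · -- everything vanishes
    refine ⟨1, 0, Or.inl one_ne_zero, fun g hg => ?_⟩
    have : f g = 0 := by
      apply eq_zero_of_forall_dual (p := p)
      intro ℓ
      obtain ⟨c, hc⟩ := hf₀ _ (hf ℓ)
      rw [hc g hg, h0 g hg, mul_zero]
    rw [this]; simp
  · push Not at h0
    obtain ⟨g₀, hg₀, hne⟩ := h0
    -- every function of the top level is `f₁ • (value at g₀)`
    have key : ∀ F : GalP p → k, HasLevelK p T ζ k m F →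
        ∀ g ∈ T.fixingSubgroup, F g = ((f₀ g₀)⁻¹ * f₀ g) • F g₀ := by
      intro F hF g hg
      apply eq_of_forall_dual (p := p)
      intro ℓ
      obtain ⟨c, hc⟩ := hf₀ _ (hF ℓ)
      rw [map_smul, hc g hg, hc g₀ hg₀, smul_eq_mul]
      field_simp
    by_cases hy : f g₀ = 0
    · refine ⟨1, 0, Or.inl one_ne_zero, fun g hg => ?_⟩
      rw [key f hf g hg, hy]; simp
    · refine ⟨f' g₀, - f g₀, Or.inr (neg_ne_zero.mpr hy), fun g hg => ?_⟩
      rw [key f hf g hg, key f' hf' g hg]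
      simp only [Algebra.smul_def]
      ring

end top

/-! ## Type level: `thetaRes` and conjugation by Frobenius -/

section theta

variable (p : ℕ) [Fact p.Prime]
variable (F : Type) [Field F] [Algebra ℚ_[p] F] [FiniteDimensional ℚ_[p] F]

lemma resT_eq {x : F} (h : 0 ≤ ordT p F x) : resT p F x = res p F ⟨x, h⟩ := by
  unfold resT
  rw [dif_pos h]

lemma thetaRes_eq_ftChi {ϖ : F} (hϖ : ordT p F ϖ = 1) (s : F ≃ₐ[ℚ_[p]] F) :
    thetaRes p F ϖ s = Fermat.Agent.P1.helper88.ftChi p F hϖ s := by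
  unfold thetaRes
  have h0 : 0 ≤ ordT p F (s ϖ / ϖ) := by
    rw [div_eq_mul_inv]
    exact (Fermat.Agent.P1.helper88.ft_ordT_theta p F hϖ s).ge
  rw [resT_eq p F h0]
  unfold Fermat.Agent.P1.helper88.ftChi
  congr 1
  apply Subtype.ext
  show s ϖ / ϖ = s ϖ * ϖ⁻¹
  exact div_eq_mul_inv _ _

/-- The tame character does not depend on the uniformiser (on inertia). -/
lemma ftChi_indep {ϖ ϖ' : F} (hϖ : ordT p F ϖ = 1) (hϖ' : ordT p F ϖ' = 1)
    {s : F ≃ₐ[ℚ_[p]] F} (hs : s ∈ inertia p F) :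
    Fermat.Agent.P1.helper88.ftChi p F hϖ' s = Fermat.Agent.P1.helper88.ftChi p F hϖ s := by
  have hϖ0 := Fermat.Agent.P1.helper88.ft_unif_ne_zero p F hϖ
  have hϖ0' := Fermat.Agent.P1.helper88.ft_unif_ne_zero p F hϖ'
  have hsϖ : s ϖ ≠ 0 := by simpa using hϖ0
  unfold Fermat.Agent.P1.helper88.ftChi
  rw [res_eq_iff, Fermat.Agent.P1.helper88.ftTheta_coe, Fermat.Agent.P1.helper88.ftTheta_coe]
  -- `v = ϖ' / ϖ` is a unit and `s v ≡ v`
  set v : F := ϖ' * ϖ⁻¹ with hv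
  have hv0 : ordT p F v = 0 := by
    rw [hv, ordT_mul, hϖ', ← hϖ, ordT_inv p F hϖ0]
  have hvne : v ≠ 0 := by
    rw [hv]; exact mul_ne_zero hϖ0' (inv_ne_zero hϖ0)
  have hsv : 0 < ordT p F (s v - v) := hs v hv0.ge
  have e1 : s ϖ' * ϖ'⁻¹ - s ϖ * ϖ⁻¹ = (s v - v) * (s ϖ * ϖ⁻¹ * v⁻¹) := by
    have h1 : ϖ' = v * ϖ := by rw [hv]; field_simp
    rw [h1, map_mul]
    field_simp
  have hvi : ordT p F v⁻¹ = 0 := by
    have := ordT_inv p F hvne
    rw [hv0, zero_add] at this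
    exact this
  rw [e1, ordT_mul, ordT_mul, Fermat.Agent.P1.helper88.ft_ordT_theta p F hϖ s, hvi]
  simpa using hsv

/-- `θ (φ s φ⁻¹) = θ(s)^(p^t)` when `φ` acts on the residue field as `Frob^t`. -/
lemma ftChi_conj {ϖ : F} (hϖ : ordT p F ϖ = 1) {s : F ≃ₐ[ℚ_[p]] F} (hs : s ∈ inertia p F)
    (φ : F ≃ₐ[ℚ_[p]] F) (t : ℕ)
    (hφ : ∀ x : F, 0 ≤ ordT p F x → 0 < ordT p F (φ x - x ^ (p ^ t))) :
    Fermat.Agent.P1.helper88.ftChi p F hϖ (φ * s * φ⁻¹) =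
      Fermat.Agent.P1.helper88.ftChi p F hϖ s ^ (p ^ t) := by
  -- use the uniformiser `ϖ' = φ⁻¹ ϖ`
  have hϖ' : ordT p F (φ⁻¹ ϖ) = 1 := by rw [ordT_algEquiv, hϖ]
  rw [← ftChi_indep p F hϖ hϖ' hs]
  unfold Fermat.Agent.P1.helper88.ftChi
  rw [← map_pow, res_eq_iff, Fermat.Agent.P1.helper88.ftTheta_coe]
  have h1 : (φ * s * φ⁻¹) ϖ * ϖ⁻¹ = φ (s (φ⁻¹ ϖ) * (φ⁻¹ ϖ)⁻¹) := by
    rw [map_mul, map_inv₀]
    have : φ (φ⁻¹ ϖ) = ϖ := by
      change φ (φ.symm ϖ) = ϖ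
      simp
    rw [this]
    rfl
  rw [h1]
  have h2 := hφ (s (φ⁻¹ ϖ) * (φ⁻¹ ϖ)⁻¹)
    (Fermat.Agent.P1.helper88.ft_ordT_theta p F hϖ' s).ge
  simpa [Fermat.Agent.P1.helper88.ftTheta_coe] using h2

end theta

end Fermat.Agent.P1.helper14
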