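import Fermat.Agent.P1.helper14_KRDefs

/-!
# P1 / FLAT-KUM (helper5): valuation toolkit for the Kummer break

For a `p`-adic field `F` (S55 LOC vocabulary):

* `addv p F` : `ordT p F` as an `AddValuation`;
* `ordT_natCast_eq_zero` : `ordT n = 0` for `p ∤ n`;
* `ordT_primitiveRoot_sub_one` : `(p - 1) * ordT (η - 1) = edeg` for a primitive `p`-th root of
  unity `η`;
* `ordT_one_add_pow_sub_one` : `ordT ((1 + z) ^ x - 1) = ordT z` for `0 < ordT z`, `p ∤ x`;
* `ordT_add_pow_sub` : `ordT ((1 + β) ^ p - 1 - β ^ p) = edeg + ordT β` for `0 < ordT β`.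
-/

set_option autoImplicit false

namespace Fermat.Agent.P1.helper5

open Fermat.Agent.S55.helper8 Fermat.Agent.S55.helper7 Fermat.Agent.S55.helper33
open Polynomial

variable (p : ℕ) [Fact p.Prime]

section val

variable (F : Type) [Field F] [Algebra ℚ_[p] F] [FiniteDimensional ℚ_[p] F]

/-- The normalised valuation as an `AddValuation`. -/
noncomputable def addv : AddValuation F (WithTop ℤ) :=
  AddValuation.of (ordT p F) (ordT_zero p F) (ordT_one p F) (ordT_add_ge p F) (ordT_mul p F)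

@[simp] lemma addv_apply (x : F) : addv p F x = ordT p F x := rfl

variable {F}

lemma ordT_add_eq_left' {x y : F} (h : ordT p F x < ordT p F y) :
    ordT p F (x + y) = ordT p F x :=
  (addv p F).map_add_eq_of_lt_left h

lemma ordT_add_eq_right' {x y : F} (h : ordT p F y < ordT p F x) :
    ordT p F (x + y) = ordT p F y :=
  (addv p F).map_add_eq_of_lt_right h

lemma ordT_sub_ge' (x y : F) : min (ordT p F x) (ordT p F y) ≤ ordT p F (x - y) :=
  (addv p F).map_sub x y

lemma ordT_sum_nonneg {ι : Type*} (s : Finset ι) (f : ι → F) (h : ∀ i ∈ s, 0 ≤ ordT p F (f i)) :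
    0 ≤ ordT p F (∑ i ∈ s, f i) := by
  classical
  induction s using Finset.induction_on with
  | empty => simp [ordT_zero]
  | insert a s ha ih =>
    rw [Finset.sum_insert ha]
    exact ordT_add_nonneg p F (h a (Finset.mem_insert_self a s))
      (ih fun i hi => h i (Finset.mem_insert_of_mem hi))

lemma ordT_sum_pos {ι : Type*} (s : Finset ι) (f : ι → F) (h : ∀ i ∈ s, 0 < ordT p F (f i)) :
    0 < ordT p F (∑ i ∈ s, f i) := by
  classical
  induction s using Finset.induction_on with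
  | empty => simp [ordT_zero]
  | insert a s ha ih =>
    rw [Finset.sum_insert ha]
    exact ordT_add_pos p F (h a (Finset.mem_insert_self a s))
      (ih fun i hi => h i (Finset.mem_insert_of_mem hi))

lemma ordT_prod {ι : Type*} (s : Finset ι) (f : ι → F) :
    ordT p F (∏ i ∈ s, f i) = ∑ i ∈ s, ordT p F (f i) := by
  classical
  induction s using Finset.induction_on with
  | empty => simp [ordT_one]
  | insert a s ha ih =>
    rw [Finset.prod_insert ha, Finset.sum_insert ha, ordT_mul, ih]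

lemma ordT_pow_nonneg {x : F} (hx : 0 ≤ ordT p F x) (n : ℕ) : 0 ≤ ordT p F (x ^ n) := by
  rw [ordT_pow]
  exact nsmul_nonneg hx n

lemma ordT_natCast_nonneg' (n : ℕ) : 0 ≤ ordT p F (n : F) := by
  induction n with
  | zero => simp [ordT_zero]
  | succ n ih =>
    rw [Nat.cast_succ]
    exact ordT_add_nonneg p F ih (by rw [ordT_one])

lemma ordT_intCast_nonneg' (n : ℤ) : 0 ≤ ordT p F (n : F) := by
  rcases Int.eq_nat_or_neg n with ⟨m, rfl | rfl⟩
  · simpa using ordT_natCast_nonneg' p m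
  · rw [Int.cast_neg, ordT_neg]; simpa using ordT_natCast_nonneg' p m

/-- `ordT n = 0` for an integer `n` prime to `p`. -/
lemma ordT_natCast_eq_zero {n : ℕ} (hn : ¬ p ∣ n) : ordT p F (n : F) = 0 := by
  have hp : p.Prime := Fact.out
  refine le_antisymm ?_ (ordT_natCast_nonneg' p n)
  by_contra hcon
  rw [not_le] at hcon
  have hcop : Nat.Coprime n p := (Nat.Coprime.symm ((Nat.Prime.coprime_iff_not_dvd hp).2 hn))
  obtain ⟨a, b, hab⟩ : IsCoprime (n : ℤ) (p : ℤ) := Nat.isCoprime_iff_coprime.2 hcop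
  have h1 : (1 : F) = (a : F) * (n : F) + (b : F) * (p : F) := by
    have := congrArg (Int.cast : ℤ → F) hab
    push_cast at this
    exact this.symm
  have h2 : 0 < ordT p F ((a : F) * (n : F) + (b : F) * (p : F)) := by
    refine ordT_add_pos p F ?_ ?_
    · rw [ordT_mul]
      exact lt_of_lt_of_le hcon (le_add_of_nonneg_left (ordT_intCast_nonneg' p a))
    · rw [ordT_mul]
      exact lt_of_lt_of_le (ordT_q_pos p F) (le_add_of_nonneg_left (ordT_intCast_nonneg' p b))
  rw [← h1, ordT_one] at h2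
  exact lt_irrefl _ h2

/-- integrality of the value of an integer polynomial at an integral element. -/
lemma ordT_aeval_int_nonneg (r : ℤ[X]) {x : F} (hx : 0 ≤ ordT p F x) :
    0 ≤ ordT p F (aeval x r) := by
  rw [aeval_eq_sum_range]
  refine ordT_sum_nonneg p _ _ fun i _ => ?_
  rw [zsmul_eq_mul, ordT_mul]
  exact add_nonneg (ordT_intCast_nonneg' p _) (ordT_pow_nonneg p hx i)

end val

section roots

variable {F : Type} [Field F] [Algebra ℚ_[p] F] [FiniteDimensional ℚ_[p] F]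

lemma ordT_sub_one_le_pow {η : F} (hη : 0 ≤ ordT p F η) (k : ℕ) :
    ordT p F (η - 1) ≤ ordT p F (η ^ k - 1) := by
  rw [← geom_sum_mul, ordT_mul]
  exact le_add_of_nonneg_left
    (ordT_sum_nonneg p _ _ fun i _ => ordT_pow_nonneg p hη i)

lemma ordT_sub_one_eq_of_isPrimitiveRoot {η μ : F} (hη : IsPrimitiveRoot η p)
    (hμ : IsPrimitiveRoot μ p) : ordT p F (μ - 1) = ordT p F (η - 1) := by
  have hp : p.Prime := Fact.out
  have : NeZero p := ⟨hp.ne_zero⟩
  have h0 : ∀ ξ : F, ξ ^ p = 1 → 0 ≤ ordT p F ξ := fun ξ hξ =>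
    (ordT_eq_zero_of_pow_eq_one p F hp.ne_zero hξ).ge
  obtain ⟨i, -, hi⟩ := hη.eq_pow_of_pow_eq_one hμ.pow_eq_one
  obtain ⟨j, -, hj⟩ := hμ.eq_pow_of_pow_eq_one hη.pow_eq_one
  apply le_antisymm
  · have := ordT_sub_one_le_pow p (h0 μ hμ.pow_eq_one) j
    rwa [hj] at this
  · have := ordT_sub_one_le_pow p (h0 η hη.pow_eq_one) i
    rwa [hi] at this

/-- `(p - 1) * ordT (η - 1) = edeg` for a primitive `p`-th root of unity `η`. -/
theorem ordT_primitiveRoot_sub_one {η : F} (hη : IsPrimitiveRoot η p) :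
    ∃ c : ℤ, ordT p F (η - 1) = ((c : ℤ) : WithTop ℤ) ∧
      ((p - 1 : ℕ) : ℤ) * c = (edeg p F : ℤ) := by
  have hp : p.Prime := Fact.out
  have hη1 : η - 1 ≠ 0 := sub_ne_zero.2 (hη.ne_one hp.one_lt)
  have hprod : (p : F) = ∏ μ ∈ primitiveRoots p F, (1 - μ) := by
    have h1 := cyclotomic_eq_prod_X_sub_primitiveRoots hη
    have h2 := congrArg (eval 1) h1
    rw [eval_one_cyclotomic_prime, eval_prod] at h2
    rw [h2]
    exact Finset.prod_congr rfl fun μ _ => by simp
  have hord : ordT p F (p : F) = ∑ μ ∈ primitiveRoots p F, ordT p F (η - 1) := by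
    rw [hprod, ordT_prod]
    refine Finset.sum_congr rfl fun μ hμ => ?_
    have hμ' : IsPrimitiveRoot μ p := (mem_primitiveRoots hp.pos).1 hμ
    rw [ordT_sub_comm, ordT_sub_one_eq_of_isPrimitiveRoot p hη hμ']
  rw [Finset.sum_const, hη.card_primitiveRoots, Nat.totient_prime hp, ordT_q,
    ordT_of_ne_zero p F hη1] at hord
  refine ⟨_, ordT_of_ne_zero p F hη1, ?_⟩
  have h3 : ((edeg p F : ℤ) : WithTop ℤ) =
      (((p - 1 : ℕ) : ℤ) * ord p F (Units.mk0 (η - 1) hη1) : ℤ) := by
    rw [hord, ← WithTop.coe_nsmul, nsmul_eq_mul]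
  exact_mod_cast h3.symm

end roots

section binom

variable {F : Type} [Field F] [Algebra ℚ_[p] F] [FiniteDimensional ℚ_[p] F]

lemma ordT_one_add_nonneg {z : F} (hz : 0 < ordT p F z) : 0 ≤ ordT p F (1 + z) :=
  ordT_add_nonneg p F (by rw [ordT_one]) hz.le

lemma ordT_one_add_eq_zero {z : F} (hz : 0 < ordT p F z) : ordT p F (1 + z) = 0 := by
  rw [ordT_add_eq_left' p (by rw [ordT_one]; exact hz), ordT_one]

lemma ordT_one_add_pow_sub_one_pos {z : F} (hz : 0 < ordT p F z) (i : ℕ) :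
    0 < ordT p F ((1 + z) ^ i - 1) := by
  have h : (1 + z) ^ i - 1 = (∑ j ∈ Finset.range i, (1 + z) ^ j) * z := by
    rw [← geom_sum_mul, add_sub_cancel_left]
  rw [h, ordT_mul]
  exact lt_of_lt_of_le hz (le_add_of_nonneg_left
    (ordT_sum_nonneg p _ _ fun j _ => ordT_pow_nonneg p (ordT_one_add_nonneg p hz) j))

/-- `ordT ((1 + z) ^ x - 1) = ordT z` for `0 < ordT z` and `p ∤ x`. -/
theorem ordT_one_add_pow_sub_one {z : F} (hz : 0 < ordT p F z) {x : ℕ} (hx : ¬ p ∣ x) :
    ordT p F ((1 + z) ^ x - 1) = ordT p F z := by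
  have h : (1 + z) ^ x - 1 = (∑ j ∈ Finset.range x, (1 + z) ^ j) * z := by
    rw [← geom_sum_mul, add_sub_cancel_left]
  have hS : (∑ j ∈ Finset.range x, (1 + z) ^ j) =
      (x : F) + ∑ j ∈ Finset.range x, ((1 + z) ^ j - 1) := by
    rw [Finset.sum_sub_distrib]
    simp
  have hR : 0 < ordT p F (∑ j ∈ Finset.range x, ((1 + z) ^ j - 1)) :=
    ordT_sum_pos p _ _ fun j _ => ordT_one_add_pow_sub_one_pos p hz j
  have hS0 : ordT p F (∑ j ∈ Finset.range x, (1 + z) ^ j) = 0 := by
    rw [hS, ordT_add_eq_left' p (by rw [ordT_natCast_eq_zero p hx]; exact hR),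
      ordT_natCast_eq_zero p hx]
  rw [h, ordT_mul, hS0, zero_add]

/-- the cofactor in `(1 + β) ^ p = 1 + β ^ p + p β r`. -/
noncomputable def binomRest (β : F) : F :=
  ∑ k ∈ Finset.Ioo 0 p, β ^ (k - 1) * 1 ^ (p - k - 1) * ((p.choose k / p : ℕ) : F)

omit [Algebra ℚ_[p] F] [FiniteDimensional ℚ_[p] F] in
lemma one_add_pow_eq (β : F) :
    (1 + β) ^ p - 1 - β ^ p = (p : F) * β * binomRest p β := by
  have hp : p.Prime := Fact.out
  have := add_pow_prime_eq hp β 1
  rw [one_pow, mul_one] at this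
  rw [add_comm 1 β, this, binomRest]
  ring

lemma ordT_binomRest_nonneg {β : F} (hβ : 0 ≤ ordT p F β) : 0 ≤ ordT p F (binomRest p β) := by
  refine ordT_sum_nonneg p _ _ fun k _ => ?_
  rw [one_pow, mul_one, ordT_mul]
  exact add_nonneg (ordT_pow_nonneg p hβ _) (ordT_natCast_nonneg' p _)

lemma ordT_binomRest_eq_zero {β : F} (hβ : 0 < ordT p F β) : ordT p F (binomRest p β) = 0 := by
  classical
  have hp : p.Prime := Fact.out
  have hmem : 1 ∈ Finset.Ioo 0 p := Finset.mem_Ioo.2 ⟨Nat.one_pos, hp.one_lt⟩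
  have hr1 : binomRest p β = 1 + ∑ k ∈ (Finset.Ioo 0 p).erase 1,
      β ^ (k - 1) * 1 ^ (p - k - 1) * ((p.choose k / p : ℕ) : F) := by
    rw [binomRest, ← Finset.add_sum_erase _ _ hmem]
    congr 1
    simp [Nat.div_self hp.pos]
  have hR : 0 < ordT p F (∑ k ∈ (Finset.Ioo 0 p).erase 1,
      β ^ (k - 1) * 1 ^ (p - k - 1) * ((p.choose k / p : ℕ) : F)) := by
    refine ordT_sum_pos p _ _ fun k hk => ?_
    obtain ⟨hk1, hk2⟩ := Finset.mem_erase.1 hk
    obtain ⟨hk0, -⟩ := Finset.mem_Ioo.1 hk2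
    have hk' : k - 1 = (k - 2) + 1 := by omega
    rw [one_pow, mul_one, ordT_mul, hk', pow_succ, ordT_mul]
    refine lt_of_lt_of_le hβ ?_
    calc ordT p F β ≤ ordT p F (β ^ (k - 2)) + ordT p F β :=
          le_add_of_nonneg_left (ordT_pow_nonneg p hβ.le _)
      _ ≤ ordT p F (β ^ (k - 2)) + ordT p F β + ordT p F ((p.choose k / p : ℕ) : F) :=
          le_add_of_nonneg_right (ordT_natCast_nonneg' p _)
  rw [hr1, ordT_add_eq_left' p (by rw [ordT_one]; exact hR), ordT_one]

/-- `ordT ((1 + β) ^ p - 1 - β ^ p) = edeg + ordT β` for `0 < ordT β`. -/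
theorem ordT_add_pow_sub {β : F} (hβ : 0 < ordT p F β) :
    ordT p F ((1 + β) ^ p - 1 - β ^ p) = ((edeg p F : ℤ) : WithTop ℤ) + ordT p F β := by
  rw [one_add_pow_eq, ordT_mul, ordT_mul, ordT_binomRest_eq_zero p hβ, add_zero, ordT_q]

/-- integer powers. -/
lemma ordT_zpow_eq {x : F} {a : ℤ} (hx : ordT p F x = ((a : ℤ) : WithTop ℤ)) (n : ℤ) :
    ordT p F (x ^ n) = (((n * a : ℤ)) : WithTop ℤ) := by
  have hx0 : x ≠ 0 := by
    rintro rfl
    rw [ordT_zero] at hx
    exact WithTop.top_ne_coe hx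
  have hnat : ∀ m : ℕ, ordT p F (x ^ m) = ((((m : ℤ) * a : ℤ)) : WithTop ℤ) := by
    intro m
    rw [ordT_pow, hx, ← WithTop.coe_nsmul, nsmul_eq_mul]
  cases n with
  | ofNat m =>
    rw [Int.ofNat_eq_natCast, zpow_natCast]
    exact hnat m
  | negSucc m =>
    rw [zpow_negSucc]
    have h1 := ordT_inv p F (pow_ne_zero (m + 1) hx0)
    rw [hnat (m + 1)] at h1
    have hne : (x ^ (m + 1))⁻¹ ≠ 0 := inv_ne_zero (pow_ne_zero _ hx0)
    rw [ordT_of_ne_zero p F hne] at h1 ⊢
    have h2 : (((m + 1 : ℕ) : ℤ) * a) + ord p F (Units.mk0 _ hne) = 0 := by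
      exact_mod_cast h1
    have h3 : ord p F (Units.mk0 _ hne) = Int.negSucc m * a := by
      rw [Int.negSucc_eq]
      push_cast at h2 ⊢
      linarith
    rw [h3]

end binom

section field

variable {T1 M : Type} [Field T1] [Field M] [Algebra T1 M] [FiniteDimensional T1 M]

/-- if `[M : T1]` is a prime and `α ∉ T1`, then `M = T1(α)` as an algebra. -/
lemma adjoin_eq_top_of_prime {n : ℕ} (hn : n.Prime) (hdeg : Module.finrank T1 M = n) {α : M}
    (hα : α ∉ Set.range (algebraMap T1 M)) : Algebra.adjoin T1 {α} = ⊤ := by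
  set E : IntermediateField T1 M := IntermediateField.adjoin T1 {α} with hE
  have hαE : α ∈ E := IntermediateField.mem_adjoin_simple_self T1 α
  have htower := Module.finrank_mul_finrank T1 E M
  rw [hdeg] at htower
  have hdvd : Module.finrank T1 E ∣ n := ⟨_, htower.symm⟩
  have hE1 : Module.finrank T1 E ≠ 1 := by
    intro h1
    rw [IntermediateField.finrank_eq_one_iff] at h1
    rw [h1, IntermediateField.mem_bot] at hαE
    exact hα hαE
  have hEn : Module.finrank T1 E = n := (hn.eq_one_or_self_of_dvd _ hdvd).resolve_left hE1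
  have htop : E = ⊤ := by
    apply IntermediateField.eq_of_le_of_finrank_eq le_top
    rw [hEn, IntermediateField.finrank_top', hdeg]
  have halg : IsAlgebraic T1 α := Algebra.IsAlgebraic.isAlgebraic α
  rw [← IntermediateField.adjoin_simple_toSubalgebra_of_isAlgebraic halg, ← hE, htop,
    IntermediateField.top_toSubalgebra]

/-- if `[M : T1]` is a prime and `α ∉ T1`, an automorphism fixing `α` is trivial. -/
lemma algEquiv_eq_one_of_fixes {n : ℕ} (hn : n.Prime) (hdeg : Module.finrank T1 M = n) {α : M}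
    (hα : α ∉ Set.range (algebraMap T1 M)) (σ : M ≃ₐ[T1] M) (hσ : σ α = α) : σ = 1 := by
  have h := adjoin_eq_top_of_prime hn hdeg hα
  have h2 : (σ : M →ₐ[T1] M) = AlgHom.id T1 M := by
    apply AlgHom.ext_of_adjoin_eq_top h
    intro x hx
    rw [Set.mem_singleton_iff] at hx
    subst hx
    simpa using hσ
  apply AlgEquiv.ext
  intro x
  exact DFunLike.congr_fun h2 x

/-- a `p`-th root of unity different from `1` is primitive. -/
lemma isPrimitiveRoot_of_pow_eq_one {n : ℕ} (hn : n.Prime) {η : M} (h : η ^ n = 1)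
    (h1 : η ≠ 1) : IsPrimitiveRoot η n := by
  have := orderOf_eq_prime (p := n) (hp := ⟨hn⟩) h h1
  rw [← this]
  exact IsPrimitiveRoot.orderOf η

end field

end Fermat.Agent.P1.helper5
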