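import Mathlib
import Fermat.Agent.P1.helper14_KumEqDefs4
import Fermat.Agent.P1.helper14_KumEqFinA
import Fermat.Agent.P1.helper5_KumVal
import Fermat.Agent.P1.helper41_KumAux

/-!
# P1 / FLAT-CNT / KUMEQ (helper14): finals, part B (set-up and `KumEqInvStatement`)

* `exists_cycl` : the cyclotomic character exists;
* `mem_fixingSubgroup_iff_restrict` : `G_T` is the kernel of the restriction to `T`;
* `kumeq_setup` : uniformiser, a generator `s₀` of tame inertia lifted to `G_p`, with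
  `θ(s₀)^N = 1 ↔ e ∣ N`, `θ(s₀)^(e') = ω(s₀)`, `e = (p - 1) e'`;
* `kumEqInv_of : FCStep0Statement p → FCTopBStatement p → FCThetaStatement p →
  KumEqInvStatement p`.
-/

set_option autoImplicit false

namespace Fermat.Agent.P1.helper14

open Fermat.Agent.S55.helper8 Fermat.Agent.S55.helper7

variable {p : ℕ} [Fact p.Prime]

/-- The cyclotomic character exists. -/
lemma exists_cycl {ζ : PadicAlgCl p} (hζ : IsPrimitiveRoot ζ p) :
    ∃ ω : GalP p → ZMod p, IsCycl p ζ ω := by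
  have hp : p.Prime := Fact.out
  haveI : NeZero p := ⟨hp.ne_zero⟩
  have h : ∀ g : GalP p, ∃ i : ℕ, i < p ∧ ζ ^ i = g ζ := by
    intro g
    have h1 : (g ζ) ^ p = 1 := by rw [← map_pow, hζ.pow_eq_one, map_one]
    exact hζ.eq_pow_of_pow_eq_one h1
  choose i hi hiζ using h
  refine ⟨fun g => (i g : ZMod p), fun g => ?_⟩
  rw [ZMod.val_natCast_of_lt (hi g), hiζ g]

lemma cycl_ne_zero {ζ : PadicAlgCl p} (hζ : IsPrimitiveRoot ζ p) {ω : GalP p → ZMod p}
    (hω : IsCycl p ζ ω) (g : GalP p) : ω g ≠ 0 := by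
  have hp : p.Prime := Fact.out
  intro h0
  have h1 := hω g
  rw [h0, ZMod.val_zero, pow_zero] at h1
  have h2 : g ζ = g 1 := by rw [h1, map_one]
  exact hζ.ne_one hp.one_lt (g.injective h2)

section setup

variable (T : IntermediateField ℚ_[p] (PadicAlgCl p)) [FiniteDimensional ℚ_[p] T]
  [Normal ℚ_[p] T]

lemma mem_fixingSubgroup_iff_restrict (g : GalP p) :
    g ∈ T.fixingSubgroup ↔ AlgEquiv.restrictNormalHom T g = 1 := by
  rw [← IntermediateField.restrictNormalHom_ker, MonoidHom.mem_ker]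

lemma mem_inertiaOf_iff (g : GalP p) :
    g ∈ inertiaOf p T ↔ AlgEquiv.restrictNormalHom T g ∈ inertia p T := Iff.rfl

lemma exists_restrict_eq (σ : T ≃ₐ[ℚ_[p]] T) :
    ∃ g : GalP p, AlgEquiv.restrictNormalHom T g = σ :=
  AlgEquiv.restrictNormalHom_surjective (PadicAlgCl p) σ

lemma fixingSubgroup_le_inertiaOf : T.fixingSubgroup ≤ inertiaOf p T := by
  intro g hg
  rw [mem_inertiaOf_iff, (mem_fixingSubgroup_iff_restrict T g).mp hg]
  exact (inertia p T).one_mem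

/-- `T.fixingSubgroup` is normal. -/
lemma conj_mem_fixingSubgroup (γ : GalP p) {g : GalP p} (hg : g ∈ T.fixingSubgroup) :
    γ * g * γ⁻¹ ∈ T.fixingSubgroup := by
  rw [mem_fixingSubgroup_iff_restrict] at hg ⊢
  rw [map_mul, map_mul, hg, mul_one, ← map_mul, mul_inv_cancel, map_one]

omit [FiniteDimensional ℚ_[p] T] [Normal ℚ_[p] T] in
lemma primRoot_subtype {ζ : PadicAlgCl p} (hζ : IsPrimitiveRoot ζ p) (hζT : ζ ∈ T) :
    IsPrimitiveRoot (⟨ζ, hζT⟩ : T) p := by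
  have h1 : (algebraMap T (PadicAlgCl p)) ⟨ζ, hζT⟩ = ζ := rfl
  exact IsPrimitiveRoot.of_map_of_injective (f := algebraMap T (PadicAlgCl p))
    (by rw [h1]; exact hζ) (algebraMap T (PadicAlgCl p)).injective

/-- `e = (p - 1) e'`. -/
lemma edeg_eq_mul {ζ : PadicAlgCl p} (hζ : IsPrimitiveRoot ζ p) (hζT : ζ ∈ T) :
    edeg p T = (p - 1) * (edeg p T / (p - 1)) := by
  have hp : p.Prime := Fact.out
  have hζ' : IsPrimitiveRoot (⟨ζ, hζT⟩ : T) p := primRoot_subtype T hζ hζT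
  obtain ⟨c, hc, hce⟩ := Fermat.Agent.P1.helper5.ordT_primitiveRoot_sub_one p hζ'
  have hdvd : (p - 1) ∣ edeg p T := by
    have h1 : (((p - 1 : ℕ) : ℤ)) ∣ ((edeg p T : ℕ) : ℤ) := ⟨c, hce.symm⟩
    exact_mod_cast h1
  exact (Nat.mul_div_cancel' hdvd).symm

/-- The set-up of the finals. -/
lemma kumeq_setup (hTheta : FCThetaStatement p) {ζ : PadicAlgCl p} (hζ : IsPrimitiveRoot ζ p)
    (hζT : ζ ∈ T) (htame : ¬ p ∣ edeg p T) {ω : GalP p → ZMod p} (hω : IsCycl p ζ ω) :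
    ∃ (ϖ : T) (s₀ : GalP p), ordT p T ϖ = 1 ∧ s₀ ∈ inertiaOf p T ∧
      (∀ N : ℕ, thetaRes p T ϖ (AlgEquiv.restrictNormalHom T s₀) ^ N = 1 ↔ edeg p T ∣ N) ∧
      thetaRes p T ϖ (AlgEquiv.restrictNormalHom T s₀) ≠ 0 ∧
      (∀ s ∈ inertiaOf p T, thetaRes p T ϖ (AlgEquiv.restrictNormalHom T s) ^
        (edeg p T / (p - 1)) = (((ω s).val : ℕ) : kq p T)) ∧
      s₀ ^ edeg p T ∈ T.fixingSubgroup := by
  haveI : IsGalois ℚ_[p] T := ⟨⟩
  obtain ⟨ϖ, hϖ⟩ := Fermat.Agent.P1.helper41.kum_exists_unif p T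
  obtain ⟨σ₀, hσ₀, hgen⟩ := Fermat.Agent.P1.helper88.exists_ftChi_gen p T htame hϖ
  obtain ⟨s₀, hs₀⟩ := exists_restrict_eq T σ₀
  have hζ' : IsPrimitiveRoot (⟨ζ, hζT⟩ : T) p := primRoot_subtype T hζ hζT
  have hpow : σ₀ ^ edeg p T = 1 := by
    have h4 : (⟨σ₀, hσ₀⟩ : inertia p T) ^ Nat.card (inertia p T) = 1 := pow_card_eq_one'
    rw [Fermat.Agent.P1.helper88.ft_card_inertia p T] at h4
    have := congrArg Subtype.val h4
    simpa using this
  refine ⟨ϖ, s₀, hϖ, ?_, ?_, ?_, ?_, ?_⟩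
  · rw [mem_inertiaOf_iff, hs₀]; exact hσ₀
  · intro N
    rw [hs₀, thetaRes_eq_ftChi p T hϖ]
    constructor
    · exact hgen N
    · rintro ⟨c, rfl⟩
      have h1 : Fermat.Agent.P1.helper88.ftChi p T hϖ σ₀ ^ edeg p T = 1 := by
        have h2 := map_pow (Fermat.Agent.P1.helper88.ftChiHom p T hϖ) ⟨σ₀, hσ₀⟩ (edeg p T)
        have h3 : (⟨σ₀, hσ₀⟩ : inertia p T) ^ edeg p T = 1 := Subtype.ext (by simpa using hpow)
        rw [h3, map_one] at h2
        rw [Fermat.Agent.P1.helper88.ftChiHom_apply] at h2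
        exact h2.symm
      rw [pow_mul, h1, one_pow]
  · rw [hs₀, thetaRes_eq_ftChi p T hϖ]
    exact Fermat.Agent.P1.helper88.ftChi_ne_zero p T hϖ σ₀
  · intro s hs
    have h1 := (hTheta T ϖ hϖ).2.2.2.2 ⟨ζ, hζT⟩ (ω s).val hζ' _ hs
    apply h1
    apply Subtype.ext
    rw [AlgEquiv.restrictNormalHom_apply, SubmonoidClass.coe_pow]
    exact hω s
  · rw [mem_fixingSubgroup_iff_restrict, map_pow, hs₀, hpow]

end setup

/-- `p e = (p - 1) (e + e')` when `e = (p - 1) e'`. -/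
lemma top_arith {e e' : ℕ} (hp1 : 1 ≤ p) (he : e = (p - 1) * e') :
    p * e ≤ (p - 1) * (e + e') := by
  obtain ⟨q, hq⟩ : ∃ q, p = q + 1 := ⟨p - 1, by omega⟩
  rw [hq] at he ⊢
  simp only [Nat.add_sub_cancel] at he ⊢
  rw [he]
  apply le_of_eq
  ring

/-- **KUMEQ-INV** from the packages. -/
theorem kumEqInv_of (hStep0 : FCStep0Statement p) (hTopB : FCTopBStatement p)
    (hTheta : FCThetaStatement p) : KumEqInvStatement p := by
  intro T _ _ ζ k _ _ _ hp2 htame hζ hζT f hf hinv γ g hg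
  have hp : p.Prime := Fact.out
  obtain ⟨ω, hω⟩ := exists_cycl hζ
  obtain ⟨ϖ, s₀, hϖ, hs₀, hord, hθ0, hθω, -⟩ := kumeq_setup T hTheta hζ hζT htame hω
  have he := edeg_eq_mul T hζ hζT
  have hepos : 0 < edeg p T := Fermat.Agent.S55.helper33.edeg_pos p T
  obtain ⟨e, hedef⟩ : ∃ e, edeg p T = e := ⟨_, rfl⟩
  obtain ⟨e', he'def⟩ : ∃ e', edeg p T / (p - 1) = e' := ⟨_, rfl⟩
  rw [he'def] at he hθω
  rw [hedef] at he hepos hord hf
  have hp3 : 3 ≤ p := by
    have := hp.two_le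
    omega
  have he'pos : 0 < e' := by
    rcases Nat.eq_zero_or_pos e' with h | h
    · rw [h, mul_zero] at he; omega
    · exact h
  have hlt : e' < e := by
    have h2 : 2 * e' ≤ (p - 1) * e' := Nat.mul_le_mul_right _ (by omega)
    omega
  have chain : ∀ n : ℕ, n ≤ e' → HasLevelK p T ζ k (e + n) f := by
    intro n
    induction n with
    | zero => intro _; exact hf
    | succ n ih =>
      intro hn
      have ih' := ih (by omega)
      refine hStep0 T ζ ω k (e + n) ϖ s₀ hζ hζT hω (by omega) hϖ hs₀ ?_ f ih'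
        (hinv s₀ hs₀)
      intro hcontra
      rw [← hθω s₀ hs₀] at hcontra
      have h1 : thetaRes p T ϖ (AlgEquiv.restrictNormalHom T s₀) ^ (e + n - e') = 1 := by
        have h2 : e + n = (e + n - e') + e' := by omega
        rw [h2, pow_add] at hcontra
        have h3 := pow_ne_zero e' hθ0
        exact mul_right_cancel₀ h3 (by rw [hcontra, one_mul])
      have h4 := (hord _).mp h1
      have h5 := Nat.le_of_dvd (by omega) h4
      omega
  have htop := chain e' le_rfl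
  rw [← hedef] at htop
  exact levelK_inv hTopB hζ hζT (m := edeg p T + e')
    (top_arith hp.one_le (by rw [hedef]; exact he)) htop γ g hg

end Fermat.Agent.P1.helper14
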