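import Mathlib
import Fermat.Agent.P1.helper14_KumEqFinB

/-!
# P1 / FLAT-CNT / KUMEQ (helper14): finals, part C (the level chain)

Consequences of `FCStepStatement` in the forms used by the finals:
* `step_zero` : no active embedding at level `m` ⟹ level `m` implies level `m + 1`;
* `step_one`  : at most one active embedding ⟹ two functions of level `m` have a non-trivial
  combination of level `m + 1`;
* `chain_zero` : iteration of `step_zero`;
* `exists_frob_lift`, `frob_sq` : Frobenius elements of `G_p` (from `FCFrobStatement`).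
-/

set_option autoImplicit false

namespace Fermat.Agent.P1.helper14

open Fermat.Agent.S55.helper8 Fermat.Agent.S55.helper7

variable {p : ℕ} [Fact p.Prime]

section chain

variable (T : IntermediateField ℚ_[p] (PadicAlgCl p)) [FiniteDimensional ℚ_[p] T]
  [Normal ℚ_[p] T]

/-- The set of active embeddings at level `m` (as in `FCStepStatement`). -/
abbrev ActSet (k : Type) [Field k] [Algebra (ZMod p) k] (ω : GalP p → ZMod p) (m : ℕ) (ϖ : T)
    (s₀ : GalP p) (t : ℕ) (as : k) : Type :=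
  {σ : frobFixed p (kq p T) t →+* k //
    ∀ h : thetaRes p T ϖ (AlgEquiv.restrictNormalHom T s₀) ^ m ∈ frobFixed p (kq p T) t,
      σ ⟨_, h⟩ * as = algebraMap (ZMod p) k (ω s₀)}

/-- Semi-invariance under one element. -/
def SemiInv {k : Type} [Field k] (γ : GalP p) (a : k) (f : GalP p → k) : Prop :=
  ∀ g ∈ T.fixingSubgroup, f (γ * g * γ⁻¹) = a * f g

variable {T}

lemma SemiInv.smul {k : Type} [Field k] {γ : GalP p} {a : k} {f : GalP p → k}
    (h : SemiInv T γ a f) (c : k) : SemiInv T γ a (fun g => c * f g) := by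
  intro g hg
  show c * f (γ * g * γ⁻¹) = a * (c * f g)
  rw [h g hg]; ring

lemma SemiInv.add {k : Type} [Field k] {γ : GalP p} {a : k} {f f' : GalP p → k}
    (h : SemiInv T γ a f) (h' : SemiInv T γ a f') : SemiInv T γ a (fun g => f g + f' g) := by
  intro g hg
  show f (γ * g * γ⁻¹) + f' (γ * g * γ⁻¹) = a * (f g + f' g)
  rw [h g hg, h' g hg]; ring

variable {ζ : PadicAlgCl p} {ω : GalP p → ZMod p}
  {k : Type} [Field k] [Finite k] [Algebra (ZMod p) k]
  {ϖ : T} {s₀ φ : GalP p} {t : ℕ} {as aφ : k}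

/-- The hypotheses of `FCStepStatement` which do not depend on the level. -/
structure StepCtx (T : IntermediateField ℚ_[p] (PadicAlgCl p)) [FiniteDimensional ℚ_[p] T]
    [Normal ℚ_[p] T] (ζ : PadicAlgCl p) (ω : GalP p → ZMod p)
    (k : Type) [Field k] [Finite k] [Algebra (ZMod p) k]
    (ϖ : T) (s₀ φ : GalP p) (t : ℕ) (as aφ : k) : Prop where
  hζ : IsPrimitiveRoot ζ p
  hζT : ζ ∈ T
  hω : IsCycl p ζ ω
  hϖ : ordT p T ϖ = 1
  hs₀ : s₀ ∈ inertiaOf p T
  ht : 0 < t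
  hφ : ∀ x : T, 0 ≤ ordT p T x →
    0 < ordT p T (AlgEquiv.restrictNormalHom T φ x - x ^ (p ^ t))
  hcomm : s₀ * φ * s₀⁻¹ * φ⁻¹ ∈ T.fixingSubgroup
  has : as ≠ 0
  haφ : aφ ≠ 0
  hne : Nonempty (frobFixed p (kq p T) t →+* k)

lemma step_zero (hStep : FCStepStatement p)
    (C : StepCtx T ζ ω k ϖ s₀ φ t as aφ) {m : ℕ} (hm : 1 ≤ m)
    (hempty : IsEmpty (ActSet T k ω m ϖ s₀ t as)) {f : GalP p → k}
    (hf : HasLevelK p T ζ k m f) (hfs : SemiInv T s₀ as f) (hfφ : SemiInv T φ aφ f) :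
    HasLevelK p T ζ k (m + 1) f := by
  have hcard : Nat.card (ActSet T k ω m ϖ s₀ t as) ≤ 0 := by
    rw [Nat.card_of_isEmpty]
  obtain ⟨c, hc, hlev⟩ := hStep T ζ ω k m ϖ s₀ φ t as aφ C.hζ C.hζT C.hω hm C.hϖ C.hs₀ C.ht
    C.hφ C.hcomm C.has C.haφ C.hne 0 hcard (fun _ => f) (fun _ => ⟨hf, hfs, hfφ⟩)
  have hc0 : c 0 ≠ 0 := by
    intro h0
    apply hc
    funext i
    have : i = 0 := Fin.ext (by have := i.2; simp only [Fin.val_zero]; omega)
    rw [this, h0]; rfl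
  have h1 := hlev.smul (c 0)⁻¹
  refine h1.congr (fun g _ => ?_)
  show (c 0)⁻¹ * (∑ i : Fin (0 + 1), c i * f g) = f g
  rw [Fin.sum_univ_succ, Fin.sum_univ_zero, add_zero]
  field_simp

lemma step_one (hStep : FCStepStatement p)
    (C : StepCtx T ζ ω k ϖ s₀ φ t as aφ) {m : ℕ} (hm : 1 ≤ m)
    (hsub : Subsingleton (ActSet T k ω m ϖ s₀ t as)) {f f' : GalP p → k}
    (hf : HasLevelK p T ζ k m f) (hfs : SemiInv T s₀ as f) (hfφ : SemiInv T φ aφ f)
    (hf' : HasLevelK p T ζ k m f') (hfs' : SemiInv T s₀ as f') (hfφ' : SemiInv T φ aφ f') :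
    ∃ c c' : k, (c ≠ 0 ∨ c' ≠ 0) ∧
      HasLevelK p T ζ k (m + 1) (fun g => c * f g + c' * f' g) := by
  have hcard : Nat.card (ActSet T k ω m ϖ s₀ t as) ≤ 1 :=
    Finite.card_le_one_iff_subsingleton.mpr hsub
  obtain ⟨c, hc, hlev⟩ := hStep T ζ ω k m ϖ s₀ φ t as aφ C.hζ C.hζT C.hω hm C.hϖ C.hs₀ C.ht
    C.hφ C.hcomm C.has C.haφ C.hne 1 hcard ![f, f']
    (fun i => by
      fin_cases i
      · exact ⟨hf, hfs, hfφ⟩
      · exact ⟨hf', hfs', hfφ'⟩)
  refine ⟨c 0, c 1, ?_, ?_⟩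
  · by_contra hcon
    push Not at hcon
    apply hc
    funext i
    fin_cases i
    · exact hcon.1
    · exact hcon.2
  · refine hlev.congr (fun g _ => ?_)
    simp [Fin.sum_univ_two]

lemma chain_zero (hStep : FCStepStatement p)
    (C : StepCtx T ζ ω k ϖ s₀ φ t as aφ) {a : ℕ} (ha : 1 ≤ a) (n : ℕ)
    (hempty : ∀ m, a ≤ m → m < a + n → IsEmpty (ActSet T k ω m ϖ s₀ t as))
    {f : GalP p → k}
    (hf : HasLevelK p T ζ k a f) (hfs : SemiInv T s₀ as f) (hfφ : SemiInv T φ aφ f) :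
    HasLevelK p T ζ k (a + n) f := by
  induction n with
  | zero => exact hf
  | succ n ih =>
    have ih' := ih (fun m h1 h2 => hempty m h1 (by omega))
    exact step_zero hStep C (by omega) (hempty (a + n) (by omega) (by omega)) ih' hfs hfφ

end chain

/-! ## Frobenius lifts -/

section frob

variable (T : IntermediateField ℚ_[p] (PadicAlgCl p)) [FiniteDimensional ℚ_[p] T]
  [Normal ℚ_[p] T]

lemma exists_frob_lift (hFrob : FCFrobStatement p) :
    ∃ φ : GalP p, ∀ x : T, 0 ≤ ordT p T x →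
      0 < ordT p T (AlgEquiv.restrictNormalHom T φ x - x ^ (p ^ 1)) := by
  haveI : IsGalois ℚ_[p] T := ⟨⟩
  obtain ⟨φT, hφT⟩ := (hFrob T).1
  obtain ⟨φ, hφ⟩ := exists_restrict_eq T φT
  refine ⟨φ, fun x hx => ?_⟩
  rw [hφ, pow_one]
  exact hφT x hx

lemma frob_sq {φ : GalP p}
    (hφ : ∀ x : T, 0 ≤ ordT p T x →
      0 < ordT p T (AlgEquiv.restrictNormalHom T φ x - x ^ (p ^ 1))) :
    ∀ x : T, 0 ≤ ordT p T x →
      0 < ordT p T (AlgEquiv.restrictNormalHom T (φ * φ) x - x ^ (p ^ 2)) := by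
  intro x hx
  have h1 := hφ x hx
  have hxp : 0 ≤ ordT p T (x ^ p) := by
    rw [ordT_pow]
    exact nsmul_nonneg hx p
  have h2 := hφ (x ^ p) hxp
  rw [pow_one] at h1 h2
  have e1 : AlgEquiv.restrictNormalHom T (φ * φ) x - x ^ (p ^ 2) =
      AlgEquiv.restrictNormalHom T φ (AlgEquiv.restrictNormalHom T φ x - x ^ p) +
        (AlgEquiv.restrictNormalHom T φ (x ^ p) - (x ^ p) ^ p) := by
    rw [map_mul, AlgEquiv.mul_apply, map_sub, pow_two, pow_mul]
    ring
  rw [e1]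
  refine ordT_add_pos p T ?_ h2
  rw [ordT_algEquiv]
  exact h1

end frob

end Fermat.Agent.P1.helper14
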