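import Mathlib
import Fermat.Agent.P1.helper14_KumEqFinC

/-!
# P1 / FLAT-CNT / KUMEQ (helper14): finals, part D (`KumEqIIStatement`)

`kumEqII_of : FCStepStatement p → FCTopBStatement p → FCThetaStatement p → FCFrobStatement p →
  FCFinFieldStatement → KumEqIIStatement p`.
-/

set_option autoImplicit false

namespace Fermat.Agent.P1.helper14

open Fermat.Agent.S55.helper8 Fermat.Agent.S55.helper7

variable {p : ℕ} [Fact p.Prime]

/-- `(n : k) = algebraMap (ZMod p) k n` for `n = (c.val)`. -/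
lemma algebraMap_zmod_eq_natCast {k : Type} [Field k] [Algebra (ZMod p) k] (c : ZMod p) :
    algebraMap (ZMod p) k c = ((c.val : ℕ) : k) := by
  have hp : p.Prime := Fact.out
  haveI : NeZero p := ⟨hp.ne_zero⟩
  conv_lhs => rw [← ZMod.natCast_zmod_val c]
  rw [map_natCast]

section

variable (T : IntermediateField ℚ_[p] (PadicAlgCl p)) [FiniteDimensional ℚ_[p] T]
  [Normal ℚ_[p] T]

/-- `θ(s₀)` is fixed by `Frob^t` when `s₀` commutes with `φ` modulo `G_T`. -/
lemma thetaRes_frob_fixed {ϖ : T} (hϖ : ordT p T ϖ = 1) {s₀ φ : GalP p} {t : ℕ}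
    (hs₀ : s₀ ∈ inertiaOf p T)
    (hφ : ∀ x : T, 0 ≤ ordT p T x →
      0 < ordT p T (AlgEquiv.restrictNormalHom T φ x - x ^ (p ^ t)))
    (hcomm : s₀ * φ * s₀⁻¹ * φ⁻¹ ∈ T.fixingSubgroup) :
    thetaRes p T ϖ (AlgEquiv.restrictNormalHom T s₀) ^ (p ^ t) =
      thetaRes p T ϖ (AlgEquiv.restrictNormalHom T s₀) := by
  rw [thetaRes_eq_ftChi p T hϖ]
  rw [← ftChi_conj p T hϖ hs₀ (AlgEquiv.restrictNormalHom T φ) t hφ]
  congr 1
  -- `φ s₀ φ⁻¹ = s₀` on `T`
  rw [mem_fixingSubgroup_iff_restrict] at hcomm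
  simp only [map_mul, map_inv] at hcomm
  -- hcomm : S Φ S⁻¹ Φ⁻¹ = 1
  have h1 : AlgEquiv.restrictNormalHom T s₀ * AlgEquiv.restrictNormalHom T φ =
      AlgEquiv.restrictNormalHom T φ * AlgEquiv.restrictNormalHom T s₀ := by
    have h2 := congrArg (fun x => x * (AlgEquiv.restrictNormalHom T φ *
      AlgEquiv.restrictNormalHom T s₀)) hcomm
    simp only [one_mul] at h2
    rw [← h2]
    group
  rw [← h1]
  group

end

/-- **KUMEQ-II** from the packages. -/
theorem kumEqII_of (hStep : FCStepStatement p) (hTopB : FCTopBStatement p)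
    (hTheta : FCThetaStatement p) (hFrob : FCFrobStatement p) (hFF : FCFinFieldStatement) :
    KumEqIIStatement p := by
  intro T _ _ ζ ω k _ _ _ lam hp2 htame hζ hζT hω hab hlam hlam1 hlamI f f' hf hf'
  have hp : p.Prime := Fact.out
  obtain ⟨ϖ, s₀, hϖ, hs₀, hord, hθ0, hθω, -⟩ := kumeq_setup T hTheta hζ hζT htame hω
  obtain ⟨φ, hφ⟩ := exists_frob_lift T hFrob
  have he := edeg_eq_mul T hζ hζT
  have hepos : 0 < edeg p T := Fermat.Agent.S55.helper33.edeg_pos p T
  have hp3 : 3 ≤ p := by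
    have := hp.two_le
    omega
  have hcomm : s₀ * φ * s₀⁻¹ * φ⁻¹ ∈ T.fixingSubgroup := hab s₀ φ
  -- `e = p - 1`
  have hfix := thetaRes_frob_fixed T hϖ hs₀ hφ hcomm
  have he1 : edeg p T = p - 1 := by
    have h1 : thetaRes p T ϖ (AlgEquiv.restrictNormalHom T s₀) ^ (p - 1) = 1 := by
      have h2 : p ^ 1 = (p - 1) + 1 := by rw [pow_one]; omega
      rw [h2, pow_succ] at hfix
      exact mul_right_cancel₀ hθ0 (by rw [hfix, one_mul])
    have h3 := (hord _).mp h1
    have h4 := Nat.le_of_dvd (by omega) h3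
    have h5 : p - 1 ∣ edeg p T := ⟨_, he⟩
    have h6 := Nat.le_of_dvd hepos h5
    omega
  have he' : edeg p T / (p - 1) = 1 := by
    rw [he1]; exact Nat.div_self (by omega)
  -- `ω(s₀) ≠ 1`
  have hωs : ω s₀ ≠ 1 := by
    intro h1
    have h2 := hθω s₀ hs₀
    rw [he', pow_one, h1] at h2
    have hval : (1 : ZMod p).val = 1 := by
      haveI : Fact (1 < p) := ⟨hp.one_lt⟩
      exact ZMod.val_one p
    rw [hval, Nat.cast_one] at h2
    have h3 := (hord 1).mp (by rw [pow_one]; exact h2)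
    have h4 := Nat.le_of_dvd one_pos h3
    omega
  -- multipliers
  have hlam_one : lam 1 = 1 := hlam1 1 (Subgroup.one_mem _)
  have hlam_ne : ∀ γ : GalP p, lam γ ≠ 0 := by
    intro γ h0
    have h1 := hlam γ γ⁻¹
    rw [mul_inv_cancel, hlam_one, h0, zero_mul] at h1
    exact one_ne_zero h1
  -- the context
  obtain ⟨hne, -, huniq⟩ := hFF p (kq p T) k
  have C : StepCtx T ζ ω k ϖ s₀ φ 1 (lam s₀) (lam φ) :=
    { hζ := hζ, hζT := hζT, hω := hω, hϖ := hϖ, hs₀ := hs₀, ht := one_pos, hφ := hφ,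
      hcomm := hcomm, has := hlam_ne s₀, haφ := hlam_ne φ, hne := hne }
  have hsemi : ∀ F : GalP p → k, IsEqv p T ζ k ⊤ lam (edeg p T) F →
      ∀ γ : GalP p, SemiInv T γ (lam γ) F :=
    fun F hF γ g hg => hF.2 γ (Subgroup.mem_top _) g hg
  -- at most one embedding
  have hsub : Subsingleton (ActSet T k ω (edeg p T) ϖ s₀ 1 (lam s₀)) := by
    refine ⟨fun σ σ' => ?_⟩
    apply Subtype.ext
    obtain ⟨j, hj, hjσ⟩ := huniq 1 σ.1 σ'.1 one_pos
    have hj0 : j = 0 := by omega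
    subst hj0
    apply RingHom.ext
    intro x
    rw [hjσ x, pow_zero, pow_one]
  obtain ⟨c, c', hcc, hlev⟩ := step_one hStep C (by omega) hsub hf.1 (hsemi f hf s₀)
    (hsemi f hf φ) hf'.1 (hsemi f' hf' s₀) (hsemi f' hf' φ)
  refine ⟨c, c', hcc, fun g hg => ?_⟩
  -- the combination is of top level, hence invariant; but `lam s₀ = ω s₀ ≠ 1`
  have htopm : p * edeg p T ≤ (p - 1) * (edeg p T + 1) := by
    have := top_arith (p := p) (e := edeg p T) (e' := 1) hp.one_le (by rw [mul_one]; exact he1)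
    exact this
  have hinv : c * f (s₀ * g * s₀⁻¹) + c' * f' (s₀ * g * s₀⁻¹) = c * f g + c' * f' g :=
    levelK_inv hTopB hζ hζT htopm hlev s₀ g hg
  have hs1 : SemiInv T s₀ (lam s₀) (fun g => c * f g + c' * f' g) :=
    ((hsemi f hf s₀).smul c).add ((hsemi f' hf' s₀).smul c')
  have h1 := hs1 g hg
  have h2 : (lam s₀ - 1) * (c * f g + c' * f' g) = 0 := by
    have h3 : c * f (s₀ * g * s₀⁻¹) + c' * f' (s₀ * g * s₀⁻¹) =
        lam s₀ * (c * f g + c' * f' g) := h1
    rw [hinv] at h3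
    linear_combination -h3
  rcases mul_eq_zero.mp h2 with h | h
  · exfalso
    have h4 : lam s₀ = 1 := sub_eq_zero.mp h
    rw [hlamI s₀ hs₀] at h4
    apply hωs
    have hinj : Function.Injective (algebraMap (ZMod p) k) := (algebraMap (ZMod p) k).injective
    apply hinj
    rw [h4, map_one]
  · exact h

end Fermat.Agent.P1.helper14
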