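import Mathlib
import Fermat.Agent.P1.helper14_KumEqFinD

/-!
# P1 / FLAT-CNT / KUMEQ (helper14): finals, part E (`KumEqIStatement`)

`kumEqI_of : FCStepStatement p → FCTopBStatement p → FCThetaStatement p → FCFrobStatement p →
  FCFinFieldStatement → FCActStatement → KumEqIStatement p`.
-/

set_option autoImplicit false

namespace Fermat.Agent.P1.helper14

open Fermat.Agent.S55.helper8 Fermat.Agent.S55.helper7

variable {p : ℕ} [Fact p.Prime]

/-- `x^(p^2) = x` when `x^(p+1)` lies in the prime field (and is nonzero). -/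
lemma pow_p_sq_eq_of_pow_succ {k : Type} [Field k] [Algebra (ZMod p) k] {x : k} {c : ZMod p}
    (hc : c ≠ 0) (hx : x ^ (p + 1) = algebraMap (ZMod p) k c) : x ^ (p ^ 2) = x := by
  have hp : p.Prime := Fact.out
  have h1 : (x ^ (p + 1)) ^ (p - 1) = 1 := by
    rw [hx, ← map_pow, ZMod.pow_card_sub_one_eq_one hc, map_one]
  have h2 : p ^ 2 = (p + 1) * (p - 1) + 1 := by
    obtain ⟨q, hq⟩ : ∃ q, p = q + 1 := ⟨p - 1, by have := hp.one_le; omega⟩
    rw [hq]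
    simp only [Nat.add_sub_cancel]
    ring
  rw [h2, pow_succ, pow_mul, h1, one_mul]

/-- **KUMEQ-I** from the packages. -/
theorem kumEqI_of (hStep : FCStepStatement p) (hTopB : FCTopBStatement p)
    (hTheta : FCThetaStatement p) (hFrob : FCFrobStatement p) (hFF : FCFinFieldStatement)
    (hAct : FCActStatement) : KumEqIStatement p := by
  intro T _ _ ζ ω k _ _ _ Γ ψ lam hp2 htame hζ hζT hω hGT hIΓ hsq hab hlam hlam1 hψ hψ1 hψω
    hlamψ hψne f f' hf hf'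
  have hp : p.Prime := Fact.out
  obtain ⟨ϖ, s₀, hϖ, hs₀, hord, hθ0, hθω, hs₀e⟩ := kumeq_setup T hTheta hζ hζT htame hω
  obtain ⟨φ₁, hφ₁⟩ := exists_frob_lift T hFrob
  obtain ⟨φ, t, ht12, hφΓ, hφ⟩ : ∃ (φ : GalP p) (t : ℕ), (t = 1 ∨ t = 2) ∧ φ ∈ Γ ∧
      ∀ x : T, 0 ≤ ordT p T x →
        0 < ordT p T (AlgEquiv.restrictNormalHom T φ x - x ^ (p ^ t)) := by
    by_cases h : φ₁ ∈ Γ
    · exact ⟨φ₁, 1, Or.inl rfl, h, hφ₁⟩
    · exact ⟨φ₁ * φ₁, 2, Or.inr rfl, hsq φ₁, frob_sq T hφ₁⟩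
  have ht : 0 < t := by rcases ht12 with h | h <;> omega
  have hs₀Γ : s₀ ∈ Γ := hIΓ hs₀
  have hcomm : s₀ * φ * s₀⁻¹ * φ⁻¹ ∈ T.fixingSubgroup := hab s₀ hs₀Γ φ hφΓ
  have hfix := thetaRes_frob_fixed T hϖ hs₀ hφ hcomm
  have he := edeg_eq_mul T hζ hζT
  have hepos : 0 < edeg p T := Fermat.Agent.S55.helper33.edeg_pos p T
  have hp3 : 3 ≤ p := by
    have := hp.two_le
    omega
  -- abbreviations
  obtain ⟨θ, hθdef⟩ : ∃ θ, thetaRes p T ϖ (AlgEquiv.restrictNormalHom T s₀) = θ := ⟨_, rfl⟩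
  obtain ⟨e', he'def⟩ : ∃ e', edeg p T / (p - 1) = e' := ⟨_, rfl⟩
  rw [he'def] at he
  rw [hθdef] at hord hθ0 hfix
  have hθωs := hθω s₀ hs₀
  rw [hθdef, he'def] at hθωs
  have he'pos : 0 < e' := by
    rcases Nat.eq_zero_or_pos e' with h | h
    · rw [h, mul_zero] at he; omega
    · exact h
  -- multipliers
  have hlam_one : lam 1 = 1 := hlam1 1 (Subgroup.one_mem _)
  have hlam_ne : ∀ γ ∈ Γ, lam γ ≠ 0 := by
    intro γ hγ h0
    have h1 := hlam γ hγ γ⁻¹ (Γ.inv_mem hγ)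
    rw [mul_inv_cancel, hlam_one, h0, zero_mul] at h1
    exact one_ne_zero h1
  -- the embedding `σ₁`
  obtain ⟨hne1, hne2, huniq⟩ := hFF p (kq p T) k
  have hne : Nonempty (frobFixed p (kq p T) t →+* k) := by
    rcases ht12 with h | h
    · rw [h]; exact hne1
    · rw [h]
      obtain ⟨s, hs, hsne⟩ := hψne
      exact hne2 ⟨ψ s, pow_p_sq_eq_of_pow_succ (cycl_ne_zero hζ hω s) (hψω s hs), hsne⟩
  obtain ⟨σ₁⟩ := hne
  have hσ₁inj : Function.Injective σ₁ := σ₁.injective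
  have hθmem : ∀ m : ℕ, θ ^ m ∈ frobFixed p (kq p T) t := by
    intro m
    rw [mem_frobFixed, ← pow_mul, mul_comm, pow_mul, hfix]
  obtain ⟨χ, hχdef⟩ : ∃ χ, σ₁ ⟨θ ^ 1, hθmem 1⟩ = χ := ⟨_, rfl⟩
  have hχpow : ∀ m : ℕ, σ₁ ⟨θ ^ m, hθmem m⟩ = χ ^ m := by
    intro m
    rw [← hχdef, ← map_pow]
    congr 1
    apply Subtype.ext
    show θ ^ m = (θ ^ 1) ^ m
    rw [pow_one]
  have hχone : ∀ N : ℕ, χ ^ N = 1 ↔ edeg p T ∣ N := by
    intro N
    rw [← hord N, ← hχpow N]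
    constructor
    · intro h
      have h1 : σ₁ ⟨θ ^ N, hθmem N⟩ = σ₁ 1 := by rw [h, map_one]
      have h2 := hσ₁inj h1
      exact congrArg Subtype.val h2
    · intro h
      have h1 : (⟨θ ^ N, hθmem N⟩ : frobFixed p (kq p T) t) = 1 := Subtype.ext h
      rw [h1, map_one]
  have hordχ : orderOf χ = (p - 1) * e' := by
    rw [← he]
    apply Nat.dvd_antisymm
    · exact orderOf_dvd_of_pow_eq_one ((hχone _).mpr dvd_rfl)
    · exact (hχone _).mp (pow_orderOf_eq_one χ)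
  have hχfix : χ ^ (p ^ t) = χ := by
    have h1 := hχpow (p ^ t)
    have h2 : (⟨θ ^ (p ^ t), hθmem (p ^ t)⟩ : frobFixed p (kq p T) t) = ⟨θ ^ 1, hθmem 1⟩ :=
      Subtype.ext (by show θ ^ (p ^ t) = θ ^ 1; rw [hfix, pow_one])
    rw [h2, hχdef] at h1
    exact h1.symm
  have hχω : χ ^ e' = algebraMap (ZMod p) k (ω s₀) := by
    rw [algebraMap_zmod_eq_natCast, ← hχpow e']
    have h1 : (⟨θ ^ e', hθmem e'⟩ : frobFixed p (kq p T) t) = (((ω s₀).val : ℕ) :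
        frobFixed p (kq p T) t) := by
      apply Subtype.ext
      show θ ^ e' = ((((ω s₀).val : ℕ) : frobFixed p (kq p T) t) : kq p T)
      rw [hθωs]
      exact (SubringClass.coe_natCast (frobFixed p (kq p T) t) _).symm
    rw [h1, map_natCast]
  -- `ψ₀`
  have hψpow : ∀ n : ℕ, ψ (s₀ ^ (n + 1)) = ψ s₀ ^ (n + 1) := by
    intro n
    induction n with
    | zero => simp
    | succ n ih =>
      rw [pow_succ s₀ (n + 1), hψ _ ((inertiaOf p T).pow_mem hs₀ _) _ hs₀, ih, ← pow_succ]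
  have hψe : ψ s₀ ^ ((p - 1) * e') = 1 := by
    rw [← he]
    obtain ⟨n, hn⟩ : ∃ n, edeg p T = n + 1 := ⟨edeg p T - 1, by omega⟩
    rw [hn, ← hψpow n, ← hn]
    exact hψ1 _ hs₀e
  have hψχ : ψ s₀ ^ (p + 1) = χ ^ e' := by rw [hχω]; exact hψω s₀ hs₀
  obtain ⟨hact1, hact2⟩ := hAct p k e' t χ (ψ s₀) (lam s₀) hp2 he'pos hordχ ht12 hχfix hψe hψχ
    (hlamψ s₀ hs₀)
  -- the context
  have C : StepCtx T ζ ω k ϖ s₀ φ t (lam s₀) (lam φ) :=
    { hζ := hζ, hζT := hζT, hω := hω, hϖ := hϖ, hs₀ := hs₀, ht := ht, hφ := hφ,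
      hcomm := hcomm, has := hlam_ne s₀ hs₀Γ, haφ := hlam_ne φ hφΓ, hne := ⟨σ₁⟩ }
  have hsemi : ∀ F : GalP p → k, IsEqv p T ζ k Γ lam (edeg p T) F →
      ∀ γ ∈ Γ, SemiInv T γ (lam γ) F :=
    fun F hF γ hγ g hg => hF.2 γ hγ g hg
  -- active embeddings
  have hactive : ∀ (m : ℕ) (σ : ActSet T k ω m ϖ s₀ t (lam s₀)),
      ∃ j, j < t ∧ χ ^ (m * p ^ j) * lam s₀ = χ ^ e' ∧ ∀ x, σ.1 x = (σ₁ x) ^ (p ^ j) := by
    intro m σ
    obtain ⟨j, hj, hjσ⟩ := huniq t σ₁ σ.1 ht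
    refine ⟨j, hj, ?_, hjσ⟩
    have hmem : thetaRes p T ϖ (AlgEquiv.restrictNormalHom T s₀) ^ m ∈
        frobFixed p (kq p T) t := by rw [hθdef]; exact hθmem m
    have h1 := σ.2 hmem
    rw [hjσ] at h1
    have h2 : (⟨thetaRes p T ϖ (AlgEquiv.restrictNormalHom T s₀) ^ m, hmem⟩ :
        frobFixed p (kq p T) t) = ⟨θ ^ m, hθmem m⟩ :=
      Subtype.ext (by
        show thetaRes p T ϖ (AlgEquiv.restrictNormalHom T s₀) ^ m = θ ^ m
        rw [hθdef])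
    rw [h2, hχpow m, ← pow_mul, ← hχω] at h1
    exact h1
  have hsubs : ∀ m : ℕ, (p - 1) * e' ≤ m → m < (p - 1) * e' + e' →
      Subsingleton (ActSet T k ω m ϖ s₀ t (lam s₀)) := by
    intro m hm1 hm2
    refine ⟨fun σ σ' => ?_⟩
    obtain ⟨j, hj, hja, hjσ⟩ := hactive m σ
    obtain ⟨j', hj', hja', hjσ'⟩ := hactive m σ'
    have hjj := (hact1 m m j j' hm1 hm2 hm1 hm2 hj hj' hja hja').2
    apply Subtype.ext
    apply RingHom.ext
    intro x
    rw [hjσ x, hjσ' x, hjj]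
  have htopm : p * edeg p T ≤ (p - 1) * (edeg p T + e') := top_arith hp.one_le he
  by_cases hex : ∃ m, (p - 1) * e' ≤ m ∧ m < (p - 1) * e' + e' ∧
      Nonempty (ActSet T k ω m ϖ s₀ t (lam s₀))
  · -- one active level `m₀`
    obtain ⟨m₀, hm1, hm2, ⟨σ₀⟩⟩ := hex
    obtain ⟨j₀, hj₀, hja₀, -⟩ := hactive m₀ σ₀
    have hempty : ∀ m : ℕ, (p - 1) * e' ≤ m → m < (p - 1) * e' + e' → m ≠ m₀ →
        IsEmpty (ActSet T k ω m ϖ s₀ t (lam s₀)) := by
      intro m h1 h2 hne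
      refine ⟨fun σ => ?_⟩
      obtain ⟨j, hj, hja, -⟩ := hactive m σ
      exact hne (hact1 m m₀ j j₀ h1 h2 hm1 hm2 hj hj₀ hja hja₀).1
    have has1 : lam s₀ ≠ 1 := fun h => hact2 h m₀ j₀ hm1 hm2 hj₀ hja₀
    -- climb to `m₀`
    obtain ⟨n₀, hn₀⟩ : ∃ n₀, m₀ = edeg p T + n₀ := ⟨m₀ - edeg p T, by omega⟩
    have hup : ∀ F : GalP p → k, IsEqv p T ζ k Γ lam (edeg p T) F →
        HasLevelK p T ζ k m₀ F := by
      intro F hF
      rw [hn₀]
      exact chain_zero hStep C (by omega) n₀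
        (fun m h1 h2 => hempty m (by omega) (by omega) (by omega)) hF.1
        (hsemi F hF s₀ hs₀Γ) (hsemi F hF φ hφΓ)
    obtain ⟨c, c', hcc, hlev⟩ := step_one hStep C (by omega) (hsubs m₀ hm1 hm2)
      (hup f hf) (hsemi f hf s₀ hs₀Γ) (hsemi f hf φ hφΓ)
      (hup f' hf') (hsemi f' hf' s₀ hs₀Γ) (hsemi f' hf' φ hφΓ)
    refine ⟨c, c', hcc, fun g hg => ?_⟩
    have hs1 : SemiInv T s₀ (lam s₀) (fun g => c * f g + c' * f' g) :=
      ((hsemi f hf s₀ hs₀Γ).smul c).add ((hsemi f' hf' s₀ hs₀Γ).smul c')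
    have hφ1 : SemiInv T φ (lam φ) (fun g => c * f g + c' * f' g) :=
      ((hsemi f hf φ hφΓ).smul c).add ((hsemi f' hf' φ hφΓ).smul c')
    -- climb to the top
    obtain ⟨n₁, hn₁⟩ : ∃ n₁, edeg p T + e' = (m₀ + 1) + n₁ :=
      ⟨edeg p T + e' - (m₀ + 1), by omega⟩
    have htop : HasLevelK p T ζ k (edeg p T + e') (fun g => c * f g + c' * f' g) := by
      rw [hn₁]
      exact chain_zero hStep C (by omega) n₁
        (fun m h1 h2 => hempty m (by omega) (by omega) (by omega)) hlev hs1 hφ1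
    have hinv : c * f (s₀ * g * s₀⁻¹) + c' * f' (s₀ * g * s₀⁻¹) = c * f g + c' * f' g :=
      levelK_inv hTopB hζ hζT htopm htop s₀ g hg
    have h3 : c * f (s₀ * g * s₀⁻¹) + c' * f' (s₀ * g * s₀⁻¹) =
        lam s₀ * (c * f g + c' * f' g) := hs1 g hg
    rw [hinv] at h3
    have h2 : (lam s₀ - 1) * (c * f g + c' * f' g) = 0 := by linear_combination -h3
    rcases mul_eq_zero.mp h2 with h | h
    · exact absurd (sub_eq_zero.mp h) has1
    · exact h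
  · -- no active level: everything is of top level
    have hempty : ∀ m : ℕ, (p - 1) * e' ≤ m → m < (p - 1) * e' + e' →
        IsEmpty (ActSet T k ω m ϖ s₀ t (lam s₀)) := by
      intro m h1 h2
      by_contra hcon
      rw [not_isEmpty_iff] at hcon
      exact hex ⟨m, h1, h2, hcon⟩
    have hup : ∀ F : GalP p → k, IsEqv p T ζ k Γ lam (edeg p T) F →
        HasLevelK p T ζ k (edeg p T + e') F := by
      intro F hF
      exact chain_zero hStep C (by omega) e'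
        (fun m h1 h2 => hempty m (by omega) (by omega)) hF.1
        (hsemi F hF s₀ hs₀Γ) (hsemi F hF φ hφΓ)
    exact levelK_dep hTopB hζ hζT htopm (hup f hf) (hup f' hf')

end Fermat.Agent.P1.helper14
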