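import Fermat.Agent.P1.helper14_KumEqDefs3

/-!
# P1 / FLAT-CNT / KUMEQ, package FC-STEP0 (helper33)

`fcStep0 : FCGrStatement p → FCKumStatement p → FCStep0Statement p` : a homomorphism of level
`≥ m` which is invariant under conjugation by `s₀ ∈ I` has level `≥ m + 1` unless
`θ(s₀)^m = ω(s₀)`.

DIRECT PROOF, one functional at a time (the multiplier `1` lies in the prime field):
`a` a Kummer generator of level `m`, `n = ω(s₀)`; equivariance, powers and uniqueness of Kummer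
homomorphisms give `s₀ a = a ^ n * b ^ p`; with `x = lcoef a`, `u = θ(s₀)^m` the leading
coefficient of `b ^ p` is `(u - n) x`; the leading coefficients of the `p`-th powers in `U^(m)`
form an additive subgroup `S₀` of the residue field stable under `u`, hence under `u - n`, and
`(u - n) ^ N = 1` for some `N ≥ 1`; so `x ∈ S₀` and `a` can be corrected by a `p`-th power to an
element of `U^(m+1)`.
-/

set_option autoImplicit false
set_option linter.unusedSectionVars false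
set_option linter.unusedVariables false

namespace Fermat.Agent.P1.helper33

open Fermat.Agent.S55.helper8 Fermat.Agent.S55.helper7 Fermat.Agent.P1.helper14

variable (p : ℕ) [Fact p.Prime]

/-! ## The groups `U^(m)` -/

section units

variable (T : Type) [Field T] [Algebra ℚ_[p] T] [FiniteDimensional ℚ_[p] T]

lemma step0_cast_pos {m : ℕ} (hm : 1 ≤ m) : (0 : WithTop ℤ) < ((m : ℤ) : WithTop ℤ) := by
  have h : ((0 : ℤ) : WithTop ℤ) < ((m : ℤ) : WithTop ℤ) := WithTop.coe_lt_coe.2 (by omega)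
  simpa using h

/-- an element of `U^(m)`, `m ≥ 1`, is a unit of the valuation ring -/
lemma step0_ordT_eq_zero {m : ℕ} (hm : 1 ≤ m) {a : T}
    (ha : ((m : ℤ) : WithTop ℤ) ≤ ordT p T (a - 1)) : ordT p T a = 0 := by
  have hpos : 0 < ordT p T (a - 1) := lt_of_lt_of_le (step0_cast_pos hm) ha
  have h1 : 0 ≤ ordT p T a := by
    have := ordT_add_ge p T (a - 1) 1
    rw [sub_add_cancel, ordT_one] at this
    exact le_trans (le_min hpos.le le_rfl) this
  refine le_antisymm ?_ h1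
  by_contra hlt
  rw [not_le] at hlt
  have := ordT_sub_pos p T hlt hpos
  rw [sub_sub_cancel, ordT_one] at this
  exact lt_irrefl _ this

lemma step0_ne_zero {m : ℕ} (hm : 1 ≤ m) {a : T}
    (ha : ((m : ℤ) : WithTop ℤ) ≤ ordT p T (a - 1)) : a ≠ 0 := by
  intro h
  have := step0_ordT_eq_zero p T hm ha
  rw [h, ordT_zero] at this
  exact WithTop.top_ne_zero this

lemma step0_one (m : ℕ) : ((m : ℤ) : WithTop ℤ) ≤ ordT p T ((1 : T) - 1) := by
  rw [sub_self, ordT_zero]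
  exact le_top

lemma step0_mul {m : ℕ} (hm : 1 ≤ m) {a b : T}
    (ha : ((m : ℤ) : WithTop ℤ) ≤ ordT p T (a - 1))
    (hb : ((m : ℤ) : WithTop ℤ) ≤ ordT p T (b - 1)) :
    ((m : ℤ) : WithTop ℤ) ≤ ordT p T (a * b - 1) := by
  have h1 : a * b - 1 = a * (b - 1) + (a - 1) := by ring
  rw [h1]
  refine le_trans (le_min ?_ ha) (ordT_add_ge p T _ _)
  rw [ordT_mul, step0_ordT_eq_zero p T hm ha, zero_add]
  exact hb

lemma step0_inv {m : ℕ} (hm : 1 ≤ m) {a : T}
    (ha : ((m : ℤ) : WithTop ℤ) ≤ ordT p T (a - 1)) :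
    ((m : ℤ) : WithTop ℤ) ≤ ordT p T (a⁻¹ - 1) := by
  have hne := step0_ne_zero p T hm ha
  have h1 : a⁻¹ - 1 = -(a⁻¹ * (a - 1)) := by
    field_simp
    ring
  have h2 : ordT p T a⁻¹ = 0 := by
    have := ordT_inv p T hne
    rw [step0_ordT_eq_zero p T hm ha, zero_add] at this
    exact this
  rw [h1, ordT_neg, ordT_mul, h2, zero_add]
  exact ha

lemma step0_pow {m : ℕ} (hm : 1 ≤ m) {a : T}
    (ha : ((m : ℤ) : WithTop ℤ) ≤ ordT p T (a - 1)) (n : ℕ) :
    ((m : ℤ) : WithTop ℤ) ≤ ordT p T (a ^ n - 1) := by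
  induction n with
  | zero => rw [pow_zero]; exact step0_one p T m
  | succ n ih => rw [pow_succ]; exact step0_mul p T hm ih ha

lemma step0_map {m : ℕ} (s : T ≃ₐ[ℚ_[p]] T) {a : T}
    (ha : ((m : ℤ) : WithTop ℤ) ≤ ordT p T (a - 1)) :
    ((m : ℤ) : WithTop ℤ) ≤ ordT p T (s a - 1) := by
  have h1 : s a - 1 = s (a - 1) := by rw [map_sub, map_one]
  rw [h1, helper14.ordT_algEquiv]
  exact ha

end units

/-! ## Leading coefficients -/

section lcoef

variable (T : Type) [Field T] [Algebra ℚ_[p] T] [FiniteDimensional ℚ_[p] T]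
  (ϖ : T) (m : ℕ) (hm : 1 ≤ m)
  (hadd : ∀ a b : T, ((m : ℤ) : WithTop ℤ) ≤ ordT p T (a - 1) →
      ((m : ℤ) : WithTop ℤ) ≤ ordT p T (b - 1) →
      lcoef p T ϖ m (a * b) = lcoef p T ϖ m a + lcoef p T ϖ m b)

include hadd in
lemma step0_lcoef_one : lcoef p T ϖ m 1 = 0 := by
  have h := hadd 1 1 (step0_one p T m) (step0_one p T m)
  rw [mul_one] at h
  exact left_eq_add.1 h

include hm hadd in
lemma step0_lcoef_inv {a : T} (ha : ((m : ℤ) : WithTop ℤ) ≤ ordT p T (a - 1)) :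
    lcoef p T ϖ m a⁻¹ = - lcoef p T ϖ m a := by
  have h := hadd a a⁻¹ ha (step0_inv p T hm ha)
  rw [mul_inv_cancel₀ (step0_ne_zero p T hm ha), step0_lcoef_one p T ϖ m hadd] at h
  exact eq_neg_of_add_eq_zero_right h.symm

include hm hadd in
lemma step0_lcoef_pow {a : T} (ha : ((m : ℤ) : WithTop ℤ) ≤ ordT p T (a - 1)) (n : ℕ) :
    lcoef p T ϖ m (a ^ n) = (n : kq p T) * lcoef p T ϖ m a := by
  induction n with
  | zero => rw [pow_zero, Nat.cast_zero, zero_mul]; exact step0_lcoef_one p T ϖ m hadd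
  | succ n ih =>
    rw [pow_succ, hadd _ _ (step0_pow p T hm ha n) ha, ih, Nat.cast_succ]
    ring

/-- The leading coefficients of the `p`-th powers lying in `U^(m)`. -/
def step0Sub : Set (kq p T) :=
  {y | ∃ b : T, ((m : ℤ) : WithTop ℤ) ≤ ordT p T (b ^ p - 1) ∧ lcoef p T ϖ m (b ^ p) = y}

include hm hadd in
lemma step0Sub_add {y z : kq p T} (hy : y ∈ step0Sub p T ϖ m) (hz : z ∈ step0Sub p T ϖ m) :
    y + z ∈ step0Sub p T ϖ m := by
  obtain ⟨b, hb, rfl⟩ := hy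
  obtain ⟨c, hc, rfl⟩ := hz
  refine ⟨b * c, ?_, ?_⟩
  · rw [mul_pow]; exact step0_mul p T hm hb hc
  · rw [mul_pow]; exact hadd _ _ hb hc

include hm hadd in
lemma step0Sub_neg {y : kq p T} (hy : y ∈ step0Sub p T ϖ m) : -y ∈ step0Sub p T ϖ m := by
  obtain ⟨b, hb, rfl⟩ := hy
  refine ⟨b⁻¹, ?_, ?_⟩
  · rw [inv_pow]; exact step0_inv p T hm hb
  · rw [inv_pow]; exact step0_lcoef_inv p T ϖ m hm hadd hb

include hm hadd in
lemma step0Sub_natCast_mul (n : ℕ) {y : kq p T} (hy : y ∈ step0Sub p T ϖ m) :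
    (n : kq p T) * y ∈ step0Sub p T ϖ m := by
  obtain ⟨b, hb, rfl⟩ := hy
  refine ⟨b ^ n, ?_, ?_⟩
  · rw [← pow_mul, mul_comm, pow_mul]; exact step0_pow p T hm hb n
  · rw [← pow_mul, mul_comm, pow_mul]; exact step0_lcoef_pow p T ϖ m hm hadd hb n

end lcoef

/-! ## The field side of FC-STEP0 -/

section core

variable (T : Type) [Field T] [Algebra ℚ_[p] T] [FiniteDimensional ℚ_[p] T]

/-- **Field side of FC-STEP0**: if `δ a = a ^ n * b ^ p` for an inertial automorphism `δ` with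
`θ(δ)^m ≠ n`, and `a ∈ U^(m)`, then `a` is the product of an element of `U^(m+1)` and of a
`p`-th power. -/
theorem step0_field (hGr : FCGrStatement p) (ϖ : T) (m : ℕ) (hm : 1 ≤ m)
    (hϖ : ordT p T ϖ = 1) (δ : T ≃ₐ[ℚ_[p]] T) (hδ : δ ∈ inertia p T) (n : ℕ)
    (hun : thetaRes p T ϖ δ ^ m ≠ (n : kq p T))
    (a b : T) (ha : ((m : ℤ) : WithTop ℤ) ≤ ordT p T (a - 1))
    (hab : δ a = a ^ n * b ^ p) :
    ∃ c : T, c ≠ 0 ∧ (((m + 1 : ℕ) : ℤ) : WithTop ℤ) ≤ ordT p T (a * c ^ p - 1) := by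
  obtain ⟨hadd, hker, -, hact⟩ := hGr T ϖ m hϖ hm
  set u : kq p T := thetaRes p T ϖ δ ^ m with hu
  set x : kq p T := lcoef p T ϖ m a with hx
  -- the action of `δ` on leading coefficients
  have hδ' : ∀ y : T, 0 ≤ ordT p T y → 0 < ordT p T (δ y - y ^ (p ^ 0)) := by
    intro y hy
    rw [pow_zero, pow_one]
    exact hδ y hy
  have hactδ : ∀ c : T, ((m : ℤ) : WithTop ℤ) ≤ ordT p T (c - 1) →
      lcoef p T ϖ m (δ c) = u * lcoef p T ϖ m c := by
    intro c hc
    rw [hact δ 0 hδ' c hc, pow_zero, pow_one]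
  -- `S₀` is stable under `u`
  have hSu : ∀ y ∈ step0Sub p T ϖ m, u * y ∈ step0Sub p T ϖ m := by
    rintro y ⟨c, hc, rfl⟩
    refine ⟨δ c, ?_, ?_⟩
    · rw [← map_pow]; exact step0_map p T δ hc
    · rw [← map_pow]; exact hactδ _ hc
  have hSz : ∀ y ∈ step0Sub p T ϖ m, (u - (n : kq p T)) * y ∈ step0Sub p T ϖ m := by
    intro y hy
    have h1 : (u - (n : kq p T)) * y = u * y + -((n : kq p T) * y) := by ring
    rw [h1]
    exact step0Sub_add p T ϖ m hm hadd (hSu y hy)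
      (step0Sub_neg p T ϖ m hm hadd (step0Sub_natCast_mul p T ϖ m hm hadd n hy))
  have hSpow : ∀ (j : ℕ), ∀ y ∈ step0Sub p T ϖ m,
      (u - (n : kq p T)) ^ j * y ∈ step0Sub p T ϖ m := by
    intro j
    induction j with
    | zero => intro y hy; rwa [pow_zero, one_mul]
    | succ j ih =>
      intro y hy
      rw [pow_succ, mul_assoc]
      exact ih _ (hSz y hy)
  -- `b ^ p ∈ U^(m)` with leading coefficient `(u - n) x`
  have hane : a ≠ 0 := step0_ne_zero p T hm ha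
  have han : ((m : ℤ) : WithTop ℤ) ≤ ordT p T (a ^ n - 1) := step0_pow p T hm ha n
  have hbp : b ^ p = δ a * (a ^ n)⁻¹ := by
    rw [hab, mul_comm (a ^ n), mul_assoc, mul_inv_cancel₀ (pow_ne_zero n hane), mul_one]
  have hbm : ((m : ℤ) : WithTop ℤ) ≤ ordT p T (b ^ p - 1) := by
    rw [hbp]
    exact step0_mul p T hm (step0_map p T δ ha) (step0_inv p T hm han)
  have hbl : lcoef p T ϖ m (b ^ p) = (u - (n : kq p T)) * x := by
    rw [hbp, hadd _ _ (step0_map p T δ ha) (step0_inv p T hm han), hactδ a ha,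
      step0_lcoef_inv p T ϖ m hm hadd han, step0_lcoef_pow p T ϖ m hm hadd ha n]
    ring
  have hzx : (u - (n : kq p T)) * x ∈ step0Sub p T ϖ m := ⟨b, hbm, hbl⟩
  -- `x ∈ S₀`
  have hz : u - (n : kq p T) ≠ 0 := sub_ne_zero.2 hun
  have hN : (u - (n : kq p T)) ^ Nat.card (kq p T)ˣ = 1 := by
    have h1 : (Units.mk0 _ hz) ^ Nat.card (kq p T)ˣ = 1 := pow_card_eq_one'
    have h2 : (((Units.mk0 _ hz) ^ Nat.card (kq p T)ˣ : (kq p T)ˣ) : kq p T) = 1 := by
      rw [h1]; rfl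
    rwa [Units.val_pow_eq_pow_val, Units.val_mk0] at h2
  have hNpos : 0 < Nat.card (kq p T)ˣ := Nat.card_pos
  have hxS : x ∈ step0Sub p T ϖ m := by
    have h1 := hSpow (Nat.card (kq p T)ˣ - 1) _ hzx
    rw [← mul_assoc, ← pow_succ, Nat.sub_add_cancel hNpos, hN, one_mul] at h1
    exact h1
  obtain ⟨c, hc, hcx⟩ := hxS
  have hcne : c ≠ 0 := by
    intro h
    have := step0_ne_zero p T hm hc
    rw [h, zero_pow (Fact.out : p.Prime).ne_zero] at this
    exact this rfl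
  refine ⟨c⁻¹, inv_ne_zero hcne, ?_⟩
  have hci : ((m : ℤ) : WithTop ℤ) ≤ ordT p T ((c⁻¹) ^ p - 1) := by
    rw [inv_pow]; exact step0_inv p T hm hc
  have h1 : lcoef p T ϖ m (a * c⁻¹ ^ p) = 0 := by
    rw [hadd _ _ ha hci, inv_pow, step0_lcoef_inv p T ϖ m hm hadd hc, hcx]
    exact add_neg_cancel _
  exact (hker _ (step0_mul p T hm ha hci)).1 h1

end core

/-! ## The Kummer side -/

section kummer

variable (T : IntermediateField ℚ_[p] (PadicAlgCl p)) [FiniteDimensional ℚ_[p] T]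
  [Normal ℚ_[p] T]

/-- the fixing subgroup of a normal intermediate field is stable under conjugation -/
lemma step0_conj_mem (s : GalP p) {g : GalP p} (hg : g ∈ T.fixingSubgroup) :
    s⁻¹ * g * s ∈ T.fixingSubgroup := by
  rw [IntermediateField.mem_fixingSubgroup_iff] at hg ⊢
  intro x hx
  have h1 : s x ∈ T := by
    have := AlgEquiv.restrictNormalHom_apply T s ⟨x, hx⟩
    rw [← this]
    exact (AlgEquiv.restrictNormalHom T s ⟨x, hx⟩).2
  have h2 : (s⁻¹ * g * s) x = s⁻¹ (g (s x)) := rfl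
  rw [h2, hg _ h1]
  change s.symm (s x) = x
  exact s.symm_apply_apply x

/-- **FC-STEP0** for `𝔽_p`-valued functions. -/
theorem step0_hasLevel (hGr : FCGrStatement p) (hKum : FCKumStatement p)
    (ζ : PadicAlgCl p) (ω : GalP p → ZMod p) (m : ℕ) (ϖ : T) (s₀ : GalP p)
    (hζ : IsPrimitiveRoot ζ p) (hζT : ζ ∈ T) (hω : IsCycl p ζ ω) (hm : 1 ≤ m)
    (hϖ : ordT p T ϖ = 1) (hs₀ : s₀ ∈ inertiaOf p T)
    (hun : thetaRes p T ϖ (AlgEquiv.restrictNormalHom T s₀) ^ m ≠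
      (((ω s₀).val : ℕ) : kq p T))
    (f : GalP p → ZMod p) (hf : HasLevel p T ζ m f)
    (hinv : ∀ g ∈ T.fixingSubgroup, f (s₀ * g * s₀⁻¹) = f g) :
    HasLevel p T ζ (m + 1) f := by
  obtain ⟨-, -, hprod, hpow, hpth, -, huniq, heqv⟩ := hKum T ζ hζ hζT
  obtain ⟨a, ha0, ham, hkum⟩ := hf
  have hδa : ((AlgEquiv.restrictNormalHom T s₀ a : T) : PadicAlgCl p) =
      s₀ (a : PadicAlgCl p) := AlgEquiv.restrictNormalHom_apply T s₀ a
  have hinv' : ∀ g ∈ T.fixingSubgroup, f (s₀⁻¹ * g * s₀) = f g := by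
    intro g hg
    have h := hinv _ (step0_conj_mem p T s₀ hg)
    rw [← h]
    congr 1
    group
  have ha0' : (a : PadicAlgCl p) ≠ 0 := fun h => ha0 (Subtype.ext h)
  have h1 := heqv ω hω inferInstance (a : PadicAlgCl p) f s₀ hkum
  have h2 := hpow (a : PadicAlgCl p) f (ω s₀) hkum
  have hsa : s₀ (a : PadicAlgCl p) ∈ T := by
    rw [← hδa]
    exact (AlgEquiv.restrictNormalHom T s₀ a).2
  have hsa0 : s₀ (a : PadicAlgCl p) ≠ 0 := by
    intro h
    exact ha0' ((map_eq_zero_iff s₀ s₀.injective).1 h)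
  obtain ⟨b, hbT, hb⟩ := huniq _ _ _ _ (pow_mem a.2 _) hsa (pow_ne_zero _ ha0') hsa0 h2 h1
    (fun g hg => by rw [hinv' g hg])
  have hab : AlgEquiv.restrictNormalHom T s₀ a = a ^ (ω s₀).val * (⟨b, hbT⟩ : T) ^ p := by
    apply Subtype.ext
    rw [hδa, hb]
    rfl
  obtain ⟨c, hc0, hc⟩ := step0_field p T hGr ϖ m hm hϖ (AlgEquiv.restrictNormalHom T s₀) hs₀
    (ω s₀).val hun a ⟨b, hbT⟩ ham hab
  refine ⟨a * c ^ p, mul_ne_zero ha0 (pow_ne_zero _ hc0), hc, ?_⟩
  have h3 := hprod _ _ _ _ hkum (hpth (c : PadicAlgCl p) c.2)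
  have h4 : (fun g => f g + (fun _ : GalP p => (0 : ZMod p)) g) = f := by
    funext g
    exact add_zero _
  rw [h4] at h3
  exact h3

end kummer

/-- **FC-STEP0** (`helper14_KumEqDefs3`), from FC-GR and FC-KUM. -/
theorem fcStep0 : FCGrStatement p → FCKumStatement p → FCStep0Statement p := by
  intro hGr hKum T _ _ ζ ω k _ _ _ m ϖ s₀ hζ hζT hω hm hϖ hs₀ hun f hf hinv ℓ
  exact step0_hasLevel p T hGr hKum ζ ω m ϖ s₀ hζ hζT hω hm hϖ hs₀ hun _ (hf ℓ)
    (fun g hg => by rw [hinv g hg])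

/-- **FC-STEP0** in the shape announced in the interface (the hypothesis `FCEigLinQStatement`
is not used). -/
theorem fcStep0_of_eigLinQ :
    FCGrStatement p → FCKumStatement p → FCEigLinQStatement → FCStep0Statement p :=
  fun hGr hKum _ => fcStep0 p hGr hKum

end Fermat.Agent.P1.helper33
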