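import Mathlib
import Fermat.Agent.P1.helper14_KumEqDefs2

/-!
# P1 / FLAT-CNT / KUMEQ: package FC-KUM (helper38, task 779)

`fcKum : helper14.FCKumStatement p` : basic properties of Kummer homomorphisms on
`G_T = T.fixingSubgroup ≤ G_p` (existence, additivity, products, powers, `p`-th powers,
uniqueness of `f`, uniqueness of `a` up to `p`-th powers of `T`, equivariance).
-/

set_option autoImplicit false

namespace Fermat.Agent.P1.helper38

open Fermat.Agent.P1.helper14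

variable (p : ℕ) [Fact p.Prime]

section roots

variable {p} {R : Type*} [CommRing R] {ζ : R}

/-- exponents of a primitive `p`-th root of unity live in `ZMod p` -/
theorem kum_pow_eq_iff (hζ : IsPrimitiveRoot ζ p) (n m : ℕ) :
    ζ ^ n = ζ ^ m ↔ (n : ZMod p) = (m : ZMod p) := by
  have hp : 0 < p := (Fact.out : p.Prime).pos
  rw [ZMod.natCast_eq_natCast_iff', pow_eq_pow_mod n hζ.pow_eq_one,
    pow_eq_pow_mod m hζ.pow_eq_one]
  constructor
  · intro h
    exact hζ.pow_inj (Nat.mod_lt _ hp) (Nat.mod_lt _ hp) h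
  · intro h
    rw [h]

theorem kum_pow_val_inj (hζ : IsPrimitiveRoot ζ p) (x y : ZMod p) :
    ζ ^ x.val = ζ ^ y.val ↔ x = y := by
  have : NeZero p := ⟨(Fact.out : p.Prime).ne_zero⟩
  rw [kum_pow_eq_iff hζ, ZMod.natCast_zmod_val, ZMod.natCast_zmod_val]

theorem kum_pow_val_add (hζ : IsPrimitiveRoot ζ p) (x y : ZMod p) :
    ζ ^ (x + y).val = ζ ^ x.val * ζ ^ y.val := by
  have : NeZero p := ⟨(Fact.out : p.Prime).ne_zero⟩
  rw [← pow_add, kum_pow_eq_iff hζ]
  push_cast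
  rw [ZMod.natCast_zmod_val, ZMod.natCast_zmod_val, ZMod.natCast_zmod_val]

theorem kum_pow_val_mul (hζ : IsPrimitiveRoot ζ p) (c x : ZMod p) :
    ζ ^ (c * x).val = (ζ ^ x.val) ^ c.val := by
  have : NeZero p := ⟨(Fact.out : p.Prime).ne_zero⟩
  rw [← pow_mul, kum_pow_eq_iff hζ]
  push_cast
  rw [ZMod.natCast_zmod_val, ZMod.natCast_zmod_val, ZMod.natCast_zmod_val, mul_comm]

theorem kum_pow_val_mul' (hζ : IsPrimitiveRoot ζ p) (c x : ZMod p) :
    ζ ^ (c * x).val = (ζ ^ c.val) ^ x.val := by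
  rw [mul_comm, kum_pow_val_mul hζ]

end roots

/-- two `p`-th roots of the same nonzero element differ by a power of `ζ` -/
theorem kum_root_eq {ζ a α α' : PadicAlgCl p} (hζ : IsPrimitiveRoot ζ p) (hα0 : α ≠ 0)
    (hα : α ^ p = a) (hα' : α' ^ p = a) : ∃ j : ZMod p, α' = ζ ^ j.val * α := by
  have : NeZero p := ⟨(Fact.out : p.Prime).ne_zero⟩
  have ha0 : a ≠ 0 := by
    rw [← hα]
    exact pow_ne_zero _ hα0
  have h1 : (α' / α) ^ p = 1 := by
    rw [div_pow, hα, hα', div_self ha0]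
  obtain ⟨j, hj, hjeq⟩ := hζ.eq_pow_of_pow_eq_one h1
  refine ⟨(j : ZMod p), ?_⟩
  rw [ZMod.val_natCast_of_lt hj, hjeq, div_mul_cancel₀ _ hα0]

/-- **FC-KUM** -/
theorem fcKum : FCKumStatement p := by
  intro T _ ζ hζ hζT
  have : NeZero p := ⟨(Fact.out : p.Prime).ne_zero⟩
  have hp : p.Prime := Fact.out
  have hfix : ∀ g ∈ T.fixingSubgroup, ∀ x ∈ T, g x = x := fun g hg x hx =>
    (IntermediateField.mem_fixingSubgroup_iff T g).1 hg x hx
  have hroot0 : ∀ {a α : PadicAlgCl p}, a ≠ 0 → α ^ p = a → α ≠ 0 := by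
    intro a α ha hα h0
    rw [h0, zero_pow hp.ne_zero] at hα
    exact ha hα.symm
  refine ⟨?_, ?_, ?_, ?_, ?_, ?_, ?_, ?_⟩
  · -- existence
    intro a haT ha0
    classical
    obtain ⟨α, hα⟩ := IsAlgClosed.exists_pow_nat_eq a hp.pos
    have hα0 : α ≠ 0 := hroot0 ha0 hα
    have key : ∀ g ∈ T.fixingSubgroup, ∃ j : ZMod p, g α = ζ ^ j.val * α := by
      intro g hg
      refine kum_root_eq p hζ hα0 hα ?_
      rw [← map_pow, hα, hfix g hg a haT]
    refine ⟨fun g => if hg : g ∈ T.fixingSubgroup then (key g hg).choose else 0, α, hα,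
      fun g hg => ?_⟩
    simp only [dif_pos hg]
    exact (key g hg).choose_spec
  · -- additivity
    rintro a f haT ha0 ⟨α, hα, hf⟩ g hg h hh
    have hα0 : α ≠ 0 := hroot0 ha0 hα
    have hgh : g * h ∈ T.fixingSubgroup := mul_mem hg hh
    have h1 : (g * h) α = ζ ^ (f (g * h)).val * α := hf _ hgh
    have h2 : (g * h) α = ζ ^ (f g + f h).val * α := by
      rw [AlgEquiv.mul_apply, hf h hh, map_mul, map_pow, hfix g hg ζ hζT, hf g hg,
        kum_pow_val_add hζ]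
      ring
    rw [h1] at h2
    exact (kum_pow_val_inj hζ _ _).1 (mul_right_cancel₀ hα0 h2)
  · -- products
    rintro a b f f' ⟨α, hα, hf⟩ ⟨β, hβ, hf'⟩
    refine ⟨α * β, by rw [mul_pow, hα, hβ], fun g hg => ?_⟩
    rw [map_mul, hf g hg, hf' g hg, kum_pow_val_add hζ]
    ring
  · -- powers
    rintro a f c ⟨α, hα, hf⟩
    refine ⟨α ^ c.val, by rw [← pow_mul, mul_comm, pow_mul, hα], fun g hg => ?_⟩
    rw [map_pow, hf g hg, mul_pow, kum_pow_val_mul hζ]
  · -- `p`-th powers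
    intro b hbT
    refine ⟨b, rfl, fun g hg => ?_⟩
    rw [hfix g hg b hbT, ZMod.val_zero, pow_zero, one_mul]
  · -- uniqueness of `f`
    rintro a f f' ha0 ⟨α, hα, hf⟩ ⟨α', hα', hf'⟩ g hg
    have hα0 : α ≠ 0 := hroot0 ha0 hα
    have hα'0 : α' ≠ 0 := hroot0 ha0 hα'
    obtain ⟨j, hj⟩ := kum_root_eq p hζ hα0 hα hα'
    have h1 : g α' = ζ ^ (f g).val * α' := by
      rw [hj, map_mul, map_pow, hfix g hg ζ hζT, hf g hg]
      ring
    rw [hf' g hg] at h1
    exact ((kum_pow_val_inj hζ _ _).1 (mul_right_cancel₀ hα'0 h1)).symm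
  · -- uniqueness of `a`
    rintro a a' f f' haT ha'T ha0 ha'0 ⟨α, hα, hf⟩ ⟨α', hα', hf'⟩ hff'
    have hα0 : α ≠ 0 := hroot0 ha0 hα
    have hgalΩ : IsGalois ℚ_[p] (PadicAlgCl p) := IsGalois.mk
    have hβT : α' / α ∈ T := by
      rw [← InfiniteGalois.fixedField_fixingSubgroup T, IntermediateField.mem_fixedField_iff]
      intro g hg
      have hz : ζ ^ (f g).val ≠ 0 := pow_ne_zero _ (hζ.ne_zero hp.ne_zero)
      rw [map_div₀, hf g hg, hf' g hg, ← hff' g hg, mul_div_mul_left _ _ hz]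
    refine ⟨α' / α, hβT, ?_⟩
    rw [div_pow, hα, hα', mul_div_cancel₀ _ ha0]
  · -- equivariance
    rintro ω hω hnorm a f γ ⟨α, hα, hf⟩
    refine ⟨γ α, by rw [← map_pow, hα], fun g hg => ?_⟩
    have hconj : γ⁻¹ * g * γ ∈ T.fixingSubgroup := by
      rw [IntermediateField.mem_fixingSubgroup_iff]
      intro x hx
      have hγx : γ x ∈ T := by
        have hmap := (IntermediateField.normal_iff_forall_map_eq'.1 hnorm) γ
        rw [← hmap]
        exact ⟨x, hx, rfl⟩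
      rw [AlgEquiv.mul_apply, AlgEquiv.mul_apply, hfix g hg _ hγx]
      exact γ.symm_apply_apply x
    have h1 : g (γ α) = γ ((γ⁻¹ * g * γ) α) := by
      rw [AlgEquiv.mul_apply, AlgEquiv.mul_apply]
      exact (γ.apply_symm_apply _).symm
    rw [h1, hf _ hconj, map_mul, map_pow, hω γ, kum_pow_val_mul' hζ]

end Fermat.Agent.P1.helper38
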