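import Fermat.Agent.P1.helper14_KumEqDefs2
import Fermat.Agent.P1.helper78_KRInert
import Fermat.Agent.S55.helper7_LocRes

/-!
# P1 / FLAT-CNT / KUMEQ, package FC-FROB (helper41)

`fcFrob : FCFrobStatement p` : for `T/ℚ_p` finite Galois, a Frobenius element exists in
`Gal(T/ℚ_p)`, and every element of `Gal(T/ℚ_p)` acts on the residue field as a power of the
Frobenius.
-/

set_option autoImplicit false

namespace Fermat.Agent.P1.helper41

open Fermat.Agent.S55.helper8 Fermat.Agent.S55.helper7 Fermat.Agent.S55.helper33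
open Fermat.Agent.P1.helper14 IntermediateField

variable (p : ℕ) [Fact p.Prime]

section

variable (T : Type) [Field T] [Algebra ℚ_[p] T] [FiniteDimensional ℚ_[p] T]

/-- Every ring endomorphism of the residue field is a power of the Frobenius. -/
theorem fcFrob_ringHom_eq_pow (f : kq p T →+* kq p T) :
    ∃ j : ℕ, ∀ c : kq p T, f c = c ^ (p ^ j) := by
  classical
  let _ : Algebra (ZMod p) (kq p T) := ZMod.algebra (kq p T) p
  have hcomm : ∀ r : ZMod p, f (algebraMap (ZMod p) (kq p T) r) =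
      algebraMap (ZMod p) (kq p T) r := by
    intro r
    have h : f.comp (algebraMap (ZMod p) (kq p T)) = algebraMap (ZMod p) (kq p T) :=
      Subsingleton.elim _ _
    exact RingHom.congr_fun h r
  let fA : kq p T →ₐ[ZMod p] kq p T := { f with commutes' := hcomm }
  obtain ⟨n, hn⟩ := (FiniteField.bijective_frobeniusAlgHom_pow (ZMod p) (kq p T)).2 fA
  refine ⟨n.1, fun c => ?_⟩
  have h1 : fA c = (FiniteField.frobeniusAlgHom (ZMod p) (kq p T) ^ n.1) c := by
    rw [← hn]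
  have h2 : fA c = f c := rfl
  rw [← h2, h1, AlgHom.coe_pow, FiniteField.coe_frobeniusAlgHom, pow_iterate, ZMod.card]

/-- Part (2) of FC-FROB. -/
theorem fcFrob_pow (δ : T ≃ₐ[ℚ_[p]] T) :
    ∃ j : ℕ, ∀ x : T, 0 ≤ ordT p T x → 0 < ordT p T (δ x - x ^ (p ^ j)) := by
  obtain ⟨j, hj⟩ := fcFrob_ringHom_eq_pow p T (resAut p ℚ_[p] T δ)
  refine ⟨j, fun x hx => ?_⟩
  have h1 := hj (res p T ⟨x, hx⟩)
  rw [resAut_res, ← map_pow, res_eq_iff] at h1
  exact h1

/-- Part (1) of FC-FROB: a Frobenius element exists. -/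
theorem fcFrob_exists [IsGalois ℚ_[p] T] :
    ∃ φ : T ≃ₐ[ℚ_[p]] T, ∀ x : T, 0 ≤ ordT p T x → 0 < ordT p T (φ x - x ^ p) := by
  obtain ⟨K0, hedeg, hfdeg, hgal, -⟩ := helper78.krInert p T
  obtain ⟨he1, hf1⟩ := helper78.edeg_fdeg_padic p
  have hrelE : relE p ℚ_[p] K0 = 1 := by
    unfold relE
    rw [hedeg, he1]
  have hunr : IsUnram p ℚ_[p] K0 := (isUnram_iff p ℚ_[p] K0).mpr hrelE
  obtain ⟨φ₀, hφ₀, -⟩ := exists_frob_of_isUnram p ℚ_[p] K0 hunr
  have hbij : Function.Bijective (resMap p K0 T) := by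
    refine (resMap p K0 T).injective.bijective_of_nat_card_le ?_
    rw [card_kq, card_kq, hfdeg]
  refine ⟨φ₀.liftNormal T, fun x hx => ?_⟩
  obtain ⟨a, ha⟩ := hbij.2 (res p T ⟨x, hx⟩)
  obtain ⟨x₀, rfl⟩ := res_surjective p K0 a
  rw [resMap_res] at ha
  -- the three pieces
  have h1 : 0 < ordT p T (φ₀.liftNormal T (x - algebraMap K0 T (x₀ : K0))) := by
    rw [Fermat.Agent.S55.helper7.ordT_algEquiv p ℚ_[p] T, Fermat.Agent.S55.helper7.ordT_sub_comm]
    exact (res_eq_iff p T).mp ha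
  have h2 : 0 < ordT p T (algebraMap K0 T (φ₀ (x₀ : K0) - (x₀ : K0) ^ p)) := by
    rw [ordT_algebraMap_pos_iff p K0 T]
    have := hφ₀ (x₀ : K0) x₀.2
    rw [hf1, pow_one] at this
    exact this
  have h3 : 0 < ordT p T ((algebraMap K0 T (x₀ : K0)) ^ p - x ^ p) := by
    have e : res p T (intMap p K0 T x₀ ^ p) = res p T (⟨x, hx⟩ ^ p) := by
      rw [map_pow, map_pow, ha]
    exact (res_eq_iff p T).mp e
  have key : φ₀.liftNormal T x - x ^ p =
      φ₀.liftNormal T (x - algebraMap K0 T (x₀ : K0)) +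
        (algebraMap K0 T (φ₀ (x₀ : K0) - (x₀ : K0) ^ p) +
          ((algebraMap K0 T (x₀ : K0)) ^ p - x ^ p)) := by
    rw [map_sub, AlgEquiv.liftNormal_commutes, map_sub, map_pow]
    ring
  rw [key]
  exact ordT_add_pos p T h1 (ordT_add_pos p T h2 h3)

end

/-- **FC-FROB**. -/
theorem fcFrob : FCFrobStatement p := by
  intro T _ _ _ _
  exact ⟨fcFrob_exists p T, fun δ => fcFrob_pow p T δ⟩

end Fermat.Agent.P1.helper41
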