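import Mathlib

/-!
# P1 / FLAT-CNT (helper70): pure algebra packages of the count (statements only)

* `FCArithStatement`   : (ARITH) of BLUEPRINT P1-FLAT-CNT: the congruences
  `m ≡ e' ± β (mod e)`, `e ≤ m < e + e'` have at most one solution `(m, ±)`, and
  `m ≡ e' (mod e)` has none in this window.  Here `e = (p - 1) e'`, `e' ∣ p + 1`,
  `(p + 1) α ≡ e'`, `β ≡ (1 - p) α (mod e)`.
* `FCEigLinStatement`  : (EIG), linear core in dual form: an `Ω`-space `W` of additive maps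
  `ψ : K → Ω` (`K` a finite field of characteristic `p`, embedded in `Ω`) which are eigenvectors
  for the multiplication by `u` (eigenvalue `a`) and for the semilinear operator
  `x ↦ c x^(p^t)` (eigenvalue `ℓ ≠ 0`) has dimension at most `#{j < t | u^(p^j) = a}`.
* `FCEigQuotStatement` : eigenspaces do not grow in quotients (finite dimension).
-/

set_option autoImplicit false

namespace Fermat.Agent.P1.helper70

/-- **FC-ARITH**. -/
def FCArithStatement : Prop :=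
  ∀ (p e' e : ℕ), p.Prime → p ≠ 2 → e' ∣ p + 1 → e = (p - 1) * e' →
    ∀ (α β : ℤ), ((p : ℤ) + 1) * α ≡ e' [ZMOD e] → β ≡ (1 - (p : ℤ)) * α [ZMOD e] →
      (∀ m : ℕ, e ≤ m → m < e + e' → ¬ ((m : ℤ) ≡ e' [ZMOD e])) ∧
      (∀ (m₁ m₂ : ℕ) (s₁ s₂ : ℤ), (s₁ = 1 ∨ s₁ = -1) → (s₂ = 1 ∨ s₂ = -1) →
        e ≤ m₁ → m₁ < e + e' → e ≤ m₂ → m₂ < e + e' →
        (m₁ : ℤ) ≡ e' + s₁ * β [ZMOD e] → (m₂ : ℤ) ≡ e' + s₂ * β [ZMOD e] →
        m₁ = m₂ ∧ s₁ = s₂)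

/-- **FC-EIG-LIN**. -/
def FCEigLinStatement : Prop :=
  ∀ (p : ℕ) [Fact p.Prime] (K Ω : Type) [Field K] [Finite K] [CharP K p] [Field Ω] [CharP Ω p]
    (ι : K →+* Ω) (t : ℕ) (u c : K) (a ℓ : Ω),
    0 < t → c ≠ 0 → ℓ ≠ 0 →
    ∀ W : Submodule Ω (K → Ω),
      (∀ ψ ∈ W, (∀ x y, ψ (x + y) = ψ x + ψ y) ∧ (∀ x, ψ (u * x) = a * ψ x) ∧
        (∀ x, ψ (c * x ^ (p ^ t)) = ℓ * ψ x)) →
      Module.Finite Ω W ∧
        Module.finrank Ω W ≤ Set.ncard {j : ℕ | j < t ∧ ι u ^ (p ^ j) = a}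

/-- **FC-EIG-QUOT**. -/
def FCEigQuotStatement : Prop :=
  ∀ (k M : Type) [Field k] [AddCommGroup M] [Module k M] [Module.Finite k M]
    (Φ : Module.End k M) (S : Submodule k M) (hS : S ≤ S.comap Φ) (ℓ : k),
    Module.finrank k (LinearMap.ker (S.mapQ S Φ hS - ℓ • LinearMap.id)) ≤
      Module.finrank k (LinearMap.ker (Φ - ℓ • LinearMap.id))

end Fermat.Agent.P1.helper70
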