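import Mathlib
import Fermat.Agent.P1.helper70_FCDefs

/-!
# P1 / FLAT-CNT, package [FC-EIG-LIN] (helper15, task 710)

`fcEigLin : Fermat.Agent.P1.helper70.FCEigLinStatement`.

Let `K` be a finite field of characteristic `p`, `ι : K → Ω` an embedding, `f = [K : 𝔽_p]`.
The maps `σ_j : x ↦ ι x ^ p ^ j`, `j ∈ ℤ/f`, are a basis of the `Ω`-space of additive maps
`K → Ω` (Dedekind + dimension count).  For `ψ = ∑ b_j σ_j`:

* `ψ (u x) = a ψ x` for all `x` iff `b_j (ι u ^ p ^ j - a) = 0` for all `j`;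
* `ψ (c x ^ p ^ t) = ℓ ψ x` for all `x` iff `ℓ b_{j + t} = b_j ι c ^ p ^ j` for all `j`.

Hence `ψ` is determined by the `b_j` with `j < t` and `ι u ^ p ^ j = a`.
-/

set_option autoImplicit false
set_option linter.unusedSectionVars false
set_option linter.style.haveILetI false

namespace Fermat.Agent.P1.helper15

open Module

/-! ## The abstract core -/

section Core

variable {K Ω : Type*} [Field K] [Field Ω] (ι : K →+* Ω) (p f : ℕ)

/-- The functions `x ↦ ι x ^ p ^ j`, indexed by `j : ZMod f`. -/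
def sig (j : ZMod f) : K → Ω := fun x => ι x ^ p ^ j.val

theorem sig_apply (j : ZMod f) (x : K) : sig ι p f j x = ι x ^ p ^ j.val := rfl

/-- The `Ω`-space of additive functions `K → Ω`. -/
def addFun (K Ω : Type*) [Field K] [Field Ω] : Submodule Ω (K → Ω) where
  carrier := {ψ | ∀ x y, ψ (x + y) = ψ x + ψ y}
  zero_mem' := by
    intro x y
    simp
  add_mem' := by
    intro a b ha hb x y
    simp only [Pi.add_apply, ha x y, hb x y]
    ring
  smul_mem' := by
    intro c a ha x y
    simp only [Pi.smul_apply, ha x y, smul_eq_mul]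
    ring

theorem mem_addFun {ψ : K → Ω} : ψ ∈ addFun K Ω ↔ ∀ x y, ψ (x + y) = ψ x + ψ y := Iff.rfl

variable {p f}

theorem sig_mem_addFun [Fact p.Prime] [CharP Ω p] (j : ZMod f) : sig ι p f j ∈ addFun K Ω := by
  intro x y
  rw [sig_apply, sig_apply, sig_apply, map_add, add_pow_char_pow]

/-- The space of additive functions has dimension at most `f` if the additive group of `K` is
generated by `f` elements. -/
theorem finrank_addFun_le (e : Fin f → K)
    (he : ∀ ψ ∈ addFun K Ω, (∀ i, ψ (e i) = 0) → ψ = 0) :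
    Module.Finite Ω (addFun K Ω) ∧ finrank Ω (addFun K Ω) ≤ f := by
  let E : addFun K Ω →ₗ[Ω] (Fin f → Ω) :=
    LinearMap.pi fun i => (LinearMap.proj (e i)).comp (addFun K Ω).subtype
  have hE : Function.Injective E := by
    rw [← LinearMap.ker_eq_bot, LinearMap.ker_eq_bot']
    intro ψ hψ
    have h1 : ∀ i, (ψ : K → Ω) (e i) = 0 := fun i => congrFun hψ i
    exact Subtype.ext (he ψ ψ.2 h1)
  refine ⟨Module.Finite.of_injective E hE, ?_⟩
  have := LinearMap.finrank_le_finrank_of_injective hE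
  rwa [Module.finrank_fintype_fun_eq_card, Fintype.card_fin] at this

variable [NeZero f]

/-- Dedekind: the `σ_j` are linearly independent. -/
theorem linearIndependent_sig
    (hinj : ∀ i j : ℕ, i < f → j < f → (∀ x : K, x ^ p ^ i = x ^ p ^ j) → i = j) :
    LinearIndependent Ω (sig ι p f) := by
  have h := linearIndependent_monoidHom K Ω
  let χ : ZMod f → (K →* Ω) := fun j => (powMonoidHom (p ^ j.val)).comp (ι : K →* Ω)
  have hχ : Function.Injective χ := by
    intro i j hij
    have : i.val = j.val := hinj _ _ (ZMod.val_lt i) (ZMod.val_lt j) fun x => by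
      have h1 := DFunLike.congr_fun hij x
      apply ι.injective
      rw [map_pow, map_pow]
      exact h1
    exact ZMod.val_injective f this
  exact h.comp χ hχ

end Core

/-! ## The basis of Frobenius powers and the coefficient relations -/

section Main

variable {K Ω : Type*} [Field K] [Field Ω] (ι : K →+* Ω) {p f : ℕ} [Fact p.Prime] [CharP Ω p]
  [NeZero f]
  (hper : ∀ x : K, x ^ p ^ f = x)
  (hinj : ∀ i j : ℕ, i < f → j < f → (∀ x : K, x ^ p ^ i = x ^ p ^ j) → i = j)
  (e : Fin f → K) (he : ∀ ψ ∈ addFun K Ω, (∀ i, ψ (e i) = 0) → ψ = 0)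

/-- The family `σ` inside `addFun`. -/
def sigA (p f : ℕ) [Fact p.Prime] [CharP Ω p] (j : ZMod f) : addFun K Ω :=
  ⟨sig ι p f j, sig_mem_addFun ι j⟩

include hinj in
theorem linearIndependent_sigA : LinearIndependent Ω (sigA ι p f) :=
  LinearIndependent.of_comp (addFun K Ω).subtype (linearIndependent_sig ι hinj)

include ι hinj he in
theorem card_eq_finrank_addFun : Fintype.card (ZMod f) = finrank Ω (addFun K Ω) := by
  have := (finrank_addFun_le (Ω := Ω) e he).1
  have h1 := (finrank_addFun_le (Ω := Ω) e he).2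
  have h2 := (linearIndependent_sigA ι hinj).fintype_card_le_finrank
  rw [ZMod.card] at h2 ⊢
  omega

/-- The basis `σ_j`, `j : ZMod f`, of the additive functions. -/
noncomputable def sigBasis : Basis (ZMod f) Ω (addFun K Ω) :=
  basisOfLinearIndependentOfCardEqFinrank (linearIndependent_sigA ι hinj)
    (card_eq_finrank_addFun ι hinj e he)

theorem sigBasis_apply (j : ZMod f) : sigBasis ι hinj e he j = sigA ι p f j := by
  rw [sigBasis, coe_basisOfLinearIndependentOfCardEqFinrank]

/-- The expansion of an additive function. -/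
theorem expand (ψ : addFun K Ω) (x : K) :
    (ψ : K → Ω) x = ∑ j, (sigBasis ι hinj e he).repr ψ j * ι x ^ p ^ j.val := by
  have h := (sigBasis ι hinj e he).sum_repr ψ
  have h2 := congrArg (fun φ : addFun K Ω => (φ : K → Ω) x) h
  simp only [Submodule.coe_sum, Submodule.coe_smul, Finset.sum_apply, Pi.smul_apply,
    smul_eq_mul, sigBasis_apply] at h2
  rw [← h2]
  rfl

include hinj in
/-- Comparison of coefficients. -/
theorem coeff_eq_zero_of_sum_eq_zero (g : ZMod f → Ω) (s : ZMod f)
    (h : ∀ x : K, ∑ j, g j * ι x ^ p ^ (j + s).val = 0) : ∀ j, g j = 0 := by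
  have hσ := (linearIndependent_sig (Ω := Ω) ι hinj).comp (fun j : ZMod f => j + s)
    (add_left_injective s)
  refine Fintype.linearIndependent_iff.mp hσ g (funext fun x => ?_)
  simp only [Function.comp_apply, Finset.sum_apply, Pi.smul_apply, smul_eq_mul, sig_apply,
    Pi.zero_apply]
  exact h x

include hper in
theorem pow_per (k : ℕ) (x : K) : x ^ (p ^ f) ^ k = x := by
  induction k with
  | zero => rw [pow_zero, pow_one]
  | succ k ih => rw [pow_succ, pow_mul, ih, hper]

include hper in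
theorem pow_p_pow_mod (x : K) (m : ℕ) : x ^ p ^ m = x ^ p ^ (m % f) := by
  have h1 : p ^ m = (p ^ f) ^ (m / f) * p ^ (m % f) := by
    rw [← pow_mul, ← pow_add, Nat.div_add_mod]
  rw [h1, pow_mul, pow_per hper]

include hper in
theorem pow_p_pow_val (x : K) (m : ℕ) : x ^ p ^ m = x ^ p ^ ((m : ZMod f).val) := by
  rw [ZMod.val_natCast]
  exact pow_p_pow_mod hper x m

include hper in
theorem map_pow_p_pow_val (x : K) (m : ℕ) : ι x ^ p ^ m = ι x ^ p ^ ((m : ZMod f).val) := by
  rw [← map_pow, ← map_pow, ← pow_p_pow_val hper]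

include hper in
theorem map_pow_p_pow_val_add (x : K) (j : ZMod f) (t : ℕ) :
    ι x ^ p ^ (j.val + t) = ι x ^ p ^ ((j + (t : ZMod f)).val) := by
  rw [map_pow_p_pow_val ι hper x (j.val + t), Nat.cast_add, ZMod.natCast_zmod_val]

variable {u c : K} {a ℓ : Ω} {t : ℕ} (ψ : addFun K Ω)

/-- First eigen-equation. -/
theorem repr_mul_eq (hu : ∀ x, (ψ : K → Ω) (u * x) = a * (ψ : K → Ω) x) (j : ZMod f) :
    (sigBasis ι hinj e he).repr ψ j * (ι u ^ p ^ j.val - a) = 0 := by
  refine coeff_eq_zero_of_sum_eq_zero ι hinj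
    (fun j => (sigBasis ι hinj e he).repr ψ j * (ι u ^ p ^ j.val - a)) 0 (fun x => ?_) j
  have h1 := hu x
  rw [expand ι hinj e he ψ (u * x), expand ι hinj e he ψ x, Finset.mul_sum, ← sub_eq_zero,
    ← Finset.sum_sub_distrib] at h1
  rw [← h1]
  refine Finset.sum_congr rfl fun i _ => ?_
  rw [add_zero, map_mul, mul_pow]
  ring

include hper in
/-- Second eigen-equation. -/
theorem repr_shift_eq (hc : ∀ x, (ψ : K → Ω) (c * x ^ p ^ t) = ℓ * (ψ : K → Ω) x)
    (j : ZMod f) :
    (sigBasis ι hinj e he).repr ψ j * ι c ^ p ^ j.val =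
      ℓ * (sigBasis ι hinj e he).repr ψ (j + (t : ZMod f)) := by
  have key := coeff_eq_zero_of_sum_eq_zero ι hinj
    (fun j => (sigBasis ι hinj e he).repr ψ j * ι c ^ p ^ j.val -
      ℓ * (sigBasis ι hinj e he).repr ψ (j + (t : ZMod f))) (t : ZMod f) (fun x => ?_) j
  · exact sub_eq_zero.mp key
  have h1 := hc x
  rw [expand ι hinj e he ψ (c * x ^ p ^ t), expand ι hinj e he ψ x, Finset.mul_sum,
    ← Equiv.sum_comp (Equiv.addRight (t : ZMod f))
      (fun i => ℓ * ((sigBasis ι hinj e he).repr ψ i * ι x ^ p ^ i.val)),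
    ← sub_eq_zero, ← Finset.sum_sub_distrib] at h1
  rw [← h1]
  refine Finset.sum_congr rfl fun i _ => ?_
  rw [Equiv.coe_addRight, map_mul, mul_pow, map_pow, ← pow_mul, ← pow_add,
    add_comm t i.val, map_pow_p_pow_val_add ι hper x i t]
  ring

include hper in
/-- An additive function satisfying the two eigen-equations is determined by its coefficients
`b_j`, `j < t`, `ι u ^ p ^ j = a`. -/
theorem eq_zero_of_repr_eq_zero (ht : 0 < t) (hℓ : ℓ ≠ 0)
    (hu : ∀ x, (ψ : K → Ω) (u * x) = a * (ψ : K → Ω) x)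
    (hc : ∀ x, (ψ : K → Ω) (c * x ^ p ^ t) = ℓ * (ψ : K → Ω) x)
    (h0 : ∀ j : ℕ, j < t → ι u ^ p ^ j = a →
      (sigBasis ι hinj e he).repr ψ (j : ZMod f) = 0) : ψ = 0 := by
  have hlt : ∀ j : ℕ, j < t → (sigBasis ι hinj e he).repr ψ (j : ZMod f) = 0 := by
    intro j hj
    by_cases hja : ι u ^ p ^ j = a
    · exact h0 j hj hja
    · have h1 := repr_mul_eq ι hinj e he ψ hu (j : ZMod f)
      rw [← map_pow_p_pow_val ι hper u j] at h1
      rcases mul_eq_zero.mp h1 with h | h
      · exact h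
      · exact absurd (sub_eq_zero.mp h) hja
  have hall : ∀ m : ℕ, (sigBasis ι hinj e he).repr ψ (m : ZMod f) = 0 := by
    intro m
    induction m using Nat.strong_induction_on with
    | _ m ih =>
      by_cases hm : m < t
      · exact hlt m hm
      · have hm' : m = (m - t) + t := by omega
        have h1 := repr_shift_eq ι hper hinj e he ψ hc ((m - t : ℕ) : ZMod f)
        rw [ih (m - t) (by omega), zero_mul, ← Nat.cast_add, ← hm'] at h1
        rcases mul_eq_zero.mp h1.symm with h | h
        · exact absurd h hℓ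
        · exact h
  have hrepr : (sigBasis ι hinj e he).repr ψ = 0 := by
    ext j
    rw [← ZMod.natCast_zmod_val j]
    exact hall j.val
  exact (LinearEquiv.map_eq_zero_iff _).mp hrepr

include hper hinj he in
/-- **The abstract form of FC-EIG-LIN.** -/
theorem finrank_le_of_core (ht : 0 < t) (hℓ : ℓ ≠ 0) (W : Submodule Ω (K → Ω))
    (hW : ∀ ψ ∈ W, (∀ x y, ψ (x + y) = ψ x + ψ y) ∧ (∀ x, ψ (u * x) = a * ψ x) ∧
        (∀ x, ψ (c * x ^ (p ^ t)) = ℓ * ψ x)) :
    Module.Finite Ω W ∧
      Module.finrank Ω W ≤ Set.ncard {j : ℕ | j < t ∧ ι u ^ (p ^ j) = a} := by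
  classical
  set J : Finset ℕ := (Finset.range t).filter (fun j => ι u ^ p ^ j = a) with hJ
  have hJset : {j : ℕ | j < t ∧ ι u ^ (p ^ j) = a} = (↑J : Set ℕ) := by
    ext j
    simp [hJ]
  have hWA : W ≤ addFun K Ω := fun ψ hψ => (hW ψ hψ).1
  let Φ : W →ₗ[Ω] (J → Ω) := LinearMap.pi fun j =>
    (Finsupp.lapply ((j : ℕ) : ZMod f)).comp
      ((sigBasis ι hinj e he).repr.toLinearMap.comp (Submodule.inclusion hWA))
  have hΦ : Function.Injective Φ := by
    rw [← LinearMap.ker_eq_bot, LinearMap.ker_eq_bot']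
    intro ψ hψ
    have h1 : Submodule.inclusion hWA ψ = 0 := by
      refine eq_zero_of_repr_eq_zero ι hper hinj e he _ ht hℓ (hW ψ ψ.2).2.1 (hW ψ ψ.2).2.2
        fun j hj hja => ?_
      have hjJ : j ∈ J := by
        rw [hJ, Finset.mem_filter, Finset.mem_range]
        exact ⟨hj, hja⟩
      exact congrFun hψ ⟨j, hjJ⟩
    exact (Submodule.inclusion_injective hWA) (by rw [h1, map_zero])
  refine ⟨Module.Finite.of_injective Φ hΦ, ?_⟩
  have := LinearMap.finrank_le_finrank_of_injective hΦ
  rwa [Module.finrank_fintype_fun_eq_card, Fintype.card_coe, ← Set.ncard_coe_finset,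
    ← hJset] at this

end Main

/-! ## The statement -/

/-- **[FC-EIG-LIN]** -/
theorem fcEigLin : Fermat.Agent.P1.helper70.FCEigLinStatement := by
  intro p _ K Ω _ _ _ _ _ ι t u c a ℓ ht hc hℓ W hW
  classical
  letI := ZMod.algebra K p
  haveI : Fintype K := Fintype.ofFinite K
  haveI : NeZero (finrank (ZMod p) K) := ⟨Module.finrank_pos.ne'⟩
  have hcard : Fintype.card K = p ^ finrank (ZMod p) K := by
    rw [Module.card_eq_pow_finrank (K := ZMod p), ZMod.card]
  have hper : ∀ x : K, x ^ p ^ finrank (ZMod p) K = x := fun x => by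
    rw [← hcard]
    exact FiniteField.pow_card x
  have hinj : ∀ i j, i < finrank (ZMod p) K → j < finrank (ZMod p) K →
      (∀ x : K, x ^ p ^ i = x ^ p ^ j) → i = j := by
    intro i j hi hj h
    have hb := (FiniteField.bijective_frobeniusAlgHom_pow (ZMod p) K).1
    have h1 := @hb ⟨i, hi⟩ ⟨j, hj⟩ (by
      ext x
      simp only [AlgHom.coe_pow, FiniteField.coe_frobeniusAlgHom, pow_iterate, ZMod.card]
      exact h x)
    exact congrArg Fin.val h1
  have he : ∀ ψ ∈ addFun K Ω, (∀ i, ψ (Module.finBasis (ZMod p) K i) = 0) → ψ = 0 := by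
    intro ψ hψ h0
    letI := ZMod.algebra Ω p
    let Ψ : K →+ Ω := AddMonoidHom.mk' ψ hψ
    have h1 : Ψ.toZModLinearMap p = 0 := (Module.finBasis (ZMod p) K).ext fun i => h0 i
    funext x
    exact LinearMap.congr_fun h1 x
  exact finrank_le_of_core ι hper hinj (Module.finBasis (ZMod p) K) he ht hℓ W hW

end Fermat.Agent.P1.helper15
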