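import Mathlib
import Fermat.Agent.P1.helper14_KumEqDefs2
import Fermat.Agent.P1.helper15_FCEigLin

/-!
# P1 / FLAT-CNT / KUMEQ, package FC-EIG-LIN-Q (helper67, task 781)

`fcEigLinQ : helper14.FCEigLinQStatement` : the quotient form of the eigenspace bound.

Route (dual, with values in an algebraic closure `Ω` of `k`):
* `fcq_exists_frob_pow` : Galois theory of finite fields: if `Frob ^ d` fixes the fixed field of
  `Frob ^ t` then `Frob ^ d = Frob ^ (t m)` for some `m ≥ 1`;
* `fcq_pow_semilinear` : powers of the semilinear operator;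
* `fcq_exists_proj` : the spectral projector of `ρu` for the eigenvalue `a`;
* `fcq_finrank_le_dual` : a joint eigenspace is bounded by the dimension of a space of `Ω`-valued
  functionals which are joint eigenvectors of the transposes;
* `helper15.fcEigLin` : the count of such functionals (Dedekind).
-/

set_option autoImplicit false
set_option linter.unusedSectionVars false
set_option linter.style.haveILetI false

namespace Fermat.Agent.P1.helper67

open Module Fermat.Agent.P1.helper14

/-! ## Galois theory of a finite field -/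

/-- If `Frob ^ d` fixes the fixed field of `Frob ^ t`, then `Frob ^ d` is a power of
`Frob ^ t`. -/
theorem fcq_exists_frob_pow (p : ℕ) [Fact p.Prime] (κ : Type) [Field κ] [Finite κ] [CharP κ p]
    (t d : ℕ) (hd : ∀ y : κ, y ^ p ^ t = y → y ^ p ^ d = y) :
    ∃ m : ℕ, 0 < m ∧ ∀ x : κ, x ^ p ^ (t * m) = x ^ p ^ d := by
  classical
  letI := ZMod.algebra κ p
  haveI : Fintype κ := Fintype.ofFinite κ
  set φ : κ ≃ₐ[ZMod p] κ := FiniteField.frobeniusAlgEquivOfAlgebraic (ZMod p) κ with hφ
  have hφpow : ∀ (n : ℕ) (x : κ), (φ ^ n) x = x ^ p ^ n := by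
    intro n x
    rw [AlgEquiv.coe_pow, hφ, FiniteField.coe_frobeniusAlgEquivOfAlgebraic_iterate, ZMod.card]
  set H : Subgroup (κ ≃ₐ[ZMod p] κ) := Subgroup.zpowers (φ ^ t) with hH
  have hmem : φ ^ d ∈ (IntermediateField.fixedField H).fixingSubgroup := by
    rw [IntermediateField.mem_fixingSubgroup_iff]
    intro x hx
    rw [IntermediateField.mem_fixedField_iff] at hx
    have h1 := hx (φ ^ t) (Subgroup.mem_zpowers _)
    rw [hφpow] at h1
    rw [hφpow]
    exact hd x h1
  rw [IntermediateField.fixingSubgroup_fixedField] at hmem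
  obtain ⟨z, hz⟩ := Subgroup.mem_zpowers_iff.mp hmem
  have hN : 0 < orderOf (φ ^ t) := orderOf_pos _
  refine ⟨(z % (orderOf (φ ^ t) : ℤ)).toNat + orderOf (φ ^ t), by omega, fun x => ?_⟩
  have h2 : (φ ^ t) ^ ((z % (orderOf (φ ^ t) : ℤ)).toNat + orderOf (φ ^ t)) = φ ^ d := by
    rw [pow_add, pow_orderOf_eq_one, mul_one, ← zpow_natCast,
      Int.toNat_of_nonneg (Int.emod_nonneg _ (by exact_mod_cast hN.ne')), zpow_mod_orderOf, hz]
  rw [← hφpow, pow_mul, h2, hφpow]

/-! ## Operators on a space spanned by the image of an additive map -/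

section Ops

variable {κ k W : Type} [Field κ] [Field k] [AddCommGroup W] [Module k W]

/-- two linear maps agreeing on the image of `q` agree -/
theorem fcq_ext_of_span {M : Type} [AddCommGroup M] [Module k M] (q : κ →+ W)
    (hq : Submodule.span k (Set.range q) = ⊤) {f g : W →ₗ[k] M}
    (h : ∀ x, f (q x) = g (q x)) : f = g := by
  apply LinearMap.ext_on_range hq
  intro x
  exact h x

/-- powers of the semilinear operator -/
theorem fcq_pow_semilinear (q : κ →+ W) (ρφ : W →ₗ[k] W) (c : κ) (hc : c ≠ 0) (N : ℕ)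
    (hφ : ∀ x, ρφ (q x) = q (c * x ^ N)) (m : ℕ) :
    ∃ c' : κ, c' ≠ 0 ∧ ∀ x, (ρφ ^ m) (q x) = q (c' * x ^ (N ^ m)) := by
  induction m with
  | zero => exact ⟨1, one_ne_zero, fun x => by simp⟩
  | succ m ih =>
    obtain ⟨c', hc', h⟩ := ih
    refine ⟨c * c' ^ N, mul_ne_zero hc (pow_ne_zero _ hc'), fun x => ?_⟩
    rw [pow_succ', Module.End.mul_apply, h, hφ]
    congr 1
    rw [mul_pow, ← pow_mul, pow_succ, mul_assoc]

/-- powers of the multiplication operator -/
theorem fcq_pow_mul (q : κ →+ W) (ρu : W →ₗ[k] W) (u : κ)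
    (hu : ∀ x, ρu (q x) = q (u * x)) (n : ℕ) (x : κ) :
    (ρu ^ n) (q x) = q (u ^ n * x) := by
  induction n generalizing x with
  | zero => simp
  | succ n ih => rw [pow_succ, Module.End.mul_apply, hu, ih, pow_succ, mul_assoc]

/-- the two operators commute -/
theorem fcq_commute (q : κ →+ W) (hq : Submodule.span k (Set.range q) = ⊤)
    (ρu ρφ : W →ₗ[k] W) (u c : κ) (N : ℕ) (huN : u ^ N = u)
    (hu : ∀ x, ρu (q x) = q (u * x)) (hφ : ∀ x, ρφ (q x) = q (c * x ^ N)) :
    ρu ∘ₗ ρφ = ρφ ∘ₗ ρu := by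
  apply fcq_ext_of_span q hq
  intro x
  rw [LinearMap.comp_apply, LinearMap.comp_apply, hφ, hu, hu, hφ]
  congr 1
  rw [mul_pow, huN]
  ring

end Ops

/-! ## The spectral projector -/

section Proj

open Polynomial

variable {k W : Type} [Field k] [AddCommGroup W] [Module k W]

/-- polynomials in `A` commute with everything commuting with `A` -/
theorem fcq_commute_aeval (A B : Module.End k W) (h : A * B = B * A) (R : k[X]) :
    aeval A R * B = B * aeval A R := by
  have hc : Commute A B := h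
  have : Commute (aeval A R) B := by
    induction R using Polynomial.induction_on with
    | C c =>
      rw [aeval_C]
      have h1 : Commute (algebraMap k (Module.End k W) c) B := Algebra.commutes' c B
      exact h1
    | add f g hf hg =>
      rw [map_add]
      exact hf.add_left hg
    | monomial n c _ =>
      rw [map_mul, aeval_C, map_pow, aeval_X]
      have h1 : Commute (algebraMap k (Module.End k W) c) B := Algebra.commutes' c B
      exact h1.mul_left (hc.pow_left _)
  exact this

/-- **The spectral projector** of an operator with `A ^ (p ^ d) = A` for an eigenvalue `a` with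
`a ^ (p ^ d) = a`. -/
theorem fcq_exists_proj (p : ℕ) [Fact p.Prime] [CharP k p] (A : Module.End k W) (a : k)
    (d : ℕ) (hd : 0 < d) (ha : a ^ p ^ d = a) (hA : A ^ p ^ d = A) :
    ∃ P : Module.End k W, (∀ B : Module.End k W, A * B = B * A → P * B = B * P) ∧
      A * P = a • P ∧ (∀ w, A w = a • w → P w = w) := by
  have hp : p.Prime := Fact.out
  have hN : 2 ≤ p ^ d := by
    calc 2 ≤ p := hp.two_le
      _ = p ^ 1 := (pow_one p).symm
      _ ≤ p ^ d := Nat.pow_le_pow_right hp.pos hd
  set R : k[X] := 1 - (X - C a) ^ (p ^ d - 1) with hR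
  refine ⟨aeval A R, fun B hB => fcq_commute_aeval A B hB R, ?_, fun w hw => ?_⟩
  · have h1 : (X - C a) * R = (X - C a) - (X ^ p ^ d - C a) := by
      have h2 : (X - C a) * (X - C a) ^ (p ^ d - 1) = (X - C a) ^ p ^ d := by
        rw [← pow_succ']
        congr 1
        omega
      rw [hR, mul_sub, mul_one, h2, sub_pow_char_pow, ← C_pow, ha]
    have h3 : aeval A ((X - C a) * R) = 0 := by
      rw [h1]
      simp only [map_sub, aeval_X, map_pow, aeval_C]
      rw [hA]
      abel
    rw [map_mul, map_sub, aeval_X, aeval_C, sub_mul] at h3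
    rw [sub_eq_zero] at h3
    rw [h3, Algebra.algebraMap_eq_smul_one, smul_mul_assoc, one_mul]
  · rw [Module.End.aeval_apply_of_mem_apply_eq_smul hw]
    have : eval a R = 1 := by
      rw [hR]
      simp only [eval_sub, eval_one, eval_pow, eval_X, eval_C, sub_self]
      rw [zero_pow (by omega), sub_zero]
    rw [this, one_smul]

end Proj

/-! ## The dual bound -/

section Dual

variable {κ k W Ω : Type} [Field κ] [Field k] [AddCommGroup W] [Module k W]
  [Module.Finite k W] [Field Ω] [Algebra k Ω]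

/-- the dimension of the `Ω`-valued dual of a finite dimensional `k`-space -/
theorem fcq_finrank_hom (V : Type) [AddCommGroup V] [Module k V] [Module.Finite k V] :
    finrank Ω (V →ₗ[k] Ω) = finrank k V := by
  have e := (Module.finBasis k V).constr (M' := Ω) Ω
  rw [← e.finrank_eq, Module.finrank_fin_fun]

/-- **The dual bound**: a space of joint eigenvectors of `A` and `B` (where `A` has a spectral
projector `P` commuting with `B`) is not bigger than a space of `Ω`-valued functions
`x ↦ ξ (q x)`, `ξ` a joint eigenvector of the transposes. -/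
theorem fcq_finrank_le_dual (q : κ →+ W) (hq : Submodule.span k (Set.range q) = ⊤)
    (A B P : Module.End k W) (a ℓ : k)
    (hPA : ∀ w, P (A w) = A (P w)) (hPB : ∀ w, P (B w) = B (P w))
    (hAP : ∀ w, A (P w) = a • P w) (hfix : ∀ w, A w = a • w → P w = w)
    (E : Submodule k W) (hE : ∀ w ∈ E, A w = a • w ∧ B w = ℓ • w) :
    ∃ W' : Submodule Ω (κ → Ω),
      (∀ ψ ∈ W', ∃ ξ : W →ₗ[k] Ω, (∀ x, ψ x = ξ (q x)) ∧
        (∀ w, ξ (A w) = algebraMap k Ω a * ξ w) ∧ (∀ w, ξ (B w) = algebraMap k Ω ℓ * ξ w)) ∧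
      finrank k E ≤ finrank Ω W' := by
  have hPP : ∀ w, P (P w) = P w := fun w => hfix (P w) (hAP w)
  -- the operator `T` with kernel the joint eigenspace
  set T : Module.End k W := (B - ℓ • (1 : Module.End k W)) * P + (1 - P) with hT
  have hTw : ∀ w, T w = (B (P w) - ℓ • P w) + (w - P w) := by
    intro w
    simp [hT]
  have hEker : E ≤ LinearMap.ker T := by
    intro w hw
    obtain ⟨h1, h2⟩ := hE w hw
    rw [LinearMap.mem_ker, hTw, hfix w h1, h2]
    simp
  -- the cokernel of `T`
  have hdim : finrank k (LinearMap.ker T) = finrank k (W ⧸ LinearMap.range T) := by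
    have h1 := LinearMap.finrank_range_add_finrank_ker T
    have h2 := Submodule.finrank_quotient_add_finrank (LinearMap.range T)
    omega
  -- the map `Θ`
  let Θ : ((W ⧸ LinearMap.range T) →ₗ[k] Ω) →ₗ[Ω] (κ → Ω) :=
    { toFun := fun η x => η (Submodule.Quotient.mk (q x))
      map_add' := fun η₁ η₂ => by
        funext x
        simp
      map_smul' := fun z η => by
        funext x
        simp }
  have hΘ : Function.Injective Θ := by
    rw [injective_iff_map_eq_zero]
    intro η hη
    have h1 : η ∘ₗ (LinearMap.range T).mkQ = 0 := by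
      apply fcq_ext_of_span q hq
      intro x
      have h2 : Θ η x = 0 := congrFun hη x
      rw [LinearMap.comp_apply, LinearMap.zero_apply]
      exact h2
    apply LinearMap.ext
    intro v
    obtain ⟨w, rfl⟩ := (LinearMap.range T).mkQ_surjective v
    exact LinearMap.congr_fun h1 w
  refine ⟨LinearMap.range Θ, ?_, ?_⟩
  · rintro ψ ⟨η, rfl⟩
    set ξ : W →ₗ[k] Ω := η ∘ₗ (LinearMap.range T).mkQ with hξ
    have hξT : ∀ w, ξ (T w) = 0 := by
      intro w
      rw [hξ, LinearMap.comp_apply]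
      have : (LinearMap.range T).mkQ (T w) = 0 := by
        rw [Submodule.mkQ_apply, Submodule.Quotient.mk_eq_zero]
        exact ⟨w, rfl⟩
      rw [this, map_zero]
    have h1 : ∀ w, ξ w = ξ (P w) := by
      intro w
      have h := hξT (w - P w)
      rw [hTw, map_sub P, hPP, sub_self, map_zero, smul_zero, sub_zero, zero_add, sub_zero,
        map_sub, sub_eq_zero] at h
      exact h
    have h2 : ∀ w, ξ (B (P w)) = algebraMap k Ω ℓ * ξ (P w) := by
      intro w
      have h := hξT (P w)
      rw [hTw, hPP, sub_self, add_zero, map_sub, map_smul, sub_eq_zero] at h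
      rw [h, Algebra.smul_def]
    refine ⟨ξ, fun x => rfl, fun w => ?_, fun w => ?_⟩
    · rw [h1 (A w), hPA, hAP, map_smul, Algebra.smul_def, ← h1]
    · rw [h1 (B w), hPB, h2, ← h1]
  · calc finrank k E ≤ finrank k (LinearMap.ker T) := Submodule.finrank_mono hEker
      _ = finrank k (W ⧸ LinearMap.range T) := hdim
      _ = finrank Ω ((W ⧸ LinearMap.range T) →ₗ[k] Ω) := (fcq_finrank_hom _).symm
      _ = finrank Ω (LinearMap.range Θ) := (LinearMap.finrank_range_of_inj hΘ).symm

end Dual

/-! ## Part (2) -/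

section Two

variable {κ k W : Type} [Field κ] [Field k] [AddCommGroup W] [Module k W] [Module.Finite k W]

/-- an eigenvector of `ρu` with eigenvalue `n` in the prime field is zero unless `u = n` -/
theorem fcq_part_two (q : κ →+ W) (hq : Submodule.span k (Set.range q) = ⊤) (u : κ)
    (ρu : W →ₗ[k] W) (hu : ∀ x, ρu (q x) = q (u * x)) (n : ℕ) (w : W) (hun : u ≠ (n : κ))
    (hw : ρu w = (n : k) • w) : w = 0 := by
  set L : W →ₗ[k] W := ρu - (n : k) • LinearMap.id with hL
  have hLq : ∀ x, L (q x) = q ((u - (n : κ)) * x) := by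
    intro x
    rw [hL, LinearMap.sub_apply, LinearMap.smul_apply, LinearMap.id_apply, hu,
      Nat.cast_smul_eq_nsmul, ← map_nsmul, ← map_sub]
    congr 1
    rw [nsmul_eq_mul]
    ring
  have hne : u - (n : κ) ≠ 0 := sub_ne_zero.mpr hun
  have hsurj : Function.Surjective L := by
    rw [← LinearMap.range_eq_top, eq_top_iff, ← hq, Submodule.span_le]
    rintro _ ⟨y, rfl⟩
    refine ⟨q ((u - (n : κ))⁻¹ * y), ?_⟩
    rw [hLq, ← mul_assoc, mul_inv_cancel₀ hne, one_mul]
  have hinj : Function.Injective L := LinearMap.injective_iff_surjective.mpr hsurj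
  apply hinj
  rw [map_zero, hL, LinearMap.sub_apply, LinearMap.smul_apply, LinearMap.id_apply, hw, sub_self]

end Two

/-! ## The count -/

/-- the exponents `j < d` with `(σ₀ u) ^ (p ^ j) = a` inject into the embeddings `σ` with
`σ u = a` -/
theorem fcq_count (p d : ℕ) [Fact p.Prime] (K k : Type) [Field K] [Finite K] [CharP K p]
    [Field k] [Finite k]
    (hinj : ∀ i j, i < d → j < d → (∀ y : K, y ^ p ^ i = y ^ p ^ j) → i = j)
    (σ₀ : K →+* k) (u : K) (a : k) :
    Set.ncard {j : ℕ | j < d ∧ σ₀ u ^ p ^ j = a} ≤ Set.ncard {σ : K →+* k | σ u = a} := by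
  haveI : Finite (K →+* k) :=
    Finite.of_injective (fun f : K →+* k => (f : K → k)) DFunLike.coe_injective
  refine Set.ncard_le_ncard_of_injOn (fun j => σ₀.comp (iterateFrobenius K p j)) ?_ ?_
    (Set.toFinite _)
  · rintro j ⟨-, hj⟩
    show σ₀ (iterateFrobenius K p j u) = a
    rw [iterateFrobenius_def, map_pow, hj]
  · rintro i ⟨hi, -⟩ j ⟨hj, -⟩ hij
    refine hinj i j hi hj fun y => ?_
    have h1 := RingHom.congr_fun hij y
    simp only [RingHom.comp_apply, iterateFrobenius_def] at h1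
    exact σ₀.injective h1

/-! ## Part (1) -/

/-- eigenvectors of `ρφ` are eigenvectors of its powers -/
theorem fcq_pow_eigen {k W : Type} [Field k] [AddCommGroup W] [Module k W] (B : W →ₗ[k] W)
    (ℓ : k) (w : W) (h : B w = ℓ • w) (m : ℕ) : (B ^ m) w = ℓ ^ m • w := by
  induction m with
  | zero => simp
  | succ m ih => rw [pow_succ, Module.End.mul_apply, h, map_smul, ih, smul_smul, pow_succ, mul_comm]

theorem fcq_part_one (p : ℕ) [Fact p.Prime] (κ k : Type) [Field κ] [Finite κ] [CharP κ p]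
    [Field k] [Finite k] [Algebra (ZMod p) k]
    (W : Type) [AddCommGroup W] [Module k W] [Module.Finite k W]
    (q : κ →+ W) (hq : Submodule.span k (Set.range q) = ⊤)
    (u : κ) (ρu : W →ₗ[k] W) (hu : ∀ x, ρu (q x) = q (u * x))
    (t : ℕ) (c : κ) (ρφ : W →ₗ[k] W) (a ℓ : k) (_ht : 0 < t) (hc : c ≠ 0) (hℓ : ℓ ≠ 0)
    (hut : u ^ (p ^ t) = u) (hφ : ∀ x, ρφ (q x) = q (c * x ^ (p ^ t)))
    (σ₀ : frobFixed p κ t →+* k)
    (E : Submodule k W) (hE : ∀ w ∈ E, ρu w = a • w ∧ ρφ w = ℓ • w) :
    Module.finrank k E ≤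
      Nat.card {σ : frobFixed p κ t →+* k // ∀ h : u ∈ frobFixed p κ t, σ ⟨u, h⟩ = a} := by
  classical
  have hp : p.Prime := Fact.out
  haveI : CharP k p := charP_of_injective_algebraMap (algebraMap (ZMod p) k).injective p
  -- the fixed field `κ₀` and its degree `d`
  letI : Algebra (ZMod p) (frobFixed p κ t) := ZMod.algebra _ p
  haveI : Fintype (frobFixed p κ t) := Fintype.ofFinite _
  set d : ℕ := finrank (ZMod p) (frobFixed p κ t) with hd
  have hd0 : 0 < d := Module.finrank_pos
  have hcard : Fintype.card (frobFixed p κ t) = p ^ d := by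
    rw [Module.card_eq_pow_finrank (K := ZMod p), ZMod.card]
  have hper₀ : ∀ y : frobFixed p κ t, y ^ p ^ d = y := fun y => by
    rw [← hcard]
    exact FiniteField.pow_card y
  have hinj : ∀ i j, i < d → j < d → (∀ y : frobFixed p κ t, y ^ p ^ i = y ^ p ^ j) → i = j := by
    intro i j hi hj h
    have hb := (FiniteField.bijective_frobeniusAlgHom_pow (ZMod p) (frobFixed p κ t)).1
    have h1 := @hb ⟨i, hi⟩ ⟨j, hj⟩ (by
      ext x
      simp only [AlgHom.coe_pow, FiniteField.coe_frobeniusAlgHom, pow_iterate, ZMod.card]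
      exact congrArg Subtype.val (h x))
    exact congrArg Fin.val h1
  have hper : ∀ y : κ, y ^ p ^ t = y → y ^ p ^ d = y := by
    intro y hy
    exact congrArg Subtype.val (hper₀ ⟨y, hy⟩)
  have hud : u ^ p ^ d = u := hper u hut
  -- replace `ρφ` by a power acting as `c' x ^ (p ^ d)`
  obtain ⟨m, hm0, hm⟩ := fcq_exists_frob_pow p κ t d hper
  obtain ⟨c', hc'0, hc'⟩ := fcq_pow_semilinear q ρφ c hc (p ^ t) hφ m
  have hB : ∀ x, (ρφ ^ m) (q x) = q (c' * x ^ p ^ d) := by
    intro x
    rw [hc', ← pow_mul, hm]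
  have hℓ' : ℓ ^ m ≠ 0 := pow_ne_zero _ hℓ
  have hE' : ∀ w ∈ E, ρu w = a • w ∧ (ρφ ^ m) w = ℓ ^ m • w := fun w hw =>
    ⟨(hE w hw).1, fcq_pow_eigen ρφ ℓ w (hE w hw).2 m⟩
  have hA : ρu ^ p ^ d = ρu := by
    apply fcq_ext_of_span q hq
    intro x
    rw [fcq_pow_mul q ρu u hu, hud, hu]
  by_cases ha : a ^ p ^ d = a
  · -- the main case
    obtain ⟨P, hPcomm, hAP, hfix⟩ := fcq_exists_proj p ρu a d hd0 ha hA
    have hcomm : ρu * (ρφ ^ m) = (ρφ ^ m) * ρu :=
      fcq_commute q hq ρu (ρφ ^ m) u c' (p ^ d) hud hu hB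
    have hPA : ∀ w, P (ρu w) = ρu (P w) := fun w =>
      LinearMap.congr_fun (hPcomm ρu rfl) w
    have hPB : ∀ w, P ((ρφ ^ m) w) = (ρφ ^ m) (P w) := fun w =>
      LinearMap.congr_fun (hPcomm (ρφ ^ m) hcomm) w
    have hAP' : ∀ w, ρu (P w) = a • P w := fun w => LinearMap.congr_fun hAP w
    obtain ⟨W', hW', hfin⟩ := fcq_finrank_le_dual (Ω := AlgebraicClosure k) q hq ρu (ρφ ^ m) P a
      (ℓ ^ m) hPA hPB hAP' hfix E hE'
    -- the embedding `ι : κ → Ω` extending `σ₀`
    letI algΩ : Algebra (frobFixed p κ t) (AlgebraicClosure k) :=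
      ((algebraMap k (AlgebraicClosure k)).comp σ₀).toAlgebra
    let ι : κ →ₐ[frobFixed p κ t] AlgebraicClosure k := IsAlgClosed.lift
    have hι : ∀ y : frobFixed p κ t,
        ι (y : κ) = algebraMap k (AlgebraicClosure k) (σ₀ y) := fun y => ι.commutes y
    haveI : CharP (AlgebraicClosure k) p :=
      charP_of_injective_algebraMap (algebraMap k (AlgebraicClosure k)).injective p
    have hcore := Fermat.Agent.P1.helper15.fcEigLin p κ (AlgebraicClosure k) ι.toRingHom d u c'
      (algebraMap k (AlgebraicClosure k) a) (algebraMap k (AlgebraicClosure k) (ℓ ^ m)) hd0 hc'0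
      (by
        rw [Ne, map_eq_zero]
        exact hℓ') W' (by
        intro ψ hψ
        obtain ⟨ξ, h1, h2, h3⟩ := hW' ψ hψ
        refine ⟨fun x y => ?_, fun x => ?_, fun x => ?_⟩
        · rw [h1, h1, h1, map_add, map_add]
        · rw [h1, h1, ← hu, h2]
        · rw [h1, h1, ← hB, h3])
    -- the count
    have hset : {j : ℕ | j < d ∧ ι.toRingHom u ^ p ^ j = algebraMap k (AlgebraicClosure k) a} =
        {j : ℕ | j < d ∧ σ₀ ⟨u, hut⟩ ^ p ^ j = a} := by
      have h1 : ι.toRingHom u = algebraMap k (AlgebraicClosure k) (σ₀ ⟨u, hut⟩) := hι ⟨u, hut⟩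
      refine Set.ext fun j => ⟨fun ⟨hj, h⟩ => ⟨hj, ?_⟩, fun ⟨hj, h⟩ => ⟨hj, ?_⟩⟩
      · rw [h1, ← map_pow] at h
        exact (algebraMap k (AlgebraicClosure k)).injective h
      · rw [h1, ← map_pow, h]
    have hcount := fcq_count p d (frobFixed p κ t) k hinj σ₀ ⟨u, hut⟩ a
    have hsub : Nat.card {σ : frobFixed p κ t →+* k //
        ∀ h : u ∈ frobFixed p κ t, σ ⟨u, h⟩ = a} =
        Set.ncard {σ : frobFixed p κ t →+* k | σ ⟨u, hut⟩ = a} := by
      rw [← Nat.card_coe_set_eq]
      apply Nat.card_congr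
      exact Equiv.subtypeEquivRight fun σ => ⟨fun h => h hut, fun h _ => h⟩
    rw [hsub]
    calc finrank k E ≤ finrank (AlgebraicClosure k) W' := hfin
      _ ≤ _ := hcore.2
      _ = _ := by rw [hset]
      _ ≤ _ := hcount
  · -- `a` is not in the image of `κ₀`: no eigenvectors
    have hE0 : E = ⊥ := by
      rw [Submodule.eq_bot_iff]
      intro w hw
      have h1 := (hE w hw).1
      have h2 : (ρu ^ p ^ d) w = a ^ p ^ d • w := fcq_pow_eigen ρu a w h1 _
      rw [hA, h1] at h2
      have h3 : (a ^ p ^ d - a) • w = 0 := by rw [sub_smul, ← h2, sub_self]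
      rcases smul_eq_zero.mp h3 with h | h
      · exact absurd (sub_eq_zero.mp h) ha
      · exact h
    rw [hE0, finrank_bot]
    exact Nat.zero_le _

/-- **[FC-EIG-LIN-Q]** -/
theorem fcEigLinQ : FCEigLinQStatement := by
  intro p _ κ k _ _ _ _ _ _ W _ _ _ q hq u ρu hu
  refine ⟨?_, fun n w hun hw => fcq_part_two q hq u ρu hu n w hun hw⟩
  rintro t c ρφ a ℓ ht hc hℓ hut hφ ⟨σ₀⟩ E hE
  exact fcq_part_one p κ k W q hq u ρu hu t c ρφ a ℓ ht hc hℓ hut hφ σ₀ E hE

end Fermat.Agent.P1.helper67
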