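import Fermat.Agent.P1.helper43_FCStep
import Fermat.Agent.P1.helper38_FCKum
import Fermat.Agent.P1.helper67_FCEigLinQ

/-!
# P1 / FLAT-CNT / KUMEQ, package FC-STEP (helper43, task 784): unconditional form

`fcStepStatement p : FCStepStatement p`, from `helper43.fcStep` and the landed packages
FC-GR (`helper94.fcGr`), FC-KUM (`helper38.fcKum`), FC-EIG-LIN-Q (`helper67.fcEigLinQ`).
-/

set_option autoImplicit false

namespace Fermat.Agent.P1.helper43

/-- **FC-STEP**, unconditional. -/
theorem fcStepStatement (p : ℕ) [Fact p.Prime] : Fermat.Agent.P1.helper14.FCStepStatement p :=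
  fcStep p (Fermat.Agent.P1.helper94.fcGr p) (Fermat.Agent.P1.helper38.fcKum p)
    Fermat.Agent.P1.helper67.fcEigLinQ

end Fermat.Agent.P1.helper43
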