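import Mathlib
import Fermat.Agent.P1.helper14_KumEqDefs2
import Fermat.Agent.P1.helper5_KumVal

/-!
# P1 (S56), FLAT-CNT / KUMEQ, package FC-TOP-A (helper61, task 775)

`fcTopA : FCG1Statement p → FCTopAStatement p`.

Let `λ = ζ - 1`, `e' = ord λ`, `(p - 1) e' = e`.  From `(1 + λ) ^ p = 1` and
`(1 + β) ^ p = 1 + β ^ p + p β r(β)` (`r = binomRest`, `r(β) ≡ 1` for `ord β > 0`) we get
`λ ^ (p - 1) = - p r(λ)`, hence
`(1 + λ d) ^ p - (1 + λ ^ p (d ^ p - d)) = p λ d (r(λ d) - r(λ))` has order `> p e'`.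
So `(1 + λ ^ p c) / (1 + λ d) ^ p ∈ U^(p e' + 1)` is a `p`-th power by (G1).
-/

set_option autoImplicit false

namespace Fermat.Agent.P1.helper61

open Fermat.Agent.S55.helper8 Fermat.Agent.S55.helper7 Fermat.Agent.S55.helper33
open Fermat.Agent.P1.helper14 Fermat.Agent.P1.helper5

variable (p : ℕ) [Fact p.Prime]

section tools

variable {F : Type} [Field F] [Algebra ℚ_[p] F] [FiniteDimensional ℚ_[p] F]

/-- `n < x ↔ n + 1 ≤ x` in `WithTop ℤ`. -/
theorem coe_add_one_le_of_lt {n : ℤ} {x : WithTop ℤ} (h : ((n : ℤ) : WithTop ℤ) < x) :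
    (((n + 1 : ℤ)) : WithTop ℤ) ≤ x := by
  induction x using WithTop.recTopCoe with
  | top => exact le_top
  | coe a =>
    rw [WithTop.coe_lt_coe] at h
    rw [WithTop.coe_le_coe]
    omega

theorem coe_lt_of_add_one_le {n : ℤ} {x : WithTop ℤ} (h : (((n + 1 : ℤ)) : WithTop ℤ) ≤ x) :
    ((n : ℤ) : WithTop ℤ) < x := by
  induction x using WithTop.recTopCoe with
  | top => exact WithTop.coe_lt_top n
  | coe a =>
    rw [WithTop.coe_le_coe] at h
    rw [WithTop.coe_lt_coe]
    omega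

theorem coe_one_le_of_pos {x : WithTop ℤ} (h : 0 < x) : (((1 : ℤ)) : WithTop ℤ) ≤ x := by
  have := coe_add_one_le_of_lt (n := 0) (x := x) (by simpa using h)
  simpa using this

theorem coe_add_le_add {a b : ℤ} {x y : WithTop ℤ} (hx : ((a : ℤ) : WithTop ℤ) ≤ x)
    (hy : ((b : ℤ) : WithTop ℤ) ≤ y) : (((a + b : ℤ)) : WithTop ℤ) ≤ x + y := by
  rw [WithTop.coe_add]
  exact add_le_add hx hy

/-- `r(β) ≡ 1` for `ord β > 0`. -/
theorem ordT_binomRest_sub_one_pos {β : F} (hβ : 0 < ordT p F β) :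
    0 < ordT p F (binomRest p β - 1) := by
  classical
  have hp : p.Prime := Fact.out
  have hmem : 1 ∈ Finset.Ioo 0 p := Finset.mem_Ioo.2 ⟨Nat.one_pos, hp.one_lt⟩
  have hr1 : binomRest p β = 1 + ∑ k ∈ (Finset.Ioo 0 p).erase 1,
      β ^ (k - 1) * 1 ^ (p - k - 1) * ((p.choose k / p : ℕ) : F) := by
    rw [binomRest, ← Finset.add_sum_erase _ _ hmem]
    congr 1
    simp [Nat.div_self hp.pos]
  have hR : 0 < ordT p F (∑ k ∈ (Finset.Ioo 0 p).erase 1,
      β ^ (k - 1) * 1 ^ (p - k - 1) * ((p.choose k / p : ℕ) : F)) := by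
    refine ordT_sum_pos p _ _ fun k hk => ?_
    obtain ⟨hk1, hk2⟩ := Finset.mem_erase.1 hk
    obtain ⟨hk0, -⟩ := Finset.mem_Ioo.1 hk2
    have hk' : k - 1 = (k - 2) + 1 := by omega
    rw [one_pow, mul_one, ordT_mul, hk', pow_succ, ordT_mul]
    refine lt_of_lt_of_le hβ ?_
    calc ordT p F β ≤ ordT p F (β ^ (k - 2)) + ordT p F β :=
          le_add_of_nonneg_left (ordT_pow_nonneg p hβ.le _)
      _ ≤ ordT p F (β ^ (k - 2)) + ordT p F β + ordT p F ((p.choose k / p : ℕ) : F) :=
          le_add_of_nonneg_right (ordT_natCast_nonneg' p _)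
  rw [hr1, add_sub_cancel_left]
  exact hR

end tools

/-- **FC-TOP-A** from **FC-G1**. -/
theorem fcTopA : FCG1Statement p → FCTopAStatement p := by
  intro hG1 T _ _ _ ζ hζ
  have hp : p.Prime := Fact.out
  obtain ⟨e', hord, he'⟩ := ordT_primitiveRoot_sub_one p hζ
  have hP1 : ((p - 1 : ℕ) : ℤ) = (p : ℤ) - 1 := by
    rw [Nat.cast_sub hp.one_le]; simp
  have hp2 : (2 : ℤ) ≤ (p : ℤ) := by exact_mod_cast hp.two_le
  have hedeg : (0 : ℤ) < (edeg p T : ℤ) := by
    have := ordT_q_pos p T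
    rw [ordT_q] at this
    exact_mod_cast this
  have he'pos : 0 < e' := by
    rw [hP1] at he'
    by_contra hcon
    rw [not_lt] at hcon
    nlinarith
  refine ⟨?_, ?_⟩
  · rw [hord, ← WithTop.coe_mul, he']
  · intro c d hc hd hcd
    set lam : T := ζ - 1 with hlam
    have hlam0 : lam ≠ 0 := sub_ne_zero.2 (hζ.ne_one hp.one_lt)
    have hlampos : 0 < ordT p T lam := by
      rw [hord]
      exact_mod_cast he'pos
    -- `β = λ d`
    have hβ : 0 < ordT p T (lam * d) := by
      rw [ordT_mul]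
      exact lt_of_lt_of_le hlampos (le_add_of_nonneg_right hd)
    -- `λ ^ (p - 1) = - p r(λ)`
    have hI2 : lam ^ (p - 1) = -((p : T) * binomRest p lam) := by
      have h1 := one_add_pow_eq p lam
      have h2 : (1 + lam) ^ p = 1 := by
        rw [hlam, add_sub_cancel]
        exact hζ.pow_eq_one
      rw [h2, sub_self, zero_sub] at h1
      have h3 : lam ^ p = lam ^ (p - 1) * lam := by
        rw [← pow_succ, Nat.sub_add_cancel hp.one_le]
      rw [h3] at h1
      have h4 : lam ^ (p - 1) * lam = -((p : T) * binomRest p lam) * lam := by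
        rw [← neg_eq_iff_eq_neg.mpr h1.symm]
        ring
      exact mul_right_cancel₀ hlam0 h4
    -- the error term
    have hX : (1 + lam * d) ^ p - (1 + lam ^ p * (d ^ p - d)) =
        lam * d * ((p : T) * (binomRest p (lam * d) - binomRest p lam)) := by
      have h1 := one_add_pow_eq p (lam * d)
      have h3 : lam ^ p = lam ^ (p - 1) * lam := by
        rw [← pow_succ, Nat.sub_add_cancel hp.one_le]
      have h5 : (1 + lam * d) ^ p = 1 + (lam * d) ^ p + (p : T) * (lam * d) * binomRest p (lam * d) := by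
        rw [← h1]; ring
      rw [h5, mul_pow, h3, hI2]
      ring
    have hdiff : 0 < ordT p T (binomRest p (lam * d) - binomRest p lam) := by
      have : binomRest p (lam * d) - binomRest p lam =
          (binomRest p (lam * d) - 1) - (binomRest p lam - 1) := by ring
      rw [this]
      exact ordT_sub_pos p T (ordT_binomRest_sub_one_pos p hβ)
        (ordT_binomRest_sub_one_pos p hlampos)
    have hXord : (((p * e' + 1 : ℤ)) : WithTop ℤ) ≤
        ordT p T ((1 + lam * d) ^ p - (1 + lam ^ p * (d ^ p - d))) := by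
      rw [hX, ordT_mul, ordT_mul, ordT_mul, ordT_q, hord]
      have h1 : (((e' + 0 + ((edeg p T : ℤ) + 1) : ℤ)) : WithTop ℤ) ≤
          (e' : WithTop ℤ) + ordT p T d + (((edeg p T : ℤ) : WithTop ℤ) +
            ordT p T (binomRest p (lam * d) - binomRest p lam)) :=
        coe_add_le_add (coe_add_le_add le_rfl (by simpa using hd))
          (coe_add_le_add le_rfl (coe_one_le_of_pos hdiff))
      have h2 : p * e' + 1 = e' + 0 + ((edeg p T : ℤ) + 1) := by
        rw [← he', hP1]; ring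
      rw [h2]
      exact h1
    have hlamp : ordT p T (lam ^ p) = (((p * e' : ℤ)) : WithTop ℤ) := by
      rw [ordT_pow, hord, ← WithTop.coe_nsmul, nsmul_eq_mul]
    have hYord : (((p * e' + 1 : ℤ)) : WithTop ℤ) ≤
        ordT p T (lam ^ p * (c - (d ^ p - d))) := by
      rw [ordT_mul, hlamp]
      exact coe_add_le_add le_rfl (coe_one_le_of_pos hcd)
    -- `A - u`
    have hAu : (((p * e' + 1 : ℤ)) : WithTop ℤ) ≤
        ordT p T ((1 + lam ^ p * c) - (1 + lam * d) ^ p) := by
      have : (1 + lam ^ p * c) - (1 + lam * d) ^ p =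
          lam ^ p * (c - (d ^ p - d)) - ((1 + lam * d) ^ p - (1 + lam ^ p * (d ^ p - d))) := by
        ring
      rw [this]
      exact le_trans (le_min hYord hXord) (ordT_sub_ge p T _ _)
    -- `u` is a unit
    have hu0 : ordT p T ((1 + lam * d) ^ p) = 0 := by
      rw [ordT_pow, ordT_one_add_eq_zero p hβ, smul_zero]
    have hune : (1 + lam * d) ^ p ≠ 0 := by
      intro h
      rw [h, ordT_zero] at hu0
      exact WithTop.top_ne_zero hu0
    have huinv : ordT p T ((1 + lam * d) ^ p)⁻¹ = 0 := by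
      have := ordT_inv p T hune
      rw [hu0, zero_add] at this
      exact this
    -- apply (G1)
    have he'nat : ((e'.toNat : ℕ) : ℤ) = e' := Int.toNat_of_nonneg he'pos.le
    have hm : (((p * e'.toNat + 1 : ℕ) : ℤ)) = p * e' + 1 := by
      push_cast
      rw [he'nat]
    have hlt : p * edeg p T < (p - 1) * (p * e'.toNat + 1) := by
      have h1 : (p : ℤ) * (edeg p T : ℤ) < ((p - 1 : ℕ) : ℤ) * ((p * e'.toNat + 1 : ℕ) : ℤ) := by
        rw [hm, ← he', hP1]
        nlinarith
      exact_mod_cast h1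
    have hval : (((p * e'.toNat + 1 : ℕ) : ℤ) : WithTop ℤ) ≤
        ordT p T ((1 + lam ^ p * c) / (1 + lam * d) ^ p - 1) := by
      have : (1 + lam ^ p * c) / (1 + lam * d) ^ p - 1 =
          ((1 + lam ^ p * c) - (1 + lam * d) ^ p) * ((1 + lam * d) ^ p)⁻¹ := by
        field_simp
      rw [this, ordT_mul, huinv, add_zero, hm]
      exact hAu
    obtain ⟨b0, hb0⟩ := hG1 T ζ hζ ((1 + lam ^ p * c) / (1 + lam * d) ^ p)
      (p * e'.toNat + 1) hlt hval
    refine ⟨b0 * (1 + lam * d), ?_⟩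
    rw [mul_pow, hb0, div_mul_cancel₀ _ hune]

end Fermat.Agent.P1.helper61
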