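import Mathlib
import Fermat.Agent.P1.helper14_KumEqDefs2
import Fermat.Agent.P1.helper5_KumVal
import Fermat.Agent.S55.helper71_LocComplete

/-!
# P1 / FLAT-CNT / KUMEQ, package FC-G1 (helper77, task 774)

`fcG1 : helper14.FCG1Statement p` : for a `p`-adic field `T` containing a primitive `p`-th root
of unity `ζ`, every `a` with `ordT (a - 1) ≥ m`, `m > p e / (p - 1)`, is a `p`-th power.

Proof: `λ = ζ - 1`, `(p - 1) ordT λ = e`; Hensel's lemma for
`G(w) = ((1 + λ w) ^ p - a) / λ ^ p` at `w = 0`: integral coefficients, `ordT G(0) > 0`,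
`ordT G'(0) = 0`.
-/

set_option autoImplicit false

namespace Fermat.Agent.P1.helper77

open Fermat.Agent.S55.helper8 Fermat.Agent.S55.helper7
open Polynomial

variable (p : ℕ) [Fact p.Prime]

section G1

variable {T : Type} [Field T] [Algebra ℚ_[p] T] [FiniteDimensional ℚ_[p] T]

/-- lower bound for a sum `↑a + x + ↑b` in `WithTop ℤ` -/
theorem coe_le_add_add {a b c : ℤ} {x : WithTop ℤ} (hx : ((c : ℤ) : WithTop ℤ) ≤ x) :
    (((a + c + b : ℤ)) : WithTop ℤ) ≤ ((a : ℤ) : WithTop ℤ) + x + ((b : ℤ) : WithTop ℤ) := by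
  rw [WithTop.coe_add, WithTop.coe_add]
  exact add_le_add (add_le_add le_rfl hx) le_rfl

/-- `ordT` of a binomial coefficient `C(p, i)`, `0 < i < p`, is at least `e`. -/
theorem le_ordT_choose {i : ℕ} (hi0 : i ≠ 0) (hip : i < p) :
    ((edeg p T : ℤ) : WithTop ℤ) ≤ ordT p T ((p.choose i : ℕ) : T) := by
  have hp : p.Prime := Fact.out
  obtain ⟨k, hk⟩ := hp.dvd_choose_self hi0 hip
  rw [hk, Nat.cast_mul, ordT_mul, ordT_q]
  exact le_add_of_nonneg_right (Fermat.Agent.P1.helper5.ordT_natCast_nonneg' p k)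

/-- **FC-G1**, explicit form: the `p`-th root is `1 + (ζ - 1) w`. -/
theorem exists_pow_eq_of_le_ordT (ζ : T) (hζ : IsPrimitiveRoot ζ p) (a : T) (m : ℕ)
    (hm : p * edeg p T < (p - 1) * m) (ha : ((m : ℤ) : WithTop ℤ) ≤ ordT p T (a - 1)) :
    ∃ w : T, (1 + (ζ - 1) * w) ^ p = a := by
  have hp : p.Prime := Fact.out
  have hp1 : 1 ≤ p := hp.one_lt.le
  have hlam0 : ζ - 1 ≠ 0 := sub_ne_zero.2 (hζ.ne_one hp.one_lt)
  obtain ⟨e', he', hee⟩ := Fermat.Agent.P1.helper5.ordT_primitiveRoot_sub_one p hζ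
  have hpos : (0 : ℤ) < ((p - 1 : ℕ) : ℤ) := by
    have := hp.one_lt
    exact_mod_cast (by omega : 0 < p - 1)
  have hcast : ((p - 1 : ℕ) : ℤ) = (p : ℤ) - 1 := by
    rw [Nat.cast_sub hp1]
    simp
  have he'nn : 0 ≤ e' := by
    by_contra h
    have h1 : ((p - 1 : ℕ) : ℤ) * e' < 0 := mul_neg_of_pos_of_neg hpos (not_le.1 h)
    rw [hee] at h1
    have h2 : (0 : ℤ) ≤ (edeg p T : ℤ) := Int.natCast_nonneg _
    omega
  have hpe : (p : ℤ) * e' < m := by
    have hm' : (p : ℤ) * (edeg p T : ℤ) < ((p - 1 : ℕ) : ℤ) * (m : ℤ) := by exact_mod_cast hm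
    rw [← hee] at hm'
    have h3 : ((p - 1 : ℕ) : ℤ) * ((p : ℤ) * e') < ((p - 1 : ℕ) : ℤ) * (m : ℤ) := by
      have h4 : ((p - 1 : ℕ) : ℤ) * ((p : ℤ) * e') = (p : ℤ) * (((p - 1 : ℕ) : ℤ) * e') := by
        ring
      rw [h4]
      exact hm'
    exact lt_of_mul_lt_mul_left h3 hpos.le
  have hedeg : (edeg p T : ℤ) = ((p : ℤ) - 1) * e' := by rw [← hee, hcast]
  -- the inverse of `λ ^ p`
  have hc0 : ordT p T (((ζ - 1) ^ p)⁻¹) = (((-(p : ℤ) * e' : ℤ)) : WithTop ℤ) := by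
    have h1 := Fermat.Agent.P1.helper5.ordT_zpow_eq p he' (-(p : ℤ))
    rwa [zpow_neg, zpow_natCast] at h1
  have hlampow : ∀ i : ℕ, ordT p T ((ζ - 1) ^ i) = ((((i : ℤ) * e' : ℤ)) : WithTop ℤ) := by
    intro i
    have h1 := Fermat.Agent.P1.helper5.ordT_zpow_eq p he' (i : ℤ)
    rwa [zpow_natCast] at h1
  -- the polynomial
  set G : T[X] := C (((ζ - 1) ^ p)⁻¹) * (((X + C (1 : T)) ^ p).comp (C (ζ - 1) * X) - C a)
    with hG
  have hGcoeff : ∀ i, G.coeff i =
      ((ζ - 1) ^ p)⁻¹ * (((p.choose i : ℕ) : T) * (ζ - 1) ^ i - if i = 0 then a else 0) := by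
    intro i
    rw [hG, coeff_C_mul, coeff_sub, comp_C_mul_X_coeff, coeff_X_add_C_pow, one_pow, one_mul,
      coeff_C]
  have hGeval : ∀ w, G.eval w = ((ζ - 1) ^ p)⁻¹ * ((1 + (ζ - 1) * w) ^ p - a) := by
    intro w
    rw [hG]
    simp only [eval_mul, eval_C, eval_sub, eval_comp, eval_pow, eval_add, eval_X]
    ring
  have hG0 : G.eval 0 = ((ζ - 1) ^ p)⁻¹ * (1 - a) := by
    rw [hGeval]
    simp
  have hG'0 : G.derivative.eval 0 = ((ζ - 1) ^ p)⁻¹ * ((p : T) * (ζ - 1)) := by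
    rw [← coeff_zero_eq_eval_zero, coeff_derivative, hGcoeff]
    simp
  have hordG0 : 0 < ordT p T (G.eval 0) := by
    rw [hG0, ordT_mul, hc0, ordT_sub_comm]
    refine lt_of_lt_of_le ?_ (add_le_add le_rfl ha)
    rw [← WithTop.coe_add]
    exact_mod_cast (by linarith : (0 : ℤ) < -(p : ℤ) * e' + m)
  have hordG'0 : ordT p T (G.derivative.eval 0) = 0 := by
    rw [hG'0, ordT_mul, ordT_mul, hc0, ordT_q, he', ← WithTop.coe_add, ← WithTop.coe_add, hedeg]
    have : -(p : ℤ) * e' + (((p : ℤ) - 1) * e' + e') = 0 := by ring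
    rw [this]
    rfl
  have hcoeff : ∀ i, 0 ≤ ordT p T (G.coeff i) := by
    intro i
    rcases Nat.eq_zero_or_pos i with hi | hi
    · subst hi
      rw [coeff_zero_eq_eval_zero]
      exact hordG0.le
    · rw [hGcoeff, if_neg hi.ne', sub_zero]
      rcases lt_trichotomy i p with hip | hip | hip
      · rw [ordT_mul, ordT_mul, hc0, hlampow, ← add_assoc]
        refine le_trans ?_ (coe_le_add_add (a := -(p : ℤ) * e') (b := (i : ℤ) * e')
          (le_ordT_choose p hi.ne' hip))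
        have h5 : (0 : ℤ) ≤ -(p : ℤ) * e' + (edeg p T : ℤ) + (i : ℤ) * e' := by
          rw [hedeg]
          have h6 : -(p : ℤ) * e' + ((p : ℤ) - 1) * e' + (i : ℤ) * e' = ((i : ℤ) - 1) * e' := by
            ring
          rw [h6]
          have h7 : (0 : ℤ) ≤ (i : ℤ) - 1 := by
            have : (1 : ℤ) ≤ i := by exact_mod_cast hi
            linarith
          exact mul_nonneg h7 he'nn
        exact_mod_cast h5
      · subst hip
        rw [Nat.choose_self, Nat.cast_one, one_mul, inv_mul_cancel₀ (pow_ne_zero _ hlam0),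
          ordT_one]
      · rw [Nat.choose_eq_zero_of_lt hip, Nat.cast_zero, zero_mul, mul_zero, ordT_zero]
        exact le_top
  have h0 : (0 : WithTop ℤ) ≤ ordT p T (0 : T) := by
    rw [ordT_zero]
    exact le_top
  have hh : 2 • ordT p T (G.derivative.eval 0) < ordT p T (G.eval 0) := by
    rw [hordG'0, smul_zero]
    exact hordG0
  obtain ⟨w, hw, -⟩ := Fermat.Agent.S55.helper71.hensel p T G hcoeff 0 h0 hh
  refine ⟨w, ?_⟩
  rw [hGeval] at hw
  rcases mul_eq_zero.1 hw with h | h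
  · exact absurd h (inv_ne_zero (pow_ne_zero _ hlam0))
  · exact sub_eq_zero.1 h

end G1

/-- **FC-G1** (sharp): `U^(m) ⊆ (Tˣ)^p` for `m > p e / (p - 1)`, when `ζ_p ∈ T`. -/
theorem fcG1 : Fermat.Agent.P1.helper14.FCG1Statement p := by
  intro T _ _ _ ζ hζ a m hm ha
  obtain ⟨w, hw⟩ := exists_pow_eq_of_le_ordT p ζ hζ a m hm ha
  exact ⟨_, hw⟩

end Fermat.Agent.P1.helper77
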