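import Mathlib
import Fermat.Agent.P1.helper14_KumEqDefs4

/-!
# P1 / FLAT-CNT / KUMEQ / FC-FF (helper86, task 829)

`fcFinField : FCFinFieldStatement` : for finite fields `κ`, `k` of characteristic `p` and
`κ₀(t) = frobFixed p κ t` (the fixed field of `Frob ^ t`):

1. `κ₀(1)` embeds into `k`;
2. `κ₀(2)` embeds into `k` if `k` contains an element of `𝔽_{p²} \ 𝔽_p`;
3. any two embeddings of `κ₀(t)` (`t > 0`) into `k` differ by `Frob ^ j` with `j < t`.
-/

set_option autoImplicit false
set_option linter.unusedSectionVars false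
set_option linter.unusedVariables false
set_option linter.style.haveILetI false

namespace Fermat.Agent.P1.helper86

open Fermat.Agent.P1.helper14 Polynomial

namespace FinF

section card

variable (p : ℕ) [Fact p.Prime] (K : Type) [Field K] [Finite K] [Algebra (ZMod p) K]

/-- a finite field all of whose elements are fixed by `Frob ^ t` (`t > 0`) has at most `p ^ t`
elements -/
theorem card_le_of_forall_pow_eq (t : ℕ) (ht : 0 < t) (h : ∀ x : K, x ^ (p ^ t) = x) :
    Nat.card K ≤ p ^ t := by
  classical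
  have hp1 : 1 < p := (Fact.out : p.Prime).one_lt
  have := Fintype.ofFinite K
  have hsub : (Finset.univ : Finset K).val ⊆ (X ^ p ^ t - X : K[X]).roots := by
    intro x _
    rw [mem_roots (FiniteField.X_pow_card_pow_sub_X_ne_zero K ht.ne' hp1), IsRoot, eval_sub,
      eval_pow, eval_X, sub_eq_zero]
    exact h x
  have h1 := card_le_degree_of_subset_roots hsub
  rw [FiniteField.X_pow_card_pow_sub_X_natDegree_eq K ht.ne' hp1] at h1
  rw [Nat.card_eq_fintype_card]
  exact h1

/-- a finite field all of whose elements are fixed by `Frob ^ t` (`t > 0`) has degree at most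
`t` over `𝔽_p` -/
theorem finrank_le_of_forall_pow_eq (t : ℕ) (ht : 0 < t) (h : ∀ x : K, x ^ (p ^ t) = x) :
    Module.finrank (ZMod p) K ≤ t := by
  have h1 := card_le_of_forall_pow_eq p K t ht h
  rw [← FiniteField.pow_finrank_eq_natCard p K] at h1
  exact (Nat.pow_le_pow_iff_right (Fact.out : p.Prime).one_lt).mp h1

end card

section even

variable (p : ℕ) [Fact p.Prime] (k : Type) [Field k] [Finite k] [Algebra (ZMod p) k]

/-- iterating `x ^ (p ^ 2) = x` -/
theorem pow_pow_two_mul {x : k} (hx : x ^ (p ^ 2) = x) (m : ℕ) : x ^ (p ^ (2 * m)) = x := by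
  induction m with
  | zero => rw [Nat.mul_zero, pow_zero, pow_one]
  | succ m ih =>
    have h1 : p ^ (2 * (m + 1)) = p ^ (2 * m) * p ^ 2 := by ring
    rw [h1, pow_mul, ih, hx]

/-- a finite field of characteristic `p` which contains an element of `𝔽_{p²} \ 𝔽_p` has even
degree -/
theorem two_dvd_finrank {x : k} (hx : x ^ (p ^ 2) = x) (hx' : x ^ p ≠ x) :
    2 ∣ Module.finrank (ZMod p) k := by
  classical
  have := Fintype.ofFinite k
  have hcard : p ^ Module.finrank (ZMod p) k = Fintype.card k :=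
    FiniteField.pow_finrank_eq_card p k
  have hpow : x ^ (p ^ Module.finrank (ZMod p) k) = x := by
    rw [hcard]
    exact FiniteField.pow_card x
  rcases Nat.even_or_odd' (Module.finrank (ZMod p) k) with ⟨m, hm | hm⟩
  · exact ⟨m, hm⟩
  · exfalso
    apply hx'
    rw [hm, pow_succ, pow_mul, pow_pow_two_mul p k hx m] at hpow
    exact hpow

end even

section emb

variable (p : ℕ) [Fact p.Prime] (k : Type) [Field k] [Finite k] [Algebra (ZMod p) k]

/-- every ring homomorphism between `𝔽_p`-algebras is an `𝔽_p`-algebra homomorphism -/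
def toAlgHomZMod {K : Type} [Field K] [Algebra (ZMod p) K] (σ : K →+* k) : K →ₐ[ZMod p] k :=
  { σ with
    commutes' := fun a => by
      have h : σ.comp (algebraMap (ZMod p) K) = algebraMap (ZMod p) k := Subsingleton.elim _ _
      exact congrArg (fun f : ZMod p →+* k => f a) h }

theorem toAlgHomZMod_apply {K : Type} [Field K] [Algebra (ZMod p) K] (σ : K →+* k) (x : K) :
    toAlgHomZMod p k σ x = σ x := rfl

/-- any two embeddings of a finite field `K` into `k` differ by a power `Frob ^ j` with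
`j < [K : 𝔽_p]` -/
theorem exists_frob_pow {K : Type} [Field K] [Finite K] [Algebra (ZMod p) K]
    (σ₁ σ : K →+* k) :
    ∃ j : ℕ, j < Module.finrank (ZMod p) K ∧ ∀ x, σ x = (σ₁ x) ^ (p ^ j) := by
  classical
  have := Fintype.ofFinite K
  have hdvd : Module.finrank (ZMod p) K ∣ Module.finrank (ZMod p) k :=
    FiniteField.nonempty_algHom_iff_finrank_dvd.mp ⟨toAlgHomZMod p k σ₁⟩
  have hcard : Nat.card (K →ₐ[ZMod p] k) = Module.finrank (ZMod p) K :=
    FiniteField.natCard_algHom_of_finrank_dvd hdvd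
  have hfin : Finite (K →ₐ[ZMod p] k) :=
    Finite.of_injective (fun f : K →ₐ[ZMod p] k => (f : K → k)) DFunLike.coe_injective
  let Φ : Fin (Module.finrank (ZMod p) K) → (K →ₐ[ZMod p] k) := fun n =>
    (toAlgHomZMod p k σ₁).comp (FiniteField.frobeniusAlgHom (ZMod p) K ^ n.1)
  have hΦ : Function.Injective Φ := by
    intro a b hab
    apply (FiniteField.bijective_frobeniusAlgHom_pow (ZMod p) K).1
    show FiniteField.frobeniusAlgHom (ZMod p) K ^ a.1 = FiniteField.frobeniusAlgHom (ZMod p) K ^ b.1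
    ext x
    have h1 := congrArg (fun f : K →ₐ[ZMod p] k => f x) hab
    exact σ₁.injective h1
  have hbij : Function.Bijective Φ := by
    refine hΦ.bijective_of_nat_card_le ?_
    rw [hcard, Nat.card_eq_fintype_card, Fintype.card_fin]
  obtain ⟨j, hj⟩ := hbij.2 (toAlgHomZMod p k σ)
  refine ⟨j.1, j.2, fun x => ?_⟩
  have h1 := congrArg (fun f : K →ₐ[ZMod p] k => f x) hj
  have h2 : ∀ (n : ℕ) (y : K), (FiniteField.frobeniusAlgHom (ZMod p) K ^ n) y = y ^ (p ^ n) := by
    intro n
    induction n with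
    | zero => intro y; rw [pow_zero, pow_zero, pow_one]; rfl
    | succ n ih =>
      intro y
      rw [pow_succ, AlgHom.mul_apply, ih, FiniteField.coe_frobeniusAlgHom, ZMod.card,
        ← pow_mul, pow_succ, mul_comm]
  have h3 : Φ j x = (σ₁ x) ^ (p ^ j.1) := by
    show σ₁ ((FiniteField.frobeniusAlgHom (ZMod p) K ^ j.1) x) = _
    rw [h2, map_pow]
  rw [← h3]
  exact h1.symm

end emb

end FinF

open FinF in
/-- **FC-FF**. -/
theorem fcFinField : FCFinFieldStatement := by
  intro p _ κ k _ _ _ _ _ _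
  have hfix : ∀ (t : ℕ) (x : frobFixed p κ t), x ^ (p ^ t) = x := fun t x =>
    Subtype.ext (by
      rw [SubmonoidClass.coe_pow]
      exact x.2)
  refine ⟨?_, ?_, ?_⟩
  · -- (1)
    letI : Algebra (ZMod p) (frobFixed p κ 1) := ZMod.algebra _ p
    have h1 : Module.finrank (ZMod p) (frobFixed p κ 1) = 1 :=
      le_antisymm (finrank_le_of_forall_pow_eq p _ 1 Nat.one_pos (hfix 1)) Module.finrank_pos
    obtain ⟨f⟩ := FiniteField.nonempty_algHom_of_finrank_dvd
      (F := ZMod p) (K := frobFixed p κ 1) (L := k) (by rw [h1]; exact one_dvd _)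
    exact ⟨f.toRingHom⟩
  · -- (2)
    rintro ⟨x, hx, hx'⟩
    letI : Algebra (ZMod p) (frobFixed p κ 2) := ZMod.algebra _ p
    have h2 : Module.finrank (ZMod p) (frobFixed p κ 2) ≤ 2 :=
      finrank_le_of_forall_pow_eq p _ 2 (by norm_num) (hfix 2)
    have h0 : 0 < Module.finrank (ZMod p) (frobFixed p κ 2) := Module.finrank_pos
    have hdvd : Module.finrank (ZMod p) (frobFixed p κ 2) ∣ Module.finrank (ZMod p) k := by
      have h3 : Module.finrank (ZMod p) (frobFixed p κ 2) = 1 ∨
          Module.finrank (ZMod p) (frobFixed p κ 2) = 2 := by omega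
      rcases h3 with h3 | h3
      · rw [h3]; exact one_dvd _
      · rw [h3]; exact two_dvd_finrank p k hx hx'
    obtain ⟨f⟩ := FiniteField.nonempty_algHom_of_finrank_dvd
      (F := ZMod p) (K := frobFixed p κ 2) (L := k) hdvd
    exact ⟨f.toRingHom⟩
  · -- (3)
    intro t σ₁ σ ht
    letI : Algebra (ZMod p) (frobFixed p κ t) := ZMod.algebra _ p
    obtain ⟨j, hj, h⟩ := exists_frob_pow p k (K := frobFixed p κ t) σ₁ σ
    exact ⟨j, lt_of_lt_of_le hj (finrank_le_of_forall_pow_eq p _ t ht (hfix t)), h⟩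

end Fermat.Agent.P1.helper86
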