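import Mathlib
import Fermat.Agent.P1.helper14_KRDefs

/-!
# P1 / FLAT-CNT (helper70): the elementary "flat theory" (FT) — package statements

Replaces the connected-étale theory in step ORD of BLUEPRINT P1-FLAT-CNT.  Everything happens in
the convolution monoid of points `WithConv (H →ₐ[O] F)` of a commutative cocommutative
bialgebra `H` over `O` (in the application `O = ℤ_(p)`), with values in a finite Galois extension
`F` of `ℚ_p` (S55 LOC vocabulary: `ordT p F`, and `helper14.inertia p F`).

For a point `x` write `x ≡ 1` if `0 < ord (x h - ε h)` for all `h` (the point reduces to the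
identity).  `σ ∈ Gal(F/ℚ_p)` acts on points by post-composition; we express `σ ∘ x = y`
pointwise, `∀ h, σ (x h) = y h`.

* `FTAStatement`  : `σ ∘ x ≡ x` for `σ` in the inertia group, i.e. `(σ ∘ x) * x ^ (p - 1) ≡ 1`
                    (trivial from the definition of inertia; stated for completeness);
* `FTCStatement`  : `p` odd.  If `Y` is a finite inertia-stable submonoid of points killed by
                    `p` (hence a group), `x ≡ 1`,
                    `x ^ p = 1` and `σ ∘ x ∈ x * Y` for all `σ` in the inertia group, then `x ∈ Y`.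
                    (`Y = 1`: a point reducing to the identity and fixed by inertia is trivial.)
* `FTOTStatement` : `F` tame, `ζ_p ∈ F`.  If `x ≠ 1`, `x ≡ 1`, `x ^ p = 1` and inertia acts on the
                    line generated by `x` through a character `σ ∘ x = x ^ (a σ)`, then this
                    character is the cyclotomic one: `σ ζ = ζ ^ (a σ)`.
-/

set_option autoImplicit false

namespace Fermat.Agent.P1.helper70

open Fermat.Agent.S55.helper8 Fermat.Agent.S55.helper7 Fermat.Agent.P1.helper14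

/-- A point reduces to the identity. -/
def PointRedOne (p : ℕ) [Fact p.Prime] {F : Type} [Field F] [Algebra ℚ_[p] F]
    [FiniteDimensional ℚ_[p] F] {O H : Type} [CommRing O] [CommRing H] [Bialgebra O H]
    [Algebra O F] (x : WithConv (H →ₐ[O] F)) : Prop :=
  ∀ h : H, 0 < ordT p F (x.ofConv h - algebraMap O F (Coalgebra.counit h))

/-- All points have integral values (automatic if `H` is integral over `O = ℤ_(p)`). -/
def PointsIntegral (p : ℕ) [Fact p.Prime] (F : Type) [Field F] [Algebra ℚ_[p] F]
    [FiniteDimensional ℚ_[p] F] (O H : Type) [CommRing O] [CommRing H] [Bialgebra O H]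
    [Algebra O F] : Prop :=
  ∀ (y : WithConv (H →ₐ[O] F)) (h : H), 0 ≤ ordT p F (y.ofConv h)

/-- **FT-A**: inertia moves a point by a point reducing to the identity. -/
def FTAStatement (p : ℕ) [Fact p.Prime] : Prop :=
  ∀ (F : Type) [Field F] [Algebra ℚ_[p] F] [FiniteDimensional ℚ_[p] F]
    (O H : Type) [CommRing O] [CommRing H] [Bialgebra O H] [Coalgebra.IsCocomm O H]
    [Algebra O F],
    PointsIntegral p F O H →
    ∀ (x y : WithConv (H →ₐ[O] F)) (σ : F ≃ₐ[ℚ_[p]] F), σ ∈ inertia p F →
      x ^ p = 1 → (∀ h, σ (x.ofConv h) = y.ofConv h) → PointRedOne p (y * x ^ (p - 1))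

/-- **FT-C**: the connected part is contained in the ramified part (relative form). -/
def FTCStatement (p : ℕ) [Fact p.Prime] : Prop :=
  ∀ (F : Type) [Field F] [Algebra ℚ_[p] F] [FiniteDimensional ℚ_[p] F] [IsGalois ℚ_[p] F]
    (O H : Type) [CommRing O] [CommRing H] [Bialgebra O H] [Coalgebra.IsCocomm O H]
    [Algebra O ℚ_[p]] [Algebra O F] [IsScalarTower O ℚ_[p] F],
    p ≠ 2 → PointsIntegral p F O H →
    ∀ (Y : Submonoid (WithConv (H →ₐ[O] F))) (x : WithConv (H →ₐ[O] F)),
      (Y : Set (WithConv (H →ₐ[O] F))).Finite → (∀ y ∈ Y, y ^ p = 1) →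
      (∀ σ ∈ inertia p F, ∀ y ∈ Y, ∃ y' ∈ Y, ∀ h, σ (y.ofConv h) = y'.ofConv h) →
      x ^ p = 1 → PointRedOne p x →
      (∀ σ ∈ inertia p F, ∃ y ∈ Y, ∀ h, σ (x.ofConv h) = (x * y).ofConv h) →
      x ∈ Y

/-- **FT-OT**: a line of points reducing to the identity, in a tame field, carries the
cyclotomic character on inertia. -/
def FTOTStatement (p : ℕ) [Fact p.Prime] : Prop :=
  ∀ (F : Type) [Field F] [Algebra ℚ_[p] F] [FiniteDimensional ℚ_[p] F] [IsGalois ℚ_[p] F]
    (O H : Type) [CommRing O] [CommRing H] [Bialgebra O H] [Coalgebra.IsCocomm O H]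
    [Algebra O ℚ_[p]] [Algebra O F] [IsScalarTower O ℚ_[p] F],
    PointsIntegral p F O H → ¬ p ∣ edeg p F →
    ∀ (ζ : F), IsPrimitiveRoot ζ p →
    ∀ (x : WithConv (H →ₐ[O] F)), x ≠ 1 → x ^ p = 1 → PointRedOne p x →
      (∀ σ ∈ inertia p F, ∃ a : ℕ, ∀ h, σ (x.ofConv h) = (x ^ a).ofConv h) →
      ∀ σ ∈ inertia p F, ∀ a : ℕ, (∀ h, σ (x.ofConv h) = (x ^ a).ofConv h) → σ ζ = ζ ^ a

end Fermat.Agent.P1.helper70
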