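import Fermat.Agent.P1.helper47_HopfInterface

/-!
# P1 / FLAT-HOPF, package HOPF-2a (helper12, task 631): no small `p`-torsion

`C` a commutative ring, `π ∈ C` a non-zero-divisor with `⋂ π^k C = 0`, `p = π^e w` with `w` a
unit and `n (p - 1) > e`.  If `u ≡ 1 mod π^n` and `u ^ p = 1` then `u = 1`.

* `exists_one_add_pow_prime_eq` : `(1 + y) ^ p = 1 + p y + y ^ p + p y² c` for some `c`;
* `pow_mul_eq_zero_of_nzd` : powers of a non-zero-divisor are non-zero-divisors;
* `hopf2a : Hopf2aStatement`.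
-/

set_option autoImplicit false

namespace Fermat.Agent.P1.helper12

open Fermat.Agent.P1.helper47

/-- the binomial expansion of `(1 + y) ^ p` modulo `p y²` -/
theorem exists_one_add_pow_prime_eq {C : Type*} [CommRing C] {p : ℕ} (hp : p.Prime) (y : C) :
    ∃ c : C, (1 + y) ^ p = 1 + p * y + y ^ p + p * y ^ 2 * c := by
  obtain ⟨q, rfl⟩ : ∃ q, p = q + 2 := ⟨p - 2, by have := hp.two_le; omega⟩
  have hmid : ((q + 2 : ℕ) : C) * y ^ 2 ∣
      ∑ m ∈ Finset.range q, y ^ (m + 2) * (((q + 2).choose (m + 2) : ℕ) : C) := by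
    refine Finset.dvd_sum fun m hm => ?_
    have hm' : m < q := Finset.mem_range.mp hm
    obtain ⟨t, ht⟩ := hp.dvd_choose_self (k := m + 2) (by omega) (by omega)
    refine ⟨y ^ m * (t : C), ?_⟩
    rw [ht]
    push_cast
    ring
  obtain ⟨c, hc⟩ := hmid
  refine ⟨c, ?_⟩
  rw [add_comm (1 : C) y, add_pow]
  simp only [one_pow, mul_one]
  rw [Finset.sum_range_succ, Finset.sum_range_succ', Finset.sum_range_succ', hc]
  simp only [Nat.choose_self, Nat.cast_one, mul_one, pow_zero, Nat.choose_zero_right, zero_add,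
    pow_one, Nat.choose_one_right]
  ring

/-- powers of a non-zero-divisor are non-zero-divisors -/
theorem pow_mul_eq_zero_of_nzd {C : Type*} [CommRing C] {π : C}
    (hπ : ∀ y : C, π * y = 0 → y = 0) (k : ℕ) (z : C) (h : π ^ k * z = 0) : z = 0 := by
  induction k with
  | zero => simpa using h
  | succ k ih =>
    apply ih
    apply hπ
    rw [← mul_assoc, ← pow_succ']
    exact h

/-- **HOPF-2a**: no small `p`-torsion. -/
theorem hopf2a : Hopf2aStatement := by
  intro C _ p hp π w e n hπ hsep hw hpw hen u hu hup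
  classical
  by_contra hne
  have hy0 : u - 1 ≠ 0 := sub_ne_zero.mpr hne
  -- the largest power of `π` dividing `y = u - 1`
  have hbdd : ∃ k, ¬ π ^ k ∣ u - 1 := by
    by_contra h
    exact hy0 (hsep _ fun k => by_contra fun hk => h ⟨k, hk⟩)
  have hk1 : ¬ π ^ (Nat.find hbdd) ∣ u - 1 := Nat.find_spec hbdd
  have hk1n : n < Nat.find hbdd := by
    by_contra hle
    exact hk1 ((pow_dvd_pow π (not_lt.mp hle)).trans hu)
  obtain ⟨k, hk⟩ : ∃ k, Nat.find hbdd = k + 1 := ⟨Nat.find hbdd - 1, by omega⟩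
  have hkn : n ≤ k := by omega
  have hkdvd : π ^ k ∣ u - 1 := by
    have := Nat.find_min hbdd (m := k) (by omega)
    exact not_not.mp this
  rw [hk] at hk1
  obtain ⟨y0, hy⟩ := hkdvd
  -- the binomial identity
  obtain ⟨c, hc⟩ := exists_one_add_pow_prime_eq hp (u - 1)
  have hu1 : (1 : C) + (u - 1) = u := by ring
  rw [hu1, hup] at hc
  -- exponents
  have hp2 := hp.two_le
  have hn1 : 1 ≤ n := by
    rcases Nat.eq_zero_or_pos n with h0 | h0
    · rw [h0, zero_mul] at hen; omega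
    · exact h0
  have hk1' : 1 ≤ k := hn1.trans hkn
  have hexp : e + k + 1 ≤ k * p := by
    have h1 : n * (p - 1) ≤ k * (p - 1) := Nat.mul_le_mul_right _ hkn
    have h2 : k * p = k * (p - 1) + k := by
      obtain ⟨q, rfl⟩ : ∃ q, p = q + 1 := ⟨p - 1, by omega⟩
      rw [Nat.add_sub_cancel]; ring
    omega
  obtain ⟨m, hm⟩ : ∃ m, k * p = e + k + (m + 1) := ⟨k * p - (e + k) - 1, by omega⟩
  -- cancel `π ^ (e + k)`
  have hcancel : w * y0 * (1 + (u - 1) * c) + π ^ (m + 1) * y0 ^ p = 0 := by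
    apply pow_mul_eq_zero_of_nzd hπ (e + k)
    have h1 : (u - 1) ^ p = π ^ (e + k) * (π ^ (m + 1) * y0 ^ p) := by
      rw [hy, mul_pow, ← pow_mul, hm, pow_add]
      ring
    have h2 : (p : C) * (u - 1) + (u - 1) ^ p + (p : C) * (u - 1) ^ 2 * c = 0 := by
      have := hc
      linear_combination -this
    calc π ^ (e + k) * (w * y0 * (1 + (u - 1) * c) + π ^ (m + 1) * y0 ^ p)
        = (π ^ e * w) * (π ^ k * y0) + π ^ (e + k) * (π ^ (m + 1) * y0 ^ p)
            + (π ^ e * w) * (π ^ k * y0) * (u - 1) * c := by rw [pow_add]; ring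
      _ = (p : C) * (u - 1) + (u - 1) ^ p + (p : C) * (u - 1) ^ 2 * c := by
          rw [← hpw, ← hy, ← h1]; ring
      _ = 0 := h2
  -- `π ∣ y0`
  have hπy : π ∣ u - 1 := (dvd_pow_self π (by omega : k ≠ 0)).trans ⟨y0, hy⟩
  have h3 : π ∣ w * (y0 * (1 + (u - 1) * c)) := by
    refine ⟨-(π ^ m * y0 ^ p), ?_⟩
    have := hcancel
    rw [pow_succ'] at this
    linear_combination this
  have h4 : π ∣ y0 * (1 + (u - 1) * c) := (hw.dvd_mul_left).mp h3
  have h5 : π ∣ y0 := by
    have h6 : π ∣ y0 * ((u - 1) * c) := Dvd.dvd.mul_left (Dvd.dvd.mul_right hπy c) y0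
    have h7 : y0 * (1 + (u - 1) * c) = y0 + y0 * ((u - 1) * c) := by ring
    rw [h7] at h4
    exact (dvd_add_left h6).mp h4
  apply hk1
  obtain ⟨z, hz⟩ := h5
  exact ⟨z, by rw [hy, hz, pow_succ]; ring⟩

end Fermat.Agent.P1.helper12
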