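import Mathlib

/-!
# P1 / FLAT-HOPF (helper47): the convolution algebra toolkit

For a bialgebra `H` over `O` and a commutative `O`-algebra `R`, the convolution algebra is
`WithConv (H →ₗ[O] R)` (Mathlib).  This file provides

* `mulStar`, `tensorSq` : the two monoid homomorphisms
  `WithConv (H →ₗ[O] R) →* WithConv (H ⊗[O] H →ₗ[O] R)`, `g ↦ g ∘ μ` and `g ↦ g ⊗ g`;
  an element `g` is multiplicative iff they agree on `g`;
* `redConv φ` : post-composition with an algebra homomorphism `φ : R →ₐ[O] R'`, as a ring
  homomorphism;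
* `ptsToConv` : the inclusion of the points `WithConv (H →ₐ[O] R)`, as a monoid homomorphism;
* divisibility in the convolution algebra by (the image of) a non-zero-divisor of `R` is
  checked pointwise (`dvd_iff_forall_dvd_apply`), `conv_nonZeroDivisor`, `conv_separated`.
-/

set_option autoImplicit false

namespace Fermat.Agent.P1.helper47

open TensorProduct WithConv Coalgebra

section general

variable {O M R : Type} [CommRing O] [AddCommGroup M] [Module O M] [Coalgebra O M]
  [CommRing R] [Algebra O R]

lemma algebraMap_mul_apply (r : R) (f : WithConv (M →ₗ[O] R)) (m : M) :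
    (algebraMap R (WithConv (M →ₗ[O] R)) r * f).ofConv m = r * f.ofConv m := by
  rw [Algebra.algebraMap_eq_smul_one, smul_mul_assoc, one_mul]
  rfl

lemma dvd_apply_of_dvd {r : R} {f : WithConv (M →ₗ[O] R)}
    (h : algebraMap R (WithConv (M →ₗ[O] R)) r ∣ f) (m : M) : r ∣ f.ofConv m := by
  obtain ⟨c, rfl⟩ := h
  exact ⟨c.ofConv m, algebraMap_mul_apply r c m⟩

/-- If `r` is a non-zero-divisor and divides all values of `f`, then `r` divides `f`. -/
lemma dvd_of_forall_dvd_apply {r : R} (hr : ∀ y : R, r * y = 0 → y = 0)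
    {f : WithConv (M →ₗ[O] R)} (h : ∀ m, r ∣ f.ofConv m) :
    algebraMap R (WithConv (M →ₗ[O] R)) r ∣ f := by
  have hinj : ∀ a b : R, r * a = r * b → a = b := by
    intro a b hab
    have : r * (a - b) = 0 := by rw [mul_sub, hab, sub_self]
    exact sub_eq_zero.mp (hr _ this)
  choose c hc using h
  refine ⟨toConv
    { toFun := c
      map_add' := fun a b => hinj _ _ (by rw [mul_add, ← hc, ← hc, ← hc, map_add])
      map_smul' := fun s a => hinj _ _ (by
        rw [RingHom.id_apply, ← hc, map_smul, hc a, mul_smul_comm]) }, ?_⟩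
  apply WithConv.ext
  ext m
  rw [algebraMap_mul_apply]
  exact hc m

lemma dvd_iff_forall_dvd_apply {r : R} (hr : ∀ y : R, r * y = 0 → y = 0)
    {f : WithConv (M →ₗ[O] R)} :
    algebraMap R (WithConv (M →ₗ[O] R)) r ∣ f ↔ ∀ m, r ∣ f.ofConv m :=
  ⟨fun h m => dvd_apply_of_dvd h m, dvd_of_forall_dvd_apply hr⟩

lemma conv_nonZeroDivisor {r : R} (hr : ∀ y : R, r * y = 0 → y = 0)
    (f : WithConv (M →ₗ[O] R)) (h : algebraMap R (WithConv (M →ₗ[O] R)) r * f = 0) : f = 0 := by
  apply WithConv.ext
  ext m
  have := congrArg (fun g : WithConv (M →ₗ[O] R) => g.ofConv m) h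
  simp only [algebraMap_mul_apply] at this
  exact hr _ this

lemma conv_separated {r : R} (hsep : ∀ y : R, (∀ k : ℕ, r ^ k ∣ y) → y = 0)
    (f : WithConv (M →ₗ[O] R))
    (h : ∀ k : ℕ, algebraMap R (WithConv (M →ₗ[O] R)) r ^ k ∣ f) : f = 0 := by
  apply WithConv.ext
  ext m
  refine hsep _ fun k => ?_
  have := h k
  rw [← map_pow] at this
  exact dvd_apply_of_dvd this m

end general

section red

variable {O M R R' : Type} [CommRing O] [AddCommGroup M] [Module O M] [Coalgebra O M]
  [CommRing R] [Algebra O R] [CommRing R'] [Algebra O R']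

/-- Post-composition with an algebra homomorphism, as a ring homomorphism of convolution
algebras. -/
noncomputable def redConv (φ : R →ₐ[O] R') :
    WithConv (M →ₗ[O] R) →+* WithConv (M →ₗ[O] R') where
  toFun g := toConv (φ.toLinearMap ∘ₗ g.ofConv)
  map_one' := by
    apply WithConv.ext
    ext m
    simp [LinearMap.convOne_def]
  map_mul' f g := by
    apply WithConv.ext
    exact LinearMap.algHom_comp_convMul_distrib φ f g
  map_zero' := by
    apply WithConv.ext
    ext m
    simp
  map_add' f g := by
    apply WithConv.ext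
    ext m
    simp

@[simp] lemma redConv_apply (φ : R →ₐ[O] R') (g : WithConv (M →ₗ[O] R)) (m : M) :
    (redConv φ g).ofConv m = φ (g.ofConv m) := rfl

end red

section pts

variable {O H R : Type} [CommRing O] [CommRing H] [Bialgebra O H] [CommRing R] [Algebra O R]

/-- The inclusion of the points into the convolution algebra, as a monoid homomorphism. -/
noncomputable def ptsToConv : WithConv (H →ₐ[O] R) →* WithConv (H →ₗ[O] R) where
  toFun x := toConv x.ofConv.toLinearMap
  map_one' := AlgHom.toLinearMap_convOne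
  map_mul' x y := AlgHom.toLinearMap_convMul x y

@[simp] lemma ptsToConv_apply (x : WithConv (H →ₐ[O] R)) (h : H) :
    (ptsToConv x).ofConv h = x.ofConv h := rfl

lemma ptsToConv_injective : Function.Injective (ptsToConv (O := O) (H := H) (R := R)) := by
  intro x y hxy
  apply WithConv.ext
  apply AlgHom.toLinearMap_injective
  exact congrArg WithConv.ofConv hxy

/-- `μ^*` : precomposition with the multiplication of `H`. -/
noncomputable def mulStar : WithConv (H →ₗ[O] R) →* WithConv (H ⊗[O] H →ₗ[O] R) where
  toFun g := toConv (g.ofConv ∘ₗ LinearMap.mul' O H)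
  map_one' := by
    apply WithConv.ext
    ext a b
    simp [LinearMap.convOne_def, mul_comm]
  map_mul' f g := by
    apply WithConv.ext
    have := LinearMap.convMul_comp_coalgHom_distrib f g (Bialgebra.mulCoalgHom O H)
    simpa using this

@[simp] lemma mulStar_apply (g : WithConv (H →ₗ[O] R)) (a b : H) :
    (mulStar g).ofConv (a ⊗ₜ[O] b) = g.ofConv (a * b) := rfl

/-- `g ↦ g ⊗ g` : `(a ⊗ b) ↦ g a * g b`. -/
noncomputable def tensorSq : WithConv (H →ₗ[O] R) →* WithConv (H ⊗[O] H →ₗ[O] R) where
  toFun g := toConv (LinearMap.mul' O R ∘ₗ TensorProduct.map g.ofConv g.ofConv)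
  map_one' := by
    apply WithConv.ext
    ext a b
    simp [LinearMap.convOne_def, mul_comm]
  map_mul' f g := by
    apply WithConv.ext
    have h1 := TensorProduct.map_convMul_map (f := f) (h := g) (g := f) (k := g)
    have h2 := LinearMap.algHom_comp_convMul_distrib (Algebra.TensorProduct.lmul' O (S := R))
      (toConv (TensorProduct.map f.ofConv f.ofConv)) (toConv (TensorProduct.map g.ofConv g.ofConv))
    rw [h1] at h2
    exact h2

@[simp] lemma tensorSq_apply (g : WithConv (H →ₗ[O] R)) (a b : H) :
    (tensorSq g).ofConv (a ⊗ₜ[O] b) = g.ofConv a * g.ofConv b := rfl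

/-- `g` is multiplicative as soon as `μ^* g = g ⊗ g`. -/
lemma map_mul_of_mulStar_eq {g : WithConv (H →ₗ[O] R)} (h : mulStar g = tensorSq g) (a b : H) :
    g.ofConv (a * b) = g.ofConv a * g.ofConv b := by
  rw [← mulStar_apply, ← tensorSq_apply, h]

end pts

end Fermat.Agent.P1.helper47
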