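import Mathlib
import Fermat.Agent.P1.helper70_FTDefs
import Fermat.Agent.P1.helper47_HopfConv
import Fermat.Agent.P1.helper12_Hopf2a
import Fermat.Agent.P1.helper50_KumWild

/-!
# P1 / FLAT-CNT, package FT-OT (helper88): the convolution part

`H` a commutative cocommutative bialgebra over `O`, `F / ℚ_p` finite, all points of `H` in `F`
integral.  For a point `x ≠ 1` with `x ^ p = 1` reducing to the identity we work in the
convolution ring `C = WithConv (H →ₗ[O] F)` with `y = x - 1`, filtered by the pointwise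
valuation.  Let `n = min_h ord (y h)`, attained at `h₀`, and `v = y h₀`.  Then

* `1 ≤ n` and `n (p - 1) ≤ e` (from `(1 + y) ^ p = 1`);
* if `σ ∘ x = x ^ a` pointwise, then `ord (σ v - a v) ≥ 2 n > n`
  (from `(1 + y) ^ a = 1 + a y + y² g`).

This is `ft_conv_main`.
-/

set_option autoImplicit false
set_option linter.unusedSectionVars false

namespace Fermat.Agent.P1.helper88

open Fermat.Agent.S55.helper8 Fermat.Agent.S55.helper7 Fermat.Agent.P1.helper14
  Fermat.Agent.P1.helper70 Fermat.Agent.P1.helper47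
open TensorProduct WithConv Coalgebra

/-- the binomial expansion of `(1 + y) ^ a` modulo `y²` -/
theorem ft_one_add_pow {C : Type*} [CommRing C] (y : C) (a : ℕ) :
    ∃ g : C, (1 + y) ^ a = 1 + (a : C) * y + y ^ 2 * g := by
  induction a with
  | zero => exact ⟨0, by simp⟩
  | succ a ih =>
    obtain ⟨g, hg⟩ := ih
    refine ⟨(a : C) + g + g * y, ?_⟩
    rw [pow_succ, hg]
    push_cast
    ring

/-- a nonzero integral element has a natural number as valuation -/
lemma ft_exists_nat_ordT (p : ℕ) [Fact p.Prime] (F : Type) [Field F] [Algebra ℚ_[p] F]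
    [FiniteDimensional ℚ_[p] F] {z : F} (hz : z ≠ 0) (h0 : 0 ≤ ordT p F z) :
    ∃ k : ℕ, ordT p F z = ((k : ℤ) : WithTop ℤ) := by
  rw [ordT_of_ne_zero p F hz] at h0 ⊢
  have h1 : (0 : ℤ) ≤ ord p F (Units.mk0 z hz) := by exact_mod_cast h0
  refine ⟨(ord p F (Units.mk0 z hz)).toNat, ?_⟩
  rw [Int.toNat_of_nonneg h1]

section conv

variable (p : ℕ) [Fact p.Prime]
variable (F : Type) [Field F] [Algebra ℚ_[p] F] [FiniteDimensional ℚ_[p] F]
variable (O H : Type) [CommRing O] [CommRing H] [Bialgebra O H] [Algebra O F]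

/-- pointwise valuation bound for a convolution product -/
lemma ft_conv_mul_le {f g : WithConv (H →ₗ[O] F)} {a b : WithTop ℤ}
    (hf : ∀ h, a ≤ ordT p F (f.ofConv h)) (hg : ∀ h, b ≤ ordT p F (g.ofConv h)) (h : H) :
    a + b ≤ ordT p F ((f * g).ofConv h) := by
  have key : ∀ t : H ⊗[O] H,
      a + b ≤ ordT p F (LinearMap.mul' O F (TensorProduct.map f.ofConv g.ofConv t)) := by
    intro t
    induction t using TensorProduct.induction_on with
    | zero => simp [ordT_zero]
    | tmul x y =>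
      rw [TensorProduct.map_tmul, LinearMap.mul'_apply]
      exact Fermat.Agent.P1.helper50.le_ordT_mul p F (hf x) (hg y)
    | add x y hx hy =>
      rw [map_add, map_add]
      exact Fermat.Agent.P1.helper50.le_ordT_add p F hx hy
  exact key (comul h)

lemma ft_conv_one_apply (h : H) :
    (1 : WithConv (H →ₗ[O] F)).ofConv h = algebraMap O F (counit h) := rfl

lemma ft_conv_natCast_mul_apply (k : ℕ) (f : WithConv (H →ₗ[O] F)) (h : H) :
    ((k : WithConv (H →ₗ[O] F)) * f).ofConv h = (k : F) * f.ofConv h := by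
  have : (k : WithConv (H →ₗ[O] F)) = algebraMap F (WithConv (H →ₗ[O] F)) (k : F) :=
    (map_natCast _ k).symm
  rw [this, algebraMap_mul_apply]

/-- The filtration of the convolution ring by the pointwise valuation. -/
def FtFil (m : ℕ) (f : WithConv (H →ₗ[O] F)) : Prop :=
  ∀ h : H, ((m : ℤ) : WithTop ℤ) ≤ ordT p F (f.ofConv h)

variable {p F O H}

lemma FtFil.mul {a b : ℕ} {f g : WithConv (H →ₗ[O] F)} (hf : FtFil p F O H a f)
    (hg : FtFil p F O H b g) : FtFil p F O H (a + b) (f * g) := by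
  intro h
  have := ft_conv_mul_le p F O H hf hg h
  have e : (((a + b : ℕ) : ℤ) : WithTop ℤ) = ((a : ℤ) : WithTop ℤ) + ((b : ℤ) : WithTop ℤ) := by
    push_cast; rfl
  rw [e]
  exact this

lemma FtFil.mono {a b : ℕ} (hab : a ≤ b) {f : WithConv (H →ₗ[O] F)} (hf : FtFil p F O H b f) :
    FtFil p F O H a f := by
  intro h
  refine le_trans ?_ (hf h)
  exact_mod_cast hab

lemma FtFil.pow {a : ℕ} {f : WithConv (H →ₗ[O] F)} (h1 : FtFil p F O H 0 1)
    (hf : FtFil p F O H a f) (k : ℕ) : FtFil p F O H (k * a) (f ^ k) := by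
  induction k with
  | zero => simpa using h1
  | succ k ih =>
    rw [pow_succ, Nat.succ_mul]
    exact ih.mul hf

variable (p F O H)
variable [Coalgebra.IsCocomm O H]

/-- The subring of pointwise integral elements of the convolution ring. -/
def ftInt (h1 : FtFil p F O H 0 1) : Subring (WithConv (H →ₗ[O] F)) where
  carrier := {f | FtFil p F O H 0 f}
  mul_mem' := by
    intro f g hf hg
    have := FtFil.mul hf hg
    simpa using this
  one_mem' := h1
  add_mem' := by
    intro f g hf hg h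
    rw [ofConv_add, LinearMap.add_apply]
    exact Fermat.Agent.P1.helper50.le_ordT_add p F (hf h) (hg h)
  zero_mem' := by
    intro h
    simp [ordT_zero]
  neg_mem' := by
    intro f hf h
    rw [ofConv_neg, LinearMap.neg_apply, ordT_neg]
    exact hf h

lemma mem_ftInt (h1 : FtFil p F O H 0 1) {f : WithConv (H →ₗ[O] F)} :
    f ∈ ftInt p F O H h1 ↔ FtFil p F O H 0 f := Iff.rfl

variable [Algebra O ℚ_[p]] [IsScalarTower O ℚ_[p] F]

/-- **FT-OT, convolution part.** -/
theorem ft_conv_main (hint : PointsIntegral p F O H) (x : WithConv (H →ₐ[O] F))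
    (hx1 : x ≠ 1) (hxp : x ^ p = 1) (hred : PointRedOne p x) :
    ∃ (n : ℕ) (v : F), 1 ≤ n ∧ n * (p - 1) ≤ edeg p F ∧
      ordT p F v = ((n : ℤ) : WithTop ℤ) ∧
      ∀ (σ : F ≃ₐ[ℚ_[p]] F) (a : ℕ), (∀ h, σ (x.ofConv h) = (x ^ a).ofConv h) →
        ((n : ℤ) : WithTop ℤ) < ordT p F (σ v - (a : F) * v) := by
  classical
  have hp : p.Prime := Fact.out
  have hp2 := hp.two_le
  -- the convolution ring
  have h1 : FtFil p F O H 0 1 := fun h => by
    have := hint 1 h
    simpa using this
  set X : WithConv (H →ₗ[O] F) := ptsToConv x with hX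
  set y : WithConv (H →ₗ[O] F) := X - 1 with hy
  have hXy : X = 1 + y := by rw [hy]; ring
  have hyapp : ∀ h, y.ofConv h = x.ofConv h - algebraMap O F (counit h) := fun h => rfl
  have hy0 : FtFil p F O H 0 y := fun h => by
    rw [hyapp]
    exact (hred h).le
  -- `y ≠ 0`
  have hyne : ∃ h, y.ofConv h ≠ 0 := by
    by_contra hcon0
    have hcon : ∀ h, y.ofConv h = 0 := fun h => by
      by_contra hh
      exact hcon0 ⟨h, hh⟩
    apply hx1
    apply ptsToConv_injective
    rw [map_one]
    have : y = 0 := by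
      apply WithConv.ext
      ext h
      exact hcon h
    rw [← hX, hXy, this, add_zero]
  -- the minimal valuation
  have hex : ∃ k : ℕ, ∃ h, ordT p F (y.ofConv h) = ((k : ℤ) : WithTop ℤ) := by
    obtain ⟨h, hh⟩ := hyne
    obtain ⟨k, hk⟩ := ft_exists_nat_ordT p F hh (hy0 h)
    exact ⟨k, h, hk⟩
  obtain ⟨h₀, hh₀⟩ := Nat.find_spec hex
  set n : ℕ := Nat.find hex with hn
  have hyn : FtFil p F O H n y := by
    intro h
    by_cases hz : y.ofConv h = 0
    · rw [hz, ordT_zero]; exact le_top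
    · obtain ⟨k, hk⟩ := ft_exists_nat_ordT p F hz (hy0 h)
      rw [hk]
      have : n ≤ k := Nat.find_min' hex ⟨h, hk⟩
      exact_mod_cast this
  have hn1 : 1 ≤ n := by
    have h2 := hred h₀
    rw [← hyapp, hh₀] at h2
    have : (0 : ℤ) < (n : ℤ) := by exact_mod_cast h2
    omega
  set v : F := y.ofConv h₀ with hv
  -- integral structure
  let Y : ftInt p F O H h1 := ⟨y, hy0⟩
  refine ⟨n, v, hn1, ?_, hh₀, ?_⟩
  · -- `n (p - 1) ≤ e`
    by_contra hlt0
    have hlt : edeg p F < n * (p - 1) := not_le.mp hlt0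
    obtain ⟨c, hc⟩ := Fermat.Agent.P1.helper12.exists_one_add_pow_prime_eq hp Y
    have hc' := congrArg (Subtype.val) hc
    simp only [Subring.coe_add, Subring.coe_mul, Subring.coe_pow, Subring.coe_one,
      Subring.coe_natCast] at hc'
    have hYy : ((Y : ftInt p F O H h1) : WithConv (H →ₗ[O] F)) = y := rfl
    rw [hYy, ← hXy, hX, ← map_pow, hxp, map_one] at hc'
    have hc0 : FtFil p F O H 0 (c : WithConv (H →ₗ[O] F)) := c.2
    -- evaluate at `h₀`
    have hsum : (p : F) * v + ((y ^ p).ofConv h₀ +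
        (p : F) * (y ^ 2 * (c : WithConv (H →ₗ[O] F))).ofConv h₀) = 0 := by
      have e1 : (p : WithConv (H →ₗ[O] F)) * y + (y ^ p +
          (p : WithConv (H →ₗ[O] F)) * (y ^ 2 * (c : WithConv (H →ₗ[O] F)))) = 0 := by
        linear_combination -hc'
      have e2 := congrArg (fun f : WithConv (H →ₗ[O] F) => f.ofConv h₀) e1
      simp only [ofConv_add, LinearMap.add_apply, ft_conv_natCast_mul_apply, ofConv_zero,
        LinearMap.zero_apply] at e2
      exact e2
    have hA : ordT p F ((p : F) * v) = (((edeg p F : ℤ) + n : ℤ) : WithTop ℤ) := by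
      rw [ordT_mul, ordT_q, hv, hh₀]
      rfl
    have hB : (((edeg p F : ℤ) + n + 1 : ℤ) : WithTop ℤ) ≤ ordT p F ((y ^ p).ofConv h₀) := by
      refine le_trans ?_ (FtFil.pow h1 hyn p h₀)
      rw [WithTop.coe_le_coe]
      have h3 : p * n = n * (p - 1) + n := by
        obtain ⟨q, rfl⟩ : ∃ q, p = q + 1 := ⟨p - 1, by omega⟩
        rw [Nat.add_sub_cancel]; ring
      have : edeg p F + n + 1 ≤ p * n := by omega
      exact_mod_cast this
    have hC : (((edeg p F : ℤ) + n + 1 : ℤ) : WithTop ℤ) ≤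
        ordT p F ((p : F) * (y ^ 2 * (c : WithConv (H →ₗ[O] F))).ofConv h₀) := by
      have h4 : FtFil p F O H (2 * n + 0) (y ^ 2 * (c : WithConv (H →ₗ[O] F))) :=
        (FtFil.pow h1 hyn 2).mul hc0
      rw [ordT_mul, ordT_q]
      refine le_trans ?_ (add_le_add le_rfl (h4 h₀))
      rw [← WithTop.coe_add, WithTop.coe_le_coe]
      push_cast
      omega
    have hBC := Fermat.Agent.P1.helper50.le_ordT_add p F hB hC
    have hAeq : (p : F) * v = -((y ^ p).ofConv h₀ +
        (p : F) * (y ^ 2 * (c : WithConv (H →ₗ[O] F))).ofConv h₀) :=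
      eq_neg_of_add_eq_zero_left hsum
    rw [← ordT_neg, ← hAeq, hA, WithTop.coe_le_coe] at hBC
    omega
  · -- the eigenvalue congruence
    intro σ a hσ
    obtain ⟨g, hg⟩ := ft_one_add_pow Y a
    have hg' := congrArg (Subtype.val) hg
    simp only [Subring.coe_add, Subring.coe_mul, Subring.coe_pow, Subring.coe_one,
      Subring.coe_natCast] at hg'
    have hYy : ((Y : ftInt p F O H h1) : WithConv (H →ₗ[O] F)) = y := rfl
    rw [hYy, ← hXy, hX, ← map_pow] at hg'
    have hg0 : FtFil p F O H 0 (g : WithConv (H →ₗ[O] F)) := g.2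
    have e2 := congrArg (fun f : WithConv (H →ₗ[O] F) => f.ofConv h₀) hg'
    simp only [ofConv_add, LinearMap.add_apply, ft_conv_natCast_mul_apply, ptsToConv_apply,
      ft_conv_one_apply] at e2
    have hσc : σ (algebraMap O F (counit h₀)) = algebraMap O F (counit h₀) := by
      rw [IsScalarTower.algebraMap_apply O ℚ_[p] F, AlgEquiv.commutes]
    have key : σ v - (a : F) * v = (y ^ 2 * (g : WithConv (H →ₗ[O] F))).ofConv h₀ := by
      rw [hv, hyapp, map_sub, hσc, hσ h₀, e2]
      have : y.ofConv h₀ = x.ofConv h₀ - algebraMap O F (counit h₀) := hyapp h₀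
      rw [this]
      ring
    rw [key]
    have h4 : FtFil p F O H (2 * n + 0) (y ^ 2 * (g : WithConv (H →ₗ[O] F))) :=
      (FtFil.pow h1 hyn 2).mul hg0
    refine lt_of_lt_of_le ?_ (h4 h₀)
    rw [WithTop.coe_lt_coe]
    push_cast
    omega

end conv

end Fermat.Agent.P1.helper88
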