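import Mathlib
import Fermat.Agent.P1.helper70_FTDefs
import Fermat.Agent.P1.helper5_KumVal
import Fermat.Agent.P1.helper88_FTConv
import Fermat.Agent.P1.helper88_FTTame

/-!
# P1 / FLAT-CNT, package FT-OT (helper88, task 712)

`ftOT p : helper70.FTOTStatement p` : in a tame finite Galois extension `F / ℚ_p` containing
`ζ_p`, a line of points of a commutative cocommutative bialgebra that reduce to the identity
carries the cyclotomic character on inertia.

Proof.  Let `y = x - 1` in the convolution ring, `n = min_h ord (y h) = ord v`, `v = y h₀`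
(`helper88_FTConv`): `n (p - 1) ≤ e`, and `σ ∘ x = x ^ a` gives `σ v ≡ a v` modulo valuation
`> n`, hence `χ(σ) ^ n = a` for the tame character `χ` (`helper88_FTTame`).  Since `χ` is
injective on the cyclic group `I` of order `e` and `a ^ (p - 1) = 1` in `k_F`, `e ∣ n (p - 1)`,
so `n (p - 1) = e`, i.e. `n = ord (ζ - 1)`.  The same computation with `v = ζ - 1`,
`σ ζ = ζ ^ b`, gives `χ(σ) ^ n = b`, whence `a ≡ b mod p` and `σ ζ = ζ ^ a`.
-/

set_option autoImplicit false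

namespace Fermat.Agent.P1.helper88

open Fermat.Agent.S55.helper8 Fermat.Agent.S55.helper7 Fermat.Agent.P1.helper14
  Fermat.Agent.P1.helper70

/-- Fermat's little theorem in the residue field. -/
lemma ft_natCast_pow_sub_one (p : ℕ) [Fact p.Prime] (F : Type) [Field F] [Algebra ℚ_[p] F]
    [FiniteDimensional ℚ_[p] F] {a : ℕ} (ha : (a : kq p F) ≠ 0) :
    (a : kq p F) ^ (p - 1) = 1 := by
  have hpa : ¬ p ∣ a := fun h => ha ((CharP.cast_eq_zero_iff (kq p F) p a).2 h)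
  have h0 : (a : ZMod p) ≠ 0 := by
    rw [Ne, ZMod.natCast_eq_zero_iff]
    exact hpa
  have h1 : (a : ZMod p) ^ (p - 1) = 1 := ZMod.pow_card_sub_one_eq_one h0
  have h2 := congrArg (ZMod.castHom (dvd_refl p) (kq p F)) h1
  simpa using h2

/-- the eigenvalue congruence for a primitive `p`-th root of unity -/
lemma ft_zeta_congr (p : ℕ) [Fact p.Prime] (F : Type) [Field F] [Algebra ℚ_[p] F]
    [FiniteDimensional ℚ_[p] F] {ζ : F} {n : ℕ} (hn : 1 ≤ n)
    (hw : ordT p F (ζ - 1) = ((n : ℤ) : WithTop ℤ)) (σ : F ≃ₐ[ℚ_[p]] F) {b : ℕ}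
    (hb : σ ζ = ζ ^ b) :
    ((n : ℤ) : WithTop ℤ) < ordT p F (σ (ζ - 1) - (b : F) * (ζ - 1)) := by
  have hw0 : 0 ≤ ordT p F (ζ - 1) := by
    rw [hw]
    exact_mod_cast (Int.natCast_nonneg n)
  obtain ⟨g, hg⟩ := ft_one_add_pow (⟨ζ - 1, hw0⟩ : Oq p F) b
  have hg' := congrArg (Subtype.val) hg
  simp only [Subring.coe_add, Subring.coe_mul, Subring.coe_pow, Subring.coe_one,
    Subring.coe_natCast] at hg'
  have hζ1 : (1 : F) + (ζ - 1) = ζ := by ring
  rw [hζ1] at hg'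
  have key : σ (ζ - 1) - (b : F) * (ζ - 1) = (ζ - 1) ^ 2 * (g : F) := by
    rw [map_sub, map_one, hb, hg']
    ring
  rw [key, ordT_mul, ordT_pow, hw]
  have hg0 : (0 : WithTop ℤ) ≤ ordT p F (g : F) := g.2
  refine lt_of_lt_of_le ?_ (add_le_add le_rfl hg0)
  rw [add_zero]
  have e : (2 : ℕ) • (((n : ℤ) : WithTop ℤ)) = (((n : ℤ) + (n : ℤ) : ℤ) : WithTop ℤ) := by
    rw [two_nsmul, ← WithTop.coe_add]
  rw [e, WithTop.coe_lt_coe]
  omega

/-- **FT-OT**: a line of points reducing to the identity, in a tame field, carries the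
cyclotomic character on inertia. -/
theorem ftOT (p : ℕ) [Fact p.Prime] : Fermat.Agent.P1.helper70.FTOTStatement p := by
  intro F _ _ _ _ O H _ _ _ _ _ _ _ hint htame ζ hζ x hx1 hxp hred hchar σ hσ a ha
  have hp : p.Prime := Fact.out
  have hp2 := hp.two_le
  obtain ⟨ϖ, hϖ⟩ := Fermat.Agent.P1.helper41.kum_exists_unif p F
  obtain ⟨n, v, hn1, hne, hv, hcong⟩ := ft_conv_main p F O H hint x hx1 hxp hred
  -- `χ(τ) ^ n = a_τ`
  have hχ : ∀ τ ∈ inertia p F, ∀ b : ℕ, (∀ h, τ (x.ofConv h) = (x ^ b).ofConv h) →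
      ftChi p F hϖ τ ^ n = (b : kq p F) :=
    fun τ hτ b hb => ftChi_pow_eq p F hϖ hτ hv (hcong τ b hb)
  -- `e ∣ n (p - 1)`, hence `n (p - 1) = e`
  obtain ⟨σ₀, hσ₀, hgen⟩ := exists_ftChi_gen p F htame hϖ
  obtain ⟨a₀, ha₀⟩ := hchar σ₀ hσ₀
  have h1 := hχ σ₀ hσ₀ a₀ ha₀
  have ha₀ne : (a₀ : kq p F) ≠ 0 := by
    rw [← h1]
    exact pow_ne_zero _ (ftChi_ne_zero p F hϖ σ₀)
  have h2 : ftChi p F hϖ σ₀ ^ (n * (p - 1)) = 1 := by
    rw [pow_mul, h1]
    exact ft_natCast_pow_sub_one p F ha₀ne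
  have hdvd := hgen _ h2
  have hpos : 0 < n * (p - 1) := Nat.mul_pos hn1 (by omega)
  have heq : n * (p - 1) = edeg p F := le_antisymm hne (Nat.le_of_dvd hpos hdvd)
  -- the valuation of `ζ - 1`
  obtain ⟨c, hc, hce⟩ := Fermat.Agent.P1.helper5.ordT_primitiveRoot_sub_one p hζ
  have hcn : c = (n : ℤ) := by
    have h3 : ((p - 1 : ℕ) : ℤ) * c = ((p - 1 : ℕ) : ℤ) * (n : ℤ) := by
      rw [hce, ← heq]
      push_cast
      ring
    have h4 : ((p - 1 : ℕ) : ℤ) ≠ 0 := by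
      have : 0 < p - 1 := by omega
      exact_mod_cast this.ne'
    exact mul_left_cancel₀ h4 h3
  have hw : ordT p F (ζ - 1) = ((n : ℤ) : WithTop ℤ) := by rw [hc, hcn]
  -- `σ ζ = ζ ^ b`
  obtain ⟨b, hb⟩ : ∃ b : ℕ, σ ζ = ζ ^ b := by
    have hpne : NeZero p := ⟨hp.ne_zero⟩
    have h5 : (σ ζ) ^ p = 1 := by rw [← map_pow, hζ.pow_eq_one, map_one]
    obtain ⟨i, -, hi⟩ := hζ.eq_pow_of_pow_eq_one h5
    exact ⟨i, hi.symm⟩
  have h6 := ftChi_pow_eq p F hϖ hσ hw (ft_zeta_congr p F hn1 hw σ hb)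
  have h7 := hχ σ hσ a ha
  have hab : (a : kq p F) = (b : kq p F) := by rw [← h6, ← h7]
  have hmod : a ≡ b [MOD p] := (CharP.natCast_eq_natCast (kq p F) p).1 hab
  have hmod' : a % p = b % p := hmod
  have hord : orderOf ζ = p := hζ.eq_orderOf.symm
  rw [hb, ← pow_mod_orderOf ζ a, ← pow_mod_orderOf ζ b, hord, hmod']

end Fermat.Agent.P1.helper88
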