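import Mathlib
import Fermat.Agent.P1.helper14_KumEqDefs2
import Fermat.Agent.P1.helper88_FTOT

/-!
# P1 / FLAT-CNT / KUMEQ, package FC-THETA (helper88)

`fcTheta p : helper14.FCThetaStatement p` : the fundamental character
`θ_ϖ(s) = res (s ϖ / ϖ)` of a finite Galois extension `T / ℚ_p` is multiplicative on inertia,
nonvanishing, faithful on inertia when `T` is tame, `#I = e`, and `θ ^ (e / (p - 1)) = ω` on
inertia.  Everything is read off from the tame character toolkit `helper88_FTTame`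
(`ftChi`, `ftChi_mul`, `ftChi_ne_zero`, `ft_eq_one_of_ftChi_eq_one`, `ft_card_inertia`,
`ftChi_pow_eq`) and `helper88_FTOT.ft_zeta_congr`.
-/

set_option autoImplicit false

namespace Fermat.Agent.P1.helper88

open Fermat.Agent.S55.helper8 Fermat.Agent.S55.helper7 Fermat.Agent.P1.helper14

/-- `thetaRes` of the KUMEQ interface is the tame character `ftChi`. -/
lemma thetaRes_eq_ftChi (p : ℕ) [Fact p.Prime] (T : Type) [Field T] [Algebra ℚ_[p] T]
    [FiniteDimensional ℚ_[p] T] {ϖ : T} (hϖ : ordT p T ϖ = 1) (s : T ≃ₐ[ℚ_[p]] T) :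
    thetaRes p T ϖ s = ftChi p T hϖ s := by
  have h0 : 0 ≤ ordT p T (s ϖ / ϖ) := by
    rw [div_eq_mul_inv]
    exact (ft_ordT_theta p T hϖ s).ge
  unfold thetaRes resT
  rw [dif_pos h0]
  unfold ftChi ftTheta
  congr 1
  apply Subtype.ext
  exact div_eq_mul_inv _ _

/-- **FC-THETA**. -/
theorem fcTheta (p : ℕ) [Fact p.Prime] : Fermat.Agent.P1.helper14.FCThetaStatement p := by
  intro T _ _ _ _ ϖ hϖ
  have hp : p.Prime := Fact.out
  have hp2 := hp.two_le
  refine ⟨?_, ?_, ?_, ft_card_inertia p T, ?_⟩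
  · intro s hs s' _
    rw [thetaRes_eq_ftChi p T hϖ, thetaRes_eq_ftChi p T hϖ, thetaRes_eq_ftChi p T hϖ]
    exact ftChi_mul p T hϖ hs s'
  · intro s _
    rw [thetaRes_eq_ftChi p T hϖ]
    exact ftChi_ne_zero p T hϖ s
  · intro htame s hs h1
    rw [thetaRes_eq_ftChi p T hϖ] at h1
    exact ft_eq_one_of_ftChi_eq_one p T htame hϖ hs h1
  · intro ζ n hζ s hs hsζ
    rw [thetaRes_eq_ftChi p T hϖ]
    obtain ⟨c, hc, hce⟩ := Fermat.Agent.P1.helper5.ordT_primitiveRoot_sub_one p hζ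
    -- `c = e / (p - 1)` is a positive natural number
    have hp1 : (0 : ℤ) < ((p - 1 : ℕ) : ℤ) := by
      have : 0 < p - 1 := by omega
      exact_mod_cast this
    have he : (0 : ℤ) < (edeg p T : ℤ) := by
      exact_mod_cast Fermat.Agent.S55.helper33.edeg_pos p T
    have hc0 : 0 < c := by
      by_contra hneg
      have hle : c ≤ 0 := not_lt.mp hneg
      have : ((p - 1 : ℕ) : ℤ) * c ≤ 0 := mul_nonpos_of_nonneg_of_nonpos hp1.le hle
      omega
    obtain ⟨m, rfl⟩ : ∃ m : ℕ, c = (m : ℤ) := ⟨c.toNat, (Int.toNat_of_nonneg hc0.le).symm⟩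
    have hm1 : 1 ≤ m := by exact_mod_cast hc0
    have hme : (p - 1) * m = edeg p T := by exact_mod_cast hce
    have hdiv : edeg p T / (p - 1) = m := by
      rw [← hme]
      exact Nat.mul_div_cancel_left m (by omega)
    rw [hdiv]
    exact ftChi_pow_eq p T hϖ hs hc (ft_zeta_congr p T hm1 hc s hsζ)

end Fermat.Agent.P1.helper88
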