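import Mathlib

/-!
# P1 / S56, FLAT-CNT, package FC-ARITH (helper21): the arithmetic of the level count

`p` an odd prime, `e' > 0`, `e = (p - 1) e'`, `(p + 1) α ≡ e' mod e`, `β ≡ (1 - p) α mod e`.

* `fc_arith_top` : no `m` with `e ≤ m < e + e'` satisfies `m ≡ e' mod e`;
* `fc_arith_unique` : the congruences `m ≡ e' + s β mod e`, `e ≤ m < e + e'`, `s = ± 1`, have at
  most one solution `(m, s)` in total.
-/

set_option autoImplicit false

namespace Fermat.Agent.P1.helper21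

/-- a multiple of `e > 0` in the interval `(-e, e)` is zero -/
theorem eq_zero_of_dvd_of_abs_lt {e d : ℤ} (h : e ∣ d) (h1 : -e < d) (h2 : d < e) :
    d = 0 := by
  apply Int.eq_zero_of_abs_lt_dvd h
  rw [abs_lt]
  exact ⟨h1, h2⟩

/-- `2 e' ≤ (p - 1) e'` for an odd prime `p` -/
theorem two_mul_le_e (p e' : ℕ) (hp : p.Prime) (hp2 : p ≠ 2) :
    2 * (e' : ℤ) ≤ ((p : ℤ) - 1) * e' := by
  have h3 : 3 ≤ p := by
    have := hp.two_le
    omega
  have h3' : (3 : ℤ) ≤ p := by exact_mod_cast h3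
  have he : (0 : ℤ) ≤ e' := Int.natCast_nonneg e'
  nlinarith

/-- **FC-ARITH, top level**: `m ≡ e' mod e` has no solution with `e ≤ m < e + e'`. -/
theorem fc_arith_top (p e' : ℕ) (hp : p.Prime) (hp2 : p ≠ 2) (he' : 0 < e') (m : ℤ)
    (h1 : ((p : ℤ) - 1) * e' ≤ m) (h2 : m < ((p : ℤ) - 1) * e' + e') :
    ¬ m ≡ (e' : ℤ) [ZMOD ((p : ℤ) - 1) * e'] := by
  intro h
  have hle := two_mul_le_e p e' hp hp2
  have he'0 : (0 : ℤ) < e' := by exact_mod_cast he'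
  set e : ℤ := ((p : ℤ) - 1) * e' with he
  have hd : e ∣ m - e' := (Int.modEq_iff_dvd.mp h.symm)
  have h0 := eq_zero_of_dvd_of_abs_lt hd (by linarith) (by linarith)
  linarith

/-- **FC-ARITH, uniqueness**: the congruences `m ≡ e' + s β mod e` (`s = ± 1`,
`e ≤ m < e + e'`) have at most one solution `(m, s)` in total. -/
theorem fc_arith_unique (p e' : ℕ) (hp : p.Prime) (hp2 : p ≠ 2) (he' : 0 < e') (α β : ℤ)
    (hα : ((p : ℤ) + 1) * α ≡ (e' : ℤ) [ZMOD ((p : ℤ) - 1) * e'])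
    (hβ : β ≡ (1 - (p : ℤ)) * α [ZMOD ((p : ℤ) - 1) * e'])
    (m₁ m₂ s₁ s₂ : ℤ) (hs₁ : s₁ = 1 ∨ s₁ = -1) (hs₂ : s₂ = 1 ∨ s₂ = -1)
    (h₁ : ((p : ℤ) - 1) * e' ≤ m₁) (h₁' : m₁ < ((p : ℤ) - 1) * e' + e')
    (h₂ : ((p : ℤ) - 1) * e' ≤ m₂) (h₂' : m₂ < ((p : ℤ) - 1) * e' + e')
    (hm₁ : m₁ ≡ (e' : ℤ) + s₁ * β [ZMOD ((p : ℤ) - 1) * e'])
    (hm₂ : m₂ ≡ (e' : ℤ) + s₂ * β [ZMOD ((p : ℤ) - 1) * e']) :
    m₁ = m₂ ∧ s₁ = s₂ := by
  have hle := two_mul_le_e p e' hp hp2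
  have he'0 : (0 : ℤ) < e' := by exact_mod_cast he'
  -- the two signs cannot both occur
  have key : ∀ (a b : ℤ), ((p : ℤ) - 1) * e' ≤ a → a < ((p : ℤ) - 1) * e' + e' →
      ((p : ℤ) - 1) * e' ≤ b → b < ((p : ℤ) - 1) * e' + e' →
      a ≡ (e' : ℤ) + β [ZMOD ((p : ℤ) - 1) * e'] →
      b ≡ (e' : ℤ) - β [ZMOD ((p : ℤ) - 1) * e'] → False := by
    intro a b ha ha' hb hb' hma hmb
    set e : ℤ := ((p : ℤ) - 1) * e' with he
    obtain ⟨k₁, hk₁⟩ := Int.modEq_iff_dvd.mp hma.symm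
    obtain ⟨k₂, hk₂⟩ := Int.modEq_iff_dvd.mp hmb.symm
    obtain ⟨k₃, hk₃⟩ := Int.modEq_iff_dvd.mp hα.symm
    obtain ⟨k₄, hk₄⟩ := Int.modEq_iff_dvd.mp hβ.symm
    -- `a + b - 2 e' = e (k₁ + k₂)`
    have hsum : a + b - 2 * e' = e * (k₁ + k₂) := by linear_combination hk₁ + hk₂
    have hK : k₁ + k₂ = 1 := by
      have hlo : e * 1 ≤ e * (k₁ + k₂) := by rw [← hsum]; linarith
      have hhi : e * (k₁ + k₂) < e * 2 := by rw [← hsum]; linarith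
      have he0 : 0 < e := by linarith
      have h1 : 1 ≤ k₁ + k₂ := le_of_mul_le_mul_left hlo he0
      have h2 : k₁ + k₂ < 2 := lt_of_mul_lt_mul_left hhi he0.le
      omega
    rw [hK, mul_one] at hsum
    -- hence `a = b = e = 2 e'`
    have hae : a = e := by linarith
    have hbe : b = e := by linarith
    have hee : e = 2 * e' := by linarith
    have hp3 : (p : ℤ) = 3 := by
      have h1 : ((p : ℤ) - 3) * e' = 0 := by linear_combination hee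
      rcases mul_eq_zero.mp h1 with h | h
      · linarith
      · exact absurd h he'0.ne'
    -- parity contradiction
    rw [hae, hee] at hk₁
    rw [hp3] at hk₃ hk₄
    rw [hee] at hk₃ hk₄
    have hfin : (e' : ℤ) * (4 * k₁ + 4 * k₄ - 2 * k₃ - 3) = 0 := by
      linear_combination (-2) * hk₁ + hk₃ - 2 * hk₄
    rcases mul_eq_zero.mp hfin with h | h
    · exact absurd h he'0.ne'
    · omega
  -- uniqueness of `m` for a fixed sign
  have huniq : ∀ (a b c : ℤ), ((p : ℤ) - 1) * e' ≤ a → a < ((p : ℤ) - 1) * e' + e' →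
      ((p : ℤ) - 1) * e' ≤ b → b < ((p : ℤ) - 1) * e' + e' →
      a ≡ c [ZMOD ((p : ℤ) - 1) * e'] → b ≡ c [ZMOD ((p : ℤ) - 1) * e'] → a = b := by
    intro a b c ha ha' hb hb' hma hmb
    have hd : ((p : ℤ) - 1) * e' ∣ a - b := Int.modEq_iff_dvd.mp (hma.trans hmb.symm).symm
    have h0 := eq_zero_of_dvd_of_abs_lt hd (by linarith) (by linarith)
    linarith
  rcases hs₁ with rfl | rfl <;> rcases hs₂ with rfl | rfl
  · exact ⟨huniq m₁ m₂ _ h₁ h₁' h₂ h₂' hm₁ hm₂, rfl⟩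
  · exfalso
    refine key m₁ m₂ h₁ h₁' h₂ h₂' ?_ ?_
    · simpa using hm₁
    · simpa [sub_eq_add_neg] using hm₂
  · exfalso
    refine key m₂ m₁ h₂ h₂' h₁ h₁' ?_ ?_
    · simpa using hm₂
    · simpa [sub_eq_add_neg] using hm₁
  · exact ⟨huniq m₁ m₂ _ h₁ h₁' h₂ h₂' hm₁ hm₂, rfl⟩

end Fermat.Agent.P1.helper21
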