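import Fermat.Agent.P1.helper14_KumEqDefs4
import Fermat.Agent.P1.helper21_FCArith

/-!
# P1 / FLAT-CNT / KUMEQ, package FC-ACT (helper94)

`fcAct : Fermat.Agent.P1.helper14.FCActStatement`: the "active levels".  With `χ` of order
`e = (p-1) e'`, `ψ₀ ^ (p+1) = χ ^ e'`, `as = ψ₀ ^ (1-p)`, the equations
`χ ^ (m p^j) * as = χ ^ e'` (`e ≤ m < e + e'`, `j < t ≤ 2`) have at most one solution `(m, j)`,
and none if `as = 1`.  Reduction to `helper21.fc_arith_unique` / `fc_arith_top`.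
-/

set_option autoImplicit false
set_option linter.unusedSectionVars false
set_option linter.style.haveILetI false
set_option linter.unusedVariables false
set_option linter.unusedSimpArgs false

namespace Fermat.Agent.P1.helper94

/-- powers of a nonzero element of a field: `χ ^ a = χ ^ b ↔ a ≡ b mod (orderOf χ)`, in `ℤ`-form -/
lemma pow_eq_pow_iff_int {k : Type} [Field k] {χ : k} (hχ : χ ≠ 0) (a b : ℕ) :
    χ ^ a = χ ^ b ↔ (orderOf χ : ℤ) ∣ (b : ℤ) - a := by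
  have h1 : χ ^ a = χ ^ b ↔ (Units.mk0 χ hχ) ^ a = (Units.mk0 χ hχ) ^ b :=
    ⟨fun h => Units.ext (by simpa using h), fun h => by simpa using congrArg Units.val h⟩
  have h2 : orderOf (Units.mk0 χ hχ) = orderOf χ := by
    rw [← orderOf_units, Units.val_mk0]
  rw [h1, pow_eq_pow_iff_modEq, h2, ← Int.natCast_modEq_iff, Int.modEq_iff_dvd]

section Core

variable {p : ℕ} [Fact p.Prime] {k : Type} [Field k] {e' t : ℕ} {χ ψ₀ as : k}

/-- a solution `(m, j)` of `χ ^ (m p^j) * as = χ ^ e'` satisfies `m ≡ e' + s β mod e` with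
`s = -1` for `j = 0` and `s = 1` for `j = 1`, where `β = (1 - p) α`, `ψ₀ = χ ^ α`. -/
lemma sol_congr (he' : 0 < e') (hord : orderOf χ = (p - 1) * e') (ht : t = 1 ∨ t = 2)
    (hχt : χ ^ (p ^ t) = χ) (α : ℕ) (hα : χ ^ α = ψ₀) (has : as * ψ₀ ^ p = ψ₀)
    (m j : ℕ) (hj : j < t) (hsol : χ ^ (m * p ^ j) * as = χ ^ e') :
    (m : ℤ) ≡ (e' : ℤ) + (if j = 0 then -1 else 1) * ((1 - (p : ℤ)) * α)
      [ZMOD ((p : ℤ) - 1) * e'] := by
  have hp : p.Prime := Fact.out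
  have hp1 : 1 ≤ p := hp.one_le
  have hepos : 0 < (p - 1) * e' := Nat.mul_pos (Nat.sub_pos_of_lt hp.one_lt) he'
  have hχ0 : χ ≠ 0 := by
    intro h
    have h1 : χ ^ ((p - 1) * e') = 1 := by rw [← hord]; exact pow_orderOf_eq_one χ
    rw [h, zero_pow hepos.ne'] at h1
    exact zero_ne_one h1
  have hE : ((orderOf χ : ℕ) : ℤ) = ((p : ℤ) - 1) * e' := by
    rw [hord]; push_cast [Nat.cast_sub hp1]; ring
  -- the equation in exponents
  have heq : χ ^ (m * p ^ j + α) = χ ^ (e' + α * p) := by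
    have h1 : χ ^ (m * p ^ j + α) = χ ^ (m * p ^ j) * (as * ψ₀ ^ p) := by
      rw [has, pow_add, hα]
    have h2 : χ ^ (e' + α * p) = χ ^ e' * ψ₀ ^ p := by
      rw [pow_add, pow_mul, hα]
    rw [h1, h2, ← hsol]; ring
  have hd := (pow_eq_pow_iff_int hχ0 _ _).1 heq
  rw [hE] at hd
  obtain ⟨k₁, hk₁⟩ := hd
  push_cast at hk₁
  rw [Int.modEq_iff_dvd]
  have hj' : j = 0 ∨ j = 1 := by
    rcases ht with rfl | rfl <;> omega
  rcases hj' with rfl | rfl
  · -- `j = 0`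
    refine ⟨k₁, ?_⟩
    rw [if_pos rfl]
    rw [pow_zero, mul_one] at hk₁
    linear_combination hk₁
  · -- `j = 1`, hence `t = 2` and `e ∣ p² - 1`
    have ht2 : t = 2 := by
      rcases ht with rfl | rfl
      · omega
      · rfl
    subst ht2
    have h3 : χ ^ (p ^ 2) = χ ^ 1 := by rw [hχt, pow_one]
    have hd2 := (pow_eq_pow_iff_int hχ0 _ _).1 h3
    rw [hE] at hd2
    obtain ⟨k₂, hk₂⟩ := hd2
    push_cast at hk₂
    rw [if_neg one_ne_zero]
    rw [pow_one] at hk₁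
    refine ⟨p * k₁ - 1 + (m - α) * (-k₂), ?_⟩
    linear_combination (p : ℤ) * hk₁ + ((α : ℤ) - m) * hk₂

end Core

/-- **FC-ACT**. -/
theorem fcAct : Fermat.Agent.P1.helper14.FCActStatement := by
  intro p _ k _ e' t χ ψ₀ as hp2 he' hord ht hχt hψe hψ has
  have hp : p.Prime := Fact.out
  have hp1 : 1 ≤ p := hp.one_le
  have hepos : 0 < (p - 1) * e' := Nat.mul_pos (Nat.sub_pos_of_lt hp.one_lt) he'
  have hχ0 : χ ≠ 0 := by
    intro h
    have h1 : χ ^ ((p - 1) * e') = 1 := by rw [← hord]; exact pow_orderOf_eq_one χ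
    rw [h, zero_pow hepos.ne'] at h1
    exact zero_ne_one h1
  have hE : ((orderOf χ : ℕ) : ℤ) = ((p : ℤ) - 1) * e' := by
    rw [hord]; push_cast [Nat.cast_sub hp1]; ring
  -- `ψ₀ = χ ^ α`
  have hprim : IsPrimitiveRoot χ ((p - 1) * e') := by
    rw [← hord]; exact IsPrimitiveRoot.orderOf χ
  haveI : NeZero ((p - 1) * e') := ⟨hepos.ne'⟩
  obtain ⟨α, -, hα⟩ := hprim.eq_pow_of_pow_eq_one hψe
  -- `(p + 1) α ≡ e'`
  have hα1 : ((p : ℤ) + 1) * α ≡ (e' : ℤ) [ZMOD ((p : ℤ) - 1) * e'] := by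
    have h1 : χ ^ (α * (p + 1)) = χ ^ e' := by rw [pow_mul, hα, hψ]
    have hd := (pow_eq_pow_iff_int hχ0 _ _).1 h1
    rw [hE] at hd
    obtain ⟨k₁, hk₁⟩ := hd
    push_cast at hk₁
    rw [Int.modEq_iff_dvd]
    exact ⟨k₁, by linear_combination hk₁⟩
  have hβ : (1 - (p : ℤ)) * α ≡ (1 - (p : ℤ)) * α [ZMOD ((p : ℤ) - 1) * e'] := Int.ModEq.refl _
  have hs : ∀ j : ℕ, (if j = 0 then (-1 : ℤ) else 1) = 1 ∨ (if j = 0 then (-1 : ℤ) else 1) = -1 := by
    intro j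
    by_cases hj : j = 0
    · right; rw [if_pos hj]
    · left; rw [if_neg hj]
  have hbound : ∀ m : ℕ, (p - 1) * e' ≤ m → ((p : ℤ) - 1) * e' ≤ (m : ℤ) := by
    intro m hm
    have : (((p - 1) * e' : ℕ) : ℤ) ≤ (m : ℤ) := by exact_mod_cast hm
    rw [← hord, hE] at this
    exact this
  have hbound' : ∀ m : ℕ, m < (p - 1) * e' + e' → (m : ℤ) < ((p : ℤ) - 1) * e' + e' := by
    intro m hm
    have : (m : ℤ) < (((p - 1) * e' : ℕ) : ℤ) + (e' : ℤ) := by exact_mod_cast hm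
    rw [← hord, hE] at this
    exact this
  refine ⟨?_, ?_⟩
  · intro m₁ m₂ j₁ j₂ h₁ h₁' h₂ h₂' hj₁ hj₂ hsol₁ hsol₂
    have c₁ := sol_congr he' hord ht hχt α hα has m₁ j₁ hj₁ hsol₁
    have c₂ := sol_congr he' hord ht hχt α hα has m₂ j₂ hj₂ hsol₂
    obtain ⟨hm, hss⟩ := helper21.fc_arith_unique p e' hp hp2 he' α ((1 - (p : ℤ)) * α) hα1 hβ
      m₁ m₂ _ _ (hs j₁) (hs j₂) (hbound m₁ h₁) (hbound' m₁ h₁') (hbound m₂ h₂) (hbound' m₂ h₂')
      c₁ c₂
    refine ⟨by exact_mod_cast hm, ?_⟩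
    have hj₁' : j₁ = 0 ∨ j₁ = 1 := by
      rcases ht with rfl | rfl <;> omega
    have hj₂' : j₂ = 0 ∨ j₂ = 1 := by
      rcases ht with rfl | rfl <;> omega
    rcases hj₁' with rfl | rfl <;> rcases hj₂' with rfl | rfl
    · rfl
    · simp at hss
    · simp at hss
    · rfl
  · intro has1 m j h₁ h₁' hj hsol
    have c := sol_congr he' hord ht hχt α hα has m j hj hsol
    -- `β ≡ 0`
    have hβ0 : ((p : ℤ) - 1) * e' ∣ (1 - (p : ℤ)) * α := by
      rw [has1, one_mul] at has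
      have h1 : χ ^ (α * p) = χ ^ α := by rw [pow_mul, hα, has]
      have hd := (pow_eq_pow_iff_int hχ0 _ _).1 h1
      rw [hE] at hd
      obtain ⟨k₁, hk₁⟩ := hd
      push_cast at hk₁
      exact ⟨k₁, by linear_combination hk₁⟩
    have c' : (m : ℤ) ≡ (e' : ℤ) [ZMOD ((p : ℤ) - 1) * e'] := by
      rw [Int.modEq_iff_dvd] at c ⊢
      obtain ⟨k₁, hk₁⟩ := c
      obtain ⟨k₂, hk₂⟩ := hβ0
      refine ⟨k₁ - (if j = 0 then -1 else 1) * k₂, ?_⟩
      linear_combination hk₁ - (if j = 0 then (-1 : ℤ) else 1) * hk₂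
    exact helper21.fc_arith_top p e' hp hp2 he' m (hbound m h₁) (hbound' m h₁') c'

end Fermat.Agent.P1.helper94
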