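import Fermat.Agent.P1.helper14_KumEqDefs2

/-!
# P1 / FLAT-CNT / KUMEQ, package FC-GR (helper94)

`fcGr p : Fermat.Agent.P1.helper14.FCGrStatement p`: the leading coefficient
`lcoef ϖ m : U^(m) → k_T`, `a ↦ res ((a - 1) / ϖ ^ m)`, is a surjective homomorphism with kernel
`U^(m+1)`, and `δ ∈ Gal(T/ℚ_p)` acting on the residue field as `Frob^j` acts on it by
`x ↦ θ_ϖ(δ)^m x^(p^j)`.
-/

set_option autoImplicit false
set_option linter.unusedSectionVars false
set_option linter.style.haveILetI false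
set_option linter.unusedVariables false
set_option linter.unusedSimpArgs false

namespace Fermat.Agent.P1.helper94

open Fermat.Agent.S55.helper8 Fermat.Agent.S55.helper7 Fermat.Agent.P1.helper14

variable (p : ℕ) [Fact p.Prime]
variable (T : Type) [Field T] [Algebra ℚ_[p] T] [FiniteDimensional ℚ_[p] T]

/-! ## `resT` on integral elements -/

lemma resT_of_nonneg {x : T} (h : 0 ≤ ordT p T x) : resT p T x = res p T ⟨x, h⟩ := by
  rw [resT, dif_pos h]

lemma resT_add {x y : T} (hx : 0 ≤ ordT p T x) (hy : 0 ≤ ordT p T y) :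
    resT p T (x + y) = resT p T x + resT p T y := by
  rw [resT_of_nonneg p T hx, resT_of_nonneg p T hy,
    resT_of_nonneg p T (ordT_add_nonneg p T hx hy), ← map_add]
  rfl

lemma resT_mul {x y : T} (hx : 0 ≤ ordT p T x) (hy : 0 ≤ ordT p T y) :
    resT p T (x * y) = resT p T x * resT p T y := by
  have hxy : 0 ≤ ordT p T (x * y) := by
    rw [ordT_mul]; exact add_nonneg hx hy
  rw [resT_of_nonneg p T hx, resT_of_nonneg p T hy, resT_of_nonneg p T hxy, ← map_mul]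
  rfl

lemma ordT_pow_nonneg {x : T} (hx : 0 ≤ ordT p T x) (n : ℕ) : 0 ≤ ordT p T (x ^ n) := by
  rw [ordT_pow]; exact nsmul_nonneg hx n

lemma resT_one : resT p T 1 = 1 := by
  have h : 0 ≤ ordT p T (1 : T) := by rw [ordT_one]
  rw [resT_of_nonneg p T h]
  exact map_one (res p T)

lemma resT_pow {x : T} (hx : 0 ≤ ordT p T x) (n : ℕ) :
    resT p T (x ^ n) = resT p T x ^ n := by
  induction n with
  | zero => rw [pow_zero, pow_zero, resT_one]
  | succ n ih => rw [pow_succ, pow_succ, resT_mul p T (ordT_pow_nonneg p T hx n) hx, ih]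

lemma resT_eq_zero_iff {x : T} (hx : 0 ≤ ordT p T x) :
    resT p T x = 0 ↔ 0 < ordT p T x := by
  rw [resT_of_nonneg p T hx, res_eq_zero_iff]

lemma resT_eq_of_sub_pos {x y : T} (hx : 0 ≤ ordT p T x) (hy : 0 ≤ ordT p T y)
    (h : 0 < ordT p T (x - y)) : resT p T x = resT p T y := by
  rw [resT_of_nonneg p T hx, resT_of_nonneg p T hy, res_eq_iff]
  exact h

/-! ## Division by a power of the uniformiser -/

variable {p T}

lemma unif_ne_zero {ϖ : T} (hϖ : ordT p T ϖ = 1) : ϖ ≠ 0 := by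
  rintro rfl
  rw [ordT_zero] at hϖ
  exact WithTop.top_ne_one hϖ

lemma ordT_unif_pow {ϖ : T} (hϖ : ordT p T ϖ = 1) (m : ℕ) :
    ordT p T (ϖ ^ m) = ((m : ℤ) : WithTop ℤ) := by
  rw [ordT_pow, hϖ, nsmul_one]
  rfl

lemma div_mul_unif_pow {ϖ : T} (hϖ : ordT p T ϖ = 1) (x : T) (m : ℕ) :
    x / ϖ ^ m * ϖ ^ m = x :=
  div_mul_cancel₀ x (pow_ne_zero m (unif_ne_zero hϖ))

lemma ordT_div_unif_pow {ϖ : T} (hϖ : ordT p T ϖ = 1) (x : T) (m : ℕ) :
    ordT p T (x / ϖ ^ m) + ((m : ℤ) : WithTop ℤ) = ordT p T x := by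
  rw [← ordT_unif_pow hϖ m, ← ordT_mul, div_mul_unif_pow hϖ]

/-- `k + m ≤ ord x ↔ k ≤ ord (x / ϖ^m)`. -/
lemma le_ordT_div_iff {ϖ : T} (hϖ : ordT p T ϖ = 1) (x : T) (m : ℕ) (k : ℤ) :
    ((k : ℤ) : WithTop ℤ) ≤ ordT p T (x / ϖ ^ m) ↔
      (((k + m : ℤ) : ℤ) : WithTop ℤ) ≤ ordT p T x := by
  rw [← ordT_div_unif_pow hϖ x m]
  cases h : ordT p T (x / ϖ ^ m) with
  | top => simp
  | coe n =>
    rw [← WithTop.coe_add, WithTop.coe_le_coe, WithTop.coe_le_coe]
    omega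

lemma pos_iff_one_le (v : WithTop ℤ) : 0 < v ↔ ((1 : ℤ) : WithTop ℤ) ≤ v := by
  cases v with
  | top => simp
  | coe n =>
    have h0 : (0 : WithTop ℤ) = ((0 : ℤ) : WithTop ℤ) := rfl
    rw [h0, WithTop.coe_lt_coe, WithTop.coe_le_coe]
    omega

lemma nonneg_div_of_le {ϖ : T} (hϖ : ordT p T ϖ = 1) {x : T} {m : ℕ}
    (h : ((m : ℤ) : WithTop ℤ) ≤ ordT p T x) : 0 ≤ ordT p T (x / ϖ ^ m) := by
  have h0 : (0 : WithTop ℤ) = ((0 : ℤ) : WithTop ℤ) := rfl
  rw [h0, le_ordT_div_iff hϖ, zero_add]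
  exact h

lemma pos_of_le {x : T} {m : ℕ} (hm : 1 ≤ m)
    (h : ((m : ℤ) : WithTop ℤ) ≤ ordT p T x) : 0 < ordT p T x := by
  rw [pos_iff_one_le]
  refine le_trans ?_ h
  rw [WithTop.coe_le_coe]
  exact_mod_cast hm

variable (p)

/-! ## The statement -/

/-- **FC-GR**. -/
theorem fcGr : FCGrStatement p := by
  intro T _ _ _ ϖ m hϖ hm
  have hϖ0 : ϖ ≠ 0 := unif_ne_zero hϖ
  have hpow0 : ϖ ^ m ≠ 0 := pow_ne_zero m hϖ0
  refine ⟨?_, ?_, ?_, ?_⟩
  · -- additivity
    intro a b ha hb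
    have hya := nonneg_div_of_le hϖ ha
    have hyb := nonneg_div_of_le hϖ hb
    have hb0 : 0 < ordT p T (b - 1) := pos_of_le hm hb
    have e : (a * b - 1) / ϖ ^ m =
        (a - 1) / ϖ ^ m + (b - 1) / ϖ ^ m + (a - 1) / ϖ ^ m * (b - 1) := by
      field_simp
      ring
    have h3 : 0 < ordT p T ((a - 1) / ϖ ^ m * (b - 1)) := by
      rw [ordT_mul]
      exact lt_of_lt_of_le hb0 (le_add_of_nonneg_left hya)
    rw [lcoef, lcoef, lcoef, e, resT_add p T (ordT_add_nonneg p T hya hyb) h3.le,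
      resT_add p T hya hyb, (resT_eq_zero_iff p T h3.le).mpr h3, add_zero]
  · -- kernel
    intro a ha
    have hya := nonneg_div_of_le hϖ ha
    rw [lcoef, resT_eq_zero_iff p T hya, pos_iff_one_le, le_ordT_div_iff hϖ]
    have : ((1 + (m : ℤ) : ℤ)) = (((m + 1 : ℕ) : ℤ)) := by push_cast; ring
    rw [this]
  · -- surjectivity
    intro x
    obtain ⟨x₀, rfl⟩ := res_surjective p T x
    refine ⟨1 + (x₀ : T) * ϖ ^ m, ?_, ?_⟩
    · rw [add_sub_cancel_left, ordT_mul, ordT_unif_pow hϖ]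
      exact le_add_of_nonneg_left x₀.2
    · rw [lcoef, add_sub_cancel_left, mul_div_assoc, div_self hpow0, mul_one,
        resT_of_nonneg p T x₀.2]
  · -- Galois action
    intro δ j hδ a ha
    have hya := nonneg_div_of_le hϖ ha
    set y := (a - 1) / ϖ ^ m with hy
    have hay : a - 1 = y * ϖ ^ m := (div_mul_unif_pow hϖ (a - 1) m).symm
    have hδϖ0 : δ ϖ ≠ 0 := by
      intro h
      exact hϖ0 ((map_eq_zero δ).mp h)
    have hθ : ordT p T (δ ϖ / ϖ) = 0 := by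
      have h1 : ordT p T (δ ϖ / ϖ) + ordT p T ϖ = ordT p T (δ ϖ) := by
        rw [← ordT_mul, div_mul_cancel₀ _ hϖ0]
      rw [helper14.ordT_algEquiv, hϖ] at h1
      cases h : ordT p T (δ ϖ / ϖ) with
      | top => rw [h] at h1; simp at h1
      | coe n =>
        rw [h] at h1
        have h1' : ((n + 1 : ℤ) : WithTop ℤ) = ((1 : ℤ) : WithTop ℤ) := by
          rw [WithTop.coe_add]; exact h1
        have : n + 1 = 1 := WithTop.coe_injective h1'
        have hn : n = 0 := by omega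
        rw [hn]; rfl
    have e : (δ a - 1) / ϖ ^ m = δ y * (δ ϖ / ϖ) ^ m := by
      have h1 : δ a - 1 = δ (a - 1) := by rw [map_sub, map_one]
      rw [h1, hay, map_mul, map_pow, div_pow]
      field_simp
    have hδy : 0 ≤ ordT p T (δ y) := by rw [helper14.ordT_algEquiv]; exact hya
    have h4 : resT p T (δ y) = resT p T y ^ (p ^ j) := by
      rw [← resT_pow p T hya]
      exact resT_eq_of_sub_pos p T hδy (ordT_pow_nonneg p T hya _) (hδ y hya)
    rw [lcoef, e, resT_mul p T hδy (ordT_pow_nonneg p T hθ.ge m), resT_pow p T hθ.ge, h4,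
      thetaRes, lcoef, mul_comm]

end Fermat.Agent.P1.helper94
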