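import Fermat.Agent.P1.helper9_FCTopBLoc

/-!
# P1 / FLAT-CNT / KUMEQ / FC-TOP-B (helper9)

`fcTopB : FCG1Statement p → FCTopAStatement p → FCFrobStatement p → FCKumStatement p →
  FCTopBStatement p`.

For `T/ℚ_p` finite normal with `ζ_p ∈ T`, `e = e(T/ℚ_p)`:
(1) Kummer homomorphisms of level `> p e/(p-1)` are zero on `G_T`           (FC-G1, FC-KUM);
(2) Kummer homomorphisms of level `≥ p e/(p-1)` are invariant under conjugation by `G_p`
                                                       (FC-TOP-A, FC-FROB, FC-KUM);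
(3) Kummer homomorphisms of level `≥ p e/(p-1)` form a group of order `≤ p` (FC-TOP-A, FC-KUM).
-/

set_option autoImplicit false

namespace Fermat.Agent.P1.helper9

open Fermat.Agent.S55.helper8 Fermat.Agent.S55.helper7 Fermat.Agent.P1.helper14
  Fermat.Agent.P1.helper5

variable (p : ℕ) [Fact p.Prime]

/-- The mod `p` cyclotomic character exists, and it is nowhere zero. -/
lemma exists_isCycl {ζ : PadicAlgCl p} (hζ : IsPrimitiveRoot ζ p) :
    ∃ ω : GalP p → ZMod p, IsCycl p ζ ω ∧ ∀ g, ω g ≠ 0 := by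
  have hp : p.Prime := Fact.out
  have : NeZero p := ⟨hp.ne_zero⟩
  have key : ∀ g : GalP p, ∃ c : ZMod p, g ζ = ζ ^ c.val ∧ c ≠ 0 := by
    intro g
    have h1 : (g ζ) ^ p = 1 := by rw [← map_pow, hζ.pow_eq_one, map_one]
    obtain ⟨i, hi, hi'⟩ := hζ.eq_pow_of_pow_eq_one h1
    refine ⟨(i : ZMod p), ?_, ?_⟩
    · rw [ZMod.val_natCast_of_lt hi, hi']
    · intro h0
      have h2 : i = 0 := Nat.eq_zero_of_dvd_of_lt ((ZMod.natCast_eq_zero_iff i p).1 h0) hi
      rw [h2, pow_zero] at hi'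
      have h3 : g ζ = g 1 := by rw [map_one, ← hi']
      exact hζ.ne_one hp.one_lt (g.injective h3)
  choose ω hω hω' using key
  exact ⟨ω, hω, hω'⟩

section field

variable (T : IntermediateField ℚ_[p] (PadicAlgCl p)) [FiniteDimensional ℚ_[p] T]

/-- (1): level `> p e/(p-1)` ⟹ zero on `G_T`. -/
theorem fcTopB_zero (hG1 : FCG1Statement p) (hK : FCKumStatement p)
    {ζ : PadicAlgCl p} (hζ : IsPrimitiveRoot ζ p) (hζT : ζ ∈ T)
    (m : ℕ) (f : GalP p → ZMod p) (hm : p * edeg p T < (p - 1) * m)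
    (hf : HasLevel p T ζ m f) : ∀ g ∈ T.fixingSubgroup, f g = 0 := by
  obtain ⟨a, ha0, ha, hkum⟩ := hf
  have hζ' : IsPrimitiveRoot (⟨ζ, hζT⟩ : T) p := IsPrimitiveRoot.coe_submonoidClass_iff.1 hζ
  obtain ⟨b, hb⟩ := hG1 T ⟨ζ, hζT⟩ hζ' a m hm ha
  obtain ⟨-, -, -, -, h5, h6, -, -⟩ := hK T ζ hζ hζT
  have h := h5 (b : PadicAlgCl p) b.2
  have hb' : (b : PadicAlgCl p) ^ p = (a : PadicAlgCl p) := by
    rw [← hb]
    push_cast
    rfl
  rw [hb'] at h
  have ha0' : (a : PadicAlgCl p) ≠ 0 := by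
    intro h0
    exact ha0 (Subtype.ext h0)
  exact h6 (a : PadicAlgCl p) f (fun _ => 0) ha0' hkum h

/-- (3'): any two Kummer homomorphisms of level `≥ p e/(p-1)` are linearly dependent. -/
theorem fcTopB_dep (hA : FCTopAStatement p) (hK : FCKumStatement p)
    {ζ : PadicAlgCl p} (hζ : IsPrimitiveRoot ζ p) (hζT : ζ ∈ T)
    (m : ℕ) (hm : p * edeg p T ≤ (p - 1) * m) (f f' : GalP p → ZMod p)
    (hf : HasLevel p T ζ m f) (hf' : HasLevel p T ζ m f') :
    ∃ n n' : ZMod p, (n ≠ 0 ∨ n' ≠ 0) ∧ ∀ g ∈ T.fixingSubgroup, n * f g + n' * f' g = 0 := by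
  obtain ⟨a, ha0, ha, hkum⟩ := hf
  obtain ⟨a', ha0', ha', hkum'⟩ := hf'
  have hζ' : IsPrimitiveRoot (⟨ζ, hζT⟩ : T) p := IsPrimitiveRoot.coe_submonoidClass_iff.1 hζ
  obtain ⟨n, n', hnn', b, hb⟩ := exists_pow_eq_dep p hA hζ'
    (ordT_top_le p hζ' hm ha) (ordT_top_le p hζ' hm ha')
  refine ⟨n, n', hnn', ?_⟩
  obtain ⟨-, -, h3, h4, h5, h6, -, -⟩ := hK T ζ hζ hζT
  have h := h5 (b : PadicAlgCl p) b.2
  have hb' : (b : PadicAlgCl p) ^ p = (a : PadicAlgCl p) ^ n.val * (a' : PadicAlgCl p) ^ n'.val := by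
    have := congrArg (fun z : T => (z : PadicAlgCl p)) hb
    simpa using this
  rw [hb'] at h
  have hne : (a : PadicAlgCl p) ^ n.val * (a' : PadicAlgCl p) ^ n'.val ≠ 0 := by
    refine mul_ne_zero (pow_ne_zero _ ?_) (pow_ne_zero _ ?_)
    · intro h0
      exact ha0 (Subtype.ext h0)
    · intro h0
      exact ha0' (Subtype.ext h0)
  exact h6 _ _ (fun _ => 0) hne (h3 _ _ _ _ (h4 _ f n hkum) (h4 _ f' n' hkum')) h

variable [Normal ℚ_[p] T]

/-- (2'): level `≥ p e/(p-1)` ⟹ invariant under conjugation by `G_p`. -/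
theorem fcTopB_inv' (hA : FCTopAStatement p) (hFr : FCFrobStatement p) (hK : FCKumStatement p)
    {ζ : PadicAlgCl p} (hζ : IsPrimitiveRoot ζ p) (hζT : ζ ∈ T)
    (m : ℕ) (f : GalP p → ZMod p) (hm : p * edeg p T ≤ (p - 1) * m)
    (hf : HasLevel p T ζ m f) (γ : GalP p) :
    ∀ g ∈ T.fixingSubgroup, f (γ⁻¹ * g * γ) = f g := by
  have hp : p.Prime := Fact.out
  have : NeZero p := ⟨hp.ne_zero⟩
  obtain ⟨a, ha0, ha, hkum⟩ := hf
  obtain ⟨ω, hω, hω0⟩ := exists_isCycl p hζ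
  have hζ' : IsPrimitiveRoot (⟨ζ, hζT⟩ : T) p := IsPrimitiveRoot.coe_submonoidClass_iff.1 hζ
  have : IsGalois ℚ_[p] T := IsGalois.mk
  have hδζ : AlgEquiv.restrictNormalHom T γ (⟨ζ, hζT⟩ : T) = (⟨ζ, hζT⟩ : T) ^ (ω γ).val := by
    apply Subtype.ext
    rw [AlgEquiv.restrictNormalHom_apply]
    push_cast
    exact hω γ
  have hdvd : p ∣ (ω γ).val + (-(ω γ)).val := by
    rw [← ZMod.natCast_eq_zero_iff]
    push_cast
    rw [ZMod.natCast_zmod_val, ZMod.natCast_zmod_val]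
    ring
  obtain ⟨b, hb⟩ := exists_pow_eq_gal p hA hFr hζ' (AlgEquiv.restrictNormalHom T γ)
    (ω γ).val (-(ω γ)).val hδζ hdvd (ordT_top_le p hζ' hm ha)
  obtain ⟨-, -, h3, h4, h5, h6, -, h8⟩ := hK T ζ hζ hζT
  have h := h5 (b : PadicAlgCl p) b.2
  have hb' : (b : PadicAlgCl p) ^ p
      = γ (a : PadicAlgCl p) * (a : PadicAlgCl p) ^ (-(ω γ)).val := by
    have := congrArg (fun z : T => (z : PadicAlgCl p)) hb
    simpa [AlgEquiv.restrictNormalHom_apply] using this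
  rw [hb'] at h
  have ha0' : (a : PadicAlgCl p) ≠ 0 := by
    intro h0
    exact ha0 (Subtype.ext h0)
  have hne : γ (a : PadicAlgCl p) * (a : PadicAlgCl p) ^ (-(ω γ)).val ≠ 0 :=
    mul_ne_zero ((map_ne_zero_iff _ γ.injective).2 ha0') (pow_ne_zero _ ha0')
  have h9 := h6 _ _ (fun _ => 0) hne
    (h3 _ _ _ _ (h8 ω hω inferInstance _ f γ hkum) (h4 _ f (-(ω γ)) hkum)) h
  intro g hg
  have h10 := h9 g hg
  have h11 : ω γ * (f (γ⁻¹ * g * γ) - f g) = 0 := by
    rw [← h10]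
    ring
  rcases mul_eq_zero.1 h11 with h12 | h12
  · exact absurd h12 (hω0 γ)
  · exact sub_eq_zero.1 h12

end field

/-- **FC-TOP-B** from FC-G1, FC-TOP-A, FC-FROB and FC-KUM. -/
theorem fcTopB (hG1 : FCG1Statement p) (hA : FCTopAStatement p) (hFr : FCFrobStatement p)
    (hK : FCKumStatement p) : FCTopBStatement p := by
  intro T _ _ ζ hζ hζT
  refine ⟨fun m f hm hf => fcTopB_zero p T hG1 hK hζ hζT m f hm hf, ?_, ?_⟩
  · intro m f hm hf γ g hg
    have h := fcTopB_inv' p T hA hFr hK hζ hζT m f hm hf γ⁻¹ g hg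
    rwa [inv_inv] at h
  · intro m hm
    classical
    by_cases hex : ∃ f₀ : GalP p → ZMod p, HasLevel p T ζ m f₀ ∧ ∃ g ∈ T.fixingSubgroup, f₀ g ≠ 0
    · obtain ⟨f₀, hf₀, g₀, hg₀, hne⟩ := hex
      refine ⟨f₀, fun f hf => ?_⟩
      obtain ⟨n, n', hnn', hdep⟩ := fcTopB_dep p T hA hK hζ hζT m hm f₀ f hf₀ hf
      have hn' : n' ≠ 0 := by
        intro h0
        rw [h0] at hnn' hdep
        have hn : n ≠ 0 := by
          rcases hnn' with h | h
          · exact h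
          · exact absurd rfl h
        have := hdep g₀ hg₀
        rw [zero_mul, add_zero] at this
        rcases mul_eq_zero.1 this with h | h
        · exact hn h
        · exact hne h
      refine ⟨-(n'⁻¹ * n), fun g hg => ?_⟩
      have h1 := hdep g hg
      have h2 : n' * f g = -(n * f₀ g) := by
        rw [eq_neg_iff_add_eq_zero, add_comm]
        exact h1
      calc f g = n'⁻¹ * (n' * f g) := by rw [← mul_assoc, inv_mul_cancel₀ hn', one_mul]
        _ = -(n'⁻¹ * n) * f₀ g := by rw [h2]; ring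
    · refine ⟨fun _ => 0, fun f hf => ⟨0, fun g hg => ?_⟩⟩
      rw [zero_mul]
      by_contra hne
      exact hex ⟨f, hf, g, hg, hne⟩

end Fermat.Agent.P1.helper9
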