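import Mathlib
import Fermat.Agent.P1.helper14_KumEqFinE
import Fermat.Agent.P1.helper43_FCStepFinal
import Fermat.Agent.P1.helper33_FCStep0
import Fermat.Agent.P1.helper9_FCTopB
import Fermat.Agent.P1.helper88_FCTheta
import Fermat.Agent.P1.helper41_FCFrob
import Fermat.Agent.P1.helper86_FCFinField
import Fermat.Agent.P1.helper94_FCAct
import Fermat.Agent.P1.helper94_FCGr
import Fermat.Agent.P1.helper38_FCKum
import Fermat.Agent.P1.helper77_FCG1
import Fermat.Agent.P1.helper61_FCTopA

/-!
# P1 / FLAT-CNT / KUMEQ (helper14): the three consumer outputs, UNCONDITIONAL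

* `kumEqI p   : KumEqIStatement p`
* `kumEqInv p : KumEqInvStatement p`
* `kumEqII p  : KumEqIIStatement p`

from the landed packages FC-STEP (helper43), FC-STEP0 (helper33), FC-TOPB (helper9), FC-THETA
(helper88), FC-FROB (helper41), FC-FF (helper86), FC-ACT (helper94), FC-GR (helper94), FC-KUM
(helper38), FC-G1 (helper77), FC-TOPA (helper61), FC-EIG-LIN-Q (helper67).
-/

set_option autoImplicit false

namespace Fermat.Agent.P1.helper14

variable (p : ℕ) [Fact p.Prime]

/-- **FC-TOP-B**, unconditional. -/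
theorem fcTopBStatement : FCTopBStatement p :=
  Fermat.Agent.P1.helper9.fcTopB p (Fermat.Agent.P1.helper77.fcG1 p)
    (Fermat.Agent.P1.helper61.fcTopA p (Fermat.Agent.P1.helper77.fcG1 p))
    (Fermat.Agent.P1.helper41.fcFrob p) (Fermat.Agent.P1.helper38.fcKum p)

/-- **FC-STEP0**, unconditional. -/
theorem fcStep0Statement : FCStep0Statement p :=
  Fermat.Agent.P1.helper33.fcStep0 p (Fermat.Agent.P1.helper94.fcGr p)
    (Fermat.Agent.P1.helper38.fcKum p)

/-- **KUMEQ-I**, unconditional. -/
theorem kumEqI : KumEqIStatement p :=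
  kumEqI_of (Fermat.Agent.P1.helper43.fcStepStatement p) (fcTopBStatement p)
    (Fermat.Agent.P1.helper88.fcTheta p) (Fermat.Agent.P1.helper41.fcFrob p)
    Fermat.Agent.P1.helper86.fcFinField Fermat.Agent.P1.helper94.fcAct

/-- **KUMEQ-INV**, unconditional. -/
theorem kumEqInv : KumEqInvStatement p :=
  kumEqInv_of (fcStep0Statement p) (fcTopBStatement p) (Fermat.Agent.P1.helper88.fcTheta p)

/-- **KUMEQ-II**, unconditional. -/
theorem kumEqII : KumEqIIStatement p :=
  kumEqII_of (Fermat.Agent.P1.helper43.fcStepStatement p) (fcTopBStatement p)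
    (Fermat.Agent.P1.helper88.fcTheta p) (Fermat.Agent.P1.helper41.fcFrob p)
    Fermat.Agent.P1.helper86.fcFinField

end Fermat.Agent.P1.helper14
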