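import Mathlib
import Fermat.Agent.S55.Arith
import Fermat.Prelude.Def_GaloisRep_LocalConditions
import Fermat.Prelude.Def_GaloisRep_StrictOrdinary
import Fermat.Prelude.Def_EllipticCurve_FrobeniusTrace

/-!
# P1 / S56, module DICT (helper92, sub-coordinator, task 509): interface

Dictionary between the GLOBAL vocabulary of the Prelude (valuation subrings `A` of `ℚbar` lying
over `q`, `A.decompositionSubgroup ℚ`, `A.inertiaSubgroupIn ℚ`, `A.IsFrobeniusAt φ q`) and the
LOCAL vocabulary of the S55 cohomology (`primeLocalGaloisGroup q`, `primeLocalToGlobal q`,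
`locLevels q`, `galLevels T`).

This file contains DEFINITIONS and the package statements as `Prop`s only.

* `locInertia q`  : the inertia subgroup of the local Galois group at `q`;
* `IsLocFrob q τ` : `τ` is an arithmetic Frobenius element of the local Galois group at `q`;
* `PlacesStatement`      [DICT-PL]   conjugacy of the places over `q`;
* `LocNormStatement`     [DICT-LOCN] inertia / Frobenius in terms of the norm of `PadicAlgCl q`;
* `LocCyclicStatement`   [DICT-LOCC] `G_q / I_q` is topologically generated by Frobenius;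
* `RootsStatement`       [DICT-CYC]  action of inertia / Frobenius on roots of unity;
* `UnrStatement`         [DICT-UNR]  unramified cocycles are detected by their value at Frobenius;
* `LevStatement`         [DICT-LEV]  levels of cocycles, inflation step.
-/

set_option autoImplicit false

open scoped Pointwise

noncomputable section

namespace Fermat.Agent.P1.helper92

open ExtCitation Fermat.Agent.S55 groupCohomology

local notation "Qbar" => AlgebraicClosure ℚ

/-! ## Vocabulary -/

/-- The inertia subgroup of the local Galois group at `q`: the preimage of the inertia group of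
`primeLocalPlace q`. -/
def locInertia (q : Nat.Primes) : Subgroup (primeLocalGaloisGroup q) :=
  ((primeLocalPlace q).inertiaSubgroupIn ℚ).comap (primeLocalToGlobal q)

lemma mem_locInertia {q : Nat.Primes} {τ : primeLocalGaloisGroup q} :
    τ ∈ locInertia q ↔ primeLocalToGlobal q τ ∈ (primeLocalPlace q).inertiaSubgroupIn ℚ :=
  Iff.rfl

/-- `τ` is an (arithmetic) Frobenius element of the local Galois group at `q`. -/
def IsLocFrob (q : Nat.Primes) (τ : primeLocalGaloisGroup q) : Prop :=
  (primeLocalPlace q).IsFrobeniusAt (primeLocalToGlobal q τ) (q : ℕ)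

/-- The same notions for `q : ℕ` with `[Fact q.Prime]` (vocabulary of
`Def_GaloisRep_CompletionBridge`). -/
def locInertiaNat (q : ℕ) [Fact q.Prime] : Subgroup (PadicAlgCl q ≃ₐ[ℚ_[q]] PadicAlgCl q) :=
  ((padicPlace q).inertiaSubgroupIn ℚ).comap (localGaloisToGlobal q)

/-- Frobenius elements, `ℕ`-version. -/
def IsLocFrobNat (q : ℕ) [Fact q.Prime] (τ : PadicAlgCl q ≃ₐ[ℚ_[q]] PadicAlgCl q) : Prop :=
  (padicPlace q).IsFrobeniusAt (localGaloisToGlobal q τ) q

/-! ## [DICT-PL] places -/

/-- **[DICT-PL]** every place over `q` is a `G_ℚ`-translate of `primeLocalPlace q`; decomposition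
groups, inertia groups and Frobenius elements of a translate are the conjugates. -/
def PlacesStatement : Prop :=
  (∀ (q : Nat.Primes) (A : ValuationSubring Qbar), A.LiesOverPrime (q : ℕ) →
      ∃ σ : GQ, A = σ • primeLocalPlace q) ∧
  (∀ (A : ValuationSubring Qbar) (σ τ : GQ),
      σ * τ * σ⁻¹ ∈ (σ • A).decompositionSubgroup ℚ ↔ τ ∈ A.decompositionSubgroup ℚ) ∧
  (∀ (A : ValuationSubring Qbar) (σ τ : GQ),
      σ * τ * σ⁻¹ ∈ (σ • A).inertiaSubgroupIn ℚ ↔ τ ∈ A.inertiaSubgroupIn ℚ) ∧
  (∀ (A : ValuationSubring Qbar) (σ τ : GQ) (q : ℕ),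
      (σ • A).IsFrobeniusAt (σ * τ * σ⁻¹) q ↔ A.IsFrobeniusAt τ q)

/-! ## [DICT-LOCN] norms -/

/-- **[DICT-LOCN]** inertia and Frobenius elements of the local Galois group in terms of the
norm of `PadicAlgCl q`. -/
def LocNormStatement : Prop :=
  ∀ (q : ℕ) [Fact q.Prime],
    (∀ x : PadicAlgCl q, ∀ ε : ℝ, 0 < ε → ∃ a : Qbar, ‖x - padicEmbedding q a‖ < ε) ∧
    (∀ a : Qbar, a ∈ (padicPlace q).nonunits ↔ ‖padicEmbedding q a‖ < 1) ∧
    (∀ τ : PadicAlgCl q ≃ₐ[ℚ_[q]] PadicAlgCl q, τ ∈ locInertiaNat q ↔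
        ∀ x : PadicAlgCl q, ‖x‖ ≤ 1 → ‖τ x - x‖ < 1) ∧
    (∀ τ : PadicAlgCl q ≃ₐ[ℚ_[q]] PadicAlgCl q, IsLocFrobNat q τ ↔
        ∀ x : PadicAlgCl q, ‖x‖ ≤ 1 → ‖τ x - x ^ q‖ < 1)

/-! ## [DICT-LOCC] structure of the local Galois group -/

/-- **[DICT-LOCC]** the inertia group is normal, Frobenius elements exist and are unique modulo
inertia, and modulo every local level the local Galois group is generated by inertia and one
Frobenius element. -/
def LocCyclicStatement : Prop :=
  ∀ q : Nat.Primes,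
    (locInertia q).Normal ∧
    (∃ φ : primeLocalGaloisGroup q, IsLocFrob q φ) ∧
    (∀ φ φ' : primeLocalGaloisGroup q, IsLocFrob q φ →
      (IsLocFrob q φ' ↔ φ⁻¹ * φ' ∈ locInertia q)) ∧
    (∀ φ : primeLocalGaloisGroup q, IsLocFrob q φ → ∀ N ∈ (locLevels q).mem,
      ∀ g : primeLocalGaloisGroup q, ∃ n : ℕ, ∃ i ∈ locInertia q, ∃ u ∈ N, g = φ ^ n * i * u)

/-! ## [DICT-CYC] roots of unity -/

/-- **[DICT-CYC]** for a place `A` over `q`: inertia fixes the roots of unity of order prime to
`q`, a Frobenius element raises them to the `q`-th power; consequently a Frobenius element at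
`q ≠ p` fixes `μ_{p^n}` iff `p^n ∣ q - 1`. -/
def RootsStatement : Prop :=
  ∀ (q : ℕ), q.Prime → ∀ A : ValuationSubring Qbar, A.LiesOverPrime q →
    (∀ σ ∈ A.inertiaSubgroupIn ℚ, ∀ (m : ℕ) (ζ : Qbar), ¬ q ∣ m → ζ ^ m = 1 → σ ζ = ζ) ∧
    (∀ φ : GQ, A.IsFrobeniusAt φ q → ∀ (m : ℕ) (ζ : Qbar), ¬ q ∣ m → ζ ^ m = 1 →
      φ ζ = ζ ^ q) ∧
    (∀ φ : GQ, A.IsFrobeniusAt φ q → ∀ (p n : ℕ), p.Prime → p ≠ q →
      ((∀ ζ : Qbar, ζ ^ p ^ n = 1 → φ ζ = ζ) ↔ p ^ n ∣ q - 1))

/-! ## [DICT-UNR] unramified local cocycles -/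

/-- **[DICT-UNR]** Let `M` be a smooth module for the local Galois group at `q` on which inertia
acts trivially, `φ` a Frobenius element. A level cocycle vanishing on inertia is a coboundary iff
its value at `φ` lies in `(φ - 1) M`; a level cocycle which is a coboundary vanishes on
inertia. -/
def UnrStatement : Prop :=
  ∀ (q : Nat.Primes) (k : Type) [CommRing k] (M : Rep k (primeLocalGaloisGroup q)),
    IsSmooth (locLevels q) M → (∀ i ∈ locInertia q, ∀ m : M, M.ρ i m = m) →
    ∀ φ : primeLocalGaloisGroup q, IsLocFrob q φ →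
      (∀ c ∈ Z1 (locLevels q) M, (∀ i ∈ locInertia q, c i = 0) →
        (c ∈ B1 M ↔ ∃ m : M, c φ = M.ρ φ m - m)) ∧
      (∀ c ∈ B1 M, ∀ i ∈ locInertia q, c i = 0)

/-! ## [DICT-LEV] levels -/

/-- **[DICT-LEV]**
(1) a cocycle `c : G_ℚ → M` on a `T`-smooth module which vanishes on an open subgroup and on all
inertia groups at the primes outside `T` is a level cocycle for `galLevels T`;
(2) conversely a level cocycle for `galLevels T` vanishes on an open subgroup, and on inertia
outside `T` where moreover `M` is unramified;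
(3) inflation step: a `T`-level cocycle on a module unramified at `q` whose restriction to the
local Galois group at `q` is a coboundary is a level cocycle for `T.erase q`. -/
def LevStatement : Prop :=
  ∀ (k : Type) [CommRing k] (T : Finset Nat.Primes) (M : Rep k GQ),
    (IsSmooth (galLevels T) M → ∀ c : GQ → M, c ∈ LinearMap.ker (d₁₂ M).hom →
      (∃ F : IntermediateField ℚ Qbar, FiniteDimensional ℚ F ∧
        ∀ s ∈ F.fixingSubgroup, c s = 0) →
      (∀ q : Nat.Primes, q ∉ T → ∀ A : ValuationSubring Qbar, A.LiesOverPrime (q : ℕ) →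
        ∀ σ ∈ A.inertiaSubgroupIn ℚ, c σ = 0) →
      c ∈ Z1 (galLevels T) M) ∧
    (IsSmooth (galLevels T) M → ∀ c ∈ Z1 (galLevels T) M,
      (∃ F : IntermediateField ℚ Qbar, FiniteDimensional ℚ F ∧
        ∀ s ∈ F.fixingSubgroup, c s = 0) ∧
      (∀ q : Nat.Primes, q ∉ T → ∀ A : ValuationSubring Qbar, A.LiesOverPrime (q : ℕ) →
        ∀ σ ∈ A.inertiaSubgroupIn ℚ, c σ = 0 ∧ ∀ m : M, M.ρ σ m = m)) ∧
    (IsSmooth (galLevels T) M → ∀ q : Nat.Primes,
      (∀ A : ValuationSubring Qbar, A.LiesOverPrime (q : ℕ) →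
        ∀ σ ∈ A.inertiaSubgroupIn ℚ, ∀ m : M, M.ρ σ m = m) →
      ∀ c ∈ Z1 (galLevels T) M,
        (∃ m : M, ∀ τ : primeLocalGaloisGroup q,
          c (primeLocalToGlobal q τ) = M.ρ (primeLocalToGlobal q τ) m - m) →
        c ∈ Z1 (galLevels (T.erase q)) M ∧ IsSmooth (galLevels (T.erase q)) M)

end Fermat.Agent.P1.helper92
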