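import Mathlib
import Fermat.Agent.P1.helper92_DictDefs
import Fermat.Agent.S55.helper74_DecGroup
import Fermat.Agent.S14.helper91_Dictionary

/-!
# P1 (S56), module DICT, package [DICT-LOCN] (helper61, task 667)

Inertia and Frobenius elements of the local Galois group at `q` in terms of the norm of
`PadicAlgCl q`:

* `exists_padicEmbedding_near` : `Qbar` is dense in `PadicAlgCl q`;
* `mem_nonunits_padicPlace_iff` : `a ∈ (padicPlace q).nonunits ↔ ‖padicEmbedding q a‖ < 1`;
* `valuation_padicPlace_lt_one_iff` : `(padicPlace q).valuation a < 1 ↔ ‖padicEmbedding q a‖ < 1`;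
* `mem_locInertiaNat_iff` : `τ ∈ locInertiaNat q ↔ ∀ x, ‖x‖ ≤ 1 → ‖τ x - x‖ < 1`;
* `isLocFrobNat_iff` : `IsLocFrobNat q τ ↔ ∀ x, ‖x‖ ≤ 1 → ‖τ x - x ^ q‖ < 1`;
* `locNormStatement : Fermat.Agent.P1.helper92.LocNormStatement`;
* the `Nat.Primes` versions `locInertia_eq_locInertiaNat`, `isLocFrob_iff_isLocFrobNat`,
  `mem_locInertia_iff_norm`, `isLocFrob_iff_norm`.
-/

set_option autoImplicit false

open scoped Pointwise

noncomputable section

namespace Fermat.Agent.P1.helper61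

open Fermat.Agent.P1.helper92 ExtCitation

local notation "Qbar" => AlgebraicClosure ℚ

section NatVersion

variable (q : ℕ) [Fact q.Prime]

/-- Automorphisms of `PadicAlgCl q` over `ℚ_[q]` are isometries. -/
theorem norm_algEquiv_apply (τ : PadicAlgCl q ≃ₐ[ℚ_[q]] PadicAlgCl q) (y : PadicAlgCl q) :
    ‖τ y‖ = ‖y‖ :=
  congrArg (fun t : NNReal => (t : ℝ)) (nnnorm_padicAlgCl_algEquiv q τ y)

/-- The ultrametric inequality in the form used below. -/
theorem norm_add_lt_one {x y : PadicAlgCl q} (hx : ‖x‖ < 1) (hy : ‖y‖ < 1) : ‖x + y‖ < 1 :=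
  (IsUltrametricDist.norm_add_le_max x y).trans_lt (max_lt hx hy)

theorem norm_sub_lt_one {x y : PadicAlgCl q} (hx : ‖x‖ < 1) (hy : ‖y‖ < 1) : ‖x - y‖ < 1 := by
  rw [sub_eq_add_neg]
  exact norm_add_lt_one q hx (by rwa [norm_neg])

/-- **[DICT-LOCN] (1)** `Qbar` is dense in `PadicAlgCl q`. -/
theorem exists_padicEmbedding_near (x : PadicAlgCl q) {ε : ℝ} (hε : 0 < ε) :
    ∃ a : Qbar, ‖x - padicEmbedding q a‖ < ε := by
  obtain ⟨z, rfl⟩ := Fermat.Agent.S55.helper74.Phi_one_surjective q x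
  obtain ⟨w, hw, -⟩ := Fermat.Agent.S55.helper74.exists_approx (q := q) (σ := 1)
    (one_mem _) z hε
  exact ⟨w, hw⟩

/-- Every element of the unit ball is congruent to an element of `padicPlace q` modulo the open
unit ball. -/
theorem exists_mem_padicPlace_near {x : PadicAlgCl q} (hx : ‖x‖ ≤ 1) :
    ∃ a ∈ padicPlace q, ‖x - padicEmbedding q a‖ < 1 := by
  obtain ⟨a, ha⟩ := exists_padicEmbedding_near q x one_pos
  refine ⟨a, ?_, ha⟩
  rw [Fermat.Agent.S55.helper74.mem_padicPlace_iff_norm]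
  have h1 : padicEmbedding q a = x + -(x - padicEmbedding q a) := by ring
  rw [h1]
  refine (IsUltrametricDist.norm_add_le_max _ _).trans (max_le hx ?_)
  rw [norm_neg]
  exact ha.le

/-- `(padicPlace q).valuation a < 1 ↔ ‖padicEmbedding q a‖ < 1`. -/
theorem valuation_padicPlace_lt_one_iff (a : Qbar) :
    (padicPlace q).valuation a < 1 ↔ ‖padicEmbedding q a‖ < 1 := by
  rcases eq_or_ne a 0 with rfl | ha
  · simp
  · have h1 : (padicPlace q).valuation a < 1 ↔ a⁻¹ ∉ padicPlace q := by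
      rw [← ValuationSubring.valuation_le_one_iff, map_inv₀, not_le, one_lt_inv₀]
      exact (Valuation.pos_iff _).mpr ha
    have h2 : 0 < ‖padicEmbedding q a‖ := by
      rw [norm_pos_iff]
      exact (map_ne_zero _).mpr ha
    rw [h1, Fermat.Agent.S55.helper74.mem_padicPlace_iff_norm, map_inv₀, norm_inv, not_le,
      one_lt_inv₀ h2]

/-- **[DICT-LOCN] (2)** the maximal ideal of `padicPlace q` is cut out by `‖·‖ < 1`. -/
theorem mem_nonunits_padicPlace_iff (a : Qbar) :
    a ∈ (padicPlace q).nonunits ↔ ‖padicEmbedding q a‖ < 1 := by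
  rw [ValuationSubring.mem_nonunits_iff]
  exact valuation_padicPlace_lt_one_iff q a

/-- **[DICT-LOCN] (3)** inertia in terms of the norm. -/
theorem mem_locInertiaNat_iff (τ : PadicAlgCl q ≃ₐ[ℚ_[q]] PadicAlgCl q) :
    τ ∈ locInertiaNat q ↔ ∀ x : PadicAlgCl q, ‖x‖ ≤ 1 → ‖τ x - x‖ < 1 := by
  unfold locInertiaNat
  rw [Subgroup.mem_comap, Fermat.Agent.S14.helper91.mem_inertiaSubgroupIn_iff_valuation]
  constructor
  · rintro ⟨-, h⟩ x hx
    obtain ⟨a, haA, ha⟩ := exists_mem_padicPlace_near q hx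
    have h1 := h a haA
    rw [valuation_padicPlace_lt_one_iff, map_sub, padicEmbedding_localGaloisToGlobal] at h1
    have h2 : τ x - x = (τ (x - padicEmbedding q a) - (x - padicEmbedding q a)) +
        (τ (padicEmbedding q a) - padicEmbedding q a) := by
      rw [map_sub]; ring
    rw [h2]
    refine norm_add_lt_one q (norm_sub_lt_one q ?_ ha) h1
    rw [norm_algEquiv_apply]
    exact ha
  · intro h
    refine ⟨localGaloisToGlobal_mem_decompositionSubgroup q τ, fun a ha => ?_⟩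
    rw [valuation_padicPlace_lt_one_iff, map_sub, padicEmbedding_localGaloisToGlobal]
    exact h _ ((Fermat.Agent.S55.helper74.mem_padicPlace_iff_norm q).mp ha)

/-- `x ↦ x ^ n` is compatible with congruences modulo the open unit ball. -/
theorem norm_pow_sub_pow_lt_one {x y : PadicAlgCl q} (hx : ‖x‖ ≤ 1) (hy : ‖y‖ ≤ 1)
    (hxy : ‖x - y‖ < 1) (n : ℕ) : ‖x ^ n - y ^ n‖ < 1 := by
  induction n with
  | zero => simp
  | succ n ih =>
    have h1 : x ^ (n + 1) - y ^ (n + 1) = (x ^ n - y ^ n) * x + y ^ n * (x - y) := by ring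
    rw [h1]
    refine norm_add_lt_one q ?_ ?_
    · rw [norm_mul]
      calc ‖x ^ n - y ^ n‖ * ‖x‖ ≤ ‖x ^ n - y ^ n‖ * 1 :=
            mul_le_mul_of_nonneg_left hx (norm_nonneg _)
        _ < 1 := by rw [mul_one]; exact ih
    · rw [norm_mul, norm_pow]
      calc ‖y‖ ^ n * ‖x - y‖ ≤ 1 * ‖x - y‖ :=
            mul_le_mul_of_nonneg_right (pow_le_one₀ (norm_nonneg _) hy) (norm_nonneg _)
        _ < 1 := by rw [one_mul]; exact hxy

/-- A Frobenius-type congruence on `padicPlace q` gives `IsFrobeniusAt`. -/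
theorem isFrobeniusAt_of_valuation {σ : Qbar ≃ₐ[ℚ] Qbar} (A : ValuationSubring Qbar)
    (hσ : σ ∈ A.decompositionSubgroup ℚ) (n : ℕ)
    (h : ∀ a ∈ A, A.valuation (σ a - a ^ n) < 1) : A.IsFrobeniusAt σ n := by
  refine ⟨hσ, fun xbar => ?_⟩
  obtain ⟨a, rfl⟩ := IsLocalRing.residue_surjective xbar
  rw [← IsLocalRing.ResidueField.residue_smul, ← map_pow, ← sub_eq_zero, ← map_sub,
    IsLocalRing.residue_eq_zero_iff, A.valuation_lt_one_iff]
  exact h a.1 a.2

/-- **[DICT-LOCN] (4)** Frobenius elements in terms of the norm. -/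
theorem isLocFrobNat_iff (τ : PadicAlgCl q ≃ₐ[ℚ_[q]] PadicAlgCl q) :
    IsLocFrobNat q τ ↔ ∀ x : PadicAlgCl q, ‖x‖ ≤ 1 → ‖τ x - x ^ q‖ < 1 := by
  unfold IsLocFrobNat
  constructor
  · intro hF x hx
    obtain ⟨a, haA, ha⟩ := exists_mem_padicPlace_near q hx
    have ha1 : ‖padicEmbedding q a‖ ≤ 1 :=
      (Fermat.Agent.S55.helper74.mem_padicPlace_iff_norm q).mp haA
    have h1 := Fermat.Agent.S14.helper91.IsFrobeniusAt_valuation_lt_one (padicPlace q) hF haA
    rw [valuation_padicPlace_lt_one_iff, map_sub, padicEmbedding_localGaloisToGlobal,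
      map_pow] at h1
    have h2 : τ x - x ^ q = (τ (x - padicEmbedding q a) - (x ^ q - padicEmbedding q a ^ q)) +
        (τ (padicEmbedding q a) - padicEmbedding q a ^ q) := by
      rw [map_sub]; ring
    rw [h2]
    refine norm_add_lt_one q (norm_sub_lt_one q ?_ ?_) h1
    · rw [norm_algEquiv_apply]
      exact ha
    · exact norm_pow_sub_pow_lt_one q hx ha1 ha q
  · intro h
    refine isFrobeniusAt_of_valuation (padicPlace q)
      (localGaloisToGlobal_mem_decompositionSubgroup q τ) q fun a ha => ?_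
    rw [valuation_padicPlace_lt_one_iff, map_sub, padicEmbedding_localGaloisToGlobal, map_pow]
    exact h _ ((Fermat.Agent.S55.helper74.mem_padicPlace_iff_norm q).mp ha)

end NatVersion

/-- **[DICT-LOCN]** inertia and Frobenius elements of the local Galois group in terms of the
norm of `PadicAlgCl q`. -/
theorem locNormStatement : LocNormStatement := by
  intro q _
  exact ⟨fun x ε hε => exists_padicEmbedding_near q x hε, mem_nonunits_padicPlace_iff q,
    mem_locInertiaNat_iff q, isLocFrobNat_iff q⟩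

/-! ## The `Nat.Primes` versions -/

section PrimesVersion

/-- The instance used by the Prelude for `q : Nat.Primes` (all instances of this proposition
are equal). -/
local instance factOfPrimesDictLocN (q : Nat.Primes) : Fact (q : ℕ).Prime := ⟨q.2⟩

variable (q : Nat.Primes)

/-- `primeLocalPlace q` is `padicPlace q`. -/
theorem primeLocalPlace_eq_padicPlace : primeLocalPlace q = padicPlace (q : ℕ) := rfl

/-- `primeLocalToGlobal q` is `localGaloisToGlobal q`. -/
theorem primeLocalToGlobal_eq_localGaloisToGlobal :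
    primeLocalToGlobal q = localGaloisToGlobal (q : ℕ) := rfl

/-- `locInertia q` is `locInertiaNat q`. -/
theorem locInertia_eq_locInertiaNat : locInertia q = locInertiaNat (q : ℕ) := rfl

/-- `IsLocFrob q` is `IsLocFrobNat q`. -/
theorem isLocFrob_iff_isLocFrobNat (τ : primeLocalGaloisGroup q) :
    IsLocFrob q τ ↔ IsLocFrobNat (q : ℕ) τ := Iff.rfl

/-- `Qbar` is dense in `PadicAlgCl q`, `Nat.Primes` version. -/
theorem exists_padicEmbedding_near_primes (x : PadicAlgCl (q : ℕ)) {ε : ℝ} (hε : 0 < ε) :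
    ∃ a : Qbar, ‖x - padicEmbedding (q : ℕ) a‖ < ε :=
  exists_padicEmbedding_near (q : ℕ) x hε

/-- The maximal ideal of `primeLocalPlace q` is cut out by `‖·‖ < 1`. -/
theorem mem_nonunits_primeLocalPlace_iff (a : Qbar) :
    a ∈ (primeLocalPlace q).nonunits ↔ ‖padicEmbedding (q : ℕ) a‖ < 1 :=
  mem_nonunits_padicPlace_iff (q : ℕ) a

/-- `(primeLocalPlace q).valuation a < 1 ↔ ‖padicEmbedding q a‖ < 1`. -/
theorem valuation_primeLocalPlace_lt_one_iff (a : Qbar) :
    (primeLocalPlace q).valuation a < 1 ↔ ‖padicEmbedding (q : ℕ) a‖ < 1 :=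
  valuation_padicPlace_lt_one_iff (q : ℕ) a

/-- `a ∈ primeLocalPlace q ↔ ‖padicEmbedding q a‖ ≤ 1`. -/
theorem mem_primeLocalPlace_iff_norm (a : Qbar) :
    a ∈ primeLocalPlace q ↔ ‖padicEmbedding (q : ℕ) a‖ ≤ 1 :=
  Fermat.Agent.S55.helper74.mem_padicPlace_iff_norm (q : ℕ)

/-- `padicEmbedding q (primeLocalToGlobal q τ a) = τ (padicEmbedding q a)`. -/
theorem padicEmbedding_primeLocalToGlobal
    (τ : PadicAlgCl (q : ℕ) ≃ₐ[ℚ_[(q : ℕ)]] PadicAlgCl (q : ℕ)) (a : Qbar) :
    padicEmbedding (q : ℕ) (primeLocalToGlobal q τ a) = τ (padicEmbedding (q : ℕ) a) :=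
  padicEmbedding_localGaloisToGlobal (q : ℕ) τ a

/-- Inertia of the local Galois group at `q : Nat.Primes` in terms of the norm. -/
theorem mem_locInertia_iff_norm
    (τ : PadicAlgCl (q : ℕ) ≃ₐ[ℚ_[(q : ℕ)]] PadicAlgCl (q : ℕ)) :
    (τ : primeLocalGaloisGroup q) ∈ locInertia q ↔
      ∀ x : PadicAlgCl (q : ℕ), ‖x‖ ≤ 1 → ‖τ x - x‖ < 1 :=
  mem_locInertiaNat_iff (q : ℕ) τ

/-- Frobenius elements of the local Galois group at `q : Nat.Primes` in terms of the norm. -/
theorem isLocFrob_iff_norm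
    (τ : PadicAlgCl (q : ℕ) ≃ₐ[ℚ_[(q : ℕ)]] PadicAlgCl (q : ℕ)) :
    IsLocFrob q (τ : primeLocalGaloisGroup q) ↔
      ∀ x : PadicAlgCl (q : ℕ), ‖x‖ ≤ 1 → ‖τ x - x ^ (q : ℕ)‖ < 1 :=
  isLocFrobNat_iff (q : ℕ) τ

end PrimesVersion

end Fermat.Agent.P1.helper61
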