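import Fermat.Agent.P1.helper78_KRInert
import Fermat.Agent.P1.helper61_DictLocN
import Fermat.Agent.S55.helper71_LocNorm

/-!
# P1 / FLAT-CNT, DICT-H common core (helper78): inertia of `G_p` versus inertia of `Gal(F/ℚ_p)`

`Ω = PadicAlgCl p`, `F` a finite normal extension of `ℚ_p` inside `Ω`
(`F : IntermediateField ℚ_[p] Ω`), `I_p = helper92.locInertiaNat p`,
`I(F) = helper14.inertia p F`.

* `dictI_spectralNorm`, `dictI_ordT_nonneg_iff`, `dictI_ordT_pos_iff` : **(N)** the valuation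
  `ordT p F` in terms of the norm of `Ω`;
* `dictI_restrict_mem_inertia_iff`, `dictI_restrict_mem_inertia` : **(I1)** `I_p → I(F)`;
* `dictI_exists_lift` : **(I2)** `I_p → I(F)` is surjective;
* `dictI_exists_field` : **(V)** a finite subset of `Ω` lies in a finite normal `F`;
* `dictI_M`, `dictI_fixingSubgroup_le`, `dictI_M_exists`, `dictI_fix_of_mem_inertia`,
  `dictI_mem_locInertiaNat_of_fix`, `dictI_mem_inertia_of_fix` : the maximal unramified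
  extension `ℚ_p(μ_{p'})`.
-/

set_option autoImplicit false

namespace Fermat.Agent.P1.helper78

open Fermat.Agent.S55.helper8 Fermat.Agent.S55.helper7 Fermat.Agent.S55.helper33
open Fermat.Agent.P1.helper14 Fermat.Agent.P1.helper92 IntermediateField

section DictInertia

variable (p : ℕ) [Fact p.Prime]

section N

variable (F : IntermediateField ℚ_[p] (PadicAlgCl p)) [FiniteDimensional ℚ_[p] F]

omit [FiniteDimensional ℚ_[p] F] in
/-- the spectral norm of `F` is the norm of `Ω`. -/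
theorem dictI_spectralNorm (x : F) : spectralNorm ℚ_[p] F x = ‖(x : PadicAlgCl p)‖ := by
  rw [← PadicAlgCl.spectralNorm_eq]
  exact spectralNorm.eq_of_tower (K := ℚ_[p]) (L := PadicAlgCl p) x

/-- **(N)** `0 ≤ ord x ↔ ‖x‖ ≤ 1`. -/
theorem dictI_ordT_nonneg_iff (x : F) : 0 ≤ ordT p F x ↔ ‖(x : PadicAlgCl p)‖ ≤ 1 := by
  have h := Fermat.Agent.S55.helper71.le_ordT_iff p F x 0
  rw [zpow_zero, dictI_spectralNorm] at h
  exact h

/-- **(N)** `0 < ord x ↔ ‖x‖ < 1`. -/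
theorem dictI_ordT_pos_iff (x : F) : 0 < ordT p F x ↔ ‖(x : PadicAlgCl p)‖ < 1 := by
  have h := Fermat.Agent.S55.helper71.lt_ordT_iff p F x 0
  rw [zpow_zero, dictI_spectralNorm] at h
  exact h

variable [Normal ℚ_[p] F]

/-- membership in the inertia group of `Gal(F/ℚ_p)` of a restriction, in terms of the norm of
`Ω`. -/
theorem dictI_restrict_mem_inertia_iff (τ : PadicAlgCl p ≃ₐ[ℚ_[p]] PadicAlgCl p) :
    AlgEquiv.restrictNormalHom F τ ∈ inertia p F ↔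
      ∀ x : PadicAlgCl p, x ∈ F → ‖x‖ ≤ 1 → ‖τ x - x‖ < 1 := by
  constructor
  · intro h x hxF hx
    have h1 := h ⟨x, hxF⟩ ((dictI_ordT_nonneg_iff p F _).mpr hx)
    rw [dictI_ordT_pos_iff, AddSubgroupClass.coe_sub] at h1
    have h2 : ((AlgEquiv.restrictNormalHom F τ ⟨x, hxF⟩ : F) : PadicAlgCl p) = τ x :=
      AlgEquiv.restrictNormal_commutes τ F ⟨x, hxF⟩
    rw [h2] at h1
    exact h1
  · intro h x hx
    rw [dictI_ordT_pos_iff]
    rw [dictI_ordT_nonneg_iff] at hx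
    have h2 : ((AlgEquiv.restrictNormalHom F τ x : F) : PadicAlgCl p) = τ (x : PadicAlgCl p) :=
      AlgEquiv.restrictNormal_commutes τ F x
    rw [AddSubgroupClass.coe_sub, h2]
    exact h _ x.2 hx

/-- **(I1)** the restriction of an element of the inertia group of `G_p` lies in the inertia
group of `Gal(F/ℚ_p)`. -/
theorem dictI_restrict_mem_inertia {τ : PadicAlgCl p ≃ₐ[ℚ_[p]] PadicAlgCl p}
    (hτ : τ ∈ locInertiaNat p) :
    AlgEquiv.restrictNormalHom F τ ∈ inertia p F := by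
  rw [Fermat.Agent.P1.helper61.mem_locInertiaNat_iff] at hτ
  rw [dictI_restrict_mem_inertia_iff]
  intro x _ hx
  exact hτ x hx

end N

section Fin

variable (L : Type) [Field L] [Algebra ℚ_[p] L] [FiniteDimensional ℚ_[p] L] [IsGalois ℚ_[p] L]

/-- **(F1)** an automorphism of a finite Galois extension of `ℚ_p` fixing the roots of unity of
order prime to `p` lies in the inertia group. -/
theorem dictI_mem_inertia_of_fix (s : L ≃ₐ[ℚ_[p]] L)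
    (hs : ∀ (ξ : L) (N : ℕ), ¬ p ∣ N → ξ ^ N = 1 → s ξ = ξ) : s ∈ inertia p L := by
  obtain ⟨K0, he, -, -, hK0⟩ := krInert p L
  obtain ⟨he1, hf1⟩ := edeg_fdeg_padic p
  have hunr : IsUnram p ℚ_[p] K0 := by
    rw [isUnram_iff]
    unfold relE
    rw [he, he1]
  obtain ⟨ζ, hζ, hζK⟩ := exists_primitiveRoot_adjoin_eq p ℚ_[p] L K0 hunr
  have hN : ¬ p ∣ (p ^ fdeg p ℚ_[p]) ^ Module.finrank ℚ_[p] K0 - 1 :=
    not_dvd_pow_sub_one p ℚ_[p] (n := Module.finrank ℚ_[p] K0) Module.finrank_pos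
  have h3 : s ζ = ζ := hs ζ _ hN hζ.pow_eq_one
  rw [hK0]
  have hle : ℚ_[p]⟮ζ⟯ ≤ fixOne p L s := by
    rw [adjoin_simple_le_iff]
    exact h3
  intro x hx
  rw [← hζK] at hx
  exact hle hx

end Fin

/-- **(V)** a finite subset of `Ω` lies in a finite Galois extension of `ℚ_p`. -/
theorem dictI_exists_field (S : Set (PadicAlgCl p)) (hS : S.Finite) :
    ∃ F : IntermediateField ℚ_[p] (PadicAlgCl p),
      FiniteDimensional ℚ_[p] F ∧ Normal ℚ_[p] F ∧ S ⊆ F := by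
  have : Finite S := hS
  have hfd : FiniteDimensional ℚ_[p] (adjoin ℚ_[p] S) :=
    IntermediateField.finiteDimensional_adjoin
      (fun x _ => Algebra.IsIntegral.isIntegral x)
  refine ⟨normalClosure ℚ_[p] (adjoin ℚ_[p] S) (PadicAlgCl p), ?_, ?_, ?_⟩
  · exact normalClosure.is_finiteDimensional ℚ_[p] (adjoin ℚ_[p] S) (PadicAlgCl p)
  · exact normalClosure.normal ℚ_[p] (adjoin ℚ_[p] S) (PadicAlgCl p)
  · intro x hx
    exact IntermediateField.le_normalClosure (adjoin ℚ_[p] S) (subset_adjoin ℚ_[p] S hx)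

/-- **Step 1**: an automorphism of `Ω` fixing the roots of unity of order prime to `p` lies in
the inertia group. -/
theorem dictI_mem_locInertiaNat_of_fix (τ : PadicAlgCl p ≃ₐ[ℚ_[p]] PadicAlgCl p)
    (hτ : ∀ (ξ : PadicAlgCl p) (N : ℕ), ¬ p ∣ N → ξ ^ N = 1 → τ ξ = ξ) :
    τ ∈ locInertiaNat p := by
  rw [Fermat.Agent.P1.helper61.mem_locInertiaNat_iff]
  intro x hx
  obtain ⟨F, hfd, hn, hxF⟩ := dictI_exists_field p {x} (Set.finite_singleton x)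
  have hgal : IsGalois ℚ_[p] F := IsGalois.mk
  have hs : AlgEquiv.restrictNormalHom F τ ∈ inertia p F := by
    apply dictI_mem_inertia_of_fix
    intro ξ N hN hξ
    apply Subtype.ext
    have h2 : ((AlgEquiv.restrictNormalHom F τ ξ : F) : PadicAlgCl p) = τ (ξ : PadicAlgCl p) :=
      AlgEquiv.restrictNormal_commutes τ F ξ
    rw [h2]
    apply hτ _ N hN
    have := congrArg (Subtype.val) hξ
    simpa using this
  exact (dictI_restrict_mem_inertia_iff p F τ).mp hs x (hxF rfl) hx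

/-- **Step 2**: if the restriction of `τ` to the finite Galois extension `F` lies in the inertia
group, then `τ` fixes the elements of `F ∩ ℚ_p(ξ)`, `ξ` a root of unity of order prime to `p`. -/
theorem dictI_fix_of_mem_inertia (F : IntermediateField ℚ_[p] (PadicAlgCl p))
    [FiniteDimensional ℚ_[p] F] [Normal ℚ_[p] F]
    (τ : PadicAlgCl p ≃ₐ[ℚ_[p]] PadicAlgCl p)
    (hτ : AlgEquiv.restrictNormalHom F τ ∈ inertia p F)
    (ξ : PadicAlgCl p) (N : ℕ) (hN : ¬ p ∣ N) (hξ : ξ ^ N = 1)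
    (y : PadicAlgCl p) (hyF : y ∈ F) (hy : y ∈ ℚ_[p]⟮ξ⟯) : τ y = y := by
  obtain ⟨hfdM, hgalM, hunrM⟩ := isUnram_adjoin_rootOfUnity p ℚ_[p] (PadicAlgCl p) N hN ξ hξ
  have hEF : F ⊓ ℚ_[p]⟮ξ⟯ ≤ F := inf_le_left
  have hEM : F ⊓ ℚ_[p]⟮ξ⟯ ≤ ℚ_[p]⟮ξ⟯ := inf_le_right
  have hnM : Normal ℚ_[p] ℚ_[p]⟮ξ⟯ := hgalM.to_normal
  have hnE : Normal ℚ_[p] (F ⊓ ℚ_[p]⟮ξ⟯ : IntermediateField ℚ_[p] (PadicAlgCl p)) :=
    inferInstance
  let _ : Algebra (F ⊓ ℚ_[p]⟮ξ⟯ : IntermediateField ℚ_[p] (PadicAlgCl p)) ℚ_[p]⟮ξ⟯ :=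
    (IntermediateField.inclusion hEM).toRingHom.toAlgebra
  have hst : IsScalarTower ℚ_[p] (F ⊓ ℚ_[p]⟮ξ⟯ : IntermediateField ℚ_[p] (PadicAlgCl p))
      ℚ_[p]⟮ξ⟯ := IsScalarTower.of_algebraMap_eq (fun x => rfl)
  have hunrE : IsUnram p ℚ_[p] (F ⊓ ℚ_[p]⟮ξ⟯ : IntermediateField ℚ_[p] (PadicAlgCl p)) :=
    (isUnram_of_tower p ℚ_[p] (F ⊓ ℚ_[p]⟮ξ⟯ : IntermediateField ℚ_[p] (PadicAlgCl p))
      ℚ_[p]⟮ξ⟯ hunrM).1
  have h1 : AlgEquiv.restrictNormalHom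
      (F ⊓ ℚ_[p]⟮ξ⟯ : IntermediateField ℚ_[p] (PadicAlgCl p)) τ = 1 := by
    apply eq_of_forall_ordT_sub_pos p ℚ_[p] _ hunrE
    intro x hx
    rw [dictI_ordT_pos_iff]
    rw [dictI_ordT_nonneg_iff] at hx
    have h2 : ((AlgEquiv.restrictNormalHom
        (F ⊓ ℚ_[p]⟮ξ⟯ : IntermediateField ℚ_[p] (PadicAlgCl p)) τ x :
          (F ⊓ ℚ_[p]⟮ξ⟯ : IntermediateField ℚ_[p] (PadicAlgCl p))) : PadicAlgCl p) =
        τ (x : PadicAlgCl p) := AlgEquiv.restrictNormal_commutes τ _ x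
    rw [AddSubgroupClass.coe_sub, h2]
    exact (dictI_restrict_mem_inertia_iff p F τ).mp hτ x (hEF x.2) hx
  have hyE : y ∈ (F ⊓ ℚ_[p]⟮ξ⟯ : IntermediateField ℚ_[p] (PadicAlgCl p)) := ⟨hyF, hy⟩
  have h2 : ((AlgEquiv.restrictNormalHom
      (F ⊓ ℚ_[p]⟮ξ⟯ : IntermediateField ℚ_[p] (PadicAlgCl p)) τ
        (⟨y, hyE⟩ : (F ⊓ ℚ_[p]⟮ξ⟯ : IntermediateField ℚ_[p] (PadicAlgCl p))) :
        (F ⊓ ℚ_[p]⟮ξ⟯ : IntermediateField ℚ_[p] (PadicAlgCl p))) : PadicAlgCl p) =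
      τ y := AlgEquiv.restrictNormal_commutes τ _
        (⟨y, hyE⟩ : (F ⊓ ℚ_[p]⟮ξ⟯ : IntermediateField ℚ_[p] (PadicAlgCl p)))
  rw [← h2, h1]
  rfl

/-- the maximal unramified extension of `ℚ_p` in `Ω`: the field generated by the roots of unity
of order prime to `p`. -/
noncomputable def dictI_M : IntermediateField ℚ_[p] (PadicAlgCl p) :=
  adjoin ℚ_[p] {ξ | ∃ N : ℕ, ¬ p ∣ N ∧ ξ ^ N = 1}

/-- two roots of unity of order prime to `p` are powers of a third one -/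
theorem dictI_directed (ξ₁ ξ₂ : PadicAlgCl p) (N₁ N₂ : ℕ) (h₁ : ¬ p ∣ N₁) (h₂ : ¬ p ∣ N₂)
    (hξ₁ : ξ₁ ^ N₁ = 1) (hξ₂ : ξ₂ ^ N₂ = 1) :
    ∃ (ξ : PadicAlgCl p) (N : ℕ), ¬ p ∣ N ∧ ξ ^ N = 1 ∧ ℚ_[p]⟮ξ₁⟯ ≤ ℚ_[p]⟮ξ⟯ ∧
      ℚ_[p]⟮ξ₂⟯ ≤ ℚ_[p]⟮ξ⟯ := by
  have hp : p.Prime := Fact.out
  have hN : ¬ p ∣ N₁ * N₂ := fun h => (hp.dvd_mul.mp h).elim h₁ h₂
  have hN0 : N₁ * N₂ ≠ 0 := fun h => hN (h ▸ dvd_zero p)
  have : NeZero (N₁ * N₂) := ⟨hN0⟩
  have : NeZero ((N₁ * N₂ : ℕ) : ℚ_[p]) := ⟨by exact_mod_cast hN0⟩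
  obtain ⟨ξ, hξ⟩ := HasEnoughRootsOfUnity.exists_primitiveRoot (PadicAlgCl p) (N₁ * N₂)
  refine ⟨ξ, N₁ * N₂, hN, hξ.pow_eq_one, ?_, ?_⟩
  · rw [adjoin_simple_le_iff]
    obtain ⟨i, -, hi⟩ := hξ.eq_pow_of_pow_eq_one (ξ := ξ₁) (by rw [pow_mul, hξ₁, one_pow])
    rw [← hi]
    exact pow_mem (mem_adjoin_simple_self ℚ_[p] ξ) i
  · rw [adjoin_simple_le_iff]
    obtain ⟨i, -, hi⟩ := hξ.eq_pow_of_pow_eq_one (ξ := ξ₂)
      (by rw [mul_comm, pow_mul, hξ₂, one_pow])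
    rw [← hi]
    exact pow_mem (mem_adjoin_simple_self ℚ_[p] ξ) i

/-- every element of `dictI_M` lies in `ℚ_p(ξ)` for a single root of unity `ξ` of order prime
to `p`. -/
theorem dictI_M_exists {y : PadicAlgCl p} (hy : y ∈ dictI_M p) :
    ∃ (ξ : PadicAlgCl p) (N : ℕ), ¬ p ∣ N ∧ ξ ^ N = 1 ∧ y ∈ ℚ_[p]⟮ξ⟯ := by
  unfold dictI_M at hy
  induction hy using adjoin_induction with
  | mem x hx =>
    obtain ⟨N, hN, hx⟩ := hx
    exact ⟨x, N, hN, hx, mem_adjoin_simple_self ℚ_[p] x⟩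
  | algebraMap x =>
    exact ⟨1, 1, fun h => (Fact.out : p.Prime).one_lt.ne' (Nat.dvd_one.mp h), one_pow 1,
      IntermediateField.algebraMap_mem _ x⟩
  | add x y _ _ hx hy =>
    obtain ⟨ξ₁, N₁, h₁, hξ₁, hx⟩ := hx
    obtain ⟨ξ₂, N₂, h₂, hξ₂, hy⟩ := hy
    obtain ⟨ξ, N, hN, hξ, hle₁, hle₂⟩ := dictI_directed p ξ₁ ξ₂ N₁ N₂ h₁ h₂ hξ₁ hξ₂
    exact ⟨ξ, N, hN, hξ, add_mem (hle₁ hx) (hle₂ hy)⟩
  | inv x _ hx =>
    obtain ⟨ξ₁, N₁, h₁, hξ₁, hx⟩ := hx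
    exact ⟨ξ₁, N₁, h₁, hξ₁, inv_mem hx⟩
  | mul x y _ _ hx hy =>
    obtain ⟨ξ₁, N₁, h₁, hξ₁, hx⟩ := hx
    obtain ⟨ξ₂, N₂, h₂, hξ₂, hy⟩ := hy
    obtain ⟨ξ, N, hN, hξ, hle₁, hle₂⟩ := dictI_directed p ξ₁ ξ₂ N₁ N₂ h₁ h₂ hξ₁ hξ₂
    exact ⟨ξ, N, hN, hξ, mul_mem (hle₁ hx) (hle₂ hy)⟩

/-- the automorphisms of `Ω` fixing `dictI_M` are in the inertia group -/
theorem dictI_fixingSubgroup_le : (dictI_M p).fixingSubgroup ≤ locInertiaNat p := by
  intro τ hτ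
  rw [IntermediateField.mem_fixingSubgroup_iff] at hτ
  apply dictI_mem_locInertiaNat_of_fix
  intro ξ N hN hξ
  exact hτ ξ (subset_adjoin _ _ ⟨N, hN, hξ⟩)

/-- **(I2)** every element of the inertia group of `Gal(F/ℚ_p)` is the restriction of an
element of the inertia group of `G_p` (which moreover fixes the maximal unramified
extension). -/
theorem dictI_exists_lift' (F : IntermediateField ℚ_[p] (PadicAlgCl p))
    [FiniteDimensional ℚ_[p] F] [Normal ℚ_[p] F] {s : F ≃ₐ[ℚ_[p]] F} (hs : s ∈ inertia p F) :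
    ∃ τ ∈ (dictI_M p).fixingSubgroup, AlgEquiv.restrictNormalHom F τ = s := by
  have hgal : IsGalois ℚ_[p] F := IsGalois.mk
  have hgalΩ : IsGalois ℚ_[p] (PadicAlgCl p) := IsGalois.mk
  have hsJ : s ∈ (dictI_M p).fixingSubgroup.map (AlgEquiv.restrictNormalHom F) := by
    rw [← IntermediateField.fixingSubgroup_fixedField
      ((dictI_M p).fixingSubgroup.map (AlgEquiv.restrictNormalHom F)),
      IntermediateField.mem_fixingSubgroup_iff]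
    intro y hy
    rw [IntermediateField.mem_fixedField_iff] at hy
    have hyM : (y : PadicAlgCl p) ∈ dictI_M p := by
      rw [← InfiniteGalois.fixedField_fixingSubgroup (dictI_M p),
        IntermediateField.mem_fixedField_iff]
      intro τ hτ
      have h1 := hy (AlgEquiv.restrictNormalHom F τ) ⟨τ, hτ, rfl⟩
      have h2 : ((AlgEquiv.restrictNormalHom F τ y : F) : PadicAlgCl p) = τ (y : PadicAlgCl p) :=
        AlgEquiv.restrictNormal_commutes τ F y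
      rw [← h2, h1]
    obtain ⟨ξ, N, hN, hξ, hyξ⟩ := dictI_M_exists p hyM
    obtain ⟨τ₀, hτ₀⟩ := AlgEquiv.restrictNormalHom_surjective (F := ℚ_[p]) (K₁ := F)
      (E := PadicAlgCl p) s
    have h3 := dictI_fix_of_mem_inertia p F τ₀ (hτ₀ ▸ hs) ξ N hN hξ y y.2 hyξ
    have h2 : ((AlgEquiv.restrictNormalHom F τ₀ y : F) : PadicAlgCl p) =
        τ₀ (y : PadicAlgCl p) := AlgEquiv.restrictNormal_commutes τ₀ F y
    apply Subtype.ext
    rw [← hτ₀, h2, h3]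
  obtain ⟨τ, hτ, hτs⟩ := hsJ
  exact ⟨τ, hτ, hτs⟩

/-- **(I2)** every element of the inertia group of `Gal(F/ℚ_p)` is the restriction of an
element of the inertia group of `G_p`. -/
theorem dictI_exists_lift (F : IntermediateField ℚ_[p] (PadicAlgCl p))
    [FiniteDimensional ℚ_[p] F] [Normal ℚ_[p] F] {s : F ≃ₐ[ℚ_[p]] F} (hs : s ∈ inertia p F) :
    ∃ τ ∈ locInertiaNat p, AlgEquiv.restrictNormalHom F τ = s := by
  obtain ⟨τ, hτ, hτs⟩ := dictI_exists_lift' p F hs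
  exact ⟨τ, dictI_fixingSubgroup_le p hτ, hτs⟩

end DictInertia

end Fermat.Agent.P1.helper78
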