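import Fermat.Agent.P1.helper30_FlatCntPkgs
import Fermat.Agent.P1.helper78_DictInertia
import Fermat.Agent.P1.helper88_FTTame
import Fermat.Agent.P1.helper14_KRTools

/-!
# P1 / FLAT-CNT, package LF (helper65, task 789): LF-EDEG

* `lf_mem_inertia_iff` : the inertia group of a finite Galois extension `L / ℚ_p` is the
  stabiliser of a primitive `(p ^ f_L - 1)`-th root of unity;
* `lf_relIndex_inertia` : finite level, `[I(L) : I(L) ∩ Gal(L/T)] = e(T)` for every intermediate
  field `T` of a finite Galois extension `L / ℚ_p` (`T(ζ) / T` is unramified, `f(T(ζ)) = f(L)`);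
* `lfEdeg : LFEdegStatement p` : `e(T) = [I : I ∩ G_T]` and `[T : ℚ_p] = [G_p : G_T]` for finite
  `T ⊆ Ω` (transfer to the normal closure of `T` via `helper78.dictI_exists_lift`).
-/

set_option autoImplicit false
set_option linter.style.haveILetI false

open IsLocalRing ExtCitation groupCohomology Polynomial

noncomputable section

namespace Fermat.Agent.P1.helper65

open Fermat.Agent.S55 Fermat.Agent.P1.helper70 Fermat.Agent.P1.helper30
open Fermat.Agent.S55.helper8 Fermat.Agent.S55.helper7 Fermat.Agent.S55.helper33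
open Fermat.Agent.P1.helper14

variable (p : ℕ) [Fact p.Prime]

section FiniteLevel

variable (L : Type) [Field L] [Algebra ℚ_[p] L] [FiniteDimensional ℚ_[p] L] [IsGalois ℚ_[p] L]

/-- The inertia group of a finite Galois extension of `ℚ_p` is the stabiliser of a primitive
`(p ^ f - 1)`-th root of unity. -/
lemma lf_mem_inertia_iff {ζ : L} (hζ : IsPrimitiveRoot ζ (p ^ fdeg p L - 1))
    (s : L ≃ₐ[ℚ_[p]] L) : s ∈ inertia p L ↔ s ζ = ζ := by
  have hN : ¬ p ∣ p ^ fdeg p L - 1 := not_dvd_card_sub_one p L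
  have hN0 : p ^ fdeg p L - 1 ≠ 0 := fun h => hN (h ▸ dvd_zero p)
  constructor
  · intro hs
    have h0 : 0 ≤ ordT p L ζ := (ordT_eq_zero_of_pow_eq_one p L hN0 hζ.pow_eq_one).ge
    have h1 := hs ζ h0
    refine eq_of_pow_eq_one_of_ordT_sub_pos p L hN ?_ hζ.pow_eq_one h1
    rw [← map_pow, hζ.pow_eq_one, map_one]
  · intro hs
    refine Fermat.Agent.P1.helper78.dictI_mem_inertia_of_fix p L s ?_
    intro ξ N hNp hξ
    have h1 := pow_card_sub_one_eq_one p L hNp hξ
    haveI : NeZero (p ^ fdeg p L - 1) := ⟨hN0⟩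
    obtain ⟨i, -, rfl⟩ := hζ.eq_pow_of_pow_eq_one h1
    rw [map_pow, hs]

/-- the fixed field of a single automorphism fixing `T`, as an intermediate field over `T`. -/
def lfFix (T : IntermediateField ℚ_[p] L) (σ : L ≃ₐ[ℚ_[p]] L) (hσ : ∀ x ∈ T, σ x = x) :
    IntermediateField ↥T L where
  carrier := {x | σ x = x}
  mul_mem' := by
    intro a b ha hb
    show σ (a * b) = a * b
    rw [map_mul, ha, hb]
  add_mem' := by
    intro a b ha hb
    show σ (a + b) = a + b
    rw [map_add, ha, hb]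
  algebraMap_mem' := fun r => hσ r r.2
  inv_mem' := by
    intro a ha
    show σ a⁻¹ = a⁻¹
    rw [map_inv₀, ha]

/-- finite level: `[I : I ∩ Gal(L/T)] = e(T)`. -/
theorem lf_relIndex_inertia (T : IntermediateField ℚ_[p] L) :
    (T.fixingSubgroup).relIndex (inertia p L) = edeg p ↥T := by
  obtain ⟨ζ, hζ⟩ := exists_primitiveRoot_card_sub_one p L
  have hN : ¬ p ∣ p ^ fdeg p L - 1 := not_dvd_card_sub_one p L
  have hN0 : p ^ fdeg p L - 1 ≠ 0 := fun h => hN (h ▸ dvd_zero p)
  -- `F := T(ζ)`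
  set F : IntermediateField ↥T L := IntermediateField.adjoin ↥T {ζ} with hF
  have hunr : IsUnram p ↥T ↥F := isUnram_adjoin_rootsOfUnity p ↥T L {ζ} (by
    intro s hs
    rw [Set.mem_singleton_iff] at hs
    subst hs
    exact ⟨_, hN, hζ.pow_eq_one⟩)
  have hrelE1 : relE p ↥T ↥F = 1 := (isUnram_iff p ↥T ↥F).mp hunr
  haveI : FiniteDimensional ℚ_[p] ↥F := Module.Finite.trans ↥T ↥F
  haveI : IsScalarTower ℚ_[p] ↥F L := IsScalarTower.of_algebraMap_eq fun x => rfl
  have hζF : ζ ∈ F := IntermediateField.subset_adjoin ↥T {ζ} (Set.mem_singleton ζ)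
  have hζ' : IsPrimitiveRoot (⟨ζ, hζF⟩ : F) (p ^ fdeg p L - 1) :=
    IsPrimitiveRoot.of_map_of_injective (f := algebraMap F L) (by exact hζ)
      (algebraMap F L).injective
  have h1 := succ_le_card_of_primitiveRoot p ↥F hN hζ'
  have hfle : fdeg p L ≤ fdeg p ↥F := by
    have hpos : 0 < p ^ fdeg p L := pow_pos (Fact.out : p.Prime).pos _
    have h2 : p ^ fdeg p L ≤ p ^ fdeg p ↥F := by omega
    exact (Nat.pow_le_pow_iff_right (Fact.out : p.Prime).one_lt).mp h2
  have hfdvd : fdeg p ↥F ∣ fdeg p L := fdeg_dvd_fdeg p ↥F L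
  have hfeq : fdeg p ↥F = fdeg p L :=
    le_antisymm (Nat.le_of_dvd (fdeg_pos p L) hfdvd) hfle
  have hrelF1 : relF p ↥F L = 1 := by
    unfold relF
    rw [hfeq]
    exact Nat.div_self (fdeg_pos p L)
  have hfin : Module.finrank ↥F L = relE p ↥T L := by
    rw [← relE_mul_relF p ↥F L, hrelF1, mul_one, Fermat.Agent.S55.helper7.relE_tower p ↥T ↥F L,
      hrelE1, mul_one]
  have hedeg : edeg p L = relE p ↥T L * edeg p ↥T := edeg_eq_relE_mul p ↥T L
  -- group theory
  have hinf : T.fixingSubgroup ⊓ inertia p L = (F.restrictScalars ℚ_[p]).fixingSubgroup := by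
    ext σ
    rw [Subgroup.mem_inf, lf_mem_inertia_iff p L hζ, IntermediateField.mem_fixingSubgroup_iff,
      IntermediateField.mem_fixingSubgroup_iff]
    constructor
    · rintro ⟨hσT, hσζ⟩ x hx
      have hle : F ≤ lfFix p L T σ hσT := by
        rw [hF, IntermediateField.adjoin_le_iff]
        intro y hy
        rw [Set.mem_singleton_iff] at hy
        subst hy
        exact hσζ
      exact hle hx
    · intro h
      refine ⟨fun x hx => h x ?_, h ζ hζF⟩
      exact F.algebraMap_mem ⟨x, hx⟩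
  have hcard : Nat.card ↥(T.fixingSubgroup ⊓ inertia p L) = relE p ↥T L := by
    rw [hinf, IsGalois.card_fixingSubgroup_eq_finrank]
    exact hfin
  have h2 := Subgroup.relIndex_mul_relIndex ⊥ (T.fixingSubgroup ⊓ inertia p L) (inertia p L)
    bot_le inf_le_right
  rw [Subgroup.relIndex_bot_left, Subgroup.relIndex_bot_left, Subgroup.inf_relIndex_right, hcard,
    Fermat.Agent.P1.helper88.ft_card_inertia, hedeg] at h2
  exact Nat.eq_of_mul_eq_mul_left (relE_pos p ↥T L) h2

end FiniteLevel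

/-- The inertia group of this module is the inertia group of module DICT. -/
lemma lf_inertiaΩ_eq : inertiaΩ p = Fermat.Agent.P1.helper92.locInertiaNat p := by
  ext τ
  rw [Fermat.Agent.P1.helper61.mem_locInertiaNat_iff]
  rfl

/-- **LF-EDEG**. -/
theorem lfEdeg : LFEdegStatement p := by
  intro T _
  haveI : IsGalois ℚ_[p] (PadicAlgCl p) := IsGalois.mk
  refine ⟨?_, IntermediateField.finrank_eq_fixingSubgroup_index (PadicAlgCl p) T⟩
  -- `L` := the normal closure of `T`
  set L : IntermediateField ℚ_[p] (PadicAlgCl p) :=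
    IntermediateField.normalClosure ℚ_[p] ↥T (PadicAlgCl p) with hL
  have hTL : T ≤ L := T.le_normalClosure
  haveI : FiniteDimensional ℚ_[p] ↥L := normalClosure.is_finiteDimensional ℚ_[p] ↥T (PadicAlgCl p)
  haveI : Normal ℚ_[p] ↥L := normalClosure.normal ℚ_[p] ↥T (PadicAlgCl p)
  haveI : IsGalois ℚ_[p] ↥L := IsGalois.mk
  set T' : IntermediateField ℚ_[p] ↥L := IntermediateField.restrict hTL with hT'
  have h1 := lf_relIndex_inertia p ↥L T'
  have h2 : edeg p ↥T' = edeg p ↥T :=
    Fermat.Agent.P1.helper14.edeg_equiv p (IntermediateField.restrictAlgEquiv hTL)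
  have hcomap : T.fixingSubgroup = T'.fixingSubgroup.comap (AlgEquiv.restrictNormalHom ↥L) := by
    ext τ
    rw [Subgroup.mem_comap, IntermediateField.mem_fixingSubgroup_iff,
      IntermediateField.mem_fixingSubgroup_iff]
    constructor
    · intro h y hy
      rw [hT', IntermediateField.mem_restrict] at hy
      apply Subtype.ext
      have h3 : ((AlgEquiv.restrictNormalHom ↥L τ y : ↥L) : PadicAlgCl p) = τ (y : PadicAlgCl p) :=
        AlgEquiv.restrictNormal_commutes τ ↥L y
      rw [h3]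
      exact h _ hy
    · intro h x hx
      have hxL : x ∈ L := hTL hx
      have hy : (⟨x, hxL⟩ : ↥L) ∈ T' := by
        rw [hT', IntermediateField.mem_restrict]
        exact hx
      have h3 : ((AlgEquiv.restrictNormalHom ↥L τ ⟨x, hxL⟩ : ↥L) : PadicAlgCl p) = τ x :=
        AlgEquiv.restrictNormal_commutes τ ↥L ⟨x, hxL⟩
      rw [← h3, h _ hy]
  have hmap : (inertiaΩ p).map (AlgEquiv.restrictNormalHom ↥L) = inertia p ↥L := by
    ext s
    rw [Subgroup.mem_map]
    constructor
    · rintro ⟨τ, hτ, rfl⟩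
      rw [lf_inertiaΩ_eq] at hτ
      exact Fermat.Agent.P1.helper78.dictI_restrict_mem_inertia p L hτ
    · intro hs
      obtain ⟨τ, hτ, hτs⟩ := Fermat.Agent.P1.helper78.dictI_exists_lift p L hs
      refine ⟨τ, ?_, hτs⟩
      rw [lf_inertiaΩ_eq]
      exact hτ
  rw [hcomap, Subgroup.relIndex_comap, hmap, h1, h2]

end Fermat.Agent.P1.helper65
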