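import Mathlib

/-!
# P1 (S56), module FLAT-CNT, row 791 (helper97): the linear algebra of TAME-I

Pure Mathlib.  A homomorphism `ψ : G → End(V)`, `V` a plane over a finite field of odd
characteristic `p`, from a group with a "tame structure" (`N`, `P ≤ I`, `σ`, `τ`), with split
characteristic polynomials and without stable line, has image of order prime to `p`.
-/

set_option autoImplicit false
set_option linter.style.haveILetI false

open Polynomial Module

namespace Fermat.Agent.P1.helper97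

section Lin

variable {k V : Type} [Field k] [AddCommGroup V] [Module k V]

/-- A subgroup all of whose elements act with `p`-power order on a plane over a finite field of
characteristic `p` fixes a nonzero vector. -/
lemma tameI_fixed_vec [Finite k] (hV : finrank k V = 2) (p : ℕ) [Fact p.Prime] [CharP k p]
    {G : Type} [Group G] (ψ : G →* Module.End k V) (P : Subgroup G)
    (hP : ∀ x ∈ P, ∃ a : ℕ, ψ x ^ p ^ a = 1) : ∃ b : V, b ≠ 0 ∧ ∀ x ∈ P, ψ x b = b := by
  haveI : Module.Finite k V := Module.finite_of_finrank_eq_succ hV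
  haveI : Finite V := Module.finite_of_finite k
  set Q : Subgroup (Module.End k V)ˣ := P.map ψ.toHomUnits with hQ
  have hpg : IsPGroup p ↥Q := by
    rintro ⟨y, hy⟩
    obtain ⟨x, hx, rfl⟩ := hy
    obtain ⟨a, ha⟩ := hP x hx
    refine ⟨a, ?_⟩
    apply Subtype.ext
    apply Units.ext
    simpa using ha
  have hcard : p ∣ Nat.card V := by
    rw [Module.natCard_eq_pow_finrank (K := k), hV]
    have h1 : ((Nat.card k : ℕ) : k) = 0 := by
      have := card_nsmul_eq_zero' (G := k) (x := (1 : k))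
      rwa [nsmul_eq_mul, mul_one] at this
    have h2 : p ∣ Nat.card k := (CharP.cast_eq_zero_iff k p _).1 h1
    exact dvd_pow h2 two_ne_zero
  have h0 : (0 : V) ∈ MulAction.fixedPoints ↥Q V := by
    intro q
    exact smul_zero q
  obtain ⟨b, hb, hb0⟩ := hpg.exists_fixed_point_of_prime_dvd_card_of_fixed_point V hcard h0
  refine ⟨b, fun h => hb0 h.symm, fun x hx => ?_⟩
  have := hb ⟨ψ.toHomUnits x, Subgroup.mem_map_of_mem _ hx⟩
  exact this


/-- Powers on an eigenvector. -/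
lemma tameI_pow_eig (x : Module.End k V) (v : V) (e : k) (h : x v = e • v) (n : ℕ) :
    (x ^ n) v = e ^ n • v := by
  induction n with
  | zero => simp
  | succ n ih =>
    rw [pow_succ, Module.End.mul_apply, h, map_smul, ih, smul_smul, pow_succ, mul_comm]

/-- Cayley-Hamilton for a split characteristic polynomial of degree two. -/
lemma tameI_cayley [Module.Finite k V] (t : Module.End k V) (α β : k)
    (h : LinearMap.charpoly t = (X - C α) * (X - C β)) (v : V) :
    t (t v) - (α + β) • t v + (α * β) • v = 0 := by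
  have h1 := LinearMap.aeval_self_charpoly t
  rw [h] at h1
  have h2 := congrArg (fun f : Module.End k V => f v) h1
  simp only [map_mul, map_sub, aeval_X, aeval_C, Module.End.mul_apply, LinearMap.sub_apply,
    Module.algebraMap_end_apply, LinearMap.zero_apply, map_smul] at h2
  rw [← h2]
  module

/-- Roots of a split characteristic polynomial have eigenvectors. -/
lemma tameI_eigvec [Module.Finite k V] (t : Module.End k V) (α β : k)
    (h : LinearMap.charpoly t = (X - C α) * (X - C β)) :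
    (∃ v : V, v ≠ 0 ∧ t v = α • v) ∧ ∃ w : V, w ≠ 0 ∧ t w = β • w := by
  have key : ∀ μ : k, (LinearMap.charpoly t).IsRoot μ → ∃ v : V, v ≠ 0 ∧ t v = μ • v := by
    intro μ hμ
    have h1 := (Module.End.hasEigenvalue_iff_isRoot_charpoly t μ).2 hμ
    obtain ⟨v, hv⟩ := h1.exists_hasEigenvector
    exact ⟨v, hv.2, hv.apply_eq_smul⟩
  constructor
  · apply key
    rw [h]
    simp
  · apply key
    rw [h]
    simp

/-- In characteristic `p`, an endomorphism with `(t - α) ^ 2 = 0` has `t ^ p = α ^ p`. -/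
lemma tameI_pow_char (p : ℕ) [Fact p.Prime] [CharP k p] (t : Module.End k V) (α : k)
    (h : ∀ v, t (t v) - (α + α) • t v + (α * α) • v = 0) (v : V) :
    (t ^ p) v = α ^ p • v := by
  have hp : 2 ≤ p := (Fact.out : p.Prime).two_le
  have h1 : aeval t ((X - C α) ^ 2 : k[X]) = 0 := by
    apply LinearMap.ext
    intro v
    rw [pow_two, map_mul]
    simp only [map_sub, aeval_X, aeval_C, LinearMap.zero_apply,
      Module.End.mul_apply, LinearMap.sub_apply, Module.algebraMap_end_apply, map_smul]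
    rw [← h v]
    module
  have h2 : ((X - C α) ^ p : k[X]) = X ^ p - C (α ^ p) := by
    rw [sub_pow_char, ← C_pow]
  have h3 : aeval t ((X - C α) ^ p : k[X]) = 0 := by
    have : ((X - C α) ^ p : k[X]) = (X - C α) ^ 2 * (X - C α) ^ (p - 2) := by
      rw [← pow_add, Nat.add_sub_cancel' hp]
    rw [this, map_mul, h1, zero_mul]
  rw [h2, map_sub, map_pow, aeval_X, aeval_C] at h3
  have h4 := congrArg (fun f : Module.End k V => f v) h3
  rw [LinearMap.sub_apply, Module.algebraMap_end_apply, LinearMap.zero_apply] at h4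
  exact sub_eq_zero.1 h4


/-- The wild part acts trivially if there is no stable line. -/
lemma tameI_wild_trivial [Finite k] (hV : finrank k V = 2) (p : ℕ) [Fact p.Prime] [CharP k p]
    {G : Type} [Group G] (ψ : G →* Module.End k V) (P : Subgroup G)
    (hP : ∀ x ∈ P, ∃ a : ℕ, ψ x ^ p ^ a = 1)
    (hconj : ∀ g : G, ∀ x ∈ P, ∃ x' ∈ P, ψ (g * x * g⁻¹) = ψ x')
    (hirr : ¬ ∃ ℓ : Submodule k V, finrank k ℓ = 1 ∧ ∀ g : G, ∀ x ∈ ℓ, ψ g x ∈ ℓ) :
    ∀ x ∈ P, ψ x = 1 := by
  haveI : Module.Finite k V := Module.finite_of_finrank_eq_succ hV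
  obtain ⟨b, hb0, hb⟩ := tameI_fixed_vec hV p ψ P hP
  let W : Submodule k V :=
    { carrier := {v | ∀ x ∈ P, ψ x v = v}
      add_mem' := by
        intro v w hv hw x hx
        rw [map_add, hv x hx, hw x hx]
      zero_mem' := by
        intro x _
        exact map_zero _
      smul_mem' := by
        intro c v hv x hx
        rw [map_smul, hv x hx] }
  have hWmem : ∀ v, v ∈ W ↔ ∀ x ∈ P, ψ x v = v := fun v => Iff.rfl
  have hWstab : ∀ g : G, ∀ v ∈ W, ψ g v ∈ W := by
    intro g v hv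
    rw [hWmem]
    intro x hx
    obtain ⟨x', hx', h1⟩ := hconj g⁻¹ x hx
    rw [inv_inv] at h1
    have h2 : ψ x * ψ g = ψ g * ψ x' := by
      rw [← h1, ← map_mul, ← map_mul]
      congr 1
      group
    have h3 := congrArg (fun f : Module.End k V => f v) h2
    simp only [Module.End.mul_apply] at h3
    rw [h3, (hWmem v).1 hv x' hx']
  have hbW : b ∈ W := hb
  have hW0 : finrank k W ≠ 0 := by
    intro h0
    have : W = ⊥ := Submodule.finrank_eq_zero.1 h0
    rw [this, Submodule.mem_bot] at hbW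
    exact hb0 hbW
  have hW2 : finrank k W ≤ 2 := hV ▸ Submodule.finrank_le W
  have hW1 : finrank k W ≠ 1 := fun h1 => hirr ⟨W, h1, hWstab⟩
  have hWtop : W = ⊤ := by
    apply Submodule.eq_top_of_finrank_eq
    rw [hV]
    omega
  intro x hx
  apply LinearMap.ext
  intro v
  have : v ∈ W := hWtop ▸ Submodule.mem_top
  exact this x hx

/-- Two eigenvectors for distinct eigenvalues of an endomorphism of a plane are independent and
span. -/
lemma tameI_span (hV : finrank k V = 2) (t : Module.End k V) (α β : k) (hαβ : α ≠ β)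
    (v w : V) (hv0 : v ≠ 0) (hw0 : w ≠ 0) (hv : t v = α • v) (hw : t w = β • w) :
    (∀ a b : k, a • v + b • w = 0 → a = 0 ∧ b = 0) ∧
      ∀ x : V, ∃ a b : k, x = a • v + b • w := by
  have hind : ∀ a b : k, a • v + b • w = 0 → a = 0 ∧ b = 0 := by
    intro a b h
    have h1 : t (a • v + b • w) = 0 := by rw [h, map_zero]
    rw [map_add, map_smul, map_smul, hv, hw] at h1
    have h2 : (a * (α - β)) • v = 0 := by
      have : (a * (α - β)) • v = (a • α • v + b • β • w) - β • (a • v + b • w) := by module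
      rw [this, h1, h, smul_zero, sub_zero]
    have ha : a = 0 := by
      rcases smul_eq_zero.1 h2 with h3 | h3
      · rcases mul_eq_zero.1 h3 with h4 | h4
        · exact h4
        · exact absurd (sub_eq_zero.1 h4) hαβ
      · exact absurd h3 hv0
    subst ha
    rw [zero_smul, zero_add] at h
    rcases smul_eq_zero.1 h with h3 | h3
    · exact ⟨rfl, h3⟩
    · exact absurd h3 hw0
  refine ⟨hind, ?_⟩
  haveI : Module.Finite k V := Module.finite_of_finrank_eq_succ hV
  have hli : LinearIndependent k ![v, w] := LinearIndependent.pair_iff.2 hind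
  have hspan := hli.span_eq_top_of_card_eq_finrank' (by rw [hV]; rfl)
  intro x
  have hx : x ∈ Submodule.span k (Set.range ![v, w]) := hspan ▸ Submodule.mem_top
  rw [Submodule.mem_span_range_iff_exists_fun] at hx
  obtain ⟨c, hc⟩ := hx
  rw [Fin.sum_univ_two] at hc
  exact ⟨c 0, c 1, hc.symm⟩

/-- The dihedral structure: `t` (tame inertia) is diagonal with distinct eigenvalues in a basis
`v, w`, and `s` (Frobenius) swaps the two eigenlines. -/
lemma tameI_structure [Module.Finite k V] (hV : finrank k V = 2) (p : ℕ) [Fact p.Prime]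
    [CharP k p] (s s' t : Module.End k V) (hs : s' * s = 1) (hst : s * t = t ^ p * s)
    (hsplit_t : ∃ α β : k, LinearMap.charpoly t = (X - C α) * (X - C β))
    (hsplit_s : ∃ α β : k, LinearMap.charpoly s = (X - C α) * (X - C β))
    (hC : ∀ v : V, v ≠ 0 → ∀ a b : k, s v = a • v → t v = b • v → False) :
    ∃ v w : V, (∀ x : V, ∃ a b : k, x = a • v + b • w) ∧ v ≠ 0 ∧ w ≠ 0 ∧
      (∃ α β : k, t v = α • v ∧ t w = β • w) ∧ (∃ b c : k, s v = b • w ∧ s w = c • v) := by
  obtain ⟨α, β, ht⟩ := hsplit_t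
  obtain ⟨α', β', hs'⟩ := hsplit_s
  have hnsc : ∀ c : k, (∀ v, t v = c • v) → False := by
    intro c hc
    obtain ⟨⟨w, hw0, hw⟩, -⟩ := tameI_eigvec s α' β' hs'
    exact hC w hw0 α' c hw (hc w)
  have hst' : ∀ v, s (t v) = (t ^ p) (s v) := by
    intro v
    have := congrArg (fun f : Module.End k V => f v) hst
    simpa only [Module.End.mul_apply] using this
  have hs1 : ∀ v, s' (s v) = v := by
    intro v
    have := congrArg (fun f : Module.End k V => f v) hs
    simpa only [Module.End.mul_apply, Module.End.one_apply] using this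
  have hαβ : α ≠ β := by
    intro h
    subst h
    have h1 := tameI_pow_char p t α (tameI_cayley t α α ht)
    apply hnsc (α ^ p)
    intro v
    have h2 := hst' v
    rw [h1] at h2
    have h3 := congrArg s' h2
    rw [hs1, map_smul, hs1] at h3
    exact h3
  obtain ⟨⟨v, hv0, hv⟩, ⟨w, hw0, hw⟩⟩ := tameI_eigvec t α β ht
  obtain ⟨hind, hspan⟩ := tameI_span hV t α β hαβ v w hv0 hw0 hv hw
  obtain ⟨a, b, hsv⟩ := hspan (s v)
  obtain ⟨c, d, hsw⟩ := hspan (s w)
  have hpv : (t ^ p) v = α ^ p • v := tameI_pow_eig t v α hv p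
  have hpw : (t ^ p) w = β ^ p • w := tameI_pow_eig t w β hw p
  have e1 : (a * (α ^ p - α)) • v + (b * (β ^ p - α)) • w = 0 := by
    have h1 := hst' v
    rw [hv, map_smul, hsv, map_add, map_smul, map_smul, hpv, hpw] at h1
    have : (a * (α ^ p - α)) • v + (b * (β ^ p - α)) • w
        = (a • α ^ p • v + b • β ^ p • w) - α • (a • v + b • w) := by module
    rw [this, ← h1, sub_self]
  have e2 : (c * (α ^ p - β)) • v + (d * (β ^ p - β)) • w = 0 := by
    have h1 := hst' w
    rw [hw, map_smul, hsw, map_add, map_smul, map_smul, hpv, hpw] at h1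
    have : (c * (α ^ p - β)) • v + (d * (β ^ p - β)) • w
        = (c • α ^ p • v + d • β ^ p • w) - β • (c • v + d • w) := by module
    rw [this, ← h1, sub_self]
  obtain ⟨e1a, e1b⟩ := hind _ _ e1
  obtain ⟨e2c, e2d⟩ := hind _ _ e2
  have hb : b ≠ 0 := by
    intro hb
    rw [hb, zero_smul, add_zero] at hsv
    exact hC v hv0 a α hsv hv
  have hc : c ≠ 0 := by
    intro hc
    rw [hc, zero_smul, zero_add] at hsw
    exact hC w hw0 d β hsw hw
  have hβα : β ^ p = α := by
    rcases mul_eq_zero.1 e1b with h | h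
    · exact absurd h hb
    · exact sub_eq_zero.1 h
  have hαβ' : α ^ p = β := by
    rcases mul_eq_zero.1 e2c with h | h
    · exact absurd h hc
    · exact sub_eq_zero.1 h
  have ha : a = 0 := by
    rcases mul_eq_zero.1 e1a with h | h
    · exact h
    · exact absurd ((sub_eq_zero.1 h).symm.trans hαβ') hαβ
  have hd : d = 0 := by
    rcases mul_eq_zero.1 e2d with h | h
    · exact h
    · exact absurd (hβα.symm.trans (sub_eq_zero.1 h)) hαβ
  refine ⟨v, w, hspan, hv0, hw0, ⟨α, β, hv, hw⟩, ⟨b, c, ?_, ?_⟩⟩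
  · rw [hsv, ha, zero_smul, zero_add]
  · rw [hsw, hd, zero_smul, add_zero]

/-- Monomial endomorphisms with respect to the pair of lines `k v`, `k w`. -/
def TameIMon (v w : V) (x : Module.End k V) : Prop :=
  (∃ e f : k, x v = e • v ∧ x w = f • w) ∨ (∃ e f : k, x v = e • w ∧ x w = f • v)

lemma tameIMon_one (v w : V) : TameIMon (k := k) v w 1 :=
  Or.inl ⟨1, 1, by simp, by simp⟩

lemma tameIMon_mul {v w : V} {x y : Module.End k V} (hx : TameIMon v w x)
    (hy : TameIMon v w y) : TameIMon v w (x * y) := by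
  rcases hx with ⟨e, f, h1, h2⟩ | ⟨e, f, h1, h2⟩ <;>
  rcases hy with ⟨e', f', h3, h4⟩ | ⟨e', f', h3, h4⟩
  · exact Or.inl ⟨e' * e, f' * f, by rw [Module.End.mul_apply, h3, map_smul, h1, smul_smul],
      by rw [Module.End.mul_apply, h4, map_smul, h2, smul_smul]⟩
  · exact Or.inr ⟨e' * f, f' * e, by rw [Module.End.mul_apply, h3, map_smul, h2, smul_smul],
      by rw [Module.End.mul_apply, h4, map_smul, h1, smul_smul]⟩
  · exact Or.inr ⟨e' * e, f' * f, by rw [Module.End.mul_apply, h3, map_smul, h1, smul_smul],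
      by rw [Module.End.mul_apply, h4, map_smul, h2, smul_smul]⟩
  · exact Or.inl ⟨e' * f, f' * e, by rw [Module.End.mul_apply, h3, map_smul, h2, smul_smul],
      by rw [Module.End.mul_apply, h4, map_smul, h1, smul_smul]⟩

lemma tameIMon_pow {v w : V} {x : Module.End k V} (hx : TameIMon v w x) (n : ℕ) :
    TameIMon v w (x ^ n) := by
  induction n with
  | zero => rw [pow_zero]; exact tameIMon_one v w
  | succ n ih => rw [pow_succ]; exact tameIMon_mul ih hx

lemma tameIMon_sq {v w : V} {x : Module.End k V} (hx : TameIMon v w x) :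
    ∃ e f : k, (x * x) v = e • v ∧ (x * x) w = f • w := by
  rcases hx with ⟨e, f, h1, h2⟩ | ⟨e, f, h1, h2⟩
  · exact ⟨e * e, f * f, by rw [Module.End.mul_apply, h1, map_smul, h1, smul_smul],
      by rw [Module.End.mul_apply, h2, map_smul, h2, smul_smul]⟩
  · exact ⟨e * f, f * e, by rw [Module.End.mul_apply, h1, map_smul, h2, smul_smul],
      by rw [Module.End.mul_apply, h2, map_smul, h1, smul_smul]⟩

/-- A monomial endomorphism of order dividing an odd `p` in characteristic `p` is trivial. -/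
lemma tameIMon_eq_one (p : ℕ) [Fact p.Prime] [CharP k p] (hp2 : p ≠ 2) {v w : V}
    (hv0 : v ≠ 0) (hw0 : w ≠ 0) (hspan : ∀ x : V, ∃ a b : k, x = a • v + b • w)
    {u : Module.End k V} (hu : TameIMon v w u) (hup : u ^ p = 1) : u = 1 := by
  obtain ⟨e, f, he, hf⟩ := tameIMon_sq hu
  have hyp : (u * u) ^ p = 1 := by
    rw [← pow_two, ← pow_mul, mul_comm, pow_mul, hup, one_pow]
  have hone : ∀ c : k, c ^ p = 1 → c = 1 := by
    intro c hc
    have h1 : (c - 1) ^ p = 0 := by rw [sub_pow_char, hc, one_pow, sub_self]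
    exact sub_eq_zero.1 (pow_eq_zero_iff (Fact.out : p.Prime).ne_zero |>.1 h1)
  have he1 : e = 1 := by
    apply hone
    have h1 := tameI_pow_eig (u * u) v e he p
    rw [hyp, Module.End.one_apply] at h1
    have h2 : (e ^ p - 1) • v = 0 := by rw [sub_smul, one_smul, ← h1, sub_self]
    rcases smul_eq_zero.1 h2 with h3 | h3
    · exact sub_eq_zero.1 h3
    · exact absurd h3 hv0
  have hf1 : f = 1 := by
    apply hone
    have h1 := tameI_pow_eig (u * u) w f hf p
    rw [hyp, Module.End.one_apply] at h1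
    have h2 : (f ^ p - 1) • w = 0 := by rw [sub_smul, one_smul, ← h1, sub_self]
    rcases smul_eq_zero.1 h2 with h3 | h3
    · exact sub_eq_zero.1 h3
    · exact absurd h3 hw0
  have hsq : u * u = 1 := by
    apply LinearMap.ext
    intro x
    obtain ⟨a, b, rfl⟩ := hspan x
    rw [map_add, map_smul, map_smul, he, hf, he1, hf1, one_smul, one_smul,
      Module.End.one_apply]
  obtain ⟨m, hm⟩ := (Fact.out : p.Prime).odd_of_ne_two hp2
  have : u ^ p = u := by
    rw [hm, pow_succ, pow_mul, pow_two, hsq, one_pow, one_mul]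
  rw [← this, hup]

/-- **The core of TAME-I.** Elements of order dividing `p` in the image are trivial. -/
theorem tameI_core [Finite k] [Module.Finite k V] (hV : finrank k V = 2) (p : ℕ)
    [Fact p.Prime] [CharP k p] (hp2 : p ≠ 2) {G : Type} [Group G] (ψ : G →* Module.End k V)
    (N P I : Subgroup G) (σ : G) (hN : ∀ g ∈ N, ψ g = 1)
    (hgen : ∀ g : G, ∃ n : ℕ, ∃ i ∈ I, ∃ s ∈ N, g = σ ^ n * i * s)
    (hPI : P ≤ I) (hPnorm : ∀ i ∈ I, ∀ x ∈ P, i * x * i⁻¹ ∈ P)
    (hPpow : ∀ x ∈ P, ∃ a : ℕ, x ^ p ^ a ∈ N)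
    (hcyc : ∃ τ ∈ I, ∀ i ∈ I, ∃ n : ℕ, (τ ^ n)⁻¹ * i ∈ P)
    (hfrob : ∀ i ∈ I, σ * i * σ⁻¹ * (i ^ p)⁻¹ ∈ P)
    (hsplit : ∀ g : G, ∃ α β : k, LinearMap.charpoly (ψ g) = (X - C α) * (X - C β))
    (hirr : ¬ ∃ ℓ : Submodule k V, finrank k ℓ = 1 ∧ ∀ g : G, ∀ x ∈ ℓ, ψ g x ∈ ℓ) :
    ∀ g : G, ψ g ^ p = 1 → ψ g = 1 := by
  have hP : ∀ x ∈ P, ∃ a : ℕ, ψ x ^ p ^ a = 1 := by
    intro x hx
    obtain ⟨a, ha⟩ := hPpow x hx
    exact ⟨a, by rw [← map_pow]; exact hN _ ha⟩
  have hσP : ∀ x ∈ P, σ * x * σ⁻¹ ∈ P := by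
    intro x hx
    have h1 := hfrob x (hPI hx)
    have h2 : σ * x * σ⁻¹ = (σ * x * σ⁻¹ * (x ^ p)⁻¹) * x ^ p := by group
    rw [h2]
    exact P.mul_mem h1 (P.pow_mem hx p)
  have hσnP : ∀ n : ℕ, ∀ x ∈ P, σ ^ n * x * (σ ^ n)⁻¹ ∈ P := by
    intro n
    induction n with
    | zero => intro x hx; simpa using hx
    | succ n ih =>
      intro x hx
      have : σ ^ (n + 1) * x * (σ ^ (n + 1))⁻¹ = σ * (σ ^ n * x * (σ ^ n)⁻¹) * σ⁻¹ := by
        rw [pow_succ']; group
      rw [this]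
      exact hσP _ (ih x hx)
  have hconj : ∀ g : G, ∀ x ∈ P, ∃ x' ∈ P, ψ (g * x * g⁻¹) = ψ x' := by
    intro g x hx
    obtain ⟨n, i, hi, s, hs, rfl⟩ := hgen g
    refine ⟨σ ^ n * (i * x * i⁻¹) * (σ ^ n)⁻¹, hσnP n _ (hPnorm i hi x hx), ?_⟩
    have h1 : σ ^ n * i * s * x * (σ ^ n * i * s)⁻¹
        = (σ ^ n * i) * s * x * s⁻¹ * (σ ^ n * i)⁻¹ := by group
    have h2 : σ ^ n * (i * x * i⁻¹) * (σ ^ n)⁻¹ = (σ ^ n * i) * x * (σ ^ n * i)⁻¹ := by group
    rw [h1, h2]
    simp only [map_mul, hN s hs, hN s⁻¹ (N.inv_mem hs), mul_one]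
  have hPtriv := tameI_wild_trivial hV p ψ P hP hconj hirr
  obtain ⟨τ, hτI, hτ⟩ := hcyc
  have hR1 : ∀ g, ∃ n m : ℕ, ψ g = ψ σ ^ n * ψ τ ^ m := by
    intro g
    obtain ⟨n, i, hi, s, hs, rfl⟩ := hgen g
    obtain ⟨m, hm⟩ := hτ i hi
    refine ⟨n, m, ?_⟩
    have h1 : i = τ ^ m * ((τ ^ m)⁻¹ * i) := by group
    rw [map_mul, map_mul, hN s hs, mul_one, map_pow]
    congr 1
    conv_lhs => rw [h1]
    rw [map_mul, hPtriv _ hm, mul_one, map_pow]
  have hR2 : ψ σ * ψ τ = ψ τ ^ p * ψ σ := by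
    have h1 := hPtriv _ (hfrob τ hτI)
    have h2 : σ * τ = (σ * τ * σ⁻¹ * (τ ^ p)⁻¹) * τ ^ p * σ := by group
    rw [← map_mul, h2, map_mul, map_mul, h1, one_mul, map_pow]
  have hC : ∀ v : V, v ≠ 0 → ∀ a b : k, ψ σ v = a • v → ψ τ v = b • v → False := by
    intro v hv0 a b ha hb
    apply hirr
    refine ⟨Submodule.span k {v}, finrank_span_singleton hv0, ?_⟩
    intro g x hx
    obtain ⟨c, rfl⟩ := Submodule.mem_span_singleton.1 hx
    obtain ⟨n, m, hg⟩ := hR1 g
    rw [hg, map_smul, Module.End.mul_apply, tameI_pow_eig _ v b hb m, map_smul,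
      tameI_pow_eig _ v a ha n]
    exact Submodule.smul_mem _ _ (Submodule.smul_mem _ _ (Submodule.smul_mem _ _
      (Submodule.mem_span_singleton_self v)))
  have hinv : ψ σ⁻¹ * ψ σ = 1 := by rw [← map_mul, inv_mul_cancel, map_one]
  obtain ⟨v, w, hspan, hv0, hw0, ⟨α, β, hv, hw⟩, ⟨b, c, hsv, hsw⟩⟩ :=
    tameI_structure hV p (ψ σ) (ψ σ⁻¹) (ψ τ) hinv hR2 (hsplit τ) (hsplit σ) hC
  have hMonσ : TameIMon v w (ψ σ) := Or.inr ⟨b, c, hsv, hsw⟩
  have hMonτ : TameIMon v w (ψ τ) := Or.inl ⟨α, β, hv, hw⟩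
  intro g hg
  obtain ⟨n, m, hnm⟩ := hR1 g
  have hMon : TameIMon v w (ψ g) := by
    rw [hnm]
    exact tameIMon_mul (tameIMon_pow hMonσ n) (tameIMon_pow hMonτ m)
  exact tameIMon_eq_one p hp2 hv0 hw0 hspan hMon hg

/-- **TAME-I, abstract form.** The kernel `K` of `ψ` has index prime to `p`, and so has
`K ⊓ I` in `I`. -/
theorem tameI_index [Finite k] [Module.Finite k V] (hV : finrank k V = 2) (p : ℕ)
    [Fact p.Prime] [CharP k p] (hp2 : p ≠ 2) {G : Type} [Group G] (ψ : G →* Module.End k V)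
    (N P I : Subgroup G) (σ : G) (hN : ∀ g ∈ N, ψ g = 1)
    (hgen : ∀ g : G, ∃ n : ℕ, ∃ i ∈ I, ∃ s ∈ N, g = σ ^ n * i * s)
    (hPI : P ≤ I) (hPnorm : ∀ i ∈ I, ∀ x ∈ P, i * x * i⁻¹ ∈ P)
    (hPpow : ∀ x ∈ P, ∃ a : ℕ, x ^ p ^ a ∈ N)
    (hcyc : ∃ τ ∈ I, ∀ i ∈ I, ∃ n : ℕ, (τ ^ n)⁻¹ * i ∈ P)
    (hfrob : ∀ i ∈ I, σ * i * σ⁻¹ * (i ^ p)⁻¹ ∈ P)
    (hsplit : ∀ g : G, ∃ α β : k, LinearMap.charpoly (ψ g) = (X - C α) * (X - C β))
    (hirr : ¬ ∃ ℓ : Submodule k V, finrank k ℓ = 1 ∧ ∀ g : G, ∀ x ∈ ℓ, ψ g x ∈ ℓ)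
    (K : Subgroup G) (hK : ∀ g : G, g ∈ K ↔ ψ g = 1) :
    ¬ p ∣ K.index ∧ ¬ p ∣ K.relIndex I := by
  have hcore := tameI_core hV p hp2 ψ N P I σ hN hgen hPI hPnorm hPpow hcyc hfrob hsplit hirr
  have hKker : K = ψ.toHomUnits.ker := by
    ext g
    rw [hK, MonoidHom.mem_ker]
    constructor
    · intro h
      apply Units.ext
      rw [MonoidHom.coe_toHomUnits, h, Units.val_one]
    · intro h
      have := congrArg Units.val h
      rwa [MonoidHom.coe_toHomUnits, Units.val_one] at this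
  haveI : Finite (Module.End k V) := Module.finite_of_finite k
  have hidx : ¬ p ∣ K.index := by
    rw [hKker, Subgroup.index_ker]
    intro hdvd
    obtain ⟨⟨y, g, rfl⟩, hy⟩ := exists_prime_orderOf_dvd_card' p hdvd
    have h1 : (⟨ψ.toHomUnits g, g, rfl⟩ : ψ.toHomUnits.range) ^ p = 1 := by
      rw [← hy]; exact pow_orderOf_eq_one _
    have h2 : ψ g ^ p = 1 := by
      have := congrArg (fun z : ψ.toHomUnits.range => ((z : (Module.End k V)ˣ) : Module.End k V)) h1
      simpa using this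
    have h3 := hcore g h2
    have h4 : (⟨ψ.toHomUnits g, g, rfl⟩ : ψ.toHomUnits.range) = 1 := by
      apply Subtype.ext
      apply Units.ext
      rw [MonoidHom.coe_toHomUnits, h3]
      rfl
    rw [h4, orderOf_one] at hy
    exact (Fact.out : p.Prime).one_lt.ne hy
  refine ⟨hidx, fun h => hidx (h.trans ?_)⟩
  rw [hKker]
  exact Subgroup.relIndex_dvd_index_of_normal _ _



end Lin

end Fermat.Agent.P1.helper97
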