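import Fermat.Agent.P1.helper30_FlatCntPkgs
import Fermat.Agent.P1.helper97_TameILin

/-!
# P1 (S56), module FLAT-CNT, row 791 (helper97): `tameI : TameIStatement p`

CASE I: if `ρbar` restricted to `G_p` is irreducible, the field `T` cut out by it is tamely
ramified, of degree prime to `p`, and contains `ζ_p`.

* degree and ramification index: `tameI_index` (`helper97_TameILin`) applied to
  `ψ = ρbar ∘ localGaloisToGlobal`, with the tame structure of `G_p` at a level on which `ρbar`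
  is trivial, and the dictionary `LFEdegStatement`;
* `ζ_p ∈ T`: an element of `G_T` acts on `μ_p` through `ζ ↦ ζ ^ a`, and
  `a = det ρbar = 1` in `k`, so `a ≡ 1` modulo `p`; dictionary `LFZetaStatement`.
-/

set_option autoImplicit false
set_option linter.style.haveILetI false

open Polynomial Module ExtCitation

namespace Fermat.Agent.P1.helper97

open Fermat.Agent.S55 Fermat.Agent.P1.helper30

/-- A ring endomorphism of a domain containing a primitive `p`-th root of unity acts on the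
`p`-th roots of unity by a power map. -/
lemma tameI_exists_exp {Ω : Type} [CommRing Ω] [IsDomain Ω] (p : ℕ) [Fact p.Prime] (ζ₀ : Ω)
    (hζ₀ : IsPrimitiveRoot ζ₀ p) (g : Ω →+* Ω) :
    ∃ a : ℕ, ∀ ζ : Ω, ζ ^ p = 1 → g ζ = ζ ^ a := by
  haveI : NeZero p := ⟨(Fact.out : p.Prime).ne_zero⟩
  have h1 : g ζ₀ ^ p = 1 := by rw [← map_pow, hζ₀.pow_eq_one, map_one]
  obtain ⟨a, -, ha⟩ := hζ₀.eq_pow_of_pow_eq_one h1
  refine ⟨a, fun ζ hζ => ?_⟩
  obtain ⟨j, -, rfl⟩ := hζ₀.eq_pow_of_pow_eq_one hζ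
  rw [map_pow, ← ha, ← pow_mul, ← pow_mul, mul_comm]

/-- **TAME-I** (CASE I). -/
theorem tameI (p : ℕ) [Fact p.Prime] : TameIStatement p := by
  intro hEdeg hZeta k _ _ ρbar hS hirr T _ hT
  obtain ⟨σ, hσ⟩ := hS.htame
  obtain ⟨N, hNmem, hN⟩ := hS.hlev
  obtain ⟨P, hPI, -, hPnorm, hPpow, hcyc, hfrob⟩ := hσ.tame N hNmem
  haveI : CharP k p := (CharP.charP_iff_prime_eq_zero Fact.out).2 hS.hpk
  have key := tameI_index ρbar.finrank_eq p hS.hp2
    (ρbar.ρ.comp (localGaloisToGlobal p)) N P (inertiaΩ p) σ hN (hσ.gen N hNmem) hPI hPnorm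
    hPpow hcyc hfrob hS.hsplit hirr T.fixingSubgroup hT
  obtain ⟨hE, hF⟩ := hEdeg T
  refine ⟨?_, ?_, ?_⟩
  · rw [hE]
    exact key.2
  · rw [hF]
    exact key.1
  · rw [hZeta T]
    intro g hg ζ hζ
    haveI : NeZero ((p : ℕ) : ℚ_[p]) := ⟨by exact_mod_cast (Fact.out : p.Prime).ne_zero⟩
    obtain ⟨ζ₀, hζ₀⟩ := HasEnoughRootsOfUnity.exists_primitiveRoot (PadicAlgCl p) p
    obtain ⟨a, ha⟩ := tameI_exists_exp p ζ₀ hζ₀ (g : PadicAlgCl p →+* PadicAlgCl p)
    have hdet := hS.hdet g a ha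
    rw [(hT g).1 hg, map_one] at hdet
    have hmod : a ≡ 1 [MOD p] := by
      rw [← CharP.natCast_eq_natCast k p, Nat.cast_one]
      exact hdet.symm
    have h1 := ha ζ hζ
    rw [pow_eq_pow_mod a hζ, hmod, Nat.mod_eq_of_lt (Fact.out : p.Prime).one_lt, pow_one] at h1
    exact h1

end Fermat.Agent.P1.helper97
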