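import Fermat.Agent.P1.helper12_FlatKQI
import Fermat.Agent.P1.helper14_KumEqFinal
import Fermat.Agent.P1.helper97_TameI
import Fermat.Agent.P1.helper65_LFEdeg
import Fermat.Agent.P1.helper65_LFOpenZeta
import Fermat.Agent.P1.helper10_FCIn
import Fermat.Agent.P1.helper11_FlatJ1

/-!
# P1 / FLAT-CNT / KQ-I (helper12, task 796): `KQIStatement p`, UNCONDITIONAL

`kqI p : helper30.KQIStatement p`, from `kqI_of` and the landed packages TAME-I (helper97),
LF-EDEG / LF-ZETA (helper65), FC-IN (helper10), KUMEQ-I / KUMEQ-INV (helper14) and J1 (helper11).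
-/

set_option autoImplicit false

namespace Fermat.Agent.P1.helper12

/-- **KQ-I**, unconditional. -/
theorem kqI (p : ℕ) [Fact p.Prime] : Fermat.Agent.P1.helper30.KQIStatement p :=
  kqI_of p (Fermat.Agent.P1.helper97.tameI p) (Fermat.Agent.P1.helper65.lfEdeg p)
    (Fermat.Agent.P1.helper65.lfZeta p) (Fermat.Agent.P1.helper10.fcIn p)
    (Fermat.Agent.P1.helper14.kumEqI p) (Fermat.Agent.P1.helper14.kumEqInv p)
    (Fermat.Agent.P1.helper11.bddLevel p)

end Fermat.Agent.P1.helper12
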