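import Fermat.Agent.P1.helper24_LQDefs

/-!
# P1 / FLAT-CNT / KQ-I (helper12, task 796): STRUCT-I, abstract form

The structure of an irreducible two-dimensional representation `ρ : G → End_k V` of a group
with a tame structure (`helper24.TameStructure`) whose image has order prime to `p`
(junction lemma (J2) of the FLAT-CNT blueprint).

MAIN RESULT `kqi_structI`: there is a basis `b` of `V` in which

* every `ρ g` is diagonal or antidiagonal;
* `ρ i` is diagonal for `i` in inertia, with `χ₂ = χ₁ ^ p`;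
* some element of inertia has `χ₁ ^ p ≠ χ₁`;
* some `φ` is antidiagonal.
-/

set_option autoImplicit false

open Polynomial Module Fermat.Agent.S55

namespace Fermat.Agent.P1.helper12

/-- An element of `p`-power order and of order prime to `p` is trivial. -/
lemma kqi_eq_one_of_pow {M : Type*} [Monoid M] {p m a : ℕ} (hp : p.Prime) (hm : ¬ p ∣ m)
    {x : M} (h1 : x ^ p ^ a = 1) (h2 : x ^ m = 1) : x = 1 := by
  have hd1 := orderOf_dvd_of_pow_eq_one h1
  have hd2 := orderOf_dvd_of_pow_eq_one h2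
  have hco : Nat.Coprime (p ^ a) m :=
    Nat.Coprime.pow_left _ ((Nat.Prime.coprime_iff_not_dvd hp).2 hm)
  have h3 : orderOf x ∣ 1 := by
    have h4 := Nat.dvd_gcd hd1 hd2
    rwa [Nat.Coprime.gcd_eq_one hco] at h4
  exact orderOf_eq_one_iff.1 (Nat.dvd_one.1 h3)

section Tame

variable {G : Type} [Group G] {k : Type} [Field k] {V : Type} [AddCommGroup V] [Module k V]

/-- The consequences of the tame structure for a representation trivial on a level whose image
has exponent prime to `p`. -/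
theorem kqi_tame_facts {𝒩 : Levels G} {I : Subgroup G} {σ : G} {p : ℕ} (hp : p.Prime)
    (hT : helper24.TameStructure 𝒩 I σ p) (ρ : G →* Module.End k V)
    (hlev : ∃ N ∈ 𝒩.mem, ∀ g ∈ N, ρ g = 1)
    (hidx : ∃ m : ℕ, ¬ p ∣ m ∧ ∀ g, ρ g ^ m = 1) :
    ∃ τ ∈ I, (∀ i ∈ I, ∃ n : ℕ, ρ i = ρ τ ^ n) ∧
      (∀ i ∈ I, ρ σ * ρ i = ρ i ^ p * ρ σ) ∧
      (∀ g : G, ∃ n : ℕ, ρ τ * ρ g = ρ g * ρ τ ^ n) ∧
      (∀ g : G, ∃ n : ℕ, ∃ i ∈ I, ρ g = ρ σ ^ n * ρ i) := by
  obtain ⟨N, hN, hρN⟩ := hlev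
  obtain ⟨m, hm, hρm⟩ := hidx
  obtain ⟨P, hPI, -, -, hPpow, ⟨τ, hτI, hτ⟩, hσ⟩ := hT.tame N hN
  have hP1 : ∀ x ∈ P, ρ x = 1 := by
    intro x hx
    obtain ⟨a, ha⟩ := hPpow x hx
    refine kqi_eq_one_of_pow hp hm (a := a) ?_ (hρm x)
    rw [← map_pow]
    exact hρN _ ha
  have hIpow : ∀ i ∈ I, ∃ n : ℕ, ρ i = ρ τ ^ n := by
    intro i hi
    obtain ⟨n, hn⟩ := hτ i hi
    refine ⟨n, ?_⟩
    have h1 := hP1 _ hn
    have h2 : ρ i = ρ (τ ^ n) * ρ ((τ ^ n)⁻¹ * i) := by
      rw [← map_mul, mul_inv_cancel_left]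
    rw [h2, h1, mul_one, map_pow]
  refine ⟨τ, hτI, hIpow, ?_, ?_, ?_⟩
  · intro i hi
    have h1 := hP1 _ (hσ i hi)
    have h2 : ρ σ * ρ i = ρ (σ * i * σ⁻¹ * (i ^ p)⁻¹) * (ρ i ^ p * ρ σ) := by
      rw [← map_pow, ← map_mul, ← map_mul, ← map_mul]
      congr 1
      group
    rw [h2, h1, one_mul]
  · intro g
    have hmem : g⁻¹ * τ * g ∈ I := by
      have := hT.normal.conj_mem τ hτI g⁻¹
      rwa [inv_inv] at this
    obtain ⟨n, hn⟩ := hIpow _ hmem
    refine ⟨n, ?_⟩
    rw [← hn, ← map_mul, ← map_mul]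
    congr 1
    group
  · intro g
    obtain ⟨n, i, hi, s, hs, hg⟩ := hT.gen N hN g
    refine ⟨n, i, hi, ?_⟩
    rw [hg, map_mul, map_mul, hρN s hs, mul_one, map_pow]

end Tame

/-! ## Linear algebra of a plane -/

section LinAlg

variable {k : Type} [Field k] {V : Type} [AddCommGroup V] [Module k V]

/-- An eigenvector for the first root of a split characteristic polynomial. -/
lemma kqi_exists_eigenvector [Module.Finite k V] (t : Module.End k V) {α β : k}
    (h : LinearMap.charpoly t = (X - C α) * (X - C β)) : ∃ e : V, e ≠ 0 ∧ t e = α • e := by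
  have h1 : t.HasEigenvalue α := by
    rw [Module.End.hasEigenvalue_iff_isRoot_charpoly, h]
    simp
  obtain ⟨v, hv⟩ := h1.exists_hasEigenvector
  exact ⟨v, hv.2, hv.apply_eq_smul⟩

/-- Every eigenvalue is a root of the characteristic polynomial. -/
lemma kqi_eigenvalue_mem [Module.Finite k V] (t : Module.End k V) {α β : k}
    (h : LinearMap.charpoly t = (X - C α) * (X - C β)) {γ : k} {w : V} (hw : w ≠ 0)
    (htw : t w = γ • w) : γ = α ∨ γ = β := by
  have h1 : t.HasEigenvalue γ :=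
    Module.End.hasEigenvalue_of_hasEigenvector ⟨Module.End.mem_eigenspace_iff.2 htw, hw⟩
  rw [Module.End.hasEigenvalue_iff_isRoot_charpoly, h] at h1
  simpa [sub_eq_zero] using h1

/-- An eigenbasis for two distinct eigenvalues. -/
theorem kqi_exists_eigenbasis [Module.Finite k V] (hV : finrank k V = 2)
    (t : Module.End k V) {α β : k}
    (hαβ : α ≠ β) (h : LinearMap.charpoly t = (X - C α) * (X - C β)) :
    ∃ b : Basis (Fin 2) k V, t (b 0) = α • b 0 ∧ t (b 1) = β • b 1 := by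
  obtain ⟨e₁, he₁, hte₁⟩ := kqi_exists_eigenvector t h
  obtain ⟨e₂, he₂, hte₂⟩ := kqi_exists_eigenvector t (α := β) (β := α) (by rw [h, mul_comm])
  have hli : LinearIndependent k ![e₁, e₂] := by
    rw [LinearIndependent.pair_iff]
    intro a c hac
    have h1 : t (a • e₁ + c • e₂) = 0 := by rw [hac, map_zero]
    rw [map_add, map_smul, map_smul, hte₁, hte₂] at h1
    have h2 : (β - α) • (c • e₂) = 0 := by
      have h3 : (β - α) • (c • e₂) = (a • α • e₁ + c • β • e₂) - α • (a • e₁ + c • e₂) := by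
        module
      rw [h3, h1, hac, smul_zero, sub_zero]
    have hc : c = 0 := by
      rcases smul_eq_zero.1 h2 with h4 | h4
      · exact absurd (sub_eq_zero.1 h4).symm hαβ
      · rcases smul_eq_zero.1 h4 with h5 | h5
        · exact h5
        · exact absurd h5 he₂
    rw [hc, zero_smul, add_zero] at hac
    rcases smul_eq_zero.1 hac with h5 | h5
    · exact ⟨h5, hc⟩
    · exact absurd h5 he₁
  have hcard : Fintype.card (Fin 2) = finrank k V := by rw [hV, Fintype.card_fin]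
  refine ⟨basisOfLinearIndependentOfCardEqFinrank hli hcard, ?_, ?_⟩
  · rw [coe_basisOfLinearIndependentOfCardEqFinrank]
    exact hte₁
  · rw [coe_basisOfLinearIndependentOfCardEqFinrank]
    exact hte₂

/-- The matrix of an endomorphism which is diagonal in the basis `b`. -/
lemma kqi_toMatrix_eq_diagonal (b : Basis (Fin 2) k V) (t : Module.End k V) (d : Fin 2 → k)
    (h : ∀ j, t (b j) = d j • b j) : LinearMap.toMatrix b b t = Matrix.diagonal d := by
  ext i j
  rw [LinearMap.toMatrix_apply, h j, map_smul, Basis.repr_self, Finsupp.smul_apply,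
    Finsupp.single_apply, Matrix.diagonal_apply]
  by_cases hij : i = j
  · subst hij
    simp
  · rw [if_neg hij, if_neg (fun h' => hij h'.symm), smul_zero]

/-- A matrix normalising a regular diagonal matrix is diagonal or antidiagonal. -/
lemma kqi_monomial {d : Fin 2 → k} (hd : d 0 ≠ d 1) {A B : Matrix (Fin 2) (Fin 2) k}
    (hAB : A * B = 1) {n : ℕ} (h : Matrix.diagonal d * A = A * Matrix.diagonal d ^ n) :
    (A 0 1 = 0 ∧ A 1 0 = 0) ∨ (A 0 0 = 0 ∧ A 1 1 = 0) := by
  rw [Matrix.diagonal_pow] at h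
  have e : ∀ i j, d i * A i j = A i j * d j ^ n := by
    intro i j
    have := congrFun (congrFun h i) j
    rwa [Matrix.diagonal_mul, Matrix.mul_diagonal, Pi.pow_apply] at this
  have hc0 : A 0 0 = 0 ∨ A 1 0 = 0 := by
    by_contra hcon
    rw [not_or] at hcon
    have h1 : d 0 = d 0 ^ n := by
      have := e 0 0
      rw [mul_comm] at this
      exact mul_left_cancel₀ hcon.1 this
    have h2 : d 1 = d 0 ^ n := by
      have := e 1 0
      rw [mul_comm] at this
      exact mul_left_cancel₀ hcon.2 this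
    exact hd (h1.trans h2.symm)
  have hc1 : A 0 1 = 0 ∨ A 1 1 = 0 := by
    by_contra hcon
    rw [not_or] at hcon
    have h1 : d 0 = d 1 ^ n := by
      have := e 0 1
      rw [mul_comm] at this
      exact mul_left_cancel₀ hcon.1 this
    have h2 : d 1 = d 1 ^ n := by
      have := e 1 1
      rw [mul_comm] at this
      exact mul_left_cancel₀ hcon.2 this
    exact hd (h1.trans h2.symm)
  have hr0 : A 0 0 * B 0 0 + A 0 1 * B 1 0 = 1 := by
    have := congrFun (congrFun hAB 0) 0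
    rwa [Matrix.mul_apply, Fin.sum_univ_two, Matrix.one_apply_eq] at this
  have hr1 : A 1 0 * B 0 1 + A 1 1 * B 1 1 = 1 := by
    have := congrFun (congrFun hAB 1) 1
    rwa [Matrix.mul_apply, Fin.sum_univ_two, Matrix.one_apply_eq] at this
  rcases hc0 with h00 | h10
  · rcases hc1 with h01 | h11
    · rw [h00, h01, zero_mul, zero_mul, add_zero] at hr0
      exact absurd hr0 zero_ne_one
    · exact Or.inr ⟨h00, h11⟩
  · rcases hc1 with h01 | h11
    · exact Or.inl ⟨h01, h10⟩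
    · rw [h10, h11, zero_mul, zero_mul, add_zero] at hr1
      exact absurd hr1 zero_ne_one

end LinAlg

/-! ## The structure theorem -/

section Main

variable {G : Type} [Group G] {k : Type} [Field k] {V : Type} [AddCommGroup V] [Module k V]

/-- The matrix of `ρ g` in the basis `b`, as a monoid homomorphism. -/
noncomputable def kqiMat (b : Basis (Fin 2) k V) (ρ : G →* Module.End k V) :
    G →* Matrix (Fin 2) (Fin 2) k where
  toFun g := LinearMap.toMatrix b b (ρ g)
  map_one' := by rw [map_one, LinearMap.toMatrix_one]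
  map_mul' g h := by rw [map_mul, LinearMap.toMatrix_mul]

lemma kqiMat_apply (b : Basis (Fin 2) k V) (ρ : G →* Module.End k V) (g : G) :
    kqiMat b ρ g = LinearMap.toMatrix b b (ρ g) := rfl

/-- `ρ g (b j)` in terms of the matrix entries. -/
lemma kqi_apply_basis (b : Basis (Fin 2) k V) (ρ : G →* Module.End k V) (g : G) (j : Fin 2) :
    ρ g (b j) = kqiMat b ρ g 0 j • b 0 + kqiMat b ρ g 1 j • b 1 := by
  have h := b.sum_repr (ρ g (b j))
  rw [Fin.sum_univ_two] at h
  rw [kqiMat_apply, LinearMap.toMatrix_apply, LinearMap.toMatrix_apply]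
  exact h.symm

/-- Powers of an endomorphism on an eigenvector. -/
lemma kqi_pow_apply_eigen (f : Module.End k V) {a : k} {x : V} (hx : f x = a • x) (n : ℕ) :
    (f ^ n) x = a ^ n • x := by
  induction n with
  | zero => simp
  | succ n ih =>
    rw [pow_succ, Module.End.mul_apply, hx, map_smul, ih, smul_smul, pow_succ, mul_comm]

/-- If the generator of tame inertia has a double eigenvalue, there is a stable line. -/
lemma kqi_stable_line_of_double [Module.Finite k V] (hV : finrank k V = 2)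
    (ρ : G →* Module.End k V) {I : Subgroup G} {σ τ : G}
    (hIpow : ∀ i ∈ I, ∃ n : ℕ, ρ i = ρ τ ^ n)
    (hconj : ∀ g : G, ∃ n : ℕ, ρ τ * ρ g = ρ g * ρ τ ^ n)
    (hgen : ∀ g : G, ∃ n : ℕ, ∃ i ∈ I, ρ g = ρ σ ^ n * ρ i)
    (hsplitσ : ∃ α β : k, LinearMap.charpoly (ρ σ) = (X - C α) * (X - C β))
    {α : k} (hch : LinearMap.charpoly (ρ τ) = (X - C α) * (X - C α)) :
    ∃ ℓ : Submodule k V, finrank k ℓ = 1 ∧ ∀ g, ∀ x ∈ ℓ, ρ g x ∈ ℓ := by
  obtain ⟨e, he, hte⟩ := kqi_exists_eigenvector (ρ τ) hch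
  have hinj : ∀ g x, ρ g x = 0 → x = 0 := by
    intro g x hx
    have h1 : (ρ g⁻¹ * ρ g) x = x := by
      rw [← map_mul, inv_mul_cancel, map_one, Module.End.one_apply]
    rw [Module.End.mul_apply, hx, map_zero] at h1
    exact h1.symm
  have hEstab : ∀ g, ∀ x ∈ Module.End.eigenspace (ρ τ) α,
      ρ g x ∈ Module.End.eigenspace (ρ τ) α := by
    intro g x hx
    rw [Module.End.mem_eigenspace_iff] at hx ⊢
    by_cases hx0 : x = 0
    · rw [hx0, map_zero, map_zero, smul_zero]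
    obtain ⟨n, hn⟩ := hconj g
    have h1 : ρ τ (ρ g x) = α ^ n • ρ g x := by
      have h2 : (ρ τ * ρ g) x = (ρ g * ρ τ ^ n) x := by rw [hn]
      rw [Module.End.mul_apply, Module.End.mul_apply, kqi_pow_apply_eigen (ρ τ) hx n,
        map_smul] at h2
      exact h2
    have hw : ρ g x ≠ 0 := fun h => hx0 (hinj g x h)
    have h3 : α ^ n = α := by
      rcases kqi_eigenvalue_mem (ρ τ) hch hw h1 with h | h <;> exact h
    rw [h1, h3]
  have hEne : Module.End.eigenspace (ρ τ) α ≠ ⊥ := by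
    intro h
    have : e ∈ Module.End.eigenspace (ρ τ) α := Module.End.mem_eigenspace_iff.2 hte
    rw [h, Submodule.mem_bot] at this
    exact he this
  have h1le : 1 ≤ finrank k ↥(Module.End.eigenspace (ρ τ) α) :=
    Submodule.one_le_finrank_iff.2 hEne
  have hle2 : finrank k ↥(Module.End.eigenspace (ρ τ) α) ≤ 2 := by
    rw [← hV]
    exact Submodule.finrank_le _
  rcases Nat.lt_or_ge (finrank k ↥(Module.End.eigenspace (ρ τ) α)) 2 with hlt | hge
  · exact ⟨_, by omega, hEstab⟩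
  · have htop : Module.End.eigenspace (ρ τ) α = ⊤ := by
      apply Submodule.eq_top_of_finrank_eq
      rw [hV]
      omega
    have hscal : ∀ x : V, ρ τ x = α • x := by
      intro x
      have : x ∈ Module.End.eigenspace (ρ τ) α := by rw [htop]; exact Submodule.mem_top
      exact Module.End.mem_eigenspace_iff.1 this
    obtain ⟨μ, ν, hσch⟩ := hsplitσ
    obtain ⟨w, hw, hσw⟩ := kqi_exists_eigenvector (ρ σ) hσch
    refine ⟨k ∙ w, finrank_span_singleton hw, ?_⟩
    intro g x hx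
    obtain ⟨c, rfl⟩ := Submodule.mem_span_singleton.1 hx
    obtain ⟨n, i, hi, hg⟩ := hgen g
    obtain ⟨m, hm⟩ := hIpow i hi
    rw [hg, hm, Module.End.mul_apply, kqi_pow_apply_eigen (ρ τ) (hscal _) m, map_smul,
      map_smul, kqi_pow_apply_eigen (ρ σ) hσw n]
    exact Submodule.smul_mem _ _ (Submodule.smul_mem _ _
      (Submodule.smul_mem _ _ (Submodule.mem_span_singleton_self w)))

/-- A matrix with vanishing off-diagonal entries is diagonal. -/
lemma kqi_eq_diagonal {A : Matrix (Fin 2) (Fin 2) k} (h01 : A 0 1 = 0) (h10 : A 1 0 = 0) :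
    A = Matrix.diagonal (fun j => A j j) := by
  ext i j
  fin_cases i <;> fin_cases j <;> simp [h01, h10]

/-- **STRUCT-I**, abstract form. -/
theorem kqi_structI [Module.Finite k V] {𝒩 : Levels G} {I : Subgroup G} {σ : G} {p : ℕ}
    (hp : p.Prime) (hT : helper24.TameStructure 𝒩 I σ p) (hV : finrank k V = 2)
    (ρ : G →* Module.End k V)
    (hlev : ∃ N ∈ 𝒩.mem, ∀ g ∈ N, ρ g = 1)
    (hidx : ∃ m : ℕ, ¬ p ∣ m ∧ ∀ g, ρ g ^ m = 1)
    (hsplit : ∀ g, ∃ α β : k, LinearMap.charpoly (ρ g) = (X - C α) * (X - C β))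
    (hirr : ¬ ∃ ℓ : Submodule k V, finrank k ℓ = 1 ∧ ∀ g, ∀ x ∈ ℓ, ρ g x ∈ ℓ) :
    ∃ b : Basis (Fin 2) k V,
      (∀ g, (kqiMat b ρ g 0 1 = 0 ∧ kqiMat b ρ g 1 0 = 0) ∨
        (kqiMat b ρ g 0 0 = 0 ∧ kqiMat b ρ g 1 1 = 0)) ∧
      (∀ i ∈ I, kqiMat b ρ i 0 1 = 0 ∧ kqiMat b ρ i 1 0 = 0 ∧
        kqiMat b ρ i 1 1 = kqiMat b ρ i 0 0 ^ p) ∧
      (∃ s ∈ I, kqiMat b ρ s 0 0 ^ p ≠ kqiMat b ρ s 0 0) ∧
      (∃ φ, kqiMat b ρ φ 0 0 = 0 ∧ kqiMat b ρ φ 1 1 = 0) := by
  obtain ⟨τ, hτI, hIpow, hσp, hconj, hgen⟩ := kqi_tame_facts hp hT ρ hlev hidx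
  obtain ⟨α, β, hch⟩ := hsplit τ
  by_cases hαβ : α = β
  · exfalso
    subst hαβ
    exact hirr (kqi_stable_line_of_double hV ρ hIpow hconj hgen (hsplit σ) hch)
  obtain ⟨b, hb0, hb1⟩ := kqi_exists_eigenbasis hV (ρ τ) hαβ hch
  refine ⟨b, ?_⟩
  have hD : kqiMat b ρ τ = Matrix.diagonal ![α, β] :=
    kqi_toMatrix_eq_diagonal b (ρ τ) ![α, β] (by
      intro j
      fin_cases j
      · exact hb0
      · exact hb1)
  have hd01 : (![α, β] : Fin 2 → k) 0 ≠ (![α, β] : Fin 2 → k) 1 := hαβ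
  -- every element is monomial
  have hmono : ∀ g, (kqiMat b ρ g 0 1 = 0 ∧ kqiMat b ρ g 1 0 = 0) ∨
      (kqiMat b ρ g 0 0 = 0 ∧ kqiMat b ρ g 1 1 = 0) := by
    intro g
    obtain ⟨n, hn⟩ := hconj g
    refine kqi_monomial hd01 (B := kqiMat b ρ g⁻¹) ?_ (n := n) ?_
    · rw [← map_mul, mul_inv_cancel, map_one]
    · have h1 := congrArg (LinearMap.toMatrix b b) hn
      rw [LinearMap.toMatrix_mul, LinearMap.toMatrix_mul, ← LinearMap.toMatrix_pow] at h1
      rw [← hD]
      exact h1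
  -- inertia is diagonal
  have hIdiag : ∀ i ∈ I, ∃ x : Fin 2 → k, kqiMat b ρ i = Matrix.diagonal x := by
    intro i hi
    obtain ⟨n, hn⟩ := hIpow i hi
    refine ⟨![α, β] ^ n, ?_⟩
    rw [kqiMat_apply, hn, ← LinearMap.toMatrix_pow, ← kqiMat_apply, hD, Matrix.diagonal_pow]
  -- invertibility of the rows
  have hrow0 : ∀ g, kqiMat b ρ g 0 0 = 0 → kqiMat b ρ g 0 1 = 0 → False := by
    intro g h00 h01
    have h1 : kqiMat b ρ g * kqiMat b ρ g⁻¹ = 1 := by
      rw [← map_mul, mul_inv_cancel, map_one]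
    have := congrFun (congrFun h1 0) 0
    rw [Matrix.mul_apply, Fin.sum_univ_two, Matrix.one_apply_eq, h00, h01, zero_mul, zero_mul,
      add_zero] at this
    exact zero_ne_one this
  -- `σ` is antidiagonal
  have hσa : kqiMat b ρ σ 0 0 = 0 ∧ kqiMat b ρ σ 1 1 = 0 := by
    rcases hmono σ with ⟨h01, h10⟩ | h
    · exfalso
      apply hirr
      refine ⟨k ∙ b 0, finrank_span_singleton (b.ne_zero 0), ?_⟩
      intro g x hx
      obtain ⟨c, rfl⟩ := Submodule.mem_span_singleton.1 hx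
      obtain ⟨n, i, hi, hg⟩ := hgen g
      obtain ⟨y, hy⟩ := hIdiag i hi
      obtain ⟨z, hz⟩ : ∃ z : Fin 2 → k, kqiMat b ρ σ = Matrix.diagonal z :=
        ⟨_, kqi_eq_diagonal h01 h10⟩
      have hgm : kqiMat b ρ g = Matrix.diagonal (fun j => (z ^ n) j * y j) := by
        rw [kqiMat_apply, hg, LinearMap.toMatrix_mul, ← LinearMap.toMatrix_pow,
          ← kqiMat_apply, ← kqiMat_apply, hy, hz, Matrix.diagonal_pow,
          Matrix.diagonal_mul_diagonal]
      have h10g : kqiMat b ρ g 1 0 = 0 := by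
        rw [hgm]
        exact Matrix.diagonal_apply_ne _ (by decide)
      rw [map_smul, kqi_apply_basis b ρ g 0, h10g, zero_smul, add_zero]
      exact Submodule.smul_mem _ _
        (Submodule.smul_mem _ _ (Submodule.mem_span_singleton_self _))
    · exact h
  have hσ01 : kqiMat b ρ σ 0 1 ≠ 0 := fun h => hrow0 σ hσa.1 h
  -- the Frobenius relation
  have hχ : ∀ i ∈ I, kqiMat b ρ i 0 1 = 0 ∧ kqiMat b ρ i 1 0 = 0 ∧
      kqiMat b ρ i 1 1 = kqiMat b ρ i 0 0 ^ p := by
    intro i hi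
    obtain ⟨y, hy⟩ := hIdiag i hi
    refine ⟨?_, ?_, ?_⟩
    · rw [hy]
      exact Matrix.diagonal_apply_ne _ (by decide)
    · rw [hy]
      exact Matrix.diagonal_apply_ne _ (by decide)
    · have h1 := congrArg (LinearMap.toMatrix b b) (hσp i hi)
      rw [LinearMap.toMatrix_mul, LinearMap.toMatrix_mul, ← LinearMap.toMatrix_pow,
        ← kqiMat_apply, ← kqiMat_apply, hy, Matrix.diagonal_pow] at h1
      have h2 := congrFun (congrFun h1 0) 1
      rw [Matrix.mul_diagonal, Matrix.diagonal_mul, Pi.pow_apply] at h2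
      rw [hy, Matrix.diagonal_apply_eq, Matrix.diagonal_apply_eq]
      exact mul_left_cancel₀ hσ01 (h2.trans (mul_comm _ _))
  refine ⟨hmono, hχ, ⟨τ, hτI, ?_⟩, ⟨σ, hσa⟩⟩
  have h1 := (hχ τ hτI).2.2
  rw [hD, Matrix.diagonal_apply_eq, Matrix.diagonal_apply_eq] at h1
  rw [hD, Matrix.diagonal_apply_eq]
  intro h2
  apply hαβ
  change β = α ^ p at h1
  change α ^ p = α at h2
  rw [h1, h2]

end Main

/-! ## Monomial representations: the diagonal subgroup and the conjugation formulas -/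

section Mono

variable {G : Type} [Group G] {k : Type} [Field k]

/-- The entries of a product of `2 × 2` matrices. -/
lemma kqi_mul_apply (A B : Matrix (Fin 2) (Fin 2) k) (i j : Fin 2) :
    (A * B) i j = A i 0 * B 0 j + A i 1 * B 1 j := by
  rw [Matrix.mul_apply, Fin.sum_univ_two]

lemma kqi_mul_inv (M : G →* Matrix (Fin 2) (Fin 2) k) (g : G) : M g * M g⁻¹ = 1 := by
  rw [← map_mul, mul_inv_cancel, map_one]

lemma kqi_inv_mul (M : G →* Matrix (Fin 2) (Fin 2) k) (g : G) : M g⁻¹ * M g = 1 := by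
  rw [← map_mul, inv_mul_cancel, map_one]

/-- The diagonal entries of a diagonal element are nonzero. -/
lemma kqi_diag_ne_zero (M : G →* Matrix (Fin 2) (Fin 2) k) {g : G} (h01 : M g 0 1 = 0)
    (h10 : M g 1 0 = 0) : M g 0 0 ≠ 0 ∧ M g 1 1 ≠ 0 := by
  have h0 := congrFun (congrFun (kqi_mul_inv M g) 0) 0
  have h1 := congrFun (congrFun (kqi_mul_inv M g) 1) 1
  rw [kqi_mul_apply, Matrix.one_apply_eq, h01, zero_mul, add_zero] at h0
  rw [kqi_mul_apply, Matrix.one_apply_eq, h10, zero_mul, zero_add] at h1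
  exact ⟨left_ne_zero_of_mul_eq_one h0, left_ne_zero_of_mul_eq_one h1⟩

/-- The subgroup of the elements acting diagonally. -/
def kqiDiag (M : G →* Matrix (Fin 2) (Fin 2) k) : Subgroup G where
  carrier := {g | M g 0 1 = 0 ∧ M g 1 0 = 0}
  one_mem' := by
    refine ⟨?_, ?_⟩
    · rw [map_one]
      exact Matrix.one_apply_ne (by decide)
    · rw [map_one]
      exact Matrix.one_apply_ne (by decide)
  mul_mem' := by
    rintro g h ⟨hg1, hg2⟩ ⟨hh1, hh2⟩
    refine ⟨?_, ?_⟩
    · rw [map_mul, kqi_mul_apply, hg1, hh1, mul_zero, zero_mul, add_zero]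
    · rw [map_mul, kqi_mul_apply, hg2, hh2, mul_zero, zero_mul, add_zero]
  inv_mem' := by
    rintro g ⟨hg1, hg2⟩
    have hne := kqi_diag_ne_zero M hg1 hg2
    have h01 := congrFun (congrFun (kqi_inv_mul M g) 0) 1
    have h10 := congrFun (congrFun (kqi_inv_mul M g) 1) 0
    rw [kqi_mul_apply, Matrix.one_apply_ne (by decide), hg1, mul_zero, zero_add] at h01
    rw [kqi_mul_apply, Matrix.one_apply_ne (by decide), hg2, mul_zero, add_zero] at h10
    refine ⟨?_, ?_⟩
    · rcases mul_eq_zero.1 h01 with h | h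
      · exact h
      · exact absurd h hne.2
    · rcases mul_eq_zero.1 h10 with h | h
      · exact h
      · exact absurd h hne.1

lemma mem_kqiDiag {M : G →* Matrix (Fin 2) (Fin 2) k} {g : G} :
    g ∈ kqiDiag M ↔ M g 0 1 = 0 ∧ M g 1 0 = 0 := Iff.rfl

/-- The kernel is contained in the diagonal subgroup. -/
lemma kqi_mem_diag_of_eq_one {M : G →* Matrix (Fin 2) (Fin 2) k} {g : G} (h : M g = 1) :
    g ∈ kqiDiag M := by
  rw [mem_kqiDiag, h]
  exact ⟨Matrix.one_apply_ne (by decide), Matrix.one_apply_ne (by decide)⟩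

/-- The diagonal characters are multiplicative on the diagonal subgroup. -/
lemma kqi_diag_mul (M : G →* Matrix (Fin 2) (Fin 2) k) {g h : G} (hg : g ∈ kqiDiag M)
    (_hh : h ∈ kqiDiag M) :
    M (g * h) 0 0 = M g 0 0 * M h 0 0 ∧ M (g * h) 1 1 = M g 1 1 * M h 1 1 := by
  refine ⟨?_, ?_⟩
  · rw [map_mul, kqi_mul_apply, hg.1, zero_mul, add_zero]
  · rw [map_mul, kqi_mul_apply, hg.2, zero_mul, zero_add]

/-- The inverse of a diagonal element. -/
lemma kqi_diag_inv (M : G →* Matrix (Fin 2) (Fin 2) k) {g : G} (hg : g ∈ kqiDiag M) :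
    M g⁻¹ 0 0 = (M g 0 0)⁻¹ ∧ M g⁻¹ 1 1 = (M g 1 1)⁻¹ := by
  have h := kqi_diag_mul M hg ((kqiDiag M).inv_mem hg)
  rw [mul_inv_cancel, map_one, Matrix.one_apply_eq, Matrix.one_apply_eq] at h
  exact ⟨eq_inv_of_mul_eq_one_right h.1.symm, eq_inv_of_mul_eq_one_right h.2.symm⟩

/-- Squares are diagonal. -/
lemma kqi_sq_mem (M : G →* Matrix (Fin 2) (Fin 2) k)
    (hmono : ∀ g, (M g 0 1 = 0 ∧ M g 1 0 = 0) ∨ (M g 0 0 = 0 ∧ M g 1 1 = 0)) (g : G) :
    g * g ∈ kqiDiag M := by
  rcases hmono g with h | h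
  · exact (kqiDiag M).mul_mem h h
  · rw [mem_kqiDiag, map_mul, kqi_mul_apply, kqi_mul_apply, h.1, h.2]
    simp

/-- Diagonal elements commute. -/
lemma kqi_diag_comm (M : G →* Matrix (Fin 2) (Fin 2) k) {g h : G} (hg : g ∈ kqiDiag M)
    (hh : h ∈ kqiDiag M) : M (g * h * g⁻¹ * h⁻¹) = 1 := by
  have h1 : M g * M h = M h * M g := by
    ext i j
    rw [kqi_mul_apply, kqi_mul_apply]
    fin_cases i <;> fin_cases j <;> simp [hg.1, hg.2, hh.1, hh.2, mul_comm]
  rw [map_mul, map_mul, map_mul, h1, mul_assoc (M h), kqi_mul_inv, mul_one, kqi_mul_inv]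

/-- Conjugation by a diagonal element, on the entries. -/
lemma kqi_conj_diag (M : G →* Matrix (Fin 2) (Fin 2) k) {g : G} (hg : g ∈ kqiDiag M)
    (X : Matrix (Fin 2) (Fin 2) k) :
    (M g * X * M g⁻¹) 0 0 = X 0 0 ∧
      (M g * X * M g⁻¹) 0 1 = M g 0 0 * (M g 1 1)⁻¹ * X 0 1 := by
  obtain ⟨h0, h1⟩ := kqi_diag_ne_zero M hg.1 hg.2
  have hinv := kqi_diag_inv M hg
  have hg' := (kqiDiag M).inv_mem hg
  rw [mem_kqiDiag] at hg'
  refine ⟨?_, ?_⟩
  · rw [kqi_mul_apply, kqi_mul_apply, kqi_mul_apply, hg.1, hg'.2, hinv.1, zero_mul, add_zero,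
      mul_zero, add_zero, mul_right_comm, mul_inv_cancel₀ h0, one_mul]
  · rw [kqi_mul_apply, kqi_mul_apply, kqi_mul_apply, hg.1, hg'.1, hinv.2, zero_mul, add_zero,
      mul_zero, zero_add, zero_mul, add_zero, mul_right_comm]

/-- The inverse of an antidiagonal element. -/
lemma kqi_anti_inv (M : G →* Matrix (Fin 2) (Fin 2) k) {g : G} (h00 : M g 0 0 = 0)
    (h11 : M g 1 1 = 0) :
    M g⁻¹ 0 0 = 0 ∧ M g⁻¹ 1 1 = 0 ∧ M g 0 1 * M g⁻¹ 1 0 = 1 := by
  have e00 := congrFun (congrFun (kqi_mul_inv M g) 0) 0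
  have e01 := congrFun (congrFun (kqi_mul_inv M g) 0) 1
  have e10 := congrFun (congrFun (kqi_mul_inv M g) 1) 0
  have e11 := congrFun (congrFun (kqi_mul_inv M g) 1) 1
  rw [kqi_mul_apply, Matrix.one_apply_eq, h00, zero_mul, zero_add] at e00
  rw [kqi_mul_apply, Matrix.one_apply_ne (by decide), h00, zero_mul, zero_add] at e01
  rw [kqi_mul_apply, Matrix.one_apply_ne (by decide), h11, zero_mul, add_zero] at e10
  rw [kqi_mul_apply, Matrix.one_apply_eq, h11, zero_mul, add_zero] at e11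
  have hne01 : M g 0 1 ≠ 0 := left_ne_zero_of_mul_eq_one e00
  have hne10 : M g 1 0 ≠ 0 := left_ne_zero_of_mul_eq_one e11
  refine ⟨?_, ?_, e00⟩
  · rcases mul_eq_zero.1 e10 with h | h
    · exact absurd h hne10
    · exact h
  · rcases mul_eq_zero.1 e01 with h | h
    · exact absurd h hne01
    · exact h

/-- Conjugation by an antidiagonal element, on the entries. -/
lemma kqi_conj_anti (M : G →* Matrix (Fin 2) (Fin 2) k) {g : G} (h00 : M g 0 0 = 0)
    (h11 : M g 1 1 = 0) (X : Matrix (Fin 2) (Fin 2) k) :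
    (M g * X * M g⁻¹) 0 0 = X 1 1 ∧
      (M g * X * M g⁻¹) 1 0 = M g 1 0 * M g⁻¹ 1 0 * X 0 1 := by
  obtain ⟨i00, i11, hone⟩ := kqi_anti_inv M h00 h11
  refine ⟨?_, ?_⟩
  · rw [kqi_mul_apply, kqi_mul_apply, kqi_mul_apply, h00, i00]
    have : M g 0 1 * X 1 1 * M g⁻¹ 1 0 = X 1 1 := by
      rw [mul_right_comm, hone, one_mul]
    simp [this]
  · rw [kqi_mul_apply, kqi_mul_apply, kqi_mul_apply, h11, i00]
    simp
    ring

end Mono

/-! ## The dimension count -/

section Count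

/-- A set of vectors of a `k`-space which are pairwise `k`-linearly dependent spans, over a
subfield `F`, a space of dimension at most `[k : F]`. -/
theorem kqi_finrank_span_le {F k W : Type} [Field F] [Field k] [Algebra F k]
    [Module.Finite F k] [AddCommGroup W] [Module F W] [Module k W] [IsScalarTower F k W]
    (S : Set W)
    (h : ∀ x ∈ S, ∀ y ∈ S, ∃ a b : k, (a ≠ 0 ∨ b ≠ 0) ∧ a • x + b • y = 0) :
    Module.Finite F ↥(Submodule.span F S) ∧
      finrank F ↥(Submodule.span F S) ≤ finrank F k := by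
  by_cases hS : ∀ x ∈ S, x = 0
  · have hbot : Submodule.span F S = ⊥ := by
      rw [Submodule.span_eq_bot]
      exact hS
    rw [hbot]
    refine ⟨inferInstance, ?_⟩
    rw [finrank_bot]
    exact Nat.zero_le _
  · obtain ⟨r₀, hr₀S, hr₀⟩ : ∃ r₀ ∈ S, r₀ ≠ 0 := by
      by_contra hcon
      apply hS
      intro x hx
      by_contra hx0
      exact hcon ⟨x, hx, hx0⟩
    set L : k →ₗ[F] W := (LinearMap.toSpanSingleton k W r₀).restrictScalars F with hL
    have hle : Submodule.span F S ≤ LinearMap.range L := by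
      rw [Submodule.span_le]
      intro x hx
      obtain ⟨a, c, hac, hsum⟩ := h x hx r₀ hr₀S
      have ha : a ≠ 0 := by
        intro ha0
        rw [ha0, zero_smul, zero_add] at hsum
        rcases smul_eq_zero.1 hsum with h1 | h1
        · rcases hac with h2 | h2
          · exact h2 ha0
          · exact h2 h1
        · exact hr₀ h1
      refine ⟨-(a⁻¹ * c), ?_⟩
      change (-(a⁻¹ * c)) • r₀ = x
      have h1 : a • x = -(c • r₀) := eq_neg_of_add_eq_zero_left hsum
      have h2 : x = a⁻¹ • (a • x) := by rw [smul_smul, inv_mul_cancel₀ ha, one_smul]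
      rw [h2, h1, smul_neg, smul_smul, neg_smul]
    have : Module.Finite F ↥(LinearMap.range L) := Module.Finite.range L
    have hfin : Module.Finite F ↥(Submodule.span F S) :=
      Module.Finite.of_injective (Submodule.inclusion hle) (Submodule.inclusion_injective hle)
    refine ⟨hfin, ?_⟩
    exact (Submodule.finrank_mono hle).trans (LinearMap.finrank_range_le L)

end Count

end Fermat.Agent.P1.helper12
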