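/-
P1 / S56, module COC (helper56, sub-coordinator): interface.

* statements of the base-change packages (`BCBasicStatement`, `BCStrictOrdStatement`,
  `BCFlatStatement`), of the dichotomy for homomorphisms to the dual numbers (`TrivStatement`);
* the matrix form of tangent vectors: `tanMat`, `IsAdCocycle`, `IsAdCoboundary`.
-/
import Mathlib
import Fermat.Agent.S53.helper56_Matrix
import Fermat.Prelude.Def_GaloisRep_DeformationRingData
import Fermat.Prelude.Def_GaloisRep_LocalConditions
import Fermat.Prelude.Def_GaloisRep_StrictOrdinary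
import Fermat.Prelude.Def_GaloisRep_Flat

set_option autoImplicit false

namespace Fermat.Agent.P1.helper56

open IsLocalRing Fermat.Agent.S53.helper56

/-! ### Base change of the local conditions -/

/-- **[COC-BC1]** `DetIsCyclotomic`, `IsUnramifiedAt`, `IsUnipotentOnInertiaAt` are stable under
base change along local homomorphisms. -/
def BCBasicStatement : Prop :=
  ∀ (A B : Type) [CommRing A] [IsLocalRing A] [CommRing B] [IsLocalRing B]
    (φ : A →+* B) (hφ : IsLocalHom φ) (ρ : GaloisRepAdic A),
    (∀ p : ℕ, ρ.DetIsCyclotomic p → (ρ.baseChangeAlong φ hφ).DetIsCyclotomic p) ∧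
    (∀ q : ℕ, ρ.IsUnramifiedAt q → (ρ.baseChangeAlong φ hφ).IsUnramifiedAt q) ∧
    (∀ q : ℕ, ρ.IsUnipotentOnInertiaAt q → (ρ.baseChangeAlong φ hφ).IsUnipotentOnInertiaAt q)

/-- **[COC-BC2]** `IsStrictOrdinaryAt` is stable under base change along local homomorphisms. -/
def BCStrictOrdStatement : Prop :=
  ∀ (A B : Type) [CommRing A] [IsLocalRing A] [CommRing B] [IsLocalRing B]
    (φ : A →+* B) (hφ : IsLocalHom φ) (ρ : GaloisRepAdic A) (p : ℕ),
    ρ.IsStrictOrdinaryAt p → (ρ.baseChangeAlong φ hφ).IsStrictOrdinaryAt p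

/-- **[COC-BC3]** `IsFlatAt` is stable under base change along SURJECTIVE local
homomorphisms. -/
def BCFlatStatement : Prop :=
  ∀ (A B : Type) [CommRing A] [IsLocalRing A] [CommRing B] [IsLocalRing B]
    (φ : A →+* B) (hφ : IsLocalHom φ), Function.Surjective φ →
    ∀ (ρ : GaloisRepAdic A) (p : ℕ), ρ.IsFlatAt p → (ρ.baseChangeAlong φ hφ).IsFlatAt p

/-- **[COC-TRIV]** two non-surjective `𝒪`-algebra homomorphisms to the dual numbers of the
residue field agree. -/
def TrivStatement : Prop :=
  ∀ (𝒪 : Type) [CommRing 𝒪] [IsLocalRing 𝒪] (R : Type) [CommRing R] [IsLocalRing R]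
    [Algebra 𝒪 R], Function.Surjective (residue R ∘ algebraMap 𝒪 R) →
    ∀ φ φ' : R →ₐ[𝒪] DualNumber (ResidueField 𝒪),
      ¬ Function.Surjective φ → ¬ Function.Surjective φ' → φ = φ'

/-! ### The matrix form of tangent vectors -/

section matrix

variable {k : Type} [Field k]

/-- The matrix `r + ε (c r)` over the dual numbers: the value at one group element of the
tangent lift attached to the cocycle `c`. -/
def tanMat (r c : M2 k) : M2 (DualNumber k) :=
  Matrix.of fun i j => TrivSqZeroExt.inl (r i j) + TrivSqZeroExt.inr ((c * r) i j)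

/-- `c` is a `1`-cocycle for the adjoint action of `r`. -/
def IsAdCocycle (r : Gal →* M2 k) (c : Gal → M2 k) : Prop :=
  ∀ σ τ : Gal, c (σ * τ) = c σ + r σ * c τ * r σ⁻¹

/-- `c` is a `1`-coboundary for the adjoint action of `r`. -/
def IsAdCoboundary (r : Gal →* M2 k) (c : Gal → M2 k) : Prop :=
  ∃ X : M2 k, ∀ σ : Gal, c σ = r σ * X * r σ⁻¹ - X

end matrix

end Fermat.Agent.P1.helper56
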