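/-
P1 / S56, module COC, package [COC-BC1] (helper13, task 519).

`DetIsCyclotomic`, `IsUnramifiedAt`, `IsUnipotentOnInertiaAt` are stable under
`GaloisRepAdic.baseChangeAlong` along local homomorphisms:
`bcBasic : Fermat.Agent.P1.helper56.BCBasicStatement`.
-/
import Fermat.Agent.P1.helper56_CocDefs

set_option autoImplicit false
set_option linter.style.haveILetI false

namespace Fermat.Agent.P1.helper13

open IsLocalRing

section

variable {A B : Type} [CommRing A] [IsLocalRing A] [CommRing B] [IsLocalRing B]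

/-- The underlying endomorphism of a base-changed representation. -/
theorem baseChangeAlong_rho_apply (φ : A →+* B) (hφ : IsLocalHom φ) (ρ : GaloisRepAdic A)
    (σ : AlgebraicClosure ℚ ≃ₐ[ℚ] AlgebraicClosure ℚ) :
    (ρ.baseChangeAlong φ hφ).ρ σ =
      letI : Algebra A B := φ.toAlgebra
      (ρ.ρ σ).baseChange B := rfl

/-- `DetIsCyclotomic` is stable under base change along a local homomorphism. -/
theorem detIsCyclotomic_baseChangeAlong (φ : A →+* B) (hφ : IsLocalHom φ) (ρ : GaloisRepAdic A)
    (p : ℕ) (h : ρ.DetIsCyclotomic p) : (ρ.baseChangeAlong φ hφ).DetIsCyclotomic p := by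
  letI : Algebra A B := φ.toAlgebra
  obtain ⟨hp, hdet⟩ := h
  refine ⟨?_, fun n σ a hσ => ?_⟩
  · have e : (p : B) = φ (p : A) := (map_natCast φ p).symm
    rw [e]
    have := hφ
    exact map_nonunit φ _ hp
  · have h1 := hdet n σ a hσ
    have hdetB : LinearMap.det ((ρ.baseChangeAlong φ hφ).ρ σ) = φ (LinearMap.det (ρ.ρ σ)) := by
      rw [baseChangeAlong_rho_apply]
      exact LinearMap.det_baseChange (ρ.ρ σ)
    have e : φ (LinearMap.det (ρ.ρ σ)) - (a : B) = φ (LinearMap.det (ρ.ρ σ) - (a : A)) := by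
      rw [map_sub, map_natCast]
    rw [hdetB, e]
    have h2 := Ideal.mem_map_of_mem φ h1
    rw [Ideal.map_span, Set.image_singleton, map_natCast] at h2
    exact h2

/-- `IsUnramifiedAt` is stable under base change along a local homomorphism. -/
theorem isUnramifiedAt_baseChangeAlong (φ : A →+* B) (hφ : IsLocalHom φ) (ρ : GaloisRepAdic A)
    (q : ℕ) (h : ρ.IsUnramifiedAt q) : (ρ.baseChangeAlong φ hφ).IsUnramifiedAt q := by
  letI : Algebra A B := φ.toAlgebra
  intro P hP σ hσ
  rw [baseChangeAlong_rho_apply, h P hP σ hσ]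
  exact LinearMap.baseChange_one A ρ.V

/-- `IsUnipotentOnInertiaAt` is stable under base change along a local homomorphism. -/
theorem isUnipotentOnInertiaAt_baseChangeAlong (φ : A →+* B) (hφ : IsLocalHom φ)
    (ρ : GaloisRepAdic A) (q : ℕ) (h : ρ.IsUnipotentOnInertiaAt q) :
    (ρ.baseChangeAlong φ hφ).IsUnipotentOnInertiaAt q := by
  letI : Algebra A B := φ.toAlgebra
  intro P hP σ hσ
  refine Eq.trans (LinearMap.charpoly_baseChange (ρ.ρ σ) B) ?_
  rw [h P hP σ hσ, Polynomial.map_pow, Polynomial.map_sub, Polynomial.map_X,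
    Polynomial.map_one]

end

/-- **[COC-BC1]** (statement of `helper56_CocDefs`). -/
theorem bcBasic : Fermat.Agent.P1.helper56.BCBasicStatement := by
  intro A B _ _ _ _ φ hφ ρ
  exact ⟨fun p h => detIsCyclotomic_baseChangeAlong φ hφ ρ p h,
    fun q h => isUnramifiedAt_baseChangeAlong φ hφ ρ q h,
    fun q h => isUnipotentOnInertiaAt_baseChangeAlong φ hφ ρ q h⟩

end Fermat.Agent.P1.helper13
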