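/-
P1 / S56, module FLAT-KR, package [KR-TOT] (helper13, task 541).

In a totally ramified extension `L/K0` of `p`-adic fields with uniformiser `ϖ`, the minimal
polynomial of `ϖ` is Eisenstein of degree `[L : K0]`, and `𝒪_L = 𝒪_K0[ϖ]`:
`krTot : Fermat.Agent.P1.helper14.KRTotStatement p`.
-/
import Fermat.Agent.P1.helper14_KRDefs

set_option autoImplicit false
set_option linter.style.haveILetI false
set_option linter.unusedSectionVars false

namespace Fermat.Agent.P1.helper13

open Fermat.Agent.S55.helper8 Fermat.Agent.S55.helper7 Fermat.Agent.S55.helper33 Polynomial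

variable (p : ℕ) [Fact p.Prime]

section val

variable (L : Type) [Field L] [Algebra ℚ_[p] L] [FiniteDimensional ℚ_[p] L]

/-- The normalised valuation of a `p`-adic field as an `AddValuation`. -/
noncomputable def krVal : AddValuation L (WithTop ℤ) :=
  AddValuation.of (ordT p L) (ordT_zero p L) (ordT_one p L) (ordT_add_ge p L) (ordT_mul p L)

lemma krVal_apply (x : L) : krVal p L x = ordT p L x := rfl

/-- Ultrametric equality for distinct valuations. -/
lemma ordT_add_eq_min {x y : L} (h : ordT p L x ≠ ordT p L y) :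
    ordT p L (x + y) = min (ordT p L x) (ordT p L y) :=
  (krVal p L).map_add_of_distinct_val h

/-- The valuation of a finite sum whose nonzero terms have pairwise distinct valuations is the
minimum of the valuations of the terms. -/
lemma ordT_sum_eq_inf {ι : Type} (s : Finset ι) (f : ι → L)
    (hf : ∀ i ∈ s, ∀ j ∈ s, i ≠ j → ordT p L (f i) = ordT p L (f j) → f i = 0) :
    ordT p L (∑ i ∈ s, f i) = s.inf (fun i => ordT p L (f i)) := by
  classical
  induction s using Finset.induction_on with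
  | empty => simp [ordT_zero]
  | insert a s ha ih =>
    have ih' := ih (fun i hi j hj =>
      hf i (Finset.mem_insert_of_mem hi) j (Finset.mem_insert_of_mem hj))
    rw [Finset.sum_insert ha, Finset.inf_insert]
    by_cases h0 : f a = 0
    · rw [h0, zero_add, ordT_zero, ih', top_inf_eq]
    · have hne : ordT p L (f a) ≠ ordT p L (∑ i ∈ s, f i) := by
        rw [ih']
        intro heq
        have hs : s.Nonempty := by
          by_contra hs
          rw [Finset.not_nonempty_iff_eq_empty] at hs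
          rw [hs, Finset.inf_empty] at heq
          exact h0 ((ordT_eq_top_iff p L).1 heq)
        obtain ⟨j, hj, hj'⟩ := Finset.exists_mem_eq_inf s hs (fun i => ordT p L (f i))
        rw [hj'] at heq
        have haj : a ≠ j := fun h => ha (h ▸ hj)
        exact h0 (hf a (Finset.mem_insert_self a s) j (Finset.mem_insert_of_mem hj) haj heq)
      rw [ordT_add_eq_min p L hne, ih']

end val

section tot

variable (K0 L : Type) [Field K0] [Algebra ℚ_[p] K0] [FiniteDimensional ℚ_[p] K0]
  [Field L] [Algebra ℚ_[p] L] [FiniteDimensional ℚ_[p] L] [Algebra K0 L]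
  [IsScalarTower ℚ_[p] K0 L]

/-- In a totally ramified extension the relative ramification index is the degree. -/
lemma krTot_relE (hf : fdeg p L = fdeg p K0) :
    relE p K0 L = Module.finrank K0 L := by
  haveI : FiniteDimensional K0 L := FiniteDimensional.right ℚ_[p] K0 L
  have h1 := fdeg_eq_relF_mul p K0 L
  have h2 := fdeg_pos p K0
  have h3 : relF p K0 L = 1 := by
    rw [hf] at h1
    exact Nat.eq_of_mul_eq_mul_right h2 (by rw [one_mul]; exact h1.symm)
  have h4 := relE_mul_relF p K0 L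
  rw [h3, mul_one] at h4
  exact h4

lemma krTot_ne_zero (ϖ : L) (hϖ : ordT p L ϖ = 1) : ϖ ≠ 0 := by
  rintro rfl
  rw [ordT_zero] at hϖ
  exact WithTop.top_ne_one hϖ

/-- The valuation of a term `a ϖ^i`. -/
lemma krTot_ordT_term (hf : fdeg p L = fdeg p K0) (ϖ : L) (hϖ : ordT p L ϖ = 1) {a : K0}
    (ha : a ≠ 0) (i : ℕ) :
    ordT p L (algebraMap K0 L a * ϖ ^ i) =
      (((Module.finrank K0 L : ℤ) * ord p K0 (Units.mk0 a ha) + (i : ℤ) : ℤ) : WithTop ℤ) := by
  haveI : FiniteDimensional K0 L := FiniteDimensional.right ℚ_[p] K0 L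
  rw [ordT_mul, ordT_algebraMap_of_ne_zero p K0 L ha, ordT_pow, hϖ, krTot_relE p K0 L hf,
    nsmul_one]
  push_cast
  rfl

/-- KEY LEMMA: the valuation of `∑_{i < e} a_i ϖ^i` is the minimum of the valuations of the
terms. -/
lemma krTot_key (hf : fdeg p L = fdeg p K0) (ϖ : L) (hϖ : ordT p L ϖ = 1) (a : ℕ → K0) :
    ordT p L (∑ i ∈ Finset.range (Module.finrank K0 L), algebraMap K0 L (a i) * ϖ ^ i) =
      (Finset.range (Module.finrank K0 L)).inf
        (fun i => ordT p L (algebraMap K0 L (a i) * ϖ ^ i)) := by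
  apply ordT_sum_eq_inf
  intro i hi j hj hij heq
  by_contra hne
  have hai : a i ≠ 0 := fun h => hne (by rw [h, map_zero, zero_mul])
  have haj : a j ≠ 0 := by
    intro h
    rw [h, map_zero, zero_mul, ordT_zero] at heq
    exact hne ((ordT_eq_top_iff p L).1 heq)
  rw [krTot_ordT_term p K0 L hf ϖ hϖ hai, krTot_ordT_term p K0 L hf ϖ hϖ haj] at heq
  have heq' : (Module.finrank K0 L : ℤ) * ord p K0 (Units.mk0 (a i) hai) + (i : ℤ) =
      (Module.finrank K0 L : ℤ) * ord p K0 (Units.mk0 (a j) haj) + (j : ℤ) :=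
    WithTop.coe_injective heq
  rw [Finset.mem_range] at hi hj
  apply hij
  have hdvd : (Module.finrank K0 L : ℤ) ∣ ((i : ℤ) - j) :=
    ⟨ord p K0 (Units.mk0 (a j) haj) - ord p K0 (Units.mk0 (a i) hai), by linarith⟩
  have habs : |(i : ℤ) - j| < (Module.finrank K0 L : ℤ) := by
    rw [abs_lt]
    constructor <;> omega
  have := Int.eq_zero_of_abs_lt_dvd hdvd habs
  omega

/-- The minimal polynomial of a uniformiser has degree `[L : K0]`. -/
lemma krTot_natDegree (hf : fdeg p L = fdeg p K0) (ϖ : L) (hϖ : ordT p L ϖ = 1) :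
    (minpoly K0 ϖ).natDegree = Module.finrank K0 L := by
  haveI : FiniteDimensional K0 L := FiniteDimensional.right ℚ_[p] K0 L
  have hint : IsIntegral K0 ϖ := IsIntegral.of_finite K0 ϖ
  have hmon := minpoly.monic hint
  refine le_antisymm (minpoly.natDegree_le ϖ) ?_
  by_contra hlt
  rw [not_le] at hlt
  have h0 := minpoly.aeval K0 ϖ
  rw [aeval_eq_sum_range' hlt] at h0
  simp only [Algebra.smul_def] at h0
  have hk := krTot_key p K0 L hf ϖ hϖ (fun i => (minpoly K0 ϖ).coeff i)
  rw [h0, ordT_zero] at hk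
  have h1 := (Finset.inf_eq_top_iff _ _).1 hk.symm (minpoly K0 ϖ).natDegree
    (Finset.mem_range.2 hlt)
  rw [ordT_eq_top_iff, Polynomial.coeff_natDegree, hmon.leadingCoeff, map_one, one_mul] at h1
  exact pow_ne_zero _ (krTot_ne_zero p L ϖ hϖ) h1

/-- (a) The minimal polynomial of a uniformiser is Eisenstein. -/
lemma krTot_coeff (hf : fdeg p L = fdeg p K0) (ϖ : L) (hϖ : ordT p L ϖ = 1) :
    (∀ i, i < (minpoly K0 ϖ).natDegree → 0 < ordT p K0 ((minpoly K0 ϖ).coeff i)) ∧
      ordT p K0 ((minpoly K0 ϖ).coeff 0) = 1 := by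
  haveI : FiniteDimensional K0 L := FiniteDimensional.right ℚ_[p] K0 L
  have hint : IsIntegral K0 ϖ := IsIntegral.of_finite K0 ϖ
  have hmon := minpoly.monic hint
  have hd := krTot_natDegree p K0 L hf ϖ hϖ
  have hepos : 0 < Module.finrank K0 L := Module.finrank_pos
  have hepos' : (0 : ℤ) < (Module.finrank K0 L : ℤ) := by exact_mod_cast hepos
  -- the relation `∑_{i < e} c_i ϖ^i = - ϖ^e`
  have h0 := minpoly.aeval K0 ϖ
  rw [aeval_eq_sum_range, hd, Finset.sum_range_succ] at h0
  have hlead : (minpoly K0 ϖ).coeff (Module.finrank K0 L) = 1 := by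
    rw [← hd]
    exact hmon.coeff_natDegree
  rw [hlead, one_smul] at h0
  simp only [Algebra.smul_def] at h0
  have hS : ∑ i ∈ Finset.range (Module.finrank K0 L),
      algebraMap K0 L ((minpoly K0 ϖ).coeff i) * ϖ ^ i = - ϖ ^ (Module.finrank K0 L) :=
    eq_neg_of_add_eq_zero_left h0
  have hk := krTot_key p K0 L hf ϖ hϖ (fun i => (minpoly K0 ϖ).coeff i)
  rw [hS, ordT_neg, ordT_pow, hϖ, nsmul_one] at hk
  -- every term has valuation `≥ e`
  have hterm : ∀ i, i < Module.finrank K0 L → ∀ hc : (minpoly K0 ϖ).coeff i ≠ 0,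
      (Module.finrank K0 L : ℤ) ≤
        (Module.finrank K0 L : ℤ) * ord p K0 (Units.mk0 _ hc) + (i : ℤ) := by
    intro i hi hc
    have h1 : ((Module.finrank K0 L : ℕ) : WithTop ℤ) ≤
        ordT p L (algebraMap K0 L ((minpoly K0 ϖ).coeff i) * ϖ ^ i) := by
      rw [hk]
      exact Finset.inf_le (f := fun i => ordT p L (algebraMap K0 L ((minpoly K0 ϖ).coeff i) *
        ϖ ^ i)) (Finset.mem_range.2 hi)
    rw [krTot_ordT_term p K0 L hf ϖ hϖ hc] at h1
    exact_mod_cast h1
  refine ⟨fun i hi => ?_, ?_⟩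
  · rw [hd] at hi
    by_cases hc : (minpoly K0 ϖ).coeff i = 0
    · rw [hc, ordT_zero]
      exact WithTop.coe_lt_top 0
    · rw [ordT_of_ne_zero p K0 hc]
      have h1 := hterm i hi hc
      have h2 : 0 < ord p K0 (Units.mk0 _ hc) := by
        by_contra hle
        rw [not_lt] at hle
        have h3 : (Module.finrank K0 L : ℤ) * ord p K0 (Units.mk0 _ hc) ≤ 0 :=
          mul_nonpos_of_nonneg_of_nonpos hepos'.le hle
        omega
      exact_mod_cast h2
  · obtain ⟨i, hi, hi'⟩ := Finset.exists_mem_eq_inf (Finset.range (Module.finrank K0 L))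
      ⟨0, Finset.mem_range.2 hepos⟩
      (fun i => ordT p L (algebraMap K0 L ((minpoly K0 ϖ).coeff i) * ϖ ^ i))
    rw [← hk] at hi'
    rw [Finset.mem_range] at hi
    have hc : (minpoly K0 ϖ).coeff i ≠ 0 := by
      intro hc
      rw [hc, map_zero, zero_mul, ordT_zero] at hi'
      exact WithTop.natCast_ne_top _ hi'
    rw [krTot_ordT_term p K0 L hf ϖ hϖ hc] at hi'
    have hi'' : (Module.finrank K0 L : ℤ) =
        (Module.finrank K0 L : ℤ) * ord p K0 (Units.mk0 _ hc) + (i : ℤ) := by
      exact_mod_cast hi'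
    have hdvd : (Module.finrank K0 L : ℤ) ∣ (i : ℤ) :=
      ⟨1 - ord p K0 (Units.mk0 _ hc), by linarith⟩
    have habs : |(i : ℤ)| < (Module.finrank K0 L : ℤ) := by
      rw [abs_lt]
      constructor <;> omega
    have hi0 : (i : ℤ) = 0 := Int.eq_zero_of_abs_lt_dvd hdvd habs
    have hi0' : i = 0 := by exact_mod_cast hi0
    subst hi0'
    rw [ordT_of_ne_zero p K0 hc]
    have h1 : (Module.finrank K0 L : ℤ) * ord p K0 (Units.mk0 _ hc) =
        (Module.finrank K0 L : ℤ) * 1 := by
      rw [mul_one]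
      simpa using hi''.symm
    have h2 := mul_left_cancel₀ hepos'.ne' h1
    rw [h2]
    rfl

/-- (b) `𝒪_L = 𝒪_K0[ϖ]`. -/
lemma krTot_integral (hf : fdeg p L = fdeg p K0) (ϖ : L) (hϖ : ordT p L ϖ = 1) (x : L)
    (hx : 0 ≤ ordT p L x) :
    ∃ g : K0[X], (∀ i, 0 ≤ ordT p K0 (g.coeff i)) ∧ aeval ϖ g = x := by
  haveI : FiniteDimensional K0 L := FiniteDimensional.right ℚ_[p] K0 L
  have hint : IsIntegral K0 ϖ := IsIntegral.of_finite K0 ϖ
  have hmon := minpoly.monic hint
  have hd := krTot_natDegree p K0 L hf ϖ hϖ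
  have hepos : 0 < Module.finrank K0 L := Module.finrank_pos
  have hepos' : (0 : ℤ) < (Module.finrank K0 L : ℤ) := by exact_mod_cast hepos
  have htop : IntermediateField.adjoin K0 {ϖ} = ⊤ :=
    (Field.primitive_element_iff_minpoly_natDegree_eq K0 ϖ).2 hd
  have hxmem : x ∈ (IntermediateField.adjoin K0 {ϖ}).toSubalgebra := by
    rw [htop]
    exact Algebra.mem_top
  rw [IntermediateField.adjoin_simple_toSubalgebra_of_isAlgebraic hint.isAlgebraic,
    Algebra.adjoin_singleton_eq_range_aeval] at hxmem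
  obtain ⟨g, hg⟩ := hxmem
  have hroot : aeval ϖ (g %ₘ minpoly K0 ϖ) = x := by
    rw [aeval_modByMonic_eq_self_of_root (minpoly.aeval K0 ϖ)]
    exact hg
  refine ⟨g %ₘ minpoly K0 ϖ, ?_, hroot⟩
  have hr : (g %ₘ minpoly K0 ϖ).natDegree < Module.finrank K0 L := by
    rw [← hd]
    exact natDegree_modByMonic_lt g hmon (minpoly.ne_one K0 ϖ)
  rw [← hroot, aeval_eq_sum_range' hr] at hx
  simp only [Algebra.smul_def] at hx
  rw [krTot_key p K0 L hf ϖ hϖ (fun i => (g %ₘ minpoly K0 ϖ).coeff i)] at hx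
  intro i
  by_cases hi : i < Module.finrank K0 L
  · by_cases hc : (g %ₘ minpoly K0 ϖ).coeff i = 0
    · rw [hc, ordT_zero]
      exact le_top
    · have h1 := (Finset.le_inf_iff.1 hx) i (Finset.mem_range.2 hi)
      rw [krTot_ordT_term p K0 L hf ϖ hϖ hc] at h1
      have h1' : (0 : ℤ) ≤
          (Module.finrank K0 L : ℤ) * ord p K0 (Units.mk0 _ hc) + (i : ℤ) := by
        exact_mod_cast h1
      rw [ordT_of_ne_zero p K0 hc]
      have h2 : 0 ≤ ord p K0 (Units.mk0 _ hc) := by
        by_contra hlt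
        rw [not_le] at hlt
        have h3 : (Module.finrank K0 L : ℤ) * ord p K0 (Units.mk0 _ hc) ≤
            (Module.finrank K0 L : ℤ) * (-1) :=
          mul_le_mul_of_nonneg_left (by omega) hepos'.le
        omega
      exact_mod_cast h2
  · rw [coeff_eq_zero_of_natDegree_lt (by omega), ordT_zero]
    exact le_top

end tot

/-- **[KR-TOT]** (statement of `helper14_KRDefs`). -/
theorem krTot : Fermat.Agent.P1.helper14.KRTotStatement p := by
  intro K0 L _ _ _ _ _ _ _ _ hf ϖ hϖ
  exact ⟨⟨krTot_natDegree p K0 L hf ϖ hϖ, krTot_coeff p K0 L hf ϖ hϖ⟩,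
    fun x hx => krTot_integral p K0 L hf ϖ hϖ x hx⟩

end Fermat.Agent.P1.helper13
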