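import Mathlib
import Fermat.Agent.P1.helper14_KRTools

/-!
# P1 / FLAT-KR (helper14): assembly of the converse Krasner inequality `(F3)`

`converseKrasner_of : KRCoreStatement → KREisStatement p → KRTotStatement p → KREtaStatement p →
  KRInertStatement p → ConverseKrasner p`.
-/

set_option autoImplicit false
set_option linter.style.haveILetI false
set_option linter.unusedSectionVars false

namespace Fermat.Agent.P1.helper14

open Fermat.Agent.S55.helper8 Fermat.Agent.S55.helper7 Fermat.Agent.S55.helper33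
open Polynomial

variable (p : ℕ) [Fact p.Prime]

section basics

variable (L : Type) [Field L] [Algebra ℚ_[p] L] [FiniteDimensional ℚ_[p] L]

lemma ordT_add_eq_of_lt' {x y : L} (h : ordT p L x < ordT p L y) :
    ordT p L (x + y) = ordT p L x := by
  apply le_antisymm
  · by_contra hlt
    rw [not_le] at hlt
    have h1 : min (ordT p L (x + y)) (ordT p L (-y)) ≤ ordT p L ((x + y) + -y) :=
      Fermat.Agent.S55.helper7.ordT_add_ge p L _ _
    rw [add_neg_cancel_right, Fermat.Agent.S55.helper7.ordT_neg] at h1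
    have h2 : ordT p L x < min (ordT p L (x + y)) (ordT p L y) := lt_min hlt h
    exact absurd h1 (not_le.mpr h2)
  · have := Fermat.Agent.S55.helper7.ordT_add_ge p L x y
    rwa [min_eq_left h.le] at this

lemma ordT_apply_sub_apply (ϖ : L) (s t : L ≃ₐ[ℚ_[p]] L) :
    ordT p L (s ϖ - t ϖ) = ordT p L ((t⁻¹ * s) ϖ - ϖ) := by
  have h : (t⁻¹ * s) ϖ - ϖ = t⁻¹ (s ϖ - t ϖ) := by
    have h1 : t⁻¹ (t ϖ) = ϖ := by
      change t.symm (t ϖ) = ϖ
      simp
    rw [map_sub, h1]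
    rfl
  rw [h, ordT_algEquiv]

lemma ordT_natCast_pow (a : ℕ) :
    ordT p L ((p : L) ^ a) = (((a * edeg p L : ℕ) : ℤ) : WithTop ℤ) := by
  rw [Fermat.Agent.S55.helper7.ordT_pow, Fermat.Agent.S55.helper7.ordT_q]
  rw [← WithTop.coe_nsmul, nsmul_eq_mul]
  push_cast
  rfl

end basics


section inertia

variable (L : Type) [Field L] [Algebra ℚ_[p] L] [FiniteDimensional ℚ_[p] L] [IsGalois ℚ_[p] L]

/-- For `s` in the inertia group, `s ϖ ≠ ϖ`: the valuation `ordT (s ϖ - ϖ)` is the positive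
integer `iNat s`. -/
lemma ordT_eq_iNat {ϖ : L} (hϖ : ordT p L ϖ = 1) {s : L ≃ₐ[ℚ_[p]] L} (hs : s ∈ inertia p L)
    (hne : s ϖ ≠ ϖ) :
    ordT p L (s ϖ - ϖ) = (((iNat p L ϖ s : ℕ) : ℤ) : WithTop ℤ) ∧ 1 ≤ iNat p L ϖ s := by
  have hpos : 0 < ordT p L (s ϖ - ϖ) := hs ϖ (by rw [hϖ]; exact zero_le_one)
  have hne' : s ϖ - ϖ ≠ 0 := sub_ne_zero.mpr hne
  obtain ⟨k, hk⟩ : ∃ k : ℤ, ordT p L (s ϖ - ϖ) = ((k : ℤ) : WithTop ℤ) :=
    ⟨_, Fermat.Agent.S55.helper7.ordT_of_ne_zero p L hne'⟩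
  have hk0 : 0 < k := by
    rw [hk] at hpos
    exact_mod_cast hpos
  have hi : iNat p L ϖ s = k.toNat := by
    unfold iNat
    rw [hk]
    rfl
  constructor
  · rw [hk, hi, Int.toNat_of_nonneg hk0.le]
  · rw [hi]
    omega

end inertia

/-- **(F3) converse Krasner inequality**, assembled from the five KR packages. -/
theorem converseKrasner_of (hCore : KRCoreStatement) (hEis : KREisStatement p)
    (hTot : KRTotStatement p) (hEta : KREtaStatement p) (hInert : KRInertStatement p) :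
    ConverseKrasner p := by
  intro L _ _ _ _ hEmb ϖ hϖ s₀ hs₀ hs₀1
  classical
  obtain ⟨K0, hK0e, hK0f, hK0gal, hK0I⟩ := hInert L
  obtain ⟨⟨hdeg, hpos, hconst⟩, hgen⟩ := hTot K0 L hK0f ϖ hϖ
  have hp2 : 2 ≤ p := (Fact.out : p.Prime).two_le
  -- degrees
  have hfK0pos : 0 < fdeg p K0 := Fermat.Agent.S55.helper33.fdeg_pos p K0
  have hrelF : relF p K0 L = 1 := by
    have h := fdeg_eq_relF_mul p K0 L
    rw [hK0f] at h
    have h2 : 1 * fdeg p K0 = relF p K0 L * fdeg p K0 := by rw [one_mul]; exact h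
    exact (Nat.eq_of_mul_eq_mul_right hfK0pos h2).symm
  have hrelE : relE p K0 L = edeg p L := by
    have h := edeg_eq_relE_mul p K0 L
    rw [hK0e, mul_one] at h
    exact h.symm
  have hfin : Module.finrank K0 L = edeg p L := by
    rw [← relE_mul_relF p K0 L, hrelF, mul_one, hrelE]
  have hepos : 0 < edeg p L := Fermat.Agent.S55.helper33.edeg_pos p L
  obtain ⟨e, he⟩ : ∃ e : ℕ, edeg p L = e := ⟨_, rfl⟩
  rw [he] at hfin hepos hrelE ⊢
  -- the inertia group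
  set I := inertia p L with hI
  haveI : Fintype I := Fintype.ofFinite _
  have hinj := apply_injective_of_natDegree K0 I hK0I ϖ hdeg
  have hne : ∀ s : L ≃ₐ[ℚ_[p]] L, s ∈ I → s ≠ 1 → s ϖ ≠ ϖ := by
    intro s hs hs1 h
    apply hs1
    have := @hinj ⟨s, hs⟩ 1 (by simpa using h)
    exact congrArg Subtype.val this
  have hi : ∀ s : L ≃ₐ[ℚ_[p]] L, s ∈ I → s ≠ 1 →
      ordT p L (s ϖ - ϖ) = (((iNat p L ϖ s : ℕ) : ℤ) : WithTop ℤ) ∧ 1 ≤ iNat p L ϖ s :=
    fun s hs hs1 => ordT_eq_iNat p L hϖ hs (hne s hs hs1)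
  -- the finite set `I \ 1`
  set S : Finset (L ≃ₐ[ℚ_[p]] L) := Finset.univ.filter (fun s => s ∈ I ∧ s ≠ 1) with hS
  have hSset : {s : L ≃ₐ[ℚ_[p]] L | s ∈ inertia p L ∧ s ≠ 1} = (S : Set (L ≃ₐ[ℚ_[p]] L)) := by
    ext s
    simp [hS, hI]
  rw [hSset, finsum_mem_coe_finset]
  have hs₀S : s₀ ∈ S := by
    rw [hS, Finset.mem_filter]
    exact ⟨Finset.mem_univ _, hs₀, hs₀1⟩
  obtain ⟨sm, hsmS, hsmax⟩ := Finset.exists_max_image S (iNat p L ϖ) ⟨s₀, hs₀S⟩
  have hsmI : sm ∈ I ∧ sm ≠ 1 := by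
    rw [hS, Finset.mem_filter] at hsmS
    exact hsmS.2
  obtain ⟨xmax, hxmax⟩ : ∃ x : ℕ, iNat p L ϖ sm = x := ⟨_, rfl⟩
  obtain ⟨D, hD⟩ : ∃ D : ℕ, ∑ s ∈ S, iNat p L ϖ s = D := ⟨_, rfl⟩
  rw [hD]
  have hxmax1 : 1 ≤ xmax := hxmax ▸ (hi sm hsmI.1 hsmI.2).2
  -- reduce to the maximal element
  suffices hmain : (p - 1) * (xmax + D) ≤ e * p + (p - 1) by
    refine le_trans ?_ hmain
    exact Nat.mul_le_mul_left _ (Nat.add_le_add_right (hxmax ▸ hsmax s₀ hs₀S) _)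
  by_contra hcon
  rw [not_le] at hcon
  -- the integer `N = xmax + D - 1`
  obtain ⟨N, hN⟩ : ∃ N : ℕ, xmax + D = N + 1 := ⟨xmax + D - 1, by omega⟩
  have hNlt : e * p < N * (p - 1) := by
    rw [hN, Nat.mul_add, mul_one] at hcon
    have : e * p < (p - 1) * N := by omega
    rwa [mul_comm (p - 1) N] at this
  obtain ⟨a, j, hNaj, hje⟩ : ∃ a j : ℕ, e * a + j = N ∧ j < e :=
    ⟨N / e, N % e, Nat.div_add_mod N e, Nat.mod_lt N hepos⟩
  have hpp : e * (p - 1) ≤ e * p := Nat.mul_le_mul_left _ (by omega)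
  have ha1 : 1 ≤ a := by
    by_contra h
    have ha0 : a = 0 := by omega
    rw [ha0, mul_zero, zero_add] at hNaj
    have h1 : N * (p - 1) < e * (p - 1) :=
      Nat.mul_lt_mul_of_pos_right (by omega) (by omega)
    omega
  have ha2 : j = 0 → 2 ≤ a := by
    intro hj0
    by_contra h
    have ha1' : a = 1 := by omega
    rw [ha1', hj0, mul_one, add_zero] at hNaj
    rw [← hNaj] at hNlt
    omega
  -- the perturbed Eisenstein polynomial
  set F0 : Polynomial K0 := minpoly K0 ϖ with hF0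
  have hF0monic : F0.Monic := minpoly.monic (IsIntegral.of_finite K0 ϖ)
  have hF0deg : F0.natDegree = e := by rw [hF0, hdeg, hfin]
  set Q : Polynomial K0 := C ((p : K0) ^ a) * X ^ j with hQ
  have hQdeg : Q.natDegree < F0.natDegree := by
    rw [hF0deg]
    exact lt_of_le_of_lt (natDegree_C_mul_X_pow_le _ _) hje
  have hQdeg' : Q.degree < F0.degree := by
    rw [Polynomial.degree_eq_natDegree hF0monic.ne_zero]
    exact lt_of_le_of_lt Polynomial.degree_le_natDegree (by exact_mod_cast hQdeg)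
  have hF'monic : (F0 + Q).Monic := hF0monic.add_of_left hQdeg'
  have hF'deg : (F0 + Q).natDegree = e := by
    rw [Polynomial.natDegree_add_eq_left_of_natDegree_lt hQdeg, hF0deg]
  have hordpa : ordT p K0 ((p : K0) ^ a) = (((a : ℕ) : ℤ) : WithTop ℤ) := by
    rw [ordT_natCast_pow, hK0e, mul_one]
  have hQcoeff : ∀ i, Q.coeff i = if i = j then (p : K0) ^ a else 0 := by
    intro i
    rw [hQ, Polynomial.coeff_C_mul_X_pow]
  have hF'pos : ∀ i, i < (F0 + Q).natDegree → 0 < ordT p K0 ((F0 + Q).coeff i) := by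
    intro i hi'
    rw [hF'deg, ← hF0deg] at hi'
    rw [Polynomial.coeff_add, hQcoeff]
    split_ifs with hij
    · refine Fermat.Agent.S55.helper7.ordT_add_pos p K0 (hpos i hi') ?_
      rw [hordpa]
      exact_mod_cast ha1
    · rw [add_zero]
      exact hpos i hi'
  have hF'const : ordT p K0 ((F0 + Q).coeff 0) = 1 := by
    rw [Polynomial.coeff_add, hQcoeff]
    split_ifs with hij
    · rw [ordT_add_eq_of_lt' p K0, hconst]
      rw [hconst, hordpa]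
      have := ha2 hij.symm
      exact_mod_cast (by omega : (1 : ℤ) < (a : ℤ))
    · rw [add_zero]
      exact hconst
  obtain ⟨E, iF, iA, iFD, iAK, iST, ϖ', hroot, hϖ', hEe, hEf⟩ :=
    hEis K0 (F0 + Q) hF'monic (by rw [hF'deg]; exact hepos) hF'pos hF'const
  rw [hF'deg, hK0e, mul_one] at hEe
  -- the value `F0(ϖ')`
  have hval : aeval ϖ' F0 = -((p : E) ^ a * ϖ' ^ j) := by
    have h1 : aeval ϖ' F0 + aeval ϖ' Q = 0 := by rw [← map_add]; exact hroot
    have h2 : aeval ϖ' Q = (p : E) ^ a * ϖ' ^ j := by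
      rw [hQ]
      simp
    rw [h2] at h1
    exact eq_neg_of_add_eq_zero_left h1
  have hordval : ordT p E (aeval ϖ' F0) = (((N : ℕ) : ℤ) : WithTop ℤ) := by
    rw [hval, Fermat.Agent.S55.helper7.ordT_neg, Fermat.Agent.S55.helper7.ordT_mul,
      ordT_natCast_pow, Fermat.Agent.S55.helper7.ordT_pow, hϖ', hEe, ← hNaj]
    rw [nsmul_one]
    push_cast
    rw [mul_comm]
  -- the ring homomorphism and the embedding
  have hη := hEta K0 L E hK0f ϖ hϖ ϖ' N (by rw [hϖ']; exact zero_le_one) (le_of_eq hordval.symm)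
  obtain ⟨φ⟩ := hEmb E N (by rw [hEe]; exact hNlt) hη
  have hfinLE : Module.finrank ℚ_[p] L = Module.finrank ℚ_[p] E := by
    rw [← Fermat.Agent.S55.helper33.edeg_mul_fdeg p L, ← Fermat.Agent.S55.helper33.edeg_mul_fdeg p E,
      he, hEe, hEf, hK0f]
  have hφinj : Function.Injective φ := φ.toRingHom.injective
  have hφsurj : Function.Surjective φ :=
    (LinearMap.injective_iff_surjective_of_finrank_eq_finrank (f := φ.toLinearMap) hfinLE).mp hφinj
  set Ψ0 : L ≃ₐ[ℚ_[p]] E := AlgEquiv.ofBijective φ ⟨hφinj, hφsurj⟩ with hΨ0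
  -- make the isomorphism `K0`-linear
  set ψ : K0 →ₐ[ℚ_[p]] L :=
    (Ψ0.symm : E →ₐ[ℚ_[p]] L).comp (IsScalarTower.toAlgHom ℚ_[p] K0 E) with hψ
  set τ : L →ₐ[ℚ_[p]] L := ψ.liftNormal L with hτ
  have hτc : ∀ x : K0, τ (algebraMap K0 L x) = ψ x := fun x => ψ.liftNormal_commutes L x
  have hτbij : Function.Bijective τ := AlgHom.normal_bijective ℚ_[p] L L τ
  set τ' : L ≃ₐ[ℚ_[p]] L := AlgEquiv.ofBijective τ hτbij with hτ'
  set Ψ : L ≃ₐ[ℚ_[p]] E := τ'.trans Ψ0 with hΨ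
  have hΨc : ∀ x : K0, Ψ (algebraMap K0 L x) = algebraMap K0 E x := by
    intro x
    change Ψ0 (τ (algebraMap K0 L x)) = algebraMap K0 E x
    rw [hτc x]
    change Ψ0 (Ψ0.symm (algebraMap K0 E x)) = algebraMap K0 E x
    simp
  set ΨK : L ≃ₐ[K0] E := AlgEquiv.ofRingEquiv (f := Ψ.toRingEquiv) hΨc with hΨK
  set z : L := Ψ.symm ϖ' with hz
  have hzval : aeval z F0 = Ψ.symm (aeval ϖ' F0) := by
    have h1 := Polynomial.aeval_algHom_apply (ΨK.symm : E →ₐ[K0] L) ϖ' F0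
    exact h1
  have hordz : ordT p L (aeval z F0) = (((N : ℕ) : ℤ) : WithTop ℤ) := by
    rw [hzval, ordT_equiv p Ψ.symm, hordval]
  -- the product formula
  have hprod := aeval_minpoly_eq_prod K0 I hK0I ϖ hdeg z
  have hsum : ∑ s : I, ordT p L (z - (s : L ≃ₐ[ℚ_[p]] L) ϖ) = (((N : ℕ) : ℤ) : WithTop ℤ) := by
    rw [← ordT_finset_prod, ← hprod]
    exact hordz
  -- values of `ordT (s ϖ - t ϖ)`
  have hst : ∀ s t : I, s ≠ t →
      ordT p L ((s : L ≃ₐ[ℚ_[p]] L) ϖ - (t : L ≃ₐ[ℚ_[p]] L) ϖ) =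
        (((iNat p L ϖ ((t : L ≃ₐ[ℚ_[p]] L)⁻¹ * (s : L ≃ₐ[ℚ_[p]] L)) : ℕ) : ℤ) : WithTop ℤ) ∧
      ((t : L ≃ₐ[ℚ_[p]] L)⁻¹ * (s : L ≃ₐ[ℚ_[p]] L)) ∈ S := by
    intro s t hst
    have hu : ((t : L ≃ₐ[ℚ_[p]] L)⁻¹ * (s : L ≃ₐ[ℚ_[p]] L)) ∈ I :=
      I.mul_mem (I.inv_mem t.2) s.2
    have hu1 : ((t : L ≃ₐ[ℚ_[p]] L)⁻¹ * (s : L ≃ₐ[ℚ_[p]] L)) ≠ 1 := by
      intro h
      apply hst
      apply Subtype.ext
      have := inv_mul_eq_one.mp h
      exact this.symm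
    refine ⟨?_, ?_⟩
    · rw [ordT_apply_sub_apply]
      exact (hi _ hu hu1).1
    · rw [hS, Finset.mem_filter]
      exact ⟨Finset.mem_univ _, hu, hu1⟩
  refine hCore L (ordT p L) (fun x => Fermat.Agent.S55.helper7.ordT_eq_top_iff p L)
    (Fermat.Agent.S55.helper7.ordT_add_ge p L) (Fermat.Agent.S55.helper7.ordT_neg p L) I
    (fun s => (s : L ≃ₐ[ℚ_[p]] L) ϖ) (xmax : ℤ) (D : ℤ) ?_ ?_ ?_ z ?_
  · intro s t hne'
    rw [(hst s t hne').1]
    have := hsmax _ (hst s t hne').2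
    rw [hxmax] at this
    exact_mod_cast this
  · intro s
    refine ⟨⟨(s : L ≃ₐ[ℚ_[p]] L) * sm⁻¹, I.mul_mem s.2 (I.inv_mem hsmI.1)⟩, ?_, ?_⟩
    · intro h
      apply hsmI.2
      have h1 : (s : L ≃ₐ[ℚ_[p]] L) * sm⁻¹ = s := congrArg Subtype.val h
      have h2 : sm⁻¹ = 1 := by
        have := mul_left_cancel (a := (s : L ≃ₐ[ℚ_[p]] L)) (b := sm⁻¹) (c := 1) (by rw [mul_one]; exact h1)
        exact this
      exact inv_eq_one.mp h2
    · change ordT p L ((s : L ≃ₐ[ℚ_[p]] L) ϖ - ((s : L ≃ₐ[ℚ_[p]] L) * sm⁻¹) ϖ) = _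
      rw [ordT_apply_sub_apply]
      have h1 : ((s : L ≃ₐ[ℚ_[p]] L) * sm⁻¹)⁻¹ * (s : L ≃ₐ[ℚ_[p]] L) = sm := by group
      rw [h1, (hi sm hsmI.1 hsmI.2).1, hxmax]
  · intro s
    have h1 : ∑ t ∈ Finset.univ.filter (fun t : I => t ≠ s),
        ordT p L ((s : L ≃ₐ[ℚ_[p]] L) ϖ - (t : L ≃ₐ[ℚ_[p]] L) ϖ) =
        ∑ u ∈ S, (((iNat p L ϖ u : ℕ) : ℤ) : WithTop ℤ) := by
      refine Finset.sum_bij (fun t _ => (t : L ≃ₐ[ℚ_[p]] L)⁻¹ * (s : L ≃ₐ[ℚ_[p]] L)) ?_ ?_ ?_ ?_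
      · intro t ht
        rw [Finset.mem_filter] at ht
        exact (hst s t (Ne.symm ht.2)).2
      · intro t₁ _ t₂ _ h
        apply Subtype.ext
        have := mul_right_cancel h
        exact inv_injective this
      · intro u hu
        rw [hS, Finset.mem_filter] at hu
        refine ⟨⟨(s : L ≃ₐ[ℚ_[p]] L) * u⁻¹, I.mul_mem s.2 (I.inv_mem hu.2.1)⟩, ?_, ?_⟩
        · rw [Finset.mem_filter]
          refine ⟨Finset.mem_univ _, ?_⟩
          intro h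
          apply hu.2.2
          have h1 : (s : L ≃ₐ[ℚ_[p]] L) * u⁻¹ = s := congrArg Subtype.val h
          have h2 : u⁻¹ = 1 :=
            mul_left_cancel (a := (s : L ≃ₐ[ℚ_[p]] L)) (b := u⁻¹) (c := 1) (by rw [mul_one]; exact h1)
          exact inv_eq_one.mp h2
        · change ((s : L ≃ₐ[ℚ_[p]] L) * u⁻¹)⁻¹ * (s : L ≃ₐ[ℚ_[p]] L) = u
          group
      · intro t ht
        rw [Finset.mem_filter] at ht
        exact (hst s t (Ne.symm ht.2)).1
    rw [h1, ← hD]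
    push_cast
    rfl
  · rw [hsum]
    have : ((N : ℕ) : ℤ) = (xmax : ℤ) + (D : ℤ) - 1 := by
      have := hN
      omega
    rw [this]

end Fermat.Agent.P1.helper14
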