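import Mathlib
import Fermat.Agent.S55.helper7_LocUnram

/-!
# P1 / FLAT-HOPF (helper47): interface definitions

Vocabulary = S55 LOC: a `p`-adic field is `(F : Type) [Field F] [Algebra ℚ_[p] F]
[FiniteDimensional ℚ_[p] F]`, with normalised valuation `ordT p F : F → WithTop ℤ`,
valuation ring `Oq p F` and absolute ramification index `edeg p F`.

* `valIdeal p F N` : the ideal `{x ∈ 𝒪_F | N ≤ ord x}` of `Oq p F`;
* `EmbProperty p L` : Fontaine's embedding property of the `p`-adic field `L`
  (the interface between FLAT-HOPF, which proves it for the field generated by the points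
  of a finite flat group scheme killed by `p`, and FLAT-KR, which turns it into a bound on the
  ramification of `L`): for every `p`-adic field `E'` and every `N` with
  `N / e(E') > p / (p - 1)`, a ring homomorphism `𝒪_L → 𝒪_E' / {ord ≥ N}` forces a
  `ℚ_p`-embedding `L → E'`.
-/

set_option autoImplicit false

namespace Fermat.Agent.P1.helper47

open Fermat.Agent.S55.helper8 Fermat.Agent.S55.helper7

variable (p : ℕ) [Fact p.Prime]

/-- The ideal `{x ∈ 𝒪_F | N ≤ ord x}` of the valuation ring of a `p`-adic field. -/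
def valIdeal (F : Type) [Field F] [Algebra ℚ_[p] F] [FiniteDimensional ℚ_[p] F] (N : ℕ) :
    Ideal (Oq p F) where
  carrier := {x | (N : WithTop ℤ) ≤ ordT p F (x : F)}
  add_mem' := by
    intro a b ha hb
    exact le_trans (le_min ha hb) (ordT_add_ge p F (a : F) (b : F))
  zero_mem' := by
    change (N : WithTop ℤ) ≤ ordT p F ((0 : Oq p F) : F)
    rw [ZeroMemClass.coe_zero, ordT_zero]
    exact le_top
  smul_mem' := by
    intro c x hx
    change (N : WithTop ℤ) ≤ ordT p F ((c : F) * (x : F))
    rw [ordT_mul]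
    exact le_trans hx (le_add_of_nonneg_left c.2)

lemma mem_valIdeal {F : Type} [Field F] [Algebra ℚ_[p] F] [FiniteDimensional ℚ_[p] F] {N : ℕ}
    {x : Oq p F} : x ∈ valIdeal p F N ↔ (N : WithTop ℤ) ≤ ordT p F (x : F) := Iff.rfl

/-- **Fontaine's embedding property** of a `p`-adic field `L`: for every `p`-adic field `E'`
and every `N : ℕ` with `e(E') * p < N * (p - 1)` (i.e. `m := N / e(E') > p / (p - 1)`), the
existence of a ring homomorphism `𝒪_L → 𝒪_E' / {x | N ≤ ord x}` implies the existence of a
`ℚ_p`-algebra embedding `L → E'`. -/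
def EmbProperty (L : Type) [Field L] [Algebra ℚ_[p] L] [FiniteDimensional ℚ_[p] L] : Prop :=
  ∀ (E' : Type) [Field E'] [Algebra ℚ_[p] E'] [FiniteDimensional ℚ_[p] E'] (N : ℕ),
    edeg p E' * p < N * (p - 1) →
    (Oq p L →+* Oq p E' ⧸ valIdeal p E' N) → Nonempty (L →ₐ[ℚ_[p]] E')

end Fermat.Agent.P1.helper47
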