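import Mathlib
import Fermat.Agent.P1.helper14_KRDefs
import Fermat.Agent.P1.helper47_FlatDefs

/-!
# P1 / FLAT-KR (helper14): bridge between the two forms of `EmbProperty`

`helper47.EmbProperty` (interface of FLAT-HOPF) and `helper14.EmbProperty` (interface of
FLAT-KR+KUM) are equivalent: the ideals `valIdeal` and `ballIdeal` coincide.
-/

set_option autoImplicit false

namespace Fermat.Agent.P1.helper14

open Fermat.Agent.S55.helper8 Fermat.Agent.S55.helper7

variable (p : ℕ) [Fact p.Prime]

lemma valIdeal_eq_ballIdeal (F : Type) [Field F] [Algebra ℚ_[p] F] [FiniteDimensional ℚ_[p] F]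
    (N : ℕ) : Fermat.Agent.P1.helper47.valIdeal p F N = ballIdeal p F N := by
  ext x
  rw [Fermat.Agent.P1.helper47.mem_valIdeal, mem_ballIdeal]
  have : ((N : ℕ) : WithTop ℤ) = (((N : ℕ) : ℤ) : WithTop ℤ) := by norm_cast
  rw [this]

variable (L : Type) [Field L] [Algebra ℚ_[p] L] [FiniteDimensional ℚ_[p] L]

theorem embProperty_of_helper47 (h : Fermat.Agent.P1.helper47.EmbProperty p L) :
    EmbProperty p L := by
  intro E _ _ _ N hN ⟨η⟩
  refine h E N hN ?_
  exact (Ideal.quotEquivOfEq (valIdeal_eq_ballIdeal p E N).symm : _ →+* _).comp η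

theorem helper47_embProperty_of (h : EmbProperty p L) :
    Fermat.Agent.P1.helper47.EmbProperty p L := by
  intro E _ _ _ N hN η
  refine h E N hN ⟨?_⟩
  exact (Ideal.quotEquivOfEq (valIdeal_eq_ballIdeal p E N) : _ →+* _).comp η

end Fermat.Agent.P1.helper14
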