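import Fermat.Agent.P1.helper14_KRDefs

/-!
# P1 / FLAT-KR (helper50): KR-CORE, pure valuation combinatorics

`krCore : KRCoreStatement` : for a finite family `c` in a valued field whose pairwise distances
are at most `xmax`, each point having a neighbour at distance exactly `xmax` and all points having
the same total distance `D` to the others, no `y` has total distance `xmax + D - 1` to the family.
-/

set_option autoImplicit false

namespace Fermat.Agent.P1.helper50

open Fermat.Agent.P1.helper14

/-- the integer form of KR-CORE -/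
theorem krCore_int {ι : Type} [Fintype ι] [DecidableEq ι] (sstar t0 : ι) (ht0 : t0 ≠ sstar)
    (u w : ι → ℤ) (xmax D : ℤ)
    (hu : ∀ t, t ≠ sstar → u t = min (u sstar) (w t))
    (hw : ∀ t, t ≠ sstar → w t ≤ xmax) (hw0 : w t0 = xmax)
    (hD : ∑ t ∈ Finset.univ.filter (· ≠ sstar), w t = D) :
    ∑ s, u s ≠ xmax + D - 1 := by
  classical
  have hsplit : ∑ s, u s = u sstar + ∑ t ∈ Finset.univ.filter (· ≠ sstar), u t := by
    rw [Finset.filter_ne' Finset.univ sstar, Finset.add_sum_erase _ _ (Finset.mem_univ sstar)]
  have hsum : ∑ t ∈ Finset.univ.filter (· ≠ sstar), u t =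
      ∑ t ∈ Finset.univ.filter (· ≠ sstar), min (u sstar) (w t) :=
    Finset.sum_congr rfl fun t ht => hu t (Finset.mem_filter.1 ht).2
  rw [hsplit, hsum]
  rcases le_or_gt xmax (u sstar) with hm | hm
  · -- all minima are `w t`
    have h1 : ∑ t ∈ Finset.univ.filter (· ≠ sstar), min (u sstar) (w t) = D := by
      rw [← hD]
      refine Finset.sum_congr rfl fun t ht => ?_
      exact min_eq_right ((hw t (Finset.mem_filter.1 ht).2).trans hm)
    rw [h1]
    omega
  · -- the term `t0` loses at least `xmax - m`
    have ht0mem : t0 ∈ Finset.univ.filter (· ≠ sstar) := by simp [ht0]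
    have h1 : ∑ t ∈ Finset.univ.filter (· ≠ sstar), min (u sstar) (w t) ≤
        ∑ t ∈ Finset.univ.filter (· ≠ sstar), (w t - if t = t0 then xmax - u sstar else 0) := by
      refine Finset.sum_le_sum fun t ht => ?_
      by_cases h : t = t0
      · subst h
        rw [if_pos rfl, hw0]
        have := min_le_left (u sstar) xmax
        omega
      · rw [if_neg h, sub_zero]
        exact min_le_right _ _
    rw [Finset.sum_sub_distrib, hD, Finset.sum_ite_eq' _ t0, if_pos ht0mem] at h1
    omega

/-- **KR-CORE**. -/
theorem krCore : KRCoreStatement := by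
  intro E _ v hv0 hvadd hvneg ι _ _ _ c xmax D h1 h2 h3 y
  classical
  obtain ⟨sstar, -, hmax⟩ := Finset.exists_max_image (Finset.univ : Finset ι)
    (fun s => v (y - c s)) Finset.univ_nonempty
  have hmax' : ∀ s, v (y - c s) ≤ v (y - c sstar) := fun s => hmax s (Finset.mem_univ s)
  by_cases htop : v (y - c sstar) = ⊤
  · -- the sum is `⊤`
    have : ∑ s, v (y - c s) = ⊤ := by
      rw [WithTop.sum_eq_top]
      exact ⟨sstar, Finset.mem_univ _, htop⟩
    rw [this]
    exact WithTop.top_ne_coe
  -- all values are finite
  have hfin : ∀ s, v (y - c s) ≠ ⊤ := fun s hs => htop (top_le_iff.1 (hs ▸ hmax' s))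
  have hu : ∀ s, ∃ n : ℤ, v (y - c s) = (n : WithTop ℤ) := fun s =>
    ⟨_, (WithTop.coe_untop _ (hfin s)).symm⟩
  choose u hu using hu
  have hw : ∀ t, t ≠ sstar → ∃ n : ℤ, v (c sstar - c t) = (n : WithTop ℤ) := by
    intro t ht
    have hne : v (c sstar - c t) ≠ ⊤ := by
      intro h
      have := h1 sstar t (Ne.symm ht)
      rw [h] at this
      exact WithTop.coe_ne_top (top_le_iff.1 this)
    exact ⟨_, (WithTop.coe_untop _ hne).symm⟩
  let w : ι → ℤ := fun t => (v (c sstar - c t)).untopD 0
  have hw' : ∀ t, t ≠ sstar → v (c sstar - c t) = (w t : WithTop ℤ) := by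
    intro t ht
    obtain ⟨n, hn⟩ := hw t ht
    simp only [w]
    rw [hn]
    rfl
  obtain ⟨t0, ht0, ht0x⟩ := h2 sstar
  -- the integer statement
  have key : ∑ s, u s ≠ xmax + D - 1 := by
    refine krCore_int sstar t0 ht0 u w xmax D ?_ ?_ ?_ ?_
    · intro t ht
      have ha : min (v (y - c sstar)) (v (c sstar - c t)) ≤ v (y - c t) := by
        have e : y - c t = (y - c sstar) + (c sstar - c t) := by ring
        rw [e]
        exact hvadd _ _
      have hb : v (y - c t) ≤ v (y - c sstar) := hmax' t
      have hc : min (v (y - c t)) (v (y - c sstar)) ≤ v (c sstar - c t) := by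
        have e : c sstar - c t = (y - c t) + (-(y - c sstar)) := by ring
        have := hvadd (y - c t) (-(y - c sstar))
        rw [hvneg, ← e] at this
        exact this
      rw [hu sstar, hw' t ht, hu t] at ha
      rw [hu sstar, hu t] at hb
      rw [hu sstar, hw' t ht, hu t] at hc
      rw [← WithTop.coe_min, WithTop.coe_le_coe] at ha hc
      rw [WithTop.coe_le_coe] at hb
      rcases le_total (u sstar) (w t) with h | h
      · rw [min_eq_left h] at ha ⊢
        omega
      · rw [min_eq_right h] at ha ⊢
        rcases le_total (u t) (u sstar) with h' | h'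
        · rw [min_eq_left h'] at hc
          omega
        · rw [min_eq_right h'] at hc
          omega
    · intro t ht
      have := h1 sstar t (Ne.symm ht)
      rw [hw' t ht, WithTop.coe_le_coe] at this
      exact this
    · have := ht0x
      rw [hw' t0 ht0] at this
      exact WithTop.coe_injective this
    · have := h3 sstar
      have e : ∑ t ∈ Finset.univ.filter (· ≠ sstar), v (c sstar - c t) =
          ((∑ t ∈ Finset.univ.filter (· ≠ sstar), w t : ℤ) : WithTop ℤ) := by
        rw [WithTop.coe_sum]
        exact Finset.sum_congr rfl fun t ht => hw' t (Finset.mem_filter.1 ht).2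
      rw [e] at this
      exact WithTop.coe_injective this
  have e : ∑ s, v (y - c s) = ((∑ s, u s : ℤ) : WithTop ℤ) := by
    rw [WithTop.coe_sum]
    exact Finset.sum_congr rfl fun s _ => hu s
  rw [e]
  intro h
  exact key (WithTop.coe_injective h)

end Fermat.Agent.P1.helper50
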