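import Mathlib
import Fermat.Agent.P1.helper14_KRDefs

/-!
# P1 / FLAT-KR, package KR-ETA (helper67, task 542)

`krEta : KRTotStatement p → KREtaStatement p`: in a totally ramified extension `L/K0` with
uniformiser `ϖ`, an approximate root `y ∈ 𝒪_E` of the minimal polynomial of `ϖ`
(`ord (F0(y)) ≥ N`) gives a ring homomorphism `𝒪_L → 𝒪_E / {ord ≥ N}`.

Proof: `𝒪_L = 𝒪_K0[X]/(F0)` by KR-TOT (evaluation at `ϖ` is surjective, its kernel is generated
by the monic lift of `F0` by division with remainder), and `X ↦ y` kills `F0` modulo the ball.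
-/

set_option autoImplicit false

open Polynomial

namespace Fermat.Agent.P1.helper67

open Fermat.Agent.S55.helper8 Fermat.Agent.S55.helper7 Fermat.Agent.S55.helper33
  Fermat.Agent.P1.helper14

variable (p : ℕ) [Fact p.Prime]

section eval

variable (K0 E : Type) [Field K0] [Algebra ℚ_[p] K0] [FiniteDimensional ℚ_[p] K0]
  [Field E] [Algebra ℚ_[p] E] [FiniteDimensional ℚ_[p] E] [Algebra K0 E]
  [IsScalarTower ℚ_[p] K0 E] [FiniteDimensional K0 E]

/-- Evaluation `𝒪_K0[X] → 𝒪_E` at an integral element. -/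
noncomputable def krEval (y : Oq p E) : (Oq p K0)[X] →+* Oq p E :=
  Polynomial.eval₂RingHom (intMap p K0 E) y

theorem coe_krEval (y : Oq p E) (g : (Oq p K0)[X]) :
    ((krEval p K0 E y g : Oq p E) : E) =
      Polynomial.aeval (y : E) (g.map (Oq p K0).subtype) := by
  have h1 : ((krEval p K0 E y g : Oq p E) : E) =
      (Oq p E).subtype (Polynomial.eval₂ (intMap p K0 E) y g) := rfl
  rw [h1, Polynomial.hom_eval₂, Polynomial.aeval_def, Polynomial.eval₂_map]
  rfl

end eval

/-- **KR-ETA**. -/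
theorem krEta : KRTotStatement p → KREtaStatement p := by
  intro hTot K0 L E _ _ _ _ _ _ _ _ _ _ _ _ _ hf ϖ hϖ y N hy hN
  classical
  have : FiniteDimensional K0 L := FiniteDimensional.right ℚ_[p] K0 L
  have : FiniteDimensional K0 E := FiniteDimensional.right ℚ_[p] K0 E
  obtain ⟨⟨-, hcoef, -⟩, hgen⟩ := hTot K0 L hf ϖ hϖ
  have hint : IsIntegral K0 ϖ := Algebra.IsIntegral.isIntegral ϖ
  have hmonic : (minpoly K0 ϖ).Monic := minpoly.monic hint
  have hF0coef : ∀ i, 0 ≤ ordT p K0 ((minpoly K0 ϖ).coeff i) := by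
    intro i
    rcases lt_trichotomy i (minpoly K0 ϖ).natDegree with h | h | h
    · exact (hcoef i h).le
    · rw [h, hmonic.coeff_natDegree, ordT_one]
    · rw [Polynomial.coeff_eq_zero_of_natDegree_lt h, ordT_zero]
      exact le_top
  have hlift : ∀ g : K0[X], (∀ i, 0 ≤ ordT p K0 (g.coeff i)) →
      ∃ g' : (Oq p K0)[X], g'.map (Oq p K0).subtype = g := by
    intro g hg
    have : g ∈ Polynomial.lifts (Oq p K0).subtype := by
      rw [Polynomial.lifts_iff_coeff_lifts]
      intro n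
      exact ⟨⟨g.coeff n, hg n⟩, rfl⟩
    exact (Polynomial.mem_lifts g).mp this
  obtain ⟨F0', hF0'⟩ := hlift (minpoly K0 ϖ) hF0coef
  have hinj : Function.Injective (Oq p K0).subtype := Subtype.val_injective
  have hF0'monic : F0'.Monic := Polynomial.monic_of_injective hinj (by rw [hF0']; exact hmonic)
  have hϖ0 : 0 ≤ ordT p L ϖ := by rw [hϖ]; exact zero_le_one
  let φ₁ : (Oq p K0)[X] →+* Oq p L := krEval p K0 L ⟨ϖ, hϖ0⟩
  let φ₂ : (Oq p K0)[X] →+* (Oq p E ⧸ ballIdeal p E N) :=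
    (Ideal.Quotient.mk (ballIdeal p E N)).comp (krEval p K0 E ⟨y, hy⟩)
  have hsurj : Function.Surjective φ₁ := by
    intro x
    obtain ⟨g, hg, hgx⟩ := hgen (x : L) x.2
    obtain ⟨g', hg'⟩ := hlift g hg
    refine ⟨g', Subtype.ext ?_⟩
    rw [coe_krEval, hg']
    exact hgx
  have hker : RingHom.ker φ₁ ≤ RingHom.ker φ₂ := by
    intro g hg
    rw [RingHom.mem_ker] at hg ⊢
    have h1 : Polynomial.aeval ϖ (g.map (Oq p K0).subtype) = 0 := by
      have := congrArg (fun z : Oq p L => (z : L)) hg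
      simp only [ZeroMemClass.coe_zero] at this
      rw [← this]
      exact (coe_krEval p K0 L ⟨ϖ, hϖ0⟩ g).symm
    have h2 : minpoly K0 ϖ ∣ g.map (Oq p K0).subtype := minpoly.dvd K0 ϖ h1
    have h3 : g %ₘ F0' = 0 := by
      apply Polynomial.map_injective _ hinj
      rw [Polynomial.map_modByMonic _ hF0'monic, hF0', Polynomial.map_zero,
        Polynomial.modByMonic_eq_zero_iff_dvd hmonic]
      exact h2
    obtain ⟨c, hc⟩ := (Polynomial.modByMonic_eq_zero_iff_dvd hF0'monic).mp h3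
    have h4 : φ₂ F0' = 0 := by
      change Ideal.Quotient.mk (ballIdeal p E N) (krEval p K0 E ⟨y, hy⟩ F0') = 0
      rw [Ideal.Quotient.eq_zero_iff_mem, mem_ballIdeal, coe_krEval, hF0']
      exact hN
    rw [hc, map_mul, h4, zero_mul]
  exact ⟨RingHom.liftOfSurjective φ₁ hsurj ⟨φ₂, hker⟩⟩

end Fermat.Agent.P1.helper67
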