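import Fermat.Agent.P1.helper14_KRAsm
import Fermat.Agent.P1.helper50_KRCore
import Fermat.Agent.P1.helper86_KREis
import Fermat.Agent.P1.helper13_KRTot
import Fermat.Agent.P1.helper67_KREta
import Fermat.Agent.P1.helper78_KRInert

/-!
# P1 / FLAT-KR (helper14): the converse Krasner inequality `(F3)`, unconditional

`converseKrasner : ConverseKrasner p`, assembled from the packages KR-CORE (helper50), KR-EIS
(helper86), KR-TOT (helper13), KR-ETA (helper67), KR-INERT (helper78) by `converseKrasner_of`.
-/

set_option autoImplicit false

namespace Fermat.Agent.P1.helper14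

/-- **(F3) Converse Krasner inequality** for every Galois `p`-adic field with Fontaine's
embedding property. -/
theorem converseKrasner (p : ℕ) [Fact p.Prime] : ConverseKrasner p :=
  converseKrasner_of p Fermat.Agent.P1.helper50.krCore (Fermat.Agent.P1.helper86.krEis p)
    (Fermat.Agent.P1.helper13.krTot p)
    (Fermat.Agent.P1.helper67.krEta p (Fermat.Agent.P1.helper13.krTot p))
    (Fermat.Agent.P1.helper78.krInert p)

end Fermat.Agent.P1.helper14
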