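import Mathlib

/-!
# P1 / FLAT-KUM (helper14): the arithmetic core of the Kummer-level bound

Pure finite group theory and arithmetic: `P` a finite group with a depth function `i : P → ℕ`,
`H ≤ P` of index `p`.  If every nontrivial coset `σ H` satisfies

* (COSET) `∑_{s ∈ σH} i s ≤ xmax + ∑_{h ∈ H \ 1} i h`,
* (BREAK) `#H * (eT + p) ≤ (p - 1) * ∑_{s ∈ σH} i s`,

then `#P * (eT + p) ≤ (p - 1) * (xmax + ∑_{s ≠ 1} i s)` (`kum_arith`); together with the converse
Krasner inequality this is contradictory (`kum_arith_false`).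
-/

set_option autoImplicit false
set_option linter.unusedSectionVars false

namespace Fermat.Agent.P1.helper14

open Finset

section

variable {P : Type} [Group P] [Fintype P] [DecidableEq P]

/-- Double counting: the sum over all `σ ∉ H` of the coset sums is `#H` times the sum over the
complement of `H`. -/
lemma sum_coset_sums (i : P → ℕ) (H : Subgroup P) [DecidablePred (· ∈ H)] :
    ∑ σ ∈ univ.filter (fun σ : P => σ ∉ H), ∑ s ∈ univ.filter (fun s : P => σ⁻¹ * s ∈ H), i s =
      Nat.card H * ∑ s ∈ univ.filter (fun s : P => s ∉ H), i s := by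
  classical
  have h1 : ∀ σ : P, ∑ s ∈ univ.filter (fun s : P => σ⁻¹ * s ∈ H), i s =
      ∑ s : P, if σ⁻¹ * s ∈ H then i s else 0 := by
    intro σ
    rw [Finset.sum_filter]
  simp_rw [h1]
  rw [Finset.sum_filter]
  have h2 : ∀ σ : P, (if σ ∉ H then ∑ s : P, if σ⁻¹ * s ∈ H then i s else 0 else 0) =
      ∑ s : P, if σ ∉ H ∧ σ⁻¹ * s ∈ H then i s else 0 := by
    intro σ
    by_cases hσ : σ ∈ H
    · simp [hσ]
    · simp [hσ]
  simp_rw [h2]
  rw [Finset.sum_comm]
  rw [Finset.mul_sum, Finset.sum_filter]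
  refine Finset.sum_congr rfl (fun s _ => ?_)
  by_cases hs : s ∈ H
  · have : ∀ σ : P, ¬ (σ ∉ H ∧ σ⁻¹ * s ∈ H) := by
      rintro σ ⟨h1, h2⟩
      apply h1
      have : σ⁻¹ ∈ H := by
        have := H.mul_mem h2 (H.inv_mem hs)
        simpa using this
      simpa using H.inv_mem this
    simp [hs, this]
  · have hiff : ∀ σ : P, (σ ∉ H ∧ σ⁻¹ * s ∈ H) ↔ σ⁻¹ * s ∈ H := by
      intro σ
      refine ⟨fun h => h.2, fun h => ⟨fun hσ => hs ?_, h⟩⟩
      have := H.mul_mem hσ h
      simpa using this
    simp_rw [hiff]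
    rw [if_pos hs, ← Finset.sum_filter, Finset.sum_const, smul_eq_mul]
    congr 1
    -- the set of `σ` with `σ⁻¹ s ∈ H` is in bijection with `H`
    rw [Nat.card_eq_fintype_card, ← Finset.card_univ (α := H)]
    symm
    refine Finset.card_bij (fun h _ => s * (h : P)⁻¹) ?_ ?_ ?_
    · intro h _
      rw [Finset.mem_filter]
      refine ⟨Finset.mem_univ _, ?_⟩
      have : (s * (h : P)⁻¹)⁻¹ * s = h := by group
      rw [this]
      exact h.2
    · intro h₁ _ h₂ _ h
      apply Subtype.ext
      have := mul_left_cancel h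
      exact inv_injective this
    · intro σ hσ
      rw [Finset.mem_filter] at hσ
      refine ⟨⟨σ⁻¹ * s, hσ.2⟩, Finset.mem_univ _, ?_⟩
      change s * (σ⁻¹ * s)⁻¹ = σ
      group

/-- The arithmetic core of the Kummer-level bound. -/
theorem kum_arith (i : P → ℕ) (H : Subgroup P) [DecidablePred (· ∈ H)] (p eT xmax : ℕ)
    (hp : 2 ≤ p) (hcard : Nat.card P = p * Nat.card H)
    (hcoset : ∀ σ : P, σ ∉ H →
      ∑ s ∈ univ.filter (fun s : P => σ⁻¹ * s ∈ H), i s ≤
        xmax + ∑ h ∈ univ.filter (fun h : P => h ∈ H ∧ h ≠ 1), i h)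
    (hbrk : ∀ σ : P, σ ∉ H →
      Nat.card H * (eT + p) ≤ (p - 1) * ∑ s ∈ univ.filter (fun s : P => σ⁻¹ * s ∈ H), i s) :
    Nat.card P * (eT + p) ≤ (p - 1) * (xmax + ∑ s ∈ univ.filter (fun s : P => s ≠ 1), i s) := by
  classical
  have hHpos : 0 < Nat.card H := Nat.card_pos
  -- split the sum over `P \ 1`
  have hsplit : ∑ s ∈ univ.filter (fun s : P => s ≠ 1), i s =
      ∑ h ∈ univ.filter (fun h : P => h ∈ H ∧ h ≠ 1), i h +
        ∑ s ∈ univ.filter (fun s : P => s ∉ H), i s := by
    rw [← Finset.sum_union]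
    · refine Finset.sum_congr ?_ (fun _ _ => rfl)
      ext s
      simp only [Finset.mem_filter, Finset.mem_univ, true_and, Finset.mem_union]
      constructor
      · intro hs
        by_cases h : s ∈ H
        · exact Or.inl ⟨h, hs⟩
        · exact Or.inr h
      · rintro (⟨_, hs⟩ | hs)
        · exact hs
        · intro h1
          exact hs (h1 ▸ H.one_mem)
    · rw [Finset.disjoint_filter]
      intro s _ h1 h2
      exact h2 h1.1
  -- the complement of `H` has `(p - 1) * #H` elements
  have hcompl : (univ.filter (fun σ : P => σ ∉ H)).card = (p - 1) * Nat.card H := by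
    have h1 : (univ.filter (fun σ : P => σ ∈ H)).card = Nat.card H := by
      rw [Nat.card_eq_fintype_card, ← Finset.card_univ (α := H)]
      symm
      refine Finset.card_bij (fun h _ => (h : P)) ?_ ?_ ?_
      · intro h _
        simp
      · intro a _ b _ h
        exact Subtype.ext h
      · intro b hb
        rw [Finset.mem_filter] at hb
        exact ⟨⟨b, hb.2⟩, Finset.mem_univ _, rfl⟩
    have h2 := Finset.card_filter_add_card_filter_not (s := (univ : Finset P))
      (fun σ : P => σ ∈ H)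
    rw [h1, Finset.card_univ, ← Nat.card_eq_fintype_card, hcard] at h2
    obtain ⟨q, rfl⟩ : ∃ q, p = q + 1 := ⟨p - 1, by omega⟩
    simp only [Nat.add_sub_cancel]
    have h3 : (q + 1) * Nat.card H = q * Nat.card H + Nat.card H := by ring
    omega
  -- there is a nontrivial coset
  have hex : ∃ σ : P, σ ∉ H := by
    by_contra h
    push Not at h
    have : (univ.filter (fun σ : P => σ ∉ H)).card = 0 := by
      rw [Finset.card_eq_zero, Finset.filter_eq_empty_iff]
      intro σ _
      simpa using h σ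
    rw [hcompl] at this
    have hp1 : 0 < p - 1 := by omega
    have := Nat.mul_pos hp1 hHpos
    omega
  obtain ⟨σ₀, hσ₀⟩ := hex
  set DH := ∑ h ∈ univ.filter (fun h : P => h ∈ H ∧ h ≠ 1), i h with hDH
  set DC := ∑ s ∈ univ.filter (fun s : P => s ∉ H), i s with hDC
  -- first part
  have hfirst : Nat.card H * (eT + p) ≤ (p - 1) * (xmax + DH) :=
    le_trans (hbrk σ₀ hσ₀) (Nat.mul_le_mul_left _ (hcoset σ₀ hσ₀))
  -- second part
  have hsecond : (p - 1) * Nat.card H * (eT + p) ≤ (p - 1) * DC := by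
    have h1 := sum_coset_sums i H
    have h2 : ∑ σ ∈ univ.filter (fun σ : P => σ ∉ H), Nat.card H * (eT + p) ≤
        ∑ σ ∈ univ.filter (fun σ : P => σ ∉ H),
          (p - 1) * ∑ s ∈ univ.filter (fun s : P => σ⁻¹ * s ∈ H), i s := by
      refine Finset.sum_le_sum (fun σ hσ => ?_)
      rw [Finset.mem_filter] at hσ
      exact hbrk σ hσ.2
    rw [Finset.sum_const, hcompl, smul_eq_mul, ← Finset.mul_sum, h1] at h2
    have h3 : Nat.card H * ((p - 1) * Nat.card H * (eT + p)) ≤ Nat.card H * ((p - 1) * DC) := by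
      calc Nat.card H * ((p - 1) * Nat.card H * (eT + p))
          = (p - 1) * Nat.card H * (Nat.card H * (eT + p)) := by ring
        _ ≤ (p - 1) * (Nat.card H * DC) := h2
        _ = Nat.card H * ((p - 1) * DC) := by ring
    exact Nat.le_of_mul_le_mul_left h3 hHpos
  rw [hsplit, hcard]
  have hp1 : p * Nat.card H * (eT + p) =
      Nat.card H * (eT + p) + (p - 1) * Nat.card H * (eT + p) := by
    obtain ⟨q, hq⟩ : ∃ q, p - 1 = q := ⟨_, rfl⟩
    have hpq : p = q + 1 := by omega
    rw [hq, hpq]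
    ring
  calc p * Nat.card H * (eT + p)
      = Nat.card H * (eT + p) + (p - 1) * Nat.card H * (eT + p) := hp1
    _ ≤ (p - 1) * (xmax + DH) + (p - 1) * DC := Nat.add_le_add hfirst hsecond
    _ = (p - 1) * (xmax + (DH + DC)) := by ring

end

/-- The final arithmetic contradiction: the lower bound of `kum_arith` is incompatible with the
converse Krasner inequality when `i = 1` on `I \ P`. -/
theorem kum_arith_false (p eT cP xmax DP : ℕ) (hp : 2 ≤ p) (hcP : p ≤ cP)
    (hlow : cP * (eT + p) ≤ (p - 1) * (xmax + DP))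
    (hCK : (p - 1) * (xmax + (DP + (cP * eT - cP))) ≤ cP * eT * p + (p - 1))
    (heT : 1 ≤ eT) : False := by
  have h1 : cP ≤ cP * eT := Nat.le_mul_of_pos_right _ heT
  obtain ⟨q, hq⟩ : ∃ q, p = q + 1 := ⟨p - 1, by omega⟩
  subst hq
  simp only [Nat.add_sub_cancel] at hlow hCK
  obtain ⟨m, hm⟩ : ∃ m, cP * eT = cP + m := ⟨cP * eT - cP, by omega⟩
  rw [hm] at hCK
  simp only [Nat.add_sub_cancel_left] at hCK
  have e1 : q * (xmax + (DP + m)) = q * (xmax + DP) + q * m := by ring
  have e2 : cP * (eT + (q + 1)) = cP * eT + cP * q + cP := by ring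
  have e3 : (cP + m) * (q + 1) = cP * q + cP + m * q + m := by ring
  rw [e1, e3] at hCK
  rw [e2, hm] at hlow
  have e4 : q * m = m * q := mul_comm _ _
  omega

end Fermat.Agent.P1.helper14
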