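import Mathlib

/-!
# P1 / FLAT-KUM, KUM-ASM (helper41): the abstract counting argument

Pure finite group combinatorics used in the assembly of `(BD)`.
-/

set_option autoImplicit false

namespace Fermat.Agent.P1.helper41

open Finset

/-- Double counting over the cosets of `H` inside the complement of `H` in `P`. -/
theorem card_mul_sum_compl_eq {G : Type} [Group G] [Fintype G] [DecidableEq G]
    (P H : Subgroup G) [DecidablePred (· ∈ P)] [DecidablePred (· ∈ H)] (hHP : H ≤ P)
    (i : G → ℕ) :
    Nat.card H * ∑ s ∈ univ.filter (fun s => s ∈ P ∧ s ∉ H), i s =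
      ∑ σ ∈ univ.filter (fun s => s ∈ P ∧ s ∉ H),
        ∑ s ∈ univ.filter (fun s => σ⁻¹ * s ∈ H), i s := by
  classical
  -- rewrite inner sums as sums over `h ∈ H` of `i (σ * h)`
  have hinner : ∀ σ : G, ∑ s ∈ univ.filter (fun s => σ⁻¹ * s ∈ H), i s =
      ∑ h ∈ univ.filter (fun h => h ∈ H), i (σ * h) := by
    intro σ
    refine (Finset.sum_bij' (fun h _ => σ * h) (fun s _ => σ⁻¹ * s) ?_ ?_ ?_ ?_ ?_).symm
    · intro h hh
      simp only [mem_filter, mem_univ, true_and] at hh ⊢
      simpa using hh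
    · intro s hs
      simp only [mem_filter, mem_univ, true_and] at hs ⊢
      exact hs
    · intro h _
      simp
    · intro s _
      simp
    · intro h _
      rfl
  simp only [hinner]
  rw [Finset.sum_comm]
  have hswap : ∀ h ∈ univ.filter (fun h => h ∈ H),
      ∑ σ ∈ univ.filter (fun s => s ∈ P ∧ s ∉ H), i (σ * h) =
        ∑ s ∈ univ.filter (fun s => s ∈ P ∧ s ∉ H), i s := by
    intro h hh
    simp only [mem_filter, mem_univ, true_and] at hh
    refine Finset.sum_bij' (fun σ _ => σ * h) (fun s _ => s * h⁻¹) ?_ ?_ ?_ ?_ ?_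
    · intro σ hσ
      simp only [mem_filter, mem_univ, true_and] at hσ ⊢
      refine ⟨P.mul_mem hσ.1 (hHP hh), fun hc => hσ.2 ?_⟩
      have := H.mul_mem hc (H.inv_mem hh)
      simpa using this
    · intro s hs
      simp only [mem_filter, mem_univ, true_and] at hs ⊢
      refine ⟨P.mul_mem hs.1 (P.inv_mem (hHP hh)), fun hc => hs.2 ?_⟩
      have := H.mul_mem hc hh
      simpa using this
    · intro σ _
      simp
    · intro s _
      simp
    · intro σ _
      rfl
  rw [Finset.sum_congr rfl hswap, Finset.sum_const, smul_eq_mul]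
  congr 1
  rw [Nat.card_eq_fintype_card, Fintype.card_subtype]

/-- The abstract counting argument behind `(BD)`. -/
theorem kum_count {G : Type} [Group G] [Fintype G] [DecidableEq G]
    (P H : Subgroup G) [DecidablePred (· ∈ P)] [DecidablePred (· ∈ H)] (hHP : H ≤ P)
    (i : G → ℕ) (p eT X : ℕ) (hp : 2 ≤ p) (heT : 1 ≤ eT)
    (cardP : Nat.card P = p * Nat.card H) (cardG : Nat.card G = eT * Nat.card P)
    (hout : ∀ s, s ∉ P → i s = 1)
    (hcoset : ∀ σ, σ ∈ P → σ ∉ H →
      ∑ s ∈ univ.filter (fun s => σ⁻¹ * s ∈ H), i s ≤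
        X + ∑ h ∈ univ.filter (fun h => h ∈ H ∧ h ≠ 1), i h)
    (hserre : ∀ σ, σ ∈ P → σ ∉ H →
      Nat.card H * (eT + p) ≤ (p - 1) * ∑ s ∈ univ.filter (fun s => σ⁻¹ * s ∈ H), i s)
    (hkras : (p - 1) * (X + ∑ s ∈ univ.filter (fun s : G => s ≠ 1), i s) ≤
      Nat.card G * p + (p - 1)) : False := by
  classical
  set h := Nat.card H with hh
  have hhpos : 0 < h := Nat.card_pos
  set SH := ∑ t ∈ univ.filter (fun t => t ∈ H ∧ t ≠ 1), i t with hSH
  set SC := ∑ s ∈ univ.filter (fun s => s ∈ P ∧ s ∉ H), i s with hSC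
  -- number of elements of `P \ H`
  have hcardPH : (univ.filter (fun s : G => s ∈ P ∧ s ∉ H)).card = (p - 1) * h := by
    have h1 : (univ.filter (fun s : G => s ∈ P)).card = p * h := by
      rw [← cardP, Nat.card_eq_fintype_card, Fintype.card_subtype]
    have h2 : (univ.filter (fun s : G => s ∈ H)).card = h := by
      rw [hh, Nat.card_eq_fintype_card, Fintype.card_subtype]
    have h3 : (univ.filter (fun s : G => s ∈ P)) =
        (univ.filter (fun s : G => s ∈ P ∧ s ∉ H)) ∪ (univ.filter (fun s : G => s ∈ H)) := by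
      ext s
      simp only [mem_filter, mem_univ, true_and, mem_union]
      constructor
      · intro hs
        by_cases hsH : s ∈ H
        · exact Or.inr hsH
        · exact Or.inl ⟨hs, hsH⟩
      · rintro (hs | hs)
        · exact hs.1
        · exact hHP hs
    have h4 : Disjoint (univ.filter (fun s : G => s ∈ P ∧ s ∉ H))
        (univ.filter (fun s : G => s ∈ H)) := by
      rw [Finset.disjoint_left]
      intro s hs hs'
      simp only [mem_filter, mem_univ, true_and] at hs hs'
      exact hs.2 hs'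
    rw [h3, Finset.card_union_of_disjoint h4, h2] at h1
    have : (p - 1) * h + h = p * h := by
      have : p = (p - 1) + 1 := by omega
      nth_rewrite 2 [this]
      ring
    omega
  -- lower bound for the sum over `P \ H`
  have hSCge : h * (eT + p) ≤ SC := by
    have h1 := card_mul_sum_compl_eq P H hHP i
    rw [← hh, ← hSC] at h1
    have h2 : (univ.filter (fun s : G => s ∈ P ∧ s ∉ H)).card * (h * (eT + p)) ≤
        (p - 1) * (h * SC) := by
      rw [h1, Finset.mul_sum, ← smul_eq_mul, ← Finset.sum_const]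
      refine Finset.sum_le_sum ?_
      intro σ hσ
      simp only [mem_filter, mem_univ, true_and] at hσ
      exact hserre σ hσ.1 hσ.2
    rw [hcardPH] at h2
    have h3 : (p - 1) * h * (h * (eT + p)) ≤ (p - 1) * h * SC := by
      calc (p - 1) * h * (h * (eT + p)) ≤ (p - 1) * (h * SC) := h2
        _ = (p - 1) * h * SC := by ring
    have hpos : 0 < (p - 1) * h := Nat.mul_pos (by omega) hhpos
    exact Nat.le_of_mul_le_mul_left h3 hpos
  -- one coset
  obtain ⟨σ₀, hσ₀P, hσ₀H⟩ : ∃ σ₀, σ₀ ∈ P ∧ σ₀ ∉ H := by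
    have : 0 < (univ.filter (fun s : G => s ∈ P ∧ s ∉ H)).card := by
      rw [hcardPH]
      exact Nat.mul_pos (by omega) hhpos
    obtain ⟨σ₀, hσ₀⟩ := Finset.card_pos.mp this
    simp only [mem_filter, mem_univ, true_and] at hσ₀
    exact ⟨σ₀, hσ₀⟩
  have hone : h * (eT + p) ≤ (p - 1) * (X + SH) :=
    le_trans (hserre σ₀ hσ₀P hσ₀H) (Nat.mul_le_mul_left _ (hcoset σ₀ hσ₀P hσ₀H))
  -- decomposition of the total sum
  have hD : ∑ s ∈ univ.filter (fun s : G => s ≠ 1), i s =
      SH + SC + (Nat.card G - Nat.card P) := by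
    have hsplit : univ.filter (fun s : G => s ≠ 1) =
        ((univ.filter (fun t => t ∈ H ∧ t ≠ 1)) ∪ (univ.filter (fun s => s ∈ P ∧ s ∉ H))) ∪
          (univ.filter (fun s : G => s ∉ P)) := by
      ext s
      simp only [mem_filter, mem_univ, true_and, mem_union]
      constructor
      · intro hs
        by_cases hsP : s ∈ P
        · by_cases hsH : s ∈ H
          · exact Or.inl (Or.inl ⟨hsH, hs⟩)
          · exact Or.inl (Or.inr ⟨hsP, hsH⟩)
        · exact Or.inr hsP
      · rintro ((hs | hs) | hs)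
        · exact hs.2
        · intro h1
          exact hs.2 (h1 ▸ H.one_mem)
        · intro h1
          exact hs (h1 ▸ P.one_mem)
    have hd1 : Disjoint (univ.filter (fun t : G => t ∈ H ∧ t ≠ 1))
        (univ.filter (fun s => s ∈ P ∧ s ∉ H)) := by
      rw [Finset.disjoint_left]
      intro s hs hs'
      simp only [mem_filter, mem_univ, true_and] at hs hs'
      exact hs'.2 hs.1
    have hd2 : Disjoint ((univ.filter (fun t : G => t ∈ H ∧ t ≠ 1)) ∪
        (univ.filter (fun s => s ∈ P ∧ s ∉ H))) (univ.filter (fun s : G => s ∉ P)) := by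
      rw [Finset.disjoint_left]
      intro s hs hs'
      simp only [mem_filter, mem_univ, true_and, mem_union] at hs hs'
      rcases hs with hs | hs
      · exact hs' (hHP hs.1)
      · exact hs' hs.1
    rw [hsplit, Finset.sum_union hd2, Finset.sum_union hd1]
    have hlast : ∑ s ∈ univ.filter (fun s : G => s ∉ P), i s = Nat.card G - Nat.card P := by
      rw [Finset.sum_congr rfl (fun s hs => hout s (by simpa using hs)), Finset.sum_const,
        smul_eq_mul, mul_one, Finset.filter_not, Finset.card_sdiff_of_subset (Finset.filter_subset _ _),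
        Finset.card_univ, Nat.card_eq_fintype_card, Nat.card_eq_fintype_card,
        Fintype.card_subtype]
    rw [hlast]
  rw [hD, cardG, cardP] at hkras
  -- arithmetic
  have hp1 : p - 1 + 1 = p := by omega
  obtain ⟨p', rfl⟩ : ∃ p', p = p' + 1 := ⟨p - 1, by omega⟩
  obtain ⟨e', rfl⟩ : ∃ e', eT = e' + 1 := ⟨eT - 1, by omega⟩
  simp only [Nat.add_sub_cancel] at *
  have hsub : (e' + 1) * ((p' + 1) * h) - (p' + 1) * h = e' * ((p' + 1) * h) := by
    rw [add_mul, one_mul, Nat.add_sub_cancel]
  rw [hsub] at hkras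
  have h5 : p' + 1 ≤ (p' + 1) * h := Nat.le_mul_of_pos_right _ hhpos
  have h6 := Nat.mul_le_mul_left p' hSCge
  nlinarith [hkras, hSCge, hone, h5, h6, hhpos]

end Fermat.Agent.P1.helper41
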