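import Mathlib
import Fermat.Agent.P1.helper41_KumAux
import Fermat.Agent.P1.helper41_KumCount

/-!
# P1 / FLAT-KUM, KUM-ASM (helper41): the core contradiction

A bad normal form of a Kummer generator contradicts the converse Krasner inequality.
-/

set_option autoImplicit false

namespace Fermat.Agent.P1.helper41

open Fermat.Agent.S55.helper8 Fermat.Agent.S55.helper7 Fermat.Agent.S55.helper33
  Fermat.Agent.P1.helper14

variable (p : ℕ) [Fact p.Prime]

section core

variable (L : Type) [Field L] [Algebra ℚ_[p] L] [FiniteDimensional ℚ_[p] L] [IsGalois ℚ_[p] L]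
variable (K0 : IntermediateField ℚ_[p] L)
variable (T1 M : Type) [Field T1] [Algebra ℚ_[p] T1] [FiniteDimensional ℚ_[p] T1]
    [Field M] [Algebra ℚ_[p] M] [FiniteDimensional ℚ_[p] M]
    [Algebra T1 M] [Algebra M L] [Algebra T1 L] [IsScalarTower T1 M L]
    [IsScalarTower ℚ_[p] T1 M] [IsScalarTower ℚ_[p] M L] [IsScalarTower ℚ_[p] T1 L]

open Polynomial IntermediateField in
/-- `M / T1` is normal (Kummer theory), in the situation of KUM-BRK. -/
theorem kum_normal (hBrk : KumBrkStatement p)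
    (hrk : Module.finrank T1 M = p) (hζ : ∃ ζ : T1, IsPrimitiveRoot ζ p)
    (u : T1) (α : M) (hα : α ^ p = algebraMap T1 M u)
    (hbad : (∃ k : ℤ, ordT p T1 u = ((k : ℤ) : WithTop ℤ) ∧ ¬ (p : ℤ) ∣ k) ∨
        (∃ i : ℕ, ordT p T1 (u - 1) = (((i : ℤ)) : WithTop ℤ) ∧ ¬ p ∣ i ∧ 0 < i ∧
          i < edeg p T1)) : Normal T1 M := by
  have hpp : p.Prime := Fact.out
  have : FiniteDimensional T1 M := Module.Finite.of_restrictScalars_finite ℚ_[p] T1 M
  have hnotpow : ∀ β : T1, β ^ p ≠ u := by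
    intro β hβ
    have h1 := hBrk T1 T1 (by rw [Module.finrank_self]; exact hpp.one_le) hζ u β
      (by rw [hβ]; rfl) hbad
    rw [Module.finrank_self] at h1
    exact hpp.one_lt.ne h1.1
  have hαtop : T1⟮α⟯ = ⊤ := by
    have hprime : (Module.finrank T1 M).Prime := by rw [hrk]; exact hpp
    have : IsSimpleOrder (IntermediateField T1 M) :=
      IntermediateField.isSimpleOrder_of_finrank_prime T1 M hprime
    rcases eq_bot_or_eq_top (T1⟮α⟯) with h | h
    · exfalso
      have hmem : α ∈ (⊥ : IntermediateField T1 M) :=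
        h ▸ IntermediateField.mem_adjoin_simple_self T1 α
      obtain ⟨β, hβ⟩ := IntermediateField.mem_bot.1 hmem
      apply hnotpow β
      apply (algebraMap T1 M).injective
      rw [map_pow, hβ, hα]
    · exact h
  have hK : (primitiveRoots (Module.finrank T1 M) T1).Nonempty := by
    obtain ⟨ζ, hζ'⟩ := hζ
    rw [hrk]
    exact ⟨ζ, (mem_primitiveRoots hpp.pos).2 hζ'⟩
  have hα' : α ^ Module.finrank T1 M = algebraMap T1 M u := by rw [hrk]; exact hα
  have := isSplittingField_X_pow_sub_C_of_root_adjoin_eq_top hK hα' hαtop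
  exact Normal.of_isSplittingField (X ^ Module.finrank T1 M - C u)

/-- The wild inertia group is contained in any `p`-subgroup `P` of the inertia group whose
index is prime to `p`. -/
theorem kum_wild_le {G : Type} [Group G] [Finite G] (P G1 : Subgroup G) [G1.Normal]
    (hP : IsPGroup p P) (hG1 : IsPGroup p G1) (eT : ℕ) (hpe : ¬ p ∣ eT)
    (hcard : Nat.card G = eT * Nat.card P) : G1 ≤ P := by
  have hpp : p.Prime := Fact.out
  have hsup : IsPGroup p (P ⊔ G1 : Subgroup G) := IsPGroup.to_sup_of_normal_right hP hG1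
  obtain ⟨k, hk⟩ := hsup.exists_card_eq
  have h1 : Nat.card (P ⊔ G1 : Subgroup G) ∣ Nat.card G := Subgroup.card_subgroup_dvd_card _
  have h2 : Nat.card P ∣ Nat.card (P ⊔ G1 : Subgroup G) := Subgroup.card_dvd_of_le le_sup_left
  rw [hcard, hk] at h1
  have hcop : Nat.Coprime (p ^ k) eT :=
    Nat.Coprime.pow_left k ((Nat.Prime.coprime_iff_not_dvd hpp).2 hpe)
  have h3 : p ^ k ∣ Nat.card P := (Nat.Coprime.dvd_mul_left hcop).1 h1
  rw [← hk] at h3
  have h4 : P = P ⊔ G1 :=
    Subgroup.eq_of_le_of_card_ge le_sup_left (Nat.le_of_dvd Nat.card_pos h3)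
  rw [h4]
  exact le_sup_right

set_option maxHeartbeats 1000000 in
/-- The core of the assembly: a bad normal form leads to a contradiction. -/
theorem kum_core
    (hCK : ConverseKrasner p) (hTot : KRTotStatement p) (hCoset : KumCosetStatement)
    (hSerre : KumSerreStatement p) (hWild : KumWildStatement p) (hBrk : KumBrkStatement p)
    (hEmb : EmbProperty p L)
    (hK0e : edeg p K0 = 1) (hK0f : fdeg p L = fdeg p K0)
    (hK0 : ∀ s : L ≃ₐ[ℚ_[p]] L, s ∈ inertia p L ↔ ∀ x ∈ K0, s x = x)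
    (hT1f : fdeg p L = fdeg p T1)
    (hT1I : ∀ σ : L ≃ₐ[T1] L, σ.restrictScalars ℚ_[p] ∈ inertia p L)
    (hpe : ¬ p ∣ edeg p T1) (hPG : IsPGroup p (L ≃ₐ[T1] L))
    (hrank : Module.finrank T1 M ≤ p) (hζ : ∃ ζ : T1, IsPrimitiveRoot ζ p)
    (u : T1) (α : M) (hα : α ^ p = algebraMap T1 M u)
    (hbad : (∃ k : ℤ, ordT p T1 u = ((k : ℤ) : WithTop ℤ) ∧ ¬ (p : ℤ) ∣ k) ∨
        (∃ i : ℕ, ordT p T1 (u - 1) = (((i : ℤ)) : WithTop ℤ) ∧ ¬ p ∣ i ∧ 0 < i ∧
          i < edeg p T1)) : False := by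
  classical
  have hpp : p.Prime := Fact.out
  obtain ⟨hrk, hMf, ϖM, hϖM, hbrk⟩ := hBrk T1 M hrank hζ u α hα hbad
  obtain ⟨ϖL, hϖL⟩ := kum_exists_unif p L
  have : FiniteDimensional T1 L := Module.Finite.of_restrictScalars_finite ℚ_[p] T1 L
  have : FiniteDimensional M L := Module.Finite.of_restrictScalars_finite ℚ_[p] M L
  have : FiniteDimensional T1 M := Module.Finite.of_restrictScalars_finite ℚ_[p] T1 M
  have : IsGalois T1 L := IsGalois.tower_top_of_isGalois ℚ_[p] T1 L
  have : IsGalois M L := IsGalois.tower_top_of_isGalois ℚ_[p] M L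
  have : Normal T1 M := kum_normal p T1 M hBrk hrk hζ u α hα hbad
  -- the two subgroups of the inertia group
  have hHI : ∀ h : L ≃ₐ[M] L, h.restrictScalars ℚ_[p] ∈ inertia p L := fun h =>
    (mem_inertia p L).2 (fun x hx => (mem_inertia p L).1 (hT1I (h.restrictScalars T1)) x hx)
  obtain ⟨jP, hjP, hjPval⟩ : ∃ jP : (L ≃ₐ[T1] L) →* ↥(inertia p L), Function.Injective jP ∧
      ∀ σ, (jP σ : L ≃ₐ[ℚ_[p]] L) = σ.restrictScalars ℚ_[p] := by
    refine ⟨(AlgEquiv.restrictScalarsHom ℚ_[p]).codRestrict (inertia p L) (fun σ => hT1I σ),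
      ?_, fun σ => rfl⟩
    intro a b hab
    apply AlgEquiv.restrictScalarsHom_injective ℚ_[p]
    exact congrArg Subtype.val hab
  obtain ⟨jH, hjH, hjHval⟩ : ∃ jH : (L ≃ₐ[M] L) →* ↥(inertia p L), Function.Injective jH ∧
      ∀ σ, (jH σ : L ≃ₐ[ℚ_[p]] L) = σ.restrictScalars ℚ_[p] := by
    refine ⟨(AlgEquiv.restrictScalarsHom ℚ_[p]).codRestrict (inertia p L) (fun σ => hHI σ),
      ?_, fun σ => rfl⟩
    intro a b hab
    apply AlgEquiv.restrictScalarsHom_injective ℚ_[p]
    exact congrArg Subtype.val hab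
  set P : Subgroup ↥(inertia p L) := jP.range with hPdef
  set H : Subgroup ↥(inertia p L) := jH.range with hHdef
  have hHP : H ≤ P := by
    rintro _ ⟨h, rfl⟩
    refine ⟨h.restrictScalars T1, ?_⟩
    apply Subtype.ext
    rw [hjPval, hjHval]
    rfl
  -- cardinalities
  have cardP0 : Nat.card P = Nat.card (L ≃ₐ[T1] L) :=
    Nat.card_congr (MonoidHom.ofInjective hjP).toEquiv.symm
  have cardH0 : Nat.card H = Nat.card (L ≃ₐ[M] L) :=
    Nat.card_congr (MonoidHom.ofInjective hjH).toEquiv.symm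
  have cardP : Nat.card P = p * Nat.card H := by
    rw [cardP0, cardH0, IsGalois.card_aut_eq_finrank, IsGalois.card_aut_eq_finrank,
      ← Module.finrank_mul_finrank T1 M L, hrk]
  have cardG : Nat.card ↥(inertia p L) = edeg p T1 * Nat.card P := by
    rw [kum_card_inertia p L K0 hK0e hK0f hK0, cardP0, IsGalois.card_aut_eq_finrank,
      ← relE_mul_relF p T1 L, edeg_eq_relE_mul p T1 L]
    unfold relF
    rw [← hT1f, Nat.div_self (fdeg_pos p L), mul_one, mul_comm]
  -- the depth function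
  set i : ↥(inertia p L) → ℕ := fun s => iNat p L ϖL (s : L ≃ₐ[ℚ_[p]] L) with hi
  have hinv : ∀ s, i s⁻¹ = i s := fun s => kum_iNat_inv p L ϖL (s : L ≃ₐ[ℚ_[p]] L)
  have hne1 : ∀ s : ↥(inertia p L), s ≠ 1 → (s : L ≃ₐ[ℚ_[p]] L) ≠ 1 := by
    intro s hs h
    exact hs (Subtype.ext h)
  have hmin : ∀ s t : ↥(inertia p L), s ≠ 1 → t ≠ 1 → s * t ≠ 1 →
      min (i s) (i t) ≤ i (s * t) := by
    intro s t hs ht hst
    exact kum_iNat_mul p L K0 hTot hK0f hK0 ϖL hϖL s t s.2 t.2 (hne1 s hs) (hne1 t ht)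
      (hne1 (s * t) hst)
  -- outside `P` the depth is `1`
  have hPp : IsPGroup p P :=
    IsPGroup.of_surjective hPG jP.rangeRestrict jP.rangeRestrict_surjective
  have hout : ∀ s, s ∉ P → i s = 1 := by
    obtain ⟨G1, hG1I, hG1n, hG1p, hG1out⟩ := hWild L ϖL hϖL
    have hG1' : IsPGroup p (G1.subgroupOf (inertia p L)) := hG1p.comap_subtype
    have hle : G1.subgroupOf (inertia p L) ≤ P :=
      kum_wild_le p P (G1.subgroupOf (inertia p L)) hPp hG1' (edeg p T1) hpe cardG
    intro s hs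
    have hs' : (s : L ≃ₐ[ℚ_[p]] L) ∉ G1 := fun h => hs (hle (Subgroup.mem_subgroupOf.2 h))
    have := hG1out s s.2 hs'
    simp only [hi, iNat]
    rw [this]
    rfl
  -- a maximal element
  have hcardH : 0 < Nat.card H := Nat.card_pos
  have hnontriv : Nontrivial ↥(inertia p L) := by
    rw [← Finite.one_lt_card_iff_nontrivial, cardG, cardP]
    have h1 := edeg_pos p T1
    have h2 := hpp.two_le
    calc 1 < 1 * (2 * 1) := by norm_num
      _ ≤ edeg p T1 * (p * Nat.card H) :=
        Nat.mul_le_mul h1 (Nat.mul_le_mul h2 hcardH)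
  obtain ⟨s₁, hs₁⟩ := exists_ne (1 : ↥(inertia p L))
  obtain ⟨s₀, hs₀mem, hs₀max⟩ := Finset.exists_max_image
    (Finset.univ.filter (fun s : ↥(inertia p L) => s ≠ 1)) i
    ⟨s₁, by simpa using hs₁⟩
  have hs₀ : s₀ ≠ 1 := by simpa using hs₀mem
  have hxmax : ∀ s, s ≠ 1 → i s ≤ i s₀ := fun s hs => hs₀max s (by simpa using hs)
  -- the three inequalities
  have hcoset : ∀ σ, σ ∈ P → σ ∉ H →
      ∑ s ∈ Finset.univ.filter (fun s => σ⁻¹ * s ∈ H), i s ≤
        i s₀ + ∑ h ∈ Finset.univ.filter (fun h => h ∈ H ∧ h ≠ 1), i h :=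
    fun σ _ hσH => hCoset ↥(inertia p L) i hinv hmin H σ hσH (i s₀) hxmax
  have hserre : ∀ σ, σ ∈ P → σ ∉ H →
      Nat.card H * (edeg p T1 + p) ≤
        (p - 1) * ∑ s ∈ Finset.univ.filter (fun s => σ⁻¹ * s ∈ H), i s := by
    rintro _ ⟨σ, rfl⟩ hσH
    have hσ : ∃ x : M, σ (algebraMap M L x) ≠ algebraMap M L x := by
      by_contra hcon
      have hcon' : ∀ x : M, σ (algebraMap M L x) = algebraMap M L x :=
        fun x => by_contra (fun h => hcon ⟨x, h⟩)
      apply hσH
      refine ⟨AlgEquiv.ofRingEquiv (f := σ.toRingEquiv) hcon', ?_⟩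
      apply Subtype.ext
      rw [hjPval, hjHval]
      rfl
    have hb := kum_serre_bound p L K0 T1 M hTot hSerre hK0f hK0 hT1f hMf hT1I ϖL hϖL ϖM hϖM
      hbrk σ hσ
    rw [finsum_eq_sum_of_fintype, ← cardH0] at hb
    refine le_trans hb (le_of_eq ?_)
    congr 1
    refine Finset.sum_bij' (fun h _ => jP σ * jH h)
      (fun s hs => Classical.choose (MonoidHom.mem_range.1 (Finset.mem_filter.1 hs).2))
      ?_ ?_ ?_ ?_ ?_
    · intro h _
      simp only [Finset.mem_filter, Finset.mem_univ, true_and, inv_mul_cancel_left]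
      exact ⟨h, rfl⟩
    · intro s _
      exact Finset.mem_univ _
    · intro h _
      apply hjH
      have hmem : jP σ * jH h ∈ Finset.univ.filter (fun s => (jP σ)⁻¹ * s ∈ H) := by
        simp only [Finset.mem_filter, Finset.mem_univ, true_and, inv_mul_cancel_left]
        exact ⟨h, rfl⟩
      have := Classical.choose_spec (MonoidHom.mem_range.1 (Finset.mem_filter.1 hmem).2)
      simpa using this
    · intro s hs
      have := Classical.choose_spec (MonoidHom.mem_range.1 (Finset.mem_filter.1 hs).2)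
      rw [this]
      simp
    · intro h _
      simp only [hi]
      rw [Subgroup.coe_mul, hjPval, hjHval]
  have hkras : (p - 1) * (i s₀ + ∑ s ∈ Finset.univ.filter (fun s : ↥(inertia p L) => s ≠ 1), i s) ≤
      Nat.card ↥(inertia p L) * p + (p - 1) := by
    have h1 := hCK L hEmb ϖL hϖL s₀ s₀.2 (hne1 s₀ hs₀)
    rw [kum_card_inertia p L K0 hK0e hK0f hK0]
    refine le_trans (le_of_eq ?_) h1
    congr 2
    rw [finsum_mem_eq_finite_toFinset_sum _ (Set.toFinite _)]
    refine Finset.sum_bij' (fun s _ => (s : L ≃ₐ[ℚ_[p]] L))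
      (fun s hs => ⟨s, ((Set.Finite.mem_toFinset _).1 hs).1⟩) ?_ ?_ ?_ ?_ ?_
    · intro s hs
      rw [Set.Finite.mem_toFinset]
      exact ⟨s.2, hne1 s (by simpa using hs)⟩
    · intro s hs
      have := ((Set.Finite.mem_toFinset _).1 hs).2
      simp only [Finset.mem_filter, Finset.mem_univ, true_and]
      intro h
      exact this (congrArg Subtype.val h)
    · intro s _
      rfl
    · intro s _
      rfl
    · intro s _
      rfl
  exact kum_count P H hHP i p (edeg p T1) (i s₀) hpp.two_le (edeg_pos p T1) cardP cardG hout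
    hcoset hserre hkras

end core

end Fermat.Agent.P1.helper41
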