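import Mathlib
import Fermat.Agent.P1.helper41_KumCore

/-!
# P1 / FLAT-KUM, KUM-ASM (helper41): assembly of `(BD)`

`kummerBounded_of`: the converse Krasner inequality `(F3)` and the KR/KUM packages imply that
Kummer classes are bounded (`KummerBounded p`).
-/

set_option autoImplicit false

namespace Fermat.Agent.P1.helper41

open Fermat.Agent.S55.helper8 Fermat.Agent.S55.helper7 Fermat.Agent.S55.helper33
  Fermat.Agent.P1.helper14

variable (p : ℕ) [Fact p.Prime]

section transfer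

variable (A B : Type) [Field A] [Algebra ℚ_[p] A] [FiniteDimensional ℚ_[p] A]
  [Field B] [Algebra ℚ_[p] B] [FiniteDimensional ℚ_[p] B]

/-- The residue degree is monotone along `ℚ_p`-algebra homomorphisms. -/
theorem kum_fdeg_dvd_of_algHom (φ : A →ₐ[ℚ_[p]] B) : fdeg p A ∣ fdeg p B := by
  let _ : Algebra A B := φ.toRingHom.toAlgebra
  have : IsScalarTower ℚ_[p] A B := IsScalarTower.of_algebraMap_eq (fun x => (φ.commutes x).symm)
  have : FiniteDimensional A B := Module.Finite.of_restrictScalars_finite ℚ_[p] A B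
  exact fdeg_dvd_fdeg p A B

variable [Algebra A B] [IsScalarTower ℚ_[p] A B]

theorem kum_fdeg_dvd : fdeg p A ∣ fdeg p B := by
  have : FiniteDimensional A B := Module.Finite.of_restrictScalars_finite ℚ_[p] A B
  exact fdeg_dvd_fdeg p A B

theorem kum_edeg_unram (h : IsUnram p A B) : edeg p B = edeg p A := by
  have : FiniteDimensional A B := Module.Finite.of_restrictScalars_finite ℚ_[p] A B
  rw [edeg_eq_relE_mul p A B, (isUnram_iff p A B).1 h, one_mul]

theorem kum_ordT_unram (h : IsUnram p A B) (x : A) :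
    ordT p B (algebraMap A B x) = ordT p A x := by
  have : FiniteDimensional A B := Module.Finite.of_restrictScalars_finite ℚ_[p] A B
  by_cases hx : x = 0
  · subst hx
    rw [map_zero, ordT_zero, ordT_zero]
  · rw [ordT_algebraMap_of_ne_zero p A B hx, (isUnram_iff p A B).1 h, ordT_of_ne_zero p A hx]
    simp

end transfer

open IntermediateField Polynomial in
set_option maxHeartbeats 1000000 in
/-- **KUM-ASM**: the assembly of `(BD)`. -/
theorem kummerBounded_of :
    ConverseKrasner p → KRInertStatement p → KRTotStatement p → KumCosetStatement →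
    KumSerreStatement p → KumWildStatement p → KumNFStatement p → KumBrkStatement p →
    KummerBounded p := by
  intro hCK hInert hTot hCoset hSerre hWild hNF hBrk L _ _ _ _ hEmb T _ _ _ _ _ hpe hζ hPG a α
    ha hα
  have hpp : p.Prime := Fact.out
  obtain ⟨b, u, hb, hab, hcase⟩ := hNF T a ha
  rcases hcase with hA | hbad
  · exact ⟨b, u, hab, hA⟩
  exfalso
  obtain ⟨K0, hK0e, hK0f, hK0gal, hK0⟩ := hInert L
  -- `K0 = ℚ_p(ζ')`
  have hunr : IsUnram p ℚ_[p] K0 := by
    rw [isUnram_iff]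
    unfold relE
    rw [hK0e, (kum_edeg_fdeg_padic p).1]
  obtain ⟨ζ', hζ', hadj⟩ := exists_primitiveRoot_adjoin_eq p ℚ_[p] L K0 hunr
  have hN : ¬ p ∣ (p ^ fdeg p ℚ_[p]) ^ Module.finrank ℚ_[p] K0 - 1 :=
    not_dvd_pow_sub_one p ℚ_[p] Module.finrank_pos
  have : FiniteDimensional T L := Module.Finite.of_restrictScalars_finite ℚ_[p] T L
  -- `T1 = T(ζ')`
  obtain ⟨T1, hT1⟩ : ∃ T1 : IntermediateField T L, T1 = T⟮ζ'⟯ := ⟨_, rfl⟩
  have hζ'T1 : ζ' ∈ T1 := hT1 ▸ mem_adjoin_simple_self T ζ'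
  have hT1unr : IsUnram p T T1 := by
    rw [hT1]
    exact (isUnram_adjoin_rootOfUnity p T L _ hN ζ' hζ'.pow_eq_one).2.2
  have : FiniteDimensional ℚ_[p] T1 := Module.Finite.trans T T1
  have : IsScalarTower ℚ_[p] T1 L := IsScalarTower.of_algebraMap_eq (fun x => rfl)
  have hle : ∀ x ∈ K0, x ∈ T1 := by
    intro x hx
    rw [← hadj] at hx
    have h1 : ℚ_[p]⟮ζ'⟯ ≤ T1.restrictScalars ℚ_[p] := by
      rw [adjoin_simple_le_iff]
      exact hζ'T1
    exact h1 hx
  have hT1f : fdeg p L = fdeg p T1 := by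
    have h1 : fdeg p K0 ∣ fdeg p T1 := by
      refine kum_fdeg_dvd_of_algHom p K0 T1
        { toFun := fun x => ⟨x.1, hle x.1 x.2⟩
          map_one' := rfl
          map_mul' := fun _ _ => rfl
          map_zero' := rfl
          map_add' := fun _ _ => rfl
          commutes' := fun r => rfl }
    have h2 : fdeg p T1 ∣ fdeg p L := kum_fdeg_dvd p T1 L
    rw [← hK0f] at h1
    exact Nat.dvd_antisymm h1 h2
  have hT1I : ∀ σ : L ≃ₐ[T1] L, σ.restrictScalars ℚ_[p] ∈ inertia p L := by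
    intro σ
    rw [hK0]
    intro x hx
    exact σ.commutes ⟨x, hle x hx⟩
  have hpe' : ¬ p ∣ edeg p T1 := by
    rw [kum_edeg_unram p T T1 hT1unr]
    exact hpe
  have hPG' : IsPGroup p (L ≃ₐ[T1] L) :=
    IsPGroup.of_injective hPG (AlgEquiv.restrictScalarsHom T)
      (AlgEquiv.restrictScalarsHom_injective T)
  have hζT1 : ∃ ζ : T1, IsPrimitiveRoot ζ p := by
    obtain ⟨ζ, hζ⟩ := hζ
    exact ⟨algebraMap T T1 ζ, hζ.map_of_injective (algebraMap T T1).injective⟩
  -- the new root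
  have hbL : algebraMap T L b ≠ 0 := by
    rw [Ne, map_eq_zero_iff _ (algebraMap T L).injective]
    exact hb
  obtain ⟨α', hα'⟩ : ∃ α' : L, α' ^ p = algebraMap T L u := by
    refine ⟨α * (algebraMap T L b)⁻¹, ?_⟩
    rw [mul_pow, hα, hab, map_mul, map_pow, inv_pow, mul_assoc,
      mul_inv_cancel₀ (pow_ne_zero _ hbL), mul_one]
  -- `M = T1(α')`
  obtain ⟨M, hM⟩ : ∃ M : IntermediateField T1 L, M = T1⟮α'⟯ := ⟨_, rfl⟩
  have hα'M : α' ∈ M := hM ▸ mem_adjoin_simple_self T1 α'
  have : FiniteDimensional T1 L := Module.Finite.of_restrictScalars_finite ℚ_[p] T1 L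
  have : FiniteDimensional ℚ_[p] M := Module.Finite.trans T1 M
  have : IsScalarTower ℚ_[p] M L := IsScalarTower.of_algebraMap_eq (fun x => rfl)
  have hu' : α' ^ p = algebraMap T1 L (algebraMap T T1 u) := by
    rw [hα']
    rfl
  have hrank : Module.finrank T1 M ≤ p := by
    have hint : IsIntegral T1 α' := IsIntegral.of_finite T1 α'
    rw [hM, IntermediateField.adjoin.finrank hint]
    have hdvd : minpoly T1 α' ∣ X ^ p - C (algebraMap T T1 u) := by
      apply minpoly.dvd
      rw [map_sub, map_pow, aeval_X, aeval_C, hu', sub_self]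
    have hne : (X ^ p - C (algebraMap T T1 u) : Polynomial T1) ≠ 0 :=
      X_pow_sub_C_ne_zero hpp.pos _
    have := natDegree_le_of_dvd hdvd hne
    rwa [natDegree_X_pow_sub_C] at this
  have hαM : (⟨α', hα'M⟩ : M) ^ p = algebraMap T1 M (algebraMap T T1 u) := by
    apply Subtype.ext
    exact hu'
  have hbad' : (∃ k : ℤ, ordT p T1 (algebraMap T T1 u) = ((k : ℤ) : WithTop ℤ) ∧ ¬ (p : ℤ) ∣ k) ∨
      (∃ i : ℕ, ordT p T1 (algebraMap T T1 u - 1) = (((i : ℤ)) : WithTop ℤ) ∧ ¬ p ∣ i ∧ 0 < i ∧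
        i < edeg p T1) := by
    rcases hbad with ⟨k, hk, hpk⟩ | ⟨i, hi, hpi, hi0, hie⟩
    · left
      exact ⟨k, by rw [kum_ordT_unram p T T1 hT1unr, hk], hpk⟩
    · right
      refine ⟨i, ?_, hpi, hi0, ?_⟩
      · have h1 : algebraMap T T1 u - 1 = algebraMap T T1 (u - 1) := by
          rw [map_sub, map_one]
        rw [h1, kum_ordT_unram p T T1 hT1unr, hi]
      · rw [kum_edeg_unram p T T1 hT1unr]
        exact hie
  exact kum_core p L K0 T1 M hCK hTot hCoset hSerre hWild hBrk hEmb hK0e hK0f hK0 hT1f hT1I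
    hpe' hPG' hrank hζT1 (algebraMap T T1 u) ⟨α', hα'M⟩ hαM hbad'

end Fermat.Agent.P1.helper41
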