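import Fermat.Agent.P1.helper5_KumVal

/-!
# P1 / FLAT-KUM-BRK (helper5): the ramification break of a Kummer extension of degree `p`

`kumBrk : KumBrkStatement p` (statement in `helper14_KRDefs`).
-/

set_option autoImplicit false

namespace Fermat.Agent.P1.helper5

open Fermat.Agent.S55.helper8 Fermat.Agent.S55.helper7 Fermat.Agent.S55.helper33
open Fermat.Agent.P1.helper14

variable (p : ℕ) [Fact p.Prime]

section rel

variable (T1 M : Type) [Field T1] [Algebra ℚ_[p] T1] [FiniteDimensional ℚ_[p] T1]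
  [Field M] [Algebra ℚ_[p] M] [FiniteDimensional ℚ_[p] M] [Algebra T1 M]
  [IsScalarTower ℚ_[p] T1 M]

lemma ordT_algebraMap_eq {x : T1} {n : ℤ} (h : ordT p T1 x = ((n : ℤ) : WithTop ℤ)) :
    ordT p M (algebraMap T1 M x) = ((((relE p T1 M : ℤ) * n : ℤ)) : WithTop ℤ) := by
  have : FiniteDimensional T1 M := FiniteDimensional.right ℚ_[p] T1 M
  have hx : x ≠ 0 := by
    rintro rfl
    rw [ordT_zero] at h
    exact WithTop.top_ne_coe h
  rw [ordT_algebraMap_of_ne_zero p T1 M hx]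
  rw [ordT_of_ne_zero p T1 hx] at h
  have h' : ord p T1 (Units.mk0 x hx) = n := by exact_mod_cast h
  rw [h']

/-- if `p ∣ e(M/T1)` and `[M : T1] ≤ p` then `e(M/T1) = p = [M : T1]` and `f(M/T1) = 1`. -/
lemma relE_eq_of_dvd (hdeg : Module.finrank T1 M ≤ p) (hdvd : p ∣ relE p T1 M) :
    relE p T1 M = p ∧ Module.finrank T1 M = p ∧ fdeg p M = fdeg p T1 := by
  have : FiniteDimensional T1 M := FiniteDimensional.right ℚ_[p] T1 M
  have hp : p.Prime := Fact.out
  have h1 := relE_mul_relF p T1 M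
  have hF := relF_pos p T1 M
  have hE := relE_pos p T1 M
  obtain ⟨m, hm⟩ := hdvd
  have hm0 : 0 < m := by
    rcases Nat.eq_zero_or_pos m with h | h
    · rw [h, mul_zero] at hm; omega
    · exact h
  have h2 : p * (m * relF p T1 M) ≤ p * 1 := by
    rw [← mul_assoc, ← hm, h1, mul_one]
    exact hdeg
  have h3 : m * relF p T1 M ≤ 1 := Nat.le_of_mul_le_mul_left h2 hp.pos
  have hm1 : m = 1 := by
    rcases Nat.eq_or_lt_of_le hm0 with h | h
    · exact h.symm
    · have : 2 * 1 ≤ m * relF p T1 M := Nat.mul_le_mul h hF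
      omega
  have hF1 : relF p T1 M = 1 := by
    rw [hm1, one_mul] at h3
    omega
  have hEp : relE p T1 M = p := by rw [hm, hm1, mul_one]
  refine ⟨hEp, ?_, ?_⟩
  · rw [← h1, hEp, hF1, mul_one]
  · rw [fdeg_eq_relF_mul p T1 M, hF1, one_mul]

/-- an element of `M` whose valuation is prime to `e(M/T1) = p` is not in `T1`. -/
lemma not_mem_range_of_ordT {γ : M} {g : ℤ} (hγ : ordT p M γ = ((g : ℤ) : WithTop ℤ))
    (hg : ¬ (p : ℤ) ∣ g) (hE : relE p T1 M = p) : γ ∉ Set.range (algebraMap T1 M) := by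
  rintro ⟨a, rfl⟩
  have ha : a ≠ 0 := by
    rintro rfl
    rw [map_zero, ordT_zero] at hγ
    exact WithTop.top_ne_coe hγ
  have h1 := ordT_algebraMap_eq p T1 M (ordT_of_ne_zero p T1 ha)
  rw [hγ, hE] at h1
  have h2 : g = (p : ℤ) * ord p T1 (Units.mk0 a ha) := by exact_mod_cast h1
  exact hg ⟨_, h2⟩

end rel

section final

variable (T1 M : Type) [Field T1] [Algebra ℚ_[p] T1] [FiniteDimensional ℚ_[p] T1]
  [Field M] [Algebra ℚ_[p] M] [FiniteDimensional ℚ_[p] M] [Algebra T1 M]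
  [IsScalarTower ℚ_[p] T1 M]

omit [Fact p.Prime] in
/-- Bezout with a natural exponent prime to `p`. -/
lemma exists_bezout_nat [Fact p.Prime] {g : ℤ} (hg : ¬ (p : ℤ) ∣ g) :
    ∃ (x : ℕ) (y : ℤ), ¬ p ∣ x ∧ (x : ℤ) * g + y * p = 1 := by
  have hu : (g : ZMod p) ≠ 0 := by
    rw [Ne, ZMod.intCast_zmod_eq_zero_iff_dvd]
    exact hg
  set x : ℕ := ((g : ZMod p)⁻¹).val with hx
  have hxcast : ((x : ℕ) : ZMod p) = (g : ZMod p)⁻¹ := by
    rw [hx, ZMod.natCast_zmod_val]
  have h1 : (((x : ℤ) * g - 1 : ℤ) : ZMod p) = 0 := by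
    push_cast
    rw [hxcast, inv_mul_cancel₀ hu, sub_self]
  rw [ZMod.intCast_zmod_eq_zero_iff_dvd] at h1
  obtain ⟨y', hy'⟩ := h1
  refine ⟨x, -y', ?_, by linarith⟩
  intro hdvd
  have : ((x : ℕ) : ZMod p) = 0 := (ZMod.natCast_eq_zero_iff x p).2 hdvd
  rw [hxcast] at this
  exact inv_ne_zero hu this

/-- the common final step: construction of the uniformiser and the break. -/
theorem exists_uniformizer_of (γ : M) (g : ℤ) (hγ : ordT p M γ = ((g : ℤ) : WithTop ℤ))
    (hg : ¬ (p : ℤ) ∣ g) (hE : relE p T1 M = p)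
    (hσ : ∀ σ : M ≃ₐ[T1] M, σ ≠ 1 → ∃ (z : M) (t : ℤ), σ γ = γ * (1 + z) ∧
      ordT p M z = ((t : ℤ) : WithTop ℤ) ∧ (edeg p T1 : ℤ) < ((p - 1 : ℕ) : ℤ) * t) :
    ∃ ϖM : M, ordT p M ϖM = 1 ∧ ∀ σ : M ≃ₐ[T1] M, σ ≠ 1 →
      ((edeg p T1 : ℤ) : WithTop ℤ) + ((p - 1 : ℕ) : ℤ) <
        (((p - 1 : ℕ) : ℤ) : WithTop ℤ) * ordT p M (σ ϖM - ϖM) := by
  have hp : p.Prime := Fact.out
  obtain ⟨π, hπ⟩ := exists_ord_eq_one p T1
  have hπ0 : (π : T1) ≠ 0 := π.ne_zero
  have hπT : ordT p T1 (π : T1) = ((1 : ℤ) : WithTop ℤ) := by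
    rw [ordT_of_ne_zero p T1 hπ0]
    have : Units.mk0 (π : T1) hπ0 = π := Units.ext rfl
    rw [this, hπ]
  have hπM : ordT p M (algebraMap T1 M π) = (((p : ℤ)) : WithTop ℤ) := by
    rw [ordT_algebraMap_eq p T1 M hπT, hE, mul_one]
  obtain ⟨x, y, hx, hxy⟩ := exists_bezout_nat p hg
  set ϖ : M := γ ^ x * (algebraMap T1 M π) ^ y with hϖ
  have hϖ1 : ordT p M ϖ = 1 := by
    rw [hϖ, ordT_mul, ordT_zpow_eq p hπM y, ordT_pow, hγ, ← WithTop.coe_nsmul, nsmul_eq_mul]
    have : ((x : ℤ) * g + y * (p : ℤ) : ℤ) = 1 := hxy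
    exact_mod_cast this
  refine ⟨ϖ, hϖ1, fun σ hσ1 => ?_⟩
  obtain ⟨z, t, hz, hzt, ht⟩ := hσ σ hσ1
  have hc0 : (0 : ℤ) < ((p - 1 : ℕ) : ℤ) := by
    have := hp.one_lt
    have h2 : 0 < p - 1 := by omega
    exact_mod_cast h2
  have he0 : (0 : ℤ) ≤ (edeg p T1 : ℤ) := Int.natCast_nonneg _
  have ht0 : 0 < t := by
    by_contra hcon
    rw [not_lt] at hcon
    have : ((p - 1 : ℕ) : ℤ) * t ≤ 0 := mul_nonpos_of_nonneg_of_nonpos hc0.le hcon
    linarith
  have hz0 : 0 < ordT p M z := by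
    rw [hzt]
    exact_mod_cast ht0
  have hσϖ : σ ϖ - ϖ = ϖ * ((1 + z) ^ x - 1) := by
    rw [hϖ, map_mul, map_pow, map_zpow₀, hz, σ.commutes, mul_pow]
    ring
  have hord : ordT p M (σ ϖ - ϖ) = (((1 + t : ℤ)) : WithTop ℤ) := by
    rw [hσϖ, ordT_mul, hϖ1, ordT_one_add_pow_sub_one p hz0 hx, hzt]
    norm_cast
  rw [hord]
  have hfin : (edeg p T1 : ℤ) + ((p - 1 : ℕ) : ℤ) < ((p - 1 : ℕ) : ℤ) * (1 + t) := by
    rw [mul_add, mul_one]
    linarith
  exact_mod_cast hfin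

end final

section main

variable (T1 M : Type) [Field T1] [Algebra ℚ_[p] T1] [FiniteDimensional ℚ_[p] T1]
  [Field M] [Algebra ℚ_[p] M] [FiniteDimensional ℚ_[p] M] [Algebra T1 M]
  [IsScalarTower ℚ_[p] T1 M]

/-- the root of unity `σ α / α` attached to a nontrivial automorphism. -/
lemma exists_root_of_ne_one (hdeg : Module.finrank T1 M = p) (hE : relE p T1 M = p)
    (u : T1) (α : M) (hα : α ^ p = algebraMap T1 M u) (hα0 : α ≠ 0)
    (hαT : α ∉ Set.range (algebraMap T1 M)) (σ : M ≃ₐ[T1] M) (hσ : σ ≠ 1) :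
    ∃ (η : M) (c : ℤ), σ α = η * α ∧ ordT p M (η - 1) = ((c : ℤ) : WithTop ℤ) ∧
      ((p - 1 : ℕ) : ℤ) * c = (p : ℤ) * (edeg p T1 : ℤ) := by
  have : FiniteDimensional T1 M := FiniteDimensional.right ℚ_[p] T1 M
  have hp : p.Prime := Fact.out
  have hσα : σ α ≠ α := fun h => hσ (algEquiv_eq_one_of_fixes hp hdeg hαT σ h)
  set η : M := σ α / α with hη
  have hηα : σ α = η * α := by
    rw [hη, div_mul_cancel₀ _ hα0]
  have hηp : η ^ p = 1 := by
    rw [hη, div_pow, ← map_pow, hα, σ.commutes, div_self]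
    rw [← hα]
    exact pow_ne_zero _ hα0
  have hη1 : η ≠ 1 := by
    intro h
    apply hσα
    rw [hηα, h, one_mul]
  have hprim := isPrimitiveRoot_of_pow_eq_one hp hηp hη1
  obtain ⟨c, hc, hc2⟩ := ordT_primitiveRoot_sub_one p hprim
  refine ⟨η, c, hηα, hc, ?_⟩
  rw [hc2, edeg_eq_relE_mul p T1 M, hE]
  push_cast
  ring

/-- **KUM-BRK**. -/
theorem kumBrk : KumBrkStatement p := by
  intro T1 M _ _ _ _ _ _ _ _ hdeg _ u α hα hcase
  have hp : p.Prime := Fact.out
  have hfd : FiniteDimensional T1 M := FiniteDimensional.right ℚ_[p] T1 M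
  have hc0 : (0 : ℤ) < ((p - 1 : ℕ) : ℤ) := by
    have := hp.one_lt
    have h2 : 0 < p - 1 := by omega
    exact_mod_cast h2
  have hcp : ((p - 1 : ℕ) : ℤ) = (p : ℤ) - 1 := by
    have := hp.one_lt
    push_cast [Nat.cast_sub this.le]
    ring
  have hpZ : Prime (p : ℤ) := Nat.prime_iff_prime_int.1 hp
  have hE0 : (0 : ℤ) < (relE p T1 M : ℤ) := by exact_mod_cast relE_pos p T1 M
  have he0 : (0 : ℤ) < (edeg p T1 : ℤ) := by exact_mod_cast edeg_pos p T1
  rcases hcase with ⟨k, hk, hkp⟩ | ⟨i, hi, hip, hi0, hie⟩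
  · -- case (B)
    have hu0 : u ≠ 0 := by
      rintro rfl
      rw [ordT_zero] at hk
      exact WithTop.top_ne_coe hk
    have hα0 : α ≠ 0 := by
      rintro rfl
      rw [zero_pow hp.ne_zero] at hα
      exact hu0 ((map_eq_zero _).1 hα.symm)
    have hαord := ordT_of_ne_zero p M hα0
    set a : ℤ := ord p M (Units.mk0 α hα0) with ha
    have h1 : ordT p M (α ^ p) = ((((relE p T1 M : ℤ) * k : ℤ)) : WithTop ℤ) := by
      rw [hα]
      exact ordT_algebraMap_eq p T1 M hk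
    rw [ordT_pow, hαord, ← WithTop.coe_nsmul, nsmul_eq_mul] at h1
    have h2 : (p : ℤ) * a = (relE p T1 M : ℤ) * k := by exact_mod_cast h1
    have hdvd : (p : ℤ) ∣ (relE p T1 M : ℤ) :=
      (hpZ.dvd_or_dvd ⟨a, h2.symm⟩).resolve_right hkp
    have hdvd' : p ∣ relE p T1 M := by exact_mod_cast hdvd
    obtain ⟨hE, hfin, hf⟩ := relE_eq_of_dvd p T1 M hdeg hdvd'
    have hak : a = k := by
      rw [hE] at h2
      have hp0 : (p : ℤ) ≠ 0 := by exact_mod_cast hp.ne_zero
      exact mul_left_cancel₀ hp0 h2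
    have hαk : ordT p M α = ((k : ℤ) : WithTop ℤ) := by rw [hαord, hak]
    have hαT := not_mem_range_of_ordT p T1 M hαk hkp hE
    refine ⟨hfin, hf, exists_uniformizer_of p T1 M α k hαk hkp hE fun σ hσ => ?_⟩
    obtain ⟨η, c, hηα, hc, hc2⟩ := exists_root_of_ne_one p T1 M hfin hE u α hα hα0 hαT σ hσ
    refine ⟨η - 1, c, by rw [hηα]; ring, hc, ?_⟩
    rw [hc2]
    have hp1 : (1 : ℤ) < (p : ℤ) := by exact_mod_cast hp.one_lt
    nlinarith
  · -- case (C)
    have hi0' : (0 : ℤ) < (i : ℤ) := by exact_mod_cast hi0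
    have hie' : (i : ℤ) < (edeg p T1 : ℤ) := by exact_mod_cast hie
    have hipZ : ¬ (p : ℤ) ∣ (i : ℤ) := by exact_mod_cast hip
    have hu1pos : 0 < ordT p T1 (u - 1) := by
      rw [hi]
      exact_mod_cast hi0'
    have hu : ordT p T1 u = 0 := by
      have : u = 1 + (u - 1) := by ring
      rw [this]
      exact ordT_one_add_eq_zero p hu1pos
    have hu0 : u ≠ 0 := by
      rintro rfl
      rw [ordT_zero] at hu
      exact WithTop.top_ne_zero hu
    have hα0 : α ≠ 0 := by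
      rintro rfl
      rw [zero_pow hp.ne_zero] at hα
      exact hu0 ((map_eq_zero _).1 hα.symm)
    -- `α` is a unit
    have hαord : ordT p M α = 0 := by
      have h1 : ordT p M (α ^ p) = (((relE p T1 M : ℤ) * 0 : ℤ) : WithTop ℤ) := by
        rw [hα]
        exact ordT_algebraMap_eq p T1 M (by rw [hu]; rfl)
      rw [ordT_pow, ordT_of_ne_zero p M hα0, ← WithTop.coe_nsmul, nsmul_eq_mul, mul_zero] at h1
      rw [ordT_of_ne_zero p M hα0]
      have h2 : (p : ℤ) * ord p M (Units.mk0 α hα0) = 0 := by exact_mod_cast h1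
      have hp0 : (p : ℤ) ≠ 0 := by exact_mod_cast hp.ne_zero
      have h3 := (mul_eq_zero.1 h2).resolve_left hp0
      rw [h3]
      rfl
    set β : M := α - 1 with hβ
    have hαβ : α = 1 + β := by rw [hβ]; ring
    have hV : ordT p M ((1 + β) ^ p - 1) = ((((relE p T1 M : ℤ) * i : ℤ)) : WithTop ℤ) := by
      rw [← hαβ, hα, ← map_one (algebraMap T1 M), ← map_sub]
      exact ordT_algebraMap_eq p T1 M hi
    have hVpos : 0 < ordT p M ((1 + β) ^ p - 1) := by
      rw [hV]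
      have : (0 : ℤ) < (relE p T1 M : ℤ) * i := mul_pos hE0 hi0'
      exact_mod_cast this
    have hβint : 0 ≤ ordT p M β := by
      rw [hβ]
      exact le_trans (le_min hαord.ge (by rw [ordT_one])) (ordT_sub_ge' p α 1)
    have hsplit : β ^ p = ((1 + β) ^ p - 1) - (p : M) * β * binomRest p β := by
      rw [← one_add_pow_eq]
      ring
    have hβpos : 0 < ordT p M β := by
      have h1 : 0 < ordT p M (β ^ p) := by
        rw [hsplit]
        refine lt_of_lt_of_le (lt_min hVpos ?_) (ordT_sub_ge' p _ _)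
        rw [ordT_mul, ordT_mul]
        refine lt_of_lt_of_le (ordT_q_pos p M) ?_
        rw [add_assoc]
        exact le_add_of_nonneg_right (add_nonneg hβint (ordT_binomRest_nonneg p hβint))
      rw [ordT_pow] at h1
      by_contra hcon
      rw [not_lt] at hcon
      have h2 : ordT p M β = 0 := le_antisymm hcon hβint
      rw [h2, smul_zero] at h1
      exact lt_irrefl _ h1
    have hβ0 : β ≠ 0 := by
      intro h
      rw [h, add_zero, one_pow, sub_self, ordT_zero] at hV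
      exact WithTop.top_ne_coe hV
    have hβord := ordT_of_ne_zero p M hβ0
    set w : ℤ := ord p M (Units.mk0 β hβ0) with hw
    have hw0 : 0 < w := by
      rw [hβord] at hβpos
      exact_mod_cast hβpos
    have hA : ordT p M (β ^ p) = ((((p : ℤ) * w : ℤ)) : WithTop ℤ) := by
      rw [ordT_pow, hβord, ← WithTop.coe_nsmul, nsmul_eq_mul]
    have hB : ordT p M ((1 + β) ^ p - 1 - β ^ p) =
        ((((relE p T1 M : ℤ) * (edeg p T1 : ℤ) + w : ℤ)) : WithTop ℤ) := by
      rw [ordT_add_pow_sub p hβpos, hβord, edeg_eq_relE_mul p T1 M]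
      norm_cast
    have hsum : (1 + β) ^ p - 1 = β ^ p + ((1 + β) ^ p - 1 - β ^ p) := by ring
    -- the trichotomy
    have hkey : (p : ℤ) * w = (relE p T1 M : ℤ) * i := by
      rcases lt_trichotomy ((p : ℤ) * w) ((relE p T1 M : ℤ) * (edeg p T1 : ℤ) + w) with
        hlt | heq | hgt
      · have h1 : ordT p M (β ^ p) < ordT p M ((1 + β) ^ p - 1 - β ^ p) := by
          rw [hA, hB]
          exact_mod_cast hlt
        have h2 := ordT_add_eq_left' p h1
        rw [← hsum, hV, hA] at h2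
        exact_mod_cast h2.symm
      · exfalso
        have h1 := ordT_add_ge p M (β ^ p) ((1 + β) ^ p - 1 - β ^ p)
        rw [← hsum, hV, hA, hB, heq, min_self] at h1
        have h2 : (relE p T1 M : ℤ) * (edeg p T1 : ℤ) + w ≤ (relE p T1 M : ℤ) * i := by
          exact_mod_cast h1
        nlinarith
      · exfalso
        have h1 : ordT p M ((1 + β) ^ p - 1 - β ^ p) < ordT p M (β ^ p) := by
          rw [hA, hB]
          exact_mod_cast hgt
        have h2 := ordT_add_eq_right' p h1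
        rw [← hsum, hV, hB] at h2
        have h3 : (relE p T1 M : ℤ) * i = (relE p T1 M : ℤ) * (edeg p T1 : ℤ) + w := by
          exact_mod_cast h2
        nlinarith
    have hdvd : (p : ℤ) ∣ (relE p T1 M : ℤ) :=
      (hpZ.dvd_or_dvd ⟨w, hkey.symm⟩).resolve_right hipZ
    have hdvd' : p ∣ relE p T1 M := by exact_mod_cast hdvd
    obtain ⟨hE, hfin, hf⟩ := relE_eq_of_dvd p T1 M hdeg hdvd'
    have hwi : w = i := by
      rw [hE] at hkey
      have hp0 : (p : ℤ) ≠ 0 := by exact_mod_cast hp.ne_zero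
      exact mul_left_cancel₀ hp0 hkey
    have hβi : ordT p M β = (((i : ℤ)) : WithTop ℤ) := by rw [hβord, hwi]
    have hβT := not_mem_range_of_ordT p T1 M hβi hipZ hE
    have hαT : α ∉ Set.range (algebraMap T1 M) := by
      rintro ⟨b, hb⟩
      apply hβT
      exact ⟨b - 1, by rw [map_sub, map_one, hb]⟩
    refine ⟨hfin, hf, exists_uniformizer_of p T1 M β i hβi hipZ hE fun σ hσ => ?_⟩
    obtain ⟨η, c, hηα, hc, hc2⟩ := exists_root_of_ne_one p T1 M hfin hE u α hα hα0 hαT σ hσ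
    have hη1 : η - 1 ≠ 0 := by
      intro h
      rw [h, ordT_zero] at hc
      exact WithTop.top_ne_coe hc
    refine ⟨(η - 1) * α / β, c - i, ?_, ?_, ?_⟩
    · have hσβ : σ β = η * α - 1 := by
        rw [hβ, map_sub, map_one, hηα]
      rw [hσβ, mul_add, mul_one, mul_div_cancel₀ _ hβ0]
      simp only [hβ]
      ring
    · rw [div_eq_mul_inv, ordT_mul, ordT_mul, hc, hαord, add_zero]
      have h1 := ordT_inv p M hβ0
      rw [hβi] at h1
      have hinv0 : β⁻¹ ≠ 0 := inv_ne_zero hβ0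
      rw [ordT_of_ne_zero p M hinv0] at h1 ⊢
      have h2 : (i : ℤ) + ord p M (Units.mk0 β⁻¹ hinv0) = 0 := by exact_mod_cast h1
      have h3 : ord p M (Units.mk0 β⁻¹ hinv0) = -(i : ℤ) := by linarith
      rw [h3]
      norm_cast
    · rw [mul_sub, hc2, hcp]
      nlinarith

end main

end Fermat.Agent.P1.helper5
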