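import Fermat.Agent.P1.helper14_KRDefs

/-!
# P1 / FLAT-KUM, package KUM-NF (helper60, task 547)

Normal form of an element of `Tˣ` modulo `p`-th powers, up to level `e_T`:
every `a ≠ 0` in a `p`-adic field `T` can be written `a = u * b ^ p` with `b ≠ 0` and
* (A) `e_T ≤ ord (u - 1)`, or
* (B) `ord u = k` with `p ∤ k`, or
* (C) `ord (u - 1) = i` with `p ∤ i`, `0 < i < e_T`.

Main result: `kumNF : Fermat.Agent.P1.helper14.KumNFStatement p` (VERBATIM).
-/

set_option autoImplicit false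
set_option linter.unusedSectionVars false

namespace Fermat.Agent.P1.helper60

open Fermat.Agent.S55 Fermat.Agent.S55.helper8 Fermat.Agent.S55.helper7

variable (p : ℕ) [Fact p.Prime]
variable (T : Type) [Field T] [Algebra ℚ_[p] T] [FiniteDimensional ℚ_[p] T]

/-! ## Toolkit -/

lemma ordT_unit (u : Tˣ) : ordT p T (u : T) = ((ord p T u : ℤ) : WithTop ℤ) := by
  rw [ordT_of_ne_zero p T u.ne_zero]
  congr 2
  ext
  rfl

lemma exists_ordT_eq {x : T} (hx : x ≠ 0) : ∃ k : ℤ, ordT p T x = ((k : ℤ) : WithTop ℤ) :=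
  ⟨_, ordT_of_ne_zero p T hx⟩

lemma le_ordT_add {k : WithTop ℤ} {x y : T} (hx : k ≤ ordT p T x) (hy : k ≤ ordT p T y) :
    k ≤ ordT p T (x + y) :=
  le_trans (le_min hx hy) (ordT_add_ge p T x y)

lemma one_le_ordT_of_pos {x : T} (h : 0 < ordT p T x) : ((1 : ℤ) : WithTop ℤ) ≤ ordT p T x := by
  by_cases hx : x = 0
  · subst hx
    rw [ordT_zero]
    exact le_top
  · obtain ⟨k, hk⟩ := exists_ordT_eq p T hx
    rw [hk] at h ⊢
    have h' : (0 : ℤ) < k := by exact_mod_cast h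
    have h'' : (1 : ℤ) ≤ k := h'
    exact_mod_cast h''

lemma ord_zpow (u : Tˣ) (j : ℤ) : ord p T (u ^ j) = j * ord p T u := by
  have h1 := helper97.fdeg_mul_ord p T (u ^ j)
  have h2 := helper97.fdeg_mul_ord p T u
  rw [helper97.nv_zpow, ← h2] at h1
  have h3 := helper97.fdeg_ne_zero_int p T
  apply mul_left_cancel₀ h3
  rw [h1]
  ring

lemma ordT_pow_nonneg {x : T} (hx : 0 ≤ ordT p T x) (n : ℕ) : 0 ≤ ordT p T (x ^ n) :=
  (Oq p T).pow_mem hx n

/-- the Frobenius of the residue field is surjective -/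
lemma exists_pow_eq_kq (c : kq p T) : ∃ y : kq p T, y ^ p = c := by
  have hinj : Function.Injective (frobenius (kq p T) p) := frobenius_inj (kq p T) p
  obtain ⟨y, hy⟩ := Finite.surjective_of_injective hinj c
  exact ⟨y, hy⟩

/-- approximate `p`-th roots of integers -/
lemma exists_pow_sub_pos {z : T} (hz : 0 ≤ ordT p T z) :
    ∃ d : T, 0 ≤ ordT p T d ∧ 0 < ordT p T (d ^ p - z) := by
  obtain ⟨y, hy⟩ := exists_pow_eq_kq p T (res p T ⟨z, hz⟩)
  obtain ⟨d, rfl⟩ := res_surjective p T y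
  refine ⟨d, d.2, ?_⟩
  rw [← map_pow] at hy
  have h := (res_eq_iff p T).mp hy
  simpa using h

/-- `(1 + y) ^ p = 1 + y ^ p` modulo `p y` -/
lemma le_ordT_one_add_pow {y : T} (hy : 0 ≤ ordT p T y) :
    ((edeg p T : ℤ) : WithTop ℤ) + ordT p T y ≤ ordT p T ((1 + y) ^ p - 1 - y ^ p) := by
  obtain ⟨r, hr⟩ := exists_add_pow_prime_eq (Fact.out : p.Prime) (1 : Oq p T) ⟨y, hy⟩
  have h := congrArg (fun t : Oq p T => (t : T)) hr
  simp only [Subring.coe_add, Subring.coe_mul, Subring.coe_pow, Subring.coe_one,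
    Subring.coe_natCast, one_pow, mul_one] at h
  have h2 : (1 + y) ^ p - 1 - y ^ p = (p : T) * y * (r : T) := by
    rw [h]
    ring
  rw [h2, ordT_mul, ordT_mul, ordT_q]
  exact le_add_of_nonneg_right r.2

/-! ## The normal form predicate -/

/-- `a` has a normal form of level `e_T` modulo `p`-th powers -/
def HasNF (a : T) : Prop :=
  ∃ b u : T, b ≠ 0 ∧ a = u * b ^ p ∧
    ((((edeg p T : ℤ) : WithTop ℤ) ≤ ordT p T (u - 1)) ∨
      (∃ k : ℤ, ordT p T u = ((k : ℤ) : WithTop ℤ) ∧ ¬ (p : ℤ) ∣ k) ∨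
      (∃ i : ℕ, ordT p T (u - 1) = (((i : ℤ)) : WithTop ℤ) ∧ ¬ p ∣ i ∧ 0 < i ∧ i < edeg p T))

variable {p T}

lemma HasNF.of_mul_pow {a w : T} (hw : w ≠ 0) (h : HasNF p T (a * w ^ p)) : HasNF p T a := by
  obtain ⟨b, u, hb, hab, hu⟩ := h
  refine ⟨b / w, u, div_ne_zero hb hw, ?_, hu⟩
  rw [div_pow, ← mul_div_assoc, ← hab, mul_div_assoc, div_self (pow_ne_zero p hw), mul_one]

lemma hasNF_of_le {a : T} (h : ((edeg p T : ℤ) : WithTop ℤ) ≤ ordT p T (a - 1)) :
    HasNF p T a :=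
  ⟨1, a, one_ne_zero, by rw [one_pow, mul_one], Or.inl h⟩

variable (p T)

/-! ## The inductive step -/

/-- if `ord (a - 1) = n = p m < e`, then `a * w ^ p` has level `> n` for a suitable `w` -/
lemma exists_step {a : T} {n m : ℕ} (hm : 1 ≤ m) (hn : n = p * m) (hne : n < edeg p T)
    (ha : ordT p T (a - 1) = ((n : ℤ) : WithTop ℤ)) :
    ∃ w : T, w ≠ 0 ∧ (((n + 1 : ℕ) : ℤ) : WithTop ℤ) ≤ ordT p T (a * w ^ p - 1) := by
  obtain ⟨π, hπ⟩ := helper97.exists_ord_eq_one p T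
  have hπT : ordT p T (π : T) = ((1 : ℤ) : WithTop ℤ) := by rw [ordT_unit, hπ]
  have hπpow : ∀ l : ℕ, ordT p T ((π : T) ^ l) = ((l : ℤ) : WithTop ℤ) := by
    intro l
    have h1 : ((π : T) ^ l) = (((π ^ (l : ℤ) : Tˣ)) : T) := by
      rw [zpow_natCast, Units.val_pow_eq_pow_val]
    rw [h1, ordT_unit, ord_zpow, hπ, mul_one]
  have hπn0 : (π : T) ^ n ≠ 0 := pow_ne_zero n π.ne_zero
  -- the leading coefficient
  have hz0 : ordT p T (-((a - 1) * ((π : T) ^ n)⁻¹)) = 0 := by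
    rw [ordT_neg, ordT_mul, ha]
    have h := ordT_inv p T hπn0
    rw [hπpow] at h
    exact h
  obtain ⟨d, hd, hdz⟩ := exists_pow_sub_pos p T hz0.ge
  have hy_ord : ((m : ℤ) : WithTop ℤ) ≤ ordT p T (d * (π : T) ^ m) := by
    rw [ordT_mul, hπpow]
    exact le_add_of_nonneg_left hd
  have hm0 : (0 : WithTop ℤ) ≤ ((m : ℤ) : WithTop ℤ) := by exact_mod_cast Nat.zero_le m
  have hmpos : (0 : WithTop ℤ) < ((m : ℤ) : WithTop ℤ) := by exact_mod_cast hm
  have hy0 : 0 ≤ ordT p T (d * (π : T) ^ m) := le_trans hm0 hy_ord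
  have hypos : 0 < ordT p T (d * (π : T) ^ m) := lt_of_lt_of_le hmpos hy_ord
  refine ⟨1 + d * (π : T) ^ m, ?_, ?_⟩
  · intro h
    have h1 : d * (π : T) ^ m = -1 := by linear_combination h
    rw [h1, ordT_neg, ordT_one] at hypos
    exact lt_irrefl _ hypos
  · have hyp : (d * (π : T) ^ m) ^ p = d ^ p * (π : T) ^ n := by
      rw [mul_pow, ← pow_mul, hn, mul_comm m p]
    have hxz : (a - 1) + (d * (π : T) ^ m) ^ p =
        (π : T) ^ n * (d ^ p - -((a - 1) * ((π : T) ^ n)⁻¹)) := by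
      rw [hyp]
      field_simp
      ring
    have key : a * (1 + d * (π : T) ^ m) ^ p - 1 =
        ((a - 1) + (d * (π : T) ^ m) ^ p) +
          ((1 + d * (π : T) ^ m) ^ p - 1 - (d * (π : T) ^ m) ^ p) +
          (a - 1) * ((d * (π : T) ^ m) ^ p +
            ((1 + d * (π : T) ^ m) ^ p - 1 - (d * (π : T) ^ m) ^ p)) := by
      ring
    have hn1 : (((n + 1 : ℕ) : ℤ) : WithTop ℤ) = ((n : ℤ) : WithTop ℤ) + ((1 : ℤ) : WithTop ℤ) := by
      push_cast
      rfl
    have hE : (((n + 1 : ℕ) : ℤ) : WithTop ℤ) ≤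
        ordT p T ((1 + d * (π : T) ^ m) ^ p - 1 - (d * (π : T) ^ m) ^ p) := by
      refine le_trans ?_ (le_ordT_one_add_pow p T hy0)
      have h1 : (((n + 1 : ℕ) : ℤ) : WithTop ℤ) ≤ ((edeg p T : ℤ) : WithTop ℤ) := by
        exact_mod_cast hne
      exact le_trans h1 (le_add_of_nonneg_right hy0)
    have hYp : ((1 : ℤ) : WithTop ℤ) ≤ ordT p T ((d * (π : T) ^ m) ^ p) := by
      rw [hyp, ordT_mul, hπpow]
      have h1 : ((1 : ℤ) : WithTop ℤ) ≤ ((n : ℤ) : WithTop ℤ) := by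
        have : 1 ≤ n := by
          rw [hn]
          exact Nat.mul_pos (Fact.out : p.Prime).pos hm
        exact_mod_cast this
      exact le_trans h1 (le_add_of_nonneg_left (ordT_pow_nonneg p T hd p))
    rw [key]
    refine le_ordT_add p T (le_ordT_add p T ?_ hE) ?_
    · rw [hxz, ordT_mul, hπpow, hn1]
      exact add_le_add le_rfl (one_le_ordT_of_pos p T hdz)
    · rw [ordT_mul, ha, hn1]
      refine add_le_add le_rfl (le_ordT_add p T hYp (le_trans ?_ hE))
      exact_mod_cast Nat.succ_le_succ (Nat.zero_le n)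

/-! ## Units congruent to `1` -/

lemma hasNF_of_level (j : ℕ) : ∀ n : ℕ, 1 ≤ n → edeg p T ≤ n + j → ∀ a : T,
    ((n : ℤ) : WithTop ℤ) ≤ ordT p T (a - 1) → HasNF p T a := by
  induction j with
  | zero =>
    intro n _ hne a ha
    exact hasNF_of_le (le_trans (by exact_mod_cast hne) ha)
  | succ j ih =>
    intro n hn1 hne a ha
    by_cases hen : edeg p T ≤ n
    · exact hasNF_of_le (le_trans (by exact_mod_cast hen) ha)
    have hen : n < edeg p T := Nat.lt_of_not_le hen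
    by_cases hlt : (((n + 1 : ℕ) : ℤ) : WithTop ℤ) ≤ ordT p T (a - 1)
    · exact ih (n + 1) (by omega) (by omega) a hlt
    have hx : a - 1 ≠ 0 := by
      intro h
      apply hlt
      rw [h, ordT_zero]
      exact le_top
    obtain ⟨k, hk⟩ := exists_ordT_eq p T hx
    have heq : ordT p T (a - 1) = ((n : ℤ) : WithTop ℤ) := by
      rw [hk] at ha hlt ⊢
      have h1 : (n : ℤ) ≤ k := by exact_mod_cast ha
      have h2 : ¬ ((n : ℤ) + 1 ≤ k) := by
        intro h
        apply hlt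
        exact_mod_cast h
      have h3 : k = n := by omega
      rw [h3]
    by_cases hpn : p ∣ n
    · obtain ⟨m, hm⟩ := hpn
      have hm1 : 1 ≤ m := by
        rcases Nat.eq_zero_or_pos m with h | h
        · rw [h, mul_zero] at hm
          omega
        · exact h
      obtain ⟨w, hw0, hw⟩ := exists_step p T hm1 hm hen heq
      exact (ih (n + 1) (by omega) (by omega) (a * w ^ p) hw).of_mul_pow hw0
    · exact ⟨1, a, one_ne_zero, by rw [one_pow, mul_one],
        Or.inr (Or.inr ⟨n, heq, hpn, by omega, hen⟩)⟩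

/-- units have a normal form -/
lemma hasNF_of_ordT_eq_zero {a : T} (ha : ordT p T a = 0) : HasNF p T a := by
  have ha0 : a ≠ 0 := by
    intro h
    rw [h, ordT_zero] at ha
    exact WithTop.top_ne_zero ha
  have hinv : ordT p T a⁻¹ = 0 := by
    have h := ordT_inv p T ha0
    rw [ha, zero_add] at h
    exact h
  obtain ⟨c, hc, hca⟩ := exists_pow_sub_pos p T hinv.ge
  have hlev : 0 < ordT p T (a * c ^ p - 1) := by
    have h1 : a * c ^ p - 1 = a * (c ^ p - a⁻¹) := by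
      rw [mul_sub, mul_inv_cancel₀ ha0]
    rw [h1, ordT_mul, ha, zero_add]
    exact hca
  have hc0 : c ≠ 0 := by
    intro h
    rw [h, zero_pow (Fact.out : p.Prime).ne_zero, mul_zero, zero_sub, ordT_neg, ordT_one] at hlev
    exact lt_irrefl _ hlev
  refine HasNF.of_mul_pow hc0 (hasNF_of_level p T (edeg p T) 1 le_rfl (by omega) _ ?_)
  exact_mod_cast one_le_ordT_of_pos p T hlev

/-- every nonzero element has a normal form -/
theorem hasNF {a : T} (ha : a ≠ 0) : HasNF p T a := by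
  obtain ⟨π, hπ⟩ := helper97.exists_ord_eq_one p T
  by_cases hk : (p : ℤ) ∣ ord p T (Units.mk0 a ha)
  · obtain ⟨j, hj⟩ := hk
    have hw0 : (((π ^ (-j) : Tˣ)) : T) ≠ 0 := Units.ne_zero _
    refine HasNF.of_mul_pow hw0 (hasNF_of_ordT_eq_zero p T ?_)
    have h1 : a * (((π ^ (-j) : Tˣ)) : T) ^ p =
        ((Units.mk0 a ha * (π ^ (-j)) ^ (p : ℤ) : Tˣ) : T) := by
      rw [zpow_natCast, Units.val_mul, Units.val_pow_eq_pow_val, Units.val_mk0]
    rw [h1, ordT_unit, helper97.ord_mul, ord_zpow, ord_zpow, hπ, hj]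
    have : p * j + (p : ℤ) * (-j * 1) = 0 := by ring
    rw [this]
    rfl
  · refine ⟨1, a, one_ne_zero, by rw [one_pow, mul_one], Or.inr (Or.inl ⟨_, ?_, hk⟩)⟩
    exact ordT_of_ne_zero p T ha

/-- **KUM-NF**: normal form of an element of `Tˣ` modulo `p`-th powers, up to level `e_T`. -/
theorem kumNF : Fermat.Agent.P1.helper14.KumNFStatement p := by
  intro T _ _ _ a ha
  exact hasNF p T ha

end Fermat.Agent.P1.helper60
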