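import Fermat.Agent.P1.helper14_KRDefs

/-!
# P1 / FLAT-KUM: the coset estimate `KumCosetStatement`

For a finite group `P` with a depth function `i` (symmetric, `min (i s) (i t) ≤ i (s t)`),
a subgroup `H` and `σ ∉ H`:
`∑_{s ∈ σH} i s ≤ xmax + ∑_{h ∈ H ∖ 1} i h`.
-/

set_option autoImplicit false

namespace Fermat.Agent.P1.helper61

open Finset

theorem kumCoset : Fermat.Agent.P1.helper14.KumCosetStatement := by
  intro P _ _ _ i hinv hmin H _ σ hσ xmax hx
  classical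
  set C : Finset P := Finset.univ.filter (fun s => σ⁻¹ * s ∈ H) with hC
  have hmemC : ∀ s, s ∈ C ↔ σ⁻¹ * s ∈ H := fun s => by simp [hC]
  have hσC : σ ∈ C := by
    rw [hmemC, inv_mul_cancel]
    exact H.one_mem
  -- elements of the coset are not in `H`
  have hnotH : ∀ s ∈ C, s ∉ H := by
    intro s hs hsH
    apply hσ
    have h1 : σ⁻¹ * s ∈ H := (hmemC s).1 hs
    have h2 : s * (σ⁻¹ * s)⁻¹ ∈ H := H.mul_mem hsH (H.inv_mem h1)
    have e : s * (σ⁻¹ * s)⁻¹ = σ := by group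
    rwa [e] at h2
  have hne1 : ∀ s ∈ C, s ≠ 1 := fun s hs h => hnotH s hs (h ▸ H.one_mem)
  obtain ⟨m, hmC, hmax⟩ := Finset.exists_max_image C i ⟨σ, hσC⟩
  have hsplit : ∑ s ∈ C, i s = i m + ∑ s ∈ C.erase m, i s :=
    (Finset.add_sum_erase C i hmC).symm
  rw [hsplit]
  refine add_le_add (hx m (hne1 m hmC)) ?_
  have hstep : ∀ s ∈ C.erase m, m⁻¹ * s ∈ H ∧ m⁻¹ * s ≠ 1 ∧ i s ≤ i (m⁻¹ * s) := by
    intro s hs
    have hsC : s ∈ C := Finset.mem_of_mem_erase hs
    have hsm : s ≠ m := Finset.ne_of_mem_erase hs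
    have hH : m⁻¹ * s ∈ H := by
      have h1 : σ⁻¹ * m ∈ H := (hmemC m).1 hmC
      have h2 : σ⁻¹ * s ∈ H := (hmemC s).1 hsC
      have e : m⁻¹ * s = (σ⁻¹ * m)⁻¹ * (σ⁻¹ * s) := by group
      rw [e]
      exact H.mul_mem (H.inv_mem h1) h2
    have hne : m⁻¹ * s ≠ 1 := by
      intro h
      apply hsm
      have := congrArg (fun t => m * t) h
      simpa using this
    refine ⟨hH, hne, ?_⟩
    have h3 := hmin m⁻¹ s (inv_ne_one.2 (hne1 m hmC)) (hne1 s hsC) hne
    rw [hinv, min_eq_right (hmax s hsC)] at h3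
    exact h3
  calc ∑ s ∈ C.erase m, i s ≤ ∑ s ∈ C.erase m, i (m⁻¹ * s) :=
        Finset.sum_le_sum fun s hs => (hstep s hs).2.2
    _ = ∑ h ∈ (C.erase m).image (fun s => m⁻¹ * s), i h := by
        rw [Finset.sum_image]
        intro a _ b _ hab
        exact mul_left_cancel hab
    _ ≤ ∑ h ∈ Finset.univ.filter (fun h => h ∈ H ∧ h ≠ 1), i h := by
        refine Finset.sum_le_sum_of_subset ?_
        intro h hh
        obtain ⟨s, hs, rfl⟩ := Finset.mem_image.1 hh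
        rw [Finset.mem_filter]
        exact ⟨Finset.mem_univ _, (hstep s hs).1, (hstep s hs).2.1⟩

end Fermat.Agent.P1.helper61
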