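import Mathlib
import Fermat.Agent.P1.helper14_KRDefs
import Fermat.Agent.S55.helper7_LocRes

/-!
# P1 / FLAT-KUM, package KUM-SERRE (helper77)

`kumSerre : KRTotStatement p → KumSerreStatement p` — the easy inequality of
Serre, *Local Fields* IV Prop. 3:

`ord_L (σ ϖ_M - ϖ_M) ≤ ∑_{h ∈ Gal(L/M)} ord_L (σ (h ϖ_L) - ϖ_L)`

for `T1 ≤ M ≤ L` with `L/T1` totally ramified, `L/M` Galois, `σ ∈ Aut(L/T1)`.
-/

set_option autoImplicit false

namespace Fermat.Agent.P1.helper77

open Fermat.Agent.S55.helper8 Fermat.Agent.S55.helper7 Fermat.Agent.S55.helper33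
  Fermat.Agent.P1.helper14
open Polynomial

variable (p : ℕ) [Fact p.Prime]

section gen

variable (L : Type) [Field L] [Algebra ℚ_[p] L] [FiniteDimensional ℚ_[p] L]

/-- `ordT` of a finite product. -/
lemma ordT_finset_prod {ι : Type*} (s : Finset ι) (f : ι → L) :
    ordT p L (∏ i ∈ s, f i) = ∑ i ∈ s, ordT p L (f i) := by
  classical
  induction s using Finset.induction_on with
  | empty => simp [Fermat.Agent.S55.helper7.ordT_one]
  | insert a s ha ih =>
    rw [Finset.prod_insert ha, Finset.sum_insert ha, Fermat.Agent.S55.helper7.ordT_mul, ih]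

/-- ultrametric inequality for finite sums -/
lemma le_ordT_finset_sum {ι : Type*} (s : Finset ι) (f : ι → L) (b : WithTop ℤ)
    (h : ∀ i ∈ s, b ≤ ordT p L (f i)) : b ≤ ordT p L (∑ i ∈ s, f i) := by
  classical
  induction s using Finset.induction_on with
  | empty => simp [Fermat.Agent.S55.helper7.ordT_zero]
  | insert a s ha ih =>
    rw [Finset.sum_insert ha]
    exact le_trans (le_min (h a (Finset.mem_insert_self a s))
      (ih fun i hi => h i (Finset.mem_insert_of_mem hi)))
      (Fermat.Agent.S55.helper7.ordT_add_ge p L _ _)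

/-- coercion of an evaluation in the ring of integers -/
lemma coe_eval_Oq (G : (Oq p L)[X]) (x : Oq p L) :
    ((G.eval x : Oq p L) : L) = (G.map (Oq p L).subtype).eval (x : L) := by
  rw [Polynomial.eval_map]
  have := Polynomial.hom_eval₂ G (RingHom.id (Oq p L)) (Oq p L).subtype x
  simpa [Polynomial.eval₂_id] using this

/-- For a polynomial with integral coefficients and integral `x`, `y`: `G(y) - G(x)` is `y - x`
times an integral element. -/
lemma le_ordT_eval_sub (G : (Oq p L)[X]) (x y : Oq p L) :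
    ordT p L ((y : L) - (x : L)) ≤
      ordT p L ((G.map (Oq p L).subtype).eval (y : L) - (G.map (Oq p L).subtype).eval (x : L)) := by
  obtain ⟨w, hw⟩ := Polynomial.sub_dvd_eval_sub y x G
  have h1 : ((G.eval y : Oq p L) : L) - ((G.eval x : Oq p L) : L) = ((y : L) - (x : L)) * (w : L) := by
    have := congrArg (fun z : Oq p L => (z : L)) hw
    simpa using this
  rw [← coe_eval_Oq, ← coe_eval_Oq, h1, Fermat.Agent.S55.helper7.ordT_mul]
  exact le_add_of_nonneg_right w.2

end gen

section rel

variable (K : Type) [Field K] [Algebra ℚ_[p] K] [FiniteDimensional ℚ_[p] K]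
variable (L : Type) [Field L] [Algebra ℚ_[p] L] [FiniteDimensional ℚ_[p] L] [Algebra K L]
  [IsScalarTower ℚ_[p] K L]

/-- A polynomial over `K` with integral coefficients, evaluated at integral points `x y` of an
extension `L`, changes by a multiple of `y - x`. -/
lemma le_ordT_aeval_sub (g : K[X]) (hg : ∀ i, 0 ≤ ordT p K (g.coeff i)) (x y : L)
    (hx : 0 ≤ ordT p L x) (hy : 0 ≤ ordT p L y) :
    ordT p L (y - x) ≤ ordT p L (aeval y g - aeval x g) := by
  haveI : FiniteDimensional K L := FiniteDimensional.right ℚ_[p] K L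
  -- lift `g` to the ring of integers of `K`
  have hlift : g ∈ Polynomial.lifts (Oq p K).subtype := by
    rw [Polynomial.lifts_iff_coeff_lifts]
    intro n
    exact ⟨⟨g.coeff n, hg n⟩, rfl⟩
  obtain ⟨g', hg'⟩ := hlift
  have hg'' : g'.map (Oq p K).subtype = g := hg'
  let G : (Oq p L)[X] := g'.map (intMap p K L)
  have hG : G.map (Oq p L).subtype = g.map (algebraMap K L) := by
    rw [← hg'', Polynomial.map_map, Polynomial.map_map]
    congr 1
  have h := le_ordT_eval_sub p L G ⟨x, hx⟩ ⟨y, hy⟩
  rw [hG, Polynomial.eval_map, Polynomial.eval_map] at h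
  exact h

end rel

/-- **KUM-SERRE**. -/
theorem kumSerre (hTot : KRTotStatement p) : KumSerreStatement p := by
  intro T1 M L _ _ _ _ _ _ _ _ _ _ _ _ _ _ _ _ _ hf ϖL ϖM hϖL hϖM σ
  classical
  haveI : FiniteDimensional T1 M := FiniteDimensional.right ℚ_[p] T1 M
  haveI : FiniteDimensional M L := FiniteDimensional.right ℚ_[p] M L
  haveI : FiniteDimensional T1 L := FiniteDimensional.right ℚ_[p] T1 L
  -- `M / T1` is totally ramified
  have hfM : fdeg p M = fdeg p T1 := by
    have h1 : fdeg p T1 ∣ fdeg p M := fdeg_dvd_fdeg p T1 M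
    have h2 : fdeg p M ∣ fdeg p L := fdeg_dvd_fdeg p M L
    rw [hf] at h2
    exact Nat.dvd_antisymm h2 h1
  obtain ⟨-, hgen⟩ := hTot T1 M hfM ϖM hϖM
  -- integrality of the conjugates of `ϖL`
  have hint : ∀ h : L ≃ₐ[M] L, 0 ≤ ordT p L (h ϖL) := fun h => by
    rw [Fermat.Agent.S55.helper7.ordT_algEquiv p M L h ϖL, hϖL]
    exact zero_le_one
  -- the polynomial `∏ (X - h ϖL)` over the ring of integers of `L`
  let F0 : (Oq p L)[X] := ∏ h : L ≃ₐ[M] L, (X - C (⟨h ϖL, hint h⟩ : Oq p L))
  let FL : L[X] := ∏ h : L ≃ₐ[M] L, (X - C (h ϖL))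
  have hF0 : F0.map (Oq p L).subtype = FL := by
    simp only [F0, FL, Polynomial.map_prod, Polynomial.map_sub, Polynomial.map_X,
      Polynomial.map_C]
    rfl
  -- coefficients of `FL` are integral
  have hcoeff_int : ∀ j, 0 ≤ ordT p L (FL.coeff j) := fun j => by
    rw [← hF0, Polynomial.coeff_map]
    exact (F0.coeff j).2
  -- `FL` is invariant under `Gal(L/M)`
  have hinv : ∀ h' : L ≃ₐ[M] L, FL.map (h' : L →+* L) = FL := fun h' => by
    simp only [FL, Polynomial.map_prod, Polynomial.map_sub, Polynomial.map_X, Polynomial.map_C]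
    exact Fintype.prod_equiv (Equiv.mulLeft h') _ _ (fun h => rfl)
  -- so its coefficients come from `M`
  have hcoeff_M : ∀ j, ∃ m : M, algebraMap M L m = FL.coeff j := fun j => by
    have : FL.coeff j ∈ Set.range (algebraMap M L) := by
      rw [IsGalois.mem_range_algebraMap_iff_fixed]
      intro h'
      have := congrArg (fun P : L[X] => P.coeff j) (hinv h')
      simpa [Polynomial.coeff_map] using this
    exact this
  choose m hm using hcoeff_M
  have hm_int : ∀ j, 0 ≤ ordT p M (m j) := fun j => by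
    rw [← ordT_algebraMap_nonneg_iff p M L, hm]
    exact hcoeff_int j
  -- each coefficient is a polynomial in `ϖM` with integral coefficients from `T1`
  choose g hg_int hg using fun j => hgen (m j) (hm_int j)
  -- the two points
  set x : L := algebraMap M L ϖM with hx
  have hx_int : 0 ≤ ordT p L x := by
    rw [hx, ordT_algebraMap_nonneg_iff p M L, hϖM]
    exact zero_le_one
  have hy_int : 0 ≤ ordT p L (σ x) := by
    rw [Fermat.Agent.S55.helper7.ordT_algEquiv p T1 L σ x]
    exact hx_int
  -- coefficientwise estimate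
  have hcoef : ∀ j, ordT p L (σ x - x) ≤ ordT p L (σ (FL.coeff j) - FL.coeff j) := fun j => by
    have h1 : FL.coeff j = aeval x (g j) := by
      rw [← hm, ← hg j, hx, Polynomial.aeval_algebraMap_apply]
    have h2 : σ (FL.coeff j) = aeval (σ x) (g j) := by
      rw [h1]
      exact (Polynomial.aeval_algHom_apply (σ : L →ₐ[T1] L) x (g j)).symm
    rw [h2, h1]
    exact le_ordT_aeval_sub p T1 L (g j) (hg_int j) x (σ x) hx_int hy_int
  -- evaluate the difference at `ϖL`
  have hϖL_int : 0 ≤ ordT p L ϖL := by rw [hϖL]; exact zero_le_one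
  have heval0 : FL.eval ϖL = 0 := by
    simp only [FL, Polynomial.eval_prod]
    apply Finset.prod_eq_zero (Finset.mem_univ (1 : L ≃ₐ[M] L))
    simp
  have hevalσ : (FL.map (σ : L →+* L)).eval ϖL = ∏ h : L ≃ₐ[M] L, (ϖL - σ (h ϖL)) := by
    simp only [FL, Polynomial.map_prod, Polynomial.map_sub, Polynomial.map_X, Polynomial.map_C,
      Polynomial.eval_prod, Polynomial.eval_sub, Polynomial.eval_X, Polynomial.eval_C]
    rfl
  have hdiff : ordT p L (σ x - x) ≤
      ordT p L ((FL.map (σ : L →+* L) - FL).eval ϖL) := by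
    rw [Polynomial.eval_eq_sum_range]
    apply le_ordT_finset_sum
    intro j _
    rw [Polynomial.coeff_sub, Polynomial.coeff_map, Fermat.Agent.S55.helper7.ordT_mul]
    refine le_trans (hcoef j) (le_add_of_nonneg_right ?_)
    rw [Fermat.Agent.S55.helper7.ordT_pow]
    exact nsmul_nonneg hϖL_int j
  rw [Polynomial.eval_sub, heval0, sub_zero, hevalσ, ordT_finset_prod] at hdiff
  rw [finsum_eq_sum_of_fintype]
  refine le_trans hdiff (le_of_eq ?_)
  refine Finset.sum_congr rfl fun h _ => ?_
  exact Fermat.Agent.S55.helper7.ordT_sub_comm p L _ _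

end Fermat.Agent.P1.helper77
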