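import Fermat.Agent.P1.helper14_KRFinal
import Fermat.Agent.P1.helper41_KumAsm
import Fermat.Agent.P1.helper61_KumCoset
import Fermat.Agent.P1.helper77_KumSerre
import Fermat.Agent.P1.helper50_KumWild
import Fermat.Agent.P1.helper60_KumNF
import Fermat.Agent.P1.helper5_KumBrk

/-!
# P1 / FLAT-KUM (helper14): `(BD)` Kummer classes are bounded, unconditional

`kummerBounded : KummerBounded p`, assembled by `helper41.kummerBounded_of` from
`converseKrasner` (F3) and the packages KR-INERT (helper78), KR-TOT (helper13), KUM-COSET
(helper61), KUM-SERRE (helper77), KUM-WILD (helper50), KUM-NF (helper60), KUM-BRK (helper5).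

The only hypothesis left inside the statement is Fontaine's embedding property `EmbProperty p L`
(output of module FLAT-HOPF).
-/

set_option autoImplicit false

namespace Fermat.Agent.P1.helper14

/-- **(BD)**: for a Galois `p`-adic field `L` with Fontaine's embedding property, a tamely
ramified subfield `T` containing `ζ_p` with `Gal(L/T)` a `p`-group, every `a ∈ T` with a `p`-th
root in `L` lies in `(1 + p 𝒪_T) (Tˣ)^p`. -/
theorem kummerBounded (p : ℕ) [Fact p.Prime] : KummerBounded p :=
  Fermat.Agent.P1.helper41.kummerBounded_of p (converseKrasner p)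
    (Fermat.Agent.P1.helper78.krInert p) (Fermat.Agent.P1.helper13.krTot p)
    Fermat.Agent.P1.helper61.kumCoset
    (Fermat.Agent.P1.helper77.kumSerre p (Fermat.Agent.P1.helper13.krTot p))
    (Fermat.Agent.P1.helper50.kumWild p) (Fermat.Agent.P1.helper60.kumNF p)
    (Fermat.Agent.P1.helper5.kumBrk p)

end Fermat.Agent.P1.helper14
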