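import Mathlib
import Fermat.Agent.P1.helper92_DictDefs
import Fermat.Agent.S14.helper91_Dictionary
import Fermat.Agent.S14.helper91_FieldObstruction
import Fermat.Agent.S55.helper92_SmoothLevel
import Fermat.Agent.S55.helper74_LocalLevels

/-!
# P1 / S56, module DICT, package [DICT-CYC] (helper15, task 669)

Action of inertia and Frobenius elements on roots of unity.

* `rootsStatement : Fermat.Agent.P1.helper92.RootsStatement`;
* `apply_eq_of_mem_inertia`, `apply_eq_pow_of_isFrobeniusAt`, `frobenius_fixes_iff` : the three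
  clauses separately;
* `det_frobenius_sub_mem`, `det_frobenius_eq`, `det_inertia_sub_mem`, `det_inertia_eq` :
  determinants of representations with cyclotomic determinant at Frobenius / inertia elements
  at `q ≠ p`;
* `cycloChar_frobenius`, `cycloChar_inertia` : the mod `p` cyclotomic character;
* the same statements in the local vocabulary (`IsLocFrob`, `locInertia`).
-/

set_option autoImplicit false

namespace Fermat.Agent.P1.helper15

open ExtCitation Fermat.Agent.S55 Fermat.Agent.P1.helper92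

local notation "Qbar" => AlgebraicClosure ℚ

/-! ## Roots of unity modulo a valuation subring -/

section Roots

variable {K : Type*} [Field K] (A : ValuationSubring K)

theorem valuation_eq_one_of_pow_eq_one {N : ℕ} (hN : N ≠ 0) {η : K} (h : η ^ N = 1) :
    A.valuation η = 1 := by
  have h1 : (A.valuation η) ^ N = 1 := by rw [← map_pow, h, map_one]
  exact (pow_eq_one_iff_left hN).mp h1

/-- Roots of unity of order prime to `ℓ` are incongruent modulo a valuation subring in which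
`ℓ` is not a unit. -/
theorem eq_of_pow_eq_one_of_valuation_sub_lt_one {ℓ : ℕ} (hℓ : ℓ.Prime)
    (hA : (ℓ : K) ∈ A.nonunits) {N : ℕ} (hN : ¬ ℓ ∣ N) {η₁ η₂ : K}
    (h1 : η₁ ^ N = 1) (h2 : η₂ ^ N = 1) (h : A.valuation (η₁ - η₂) < 1) : η₁ = η₂ := by
  have hN0 : N ≠ 0 := by
    rintro rfl
    exact hN (dvd_zero ℓ)
  by_contra hne
  have hs : ∑ i ∈ Finset.range N, η₁ ^ i * η₂ ^ (N - 1 - i) = 0 := by
    have := geom_sum₂_mul η₁ η₂ N
    rw [h1, h2, sub_self] at this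
    rcases mul_eq_zero.mp this with h | h
    · exact h
    · exact absurd (sub_eq_zero.mp h) hne
  have hv1 : A.valuation η₁ = 1 := valuation_eq_one_of_pow_eq_one A hN0 h1
  have hv2 : A.valuation η₂ = 1 := valuation_eq_one_of_pow_eq_one A hN0 h2
  -- each term is congruent to `η₂ ^ (N - 1)`
  have hterm : ∀ i ∈ Finset.range N,
      A.valuation (η₁ ^ i * η₂ ^ (N - 1 - i) - η₂ ^ (N - 1)) < 1 := by
    intro i hi
    have hi' := Finset.mem_range.mp hi
    have e1 : η₁ ^ i * η₂ ^ (N - 1 - i) - η₂ ^ (N - 1)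
        = η₂ ^ (N - 1 - i) * ((η₁ - η₂) * ∑ j ∈ Finset.range i, η₁ ^ j * η₂ ^ (i - 1 - j)) := by
      rw [mul_comm (η₁ - η₂), geom_sum₂_mul]
      have : η₂ ^ (N - 1) = η₂ ^ (N - 1 - i) * η₂ ^ i := by
        rw [← pow_add]; congr 1; omega
      rw [this]; ring
    rw [e1, map_mul, map_mul, map_pow, hv2, one_pow, one_mul]
    have hsum : A.valuation (∑ j ∈ Finset.range i, η₁ ^ j * η₂ ^ (i - 1 - j)) ≤ 1 := by
      refine Valuation.map_sum_le _ fun j _ => ?_
      rw [map_mul, map_pow, map_pow, hv1, hv2, one_pow, one_pow, one_mul]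
    calc A.valuation (η₁ - η₂) * A.valuation (∑ j ∈ Finset.range i, η₁ ^ j * η₂ ^ (i - 1 - j))
        ≤ A.valuation (η₁ - η₂) * 1 := by gcongr
      _ < 1 := by rwa [mul_one]
  have hsum : A.valuation (∑ i ∈ Finset.range N, (η₁ ^ i * η₂ ^ (N - 1 - i) - η₂ ^ (N - 1)))
      < 1 := Valuation.map_sum_lt _ one_ne_zero hterm
  rw [Finset.sum_sub_distrib, hs, zero_sub, Finset.sum_const, Finset.card_range,
    Valuation.map_neg, nsmul_eq_mul, map_mul, map_pow, hv2, one_pow, mul_one] at hsum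
  have hNv : A.valuation ((N : ℤ) : K) = 1 :=
    Fermat.Agent.S54.helper91.valuation_intCast_eq_one A hℓ hA
      (by exact_mod_cast hN)
  rw [Int.cast_natCast] at hNv
  rw [hNv] at hsum
  exact lt_irrefl _ hsum

end Roots

/-! ## Inertia and Frobenius elements on roots of unity -/

section Action

variable {q : ℕ} (hq : q.Prime) (A : ValuationSubring Qbar) (hA : A.LiesOverPrime q)

omit hq in
theorem mem_of_pow_eq_one {N : ℕ} (hN : N ≠ 0) {ζ : Qbar} (hζ : ζ ^ N = 1) : ζ ∈ A := by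
  refine Fermat.Agent.S54.helper91.mem_valuationSubring_of_isIntegral A ?_
  refine IsIntegral.of_pow (Nat.pos_of_ne_zero hN) ?_
  rw [hζ]
  exact isIntegral_one

include hq hA in
/-- Inertia at `q` fixes the roots of unity of order prime to `q`. -/
theorem apply_eq_of_mem_inertia {N : ℕ} (hN : ¬ q ∣ N) {σ : Qbar ≃ₐ[ℚ] Qbar}
    (hσ : σ ∈ A.inertiaSubgroupIn ℚ) {ζ : Qbar} (hζ : ζ ^ N = 1) : σ ζ = ζ := by
  have hN0 : N ≠ 0 := by
    rintro rfl
    exact hN (dvd_zero q)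
  refine eq_of_pow_eq_one_of_valuation_sub_lt_one A hq hA hN ?_ hζ ?_
  · rw [← map_pow, hζ, map_one]
  · exact ((Fermat.Agent.S14.helper91.mem_inertiaSubgroupIn_iff_valuation A σ).mp hσ).2 ζ
      (mem_of_pow_eq_one A hN0 hζ)

include hq hA in
/-- A Frobenius element at `q` raises the roots of unity of order prime to `q` to the `q`-th
power. -/
theorem apply_eq_pow_of_isFrobeniusAt {N : ℕ} (hN : ¬ q ∣ N) {φ : Qbar ≃ₐ[ℚ] Qbar}
    (hφ : A.IsFrobeniusAt φ q) {ζ : Qbar} (hζ : ζ ^ N = 1) : φ ζ = ζ ^ q := by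
  have hN0 : N ≠ 0 := by
    rintro rfl
    exact hN (dvd_zero q)
  refine eq_of_pow_eq_one_of_valuation_sub_lt_one A hq hA hN ?_ ?_ ?_
  · rw [← map_pow, hζ, map_one]
  · rw [← pow_mul, mul_comm, pow_mul, hζ, one_pow]
  · exact Fermat.Agent.S14.helper91.IsFrobeniusAt_valuation_lt_one A hφ
      (mem_of_pow_eq_one A hN0 hζ)

omit hq in
theorem not_dvd_prime_pow {p q : ℕ} (hp : p.Prime) (hq : q.Prime) (hpq : p ≠ q) (n : ℕ) :
    ¬ q ∣ p ^ n := fun h =>
  hpq ((Nat.prime_dvd_prime_iff_eq hq hp).mp (hq.dvd_of_dvd_pow h)).symm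

include hq hA in
/-- A Frobenius element at `q ≠ p` fixes `μ_{p^n}` iff `p ^ n ∣ q - 1`. -/
theorem frobenius_fixes_iff {φ : Qbar ≃ₐ[ℚ] Qbar} (hφ : A.IsFrobeniusAt φ q) {p : ℕ} (n : ℕ)
    (hp : p.Prime) (hpq : p ≠ q) :
    (∀ ζ : Qbar, ζ ^ p ^ n = 1 → φ ζ = ζ) ↔ p ^ n ∣ q - 1 := by
  have hfrob : ∀ ζ : Qbar, ζ ^ p ^ n = 1 → φ ζ = ζ ^ q := fun ζ hζ =>
    apply_eq_pow_of_isFrobeniusAt hq A hA (not_dvd_prime_pow hp hq hpq n) hφ hζ
  have hpn : 0 < p ^ n := pow_pos hp.pos n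
  constructor
  · intro h
    have : NeZero (p ^ n) := ⟨hpn.ne'⟩
    obtain ⟨ζ, hζ⟩ := HasEnoughRootsOfUnity.exists_primitiveRoot Qbar (p ^ n)
    have h1 : ζ ^ q = ζ := by
      rw [← hfrob ζ hζ.pow_eq_one]
      exact h ζ hζ.pow_eq_one
    have hζ0 : ζ ≠ 0 := hζ.ne_zero hpn.ne'
    have h2 : ζ ^ (q - 1) = 1 := by
      have : ζ ^ (q - 1) * ζ = 1 * ζ := by
        rw [← pow_succ, Nat.sub_add_cancel hq.one_le, h1, one_mul]
      exact mul_right_cancel₀ hζ0 this
    exact hζ.dvd_of_pow_eq_one _ h2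
  · rintro ⟨k, hk⟩ ζ hζ
    rw [hfrob ζ hζ]
    have hq1 : q = p ^ n * k + 1 := by
      have := hq.one_le
      omega
    rw [hq1, pow_succ, pow_mul, hζ, one_pow, one_mul]

end Action

/-- **[DICT-CYC]** -/
theorem rootsStatement : Fermat.Agent.P1.helper92.RootsStatement := by
  intro q hq A hA
  refine ⟨fun σ hσ m ζ hm hζ => apply_eq_of_mem_inertia hq A hA hm hσ hζ,
    fun φ hφ m ζ hm hζ => apply_eq_pow_of_isFrobeniusAt hq A hA hm hφ hζ,
    fun φ hφ p n hp hpq => frobenius_fixes_iff hq A hA hφ n hp hpq⟩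

/-! ## Determinants of representations with cyclotomic determinant -/

section Det

variable {A' : Type} [CommRing A'] [IsLocalRing A'] (ρ : GaloisRepAdic A') {p q : ℕ}

/-- The determinant of a Frobenius element at `q ≠ p` is `q` modulo `p ^ n` for all `n`. -/
theorem det_frobenius_sub_mem (hp : p.Prime) (hq : q.Prime) (hqp : q ≠ p)
    (hdet : ρ.DetIsCyclotomic p) (A : ValuationSubring Qbar) (hA : A.LiesOverPrime q)
    {φ : Qbar ≃ₐ[ℚ] Qbar} (hφ : A.IsFrobeniusAt φ q) (n : ℕ) :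
    LinearMap.det (ρ.ρ φ) - (q : A') ∈ Ideal.span {((p ^ n : ℕ) : A')} :=
  hdet.2 n φ q fun _ hμ =>
    apply_eq_pow_of_isFrobeniusAt hq A hA (not_dvd_prime_pow hp hq (Ne.symm hqp) n) hφ hμ

/-- The determinant of an inertia element at `q ≠ p` is `1` modulo `p ^ n` for all `n`. -/
theorem det_inertia_sub_mem (hp : p.Prime) (hq : q.Prime) (hqp : q ≠ p)
    (hdet : ρ.DetIsCyclotomic p) (A : ValuationSubring Qbar) (hA : A.LiesOverPrime q)
    {σ : Qbar ≃ₐ[ℚ] Qbar} (hσ : σ ∈ A.inertiaSubgroupIn ℚ) (n : ℕ) :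
    LinearMap.det (ρ.ρ σ) - 1 ∈ Ideal.span {((p ^ n : ℕ) : A')} := by
  have h := hdet.2 n σ 1 fun μ hμ => by
    rw [pow_one]
    exact apply_eq_of_mem_inertia hq A hA (not_dvd_prime_pow hp hq (Ne.symm hqp) n) hσ hμ
  rwa [Nat.cast_one] at h

omit [IsLocalRing A'] in
theorem eq_of_sub_mem_span_pow_one {x y : A'} (hp0 : (p : A') = 0)
    (h : x - y ∈ Ideal.span {((p ^ 1 : ℕ) : A')}) : x = y := by
  rw [pow_one, hp0, Ideal.span_singleton_eq_bot.mpr rfl, Ideal.mem_bot, sub_eq_zero] at h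
  exact h

/-- If `p = 0` in the coefficient ring (e.g. a field of characteristic `p`, or its dual
numbers), the determinant of a Frobenius element at `q ≠ p` is `q`. -/
theorem det_frobenius_eq (hp : p.Prime) (hq : q.Prime) (hqp : q ≠ p)
    (hdet : ρ.DetIsCyclotomic p) (hp0 : (p : A') = 0) (A : ValuationSubring Qbar)
    (hA : A.LiesOverPrime q) {φ : Qbar ≃ₐ[ℚ] Qbar} (hφ : A.IsFrobeniusAt φ q) :
    LinearMap.det (ρ.ρ φ) = (q : A') :=
  eq_of_sub_mem_span_pow_one hp0 (det_frobenius_sub_mem ρ hp hq hqp hdet A hA hφ 1)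

/-- If `p = 0` in the coefficient ring, the determinant of an inertia element at `q ≠ p`
is `1`. -/
theorem det_inertia_eq (hp : p.Prime) (hq : q.Prime) (hqp : q ≠ p)
    (hdet : ρ.DetIsCyclotomic p) (hp0 : (p : A') = 0) (A : ValuationSubring Qbar)
    (hA : A.LiesOverPrime q) {σ : Qbar ≃ₐ[ℚ] Qbar} (hσ : σ ∈ A.inertiaSubgroupIn ℚ) :
    LinearMap.det (ρ.ρ σ) = 1 :=
  eq_of_sub_mem_span_pow_one hp0 (det_inertia_sub_mem ρ hp hq hqp hdet A hA hσ 1)

end Det

/-! ## The mod `p` cyclotomic character -/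

section CycloChar

variable (p : ℕ) [Fact p.Prime] {q : ℕ}

/-- The mod `p` cyclotomic character of a Frobenius element at `q ≠ p` is `q`. -/
theorem cycloChar_frobenius (hq : q.Prime) (hqp : q ≠ p) (A : ValuationSubring Qbar)
    (hA : A.LiesOverPrime q) {φ : Qbar ≃ₐ[ℚ] Qbar} (hφ : A.IsFrobeniusAt φ q) :
    ((cycloChar p φ : (ZMod p)ˣ) : ZMod p) = (q : ZMod p) := by
  have hp : p.Prime := Fact.out
  obtain ⟨ζ, hζ⟩ := Fermat.Agent.S14.helper91.exists_primitiveRoot p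
  have h1 := Fermat.Agent.S14.helper91.apply_of_pow_eq_one p φ hζ.pow_eq_one
  have h2 := apply_eq_pow_of_isFrobeniusAt hq A hA
    (fun h => hqp ((Nat.prime_dvd_prime_iff_eq hq hp).mp h)) hφ hζ.pow_eq_one
  have h3 : ζ ^ cycloExp p φ = ζ ^ q := h1.symm.trans h2
  have h4 : ζ ^ (q % p) = ζ ^ q := by
    conv_rhs => rw [← Nat.mod_add_div q p, pow_add, pow_mul, hζ.pow_eq_one, one_pow, mul_one]
  have h5 : cycloExp p φ = q % p :=
    hζ.pow_inj (Fermat.Agent.S14.helper91.cycloExp_lt p φ) (Nat.mod_lt q hp.pos)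
      (h3.trans h4.symm)
  rw [coe_cycloChar, h5, ZMod.natCast_mod]

/-- The mod `p` cyclotomic character is trivial on inertia at `q ≠ p`. -/
theorem cycloChar_inertia (hq : q.Prime) (hqp : q ≠ p) (A : ValuationSubring Qbar)
    (hA : A.LiesOverPrime q) {σ : Qbar ≃ₐ[ℚ] Qbar} (hσ : σ ∈ A.inertiaSubgroupIn ℚ) :
    cycloChar p σ = 1 :=
  Fermat.Agent.S55.helper92.inertia_le_ker_cycloChar p q hq hqp A hA hσ

end CycloChar

/-! ## Local vocabulary -/

section Local

variable (q : Nat.Primes)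

/-- Local inertia fixes the roots of unity of order prime to `q`. -/
theorem locInertia_apply_eq {N : ℕ} (hN : ¬ (q : ℕ) ∣ N) {τ : primeLocalGaloisGroup q}
    (hτ : τ ∈ locInertia q) {ζ : Qbar} (hζ : ζ ^ N = 1) : primeLocalToGlobal q τ ζ = ζ :=
  apply_eq_of_mem_inertia q.2 _ (helper74.primeLocalPlace_liesOverPrime q) hN
    (mem_locInertia.mp hτ) hζ

/-- A local Frobenius element raises the roots of unity of order prime to `q` to the `q`-th
power. -/
theorem isLocFrob_apply_eq_pow {N : ℕ} (hN : ¬ (q : ℕ) ∣ N) {τ : primeLocalGaloisGroup q}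
    (hτ : IsLocFrob q τ) {ζ : Qbar} (hζ : ζ ^ N = 1) :
    primeLocalToGlobal q τ ζ = ζ ^ (q : ℕ) :=
  apply_eq_pow_of_isFrobeniusAt q.2 _ (helper74.primeLocalPlace_liesOverPrime q) hN hτ hζ

/-- A local Frobenius element at `q ≠ p` fixes `μ_{p^n}` iff `p ^ n ∣ q - 1`. -/
theorem isLocFrob_fixes_iff {τ : primeLocalGaloisGroup q} (hτ : IsLocFrob q τ) {p : ℕ} (n : ℕ)
    (hp : p.Prime) (hpq : p ≠ (q : ℕ)) :
    (∀ ζ : Qbar, ζ ^ p ^ n = 1 → primeLocalToGlobal q τ ζ = ζ) ↔ p ^ n ∣ (q : ℕ) - 1 :=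
  frobenius_fixes_iff q.2 _ (helper74.primeLocalPlace_liesOverPrime q) hτ n hp hpq

theorem cycloChar_isLocFrob (p : ℕ) [Fact p.Prime] (hqp : (q : ℕ) ≠ p)
    {τ : primeLocalGaloisGroup q} (hτ : IsLocFrob q τ) :
    ((cycloChar p (primeLocalToGlobal q τ) : (ZMod p)ˣ) : ZMod p) = ((q : ℕ) : ZMod p) :=
  cycloChar_frobenius p q.2 hqp _ (helper74.primeLocalPlace_liesOverPrime q) hτ

theorem cycloChar_locInertia (p : ℕ) [Fact p.Prime] (hqp : (q : ℕ) ≠ p)
    {τ : primeLocalGaloisGroup q} (hτ : τ ∈ locInertia q) :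
    cycloChar p (primeLocalToGlobal q τ) = 1 :=
  cycloChar_inertia p q.2 hqp _ (helper74.primeLocalPlace_liesOverPrime q)
    (mem_locInertia.mp hτ)

variable {A' : Type} [CommRing A'] [IsLocalRing A'] (ρ : GaloisRepAdic A') {p : ℕ}

theorem det_isLocFrob_eq (hp : p.Prime) (hqp : (q : ℕ) ≠ p) (hdet : ρ.DetIsCyclotomic p)
    (hp0 : (p : A') = 0) {τ : primeLocalGaloisGroup q} (hτ : IsLocFrob q τ) :
    LinearMap.det (ρ.ρ (primeLocalToGlobal q τ)) = ((q : ℕ) : A') :=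
  det_frobenius_eq ρ hp q.2 hqp hdet hp0 _ (helper74.primeLocalPlace_liesOverPrime q) hτ

theorem det_locInertia_eq (hp : p.Prime) (hqp : (q : ℕ) ≠ p) (hdet : ρ.DetIsCyclotomic p)
    (hp0 : (p : A') = 0) {τ : primeLocalGaloisGroup q} (hτ : τ ∈ locInertia q) :
    LinearMap.det (ρ.ρ (primeLocalToGlobal q τ)) = 1 :=
  det_inertia_eq ρ hp q.2 hqp hdet hp0 _ (helper74.primeLocalPlace_liesOverPrime q)
    (mem_locInertia.mp hτ)

end Local

end Fermat.Agent.P1.helper15
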