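import Fermat.Agent.P1.helper63_ECDefs2
import Fermat.Agent.S55.helper92_SmoothLevel
import Fermat.Agent.S55.AInterface

/-!
# P1 / module EC, package [EC-TOP-GEN] (helper15, task 740)

`ecGenOut` : the general Euler characteristic inequality `ECGenOut p T` from `FinOut`,
`TateGeOut`, `PTEndGeOut` and `ArchOut` (arithmetic of integers).

For `N` finite smooth and `N' = dualT p N`:
* `TateGeOut` for `N'` : `h²(N') + h⁰(N') + dim N' ≤ h¹(N') + h⁰(ℝ, N')`;
* `PTEndGeOut` for `N` : `dim Ш¹(N) + ∑_v h⁰(G_v, N) ≤ h²(N') + h⁰(N)`;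
* `ArchOut` for `N`    : `h⁰(ℝ, N') + h⁰(ℝ, N) = dim N = dim N'`.
-/

set_option autoImplicit false

open groupCohomology ExtCitation

namespace Fermat.Agent.P1.helper15

open Fermat.Agent.S55 Fermat.Agent.P1.helper70 Fermat.Agent.P1.helper63

section Arith

variable (p : ℕ) [Fact p.Prime] (T : Finset Nat.Primes)

/-- The twisted dual of a finite module is finite. -/
theorem finite_dualT (N : Rep.{0} (ZMod p) GQ) (hN : Module.Finite (ZMod p) N) :
    Module.Finite (ZMod p) (dualT p N) := by
  change Module.Finite (ZMod p) (Module.Dual (ZMod p) N)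
  infer_instance

/-- The twisted dual of a smooth module is smooth (`p ∈ T`). -/
theorem isSmooth_dualT (hpT : pPrime p ∈ T) (N : Rep.{0} (ZMod p) GQ)
    (hsm : IsSmooth (galLevels T) N) : IsSmooth (galLevels T) (dualT p N) :=
  isSmooth_dualTwist (helper92.levelStatement p T hpT).2 hsm

/-- `dim N' = dim N`. -/
theorem finrank_dualT (N : Rep.{0} (ZMod p) GQ) (_hN : Module.Finite (ZMod p) N) :
    Module.finrank (ZMod p) (dualT p N) = Module.finrank (ZMod p) N := by
  change Module.finrank (ZMod p) (Module.Dual (ZMod p) N) = _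
  exact Subspace.dual_finrank_eq

/-- **EC-TOP-GEN**: the general Euler characteristic inequality. -/
theorem ecGenOut (hpT : pPrime p ∈ T) (hF : FinOut p T) (hTate : TateGeOut p T)
    (hGe : PTEndGeOut p T) (hArch : ArchOut p) : ECGenOut p T := by
  intro N hN hsm
  have hN' := finite_dualT p N hN
  have hsm' := isSmooth_dualT p T hpT N hsm
  refine ⟨(hF N hN hsm).1, (hF (dualT p N) hN' hsm').1, ?_⟩
  have h1 := hTate (dualT p N) hN' hsm'
  have h2 := hGe N hN hsm
  have h3 := hArch N hN
  have h4 := finrank_dualT p N hN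
  unfold tateDefect at h1
  rw [h4] at h1
  omega

end Arith

end Fermat.Agent.P1.helper15
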