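import Fermat.Agent.P1.helper30_FlatCntL3

/-!
# P1 / FLAT-CNT layer 3, package [BDD-GP] (helper15, task 786)

`bddGp p : helper30.BddGpStatement p`: the field cut out by a flat `ρ` (modulo `⊥`) has the
embedding property (`helper70.FlatEmb p ρ ⊥`), hence `(BD')` = `helper30.FCBdStatement p`
applies to it and gives the `bdd` clause `IsBddGp p (locAct p ρ)`.
-/

set_option autoImplicit false
set_option linter.style.haveILetI false

open IsLocalRing ExtCitation groupCohomology

noncomputable section

namespace Fermat.Agent.P1.helper15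

open Fermat.Agent.S55 Fermat.Agent.P1.helper30
open Fermat.Agent.S55.helper8 Fermat.Agent.S55.helper7

/-- The action on `V / (⊥ • ⊤)` is trivial iff the action on `V` is trivial. -/
theorem levelAction_bot_fix_iff {A : Type} [CommRing A] [IsLocalRing A] (ρ : GaloisRepAdic A)
    (σ : AlgebraicClosure ℚ ≃ₐ[ℚ] AlgebraicClosure ℚ) :
    (∀ y : ρ.V ⧸ ((⊥ : Ideal A) • (⊤ : Submodule A ρ.V)), ρ.levelAction ⊥ σ y = y) ↔
      ∀ x : ρ.V, ρ.ρ σ x = x := by
  constructor
  · intro h x
    have h1 := h (Submodule.Quotient.mk x)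
    rw [GaloisRepAdic.levelAction, Submodule.mapQ_apply] at h1
    have h2 := (Submodule.Quotient.eq _).mp h1
    rw [Submodule.bot_smul, Submodule.mem_bot, sub_eq_zero] at h2
    exact h2
  · intro h y
    obtain ⟨x, rfl⟩ := Submodule.Quotient.mk_surjective _ y
    rw [GaloisRepAdic.levelAction, Submodule.mapQ_apply, h x]

variable (p : ℕ) [Fact p.Prime]

/-- **BDD-GP**. -/
theorem bddGp : Fermat.Agent.P1.helper30.BddGpStatement p := by
  intro hFC hKB A _ _ ρ hflat
  obtain ⟨L, hfd, hgal, hiff, hemb⟩ := hflat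
  intro T _ hedeg hζ hfix hpgrp f hadd hker
  have hact : ∀ g : Gp p, g ∈ L.fixingSubgroup ↔
      ∀ x, Fermat.Agent.P1.helper30.locAct p ρ g x = x := by
    intro g
    rw [IntermediateField.mem_fixingSubgroup_iff, hiff g]
    exact levelAction_bot_fix_iff ρ (localGaloisToGlobal p g)
  haveI := hfd
  haveI := hgal
  refine hFC hKB L hemb T (fun g hg => hfix g ((hact g).mp hg)) hedeg hζ
    (fun g hg => ?_) f hadd (fun g hg => hker g ((hact g).mp hg))
  obtain ⟨n, hn⟩ := hpgrp g hg
  exact ⟨n, (hact _).mpr hn⟩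

end Fermat.Agent.P1.helper15
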