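import Fermat.Agent.S55.Arith
import Fermat.Prelude.Def_GaloisRep_DeformationRingData
import Fermat.Prelude.Def_GaloisRep_StrictOrdinary
import Fermat.Prelude.Def_GaloisRep_Flat
import Fermat.Prelude.Def_GaloisRep_ComplexConjugation

/-!
# P1 (S56, Taylor-Wiles primes): shared definitions

* `Ad0 ρbar`, `ad0Rep p ρbar` : the trace-zero adjoint representation of a residual
  representation, as a `Rep (ZMod p) GQ` (S55 vocabulary);
* `primesOf T` : the `Finset Nat.Primes` of the primes in a `Finset ℕ`;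
* `IsTanLift`, `tanZ`, `locTanZ` : tangent cocycles of a deformation condition and their
  restrictions to the local Galois groups;
* `classes` : the image in `H¹` of a space of cocycles.

DEFINITIONS ONLY.
-/

set_option autoImplicit false

open IsLocalRing ExtCitation groupCohomology

noncomputable section

namespace Fermat.Agent.P1.helper70

open Fermat.Agent.S55

/-! ## The adjoint representation -/

section Ad0

variable {k : Type} [Field k] (ρbar : ResidualGaloisRep k)

/-- The carrier of `ad⁰ ρbar`: trace-zero `k`-endomorphisms of `ρbar.V`. -/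
def Ad0 : Type := ↥(LinearMap.ker (LinearMap.trace k ρbar.V))

instance : AddCommGroup (Ad0 ρbar) :=
  inferInstanceAs (AddCommGroup ↥(LinearMap.ker (LinearMap.trace k ρbar.V)))

instance : Module k (Ad0 ρbar) :=
  inferInstanceAs (Module k ↥(LinearMap.ker (LinearMap.trace k ρbar.V)))

instance : Module.Finite k (Ad0 ρbar) :=
  inferInstanceAs (Module.Finite k ↥(LinearMap.ker (LinearMap.trace k ρbar.V)))

/-- The underlying endomorphism of an element of `Ad0`. -/
def Ad0.toEnd : Ad0 ρbar →ₗ[k] Module.End k ρbar.V :=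
  (LinearMap.ker (LinearMap.trace k ρbar.V)).subtype

lemma Ad0.toEnd_injective : Function.Injective (Ad0.toEnd ρbar) :=
  Subtype.val_injective

lemma Ad0.trace_toEnd (x : Ad0 ρbar) : LinearMap.trace k ρbar.V (Ad0.toEnd ρbar x) = 0 :=
  x.2

/-- Conjugation by `ρbar g` on `End_k V`. -/
def conjEnd (g : GQ) : Module.End k ρbar.V →ₗ[k] Module.End k ρbar.V where
  toFun f := ρbar.ρ g * f * ρbar.ρ g⁻¹
  map_add' f f' := by rw [mul_add, add_mul]
  map_smul' c f := by
    rw [RingHom.id_apply, mul_smul_comm, smul_mul_assoc]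

lemma conjEnd_apply (g : GQ) (f : Module.End k ρbar.V) :
    conjEnd ρbar g f = ρbar.ρ g * f * ρbar.ρ g⁻¹ := rfl

lemma trace_conjEnd (g : GQ) (f : Module.End k ρbar.V) :
    LinearMap.trace k ρbar.V (conjEnd ρbar g f) = LinearMap.trace k ρbar.V f := by
  rw [conjEnd_apply, LinearMap.trace_mul_comm, ← mul_assoc, ← map_mul, inv_mul_cancel, map_one,
    one_mul]

/-- The adjoint action on `Ad0`, `k`-linearly. -/
def ad0Hom : GQ →* (Ad0 ρbar →ₗ[k] Ad0 ρbar) where
  toFun g := (conjEnd ρbar g).restrict (p := LinearMap.ker (LinearMap.trace k ρbar.V))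
    (q := LinearMap.ker (LinearMap.trace k ρbar.V)) (fun f hf => by
      rw [LinearMap.mem_ker] at hf ⊢
      rw [trace_conjEnd, hf])
  map_one' := by
    refine LinearMap.ext fun x => Subtype.ext ?_
    change conjEnd ρbar 1 x.1 = x.1
    rw [conjEnd_apply, inv_one, map_one, one_mul, mul_one]
  map_mul' g h := by
    refine LinearMap.ext fun x => Subtype.ext ?_
    change conjEnd ρbar (g * h) x.1 = conjEnd ρbar g (conjEnd ρbar h x.1)
    rw [conjEnd_apply, conjEnd_apply, conjEnd_apply, mul_inv_rev, map_mul, map_mul]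
    simp only [mul_assoc]

lemma toEnd_ad0Hom (g : GQ) (x : Ad0 ρbar) :
    Ad0.toEnd ρbar (ad0Hom ρbar g x) = ρbar.ρ g * Ad0.toEnd ρbar x * ρbar.ρ g⁻¹ := rfl

variable (p : ℕ) [Fact p.Prime] [Algebra (ZMod p) k]

instance Ad0.zmodModule : Module (ZMod p) (Ad0 ρbar) :=
  Module.compHom (Ad0 ρbar) (algebraMap (ZMod p) k)

instance Ad0.isScalarTower : IsScalarTower (ZMod p) k (Ad0 ρbar) :=
  ⟨fun a b x => by
    change (a • b) • x = (algebraMap (ZMod p) k a) • (b • x)
    rw [Algebra.smul_def, mul_smul]⟩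

/-- `ad⁰ ρbar` as a representation of `GQ` over `ZMod p` (S55 vocabulary). -/
def ad0Rep : Rep (ZMod p) GQ :=
  Rep.of (X := Ad0 ρbar)
    { toFun := fun g => (ad0Hom ρbar g).restrictScalars (ZMod p)
      map_one' := by rw [map_one]; rfl
      map_mul' := fun g h => by rw [map_mul]; rfl }

lemma ad0Rep_ρ_apply (g : GQ) (x : Ad0 ρbar) :
    Ad0.toEnd ρbar ((ad0Rep ρbar p).ρ g x) = ρbar.ρ g * Ad0.toEnd ρbar x * ρbar.ρ g⁻¹ := rfl

end Ad0

/-! ## Sets of primes -/

/-- The primes of a finite set of natural numbers, as a `Finset Nat.Primes`. -/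
def primesOf (T : Finset ℕ) : Finset Nat.Primes :=
  (Finset.subtype Nat.Prime T : Finset {q : ℕ // q.Prime})

lemma mem_primesOf {T : Finset ℕ} {q : Nat.Primes} : q ∈ primesOf T ↔ (q : ℕ) ∈ T :=
  Finset.mem_subtype

/-! ## Classes of cocycles -/

section Classes

variable {k G : Type} [CommRing k] [Group G] (𝒩 : Levels G) (A : Rep k G)

/-- The image in `H¹` of a space of cochains (intersected with the level cocycles). -/
def classes (L : Submodule k (G → A)) : Submodule k (H1 𝒩 A) :=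
  (L.comap (Z1 𝒩 A).subtype).map (Submodule.mkQ _)

end Classes

/-! ## Tangent cocycles of a deformation condition -/

section Tangent

variable {𝒪 : Type} [CommRing 𝒪] [IsLocalRing 𝒪]
  (ρbar : ResidualGaloisRep (ResidueField 𝒪))

/-- `ρ` is the lift `(1 + ε c) ρbar` of `ρbar` to the dual numbers, in suitable bases. -/
def IsTanLift (ρ : GaloisRepAdic (DualNumber (ResidueField 𝒪))) (c : GQ → Ad0 ρbar) : Prop :=
  ∃ (b : Module.Basis (Fin 2) (DualNumber (ResidueField 𝒪)) ρ.V)
    (bbar : Module.Basis (Fin 2) (ResidueField 𝒪) ρbar.V),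
    ∀ g : GQ, LinearMap.toMatrix b b (ρ.ρ g) =
      (LinearMap.toMatrix bbar bbar (ρbar.ρ g)).map TrivSqZeroExt.inl +
      (LinearMap.toMatrix bbar bbar (Ad0.toEnd ρbar (c g) * ρbar.ρ g)).map TrivSqZeroExt.inr

variable (p : ℕ) [Fact p.Prime] [Algebra (ZMod p) (ResidueField 𝒪)]
  (𝒟 : ∀ ⦃A : Type⦄ [CommRing A] [IsLocalRing A] [Algebra 𝒪 A], GaloisRepAdic A → Prop)
  (T : Finset Nat.Primes)

/-- The tangent cocycles of `𝒟`: level-`T` cocycles `c` with values in `ad⁰` such that
`(1 + ε c) ρbar` is of type `𝒟`. -/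
def tanCocycles : Set (GQ → ad0Rep ρbar p) :=
  {c | c ∈ Z1 (galLevels T) (ad0Rep ρbar p) ∧
    ∃ ρ : GaloisRepAdic (DualNumber (ResidueField 𝒪)), 𝒟 ρ ∧ IsTanLift ρbar ρ c}

/-- The span of the tangent cocycles, together with the coboundaries. -/
def tanZ : Submodule (ZMod p) (GQ → ad0Rep ρbar p) :=
  Submodule.span (ZMod p) (tanCocycles ρbar p 𝒟 T) ⊔ B1 (ad0Rep ρbar p)

/-- The tangent classes: the image of `tanZ` in `H¹(G_T, ad⁰)`. -/
def tanH : Submodule (ZMod p) (H1 (galLevels T) (ad0Rep ρbar p)) :=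
  classes (galLevels T) (ad0Rep ρbar p) (tanZ ρbar p 𝒟 T)

/-- The local tangent cocycles at `v ∈ T`: restrictions of `tanZ`, plus local coboundaries. -/
def locTanZ (v : ↥T) :
    Submodule (ZMod p) ((galLocal T).Gv v → (galLocal T).loc (ad0Rep ρbar p) v) :=
  (tanZ ρbar p 𝒟 T).map (res₁ (galLocal T) (ad0Rep ρbar p) v) ⊔
    B1 ((galLocal T).loc (ad0Rep ρbar p) v)

/-- The local tangent classes at `v ∈ T`. -/
def locTanH (v : ↥T) :
    Submodule (ZMod p) (H1 ((galLocal T).lev v) ((galLocal T).loc (ad0Rep ρbar p) v)) :=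
  classes ((galLocal T).lev v) ((galLocal T).loc (ad0Rep ρbar p) v) (locTanZ ρbar p 𝒟 T v)

end Tangent

end Fermat.Agent.P1.helper70
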