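import Mathlib
import Fermat.Agent.P1.helper70_Defs
import Fermat.Prelude.Def_EllipticCurve_FrobeniusTrace

/-!
# P1 (S56), module LQ: local terms at the primes `q ≠ p` - shared definitions and the exact
statements of the packages (helper24, sub-coordinator)

Vocabulary: `Fermat.Agent.S55` (`Levels`, `Z1`, `B1`, `H0`, `H1`, `IsSmooth`, `locLevels`).

* `TameStructure 𝒩 I σ q` : the abstract structure of a local Galois group at `q` that the
  cohomological computations use: a normal subgroup `I` (inertia), an element `σ` (a Frobenius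
  lift) generating `G / I` modulo every level, and for every level `N` a subgroup `P` of `I`
  (wild inertia modulo `N`) which is a `q`-group modulo `N`, with `I / P` cyclic and
  `σ i σ⁻¹ ≡ i ^ q` modulo `P`;
* `locInertia q` : the inertia subgroup of the Prelude's local Galois group at `q`;
* `wildInertia Γ 𝔓` : the wild inertia subgroup at a prime `𝔓` for a group acting on a ring;
* `unramCochains A I` : cochains which are coboundaries on `I`;
* the package statements `TameFinWildStatement`, `TameFinCyclicStatement`,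
  `TameFinFrobStatement`, `TameFinGenStatement`, `TameStatement`, `FrobExistsStatement`,
  `UnramBoundStatement`, `TameBoundStatement`, `TraceFormStatement`, `CentralizerStatement`,
  `UnipotentOrderStatement`.

DEFINITIONS ONLY (plus the subgroup / submodule axioms of the definitions).
-/

set_option autoImplicit false

open Fermat.Agent.S55 Fermat.Agent.P1.helper70 ExtCitation
open scoped Pointwise

noncomputable section

namespace Fermat.Agent.P1.helper24

/-! ## The abstract structure of a local Galois group at `q` -/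

/-- The structure of the local Galois group at `q` used by module LQ: `I` = inertia,
`σ` = a Frobenius lift, `q` = the residue characteristic. For every level `N`, the subgroup `P`
plays the role of the preimage of the wild inertia group of the finite quotient `G / N`. -/
structure TameStructure {G : Type} [Group G] (𝒩 : Levels G) (I : Subgroup G) (σ : G) (q : ℕ) :
    Prop where
  /-- inertia is normal -/
  normal : I.Normal
  /-- modulo every level, `G` is generated by `σ` and `I` -/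
  gen : ∀ N ∈ 𝒩.mem, ∀ g : G, ∃ n : ℕ, ∃ i ∈ I, ∃ s ∈ N, g = σ ^ n * i * s
  /-- the tame structure of inertia modulo every level -/
  tame : ∀ N ∈ 𝒩.mem, ∃ P : Subgroup G, P ≤ I ∧ N ⊓ I ≤ P ∧
    (∀ i ∈ I, ∀ x ∈ P, i * x * i⁻¹ ∈ P) ∧
    (∀ x ∈ P, ∃ a : ℕ, x ^ q ^ a ∈ N) ∧
    (∃ τ ∈ I, ∀ i ∈ I, ∃ n : ℕ, (τ ^ n)⁻¹ * i ∈ P) ∧
    (∀ i ∈ I, σ * i * σ⁻¹ * (i ^ q)⁻¹ ∈ P)

/-- The inertia subgroup of the Prelude's local Galois group at `q`: the preimage of the inertia
group of `primeLocalPlace q`. -/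
def locInertia (q : Nat.Primes) : Subgroup (primeLocalGaloisGroup q) :=
  ((primeLocalPlace q).inertiaSubgroupIn ℚ).comap (primeLocalToGlobal q)

/-- The wild inertia subgroup at `𝔓`: the elements of the inertia group acting trivially on
`𝔓 / 𝔓 ^ 2`. -/
def wildInertia {B : Type} [CommRing B] (Γ : Type) [Group Γ] [MulSemiringAction Γ B]
    (𝔓 : Ideal B) : Subgroup Γ where
  carrier := {g | g ∈ 𝔓.inertia Γ ∧ ∀ x ∈ 𝔓, g • x - x ∈ 𝔓 ^ 2}
  one_mem' := ⟨one_mem _, fun x _ => by simp⟩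
  mul_mem' := by
    rintro g h ⟨hg, hg'⟩ ⟨hh, hh'⟩
    refine ⟨mul_mem hg hh, fun x hx => ?_⟩
    have h1 : h • x ∈ 𝔓 := by
      have := hh x
      rw [Submodule.mem_toAddSubgroup] at this
      simpa using 𝔓.add_mem this hx
    have h2 : (g * h) • x - x = (g • (h • x) - h • x) + (h • x - x) := by
      rw [mul_smul]; ring
    rw [h2]
    exact (𝔓 ^ 2).add_mem (hg' _ h1) (hh' x hx)
  inv_mem' := by
    rintro g ⟨hg, hg'⟩
    refine ⟨inv_mem hg, fun x hx => ?_⟩
    have h1 : g⁻¹ • x ∈ 𝔓 := by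
      have := (inv_mem hg : g⁻¹ ∈ 𝔓.inertia Γ) x
      rw [Submodule.mem_toAddSubgroup] at this
      simpa using 𝔓.add_mem this hx
    have h2 : g⁻¹ • x - x = -(g • (g⁻¹ • x) - g⁻¹ • x) := by
      rw [smul_inv_smul]; ring
    rw [h2]
    exact (𝔓 ^ 2).neg_mem (hg' _ h1)

lemma mem_wildInertia {B : Type} [CommRing B] {Γ : Type} [Group Γ] [MulSemiringAction Γ B]
    {𝔓 : Ideal B} {g : Γ} :
    g ∈ wildInertia Γ 𝔓 ↔ g ∈ 𝔓.inertia Γ ∧ ∀ x ∈ 𝔓, g • x - x ∈ 𝔓 ^ 2 := Iff.rfl

lemma wildInertia_le {B : Type} [CommRing B] (Γ : Type) [Group Γ] [MulSemiringAction Γ B]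
    (𝔓 : Ideal B) : wildInertia Γ 𝔓 ≤ 𝔓.inertia Γ := fun _ h => h.1

/-! ## Package TAME-FIN (Mathlib only): a finite group acting on a Dedekind domain -/

/-- **[TAMEFIN-W]** the wild inertia group is a `q`-group. -/
def TameFinWildStatement : Prop :=
  ∀ (B : Type) [CommRing B] [IsDedekindDomain B] (Γ : Type) [Group Γ] [Finite Γ]
    [MulSemiringAction Γ B] [FaithfulSMul Γ B] (𝔓 : Ideal B) [𝔓.IsMaximal] (q : ℕ),
    q.Prime → (q : B) ∈ 𝔓 → ∀ x ∈ wildInertia Γ 𝔓, ∃ a : ℕ, x ^ q ^ a = 1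

/-- **[TAMEFIN-C]** inertia modulo wild inertia is cyclic. -/
def TameFinCyclicStatement : Prop :=
  ∀ (B : Type) [CommRing B] [IsDedekindDomain B] (Γ : Type) [Group Γ] [Finite Γ]
    [MulSemiringAction Γ B] (𝔓 : Ideal B) [𝔓.IsMaximal], 𝔓 ≠ ⊥ →
    ∃ τ ∈ 𝔓.inertia Γ, ∀ i ∈ 𝔓.inertia Γ, ∃ n : ℕ, (τ ^ n)⁻¹ * i ∈ wildInertia Γ 𝔓

/-- **[TAMEFIN-F]** a Frobenius element acts on tame inertia by the `q`-th power. -/
def TameFinFrobStatement : Prop :=
  ∀ (B : Type) [CommRing B] [IsDedekindDomain B] (Γ : Type) [Group Γ] [Finite Γ]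
    [MulSemiringAction Γ B] (𝔓 : Ideal B) [𝔓.IsMaximal] (q : ℕ), 𝔓 ≠ ⊥ →
    ∀ σ : Γ, σ • 𝔓 = 𝔓 → (∀ x : B, σ • x - x ^ q ∈ 𝔓) →
      ∀ i ∈ 𝔓.inertia Γ, σ * i * σ⁻¹ * (i ^ q)⁻¹ ∈ wildInertia Γ 𝔓

/-- **[TAMEFIN-G]** the decomposition group is generated by a Frobenius element modulo inertia. -/
def TameFinGenStatement : Prop :=
  ∀ (B : Type) [CommRing B] (Γ : Type) [Group Γ] [Finite Γ]
    [MulSemiringAction Γ B] (𝔓 : Ideal B) [𝔓.IsMaximal] [Finite (B ⧸ 𝔓)] (q : ℕ),
    q.Prime → (q : B) ∈ 𝔓 →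
    ∀ σ : Γ, σ • 𝔓 = 𝔓 → (∀ x : B, σ • x - x ^ q ∈ 𝔓) →
      ∀ g : Γ, g • 𝔓 = 𝔓 → ∃ n : ℕ, (σ ^ n)⁻¹ * g ∈ 𝔓.inertia Γ

/-! ## Package TAME-GLOB: the local Galois group at `q` -/

/-- **[TAME-GLOB]** the Prelude's local Galois group at `q` with the levels `locLevels q` has a
tame structure for every Frobenius lift. -/
def TameStatement : Prop :=
  ∀ (q : Nat.Primes) (σ : primeLocalGaloisGroup q),
    (primeLocalPlace q).IsFrobeniusAt (primeLocalToGlobal q σ) (q : ℕ) →
      TameStructure (locLevels q) (locInertia q) σ (q : ℕ)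

/-- **[FROB-EX]** Frobenius lifts exist in the local Galois group. -/
def FrobExistsStatement : Prop :=
  ∀ q : Nat.Primes, ∃ σ : primeLocalGaloisGroup q,
    (primeLocalPlace q).IsFrobeniusAt (primeLocalToGlobal q σ) (q : ℕ)

/-! ## Abstract cohomology -/

/-- Cochains which are coboundaries on `I`: `c i = i m - m` for one `m` and all `i ∈ I`
("unramified up to a coboundary"). -/
def unramCochains {k G : Type} [CommRing k] [Group G] (A : Rep k G) (I : Subgroup G) :
    Submodule k (G → A) where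
  carrier := {c | ∃ m : A, ∀ i ∈ I, c i = A.ρ i m - m}
  add_mem' := by
    rintro c c' ⟨m, hm⟩ ⟨m', hm'⟩
    refine ⟨m + m', fun i hi => ?_⟩
    rw [Pi.add_apply, hm i hi, hm' i hi, map_add]
    abel
  zero_mem' := ⟨0, fun i _ => by simp⟩
  smul_mem' := by
    rintro a c ⟨m, hm⟩
    refine ⟨a • m, fun i hi => ?_⟩
    rw [Pi.smul_apply, hm i hi, map_smul, smul_sub]

lemma mem_unramCochains {k G : Type} [CommRing k] [Group G] {A : Rep k G} {I : Subgroup G}
    {c : G → A} : c ∈ unramCochains A I ↔ ∃ m : A, ∀ i ∈ I, c i = A.ρ i m - m := Iff.rfl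

/-- **[LQ-UR]** classes which are unramified up to a coboundary span a space of dimension at most
`h⁰` (`classes` = `Fermat.Agent.P1.helper70.classes`). -/
def UnramBoundStatement : Prop :=
  ∀ (k G : Type) [Field k] [Group G] (𝒩 : Levels G) (I : Subgroup G) (σ : G), I.Normal →
    (∀ N ∈ 𝒩.mem, ∀ g : G, ∃ n : ℕ, ∃ i ∈ I, ∃ s ∈ N, g = σ ^ n * i * s) →
    ∀ A : Rep k G, Module.Finite k A → IsSmooth 𝒩 A →
      Module.Finite k ↥(classes 𝒩 A (unramCochains A I)) ∧
        Module.finrank k ↥(classes 𝒩 A (unramCochains A I)) ≤ Module.finrank k ↥(H0 A)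

/-- **[LQ-TB]** for a module unramified at `q ≡ 1 mod p`: `h¹ ≤ 2 h⁰`. -/
def TameBoundStatement : Prop :=
  ∀ (p q : ℕ) [Fact p.Prime], (q : ZMod p) = 1 →
    ∀ (G : Type) [Group G] (𝒩 : Levels G) (I : Subgroup G) (σ : G), TameStructure 𝒩 I σ q →
    ∀ A : Rep (ZMod p) G, Module.Finite (ZMod p) A → IsSmooth 𝒩 A → (∀ i ∈ I, A.ρ i = 1) →
      Module.Finite (ZMod p) (H1 𝒩 A) ∧
        Module.finrank (ZMod p) (H1 𝒩 A) ≤ 2 * Module.finrank (ZMod p) ↥(H0 A)

/-! ## Linear algebra -/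

/-- **[LQ-LIN-1]** trace form: for a unipotent `u ≠ 1` on a plane over a field with `2 ≠ 0`,
a trace-zero endomorphism `X` with `tr (X u) = 0` is of the form `u Y u⁻¹ - Y` with `tr Y = 0`.
(`u⁻¹ = 2 - u`.) -/
def TraceFormStatement : Prop :=
  ∀ (k V : Type) [Field k] [AddCommGroup V] [Module k V], Module.finrank k V = 2 →
    (2 : k) ≠ 0 → ∀ u : Module.End k V, (u - 1) * (u - 1) = 0 → u ≠ 1 →
    ∀ X : Module.End k V, LinearMap.trace k V X = 0 → LinearMap.trace k V (X * u) = 0 →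
      ∃ Y : Module.End k V, LinearMap.trace k V Y = 0 ∧ X = u * Y * (2 - u) - Y

/-- **[LQ-LIN-2]** the centraliser of a regular semisimple element in the trace-zero
endomorphisms of a plane is a line. -/
def CentralizerStatement : Prop :=
  ∀ (k V : Type) [Field k] [AddCommGroup V] [Module k V] [Module.Finite k V],
    Module.finrank k V = 2 → ∀ (g : Module.End k V) (α β : k), α ≠ β →
      LinearMap.charpoly g = (Polynomial.X - Polynomial.C α) * (Polynomial.X - Polynomial.C β) →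
      ∀ W : Submodule k (Module.End k V),
        (∀ X, X ∈ W ↔ LinearMap.trace k V X = 0 ∧ g * X = X * g) → Module.finrank k W = 1

/-- **[LQ-LIN-3]** an endomorphism of a free module of rank 2 over a ring of characteristic `p`
with characteristic polynomial `(X - 1) ^ 2` has order dividing `p`. -/
def UnipotentOrderStatement : Prop :=
  ∀ (p : ℕ) (R M : Type) [CommRing R] [CharP R p] [AddCommGroup M] [Module R M]
    [Module.Free R M] [Module.Finite R M], p.Prime →
    ∀ f : Module.End R M, LinearMap.charpoly f = (Polynomial.X - 1) ^ 2 → f ^ p = 1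

end Fermat.Agent.P1.helper24
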