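import Mathlib
import Fermat.Agent.P1.helper24_LQDefs

/-!
# P1 (S56), module LQ, package TAMEFIN-G (helper15)

For a finite group `Γ` acting on a commutative ring `B`, a maximal ideal `𝔓` with finite residue
field of characteristic `q` and a Frobenius element `σ` at `𝔓`, the decomposition group of `𝔓`
is generated by `σ` modulo the inertia group: `helper24.TameFinGenStatement`.
-/

set_option autoImplicit false
set_option linter.style.haveILetI false
set_option linter.unusedSectionVars false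
set_option linter.unusedVariables false

open scoped Pointwise

noncomputable section

namespace Fermat.Agent.P1.helper15

/-- an element stabilising `𝔓` maps `𝔓` into itself -/
theorem smul_mem_of_smul_eq {B : Type} [CommRing B] {Γ : Type} [Group Γ] [MulSemiringAction Γ B]
    {𝔓 : Ideal B} {h : Γ} (hh : h • 𝔓 = 𝔓) {y : B} (hy : y ∈ 𝔓) : h • y ∈ 𝔓 := by
  have h1 : h • y ∈ h • 𝔓 := Ideal.smul_mem_pointwise_smul _ _ _ hy
  rwa [hh] at h1

/-- the stabiliser of `𝔓` is closed under inverses of powers -/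
theorem inv_pow_smul_eq {B : Type} [CommRing B] {Γ : Type} [Group Γ] [MulSemiringAction Γ B]
    {𝔓 : Ideal B} {σ : Γ} (hσ : σ • 𝔓 = 𝔓) (n : ℕ) : (σ ^ n)⁻¹ • 𝔓 = 𝔓 := by
  have h1 : σ ∈ MulAction.stabilizer Γ 𝔓 := MulAction.mem_stabilizer_iff.2 hσ
  have h2 : (σ ^ n)⁻¹ ∈ MulAction.stabilizer Γ 𝔓 := inv_mem (pow_mem h1 n)
  exact MulAction.mem_stabilizer_iff.1 h2

/-- **[TAMEFIN-G]** the decomposition group is generated by a Frobenius element modulo
inertia. -/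
theorem tameFinGen : helper24.TameFinGenStatement := by
  intro B _ Γ _ _ _ 𝔓 _ _ q hq hq𝔓 σ hσ hfrob g hg
  haveI : Fact q.Prime := ⟨hq⟩
  letI : Field (B ⧸ 𝔓) := Ideal.Quotient.field 𝔓
  have hq0 : ((q : ℕ) : B ⧸ 𝔓) = 0 := by
    have : ((q : ℕ) : B ⧸ 𝔓) = Ideal.Quotient.mk 𝔓 ((q : ℕ) : B) := by
      rw [map_natCast]
    rw [this]
    exact Ideal.Quotient.eq_zero_iff_mem.2 hq𝔓
  haveI : CharP (B ⧸ 𝔓) q := (CharP.charP_iff_prime_eq_zero hq).2 hq0
  letI : Algebra (ZMod q) (B ⧸ 𝔓) := ZMod.algebra _ q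
  -- the automorphism induced by `g` on the residue field
  let φ : (B ⧸ 𝔓) →+* (B ⧸ 𝔓) :=
    Ideal.quotientMap 𝔓 (MulSemiringAction.toRingHom Γ B g)
      (fun y hy => smul_mem_of_smul_eq hg hy)
  have hφ : ∀ x : B, φ (Ideal.Quotient.mk 𝔓 x) = Ideal.Quotient.mk 𝔓 (g • x) := fun x => rfl
  let ψ : (B ⧸ 𝔓) →ₐ[ZMod q] (B ⧸ 𝔓) :=
    { φ with
      commutes' := fun r =>
        RingHom.congr_fun (Subsingleton.elim (φ.comp (algebraMap (ZMod q) (B ⧸ 𝔓)))
          (algebraMap (ZMod q) (B ⧸ 𝔓))) r }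
  have hψ : ∀ x : B, ψ (Ideal.Quotient.mk 𝔓 x) = Ideal.Quotient.mk 𝔓 (g • x) := hφ
  obtain ⟨⟨n, hn⟩, hψn⟩ := (FiniteField.bijective_frobeniusAlgHom_pow (ZMod q) (B ⧸ 𝔓)).2 ψ
  refine ⟨n, ?_⟩
  intro x
  have h1 : Ideal.Quotient.mk 𝔓 (g • x) = (Ideal.Quotient.mk 𝔓 x) ^ (q ^ n) := by
    have h := congrArg (fun f : (B ⧸ 𝔓) →ₐ[ZMod q] (B ⧸ 𝔓) => f (Ideal.Quotient.mk 𝔓 x)) hψn
    simp only at h
    rw [hψ, AlgHom.coe_pow, FiniteField.coe_frobeniusAlgHom, pow_iterate, ZMod.card] at h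
    exact h.symm
  have h2 : ∀ (m : ℕ) (y : B),
      Ideal.Quotient.mk 𝔓 (σ ^ m • y) = (Ideal.Quotient.mk 𝔓 y) ^ (q ^ m) := by
    intro m
    induction m with
    | zero => intro y; simp
    | succ k ih =>
      intro y
      have h3 : Ideal.Quotient.mk 𝔓 (σ • (σ ^ k • y)) =
          (Ideal.Quotient.mk 𝔓 (σ ^ k • y)) ^ q := by
        rw [← map_pow]
        exact Ideal.Quotient.eq.2 (hfrob _)
      rw [pow_succ', mul_smul, h3, ih, ← pow_mul, pow_succ]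
  have h3 : g • x - σ ^ n • x ∈ 𝔓 := Ideal.Quotient.eq.1 (h1.trans (h2 n x).symm)
  have h5 := smul_mem_of_smul_eq (inv_pow_smul_eq hσ n) h3
  rw [smul_sub, inv_smul_smul, ← mul_smul] at h5
  exact h5

end Fermat.Agent.P1.helper15
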