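import Fermat.Agent.P1.helper56_CocDefs

/-!
# P1 / S56, package COC-BC2 (helper17): `IsStrictOrdinaryAt` is stable under base change

`bcStrictOrd : helper56.BCStrictOrdStatement` : for local rings `A`, `B`, a local homomorphism
`φ : A →+* B` and `ρ : GaloisRepAdic A`, strict ordinarity at `p` passes to
`ρ.baseChangeAlong φ hφ`.  The line is `B ∙ (1 ⊗ b 0)`, the characters are `φ x`, `φ z`.
-/

set_option autoImplicit false

open scoped TensorProduct

namespace Fermat.Agent.P1.helper17

section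

variable {A B : Type} [CommRing A] [CommRing B] [Algebra A B]
  {V : Type} [AddCommGroup V] [Module A V]

/-- pure tensors with second factor in the line `A ∙ v₀` lie in the line `B ∙ (1 ⊗ v₀)` -/
lemma tmul_mem_span_one_tmul (v₀ : V) (c : B) {v : V} (hv : v ∈ Submodule.span A {v₀}) :
    c ⊗ₜ[A] v ∈ Submodule.span B {(1 : B) ⊗ₜ[A] v₀} := by
  obtain ⟨a, rfl⟩ := Submodule.mem_span_singleton.mp hv
  have h : c ⊗ₜ[A] (a • v₀) = (c * algebraMap A B a) • ((1 : B) ⊗ₜ[A] v₀) := by
    rw [TensorProduct.smul_tmul', smul_eq_mul, mul_one, ← TensorProduct.smul_tmul,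
      Algebra.smul_def, mul_comm]
  rw [h]
  exact Submodule.smul_mem _ _ (Submodule.mem_span_singleton_self _)

/-- a linear map whose defect from a scalar `z` lies in the line `A ∙ v₀` base-changes to a
linear map whose defect from `algebraMap z` lies in the line `B ∙ (1 ⊗ v₀)` -/
lemma baseChange_sub_smul_mem (f : V →ₗ[A] V) (v₀ : V) (z : A)
    (h : ∀ v : V, f v - z • v ∈ Submodule.span A {v₀}) (w : B ⊗[A] V) :
    f.baseChange B w - algebraMap A B z • w ∈ Submodule.span B {(1 : B) ⊗ₜ[A] v₀} := by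
  induction w using TensorProduct.induction_on with
  | zero => simp
  | tmul c v =>
    have h1 : f.baseChange B (c ⊗ₜ[A] v) - algebraMap A B z • (c ⊗ₜ[A] v)
        = c ⊗ₜ[A] (f v - z • v) := by
      rw [LinearMap.baseChange_tmul, TensorProduct.tmul_sub, TensorProduct.smul_tmul',
        smul_eq_mul, ← Algebra.smul_def, TensorProduct.smul_tmul]
    rw [h1]
    exact tmul_mem_span_one_tmul v₀ c (h v)
  | add x y hx hy =>
    have h1 : f.baseChange B (x + y) - algebraMap A B z • (x + y)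
        = (f.baseChange B x - algebraMap A B z • x)
          + (f.baseChange B y - algebraMap A B z • y) := by
      rw [map_add, smul_add]; abel
    rw [h1]
    exact Submodule.add_mem _ hx hy

/-- the case `z = 1` of `baseChange_sub_smul_mem` -/
lemma baseChange_sub_mem (f : V →ₗ[A] V) (v₀ : V)
    (h : ∀ v : V, f v - v ∈ Submodule.span A {v₀}) (w : B ⊗[A] V) :
    f.baseChange B w - w ∈ Submodule.span B {(1 : B) ⊗ₜ[A] v₀} := by
  have h1 := baseChange_sub_smul_mem (B := B) f v₀ 1 (fun v => by rw [one_smul]; exact h v) w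
  rw [map_one, one_smul] at h1
  exact h1

/-- the base change of a map preserving the line `A ∙ v₀` and acting on it by `x` acts on the
line `B ∙ (1 ⊗ v₀)` by `algebraMap x` -/
lemma baseChange_eq_smul_of_mem (f : V →ₗ[A] V) (v₀ : V) (x : A)
    (h : ∀ v ∈ Submodule.span A {v₀}, f v = x • v) {w : B ⊗[A] V}
    (hw : w ∈ Submodule.span B {(1 : B) ⊗ₜ[A] v₀}) :
    f.baseChange B w = algebraMap A B x • w := by
  obtain ⟨c, rfl⟩ := Submodule.mem_span_singleton.mp hw
  rw [map_smul, LinearMap.baseChange_tmul, h v₀ (Submodule.mem_span_singleton_self _),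
    smul_comm]
  congr 1
  rw [TensorProduct.smul_tmul', smul_eq_mul, mul_one, ← TensorProduct.smul_tmul,
    Algebra.smul_def, mul_one]

/-- the whole local condition of strict ordinarity, for an abstract family of endomorphisms,
passes to the base change -/
theorem strictOrd_baseChange_aux {G : Type*} (r : G → (V →ₗ[A] V)) (D I : Set G)
    (cond : G → ℕ → ℕ → Prop) (p : ℕ)
    (h : ∃ L : Submodule A V,
      (∃ b : Module.Basis (Fin 2) A V, L = Submodule.span A {b 0}) ∧
      (∀ σ ∈ D, ∀ v ∈ L, r σ v ∈ L) ∧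
      (∀ σ ∈ I, ∀ v : V, r σ v - v ∈ L) ∧
      (∀ σ ∈ D, ∃ x z : A,
        (∀ w ∈ L, r σ w = x • w) ∧ (∀ v : V, r σ v - z • v ∈ L) ∧
        ∀ (n a : ℕ), cond σ n a → x - (a : A) * z ∈ Ideal.span {((p ^ n : ℕ) : A)})) :
    ∃ L : Submodule B (B ⊗[A] V),
      (∃ b : Module.Basis (Fin 2) B (B ⊗[A] V), L = Submodule.span B {b 0}) ∧
      (∀ σ ∈ D, ∀ v ∈ L, (r σ).baseChange B v ∈ L) ∧
      (∀ σ ∈ I, ∀ v : B ⊗[A] V, (r σ).baseChange B v - v ∈ L) ∧
      (∀ σ ∈ D, ∃ x z : B,
        (∀ w ∈ L, (r σ).baseChange B w = x • w) ∧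
        (∀ v : B ⊗[A] V, (r σ).baseChange B v - z • v ∈ L) ∧
        ∀ (n a : ℕ), cond σ n a → x - (a : B) * z ∈ Ideal.span {((p ^ n : ℕ) : B)}) := by
  obtain ⟨L, ⟨b, hL⟩, hD, hI, hχ⟩ := h
  subst hL
  refine ⟨Submodule.span B {(1 : B) ⊗ₜ[A] b 0},
    ⟨Algebra.TensorProduct.basis B b, by rw [Algebra.TensorProduct.basis_apply]⟩, ?_, ?_, ?_⟩
  · -- stability under the decomposition group
    intro σ hσ w hw
    obtain ⟨c, rfl⟩ := Submodule.mem_span_singleton.mp hw
    rw [map_smul, LinearMap.baseChange_tmul]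
    exact Submodule.smul_mem _ _ (tmul_mem_span_one_tmul (b 0) 1
      (hD σ hσ (b 0) (Submodule.mem_span_singleton_self _)))
  · -- inertia acts trivially on the quotient
    intro σ hσ w
    exact baseChange_sub_mem (r σ) (b 0) (hI σ hσ) w
  · -- the two characters
    intro σ hσ
    obtain ⟨x, z, hx, hz, hxz⟩ := hχ σ hσ
    refine ⟨algebraMap A B x, algebraMap A B z, ?_, ?_, ?_⟩
    · intro w hw
      exact baseChange_eq_smul_of_mem (r σ) (b 0) x hx hw
    · intro w
      exact baseChange_sub_smul_mem (r σ) (b 0) z hz w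
    · intro n a ha
      have h1 := hxz n a ha
      rw [Ideal.mem_span_singleton] at h1 ⊢
      have h2 := map_dvd (algebraMap A B) h1
      rw [map_sub, map_mul, map_natCast, map_natCast] at h2
      exact h2

end

/-- **[COC-BC2]** `IsStrictOrdinaryAt` is stable under base change along local homomorphisms. -/
theorem bcStrictOrd : Fermat.Agent.P1.helper56.BCStrictOrdStatement := by
  intro A B _ _ _ _ φ hφ ρ p h
  obtain ⟨hp, hP⟩ := h
  refine ⟨?_, ?_⟩
  · have h1 : (p : B) = φ (p : A) := (map_natCast φ p).symm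
    rw [h1]
    exact haveI := hφ; map_nonunit φ _ hp
  · intro P hPp
    exact @strictOrd_baseChange_aux A B _ _ φ.toAlgebra ρ.V _ _ _ (fun σ => ρ.ρ σ)
      (P.decompositionSubgroup ℚ) (P.inertiaSubgroupIn ℚ)
      (fun σ n a => ∀ μ : AlgebraicClosure ℚ, μ ^ p ^ n = 1 → σ μ = μ ^ a) p (hP P hPp)

end Fermat.Agent.P1.helper17
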