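import Fermat.Agent.P1.helper10_ECH3
import Fermat.Agent.S55.helper69_BArLev

/-!
# P1 / module EC, package LOC-H3 (helper17, task 733): `H³(G_v, X) = 0`

`locH3Out_of : LocH3Out p T` (interface `helper63_ECDefs2`), by the dévissage
`helper57.devissage` applied, for every `v ∈ T`, to the local Galois group
`(galLocal T).Gv v` with its levels `(galLocal T).lev v`, the character
`χ := χ_cyc ∘ r_v` and the property `P(X) := Z3 X ≤ B3 X`:

* finiteness of the local levels   : `finite_quotient_of_mem_locLevels`;
* a local level on which `χ = 1`   : `exists_locLevel_cycloChar` (from `helper92.levelStatement`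
                                     and `LocalData.compat`);
* `P` passes to retracts           : `helper10.h3_retractClosed`;
* `P` is closed under extensions   : `helper10.h3_extClosed`, from the statement of EC-LES-3
                                     (`h3_ext` of the blueprint) which enters as `hext`;
* base `P (k[G_v/U])`              : Shapiro's lemma in degree 3 (EC-SHAP, `shapiro_perm` of the
                                     blueprint) which enters as `hshap`, and `LocH3BaseOut`.
-/

set_option autoImplicit false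

open groupCohomology ExtCitation

noncomputable section

namespace Fermat.Agent.P1.helper17

open Fermat.Agent.S55 Fermat.Agent.P1.helper70 Fermat.Agent.P1.helper63

/-- the pull-back of a subgroup of finite index has finite index -/
theorem finiteIndex_comap_of_finiteIndex {G G' : Type*} [Group G] [Group G'] (f : G' →* G)
    (H : Subgroup G) [H.FiniteIndex] : (H.comap f).FiniteIndex := by
  refine ⟨?_⟩
  rw [Subgroup.index_comap]
  exact (Subgroup.instFiniteIndex_subgroupOf H f.range).index_ne_zero

/-- The local levels at `q` have finite index in the local Galois group. -/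
theorem finite_quotient_of_mem_locLevels (q : Nat.Primes)
    (N : Subgroup (primeLocalGaloisGroup q)) (hN : N ∈ (locLevels q).mem) :
    Finite (primeLocalGaloisGroup q ⧸ N) := by
  obtain ⟨F, hF, -, rfl⟩ := hN
  have h1 : F.fixingSubgroup.FiniteIndex := helper69.finiteIndex_fixingSubgroup F hF
  have h2 : (F.fixingSubgroup.comap (primeLocalToGlobal q)).FiniteIndex :=
    finiteIndex_comap_of_finiteIndex _ _
  infer_instance

section Arith

variable (p : ℕ) [Fact p.Prime] (T : Finset Nat.Primes)

/-- The levels of the local data `galLocal T` have finite index. -/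
theorem finite_quotient_of_mem_lev (v : ↥T) :
    ∀ N ∈ ((galLocal T).lev v).mem, Finite ((galLocal T).Gv v ⧸ N) :=
  fun N hN => finite_quotient_of_mem_locLevels v.1 N hN

/-- The cyclotomic character is trivial on some local level (`p ∈ T`). -/
theorem exists_locLevel_cycloChar (hpT : pPrime p ∈ T) (v : ↥T) :
    ∃ N ∈ ((galLocal T).lev v).mem,
      ∀ g ∈ N, ((cycloChar p).comp ((galLocal T).r v)) g = 1 := by
  obtain ⟨-, N, hN, hχ⟩ := helper92.levelStatement p T hpT
  obtain ⟨N', hN', hle⟩ := (galLocal T).compat v N hN
  exact ⟨N', hN', fun g hg => hχ _ (hle hg)⟩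

/-- The base case of the local dévissage: `H³(G_v, k[G_v/U]) = 0` for `U` open with
`χ_cyc|U = 1`, from Shapiro's lemma in degree 3 and `LocH3BaseOut`. -/
theorem locH3_perm_of_base (hbase : LocH3BaseOut p T)
    (hshap : ∀ (v : ↥T) (U : Subgroup ((galLocal T).Gv v))
      (hU : ∃ N ∈ ((galLocal T).lev v).mem, N ≤ U),
      Nonempty (S55.H3 ((galLocal T).lev v) (permRep (ZMod p) U) ≃ₗ[ZMod p]
        S55.H3 (helper35.restrictLevels ((galLocal T).lev v) U hU)
          (helper35.trivRep (ZMod p) ↥U)))
    (v : ↥T) (U : Subgroup ((galLocal T).Gv v))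
    (hU : ∃ N ∈ ((galLocal T).lev v).mem, N ≤ U)
    (hχ : ∀ g ∈ U, cycloChar p ((galLocal T).r v g) = 1) :
    Z3 ((galLocal T).lev v) (permRep (ZMod p) U) ≤
      B3 ((galLocal T).lev v) (permRep (ZMod p) U) := by
  obtain ⟨e⟩ := hshap v U hU
  exact helper10.z3_le_b3_of_equiv _ _ _ _ e (hbase v U hU hχ)

/-- **EC-LOC-H3**: `H³(G_v, X) = 0` for every finite smooth module `X` of the local Galois
group at `v ∈ T`, given `LocH3BaseOut` and the statements of EC-LES-3 (`hext`) and of EC-SHAP in
degree 3 (`hshap`) for the local groups. -/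
theorem locH3Out_of (hpT : pPrime p ∈ T) (hbase : LocH3BaseOut p T)
    (hext : ∀ (v : ↥T) (A₁ A A₂ : Rep.{0} (ZMod p) ((galLocal T).Gv v))
      (i : A₁ →ₗ[ZMod p] A) (q : A →ₗ[ZMod p] A₂),
      (∀ s a, i (A₁.ρ s a) = A.ρ s (i a)) → (∀ s a, q (A.ρ s a) = A₂.ρ s (q a)) →
      Function.Injective i → Function.Surjective q → LinearMap.range i = LinearMap.ker q →
      IsSmooth ((galLocal T).lev v) A →
      Z3 ((galLocal T).lev v) A₁ ≤ B3 ((galLocal T).lev v) A₁ →
      Z3 ((galLocal T).lev v) A₂ ≤ B3 ((galLocal T).lev v) A₂ →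
      Z3 ((galLocal T).lev v) A ≤ B3 ((galLocal T).lev v) A)
    (hshap : ∀ (v : ↥T) (U : Subgroup ((galLocal T).Gv v))
      (hU : ∃ N ∈ ((galLocal T).lev v).mem, N ≤ U),
      Nonempty (S55.H3 ((galLocal T).lev v) (permRep (ZMod p) U) ≃ₗ[ZMod p]
        S55.H3 (helper35.restrictLevels ((galLocal T).lev v) U hU)
          (helper35.trivRep (ZMod p) ↥U))) :
    LocH3Out p T := by
  intro v X hX hsm
  exact helper57.devissage (P := fun A : Rep.{0} (ZMod p) ((galLocal T).Gv v) =>
      Z3 ((galLocal T).lev v) A ≤ B3 ((galLocal T).lev v) A) p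
    (finite_quotient_of_mem_lev T v) ((cycloChar p).comp ((galLocal T).r v))
    (exists_locLevel_cycloChar p T hpT v)
    (helper10.h3_retractClosed ((galLocal T).lev v))
    (helper10.h3_extClosed ((galLocal T).lev v) (hext v))
    (fun U hU hχU => locH3_perm_of_base p T hbase hshap v U hU hχU) X hX hsm

end Arith

end Fermat.Agent.P1.helper17
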