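import Fermat.Agent.P1.helper47_HopfInterface

/-!
# P1 / FLAT-HOPF, package HOPF-INJ (helper26, task 634)

`hopfInj : Hopf2aStatement → HopfInjStatement` : two distinct points `x, y : H → R` of a
commutative cocommutative bialgebra which are killed by `p` are not congruent modulo `π ^ n`
when `n (p - 1) > e` (`p = π ^ e w`).

Proof: in the commutative convolution ring `C = WithConv (H →ₗ[O] R)` (an `R`-algebra) let
`X, Y` be the images of `x, y`.  If `π ^ n ∣ x h - y h` for all `h` then `X = Y + π ^ n c` with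
`c` linear (`R` is a domain), so `u := X * Y ^ (p - 1) = 1 + π ^ n c Y ^ (p - 1)` and `u ^ p = 1`;
`π` is a non-zero-divisor on `C` and `C` is `π`-adically separated (pointwise), hence `u = 1` by
HOPF-2a and `X = u * Y = Y`.
-/

set_option autoImplicit false

namespace Fermat.Agent.P1.helper26

open Fermat.Agent.P1.helper47
open WithConv

section Conv

variable {O H R : Type} [CommRing O] [CommRing H] [Bialgebra O H] [CommRing R] [Algebra O R]

/-- multiplication by a scalar in the convolution algebra, pointwise -/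
lemma algebraMap_conv_mul_apply (r : R) (Z : WithConv (H →ₗ[O] R)) (h : H) :
    (algebraMap R (WithConv (H →ₗ[O] R)) r * Z).ofConv h = r * Z.ofConv h := by
  rw [← Algebra.smul_def]
  rfl

/-- the image of a point in the convolution algebra -/
def linPt (x : WithConv (H →ₐ[O] R)) : WithConv (H →ₗ[O] R) := toConv x.ofConv.toLinearMap

lemma linPt_apply (x : WithConv (H →ₐ[O] R)) (h : H) : (linPt x).ofConv h = x.ofConv h := rfl

lemma linPt_injective : Function.Injective (linPt (O := O) (H := H) (R := R)) := fun _ _ hxy =>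
  ofConv_injective (AlgHom.toLinearMap_injective (toConv_injective hxy))

lemma linPt_one : linPt (1 : WithConv (H →ₐ[O] R)) = 1 := rfl

lemma linPt_pow (x : WithConv (H →ₐ[O] R)) (n : ℕ) : linPt (x ^ n) = linPt x ^ n :=
  AlgHom.toLinearMap_convPow x n

end Conv

/-- **HOPF-INJ**. -/
theorem hopfInj (h2a : Hopf2aStatement) : HopfInjStatement := by
  intro p hp O H R _ _ _ _ _ _ _ π w e n hπ hsep hw hpe hen x y hx hy hxy
  by_contra hcon
  simp only [not_exists, not_not] at hcon
  apply hxy
  have hπn : π ^ n ≠ 0 := pow_ne_zero n hπ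
  -- the quotient `c = (x - y) / π ^ n`
  choose c hc using hcon
  have hcadd : ∀ a b : H, c (a + b) = c a + c b := by
    intro a b
    apply mul_left_cancel₀ hπn
    rw [mul_add, ← hc, ← hc, ← hc, map_add, map_add]
    ring
  have hcsmul : ∀ (r : O) (a : H), c (r • a) = r • c a := by
    intro r a
    apply mul_left_cancel₀ hπn
    rw [mul_smul_comm, ← hc, ← hc, map_smul, map_smul, smul_sub]
  let cl : H →ₗ[O] R :=
    { toFun := c
      map_add' := hcadd
      map_smul' := hcsmul }
  set X : WithConv (H →ₗ[O] R) := linPt x with hX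
  set Y : WithConv (H →ₗ[O] R) := linPt y with hY
  set ϖ : WithConv (H →ₗ[O] R) := algebraMap R _ π with hϖdef
  set W : WithConv (H →ₗ[O] R) := algebraMap R _ w with hW
  have hXp : X ^ p = 1 := by rw [hX, ← linPt_pow, hx, linPt_one]
  have hYp : Y ^ p = 1 := by rw [hY, ← linPt_pow, hy, linPt_one]
  have hXY : X - Y = ϖ ^ n * toConv cl := by
    apply WithConv.ext
    apply LinearMap.ext
    intro h
    rw [hϖdef, ← map_pow, algebraMap_conv_mul_apply]
    exact hc h
  have hp1 : p - 1 + 1 = p := Nat.sub_add_cancel hp.one_le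
  have hYp' : Y ^ (p - 1) * Y = 1 := by rw [← pow_succ, hp1, hYp]
  -- the hypotheses of HOPF-2a
  have hnzd : ∀ Z : WithConv (H →ₗ[O] R), ϖ * Z = 0 → Z = 0 := by
    intro Z hZ
    apply WithConv.ext
    apply LinearMap.ext
    intro h
    have h1 : (ϖ * Z).ofConv h = 0 := by rw [hZ]; rfl
    rw [hϖdef, algebraMap_conv_mul_apply] at h1
    exact (mul_eq_zero.1 h1).resolve_left hπ
  have hsepC : ∀ Z : WithConv (H →ₗ[O] R), (∀ k : ℕ, ϖ ^ k ∣ Z) → Z = 0 := by
    intro Z hZ
    apply WithConv.ext
    apply LinearMap.ext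
    intro h
    apply hsep
    intro k
    obtain ⟨Z', hZ'⟩ := hZ k
    refine ⟨Z'.ofConv h, ?_⟩
    rw [hZ', hϖdef, ← map_pow, algebraMap_conv_mul_apply]
  have hWu : IsUnit W := hw.map (algebraMap R (WithConv (H →ₗ[O] R)))
  have hpC : (p : WithConv (H →ₗ[O] R)) = ϖ ^ e * W := by
    rw [hϖdef, hW, ← map_pow, ← map_mul, ← hpe, map_natCast]
  set u : WithConv (H →ₗ[O] R) := X * Y ^ (p - 1) with hu
  have hu1 : ϖ ^ n ∣ u - 1 := by
    refine ⟨toConv cl * Y ^ (p - 1), ?_⟩
    rw [← mul_assoc, ← hXY, sub_mul, hu]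
    congr 1
    rw [← pow_succ', hp1, hYp]
  have hup : u ^ p = 1 := by
    rw [hu, mul_pow, hXp, one_mul, ← pow_mul, mul_comm, pow_mul, hYp, one_pow]
  have hu1' : u = 1 := h2a (WithConv (H →ₗ[O] R)) p hp ϖ W e n hnzd hsepC hWu hpC hen u hu1 hup
  have hXeqY : X = Y := by
    calc X = X * (Y ^ (p - 1) * Y) := by rw [hYp', mul_one]
      _ = u * Y := by rw [hu, mul_assoc]
      _ = Y := by rw [hu1', one_mul]
  exact linPt_injective hXeqY

end Fermat.Agent.P1.helper26
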