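import Mathlib
import Fermat.Agent.P1.helper14_KRDefs
import Fermat.Prelude.Def_GaloisRep_Flat

/-!
# P1 / FLAT-HOPF (helper47): interface (package statements as `Prop`s)

Module FLAT-HOPF of BLUEPRINT P1 (S56, flat node): Fontaine's property `(P_m)` for a finite flat
commutative group scheme killed by `p`, proved in the convolution algebra
`C_R = WithConv (H →ₗ[O] R)`, and its corollary `helper14.EmbProperty p L` for the field `L`
generated by the points.

The quotient Hopf algebra `H' = H / J` of the blueprint is NOT needed: the only use of `H'`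
is that the reduction of a point `x : H → 𝒪_L` is killed by `p`, and this follows from
`x ^ p = 1` in the group of `L`-points because post-composition with a ring homomorphism is a
homomorphism of convolution monoids.

DEFINITIONS ONLY.  Notation: `O = GaloisRep.ratLocalizedAt p = ℤ_(p)`.

## Packages

* `Hopf2aStatement`  (F2a) no small `p`-torsion in `1 + π^n C`, `n (p-1) > e`;
* `Hopf2bStatement`  (F2b) `p`-th roots in `1 + π^N C`, `N (p-1) > p e` (Hensel);
* `HopfCompleteStatement` the convolution algebra over a complete noetherian ring is complete;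
* `HopfPStatement`   (P_m) lifting of points killed by `p` from `R/π^N` to `R`;
* `HopfInjStatement` distinct points killed by `p` differ modulo `π^n`, `n (p-1) > e`;
* `DictOStatement`   the valuation ring `Oq p F` of a `p`-adic field as a complete DVR;
* `HopfValStatement` a ring hom `𝒪_L → 𝒪_E / {ord ≥ N}` preserves valuations `< N / e_E`;
* `HopfCntStatement` counting points: an injection `Hom(H, L) → Hom(H, E)` gives `L → E`;
* `HopfMainStatement` the output: `EmbProperty p L`.
-/

set_option autoImplicit false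

namespace Fermat.Agent.P1.helper47

open Fermat.Agent.S55.helper8 Fermat.Agent.S55.helper7 Fermat.Agent.P1.helper14
open WithConv

/-! ## Pure commutative algebra -/

/-- **HOPF-2a** (no small torsion). `C` a commutative ring, `π ∈ C` a non-zero-divisor with
`⋂ π^k C = 0`, `p = π^e w` with `w` a unit, `n (p - 1) > e`.  If `u ≡ 1 mod π^n` and `u^p = 1`
then `u = 1`. -/
def Hopf2aStatement : Prop :=
  ∀ (C : Type) [CommRing C] (p : ℕ), p.Prime → ∀ (π w : C) (e n : ℕ),
    (∀ y : C, π * y = 0 → y = 0) → (∀ y : C, (∀ k : ℕ, π ^ k ∣ y) → y = 0) →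
    IsUnit w → (p : C) = π ^ e * w → e < n * (p - 1) →
    ∀ u : C, π ^ n ∣ u - 1 → u ^ p = 1 → u = 1

/-- **HOPF-2b** (`p`-th roots). `C` a `π`-adically complete commutative ring, `p = π^e w` with
`w` a unit, `N (p - 1) > p e`.  Every `h ≡ 1 mod π^N` is `v^p` with `v ≡ 1 mod π^(N - e)`. -/
def Hopf2bStatement : Prop :=
  ∀ (C : Type) [CommRing C] (p : ℕ), p.Prime → ∀ (π w : C) (e N : ℕ),
    IsAdicComplete (Ideal.span {π}) C →
    IsUnit w → (p : C) = π ^ e * w → p * e < N * (p - 1) →
    ∀ h : C, π ^ N ∣ h - 1 → ∃ v : C, π ^ (N - e) ∣ v - 1 ∧ v ^ p = h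

/-! ## The convolution algebra -/

/-- **HOPF-COMPLETE**. For a coalgebra `M`, finite free over `O`, and a noetherian `O`-algebra `R`
which is `π`-adically complete, the convolution algebra `WithConv (M →ₗ[O] R)` is `π`-adically
complete (as a ring), `π` is a non-zero-divisor on it if `R` is a domain and `π ≠ 0`. -/
def HopfCompleteStatement : Prop :=
  ∀ (O M R : Type) [CommRing O] [AddCommGroup M] [Module O M] [Coalgebra O M]
    [Coalgebra.IsCocomm O M] [Module.Free O M] [Module.Finite O M]
    [CommRing R] [Algebra O R] [IsNoetherianRing R] (π : R),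
    IsAdicComplete (Ideal.span {π}) R →
    IsAdicComplete (Ideal.span {algebraMap R (WithConv (M →ₗ[O] R)) π}) (WithConv (M →ₗ[O] R))

/-- **HOPF-P** (Fontaine's property `(P_m)`, existence part). `H` a commutative cocommutative
bialgebra, finite free over `O`; `R` a noetherian domain, `π`-adically complete, `p = π^e w`,
`N (p - 1) > p e`.  Every point `gbar : H → R/π^N` killed by `p` is congruent modulo `π^(N-e)`
to a point `g : H → R`. -/
def HopfPStatement : Prop :=
  ∀ (p : ℕ), p.Prime → ∀ (O H R : Type) [CommRing O] [CommRing H] [Bialgebra O H]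
    [Coalgebra.IsCocomm O H] [Module.Free O H] [Module.Finite O H]
    [CommRing R] [IsDomain R] [Algebra O R] [IsNoetherianRing R] (π w : R) (e N : ℕ),
    IsAdicComplete (Ideal.span {π}) R → π ≠ 0 → ¬ IsUnit π →
    IsUnit w → (p : R) = π ^ e * w → p * e < N * (p - 1) →
    ∀ gbar : WithConv (H →ₐ[O] R ⧸ Ideal.span {π ^ N}), gbar ^ p = 1 →
      ∃ g : H →ₐ[O] R, ∀ h : H, ∃ r : R,
        Ideal.Quotient.mk (Ideal.span {π ^ N}) r = gbar.ofConv h ∧ π ^ (N - e) ∣ g h - r

/-- **HOPF-INJ** (Fontaine's property `(P_m)`, injectivity part). Two distinct points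
`x, y : H → R` killed by `p` are not congruent modulo `π^n` when `n (p - 1) > e`. -/
def HopfInjStatement : Prop :=
  ∀ (p : ℕ), p.Prime → ∀ (O H R : Type) [CommRing O] [CommRing H] [Bialgebra O H]
    [Coalgebra.IsCocomm O H]
    [CommRing R] [IsDomain R] [Algebra O R] (π w : R) (e n : ℕ),
    π ≠ 0 → (∀ y : R, (∀ k : ℕ, π ^ k ∣ y) → y = 0) →
    IsUnit w → (p : R) = π ^ e * w → e < n * (p - 1) →
    ∀ x y : WithConv (H →ₐ[O] R), x ^ p = 1 → y ^ p = 1 → x ≠ y →
      ∃ h : H, ¬ π ^ n ∣ x.ofConv h - y.ofConv h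

/-! ## Dictionary with the S55 LOC vocabulary -/

/-- **DICT-O**. The valuation ring `Oq p F` of a `p`-adic field: it is noetherian, has a
uniformiser `π` with `p = π^e w` (`e = edeg p F`, `w` a unit), divisibility by `π^n` is
`n ≤ ord`, `ballIdeal p F N = (π^N)`, and it is `π`-adically complete. -/
def DictOStatement (p : ℕ) [Fact p.Prime] : Prop :=
  ∀ (F : Type) [Field F] [Algebra ℚ_[p] F] [FiniteDimensional ℚ_[p] F],
    IsNoetherianRing (Oq p F) ∧
    ∃ π w : Oq p F, ordT p F (π : F) = 1 ∧ IsUnit w ∧ (p : Oq p F) = π ^ edeg p F * w ∧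
      (∀ (n : ℕ) (x : Oq p F), π ^ n ∣ x ↔ ((n : ℤ) : WithTop ℤ) ≤ ordT p F (x : F)) ∧
      (∀ N : ℕ, ballIdeal p F N = Ideal.span {π ^ N}) ∧
      IsAdicComplete (Ideal.span {π}) (Oq p F)

/-- **HOPF-VAL**. A ring homomorphism `η : 𝒪_L → 𝒪_E / {ord ≥ N}` with `e_E < N` preserves
(normalised) valuations smaller than `N / e_E`: if `r` lifts `η z` and
`ord_L z * e_E < N * e_L` then `ord_E r * e_L = ord_L z * e_E`. -/
def HopfValStatement (p : ℕ) [Fact p.Prime] : Prop :=
  ∀ (L E : Type) [Field L] [Algebra ℚ_[p] L] [FiniteDimensional ℚ_[p] L]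
    [Field E] [Algebra ℚ_[p] E] [FiniteDimensional ℚ_[p] E] (N : ℕ), edeg p E < N →
    ∀ (η : Oq p L →+* (Oq p E ⧸ ballIdeal p E N)) (z : Oq p L) (r : Oq p E) (n : ℕ),
      Ideal.Quotient.mk (ballIdeal p E N) r = η z →
      ordT p L (z : L) = ((n : ℤ) : WithTop ℤ) → n * edeg p E < N * edeg p L →
      ∃ m : ℕ, ordT p E (r : E) = ((m : ℤ) : WithTop ℤ) ∧ m * edeg p L = n * edeg p E

/-! ## Counting points -/

/-- **HOPF-CNT**. Let `L`, `E` be `p`-adic fields and `H` a commutative ring such that `L` is
generated over `ℚ_p` by the values of the (finitely many) ring homomorphisms `H → L`, and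
every ring homomorphism from `H` to an extension field of `L` factors through `L`.  If there
are at least as many ring homomorphisms `H → E` as `H → L`, then `L` embeds into `E`. -/
def HopfCntStatement (p : ℕ) [Fact p.Prime] : Prop :=
  ∀ (L E : Type) [Field L] [Algebra ℚ_[p] L] [FiniteDimensional ℚ_[p] L]
    [Field E] [Algebra ℚ_[p] E] [FiniteDimensional ℚ_[p] E] (H : Type) [CommRing H],
    Finite (H →+* L) →
    Algebra.adjoin ℚ_[p] {z : L | ∃ (x : H →+* L) (h : H), x h = z} = ⊤ →
    (∀ (Ω : Type) [Field Ω] (j : L →+* Ω) (y : H →+* Ω), ∃ x : H →+* L, y = j.comp x) →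
    (∃ f : (H →+* L) → (H →+* E), Function.Injective f) →
    Nonempty (L →ₐ[ℚ_[p]] E)

/-! ## The output of the module -/

/-- **HOPF-MAIN** (output of FLAT-HOPF, input of FLAT-KR / FLAT-KUM).  Let `H` be a finite flat
commutative cocommutative Hopf algebra over `ℤ_(p)` and `L` a `p`-adic field such that
* the group of `L`-points of `H` is killed by `p`,
* `L` is generated over `ℚ_p` by the values of the points `H → L`,
* every point of `H` with values in an extension field of `L` has values in `L`.
Then `L` has Fontaine's embedding property. -/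
def HopfMainStatement (p : ℕ) [Fact p.Prime] : Prop :=
  ∀ (L : Type) [Field L] [Algebra ℚ_[p] L] [FiniteDimensional ℚ_[p] L]
    (H : Type) [CommRing H] [HopfAlgebra (GaloisRep.ratLocalizedAt p) H]
    [Module.Finite (GaloisRep.ratLocalizedAt p) H] [Module.Flat (GaloisRep.ratLocalizedAt p) H]
    [Coalgebra.IsCocomm (GaloisRep.ratLocalizedAt p) H]
    [Algebra (GaloisRep.ratLocalizedAt p) L],
    (∀ x : WithConv (H →ₐ[GaloisRep.ratLocalizedAt p] L), x ^ p = 1) →
    Algebra.adjoin ℚ_[p] {z : L | ∃ (x : H →+* L) (h : H), x h = z} = ⊤ →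
    (∀ (Ω : Type) [Field Ω] (j : L →+* Ω) (y : H →+* Ω), ∃ x : H →+* L, y = j.comp x) →
    EmbProperty p L

end Fermat.Agent.P1.helper47
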