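import Mathlib
import Fermat.Agent.P1.helper47_HopfInterface

/-!
# P1 / FLAT-HOPF (helper47): interface, part 2 (splitting of `DictOStatement`)

* `DictO1Statement` : the algebraic part (uniformiser, divisibility, `ballIdeal`, noetherian);
* `DictO2Statement` : `π`-adic completeness of `Oq p F`;
* `dictO_of` : `DictO1Statement p → DictO2Statement p → DictOStatement p`.
-/

set_option autoImplicit false

namespace Fermat.Agent.P1.helper47

open Fermat.Agent.S55.helper8 Fermat.Agent.S55.helper7 Fermat.Agent.P1.helper14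

/-- **DICT-O1** (algebraic part). `Oq p F` is noetherian, has an element of valuation `1`, and
for EVERY `π` of valuation `1`: `p = π^e w` with `w` a unit, divisibility by `π^n` is
`n ≤ ord`, and `ballIdeal p F N = (π^N)`. -/
def DictO1Statement (p : ℕ) [Fact p.Prime] : Prop :=
  ∀ (F : Type) [Field F] [Algebra ℚ_[p] F] [FiniteDimensional ℚ_[p] F],
    IsNoetherianRing (Oq p F) ∧ (∃ π : Oq p F, ordT p F (π : F) = 1) ∧
    ∀ π : Oq p F, ordT p F (π : F) = 1 →
      (∃ w : Oq p F, IsUnit w ∧ (p : Oq p F) = π ^ edeg p F * w) ∧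
      (∀ (n : ℕ) (x : Oq p F), π ^ n ∣ x ↔ ((n : ℤ) : WithTop ℤ) ≤ ordT p F (x : F)) ∧
      (∀ N : ℕ, ballIdeal p F N = Ideal.span {π ^ N})

/-- **DICT-O2** (completeness). For every `π` of valuation `1`, the ring `Oq p F` is
`π`-adically complete. -/
def DictO2Statement (p : ℕ) [Fact p.Prime] : Prop :=
  ∀ (F : Type) [Field F] [Algebra ℚ_[p] F] [FiniteDimensional ℚ_[p] F] (π : Oq p F),
    ordT p F (π : F) = 1 → IsAdicComplete (Ideal.span {π}) (Oq p F)

theorem dictO_of (p : ℕ) [Fact p.Prime] (h1 : DictO1Statement p) (h2 : DictO2Statement p) :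
    DictOStatement p := by
  intro F _ _ _
  obtain ⟨hN, ⟨π, hπ⟩, h⟩ := h1 F
  obtain ⟨⟨w, hw, hpw⟩, hdvd, hball⟩ := h π hπ
  exact ⟨hN, π, w, hπ, hw, hpw, hdvd, hball, h2 F π hπ⟩

end Fermat.Agent.P1.helper47
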