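import Mathlib
import Fermat.Agent.P1.helper47_HopfInterface
import Fermat.Agent.P1.helper47_HopfConv

/-!
# P1 / FLAT-HOPF (helper47): package HOPF-P, Fontaine's property `(P_m)` (existence part)

`hopfP : Hopf2aStatement → Hopf2bStatement → HopfCompleteStatement → HopfPStatement`.
-/

set_option autoImplicit false

namespace Fermat.Agent.P1.helper47

open TensorProduct WithConv Coalgebra

/-- Separatedness of an adically complete ring, in divisibility form. -/
lemma separated_of_isAdicComplete {R : Type} [CommRing R] (π : R)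
    (h : IsAdicComplete (Ideal.span {π}) R) (y : R) (hy : ∀ k : ℕ, π ^ k ∣ y) : y = 0 := by
  have := h
  refine IsHausdorff.haus (I := Ideal.span {π}) (M := R) inferInstance y fun n => ?_
  rw [SModEq.zero, smul_eq_mul, Ideal.mul_top, Ideal.span_singleton_pow,
    Ideal.mem_span_singleton]
  exact hy n

lemma arith_aux {p e N : ℕ} (hp : p.Prime) (hN : p * e < N * (p - 1)) :
    e < N ∧ e < (N - e) * (p - 1) := by
  obtain ⟨q, rfl⟩ : ∃ q, p = q + 1 := ⟨p - 1, (Nat.sub_add_cancel hp.one_le).symm⟩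
  simp only [Nat.add_sub_cancel] at hN ⊢
  have h1 : e < N := by
    by_contra h
    have h' : N ≤ e := Nat.le_of_not_lt h
    have : N * q ≤ e * q := Nat.mul_le_mul_right q h'
    nlinarith
  refine ⟨h1, ?_⟩
  rw [Nat.sub_mul]
  have : e * q + e < N * q := by nlinarith
  omega


section main

variable {O H R : Type} [CommRing O] [CommRing H] [Bialgebra O H]
  [CommRing R] [IsDomain R] [Algebra O R]

/-- If `g ≡ g₀ mod π^k` in the convolution algebra and `g₀` is multiplicative modulo `π^k`, then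
`μ^* g ≡ g ⊗ g mod π^k`. -/
lemma dvd_mulStar_sub_tensorSq (π : R) (hπ0 : π ≠ 0) (k : ℕ) (g g0 : WithConv (H →ₗ[O] R))
    (hgg0 : algebraMap R (WithConv (H →ₗ[O] R)) π ^ k ∣ g - g0)
    (hg0 : ∀ a b : H, π ^ k ∣ g0.ofConv (a * b) - g0.ofConv a * g0.ofConv b) :
    algebraMap R (WithConv (H ⊗[O] H →ₗ[O] R)) π ^ k ∣ mulStar g - tensorSq g := by
  have hnz : ∀ y : R, π ^ k * y = 0 → y = 0 := fun y hy =>
    (mul_eq_zero.mp hy).resolve_left (pow_ne_zero k hπ0)
  rw [← map_pow] at hgg0 ⊢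
  rw [dvd_iff_forall_dvd_apply hnz]
  have hpt : ∀ h : H, π ^ k ∣ g.ofConv h - g0.ofConv h := fun h =>
    dvd_apply_of_dvd hgg0 h
  intro t
  induction t using TensorProduct.induction_on with
  | zero => simp
  | tmul a b =>
    change π ^ k ∣ g.ofConv (a * b) - g.ofConv a * g.ofConv b
    obtain ⟨c1, hc1⟩ := hpt (a * b)
    obtain ⟨c2, hc2⟩ := hpt a
    obtain ⟨c3, hc3⟩ := hpt b
    obtain ⟨c4, hc4⟩ := hg0 a b
    refine ⟨c1 + c4 - c2 * g0.ofConv b - g0.ofConv a * c3 - π ^ k * c2 * c3, ?_⟩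
    have e1 : g.ofConv (a * b) = g0.ofConv (a * b) + π ^ k * c1 := by rw [← hc1]; ring
    have e2 : g.ofConv a = g0.ofConv a + π ^ k * c2 := by rw [← hc2]; ring
    have e3 : g.ofConv b = g0.ofConv b + π ^ k * c3 := by rw [← hc3]; ring
    have e4 : g0.ofConv (a * b) = g0.ofConv a * g0.ofConv b + π ^ k * c4 := by rw [← hc4]; ring
    rw [e1, e2, e3, e4]
    ring
  | add x y hx hy =>
    have : (mulStar g - tensorSq g).ofConv (x + y) =
        (mulStar g - tensorSq g).ofConv x + (mulStar g - tensorSq g).ofConv y := map_add _ _ _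
    rw [this]
    exact dvd_add hx hy

end main

/-- **HOPF-P**: Fontaine's property `(P_m)`, existence part. -/
theorem hopfP (h2a : Hopf2aStatement) (h2b : Hopf2bStatement) (hC : HopfCompleteStatement) :
    HopfPStatement := by
  intro p hp O H R _ _ _ _ _ _ _ _ _ _ π w e N hcomp hπ0 hπu hw hpe hN gbar hgbar
  obtain ⟨hNe, hNe'⟩ := arith_aux hp hN
  have hsep := separated_of_isAdicComplete π hcomp
  have hnzd : ∀ y : R, π * y = 0 → y = 0 := fun y hy => (mul_eq_zero.mp hy).resolve_left hπ0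
  have hnzdpow : ∀ k : ℕ, ∀ y : R, π ^ k * y = 0 → y = 0 := fun k y hy =>
    (mul_eq_zero.mp hy).resolve_left (pow_ne_zero k hπ0)
  -- the reduction map
  let φ : R →ₐ[O] R ⧸ Ideal.span {π ^ N} := Ideal.Quotient.mkₐ O _
  have hφ : ∀ r : R, φ r = 0 ↔ π ^ N ∣ r := fun r => by
    rw [show φ r = Ideal.Quotient.mk _ r from rfl, Ideal.Quotient.eq_zero_iff_mem,
      Ideal.mem_span_singleton]
  -- lift `gbar` to a linear map
  obtain ⟨g0l, hg0l⟩ := Module.projective_lifting_property φ.toLinearMap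
    gbar.ofConv.toLinearMap Ideal.Quotient.mk_surjective
  set g0 : WithConv (H →ₗ[O] R) := toConv g0l with hg0def
  have hg0 : ∀ h, φ (g0.ofConv h) = gbar.ofConv h := fun h => LinearMap.congr_fun hg0l h
  have hred : redConv φ g0 = ptsToConv gbar := by
    apply WithConv.ext
    ext h
    exact hg0 h
  have hg0mul : ∀ a b : H, π ^ (N - e) ∣ g0.ofConv (a * b) - g0.ofConv a * g0.ofConv b := by
    intro a b
    refine dvd_trans (pow_dvd_pow π (Nat.sub_le N e)) ?_
    rw [← hφ, map_sub, hg0 (a * b), map_mul φ, hg0 a, hg0 b, map_mul gbar.ofConv, sub_self]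
  have hg0one : π ^ N ∣ g0.ofConv 1 - 1 := by
    rw [← hφ, map_sub, hg0, map_one, map_one, sub_self]
  -- the convolution algebras
  set πC := algebraMap R (WithConv (H →ₗ[O] R)) π with hπC
  set wC := algebraMap R (WithConv (H →ₗ[O] R)) w with hwC
  -- Step 6: `g0 ^ p ≡ 1 mod π ^ N`
  have h6 : πC ^ N ∣ g0 ^ p - 1 := by
    rw [hπC, ← map_pow]
    apply dvd_of_forall_dvd_apply (hnzdpow N)
    intro h
    rw [← hφ, ← redConv_apply, map_sub, map_pow, map_one, hred, ← map_pow, hgbar, map_one,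
      sub_self]
    rfl
  -- Step 7: a `p`-th root of `g0 ^ p`
  have hcompC := hC O H R π hcomp
  obtain ⟨v, hv1, hvp⟩ := h2b (WithConv (H →ₗ[O] R)) p hp πC wC e N hcompC (hw.map _)
    (by rw [hπC, hwC, ← map_pow, ← map_mul, ← hpe, map_natCast]) hN (g0 ^ p) h6
  have hvu : IsUnit v := by
    have hjac : Ideal.span {πC} ≤ Ideal.jacobson (⊥ : Ideal (WithConv (H →ₗ[O] R))) := by
      have := hcompC
      exact IsAdicComplete.le_jacobson_bot _
    have hmem : v - 1 ∈ Ideal.span {πC} := by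
      rw [Ideal.mem_span_singleton]
      exact dvd_trans (dvd_pow_self πC (Nat.sub_pos_of_lt hNe).ne') hv1
    have := (Ideal.mem_jacobson_bot.mp (hjac hmem)) 1
    simpa using this
  obtain ⟨vi, hvi⟩ : ∃ vi, v * vi = 1 := ⟨_, hvu.mul_val_inv⟩
  set g1 : WithConv (H →ₗ[O] R) := g0 * vi with hg1def
  have hg1p : g1 ^ p = 1 := by
    rw [hg1def, mul_pow, ← hvp, ← mul_pow, hvi, one_pow]
  have hg1g0 : πC ^ (N - e) ∣ g1 - g0 := by
    have : g1 - g0 = g0 * vi * (1 - v) := by
      rw [hg1def]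
      calc g0 * vi - g0 = g0 * vi - g0 * (v * vi) := by rw [hvi, mul_one]
        _ = g0 * vi * (1 - v) := by ring
    rw [this]
    refine Dvd.dvd.mul_left ?_ _
    rw [← neg_sub, dvd_neg]
    exact hv1
  -- Step 8: `u = μ^*(g1) (g1 ⊗ g1)⁻¹`
  set πC2 := algebraMap R (WithConv (H ⊗[O] H →ₗ[O] R)) π with hπC2
  set wC2 := algebraMap R (WithConv (H ⊗[O] H →ₗ[O] R)) w with hwC2
  have hT : tensorSq g1 * tensorSq (g1 ^ (p - 1)) = 1 := by
    rw [← map_mul, ← pow_succ', Nat.sub_add_cancel hp.one_le, hg1p, map_one]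
  set u : WithConv (H ⊗[O] H →ₗ[O] R) := mulStar g1 * tensorSq (g1 ^ (p - 1)) with hudef
  have hu1 : πC2 ^ (N - e) ∣ u - 1 := by
    have : u - 1 = (mulStar g1 - tensorSq g1) * tensorSq (g1 ^ (p - 1)) := by
      rw [sub_mul, hT]
    rw [this]
    exact Dvd.dvd.mul_right (dvd_mulStar_sub_tensorSq π hπ0 (N - e) g1 g0 hg1g0 hg0mul) _
  have hup : u ^ p = 1 := by
    rw [hudef, mul_pow, ← map_pow, ← map_pow, hg1p, ← pow_mul, mul_comm (p - 1) p, pow_mul,
      hg1p, one_pow, map_one, map_one, mul_one]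
  have hu : u = 1 := by
    refine h2a (WithConv (H ⊗[O] H →ₗ[O] R)) p hp πC2 wC2 e (N - e) ?_ ?_ (hw.map _) ?_ hNe' u
      hu1 hup
    · exact fun y hy => conv_nonZeroDivisor hnzd y hy
    · exact fun y hy => conv_separated hsep y hy
    · rw [hπC2, hwC2, ← map_pow, ← map_mul, ← hpe, map_natCast]
  have hmul : mulStar g1 = tensorSq g1 := by
    calc mulStar g1 = mulStar g1 * (tensorSq g1 * tensorSq (g1 ^ (p - 1))) := by
          rw [hT, mul_one]
      _ = u * tensorSq g1 := by rw [hudef]; ring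
      _ = tensorSq g1 := by rw [hu, one_mul]
  -- Step 10: `g1 1 = 1`
  have hpt : ∀ h : H, π ^ (N - e) ∣ g1.ofConv h - g0.ofConv h := by
    intro h
    rw [hπC, ← map_pow] at hg1g0
    exact dvd_apply_of_dvd hg1g0 h
  have hone : g1.ofConv 1 = 1 := by
    have hidem : g1.ofConv 1 * g1.ofConv 1 = g1.ofConv 1 := by
      rw [← map_mul_of_mulStar_eq hmul, mul_one]
    have h01 : g1.ofConv 1 * (g1.ofConv 1 - 1) = 0 := by rw [mul_sub, hidem, mul_one, sub_self]
    rcases mul_eq_zero.mp h01 with h0 | h1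
    · exfalso
      apply hπu
      have hd1 : π ^ (N - e) ∣ g1.ofConv 1 - g0.ofConv 1 := hpt 1
      have hd2 : π ^ (N - e) ∣ g0.ofConv 1 - 1 :=
        dvd_trans (pow_dvd_pow π (Nat.sub_le N e)) hg0one
      have hd3 : π ^ (N - e) ∣ (1 : R) := by
        have := dvd_add hd1 hd2
        rw [h0] at this
        have e1 : (0 : R) - g0.ofConv 1 + (g0.ofConv 1 - 1) = -1 := by ring
        rw [e1, dvd_neg] at this
        exact this
      exact isUnit_of_dvd_one (dvd_trans (dvd_pow_self π (Nat.sub_pos_of_lt hNe).ne') hd3)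
    · exact sub_eq_zero.mp h1
  -- Step 11: the algebra homomorphism
  refine ⟨AlgHom.ofLinearMap g1.ofConv hone (map_mul_of_mulStar_eq hmul), fun h => ?_⟩
  exact ⟨g0.ofConv h, hg0 h, hpt h⟩

end Fermat.Agent.P1.helper47
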