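import Fermat.Agent.P1.helper47_HopfInterface2
import Fermat.Agent.P1.helper86_KREis

/-!
# P1 / FLAT-HOPF / HOPF-VAL (helper86)

`hopfVal p : DictO1Statement p → HopfValStatement p` (the hypothesis is not used):
a ring homomorphism `η : 𝒪_L → 𝒪_E / {ord ≥ N}` with `e_E < N` preserves (normalised)
valuations smaller than `N / e_E`.
-/

set_option autoImplicit false
set_option linter.unusedSectionVars false
set_option linter.unusedVariables false
set_option linter.style.haveILetI false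

namespace Fermat.Agent.P1.helper86

open Fermat.Agent.S55.helper8 Fermat.Agent.S55.helper7 Fermat.Agent.S55.helper33
open Fermat.Agent.P1.helper14 Fermat.Agent.P1.helper47

variable (p : ℕ) [Fact p.Prime]

section one

variable (L : Type) [Field L] [Algebra ℚ_[p] L] [FiniteDimensional ℚ_[p] L]

/-- a quotient of two elements of the same finite valuation has valuation `0` -/
theorem ordT_div_eq_zero {x y : L} (hy : y ≠ 0) (h : ordT p L x = ordT p L y) :
    ordT p L (x / y) = 0 := by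
  have hx : x ≠ 0 := by
    intro hx
    rw [hx, Fermat.Agent.S55.helper7.ordT_zero] at h
    exact Fermat.Agent.S55.helper7.ordT_ne_top p L hy h.symm
  have hxy : x / y ≠ 0 := div_ne_zero hx hy
  have h1 : ordT p L x = ordT p L (x / y) + ordT p L y := by
    rw [← Fermat.Agent.S55.helper7.ordT_mul, div_mul_cancel₀ x hy]
  rw [h, Fermat.Agent.S55.helper7.ordT_of_ne_zero p L hy,
    Fermat.Agent.S55.helper7.ordT_of_ne_zero p L hxy] at h1
  rw [Fermat.Agent.S55.helper7.ordT_of_ne_zero p L hxy]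
  have h2 : ord p L (Units.mk0 y hy) =
      ord p L (Units.mk0 (x / y) hxy) + ord p L (Units.mk0 y hy) := by exact_mod_cast h1
  have h3 : ord p L (Units.mk0 (x / y) hxy) = 0 := by linarith
  rw [h3]
  rfl

/-- there is a uniformiser -/
theorem exists_ordT_eq_one : ∃ ϖ : L, ordT p L ϖ = 1 := by
  obtain ⟨π, hπ⟩ := exists_ord_eq_one p L
  refine ⟨(π : L), ?_⟩
  rw [Fermat.Agent.S55.helper7.ordT_of_ne_zero p L π.ne_zero]
  have : Units.mk0 (π : L) π.ne_zero = π := Units.mk0_val π _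
  rw [this, hπ]
  rfl

/-- the inverse of an element of valuation `0` has valuation `0` -/
theorem ordT_inv_eq_zero {v : L} (h : ordT p L v = 0) : ordT p L v⁻¹ = 0 := by
  have hv : v ≠ 0 := by
    intro hv
    rw [hv, Fermat.Agent.S55.helper7.ordT_zero] at h
    exact absurd h (by simp)
  have h1 := Fermat.Agent.S55.helper7.ordT_inv p L hv
  rw [h, zero_add] at h1
  exact h1

end one


section two

variable (L E : Type) [Field L] [Algebra ℚ_[p] L] [FiniteDimensional ℚ_[p] L]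
  [Field E] [Algebra ℚ_[p] E] [FiniteDimensional ℚ_[p] E]

/-- a lift of the image of a unit has valuation `0` -/
theorem ordT_lift_unit (N : ℕ) (hN : 0 < N) (η : Oq p L →+* (Oq p E ⧸ ballIdeal p E N))
    (u u' : Oq p L) (huu : u * u' = 1) (s : Oq p E)
    (hs : Ideal.Quotient.mk (ballIdeal p E N) s = η u) : ordT p E (s : E) = 0 := by
  obtain ⟨s', hs'⟩ := Ideal.Quotient.mk_surjective (η u')
  have h1 : Ideal.Quotient.mk (ballIdeal p E N) (s * s') =
      Ideal.Quotient.mk (ballIdeal p E N) 1 := by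
    rw [map_mul, hs, hs', ← map_mul, huu, map_one, map_one]
  rw [Ideal.Quotient.eq, mem_ballIdeal] at h1
  have h2 : (0 : WithTop ℤ) < ordT p E (((s * s' - 1 : Oq p E)) : E) :=
    lt_of_lt_of_le (by exact_mod_cast hN) h1
  have h3 : ordT p E ((s : E) * (s' : E)) = 0 := by
    have h4 : (s : E) * (s' : E) = 1 + (((s * s' - 1 : Oq p E)) : E) := by
      push_cast
      ring
    rw [h4, ordT_add_eq_of_lt' p E (by rw [Fermat.Agent.S55.helper7.ordT_one]; exact h2),
      Fermat.Agent.S55.helper7.ordT_one]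
  rw [Fermat.Agent.S55.helper7.ordT_mul] at h3
  have hs0 : 0 ≤ ordT p E (s : E) := s.2
  have hs'0 : 0 ≤ ordT p E (s' : E) := s'.2
  by_contra hne
  have hpos : 0 < ordT p E (s : E) := lt_of_le_of_ne hs0 (Ne.symm hne)
  have : 0 < ordT p E (s : E) + ordT p E (s' : E) := add_pos_of_pos_of_nonneg hpos hs'0
  rw [h3] at this
  exact lt_irrefl _ this

end two

/-- **HOPF-VAL**. A ring homomorphism `η : 𝒪_L → 𝒪_E / {ord ≥ N}` with `e_E < N` preserves
(normalised) valuations smaller than `N / e_E`. -/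
theorem hopfVal_aux : HopfValStatement p := by
  intro L E _ _ _ _ _ _ N hN η z r n hr hz hlt
  classical
  have heL : 0 < edeg p L := edeg_pos p L
  have heE : 0 < edeg p E := edeg_pos p E
  have hN0 : 0 < N := lt_of_le_of_lt (Nat.zero_le _) hN
  obtain ⟨ϖ, hϖ⟩ := exists_ordT_eq_one p L
  have hϖ0 : ϖ ≠ 0 := by
    intro h
    rw [h, Fermat.Agent.S55.helper7.ordT_zero] at hϖ
    exact absurd hϖ (by simp)
  have hϖmem : ϖ ∈ Oq p L := by
    rw [mem_Oq, hϖ]
    exact zero_le_one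
  have hpowϖ : ∀ k : ℕ, ordT p L (ϖ ^ k) = ((k : ℤ) : WithTop ℤ) := by
    intro k
    rw [Fermat.Agent.S55.helper7.ordT_pow, hϖ]
    have : (1 : WithTop ℤ) = ((1 : ℤ) : WithTop ℤ) := rfl
    rw [this, ← WithTop.coe_nsmul, nsmul_eq_mul, mul_one]
  -- the unit part of `z`
  have hu0 : ordT p L ((z : L) / ϖ ^ n) = 0 :=
    ordT_div_eq_zero p L (pow_ne_zero n hϖ0) (by rw [hz, hpowϖ])
  have hu'0 : ordT p L ((z : L) / ϖ ^ n)⁻¹ = 0 := ordT_inv_eq_zero p L hu0
  have hune : (z : L) / ϖ ^ n ≠ 0 := by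
    intro h
    rw [h, Fermat.Agent.S55.helper7.ordT_zero] at hu0
    exact absurd hu0 (by simp)
  let U : Oq p L := ⟨(z : L) / ϖ ^ n, by rw [mem_Oq, hu0]⟩
  let U' : Oq p L := ⟨((z : L) / ϖ ^ n)⁻¹, by rw [mem_Oq, hu'0]⟩
  have hUU : U * U' = 1 := by
    apply Subtype.ext
    change (z : L) / ϖ ^ n * ((z : L) / ϖ ^ n)⁻¹ = 1
    exact mul_inv_cancel₀ hune
  let P : Oq p L := ⟨ϖ, hϖmem⟩
  have hzP : z = P ^ n * U := by
    apply Subtype.ext
    change (z : L) = ((P ^ n : Oq p L) : L) * ((z : L) / ϖ ^ n)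
    rw [SubmonoidClass.coe_pow]
    change (z : L) = ϖ ^ n * ((z : L) / ϖ ^ n)
    rw [mul_div_cancel₀ _ (pow_ne_zero n hϖ0)]
  -- the unit part of `p`
  have hw0 : ordT p L ((p : L) / ϖ ^ edeg p L) = 0 :=
    ordT_div_eq_zero p L (pow_ne_zero _ hϖ0) (by rw [Fermat.Agent.S55.helper7.ordT_q, hpowϖ])
  have hw'0 : ordT p L ((p : L) / ϖ ^ edeg p L)⁻¹ = 0 := ordT_inv_eq_zero p L hw0
  have hwne : (p : L) / ϖ ^ edeg p L ≠ 0 := by
    intro h
    rw [h, Fermat.Agent.S55.helper7.ordT_zero] at hw0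
    exact absurd hw0 (by simp)
  let W : Oq p L := ⟨(p : L) / ϖ ^ edeg p L, by rw [mem_Oq, hw0]⟩
  let W' : Oq p L := ⟨((p : L) / ϖ ^ edeg p L)⁻¹, by rw [mem_Oq, hw'0]⟩
  have hWW : W * W' = 1 := by
    apply Subtype.ext
    change (p : L) / ϖ ^ edeg p L * ((p : L) / ϖ ^ edeg p L)⁻¹ = 1
    exact mul_inv_cancel₀ hwne
  have hpP : (p : Oq p L) = P ^ edeg p L * W := by
    apply Subtype.ext
    change ((p : Oq p L) : L) = ((P ^ edeg p L : Oq p L) : L) * ((p : L) / ϖ ^ edeg p L)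
    rw [SubmonoidClass.coe_pow, SubringClass.coe_natCast]
    change (p : L) = ϖ ^ edeg p L * ((p : L) / ϖ ^ edeg p L)
    rw [mul_div_cancel₀ _ (pow_ne_zero _ hϖ0)]
  -- lifts
  obtain ⟨r0, hr0⟩ := Ideal.Quotient.mk_surjective (η P)
  obtain ⟨sU, hsU⟩ := Ideal.Quotient.mk_surjective (η U)
  obtain ⟨sW, hsW⟩ := Ideal.Quotient.mk_surjective (η W)
  have hsU0 := ordT_lift_unit p L E N hN0 η U U' hUU sU hsU
  have hsW0 := ordT_lift_unit p L E N hN0 η W W' hWW sW hsW
  -- the equation for `p`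
  have hp1 : Ideal.Quotient.mk (ballIdeal p E N) ((p : Oq p E) - r0 ^ edeg p L * sW) = 0 := by
    rw [map_sub, map_natCast, map_mul, map_pow, hr0, hsW, ← map_pow, ← map_mul, ← hpP,
      map_natCast, sub_self]
  rw [Ideal.Quotient.eq_zero_iff_mem, mem_ballIdeal] at hp1
  have hp2 : ordT p E ((r0 : E) ^ edeg p L * (sW : E)) = ((edeg p E : ℤ) : WithTop ℤ) := by
    have h3 : (r0 : E) ^ edeg p L * (sW : E) =
        (p : E) + - ((((p : Oq p E) - r0 ^ edeg p L * sW : Oq p E)) : E) := by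
      push_cast
      ring
    rw [h3, ordT_add_eq_of_lt' p E, Fermat.Agent.S55.helper7.ordT_q]
    rw [Fermat.Agent.S55.helper7.ordT_q, Fermat.Agent.S55.helper7.ordT_neg]
    exact lt_of_lt_of_le (by exact_mod_cast hN) hp1
  have hr00 : (r0 : E) ≠ 0 := by
    intro h
    rw [h, zero_pow heL.ne', zero_mul, Fermat.Agent.S55.helper7.ordT_zero] at hp2
    exact WithTop.coe_ne_top hp2.symm
  obtain ⟨t, ht⟩ : ∃ t : ℤ, ordT p E (r0 : E) = ((t : ℤ) : WithTop ℤ) :=
    ⟨_, Fermat.Agent.S55.helper7.ordT_of_ne_zero p E hr00⟩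
  have ht0 : 0 ≤ t := by
    have h3 : 0 ≤ ordT p E (r0 : E) := r0.2
    rw [ht] at h3
    exact_mod_cast h3
  have hpowr : ∀ k : ℕ, ordT p E ((r0 : E) ^ k) = ((((k : ℤ) * t : ℤ)) : WithTop ℤ) := by
    intro k
    rw [Fermat.Agent.S55.helper7.ordT_pow, ht, ← WithTop.coe_nsmul, nsmul_eq_mul]
  rw [Fermat.Agent.S55.helper7.ordT_mul, hsW0, add_zero, hpowr] at hp2
  have het : (edeg p L : ℤ) * t = (edeg p E : ℤ) := by exact_mod_cast hp2
  -- the equation for `z`
  have hz1 : Ideal.Quotient.mk (ballIdeal p E N) (r - r0 ^ n * sU) = 0 := by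
    rw [map_sub, map_mul, map_pow, hr0, hsU, ← map_pow, ← map_mul, ← hzP, hr, sub_self]
  rw [Ideal.Quotient.eq_zero_iff_mem, mem_ballIdeal] at hz1
  have hz2 : ordT p E ((r0 : E) ^ n * (sU : E)) = ((((n : ℤ) * t : ℤ)) : WithTop ℤ) := by
    rw [Fermat.Agent.S55.helper7.ordT_mul, hsU0, add_zero, hpowr]
  have hltZ : (n : ℤ) * (edeg p E : ℤ) < (N : ℤ) * (edeg p L : ℤ) := by exact_mod_cast hlt
  have heLZ : (0 : ℤ) < (edeg p L : ℤ) := by exact_mod_cast heL
  have hmN : (n : ℤ) * t < (N : ℤ) := by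
    by_contra hcon
    rw [not_lt] at hcon
    have : (N : ℤ) * (edeg p L : ℤ) ≤ (n : ℤ) * t * (edeg p L : ℤ) :=
      mul_le_mul_of_nonneg_right hcon heLZ.le
    nlinarith
  have hz3 : ordT p E (r : E) = ((((n : ℤ) * t : ℤ)) : WithTop ℤ) := by
    have h3 : (r : E) = (r0 : E) ^ n * (sU : E) + (((r - r0 ^ n * sU : Oq p E)) : E) := by
      push_cast
      ring
    rw [h3, ordT_add_eq_of_lt' p E, hz2]
    rw [hz2]
    exact lt_of_lt_of_le (by exact_mod_cast hmN) hz1
  refine ⟨n * t.toNat, ?_, ?_⟩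
  · rw [hz3]
    congr 1
    push_cast
    rw [Int.toNat_of_nonneg ht0]
  · have h5 : ((n * t.toNat * edeg p L : ℕ) : ℤ) = ((n * edeg p E : ℕ) : ℤ) := by
      push_cast
      rw [Int.toNat_of_nonneg ht0, mul_assoc, mul_comm t, het]
    exact_mod_cast h5

/-- **HOPF-VAL**, in the shape of the package (the hypothesis is not needed). -/
theorem hopfVal (h1 : DictO1Statement p) : HopfValStatement p := hopfVal_aux p

end Fermat.Agent.P1.helper86
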