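import Fermat.Agent.P1.helper47_HopfInterface2

/-!
# P1 / FLAT-HOPF, package DICT-O1 (helper87, task 635)

`dictO1 p : helper47.DictO1Statement p`: the valuation ring `Oq p F` of a `p`-adic field is a
principal ideal ring (hence noetherian) with uniformisers `π` (`ord π = 1`), `p = π ^ e · w` with
`w` a unit, divisibility by `π ^ n` is `n ≤ ord`, and `ballIdeal p F N = (π ^ N)`.
-/

set_option autoImplicit false
set_option linter.unusedSectionVars false

namespace Fermat.Agent.P1.helper87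

open Fermat.Agent.S55.helper8 Fermat.Agent.S55.helper7 Fermat.Agent.P1.helper14
  Fermat.Agent.P1.helper47

variable (p : ℕ) [Fact p.Prime] (F : Type) [Field F] [Algebra ℚ_[p] F]
  [FiniteDimensional ℚ_[p] F]

/-- the integer valuation of a nonzero element -/
lemma exists_ordT_eq {x : F} (hx : x ≠ 0) : ∃ m : ℤ, ordT p F x = ((m : ℤ) : WithTop ℤ) :=
  ⟨_, ordT_of_ne_zero p F hx⟩

lemma ordT_pow_of_eq_one {π : F} (hπ : ordT p F π = 1) (n : ℕ) :
    ordT p F (π ^ n) = ((n : ℤ) : WithTop ℤ) := by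
  rw [ordT_pow, hπ, nsmul_one]
  rfl

lemma ne_zero_of_ordT_eq_one {π : F} (hπ : ordT p F π = 1) : π ≠ 0 := by
  rintro rfl
  rw [ordT_zero] at hπ
  exact WithTop.top_ne_one hπ

/-- `ord (x / π ^ n) = ord x - n` -/
lemma ordT_div_pow {π : F} (hπ : ordT p F π = 1) (n : ℕ) {x : F} {m : ℤ}
    (hm : ordT p F x = ((m : ℤ) : WithTop ℤ)) :
    ordT p F (x / π ^ n) = (((m - n : ℤ)) : WithTop ℤ) := by
  have hπ0 := ne_zero_of_ordT_eq_one p F hπ
  have hx0 : x ≠ 0 := by
    rintro rfl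
    rw [ordT_zero] at hm
    exact WithTop.coe_ne_top hm.symm
  have hd0 : x / π ^ n ≠ 0 := div_ne_zero hx0 (pow_ne_zero _ hπ0)
  obtain ⟨k, hk⟩ := exists_ordT_eq p F hd0
  have h1 : ordT p F x = ordT p F (x / π ^ n) + ordT p F (π ^ n) := by
    rw [← ordT_mul, div_mul_cancel₀ _ (pow_ne_zero _ hπ0)]
  rw [hm, hk, ordT_pow_of_eq_one p F hπ, ← WithTop.coe_add, WithTop.coe_eq_coe] at h1
  rw [hk]
  congr 1
  omega

/-- divisibility by `π ^ n` in `Oq` -/
theorem pow_dvd_iff (π : Oq p F) (hπ : ordT p F (π : F) = 1) (n : ℕ) (x : Oq p F) :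
    π ^ n ∣ x ↔ ((n : ℤ) : WithTop ℤ) ≤ ordT p F (x : F) := by
  constructor
  · rintro ⟨y, rfl⟩
    have hy : (0 : WithTop ℤ) ≤ ordT p F (y : F) := y.2
    show ((n : ℤ) : WithTop ℤ) ≤ ordT p F (((π : F)) ^ n * (y : F))
    rw [ordT_mul, ordT_pow_of_eq_one p F hπ]
    exact le_add_of_nonneg_right hy
  · intro h
    by_cases hx : (x : F) = 0
    · have : x = 0 := Subtype.ext hx
      rw [this]
      exact dvd_zero _
    · obtain ⟨m, hm⟩ := exists_ordT_eq p F hx
      have hd := ordT_div_pow p F hπ n hm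
      have hnm : (n : ℤ) ≤ m := by
        rw [hm] at h
        exact_mod_cast h
      have hmem : (x : F) / (π : F) ^ n ∈ Oq p F := by
        rw [mem_Oq, hd]
        have : (0 : ℤ) ≤ m - n := by omega
        exact_mod_cast this
      refine ⟨⟨_, hmem⟩, Subtype.ext ?_⟩
      show (x : F) = (π : F) ^ n * ((x : F) / (π : F) ^ n)
      rw [mul_div_cancel₀ _ (pow_ne_zero _ (ne_zero_of_ordT_eq_one p F hπ))]

/-- an element of valuation `0` is a unit of `Oq` -/
theorem isUnit_of_ordT_eq_zero (w : Oq p F) (hw : ordT p F (w : F) = 0) : IsUnit w := by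
  have hw0 : (w : F) ≠ 0 := by
    intro h
    rw [h, ordT_zero] at hw
    exact WithTop.top_ne_zero hw
  have hinv : ordT p F ((w : F)⁻¹) = 0 := by
    have := ordT_inv p F hw0
    rw [hw, zero_add] at this
    exact this
  have hmem : (w : F)⁻¹ ∈ Oq p F := by
    rw [mem_Oq, hinv]
  refine ⟨⟨w, ⟨_, hmem⟩, Subtype.ext ?_, Subtype.ext ?_⟩, rfl⟩
  · show (w : F) * (w : F)⁻¹ = 1
    exact mul_inv_cancel₀ hw0
  · show (w : F)⁻¹ * (w : F) = 1
    exact inv_mul_cancel₀ hw0

/-- existence of a uniformiser in `Oq` -/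
theorem exists_uniformizer : ∃ π : Oq p F, ordT p F (π : F) = 1 := by
  obtain ⟨π, hπ⟩ := Fermat.Agent.S55.helper33.exists_ord_eq_one p F
  have h1 : ordT p F (π : F) = 1 := by
    rw [ordT_of_ne_zero p F π.ne_zero]
    have : Units.mk0 (π : F) π.ne_zero = π := Units.ext rfl
    rw [this, hπ]
    rfl
  refine ⟨⟨(π : F), ?_⟩, h1⟩
  rw [mem_Oq, h1]
  exact zero_le_one

/-- `p = π ^ e · w` with `w` a unit -/
theorem exists_unit_natCast_eq (π : Oq p F) (hπ : ordT p F (π : F) = 1) :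
    ∃ w : Oq p F, IsUnit w ∧ (p : Oq p F) = π ^ edeg p F * w := by
  have hπ0 := ne_zero_of_ordT_eq_one p F hπ
  have hp := ordT_q p F
  have hd := ordT_div_pow p F hπ (edeg p F) hp
  rw [sub_self] at hd
  have hmem : (p : F) / (π : F) ^ edeg p F ∈ Oq p F := by
    rw [mem_Oq, hd]
    rfl
  refine ⟨⟨_, hmem⟩, isUnit_of_ordT_eq_zero p F _ hd, Subtype.ext ?_⟩
  show ((p : Oq p F) : F) = (π : F) ^ edeg p F * ((p : F) / (π : F) ^ edeg p F)
  rw [mul_div_cancel₀ _ (pow_ne_zero _ hπ0)]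
  simp

/-- `ballIdeal = (π ^ N)` -/
theorem ballIdeal_eq_span (π : Oq p F) (hπ : ordT p F (π : F) = 1) (N : ℕ) :
    ballIdeal p F N = Ideal.span {π ^ N} := by
  ext x
  rw [mem_ballIdeal, Ideal.mem_span_singleton, pow_dvd_iff p F π hπ]

/-- every ideal of `Oq` is principal -/
theorem isPrincipal_ideal (I : Ideal (Oq p F)) : I.IsPrincipal := by
  classical
  obtain ⟨π, hπ⟩ := exists_uniformizer p F
  by_cases hI : I = ⊥
  · rw [hI]
    exact ⟨⟨0, by simp⟩⟩
  · obtain ⟨x₁, hx₁I, hx₁0⟩ : ∃ x ∈ I, x ≠ 0 := by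
      by_contra h
      push_neg at h
      exact hI ((Submodule.eq_bot_iff I).mpr h)
    have hx₁F : (x₁ : F) ≠ 0 := fun h => hx₁0 (Subtype.ext h)
    have hex : ∃ n : ℕ, ∃ x ∈ I, ordT p F (x : F) = ((n : ℤ) : WithTop ℤ) := by
      obtain ⟨m, hm⟩ := exists_ordT_eq p F hx₁F
      have hm0 : (0 : ℤ) ≤ m := by
        have := x₁.2
        rw [mem_Oq, hm] at this
        exact_mod_cast this
      refine ⟨m.toNat, x₁, hx₁I, ?_⟩
      rw [hm, Int.toNat_of_nonneg hm0]
    let n := Nat.find hex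
    obtain ⟨x₀, hx₀I, hx₀⟩ := Nat.find_spec hex
    refine ⟨⟨π ^ n, ?_⟩⟩
    apply le_antisymm
    · intro x hx
      rw [Ideal.submodule_span_eq, Ideal.mem_span_singleton, pow_dvd_iff p F π hπ]
      by_cases hx0 : (x : F) = 0
      · rw [hx0, ordT_zero]
        exact le_top
      · obtain ⟨m, hm⟩ := exists_ordT_eq p F hx0
        have hm0 : (0 : ℤ) ≤ m := by
          have := x.2
          rw [mem_Oq, hm] at this
          exact_mod_cast this
        rw [hm]
        have hmin : n ≤ m.toNat := Nat.find_min' hex ⟨x, hx, by rw [hm, Int.toNat_of_nonneg hm0]⟩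
        have : (n : ℤ) ≤ m := by omega
        exact_mod_cast this
    · rw [Ideal.submodule_span_eq, Ideal.span_singleton_le_iff_mem]
      -- `x₀ = π ^ n * u`, `u` a unit
      have hdvd : π ^ n ∣ x₀ := by
        rw [pow_dvd_iff p F π hπ, hx₀]
      obtain ⟨u, hu⟩ := hdvd
      have hu0 : ordT p F (u : F) = 0 := by
        have h1 : ordT p F (x₀ : F) = ordT p F ((π : F) ^ n) + ordT p F (u : F) := by
          rw [← ordT_mul, hu]
          rfl
        rw [hx₀, ordT_pow_of_eq_one p F hπ] at h1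
        have hx₀F : (x₀ : F) ≠ 0 := by
          intro h
          rw [h, ordT_zero] at hx₀
          exact WithTop.coe_ne_top hx₀.symm
        have huF : (u : F) ≠ 0 := by
          intro h
          apply hx₀F
          have h2 : (x₀ : F) = (π : F) ^ n * (u : F) :=
            congrArg (fun y : Oq p F => (y : F)) hu
          rw [h2, h, mul_zero]
        obtain ⟨k, hk⟩ := exists_ordT_eq p F huF
        rw [hk, ← WithTop.coe_add, WithTop.coe_eq_coe] at h1
        rw [hk]
        have : k = 0 := by omega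
        rw [this]
        rfl
      obtain ⟨v, hv⟩ := isUnit_of_ordT_eq_zero p F u hu0
      have : π ^ n = x₀ * ((v⁻¹ : (Oq p F)ˣ) : Oq p F) := by
        rw [hu, mul_assoc, ← hv, Units.mul_inv, mul_one]
      rw [this]
      exact I.mul_mem_right _ hx₀I

instance isPrincipalIdealRing_Oq : IsPrincipalIdealRing (Oq p F) :=
  ⟨isPrincipal_ideal p F⟩

/-- **DICT-O1**. -/
theorem dictO1 : DictO1Statement p := by
  intro F _ _ _
  refine ⟨inferInstance, exists_uniformizer p F, fun π hπ =>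
    ⟨exists_unit_natCast_eq p F π hπ, fun n x => pow_dvd_iff p F π hπ n x,
      fun N => ballIdeal_eq_span p F π hπ N⟩⟩

end Fermat.Agent.P1.helper87
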