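import Mathlib
import Fermat.Agent.P1.helper47_HopfInterface2
import Fermat.Agent.S55.helper71_LocComplete

/-!
# P1 / FLAT-HOPF / DICT-O2 (helper89): `Oq p F` is `π`-adically complete

`dictO2 p : DictO2Statement p` : for a `p`-adic field `F` and `π ∈ Oq p F` of valuation `1`, the
ring of integers `Oq p F` is `π`-adically complete (Hausdorff: an element of valuation `≥ n` for
all `n` is zero; precomplete: `helper71.exists_limit`).
-/

set_option autoImplicit false

namespace Fermat.Agent.P1.helper89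

open Fermat.Agent.S55.helper8 Fermat.Agent.S55.helper7 Fermat.Agent.P1.helper47

variable (p : ℕ) [Fact p.Prime]

section

variable (F : Type) [Field F] [Algebra ℚ_[p] F] [FiniteDimensional ℚ_[p] F]

/-- valuation of a multiple of `π ^ n`. -/
lemma le_ordT_of_dvd (π : Oq p F) (hπ : ordT p F (π : F) = 1) (n : ℕ) (x : Oq p F)
    (h : π ^ n ∣ x) : ((n : ℤ) : WithTop ℤ) ≤ ordT p F (x : F) := by
  obtain ⟨c, rfl⟩ := h
  have hc : (0 : WithTop ℤ) ≤ ordT p F (c : F) := c.2
  have e : ordT p F (((π ^ n * c : Oq p F)) : F) = (n : WithTop ℤ) + ordT p F (c : F) := by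
    rw [Subring.coe_mul, Subring.coe_pow, ordT_mul, ordT_pow, hπ]
    simp
  rw [e]
  calc ((n : ℤ) : WithTop ℤ) = (n : WithTop ℤ) + 0 := by simp
    _ ≤ (n : WithTop ℤ) + ordT p F (c : F) := by gcongr

/-- an element of valuation `≥ n` is a multiple of `π ^ n`. -/
lemma dvd_of_le_ordT (π : Oq p F) (hπ : ordT p F (π : F) = 1) (n : ℕ) (x : Oq p F)
    (h : ((n : ℤ) : WithTop ℤ) ≤ ordT p F (x : F)) : π ^ n ∣ x := by
  have hπ0 : (π : F) ≠ 0 := by
    intro h0
    rw [h0, ordT_zero] at hπ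
    exact WithTop.top_ne_one hπ
  have hπn : ((π : F) ^ n) ≠ 0 := pow_ne_zero _ hπ0
  have hinv : ordT p F ((π : F) ^ n) + ordT p F ((π : F) ^ n)⁻¹ = 0 := ordT_inv p F hπn
  have hpow : ordT p F ((π : F) ^ n) = ((n : ℤ) : WithTop ℤ) := by
    rw [ordT_pow, hπ]
    simp
  have hc : (0 : WithTop ℤ) ≤ ordT p F ((x : F) * ((π : F) ^ n)⁻¹) := by
    rw [ordT_mul]
    calc (0 : WithTop ℤ) = ordT p F ((π : F) ^ n) + ordT p F ((π : F) ^ n)⁻¹ := hinv.symm
      _ ≤ ordT p F (x : F) + ordT p F ((π : F) ^ n)⁻¹ := by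
        rw [hpow]
        gcongr
  refine ⟨⟨(x : F) * ((π : F) ^ n)⁻¹, hc⟩, ?_⟩
  apply Subtype.ext
  rw [Subring.coe_mul, Subring.coe_pow]
  change (x : F) = (π : F) ^ n * ((x : F) * ((π : F) ^ n)⁻¹)
  field_simp

lemma mem_span_pow_iff (π : Oq p F) (hπ : ordT p F (π : F) = 1) (n : ℕ) (x : Oq p F) :
    x ∈ (Ideal.span {π} ^ n • ⊤ : Submodule (Oq p F) (Oq p F)) ↔
      ((n : ℤ) : WithTop ℤ) ≤ ordT p F (x : F) := by
  rw [smul_eq_mul, Ideal.mul_top, Ideal.span_singleton_pow, Ideal.mem_span_singleton]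
  exact ⟨le_ordT_of_dvd p F π hπ n x, dvd_of_le_ordT p F π hπ n x⟩

end

/-- **DICT-O2**: `Oq p F` is `π`-adically complete. -/
theorem dictO2 : DictO2Statement p := by
  intro F _ _ _ π hπ
  have hH : IsHausdorff (Ideal.span {π}) (Oq p F) := by
    refine ⟨fun x hx => ?_⟩
    have h : ∀ n : ℕ, ((n : ℤ) : WithTop ℤ) ≤ ordT p F (x : F) := by
      intro n
      have := hx n
      rw [SModEq.sub_mem, sub_zero] at this
      exact (mem_span_pow_iff p F π hπ n x).1 this
    have htop : ordT p F (x : F) = ⊤ := by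
      by_contra hne
      obtain ⟨m, hm⟩ := WithTop.ne_top_iff_exists.1 hne
      have h1 := h (m.toNat + 1)
      rw [← hm] at h1
      have h2 : ((m.toNat + 1 : ℕ) : ℤ) ≤ m := by exact_mod_cast h1
      have h3 : m ≤ (m.toNat : ℤ) := Int.self_le_toNat m
      push_cast at h2
      omega
    apply Subtype.ext
    exact (ordT_eq_top_iff p F).1 htop
  have hP : IsPrecomplete (Ideal.span {π}) (Oq p F) := by
    refine ⟨fun f hf => ?_⟩
    have hstep : ∀ n : ℕ, ((n : ℤ) : WithTop ℤ) ≤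
        ordT p F ((fun n => ((f n : Oq p F) : F)) (n + 1) - (fun n => ((f n : Oq p F) : F)) n) := by
      intro n
      have h1 := hf (Nat.le_succ n)
      rw [SModEq.sub_mem] at h1
      have h2 := (mem_span_pow_iff p F π hπ n _).1 h1
      have e : ((f n - f (n + 1) : Oq p F) : F) = (f n : F) - (f (n + 1) : F) := rfl
      rw [e] at h2
      rw [ordT_sub_comm]
      exact h2
    obtain ⟨y, hy⟩ := Fermat.Agent.S55.helper71.exists_limit p F (fun n => ((f n : Oq p F) : F)) hstep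
    have hy0 : (0 : WithTop ℤ) ≤ ordT p F y := by
      have h0 : (0 : WithTop ℤ) ≤ ordT p F (y - (f 0 : F)) := by
        have := hy 0
        simpa using this
      have e : y = (y - (f 0 : F)) + (f 0 : F) := by ring
      rw [e]
      exact ordT_add_nonneg p F h0 (f 0).2
    refine ⟨⟨y, hy0⟩, fun n => ?_⟩
    rw [SModEq.sub_mem, mem_span_pow_iff p F π hπ n]
    have e : ((f n - ⟨y, hy0⟩ : Oq p F) : F) = (f n : F) - y := rfl
    rw [e, ordT_sub_comm]
    exact hy n
  exact { toIsHausdorff := hH, toIsPrecomplete := hP }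

end Fermat.Agent.P1.helper89
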