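import Mathlib
import Fermat.Agent.P1.helper47_HopfInterface

/-!
# P1 / FLAT-HOPF, package HOPF-COMPLETE (helper93, task 633)

`hopfComplete : helper47.HopfCompleteStatement` : for a coalgebra `M`, finite free over `O`, and
a noetherian `O`-algebra `R` which is `π`-adically complete, the convolution algebra
`WithConv (M →ₗ[O] R)` is `π`-adically complete.
-/

set_option autoImplicit false

namespace Fermat.Agent.P1.helper93

/-- A finite module over an `I`-adically complete noetherian ring is `I`-adically complete. -/
theorem hopf_isAdicComplete_of_finite {R : Type*} [CommRing R] [IsNoetherianRing R] (I : Ideal R)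
    [IsAdicComplete I R] (M : Type*) [AddCommGroup M] [Module R M] [Module.Finite R M] :
    IsAdicComplete I M := by
  haveI : IsHausdorff I M := IsHausdorff.of_le_jacobson I M (IsAdicComplete.le_jacobson_bot I)
  haveI : IsPrecomplete I M := by
    rw [← AdicCompletion.of_surjective_iff]
    intro y
    obtain ⟨x, rfl⟩ := AdicCompletion.ofTensorProduct_surjective_of_finite I M y
    induction x using TensorProduct.induction_on with
    | zero => exact ⟨0, by simp⟩
    | tmul r m =>
      obtain ⟨r₀, rfl⟩ := AdicCompletion.of_surjective I R r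
      refine ⟨r₀ • m, ?_⟩
      rw [AdicCompletion.ofTensorProduct_tmul]
      ext n
      rw [AdicCompletion.smul_eval]
      simp only [AdicCompletion.of_apply, map_smul]
      rfl
    | add a b ha hb =>
      obtain ⟨a', ha'⟩ := ha
      obtain ⟨b', hb'⟩ := hb
      exact ⟨a' + b', by rw [map_add, map_add, ha', hb']⟩
  exact {}

section

variable (O M R : Type) [CommRing O] [AddCommGroup M] [Module O M] [Coalgebra O M]
  [Coalgebra.IsCocomm O M] [Module.Free O M] [Module.Finite O M]
  [CommRing R] [Algebra O R]

/-- the convolution algebra is a finite `R`-module -/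
theorem hopf_finite_conv : Module.Finite R (WithConv (M →ₗ[O] R)) := by
  classical
  let b := Module.Free.chooseBasis O M
  haveI : Fintype (Module.Free.ChooseBasisIndex O M) := Module.Free.ChooseBasisIndex.fintype O M
  let e : (Module.Free.ChooseBasisIndex O M → R) ≃ₗ[R] WithConv (M →ₗ[O] R) :=
    (b.constr R).trans (WithConv.linearEquiv R (M →ₗ[O] R)).symm
  exact Module.Finite.equiv e

end

/-- **HOPF-COMPLETE**. -/
theorem hopfComplete : Fermat.Agent.P1.helper47.HopfCompleteStatement := by
  intro O M R _ _ _ _ _ _ _ _ _ _ π hπ
  haveI := hπ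
  haveI : Module.Finite R (WithConv (M →ₗ[O] R)) := hopf_finite_conv O M R
  have h1 : IsAdicComplete (Ideal.span {π}) (WithConv (M →ₗ[O] R)) :=
    hopf_isAdicComplete_of_finite (Ideal.span {π}) (WithConv (M →ₗ[O] R))
  have h2 := (IsAdicComplete.map_algebraMap_iff (R := R) (S := WithConv (M →ₗ[O] R))
    (M := WithConv (M →ₗ[O] R)) (I := Ideal.span {π})).mpr h1
  rw [Ideal.map_span, Set.image_singleton] at h2
  exact h2

end Fermat.Agent.P1.helper93
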