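import Fermat.Agent.P1.helper9_Hopf2bCore
import Fermat.Agent.P1.helper47_HopfInterface

/-!
# P1 / FLAT-HOPF, package HOPF-2b (helper9, task 632)

`hopf2b : helper47.Hopf2bStatement`, verbatim, unconditional.
-/

set_option autoImplicit false

namespace Fermat.Agent.P1.helper9

/-- **HOPF-2b** (`p`-th roots in `1 + π ^ N C`), verbatim. -/
theorem hopf2b : helper47.Hopf2bStatement :=
  fun C _ p hp π w e N hC hw hpe hN h hh =>
    haveI := hC
    hopf2b_core C p hp π w e N hw hpe hN h hh

end Fermat.Agent.P1.helper9
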