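import Mathlib
import Fermat.Agent.P1.helper47_HopfInterface2
import Fermat.Agent.P1.helper47_HopfP
import Fermat.Agent.P1.helper10_HopfCnt
import Fermat.Agent.P1.helper12_Hopf2a
import Fermat.Agent.P1.helper26_HopfInj
import Fermat.Agent.P1.helper86_HopfVal
import Fermat.Agent.P1.helper87_DictO1
import Fermat.Agent.P1.helper89_DictO2
import Fermat.Agent.P1.helper93_HopfComplete
import Fermat.Agent.P1.helper9_Hopf2b
import Fermat.Agent.S28.helper94_Zl

/-!
# P1 / FLAT-HOPF (helper47): assembly, `hopfMain : HopfMainStatement p`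

The output of module FLAT-HOPF, UNCONDITIONAL: for a finite flat commutative cocommutative Hopf
algebra `H` over `ℤ_(p)` and a `p`-adic field `L` such that the `L`-points of `H` are killed by
`p`, generate `L` over `ℚ_p`, and exhaust the points over all extension fields of `L`, the field
`L` has Fontaine's embedding property `helper14.EmbProperty p L`.
-/

set_option autoImplicit false

namespace Fermat.Agent.P1.helper47

open Fermat.Agent.S55.helper8 Fermat.Agent.S55.helper7 Fermat.Agent.P1.helper14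
open WithConv

section ratLoc

variable (p : ℕ) [Fact p.Prime]

/-- Ring homomorphisms out of `ℤ_(p)` are unique. -/
theorem ringHom_ext_ratLoc {S : Type*} [CommRing S]
    (f g : ↥(GaloisRep.ratLocalizedAt p) →+* S) : f = g := by
  have := Fermat.Agent.S28.helper94.isPrime_span_ell p
  have := Fermat.Agent.S28.helper94.isLocalization_Zl p
  apply IsLocalization.ringHom_ext (Ideal.span {(p : ℤ)}).primeCompl
  exact RingHom.ext_int _ _

/-- A ring homomorphism between `ℤ_(p)`-algebras is an algebra homomorphism. -/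
def algHomOfRingHom {A B : Type*} [CommRing A] [CommRing B]
    [Algebra ↥(GaloisRep.ratLocalizedAt p) A] [Algebra ↥(GaloisRep.ratLocalizedAt p) B]
    (f : A →+* B) : A →ₐ[↥(GaloisRep.ratLocalizedAt p)] B :=
  { f with
    commutes' := fun r => RingHom.congr_fun
      (ringHom_ext_ratLoc p (f.comp (algebraMap _ A)) (algebraMap _ B)) r }

@[simp] lemma algHomOfRingHom_apply {A B : Type*} [CommRing A] [CommRing B]
    [Algebra ↥(GaloisRep.ratLocalizedAt p) A] [Algebra ↥(GaloisRep.ratLocalizedAt p) B]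
    (f : A →+* B) (a : A) : algHomOfRingHom p f a = f a := rfl

end ratLoc

section compPts

variable {O H R R' : Type} [CommRing O] [CommRing H] [Bialgebra O H] [CommRing R] [Algebra O R]
  [CommRing R'] [Algebra O R']

/-- Post-composition with an algebra homomorphism, as a monoid homomorphism on points. -/
noncomputable def compPts (ψ : R →ₐ[O] R') : WithConv (H →ₐ[O] R) →* WithConv (H →ₐ[O] R') where
  toFun x := toConv (ψ.comp x.ofConv)
  map_one' := by
    apply WithConv.ext
    ext h
    simp [AlgHom.convOne_def]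
  map_mul' x y := by
    apply WithConv.ext
    exact AlgHom.comp_convMul_distrib ψ x y

@[simp] lemma compPts_apply (ψ : R →ₐ[O] R') (x : WithConv (H →ₐ[O] R)) (h : H) :
    (compPts ψ x).ofConv h = ψ (x.ofConv h) := rfl

lemma compPts_injective (ψ : R →ₐ[O] R') (hψ : Function.Injective ψ) :
    Function.Injective (compPts (H := H) ψ) := by
  intro x y hxy
  apply WithConv.ext
  ext h
  apply hψ
  have := congrArg (fun t : WithConv (H →ₐ[O] R') => t.ofConv h) hxy
  exact this

end compPts

section Oq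

variable (p : ℕ) [Fact p.Prime] (F : Type) [Field F] [Algebra ℚ_[p] F]
  [FiniteDimensional ℚ_[p] F]

lemma ordT_intCast_nonneg (n : ℤ) : 0 ≤ ordT p F (n : F) := by
  have : ((n : Oq p F) : F) = (n : F) := by simp
  rw [← this]
  exact (n : Oq p F).2

lemma ordT_intCast_eq_zero {y : ℤ} (hy : ¬ (p : ℤ) ∣ y) : ordT p F (y : F) = 0 := by
  have hcop : IsCoprime y (p : ℤ) := by
    rw [Int.isCoprime_iff_gcd_eq_one]
    have hp : Prime (p : ℤ) := Nat.prime_iff_prime_int.mp (Fact.out : p.Prime)
    have := (Int.isCoprime_iff_gcd_eq_one).mp ((hp.coprime_iff_not_dvd).mpr hy)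
    rw [Int.gcd_comm]
    exact this
  obtain ⟨u, v, huv⟩ := hcop
  have h1 : (u : F) * (y : F) = 1 + (-(v : F)) * (p : F) := by
    have := congrArg (fun t : ℤ => (t : F)) huv
    push_cast at this
    linear_combination this
  have hp0 : 0 < ordT p F ((p : ℕ) : F) := ordT_q_pos p F
  have h2 : ordT p F ((1 : F) + (-(v : F)) * (p : F)) = 0 := by
    rw [Fermat.Agent.P1.helper86.ordT_add_eq_of_lt' p F, ordT_one]
    rw [ordT_one, ordT_mul, ordT_neg]
    exact lt_of_lt_of_le hp0 (le_add_of_nonneg_left (ordT_intCast_nonneg p F v))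
  rw [← h1, ordT_mul] at h2
  have hu := ordT_intCast_nonneg p F u
  have hy' := ordT_intCast_nonneg p F y
  refine le_antisymm ?_ hy'
  calc ordT p F (y : F) ≤ ordT p F (u : F) + ordT p F (y : F) := le_add_of_nonneg_left hu
    _ = 0 := h2

/-- The structure map `ℤ_(p) → 𝒪_F`. -/
noncomputable def ratLocToOq : ↥(GaloisRep.ratLocalizedAt p) →+* Oq p F :=
  haveI := Fermat.Agent.S28.helper94.isPrime_span_ell p
  haveI := Fermat.Agent.S28.helper94.isLocalization_Zl p
  IsLocalization.lift (M := (Ideal.span {(p : ℤ)}).primeCompl) (g := Int.castRingHom (Oq p F))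
    (fun y => Fermat.Agent.P1.helper87.isUnit_of_ordT_eq_zero p F _ (by
      have hy : ¬ (p : ℤ) ∣ (y : ℤ) := by
        have := y.2
        rwa [Ideal.mem_primeCompl_iff, Ideal.mem_span_singleton] at this
      have := ordT_intCast_eq_zero p F hy
      simpa using this))

/-- Elements which are integral with respect to a ring homomorphism with integral values are
integral. -/
lemma ordT_nonneg_of_isIntegralElem {A : Type*} [CommRing A] (f : A →+* F)
    (hf : ∀ a, 0 ≤ ordT p F (f a)) (z : F) (hz : f.IsIntegralElem z) : 0 ≤ ordT p F z := by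
  obtain ⟨P, hmonic, hP⟩ := hz
  by_contra hneg
  rw [not_le] at hneg
  have hz0 : z ≠ 0 := by
    rintro rfl
    rw [ordT_zero] at hneg
    exact absurd hneg (not_lt.mpr le_top)
  obtain ⟨m, hm⟩ := Fermat.Agent.P1.helper87.exists_ordT_eq p F hz0
  rw [hm] at hneg
  have hm0 : m < 0 := by exact_mod_cast hneg
  set n := P.natDegree with hn
  rw [Polynomial.eval₂_eq_sum_range, Finset.sum_range_succ, ← hn] at hP
  have hlead : f (P.coeff n) = 1 := by
    rw [hn, ← Polynomial.leadingCoeff, hmonic.leadingCoeff, map_one]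
  rw [hlead, one_mul] at hP
  have hzn : z ^ n = - ∑ i ∈ Finset.range n, f (P.coeff i) * z ^ i := by
    rw [eq_neg_iff_add_eq_zero, add_comm]
    exact hP
  have hpow : ∀ i : ℕ, ordT p F (z ^ i) = (((i : ℤ) * m : ℤ) : WithTop ℤ) := by
    intro i
    rw [ordT_pow, hm]
    induction i with
    | zero => simp
    | succ k ih =>
      rw [succ_nsmul, ih, ← WithTop.coe_add]
      congr 1
      push_cast
      ring
  have hn0 : 0 < n := by
    rcases Nat.eq_zero_or_pos n with h0 | h0
    · exfalso
      rw [h0] at hzn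
      simp at hzn
    · exact h0
  have hsum : ((((n : ℤ) - 1) * m : ℤ) : WithTop ℤ) ≤
      ordT p F (∑ i ∈ Finset.range n, f (P.coeff i) * z ^ i) := by
    apply Fermat.Agent.P1.helper86.le_ordT_sum
    intro i hi
    rw [Finset.mem_range] at hi
    rw [ordT_mul, hpow]
    have h1 : ((((n : ℤ) - 1) * m : ℤ) : WithTop ℤ) ≤ (((i : ℤ) * m : ℤ) : WithTop ℤ) := by
      rw [WithTop.coe_le_coe]
      have : (i : ℤ) ≤ (n : ℤ) - 1 := by omega
      nlinarith
    exact le_trans h1 (le_add_of_nonneg_left (hf _))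
  rw [← ordT_neg, ← hzn, hpow, WithTop.coe_le_coe] at hsum
  nlinarith

/-- Ring homomorphisms from a finite `ℤ_(p)`-algebra to a `p`-adic field have integral
values. -/
lemma ordT_nonneg_of_ringHom (H : Type) [CommRing H] [Algebra ↥(GaloisRep.ratLocalizedAt p) H]
    [Module.Finite ↥(GaloisRep.ratLocalizedAt p) H] (x : H →+* F) (h : H) :
    0 ≤ ordT p F (x h) := by
  have hint : IsIntegral ↥(GaloisRep.ratLocalizedAt p) h := IsIntegral.of_finite _ h
  obtain ⟨P, hmonic, hP⟩ := hint
  have hf : x.comp (algebraMap ↥(GaloisRep.ratLocalizedAt p) H) =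
      (Oq p F).subtype.comp (ratLocToOq p F) := ringHom_ext_ratLoc p _ _
  apply ordT_nonneg_of_isIntegralElem p F (x.comp (algebraMap ↥(GaloisRep.ratLocalizedAt p) H))
  · intro a
    rw [hf]
    exact (ratLocToOq p F a).2
  · refine ⟨P, hmonic, ?_⟩
    rw [← Polynomial.hom_eval₂, hP, map_zero]

end Oq

section main

variable (p : ℕ) [Fact p.Prime]

/-- the final arithmetic contradiction -/
lemma arith_final {p eL eE N n m : ℕ} (hp : 2 ≤ p) (heL : 0 < eL) (hN : eE * p < N * (p - 1))
    (hn : n * (p - 1) ≤ eL) (hm : m * eL = n * eE) (hNm : N - eE ≤ m) : False := by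
  obtain ⟨q, rfl⟩ : ∃ q, p = q + 1 := ⟨p - 1, by omega⟩
  simp only [Nat.add_sub_cancel] at hN hn
  have hNE : eE ≤ N := by
    by_contra h
    have : N ≤ eE := by omega
    have : N * q ≤ eE * q := Nat.mul_le_mul_right q this
    nlinarith
  obtain ⟨d, rfl⟩ : ∃ d, N = eE + d := ⟨N - eE, by omega⟩
  simp only [Nat.add_sub_cancel_left] at hNm
  -- d ≤ m, m eL = n eE, n q ≤ eL, eE (q + 1) < (eE + d) q, i.e. eE < d q
  have h1 : eE < d * q := by nlinarith
  have h2 : d * eL ≤ n * eE := by
    calc d * eL ≤ m * eL := Nat.mul_le_mul_right eL hNm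
      _ = n * eE := hm
  have h3 : d * eL * q ≤ eL * eE := by
    calc d * eL * q ≤ n * eE * q := Nat.mul_le_mul_right q h2
      _ = (n * q) * eE := by ring
      _ ≤ eL * eE := Nat.mul_le_mul_right eE hn
  have h4 : eL * (d * q) ≤ eL * eE := by
    calc eL * (d * q) = d * eL * q := by ring
      _ ≤ eL * eE := h3
  have h5 : d * q ≤ eE := Nat.le_of_mul_le_mul_left h4 heL
  omega


lemma arith_val {p eL eE N n : ℕ} (hp : 2 ≤ p) (heL : 0 < eL) (hN : eE * p < N * (p - 1))
    (hn : n * (p - 1) ≤ eL) : n * eE < N * eL := by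
  obtain ⟨q, rfl⟩ : ∃ q, p = q + 1 := ⟨p - 1, by omega⟩
  simp only [Nat.add_sub_cancel] at hN hn
  by_contra hcon
  rw [not_lt] at hcon
  have h1 : N * eL * q ≤ eL * eE := by
    calc N * eL * q ≤ n * eE * q := Nat.mul_le_mul_right q hcon
      _ = (n * q) * eE := by ring
      _ ≤ eL * eE := Nat.mul_le_mul_right eE hn
  have h2 : eL * (N * q) ≤ eL * eE := by
    calc eL * (N * q) = N * eL * q := by ring
      _ ≤ eL * eE := h1
  have h3 : N * q ≤ eE := Nat.le_of_mul_le_mul_left h2 heL
  nlinarith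

/-- **HOPF-MAIN**: the output of module FLAT-HOPF. -/
theorem hopfMain : HopfMainStatement p := by
  intro L _ _ _ H _ _ _ _ _ _ hexp hgen hsplit
  intro E _ _ _ N hN hη
  obtain ⟨η⟩ := hη
  have hp : p.Prime := Fact.out
  -- the packages
  have h2a := Fermat.Agent.P1.helper12.hopf2a
  have hP := hopfP h2a Fermat.Agent.P1.helper9.hopf2b Fermat.Agent.P1.helper93.hopfComplete
  have hI := Fermat.Agent.P1.helper26.hopfInj h2a
  have hV := Fermat.Agent.P1.helper86.hopfVal p (Fermat.Agent.P1.helper87.dictO1 p)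
  have hD := dictO_of p (Fermat.Agent.P1.helper87.dictO1 p) (Fermat.Agent.P1.helper89.dictO2 p)
  obtain ⟨-, πL, wL, hπL, hwL, hpL, hdvdL, -, hcompL⟩ := hD L
  obtain ⟨hNoethE, πE, wE, hπE, hwE, hpE, hdvdE, hballE, hcompE⟩ := hD E
  have heL : 0 < edeg p L := Fermat.Agent.S55.helper97.edeg_pos p L
  have hπL0 : πL ≠ 0 := by
    intro h
    rw [h] at hπL
    simp [ordT_zero] at hπL
  have hπE0 : πE ≠ 0 := by
    intro h
    rw [h] at hπE
    simp [ordT_zero] at hπE
  have hπEu : ¬ IsUnit πE := by
    intro hu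
    have h1 : πE ^ 1 ∣ (1 : Oq p E) := by
      rw [pow_one]
      exact hu.dvd
    rw [hdvdE] at h1
    simp only [ordT_one, OneMemClass.coe_one] at h1
    have h2 : ((1 : ℤ) : WithTop ℤ) ≤ ((0 : ℤ) : WithTop ℤ) := by exact_mod_cast h1
    rw [WithTop.coe_le_coe] at h2
    omega
  -- algebra structures
  letI algL : Algebra ↥(GaloisRep.ratLocalizedAt p) (Oq p L) := (ratLocToOq p L).toAlgebra
  letI algE : Algebra ↥(GaloisRep.ratLocalizedAt p) (Oq p E) := (ratLocToOq p E).toAlgebra
  haveI : IsPrincipalIdealRing ↥(GaloisRep.ratLocalizedAt p) :=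
    Fermat.Agent.S28.helper94.isPrincipalIdealRing_Zl p
  haveI : Module.Free ↥(GaloisRep.ratLocalizedAt p) H := by
    haveI : Module.IsTorsionFree ↥(GaloisRep.ratLocalizedAt p) H := inferInstance
    infer_instance
  -- finiteness of the set of points
  have hfin : Finite (H →+* L) :=
    Finite.of_injective (fun x : H →+* L => algHomOfRingHom p x)
      (fun x y hxy => RingHom.ext fun h => by
        have := congrArg (fun t : H →ₐ[↥(GaloisRep.ratLocalizedAt p)] L => t h) hxy
        exact this)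
  refine Fermat.Agent.P1.helper10.hopfCnt p L E H hfin hgen hsplit ?_
  -- the inclusion `𝒪_L → L` and `η` as algebra homomorphisms
  let ι : Oq p L →ₐ[↥(GaloisRep.ratLocalizedAt p)] L := algHomOfRingHom p (Oq p L).subtype
  let η' : Oq p L →ₐ[↥(GaloisRep.ratLocalizedAt p)] (Oq p E ⧸ Ideal.span {πE ^ N}) :=
    algHomOfRingHom p ((Ideal.quotEquivOfEq (hballE N)).toRingHom.comp η)
  -- integral models of the points
  let x' : (H →+* L) → WithConv (H →ₐ[↥(GaloisRep.ratLocalizedAt p)] Oq p L) := fun x =>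
    toConv (algHomOfRingHom p
      (x.codRestrict (Oq p L) (fun h => ordT_nonneg_of_ringHom p L H x h)))
  have hx'p : ∀ x, x' x ^ p = 1 := by
    intro x
    apply compPts_injective ι Subtype.val_injective
    rw [map_pow, map_one]
    have : compPts ι (x' x) = toConv (algHomOfRingHom p x) := by
      apply WithConv.ext
      ext h
      rfl
    rw [this]
    exact hexp _
  have hgbar : ∀ x, compPts η' (x' x) ^ p = 1 := fun x => by
    have h1 := map_pow (compPts η') (x' x) p
    rw [hx'p x, map_one] at h1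
    exact h1.symm
  -- lift the reductions
  have hlift := fun x => hP p hp ↥(GaloisRep.ratLocalizedAt p) H (Oq p E) πE wE (edeg p E) N
    hcompE hπE0 hπEu hwE hpE (by rw [mul_comm]; exact hN) (compPts η' (x' x)) (hgbar x)
  choose g hg using hlift
  refine ⟨fun x => (Oq p E).subtype.comp (g x).toRingHom, ?_⟩
  intro x y hxy
  by_contra hne
  have hgeq : ∀ h, g x h = g y h := fun h => Subtype.ext (by
    have := congrArg (fun t : H →+* E => t h) hxy
    exact this)
  have hx'ne : x' x ≠ x' y := by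
    intro h'
    apply hne
    ext h
    have := congrArg
      (fun t : WithConv (H →ₐ[↥(GaloisRep.ratLocalizedAt p)] Oq p L) => ((t.ofConv h : Oq p L) : L)) h'
    exact this
  set n := edeg p L / (p - 1) + 1 with hn
  have hp1 : 0 < p - 1 := by
    have := hp.two_le
    omega
  have hnlt : edeg p L < n * (p - 1) := by
    rw [hn, mul_comm]
    exact Nat.lt_mul_div_succ _ hp1
  obtain ⟨h, hh⟩ := hI p hp ↥(GaloisRep.ratLocalizedAt p) H (Oq p L) πL wL (edeg p L) n hπL0
    (separated_of_isAdicComplete πL hcompL) hwL hpL hnlt (x' x) (x' y) (hx'p x) (hx'p y) hx'ne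
  set z : Oq p L := (x' x).ofConv h - (x' y).ofConv h with hz
  rw [hdvdL] at hh
  have hz0 : (z : L) ≠ 0 := by
    intro h0
    apply hh
    rw [h0, ordT_zero]
    exact le_top
  obtain ⟨mz, hmz⟩ := Fermat.Agent.P1.helper87.exists_ordT_eq p L hz0
  have hmz0 : 0 ≤ mz := by
    have := z.2
    rw [mem_Oq, hmz] at this
    exact_mod_cast this
  have hmzn : mz < n := by
    rw [hmz] at hh
    rw [not_le] at hh
    exact_mod_cast hh
  obtain ⟨nz, rfl⟩ : ∃ nz : ℕ, mz = nz := ⟨mz.toNat, (Int.toNat_of_nonneg hmz0).symm⟩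
  have hnz : nz * (p - 1) ≤ edeg p L := by
    have h1 : nz ≤ edeg p L / (p - 1) := by omega
    calc nz * (p - 1) ≤ (edeg p L / (p - 1)) * (p - 1) := Nat.mul_le_mul_right _ h1
      _ ≤ edeg p L := Nat.div_mul_le_self _ _
  -- the lifts
  obtain ⟨rx, hrx1, hrx2⟩ := hg x h
  obtain ⟨ry, hry1, hry2⟩ := hg y h
  have hr : πE ^ (N - edeg p E) ∣ rx - ry := by
    have : rx - ry = (g y h - ry) - (g x h - rx) := by
      rw [hgeq h]
      ring
    rw [this]
    exact dvd_sub hry2 hrx2
  have hmk : Ideal.Quotient.mk (ballIdeal p E N) (rx - ry) = η z := by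
    apply (Ideal.quotEquivOfEq (hballE N)).injective
    rw [Ideal.quotEquivOfEq_mk, map_sub, hrx1, hry1, hz, map_sub, map_sub]
    rfl
  have hval := arith_val hp.two_le heL hN hnz
  obtain ⟨m, hm1, hm2⟩ := hV L E N (by
    by_contra hcon
    rw [not_lt] at hcon
    have h1 : N * (p - 1) ≤ edeg p E * (p - 1) := Nat.mul_le_mul_right _ hcon
    have h2 : edeg p E * (p - 1) ≤ edeg p E * p := Nat.mul_le_mul_left _ (Nat.sub_le p 1)
    omega) η z (rx - ry) nz hmk hmz hval
  have hNm : N - edeg p E ≤ m := by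
    rw [hdvdE, hm1] at hr
    exact_mod_cast hr
  exact arith_final hp.two_le heL hN hnz hm2 hNm

end main

end Fermat.Agent.P1.helper47
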