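import Fermat.Agent.P1.helper70_FlatDefs
import Fermat.Agent.P1.helper47_HopfMain

/-!
# P1 / FLAT-CNT [DICT-H-EMB] (helper1, task 743)

`dictHEmb p : DictH0Statement p → HopfMainStatement p → DictHEmbStatement p`:
the field cut out by `V / I V` at `p` (for a flat `ρ` and an ideal `I ∋ p` of finite index) is a
finite Galois extension of `ℚ_p` inside `Ω = PadicAlgCl p` with Fontaine's embedding property.

* `ptValues p H` : the set of values of the `Ω`-valued points of `H`;
* `ptField p H`  : the intermediate field generated by them;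
* `finiteDimensional_ptField`, `normal_ptField`, `isGalois_ptField`;
* `fixes_ptField_iff` : `τ` fixes `ptField` pointwise iff `τ ∘ x = x` for all points `x`;
* `adjoin_ptsL_eq_top`, `exists_factor_ptField` : hypotheses of `HopfMainStatement`;
* `dictHEmb`.
-/

set_option autoImplicit false
set_option linter.style.haveILetI false
set_option linter.unusedSectionVars false

open IsLocalRing

noncomputable section

namespace Fermat.Agent.P1.helper1

open Fermat.Agent.S55.helper8 Fermat.Agent.S55.helper7 Fermat.Agent.P1.helper14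
open Fermat.Agent.P1.helper92 Fermat.Agent.P1.helper70 Fermat.Agent.P1.helper47
open WithConv

variable (p : ℕ) [Fact p.Prime]

section PtField

variable (H : Type) [CommRing H] [Algebra ↥(GaloisRep.ratLocalizedAt p) H]

/-- The values of the `Ω`-valued points of `H`. -/
def ptValues : Set (PadicAlgCl p) :=
  {z | ∃ (x : H →ₐ[↥(GaloisRep.ratLocalizedAt p)] PadicAlgCl p) (h : H), x h = z}

/-- The field generated over `ℚ_p` by the values of the points of `H`. -/
def ptField : IntermediateField ℚ_[p] (PadicAlgCl p) :=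
  IntermediateField.adjoin ℚ_[p] (ptValues p H)

variable {H}

lemma apply_mem_ptField (x : H →ₐ[↥(GaloisRep.ratLocalizedAt p)] PadicAlgCl p) (h : H) :
    x h ∈ ptField p H :=
  IntermediateField.subset_adjoin _ _ ⟨x, h, rfl⟩

/-- The structure map of `ℤ_(p)` into `Ω` has values in `ℚ_p`. -/
lemma algebraMap_ratLoc_mem (K : IntermediateField ℚ_[p] (PadicAlgCl p))
    (r : ↥(GaloisRep.ratLocalizedAt p)) :
    algebraMap ↥(GaloisRep.ratLocalizedAt p) (PadicAlgCl p) r ∈ K := by
  have h := RingHom.congr_fun (ringHom_ext_ratLoc p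
    (algebraMap ↥(GaloisRep.ratLocalizedAt p) (PadicAlgCl p))
    ((algebraMap ℚ_[p] (PadicAlgCl p)).comp
      ((algebraMap ℚ ℚ_[p]).comp (GaloisRep.ratLocalizedAt p).subtype))) r
  rw [h]
  exact K.algebraMap_mem _

variable (H) in
/-- `ptField` is finite dimensional if `H` is a finite module and has finitely many points. -/
theorem finiteDimensional_ptField [Module.Finite ↥(GaloisRep.ratLocalizedAt p) H]
    [Finite (H →ₐ[↥(GaloisRep.ratLocalizedAt p)] PadicAlgCl p)] :
    FiniteDimensional ℚ_[p] (ptField p H) := by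
  obtain ⟨s, hs⟩ := (Module.finite_def (R := ↥(GaloisRep.ratLocalizedAt p)) (M := H)).1
    inferInstance
  set S₀ : Set (PadicAlgCl p) :=
    Set.range (fun xb : (H →ₐ[↥(GaloisRep.ratLocalizedAt p)] PadicAlgCl p) × (s : Set H) =>
      xb.1 (xb.2 : H)) with hS₀
  have hfinS : Finite S₀ := by
    rw [hS₀]; exact Set.finite_range _
  have hint : ∀ z ∈ S₀, IsIntegral ℚ_[p] z := fun z _ =>
    (Algebra.IsAlgebraic.isAlgebraic (R := ℚ_[p]) z).isIntegral
  have hfd : FiniteDimensional ℚ_[p] (IntermediateField.adjoin ℚ_[p] S₀) :=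
    IntermediateField.finiteDimensional_adjoin hint
  have hle : ptField p H ≤ IntermediateField.adjoin ℚ_[p] S₀ := by
    refine IntermediateField.adjoin_le_iff.2 ?_
    rintro z ⟨x, h, rfl⟩
    have hh : h ∈ Submodule.span ↥(GaloisRep.ratLocalizedAt p) (s : Set H) := by
      rw [hs]; trivial
    refine Submodule.span_induction (p := fun h _ => x h ∈ IntermediateField.adjoin ℚ_[p] S₀)
      ?_ ?_ ?_ ?_ hh
    · intro b hb
      exact IntermediateField.subset_adjoin _ _ ⟨(x, ⟨b, hb⟩), rfl⟩
    · simp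
    · intro a b _ _ ha hb
      rw [map_add]
      exact add_mem ha hb
    · intro r a _ ha
      rw [Algebra.smul_def, map_mul, AlgHom.commutes]
      exact mul_mem (algebraMap_ratLoc_mem p _ r) ha
  exact Module.Finite.of_injective (IntermediateField.inclusion hle).toLinearMap
    (IntermediateField.inclusion hle).injective

/-- Composition of a point with an automorphism of `Ω`. -/
def galPt (τ : PadicAlgCl p ≃ₐ[ℚ_[p]] PadicAlgCl p)
    (x : H →ₐ[↥(GaloisRep.ratLocalizedAt p)] PadicAlgCl p) :
    H →ₐ[↥(GaloisRep.ratLocalizedAt p)] PadicAlgCl p :=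
  (algHomOfRingHom p ((τ : PadicAlgCl p →ₐ[ℚ_[p]] PadicAlgCl p) : PadicAlgCl p →+* PadicAlgCl p)).comp x

@[simp] lemma galPt_apply (τ : PadicAlgCl p ≃ₐ[ℚ_[p]] PadicAlgCl p)
    (x : H →ₐ[↥(GaloisRep.ratLocalizedAt p)] PadicAlgCl p) (h : H) :
    galPt p τ x h = τ (x h) := rfl

variable (H) in
theorem normal_ptField : Normal ℚ_[p] (ptField p H) := by
  rw [IntermediateField.normal_iff_forall_map_le']
  intro σ
  rw [ptField, IntermediateField.adjoin_map]
  refine IntermediateField.adjoin_le_iff.2 ?_
  rintro _ ⟨z, ⟨x, h, rfl⟩, rfl⟩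
  exact IntermediateField.subset_adjoin _ _ ⟨galPt p σ x, h, rfl⟩

variable (H) in
theorem isGalois_ptField : IsGalois ℚ_[p] (ptField p H) :=
  haveI := normal_ptField p H
  ⟨⟩

variable (H) in
/-- `τ` fixes `ptField` pointwise iff it fixes all points. -/
theorem fixes_ptField_iff (τ : PadicAlgCl p ≃ₐ[ℚ_[p]] PadicAlgCl p) :
    (∀ z ∈ ptField p H, τ z = z) ↔
      ∀ x : H →ₐ[↥(GaloisRep.ratLocalizedAt p)] PadicAlgCl p, galPt p τ x = x := by
  constructor
  · intro h x
    ext a
    exact h _ (apply_mem_ptField p x a)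
  · intro h z hz
    have hle : ptField p H ≤ IntermediateField.fixedField (Subgroup.zpowers τ) := by
      refine IntermediateField.adjoin_le_iff.2 ?_
      rintro _ ⟨x, a, rfl⟩
      rintro ⟨g, hg⟩
      obtain ⟨n, rfl⟩ := Subgroup.mem_zpowers_iff.1 hg
      have h1 : τ (x a) = x a := by
        have := congrArg (fun y : H →ₐ[↥(GaloisRep.ratLocalizedAt p)] PadicAlgCl p => y a) (h x)
        exact this
      show (τ ^ n) (x a) = x a
      have h2 : ∀ m : ℕ, (τ ^ m) (x a) = x a := by
        intro m
        induction m with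
        | zero => simp
        | succ m ih => rw [pow_succ, AlgEquiv.mul_apply, h1, ih]
      rcases Int.eq_nat_or_neg n with ⟨m, rfl | rfl⟩
      · simpa using h2 m
      · rw [zpow_neg, zpow_natCast]
        have := h2 m
        rw [AlgEquiv.aut_inv]
        exact (AlgEquiv.symm_apply_eq _).2 this.symm
    have := hle hz
    exact this ⟨τ, Subgroup.mem_zpowers τ⟩

end PtField

section Quot

variable {A : Type} [CommRing A] {V : Type} [AddCommGroup V] [Module A V] [Module.Finite A V]

/-- `V / I V` is finite if `A / I` is finite and `V` is a finite `A`-module. -/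
theorem finite_quot_smul_top (I : Ideal A) [Finite (A ⧸ I)] :
    Finite (V ⧸ (I • (⊤ : Submodule A V))) := by
  haveI : Module.Finite A (V ⧸ (I • (⊤ : Submodule A V))) := inferInstance
  haveI : Module.Finite (A ⧸ I) (V ⧸ (I • (⊤ : Submodule A V))) :=
    Module.Finite.of_restrictScalars_finite A (A ⧸ I) _
  exact Module.finite_of_finite (A ⧸ I)

/-- `p` kills `V / I V` if `p ∈ I`. -/
theorem natCast_smul_quot_eq_zero (I : Ideal A) {n : ℕ} (hn : (n : A) ∈ I)
    (v : V ⧸ (I • (⊤ : Submodule A V))) : n • v = 0 := by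
  obtain ⟨w, rfl⟩ := Submodule.Quotient.mk_surjective _ v
  rw [← Submodule.Quotient.mk_smul, Submodule.Quotient.mk_eq_zero]
  have : n • w = (n : A) • w := by rw [Nat.cast_smul_eq_nsmul]
  rw [this]
  exact Submodule.smul_mem_smul hn trivial

end Quot

section Main

variable {H : Type} [CommRing H] [HopfAlgebra ↥(GaloisRep.ratLocalizedAt p) H]

/-- The inclusion of an intermediate field into `Ω` as a `ℤ_(p)`-algebra homomorphism. -/
def inclΩ (L : IntermediateField ℚ_[p] (PadicAlgCl p)) :
    ↥L →ₐ[↥(GaloisRep.ratLocalizedAt p)] PadicAlgCl p :=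
  algHomOfRingHom p ((L.val : ↥L →ₐ[ℚ_[p]] PadicAlgCl p) : ↥L →+* PadicAlgCl p)

@[simp] lemma inclΩ_apply (L : IntermediateField ℚ_[p] (PadicAlgCl p)) (z : ↥L) :
    inclΩ p L z = (z : PadicAlgCl p) := rfl

lemma inclΩ_injective (L : IntermediateField ℚ_[p] (PadicAlgCl p)) :
    Function.Injective (inclΩ p L) := fun _ _ h => Subtype.ext h

/-- Corestriction of a point to `ptField`. -/
def corestr (x : H →ₐ[↥(GaloisRep.ratLocalizedAt p)] PadicAlgCl p) : H →+* ↥(ptField p H) :=
  RingHom.codRestrict (x : H →+* PadicAlgCl p) (ptField p H) (fun h => apply_mem_ptField p x h)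

@[simp] lemma coe_corestr (x : H →ₐ[↥(GaloisRep.ratLocalizedAt p)] PadicAlgCl p) (h : H) :
    ((corestr p x h : ↥(ptField p H)) : PadicAlgCl p) = x h := rfl

/-- Hypothesis (ii) of `HopfMainStatement`: `ptField` is generated as an algebra by the values of
its points. -/
theorem adjoin_ptsL_eq_top :
    Algebra.adjoin ℚ_[p]
      {z : ↥(ptField p H) | ∃ (x : H →+* ↥(ptField p H)) (h : H), x h = z} = ⊤ := by
  set T : Set ↥(ptField p H) := {z | ∃ (x : H →+* ↥(ptField p H)) (h : H), x h = z} with hT
  have himg : (ptField p H).val '' T = ptValues p H := by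
    ext z
    constructor
    · rintro ⟨_, ⟨x, h, rfl⟩, rfl⟩
      exact ⟨algHomOfRingHom p
        (((ptField p H).val : ↥(ptField p H) →+* PadicAlgCl p).comp x), h, rfl⟩
    · rintro ⟨x, h, rfl⟩
      exact ⟨corestr p x h, ⟨corestr p x, h, rfl⟩, rfl⟩
  have h1 : (ptField p H).toSubalgebra = Algebra.adjoin ℚ_[p] (ptValues p H) :=
    IntermediateField.adjoin_toSubalgebra_of_isAlgebraic
      (fun x _ => Algebra.IsAlgebraic.isAlgebraic x)
  rw [eq_top_iff]
  intro y _
  have hy : (y : PadicAlgCl p) ∈ Algebra.adjoin ℚ_[p] (ptValues p H) := by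
    rw [← h1]; exact y.2
  rw [← himg, Algebra.adjoin_image] at hy
  obtain ⟨y', hy', hyy'⟩ := hy
  have : y' = y := Subtype.ext hyy'
  rwa [this] at hy'

/-- Hypothesis (iii) of `HopfMainStatement`: every point with values in an extension field of
`ptField` has values in `ptField`. -/
theorem exists_factor_ptField [Module.Finite ↥(GaloisRep.ratLocalizedAt p) H]
    (Ω' : Type) [Field Ω'] (j : ↥(ptField p H) →+* Ω') (y : H →+* Ω') :
    ∃ x : H →+* ↥(ptField p H), y = j.comp x := by
  letI algL : Algebra ↥(ptField p H) Ω' := j.toAlgebra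
  letI algO : Algebra ↥(GaloisRep.ratLocalizedAt p) Ω' :=
    (y.comp (algebraMap ↥(GaloisRep.ratLocalizedAt p) H)).toAlgebra
  haveI : IsScalarTower ↥(GaloisRep.ratLocalizedAt p) ↥(ptField p H) Ω' :=
    IsScalarTower.of_algebraMap_eq' (ringHom_ext_ratLoc p _ _)
  let yA : H →ₐ[↥(GaloisRep.ratLocalizedAt p)] Ω' := { y with commutes' := fun _ => rfl }
  have hint : ∀ h : H, IsIntegral ↥(ptField p H) (y h) := by
    intro h
    have h0 : IsIntegral ↥(GaloisRep.ratLocalizedAt p) h :=
      Algebra.IsIntegral.isIntegral h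
    have h1 : IsIntegral ↥(GaloisRep.ratLocalizedAt p) (yA h) := h0.map yA
    exact h1.tower_top
  let M : IntermediateField ↥(ptField p H) Ω' := algebraicClosure ↥(ptField p H) Ω'
  have hyM : ∀ h : H, y h ∈ M := fun h => mem_algebraicClosure_iff'.2 (hint h)
  let ψ : ↥M →ₐ[↥(ptField p H)] PadicAlgCl p := IsAlgClosed.lift
  let yM : H →+* ↥M := RingHom.codRestrict y M hyM
  let f : H →ₐ[↥(GaloisRep.ratLocalizedAt p)] PadicAlgCl p :=
    algHomOfRingHom p ((ψ : ↥M →+* PadicAlgCl p).comp yM)
  refine ⟨corestr p f, ?_⟩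
  ext h
  have h1 : ψ (yM h) = ψ (algebraMap ↥(ptField p H) ↥M (corestr p f h)) := by
    rw [ψ.commutes]
    rfl
  have h2 : yM h = algebraMap ↥(ptField p H) ↥M (corestr p f h) := ψ.injective h1
  have h3 := congrArg (fun z : ↥M => (z : Ω')) h2
  exact h3

end Main

/-- **[DICT-H-EMB]**. -/
theorem dictHEmb : DictH0Statement p → HopfMainStatement p → DictHEmbStatement p := by
  intro h0 hM A _ _ ρ hflat I hI hpI
  obtain ⟨H, instCR, instHopf, hfin, hflatH, hcocomm, e, hadd, hequiv⟩ := h0 A ρ hflat I hI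
  haveI := hfin
  haveI := hflatH
  haveI := hcocomm
  haveI := hI
  -- finiteness of the set of points
  haveI hXfin : Finite (ρ.V ⧸ (I • (⊤ : Submodule A ρ.V))) := finite_quot_smul_top I
  haveI hPfin : Finite (H →ₐ[↥(GaloisRep.ratLocalizedAt p)] PadicAlgCl p) :=
    Finite.of_equiv _ (e.symm.trans (WithConv.equiv _))
  -- `e` is a homomorphism
  have he1 : e 1 = 0 := by
    have := hadd 1 1
    rw [one_mul] at this
    exact left_eq_add.mp this
  have hepow : ∀ (X : WithConv (H →ₐ[↥(GaloisRep.ratLocalizedAt p)] PadicAlgCl p)) (n : ℕ),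
      e (X ^ n) = n • e X := by
    intro X n
    induction n with
    | zero => rw [pow_zero, he1, zero_smul]
    | succ n ih => rw [pow_succ, hadd, ih, succ_nsmul]
  have hXp : ∀ X : WithConv (H →ₐ[↥(GaloisRep.ratLocalizedAt p)] PadicAlgCl p), X ^ p = 1 := by
    intro X
    apply e.injective
    rw [hepow, he1]
    exact natCast_smul_quot_eq_zero I hpI _
  -- the field
  haveI hLfin : FiniteDimensional ℚ_[p] (ptField p H) := finiteDimensional_ptField p H
  refine ⟨ptField p H, hLfin, isGalois_ptField p H, ?_, ?_⟩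
  · intro τ
    rw [fixes_ptField_iff]
    constructor
    · intro h x
      obtain ⟨X, rfl⟩ := e.surjective x
      have h1 := hequiv τ X (toConv (galPt p τ X.ofConv)) (fun _ => rfl)
      rw [← h1, h X.ofConv]
    · intro h x
      have h1 := hequiv τ (toConv x) (toConv (galPt p τ x)) (fun _ => rfl)
      rw [h] at h1
      exact toConv_injective (e.injective h1)
  · refine hM (↥(ptField p H)) H ?_ (adjoin_ptsL_eq_top p) (exists_factor_ptField p)
    intro x
    apply compPts_injective (inclΩ p (ptField p H)) (inclΩ_injective p _)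
    rw [map_pow, map_one]
    exact hXp _

/-- **[DICT-H-EMB]** with `helper47.hopfMain` plugged in: only `DictH0Statement` remains. -/
theorem dictHEmb_of_dictH0 (h0 : DictH0Statement p) : DictHEmbStatement p :=
  dictHEmb p h0 (hopfMain p)

end Fermat.Agent.P1.helper1
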