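import Fermat.Agent.P1.helper92_DictDefs

/-!
# P1 / S56, module DICT, package [DICT-UNR] (helper21, task 670)

`unr_of_locCyclic : LocCyclicStatement → UnrStatement` : unramified local cocycles are detected
by their value at Frobenius.  Pure cocycle algebra.
-/

set_option autoImplicit false

noncomputable section

namespace Fermat.Agent.P1.helper21

open ExtCitation Fermat.Agent.S55 groupCohomology Fermat.Agent.P1.helper92

section Abstract

variable {k G : Type} [CommRing k] [Group G] (𝒩 : Levels G) (M : Rep k G)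

/-- A cocycle which is constant on right cosets of `N` and vanishes on `I` and at `φ` vanishes
on all elements `φ ^ n * i * u`, `i ∈ I`, `u ∈ N`. -/
theorem cocycle_eq_zero_of_gen {c : G → M} (hc : c ∈ LinearMap.ker (d₁₂ M).hom)
    (I N : Subgroup G) (φ : G) (hI : ∀ i ∈ I, c i = 0) (hφ : c φ = 0)
    (hN : ∀ g : G, ∀ s ∈ N, c (g * s) = c g) (n : ℕ) (i : G) (hi : i ∈ I) (u : G) (hu : u ∈ N) :
    c (φ ^ n * i * u) = 0 := by
  have hcoc : ∀ g h : G, c (g * h) = M.ρ g (c h) + c g := (mem_cocycles₁_iff c).1 hc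
  have h1 : c 1 = 0 := by
    have := hcoc 1 1
    simpa using this
  have hpow : ∀ n : ℕ, c (φ ^ n) = 0 := by
    intro n
    induction n with
    | zero => simpa using h1
    | succ n ih => rw [pow_succ, hcoc, hφ, map_zero, ih, add_zero]
  rw [hN _ u hu, hcoc, hI i hi, map_zero, hpow, add_zero]

/-- Coboundaries of a smooth module are level-constant. -/
theorem isLev₁_d₀₁ (hsm : IsSmooth 𝒩 M) (m : M) : IsLev₁ 𝒩 ((d₀₁ M).hom m) := by
  obtain ⟨N, hN, h⟩ := hsm
  refine ⟨N, hN, fun g s hs => ?_⟩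
  rw [d₀₁_hom_apply, d₀₁_hom_apply, map_mul, Module.End.mul_apply, h s hs m]

end Abstract

/-- **[DICT-UNR]**. -/
theorem unr_of_locCyclic (h : LocCyclicStatement) : UnrStatement := by
  intro q k _ M hsm htriv φ hφ
  obtain ⟨-, -, -, hgen⟩ := h q
  refine ⟨fun c hc hci => ⟨?_, ?_⟩, ?_⟩
  · rintro ⟨m, rfl⟩
    exact ⟨m, d₀₁_hom_apply M m φ⟩
  · rintro ⟨m, hm⟩
    refine ⟨m, ?_⟩
    -- the difference `c' = d m - c` is a level cocycle vanishing on inertia and at `φ`
    have hc1 : IsLev₁ (locLevels q) c := hc.1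
    have hd1 : IsLev₁ (locLevels q) ((d₀₁ M).hom m) := isLev₁_d₀₁ (locLevels q) M hsm m
    obtain ⟨N₁, hN₁, h₁⟩ := hc1
    obtain ⟨N₂, hN₂, h₂⟩ := hd1
    obtain ⟨N, hN, hle⟩ := (locLevels q).directed N₁ hN₁ N₂ hN₂
    set c' : primeLocalGaloisGroup q → M := (d₀₁ M).hom m - c with hc'
    have hc'coc : c' ∈ LinearMap.ker (d₁₂ M).hom :=
      Submodule.sub_mem _ (d₀₁_apply_mem_cocycles₁ (A := M) m) hc.2
    have hc'I : ∀ i ∈ locInertia q, c' i = 0 := by
      intro i hi
      rw [hc', Pi.sub_apply, hci i hi, d₀₁_hom_apply, htriv i hi, sub_self, sub_zero]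
    have hc'φ : c' φ = 0 := by
      rw [hc', Pi.sub_apply, hm, d₀₁_hom_apply, sub_self]
    have hc'N : ∀ g : primeLocalGaloisGroup q, ∀ s ∈ N, c' (g * s) = c' g := by
      intro g s hs
      rw [hc', Pi.sub_apply, Pi.sub_apply, h₁ g s (hle hs).1, h₂ g s (hle hs).2]
    funext g
    obtain ⟨n, i, hi, u, hu, rfl⟩ := hgen φ hφ N hN g
    have := cocycle_eq_zero_of_gen M hc'coc (locInertia q) N φ hc'I hc'φ hc'N n i hi u hu
    rw [hc', Pi.sub_apply, sub_eq_zero] at this
    exact this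
  · rintro c ⟨m, rfl⟩ i hi
    rw [d₀₁_hom_apply, htriv i hi, sub_self]

end Fermat.Agent.P1.helper21
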