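import Fermat.Agent.P1.helper21_FCArith
import Fermat.Agent.P1.helper70_FCDefs

/-!
# P1 / S56, FLAT-CNT, package FC-ARITH (helper21): `FCArithStatement` VERBATIM
-/

set_option autoImplicit false

namespace Fermat.Agent.P1.helper21

/-- **FC-ARITH** (verbatim). -/
theorem fcArith : Fermat.Agent.P1.helper70.FCArithStatement := by
  intro p e' e hp hp2 hdvd he α β hα hβ
  have he'0 : 0 < e' := by
    rcases Nat.eq_zero_or_pos e' with h | h
    · subst h
      rw [zero_dvd_iff] at hdvd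
      omega
    · exact h
  have hcast : (e : ℤ) = ((p : ℤ) - 1) * e' := by
    rw [he]
    push_cast [Nat.cast_sub hp.one_le]
    ring
  rw [hcast] at hα hβ
  refine ⟨fun m h1 h2 => ?_, fun m₁ m₂ s₁ s₂ hs₁ hs₂ h₁ h₁' h₂ h₂' hm₁ hm₂ => ?_⟩
  · rw [hcast]
    refine fc_arith_top p e' hp hp2 he'0 (m : ℤ) ?_ ?_
    · rw [← hcast]; exact_mod_cast h1
    · rw [← hcast]; exact_mod_cast h2
  · rw [hcast] at hm₁ hm₂
    have key := fc_arith_unique p e' hp hp2 he'0 α β hα hβ (m₁ : ℤ) (m₂ : ℤ) s₁ s₂ hs₁ hs₂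
      (by rw [← hcast]; exact_mod_cast h₁) (by rw [← hcast]; exact_mod_cast h₁')
      (by rw [← hcast]; exact_mod_cast h₂) (by rw [← hcast]; exact_mod_cast h₂') hm₁ hm₂
    exact ⟨by exact_mod_cast key.1, key.2⟩

end Fermat.Agent.P1.helper21
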