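import Fermat.Agent.P1.helper21_LattPeel

/-!
# P1 / EC / BASE-STAR (A3), part 2 (helper21): endomorphisms of finite order over `ℚ`

`τ` an endomorphism of a finite dimensional `ℚ`-vector space with `τ ^ n = 1`.  The dimensions of
the spaces of invariants `ker (τ ^ d - 1)`, `d ∣ n`, determine `τ` up to conjugation, hence its
characteristic polynomial.

* `exists_ne_zero_of_aeval_prod`   : a product of polynomials killing a nonzero vector has a
                                      factor killing a nonzero vector;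
* `exists_ne_zero_cyclotomic`      : if `e` is minimal with `ker (τ ^ e - 1) ≠ 0`, the cyclotomic
                                      polynomial `Φ_e` kills a nonzero vector;
* `exists_equiv_of_finrank_ker_eq_rat` : conjugacy from the dimensions of the invariants;
* `charpoly_eq_of_finrank_ker_eq_rat`  : equality of the characteristic polynomials.
-/

set_option autoImplicit false

open Polynomial Module

noncomputable section

namespace Fermat.Agent.P1.helper21

universe u

section Prod

variable {k : Type*} [Field k] {X : Type*} [AddCommGroup X] [Module k X]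

/-- a product of polynomials killing a nonzero vector has a factor killing a nonzero vector -/
theorem exists_ne_zero_of_aeval_prod (σ : Module.End k X) {ι : Type*} (s : Finset ι)
    (p : ι → k[X]) : ∀ u : X, u ≠ 0 → aeval σ (∏ i ∈ s, p i) u = 0 →
      ∃ i ∈ s, ∃ w : X, w ≠ 0 ∧ aeval σ (p i) w = 0 := by
  classical
  induction s using Finset.induction_on with
  | empty =>
    intro u hu h
    rw [Finset.prod_empty, map_one, Module.End.one_apply] at h
    exact absurd h hu
  | insert a s ha ih =>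
    intro u hu h
    rw [Finset.prod_insert ha, map_mul, Module.End.mul_apply] at h
    by_cases hw : aeval σ (∏ i ∈ s, p i) u = 0
    · obtain ⟨i, hi, w, hw0, hw1⟩ := ih u hu hw
      exact ⟨i, Finset.mem_insert_of_mem hi, w, hw0, hw1⟩
    · exact ⟨a, Finset.mem_insert_self a s, _, hw, h⟩

end Prod

section Rat

variable {V : Type*} [AddCommGroup V] [Module ℚ V]

/-- if `e` is minimal with `ker (τ ^ e - 1) ≠ 0`, then `Φ_e(τ)` kills a nonzero vector -/
theorem exists_ne_zero_cyclotomic (τ : Module.End ℚ V) {e : ℕ} (he : 0 < e)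
    (hker : LinearMap.ker (aeval τ (X ^ e - 1 : ℚ[X])) ≠ ⊥)
    (hmin : ∀ d, d ∣ e → d ≠ e → LinearMap.ker (aeval τ (X ^ d - 1 : ℚ[X])) = ⊥) :
    ∃ v : V, v ≠ 0 ∧ aeval τ (cyclotomic e ℚ) v = 0 := by
  obtain ⟨u, hu, hu0⟩ := (Submodule.ne_bot_iff _).1 hker
  rw [LinearMap.mem_ker] at hu
  have hprod : (X ^ e - 1 : ℚ[X]) =
      cyclotomic e ℚ * ∏ i ∈ e.properDivisors, cyclotomic i ℚ := by
    rw [← prod_cyclotomic_eq_X_pow_sub_one he ℚ, ← Nat.insert_self_properDivisors he.ne',
      Finset.prod_insert Nat.self_notMem_properDivisors]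
  by_cases hg : aeval τ (∏ i ∈ e.properDivisors, cyclotomic i ℚ) u = 0
  · exfalso
    obtain ⟨i, hi, w, hw0, hw1⟩ := exists_ne_zero_of_aeval_prod τ _ _ u hu0 hg
    rw [Nat.mem_properDivisors] at hi
    have h1 := hmin i hi.1 hi.2.ne
    obtain ⟨c, hc⟩ := cyclotomic.dvd_X_pow_sub_one i ℚ
    have h2 : w ∈ LinearMap.ker (aeval τ (X ^ i - 1 : ℚ[X])) := by
      rw [LinearMap.mem_ker, hc, mul_comm, map_mul, Module.End.mul_apply, hw1, map_zero]
    rw [h1, Submodule.mem_bot] at h2
    exact hw0 h2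
  · refine ⟨_, hg, ?_⟩
    rw [← Module.End.mul_apply, ← map_mul, ← hprod, hu]

variable [FiniteDimensional ℚ V]

theorem squarefree_X_pow_sub_one_rat {n : ℕ} (hn : 0 < n) : Squarefree (X ^ n - 1 : ℚ[X]) :=
  (X_pow_sub_one_separable_iff.2 (by exact_mod_cast hn.ne')).squarefree

end Rat

section Main

/-- **Conjugacy of endomorphisms of finite order over `ℚ` with the same dimensions of
invariants** (polynomial form). -/
theorem exists_equiv_of_finrank_ker_eq_rat_aux {n : ℕ} (hn : 0 < n) :
    ∀ (m : ℕ) (V V' : Type u) [AddCommGroup V] [Module ℚ V] [FiniteDimensional ℚ V]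
      [AddCommGroup V'] [Module ℚ V'] [FiniteDimensional ℚ V']
      (τ : Module.End ℚ V) (τ' : Module.End ℚ V'), finrank ℚ V = m →
      aeval τ (X ^ n - 1 : ℚ[X]) = 0 → aeval τ' (X ^ n - 1 : ℚ[X]) = 0 →
      (∀ d ∈ n.divisors, finrank ℚ ↥(LinearMap.ker (aeval τ (X ^ d - 1 : ℚ[X]))) =
        finrank ℚ ↥(LinearMap.ker (aeval τ' (X ^ d - 1 : ℚ[X])))) →
      ∃ e : V ≃ₗ[ℚ] V', ∀ x, e (τ x) = τ' (e x) := by
  classical
  intro m
  induction m using Nat.strong_induction_on with
  | _ m ih =>
    intro V V' _ _ _ _ _ _ τ τ' hm hτ hτ' hr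
    have hbot : ∀ d ∈ n.divisors, (LinearMap.ker (aeval τ (X ^ d - 1 : ℚ[X])) = ⊥ ↔
        LinearMap.ker (aeval τ' (X ^ d - 1 : ℚ[X])) = ⊥) := by
      intro d hd
      rw [← Submodule.finrank_eq_zero, ← Submodule.finrank_eq_zero, hr d hd]
    have hdim : finrank ℚ V' = m := by
      have h1 := hr n (Nat.mem_divisors_self n hn.ne')
      rw [hτ, hτ', LinearMap.ker_zero, LinearMap.ker_zero, finrank_top, finrank_top] at h1
      rw [← h1, hm]
    rcases Nat.eq_zero_or_pos m with h0 | hpos
    · subst h0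
      have hX : Subsingleton V := Module.finrank_zero_iff.1 hm
      have hX' : Subsingleton V' := Module.finrank_zero_iff.1 hdim
      exact ⟨LinearEquiv.ofFinrankEq V V' (hm.trans hdim.symm), fun x => Subsingleton.elim _ _⟩
    · -- the minimal `e` with nontrivial invariants
      have hVnt : Nontrivial V := Module.finrank_pos_iff.1 (hm ▸ hpos)
      let S : Finset ℕ := n.divisors.filter
        (fun d => LinearMap.ker (aeval τ (X ^ d - 1 : ℚ[X])) ≠ ⊥)
      have hnS : n ∈ S := by
        refine Finset.mem_filter.2 ⟨Nat.mem_divisors_self n hn.ne', ?_⟩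
        rw [hτ, LinearMap.ker_zero]
        exact top_ne_bot
      have hSne : S.Nonempty := ⟨n, hnS⟩
      obtain ⟨he₀n, he₀ker⟩ := Finset.mem_filter.1 (S.min'_mem hSne)
      have he₀dvd : S.min' hSne ∣ n := Nat.dvd_of_mem_divisors he₀n
      have he₀pos : 0 < S.min' hSne := Nat.pos_of_dvd_of_pos he₀dvd hn
      have hmin : ∀ d, d ∣ S.min' hSne → d ≠ S.min' hSne →
          LinearMap.ker (aeval τ (X ^ d - 1 : ℚ[X])) = ⊥ := by
        intro d hd hne
        by_contra hcon
        have hdn : d ∈ n.divisors := Nat.mem_divisors.2 ⟨hd.trans he₀dvd, hn.ne'⟩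
        have hdS : d ∈ S := Finset.mem_filter.2 ⟨hdn, hcon⟩
        have h1 := S.min'_le d hdS
        have h2 := Nat.le_of_dvd he₀pos hd
        exact hne (le_antisymm h2 h1)
      have hmin' : ∀ d, d ∣ S.min' hSne → d ≠ S.min' hSne →
          LinearMap.ker (aeval τ' (X ^ d - 1 : ℚ[X])) = ⊥ := by
        intro d hd hne
        have hdn : d ∈ n.divisors := Nat.mem_divisors.2 ⟨hd.trans he₀dvd, hn.ne'⟩
        exact (hbot d hdn).1 (hmin d hd hne)
      have he₀ker' : LinearMap.ker (aeval τ' (X ^ (S.min' hSne) - 1 : ℚ[X])) ≠ ⊥ :=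
        fun h => he₀ker ((hbot _ he₀n).2 h)
      obtain ⟨v, hv, hfv⟩ := exists_ne_zero_cyclotomic τ he₀pos he₀ker hmin
      obtain ⟨v', hv', hfv'⟩ := exists_ne_zero_cyclotomic τ' he₀pos he₀ker' hmin'
      have hf : Irreducible (cyclotomic (S.min' hSne) ℚ) := cyclotomic.irreducible_rat he₀pos
      -- the cyclic submodules and their complements
      obtain ⟨eW, heW⟩ := exists_cyclic_equiv τ τ' hf hv hfv hv' hfv'
      have hP := squarefree_X_pow_sub_one_rat hn
      have hss : τ.IsSemisimple := Module.End.isSemisimple_of_squarefree_aeval_eq_zero hP hτ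
      have hss' : τ'.IsSemisimple := Module.End.isSemisimple_of_squarefree_aeval_eq_zero hP hτ'
      have hWi := range_orbMap_invariant τ v
      have hWi' := range_orbMap_invariant τ' v'
      obtain ⟨C, hCi, hcompl⟩ := Module.End.isSemisimple_iff.1 hss _
        ((Module.End.mem_invtSubmodule τ).2 fun x hx => hWi x hx)
      obtain ⟨C', hCi', hcompl'⟩ := Module.End.isSemisimple_iff.1 hss' _
        ((Module.End.mem_invtSubmodule τ').2 fun x hx => hWi' x hx)
      have hC : ∀ x ∈ C, τ x ∈ C := fun x hx => (Module.End.mem_invtSubmodule τ).1 hCi hx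
      have hC' : ∀ x ∈ C', τ' x ∈ C' := fun x hx => (Module.End.mem_invtSubmodule τ').1 hCi' hx
      -- kernel dimensions on the complements
      have hkW : ∀ q : ℚ[X], finrank ℚ ↥(LinearMap.ker (aeval (τ.restrict hWi) q)) =
          finrank ℚ ↥(LinearMap.ker (aeval (τ'.restrict hWi') q)) := by
        intro q
        refine finrank_ker_aeval_of_equiv _ _ eW (fun w => ?_) q
        exact Subtype.ext (heW w)
      have hkC : ∀ d ∈ n.divisors,
          finrank ℚ ↥(LinearMap.ker (aeval (τ.restrict hC) (X ^ d - 1 : ℚ[X]))) =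
            finrank ℚ ↥(LinearMap.ker (aeval (τ'.restrict hC') (X ^ d - 1 : ℚ[X]))) := by
        intro d hd
        have h1 := finrank_ker_aeval_of_isCompl τ hcompl hWi hC (X ^ d - 1 : ℚ[X])
        have h2 := finrank_ker_aeval_of_isCompl τ' hcompl' hWi' hC' (X ^ d - 1 : ℚ[X])
        have h3 := hr d hd
        have h4 := hkW (X ^ d - 1 : ℚ[X])
        omega
      -- the dimension drops
      have hWpos : 0 < finrank ℚ ↥(LinearMap.range (orbMap τ v)) := by
        rw [Module.finrank_pos_iff_exists_ne_zero]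
        exact ⟨⟨v, self_mem_range_orbMap τ v⟩, fun h => hv (congrArg Subtype.val h)⟩
      have hsum : finrank ℚ ↥(LinearMap.range (orbMap τ v)) + finrank ℚ ↥C = m := by
        rw [← hm]
        exact Submodule.finrank_add_eq_of_isCompl hcompl
      obtain ⟨eC, heC⟩ := ih (finrank ℚ ↥C) (by omega) ↥C ↥C' (τ.restrict hC) (τ'.restrict hC')
        rfl (aeval_restrict_eq_zero τ hC hτ) (aeval_restrict_eq_zero τ' hC' hτ') hkC
      exact glue_equiv τ τ' hcompl hcompl' hWi hC eW eC heW
        (fun c => congrArg Subtype.val (heC c))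

variable {V V' : Type u} [AddCommGroup V] [Module ℚ V] [FiniteDimensional ℚ V]
  [AddCommGroup V'] [Module ℚ V'] [FiniteDimensional ℚ V']

theorem aeval_X_pow_sub_one {W : Type*} [AddCommGroup W] [Module ℚ W] (τ : Module.End ℚ W)
    (d : ℕ) : aeval τ (X ^ d - 1 : ℚ[X]) = τ ^ d - 1 := by
  simp

/-- **Conjugacy of endomorphisms of finite order over `ℚ` with the same dimensions of
invariants.** -/
theorem exists_equiv_of_finrank_ker_eq_rat {n : ℕ} (hn : 0 < n)
    (τ : Module.End ℚ V) (τ' : Module.End ℚ V') (h : τ ^ n = 1) (h' : τ' ^ n = 1)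
    (hr : ∀ d ∈ n.divisors, finrank ℚ ↥(LinearMap.ker (τ ^ d - 1)) =
      finrank ℚ ↥(LinearMap.ker (τ' ^ d - 1))) :
    ∃ e : V ≃ₗ[ℚ] V', ∀ x, e (τ x) = τ' (e x) := by
  refine exists_equiv_of_finrank_ker_eq_rat_aux hn _ V V' τ τ' rfl ?_ ?_ ?_
  · rw [aeval_X_pow_sub_one, h, sub_self]
  · rw [aeval_X_pow_sub_one, h', sub_self]
  · intro d hd
    rw [aeval_X_pow_sub_one, aeval_X_pow_sub_one]
    exact hr d hd

/-- **The dimensions of the invariants determine the characteristic polynomial.** -/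
theorem charpoly_eq_of_finrank_ker_eq_rat {n : ℕ} (hn : 0 < n)
    (τ : Module.End ℚ V) (τ' : Module.End ℚ V') (h : τ ^ n = 1) (h' : τ' ^ n = 1)
    (hr : ∀ d ∈ n.divisors, finrank ℚ ↥(LinearMap.ker (τ ^ d - 1)) =
      finrank ℚ ↥(LinearMap.ker (τ' ^ d - 1))) :
    τ.charpoly = τ'.charpoly := by
  obtain ⟨e, he⟩ := exists_equiv_of_finrank_ker_eq_rat hn τ τ' h h' hr
  have h1 : e.conj τ = τ' := by
    refine LinearMap.ext fun x => ?_
    rw [LinearEquiv.conj_apply_apply, he, e.apply_symm_apply]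
  rw [← h1, LinearEquiv.charpoly_conj]

end Main

end Fermat.Agent.P1.helper21
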