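import Fermat.Agent.P1.helper24_BSAbs

/-!
# P1 / module EC / BASE-STAR / package BS-ABS-LAT, the wrapper (helper24, task 825)

`absLat_of : LattEquivStatement → helper7.AbsLatStatement`, where `LattEquivStatement` is the
lattice lemma of helper21 (task 800) in tensor form: two `ℤ`-lattices with automorphisms of order
dividing `n` (`p ∤ n`) whose invariants under all powers have the same ranks have equivariantly
isomorphic reductions modulo `p`.

* `bs_bridge` : a reduction map `r : L → V` (surjective, kernel `pL`) identifies `V` with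
  `ZMod p ⊗ L`, compatibly with operators;
* `bs_mlt_congr`, `bs_mlt_prod` : `mlt` is invariant under equivariant isomorphisms and additive
  on products;
* `bs_finrank_ker_prodMap_pow`, `bs_finrank_ker_funLeft_pow` : the ranks of the invariants of
  `L × ℤ` and of `ℤ^X`.
-/

set_option autoImplicit false
set_option linter.style.haveILetI false

noncomputable section

namespace Fermat.Agent.P1.helper24

open Fermat.Agent.P1.helper7 Module TensorProduct

/-- helper21's lattice lemma (L4), tensor form -/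
def LattEquivStatement : Prop :=
  ∀ (p : ℕ) [Fact p.Prime] (n : ℕ), 0 < n → ¬ p ∣ n →
  ∀ (L₁ L₂ : Type) [AddCommGroup L₁] [Module.Free ℤ L₁] [Module.Finite ℤ L₁]
    [AddCommGroup L₂] [Module.Free ℤ L₂] [Module.Finite ℤ L₂]
    (d₁ : L₁ →ₗ[ℤ] L₁) (d₂ : L₂ →ₗ[ℤ] L₂), d₁ ^ n = 1 → d₂ ^ n = 1 →
    (∀ k ∈ n.divisors, Module.finrank ℤ ↥(LinearMap.ker (d₁ ^ k - 1)) =
      Module.finrank ℤ ↥(LinearMap.ker (d₂ ^ k - 1))) →
    ∃ e : (ZMod p ⊗[ℤ] L₁) ≃ₗ[ZMod p] (ZMod p ⊗[ℤ] L₂),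
      ∀ x, e (d₁.baseChange (ZMod p) x) = d₂.baseChange (ZMod p) (e x)

section Bridge

variable (p : ℕ) [Fact p.Prime]

/-- every element of `ZMod p ⊗ L` is of the form `1 ⊗ x` -/
lemma bs_exists_one_tmul {L : Type} [AddCommGroup L] (z : ZMod p ⊗[ℤ] L) :
    ∃ x : L, z = (1 : ZMod p) ⊗ₜ[ℤ] x := by
  induction z using TensorProduct.induction_on with
  | zero => exact ⟨0, (TensorProduct.tmul_zero _ _).symm⟩
  | tmul c x =>
    refine ⟨(c.val : ℤ) • x, ?_⟩
    rw [← TensorProduct.smul_tmul]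
    congr 1
    rw [zsmul_eq_mul, mul_one]
    simp
  | add z w hz hw =>
    obtain ⟨x, rfl⟩ := hz
    obtain ⟨y, rfl⟩ := hw
    exact ⟨x + y, (TensorProduct.tmul_add _ _ _).symm⟩

/-- the bridge: a reduction map `r : L → V` identifies `V` with `ZMod p ⊗ L` -/
lemma bs_bridge {L : Type} [AddCommGroup L] (s : L →ₗ[ℤ] L)
    {V : Type} [AddCommGroup V] [Module (ZMod p) V] (v : V →ₗ[ZMod p] V) (r : L →+ V)
    (hr : Function.Surjective r) (hker : ∀ x, r x = 0 ↔ ∃ y, x = p • y)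
    (hrs : ∀ x, r (s x) = v (r x)) :
    ∃ E : (ZMod p ⊗[ℤ] L) ≃ₗ[ZMod p] V, ∀ x, E (s.baseChange (ZMod p) x) = v (E x) := by
  let E₀ : (ZMod p ⊗[ℤ] L) →ₗ[ZMod p] V := LinearMap.liftBaseChange (ZMod p) r.toIntLinearMap
  have hE₀ : ∀ x : L, E₀ ((1 : ZMod p) ⊗ₜ[ℤ] x) = r x := fun x => by
    change (1 : ZMod p) • r x = r x
    rw [one_smul]
  have hinj : Function.Injective E₀ := by
    rw [injective_iff_map_eq_zero]
    intro z hz
    obtain ⟨x, rfl⟩ := bs_exists_one_tmul p z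
    rw [hE₀] at hz
    obtain ⟨y, rfl⟩ := (hker x).1 hz
    rw [← Nat.cast_smul_eq_nsmul ℤ, ← TensorProduct.smul_tmul]
    have : ((p : ℕ) : ℤ) • (1 : ZMod p) = 0 := by
      rw [zsmul_eq_mul, mul_one]
      simp
    rw [this, TensorProduct.zero_tmul]
  have hsurj : Function.Surjective E₀ := fun y => by
    obtain ⟨x, rfl⟩ := hr y
    exact ⟨_, hE₀ x⟩
  refine ⟨LinearEquiv.ofBijective E₀ ⟨hinj, hsurj⟩, fun z => ?_⟩
  obtain ⟨x, rfl⟩ := bs_exists_one_tmul p z
  change E₀ (s.baseChange (ZMod p) ((1 : ZMod p) ⊗ₜ[ℤ] x)) = v (E₀ ((1 : ZMod p) ⊗ₜ[ℤ] x))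
  rw [LinearMap.baseChange_tmul, hE₀, hE₀, hrs]

end Bridge

section Mlt

variable {k : Type} [Field k]
variable {A B B' : Type} [AddCommGroup A] [Module k A] [AddCommGroup B] [Module k B]
  [AddCommGroup B'] [Module k B']

/-- `mlt` is invariant under equivariant isomorphisms of the target -/
lemma bs_mlt_congr (a : A →ₗ[k] A) (b : B →ₗ[k] B) (b' : B' →ₗ[k] B') (e : B ≃ₗ[k] B')
    (he : ∀ x, e (b x) = b' (e x)) : mlt a b = mlt a b' := by
  let F : (A →ₗ[k] B) ≃ₗ[k] (A →ₗ[k] B') := LinearEquiv.congrRight e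
  have hF : ∀ φ : A →ₗ[k] B, ∀ x, F φ x = e (φ x) := fun φ x => rfl
  have hFs : ∀ ψ : A →ₗ[k] B', ∀ x, e (F.symm ψ x) = ψ x := fun ψ x => by
    rw [← hF, LinearEquiv.apply_symm_apply]
  have hmap : (eqv a b).map (F : (A →ₗ[k] B) →ₗ[k] (A →ₗ[k] B')) = eqv a b' := by
    ext ψ
    constructor
    · rintro ⟨φ, hφ, rfl⟩
      have hφ' : φ ∘ₗ a = b ∘ₗ φ := hφ
      change (F φ) ∘ₗ a = b' ∘ₗ (F φ)
      ext x
      have := LinearMap.congr_fun hφ' x
      simp only [LinearMap.comp_apply] at this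
      simp only [LinearMap.comp_apply]
      rw [hF, hF, this, he]
    · intro hψ
      have hψ' : ψ ∘ₗ a = b' ∘ₗ ψ := hψ
      refine ⟨F.symm ψ, ?_, by simp⟩
      change (F.symm ψ) ∘ₗ a = b ∘ₗ (F.symm ψ)
      ext x
      apply e.injective
      have := LinearMap.congr_fun hψ' x
      simp only [LinearMap.comp_apply] at this
      simp only [LinearMap.comp_apply]
      rw [hFs, he, hFs, this]
  unfold mlt
  rw [← hmap]
  exact (LinearEquiv.finrank_map_eq F (eqv a b)).symm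

/-- `mlt` of a product -/
lemma bs_mlt_prod [Module.Finite k A] [Module.Finite k B] [Module.Finite k B']
    (a : A →ₗ[k] A) (b : B →ₗ[k] B) (b' : B' →ₗ[k] B') :
    mlt a (b.prodMap b') = mlt a b + mlt a b' := by
  let F : (↥(eqv a b) × ↥(eqv a b')) →ₗ[k] (A →ₗ[k] (B × B')) :=
    (LinearMap.prodEquiv k (M := A) (M₂ := B) (M₃ := B')).toLinearMap ∘ₗ
      ((eqv a b).subtype.prodMap (eqv a b').subtype)
  have hF : ∀ z : ↥(eqv a b) × ↥(eqv a b'), ∀ x, F z x = (z.1.1 x, z.2.1 x) := fun z x => rfl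
  have hinj : Function.Injective F := by
    intro z w h
    have h1 : ∀ x, (z.1.1 x, z.2.1 x) = (w.1.1 x, w.2.1 x) := fun x => by
      rw [← hF, ← hF, h]
    apply Prod.ext
    · apply Subtype.ext
      ext x
      exact (Prod.ext_iff.1 (h1 x)).1
    · apply Subtype.ext
      ext x
      exact (Prod.ext_iff.1 (h1 x)).2
  have hrange : LinearMap.range F = eqv a (b.prodMap b') := by
    ext ψ
    constructor
    · rintro ⟨⟨⟨φ, hφ⟩, ⟨φ', hφ'⟩⟩, rfl⟩
      have h1 : φ ∘ₗ a = b ∘ₗ φ := hφ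
      have h2 : φ' ∘ₗ a = b' ∘ₗ φ' := hφ'
      change _ ∘ₗ a = (b.prodMap b') ∘ₗ _
      ext x
      · have := LinearMap.congr_fun h1 x
        simp only [LinearMap.comp_apply] at this
        simp only [LinearMap.comp_apply, hF, LinearMap.prodMap_apply]
        exact this
      · have := LinearMap.congr_fun h2 x
        simp only [LinearMap.comp_apply] at this
        simp only [LinearMap.comp_apply, hF, LinearMap.prodMap_apply]
        exact this
    · intro hψ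
      have hψ' : ψ ∘ₗ a = (b.prodMap b') ∘ₗ ψ := hψ
      have h1 : ((LinearMap.fst k B B') ∘ₗ ψ) ∈ eqv a b := by
        change _ ∘ₗ a = b ∘ₗ _
        ext x
        have := LinearMap.congr_fun hψ' x
        simp only [LinearMap.comp_apply, LinearMap.prodMap_apply] at this
        simp only [LinearMap.comp_apply, LinearMap.fst_apply]
        rw [this]
      have h2 : ((LinearMap.snd k B B') ∘ₗ ψ) ∈ eqv a b' := by
        change _ ∘ₗ a = b' ∘ₗ _
        ext x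
        have := LinearMap.congr_fun hψ' x
        simp only [LinearMap.comp_apply, LinearMap.prodMap_apply] at this
        simp only [LinearMap.comp_apply, LinearMap.snd_apply]
        rw [this]
      refine ⟨(⟨_, h1⟩, ⟨_, h2⟩), ?_⟩
      ext x
      · rw [hF]; rfl
      · rw [hF]; rfl
  unfold mlt
  rw [← hrange, LinearMap.finrank_range_of_inj hinj, Module.finrank_prod]

end Mlt

section RankProd

variable {L : Type} [AddCommGroup L] 

lemma bs_prodMap_pow (s : L →ₗ[ℤ] L) (k : ℕ) :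
    (s.prodMap (1 : ℤ →ₗ[ℤ] ℤ)) ^ k = (s ^ k).prodMap (1 : ℤ →ₗ[ℤ] ℤ) := by
  induction k with
  | zero => rw [pow_zero, pow_zero, LinearMap.prodMap_one]
  | succ k ih => rw [pow_succ, ih, LinearMap.prodMap_mul, mul_one, ← pow_succ]

lemma bs_ker_prodMap_pow (s : L →ₗ[ℤ] L) (k : ℕ) :
    LinearMap.ker ((s.prodMap (1 : ℤ →ₗ[ℤ] ℤ)) ^ k - 1) =
      (LinearMap.ker (s ^ k - 1)).prod ⊤ := by
  rw [bs_prodMap_pow]
  ext ⟨x, m⟩
  rw [LinearMap.mem_ker, Submodule.mem_prod, LinearMap.mem_ker]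
  simp only [LinearMap.sub_apply, LinearMap.prodMap_apply, Module.End.one_apply,
    Prod.mk_sub_mk, sub_self, Prod.mk_eq_zero, and_true, Submodule.mem_top]

/-- a product of submodules as a product -/
def bsProdEquiv {M N : Type} [AddCommGroup M] [AddCommGroup N] (P : Submodule ℤ M)
    (Q : Submodule ℤ N) : ↥(P.prod Q) ≃ₗ[ℤ] (↥P × ↥Q) where
  toFun z := (⟨z.1.1, z.2.1⟩, ⟨z.1.2, z.2.2⟩)
  invFun z := ⟨(z.1.1, z.2.1), ⟨z.1.2, z.2.2⟩⟩
  map_add' _ _ := rfl
  map_smul' _ _ := rfl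
  left_inv _ := rfl
  right_inv _ := rfl

lemma bs_finrank_ker_prodMap_pow [Module.Free ℤ L] [Module.Finite ℤ L] (s : L →ₗ[ℤ] L) (k : ℕ) :
    finrank ℤ ↥(LinearMap.ker ((s.prodMap (1 : ℤ →ₗ[ℤ] ℤ)) ^ k - 1)) =
      finrank ℤ ↥(LinearMap.ker (s ^ k - 1)) + 1 := by
  rw [bs_ker_prodMap_pow, LinearEquiv.finrank_eq (bsProdEquiv _ _), Module.finrank_prod,
    finrank_top, Module.finrank_self]

end RankProd

section RankPerm

variable {X : Type}

lemma bs_funLeft_pow (π : Equiv.Perm X) (k : ℕ) :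
    (LinearMap.funLeft ℤ ℤ π : (X → ℤ) →ₗ[ℤ] (X → ℤ)) ^ k =
      LinearMap.funLeft ℤ ℤ ((π ^ k : Equiv.Perm X) : X → X) := by
  induction k with
  | zero =>
    ext f x
    simp
  | succ k ih =>
    rw [pow_succ', ih]
    ext f x
    simp only [Module.End.mul_apply, LinearMap.funLeft_apply, pow_succ, Equiv.Perm.coe_mul,
      Function.comp_apply]

/-- functions invariant under `σ` are invariant under `zpowers σ` -/
lemma bs_inv_zpowers (σ : Equiv.Perm X) (f : X → ℤ) (hf : ∀ x, f (σ x) = f x)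
    (h : Equiv.Perm X) (hh : h ∈ Subgroup.zpowers σ) : ∀ x, f (h x) = f x := by
  let S : Subgroup (Equiv.Perm X) :=
    { carrier := {h | ∀ x, f (h x) = f x}
      mul_mem' := fun {g g'} hg hg' x => by
        rw [Equiv.Perm.coe_mul, Function.comp_apply, hg, hg']
      one_mem' := fun x => rfl
      inv_mem' := fun {g} hg x => by
        have h1 := hg (g⁻¹ x)
        have h2 : g (g⁻¹ x) = x := by
          rw [← Equiv.Perm.mul_apply, mul_inv_cancel, Equiv.Perm.one_apply]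
        rw [h2] at h1
        exact h1.symm }
  have hS : Subgroup.zpowers σ ≤ S := by
    rw [Subgroup.zpowers_le]
    exact hf
  exact hS hh

lemma bs_finrank_ker_funLeft_pow [Fintype X] (π : Equiv.Perm X) (k : ℕ) :
    finrank ℤ ↥(LinearMap.ker ((LinearMap.funLeft ℤ ℤ π : (X → ℤ) →ₗ[ℤ] (X → ℤ)) ^ k - 1)) =
      Nat.card (MulAction.orbitRel.Quotient ↥(Subgroup.zpowers (π ^ k)) X) := by
  classical
  rw [bs_funLeft_pow]
  set σ : Equiv.Perm X := π ^ k with hσ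
  let Q := MulAction.orbitRel.Quotient ↥(Subgroup.zpowers σ) X
  let mk : X → Q := Quotient.mk''
  have hmk : Function.Surjective mk := Quotient.mk''_surjective
  let G : (Q → ℤ) →ₗ[ℤ] (X → ℤ) := LinearMap.funLeft ℤ ℤ mk
  have hG : ∀ g x, G g x = g (mk x) := fun g x => rfl
  have hinj : Function.Injective G := LinearMap.funLeft_injective_of_surjective ℤ ℤ mk hmk
  have hmkσ : ∀ x, mk (σ x) = mk x := by
    intro x
    apply Quotient.sound'
    rw [MulAction.orbitRel_apply]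
    exact ⟨⟨σ, Subgroup.mem_zpowers σ⟩, rfl⟩
  have hrange : LinearMap.range G =
      LinearMap.ker ((LinearMap.funLeft ℤ ℤ (σ : X → X) : (X → ℤ) →ₗ[ℤ] (X → ℤ)) - 1) := by
    ext f
    rw [LinearMap.mem_ker, LinearMap.sub_apply, sub_eq_zero, Module.End.one_apply]
    constructor
    · rintro ⟨g, rfl⟩
      ext x
      rw [LinearMap.funLeft_apply, hG, hG, hmkσ]
    · intro hf
      have hf' : ∀ x, f (σ x) = f x := fun x => by
        have := congrFun hf x
        rwa [LinearMap.funLeft_apply] at this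
      refine ⟨Quotient.lift f ?_, ?_⟩
      · intro x y hxy
        have hxy' : x ∈ MulAction.orbit ↥(Subgroup.zpowers σ) y := hxy
        obtain ⟨⟨h, hh⟩, rfl⟩ := hxy'
        exact bs_inv_zpowers σ f hf' h hh y
      · ext x
        rfl
  rw [← hrange, LinearMap.finrank_range_of_inj hinj]
  letI : Fintype Q := Fintype.ofFinite Q
  rw [Module.finrank_fintype_fun_eq_card, Nat.card_eq_fintype_card]

end RankPerm


section Assembly

theorem absLat_of (h : LattEquivStatement) : AbsLatStatement := by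
  intro p _ n hpn L _ _ _ s hs X _ π hπ hrk V _ _ v r hr hker hrs A _ _ _ a _
  classical
  have hn0 : 0 < n := Nat.pos_of_ne_zero (fun h0 => hpn (h0 ▸ dvd_zero p))
  -- the two lattices
  let d₁ : (L × ℤ) →ₗ[ℤ] (L × ℤ) := s.prodMap 1
  let d₂ : (X → ℤ) →ₗ[ℤ] (X → ℤ) := LinearMap.funLeft ℤ ℤ π
  have hd₁ : d₁ ^ n = 1 := by
    change (s.prodMap (1 : ℤ →ₗ[ℤ] ℤ)) ^ n = 1
    rw [bs_prodMap_pow, hs, LinearMap.prodMap_one]
  have hd₂ : d₂ ^ n = 1 := by
    change (LinearMap.funLeft ℤ ℤ π : (X → ℤ) →ₗ[ℤ] (X → ℤ)) ^ n = 1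
    rw [bs_funLeft_pow, hπ]
    ext f x
    simp
  have hranks : ∀ k ∈ n.divisors, finrank ℤ ↥(LinearMap.ker (d₁ ^ k - 1)) =
      finrank ℤ ↥(LinearMap.ker (d₂ ^ k - 1)) := fun k _ => by
    change finrank ℤ ↥(LinearMap.ker ((s.prodMap (1 : ℤ →ₗ[ℤ] ℤ)) ^ k - 1)) =
      finrank ℤ ↥(LinearMap.ker
        ((LinearMap.funLeft ℤ ℤ π : (X → ℤ) →ₗ[ℤ] (X → ℤ)) ^ k - 1))
    rw [bs_finrank_ker_prodMap_pow, bs_finrank_ker_funLeft_pow, hrk k]
  obtain ⟨e, he⟩ := h p n hn0 hpn (L × ℤ) (X → ℤ) d₁ d₂ hd₁ hd₂ hranks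
  -- the first bridge
  let r₁ : (L × ℤ) →+ (V × ZMod p) := r.prodMap (Int.castAddHom (ZMod p))
  have hr₁a : ∀ x : L × ℤ, r₁ x = (r x.1, (x.2 : ZMod p)) := fun x => rfl
  have hr₁ : Function.Surjective r₁ := by
    rintro ⟨y, c⟩
    obtain ⟨x, rfl⟩ := hr y
    obtain ⟨m, rfl⟩ := ZMod.intCast_surjective c
    exact ⟨(x, m), rfl⟩
  have hker₁ : ∀ x, r₁ x = 0 ↔ ∃ y, x = p • y := by
    rintro ⟨x, m⟩
    rw [hr₁a, Prod.mk_eq_zero, hker, ZMod.intCast_zmod_eq_zero_iff_dvd]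
    constructor
    · rintro ⟨⟨y, rfl⟩, ⟨m', rfl⟩⟩
      refine ⟨(y, m'), ?_⟩
      rw [Prod.smul_mk, nsmul_eq_mul]
    · rintro ⟨⟨y, m'⟩, hy⟩
      rw [Prod.smul_mk, Prod.mk.injEq, nsmul_eq_mul] at hy
      exact ⟨⟨y, hy.1⟩, ⟨m', hy.2⟩⟩
  have hrs₁ : ∀ x, r₁ (d₁ x) = (v.prodMap (1 : ZMod p →ₗ[ZMod p] ZMod p)) (r₁ x) := by
    rintro ⟨x, m⟩
    change (r (s x), ((m : ℤ) : ZMod p)) = (v (r x), ((m : ℤ) : ZMod p))
    rw [hrs]
  obtain ⟨E₁, hE₁⟩ :=
    bs_bridge p d₁ (v.prodMap (1 : ZMod p →ₗ[ZMod p] ZMod p)) r₁ hr₁ hker₁ hrs₁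
  -- the second bridge
  let r₂ : (X → ℤ) →+ (X → ZMod p) := (Int.castAddHom (ZMod p)).compLeft X
  have hr₂a : ∀ (f : X → ℤ) (x : X), r₂ f x = (f x : ZMod p) := fun f x => rfl
  have hr₂ : Function.Surjective r₂ := by
    intro g
    choose f hf using fun x => ZMod.intCast_surjective (g x)
    exact ⟨f, funext fun x => by rw [hr₂a, hf]⟩
  have hker₂ : ∀ f, r₂ f = 0 ↔ ∃ g, f = p • g := by
    intro f
    constructor
    · intro hf
      have hdvd : ∀ x, (p : ℤ) ∣ f x := fun x => by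
        rw [← ZMod.intCast_zmod_eq_zero_iff_dvd, ← hr₂a, hf]
        rfl
      choose g hg using hdvd
      refine ⟨g, funext fun x => ?_⟩
      rw [Pi.smul_apply, nsmul_eq_mul, hg x]
    · rintro ⟨g, rfl⟩
      ext x
      rw [hr₂a, Pi.smul_apply, nsmul_eq_mul, Pi.zero_apply, ZMod.intCast_zmod_eq_zero_iff_dvd]
      exact dvd_mul_right _ _
  have hrs₂ : ∀ f, r₂ (d₂ f) = permOp (ZMod p) π (r₂ f) := fun f => rfl
  obtain ⟨E₂, hE₂⟩ := bs_bridge p d₂ (permOp (ZMod p) π) r₂ hr₂ hker₂ hrs₂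
  -- finiteness of `V`
  obtain ⟨E₀, -⟩ := bs_bridge p s v r hr hker hrs
  haveI : Module.Finite (ZMod p) V := Module.Finite.equiv E₀
  -- the equivariant isomorphism
  let e' : (V × ZMod p) ≃ₗ[ZMod p] (X → ZMod p) := (E₁.symm.trans e).trans E₂
  have he'E : ∀ z, e' (E₁ z) = E₂ (e z) := fun z => by
    change E₂ (e (E₁.symm (E₁ z))) = E₂ (e z)
    rw [LinearEquiv.symm_apply_apply]
  have he' : ∀ x, e' ((v.prodMap (1 : ZMod p →ₗ[ZMod p] ZMod p)) x) =
      permOp (ZMod p) π (e' x) := by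
    intro x
    obtain ⟨z, rfl⟩ := E₁.surjective x
    rw [← hE₁, he'E, he'E, he, hE₂]
  rw [← bs_mlt_prod, bs_mlt_congr a _ _ e' he']

end Assembly

end Fermat.Agent.P1.helper24
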