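import Fermat.Agent.P1.helper21_LattCyc
import Fermat.Agent.P1.helper24_BSLat

/-!
# P1 / EC / BASE-STAR (A3), part 3 (helper21): the lattice lemma

Two `ℤ`-lattices with endomorphisms `d₁`, `d₂` of order dividing `n` whose invariants
`ker (dᵢ ^ k - 1)`, `k ∣ n`, have the same ranks have the same characteristic polynomial, and for
a prime `p` not dividing `n` their reductions modulo `p` are equivariantly isomorphic.

* `finrank_ker_baseChange_rat` : `dim_ℚ ker (g ⊗ ℚ) = rank_ℤ ker g`;
* `charpoly_eq_of_finrank_ker_eq` : equality of the characteristic polynomials over `ℤ`;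
* `lattEquivStatement` : `helper24.LattEquivStatement`, VERBATIM;
* `absLatStatement` : `helper7.AbsLatStatement`, VERBATIM (via `helper24.absLat_of`).
-/

set_option autoImplicit false

open Polynomial Module TensorProduct

noncomputable section

namespace Fermat.Agent.P1.helper21

section ZSide

variable {L : Type*} [AddCommGroup L] [Module.Free ℤ L] [Module.Finite ℤ L]

/-- the kernel commutes with the flat base change `ℤ → ℚ` -/
theorem finrank_ker_baseChange_rat (g : L →ₗ[ℤ] L) :
    finrank ℚ ↥(LinearMap.ker (g.baseChange ℚ)) = finrank ℤ ↥(LinearMap.ker g) := by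
  have e := LinearMap.tensorKerEquiv ℚ ℚ g
  have h1 : finrank ℚ (ℚ ⊗[ℤ] ↥(LinearMap.ker g)) = finrank ℤ ↥(LinearMap.ker g) :=
    Module.finrank_baseChange
  rw [← h1]
  exact (LinearEquiv.finrank_eq e).symm

omit [Module.Free ℤ L] [Module.Finite ℤ L] in
theorem baseChange_pow_sub_one (A : Type*) [CommRing A] [Algebra ℤ A] (d : L →ₗ[ℤ] L) (k : ℕ) :
    (d ^ k - 1).baseChange A = (d.baseChange A) ^ k - 1 := by
  rw [LinearMap.baseChange_sub, LinearMap.baseChange_pow, LinearMap.baseChange_one]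

end ZSide

section Final

variable {L₁ L₂ : Type} [AddCommGroup L₁] [Module.Free ℤ L₁] [Module.Finite ℤ L₁]
  [AddCommGroup L₂] [Module.Free ℤ L₂] [Module.Finite ℤ L₂]

/-- **The ranks of the invariants determine the characteristic polynomial of a lattice
endomorphism of finite order.** -/
theorem charpoly_eq_of_finrank_ker_eq {n : ℕ} (hn : 0 < n)
    (d₁ : L₁ →ₗ[ℤ] L₁) (d₂ : L₂ →ₗ[ℤ] L₂) (h₁ : d₁ ^ n = 1) (h₂ : d₂ ^ n = 1)
    (hr : ∀ k ∈ n.divisors, finrank ℤ ↥(LinearMap.ker (d₁ ^ k - 1)) =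
      finrank ℤ ↥(LinearMap.ker (d₂ ^ k - 1))) :
    d₁.charpoly = d₂.charpoly := by
  have hQ : (d₁.baseChange ℚ).charpoly = (d₂.baseChange ℚ).charpoly := by
    refine charpoly_eq_of_finrank_ker_eq_rat hn _ _ ?_ ?_ ?_
    · rw [← LinearMap.baseChange_pow, h₁, LinearMap.baseChange_one]
    · rw [← LinearMap.baseChange_pow, h₂, LinearMap.baseChange_one]
    · intro k hk
      rw [← baseChange_pow_sub_one, ← baseChange_pow_sub_one, finrank_ker_baseChange_rat,
        finrank_ker_baseChange_rat]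
      exact hr k hk
  rw [LinearMap.charpoly_baseChange, LinearMap.charpoly_baseChange] at hQ
  exact Polynomial.map_injective (algebraMap ℤ ℚ) (algebraMap ℤ ℚ).injective_int hQ

/-- **The lattice lemma** (`helper24.LattEquivStatement`, verbatim). -/
theorem lattEquivStatement : Fermat.Agent.P1.helper24.LattEquivStatement := by
  intro p _ n hn hpn L₁ L₂ _ _ _ _ _ _ d₁ d₂ h₁ h₂ hr
  have hchar := charpoly_eq_of_finrank_ker_eq hn d₁ d₂ h₁ h₂ hr
  have hnp : ((n : ℕ) : ZMod p) ≠ 0 := by
    rw [Ne, ZMod.natCast_eq_zero_iff]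
    exact hpn
  have hP : Squarefree (X ^ n - 1 : (ZMod p)[X]) :=
    (X_pow_sub_one_separable_iff.2 hnp).squarefree
  have hz : ∀ {L : Type} [AddCommGroup L] [Module.Free ℤ L] [Module.Finite ℤ L]
      (d : L →ₗ[ℤ] L), d ^ n = 1 →
      aeval (d.baseChange (ZMod p)) (X ^ n - 1 : (ZMod p)[X]) = 0 := by
    intro L _ _ _ d hd
    have : aeval (d.baseChange (ZMod p)) (X ^ n - 1 : (ZMod p)[X])
        = (d.baseChange (ZMod p)) ^ n - 1 := by simp
    rw [this, ← LinearMap.baseChange_pow, hd, LinearMap.baseChange_one]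
    exact sub_self (1 : Module.End (ZMod p) (ZMod p ⊗[ℤ] L))
  refine exists_equiv_of_charpoly_eq hP _ (ZMod p ⊗[ℤ] L₁) (ZMod p ⊗[ℤ] L₂)
    (d₁.baseChange (ZMod p)) (d₂.baseChange (ZMod p)) rfl (hz d₁ h₁) (hz d₂ h₂) ?_
  rw [LinearMap.charpoly_baseChange, LinearMap.charpoly_baseChange, hchar]

/-- **BS-ABS-LAT**: `helper7.AbsLatStatement`, unconditional (wrapper of helper24). -/
theorem absLatStatement : Fermat.Agent.P1.helper7.AbsLatStatement :=
  Fermat.Agent.P1.helper24.absLat_of lattEquivStatement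

end Final

end Fermat.Agent.P1.helper21
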