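import Mathlib

/-!
# P1 / EC / BASE-STAR (A3), part 1 (helper21): peeling cyclic summands of semisimple endomorphisms

`k` a field, `σ` an endomorphism of a finite dimensional `k`-vector space `X` killed by a
squarefree polynomial `P` (so `σ` is semisimple).

* `aeval_intertwine`      : intertwining maps commute with polynomials in the endomorphisms;
* `orbMap σ v`            : `q ↦ q(σ) v`; its kernel is `(f)` if `f` is irreducible, `v ≠ 0`,
                            `f(σ) v = 0`;
* `exists_cyclic_equiv`   : the cyclic submodules generated by two nonzero vectors killed by the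
                            same irreducible `f` are equivariantly isomorphic;
* `glue_equiv`            : glueing equivariant isomorphisms along invariant decompositions;
* `charpoly_eq_mul_of_isCompl`, `finrank_ker_aeval_of_isCompl` : the characteristic polynomial is
                            multiplicative and the kernel dimensions are additive in invariant
                            decompositions;
* `exists_ne_zero_of_irreducible_dvd_charpoly` : an irreducible factor of the characteristic
                            polynomial kills a nonzero vector;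
* `exists_equiv_of_charpoly_eq` : two endomorphisms killed by the same squarefree polynomial with
                            the same characteristic polynomial are conjugate.
-/

set_option autoImplicit false

open Polynomial Module

noncomputable section

namespace Fermat.Agent.P1.helper21

universe u v

section Intertwine

variable {k : Type*} [Field k] {X X' : Type*} [AddCommGroup X] [Module k X]
  [AddCommGroup X'] [Module k X']

/-- a linear map intertwining `σ` and `σ'` intertwines `q(σ)` and `q(σ')` -/
theorem aeval_intertwine (e : X →ₗ[k] X') (σ : Module.End k X) (σ' : Module.End k X')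
    (h : ∀ x, e (σ x) = σ' (e x)) (q : k[X]) (x : X) :
    e (aeval σ q x) = aeval σ' q (e x) := by
  have hpow : ∀ (n : ℕ) (x : X), e ((σ ^ n) x) = (σ' ^ n) (e x) := by
    intro n
    induction n with
    | zero => intro x; simp
    | succ n ih =>
      intro x
      rw [pow_succ, Module.End.mul_apply, ih, h, pow_succ, Module.End.mul_apply]
  induction q using Polynomial.induction_on' with
  | add p q hp hq => simp only [map_add, LinearMap.add_apply, hp, hq]
  | monomial n a =>
    simp only [aeval_monomial, Module.End.mul_apply, Module.algebraMap_end_apply, map_smul]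
    rw [hpow]

/-- restriction to an invariant subspace commutes with polynomials -/
theorem coe_aeval_restrict (σ : Module.End k X) {W : Submodule k X}
    (hW : ∀ x ∈ W, σ x ∈ W) (q : k[X]) (w : W) :
    ((aeval (σ.restrict hW) q w : W) : X) = aeval σ q (w : X) :=
  aeval_intertwine W.subtype (σ.restrict hW) σ (fun _ => rfl) q w

theorem aeval_restrict_eq_zero (σ : Module.End k X) {W : Submodule k X}
    (hW : ∀ x ∈ W, σ x ∈ W) {P : k[X]} (hP : aeval σ P = 0) :
    aeval (σ.restrict hW) P = 0 := by
  ext w
  rw [coe_aeval_restrict, hP]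
  rfl

/-- the orbit map `q ↦ q(σ) v` -/
def orbMap (σ : Module.End k X) (v : X) : k[X] →ₗ[k] X :=
  (LinearMap.applyₗ v).comp (Polynomial.aeval σ).toLinearMap

@[simp] theorem orbMap_apply (σ : Module.End k X) (v : X) (q : k[X]) :
    orbMap σ v q = aeval σ q v := rfl

theorem orbMap_X_mul (σ : Module.End k X) (v : X) (q : k[X]) :
    orbMap σ v (Polynomial.X * q) = σ (orbMap σ v q) := by
  simp only [orbMap_apply, map_mul, aeval_X, Module.End.mul_apply]

theorem orbMap_eq_zero_iff (σ : Module.End k X) {f : k[X]} (hf : Irreducible f) {v : X}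
    (hv : v ≠ 0) (hfv : aeval σ f v = 0) (q : k[X]) :
    orbMap σ v q = 0 ↔ f ∣ q := by
  constructor
  · intro hq
    by_contra hdvd
    have hcop : IsCoprime f q := (Irreducible.coprime_iff_not_dvd hf).2 hdvd
    obtain ⟨a, b, hab⟩ := hcop
    apply hv
    have h1 : aeval σ (a * f + b * q) v = v := by
      rw [hab, map_one, Module.End.one_apply]
    rw [← h1, map_add, map_mul, map_mul, LinearMap.add_apply, Module.End.mul_apply,
      Module.End.mul_apply, hfv, map_zero, zero_add]
    rw [orbMap_apply] at hq
    rw [hq, map_zero]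
  · rintro ⟨g, rfl⟩
    rw [orbMap_apply, mul_comm, map_mul, Module.End.mul_apply, hfv, map_zero]

theorem ker_orbMap_eq (σ : Module.End k X) (σ' : Module.End k X') {f : k[X]}
    (hf : Irreducible f) {v : X} (hv : v ≠ 0) (hfv : aeval σ f v = 0) {v' : X'} (hv' : v' ≠ 0)
    (hfv' : aeval σ' f v' = 0) :
    LinearMap.ker (orbMap σ v) = LinearMap.ker (orbMap σ' v') := by
  ext q
  rw [LinearMap.mem_ker, LinearMap.mem_ker, orbMap_eq_zero_iff σ hf hv hfv,
    orbMap_eq_zero_iff σ' hf hv' hfv']

theorem range_orbMap_invariant (σ : Module.End k X) (v : X) :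
    ∀ x ∈ LinearMap.range (orbMap σ v), σ x ∈ LinearMap.range (orbMap σ v) := by
  rintro x ⟨q, rfl⟩
  exact ⟨Polynomial.X * q, orbMap_X_mul σ v q⟩

theorem self_mem_range_orbMap (σ : Module.End k X) (v : X) :
    v ∈ LinearMap.range (orbMap σ v) :=
  ⟨1, by simp⟩

/-- the cyclic submodules generated by two nonzero vectors killed by the same irreducible
polynomial are equivariantly isomorphic -/
theorem exists_cyclic_equiv (σ : Module.End k X) (σ' : Module.End k X') {f : k[X]}
    (hf : Irreducible f) {v : X} (hv : v ≠ 0) (hfv : aeval σ f v = 0) {v' : X'} (hv' : v' ≠ 0)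
    (hfv' : aeval σ' f v' = 0) :
    ∃ e : ↥(LinearMap.range (orbMap σ v)) ≃ₗ[k] ↥(LinearMap.range (orbMap σ' v')),
      ∀ w : ↥(LinearMap.range (orbMap σ v)),
        ((e ⟨σ w, range_orbMap_invariant σ v w w.2⟩ :
          ↥(LinearMap.range (orbMap σ' v'))) : X') = σ' (e w) := by
  have hker := ker_orbMap_eq σ σ' hf hv hfv hv' hfv'
  let e : ↥(LinearMap.range (orbMap σ v)) ≃ₗ[k] ↥(LinearMap.range (orbMap σ' v')) :=
    ((orbMap σ v).quotKerEquivRange.symm.trans (Submodule.quotEquivOfEq _ _ hker)).trans
      (orbMap σ' v').quotKerEquivRange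
  have he : ∀ (q : k[X]) (h : orbMap σ v q ∈ LinearMap.range (orbMap σ v)),
      ((e ⟨orbMap σ v q, h⟩ : ↥(LinearMap.range (orbMap σ' v'))) : X') = orbMap σ' v' q := by
    intro q h
    have h1 : (orbMap σ v).quotKerEquivRange.symm ⟨orbMap σ v q, h⟩
        = Submodule.Quotient.mk q := by
      rw [LinearEquiv.symm_apply_eq]
      apply Subtype.ext
      rw [LinearMap.quotKerEquivRange_apply_mk]
    change (((orbMap σ' v').quotKerEquivRange
      ((Submodule.quotEquivOfEq _ _ hker)
        ((orbMap σ v).quotKerEquivRange.symm ⟨orbMap σ v q, h⟩)) :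
          ↥(LinearMap.range (orbMap σ' v'))) : X') = _
    rw [h1, Submodule.quotEquivOfEq_mk, LinearMap.quotKerEquivRange_apply_mk]
  refine ⟨e, ?_⟩
  rintro ⟨w, q, rfl⟩
  have h2 : σ (orbMap σ v q) = orbMap σ v (Polynomial.X * q) := (orbMap_X_mul σ v q).symm
  have h3 : (⟨σ (orbMap σ v q), range_orbMap_invariant σ v _ ⟨q, rfl⟩⟩ :
      ↥(LinearMap.range (orbMap σ v))) = ⟨orbMap σ v (Polynomial.X * q), ⟨_, rfl⟩⟩ :=
    Subtype.ext h2
  rw [h3, he, he, orbMap_X_mul]

end Intertwine

section Glue

variable {k : Type*} [Field k] {X X' : Type*} [AddCommGroup X] [Module k X]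
  [AddCommGroup X'] [Module k X']

/-- glueing equivariant isomorphisms along invariant decompositions -/
theorem glue_equiv (σ : Module.End k X) (σ' : Module.End k X') {W C : Submodule k X}
    {W' C' : Submodule k X'} (h : IsCompl W C) (h' : IsCompl W' C')
    (hW : ∀ x ∈ W, σ x ∈ W) (hC : ∀ x ∈ C, σ x ∈ C)
    (eW : ↥W ≃ₗ[k] ↥W') (eC : ↥C ≃ₗ[k] ↥C')
    (heW : ∀ w : W, ((eW ⟨σ w, hW w w.2⟩ : W') : X') = σ' (eW w))
    (heC : ∀ c : C, ((eC ⟨σ c, hC c c.2⟩ : C') : X') = σ' (eC c)) :
    ∃ e : X ≃ₗ[k] X', ∀ x, e (σ x) = σ' (e x) := by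
  let e : X ≃ₗ[k] X' :=
    ((Submodule.prodEquivOfIsCompl W C h).symm.trans (eW.prodCongr eC)).trans
      (Submodule.prodEquivOfIsCompl W' C' h')
  have he : ∀ (w : W) (c : C), e ((w : X) + (c : X)) = ((eW w : W') : X') + ((eC c : C') : X') := by
    intro w c
    have h1 : (Submodule.prodEquivOfIsCompl W C h).symm ((w : X) + (c : X)) = (w, c) := by
      rw [LinearEquiv.symm_apply_eq, Submodule.coe_prodEquivOfIsCompl']
    change (Submodule.prodEquivOfIsCompl W' C' h')
      ((eW.prodCongr eC) ((Submodule.prodEquivOfIsCompl W C h).symm ((w : X) + (c : X)))) = _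
    rw [h1, Submodule.coe_prodEquivOfIsCompl']
    rfl
  refine ⟨e, fun x => ?_⟩
  obtain ⟨⟨w, c⟩, rfl⟩ := (Submodule.prodEquivOfIsCompl W C h).surjective x
  rw [Submodule.coe_prodEquivOfIsCompl']
  change e (σ ((w : X) + (c : X))) = σ' (e ((w : X) + (c : X)))
  have h1 : σ ((w : X) + (c : X)) =
      ((⟨σ w, hW w w.2⟩ : W) : X) + ((⟨σ c, hC c c.2⟩ : C) : X) := map_add σ _ _
  rw [h1, he, he, heW, heC, map_add]

/-- in an invariant decomposition `σ` is conjugate to the product of its restrictions -/
theorem prodMap_restrict_eq_conj (σ : Module.End k X) {W C : Submodule k X} (h : IsCompl W C)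
    (hW : ∀ x ∈ W, σ x ∈ W) (hC : ∀ x ∈ C, σ x ∈ C) :
    (σ.restrict hW).prodMap (σ.restrict hC) =
      (Submodule.prodEquivOfIsCompl W C h).symm.conj σ := by
  refine LinearMap.ext fun x => ?_
  obtain ⟨w, c⟩ := x
  rw [LinearEquiv.conj_apply_apply, LinearEquiv.symm_symm, Submodule.coe_prodEquivOfIsCompl',
    map_add, eq_comm, LinearEquiv.symm_apply_eq, Submodule.coe_prodEquivOfIsCompl']
  rfl

/-- the characteristic polynomial is multiplicative in invariant decompositions -/
theorem charpoly_eq_mul_of_isCompl [FiniteDimensional k X] (σ : Module.End k X)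
    {W C : Submodule k X} (h : IsCompl W C)
    (hW : ∀ x ∈ W, σ x ∈ W) (hC : ∀ x ∈ C, σ x ∈ C) :
    σ.charpoly = (σ.restrict hW).charpoly * (σ.restrict hC).charpoly := by
  rw [← LinearMap.charpoly_prodMap, prodMap_restrict_eq_conj σ h hW hC,
    LinearEquiv.charpoly_conj]

/-- polynomials in a product endomorphism -/
theorem aeval_prodMap {Y Z : Type*} [AddCommGroup Y] [Module k Y] [AddCommGroup Z] [Module k Z]
    (α : Module.End k Y) (β : Module.End k Z) (q : k[X]) :
    aeval (α.prodMap β) q = (aeval α q).prodMap (aeval β q) := by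
  refine LinearMap.ext fun x => ?_
  refine Prod.ext ?_ ?_
  · exact aeval_intertwine (LinearMap.fst k Y Z) (α.prodMap β) α (fun _ => rfl) q x
  · exact aeval_intertwine (LinearMap.snd k Y Z) (α.prodMap β) β (fun _ => rfl) q x

/-- the kernel of a product map -/
def kerProdMapEquiv {Y Z : Type*} [AddCommGroup Y] [Module k Y] [AddCommGroup Z] [Module k Z]
    (α : Module.End k Y) (β : Module.End k Z) :
    ↥(LinearMap.ker (α.prodMap β)) ≃ₗ[k] (↥(LinearMap.ker α) × ↥(LinearMap.ker β)) where
  toFun x := (⟨x.1.1, by
      have := x.2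
      rw [LinearMap.mem_ker, LinearMap.prodMap_apply, Prod.mk_eq_zero] at this
      exact this.1⟩, ⟨x.1.2, by
      have := x.2
      rw [LinearMap.mem_ker, LinearMap.prodMap_apply, Prod.mk_eq_zero] at this
      exact this.2⟩)
  invFun y := ⟨(y.1.1, y.2.1), by
    rw [LinearMap.mem_ker, LinearMap.prodMap_apply, Prod.mk_eq_zero]
    exact ⟨y.1.2, y.2.2⟩⟩
  map_add' _ _ := rfl
  map_smul' _ _ := rfl
  left_inv _ := rfl
  right_inv _ := rfl

/-- equivariant isomorphisms preserve the dimensions of the kernels of polynomials -/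
theorem finrank_ker_aeval_of_equiv (σ : Module.End k X) (σ' : Module.End k X')
    (e : X ≃ₗ[k] X') (he : ∀ x, e (σ x) = σ' (e x)) (q : k[X]) :
    finrank k ↥(LinearMap.ker (aeval σ q)) = finrank k ↥(LinearMap.ker (aeval σ' q)) := by
  have h1 : ∀ x, e (aeval σ q x) = aeval σ' q (e x) :=
    aeval_intertwine e.toLinearMap σ σ' he q
  refine LinearEquiv.finrank_eq (e.ofSubmodules _ _ ?_)
  ext y
  constructor
  · rintro ⟨x, hx, rfl⟩
    rw [SetLike.mem_coe, LinearMap.mem_ker] at hx
    rw [LinearMap.mem_ker]
    change aeval σ' q (e x) = 0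
    rw [← h1, hx, map_zero]
  · intro hy
    rw [LinearMap.mem_ker] at hy
    refine ⟨e.symm y, ?_, e.apply_symm_apply y⟩
    rw [SetLike.mem_coe, LinearMap.mem_ker]
    apply e.injective
    rw [h1, e.apply_symm_apply, hy, map_zero]

/-- the kernel dimensions are additive in invariant decompositions -/
theorem finrank_ker_aeval_of_isCompl [FiniteDimensional k X] (σ : Module.End k X)
    {W C : Submodule k X} (h : IsCompl W C)
    (hW : ∀ x ∈ W, σ x ∈ W) (hC : ∀ x ∈ C, σ x ∈ C) (q : k[X]) :
    finrank k ↥(LinearMap.ker (aeval σ q)) =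
      finrank k ↥(LinearMap.ker (aeval (σ.restrict hW) q)) +
        finrank k ↥(LinearMap.ker (aeval (σ.restrict hC) q)) := by
  have h1 : finrank k ↥(LinearMap.ker (aeval ((σ.restrict hW).prodMap (σ.restrict hC)) q)) =
      finrank k ↥(LinearMap.ker (aeval σ q)) := by
    refine finrank_ker_aeval_of_equiv _ _ (Submodule.prodEquivOfIsCompl W C h) ?_ q
    rintro ⟨w, c⟩
    rw [LinearMap.prodMap_apply, Submodule.coe_prodEquivOfIsCompl',
      Submodule.coe_prodEquivOfIsCompl', map_add]
    rfl
  rw [← h1, aeval_prodMap, (kerProdMapEquiv _ _).finrank_eq, Module.finrank_prod]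

end Glue

section Select

variable {k : Type*} [Field k] {X : Type*} [AddCommGroup X] [Module k X]

open TensorProduct in
/-- an irreducible factor of the characteristic polynomial kills a nonzero vector -/
theorem exists_ne_zero_of_irreducible_dvd_charpoly [FiniteDimensional k X]
    (σ : Module.End k X) {f : k[X]} (hf : Irreducible f) (hdvd : f ∣ σ.charpoly) :
    ∃ v : X, v ≠ 0 ∧ aeval σ f v = 0 := by
  by_contra hcon
  have hinj : Function.Injective (aeval σ f) := by
    rw [injective_iff_map_eq_zero]
    intro v hv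
    by_contra h
    exact hcon ⟨v, h, hv⟩
  have : Fact (Irreducible f) := ⟨hf⟩
  obtain ⟨h, hh⟩ := (aeval σ f).exists_leftInverse_of_injective (LinearMap.ker_eq_bot.2 hinj)
  have h1 : (h.baseChange (AdjoinRoot f)) ∘ₗ ((aeval σ f).baseChange (AdjoinRoot f))
      = LinearMap.id := by
    rw [← LinearMap.baseChange_comp, hh, LinearMap.baseChange_id]
  have hroot : (σ.baseChange (AdjoinRoot f)).charpoly.IsRoot (AdjoinRoot.root f) := by
    rw [LinearMap.charpoly_baseChange]
    obtain ⟨g, hg⟩ := hdvd
    rw [hg, Polynomial.map_mul, IsRoot, eval_mul, eval_map]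
    have : eval₂ (algebraMap k (AdjoinRoot f)) (AdjoinRoot.root f) f = 0 :=
      AdjoinRoot.eval₂_root f
    rw [this, zero_mul]
  have hev : Module.End.HasEigenvalue (σ.baseChange (AdjoinRoot f)) (AdjoinRoot.root f) :=
    (Module.End.hasEigenvalue_iff_isRoot_charpoly _ _).2 hroot
  obtain ⟨w, hw⟩ := hev.exists_hasEigenvector
  have h2 : aeval (σ.baseChange (AdjoinRoot f)) (f.map (algebraMap k (AdjoinRoot f))) w = 0 := by
    rw [Module.End.aeval_apply_of_hasEigenvector hw, eval_map]
    have : eval₂ (algebraMap k (AdjoinRoot f)) (AdjoinRoot.root f) f = 0 :=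
      AdjoinRoot.eval₂_root f
    rw [this, zero_smul]
  have h3 : aeval (σ.baseChange (AdjoinRoot f)) (f.map (algebraMap k (AdjoinRoot f)))
      = (aeval σ f).baseChange (AdjoinRoot f) := by
    rw [aeval_map_algebraMap]
    exact Polynomial.aeval_algHom_apply (Module.End.baseChangeHom k (AdjoinRoot f) X) σ f
  have h4 : w = 0 := by
    have h5 := LinearMap.congr_fun h1 w
    rw [LinearMap.comp_apply, ← h3, h2, map_zero] at h5
    exact h5.symm
  exact hw.2 h4

end Select

section Main

variable {k : Type v} [Field k]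

/-- **Conjugacy of semisimple endomorphisms with the same characteristic polynomial.** -/
theorem exists_equiv_of_charpoly_eq {P : k[X]} (hP : Squarefree P) :
    ∀ (n : ℕ) (X X' : Type u) [AddCommGroup X] [Module k X] [FiniteDimensional k X]
      [AddCommGroup X'] [Module k X'] [FiniteDimensional k X']
      (σ : Module.End k X) (σ' : Module.End k X'), finrank k X = n →
      aeval σ P = 0 → aeval σ' P = 0 → σ.charpoly = σ'.charpoly →
      ∃ e : X ≃ₗ[k] X', ∀ x, e (σ x) = σ' (e x) := by
  intro n
  induction n using Nat.strong_induction_on with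
  | _ n ih =>
    intro X X' _ _ _ _ _ _ σ σ' hn hσ hσ' hchar
    have hdim : finrank k X' = n := by
      rw [← LinearMap.charpoly_natDegree σ', ← hchar, LinearMap.charpoly_natDegree, hn]
    rcases Nat.eq_zero_or_pos n with h0 | hpos
    · -- both spaces are trivial
      subst h0
      have hX : Subsingleton X := Module.finrank_zero_iff.1 hn
      have hX' : Subsingleton X' := Module.finrank_zero_iff.1 hdim
      exact ⟨LinearEquiv.ofFinrankEq X X' (hn.trans hdim.symm), fun x => Subsingleton.elim _ _⟩
    · -- an irreducible factor of the characteristic polynomial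
      have hnu : ¬ IsUnit σ.charpoly := by
        intro hu
        have := Polynomial.natDegree_eq_zero_of_isUnit hu
        rw [LinearMap.charpoly_natDegree, hn] at this
        omega
      obtain ⟨f, hf, hfd⟩ := WfDvdMonoid.exists_irreducible_factor hnu
        (LinearMap.charpoly_monic σ).ne_zero
      obtain ⟨v, hv, hfv⟩ := exists_ne_zero_of_irreducible_dvd_charpoly σ hf hfd
      obtain ⟨v', hv', hfv'⟩ := exists_ne_zero_of_irreducible_dvd_charpoly σ' hf (hchar ▸ hfd)
      -- the cyclic submodules and their complements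
      obtain ⟨eW, heW⟩ := exists_cyclic_equiv σ σ' hf hv hfv hv' hfv'
      have hss : σ.IsSemisimple := Module.End.isSemisimple_of_squarefree_aeval_eq_zero hP hσ
      have hss' : σ'.IsSemisimple := Module.End.isSemisimple_of_squarefree_aeval_eq_zero hP hσ'
      have hWi := range_orbMap_invariant σ v
      have hWi' := range_orbMap_invariant σ' v'
      obtain ⟨C, hCi, hcompl⟩ := Module.End.isSemisimple_iff.1 hss _
        ((Module.End.mem_invtSubmodule σ).2 fun x hx => hWi x hx)
      obtain ⟨C', hCi', hcompl'⟩ := Module.End.isSemisimple_iff.1 hss' _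
        ((Module.End.mem_invtSubmodule σ').2 fun x hx => hWi' x hx)
      have hC : ∀ x ∈ C, σ x ∈ C := fun x hx => (Module.End.mem_invtSubmodule σ).1 hCi hx
      have hC' : ∀ x ∈ C', σ' x ∈ C' := fun x hx => (Module.End.mem_invtSubmodule σ').1 hCi' hx
      -- characteristic polynomials of the complements
      have hcW : (σ.restrict hWi).charpoly = (σ'.restrict hWi').charpoly := by
        have h1 : eW.conj (σ.restrict hWi) = σ'.restrict hWi' := by
          refine LinearMap.ext fun w => ?_
          rw [LinearEquiv.conj_apply_apply]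
          apply Subtype.ext
          have h2 := heW (eW.symm w)
          rw [eW.apply_symm_apply] at h2
          exact h2
        rw [← h1, LinearEquiv.charpoly_conj]
      have hcC : (σ.restrict hC).charpoly = (σ'.restrict hC').charpoly := by
        have h1 := charpoly_eq_mul_of_isCompl σ hcompl hWi hC
        have h2 := charpoly_eq_mul_of_isCompl σ' hcompl' hWi' hC'
        rw [hchar, h2, hcW] at h1
        exact (mul_left_cancel₀ (LinearMap.charpoly_monic _).ne_zero h1).symm
      -- the dimension drops
      have hWpos : 0 < finrank k ↥(LinearMap.range (orbMap σ v)) := by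
        rw [Module.finrank_pos_iff_exists_ne_zero]
        exact ⟨⟨v, self_mem_range_orbMap σ v⟩, fun h => hv (congrArg Subtype.val h)⟩
      have hsum : finrank k ↥(LinearMap.range (orbMap σ v)) + finrank k ↥C = n := by
        rw [← hn]
        exact Submodule.finrank_add_eq_of_isCompl hcompl
      obtain ⟨eC, heC⟩ := ih (finrank k ↥C) (by omega) ↥C ↥C' (σ.restrict hC) (σ'.restrict hC')
        rfl (aeval_restrict_eq_zero σ hC hσ) (aeval_restrict_eq_zero σ' hC' hσ') hcC
      exact glue_equiv σ σ' hcompl hcompl' hWi hC eW eC heW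
        (fun c => congrArg Subtype.val (heC c))

end Main

end Fermat.Agent.P1.helper21
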