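import Mathlib
import Fermat.Agent.P1.helper24_ArtDefs

/-!
# P1 (S56), module EC, package ART-LAT, part A: the lattice lemma (helper24)

`Γ` a group, `p` a prime, `h : Rep (ZMod p) Γ → ℤ` invariant under isomorphisms and additive.
For an `ℤ[Γ]`-module `L` put `red L = L / pL`.

* `pRep Q hp`  : the representation of `Γ` over `𝔽_p` on an `ℤ[Γ]`-module killed by `p`;
* `h_red_eq_of_injective` : **the lattice lemma**: an injective `ℤ[Γ]`-linear map `L₁ → L₂` of
  finitely generated `ℤ`-modules without `p`-torsion, with finite cokernel, gives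
  `h (red L₁) = h (red L₂)`.
-/

set_option autoImplicit false
set_option linter.style.haveILetI false
set_option linter.unusedSectionVars false

noncomputable section

namespace Fermat.Agent.P1.helper24

open scoped MonoidAlgebra

section Basic

variable (p : ℕ) [Fact p.Prime] (Γ : Type) [Group Γ]

/-- the representation of `Γ` on an `ℤ[Γ]`-module which is an `𝔽_p`-vector space -/
def pRepn (Q : Type) [AddCommGroup Q] [Module (MonoidAlgebra ℤ Γ) Q] [Module (ZMod p) Q] :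
    Representation (ZMod p) Γ Q where
  toFun γ := AddMonoidHom.toZModLinearMap p
    (DistribSMul.toAddMonoidHom Q (MonoidAlgebra.of ℤ Γ γ))
  map_one' := by
    ext x
    change MonoidAlgebra.of ℤ Γ 1 • x = x
    rw [map_one, one_smul]
  map_mul' a b := by
    ext x
    change MonoidAlgebra.of ℤ Γ (a * b) • x =
      MonoidAlgebra.of ℤ Γ a • MonoidAlgebra.of ℤ Γ b • x
    rw [map_mul, mul_smul]

@[simp] lemma pRepn_apply (Q : Type) [AddCommGroup Q] [Module (MonoidAlgebra ℤ Γ) Q]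
    [Module (ZMod p) Q] (γ : Γ) (x : Q) :
    pRepn p Γ Q γ x = MonoidAlgebra.of ℤ Γ γ • x := rfl

/-- the bundled representation over `𝔽_p` on an `ℤ[Γ]`-module killed by `p` -/
def pRep (Q : Type) [AddCommGroup Q] [Module (MonoidAlgebra ℤ Γ) Q] (hp : ∀ x : Q, p • x = 0) :
    Rep.{0} (ZMod p) Γ :=
  letI : Module (ZMod p) Q := AddCommGroup.zmodModule hp
  Rep.of (pRepn p Γ Q)

end Basic

section HLemmas

variable {p : ℕ} [Fact p.Prime] {Γ : Type} [Group Γ] {h : Rep.{0} (ZMod p) Γ → ℤ}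

/-- `h` is invariant under additive equivariant bijections -/
lemma h_eq_of_addHom (hiso : RepIsoInv h) (A B : Rep.{0} (ZMod p) Γ) [Finite A]
    (e : A →+ B) (he : Function.Bijective e) (hcomm : ∀ s a, e (A.ρ s a) = B.ρ s (e a)) :
    h A = h B :=
  hiso A B (AddMonoidHom.toZModLinearMap p e) hcomm he Module.Finite.of_finite

/-- `h` is additive on short exact sequences of additive equivariant maps -/
lemma h_add_of_addHom (hadd : RepExtAdd h) (A₁ A A₂ : Rep.{0} (ZMod p) Γ) [Finite A]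
    (i : A₁ →+ A) (q : A →+ A₂) (hi : ∀ s a, i (A₁.ρ s a) = A.ρ s (i a))
    (hq : ∀ s a, q (A.ρ s a) = A₂.ρ s (q a)) (hinj : Function.Injective i)
    (hsurj : Function.Surjective q) (hex : ∀ a, q a = 0 ↔ ∃ a₁, i a₁ = a) :
    h A = h A₁ + h A₂ := by
  refine hadd A₁ A A₂ (AddMonoidHom.toZModLinearMap p i) (AddMonoidHom.toZModLinearMap p q)
    hi hq hinj hsurj ?_ Module.Finite.of_finite
  ext a
  rw [LinearMap.mem_range, LinearMap.mem_ker]
  exact (hex a).symm

variable (p Γ) in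
/-- `h ∘ pRep` is invariant under `ℤ[Γ]`-linear bijections -/
lemma h_pRep_eq (hiso : RepIsoInv h) {Q₁ Q₂ : Type} [AddCommGroup Q₁]
    [Module (MonoidAlgebra ℤ Γ) Q₁] [AddCommGroup Q₂] [Module (MonoidAlgebra ℤ Γ) Q₂]
    [Finite Q₁] (hp₁ : ∀ x : Q₁, p • x = 0) (hp₂ : ∀ x : Q₂, p • x = 0)
    (e : Q₁ →ₗ[MonoidAlgebra ℤ Γ] Q₂) (he : Function.Bijective e) :
    h (pRep p Γ Q₁ hp₁) = h (pRep p Γ Q₂ hp₂) := by
  haveI : Finite (pRep p Γ Q₁ hp₁) := ‹Finite Q₁›
  exact h_eq_of_addHom hiso (pRep p Γ Q₁ hp₁) (pRep p Γ Q₂ hp₂) e.toAddMonoidHom he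
    (fun s a => e.map_smul (MonoidAlgebra.of ℤ Γ s) a)

variable (p Γ) in
/-- `h ∘ pRep` is additive on short exact sequences of `ℤ[Γ]`-modules -/
lemma h_pRep_add (hadd : RepExtAdd h) {Q₁ Q Q₂ : Type} [AddCommGroup Q₁]
    [Module (MonoidAlgebra ℤ Γ) Q₁] [AddCommGroup Q] [Module (MonoidAlgebra ℤ Γ) Q]
    [AddCommGroup Q₂] [Module (MonoidAlgebra ℤ Γ) Q₂] [Finite Q]
    (hp₁ : ∀ x : Q₁, p • x = 0) (hp : ∀ x : Q, p • x = 0) (hp₂ : ∀ x : Q₂, p • x = 0)
    (i : Q₁ →ₗ[MonoidAlgebra ℤ Γ] Q) (q : Q →ₗ[MonoidAlgebra ℤ Γ] Q₂)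
    (hinj : Function.Injective i) (hsurj : Function.Surjective q)
    (hex : LinearMap.range i = LinearMap.ker q) :
    h (pRep p Γ Q hp) = h (pRep p Γ Q₁ hp₁) + h (pRep p Γ Q₂ hp₂) := by
  haveI : Finite (pRep p Γ Q hp) := ‹Finite Q›
  refine h_add_of_addHom hadd (pRep p Γ Q₁ hp₁) (pRep p Γ Q hp) (pRep p Γ Q₂ hp₂)
    i.toAddMonoidHom q.toAddMonoidHom
    (fun s a => i.map_smul (MonoidAlgebra.of ℤ Γ s) a)
    (fun s a => q.map_smul (MonoidAlgebra.of ℤ Γ s) a) hinj hsurj ?_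
  intro a
  have : a ∈ LinearMap.ker q ↔ a ∈ LinearMap.range i := by rw [hex]
  exact this

end HLemmas

section KC

variable {p : ℕ} [Fact p.Prime] {Γ : Type} [Group Γ] {h : Rep.{0} (ZMod p) Γ → ℤ}

lemma hp_sub {Q : Type} [AddCommGroup Q] [Module (MonoidAlgebra ℤ Γ) Q]
    (hp : ∀ x : Q, p • x = 0) (S : Submodule (MonoidAlgebra ℤ Γ) Q) : ∀ x : ↥S, p • x = 0 := by
  intro x
  apply Subtype.ext
  rw [Submodule.coe_smul_of_tower, hp, Submodule.coe_zero]

lemma hp_quot {Q : Type} [AddCommGroup Q] [Module (MonoidAlgebra ℤ Γ) Q]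
    (hp : ∀ x : Q, p • x = 0) (S : Submodule (MonoidAlgebra ℤ Γ) Q) :
    ∀ x : Q ⧸ S, p • x = 0 := by
  intro x
  obtain ⟨y, rfl⟩ := Submodule.mkQ_surjective S x
  rw [← map_nsmul, hp, map_zero]

/-- a map of finite modules with isomorphic kernel and cokernel has `h (source) = h (target)` -/
lemma h_pRep_eq_of_ker_coker (hiso : RepIsoInv h) (hadd : RepExtAdd h) {M M' : Type}
    [AddCommGroup M] [Module (MonoidAlgebra ℤ Γ) M] [AddCommGroup M']
    [Module (MonoidAlgebra ℤ Γ) M'] [Finite M] [Finite M']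
    (hpM : ∀ x : M, p • x = 0) (hpM' : ∀ x : M', p • x = 0)
    (φ : M →ₗ[MonoidAlgebra ℤ Γ] M')
    (e : ↥(LinearMap.ker φ) ≃ₗ[MonoidAlgebra ℤ Γ] (M' ⧸ LinearMap.range φ)) :
    h (pRep p Γ M hpM) = h (pRep p Γ M' hpM') := by
  have h1 := h_pRep_add p Γ hadd (hp_sub hpM (LinearMap.ker φ)) hpM
    (hp_sub hpM' (LinearMap.range φ)) (LinearMap.ker φ).subtype φ.rangeRestrict
    (Submodule.injective_subtype _) φ.surjective_rangeRestrict
    (by rw [Submodule.range_subtype, LinearMap.ker_rangeRestrict])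
  have h2 := h_pRep_add p Γ hadd (hp_sub hpM' (LinearMap.range φ)) hpM'
    (hp_quot hpM' (LinearMap.range φ)) (LinearMap.range φ).subtype (LinearMap.range φ).mkQ
    (Submodule.injective_subtype _) (Submodule.mkQ_surjective _)
    (by rw [Submodule.range_subtype, Submodule.ker_mkQ])
  have h3 := h_pRep_eq p Γ hiso (hp_sub hpM (LinearMap.ker φ))
    (hp_quot hpM' (LinearMap.range φ)) e.toLinearMap e.bijective
  omega

end KC

section Red

variable (p : ℕ) [Fact p.Prime] (Γ : Type) [Group Γ]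

/-- multiplication by `p` as an `ℤ[Γ]`-linear map -/
def mulP (L : Type) [AddCommGroup L] [Module (MonoidAlgebra ℤ Γ) L] :
    L →ₗ[MonoidAlgebra ℤ Γ] L where
  toFun x := p • x
  map_add' x y := smul_add p x y
  map_smul' r x := (smul_comm r p x).symm

@[simp] lemma mulP_apply (L : Type) [AddCommGroup L] [Module (MonoidAlgebra ℤ Γ) L] (x : L) :
    mulP p Γ L x = p • x := rfl

/-- `L / pL` -/
abbrev red (L : Type) [AddCommGroup L] [Module (MonoidAlgebra ℤ Γ) L] : Type :=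
  L ⧸ LinearMap.range (mulP p Γ L)

lemma hp_red (L : Type) [AddCommGroup L] [Module (MonoidAlgebra ℤ Γ) L] :
    ∀ x : red p Γ L, p • x = 0 := by
  intro x
  obtain ⟨y, rfl⟩ := Submodule.mkQ_surjective (LinearMap.range (mulP p Γ L)) x
  rw [← map_nsmul, Submodule.mkQ_apply, Submodule.Quotient.mk_eq_zero]
  exact ⟨y, rfl⟩

lemma finite_of_killed {p : ℕ} (hp0 : p ≠ 0) (Q : Type) [AddCommGroup Q] [Module.Finite ℤ Q]
    (hp : ∀ x : Q, p • x = 0) : Finite Q := by
  refine Module.finite_of_fg_torsion Q ?_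
  intro x
  refine ⟨⟨(p : ℤ), ?_⟩, ?_⟩
  · rw [mem_nonZeroDivisors_iff_ne_zero]
    exact_mod_cast hp0
  · rw [Submonoid.mk_smul, natCast_zsmul]
    exact hp x

lemma moduleFinite_quot (L : Type) [AddCommGroup L] [Module (MonoidAlgebra ℤ Γ) L]
    [Module.Finite ℤ L] (S : Submodule (MonoidAlgebra ℤ Γ) L) : Module.Finite ℤ (L ⧸ S) :=
  Module.Finite.of_surjective (S.mkQ.restrictScalars ℤ) (Submodule.mkQ_surjective _)

lemma finite_red (L : Type) [AddCommGroup L] [Module (MonoidAlgebra ℤ Γ) L]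
    [Module.Finite ℤ L] : Finite (red p Γ L) := by
  have hp : p.Prime := Fact.out
  haveI : Module.Finite ℤ (red p Γ L) := moduleFinite_quot Γ L _
  exact finite_of_killed hp.ne_zero _ (hp_red p Γ L)

end Red

section Pair

variable {p : ℕ} [Fact p.Prime] {Γ : Type} [Group Γ] {h : Rep.{0} (ZMod p) Γ → ℤ}

/-- **Pair lemma**: for a submodule `pL ≤ L₃ ≤ L` of a module without `p`-torsion,
`h (L₃ / pL₃) = h (L / pL)`. -/
lemma h_red_sub (hiso : RepIsoInv h) (hadd : RepExtAdd h) (L : Type) [AddCommGroup L]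
    [Module (MonoidAlgebra ℤ Γ) L] [Module.Finite ℤ L] (htf : ∀ x : L, p • x = 0 → x = 0)
    (L₃ : Submodule (MonoidAlgebra ℤ Γ) L) [Module.Finite ℤ ↥L₃] (hL₃ : ∀ x : L, p • x ∈ L₃) :
    h (pRep p Γ (red p Γ ↥L₃) (hp_red p Γ ↥L₃)) = h (pRep p Γ (red p Γ L) (hp_red p Γ L)) := by
  have hp : p.Prime := Fact.out
  haveI := finite_red p Γ L
  haveI := finite_red p Γ ↥L₃
  have hle : LinearMap.range (mulP p Γ ↥L₃) ≤
      (LinearMap.range (mulP p Γ L)).comap L₃.subtype := by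
    rintro _ ⟨z, rfl⟩
    exact ⟨(z : L), rfl⟩
  set φ : red p Γ ↥L₃ →ₗ[MonoidAlgebra ℤ Γ] red p Γ L :=
    Submodule.mapQ _ _ L₃.subtype hle with hφ
  have hφmk : ∀ y : ↥L₃, φ (Submodule.Quotient.mk y) = Submodule.Quotient.mk (y : L) :=
    fun y => rfl
  -- the map `x ↦ [p x]` onto the kernel
  set θ₀ : L →ₗ[MonoidAlgebra ℤ Γ] ↥L₃ := (mulP p Γ L).codRestrict L₃ hL₃ with hθ₀
  set θ₁ : L →ₗ[MonoidAlgebra ℤ Γ] red p Γ ↥L₃ :=
    (LinearMap.range (mulP p Γ ↥L₃)).mkQ ∘ₗ θ₀ with hθ₁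
  have hθ : ∀ x, θ₁ x ∈ LinearMap.ker φ := by
    intro x
    rw [LinearMap.mem_ker]
    change φ (Submodule.Quotient.mk (θ₀ x)) = 0
    rw [hφmk, Submodule.Quotient.mk_eq_zero]
    exact ⟨x, rfl⟩
  set a : L →ₗ[MonoidAlgebra ℤ Γ] ↥(LinearMap.ker φ) := θ₁.codRestrict _ hθ with ha
  have hasurj : Function.Surjective a := by
    rintro ⟨z, hz⟩
    obtain ⟨y, rfl⟩ := Submodule.mkQ_surjective _ z
    rw [LinearMap.mem_ker, Submodule.mkQ_apply, hφmk, Submodule.Quotient.mk_eq_zero] at hz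
    obtain ⟨x, hx⟩ := hz
    refine ⟨x, Subtype.ext ?_⟩
    change Submodule.Quotient.mk (θ₀ x) = Submodule.Quotient.mk y
    congr 1
    exact Subtype.ext hx
  have hka : LinearMap.ker a = L₃ := by
    ext x
    rw [LinearMap.mem_ker]
    constructor
    · intro hx
      have h1 : θ₁ x = 0 := congrArg Subtype.val hx
      change Submodule.Quotient.mk (θ₀ x) = 0 at h1
      rw [Submodule.Quotient.mk_eq_zero] at h1
      obtain ⟨z, hz⟩ := h1
      have h2 : p • (z : L) = p • x := congrArg Subtype.val hz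
      have h3 : p • ((z : L) - x) = 0 := by rw [smul_sub, h2, sub_self]
      have h4 := htf _ h3
      rw [sub_eq_zero] at h4
      rw [← h4]
      exact z.2
    · intro hx
      apply Subtype.ext
      change Submodule.Quotient.mk (θ₀ x) = 0
      rw [Submodule.Quotient.mk_eq_zero]
      exact ⟨⟨x, hx⟩, Subtype.ext rfl⟩
  -- the map onto the cokernel
  set b : L →ₗ[MonoidAlgebra ℤ Γ] (red p Γ L ⧸ LinearMap.range φ) :=
    (LinearMap.range φ).mkQ ∘ₗ (LinearMap.range (mulP p Γ L)).mkQ with hb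
  have hbsurj : Function.Surjective b :=
    (Submodule.mkQ_surjective _).comp (Submodule.mkQ_surjective _)
  have hkb : LinearMap.ker b = L₃ := by
    ext x
    rw [LinearMap.mem_ker]
    change Submodule.Quotient.mk (Submodule.Quotient.mk x) = 0 ↔ _
    rw [Submodule.Quotient.mk_eq_zero, LinearMap.mem_range]
    constructor
    · rintro ⟨y, hy⟩
      obtain ⟨y₀, rfl⟩ := Submodule.mkQ_surjective _ y
      rw [Submodule.mkQ_apply, hφmk, Submodule.Quotient.eq] at hy
      obtain ⟨w, hw⟩ := hy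
      have h1 : x = (y₀ : L) - p • w := by
        change p • w = (y₀ : L) - x at hw
        rw [hw]
        abel
      rw [h1]
      exact L₃.sub_mem y₀.2 (hL₃ w)
    · intro hx
      exact ⟨Submodule.Quotient.mk ⟨x, hx⟩, rfl⟩
  exact h_pRep_eq_of_ker_coker hiso hadd (hp_red p Γ ↥L₃) (hp_red p Γ L) φ
    ((a.quotKerEquivOfSurjective hasurj).symm ≪≫ₗ
      Submodule.quotEquivOfEq _ _ (hka.trans hkb.symm) ≪≫ₗ
      b.quotKerEquivOfSurjective hbsurj)

end Pair

section Lattice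

variable {p : ℕ} [Fact p.Prime] {Γ : Type} [Group Γ] {h : Rep.{0} (ZMod p) Γ → ℤ}

/-- the case of a cokernel of order prime to `p` -/
lemma h_red_eq_of_sup_eq_top (hiso : RepIsoInv h) (L₁ L₂ : Type) [AddCommGroup L₁]
    [Module (MonoidAlgebra ℤ Γ) L₁] [AddCommGroup L₂] [Module (MonoidAlgebra ℤ Γ) L₂]
    [Module.Finite ℤ L₁] (f : L₁ →ₗ[MonoidAlgebra ℤ Γ] L₂) (hf : Function.Injective f)
    [Finite (L₂ ⧸ LinearMap.range f)]
    (hsup : LinearMap.range f ⊔ LinearMap.range (mulP p Γ L₂) = ⊤) :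
    h (pRep p Γ (red p Γ L₁) (hp_red p Γ L₁)) = h (pRep p Γ (red p Γ L₂) (hp_red p Γ L₂)) := by
  haveI := finite_red p Γ L₁
  have hle : LinearMap.range (mulP p Γ L₁) ≤
      (LinearMap.range (mulP p Γ L₂)).comap f := by
    rintro _ ⟨z, rfl⟩
    exact ⟨f z, by simp⟩
  set φ : red p Γ L₁ →ₗ[MonoidAlgebra ℤ Γ] red p Γ L₂ := Submodule.mapQ _ _ f hle with hφ
  have hφmk : ∀ y : L₁, φ (Submodule.Quotient.mk y) = Submodule.Quotient.mk (f y) :=
    fun y => rfl
  have hdec : ∀ y : L₂, ∃ x w, y = f x + p • w := by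
    intro y
    have hy : y ∈ LinearMap.range f ⊔ LinearMap.range (mulP p Γ L₂) := by
      rw [hsup]
      exact Submodule.mem_top
    obtain ⟨_, ⟨x, rfl⟩, _, ⟨w, rfl⟩, rfl⟩ := Submodule.mem_sup.mp hy
    exact ⟨x, w, rfl⟩
  -- multiplication by `p` is bijective on the cokernel
  have hm : Function.Injective (mulP p Γ (L₂ ⧸ LinearMap.range f)) := by
    rw [Finite.injective_iff_surjective]
    intro z
    obtain ⟨y, rfl⟩ := Submodule.mkQ_surjective _ z
    obtain ⟨x, w, rfl⟩ := hdec y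
    refine ⟨Submodule.Quotient.mk w, ?_⟩
    rw [mulP_apply, Submodule.mkQ_apply, Submodule.Quotient.mk_add,
      (Submodule.Quotient.mk_eq_zero _).2 (LinearMap.mem_range_self f x), zero_add]
    exact (map_nsmul (LinearMap.range f).mkQ p w).symm
  refine h_pRep_eq p Γ hiso (hp_red p Γ L₁) (hp_red p Γ L₂) φ ⟨?_, ?_⟩
  · rw [← LinearMap.ker_eq_bot, LinearMap.ker_eq_bot']
    intro z hz
    obtain ⟨x, rfl⟩ := Submodule.mkQ_surjective _ z
    rw [Submodule.mkQ_apply, hφmk, Submodule.Quotient.mk_eq_zero] at hz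
    obtain ⟨y, hy⟩ := hz
    rw [mulP_apply] at hy
    have h1 : mulP p Γ (L₂ ⧸ LinearMap.range f) (Submodule.Quotient.mk y) =
        mulP p Γ (L₂ ⧸ LinearMap.range f) 0 := by
      rw [map_zero, mulP_apply]
      have : p • (Submodule.Quotient.mk y : L₂ ⧸ LinearMap.range f) =
          Submodule.Quotient.mk (p • y) := (map_nsmul (LinearMap.range f).mkQ p y).symm
      rw [this, hy, Submodule.Quotient.mk_eq_zero]
      exact LinearMap.mem_range_self f x
    have h2 := hm h1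
    rw [Submodule.Quotient.mk_eq_zero] at h2
    obtain ⟨x', rfl⟩ := h2
    have h3 : f (p • x') = f x := by rw [map_nsmul, hy]
    have h4 := hf h3
    rw [Submodule.mkQ_apply, Submodule.Quotient.mk_eq_zero]
    exact ⟨x', h4⟩
  · intro z
    obtain ⟨y, rfl⟩ := Submodule.mkQ_surjective _ z
    obtain ⟨x, w, rfl⟩ := hdec y
    refine ⟨Submodule.Quotient.mk x, ?_⟩
    rw [hφmk, Submodule.mkQ_apply, Submodule.Quotient.mk_add]
    have : (Submodule.Quotient.mk (p • w) : red p Γ L₂) = 0 := by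
      rw [Submodule.Quotient.mk_eq_zero]
      exact ⟨w, rfl⟩
    rw [this, add_zero]

lemma moduleFinite_sub (L : Type) [AddCommGroup L] [Module (MonoidAlgebra ℤ Γ) L]
    [Module.Finite ℤ L] (S : Submodule (MonoidAlgebra ℤ Γ) L) : Module.Finite ℤ ↥S := by
  haveI : IsNoetherian ℤ L := isNoetherian_of_isNoetherianRing_of_finite ℤ L
  have h1 : Module.Finite ℤ ↥(S.restrictScalars ℤ) := inferInstance
  exact Module.Finite.equiv
    (AddEquiv.toIntLinearEquiv (Submodule.restrictScalarsEquiv ℤ (MonoidAlgebra ℤ Γ) L S).toAddEquiv)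

/-- **The lattice lemma** (induction on the order of the cokernel). -/
theorem h_red_eq_of_injective_aux (hiso : RepIsoInv h) (hadd : RepExtAdd h) :
    ∀ (n : ℕ) (L₁ L₂ : Type) [AddCommGroup L₁] [Module (MonoidAlgebra ℤ Γ) L₁]
      [AddCommGroup L₂] [Module (MonoidAlgebra ℤ Γ) L₂] [Module.Finite ℤ L₁]
      [Module.Finite ℤ L₂] (_ : ∀ x : L₂, p • x = 0 → x = 0)
      (f : L₁ →ₗ[MonoidAlgebra ℤ Γ] L₂) (_ : Function.Injective f)
      [Finite (L₂ ⧸ LinearMap.range f)], Nat.card (L₂ ⧸ LinearMap.range f) = n →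
      h (pRep p Γ (red p Γ L₁) (hp_red p Γ L₁)) =
        h (pRep p Γ (red p Γ L₂) (hp_red p Γ L₂)) := by
  intro n
  induction n using Nat.strong_induction_on with
  | _ n ih =>
    intro L₁ L₂ _ _ _ _ _ _ htf f hf _ hn
    by_cases hsup : LinearMap.range f ⊔ LinearMap.range (mulP p Γ L₂) = ⊤
    · exact h_red_eq_of_sup_eq_top hiso L₁ L₂ f hf hsup
    · set L₃ : Submodule (MonoidAlgebra ℤ Γ) L₂ :=
        LinearMap.range f ⊔ LinearMap.range (mulP p Γ L₂) with hL₃
      haveI : Module.Finite ℤ ↥L₃ := moduleFinite_sub L₂ L₃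
      have hfL₃ : ∀ x, f x ∈ L₃ := fun x => le_sup_left (a := LinearMap.range f)
        (LinearMap.mem_range_self f x)
      have hpL₃ : ∀ x : L₂, p • x ∈ L₃ := fun x =>
        le_sup_right (a := LinearMap.range f) (b := LinearMap.range (mulP p Γ L₂)) ⟨x, rfl⟩
      set f₃ : L₁ →ₗ[MonoidAlgebra ℤ Γ] ↥L₃ := f.codRestrict L₃ hfL₃ with hf₃
      have hf₃inj : Function.Injective f₃ := by
        intro x y hxy
        exact hf (congrArg Subtype.val hxy)
      have hle : LinearMap.range f₃ ≤ (LinearMap.range f).comap L₃.subtype := by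
        rintro _ ⟨x, rfl⟩
        exact ⟨x, rfl⟩
      set ι : (↥L₃ ⧸ LinearMap.range f₃) →ₗ[MonoidAlgebra ℤ Γ] (L₂ ⧸ LinearMap.range f) :=
        Submodule.mapQ _ _ L₃.subtype hle with hι
      have hιinj : Function.Injective ι := by
        rw [← LinearMap.ker_eq_bot, LinearMap.ker_eq_bot']
        intro z hz
        obtain ⟨y, rfl⟩ := Submodule.mkQ_surjective _ z
        change Submodule.Quotient.mk (y : L₂) = 0 at hz
        rw [Submodule.Quotient.mk_eq_zero] at hz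
        obtain ⟨x, hx⟩ := hz
        rw [Submodule.mkQ_apply, Submodule.Quotient.mk_eq_zero]
        exact ⟨x, Subtype.ext hx⟩
      have hιsurj : ¬ Function.Surjective ι := by
        intro hs
        apply hsup
        rw [eq_top_iff]
        intro z _
        obtain ⟨w, hw⟩ := hs (Submodule.Quotient.mk z)
        obtain ⟨y, rfl⟩ := Submodule.mkQ_surjective _ w
        change Submodule.Quotient.mk (y : L₂) = Submodule.Quotient.mk z at hw
        rw [Submodule.Quotient.eq] at hw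
        have h1 : z = (y : L₂) - ((y : L₂) - z) := by abel
        rw [h1]
        exact L₃.sub_mem y.2 (le_sup_left (a := LinearMap.range f) hw)
      haveI : Finite (↥L₃ ⧸ LinearMap.range f₃) := Finite.of_injective ι hιinj
      have hlt : Nat.card (↥L₃ ⧸ LinearMap.range f₃) < n := by
        rw [← hn]
        letI := Fintype.ofFinite (↥L₃ ⧸ LinearMap.range f₃)
        letI := Fintype.ofFinite (L₂ ⧸ LinearMap.range f)
        rw [Nat.card_eq_fintype_card, Nat.card_eq_fintype_card]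
        exact Fintype.card_lt_of_injective_not_surjective ι hιinj hιsurj
      have htf₃ : ∀ x : ↥L₃, p • x = 0 → x = 0 := by
        intro x hx
        apply Subtype.ext
        apply htf
        have := congrArg Subtype.val hx
        simpa using this
      have e1 := ih _ hlt L₁ ↥L₃ htf₃ f₃ hf₃inj rfl
      have e2 := h_red_sub hiso hadd L₂ htf L₃ hpL₃
      rw [e1, e2]

/-- **The lattice lemma**: an injective `ℤ[Γ]`-linear map `L₁ → L₂` of finitely generated
`ℤ`-modules, `L₂` without `p`-torsion, with finite cokernel, gives `h (L₁/p) = h (L₂/p)`. -/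
theorem h_red_eq_of_injective (hiso : RepIsoInv h) (hadd : RepExtAdd h) (L₁ L₂ : Type)
    [AddCommGroup L₁] [Module (MonoidAlgebra ℤ Γ) L₁] [AddCommGroup L₂]
    [Module (MonoidAlgebra ℤ Γ) L₂] [Module.Finite ℤ L₁] [Module.Finite ℤ L₂]
    (htf : ∀ x : L₂, p • x = 0 → x = 0) (f : L₁ →ₗ[MonoidAlgebra ℤ Γ] L₂)
    (hf : Function.Injective f) [Finite (L₂ ⧸ LinearMap.range f)] :
    h (pRep p Γ (red p Γ L₁) (hp_red p Γ L₁)) = h (pRep p Γ (red p Γ L₂) (hp_red p Γ L₂)) :=
  h_red_eq_of_injective_aux hiso hadd _ L₁ L₂ htf f hf rfl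

end Lattice

end Fermat.Agent.P1.helper24
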