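import Mathlib
import Fermat.Agent.P1.helper24_ArtLatA

/-!
# P1 (S56), module EC, package ART-LAT, part B: permutation lattices (helper24)

* `funRepn Γ X`     : the permutation representation of `Γ` on `X → ℤ`;
* `funLat Γ X`      : the same as an `ℤ[Γ]`-module;
* `h_red_funLat`    : `h (funLat X / p) = h (𝔽_p[X])`;
* `artLat`          : **[ART-LAT]** `ArtLatStatement`.
-/

set_option autoImplicit false
set_option linter.style.haveILetI false
set_option linter.unusedSectionVars false

noncomputable section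

namespace Fermat.Agent.P1.helper24

open scoped MonoidAlgebra

section FunLat

variable (Γ : Type) [Group Γ] (X : Type) [MulAction Γ X]

/-- the permutation representation on `X → ℤ`: `(g v)(x) = v (g⁻¹ x)` -/
def funRepn : Representation ℤ Γ (X → ℤ) where
  toFun g :=
    { toFun := fun v x => v (g⁻¹ • x)
      map_add' := fun _ _ => rfl
      map_smul' := fun _ _ => rfl }
  map_one' := by
    ext v x
    simp
  map_mul' a b := by
    ext v x
    simp [mul_smul]

@[simp] lemma funRepn_apply (g : Γ) (v : X → ℤ) (x : X) : funRepn Γ X g v x = v (g⁻¹ • x) := rfl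

/-- the permutation lattice `ℤ^X` as an `ℤ[Γ]`-module -/
abbrev funLat : Type := (funRepn Γ X).asModule

/-- the underlying function of an element of the permutation lattice -/
def funLat.val {Γ : Type} [Group Γ] {X : Type} [MulAction Γ X] (v : funLat Γ X) : X → ℤ :=
  (funRepn Γ X).asModuleEquiv v

/-- an element of the permutation lattice from a function -/
def funLat.mk {Γ : Type} [Group Γ] {X : Type} [MulAction Γ X] (v : X → ℤ) : funLat Γ X :=
  (funRepn Γ X).asModuleEquiv.symm v

lemma funLat.val_mk {Γ : Type} [Group Γ] {X : Type} [MulAction Γ X] (v : X → ℤ) :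
    (funLat.mk (Γ := Γ) v).val = v := rfl

lemma funLat.mk_val {Γ : Type} [Group Γ] {X : Type} [MulAction Γ X] (v : funLat Γ X) :
    funLat.mk v.val = v := rfl

lemma funLat.val_add {Γ : Type} [Group Γ] {X : Type} [MulAction Γ X] (v w : funLat Γ X) :
    (v + w).val = v.val + w.val := rfl

lemma funLat.val_zero {Γ : Type} [Group Γ] {X : Type} [MulAction Γ X] :
    (0 : funLat Γ X).val = 0 := rfl

lemma funLat.val_injective {Γ : Type} [Group Γ] {X : Type} [MulAction Γ X] :
    Function.Injective (funLat.val (Γ := Γ) (X := X)) :=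
  (funRepn Γ X).asModuleEquiv.injective

lemma funLat.val_nsmul {Γ : Type} [Group Γ] {X : Type} [MulAction Γ X] (n : ℕ)
    (v : funLat Γ X) : (n • v).val = n • v.val :=
  map_nsmul (funRepn Γ X).asModuleEquiv.toAddMonoidHom n v

lemma funLat.val_of_smul {Γ : Type} [Group Γ] {X : Type} [MulAction Γ X] (g : Γ)
    (v : funLat Γ X) (x : X) : (MonoidAlgebra.of ℤ Γ g • v).val x = v.val (g⁻¹ • x) := by
  have h1 := Representation.single_smul (funRepn Γ X) (1 : ℤ) g v
  rw [one_smul] at h1
  have h2 : MonoidAlgebra.of ℤ Γ g = MonoidAlgebra.single g (1 : ℤ) := rfl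
  rw [h2]
  exact congrFun (congrArg funLat.val h1) x

lemma moduleFinite_funLat [Finite X] : Module.Finite ℤ (funLat Γ X) := by
  have h1 : Module.Finite ℤ (X → ℤ) := inferInstance
  exact Module.Finite.equiv
    (AddEquiv.toIntLinearEquiv (funRepn Γ X).asModuleEquiv.symm.toAddEquiv)

lemma funLat_tf {p : ℕ} (hp0 : p ≠ 0) (v : funLat Γ X) (hv : p • v = 0) : v = 0 := by
  apply funLat.val_injective
  have h1 := congrArg funLat.val hv
  rw [funLat.val_nsmul, funLat.val_zero] at h1
  funext x
  have h2 := congrFun h1 x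
  simp only [Pi.smul_apply, Pi.zero_apply, nsmul_eq_mul] at h2
  rcases mul_eq_zero.mp h2 with h3 | h3
  · exact absurd (by exact_mod_cast h3) hp0
  · exact h3

end FunLat

section Psi

variable (p : ℕ) [Fact p.Prime] (Γ : Type) [Group Γ] (X : Type) [MulAction Γ X] [Fintype X]

/-- reduction mod `p` of a function `X → ℤ`, as an element of `𝔽_p[X]` -/
def psi : funLat Γ X →+ MonoidAlgebra (ZMod p) X where
  toFun v := ∑ x, MonoidAlgebra.single x ((v.val x : ℤ) : ZMod p)
  map_zero' := by
    simp [funLat.val_zero]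
  map_add' v w := by
    simp only [funLat.val_add, Pi.add_apply, Int.cast_add, MonoidAlgebra.single_add,
      Finset.sum_add_distrib]

lemma psi_apply (v : funLat Γ X) :
    psi p Γ X v = ∑ x, MonoidAlgebra.single x ((v.val x : ℤ) : ZMod p) := rfl

lemma coeff_psi [DecidableEq X] (v : funLat Γ X) (x : X) :
    (psi p Γ X v).coeff x = ((v.val x : ℤ) : ZMod p) := by
  rw [psi_apply, MonoidAlgebra.coeff_sum, Finsupp.finsetSum_apply]
  simp only [MonoidAlgebra.coeff_single]
  rw [Finset.sum_eq_single x]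
  · exact Finsupp.single_eq_same
  · intro y _ hy
    exact Finsupp.single_eq_of_ne (Ne.symm hy)
  · intro hx
    exact absurd (Finset.mem_univ x) hx

lemma psi_of_smul (g : Γ) (v : funLat Γ X) :
    psi p Γ X (MonoidAlgebra.of ℤ Γ g • v) =
      Representation.ofMulAction (ZMod p) Γ X g (psi p Γ X v) := by
  rw [psi_apply, psi_apply, map_sum]
  simp only [Representation.ofMulAction_single, funLat.val_of_smul]
  exact Fintype.sum_equiv (MulAction.toPerm g⁻¹) _ _ (fun x => by simp)

lemma psi_surjective : Function.Surjective (psi p Γ X) := by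
  classical
  intro z
  induction z using MonoidAlgebra.induction_linear with
  | zero => exact ⟨0, map_zero _⟩
  | add x y hx hy =>
    obtain ⟨a, rfl⟩ := hx
    obtain ⟨b, rfl⟩ := hy
    exact ⟨a + b, map_add _ a b⟩
  | single m r =>
    obtain ⟨n, rfl⟩ := ZMod.intCast_surjective r
    refine ⟨funLat.mk (Pi.single m n), ?_⟩
    rw [psi_apply, Finset.sum_eq_single m]
    · rw [funLat.val_mk, Pi.single_eq_same]
    · intro y _ hy
      rw [funLat.val_mk, Pi.single_eq_of_ne hy, Int.cast_zero, MonoidAlgebra.single_zero]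
    · intro hm
      exact absurd (Finset.mem_univ m) hm

lemma psi_eq_zero_iff (v : funLat Γ X) :
    psi p Γ X v = 0 ↔ ∃ w : funLat Γ X, p • w = v := by
  classical
  constructor
  · intro hv
    have h1 : ∀ x, (p : ℤ) ∣ v.val x := by
      intro x
      have h2 := coeff_psi p Γ X v x
      rw [hv] at h2
      have h3 : ((v.val x : ℤ) : ZMod p) = 0 := by
        rw [← h2]
        rfl
      exact (ZMod.intCast_zmod_eq_zero_iff_dvd _ _).mp h3
    choose w hw using h1
    refine ⟨funLat.mk w, ?_⟩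
    apply funLat.val_injective
    rw [funLat.val_nsmul, funLat.val_mk]
    funext x
    rw [hw x]
    simp
  · rintro ⟨w, rfl⟩
    rw [map_nsmul]
    have : (p : ZMod p) = 0 := ZMod.natCast_self p
    rw [← Nat.cast_smul_eq_nsmul (ZMod p), this, zero_smul]

end Psi

section LiftAdd

/-- additive maps out of a quotient module -/
def liftAdd {R M N : Type*} [Ring R] [AddCommGroup M] [Module R M] [AddCommGroup N]
    (S : Submodule R M) (g : M →+ N) (hg : ∀ x ∈ S, g x = 0) : (M ⧸ S) →+ N where
  toFun q := Quotient.liftOn' q g (fun a b hab => by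
    have h1 : a - b ∈ S := (Submodule.quotientRel_def S).mp hab
    have h2 := hg _ h1
    rw [map_sub, sub_eq_zero] at h2
    exact h2)
  map_zero' := g.map_zero
  map_add' := by
    rintro ⟨a⟩ ⟨b⟩
    exact g.map_add a b

@[simp] lemma liftAdd_mk {R M N : Type*} [Ring R] [AddCommGroup M] [Module R M]
    [AddCommGroup N] (S : Submodule R M) (g : M →+ N) (hg : ∀ x ∈ S, g x = 0) (x : M) :
    liftAdd S g hg (Submodule.Quotient.mk x) = g x := rfl

end LiftAdd

section RedIso

variable {p : ℕ} [Fact p.Prime] {Γ : Type} [Group Γ] {h : Rep.{0} (ZMod p) Γ → ℤ}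

/-- `h (ℤ^X / p) = h (𝔽_p[X])` -/
lemma h_red_funLat (hiso : RepIsoInv h) (X : Type) [MulAction Γ X] [Fintype X] :
    h (pRep p Γ (red p Γ (funLat Γ X)) (hp_red p Γ (funLat Γ X))) =
      h (Rep.ofMulAction (ZMod p) Γ X) := by
  haveI := moduleFinite_funLat Γ X
  haveI : Finite (red p Γ (funLat Γ X)) := finite_red p Γ (funLat Γ X)
  haveI : Finite (pRep p Γ (red p Γ (funLat Γ X)) (hp_red p Γ (funLat Γ X))) :=
    ‹Finite (red p Γ (funLat Γ X))›
  have hker : ∀ x ∈ LinearMap.range (mulP p Γ (funLat Γ X)), psi p Γ X x = 0 := by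
    rintro _ ⟨w, rfl⟩
    exact (psi_eq_zero_iff p Γ X _).2 ⟨w, rfl⟩
  have hinj : Function.Injective (liftAdd _ (psi p Γ X) hker) := by
    rw [injective_iff_map_eq_zero]
    intro z hz
    obtain ⟨v, rfl⟩ := Submodule.mkQ_surjective _ z
    rw [Submodule.mkQ_apply] at hz ⊢
    rw [liftAdd_mk] at hz
    obtain ⟨w, hw⟩ := (psi_eq_zero_iff p Γ X v).1 hz
    rw [Submodule.Quotient.mk_eq_zero]
    exact ⟨w, hw⟩
  have hsurj : Function.Surjective (liftAdd _ (psi p Γ X) hker) := by
    intro z
    obtain ⟨v, rfl⟩ := psi_surjective p Γ X z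
    exact ⟨Submodule.Quotient.mk v, rfl⟩
  have hcomm : ∀ (s : Γ) (a : funLat Γ X ⧸ LinearMap.range (mulP p Γ (funLat Γ X))),
      liftAdd _ (psi p Γ X) hker (MonoidAlgebra.of ℤ Γ s • a) =
        Representation.ofMulAction (ZMod p) Γ X s (liftAdd _ (psi p Γ X) hker a) := by
    intro s a
    obtain ⟨v, rfl⟩ := Submodule.mkQ_surjective _ a
    exact psi_of_smul p Γ X s v
  exact h_eq_of_addHom hiso (pRep p Γ (red p Γ (funLat Γ X)) (hp_red p Γ (funLat Γ X)))
    (Rep.ofMulAction (ZMod p) Γ X) (liftAdd _ (psi p Γ X) hker) ⟨hinj, hsurj⟩ hcomm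

end RedIso

section IntMatrix

/-- clearing denominators in a rational matrix -/
lemma exists_int_matrix {X Y : Type} [Fintype X] [Fintype Y] (M : Matrix Y X ℚ) :
    ∃ (D : ℕ) (N : Matrix Y X ℤ), D ≠ 0 ∧ ∀ y x, ((N y x : ℤ) : ℚ) = (D : ℚ) * M y x := by
  classical
  refine ⟨∏ y, ∏ x, (M y x).den,
    fun y x => (M y x).num * (((∏ y, ∏ x, (M y x).den) / (M y x).den : ℕ) : ℤ), ?_, ?_⟩
  · exact Finset.prod_ne_zero_iff.mpr
      (fun y _ => Finset.prod_ne_zero_iff.mpr (fun x _ => (M y x).den_ne_zero))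
  · intro y x
    have hdvd : (M y x).den ∣ ∏ y, ∏ x, (M y x).den :=
      (Finset.dvd_prod_of_mem (fun x => (M y x).den) (Finset.mem_univ x)).trans
        (Finset.dvd_prod_of_mem (fun y => ∏ x, (M y x).den) (Finset.mem_univ y))
    have hden : ((M y x).den : ℚ) ≠ 0 := by exact_mod_cast (M y x).den_ne_zero
    rw [Int.cast_mul, Int.cast_natCast, Nat.cast_div hdvd hden]
    calc ((M y x).num : ℚ) * (((∏ y, ∏ x, (M y x).den : ℕ) : ℚ) / (M y x).den)
        = ((∏ y, ∏ x, (M y x).den : ℕ) : ℚ) * (((M y x).num : ℚ) / (M y x).den) := by ring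
      _ = ((∏ y, ∏ x, (M y x).den : ℕ) : ℚ) * M y x := by rw [Rat.num_div_den]

/-- the product of the integral matrices -/
lemma int_matrix_mul {X Y : Type} [Fintype X] [Fintype Y] [DecidableEq X]
    (M : Matrix Y X ℚ) (M' : Matrix X Y ℚ) (hM : M' * M = 1) (D D' : ℕ) (N : Matrix Y X ℤ)
    (N' : Matrix X Y ℤ) (hN : ∀ y x, ((N y x : ℤ) : ℚ) = (D : ℚ) * M y x)
    (hN' : ∀ x y, ((N' x y : ℤ) : ℚ) = (D' : ℚ) * M' x y) (v : X → ℤ) :
    N'.mulVec (N.mulVec v) = (D' * D) • v := by
  have h1 : N' * N = ((D' * D : ℕ) : ℤ) • (1 : Matrix X X ℤ) := by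
    apply Matrix.map_injective (Int.cast_injective (α := ℚ))
    ext i j
    have h2 := congrFun (congrFun hM i) j
    rw [Matrix.mul_apply] at h2
    simp only [Matrix.map_apply, Matrix.mul_apply, Matrix.smul_apply, Int.cast_sum,
      Int.cast_mul, hN, hN', smul_eq_mul, Int.cast_natCast, Nat.cast_mul]
    have h3 : (((1 : Matrix X X ℤ) i j : ℤ) : ℚ) = (1 : Matrix X X ℚ) i j := by
      rw [Matrix.one_apply, Matrix.one_apply]
      split_ifs <;> simp
    rw [h3, ← h2, Finset.mul_sum]
    refine Finset.sum_congr rfl (fun k _ => ?_)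
    ring
  rw [Matrix.mulVec_mulVec, h1, Matrix.smul_mulVec, Matrix.one_mulVec]
  simp

end IntMatrix

section Final

variable {p : ℕ} [Fact p.Prime] {Γ : Type} [Group Γ] {h : Rep.{0} (ZMod p) Γ → ℤ}

/-- the intertwining map of permutation lattices attached to an equivariant integral matrix -/
def matHom {X Y : Type} [Fintype X] [MulAction Γ X] [MulAction Γ Y] (N : Matrix Y X ℤ)
    (hN : ∀ (g : Γ) (y : Y) (x : X), N (g • y) (g • x) = N y x) :
    funLat Γ X →ₗ[MonoidAlgebra ℤ Γ] funLat Γ Y :=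
  Representation.IntertwiningMap.equivLinearMapAsModule (funRepn Γ X) (funRepn Γ Y)
    { toLinearMap := Matrix.mulVecLin N
      isIntertwining' := fun g => by
        refine LinearMap.ext fun v => funext fun y => ?_
        change (N.mulVec (funRepn Γ X g v)) y = (N.mulVec v) (g⁻¹ • y)
        simp only [Matrix.mulVec, dotProduct, funRepn_apply]
        refine Fintype.sum_equiv (MulAction.toPerm g⁻¹) _ _ (fun x => ?_)
        have h1 := hN g (g⁻¹ • y) (g⁻¹ • x)
        rw [smul_inv_smul, smul_inv_smul] at h1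
        rw [MulAction.toPerm_apply, h1] }

lemma matHom_val {X Y : Type} [Fintype X] [MulAction Γ X] [MulAction Γ Y] (N : Matrix Y X ℤ)
    (hN : ∀ (g : Γ) (y : Y) (x : X), N (g • y) (g • x) = N y x) (v : funLat Γ X) :
    (matHom N hN v).val = N.mulVec v.val := rfl

/-- **[ART-LAT]** -/
theorem artLat : ArtLatStatement := by
  intro p _ Γ _ _ h hiso hadd X Y _ _ _ _ _ _ M M' hMM' hM'M hequiv
  have hp : p.Prime := Fact.out
  obtain ⟨D, N, hD, hN⟩ := exists_int_matrix M
  obtain ⟨D', N', hD', hN'⟩ := exists_int_matrix M'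
  have hNeq : ∀ (g : Γ) (y : Y) (x : X), N (g • y) (g • x) = N y x := by
    intro g y x
    apply Int.cast_injective (α := ℚ)
    rw [hN, hN, hequiv]
  have h1 : ∀ v : X → ℤ, N'.mulVec (N.mulVec v) = (D' * D) • v :=
    int_matrix_mul M M' hM'M D D' N N' hN hN'
  have h2 : ∀ w : Y → ℤ, N.mulVec (N'.mulVec w) = (D * D') • w :=
    int_matrix_mul M' M hMM' D' D N' N hN' hN
  haveI := moduleFinite_funLat Γ X
  haveI := moduleFinite_funLat Γ Y
  set f := matHom (Γ := Γ) N hNeq with hf
  have hfinj : Function.Injective f := by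
    rw [injective_iff_map_eq_zero]
    intro v hv
    have h3 := congrArg funLat.val hv
    rw [matHom_val, funLat.val_zero] at h3
    have h4 := h1 v.val
    rw [h3, Matrix.mulVec_zero] at h4
    have h5 : (D' * D) • v = 0 := by
      apply funLat.val_injective
      rw [funLat.val_nsmul, funLat.val_zero, ← h4]
    exact funLat_tf Γ X (Nat.mul_ne_zero hD' hD) v h5
  haveI : Module.Finite ℤ (funLat Γ Y ⧸ LinearMap.range f) := moduleFinite_quot Γ _ _
  haveI : Finite (funLat Γ Y ⧸ LinearMap.range f) := by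
    refine finite_of_killed (Nat.mul_ne_zero hD hD') _ ?_
    intro z
    obtain ⟨w, rfl⟩ := Submodule.mkQ_surjective _ z
    rw [← map_nsmul, Submodule.mkQ_apply, Submodule.Quotient.mk_eq_zero]
    refine ⟨funLat.mk (N'.mulVec w.val), ?_⟩
    apply funLat.val_injective
    rw [matHom_val, funLat.val_mk, h2, funLat.val_nsmul]
  have e1 := h_red_eq_of_injective hiso hadd (funLat Γ X) (funLat Γ Y)
    (fun v hv => funLat_tf Γ Y hp.ne_zero v hv) f hfinj
  rw [← h_red_funLat hiso X, ← h_red_funLat hiso Y]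
  exact e1

end Final

end Fermat.Agent.P1.helper24
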