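import Fermat.Agent.P1.helper7_BSAbs

/-!
# P1 / module EC / BASE-STAR / package BS-ABS (helper24, task 806)

The three abstract multiplicity statements of `helper7_BSAbs`, VERBATIM and unconditional
(Mathlib only):

* `absDual : AbsDualStatement` : `mlt a b = mlt bᵀ aᵀ` (transposition is an isomorphism
  `Hom(A, B) ≃ Hom(B^*, A^*)`);
* `absSymm : AbsSymmStatement` : `mlt a b = mlt b a` (the trace pairing
  `Hom(B, A) × Hom(A, B) → k` identifies `ψ ↦ a ψ - ψ b` with minus the transpose of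
  `φ ↦ b φ - φ a`; an endomorphism and its transpose have kernels of the same dimension);
* `absAdd : AbsAddStatement` : additivity (Maschke): `φ ↦ q ∘ φ` maps `eqvIn a b W₂` onto
  `eqvIn a b' (q W₂)` (averaging of a linear lift) with kernel `eqvIn a b W₁`.

Auxiliary lemmas carry the prefix `bs`.
-/

set_option autoImplicit false
set_option linter.style.haveILetI false

noncomputable section

namespace Fermat.Agent.P1.helper24

open Fermat.Agent.P1.helper7 Module

section Dual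

variable {k : Type} [Field k]
variable {A B : Type} [AddCommGroup A] [Module k A] [AddCommGroup B] [Module k B]

/-- `finrank ker f = finrank ker f.dualMap` for an endomorphism of a finite dimensional space -/
lemma bs_finrank_ker_dualMap {V : Type} [AddCommGroup V] [Module k V] [Module.Finite k V]
    (f : V →ₗ[k] V) :
    finrank k ↥(LinearMap.ker f.dualMap) = finrank k ↥(LinearMap.ker f) := by
  have h1 := LinearMap.finrank_range_add_finrank_ker f
  have h2 := LinearMap.finrank_range_add_finrank_ker f.dualMap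
  have h3 := LinearMap.finrank_range_dualMap_eq_finrank_range f
  have h4 : finrank k (Module.Dual k V) = finrank k V := Subspace.dual_finrank_eq
  omega

/-- transposition is injective -/
lemma bs_dualMap_inj [Module.Finite k B] {φ ψ : A →ₗ[k] B} (h : φ.dualMap = ψ.dualMap) : φ = ψ := by
  ext x
  rw [← sub_eq_zero, ← Module.forall_dual_apply_eq_zero_iff k]
  intro f
  have := LinearMap.congr_fun (LinearMap.congr_fun h f) x
  simp only [LinearMap.dualMap_apply] at this
  rw [map_sub, this, sub_self]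

theorem absDual : AbsDualStatement := by
  intro k _ A B _ _ _ _ _ _ a b
  classical
  -- the transposition as a linear equivalence
  let t : (A →ₗ[k] B) →ₗ[k] (Module.Dual k B →ₗ[k] Module.Dual k A) := Module.Dual.transpose
  have ht : ∀ φ, t φ = φ.dualMap := fun φ => rfl
  have hinj : Function.Injective t := fun φ ψ h => bs_dualMap_inj h
  have hdim : finrank k (A →ₗ[k] B) = finrank k (Module.Dual k B →ₗ[k] Module.Dual k A) := by
    rw [Module.finrank_linearMap, Module.finrank_linearMap, Subspace.dual_finrank_eq,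
      Subspace.dual_finrank_eq, mul_comm]
  have hsurj : Function.Surjective t :=
    (LinearMap.injective_iff_surjective_of_finrank_eq_finrank (K := k) (V := A →ₗ[k] B)
      (V₂ := Module.Dual k B →ₗ[k] Module.Dual k A) (f := t) hdim).1 hinj
  let e : (A →ₗ[k] B) ≃ₗ[k] (Module.Dual k B →ₗ[k] Module.Dual k A) :=
    LinearEquiv.ofBijective t ⟨hinj, hsurj⟩
  have he : ∀ φ, e φ = φ.dualMap := fun φ => rfl
  have hmap : (eqv a b).map (e : (A →ₗ[k] B) →ₗ[k] _) = eqv b.dualMap a.dualMap := by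
    ext ψ
    constructor
    · rintro ⟨φ, hφ, rfl⟩
      have hφ' : φ ∘ₗ a = b ∘ₗ φ := hφ
      change (e φ) ∘ₗ b.dualMap = a.dualMap ∘ₗ (e φ)
      rw [he, LinearMap.dualMap_comp_dualMap, LinearMap.dualMap_comp_dualMap, hφ']
    · intro hψ
      have hψ' : ψ ∘ₗ b.dualMap = a.dualMap ∘ₗ ψ := hψ
      refine ⟨e.symm ψ, ?_, by simp⟩
      change (e.symm ψ) ∘ₗ a = b ∘ₗ (e.symm ψ)
      apply bs_dualMap_inj
      rw [← LinearMap.dualMap_comp_dualMap, ← LinearMap.dualMap_comp_dualMap, ← he]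
      rw [LinearEquiv.apply_symm_apply, hψ']
  unfold mlt
  rw [← hmap]
  exact (LinearEquiv.finrank_map_eq e (eqv a b)).symm

end Dual

section Symm

variable {k : Type} [Field k]
variable {A B : Type} [AddCommGroup A] [Module k A] [AddCommGroup B] [Module k B]

/-- `Θ : φ ↦ b φ - φ a`, with kernel `eqv a b` -/
def bsTheta (a : A →ₗ[k] A) (b : B →ₗ[k] B) : (A →ₗ[k] B) →ₗ[k] (A →ₗ[k] B) where
  toFun φ := b ∘ₗ φ - φ ∘ₗ a
  map_add' φ ψ := by rw [LinearMap.comp_add, LinearMap.add_comp]; abel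
  map_smul' r φ := by
    rw [LinearMap.comp_smul, LinearMap.smul_comp, RingHom.id_apply, smul_sub]

lemma bsTheta_apply (a : A →ₗ[k] A) (b : B →ₗ[k] B) (φ : A →ₗ[k] B) :
    bsTheta a b φ = b ∘ₗ φ - φ ∘ₗ a := rfl

lemma bs_ker_theta (a : A →ₗ[k] A) (b : B →ₗ[k] B) :
    LinearMap.ker (bsTheta a b) = eqv a b := by
  ext φ
  rw [LinearMap.mem_ker, mem_eqv, bsTheta_apply, sub_eq_zero]
  exact eq_comm

/-- the trace pairing `(ψ, φ) ↦ tr (ψ φ)` -/
def bsTrPair (k : Type) [Field k] (A B : Type) [AddCommGroup A] [Module k A] [AddCommGroup B]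
    [Module k B] : (B →ₗ[k] A) →ₗ[k] Module.Dual k (A →ₗ[k] B) :=
  (LinearMap.llcomp k A B A).compr₂ (LinearMap.trace k A)

lemma bsTrPair_apply (ψ : B →ₗ[k] A) (φ : A →ₗ[k] B) :
    bsTrPair k A B ψ φ = LinearMap.trace k A (ψ ∘ₗ φ) := rfl

lemma bsTrPair_theta [Module.Finite k A] (a : A →ₗ[k] A) (b : B →ₗ[k] B) (ψ : B →ₗ[k] A) :
    bsTrPair k A B (bsTheta b a ψ) = - (bsTheta a b).dualMap (bsTrPair k A B ψ) := by
  ext φ
  rw [bsTrPair_apply, bsTheta_apply, LinearMap.neg_apply, LinearMap.dualMap_apply, bsTrPair_apply,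
    bsTheta_apply, LinearMap.sub_comp, LinearMap.comp_sub, map_sub, map_sub, neg_sub]
  have h1 : LinearMap.trace k A ((a ∘ₗ ψ) ∘ₗ φ) = LinearMap.trace k A (ψ ∘ₗ φ ∘ₗ a) := by
    have := LinearMap.trace_mul_comm k a (ψ ∘ₗ φ)
    rw [Module.End.mul_eq_comp, Module.End.mul_eq_comp] at this
    rw [LinearMap.comp_assoc, this, LinearMap.comp_assoc]
  have h2 : (ψ ∘ₗ b) ∘ₗ φ = ψ ∘ₗ b ∘ₗ φ := LinearMap.comp_assoc _ _ _
  rw [h1, h2]

lemma bsTrPair_injective [Module.Finite k A] : Function.Injective (bsTrPair k A B) := by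
  rw [injective_iff_map_eq_zero]
  intro ψ hψ
  ext v
  rw [LinearMap.zero_apply, ← Module.forall_dual_apply_eq_zero_iff k]
  intro f
  have h := LinearMap.congr_fun hψ (f.smulRight v)
  rw [bsTrPair_apply, LinearMap.zero_apply] at h
  have h2 : ψ ∘ₗ f.smulRight v = f.smulRight (ψ v) := by
    ext x
    simp
  rw [h2, LinearMap.trace_smulRight] at h
  exact h

theorem absSymm : AbsSymmStatement := by
  intro k _ A B _ _ _ _ _ _ a b
  classical
  have hinj : Function.Injective (bsTrPair k A B) := bsTrPair_injective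
  have hdim : finrank k (B →ₗ[k] A) = finrank k (Module.Dual k (A →ₗ[k] B)) := by
    rw [Subspace.dual_finrank_eq, Module.finrank_linearMap, Module.finrank_linearMap, mul_comm]
  have hsurj : Function.Surjective (bsTrPair k A B) :=
    (LinearMap.injective_iff_surjective_of_finrank_eq_finrank (K := k) (V := B →ₗ[k] A)
      (V₂ := Module.Dual k (A →ₗ[k] B)) (f := bsTrPair k A B) hdim).1 hinj
  let e : (B →ₗ[k] A) ≃ₗ[k] Module.Dual k (A →ₗ[k] B) :=
    LinearEquiv.ofBijective (bsTrPair k A B) ⟨hinj, hsurj⟩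
  have he : ∀ ψ, e ψ = bsTrPair k A B ψ := fun ψ => rfl
  have hmap : (eqv b a).map (e : (B →ₗ[k] A) →ₗ[k] _) = LinearMap.ker (bsTheta a b).dualMap := by
    rw [← bs_ker_theta]
    ext ξ
    constructor
    · rintro ⟨ψ, hψ, rfl⟩
      have hψ' : bsTheta b a ψ = 0 := hψ
      have := bsTrPair_theta a b ψ
      rw [hψ', map_zero, eq_comm, neg_eq_zero] at this
      exact this
    · intro hξ
      have hξ' : (bsTheta a b).dualMap ξ = 0 := hξ
      refine ⟨e.symm ξ, ?_, by simp⟩
      change bsTheta b a (e.symm ξ) = 0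
      apply hinj
      rw [bsTrPair_theta, ← he, LinearEquiv.apply_symm_apply, hξ', neg_zero, map_zero]
  unfold mlt
  rw [← bs_ker_theta a b, ← bs_finrank_ker_dualMap, ← hmap]
  exact LinearEquiv.finrank_map_eq e (eqv b a)

end Symm

section Add

variable {k : Type} [Field k]
variable {A B : Type} [AddCommGroup A] [Module k A] [AddCommGroup B] [Module k B]

/-- `eqvIn a b W` is finite dimensional when `A` and `W` are -/
lemma bs_finite_eqvIn [Module.Finite k A] (a : A →ₗ[k] A) (b : B →ₗ[k] B) (W : Submodule k B)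
    [Module.Finite k ↥W] : Module.Finite k ↥(eqvIn a b W) := by
  let c : ↥(eqvIn a b W) →ₗ[k] (A →ₗ[k] ↥W) :=
    { toFun := fun φ => LinearMap.codRestrict W φ.1 (fun x => φ.2.2 x)
      map_add' := fun φ ψ => by ext x; rfl
      map_smul' := fun r φ => by ext x; rfl }
  have hc : Function.Injective c := by
    intro φ ψ h
    apply Subtype.ext
    ext x
    have := congrArg (fun f : A →ₗ[k] ↥W => ((f x : ↥W) : B)) h
    exact this
  exact Module.Finite.of_injective c hc

lemma bs_eqvIn_mono (a : A →ₗ[k] A) (b : B →ₗ[k] B) {W₁ W₂ : Submodule k B} (h : W₁ ≤ W₂) :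
    eqvIn a b W₁ ≤ eqvIn a b W₂ := fun _ hφ => ⟨hφ.1, fun x => h (hφ.2 x)⟩

/-- powers of `b` preserve a `b`-stable subspace -/
lemma bs_pow_mem_of_stable (b : B →ₗ[k] B) (W : Submodule k B) (hb : ∀ x ∈ W, b x ∈ W) (i : ℕ) :
    ∀ x ∈ W, (b ^ i) x ∈ W := by
  induction i with
  | zero => intro x hx; simpa using hx
  | succ i ih =>
    intro x hx
    rw [pow_succ', Module.End.mul_apply]
    exact hb _ (ih x hx)

variable {B' : Type} [AddCommGroup B'] [Module k B']

/-- `q b^i = b'^i q` on a stable subspace -/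
lemma bs_q_pow_of_stable (b : B →ₗ[k] B) (W : Submodule k B) (hb : ∀ x ∈ W, b x ∈ W)
    (b' : B' →ₗ[k] B') (q : B →ₗ[k] B') (hq : ∀ x ∈ W, q (b x) = b' (q x)) (i : ℕ) :
    ∀ x ∈ W, q ((b ^ i) x) = (b' ^ i) (q x) := by
  induction i with
  | zero => intro x _; simp
  | succ i ih =>
    intro x hx
    rw [pow_succ', Module.End.mul_apply, hq _ (bs_pow_mem_of_stable b W hb i x hx), ih x hx,
      pow_succ', Module.End.mul_apply]

/-- `ψ a = b' ψ` implies `b'^i ψ = ψ a^i` -/
lemma bs_pow_intertwine (a : A →ₗ[k] A) (b' : B' →ₗ[k] B') (ψ : A →ₗ[k] B')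
    (h : ψ ∘ₗ a = b' ∘ₗ ψ) (i : ℕ) : ∀ x, (b' ^ i) (ψ x) = ψ ((a ^ i) x) := by
  induction i with
  | zero => intro x; simp
  | succ i ih =>
    intro x
    rw [pow_succ', Module.End.mul_apply, ih, pow_succ', Module.End.mul_apply]
    have := LinearMap.congr_fun h ((a ^ i) x)
    simp only [LinearMap.comp_apply] at this
    exact this.symm

/-- the averaging lemma: an equivariant lift -/
lemma bs_exists_equivariant_lift (n : ℕ) (hn : (n : k) ≠ 0) [Module.Finite k A]
    (a : A →ₗ[k] A) (han : a ^ n = 1) (b : B →ₗ[k] B) (W : Submodule k B)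
    (hb : ∀ x ∈ W, b x ∈ W) (hbn : ∀ x ∈ W, (b ^ n) x = x)
    (b' : B' →ₗ[k] B') (q : B →ₗ[k] B') (hq : ∀ x ∈ W, q (b x) = b' (q x))
    (ψ : A →ₗ[k] B') (hψ : ψ ∈ eqvIn a b' (W.map q)) :
    ∃ φ : A →ₗ[k] B, φ ∈ eqvIn a b W ∧ q ∘ₗ φ = ψ := by
  classical
  have hn0 : n ≠ 0 := by
    rintro rfl
    exact hn Nat.cast_zero
  obtain ⟨hψ1, hψ2⟩ := hψ
  -- a non-equivariant lift
  let q₂ : ↥W →ₗ[k] ↥(W.map q) := q.restrict (fun x hx => Submodule.mem_map_of_mem hx)
  have hq₂ : Function.Surjective q₂ := by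
    rintro ⟨y, hy⟩
    obtain ⟨x, hx, rfl⟩ := hy
    exact ⟨⟨x, hx⟩, rfl⟩
  let ψ₂ : A →ₗ[k] ↥(W.map q) := LinearMap.codRestrict (W.map q) ψ hψ2
  obtain ⟨h, hh⟩ := Module.projective_lifting_property q₂ ψ₂ hq₂
  let φ₀ : A →ₗ[k] B := W.subtype ∘ₗ h
  have hφ₀W : ∀ x, φ₀ x ∈ W := fun x => (h x).2
  have hφ₀q : ∀ x, q (φ₀ x) = ψ x := by
    intro x
    have := congrArg (fun f : A →ₗ[k] ↥(W.map q) => ((f x : ↥(W.map q)) : B')) hh
    exact this
  -- the inverse of `a`
  let a' : A →ₗ[k] A := a ^ (n - 1)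
  have haa' : a * a' = 1 := by
    change a * a ^ (n - 1) = 1
    rw [← pow_succ', Nat.sub_add_cancel (Nat.one_le_iff_ne_zero.2 hn0), han]
  have ha'a : a' * a = 1 := by
    change a ^ (n - 1) * a = 1
    rw [← pow_succ, Nat.sub_add_cancel (Nat.one_le_iff_ne_zero.2 hn0), han]
  have ha'n : a' ^ n = 1 := by
    change (a ^ (n - 1)) ^ n = 1
    rw [← pow_mul, mul_comm, pow_mul, han, one_pow]
  have hcomm : Commute a a' := by
    change Commute a (a ^ (n - 1))
    exact (Commute.refl a).pow_right _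
  -- the translates
  let t : ℕ → (A →ₗ[k] B) := fun i => (b ^ i) ∘ₗ φ₀ ∘ₗ (a' ^ i)
  have ht : ∀ i x, t i x = (b ^ i) (φ₀ ((a' ^ i) x)) := fun i x => rfl
  have htW : ∀ i x, t i x ∈ W := fun i x => bs_pow_mem_of_stable b W hb i _ (hφ₀W _)
  have htq : ∀ i x, q (t i x) = ψ x := by
    intro i x
    rw [ht, bs_q_pow_of_stable b W hb b' q hq i _ (hφ₀W _), hφ₀q, bs_pow_intertwine a b' ψ hψ1 i,
      ← Module.End.mul_apply, ← hcomm.mul_pow, haa', one_pow, Module.End.one_apply]
  have htsucc : ∀ i x, b (t i (a' x)) = t (i + 1) x := by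
    intro i x
    rw [ht, ht, ← Module.End.mul_apply (a' ^ i) a', ← pow_succ, ← Module.End.mul_apply b,
      ← pow_succ']
  have htn : ∀ x, t n x = t 0 x := by
    intro x
    rw [ht, ht, hbn _ (hφ₀W _), ha'n, pow_zero, pow_zero, Module.End.one_apply,
      Module.End.one_apply]
  let S : A →ₗ[k] B := ∑ i ∈ Finset.range n, t i
  have hS : ∀ x, S x = ∑ i ∈ Finset.range n, t i x := fun x => LinearMap.sum_apply _ _ _
  have hSW : ∀ x, S x ∈ W := fun x => by
    rw [hS]
    exact W.sum_mem fun i _ => htW i x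
  have hSb : ∀ x, b (S (a' x)) = S x := by
    intro x
    rw [hS, hS, map_sum]
    rw [Finset.sum_congr rfl (fun i _ => htsucc i x)]
    have h1 := Finset.sum_range_succ (fun i => t i x) n
    have h2 := Finset.sum_range_succ' (fun i => t i x) n
    rw [h1, htn] at h2
    exact (add_right_cancel h2).symm
  have hSa : ∀ x, S (a x) = b (S x) := by
    intro x
    rw [← hSb (a x), ← Module.End.mul_apply a' a, ha'a, Module.End.one_apply]
  have hSq : ∀ x, q (S x) = (n : k) • ψ x := by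
    intro x
    rw [hS, map_sum, Finset.sum_congr rfl (fun i _ => htq i x), Finset.sum_const,
      Finset.card_range, Nat.cast_smul_eq_nsmul]
  refine ⟨(n : k)⁻¹ • S, ⟨?_, ?_⟩, ?_⟩
  · ext x
    simp only [LinearMap.comp_apply, LinearMap.smul_apply, map_smul]
    rw [hSa]
  · intro x
    rw [LinearMap.smul_apply]
    exact W.smul_mem _ (hSW x)
  · ext x
    simp only [LinearMap.comp_apply, LinearMap.smul_apply, map_smul]
    rw [hSq, smul_smul, inv_mul_cancel₀ hn, one_smul]

theorem absAdd : AbsAddStatement := by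
  intro k _ n hn A _ _ _ a han B _ _ b W₁ W₂ hle hfin hbW hbn B' _ _ b' q hq hker
  classical
  have : Module.Finite k ↥W₂ := hfin
  have : Module.Finite k ↥(eqvIn a b W₂) := bs_finite_eqvIn a b W₂
  let Ψ : ↥(eqvIn a b W₂) →ₗ[k] (A →ₗ[k] B') :=
    (LinearMap.llcomp k A B B' q) ∘ₗ (eqvIn a b W₂).subtype
  have hΨ : ∀ φ : ↥(eqvIn a b W₂), Ψ φ = q ∘ₗ (φ : A →ₗ[k] B) := fun φ => rfl
  have hrange : LinearMap.range Ψ = eqvIn a b' (W₂.map q) := by
    ext ψ
    constructor
    · rintro ⟨⟨φ, hφ1, hφ2⟩, rfl⟩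
      refine ⟨?_, fun x => Submodule.mem_map_of_mem (hφ2 x)⟩
      ext x
      rw [hΨ]
      simp only [LinearMap.comp_apply]
      have := LinearMap.congr_fun hφ1 x
      simp only [LinearMap.comp_apply] at this
      rw [this, hq _ (hφ2 x)]
    · intro hψ
      obtain ⟨φ, hφ, hφq⟩ := bs_exists_equivariant_lift n hn a han b W₂ hbW hbn b' q hq ψ hψ
      exact ⟨⟨φ, hφ⟩, hφq⟩
  have hkerΨ : LinearMap.ker Ψ = (eqvIn a b W₁).comap (eqvIn a b W₂).subtype := by
    ext ⟨φ, hφ1, hφ2⟩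
    rw [LinearMap.mem_ker, Submodule.mem_comap, hΨ]
    change q ∘ₗ φ = 0 ↔ φ ∈ eqvIn a b W₁
    constructor
    · intro h0
      refine ⟨hφ1, fun x => (hker _ (hφ2 x)).1 ?_⟩
      exact LinearMap.congr_fun h0 x
    · rintro ⟨-, h1⟩
      ext x
      exact (hker _ (hφ2 x)).2 (h1 x)
  have hrk := LinearMap.finrank_range_add_finrank_ker Ψ
  rw [hrange, hkerΨ,
    LinearEquiv.finrank_eq (Submodule.comapSubtypeEquivOfLe (bs_eqvIn_mono a b hle))] at hrk
  unfold mltIn
  omega

end Add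

end Fermat.Agent.P1.helper24
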