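import Fermat.Agent.P1.helper24_BSLat
import Fermat.Agent.P1.helper21_LattCyc

/-!
# P1 / module EC / BASE-STAR / package BS-ABS-LAT: the lattice lemma, FINAL (helper24 + helper21)

* `bs_finrank_ker_baseChange_rat` : the rank of the kernel of an endomorphism of a lattice is
  the dimension of the kernel of its rational base change (flatness of `ℚ`);
* `bs_charpoly_eq_of_finrank_ker_eq` : **(L3)** the characteristic polynomial of an automorphism
  of finite order of a lattice is determined by the ranks of the invariants of its powers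
  (from helper21's `charpoly_eq_of_finrank_ker_eq_rat`);
* `lattEquiv : LattEquivStatement` : **(L4)** (from helper21's `exists_equiv_of_charpoly_eq`);
* `absLat : helper7.AbsLatStatement` : the lattice lemma in the form consumed by BS-UNITS,
  VERBATIM and unconditional.
-/

set_option autoImplicit false

noncomputable section

namespace Fermat.Agent.P1.helper24

open Module TensorProduct Polynomial

section ZSide

variable {L : Type} [AddCommGroup L] [Module.Free ℤ L] [Module.Finite ℤ L]

/-- the rank of a kernel is the dimension of the kernel of the rational base change -/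
lemma bs_finrank_ker_baseChange_rat (f : L →ₗ[ℤ] L) :
    finrank ℚ ↥(LinearMap.ker (f.baseChange ℚ)) = finrank ℤ ↥(LinearMap.ker f) := by
  have e := LinearMap.tensorKerEquiv ℚ ℚ f
  have h1 : finrank ℚ ↥(LinearMap.ker (f.baseChange ℚ)) =
      finrank ℚ (ℚ ⊗[ℤ] ↥(LinearMap.ker f)) := (LinearEquiv.finrank_eq e).symm
  rw [h1, Module.finrank_baseChange]

lemma bs_finrank_ker_pow_baseChange_rat (δ : L →ₗ[ℤ] L) (k : ℕ) :
    finrank ℚ ↥(LinearMap.ker ((δ.baseChange ℚ) ^ k - 1)) =
      finrank ℤ ↥(LinearMap.ker (δ ^ k - 1)) := by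
  rw [← bs_finrank_ker_baseChange_rat, LinearMap.baseChange_sub, LinearMap.baseChange_pow,
    LinearMap.baseChange_one]

end ZSide

/-- **(L3)**: the characteristic polynomial of an automorphism of finite order of a lattice is
determined by the ranks of the invariants of its powers. -/
theorem bs_charpoly_eq_of_finrank_ker_eq (n : ℕ) (hn : 0 < n) {L₁ L₂ : Type} [AddCommGroup L₁]
    [Module.Free ℤ L₁] [Module.Finite ℤ L₁] [AddCommGroup L₂] [Module.Free ℤ L₂]
    [Module.Finite ℤ L₂] (d₁ : L₁ →ₗ[ℤ] L₁) (d₂ : L₂ →ₗ[ℤ] L₂) (h1 : d₁ ^ n = 1)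
    (h2 : d₂ ^ n = 1)
    (hr : ∀ k ∈ n.divisors, finrank ℤ ↥(LinearMap.ker (d₁ ^ k - 1)) =
      finrank ℤ ↥(LinearMap.ker (d₂ ^ k - 1))) :
    d₁.charpoly = d₂.charpoly := by
  have hq : (d₁.baseChange ℚ).charpoly = (d₂.baseChange ℚ).charpoly := by
    apply helper21.charpoly_eq_of_finrank_ker_eq_rat hn
    · rw [← LinearMap.baseChange_pow, h1, LinearMap.baseChange_one]
    · rw [← LinearMap.baseChange_pow, h2, LinearMap.baseChange_one]
    · intro k hk
      rw [bs_finrank_ker_pow_baseChange_rat, bs_finrank_ker_pow_baseChange_rat, hr k hk]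
  rw [LinearMap.charpoly_baseChange, LinearMap.charpoly_baseChange] at hq
  exact Polynomial.map_injective (algebraMap ℤ ℚ) (algebraMap ℤ ℚ).injective_int hq

/-- **(L4)**: the lattice lemma, tensor form. -/
theorem lattEquiv : LattEquivStatement := by
  intro p _ n hn hpn L₁ L₂ _ _ _ _ _ _ d₁ d₂ h1 h2 hr
  have hc := bs_charpoly_eq_of_finrank_ker_eq n hn d₁ d₂ h1 h2 hr
  have hn' : ((n : ℕ) : ZMod p) ≠ 0 := by
    rw [Ne, ZMod.natCast_eq_zero_iff]
    exact hpn
  have hsq : Squarefree (X ^ n - 1 : (ZMod p)[X]) :=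
    (X_pow_sub_one_separable_iff.2 hn').squarefree
  have hz : ∀ {L : Type} [AddCommGroup L] [Module.Free ℤ L] [Module.Finite ℤ L]
      (d : L →ₗ[ℤ] L), d ^ n = 1 →
      aeval (d.baseChange (ZMod p)) (X ^ n - 1 : (ZMod p)[X]) = 0 := by
    intro L _ _ _ d hd
    rw [map_sub, map_pow, aeval_X, map_one, ← LinearMap.baseChange_pow, hd,
      LinearMap.baseChange_one, sub_self]
  exact helper21.exists_equiv_of_charpoly_eq hsq _ (ZMod p ⊗[ℤ] L₁) (ZMod p ⊗[ℤ] L₂)
    (d₁.baseChange (ZMod p)) (d₂.baseChange (ZMod p)) rfl (hz d₁ h1) (hz d₂ h2)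
    (by rw [LinearMap.charpoly_baseChange, LinearMap.charpoly_baseChange, hc])

/-- **BS-ABS-LAT**: the lattice lemma in the form of `helper7.AbsLatStatement`. -/
theorem absLat : Fermat.Agent.P1.helper7.AbsLatStatement := absLat_of lattEquiv

end Fermat.Agent.P1.helper24
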