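import Fermat.Agent.P1.helper24_LQDefs
import Fermat.Agent.P1.helper70_Interface2
import Fermat.Agent.S55.helper74_LocalLevels
import Fermat.Agent.S55.helper4_BridgeLevels
import Fermat.Agent.S55.helper96_BArDeg
import Fermat.Agent.S13.helper4_Minkowski

/-!
# P1 (S56), module LQ: the arithmetic dictionary at `q` (helper24)

* `frobExists : FrobExistsStatement` : Frobenius lifts exist in the local Galois group;
* `exists_mem_locInertia_ne_one` : a residual representation ramified at `q` is nontrivial on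
  the inertia subgroup of the local Galois group at `q` (all places over `q` are conjugate);
* `isSmooth_res_ad0Rep` : `ad⁰ ρbar` restricted to the local Galois group is smooth for
  `locLevels q`;
* `ad0Rep_ρ_eq_one_of_mem_locInertia` : `ad⁰ ρbar` is trivial on inertia if `ρbar` is unramified;
* `exists_level_forall_eq_one` : a lift to the dual numbers is trivial on a level.
-/

set_option autoImplicit false

open Fermat.Agent.S55 Fermat.Agent.P1.helper70 ExtCitation IsLocalRing
open scoped Pointwise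

noncomputable section

namespace Fermat.Agent.P1.helper24

/-- **[FROB-EX]** Frobenius lifts exist in the local Galois group at `q`. -/
theorem frobExists : FrobExistsStatement := by
  intro q
  obtain ⟨σ, hσ⟩ := Fermat.Agent.S54.helper91.exists_isFrobeniusAt_of_liesOver
    (primeLocalPlace q) q.2 (Fermat.Agent.S55.helper74.primeLocalPlace_liesOverPrime q)
  obtain ⟨τ, hτ⟩ := Fermat.Agent.S55.helper74.exists_primeLocalToGlobal_eq q
    hσ.mem_decompositionSubgroup
  exact ⟨τ, by rw [hτ]; exact hσ⟩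

lemma mem_locInertia_iff {q : Nat.Primes} {i : primeLocalGaloisGroup q} :
    i ∈ locInertia q ↔ primeLocalToGlobal q i ∈ (primeLocalPlace q).inertiaSubgroupIn ℚ :=
  Iff.rfl

/-- Elements of the inertia group of `primeLocalPlace q` lift to `locInertia q`. -/
theorem exists_mem_locInertia_eq (q : Nat.Primes) {σ : GQ}
    (hσ : σ ∈ (primeLocalPlace q).inertiaSubgroupIn ℚ) :
    ∃ i ∈ locInertia q, primeLocalToGlobal q i = σ := by
  have hD : σ ∈ (primeLocalPlace q).decompositionSubgroup ℚ := by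
    obtain ⟨x, -, rfl⟩ := hσ
    exact x.2
  obtain ⟨τ, hτ⟩ := Fermat.Agent.S55.helper74.exists_primeLocalToGlobal_eq q hD
  exact ⟨τ, by rw [mem_locInertia_iff, hτ]; exact hσ, hτ⟩

/-- **[CONJ]** a residual representation ramified at `q` is nontrivial on `locInertia q`. -/
theorem exists_mem_locInertia_ne_one {k : Type} [Field k] (ρbar : ResidualGaloisRep k)
    (q : Nat.Primes) (h : ¬ ρbar.IsUnramifiedAt (q : ℕ)) :
    ∃ i ∈ locInertia q, ρbar.ρ (primeLocalToGlobal q i) ≠ 1 := by
  unfold ResidualGaloisRep.IsUnramifiedAt at h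
  push Not at h
  obtain ⟨A, hA, σ, hσ, hne⟩ := h
  obtain ⟨g, hg⟩ := Fermat.Agent.S55.helper96.exists_smul_eq_of_liesOverPrime q.2 hA
    (Fermat.Agent.S55.helper74.primeLocalPlace_liesOverPrime q)
  have h1 : g * σ * g⁻¹ ∈ (primeLocalPlace q).inertiaSubgroupIn ℚ := by
    rw [hg]
    exact Fermat.Agent.S13.helper4.conj_mem_inertiaSubgroupIn g hσ
  obtain ⟨i, hi, hiσ⟩ := exists_mem_locInertia_eq q h1
  refine ⟨i, hi, fun h1 => hne ?_⟩
  rw [hiσ, map_mul, map_mul] at h1
  have h2 : ρbar.ρ σ = ρbar.ρ g⁻¹ * (ρbar.ρ g * ρbar.ρ σ * ρbar.ρ g⁻¹) * ρbar.ρ g := by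
    rw [← map_mul, ← map_mul, ← map_mul, ← map_mul]
    congr 1
    group
  rw [h2, h1, mul_one, ← map_mul, inv_mul_cancel, map_one]

/-- The conjugation-invariance of `IsUnipotentOnInertiaAt` etc. is not needed: the Prelude
quantifies over all places. A residual representation unramified at `q` is trivial on
`locInertia q`. -/
theorem ρ_eq_one_of_mem_locInertia {k : Type} [Field k] (ρbar : ResidualGaloisRep k)
    (q : Nat.Primes) (h : ρbar.IsUnramifiedAt (q : ℕ)) {i : primeLocalGaloisGroup q}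
    (hi : i ∈ locInertia q) : ρbar.ρ (primeLocalToGlobal q i) = 1 :=
  h _ (Fermat.Agent.S55.helper74.primeLocalPlace_liesOverPrime q) _ hi

section Ad0

variable {k : Type} [Field k] (ρbar : ResidualGaloisRep k) (p : ℕ) [Fact p.Prime]
  [Algebra (ZMod p) k]

/-- `ad⁰ ρbar` is trivial where `ρbar` is. -/
theorem ad0Rep_ρ_eq_one {g : GQ} (hg : ρbar.ρ g = 1) : (ad0Rep ρbar p).ρ g = 1 := by
  refine LinearMap.ext fun x => ?_
  have h : Ad0.toEnd ρbar ((ad0Rep ρbar p).ρ g x) = Ad0.toEnd ρbar x := by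
    have hg' : ρbar.ρ g⁻¹ = 1 := by
      have h2 := map_mul ρbar.ρ g⁻¹ g
      rw [inv_mul_cancel, map_one, hg, mul_one] at h2
      exact h2.symm
    have h1 := ad0Rep_ρ_apply ρbar p g x
    rw [hg, hg', one_mul, mul_one] at h1
    exact h1
  exact Ad0.toEnd_injective ρbar h

/-- **smoothness**: `ad⁰ ρbar` restricted to the local Galois group at `q` is trivial on a level
of `locLevels q`. -/
theorem isSmooth_res_ad0Rep (q : Nat.Primes) :
    IsSmooth (locLevels q) (Rep.res (primeLocalToGlobal q) (ad0Rep ρbar p)) := by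
  obtain ⟨L, hL, hρ⟩ := ρbar.factorsThroughFiniteLevel
  refine ⟨(Fermat.Agent.S55.helper4.ncl L).fixingSubgroup.comap (primeLocalToGlobal q),
    ⟨_, Fermat.Agent.S55.helper4.finiteDimensional_ncl L hL,
      Fermat.Agent.S55.helper4.normal_fixingSubgroup_ncl L, rfl⟩, fun s hs a => ?_⟩
  have h1 : primeLocalToGlobal q s ∈ L.fixingSubgroup :=
    Fermat.Agent.S55.helper4.fixingSubgroup_ncl_le L hs
  have h2 : ρbar.ρ (primeLocalToGlobal q s) = 1 :=
    hρ _ fun x hx => (IntermediateField.mem_fixingSubgroup_iff _ _).mp h1 x hx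
  have h3 := ad0Rep_ρ_eq_one ρbar p h2
  change (ad0Rep ρbar p).ρ (primeLocalToGlobal q s) a = a
  rw [h3]
  rfl

/-- `ad⁰ ρbar` is trivial on inertia at `q` if `ρbar` is unramified at `q`. -/
theorem res_ad0Rep_ρ_eq_one_of_mem_locInertia (q : Nat.Primes)
    (h : ρbar.IsUnramifiedAt (q : ℕ)) {i : primeLocalGaloisGroup q} (hi : i ∈ locInertia q) :
    (Rep.res (primeLocalToGlobal q) (ad0Rep ρbar p)).ρ i = 1 :=
  ad0Rep_ρ_eq_one ρbar p (ρ_eq_one_of_mem_locInertia ρbar q h hi)

end Ad0

end Fermat.Agent.P1.helper24
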