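import Fermat.Agent.P1.helper24_LQDefs

/-!
# P1 [LQ-LIN]: three lemmas of 2×2 linear algebra

* `unipotentOrder` : `UnipotentOrderStatement`
* `traceForm`      : `TraceFormStatement`
* `centralizer`    : `CentralizerStatement`
-/

set_option autoImplicit false

noncomputable section

namespace Fermat.Agent.P1.helper32

open Fermat.Agent.P1.helper24 Polynomial Matrix

/-! ## [LQ-LIN-3] -/

theorem pow_eq_one_add_nsmul {R : Type*} [Ring R] (N : R) (hN : N * N = 0) (n : ℕ) :
    (1 + N) ^ n = 1 + n • N := by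
  induction n with
  | zero => simp
  | succ n ih =>
    rw [pow_succ, ih, add_mul, mul_add, mul_add, mul_one, one_mul, mul_one, smul_mul_assoc, hN,
      smul_zero, add_zero, succ_nsmul]
    abel

/-- **[LQ-LIN-3]** -/
theorem unipotentOrder : UnipotentOrderStatement := by
  intro p R M _ _ _ _ _ _ _ f hf
  have h1 : (f - 1) * (f - 1) = 0 := by
    have h := LinearMap.aeval_self_charpoly f
    rw [hf] at h
    simpa [pow_two] using h
  have h2 : f = 1 + (f - 1) := by abel
  rw [h2, pow_eq_one_add_nsmul _ h1]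
  have h3 : p • (f - 1) = 0 := by
    rw [← Nat.cast_smul_eq_nsmul R, CharP.cast_eq_zero, zero_smul]
  rw [h3, add_zero]

/-! ## Matrices in an adapted basis -/

section Basis

variable {k V : Type} [Field k] [AddCommGroup V] [Module k V]

theorem toMatrix_eq_of (b : Module.Basis (Fin 2) k V) (f : Module.End k V) (a b' c d : k)
    (h0 : f (b 0) = a • b 0 + c • b 1) (h1 : f (b 1) = b' • b 0 + d • b 1) :
    LinearMap.toMatrixAlgEquiv b f = !![a, b'; c, d] := by
  ext i j
  rw [LinearMap.toMatrixAlgEquiv_apply]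
  fin_cases j
  · simp only [Fin.zero_eta, h0, map_add, map_smul, Module.Basis.repr_self]
    fin_cases i <;> simp
  · simp only [Fin.mk_one, h1, map_add, map_smul, Module.Basis.repr_self]
    fin_cases i <;> simp

/-- the basis attached to two linearly independent vectors of a plane -/
theorem exists_basis_of (hV : Module.finrank k V = 2) (e₁ e₂ : V)
    (h : ∀ a b : k, a • e₁ + b • e₂ = 0 → a = 0 ∧ b = 0) :
    ∃ b : Module.Basis (Fin 2) k V, b 0 = e₁ ∧ b 1 = e₂ := by
  have hli : LinearIndependent k ![e₁, e₂] := by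
    rw [Fintype.linearIndependent_iff]
    intro g hg i
    rw [Fin.sum_univ_two] at hg
    have := h (g 0) (g 1) (by simpa using hg)
    fin_cases i
    · exact this.1
    · exact this.2
  refine ⟨basisOfLinearIndependentOfCardEqFinrank hli (by simp [hV]), ?_, ?_⟩
  · simp
  · simp

end Basis

/-! ## [LQ-LIN-1] -/

theorem two_sub_eq {k : Type} [Field k] :
    (2 : Matrix (Fin 2) (Fin 2) k) - !![1, 1; 0, 1] = !![1, -1; 0, 1] := by
  ext i j
  fin_cases i <;> fin_cases j <;> simp [Matrix.ofNat_apply] <;> norm_num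

theorem matrix_identity {k : Type} [Field k] (h2 : (2 : k) ≠ 0) (x y : k) :
    !![1, 1; 0, 1] * !![-(x + y) / 2, 0; x, (x + y) / 2] * !![1, -1; 0, 1]
      - !![-(x + y) / 2, 0; x, (x + y) / 2] = !![x, y; 0, -x] := by
  rw [Matrix.mul_fin_two, Matrix.mul_fin_two]
  ext i j
  fin_cases i <;> fin_cases j <;> simp <;> field_simp <;> ring

/-- **[LQ-LIN-1]** -/
theorem traceForm : TraceFormStatement := by
  intro k V _ _ _ hV h2 u hu hu1 X hX hXu
  classical
  -- a vector with `N v ≠ 0`
  obtain ⟨N, hNdef⟩ : ∃ N : Module.End k V, N = u - 1 := ⟨_, rfl⟩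
  have huN : u = 1 + N := by rw [hNdef]; abel
  have hN : N ≠ 0 := by rw [hNdef]; exact sub_ne_zero.mpr hu1
  have hNsq : N * N = 0 := by rw [hNdef]; exact hu
  obtain ⟨v, hv⟩ : ∃ v, N v ≠ 0 := by
    by_contra hcon
    exact hN (LinearMap.ext fun w => by
      by_contra hw
      exact hcon ⟨w, hw⟩)
  have hNN : N (N v) = 0 := by
    have := congrArg (fun f : Module.End k V => f v) hNsq
    simpa using this
  obtain ⟨b, hb0, hb1⟩ := exists_basis_of hV (N v) v (by
    intro a c hac
    have h1 : c • N v = 0 := by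
      have := congrArg N hac
      simpa [map_add, map_smul, hNN] using this
    have hc : c = 0 := by
      rcases smul_eq_zero.mp h1 with h | h
      · exact h
      · exact absurd h hv
    rw [hc, zero_smul, add_zero] at hac
    rcases smul_eq_zero.mp hac with h | h
    · exact ⟨h, hc⟩
    · exact absurd h hv)
  -- the matrix of `u`
  have hu0 : u (b 0) = (1 : k) • b 0 + (0 : k) • b 1 := by
    rw [hb0, one_smul, zero_smul, add_zero, huN, LinearMap.add_apply, Module.End.one_apply, hNN,
      add_zero]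
  have hu1' : u (b 1) = (1 : k) • b 0 + (1 : k) • b 1 := by
    rw [hb0, hb1, one_smul, one_smul, huN, LinearMap.add_apply, Module.End.one_apply, add_comm]
  have hU : LinearMap.toMatrixAlgEquiv b u = !![1, 1; 0, 1] := toMatrix_eq_of b u 1 1 0 1 hu0 hu1'
  obtain ⟨e, he⟩ : ∃ e : Module.End k V ≃ₐ[k] Matrix (Fin 2) (Fin 2) k,
      e = LinearMap.toMatrixAlgEquiv b := ⟨_, rfl⟩
  rw [← he] at hU
  -- the matrix of `X`
  have htr : ∀ f : Module.End k V, LinearMap.trace k V f = (e f).trace := fun f => by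
    rw [he]
    exact LinearMap.trace_eq_matrix_trace k b f
  have hX' : (e X) 0 0 + (e X) 1 1 = 0 := by
    have := htr X
    rw [hX, Matrix.trace_fin_two] at this
    exact this.symm
  have hXu' : (e X) 1 0 = 0 := by
    have h3 := htr (X * u)
    rw [hXu, map_mul, hU, Matrix.trace_fin_two] at h3
    simp only [Matrix.mul_apply, Fin.sum_univ_two, Matrix.of_apply, Matrix.cons_val', Matrix.cons_val_zero,
      Matrix.cons_val_one, Matrix.cons_val_fin_one, mul_one, mul_zero, add_zero] at h3
    have h4 : (e X) 0 0 + ((e X) 1 0 + (e X) 1 1) = (e X) 1 0 + ((e X) 0 0 + (e X) 1 1) := by ring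
    rw [h4, hX', add_zero] at h3
    exact h3.symm
  -- the solution
  obtain ⟨x, hx⟩ : ∃ x : k, x = (e X) 0 0 := ⟨_, rfl⟩
  obtain ⟨y, hy⟩ : ∃ y : k, y = (e X) 0 1 := ⟨_, rfl⟩
  have hw : (e X) 1 1 = -x := by
    rw [hx]
    exact eq_neg_of_add_eq_zero_right hX'
  have hXm : e X = !![x, y; 0, -x] := by
    ext i j
    fin_cases i <;> fin_cases j <;> simp [hx, hy, hXu', hw]
  refine ⟨e.symm !![-(x + y) / 2, 0; x, (x + y) / 2], ?_, ?_⟩
  · rw [htr, AlgEquiv.apply_symm_apply, Matrix.trace_fin_two]
    simp only [Matrix.of_apply, Matrix.cons_val', Matrix.cons_val_zero, Matrix.cons_val_one,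
      Matrix.cons_val_fin_one]
    ring
  · apply e.injective
    have h2' : e (2 : Module.End k V) = 2 := map_ofNat e 2
    rw [map_sub, map_mul, map_mul, map_sub, AlgEquiv.apply_symm_apply, hU, hXm, h2', two_sub_eq]
    exact (matrix_identity h2 x y).symm

/-! ## [LQ-LIN-2] -/

theorem diag_comm_iff {k : Type} [Field k] {α β : k} (hαβ : α ≠ β)
    (A : Matrix (Fin 2) (Fin 2) k) :
    !![α, 0; 0, β] * A = A * !![α, 0; 0, β] ↔ A 0 1 = 0 ∧ A 1 0 = 0 := by
  have hne : α - β ≠ 0 := sub_ne_zero.mpr hαβ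
  constructor
  · intro h
    have h01 := congrFun (congrFun h 0) 1
    have h10 := congrFun (congrFun h 1) 0
    simp only [Matrix.mul_apply, Fin.sum_univ_two, Matrix.of_apply, Matrix.cons_val',
      Matrix.cons_val_zero, Matrix.cons_val_one, Matrix.cons_val_fin_one, zero_mul, mul_zero,
      add_zero, zero_add] at h01 h10
    constructor
    · have : (α - β) * A 0 1 = 0 := by linear_combination h01
      exact (mul_eq_zero.mp this).resolve_left hne
    · have : (α - β) * A 1 0 = 0 := by linear_combination -h10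
      exact (mul_eq_zero.mp this).resolve_left hne
  · rintro ⟨h01, h10⟩
    ext i j
    fin_cases i <;> fin_cases j <;>
      simp [Matrix.mul_apply, Fin.sum_univ_two, h01, h10, mul_comm]

/-- **[LQ-LIN-2]** -/
theorem centralizer : CentralizerStatement := by
  intro k V _ _ _ _ hV g α β hαβ hg W hW
  classical
  -- eigenvectors
  have hα : g.HasEigenvalue α :=
    (Module.End.hasEigenvalue_iff_isRoot_charpoly g α).mpr (by rw [hg]; simp)
  have hβ : g.HasEigenvalue β :=
    (Module.End.hasEigenvalue_iff_isRoot_charpoly g β).mpr (by rw [hg]; simp)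
  obtain ⟨v₁, hv₁⟩ := hα.exists_hasEigenvector
  obtain ⟨v₂, hv₂⟩ := hβ.exists_hasEigenvector
  have h1 : g v₁ = α • v₁ := hv₁.apply_eq_smul
  have h2 : g v₂ = β • v₂ := hv₂.apply_eq_smul
  have hv₁0 : v₁ ≠ 0 := hv₁.2
  have hv₂0 : v₂ ≠ 0 := hv₂.2
  have hne : α - β ≠ 0 := sub_ne_zero.mpr hαβ
  obtain ⟨b, hb0, hb1⟩ := exists_basis_of hV v₁ v₂ (by
    intro a c hac
    have h3 : (a * α) • v₁ + (c * β) • v₂ = 0 := by
      have := congrArg g hac
      simpa [map_add, map_smul, h1, h2, smul_smul] using this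
    have h4 : (a * (α - β)) • v₁ = 0 := by
      have h5 : (a * (α - β)) • v₁ = ((a * α) • v₁ + (c * β) • v₂) - β • (a • v₁ + c • v₂) := by
        rw [smul_add, smul_smul, smul_smul, mul_sub, sub_smul]
        rw [mul_comm β a, mul_comm β c]
        abel
      rw [h5, h3, hac, smul_zero, sub_zero]
    have ha : a = 0 := by
      rcases smul_eq_zero.mp h4 with h | h
      · exact (mul_eq_zero.mp h).resolve_right hne
      · exact absurd h hv₁0
    rw [ha, zero_smul, zero_add] at hac
    rcases smul_eq_zero.mp hac with h | h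
    · exact ⟨ha, h⟩
    · exact absurd h hv₂0)
  have hG : LinearMap.toMatrixAlgEquiv b g = !![α, 0; 0, β] :=
    toMatrix_eq_of b g α 0 0 β (by rw [hb0, hb1, zero_smul, add_zero, h1])
      (by rw [hb0, hb1, zero_smul, zero_add, h2])
  obtain ⟨e, he⟩ : ∃ e : Module.End k V ≃ₐ[k] Matrix (Fin 2) (Fin 2) k,
      e = LinearMap.toMatrixAlgEquiv b := ⟨_, rfl⟩
  rw [← he] at hG
  have htr : ∀ f : Module.End k V, LinearMap.trace k V f = (e f).trace := fun f => by
    rw [he]
    exact LinearMap.trace_eq_matrix_trace k b f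
  -- the generator
  have hD0 : e.symm !![1, 0; 0, -1] ≠ 0 := by
    intro h
    have := congrArg (fun A : Matrix (Fin 2) (Fin 2) k => A 0 0) (e.symm_apply_eq.mp h)
    simp at this
  have hWspan : W = Submodule.span k {e.symm !![1, 0; 0, -1]} := by
    ext X
    rw [hW X, Submodule.mem_span_singleton, htr, Matrix.trace_fin_two]
    have hcomm : g * X = X * g ↔ (e X) 0 1 = 0 ∧ (e X) 1 0 = 0 := by
      rw [← diag_comm_iff hαβ (e X), ← hG, ← map_mul, ← map_mul]
      exact e.injective.eq_iff.symm
    rw [hcomm]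
    constructor
    · rintro ⟨h00, h01, h10⟩
      refine ⟨(e X) 0 0, ?_⟩
      apply e.injective
      rw [map_smul, AlgEquiv.apply_symm_apply]
      have h11 : (e X) 1 1 = -(e X) 0 0 := eq_neg_of_add_eq_zero_right h00
      ext i j
      fin_cases i <;> fin_cases j <;> simp [h01, h10, h11]
    · rintro ⟨c, rfl⟩
      rw [map_smul, AlgEquiv.apply_symm_apply]
      simp
  rw [hWspan]
  exact finrank_span_singleton hD0

end Fermat.Agent.P1.helper32

end
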