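import Mathlib
import Fermat.Agent.P1.helper24_LQDefs

/-!
# P1 (S56), module LQ, package [TAMEFIN-W] (helper61, task 611)

The wild inertia group of a finite group acting faithfully on a Dedekind domain is a `q`-group:
`tameFinWild : Fermat.Agent.P1.helper24.TameFinWildStatement`.

Proof. For `g` wild and `y ∈ 𝔓 ^ i` one has `g y - y ∈ 𝔓 ^ (i + 1)` (`wild_pow_succ`). If `x` is
wild and `∀ y, x y - y ∈ 𝔓 ^ j`, then `x ^ k y - y ≡ k (x y - y)` modulo `𝔓 ^ (j + 1)`
(`wild_pow_sub`). If moreover `x ^ m = 1` with `m` prime to `q`, this gives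
`m (x y - y) ∈ 𝔓 ^ (j + 1)`, hence `x y - y ∈ 𝔓 ^ (j + 1)`; by induction `x y - y ∈ ⨅ j, 𝔓 ^ j = 0`
and `x = 1` by faithfulness (`wild_eq_one_of_coprime`). In general apply this to
`x ^ q ^ a` where `orderOf x = q ^ a * m`.
-/

set_option autoImplicit false

namespace Fermat.Agent.P1.helper61

open Fermat.Agent.P1.helper24

/-- A wild element moves `𝔓 ^ i` into `𝔓 ^ (i + 1)`. -/
theorem wild_pow_succ {B : Type} [CommRing B] {Γ : Type} [Group Γ] [MulSemiringAction Γ B]
    {𝔓 : Ideal B} {g : Γ} (hg : g ∈ wildInertia Γ 𝔓) (i : ℕ) :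
    ∀ y ∈ 𝔓 ^ i, g • y - y ∈ 𝔓 ^ (i + 1) := by
  induction i with
  | zero =>
    intro y _
    have := hg.1 y
    rw [Submodule.mem_toAddSubgroup] at this
    simpa using this
  | succ i ih =>
    intro y hy
    rw [pow_succ] at hy
    refine Submodule.mul_induction_on hy ?_ ?_
    · intro a ha b hb
      have h1 : g • a - a ∈ 𝔓 ^ (i + 1) := ih a ha
      have h2 : g • b - b ∈ 𝔓 ^ 2 := hg.2 b hb
      have h3 : g • a ∈ 𝔓 ^ i := by
        have : g • a = (g • a - a) + a := by ring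
        rw [this]
        exact (𝔓 ^ i).add_mem (Ideal.pow_le_pow_right (Nat.le_succ i) h1) ha
      have h4 : g • (a * b) - a * b = g • a * (g • b - b) + (g • a - a) * b := by
        rw [smul_mul']; ring
      rw [h4]
      refine (𝔓 ^ (i + 1 + 1)).add_mem ?_ ?_
      · have : 𝔓 ^ (i + 1 + 1) = 𝔓 ^ i * 𝔓 ^ 2 := by rw [← pow_add]
        rw [this]
        exact Ideal.mul_mem_mul h3 h2
      · rw [pow_succ 𝔓 (i + 1)]
        exact Ideal.mul_mem_mul h1 hb
    · intro a b ha hb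
      have : g • (a + b) - (a + b) = (g • a - a) + (g • b - b) := by
        rw [smul_add]; ring
      rw [this]
      exact (𝔓 ^ (i + 1 + 1)).add_mem ha hb

/-- If the wild element `x` is trivial modulo `𝔓 ^ j`, then `x ^ k y - y ≡ k (x y - y)` modulo
`𝔓 ^ (j + 1)`. -/
theorem wild_pow_sub {B : Type} [CommRing B] {Γ : Type} [Group Γ] [MulSemiringAction Γ B]
    {𝔓 : Ideal B} {x : Γ} (hx : x ∈ wildInertia Γ 𝔓) (j : ℕ)
    (hj : ∀ y : B, x • y - y ∈ 𝔓 ^ j) (k : ℕ) (y : B) :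
    x ^ k • y - y - (k : B) * (x • y - y) ∈ 𝔓 ^ (j + 1) := by
  induction k with
  | zero => simp
  | succ k ih =>
    have h1 : x ^ k • (x • y - y) - (x • y - y) ∈ 𝔓 ^ (j + 1) :=
      wild_pow_succ ((wildInertia Γ 𝔓).pow_mem hx k) j _ (hj y)
    have h2 : x ^ (k + 1) • y - y - ((k + 1 : ℕ) : B) * (x • y - y) =
        (x ^ k • (x • y - y) - (x • y - y)) + (x ^ k • y - y - (k : B) * (x • y - y)) := by
      rw [pow_succ, mul_smul, smul_sub]
      push_cast
      ring
    rw [h2]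
    exact (𝔓 ^ (j + 1)).add_mem h1 ih

/-- A wild element of order prime to `q` is trivial. -/
theorem wild_eq_one_of_coprime {B : Type} [CommRing B] [IsDedekindDomain B] {Γ : Type} [Group Γ]
    [MulSemiringAction Γ B] [FaithfulSMul Γ B] {𝔓 : Ideal B} [𝔓.IsMaximal] {q : ℕ}
    (hq𝔓 : (q : B) ∈ 𝔓) {x : Γ} (hx : x ∈ wildInertia Γ 𝔓) {m : ℕ} (hm : Nat.Coprime m q)
    (hxm : x ^ m = 1) : x = 1 := by
  have key : ∀ j : ℕ, ∀ y : B, x • y - y ∈ 𝔓 ^ j := by
    intro j
    induction j with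
    | zero => intro y; simp
    | succ j ih =>
      intro y
      have h1 := wild_pow_sub hx j ih m y
      rw [hxm, one_smul, sub_self, zero_sub, neg_mem_iff] at h1
      have hcop : IsCoprime (m : ℤ) ((q ^ (j + 1) : ℕ) : ℤ) :=
        Nat.isCoprime_iff_coprime.mpr (Nat.Coprime.pow_right _ hm)
      obtain ⟨a, b, hab⟩ := hcop
      have hab' : (a : B) * (m : B) + (b : B) * (q : B) ^ (j + 1) = 1 := by
        have := congrArg (Int.cast : ℤ → B) hab
        push_cast at this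
        exact this
      have h2 : x • y - y = (a : B) * ((m : B) * (x • y - y)) +
          ((b : B) * (x • y - y)) * (q : B) ^ (j + 1) := by
        calc x • y - y = ((a : B) * (m : B) + (b : B) * (q : B) ^ (j + 1)) * (x • y - y) := by
              rw [hab', one_mul]
          _ = _ := by ring
      rw [h2]
      refine (𝔓 ^ (j + 1)).add_mem (Ideal.mul_mem_left _ _ h1) (Ideal.mul_mem_left _ _ ?_)
      exact Ideal.pow_mem_pow hq𝔓 _
  have hbot : (⨅ j : ℕ, 𝔓 ^ j) = ⊥ :=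
    Ideal.iInf_pow_eq_bot_of_isDomain 𝔓 (Ideal.IsMaximal.ne_top inferInstance)
  refine FaithfulSMul.eq_of_smul_eq_smul (α := B) fun y => ?_
  have h3 : x • y - y ∈ (⨅ j : ℕ, 𝔓 ^ j) := by
    rw [Ideal.mem_iInf]
    exact fun j => key j y
  rw [hbot, Ideal.mem_bot, sub_eq_zero] at h3
  rw [h3, one_smul]

/-- **[TAMEFIN-W]** the wild inertia group is a `q`-group. -/
theorem tameFinWild : TameFinWildStatement := by
  intro B _ _ Γ _ _ _ _ 𝔓 _ q hq hq𝔓 x hx
  have hord : orderOf x ≠ 0 := (orderOf_pos x).ne'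
  obtain ⟨a, m, hm, hqm⟩ := Nat.exists_eq_pow_mul_and_not_dvd hord q hq.ne_one
  refine ⟨a, ?_⟩
  have hcop : Nat.Coprime m q := ((Nat.Prime.coprime_iff_not_dvd hq).mpr hm).symm
  refine wild_eq_one_of_coprime hq𝔓 ((wildInertia Γ 𝔓).pow_mem hx _) hcop ?_
  rw [← pow_mul, ← hqm, pow_orderOf_eq_one]

end Fermat.Agent.P1.helper61
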