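import Fermat.Agent.P1.helper62_LQUnram

/-!
# P1 (S56), module LQ, package [LQ-TB] (task 616): `h¹ ≤ 2 h⁰` for a module unramified at
`q ≡ 1 mod p`

Abstract cohomology in the vocabulary of `Fermat.Agent.S55`: for a group `G` with a
`TameStructure 𝒩 I σ q`, a field `k` in which `q = 1` and a finite-dimensional smooth
`k[G]`-module `A` on which `I` acts trivially, `H¹(𝒩, A)` is finite-dimensional of dimension at
most `2 dim A^G`.

* `lqZN A N` : the cocycles constant on the right cosets of `N`;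
* `lq_add_left`, `lq_pow`, `lq_P_zero`, `lq_cyc`, `lq_frob_fix` : the values of such a cocycle on
  inertia;
* `lq_level_bound` : the classes of level `N` span a space of dimension `≤ 2 h⁰`;
* `lq_exists_common_level` : finitely many classes have a common level;
* `tameBound` : the general statement; `tameBoundStatement : helper24.TameBoundStatement`.
-/

set_option autoImplicit false
set_option linter.unusedSectionVars false
set_option linter.unusedVariables false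
set_option linter.style.longLine false
set_option linter.style.haveILetI false

open groupCohomology Fermat.Agent.S55 Fermat.Agent.P1.helper70 Fermat.Agent.P1.helper24

noncomputable section

namespace Fermat.Agent.P1.helper62

section TB

variable {k G : Type} [Field k] [Group G] {A : Rep k G}

/-! ## Values of a cocycle on a subgroup acting trivially -/

section Values

variable {I : Subgroup G} {c : G → A} (hc : (d₁₂ A).hom c = 0) (hIt : ∀ i ∈ I, A.ρ i = 1)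

include hc hIt

lemma lq_add_left {i : G} (hi : i ∈ I) (g : G) : c (i * g) = c g + c i := by
  rw [lq_coc_mul hc, hIt i hi, Module.End.one_apply]

lemma lq_pow {i : G} (hi : i ∈ I) (n : ℕ) : c (i ^ n) = n • c i := by
  induction n with
  | zero => rw [pow_zero, lq_coc_one hc, zero_smul]
  | succ n ih =>
    rw [pow_succ, lq_add_left hc hIt (I.pow_mem hi n), ih, succ_nsmul, add_comm]

/-- an element of `I` with a `q`-power in the level is killed, if `q = 1` in `k` -/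
lemma lq_P_zero {q : ℕ} (hq : (q : k) = 1) {N : Subgroup G}
    (hN : ∀ g : G, ∀ s ∈ N, c (g * s) = c g) {x : G} (hx : x ∈ I)
    (hpow : ∃ a : ℕ, x ^ q ^ a ∈ N) : c x = 0 := by
  obtain ⟨a, ha⟩ := hpow
  have h1 := lq_coc_level hc hN _ ha
  rw [lq_pow hc hIt hx, ← Nat.cast_smul_eq_nsmul k, Nat.cast_pow, hq, one_pow, one_smul] at h1
  exact h1

/-- the values on `I` are multiples of the value at a generator modulo `P` -/
lemma lq_cyc {P : Subgroup G} (hP0 : ∀ x ∈ P, c x = 0) {τ : G} (hτ : τ ∈ I) {i : G} {n : ℕ}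
    (h : (τ ^ n)⁻¹ * i ∈ P) : c i = n • c τ := by
  have e : i = τ ^ n * ((τ ^ n)⁻¹ * i) := by group
  rw [e, lq_add_left hc hIt (I.pow_mem hτ n), hP0 _ h, zero_add, lq_pow hc hIt hτ]

/-- the values on `I` are fixed by `σ` -/
lemma lq_frob_fix {q : ℕ} (hq : (q : k) = 1) {P : Subgroup G} (hPI : P ≤ I)
    (hP0 : ∀ x ∈ P, c x = 0) {σ : G} {i : G} (hi : i ∈ I)
    (h : σ * i * σ⁻¹ * (i ^ q)⁻¹ ∈ P) : A.ρ σ (c i) = c i := by
  have h0 : A.ρ σ (c σ⁻¹) + c σ = 0 := by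
    rw [← lq_coc_mul hc, mul_inv_cancel, lq_coc_one hc]
  have e1 : c (σ * i * σ⁻¹) = A.ρ σ (c i) := by
    calc c (σ * i * σ⁻¹) = c (σ * (i * σ⁻¹)) := by rw [mul_assoc]
      _ = A.ρ σ (c (i * σ⁻¹)) + c σ := lq_coc_mul hc _ _
      _ = A.ρ σ (c σ⁻¹ + c i) + c σ := by rw [lq_add_left hc hIt hi]
      _ = A.ρ σ (c i) + (A.ρ σ (c σ⁻¹) + c σ) := by rw [map_add]; abel
      _ = A.ρ σ (c i) := by rw [h0, add_zero]
  have e2 : c (σ * i * σ⁻¹) = q • c i := by
    have e : σ * i * σ⁻¹ = (σ * i * σ⁻¹ * (i ^ q)⁻¹) * i ^ q := by group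
    rw [e, lq_add_left hc hIt (hPI h), lq_pow hc hIt hi, hP0 _ h, add_zero]
  rw [← e1, e2, ← Nat.cast_smul_eq_nsmul k, hq, one_smul]

end Values

/-! ## Cocycles of a fixed level -/

/-- the cocycles constant on the right cosets of `N` -/
def lqZN (A : Rep k G) (N : Subgroup G) : Submodule k (G → A) where
  carrier := {c | (d₁₂ A).hom c = 0 ∧ ∀ g : G, ∀ s ∈ N, c (g * s) = c g}
  add_mem' := by
    rintro c c' ⟨h, hN⟩ ⟨h', hN'⟩
    refine ⟨?_, fun g s hs => ?_⟩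
    · rw [map_add, h, h', add_zero]
    · rw [Pi.add_apply, Pi.add_apply, hN g s hs, hN' g s hs]
  zero_mem' := ⟨map_zero _, fun _ _ _ => rfl⟩
  smul_mem' := by
    rintro a c ⟨h, hN⟩
    refine ⟨?_, fun g s hs => ?_⟩
    · rw [map_smul, h, smul_zero]
    · rw [Pi.smul_apply, Pi.smul_apply, hN g s hs]

lemma mem_lqZN {N : Subgroup G} {c : G → A} :
    c ∈ lqZN A N ↔ (d₁₂ A).hom c = 0 ∧ ∀ g : G, ∀ s ∈ N, c (g * s) = c g := Iff.rfl

lemma lqZN_le {𝒩 : Levels G} {N : Subgroup G} (hN : N ∈ 𝒩.mem) : lqZN A N ≤ Z1 𝒩 A :=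
  fun _ h => ⟨⟨N, hN, h.2⟩, h.1⟩

/-- the class map `Z_N → H¹` -/
def lqFN (𝒩 : Levels G) (A : Rep k G) {N : Subgroup G} (hN : N ∈ 𝒩.mem) :
    ↥(lqZN A N) →ₗ[k] Fermat.Agent.S55.H1 𝒩 A :=
  (Submodule.mkQ _).comp (Submodule.inclusion (lqZN_le hN))

lemma lqFN_apply {𝒩 : Levels G} {N : Subgroup G} (hN : N ∈ 𝒩.mem) (c : ↥(lqZN A N)) :
    lqFN 𝒩 A hN c = Submodule.Quotient.mk ⟨(c : G → A), lqZN_le hN c.2⟩ := rfl

/-- evaluation at `σ` modulo `(σ - 1) A` -/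
def lqEvσ (A : Rep k G) (N : Subgroup G) (σ : G) :
    ↥(lqZN A N) →ₗ[k] ((A : Type) ⧸ LinearMap.range (A.ρ σ - 1 : Module.End k A)) :=
  (Submodule.mkQ _).comp
    ((LinearMap.proj (R := k) (φ := fun _ : G => (A : Type)) σ).comp (lqZN A N).subtype)

lemma lqEvσ_apply (N : Subgroup G) (σ : G) (c : ↥(lqZN A N)) :
    lqEvσ A N σ c = Submodule.Quotient.mk ((c : G → A) σ) := rfl

/-- the bound at a fixed level -/
lemma lq_level_bound {q : ℕ} (hq : (q : k) = 1) {𝒩 : Levels G} {I : Subgroup G} {σ : G}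
    (hT : TameStructure 𝒩 I σ q) [Module.Finite k A]
    (hIt : ∀ i ∈ I, A.ρ i = 1) {N₀ : Subgroup G} (hN₀ : N₀ ∈ 𝒩.mem)
    (hN₀t : ∀ s ∈ N₀, ∀ a : A, A.ρ s a = a) {N : Subgroup G} (hN : N ∈ 𝒩.mem) (hle : N ≤ N₀) :
    Module.Finite k ↥(LinearMap.range (lqFN 𝒩 A hN)) ∧
      Module.finrank k ↥(LinearMap.range (lqFN 𝒩 A hN)) ≤
        2 * Module.finrank k ↥(Fermat.Agent.S55.H0 A) := by
  obtain ⟨P, hPI, hNP, hconj, hpow, ⟨τ, hτ, hcyc⟩, hfrob⟩ := hT.tame N hN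
  have hgenN : ∀ g : G, ∃ n : ℕ, ∃ i ∈ I, ∃ s ∈ N, g = σ ^ n * i * s := hT.gen N hN
  have hgen₀ : ∀ g : G, ∃ n : ℕ, ∃ i ∈ I, ∃ s ∈ N₀, g = σ ^ n * i * s := by
    intro g
    obtain ⟨n, i, hi, s, hs, e⟩ := hgenN g
    exact ⟨n, i, hi, s, hle hs, e⟩
  have hIt' : ∀ i ∈ I, ∀ a : A, A.ρ i a = a := by
    intro i hi a
    rw [hIt i hi, Module.End.one_apply]
  -- cocycles of level `N` kill `P`
  have hP0 : ∀ c ∈ lqZN A N, ∀ x ∈ P, c x = 0 := fun c hc x hx =>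
    lq_P_zero hc.1 hIt hq hc.2 (hPI hx) (hpow x hx)
  -- the value at `τ` is invariant
  have hτ0 : ∀ c ∈ lqZN A N, c τ ∈ Fermat.Agent.S55.H0 A := fun c hc =>
    lq_mem_H0_of_gen hgen₀ hN₀t
      (lq_frob_fix hc.1 hIt hq hPI (hP0 c hc) hτ (hfrob τ hτ)) (fun i hi => hIt' i hi _)
  let g₂ : ↥(lqZN A N) →ₗ[k] ↥(Fermat.Agent.S55.H0 A) :=
    LinearMap.codRestrict (Fermat.Agent.S55.H0 A)
      ((LinearMap.proj (R := k) (φ := fun _ : G => (A : Type)) τ).comp (lqZN A N).subtype)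
      (fun c => hτ0 c c.2)
  have hg₂ : ∀ c : ↥(lqZN A N), ((g₂ c : ↥(Fermat.Agent.S55.H0 A)) : A) = (c : G → A) τ :=
    fun _ => rfl
  let Φ : ↥(lqZN A N) →ₗ[k]
      ((A : Type) ⧸ LinearMap.range (A.ρ σ - 1 : Module.End k A)) × ↥(Fermat.Agent.S55.H0 A) :=
    (lqEvσ A N σ).prod g₂
  have hker : LinearMap.ker Φ ≤ LinearMap.ker (lqFN 𝒩 A hN) := by
    intro c hcΦ
    rw [LinearMap.mem_ker] at hcΦ ⊢
    have h1 : lqEvσ A N σ c = 0 := congrArg Prod.fst hcΦ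
    have h2 : g₂ c = 0 := congrArg Prod.snd hcΦ
    have h2' : (c : G → A) τ = 0 := by
      rw [← hg₂, h2]; rfl
    rw [lqEvσ_apply, Submodule.Quotient.mk_eq_zero] at h1
    obtain ⟨m, hm⟩ := h1
    have hm' : A.ρ σ m - m = (c : G → A) σ := hm
    have hcoc : (d₁₂ A).hom (c : G → A) = 0 := c.2.1
    have hcoc' : (d₁₂ A).hom ((c : G → A) - (d₀₁ A).hom m) = 0 := by
      rw [map_sub, hcoc, d₀₁_comp_d₁₂_apply, sub_zero]
    have hzero : (c : G → A) - (d₀₁ A).hom m = 0 := by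
      refine lq_eq_zero_of_gen hgenN hcoc' ?_ ?_ ?_
      · rw [Pi.sub_apply, d₀₁_hom_apply, hm', sub_self]
      · intro i hi
        obtain ⟨n, hn⟩ := hcyc i hi
        rw [Pi.sub_apply, d₀₁_hom_apply, hIt' i hi, sub_self, sub_zero,
          lq_cyc hcoc hIt (hP0 _ c.2) hτ hn, h2', smul_zero]
      · intro s hs
        rw [Pi.sub_apply, d₀₁_hom_apply, hN₀t s (hle hs), sub_self, sub_zero]
        exact lq_coc_level hcoc c.2.2 s hs
    rw [lqFN_apply, Submodule.Quotient.mk_eq_zero, Submodule.mem_comap]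
    exact ⟨m, (sub_eq_zero.1 hzero).symm⟩
  obtain ⟨hF, hb⟩ := lq_finrank_range_le_of_ker_le (lqFN 𝒩 A hN) Φ hker
  refine ⟨hF, hb.trans ?_⟩
  rw [Module.finrank_prod, lq_finrank_coker, two_mul]
  refine Nat.add_le_add_right ?_ _
  -- `ker (σ - 1) ≤ A^G`
  have hkle : LinearMap.ker (A.ρ σ - 1 : Module.End k A) ≤ Fermat.Agent.S55.H0 A := by
    intro x hx
    rw [LinearMap.mem_ker, LinearMap.sub_apply, Module.End.one_apply, sub_eq_zero] at hx
    exact lq_mem_H0_of_gen hgen₀ hN₀t hx (fun i hi => hIt' i hi x)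
  exact Submodule.finrank_mono hkle

/-! ## Common levels -/

lemma lq_exists_common_level (𝒩 : Levels G) (A : Rep k G) {N₀ : Subgroup G} (hN₀ : N₀ ∈ 𝒩.mem)
    (s : Finset (Fermat.Agent.S55.H1 𝒩 A)) :
    ∃ N, ∃ hN : N ∈ 𝒩.mem, N ≤ N₀ ∧ ∀ x ∈ s, x ∈ LinearMap.range (lqFN 𝒩 A hN) := by
  classical
  induction s using Finset.induction_on with
  | empty => exact ⟨N₀, hN₀, le_rfl, fun x hx => absurd hx (Finset.notMem_empty x)⟩
  | insert x s hx ih =>
    obtain ⟨N, hN, hle, hs⟩ := ih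
    obtain ⟨c, rfl⟩ := Submodule.Quotient.mk_surjective _ x
    obtain ⟨⟨Nc, hNc, hNct⟩, hcoc⟩ := c.2
    obtain ⟨N', hN', hle'⟩ := 𝒩.directed N hN Nc hNc
    refine ⟨N', hN', fun t ht => hle (hle' ht).1, fun y hy => ?_⟩
    rw [Finset.mem_insert] at hy
    rcases hy with rfl | hy
    · exact ⟨⟨(c : G → A), hcoc, fun g t ht => hNct g t (hle' ht).2⟩, rfl⟩
    · obtain ⟨d, rfl⟩ := hs y hy
      exact ⟨⟨(d : G → A), d.2.1, fun g t ht => d.2.2 g t (hle' ht).1⟩, rfl⟩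

/-! ## The bound -/

/-- **[LQ-TB]**, over any field in which `q = 1` -/
theorem tameBound {q : ℕ} (hq : (q : k) = 1) {𝒩 : Levels G} {I : Subgroup G} {σ : G}
    (hT : TameStructure 𝒩 I σ q) [Module.Finite k A] (hA : IsSmooth 𝒩 A)
    (hIt : ∀ i ∈ I, A.ρ i = 1) :
    Module.Finite k (Fermat.Agent.S55.H1 𝒩 A) ∧
      Module.finrank k (Fermat.Agent.S55.H1 𝒩 A) ≤
        2 * Module.finrank k ↥(Fermat.Agent.S55.H0 A) := by
  obtain ⟨N₀, hN₀, hN₀t⟩ := hA
  have key : ∀ s : Finset (Fermat.Agent.S55.H1 𝒩 A),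
      (LinearIndependent k fun i : s => (i : Fermat.Agent.S55.H1 𝒩 A)) →
        s.card ≤ 2 * Module.finrank k ↥(Fermat.Agent.S55.H0 A) := by
    intro s hs
    obtain ⟨N, hN, hle, hmem⟩ := lq_exists_common_level 𝒩 A hN₀ s
    obtain ⟨hF, hb⟩ := lq_level_bound hq hT hIt hN₀ hN₀t hN hle
    haveI := hF
    let v : s → ↥(LinearMap.range (lqFN 𝒩 A hN)) := fun i => ⟨(i : _), hmem i i.2⟩
    have hv : LinearIndependent k v := by
      refine LinearIndependent.of_comp (LinearMap.range (lqFN 𝒩 A hN)).subtype ?_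
      exact hs
    have := hv.fintype_card_le_finrank
    rw [Fintype.card_coe] at this
    exact this.trans hb
  have hr : Module.rank k (Fermat.Agent.S55.H1 𝒩 A) ≤
      ((2 * Module.finrank k ↥(Fermat.Agent.S55.H0 A) : ℕ) : Cardinal) := rank_le key
  exact ⟨Module.rank_lt_aleph0_iff.1 (lt_of_le_of_lt hr Cardinal.natCast_lt_aleph0),
    Module.finrank_le_of_rank_le hr⟩

end TB

/-- **[LQ-TB]** -/
theorem tameBoundStatement : TameBoundStatement := by
  intro p q _ hq G _ 𝒩 I σ hT A hfin hA hIt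
  haveI := hfin
  exact tameBound hq hT hA hIt

end Fermat.Agent.P1.helper62
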