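import Fermat.Agent.P1.helper24_LQDefs

/-!
# P1 (S56), module LQ, package [LQ-UR] (task 615): unramified classes have dimension `≤ h⁰`

Abstract cohomology in the vocabulary of `Fermat.Agent.S55` (`Levels`, `Z1`, `B1`, `H0`, `H1`,
`IsSmooth`): for a group `G` generated modulo every level by an element `σ` and a normal
subgroup `I`, the classes of the level cocycles which are coboundaries on `I` form a space of
dimension at most `dim A^G`.

* `lq_coc_mul`, `lq_coc_one`, `lq_vanish`, `lq_eq_zero_of_gen` : cocycle calculus;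
* `lq_mem_H0_of_gen` : `A^σ ∩ A^I = A^G`;
* `lq_finrank_coker` : rank-nullity in the form `dim V / T V = dim ker T`;
* `lq_finrank_range_le_of_ker_le` : `ker g ≤ ker f` implies `dim range f ≤ dim range g`;
* `unramBoundStatement : helper24.UnramBoundStatement`.
-/

set_option autoImplicit false
set_option linter.unusedSectionVars false
set_option linter.unusedVariables false
set_option linter.style.longLine false
set_option linter.style.haveILetI false

open groupCohomology Fermat.Agent.S55 Fermat.Agent.P1.helper70 Fermat.Agent.P1.helper24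

noncomputable section

namespace Fermat.Agent.P1.helper62

/-! ## Cocycle calculus -/

section Cocycle

variable {k G : Type} [CommRing k] [Group G] {A : Rep k G}

/-- the cocycle identity -/
lemma lq_coc_mul {c : G → A} (hc : (d₁₂ A).hom c = 0) (g h : G) :
    c (g * h) = A.ρ g (c h) + c g := by
  have h1 := congrFun hc (g, h)
  rw [d₁₂_hom_apply] at h1
  have h2 : A.ρ g (c h) - c (g * h) + c g = 0 := h1
  have h3 : c (g * h) = A.ρ g (c h) + c g - (A.ρ g (c h) - c (g * h) + c g) := by abel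
  rw [h3, h2, sub_zero]

lemma lq_coc_one {c : G → A} (hc : (d₁₂ A).hom c = 0) : c 1 = 0 := by
  have h := lq_coc_mul hc 1 1
  rw [mul_one, map_one, Module.End.one_apply] at h
  exact left_eq_add.mp h

/-- the vanishing set of a cocycle is a subgroup -/
def lq_vanish (c : G → A) (hc : (d₁₂ A).hom c = 0) : Subgroup G where
  carrier := {g | c g = 0}
  one_mem' := lq_coc_one hc
  mul_mem' := by
    intro g h hg hh
    have hg' : c g = 0 := hg
    have hh' : c h = 0 := hh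
    show c (g * h) = 0
    rw [lq_coc_mul hc, hh', hg', map_zero, add_zero]
  inv_mem' := by
    intro g hg
    have hg' : c g = 0 := hg
    have h := lq_coc_mul hc g⁻¹ g
    rw [inv_mul_cancel, lq_coc_one hc, hg', map_zero, zero_add] at h
    exact h.symm

lemma mem_lq_vanish {c : G → A} {hc : (d₁₂ A).hom c = 0} {g : G} :
    g ∈ lq_vanish c hc ↔ c g = 0 := Iff.rfl

/-- a cocycle vanishing on `σ`, on `I` and on `N` vanishes if `G = ⟨σ⟩ I N` -/
lemma lq_eq_zero_of_gen {I N : Subgroup G} {σ : G}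
    (hgen : ∀ g : G, ∃ n : ℕ, ∃ i ∈ I, ∃ s ∈ N, g = σ ^ n * i * s)
    {c : G → A} (hc : (d₁₂ A).hom c = 0) (hσ : c σ = 0) (hI : ∀ i ∈ I, c i = 0)
    (hN : ∀ s ∈ N, c s = 0) : c = 0 := by
  funext g
  obtain ⟨n, i, hi, s, hs, rfl⟩ := hgen g
  have h1 : σ ^ n ∈ lq_vanish c hc := (lq_vanish c hc).pow_mem hσ n
  have h2 : i ∈ lq_vanish c hc := hI i hi
  have h3 : s ∈ lq_vanish c hc := hN s hs
  exact (lq_vanish c hc).mul_mem ((lq_vanish c hc).mul_mem h1 h2) h3

/-- a level-constant cocycle vanishes on its level -/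
lemma lq_coc_level {N : Subgroup G} {c : G → A} (hc : (d₁₂ A).hom c = 0)
    (hN : ∀ g : G, ∀ s ∈ N, c (g * s) = c g) : ∀ s ∈ N, c s = 0 := by
  intro s hs
  have h := hN 1 s hs
  rwa [one_mul, lq_coc_one hc] at h

/-- `A^σ ∩ A^I ∩ A^N = A^G` if `G = ⟨σ⟩ I N` -/
lemma lq_mem_H0_of_gen {I N : Subgroup G} {σ : G}
    (hgen : ∀ g : G, ∃ n : ℕ, ∃ i ∈ I, ∃ s ∈ N, g = σ ^ n * i * s)
    (hN : ∀ s ∈ N, ∀ a : A, A.ρ s a = a) {x : A} (hσ : A.ρ σ x = x)
    (hI : ∀ i ∈ I, A.ρ i x = x) : x ∈ Fermat.Agent.S55.H0 A := by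
  intro g
  obtain ⟨n, i, hi, s, hs, rfl⟩ := hgen g
  rw [map_mul, map_mul, Module.End.mul_apply, Module.End.mul_apply, hN s hs, hI i hi, map_pow]
  induction n with
  | zero => rw [pow_zero, Module.End.one_apply]
  | succ n ih => rw [pow_succ, Module.End.mul_apply, hσ, ih]

/-- `d₀₁ m` is a level cocycle for smooth `A` -/
lemma lq_d₀₁_mem_Z1 {𝒩 : Levels G} (hA : IsSmooth 𝒩 A) (m : A) : (d₀₁ A).hom m ∈ Z1 𝒩 A := by
  obtain ⟨N, hN, h⟩ := hA
  refine ⟨⟨N, hN, fun g s hs => ?_⟩, d₀₁_comp_d₁₂_apply A m⟩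
  simp only [d₀₁_hom_apply, map_mul, Module.End.mul_apply, h s hs]

end Cocycle

/-! ## Linear algebra -/

section LinAlg

variable {k : Type} [Field k]

/-- rank-nullity: `dim V / T V = dim ker T` -/
lemma lq_finrank_coker {V : Type} [AddCommGroup V] [Module k V] [Module.Finite k V]
    (T : V →ₗ[k] V) :
    Module.finrank k (V ⧸ LinearMap.range T) = Module.finrank k (LinearMap.ker T) := by
  have h1 := Submodule.finrank_quotient_add_finrank (LinearMap.range T)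
  have h2 := LinearMap.finrank_range_add_finrank_ker T
  omega

/-- if `ker g ≤ ker f` and the target of `g` is finite-dimensional, the range of `f` is
finite-dimensional of dimension at most the dimension of the target of `g` -/
lemma lq_finrank_range_le_of_ker_le {Z V W : Type} [AddCommGroup Z] [Module k Z]
    [AddCommGroup V] [Module k V] [AddCommGroup W] [Module k W] [Module.Finite k W]
    (f : Z →ₗ[k] V) (g : Z →ₗ[k] W) (h : LinearMap.ker g ≤ LinearMap.ker f) :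
    Module.Finite k ↥(LinearMap.range f) ∧
      Module.finrank k ↥(LinearMap.range f) ≤ Module.finrank k W := by
  let e := g.quotKerEquivRange
  haveI : Module.Finite k (Z ⧸ LinearMap.ker g) := Module.Finite.equiv e.symm
  let φ : (Z ⧸ LinearMap.ker g) →ₗ[k] V := (LinearMap.ker g).liftQ f h
  have hφ : LinearMap.range φ = LinearMap.range f := Submodule.range_liftQ _ _ _
  rw [← hφ]
  refine ⟨inferInstance, ?_⟩
  calc Module.finrank k ↥(LinearMap.range φ) ≤ Module.finrank k (Z ⧸ LinearMap.ker g) :=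
        LinearMap.finrank_range_le φ
    _ = Module.finrank k ↥(LinearMap.range g) := e.finrank_eq
    _ ≤ Module.finrank k W := Submodule.finrank_le _

end LinAlg

/-! ## [LQ-UR] -/

section UR

variable {k G : Type} [Field k] [Group G] (𝒩 : Levels G) (I : Subgroup G) (σ : G) (A : Rep k G)

/-- the `I`-invariants of `A` -/
def lqInv : Submodule k A where
  carrier := {a | ∀ i ∈ I, A.ρ i a = a}
  add_mem' := by
    intro a b ha hb i hi
    rw [map_add, ha i hi, hb i hi]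
  zero_mem' := fun i _ => map_zero _
  smul_mem' := by
    intro c a ha i hi
    rw [map_smul, ha i hi]

lemma mem_lqInv {a : A} : a ∈ lqInv I A ↔ ∀ i ∈ I, A.ρ i a = a := Iff.rfl

/-- `σ - 1` preserves the `I`-invariants when `I` is normal -/
lemma lq_sub_mem_lqInv (hI : I.Normal) {a : A} (ha : a ∈ lqInv I A) :
    (A.ρ σ - 1 : Module.End k A) a ∈ lqInv I A := by
  intro i hi
  have h1 : σ⁻¹ * i * σ ∈ I := by
    have := hI.conj_mem i hi σ⁻¹
    rwa [inv_inv] at this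
  have h2 : i * σ = σ * (σ⁻¹ * i * σ) := by group
  rw [LinearMap.sub_apply, Module.End.one_apply, map_sub, ← Module.End.mul_apply, ← map_mul, h2,
    map_mul, Module.End.mul_apply, ha _ h1, ha i hi]

/-- `σ - 1` on the `I`-invariants -/
def lqT (hI : I.Normal) : ↥(lqInv I A) →ₗ[k] ↥(lqInv I A) :=
  (A.ρ σ - 1 : Module.End k A).restrict (p := lqInv I A) (q := lqInv I A)
    (fun _ ha => lq_sub_mem_lqInv I σ A hI ha)

lemma lqT_coe (hI : I.Normal) (a : ↥(lqInv I A)) :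
    ((lqT I σ A hI a : ↥(lqInv I A)) : A) = A.ρ σ (a : A) - (a : A) := rfl

/-- level cocycles vanishing on `I` -/
def lqZur : Submodule k (G → A) where
  carrier := {c | c ∈ Z1 𝒩 A ∧ ∀ i ∈ I, c i = 0}
  add_mem' := by
    rintro c c' ⟨h, h0⟩ ⟨h', h0'⟩
    refine ⟨(Z1 𝒩 A).add_mem h h', fun i hi => ?_⟩
    rw [Pi.add_apply, h0 i hi, h0' i hi, add_zero]
  zero_mem' := ⟨(Z1 𝒩 A).zero_mem, fun _ _ => rfl⟩
  smul_mem' := by
    rintro a c ⟨h, h0⟩
    refine ⟨(Z1 𝒩 A).smul_mem a h, fun i hi => ?_⟩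
    rw [Pi.smul_apply, h0 i hi, smul_zero]

lemma lqZur_le : lqZur 𝒩 I A ≤ Z1 𝒩 A := fun _ h => h.1

/-- the value at `σ` of a cocycle vanishing on the normal subgroup `I` is `I`-invariant -/
lemma lq_apply_mem_lqInv (hI : I.Normal) {c : G → A} (hc : c ∈ lqZur 𝒩 I A) :
    c σ ∈ lqInv I A := by
  intro i hi
  have hcoc : (d₁₂ A).hom c = 0 := hc.1.2
  have h1 : σ⁻¹ * i * σ ∈ I := by
    have := hI.conj_mem i hi σ⁻¹
    rwa [inv_inv] at this
  have h2 : i * σ = σ * (σ⁻¹ * i * σ) := by group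
  have e1 : c (i * σ) = A.ρ i (c σ) := by
    rw [lq_coc_mul hcoc, hc.2 i hi, add_zero]
  have e2 : c (i * σ) = c σ := by
    rw [h2, lq_coc_mul hcoc, hc.2 _ h1, map_zero, zero_add]
  rw [← e1, e2]

/-- the class map `Zur → H¹` -/
def lqF : ↥(lqZur 𝒩 I A) →ₗ[k] Fermat.Agent.S55.H1 𝒩 A :=
  (Submodule.mkQ _).comp (Submodule.inclusion (lqZur_le 𝒩 I A))

lemma lqF_apply (c : ↥(lqZur 𝒩 I A)) :
    lqF 𝒩 I A c = Submodule.Quotient.mk ⟨(c : G → A), lqZur_le 𝒩 I A c.2⟩ := rfl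

/-- evaluation at `σ`, `Zur → A^I` -/
def lqEv (hI : I.Normal) : ↥(lqZur 𝒩 I A) →ₗ[k] ↥(lqInv I A) :=
  LinearMap.codRestrict (lqInv I A)
    ((LinearMap.proj (R := k) (φ := fun _ : G => (A : Type)) σ).comp (lqZur 𝒩 I A).subtype)
    (fun c => lq_apply_mem_lqInv 𝒩 I σ A hI c.2)

lemma lqEv_coe (hI : I.Normal) (c : ↥(lqZur 𝒩 I A)) :
    ((lqEv 𝒩 I σ A hI c : ↥(lqInv I A)) : A) = (c : G → A) σ := rfl

/-- evaluation at `σ` modulo `(σ - 1) A^I` -/
def lqG (hI : I.Normal) :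
    ↥(lqZur 𝒩 I A) →ₗ[k] (↥(lqInv I A) ⧸ LinearMap.range (lqT I σ A hI)) :=
  (Submodule.mkQ _).comp (lqEv 𝒩 I σ A hI)

variable {𝒩 I σ A}

lemma lq_ker_le (hI : I.Normal)
    (hgen : ∀ N ∈ 𝒩.mem, ∀ g : G, ∃ n : ℕ, ∃ i ∈ I, ∃ s ∈ N, g = σ ^ n * i * s)
    (hA : IsSmooth 𝒩 A) :
    LinearMap.ker (lqG 𝒩 I σ A hI) ≤ LinearMap.ker (lqF 𝒩 I A) := by
  intro c hc
  rw [LinearMap.mem_ker] at hc ⊢
  have h1 : lqEv 𝒩 I σ A hI c ∈ LinearMap.range (lqT I σ A hI) :=
    (Submodule.Quotient.mk_eq_zero _).1 hc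
  obtain ⟨m, hm⟩ := h1
  have hm' : A.ρ σ (m : A) - (m : A) = (c : G → A) σ := by
    have := congrArg (Subtype.val) hm
    rwa [lqT_coe, lqEv_coe] at this
  obtain ⟨N₀, hN₀, hN₀t⟩ := hA
  obtain ⟨⟨Nc, hNc, hNct⟩, hcoc⟩ := c.2.1
  obtain ⟨N, hN, hle⟩ := 𝒩.directed N₀ hN₀ Nc hNc
  have hcoc' : (d₁₂ A).hom ((c : G → A) - (d₀₁ A).hom (m : A)) = 0 := by
    rw [map_sub, hcoc, d₀₁_comp_d₁₂_apply, sub_zero]
  have hzero : (c : G → A) - (d₀₁ A).hom (m : A) = 0 := by
    refine lq_eq_zero_of_gen (hgen N hN) hcoc' ?_ ?_ ?_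
    · rw [Pi.sub_apply, d₀₁_hom_apply, hm', sub_self]
    · intro i hi
      rw [Pi.sub_apply, d₀₁_hom_apply, c.2.2 i hi, m.2 i hi, sub_self, sub_zero]
    · intro s hs
      rw [Pi.sub_apply, d₀₁_hom_apply, hN₀t s (hle hs).1, sub_self, sub_zero]
      exact lq_coc_level hcoc hNct s (hle hs).2
  rw [lqF_apply, Submodule.Quotient.mk_eq_zero, Submodule.mem_comap]
  exact ⟨(m : A), (sub_eq_zero.1 hzero).symm⟩

lemma lq_classes_le (hA : IsSmooth 𝒩 A) :
    classes 𝒩 A (unramCochains A I) ≤ LinearMap.range (lqF 𝒩 I A) := by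
  rintro x ⟨c, hc, rfl⟩
  obtain ⟨m, hm'⟩ := (hc : (c : G → A) ∈ unramCochains A I)
  have hm : ∀ i ∈ I, (c : G → A) i = A.ρ i m - m := hm'
  have hd : (d₀₁ A).hom m ∈ Z1 𝒩 A := lq_d₀₁_mem_Z1 hA m
  have hc' : (c : G → A) - (d₀₁ A).hom m ∈ lqZur 𝒩 I A := by
    refine ⟨(Z1 𝒩 A).sub_mem c.2 hd, fun i hi => ?_⟩
    rw [Pi.sub_apply, d₀₁_hom_apply, hm i hi, sub_self]
  refine ⟨⟨_, hc'⟩, ?_⟩
  rw [lqF_apply]
  change Submodule.Quotient.mk _ = Submodule.Quotient.mk c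
  rw [Submodule.Quotient.eq, Submodule.mem_comap]
  refine ⟨-m, ?_⟩
  rw [map_neg]
  change -(d₀₁ A).hom m = ((c : G → A) - (d₀₁ A).hom m) - (c : G → A)
  abel

/-- **[LQ-UR]** -/
theorem unramBoundStatement : UnramBoundStatement := by
  intro k G _ _ 𝒩 I σ hI hgen A hfin hA
  haveI := hfin
  obtain ⟨hF, hle⟩ := lq_finrank_range_le_of_ker_le (lqF 𝒩 I A) (lqG 𝒩 I σ A hI)
    (lq_ker_le hI hgen hA)
  haveI := hF
  have hcl := lq_classes_le (𝒩 := 𝒩) (I := I) hA
  refine ⟨Submodule.finiteDimensional_of_le hcl, ?_⟩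
  refine (Submodule.finrank_mono hcl).trans (hle.trans ?_)
  rw [lq_finrank_coker]
  -- `ker (σ - 1 | A^I) ↪ A^G`
  obtain ⟨N₀, hN₀, hN₀t⟩ := hA
  let ψ : ↥(LinearMap.ker (lqT I σ A hI)) →ₗ[k] ↥(Fermat.Agent.S55.H0 A) :=
    LinearMap.codRestrict (Fermat.Agent.S55.H0 A)
      ((lqInv I A).subtype.comp (LinearMap.ker (lqT I σ A hI)).subtype)
      (fun x => by
        have hx : lqT I σ A hI x.1 = 0 := x.2
        have hx' : A.ρ σ (x.1 : A) - (x.1 : A) = 0 := by
          have := congrArg Subtype.val hx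
          rwa [lqT_coe] at this
        exact lq_mem_H0_of_gen (hgen N₀ hN₀) hN₀t (sub_eq_zero.1 hx') x.1.2)
  have hψ : Function.Injective ψ := by
    intro x y hxy
    have := congrArg Subtype.val hxy
    exact Subtype.ext (Subtype.ext this)
  exact LinearMap.finrank_le_finrank_of_injective hψ

end UR

end Fermat.Agent.P1.helper62
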