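import Fermat.Agent.P1.helper24_LQDefs

/-!
# P1 / LQ (helper64): the tame character

For a group `Γ` acting on a Dedekind domain `B` and a nonzero maximal ideal `𝔓`, the inertia
group acts on the line `𝔓 / 𝔓 ^ 2` over `B ⧸ 𝔓` through a character
`θ : 𝔓.inertia Γ →* (B ⧸ 𝔓)ˣ` whose kernel is the wild inertia group.  Consequences:

* `tameFinCyclic : TameFinCyclicStatement` (inertia modulo wild inertia is cyclic);
* `tameFinFrob : TameFinFrobStatement` (a Frobenius element acts on tame inertia by `i ↦ i ^ q`).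

The character is described by the relation `ActsBy 𝔓 g d` : `g • c - d * c ∈ 𝔓 ^ 2` for all
`c ∈ 𝔓`.
-/

set_option autoImplicit false
set_option linter.unusedSectionVars false

open scoped Pointwise

namespace Fermat.Agent.P1.helper64

open Fermat.Agent.P1.helper24

section ActsBy

variable {B : Type} [CommRing B] {Γ : Type} [Group Γ] [MulSemiringAction Γ B] (𝔓 : Ideal B)

/-- `g` acts on `𝔓 / 𝔓 ^ 2` as the multiplication by `d`. -/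
def ActsBy (g : Γ) (d : B) : Prop := ∀ c ∈ 𝔓, g • c - d * c ∈ 𝔓 ^ 2

variable {𝔓}

lemma sub_mem_of_mem_inertia {g : Γ} (hg : g ∈ 𝔓.inertia Γ) (x : B) : g • x - x ∈ 𝔓 := hg x

lemma smul_mem_of_mem_inertia {g : Γ} (hg : g ∈ 𝔓.inertia Γ) {x : B} (hx : x ∈ 𝔓) :
    g • x ∈ 𝔓 := by
  have h := 𝔓.add_mem (sub_mem_of_mem_inertia hg x) hx
  rwa [sub_add_cancel] at h

lemma smul_mem_sq_of_stable {g : Γ} (hg : ∀ x ∈ 𝔓, g • x ∈ 𝔓) {x : B} (hx : x ∈ 𝔓 ^ 2) :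
    g • x ∈ 𝔓 ^ 2 := by
  rw [pow_two] at hx ⊢
  refine Submodule.mul_induction_on hx ?_ ?_
  · intro a ha b hb
    rw [smul_mul']
    exact Ideal.mul_mem_mul (hg a ha) (hg b hb)
  · intro a b ha hb
    rw [smul_add]
    exact Ideal.add_mem _ ha hb

lemma actsBy_one : ActsBy 𝔓 (1 : Γ) 1 := fun c _ => by
  rw [one_smul, one_mul, sub_self]
  exact zero_mem _

lemma ActsBy.mul {g h : Γ} {d d' : B} (hg : ActsBy 𝔓 g d) (hh : ActsBy 𝔓 h d')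
    (hhP : ∀ x ∈ 𝔓, h • x ∈ 𝔓) : ActsBy 𝔓 (g * h) (d * d') := by
  intro c hc
  have h1 := hg (h • c) (hhP c hc)
  have h2 := hh c hc
  have e : (g * h) • c - d * d' * c = (g • (h • c) - d * (h • c)) + d * (h • c - d' * c) := by
    rw [mul_smul]
    ring
  rw [e]
  exact Ideal.add_mem _ h1 (Ideal.mul_mem_left _ _ h2)

lemma ActsBy.congr {g : Γ} {d d' : B} (hg : ActsBy 𝔓 g d) (hd : d - d' ∈ 𝔓) :
    ActsBy 𝔓 g d' := by
  intro c hc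
  have e : g • c - d' * c = (g • c - d * c) + (d - d') * c := by ring
  rw [e]
  refine Ideal.add_mem _ (hg c hc) ?_
  rw [pow_two]
  exact Ideal.mul_mem_mul hd hc

lemma ActsBy.pow {g : Γ} {d : B} (hg : ActsBy 𝔓 g d) (hgP : ∀ x ∈ 𝔓, g • x ∈ 𝔓) (n : ℕ) :
    ActsBy 𝔓 (g ^ n) (d ^ n) := by
  induction n with
  | zero =>
    rw [pow_zero, pow_zero]
    exact actsBy_one
  | succ n ih =>
    rw [pow_succ, pow_succ]
    exact ih.mul hg hgP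

/-- conjugation by an element stabilising `𝔓` -/
lemma ActsBy.conj {i σ : Γ} {d : B} (hi : ActsBy 𝔓 i d) (hσ : ∀ x ∈ 𝔓, σ • x ∈ 𝔓)
    (hσ' : ∀ x ∈ 𝔓, σ⁻¹ • x ∈ 𝔓) : ActsBy 𝔓 (σ * i * σ⁻¹) (σ • d) := by
  intro c hc
  have e : (σ * i * σ⁻¹) • c - σ • d * c = σ • (i • (σ⁻¹ • c) - d * (σ⁻¹ • c)) := by
    rw [smul_sub, smul_mul', smul_inv_smul, mul_smul, mul_smul]
  rw [e]
  exact smul_mem_sq_of_stable hσ (hi _ (hσ' c hc))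

lemma actsBy_one_iff {g : Γ} : ActsBy 𝔓 g 1 ↔ ∀ x ∈ 𝔓, g • x - x ∈ 𝔓 ^ 2 := by
  unfold ActsBy
  simp only [one_mul]

end ActsBy

section Dedekind

variable {B : Type} [CommRing B] [IsDedekindDomain B] {Γ : Type} [Group Γ]
  [MulSemiringAction Γ B] {𝔓 : Ideal B} [𝔓.IsMaximal]

/-- a uniformiser -/
lemma exists_mem_not_mem_sq (h𝔓 : 𝔓 ≠ ⊥) : ∃ π ∈ 𝔓, π ∉ 𝔓 ^ (1 + 1) := by
  have hlt : 𝔓 ^ (1 + 1) < 𝔓 ^ 1 := Ideal.pow_succ_lt_pow h𝔓 1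
  obtain ⟨π, hπ, hπ'⟩ := SetLike.exists_of_lt hlt
  rw [pow_one] at hπ
  exact ⟨π, hπ, hπ'⟩

/-- every element of the inertia group acts on `𝔓 / 𝔓 ^ 2` by a scalar -/
lemma exists_actsBy (h𝔓 : 𝔓 ≠ ⊥) {g : Γ} (hg : g ∈ 𝔓.inertia Γ) : ∃ d : B, ActsBy 𝔓 g d := by
  obtain ⟨π, hπ, hπ'⟩ := exists_mem_not_mem_sq h𝔓
  have hπ1 : π ∈ 𝔓 ^ 1 := by rw [pow_one]; exact hπ
  have hgπ : g • π ∈ 𝔓 ^ 1 := by rw [pow_one]; exact smul_mem_of_mem_inertia hg hπ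
  obtain ⟨d, e, he, hde⟩ := Ideal.exists_mul_add_mem_pow_succ h𝔓 π (g • π) hπ1 hπ' hgπ
  refine ⟨d, fun c hc => ?_⟩
  have hc1 : c ∈ 𝔓 ^ 1 := by rw [pow_one]; exact hc
  obtain ⟨b, e', he', hbe⟩ := Ideal.exists_mul_add_mem_pow_succ h𝔓 π c hπ1 hπ' hc1
  have he2 : e ∈ 𝔓 ^ 2 := he
  have he'2 : e' ∈ 𝔓 ^ 2 := he'
  have hge' : g • e' ∈ 𝔓 ^ 2 :=
    smul_mem_sq_of_stable (fun x hx => smul_mem_of_mem_inertia hg hx) he'2
  have hgb : g • b - b ∈ 𝔓 := sub_mem_of_mem_inertia hg b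
  have e1 : g • c - d * c = (π * d) * (g • b - b) + e * (g • b) + g • e' - d * e' := by
    rw [← hbe, smul_add, smul_mul', ← hde]
    ring
  rw [e1]
  refine Ideal.sub_mem _ (Ideal.add_mem _ (Ideal.add_mem _ ?_ ?_) hge') ?_
  · rw [pow_two]
    exact Ideal.mul_mem_mul (Ideal.mul_mem_right _ _ hπ) hgb
  · exact Ideal.mul_mem_right _ _ he2
  · exact Ideal.mul_mem_left _ _ he'2

/-- the scalar is unique modulo `𝔓` -/
lemma ActsBy.unique (h𝔓 : 𝔓 ≠ ⊥) {g : Γ} {d d' : B} (h : ActsBy 𝔓 g d) (h' : ActsBy 𝔓 g d') :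
    d - d' ∈ 𝔓 := by
  obtain ⟨π, hπ, hπ'⟩ := exists_mem_not_mem_sq h𝔓
  have h1 : π * (d - d') ∈ 𝔓 ^ (1 + 1) := by
    have e : π * (d - d') = (g • π - d' * π) - (g • π - d * π) := by ring
    rw [e]
    exact Ideal.sub_mem _ (h' π hπ) (h π hπ)
  exact Ideal.mem_prime_of_mul_mem_pow h𝔓 hπ' h1

/-- an element of the inertia group acting by a scalar `≡ 1` is wild -/
lemma mem_wildInertia_of_actsBy {g : Γ} (hg : g ∈ 𝔓.inertia Γ) {d : B} (h : ActsBy 𝔓 g d)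
    (hd : d - 1 ∈ 𝔓) : g ∈ wildInertia Γ 𝔓 :=
  mem_wildInertia.mpr ⟨hg, actsBy_one_iff.mp (h.congr hd)⟩

variable (Γ) in
/-- the tame character, as a map to `B ⧸ 𝔓` -/
noncomputable def tameCharFun (h𝔓 : 𝔓 ≠ ⊥) (g : 𝔓.inertia Γ) : B ⧸ 𝔓 :=
  Ideal.Quotient.mk 𝔓 (Classical.choose (exists_actsBy h𝔓 g.2))

lemma tameCharFun_eq (h𝔓 : 𝔓 ≠ ⊥) (g : 𝔓.inertia Γ) {d : B} (h : ActsBy 𝔓 (g : Γ) d) :
    tameCharFun Γ h𝔓 g = Ideal.Quotient.mk 𝔓 d := by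
  unfold tameCharFun
  rw [Ideal.Quotient.eq]
  exact (Classical.choose_spec (exists_actsBy h𝔓 g.2)).unique h𝔓 h

lemma actsBy_of_tameCharFun_eq (h𝔓 : 𝔓 ≠ ⊥) (g : 𝔓.inertia Γ) {d : B}
    (h : tameCharFun Γ h𝔓 g = Ideal.Quotient.mk 𝔓 d) : ActsBy 𝔓 (g : Γ) d := by
  unfold tameCharFun at h
  rw [Ideal.Quotient.eq] at h
  exact (Classical.choose_spec (exists_actsBy h𝔓 g.2)).congr h

variable (Γ) in
/-- the tame character, as a monoid homomorphism to `B ⧸ 𝔓` -/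
noncomputable def tameCharHom (h𝔓 : 𝔓 ≠ ⊥) : 𝔓.inertia Γ →* B ⧸ 𝔓 where
  toFun := tameCharFun Γ h𝔓
  map_one' := by
    rw [tameCharFun_eq h𝔓 1 (d := 1) actsBy_one, map_one]
  map_mul' := fun g h => by
    obtain ⟨d, hd⟩ := exists_actsBy h𝔓 g.2
    obtain ⟨d', hd'⟩ := exists_actsBy h𝔓 h.2
    rw [tameCharFun_eq h𝔓 g hd, tameCharFun_eq h𝔓 h hd',
      tameCharFun_eq h𝔓 (g * h) (d := d * d')
        (hd.mul hd' fun x hx => smul_mem_of_mem_inertia h.2 hx), map_mul]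

variable (Γ) in
/-- **the tame character** `θ : I →* (B ⧸ 𝔓)ˣ` -/
noncomputable def tameChar (h𝔓 : 𝔓 ≠ ⊥) : 𝔓.inertia Γ →* (B ⧸ 𝔓)ˣ :=
  (tameCharHom Γ h𝔓).toHomUnits

lemma tameChar_coe (h𝔓 : 𝔓 ≠ ⊥) (g : 𝔓.inertia Γ) :
    ((tameChar Γ h𝔓 g : (B ⧸ 𝔓)ˣ) : B ⧸ 𝔓) = tameCharFun Γ h𝔓 g := rfl

/-- the kernel of the tame character is the wild inertia group -/
lemma mem_wildInertia_of_tameChar_eq_one (h𝔓 : 𝔓 ≠ ⊥) (g : 𝔓.inertia Γ)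
    (h : tameChar Γ h𝔓 g = 1) : (g : Γ) ∈ wildInertia Γ 𝔓 := by
  have h1 : tameCharFun Γ h𝔓 g = Ideal.Quotient.mk 𝔓 1 := by
    rw [← tameChar_coe, h, Units.val_one, map_one]
  have h2 := actsBy_of_tameCharFun_eq h𝔓 g h1
  exact mem_wildInertia.mpr ⟨g.2, actsBy_one_iff.mp h2⟩

end Dedekind

/-- **[TAMEFIN-C]** inertia modulo wild inertia is cyclic. -/
theorem tameFinCyclic : TameFinCyclicStatement := by
  intro B _ _ Γ _ _ _ 𝔓 _ h𝔓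
  let θ := tameChar Γ h𝔓
  have : Finite θ.range := Finite.of_surjective θ.rangeRestrict θ.rangeRestrict_surjective
  obtain ⟨x, hx⟩ := IsCyclic.exists_monoid_generator (α := θ.range)
  obtain ⟨τ, hτ⟩ := x.2
  refine ⟨τ, τ.2, fun i hi => ?_⟩
  obtain ⟨n, hn⟩ := hx ⟨θ ⟨i, hi⟩, ⟨⟨i, hi⟩, rfl⟩⟩
  refine ⟨n, ?_⟩
  have h1 : θ (τ ^ n) = θ ⟨i, hi⟩ := by
    have h2 := congrArg Subtype.val hn
    simp only [SubmonoidClass.coe_pow] at h2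
    rw [map_pow, hτ]
    exact h2
  have h3 : θ ((τ ^ n)⁻¹ * ⟨i, hi⟩) = 1 := by
    rw [map_mul, map_inv, h1, inv_mul_cancel]
  exact mem_wildInertia_of_tameChar_eq_one h𝔓 _ h3

/-- **[TAMEFIN-F]** a Frobenius element acts on tame inertia by the `q`-th power. -/
theorem tameFinFrob : TameFinFrobStatement := by
  intro B _ _ Γ _ _ _ 𝔓 _ q h𝔓 σ hσ𝔓 hσ i hi
  have hσP : ∀ x ∈ 𝔓, σ • x ∈ 𝔓 := by
    intro x hx
    have := Ideal.smul_mem_pointwise_smul σ x 𝔓 hx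
    rwa [hσ𝔓] at this
  have hσ'P : ∀ x ∈ 𝔓, σ⁻¹ • x ∈ 𝔓 := by
    intro x hx
    rw [← hσ𝔓] at hx
    exact Ideal.mem_pointwise_smul_iff_inv_smul_mem.mp hx
  -- the conjugate lies in the inertia group
  have hconj : σ * i * σ⁻¹ ∈ 𝔓.inertia Γ := by
    intro x
    have e : (σ * i * σ⁻¹) • x - x = σ • (i • (σ⁻¹ • x) - σ⁻¹ • x) := by
      rw [smul_sub, smul_inv_smul, mul_smul, mul_smul]
    rw [e]
    exact hσP _ (sub_mem_of_mem_inertia hi _)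
  have hiq : i ^ q ∈ 𝔓.inertia Γ := pow_mem hi q
  have hiq' : (i ^ q)⁻¹ ∈ 𝔓.inertia Γ := inv_mem hiq
  obtain ⟨d, hd⟩ := exists_actsBy h𝔓 hi
  obtain ⟨d'', hd''⟩ := exists_actsBy h𝔓 hiq'
  have h1 : ActsBy 𝔓 (σ * i * σ⁻¹) (d ^ q) := (hd.conj hσP hσ'P).congr (hσ d)
  have h2 : ActsBy 𝔓 (i ^ q) (d ^ q) := hd.pow (fun x hx => smul_mem_of_mem_inertia hi hx) q
  have h3 : ActsBy 𝔓 (i ^ q * (i ^ q)⁻¹) (d ^ q * d'') :=
    h2.mul hd'' fun x hx => smul_mem_of_mem_inertia hiq' hx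
  rw [mul_inv_cancel] at h3
  have h4 : d ^ q * d'' - 1 ∈ 𝔓 := h3.unique h𝔓 actsBy_one
  have h5 : ActsBy 𝔓 (σ * i * σ⁻¹ * (i ^ q)⁻¹) (d ^ q * d'') :=
    h1.mul hd'' fun x hx => smul_mem_of_mem_inertia hiq' hx
  exact mem_wildInertia_of_actsBy (mul_mem hconj hiq') h5 h4

end Fermat.Agent.P1.helper64
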