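import Mathlib
import Fermat.Agent.P1.helper24_LQDefs
import Fermat.Agent.S14.helper91_Dictionary
import Fermat.Agent.S55.helper74_LocalLevels
import Fermat.Agent.S55.helper85_Rec4BrDict

/-!
# P1 (S56), module LQ, package TAME-GLOB (helper82, task 614)

`tameStatement` : the Prelude's local Galois group at `q`, with the levels `locLevels q` and the
inertia subgroup `locInertia q`, has a `TameStructure` for every Frobenius lift, given the four
finite statements `TameFinWildStatement`, `TameFinCyclicStatement`, `TameFinFrobStatement`,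
`TameFinGenStatement` (finite group acting on a Dedekind domain).

The proof is a transfer along `Gal(ℚ̄_q/ℚ_q) → G_ℚ → Gal(F/ℚ)` for the finite Galois extensions
`F/ℚ` defining the levels, using the prime dictionary of `S14/helper91_Dictionary`.
-/

set_option autoImplicit false

open Fermat.Agent.S55 ExtCitation Fermat.Agent.P1.helper24
open scoped Pointwise NumberField

noncomputable section

namespace Fermat.Agent.P1.helper82

/-! ## Wild inertia is stable under conjugation by the stabiliser -/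

section Abstract

variable {B : Type} [CommRing B] {Γ : Type} [Group Γ] [MulSemiringAction Γ B]

theorem tg_smul_mem_of_smul_eq (𝔓 : Ideal B) {g : Γ} (hg : g • 𝔓 = 𝔓) {y : B} (hy : y ∈ 𝔓) :
    g • y ∈ 𝔓 := by
  have := Ideal.smul_mem_pointwise_smul g y 𝔓 hy
  rwa [hg] at this

theorem tg_inv_smul_eq (𝔓 : Ideal B) {g : Γ} (hg : g • 𝔓 = 𝔓) : g⁻¹ • 𝔓 = 𝔓 := by
  conv_lhs => rw [← hg]
  rw [inv_smul_smul]

theorem tg_smul_mem_sq_of_smul_eq (𝔓 : Ideal B) {g : Γ} (hg : g • 𝔓 = 𝔓) {y : B}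
    (hy : y ∈ 𝔓 ^ 2) : g • y ∈ 𝔓 ^ 2 := by
  have h1 : g • (𝔓 ^ 2) = 𝔓 ^ 2 := by
    rw [Ideal.pointwise_smul_def, Ideal.map_pow, ← Ideal.pointwise_smul_def, hg]
  have := Ideal.smul_mem_pointwise_smul g y (𝔓 ^ 2) hy
  rwa [h1] at this

theorem tg_mem_inertia_iff (𝔓 : Ideal B) (g : Γ) :
    g ∈ 𝔓.inertia Γ ↔ ∀ x : B, g • x - x ∈ 𝔓 := Iff.rfl

theorem tg_wildInertia_conj (𝔓 : Ideal B) {g x : Γ} (hg : g • 𝔓 = 𝔓)
    (hx : x ∈ wildInertia Γ 𝔓) : g * x * g⁻¹ ∈ wildInertia Γ 𝔓 := by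
  rw [mem_wildInertia] at hx ⊢
  have key : ∀ b : B, (g * x * g⁻¹) • b - b = g • (x • (g⁻¹ • b) - g⁻¹ • b) := by
    intro b
    rw [smul_sub, mul_smul, mul_smul, smul_inv_smul]
  refine ⟨?_, fun y hy => ?_⟩
  · rw [tg_mem_inertia_iff]
    intro b
    rw [key]
    exact tg_smul_mem_of_smul_eq 𝔓 hg ((tg_mem_inertia_iff 𝔓 x).mp hx.1 _)
  · rw [key]
    refine tg_smul_mem_sq_of_smul_eq 𝔓 hg (hx.2 _ ?_)
    exact tg_smul_mem_of_smul_eq 𝔓 (tg_inv_smul_eq 𝔓 hg) hy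

theorem tg_one_mem_wildInertia (𝔓 : Ideal B) : (1 : Γ) ∈ wildInertia Γ 𝔓 := one_mem _

end Abstract

/-! ## The finite level `Gal(F/ℚ)` -/

section Level

open Fermat.Agent.S14.helper91

local notation "Qbar" => AlgebraicClosure ℚ

variable (F : IntermediateField ℚ Qbar)

theorem tg_numberField [FiniteDimensional ℚ F] : NumberField ↥F :=
  { to_charZero := inferInstance
    to_finiteDimensional := inferInstance }

theorem tg_faithful [FiniteDimensional ℚ F] : FaithfulSMul (↥F ≃ₐ[ℚ] ↥F) (𝓞 ↥F) := by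
  have := tg_numberField F
  refine ⟨fun {σ τ} h => ?_⟩
  ext y
  obtain ⟨a, b, -, rfl⟩ := IsFractionRing.div_surjective (A := 𝓞 ↥F) y
  have ha : σ (algebraMap (𝓞 ↥F) ↥F a) = τ (algebraMap (𝓞 ↥F) ↥F a) :=
    congrArg (algebraMap (𝓞 ↥F) ↥F) (h a)
  have hb : σ (algebraMap (𝓞 ↥F) ↥F b) = τ (algebraMap (𝓞 ↥F) ↥F b) :=
    congrArg (algebraMap (𝓞 ↥F) ↥F) (h b)
  rw [map_div₀, map_div₀, ha, hb]

variable (q : Nat.Primes)

/-- restriction to `F` on the local Galois group at `q` -/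
def tgRes [Normal ℚ ↥F] : primeLocalGaloisGroup q →* (↥F ≃ₐ[ℚ] ↥F) :=
  (AlgEquiv.restrictNormalHom ↥F).comp (primeLocalToGlobal q)

theorem tgRes_apply [Normal ℚ ↥F] (g : primeLocalGaloisGroup q) :
    tgRes F q g = AlgEquiv.restrictNormalHom ↥F (primeLocalToGlobal q g) := rfl

theorem tg_mem_level_iff [Normal ℚ ↥F] (g : primeLocalGaloisGroup q) :
    g ∈ F.fixingSubgroup.comap (primeLocalToGlobal q) ↔ tgRes F q g = 1 := by
  have hN' : @Normal ℚ ↥F _ _ F.algebra' := ‹Normal ℚ ↥F›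
  have hker := @IntermediateField.restrictNormalHom_ker ℚ Qbar _ _ _ F hN'
  rw [Subgroup.mem_comap, ← hker, MonoidHom.mem_ker]
  rfl

theorem tg_mem_dec (g : primeLocalGaloisGroup q) :
    primeLocalToGlobal q g ∈ (primeLocalPlace q).decompositionSubgroup ℚ := by
  rw [← Fermat.Agent.S55.helper74.range_primeLocalToGlobal]
  exact ⟨g, rfl⟩

theorem tg_inertiaIn_le_dec (A : ValuationSubring Qbar) :
    A.inertiaSubgroupIn ℚ ≤ A.decompositionSubgroup ℚ := by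
  rintro _ ⟨x, -, rfl⟩
  exact x.2

theorem tg_res_smul [Normal ℚ ↥F] (g : primeLocalGaloisGroup q) :
    tgRes F q g • primeOf ↥F (primeLocalPlace q) = primeOf ↥F (primeLocalPlace q) :=
  restrict_smul_primeOf ↥F (primeLocalPlace q) (tg_mem_dec q g)

theorem tg_res_mem_inertia [Normal ℚ ↥F] {i : primeLocalGaloisGroup q}
    (hi : i ∈ locInertia q) :
    tgRes F q i ∈ (primeOf ↥F (primeLocalPlace q)).inertia (↥F ≃ₐ[ℚ] ↥F) :=
  restrict_mem_inertia ↥F (primeLocalPlace q) hi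

theorem tg_exists_lift_inertia [Normal ℚ ↥F] (τ : ↥F ≃ₐ[ℚ] ↥F)
    (hτ : τ ∈ (primeOf ↥F (primeLocalPlace q)).inertia (↥F ≃ₐ[ℚ] ↥F)) :
    ∃ i ∈ locInertia q, tgRes F q i = τ := by
  obtain ⟨ρ, hρ, hρτ⟩ := exists_mem_inertia_restrict_eq ↥F (primeLocalPlace q) q.2
    (Fermat.Agent.S55.helper74.primeLocalPlace_liesOverPrime q) τ hτ
  obtain ⟨i, hi⟩ := Fermat.Agent.S55.helper74.exists_primeLocalToGlobal_eq q
    (tg_inertiaIn_le_dec _ hρ)
  refine ⟨i, ?_, ?_⟩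
  · show primeLocalToGlobal q i ∈ (primeLocalPlace q).inertiaSubgroupIn ℚ
    rw [hi]
    exact hρ
  · rw [tgRes_apply, hi, hρτ]

theorem tg_locInertia_normal : (locInertia q).Normal := by
  refine ⟨fun i hi g => ?_⟩
  show primeLocalToGlobal q (g * i * g⁻¹) ∈ (primeLocalPlace q).inertiaSubgroupIn ℚ
  obtain ⟨y, hy, hyi⟩ := hi
  have hn : ((primeLocalPlace q).inertiaSubgroup ℚ).Normal := by
    unfold ValuationSubring.inertiaSubgroup
    exact MonoidHom.normal_ker _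
  let d : (primeLocalPlace q).decompositionSubgroup ℚ := ⟨primeLocalToGlobal q g, tg_mem_dec q g⟩
  refine ⟨d * y * d⁻¹, hn.conj_mem y hy d, ?_⟩
  rw [map_mul, map_mul, map_inv, map_mul, map_mul, map_inv, hyi]
  rfl

theorem tg_frob [Normal ℚ ↥F] {σ : primeLocalGaloisGroup q}
    (hσ : (primeLocalPlace q).IsFrobeniusAt (primeLocalToGlobal q σ) (q : ℕ)) (x : 𝓞 ↥F) :
    tgRes F q σ • x - x ^ (q : ℕ) ∈ primeOf ↥F (primeLocalPlace q) :=
  (restrict_frobenius ↥F (primeLocalPlace q) hσ).2 x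

theorem tg_natCast_mem :
    (((q : ℕ) : ℕ) : 𝓞 ↥F) ∈ primeOf ↥F (primeLocalPlace q) :=
  natCast_mem_primeOf ↥F (primeLocalPlace q)
    (Fermat.Agent.S55.helper74.primeLocalPlace_liesOverPrime q)

theorem tg_primeOf_ne_bot : primeOf ↥F (primeLocalPlace q) ≠ ⊥ := by
  intro h
  have h1 := tg_natCast_mem F q
  rw [h, Ideal.mem_bot] at h1
  exact q.2.ne_zero (by exact_mod_cast h1)

theorem tg_primeOf_isMaximal : (primeOf ↥F (primeLocalPlace q)).IsMaximal :=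
  Fermat.Agent.S55.helper85.primeOf_isMaximal ↥F (primeLocalPlace q) q.2
    (Fermat.Agent.S55.helper74.primeLocalPlace_liesOverPrime q)

/-- **gen** at the level defined by `F`. -/
theorem tg_gen (hG : TameFinGenStatement) [FiniteDimensional ℚ F] [Normal ℚ ↥F]
    {σ : primeLocalGaloisGroup q}
    (hσ : (primeLocalPlace q).IsFrobeniusAt (primeLocalToGlobal q σ) (q : ℕ))
    (g : primeLocalGaloisGroup q) :
    ∃ n : ℕ, ∃ i ∈ locInertia q, ∃ s ∈ F.fixingSubgroup.comap (primeLocalToGlobal q),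
      g = σ ^ n * i * s := by
  have hNF := tg_numberField F
  have hmax := tg_primeOf_isMaximal F q
  have hfin : Finite (𝓞 ↥F ⧸ primeOf ↥F (primeLocalPlace q)) :=
    Ideal.finiteQuotientOfFreeOfNeBot _ (tg_primeOf_ne_bot F q)
  obtain ⟨n, hn⟩ := hG (𝓞 ↥F) (↥F ≃ₐ[ℚ] ↥F) (primeOf ↥F (primeLocalPlace q)) (q : ℕ) q.2
    (tg_natCast_mem F q) (tgRes F q σ) (tg_res_smul F q σ) (tg_frob F q hσ)
    (tgRes F q g) (tg_res_smul F q g)
  obtain ⟨i, hi, hiτ⟩ := tg_exists_lift_inertia F q _ hn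
  refine ⟨n, i, hi, i⁻¹ * (σ ^ n)⁻¹ * g, ?_, by group⟩
  rw [tg_mem_level_iff, map_mul, map_mul, map_inv, map_inv, map_pow, hiτ]
  group

/-- **tame** at the level defined by `F`. -/
theorem tg_tame (hW : TameFinWildStatement) (hC : TameFinCyclicStatement)
    (hF : TameFinFrobStatement) [FiniteDimensional ℚ F] [Normal ℚ ↥F]
    {σ : primeLocalGaloisGroup q}
    (hσ : (primeLocalPlace q).IsFrobeniusAt (primeLocalToGlobal q σ) (q : ℕ)) :
    ∃ P : Subgroup (primeLocalGaloisGroup q), P ≤ locInertia q ∧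
      F.fixingSubgroup.comap (primeLocalToGlobal q) ⊓ locInertia q ≤ P ∧
      (∀ i ∈ locInertia q, ∀ x ∈ P, i * x * i⁻¹ ∈ P) ∧
      (∀ x ∈ P, ∃ a : ℕ, x ^ (q : ℕ) ^ a ∈ F.fixingSubgroup.comap (primeLocalToGlobal q)) ∧
      (∃ τ ∈ locInertia q, ∀ i ∈ locInertia q, ∃ n : ℕ, (τ ^ n)⁻¹ * i ∈ P) ∧
      (∀ i ∈ locInertia q, σ * i * σ⁻¹ * (i ^ (q : ℕ))⁻¹ ∈ P) := by
  have hNF := tg_numberField F
  have hmax := tg_primeOf_isMaximal F q
  have hfaith := tg_faithful F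
  have hnormal := tg_locInertia_normal q
  have hbot := tg_primeOf_ne_bot F q
  refine ⟨locInertia q ⊓ (wildInertia (↥F ≃ₐ[ℚ] ↥F) (primeOf ↥F (primeLocalPlace q))).comap
    (tgRes F q), inf_le_left, ?_, ?_, ?_, ?_, ?_⟩
  · rintro x ⟨hxN, hxI⟩
    refine ⟨hxI, ?_⟩
    show tgRes F q x ∈ wildInertia _ _
    rw [(tg_mem_level_iff F q x).mp hxN]
    exact one_mem _
  · rintro i hi x ⟨hxI, hxW⟩
    refine ⟨hnormal.conj_mem x hxI i, ?_⟩
    show tgRes F q (i * x * i⁻¹) ∈ wildInertia _ _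
    rw [map_mul, map_mul, map_inv]
    exact tg_wildInertia_conj _ (tg_res_smul F q i) hxW
  · rintro x ⟨-, hxW⟩
    obtain ⟨a, ha⟩ := hW (𝓞 ↥F) (↥F ≃ₐ[ℚ] ↥F) (primeOf ↥F (primeLocalPlace q)) (q : ℕ) q.2
      (tg_natCast_mem F q) (tgRes F q x) hxW
    refine ⟨a, ?_⟩
    rw [tg_mem_level_iff, map_pow, ha]
  · obtain ⟨τ', hτ', hcyc⟩ := hC (𝓞 ↥F) (↥F ≃ₐ[ℚ] ↥F) (primeOf ↥F (primeLocalPlace q)) hbot
    obtain ⟨τ, hτI, hτ⟩ := tg_exists_lift_inertia F q τ' hτ'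
    refine ⟨τ, hτI, fun i hi => ?_⟩
    obtain ⟨n, hn⟩ := hcyc (tgRes F q i) (tg_res_mem_inertia F q hi)
    refine ⟨n, (locInertia q).mul_mem ((locInertia q).inv_mem ((locInertia q).pow_mem hτI n)) hi,
      ?_⟩
    show tgRes F q ((τ ^ n)⁻¹ * i) ∈ wildInertia _ _
    rw [map_mul, map_inv, map_pow, hτ]
    exact hn
  · intro i hi
    refine ⟨(locInertia q).mul_mem (hnormal.conj_mem i hi σ)
      ((locInertia q).inv_mem ((locInertia q).pow_mem hi _)), ?_⟩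
    show tgRes F q (σ * i * σ⁻¹ * (i ^ (q : ℕ))⁻¹) ∈ wildInertia _ _
    rw [map_mul, map_mul, map_mul, map_inv, map_inv, map_pow]
    exact hF (𝓞 ↥F) (↥F ≃ₐ[ℚ] ↥F) (primeOf ↥F (primeLocalPlace q)) (q : ℕ) hbot
      (tgRes F q σ) (tg_res_smul F q σ) (tg_frob F q hσ) (tgRes F q i)
      (tg_res_mem_inertia F q hi)

end Level

/-- **[TAME-GLOB]** the Prelude's local Galois group at `q` has a tame structure for every
Frobenius lift. -/
theorem tameStatement (hW : TameFinWildStatement) (hC : TameFinCyclicStatement)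
    (hF : TameFinFrobStatement) (hG : TameFinGenStatement) : TameStatement := by
  intro q σ hσ
  have hgal : IsGalois ℚ (AlgebraicClosure ℚ) := Fermat.Agent.S54.helper91.isGalois_Qbar
  refine ⟨tg_locInertia_normal q, ?_, ?_⟩
  · rintro N ⟨F, hfd, hn, rfl⟩ g
    have hFgal : IsGalois ℚ ↥F := (InfiniteGalois.normal_iff_isGalois F).mp hn
    exact tg_gen F q hG hσ g
  · rintro N ⟨F, hfd, hn, rfl⟩
    have hFgal : IsGalois ℚ ↥F := (InfiniteGalois.normal_iff_isGalois F).mp hn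
    exact tg_tame F q hW hC hF hσ

end Fermat.Agent.P1.helper82
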