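import Fermat.Agent.P1.helper24_LQQ
import Fermat.Agent.P1.helper61_TameFinWild
import Fermat.Agent.P1.helper64_TameChar
import Fermat.Agent.P1.helper15_TameFinGen
import Fermat.Agent.P1.helper82_TameGlob
import Fermat.Agent.P1.helper62_LQTame
import Fermat.Agent.P1.helper62_LQUnram
import Fermat.Agent.P1.helper32_LQLin

/-!
# P1 (S56), module LQ: the UNCONDITIONAL deliverables (helper24, sub-coordinator)

* `tameStatement : TameStatement` : the tame structure of the local Galois groups;
* `locSminOut_condSO`, `locSminOut_condFlat` : `LocSminOut p ρbar Smin (condSO / condFlat)`;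
* `locQOut` : `LocQOut p ρbar Smin`.

Packages: TAMEFIN-W (helper61), TAMEFIN-CF (helper64), TAMEFIN-G (helper15), TAMEGLOB (helper82),
UR + TB (helper62), LIN (helper32), wiring (helper24).
-/

set_option autoImplicit false

open Fermat.Agent.S55 Fermat.Agent.P1.helper70 ExtCitation IsLocalRing

noncomputable section

namespace Fermat.Agent.P1.helper24

/-- **[TAME]** the tame structure of the Prelude's local Galois groups, unconditionally. -/
theorem tameStatement : TameStatement :=
  Fermat.Agent.P1.helper82.tameStatement Fermat.Agent.P1.helper61.tameFinWild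
    Fermat.Agent.P1.helper64.tameFinCyclic Fermat.Agent.P1.helper64.tameFinFrob
    Fermat.Agent.P1.helper15.tameFinGen

variable {𝒪 : Type} [CommRing 𝒪] [IsDomain 𝒪] [IsDiscreteValuationRing 𝒪]
  [IsAdicComplete (maximalIdeal 𝒪) 𝒪] [Finite (ResidueField 𝒪)]
  (p : ℕ) [Fact p.Prime]
  (ρbar : ResidualGaloisRep (ResidueField 𝒪))
  (S Smin : Finset ℕ)
  [Algebra (ZMod p) (ResidueField 𝒪)]

/-- **DELIVERABLE of module LQ, part (i), strict-ordinary family.** -/
theorem locSminOut_condSO (hset : Setting 𝒪 p ρbar S Smin) :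
    LocSminOut p ρbar Smin (condSO 𝒪 p Smin) :=
  locSminOut_condSO_of p ρbar S Smin tameStatement Fermat.Agent.P1.helper32.traceForm
    Fermat.Agent.P1.helper62.unramBoundStatement hset

/-- **DELIVERABLE of module LQ, part (i), flat family.** -/
theorem locSminOut_condFlat (hset : Setting 𝒪 p ρbar S Smin) :
    LocSminOut p ρbar Smin (condFlat 𝒪 p Smin) :=
  locSminOut_condFlat_of p ρbar S Smin tameStatement Fermat.Agent.P1.helper32.traceForm
    Fermat.Agent.P1.helper62.unramBoundStatement hset

/-- **DELIVERABLE of module LQ, part (i), every family containing the unipotent clause.** -/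
theorem locSminOut (hset : Setting 𝒪 p ρbar S Smin)
    (𝒟fam : Finset ℕ →
      ∀ ⦃A : Type⦄ [CommRing A] [IsLocalRing A] [Algebra 𝒪 A], GaloisRepAdic A → Prop)
    (h𝒟 : ∀ (T : Finset ℕ) (ρ : GaloisRepAdic (DualNumber (ResidueField 𝒪))), 𝒟fam T ρ →
      ∀ q ∈ Smin, q.Prime → q ≠ p → ρ.IsUnipotentOnInertiaAt q) :
    LocSminOut p ρbar Smin 𝒟fam :=
  locSminOut_of p ρbar S Smin tameStatement Fermat.Agent.P1.helper32.traceForm
    Fermat.Agent.P1.helper62.unramBoundStatement hset 𝒟fam h𝒟

/-- **DELIVERABLE of module LQ, part (ii).** -/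
theorem locQOut (hset : Setting 𝒪 p ρbar S Smin) : LocQOut p ρbar Smin :=
  locQOut_of p ρbar S Smin tameStatement Fermat.Agent.P1.helper62.tameBoundStatement
    Fermat.Agent.P1.helper32.centralizer hset

end Fermat.Agent.P1.helper24
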