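import Fermat.Agent.P1.helper24_LQDefs
import Fermat.Agent.P1.helper70_Interface2
import Fermat.Agent.S55.ABasic
import Fermat.Agent.S55.helper4_BridgeLevels

/-!
# P1 (S56), module LQ: tangent lifts and unipotent inertia (helper24)

* `TameStructure.exists_generator` **[LQ-CYC]** : a homomorphism on a local Galois group with
  tame structure, trivial on a level and of exponent `p ≠ q` on inertia, maps inertia into the
  powers of the image of one element;
* `IsTanLift.eq_of_eq` : for a tangent lift `ρ = (1 + ε c) ρbar`, `ρ g = ρ g'` implies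
  `ρbar g = ρbar g'` and `c g = c g'`;
* `IsTanLift.of_charpoly` : if `ρ g` has characteristic polynomial `(X - 1) ^ 2`, then
  `(ρbar g - 1) ^ 2 = 0` and `tr (c g * ρbar g) = 0`.
-/

set_option autoImplicit false

open Fermat.Agent.S55 Fermat.Agent.P1.helper70 ExtCitation IsLocalRing Polynomial

noncomputable section

namespace Fermat.Agent.P1.helper24

/-- **[LQ-CYC]** the image of inertia under a homomorphism which is trivial on a level and has
exponent `p` (prime to `q`) on inertia is generated by the image of one element. -/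
theorem TameStructure.exists_generator {G : Type} [Group G] {𝒩 : Levels G} {I : Subgroup G}
    {σ : G} {q : ℕ} (h : TameStructure 𝒩 I σ q) {p : ℕ} (hpq : Nat.Coprime p q)
    {H : Type} [Monoid H] (f : G →* H) (hlev : ∃ N ∈ 𝒩.mem, ∀ s ∈ N, f s = 1)
    (hp : ∀ i ∈ I, f i ^ p = 1) :
    ∃ τ ∈ I, ∀ i ∈ I, ∃ n : ℕ, f i = f τ ^ n := by
  obtain ⟨N, hN, hfN⟩ := hlev
  obtain ⟨P, hPI, -, -, hPq, ⟨τ, hτ, hgen⟩, -⟩ := h.tame N hN
  have hP : ∀ x ∈ P, f x = 1 := by
    intro x hx
    obtain ⟨a, ha⟩ := hPq x hx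
    have h1 : f x ^ q ^ a = 1 := by rw [← map_pow]; exact hfN _ ha
    have h2 : f x ^ p = 1 := hp x (hPI hx)
    have h3 : f x ^ (Nat.gcd p (q ^ a)) = 1 := pow_gcd_eq_one.mpr ⟨h2, h1⟩
    rwa [Nat.Coprime.gcd_eq_one (Nat.Coprime.pow_right a hpq), pow_one] at h3
  refine ⟨τ, hτ, fun i hi => ?_⟩
  obtain ⟨n, hn⟩ := hgen i hi
  refine ⟨n, ?_⟩
  have h1 := hP _ hn
  rw [map_mul] at h1
  have h2 : f (τ ^ n) * f ((τ ^ n)⁻¹) = 1 := by rw [← map_mul, mul_inv_cancel, map_one]
  calc f i = f (τ ^ n) * f ((τ ^ n)⁻¹) * f i := by rw [h2, one_mul]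
    _ = f (τ ^ n) := by rw [mul_assoc, h1, mul_one]
    _ = f τ ^ n := map_pow f τ n

/-- trace and determinant of a `2 × 2` matrix with characteristic polynomial `(X - 1) ^ 2` -/
lemma trace_det_of_charpoly {R : Type} [CommRing R] [Nontrivial R]
    (M : Matrix (Fin 2) (Fin 2) R) (h : M.charpoly = (X - 1) ^ 2) :
    M.trace = 2 ∧ M.det = 1 := by
  rw [Matrix.charpoly_fin_two] at h
  have key : (C (2 - M.trace) * X + C (M.det - 1) : R[X]) = 0 := by
    simp only [map_sub, map_ofNat, map_one]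
    linear_combination h
  have h0 := congrArg (fun P => coeff P 0) key
  have h1 := congrArg (fun P => coeff P 1) key
  simp only [coeff_add, coeff_C_mul, coeff_X_zero, mul_zero, coeff_C_zero, zero_add,
    coeff_zero, coeff_X_one, mul_one, coeff_C_succ, add_zero] at h0 h1
  exact ⟨(sub_eq_zero.mp h1).symm, sub_eq_zero.mp h0⟩

/-- Cayley-Hamilton for a `2 × 2` matrix of trace `2` and determinant `1` -/
lemma sq_of_trace_det {R : Type} [CommRing R]
    (M : Matrix (Fin 2) (Fin 2) R) (ht : M.trace = 2) (hd : M.det = 1) :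
    (M - 1) * (M - 1) = 0 := by
  rw [Matrix.trace_fin_two] at ht
  rw [Matrix.det_fin_two] at hd
  ext i j
  fin_cases i <;> fin_cases j <;>
    simp [Matrix.mul_apply, Fin.sum_univ_two, Matrix.one_apply]
  · linear_combination (M 0 0) * ht - hd
  · linear_combination (M 0 1) * ht
  · linear_combination (M 1 0) * ht
  · linear_combination (M 1 1) * ht - hd

section TanLift

variable {𝒪 : Type} [CommRing 𝒪] [IsLocalRing 𝒪] {ρbar : ResidualGaloisRep (ResidueField 𝒪)}
  {ρ : GaloisRepAdic (DualNumber (ResidueField 𝒪))} {c : GQ → Ad0 ρbar}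

lemma ρbar_mul_inv (ρbar : ResidualGaloisRep (ResidueField 𝒪)) (g : GQ) :
    ρbar.ρ g * ρbar.ρ g⁻¹ = 1 := by
  rw [← map_mul, mul_inv_cancel, map_one]

lemma ρbar_inv_mul (ρbar : ResidualGaloisRep (ResidueField 𝒪)) (g : GQ) :
    ρbar.ρ g⁻¹ * ρbar.ρ g = 1 := by
  rw [← map_mul, inv_mul_cancel, map_one]

/-- For a tangent lift, `ρ g = ρ g'` implies `ρbar g = ρbar g'` and `c g = c g'`. -/
theorem IsTanLift.eq_of_eq (h : IsTanLift ρbar ρ c) {g g' : GQ} (hg : ρ.ρ g = ρ.ρ g') :
    ρbar.ρ g = ρbar.ρ g' ∧ c g = c g' := by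
  obtain ⟨b, bbar, hb⟩ := h
  have h1 := hb g
  rw [hg, hb g'] at h1
  have hfst : LinearMap.toMatrix bbar bbar (ρbar.ρ g') =
      LinearMap.toMatrix bbar bbar (ρbar.ρ g) := by
    ext i j
    have := congrArg (fun M => TrivSqZeroExt.fst (M i j)) h1
    simpa using this
  have hsnd : LinearMap.toMatrix bbar bbar (Ad0.toEnd ρbar (c g') * ρbar.ρ g') =
      LinearMap.toMatrix bbar bbar (Ad0.toEnd ρbar (c g) * ρbar.ρ g) := by
    ext i j
    have := congrArg (fun M => TrivSqZeroExt.snd (M i j)) h1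
    simpa using this
  have e1 : ρbar.ρ g' = ρbar.ρ g := (LinearMap.toMatrix bbar bbar).injective hfst
  have e2 : Ad0.toEnd ρbar (c g') * ρbar.ρ g' = Ad0.toEnd ρbar (c g) * ρbar.ρ g :=
    (LinearMap.toMatrix bbar bbar).injective hsnd
  have e3 : Ad0.toEnd ρbar (c g') = Ad0.toEnd ρbar (c g) := by
    have h3 : Ad0.toEnd ρbar (c g') * ρbar.ρ g' * ρbar.ρ g⁻¹ =
        Ad0.toEnd ρbar (c g) * ρbar.ρ g * ρbar.ρ g⁻¹ := by rw [e2]
    rw [e1, mul_assoc, mul_assoc, ρbar_mul_inv, mul_one, mul_one] at h3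
    exact h3
  exact ⟨e1.symm, (Ad0.toEnd_injective ρbar e3).symm⟩

/-- If the tangent lift `ρ g` has characteristic polynomial `(X - 1) ^ 2`, then `ρbar g` is
unipotent and `tr (c g * ρbar g) = 0`. -/
theorem IsTanLift.of_charpoly (h : IsTanLift ρbar ρ c) {g : GQ}
    (hg : LinearMap.charpoly (ρ.ρ g) = (X - 1) ^ 2) :
    (ρbar.ρ g - 1) * (ρbar.ρ g - 1) = 0 ∧
      LinearMap.trace (ResidueField 𝒪) ρbar.V (Ad0.toEnd ρbar (c g) * ρbar.ρ g) = 0 := by
  obtain ⟨b, bbar, hb⟩ := h
  have hR := hb g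
  have hcp : (LinearMap.toMatrix b b (ρ.ρ g)).charpoly = (X - 1) ^ 2 := by
    rw [LinearMap.charpoly_toMatrix]; exact hg
  obtain ⟨htr, hdet⟩ := trace_det_of_charpoly _ hcp
  have h2 : (2 : DualNumber (ResidueField 𝒪)) = TrivSqZeroExt.inl 2 :=
    (map_ofNat (TrivSqZeroExt.inlHom (ResidueField 𝒪) (ResidueField 𝒪)) 2).symm
  rw [hR, Matrix.trace_fin_two, h2] at htr
  rw [hR, Matrix.det_fin_two] at hdet
  have htr_r : (LinearMap.toMatrix bbar bbar (ρbar.ρ g)).trace = 2 := by
    have h1 := congrArg TrivSqZeroExt.fst htr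
    simp only [Matrix.add_apply, Matrix.map_apply, TrivSqZeroExt.fst_add, TrivSqZeroExt.fst_inl,
      TrivSqZeroExt.fst_inr, add_zero] at h1
    rw [Matrix.trace_fin_two]
    exact h1
  have htr_C : (LinearMap.toMatrix bbar bbar (Ad0.toEnd ρbar (c g) * ρbar.ρ g)).trace = 0 := by
    have h1 := congrArg TrivSqZeroExt.snd htr
    simp only [Matrix.add_apply, Matrix.map_apply, TrivSqZeroExt.snd_add, TrivSqZeroExt.snd_inl,
      TrivSqZeroExt.snd_inr, zero_add] at h1
    rw [Matrix.trace_fin_two]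
    exact h1
  have hdet_r : (LinearMap.toMatrix bbar bbar (ρbar.ρ g)).det = 1 := by
    have h1 := congrArg TrivSqZeroExt.fst hdet
    simp only [Matrix.add_apply, Matrix.map_apply, TrivSqZeroExt.fst_sub, TrivSqZeroExt.fst_mul,
      TrivSqZeroExt.fst_add, TrivSqZeroExt.fst_inl, TrivSqZeroExt.fst_inr, add_zero,
      TrivSqZeroExt.fst_one] at h1
    rw [Matrix.det_fin_two]
    exact h1
  constructor
  · apply (LinearMap.toMatrix bbar bbar).injective
    rw [LinearMap.toMatrix_mul, map_sub, LinearMap.toMatrix_one, map_zero]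
    exact sq_of_trace_det _ htr_r hdet_r
  · rw [LinearMap.trace_eq_matrix_trace _ bbar]
    exact htr_C

end TanLift

/-! ## Lifts to the dual numbers are trivial on a level and unipotent elements have order `p` -/

section Dual

variable (k : Type) [Field k]

lemma dual_mem_maximalIdeal_iff (y : DualNumber k) :
    y ∈ maximalIdeal (DualNumber k) ↔ TrivSqZeroExt.fst y = 0 := by
  rw [mem_maximalIdeal, mem_nonunits_iff, TrivSqZeroExt.isUnit_iff_isUnit_fst, isUnit_iff_ne_zero,
    not_not]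

lemma dual_maximalIdeal_sq_eq_bot : maximalIdeal (DualNumber k) ^ 2 = ⊥ := by
  rw [eq_bot_iff, pow_two, Ideal.mul_le]
  intro x hx y hy
  rw [dual_mem_maximalIdeal_iff] at hx hy
  rw [Ideal.mem_bot]
  ext
  · simp [hx]
  · simp [hx, hy]

variable {k}

/-- A representation over the dual numbers is trivial on the fixing subgroup of a finite
extension. -/
theorem exists_finite_level_ρ_eq_one (ρ : GaloisRepAdic (DualNumber k)) :
    ∃ L : IntermediateField ℚ (AlgebraicClosure ℚ), FiniteDimensional ℚ L ∧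
      ∀ σ : GQ, (∀ x ∈ L, σ x = x) → ρ.ρ σ = 1 := by
  obtain ⟨L, hL, h⟩ := ρ.isAdicContinuous 2
  refine ⟨L, hL, fun σ hσ => LinearMap.ext fun v => ?_⟩
  have h1 := h σ hσ v
  rw [dual_maximalIdeal_sq_eq_bot, Submodule.bot_smul, Submodule.mem_bot, sub_eq_zero] at h1
  exact h1

/-- A representation over the dual numbers is trivial on a level of `locLevels q`. -/
theorem exists_locLevel_ρ_eq_one (ρ : GaloisRepAdic (DualNumber k)) (q : Nat.Primes) :
    ∃ N ∈ (locLevels q).mem, ∀ s ∈ N, ρ.ρ (primeLocalToGlobal q s) = 1 := by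
  obtain ⟨L, hL, hρ⟩ := exists_finite_level_ρ_eq_one ρ
  refine ⟨(Fermat.Agent.S55.helper4.ncl L).fixingSubgroup.comap (primeLocalToGlobal q),
    ⟨_, Fermat.Agent.S55.helper4.finiteDimensional_ncl L hL,
      Fermat.Agent.S55.helper4.normal_fixingSubgroup_ncl L, rfl⟩, fun s hs => ?_⟩
  have h1 : primeLocalToGlobal q s ∈ L.fixingSubgroup :=
    Fermat.Agent.S55.helper4.fixingSubgroup_ncl_le L hs
  exact hρ _ fun x hx => (IntermediateField.mem_fixingSubgroup_iff _ _).mp h1 x hx

end Dual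

/-- **[LQ-LIN-3]** an endomorphism with characteristic polynomial `(X - 1) ^ 2` over a ring of
characteristic `p` has order dividing `p`. -/
theorem unipotentOrder : UnipotentOrderStatement := by
  intro p R M _ _ _ _ _ _ hp f hf
  have h1 : (f - 1) * (f - 1) = 0 := by
    have h2 := LinearMap.aeval_self_charpoly f
    rw [hf] at h2
    simpa [pow_two] using h2
  have h3 : ∀ n : ℕ, (1 + (f - 1)) ^ n = 1 + n • (f - 1) := by
    intro n
    induction n with
    | zero => simp
    | succ n ih =>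
      rw [pow_succ, ih, mul_add, mul_one, add_mul, one_mul, smul_mul_assoc, h1, smul_zero,
        add_zero, succ_nsmul]
      abel
  have h4 : f = 1 + (f - 1) := by abel
  rw [h4, h3 p, ← Nat.cast_smul_eq_nsmul R, CharP.cast_eq_zero, zero_smul, add_zero]

/-- the dual numbers of a field of characteristic `p` have characteristic `p` -/
theorem charP_dualNumber (k : Type) [Field k] (p : ℕ) [CharP k p] : CharP (DualNumber k) p :=
  charP_of_injective_algebraMap (R := k) (A := DualNumber k)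
    (fun _ _ h => TrivSqZeroExt.inl_injective h) p

/-! ## Cocycles which are coboundaries on a generator -/

section Generator

variable {k G : Type} [CommRing k] [Group G] {A : Rep k G}

open groupCohomology

lemma cocycle_mul {c : G → A} (hc : (d₁₂ A).hom c = 0) (g h : G) :
    c (g * h) = A.ρ g (c h) + c g := by
  have h1 : A.ρ g (c h) - c (g * h) + c g = 0 :=
    (d₁₂_hom_apply A c (g, h)).symm.trans (congrFun hc (g, h))
  have h2 : c (g * h) = A.ρ g (c h) + c g - (A.ρ g (c h) - c (g * h) + c g) := by abel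
  rw [h2, h1, sub_zero]

/-- If `c τ = τ m - m`, then `c (τ ^ n) = τ ^ n m - m` for all `n`. -/
lemma cocycle_pow {c : G → A} (hc : (d₁₂ A).hom c = 0) {τ : G} {m : A}
    (hτ : c τ = A.ρ τ m - m) (n : ℕ) : c (τ ^ n) = A.ρ (τ ^ n) m - m := by
  induction n with
  | zero =>
    have h1 := cocycle_mul hc 1 1
    rw [mul_one, map_one, Module.End.one_apply] at h1
    have h2 : c 1 = 0 := by
      have : c 1 + c 1 = c 1 + 0 := by rw [add_zero]; exact h1.symm
      exact add_left_cancel this
    rw [pow_zero, h2, map_one, Module.End.one_apply, sub_self]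
  | succ n ih =>
    rw [pow_succ', cocycle_mul hc, ih, hτ, map_mul, Module.End.mul_apply, map_sub]
    abel

/-- A cocycle which on `I` only depends on the powers of one element `τ`, and which is a
coboundary at `τ`, is a coboundary on `I`. -/
theorem mem_unramCochains_of_generator {c : G → A} (hc : (d₁₂ A).hom c = 0) {I : Subgroup G}
    {τ : G} {m : A} (hτ : c τ = A.ρ τ m - m)
    (h : ∀ i ∈ I, ∃ n : ℕ, c i = c (τ ^ n) ∧ A.ρ i m = A.ρ (τ ^ n) m) :
    c ∈ unramCochains A I := by
  refine ⟨m, fun i hi => ?_⟩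
  obtain ⟨n, h1, h2⟩ := h i hi
  rw [h1, h2, cocycle_pow hc hτ]

end Generator

end Fermat.Agent.P1.helper24
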