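import Fermat.Agent.P1.helper24_LQSmin

/-!
# P1 (S56), module LQ: the local term at the Taylor-Wiles primes (helper24)

* `mem_H0_iff_of_gen` : for a smooth module trivial on inertia, the invariants of the local
  Galois group are the invariants of a Frobenius lift;
* `finrank_H0_res_ad0Rep` : `h⁰(G_q, ad⁰ ρbar) = [k : 𝔽_p]` when `ρbar` is unramified at `q` and a
  Frobenius element has two distinct eigenvalues in `k`;
* `locQOut_of` : `LocQOut` from the packages `TameStatement`, `TameBoundStatement`,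
  `CentralizerStatement`.
-/

set_option autoImplicit false
set_option linter.style.haveILetI false
set_option linter.unusedSectionVars false

open Fermat.Agent.S55 Fermat.Agent.P1.helper70 ExtCitation IsLocalRing Polynomial groupCohomology

noncomputable section

namespace Fermat.Agent.P1.helper24

/-- For a smooth module which is trivial on `I`, an element is invariant as soon as it is fixed
by `σ`, if `σ` and `I` generate the group modulo every level. -/
theorem mem_H0_iff_of_gen {k G : Type} [CommRing k] [Group G] {𝒩 : Levels G} {I : Subgroup G}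
    {σ : G} (hgen : ∀ N ∈ 𝒩.mem, ∀ g : G, ∃ n : ℕ, ∃ i ∈ I, ∃ s ∈ N, g = σ ^ n * i * s)
    (A : Rep k G) (hsm : IsSmooth 𝒩 A) (hI : ∀ i ∈ I, A.ρ i = 1) (x : A) :
    x ∈ S55.H0 A ↔ A.ρ σ x = x := by
  constructor
  · intro h
    exact h σ
  · intro h g
    obtain ⟨N, hN, hNA⟩ := hsm
    obtain ⟨n, i, hi, s, hs, rfl⟩ := hgen N hN g
    have hpow : ∀ n : ℕ, A.ρ (σ ^ n) x = x := by
      intro n
      induction n with
      | zero => rw [pow_zero, map_one, Module.End.one_apply]
      | succ n ih => rw [pow_succ, map_mul, Module.End.mul_apply, h, ih]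
    rw [map_mul, map_mul, Module.End.mul_apply, Module.End.mul_apply, hNA s hs x, hI i hi,
      Module.End.one_apply, hpow]

section

variable {𝒪 : Type} [CommRing 𝒪] [IsDomain 𝒪] [IsDiscreteValuationRing 𝒪]
  [IsAdicComplete (maximalIdeal 𝒪) 𝒪] [Finite (ResidueField 𝒪)]
  (p : ℕ) [Fact p.Prime]
  (ρbar : ResidualGaloisRep (ResidueField 𝒪))
  (S Smin : Finset ℕ)
  [Algebra (ZMod p) (ResidueField 𝒪)]

/-- an element of `ad⁰` is fixed by `g` iff its endomorphism commutes with `ρbar g` -/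
lemma ad0Rep_ρ_apply_eq_iff (g : GQ) (x : ad0Rep ρbar p) :
    (ad0Rep ρbar p).ρ g x = x ↔ ρbar.ρ g * Ad0.toEnd ρbar x = Ad0.toEnd ρbar x * ρbar.ρ g := by
  have e1 := ad0Rep_ρ_apply ρbar p g x
  constructor
  · intro h
    rw [h] at e1
    have e2 : Ad0.toEnd ρbar x * ρbar.ρ g =
        ρbar.ρ g * Ad0.toEnd ρbar x * (ρbar.ρ g⁻¹ * ρbar.ρ g) := by
      rw [← mul_assoc, ← e1]
    rw [e2, ρbar_inv_mul, mul_one]
  · intro h
    apply Ad0.toEnd_injective ρbar
    rw [e1, h, mul_assoc, ρbar_mul_inv, mul_one]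

/-- **`h⁰(G_q, ad⁰) = d`** at a prime where `ρbar` is unramified and Frobenius has distinct
eigenvalues. -/
theorem finrank_H0_res_ad0Rep (hCen : CentralizerStatement) (q : Nat.Primes)
    {σ : primeLocalGaloisGroup q} (TS : TameStructure (locLevels q) (locInertia q) σ (q : ℕ))
    (hunr : ρbar.IsUnramifiedAt (q : ℕ)) {α β : ResidueField 𝒪} (hαβ : α ≠ β)
    (hcp : LinearMap.charpoly (ρbar.ρ (primeLocalToGlobal q σ)) = (X - C α) * (X - C β)) :
    Module.finrank (ZMod p) ↥(S55.H0 (Rep.res (primeLocalToGlobal q) (ad0Rep ρbar p))) =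
      Module.finrank (ZMod p) (ResidueField 𝒪) := by
  have hp : p.Prime := Fact.out
  -- the centraliser as a `k`-submodule of `End V`
  let W : Submodule (ResidueField 𝒪) (Module.End (ResidueField 𝒪) ρbar.V) :=
    { carrier := {X | LinearMap.trace (ResidueField 𝒪) ρbar.V X = 0 ∧
        ρbar.ρ (primeLocalToGlobal q σ) * X = X * ρbar.ρ (primeLocalToGlobal q σ)}
      add_mem' := by
        rintro X Y ⟨hX, hX'⟩ ⟨hY, hY'⟩
        exact ⟨by rw [map_add, hX, hY, add_zero], by rw [mul_add, add_mul, hX', hY']⟩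
      zero_mem' := ⟨map_zero _, by rw [mul_zero, zero_mul]⟩
      smul_mem' := by
        rintro a X ⟨hX, hX'⟩
        exact ⟨by rw [map_smul, hX, smul_zero], by rw [mul_smul_comm, smul_mul_assoc, hX']⟩ }
  have hW : Module.finrank (ResidueField 𝒪) ↥W = 1 :=
    hCen (ResidueField 𝒪) ρbar.V ρbar.finrank_eq _ α β hαβ hcp W (fun X => Iff.rfl)
  -- the bijection between `H⁰` and the centraliser
  have hmem : ∀ x : ad0Rep ρbar p,
      x ∈ S55.H0 (Rep.res (primeLocalToGlobal q) (ad0Rep ρbar p)) ↔ Ad0.toEnd ρbar x ∈ W := by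
    intro x
    rw [mem_H0_iff_of_gen TS.gen (Rep.res (primeLocalToGlobal q) (ad0Rep ρbar p))
      (isSmooth_res_ad0Rep ρbar p q)
      (fun i hi => res_ad0Rep_ρ_eq_one_of_mem_locInertia ρbar p q hunr hi) x]
    change (ad0Rep ρbar p).ρ (primeLocalToGlobal q σ) x = x ↔ _
    rw [ad0Rep_ρ_apply_eq_iff]
    exact ⟨fun h => ⟨Ad0.trace_toEnd ρbar x, h⟩, fun h => h.2⟩
  let e : ↥(S55.H0 (Rep.res (primeLocalToGlobal q) (ad0Rep ρbar p))) ≃ ↥W :=
    { toFun := fun x => ⟨Ad0.toEnd ρbar x.1, (hmem x.1).mp x.2⟩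
      invFun := fun X => ⟨(⟨X.1, LinearMap.mem_ker.mpr X.2.1⟩ : Ad0 ρbar), (hmem _).mpr X.2⟩
      left_inv := fun x => rfl
      right_inv := fun X => rfl }
  have hcard : Nat.card ↥(S55.H0 (Rep.res (primeLocalToGlobal q) (ad0Rep ρbar p))) =
      Nat.card ↥W := Nat.card_congr e
  haveI : Finite (Rep.res (primeLocalToGlobal q) (ad0Rep ρbar p)) := finite_ad0 ρbar
  haveI : Module.Finite (ZMod p)
      ↥(S55.H0 (Rep.res (primeLocalToGlobal q) (ad0Rep ρbar p))) := Module.Finite.of_finite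
  have h1 := Module.natCard_eq_pow_finrank (K := ZMod p)
    (V := ↥(S55.H0 (Rep.res (primeLocalToGlobal q) (ad0Rep ρbar p))))
  have h2 := Module.natCard_eq_pow_finrank (K := ResidueField 𝒪) (V := ↥W)
  haveI : Module.Finite (ZMod p) (ResidueField 𝒪) := Module.Finite.of_finite
  have h3 := Module.natCard_eq_pow_finrank (K := ZMod p) (V := ResidueField 𝒪)
  rw [hW, pow_one, h3, Nat.card_zmod] at h2
  rw [hcard, h2, Nat.card_zmod] at h1
  exact (Nat.pow_right_injective hp.two_le h1).symm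

/-- **`LocQOut`** from the packages. -/
theorem locQOut_of (hTame : TameStatement) (hTB : TameBoundStatement)
    (hCen : CentralizerStatement) (hset : Setting 𝒪 p ρbar S Smin) :
    LocQOut p ρbar Smin := by
  intro q hqSmin hpq hFrob
  have hp : p.Prime := Fact.out
  have hq1 : 1 ≤ (q : ℕ) := q.2.one_lt.le
  have hqp : (q : ℕ) ≠ p := by
    intro h
    rw [h] at hpq
    have h1 : 0 < p - 1 := Nat.sub_pos_of_lt hp.one_lt
    have h2 := Nat.le_of_dvd h1 hpq
    omega
  have hqz : ((q : ℕ) : ZMod p) = 1 := by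
    have h1 : ((q : ℕ) : ZMod p) = (((q : ℕ) - 1 : ℕ) : ZMod p) + 1 := by
      rw [← Nat.cast_succ, Nat.succ_eq_add_one, Nat.sub_add_cancel hq1]
    rw [h1, (ZMod.natCast_eq_zero_iff _ _).mpr hpq, zero_add]
  have hunr : ρbar.IsUnramifiedAt (q : ℕ) := by
    by_contra h
    exact hqSmin ((hset.hmin _ q.2 hqp).mpr h)
  obtain ⟨σ, hσ⟩ := frobExists q
  have TS := hTame q σ hσ
  obtain ⟨α, β, hαβ, hcp⟩ := hFrob (primeLocalPlace q)
    (Fermat.Agent.S55.helper74.primeLocalPlace_liesOverPrime q) _ hσ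
  have hb := hTB p (q : ℕ) hqz (primeLocalGaloisGroup q) (locLevels q) (locInertia q) σ TS
    (Rep.res (primeLocalToGlobal q) (ad0Rep ρbar p)) (moduleFinite_res_ad0Rep p ρbar q)
    (isSmooth_res_ad0Rep ρbar p q)
    (fun i hi => res_ad0Rep_ρ_eq_one_of_mem_locInertia ρbar p q hunr hi)
  have h0 := finrank_H0_res_ad0Rep p ρbar hCen q TS hunr hαβ hcp
  refine ⟨hb.1, hb.2.trans ?_⟩
  rw [two_mul, h0]

end

end Fermat.Agent.P1.helper24
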