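import Fermat.Agent.P1.helper24_LQArith
import Fermat.Agent.P1.helper24_LQLift

/-!
# P1 (S56), module LQ: the local term at the primes `q ≠ p` of `Smin` (helper24)

* `res_mem_unramCochains` : the restriction to the local Galois group at `q` of the tangent
  cocycle of a lift with unipotent inertia at `q` (`ρbar` ramified at `q`) is a coboundary on
  inertia;
* `locSminOut_of` : `LocSminOut` from the packages `TameStatement`, `TraceFormStatement`,
  `UnramBoundStatement`.
-/

set_option autoImplicit false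
set_option linter.style.haveILetI false
set_option linter.unusedSectionVars false

open Fermat.Agent.S55 Fermat.Agent.P1.helper70 ExtCitation IsLocalRing Polynomial groupCohomology

noncomputable section

namespace Fermat.Agent.P1.helper24

section

variable {𝒪 : Type} [CommRing 𝒪] [IsLocalRing 𝒪] (p : ℕ) [Fact p.Prime]
  [Algebra (ZMod p) (ResidueField 𝒪)] (ρbar : ResidualGaloisRep (ResidueField 𝒪))

lemma charP_residueField : CharP (ResidueField 𝒪) p :=
  charP_of_injective_algebraMap (algebraMap (ZMod p) (ResidueField 𝒪)).injective p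

lemma two_ne_zero_residueField (hp2 : p ≠ 2) : (2 : ResidueField 𝒪) ≠ 0 := by
  haveI := charP_residueField (𝒪 := 𝒪) p
  intro h
  have h1 : ((2 : ℕ) : ResidueField 𝒪) = 0 := by exact_mod_cast h
  rw [CharP.cast_eq_zero_iff (ResidueField 𝒪) p] at h1
  exact hp2 ((Nat.prime_dvd_prime_iff_eq (Fact.out : p.Prime) Nat.prime_two).mp h1)

lemma ρbar_eq_inv_of_eq {g g' : GQ} (h : ρbar.ρ g = ρbar.ρ g') : ρbar.ρ g⁻¹ = ρbar.ρ g'⁻¹ := by
  calc ρbar.ρ g⁻¹ = ρbar.ρ g⁻¹ * (ρbar.ρ g' * ρbar.ρ g'⁻¹) := by rw [ρbar_mul_inv, mul_one]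
    _ = (ρbar.ρ g⁻¹ * ρbar.ρ g) * ρbar.ρ g'⁻¹ := by rw [← h, mul_assoc]
    _ = ρbar.ρ g'⁻¹ := by rw [ρbar_inv_mul, one_mul]

lemma ad0Rep_ρ_eq_of_eq {g g' : GQ} (h : ρbar.ρ g = ρbar.ρ g') (m : ad0Rep ρbar p) :
    (ad0Rep ρbar p).ρ g m = (ad0Rep ρbar p).ρ g' m := by
  have h1 : Ad0.toEnd ρbar ((ad0Rep ρbar p).ρ g m) = Ad0.toEnd ρbar ((ad0Rep ρbar p).ρ g' m) := by
    have e1 := ad0Rep_ρ_apply ρbar p g m
    have e2 := ad0Rep_ρ_apply ρbar p g' m
    rw [e1, e2, h, ρbar_eq_inv_of_eq ρbar h]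
  exact Ad0.toEnd_injective ρbar h1

/-- the restriction of a global cocycle to the local Galois group is a cocycle -/
lemma d₁₂_res_eq_zero {A : Rep (ZMod p) GQ} (q : Nat.Primes) {c : GQ → A}
    (hc : (d₁₂ A).hom c = 0) :
    (d₁₂ (Rep.res (primeLocalToGlobal q) A)).hom (fun x => c (primeLocalToGlobal q x)) = 0 := by
  funext x
  have h1 := cocycle_mul hc (primeLocalToGlobal q x.1) (primeLocalToGlobal q x.2)
  rw [d₁₂_hom_apply]
  change A.ρ (primeLocalToGlobal q x.1) (c (primeLocalToGlobal q x.2)) -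
    c (primeLocalToGlobal q (x.1 * x.2)) + c (primeLocalToGlobal q x.1) = 0
  rw [map_mul, h1]
  abel

/-- **the key step of (i)**: the tangent cocycle of a lift with unipotent inertia at `q`, where
`ρbar` is ramified, restricts to a coboundary on the inertia group at `q`. -/
theorem res_mem_unramCochains (hTame : TameStatement) (hTr : TraceFormStatement)
    (hp2 : p ≠ 2) (q : Nat.Primes) (hqp : (q : ℕ) ≠ p)
    (hram : ¬ ρbar.IsUnramifiedAt (q : ℕ))
    (ρ : GaloisRepAdic (DualNumber (ResidueField 𝒪)))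
    (hun : ρ.IsUnipotentOnInertiaAt (q : ℕ))
    (c : GQ → ad0Rep ρbar p) (hc : (d₁₂ (ad0Rep ρbar p)).hom c = 0)
    (hlift : IsTanLift ρbar ρ c) :
    (fun x => c (primeLocalToGlobal q x)) ∈
      unramCochains (Rep.res (primeLocalToGlobal q) (ad0Rep ρbar p)) (locInertia q) := by
  haveI := charP_residueField (𝒪 := 𝒪) p
  haveI := charP_dualNumber (ResidueField 𝒪) p
  have hp : p.Prime := Fact.out
  obtain ⟨σ, hσ⟩ := frobExists q
  have TS := hTame q σ hσ
  -- the lift on the local group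
  let f : primeLocalGaloisGroup q →* Module.End (DualNumber (ResidueField 𝒪)) ρ.V :=
    ρ.ρ.comp (primeLocalToGlobal q)
  have hf : ∀ x, f x = ρ.ρ (primeLocalToGlobal q x) := fun _ => rfl
  have hcharpoly : ∀ i ∈ locInertia q,
      LinearMap.charpoly (ρ.ρ (primeLocalToGlobal q i)) = (X - 1) ^ 2 := fun i hi =>
    hun _ (Fermat.Agent.S55.helper74.primeLocalPlace_liesOverPrime q) _ hi
  have hfp : ∀ i ∈ locInertia q, f i ^ p = 1 := fun i hi =>
    unipotentOrder p _ _ hp _ (hcharpoly i hi)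
  have hcop : Nat.Coprime p (q : ℕ) := (Nat.coprime_primes hp q.2).mpr (Ne.symm hqp)
  obtain ⟨τ, hτ, hgen⟩ := TS.exists_generator hcop f (exists_locLevel_ρ_eq_one ρ q) hfp
  -- consequences for `ρbar` and `c`
  have hgen' : ∀ i ∈ locInertia q, ∃ n : ℕ,
      ρbar.ρ (primeLocalToGlobal q i) = ρbar.ρ (primeLocalToGlobal q (τ ^ n)) ∧
        c (primeLocalToGlobal q i) = c (primeLocalToGlobal q (τ ^ n)) := by
    intro i hi
    obtain ⟨n, hn⟩ := hgen i hi
    refine ⟨n, IsTanLift.eq_of_eq hlift ?_⟩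
    rw [← hf, hn, ← map_pow, hf]
  -- `ρbar τ ≠ 1`
  have hu1 : ρbar.ρ (primeLocalToGlobal q τ) ≠ 1 := by
    intro h1
    obtain ⟨i₀, hi₀, hne⟩ := exists_mem_locInertia_ne_one ρbar q hram
    obtain ⟨n, hn, -⟩ := hgen' i₀ hi₀
    apply hne
    rw [hn, map_pow, map_pow, h1, one_pow]
  obtain ⟨hsq, htr⟩ := IsTanLift.of_charpoly hlift (hcharpoly τ hτ)
  obtain ⟨Y, hY, hXY⟩ := hTr (ResidueField 𝒪) ρbar.V ρbar.finrank_eq
    (two_ne_zero_residueField p hp2) (ρbar.ρ (primeLocalToGlobal q τ)) hsq hu1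
    (Ad0.toEnd ρbar (c (primeLocalToGlobal q τ))) (Ad0.trace_toEnd ρbar _) htr
  -- the inverse of `u`
  have hinv : ρbar.ρ (primeLocalToGlobal q τ)⁻¹ = 2 - ρbar.ρ (primeLocalToGlobal q τ) := by
    have h1 : ρbar.ρ (primeLocalToGlobal q τ) * (2 - ρbar.ρ (primeLocalToGlobal q τ)) = 1 := by
      have h2 : ρbar.ρ (primeLocalToGlobal q τ) * (2 - ρbar.ρ (primeLocalToGlobal q τ)) =
          1 - (ρbar.ρ (primeLocalToGlobal q τ) - 1) * (ρbar.ρ (primeLocalToGlobal q τ) - 1) := by
        noncomm_ring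
      rw [h2, hsq, sub_zero]
    calc ρbar.ρ (primeLocalToGlobal q τ)⁻¹
        = ρbar.ρ (primeLocalToGlobal q τ)⁻¹ * (ρbar.ρ (primeLocalToGlobal q τ) *
            (2 - ρbar.ρ (primeLocalToGlobal q τ))) := by rw [h1, mul_one]
      _ = 2 - ρbar.ρ (primeLocalToGlobal q τ) := by
          rw [← mul_assoc, ρbar_inv_mul, one_mul]
  let m : ad0Rep ρbar p := (⟨Y, LinearMap.mem_ker.mpr hY⟩ : Ad0 ρbar)
  have hm : Ad0.toEnd ρbar m = Y := rfl
  have hcτ : c (primeLocalToGlobal q τ) =
      (ad0Rep ρbar p).ρ (primeLocalToGlobal q τ) m - m := by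
    apply Ad0.toEnd_injective ρbar
    have e1 := ad0Rep_ρ_apply ρbar p (primeLocalToGlobal q τ) m
    rw [hinv, hm] at e1
    have e2 : Ad0.toEnd ρbar ((ad0Rep ρbar p).ρ (primeLocalToGlobal q τ) m - m) =
        Ad0.toEnd ρbar ((ad0Rep ρbar p).ρ (primeLocalToGlobal q τ) m) - Ad0.toEnd ρbar m :=
      map_sub (Ad0.toEnd ρbar) _ _
    rw [e2, e1, hm]
    exact hXY
  refine mem_unramCochains_of_generator (A := Rep.res (primeLocalToGlobal q) (ad0Rep ρbar p))
    (d₁₂_res_eq_zero p q hc) (τ := τ) (m := m) hcτ fun i hi => ?_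
  obtain ⟨n, hn1, hn2⟩ := hgen' i hi
  exact ⟨n, hn2, ad0Rep_ρ_eq_of_eq p ρbar hn1 m⟩

end

/-! ## Assembly of `LocSminOut` -/

section Assembly

variable {𝒪 : Type} [CommRing 𝒪] [IsDomain 𝒪] [IsDiscreteValuationRing 𝒪]
  [IsAdicComplete (maximalIdeal 𝒪) 𝒪] [Finite (ResidueField 𝒪)]
  (p : ℕ) [Fact p.Prime]
  (ρbar : ResidualGaloisRep (ResidueField 𝒪))
  (S Smin : Finset ℕ)
  [Algebra (ZMod p) (ResidueField 𝒪)]

/-- `ad⁰ ρbar` is a finite set. -/
lemma finite_ad0 : Finite (Ad0 ρbar) :=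
  Module.finite_of_finite (ResidueField 𝒪)

/-- `ad⁰ ρbar`, restricted to the local Galois group, is finite over `ZMod p`. -/
lemma moduleFinite_res_ad0Rep (q : Nat.Primes) :
    Module.Finite (ZMod p) (Rep.res (primeLocalToGlobal q) (ad0Rep ρbar p)) := by
  haveI : Finite (Rep.res (primeLocalToGlobal q) (ad0Rep ρbar p)) := finite_ad0 ρbar
  exact Module.Finite.of_finite

lemma classes_mono {k G : Type} [CommRing k] [Group G] (𝒩 : Levels G) (A : Rep k G)
    {L L' : Submodule k (G → A)} (h : L ≤ L') : classes 𝒩 A L ≤ classes 𝒩 A L' :=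
  Submodule.map_mono (Submodule.comap_mono h)

/-- coboundaries are coboundaries on `I` -/
lemma B1_le_unramCochains {k G : Type} [CommRing k] [Group G] (A : Rep k G) (I : Subgroup G) :
    B1 A ≤ unramCochains A I := by
  rintro c ⟨m, rfl⟩
  exact ⟨m, fun i _ => rfl⟩

/-- **`LocSminOut`** from the packages, for every family of conditions containing the unipotent
clause at the primes of `Smin` different from `p`. -/
theorem locSminOut_of (hTame : TameStatement) (hTr : TraceFormStatement)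
    (hUR : UnramBoundStatement) (hset : Setting 𝒪 p ρbar S Smin)
    (𝒟fam : Finset ℕ →
      ∀ ⦃A : Type⦄ [CommRing A] [IsLocalRing A] [Algebra 𝒪 A], GaloisRepAdic A → Prop)
    (h𝒟 : ∀ (T : Finset ℕ) (ρ : GaloisRepAdic (DualNumber (ResidueField 𝒪))), 𝒟fam T ρ →
      ∀ q ∈ Smin, q.Prime → q ≠ p → ρ.IsUnipotentOnInertiaAt q) :
    LocSminOut p ρbar Smin 𝒟fam := by
  intro T _ v hvSmin hvp
  have hram : ¬ ρbar.IsUnramifiedAt ((v : Nat.Primes) : ℕ) :=
    (hset.hmin _ (v : Nat.Primes).2 hvp).mp hvSmin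
  obtain ⟨σ, hσ⟩ := frobExists (v : Nat.Primes)
  have TS := hTame (v : Nat.Primes) σ hσ
  have hbound : Module.Finite (ZMod p)
        ↥(classes ((galLocal (primesOf T)).lev v) ((galLocal (primesOf T)).loc (ad0Rep ρbar p) v)
          (unramCochains ((galLocal (primesOf T)).loc (ad0Rep ρbar p) v)
            (locInertia (v : Nat.Primes)))) ∧
      Module.finrank (ZMod p)
        ↥(classes ((galLocal (primesOf T)).lev v) ((galLocal (primesOf T)).loc (ad0Rep ρbar p) v)
          (unramCochains ((galLocal (primesOf T)).loc (ad0Rep ρbar p) v)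
            (locInertia (v : Nat.Primes)))) ≤
        Module.finrank (ZMod p)
          ↥(S55.H0 ((galLocal (primesOf T)).loc (ad0Rep ρbar p) v)) :=
    hUR (ZMod p) (primeLocalGaloisGroup (v : Nat.Primes)) (locLevels (v : Nat.Primes))
      (locInertia (v : Nat.Primes)) σ TS.normal TS.gen
      (Rep.res (primeLocalToGlobal (v : Nat.Primes)) (ad0Rep ρbar p))
      (moduleFinite_res_ad0Rep p ρbar (v : Nat.Primes))
      (isSmooth_res_ad0Rep ρbar p (v : Nat.Primes))
  have hle : locTanZ ρbar p (𝒟fam T) (primesOf T) v ≤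
      unramCochains ((galLocal (primesOf T)).loc (ad0Rep ρbar p) v)
        (locInertia (v : Nat.Primes)) := by
    refine sup_le (Submodule.map_le_iff_le_comap.mpr ?_) (B1_le_unramCochains _ _)
    refine sup_le (Submodule.span_le.mpr ?_) ?_
    · rintro c ⟨hcZ, ρ, hρ, hlift⟩
      exact res_mem_unramCochains p ρbar hTame hTr hset.hp2 (v : Nat.Primes) hvp hram ρ
        (h𝒟 T ρ hρ _ hvSmin (v : Nat.Primes).2 hvp) c hcZ.2 hlift
    · rintro c ⟨m, rfl⟩
      exact ⟨m, fun i _ => rfl⟩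
  have hle' : locTanH ρbar p (𝒟fam T) (primesOf T) v ≤
      classes ((galLocal (primesOf T)).lev v) ((galLocal (primesOf T)).loc (ad0Rep ρbar p) v)
        (unramCochains ((galLocal (primesOf T)).loc (ad0Rep ρbar p) v)
          (locInertia (v : Nat.Primes))) :=
    classes_mono _ _ hle
  haveI := hbound.1
  exact ⟨Submodule.finiteDimensional_of_le hle', (Submodule.finrank_mono hle').trans hbound.2⟩

/-- **`LocSminOut` for the strict-ordinary family** from the packages. -/
theorem locSminOut_condSO_of (hTame : TameStatement) (hTr : TraceFormStatement)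
    (hUR : UnramBoundStatement) (hset : Setting 𝒪 p ρbar S Smin) :
    LocSminOut p ρbar Smin (condSO 𝒪 p Smin) :=
  locSminOut_of p ρbar S Smin hTame hTr hUR hset _ fun _ _ h => h.2

/-- **`LocSminOut` for the flat family** from the packages. -/
theorem locSminOut_condFlat_of (hTame : TameStatement) (hTr : TraceFormStatement)
    (hUR : UnramBoundStatement) (hset : Setting 𝒪 p ρbar S Smin) :
    LocSminOut p ρbar Smin (condFlat 𝒪 p Smin) :=
  locSminOut_of p ρbar S Smin hTame hTr hUR hset _ fun _ _ h => h.2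

end Assembly

end Fermat.Agent.P1.helper24
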