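import Fermat.Agent.P1.helper70_FlatDefs
import Fermat.Agent.S55.helper51_Krasner

/-!
# P1 / FLAT-CNT, package DICT-H0 (helper26, task 742)

`dictH0 p : helper70.DictH0Statement p` : transport of `IsFlatAt` from `ℚ̄` to
`Ω = PadicAlgCl p`.

Post-composition with `ι = padicEmbedding p : ℚ̄ → Ω` is a bijection
`(H →ₐ ℚ̄) → (H →ₐ Ω)` (injective since `ι` is, surjective since `H` is a finite `ℤ_(p)`-module,
so that the values of a point `H → Ω` are algebraic over `ℚ`), multiplicative for convolution,
and it intertwines `localGaloisToGlobal p τ` with `τ`.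
-/

set_option autoImplicit false

open WithConv

namespace Fermat.Agent.P1.helper26

open Fermat.Agent.P1.helper70

section Points

variable (p : ℕ) [Fact p.Prime]

/-- the embedding `ℚ̄ → Ω` as a homomorphism of `ℤ_(p)`-algebras -/
noncomputable def iotaZ : AlgebraicClosure ℚ →ₐ[GaloisRep.ratLocalizedAt p] PadicAlgCl p :=
  (padicEmbedding p).restrictScalars (GaloisRep.ratLocalizedAt p)

theorem iotaZ_apply (x : AlgebraicClosure ℚ) : iotaZ p x = padicEmbedding p x := rfl

theorem iotaZ_injective : Function.Injective (iotaZ p) := (padicEmbedding p).injective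

variable {H : Type} [CommRing H] [Algebra (GaloisRep.ratLocalizedAt p) H]
  [Module.Finite (GaloisRep.ratLocalizedAt p) H]

/-- the values of an `Ω`-valued point of a finite `ℤ_(p)`-algebra lie in `ℚ̄` -/
theorem exists_iotaZ_eq (g : H →ₐ[GaloisRep.ratLocalizedAt p] PadicAlgCl p) (h : H) :
    g h ∈ (iotaZ p).range := by
  have h1 : IsIntegral (GaloisRep.ratLocalizedAt p) h := Algebra.IsIntegral.isIntegral h
  have h2 : IsIntegral (GaloisRep.ratLocalizedAt p) (g h) := h1.map g
  have h3 : IsIntegral ℚ (g h) := h2.tower_top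
  obtain ⟨y, hy⟩ :=
    Fermat.Agent.S55.helper51.mem_range_padicEmbedding_of_isAlgebraic p h3.isAlgebraic
  exact ⟨y, hy⟩

/-- the `ℚ̄`-valued point of an `Ω`-valued point -/
noncomputable def pullPt (g : H →ₐ[GaloisRep.ratLocalizedAt p] PadicAlgCl p) :
    H →ₐ[GaloisRep.ratLocalizedAt p] AlgebraicClosure ℚ :=
  ((AlgEquiv.ofInjective (iotaZ p) (iotaZ_injective p)).symm :
      (iotaZ p).range →ₐ[GaloisRep.ratLocalizedAt p] AlgebraicClosure ℚ).comp
    (g.codRestrict (iotaZ p).range (exists_iotaZ_eq p g))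

theorem iotaZ_pullPt (g : H →ₐ[GaloisRep.ratLocalizedAt p] PadicAlgCl p) (h : H) :
    iotaZ p (pullPt p g h) = g h := by
  unfold pullPt
  set y : (iotaZ p).range := g.codRestrict (iotaZ p).range (exists_iotaZ_eq p g) h with hy
  have h1 : ((AlgEquiv.ofInjective (iotaZ p) (iotaZ_injective p))
      ((AlgEquiv.ofInjective (iotaZ p) (iotaZ_injective p)).symm y) : PadicAlgCl p) = y := by
    rw [AlgEquiv.apply_symm_apply]
  rw [AlgEquiv.ofInjective_apply] at h1
  exact h1

theorem comp_pullPt (g : H →ₐ[GaloisRep.ratLocalizedAt p] PadicAlgCl p) :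
    (iotaZ p).comp (pullPt p g) = g :=
  AlgHom.ext fun h => iotaZ_pullPt p g h

theorem pullPt_comp (f : H →ₐ[GaloisRep.ratLocalizedAt p] AlgebraicClosure ℚ) :
    pullPt p ((iotaZ p).comp f) = f :=
  AlgHom.ext fun h => iotaZ_injective p (iotaZ_pullPt p _ h)

/-- post-composition with `ι`, as a bijection between the groups of points -/
noncomputable def ptEquiv :
    WithConv (H →ₐ[GaloisRep.ratLocalizedAt p] AlgebraicClosure ℚ) ≃
      WithConv (H →ₐ[GaloisRep.ratLocalizedAt p] PadicAlgCl p) where
  toFun f := toConv ((iotaZ p).comp f.ofConv)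
  invFun g := toConv (pullPt p g.ofConv)
  left_inv f := by
    apply WithConv.ext
    exact pullPt_comp p f.ofConv
  right_inv g := by
    apply WithConv.ext
    exact comp_pullPt p g.ofConv

theorem ptEquiv_apply (f : WithConv (H →ₐ[GaloisRep.ratLocalizedAt p] AlgebraicClosure ℚ))
    (h : H) : (ptEquiv p f).ofConv h = padicEmbedding p (f.ofConv h) := rfl

theorem ptEquiv_symm_apply (g : WithConv (H →ₐ[GaloisRep.ratLocalizedAt p] PadicAlgCl p))
    (h : H) : padicEmbedding p (((ptEquiv p).symm g).ofConv h) = g.ofConv h :=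
  iotaZ_pullPt p g.ofConv h

end Points

section Mul

variable (p : ℕ) [Fact p.Prime]
variable {H : Type} [CommRing H] [Bialgebra (GaloisRep.ratLocalizedAt p) H]
  [Module.Finite (GaloisRep.ratLocalizedAt p) H]

theorem ptEquiv_mul (f g : WithConv (H →ₐ[GaloisRep.ratLocalizedAt p] AlgebraicClosure ℚ)) :
    ptEquiv p (f * g) = ptEquiv p f * ptEquiv p g := by
  apply WithConv.ext
  exact AlgHom.comp_convMul_distrib (iotaZ p) f g

theorem ptEquiv_symm_mul (f g : WithConv (H →ₐ[GaloisRep.ratLocalizedAt p] PadicAlgCl p)) :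
    (ptEquiv p).symm (f * g) = (ptEquiv p).symm f * (ptEquiv p).symm g := by
  apply (ptEquiv p).injective
  rw [ptEquiv_mul, Equiv.apply_symm_apply, Equiv.apply_symm_apply, Equiv.apply_symm_apply]

end Mul

/-- **DICT-H0**: transport of `IsFlatAt` to `PadicAlgCl p`. -/
theorem dictH0 (p : ℕ) [Fact p.Prime] : DictH0Statement p := by
  intro A _ _ ρ hflat I hI
  obtain ⟨H, instR, instH, hfin, hflatH, hco, e, hadd, heq⟩ := hflat.2 I hI
  refine ⟨H, instR, instH, hfin, hflatH, hco, (ptEquiv p).symm.trans e, ?_, ?_⟩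
  · intro f g
    simp only [Equiv.trans_apply]
    rw [ptEquiv_symm_mul, hadd]
  · intro τ f g hfg
    simp only [Equiv.trans_apply]
    unfold locAct
    apply heq
    intro h
    have hinj : Function.Injective (padicEmbedding p) := (padicEmbedding p).injective
    apply hinj
    rw [padicEmbedding_localGaloisToGlobal]
    exact (ptEquiv_symm_apply p g h).trans ((hfg h).trans
      (congrArg τ (ptEquiv_symm_apply p f h).symm))

end Fermat.Agent.P1.helper26
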