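/-
P1 / S56, module COC, package [COC-BC3] (helper41, task 521):
`GaloisRepAdic.IsFlatAt` is stable under base change along SURJECTIVE local homomorphisms.

For a surjective local homomorphism `φ : A → B`, an ideal `J` of `B` and `I := J.comap φ`, the
map `[v] ↦ [1 ⊗ v]` is an additive, Galois-equivariant bijection
`V / I V ≃ (B ⊗_A V) / J (B ⊗_A V)`; composing with the Hopf-algebra parametrisation of `V / I V`
gives the one of the base change.
-/
import Mathlib
import Fermat.Agent.P1.helper56_CocDefs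

set_option autoImplicit false

namespace Fermat.Agent.P1.helper41

open IsLocalRing TensorProduct Fermat.Agent.S53.helper56

section

variable {A B : Type} [CommRing A] [IsLocalRing A] [CommRing B] [IsLocalRing B]

/-- The `φ`-semilinear map `v ↦ 1 ⊗ v` from `ρ.V` to the module of the base change. -/
noncomputable def bcIncl (φ : A →+* B) (hφ : IsLocalHom φ) (ρ : GaloisRepAdic A) :
    ρ.V →ₛₗ[φ] (ρ.baseChangeAlong φ hφ).V :=
  letI : Algebra A B := φ.toAlgebra
  { toFun := fun v => (1 : B) ⊗ₜ[A] v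
    map_add' := fun x y => TensorProduct.tmul_add (1 : B) x y
    map_smul' := fun a v => by
      show (1 : B) ⊗ₜ[A] (a • v) = φ a • ((1 : B) ⊗ₜ[A] v)
      rw [TensorProduct.tmul_smul, TensorProduct.smul_tmul', TensorProduct.smul_tmul',
        Algebra.smul_def, smul_eq_mul]
      rfl }

theorem bcIncl_apply (φ : A →+* B) (hφ : IsLocalHom φ) (ρ : GaloisRepAdic A) (v : ρ.V) :
    letI : Algebra A B := φ.toAlgebra
    bcIncl φ hφ ρ v = ((1 : B) ⊗ₜ[A] v : B ⊗[A] ρ.V) := rfl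

theorem bcIncl_surjective (φ : A →+* B) (hφ : IsLocalHom φ) (hsurj : Function.Surjective φ)
    (ρ : GaloisRepAdic A) : Function.Surjective (bcIncl φ hφ ρ) := by
  let _ : Algebra A B := φ.toAlgebra
  intro w
  change B ⊗[A] ρ.V at w
  induction w using TensorProduct.induction_on with
  | zero => exact ⟨0, map_zero _⟩
  | tmul b v =>
    obtain ⟨a, rfl⟩ := hsurj b
    refine ⟨a • v, ?_⟩
    rw [map_smulₛₗ]
    show φ a • ((1 : B) ⊗ₜ[A] v) = (φ a) ⊗ₜ[A] v
    rw [TensorProduct.smul_tmul', smul_eq_mul, mul_one]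
  | add x y hx hy =>
    obtain ⟨vx, hvx⟩ := hx
    obtain ⟨vy, hvy⟩ := hy
    refine ⟨vx + vy, ?_⟩
    rw [map_add, hvx, hvy]
    rfl

theorem bcIncl_map (φ : A →+* B) (hφ : IsLocalHom φ) (ρ : GaloisRepAdic A)
    (σ : AlgebraicClosure ℚ ≃ₐ[ℚ] AlgebraicClosure ℚ) (v : ρ.V) :
    (ρ.baseChangeAlong φ hφ).ρ σ (bcIncl φ hφ ρ v) = bcIncl φ hφ ρ (ρ.ρ σ v) := by
  let _ : Algebra A B := φ.toAlgebra
  show (ρ.ρ σ).baseChange B ((1 : B) ⊗ₜ[A] v) = (1 : B) ⊗ₜ[A] (ρ.ρ σ v)
  rw [LinearMap.baseChange_tmul]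

/-- If `1 ⊗ v ∈ J (B ⊗ V)` then `v ∈ (J.comap φ) V`. -/
theorem mem_of_bcIncl_mem (φ : A →+* B) (hφ : IsLocalHom φ) (ρ : GaloisRepAdic A) (J : Ideal B)
    (v : ρ.V)
    (hv : bcIncl φ hφ ρ v ∈ J • (⊤ : Submodule B (ρ.baseChangeAlong φ hφ).V)) :
    v ∈ (J.comap φ) • (⊤ : Submodule A ρ.V) := by
  let _ : Algebra A B := φ.toAlgebra
  obtain ⟨b⟩ := nonempty_basis ρ
  have hcoord : ∀ i, b.repr v i ∈ J.comap φ := by
    intro i
    have h1 := repr_mem_of_mem_smul_top (bcBasis φ hφ ρ b) J _ hv i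
    have h2 : (bcBasis φ hφ ρ b).repr (bcIncl φ hφ ρ v) i = φ (b.repr v i) := by
      show (Algebra.TensorProduct.basis B b).repr ((1 : B) ⊗ₜ[A] v) i = φ (b.repr v i)
      rw [Algebra.TensorProduct.basis_repr_tmul, one_smul, Finsupp.mapRange_apply]
      rfl
    rw [h2] at h1
    exact h1
  rw [← b.sum_repr v]
  exact Submodule.sum_mem _ fun i _ => Submodule.smul_mem_smul (hcoord i) Submodule.mem_top

/-- The `φ`-semilinear map `V / I V → (B ⊗ V) / J (B ⊗ V)`, `[v] ↦ [1 ⊗ v]`, `I = J.comap φ`. -/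
noncomputable def bcQuot (φ : A →+* B) (hφ : IsLocalHom φ) (ρ : GaloisRepAdic A) (J : Ideal B) :
    (ρ.V ⧸ ((J.comap φ) • (⊤ : Submodule A ρ.V))) →ₛₗ[φ]
      ((ρ.baseChangeAlong φ hφ).V ⧸ (J • (⊤ : Submodule B (ρ.baseChangeAlong φ hφ).V))) :=
  Submodule.liftQ _ ((Submodule.mkQ (J • (⊤ : Submodule B (ρ.baseChangeAlong φ hφ).V))).comp
      (bcIncl φ hφ ρ)) (by
    rw [Submodule.smul_le]
    intro a ha v _
    rw [LinearMap.mem_ker, LinearMap.comp_apply, map_smulₛₗ, Submodule.mkQ_apply,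
      Submodule.Quotient.mk_eq_zero]
    exact Submodule.smul_mem_smul ha Submodule.mem_top)

theorem bcQuot_mk (φ : A →+* B) (hφ : IsLocalHom φ) (ρ : GaloisRepAdic A) (J : Ideal B)
    (v : ρ.V) :
    bcQuot φ hφ ρ J (Submodule.Quotient.mk v) = Submodule.Quotient.mk (bcIncl φ hφ ρ v) := rfl

theorem bcQuot_bijective (φ : A →+* B) (hφ : IsLocalHom φ) (hsurj : Function.Surjective φ)
    (ρ : GaloisRepAdic A) (J : Ideal B) : Function.Bijective (bcQuot φ hφ ρ J) := by
  constructor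
  · rw [injective_iff_map_eq_zero]
    intro x hx
    obtain ⟨v, rfl⟩ := Submodule.Quotient.mk_surjective _ x
    rw [bcQuot_mk, Submodule.Quotient.mk_eq_zero] at hx
    rw [Submodule.Quotient.mk_eq_zero]
    exact mem_of_bcIncl_mem φ hφ ρ J v hx
  · intro y
    obtain ⟨w, rfl⟩ := Submodule.Quotient.mk_surjective _ y
    obtain ⟨v, rfl⟩ := bcIncl_surjective φ hφ hsurj ρ w
    exact ⟨Submodule.Quotient.mk v, bcQuot_mk φ hφ ρ J v⟩

theorem bcQuot_levelAction (φ : A →+* B) (hφ : IsLocalHom φ) (ρ : GaloisRepAdic A) (J : Ideal B)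
    (σ : AlgebraicClosure ℚ ≃ₐ[ℚ] AlgebraicClosure ℚ)
    (x : ρ.V ⧸ ((J.comap φ) • (⊤ : Submodule A ρ.V))) :
    bcQuot φ hφ ρ J (ρ.levelAction (J.comap φ) σ x) =
      (ρ.baseChangeAlong φ hφ).levelAction J σ (bcQuot φ hφ ρ J x) := by
  obtain ⟨v, rfl⟩ := Submodule.Quotient.mk_surjective _ x
  rw [bcQuot_mk]
  unfold GaloisRepAdic.levelAction
  rw [Submodule.mapQ_apply, Submodule.mapQ_apply, bcQuot_mk, bcIncl_map]

end

/-- **[COC-BC3]** `IsFlatAt` is stable under base change along surjective local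
homomorphisms. -/
theorem bcFlat : Fermat.Agent.P1.helper56.BCFlatStatement := by
  intro A B _ _ _ _ φ hφ hsurj ρ p hflat
  obtain ⟨hfin, hH⟩ := hflat
  refine ⟨?_, ?_⟩
  · have := hfin
    have : IsLocalHom φ := hφ
    refine Finite.of_surjective (ResidueField.map φ) ?_
    intro x
    obtain ⟨b, rfl⟩ := residue_surjective x
    obtain ⟨a, rfl⟩ := hsurj b
    exact ⟨residue A a, ResidueField.map_residue φ a⟩
  · intro J hJ
    have hI : Finite (A ⧸ J.comap φ) :=
      Finite.of_injective (Ideal.quotientMap J φ le_rfl) Ideal.quotientMap_injective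
    obtain ⟨H, iH1, iH2, hfinH, hflatH, hcocomm, e, hadd, hequiv⟩ := hH (J.comap φ) hI
    refine ⟨H, iH1, iH2, hfinH, hflatH, hcocomm,
      e.trans (Equiv.ofBijective _ (bcQuot_bijective φ hφ hsurj ρ J)), ?_, ?_⟩
    · intro f g
      simp only [Equiv.trans_apply, Equiv.ofBijective_apply]
      rw [hadd, map_add]
    · intro σ f g hfg
      simp only [Equiv.trans_apply, Equiv.ofBijective_apply]
      rw [hequiv σ f g hfg, bcQuot_levelAction]

end Fermat.Agent.P1.helper41
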