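/-
P1 / S56, module COC (helper56): the matrix / cocycle dictionary for lifts to the dual numbers.

(MAT-A) calculus of `tanMat r c = r + ε (c r)`; every lift of `r` is `tanMat r c` for a cocycle.
(MAT-B) conjugacy of tangent lifts is cohomology of the cocycles (Schur).
-/
import Mathlib
import Fermat.Agent.P1.helper56_CocDefs
import Fermat.Agent.S53.helper56_WP4

set_option autoImplicit false
set_option linter.unusedSectionVars false
set_option linter.unusedVariables false

namespace Fermat.Agent.P1.helper56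

open IsLocalRing Fermat.Agent.S53.helper56 Fermat.Agent.S53

variable {k : Type} [Field k]

/-! ### (MAT-A) calculus -/

theorem tanMat_apply (r c : M2 k) (i j : Fin 2) :
    tanMat r c i j = TrivSqZeroExt.inl (r i j) + TrivSqZeroExt.inr ((c * r) i j) := rfl

theorem fst_tanMat (r c : M2 k) : (tanMat r c).map TrivSqZeroExt.fst = r := by
  ext i j
  simp [tanMat_apply]

theorem snd_tanMat (r c : M2 k) : (tanMat r c).map TrivSqZeroExt.snd = c * r := by
  ext i j
  simp [tanMat_apply]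

theorem ext_fst_snd {Y Y' : M2 (DualNumber k)}
    (h1 : Y.map TrivSqZeroExt.fst = Y'.map TrivSqZeroExt.fst)
    (h2 : Y.map TrivSqZeroExt.snd = Y'.map TrivSqZeroExt.snd) : Y = Y' := by
  ext i j
  · exact congrFun (congrFun h1 i) j
  · exact congrFun (congrFun h2 i) j

theorem fst_mul (Y Y' : M2 (DualNumber k)) :
    (Y * Y').map TrivSqZeroExt.fst = Y.map TrivSqZeroExt.fst * Y'.map TrivSqZeroExt.fst := by
  ext i j
  simp [Matrix.mul_apply]

theorem snd_mul (Y Y' : M2 (DualNumber k)) :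
    (Y * Y').map TrivSqZeroExt.snd =
      Y.map TrivSqZeroExt.fst * Y'.map TrivSqZeroExt.snd +
        Y.map TrivSqZeroExt.snd * Y'.map TrivSqZeroExt.fst := by
  ext i j
  simp [Matrix.mul_apply]
  ring

theorem fst_one : (1 : M2 (DualNumber k)).map TrivSqZeroExt.fst = 1 := by
  ext i j
  by_cases h : i = j
  · subst h; simp
  · simp [Matrix.one_apply_ne h]

theorem snd_one : (1 : M2 (DualNumber k)).map TrivSqZeroExt.snd = 0 := by
  ext i j
  by_cases h : i = j
  · subst h; simp
  · simp [Matrix.one_apply_ne h]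

theorem eq_tanMat_iff (Y : M2 (DualNumber k)) (r c : M2 k) :
    Y = tanMat r c ↔ Y.map TrivSqZeroExt.fst = r ∧ Y.map TrivSqZeroExt.snd = c * r := by
  constructor
  · rintro rfl
    exact ⟨fst_tanMat r c, snd_tanMat r c⟩
  · rintro ⟨h1, h2⟩
    apply ext_fst_snd
    · rw [h1, fst_tanMat]
    · rw [h2, snd_tanMat]

theorem tanMat_one_zero : tanMat (1 : M2 k) 0 = 1 := by
  symm
  rw [eq_tanMat_iff]
  exact ⟨fst_one, by rw [snd_one, zero_mul]⟩

theorem tanMat_mul (r r' rinv c c' : M2 k) (h : r * rinv = 1) :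
    tanMat r c * tanMat r' c' = tanMat (r * r') (c + r * c' * rinv) := by
  have h' : rinv * r = 1 := (Matrix.mul_eq_one_comm_of_card_eq (Fin 2) (Fin 2) k rfl).mp h
  rw [eq_tanMat_iff]
  refine ⟨by rw [fst_mul, fst_tanMat, fst_tanMat], ?_⟩
  rw [snd_mul, fst_tanMat, fst_tanMat, snd_tanMat, snd_tanMat]
  have e : r * c' * rinv * (r * r') = r * (c' * r') := by
    calc r * c' * rinv * (r * r') = r * c' * (rinv * r) * r' := by simp only [mul_assoc]
      _ = r * (c' * r') := by rw [h', mul_one, mul_assoc]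
  rw [add_mul, e, mul_assoc c r r']
  abel

/-- Unique solvability of `Y = tanMat r c` in `c` for invertible `r`. -/
theorem exists_eq_tanMat (Y : M2 (DualNumber k)) (r rinv : M2 k) (h : r * rinv = 1)
    (hY : Y.map TrivSqZeroExt.fst = r) : Y = tanMat r (Y.map TrivSqZeroExt.snd * rinv) := by
  have h' : rinv * r = 1 := (Matrix.mul_eq_one_comm_of_card_eq (Fin 2) (Fin 2) k rfl).mp h
  rw [eq_tanMat_iff]
  refine ⟨hY, ?_⟩
  rw [mul_assoc, h', mul_one]

theorem tanMat_injective (r rinv c c' : M2 k) (h : r * rinv = 1)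
    (hcc : tanMat r c = tanMat r c') : c = c' := by
  have h1 := congrArg (fun Y : M2 (DualNumber k) => Y.map TrivSqZeroExt.snd) hcc
  simp only [snd_tanMat] at h1
  have h2 := congrArg (· * rinv) h1
  simpa only [mul_assoc, h, mul_one] using h2

/-! ### Cocycles -/

theorem map_mul_map_inv (r : Gal →* M2 k) (σ : Gal) : r σ * r σ⁻¹ = 1 := by
  rw [← map_mul, mul_inv_cancel, map_one]

theorem map_inv_mul_map (r : Gal →* M2 k) (σ : Gal) : r σ⁻¹ * r σ = 1 := by
  rw [← map_mul, inv_mul_cancel, map_one]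

theorem isAdCocycle_one {r : Gal →* M2 k} {c : Gal → M2 k} (hc : IsAdCocycle r c) :
    c 1 = 0 := by
  have h := hc 1 1
  rw [mul_one, inv_one, map_one, one_mul, mul_one] at h
  exact left_eq_add.1 h

/-- The tangent lift attached to a cocycle. -/
noncomputable def tanHom (r : Gal →* M2 k) (c : Gal → M2 k) (hc : IsAdCocycle r c) :
    Gal →* M2 (DualNumber k) where
  toFun σ := tanMat (r σ) (c σ)
  map_one' := by rw [map_one, isAdCocycle_one hc, tanMat_one_zero]
  map_mul' σ τ := by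
    rw [tanMat_mul (r σ) (r τ) (r σ⁻¹) (c σ) (c τ) (map_mul_map_inv r σ), map_mul, hc σ τ]

theorem tanHom_apply (r : Gal →* M2 k) (c : Gal → M2 k) (hc : IsAdCocycle r c) (σ : Gal) :
    tanHom r c hc σ = tanMat (r σ) (c σ) := rfl

/-- Every lift of `r` to the dual numbers is the tangent lift of a cocycle. -/
theorem exists_cocycle_of_fst (r : Gal →* M2 k) (R : Gal →* M2 (DualNumber k))
    (h : ∀ σ, (R σ).map TrivSqZeroExt.fst = r σ) :
    ∃ c : Gal → M2 k, IsAdCocycle r c ∧ ∀ σ, R σ = tanMat (r σ) (c σ) := by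
  refine ⟨fun σ => (R σ).map TrivSqZeroExt.snd * r σ⁻¹, ?_, fun σ =>
    exists_eq_tanMat (R σ) (r σ) (r σ⁻¹) (map_mul_map_inv r σ) (h σ)⟩
  intro σ τ
  simp only
  rw [map_mul, snd_mul, h σ, h τ, mul_inv_rev, map_mul, add_mul, add_comm]
  congr 1
  · calc (R σ).map TrivSqZeroExt.snd * r τ * (r τ⁻¹ * r σ⁻¹)
        = (R σ).map TrivSqZeroExt.snd * (r τ * r τ⁻¹) * r σ⁻¹ := by simp only [mul_assoc]
      _ = (R σ).map TrivSqZeroExt.snd * r σ⁻¹ := by rw [map_mul_map_inv, mul_one]
  · simp only [mul_assoc]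

theorem IsAdCoboundary.neg {r : Gal →* M2 k} {c : Gal → M2 k} (hc : IsAdCoboundary r c) :
    IsAdCoboundary r (-c) := by
  obtain ⟨X, hX⟩ := hc
  refine ⟨-X, fun σ => ?_⟩
  rw [Pi.neg_apply, hX σ]
  simp only [mul_neg, neg_mul, sub_neg_eq_add]
  abel

theorem isAdCoboundary_sub_comm {r : Gal →* M2 k} {c c' : Gal → M2 k}
    (h : IsAdCoboundary r (c - c')) : IsAdCoboundary r (c' - c) := by
  have := h.neg
  rwa [neg_sub] at this

/-! ### (MAT-B) conjugacy and cohomology -/

/-- Cohomologous cocycles have conjugate tangent lifts. -/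
theorem conj_of_isAdCoboundary (r : Gal →* M2 k) (c c' : Gal → M2 k)
    (h : IsAdCoboundary r (c - c')) :
    ∃ W W' : M2 (DualNumber k), W * W' = 1 ∧ W' * W = 1 ∧
      ∀ σ, W * tanMat (r σ) (c σ) = tanMat (r σ) (c' σ) * W := by
  obtain ⟨X, hX⟩ := h
  refine ⟨tanMat 1 X, tanMat 1 (-X), ?_, ?_, fun σ => ?_⟩
  · rw [tanMat_mul 1 1 1 X (-X) (one_mul 1), one_mul, one_mul, mul_one, add_neg_cancel,
      tanMat_one_zero]
  · rw [tanMat_mul 1 1 1 (-X) X (one_mul 1), one_mul, one_mul, mul_one, neg_add_cancel,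
      tanMat_one_zero]
  · rw [tanMat_mul 1 (r σ) 1 X (c σ) (one_mul 1),
      tanMat_mul (r σ) 1 (r σ⁻¹) (c' σ) X (map_mul_map_inv r σ), one_mul, one_mul, mul_one,
      mul_one]
    congr 1
    have := hX σ
    rw [Pi.sub_apply] at this
    rw [sub_eq_iff_eq_add] at this
    rw [this]
    abel

/-- Conjugate tangent lifts of an absolutely irreducible representation have cohomologous
cocycles. -/
theorem isAdCoboundary_of_conj (ρbar : ResidualGaloisRep k) (habs : ρbar.IsAbsolutelyIrreducible)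
    (b : Module.Basis (Fin 2) k ρbar.V) (c c' : Gal → M2 k)
    (W W' : M2 (DualNumber k)) (h1 : W * W' = 1)
    (hconj : ∀ σ, W * tanMat (rMat ρbar b σ) (c σ) = tanMat (rMat ρbar b σ) (c' σ) * W) :
    IsAdCoboundary (rMat ρbar b) (c - c') := by
  set r := rMat ρbar b with hr
  set W0 : M2 k := W.map TrivSqZeroExt.fst with hW0
  set W1 : M2 k := W.map TrivSqZeroExt.snd with hW1
  have hfst : ∀ σ, W0 * r σ = r σ * W0 := by
    intro σ
    have := congrArg (fun Y : M2 (DualNumber k) => Y.map TrivSqZeroExt.fst) (hconj σ)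
    simpa only [fst_mul, fst_tanMat] using this
  have hsnd : ∀ σ, W0 * (c σ * r σ) + W1 * r σ = r σ * W1 + c' σ * r σ * W0 := by
    intro σ
    have := congrArg (fun Y : M2 (DualNumber k) => Y.map TrivSqZeroExt.snd) (hconj σ)
    simpa only [snd_mul, fst_tanMat, snd_tanMat] using this
  obtain ⟨lam, hlam⟩ := wp4 ρbar habs b W0 (fun g => by
    have := hfst g
    rw [hr, rMat_apply] at this
    exact this)
  have hlam0 : lam ≠ 0 := by
    intro h0
    have h2 := congrArg (fun Y : M2 (DualNumber k) => Y.map TrivSqZeroExt.fst) h1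
    simp only [fst_mul, fst_one] at h2
    rw [← hW0, hlam, h0, zero_smul, zero_mul] at h2
    have h3 := congrFun (congrFun h2 0) 0
    simp at h3
  refine ⟨lam⁻¹ • W1, fun σ => ?_⟩
  have e := hsnd σ
  rw [hlam] at e
  simp only [Matrix.smul_mul, Matrix.mul_smul, one_mul, mul_one] at e
  have e2 : lam • ((c σ - c' σ) * r σ) = r σ * W1 - W1 * r σ := by
    rw [sub_mul, smul_sub, sub_eq_sub_iff_add_eq_add, e]
  have e3 : (c σ - c' σ) * r σ = lam⁻¹ • (r σ * W1 - W1 * r σ) := by
    rw [← e2, smul_smul, inv_mul_cancel₀ hlam0, one_smul]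
  have e4 : (c σ - c' σ) * r σ * r σ⁻¹ = lam⁻¹ • (r σ * W1 - W1 * r σ) * r σ⁻¹ :=
    congrArg (· * r σ⁻¹) e3
  rw [mul_assoc, map_mul_map_inv, mul_one] at e4
  rw [Pi.sub_apply, e4]
  simp only [Matrix.smul_mul, Matrix.mul_smul, sub_mul, mul_assoc, map_mul_map_inv, mul_one,
    smul_sub]

end Fermat.Agent.P1.helper56
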