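/-
P1 / S56, module COC (helper56): the dual numbers as a test algebra, the residual condition in
matrix form, and the core injectivity statement from the universal property.
-/
import Mathlib
import Fermat.Agent.P1.helper56_CocMat
import Fermat.Agent.S53.TestAlg

set_option autoImplicit false
set_option linter.unusedSectionVars false
set_option linter.unusedVariables false
set_option linter.style.haveILetI false

namespace Fermat.Agent.P1.helper56

open IsLocalRing Fermat.Agent.S53.helper56 Fermat.Agent.S53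

/-! ### Nilpotent ideals are adically complete -/

theorem isAdicComplete_of_pow_eq_bot {R : Type*} [CommRing R] (I : Ideal R) (M : Type*)
    [AddCommGroup M] [Module R M] (n : ℕ) (h : I ^ n = ⊥) : IsAdicComplete I M := by
  have hbot : ∀ m, n ≤ m → (I ^ m • ⊤ : Submodule R M) = ⊥ := by
    intro m hm
    have : I ^ m = ⊥ := by
      rw [← Nat.sub_add_cancel hm, pow_add, h, Ideal.mul_bot]
    rw [this, Submodule.bot_smul]
  refine { toIsHausdorff := ⟨fun x hx => ?_⟩, toIsPrecomplete := ⟨fun {f} hf => ?_⟩ }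
  · have := hx n
    rw [hbot n le_rfl, SModEq.zero, Submodule.mem_bot] at this
    exact this
  · refine ⟨f n, fun m => ?_⟩
    rcases le_total m n with hmn | hnm
    · exact hf hmn
    · have := hf hnm
      rw [hbot n le_rfl, SModEq.bot] at this
      rw [this]

/-! ### The dual numbers -/

section dual

variable (k : Type) [Field k]

theorem dual_mem_maximalIdeal_iff' (y : DualNumber k) :
    y ∈ maximalIdeal (DualNumber k) ↔ TrivSqZeroExt.fst y = 0 := by
  rw [mem_maximalIdeal, mem_nonunits_iff, TrivSqZeroExt.isUnit_iff_isUnit_fst, isUnit_iff_ne_zero,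
    not_not]

theorem dual_maximalIdeal_sq : maximalIdeal (DualNumber k) ^ 2 = ⊥ := by
  rw [eq_bot_iff, pow_two, Ideal.mul_le]
  intro x hx y hy
  rw [dual_mem_maximalIdeal_iff'] at hx hy
  rw [Ideal.mem_bot]
  ext
  · simp [hx]
  · simp [hx, hy]

instance instIsAdicCompleteDual :
    IsAdicComplete (maximalIdeal (DualNumber k)) (DualNumber k) :=
  isAdicComplete_of_pow_eq_bot _ _ 2 (dual_maximalIdeal_sq k)

theorem residue_dual_eq (y : DualNumber k) :
    residue (DualNumber k) y = residue (DualNumber k) (TrivSqZeroExt.inl (TrivSqZeroExt.fst y)) := by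
  rw [← sub_eq_zero, ← map_sub, residue_eq_zero_iff, dual_mem_maximalIdeal_iff']
  simp

end dual

section testAlgebra

variable (𝒪 : Type) [CommRing 𝒪] [IsLocalRing 𝒪]

theorem algebraMap_dual_apply (o : 𝒪) :
    algebraMap 𝒪 (DualNumber (ResidueField 𝒪)) o = TrivSqZeroExt.inl (residue 𝒪 o) := rfl

instance instIsLocalHomDual : IsLocalHom (algebraMap 𝒪 (DualNumber (ResidueField 𝒪))) := by
  refine ⟨fun o ho => ?_⟩
  rw [algebraMap_dual_apply, TrivSqZeroExt.isUnit_iff_isUnit_fst, TrivSqZeroExt.fst_inl] at ho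
  by_contra hn
  have : residue 𝒪 o = 0 := (residue_eq_zero_iff o).2 hn
  rw [this] at ho
  exact not_isUnit_zero ho

theorem residue_surjective_dual :
    Function.Surjective (residue (DualNumber (ResidueField 𝒪)) ∘
      algebraMap 𝒪 (DualNumber (ResidueField 𝒪))) := by
  intro x
  obtain ⟨y, rfl⟩ := residue_surjective x
  obtain ⟨o, ho⟩ := residue_surjective (TrivSqZeroExt.fst y)
  refine ⟨o, ?_⟩
  rw [Function.comp_apply, algebraMap_dual_apply, ho, ← residue_dual_eq]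

/-- The canonical map `k → ResidueField k[ε]` is `a ↦ residue (inl a)`. -/
theorem residueFieldMap_dual_apply (a : ResidueField 𝒪) :
    ResidueField.map (algebraMap 𝒪 (DualNumber (ResidueField 𝒪))) a =
      residue (DualNumber (ResidueField 𝒪)) (TrivSqZeroExt.inl a) := by
  obtain ⟨o, rfl⟩ := residue_surjective a
  rfl

end testAlgebra

/-! ### (MAT-C) the residual condition over the dual numbers, in matrix form -/

section residual

variable {𝒪 : Type} [CommRing 𝒪] [IsLocalRing 𝒪]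

local notation "kk" => ResidueField 𝒪
local notation "Aε" => DualNumber (ResidueField 𝒪)

theorem residue_inl_injective :
    Function.Injective (fun a : kk => residue Aε (TrivSqZeroExt.inl a)) := by
  intro a a' h
  simp only at h
  rw [← sub_eq_zero, ← map_sub, residue_eq_zero_iff, dual_mem_maximalIdeal_iff'] at h
  simpa [sub_eq_zero] using h

theorem map_residue_eq_iff (Y : M2 Aε) (r : M2 kk) :
    Y.map (residue Aε) = r.map (ResidueField.map (algebraMap 𝒪 Aε)) ↔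
      Y.map TrivSqZeroExt.fst = r := by
  constructor
  · intro h
    ext i j
    have := congrFun (congrFun h i) j
    simp only [Matrix.map_apply] at this
    rw [residueFieldMap_dual_apply, residue_dual_eq] at this
    exact residue_inl_injective this
  · intro h
    ext i j
    simp only [Matrix.map_apply]
    rw [residueFieldMap_dual_apply, residue_dual_eq, ← h]
    rfl

theorem residual_isEquiv_dual_iff (ρ : GaloisRepAdic Aε) (ρbar : ResidualGaloisRep kk)
    (bbar : Module.Basis (Fin 2) kk ρbar.V) :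
    ρ.residual.IsEquiv (ρbar.baseChangeAlong (ResidueField.map (algebraMap 𝒪 Aε))) ↔
      ∃ b : Module.Basis (Fin 2) Aε ρ.V,
        ∀ σ, (toMatrixHom ρ b σ).map TrivSqZeroExt.fst = rMat ρbar bbar σ := by
  rw [residual_isEquiv_iff ρ ρbar _ bbar]
  constructor
  · rintro ⟨b, hb⟩
    exact ⟨b, fun σ => (map_residue_eq_iff _ _).1 (hb σ)⟩
  · rintro ⟨b, hb⟩
    exact ⟨b, fun σ => (map_residue_eq_iff _ _).2 (hb σ)⟩

end residual

/-! ### The cocycle of a homomorphism `DQ.R → k[ε]` -/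

section universal

open GaloisRep

variable {𝒪 : Type} [CommRing 𝒪] [IsDomain 𝒪] [IsDiscreteValuationRing 𝒪]
  [IsAdicComplete (maximalIdeal 𝒪) 𝒪]
  {ρbar : ResidualGaloisRep (ResidueField 𝒪)}
  {𝒟 : ∀ ⦃A : Type⦄ [CommRing A] [IsLocalRing A] [Algebra 𝒪 A], GaloisRepAdic A → Prop}

local notation "kk" => ResidueField 𝒪
local notation "Aε" => DualNumber (ResidueField 𝒪)

theorem isLocalHom_algHom_dual (DQ : DeformationRingData 𝒪 ρbar 𝒟) (φ : DQ.R →ₐ[𝒪] Aε) :
    IsLocalHom (φ : DQ.R →+* Aε) :=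
  isLocalHom_of_algHom (instIsLocalHomDual 𝒪) (residue_surjective_dual 𝒪) φ

theorem fst_algHom_eq (DQ : DeformationRingData 𝒪 ρbar 𝒟) (φ : DQ.R →ₐ[𝒪] Aε) (x : DQ.R)
    (a : kk) (h : residue DQ.R x = ResidueField.map (algebraMap 𝒪 DQ.R) a) :
    TrivSqZeroExt.fst (φ x) = a := by
  obtain ⟨o, rfl⟩ := residue_surjective a
  have h1 : x - algebraMap 𝒪 DQ.R o ∈ maximalIdeal DQ.R := by
    rw [← residue_eq_zero_iff, map_sub, h, sub_eq_zero]
    rfl
  have h2 := map_mem_maximalIdeal (instIsLocalHomDual 𝒪) (residue_surjective_dual 𝒪) φ h1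
  rw [dual_mem_maximalIdeal_iff', map_sub, AlgHom.commutes, TrivSqZeroExt.fst_sub,
    sub_eq_zero] at h2
  rw [h2]
  rfl

/-- Every homomorphism `φ : DQ.R → k[ε]` has a cocycle: in a suitable basis the push-forward
of the universal deformation is the tangent lift `tanMat r c`. -/
theorem exists_cocycle_of_algHom (DQ : DeformationRingData 𝒪 ρbar 𝒟)
    (bbar : Module.Basis (Fin 2) kk ρbar.V) (φ : DQ.R →ₐ[𝒪] Aε)
    (hφ : IsLocalHom (φ : DQ.R →+* Aε)) :
    ∃ c : Gal → M2 kk, IsAdCocycle (rMat ρbar bbar) c ∧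
      ∃ b : Module.Basis (Fin 2) Aε (DQ.ρ.baseChangeAlong (φ : DQ.R →+* Aε) hφ).V,
        ∀ σ, toMatrixHom (DQ.ρ.baseChangeAlong (φ : DQ.R →+* Aε) hφ) b σ =
          tanMat (rMat ρbar bbar σ) (c σ) := by
  obtain ⟨bR, hbR⟩ := (residual_isEquiv_iff DQ.ρ ρbar _ bbar).1 DQ.residual_isEquiv
  have hfst : ∀ σ, (toMatrixHom (DQ.ρ.baseChangeAlong (φ : DQ.R →+* Aε) hφ)
      (bcBasis (φ : DQ.R →+* Aε) hφ DQ.ρ bR) σ).map TrivSqZeroExt.fst = rMat ρbar bbar σ := by
    intro σ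
    rw [toMatrixHom_baseChangeAlong]
    ext i j
    simp only [Matrix.map_apply]
    have := congrFun (congrFun (hbR σ) i) j
    simp only [Matrix.map_apply] at this
    exact fst_algHom_eq DQ φ _ _ this
  obtain ⟨c, hc, hRc⟩ := exists_cocycle_of_fst (rMat ρbar bbar)
    (toMatrixHom (DQ.ρ.baseChangeAlong (φ : DQ.R →+* Aε) hφ)
      (bcBasis (φ : DQ.R →+* Aε) hφ DQ.ρ bR)) hfst
  exact ⟨c, hc, _, hRc⟩

/-- The core injectivity: two homomorphisms with cohomologous cocycles agree. -/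
theorem algHom_eq_of_isAdCoboundary (DQ : DeformationRingData 𝒪 ρbar 𝒟)
    (hD : ∀ (φ : DQ.R →ₐ[𝒪] Aε) (hφ : IsLocalHom (φ : DQ.R →+* Aε)), Function.Surjective φ →
      𝒟 (DQ.ρ.baseChangeAlong (φ : DQ.R →+* Aε) hφ))
    (hT : TrivStatement)
    (bbar : Module.Basis (Fin 2) kk ρbar.V) (φ φ' : DQ.R →ₐ[𝒪] Aε)
    (hφ : IsLocalHom (φ : DQ.R →+* Aε)) (hφ' : IsLocalHom (φ' : DQ.R →+* Aε))
    (c c' : Gal → M2 kk)
    (b : Module.Basis (Fin 2) Aε (DQ.ρ.baseChangeAlong (φ : DQ.R →+* Aε) hφ).V)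
    (b' : Module.Basis (Fin 2) Aε (DQ.ρ.baseChangeAlong (φ' : DQ.R →+* Aε) hφ').V)
    (hb : ∀ σ, toMatrixHom (DQ.ρ.baseChangeAlong (φ : DQ.R →+* Aε) hφ) b σ =
      tanMat (rMat ρbar bbar σ) (c σ))
    (hb' : ∀ σ, toMatrixHom (DQ.ρ.baseChangeAlong (φ' : DQ.R →+* Aε) hφ') b' σ =
      tanMat (rMat ρbar bbar σ) (c' σ))
    (h : IsAdCoboundary (rMat ρbar bbar) (c - c')) : φ = φ' := by
  -- the two push-forwards are equivalent
  have hequiv : (DQ.ρ.baseChangeAlong (φ : DQ.R →+* Aε) hφ).IsEquiv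
      (DQ.ρ.baseChangeAlong (φ' : DQ.R →+* Aε) hφ') := by
    rw [isEquiv_iff_conj _ _ b b']
    obtain ⟨W, W', h1, h2, h3⟩ := conj_of_isAdCoboundary (rMat ρbar bbar) c c' h
    exact ⟨W, W', h1, h2, fun σ => by rw [hb, hb', h3]⟩
  -- a surjective one of the two is a deformation of type `𝒟`
  have key : ∀ (ψ ψ' : DQ.R →ₐ[𝒪] Aε) (hψ : IsLocalHom (ψ : DQ.R →+* Aε))
      (hψ' : IsLocalHom (ψ' : DQ.R →+* Aε))
      (cψ' : Gal → M2 kk)
      (bψ' : Module.Basis (Fin 2) Aε (DQ.ρ.baseChangeAlong (ψ' : DQ.R →+* Aε) hψ').V)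
      (hbψ' : ∀ σ, toMatrixHom (DQ.ρ.baseChangeAlong (ψ' : DQ.R →+* Aε) hψ') bψ' σ =
        tanMat (rMat ρbar bbar σ) (cψ' σ)),
      (DQ.ρ.baseChangeAlong (ψ : DQ.R →+* Aε) hψ).IsEquiv
        (DQ.ρ.baseChangeAlong (ψ' : DQ.R →+* Aε) hψ') →
      Function.Surjective ψ' → ψ = ψ' := by
    intro ψ ψ' hψ hψ' cψ' bψ' hbψ' he hs
    have hres : (DQ.ρ.baseChangeAlong (ψ' : DQ.R →+* Aε) hψ').residual.IsEquiv
        (ρbar.baseChangeAlong (ResidueField.map (algebraMap 𝒪 Aε))) := by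
      rw [residual_isEquiv_dual_iff _ ρbar bbar]
      exact ⟨bψ', fun σ => by rw [hbψ', fst_tanMat]⟩
    obtain ⟨χ, -, hχ⟩ := DQ.universal Aε (residue_surjective_dual 𝒪)
      (DQ.ρ.baseChangeAlong (ψ' : DQ.R →+* Aε) hψ') (hD ψ' hψ' hs) hres
    rw [hχ ψ ⟨hψ, he⟩, hχ ψ' ⟨hψ', ⟨GaloisRepAdic.Equiv.refl _⟩⟩]
  by_cases hs' : Function.Surjective φ'
  · exact key φ φ' hφ hφ' c' b' hb' hequiv hs'
  · by_cases hs : Function.Surjective φ
    · obtain ⟨e⟩ := hequiv
      exact (key φ' φ hφ' hφ c b hb ⟨e.symm⟩ hs).symm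
    · exact hT 𝒪 DQ.R DQ.residue_surjective φ φ' hs hs'

/-- **COC, matrix form**: there is a map from `Hom_𝒪(DQ.R, k[ε])` to adjoint cocycles, whose
value at `φ` describes the push-forward of the universal deformation along `φ`, and which is
injective modulo coboundaries. -/
theorem exists_cocycle_map (DQ : DeformationRingData 𝒪 ρbar 𝒟)
    (hD : ∀ (φ : DQ.R →ₐ[𝒪] Aε) (hφ : IsLocalHom (φ : DQ.R →+* Aε)), Function.Surjective φ →
      𝒟 (DQ.ρ.baseChangeAlong (φ : DQ.R →+* Aε) hφ))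
    (hT : TrivStatement)
    (bbar : Module.Basis (Fin 2) kk ρbar.V) :
    ∃ Φ : (DQ.R →ₐ[𝒪] Aε) → (Gal → M2 kk),
      (∀ φ, IsAdCocycle (rMat ρbar bbar) (Φ φ) ∧
        ∃ (hφ : IsLocalHom (φ : DQ.R →+* Aε))
          (b : Module.Basis (Fin 2) Aε (DQ.ρ.baseChangeAlong (φ : DQ.R →+* Aε) hφ).V),
          ∀ σ, toMatrixHom (DQ.ρ.baseChangeAlong (φ : DQ.R →+* Aε) hφ) b σ =
            tanMat (rMat ρbar bbar σ) (Φ φ σ)) ∧
      ∀ φ φ', IsAdCoboundary (rMat ρbar bbar) (Φ φ - Φ φ') → φ = φ' := by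
  choose Φ hΦ1 b hb using fun φ : DQ.R →ₐ[𝒪] Aε =>
    exists_cocycle_of_algHom DQ bbar φ (isLocalHom_algHom_dual DQ φ)
  refine ⟨Φ, fun φ => ⟨hΦ1 φ, isLocalHom_algHom_dual DQ φ, b φ, hb φ⟩, fun φ φ' h => ?_⟩
  exact algHom_eq_of_isAdCoboundary DQ hD hT bbar φ φ' _ _ (Φ φ) (Φ φ') (b φ) (b φ')
    (hb φ) (hb φ') h

end universal

end Fermat.Agent.P1.helper56
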