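import Fermat.Agent.P1.helper56_CocDefs

/-!
# P1 / COC-TRIV (helper78): two non-surjective `𝒪`-algebra homomorphisms `R → k[ε]` agree

`triv : TrivStatement`.  A non-surjective `φ : R →ₐ[𝒪] k[ε]` kills the maximal ideal of `R`
(`map_eq_zero_of_not_surjective`), so `φ (algebraMap o + m) = algebraMap o`.
-/

set_option autoImplicit false

namespace Fermat.Agent.P1.helper78

open IsLocalRing Fermat.Agent.P1.helper56

section

variable {𝒪 : Type} [CommRing 𝒪] [IsLocalRing 𝒪] {R : Type} [CommRing R] [IsLocalRing R]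
  [Algebra 𝒪 R]

/-- the algebra map to the dual numbers of the residue field -/
theorem algebraMap_dualNumber (o : 𝒪) :
    algebraMap 𝒪 (DualNumber (ResidueField 𝒪)) o = TrivSqZeroExt.inl (residue 𝒪 o) := rfl

/-- the first component of the image of an element of the maximal ideal vanishes -/
theorem fst_map_eq_zero (φ : R →ₐ[𝒪] DualNumber (ResidueField 𝒪)) {m : R}
    (hm : m ∈ maximalIdeal R) : TrivSqZeroExt.fst (φ m) = 0 := by
  by_contra ha
  obtain ⟨o', ho'⟩ := residue_surjective (R := 𝒪) (TrivSqZeroExt.fst (φ m))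
  have ho'u : IsUnit o' := by
    by_contra h
    have h1 : residue 𝒪 o' = 0 := (residue_eq_zero_iff o').mpr ((mem_maximalIdeal o').mpr h)
    exact ha (ho' ▸ h1)
  have hu : IsUnit (m - algebraMap 𝒪 R o') := by
    by_contra h
    have h1 : m - algebraMap 𝒪 R o' ∈ maximalIdeal R := (mem_maximalIdeal _).mpr h
    have h2 : algebraMap 𝒪 R o' ∈ maximalIdeal R := by
      have := (maximalIdeal R).sub_mem hm h1
      simpa using this
    exact (mem_maximalIdeal _).mp h2 (ho'u.map (algebraMap 𝒪 R))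
  have hφu : IsUnit (φ (m - algebraMap 𝒪 R o')) := hu.map φ
  have hfst : TrivSqZeroExt.fst (φ (m - algebraMap 𝒪 R o')) = 0 := by
    rw [map_sub, AlgHom.commutes, algebraMap_dualNumber, TrivSqZeroExt.fst_sub,
      TrivSqZeroExt.fst_inl, ho', sub_self]
  have := (TrivSqZeroExt.isUnit_iff_isUnit_fst).mp hφu
  rw [hfst] at this
  exact not_isUnit_zero this

/-- a non-surjective `𝒪`-algebra homomorphism to the dual numbers kills the maximal ideal -/
theorem map_eq_zero_of_not_surjective (φ : R →ₐ[𝒪] DualNumber (ResidueField 𝒪))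
    (hφ : ¬ Function.Surjective φ) {m : R} (hm : m ∈ maximalIdeal R) : φ m = 0 := by
  by_contra h0
  apply hφ
  have hfst := fst_map_eq_zero φ hm
  have hsnd : TrivSqZeroExt.snd (φ m) ≠ 0 := by
    intro h
    apply h0
    exact TrivSqZeroExt.ext (by simpa using hfst) (by simpa using h)
  intro y
  obtain ⟨o₁, ho₁⟩ := residue_surjective (R := 𝒪) (TrivSqZeroExt.fst y)
  obtain ⟨o₂, ho₂⟩ := residue_surjective (R := 𝒪)
    (TrivSqZeroExt.snd y / TrivSqZeroExt.snd (φ m))
  refine ⟨algebraMap 𝒪 R o₁ + algebraMap 𝒪 R o₂ * m, ?_⟩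
  rw [map_add, map_mul, AlgHom.commutes, AlgHom.commutes, algebraMap_dualNumber,
    algebraMap_dualNumber, ho₁, ho₂]
  apply TrivSqZeroExt.ext
  · simp [hfst]
  · simp [hfst, div_mul_cancel₀ _ hsnd]

end

/-- **[COC-TRIV]** -/
theorem triv : TrivStatement := by
  intro 𝒪 _ _ R _ _ _ hsurj φ φ' hφ hφ'
  apply AlgHom.ext
  intro x
  obtain ⟨o, ho⟩ := hsurj (residue R x)
  have hm : x - algebraMap 𝒪 R o ∈ maximalIdeal R := by
    rw [← residue_eq_zero_iff, map_sub, sub_eq_zero]
    exact ho.symm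
  have hx : x = algebraMap 𝒪 R o + (x - algebraMap 𝒪 R o) := by ring
  rw [hx, map_add, map_add, AlgHom.commutes, AlgHom.commutes,
    map_eq_zero_of_not_surjective φ hφ hm, map_eq_zero_of_not_surjective φ' hφ' hm]

end Fermat.Agent.P1.helper78
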