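/-
P1 / S56, module COC (helper56): properties of the cocycle of a tangent lift:
trace zero (from the cyclotomic determinant), vanishing on a level (from unramifiedness),
and the cocycle of a non-surjective homomorphism.
-/
import Mathlib
import Fermat.Agent.P1.helper56_CocUniv
import Fermat.Agent.P1.helper78_CocTriv
import Fermat.Agent.S55.helper92_SmoothLevel

set_option autoImplicit false
set_option linter.unusedSectionVars false
set_option linter.unusedVariables false
set_option linter.style.haveILetI false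

namespace Fermat.Agent.P1.helper56

open IsLocalRing Fermat.Agent.S53.helper56 Fermat.Agent.S53 Fermat.Agent.S55

/-! ### Determinants -/

section det

variable {k : Type} [Field k]

theorem fst_det_tanMat (r c : M2 k) : TrivSqZeroExt.fst (tanMat r c).det = r.det := by
  rw [Matrix.det_fin_two, Matrix.det_fin_two]
  simp [tanMat_apply]

theorem snd_det_tanMat (r c : M2 k) :
    TrivSqZeroExt.snd (tanMat r c).det = r.det * c.trace := by
  rw [Matrix.det_fin_two, Matrix.det_fin_two, Matrix.trace_fin_two]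
  simp [tanMat_apply, Matrix.mul_apply]
  ring

theorem tanMat_eq_one_iff (r c : M2 k) : tanMat r c = 1 ↔ r = 1 ∧ c = 0 := by
  constructor
  · intro h
    have h1 : r = 1 := by
      have := congrArg (fun Y : M2 (DualNumber k) => Y.map TrivSqZeroExt.fst) h
      simpa only [fst_tanMat, fst_one] using this
    refine ⟨h1, ?_⟩
    have := congrArg (fun Y : M2 (DualNumber k) => Y.map TrivSqZeroExt.snd) h
    simpa only [snd_tanMat, snd_one, h1, mul_one] using this
  · rintro ⟨rfl, rfl⟩
    exact tanMat_one_zero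

end det

/-! ### The exponent of an automorphism on the `p`-th roots of unity -/

theorem exists_pow_exponent (p : ℕ) [Fact p.Prime] (σ : Gal) :
    ∃ a : ℕ, ∀ μ : AlgebraicClosure ℚ, μ ^ p ^ 1 = 1 → σ μ = μ ^ a := by
  haveI : NeZero p := ⟨(Fact.out : p.Prime).ne_zero⟩
  obtain ⟨ζ, hζ⟩ := HasEnoughRootsOfUnity.exists_primitiveRoot (AlgebraicClosure ℚ) p
  have h1 : (σ ζ) ^ p = 1 := by rw [← map_pow, hζ.pow_eq_one, map_one]
  obtain ⟨a, -, ha⟩ := hζ.eq_pow_of_pow_eq_one h1
  refine ⟨a, fun μ hμ => ?_⟩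
  rw [pow_one] at hμ
  obtain ⟨j, -, rfl⟩ := hζ.eq_pow_of_pow_eq_one hμ
  rw [map_pow, ← ha, ← pow_mul, ← pow_mul, mul_comm]

/-! ### Trace zero -/

section trace

variable {k : Type} [Field k]

/-- The cocycle of a tangent lift with cyclotomic determinant has trace zero. -/
theorem trace_eq_zero_of_detIsCyclotomic (p : ℕ) [Fact p.Prime] (hpk : (p : k) = 0)
    (ρ : GaloisRepAdic (DualNumber k)) (ρbar : ResidualGaloisRep k)
    (bbar : Module.Basis (Fin 2) k ρbar.V) (b : Module.Basis (Fin 2) (DualNumber k) ρ.V)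
    (c : Gal → M2 k)
    (hb : ∀ σ, toMatrixHom ρ b σ = tanMat (rMat ρbar bbar σ) (c σ))
    (hdet : ρ.DetIsCyclotomic p)
    (hdetbar : (GaloisRepAdic.ofResidualGaloisRep ρbar).DetIsCyclotomic p) (σ : Gal) :
    (c σ).trace = 0 := by
  obtain ⟨a, ha⟩ := exists_pow_exponent p σ
  have hpA : ((p ^ 1 : ℕ) : DualNumber k) = 0 := by
    rw [pow_one]
    have : ((p : ℕ) : DualNumber k) = TrivSqZeroExt.inl ((p : ℕ) : k) := by
      simp
    rw [this, hpk, TrivSqZeroExt.inl_zero]
  have hpk' : ((p ^ 1 : ℕ) : k) = 0 := by rw [pow_one]; exact hpk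
  have h1 := hdet.2 1 σ a ha
  rw [hpA, Ideal.span_singleton_eq_bot.2 rfl, Ideal.mem_bot, sub_eq_zero] at h1
  have h2 := hdetbar.2 1 σ a ha
  rw [hpk', Ideal.span_singleton_eq_bot.2 rfl, Ideal.mem_bot, sub_eq_zero] at h2
  -- determinants in matrix form
  have e1 : LinearMap.det (ρ.ρ σ) = (tanMat (rMat ρbar bbar σ) (c σ)).det := by
    rw [← hb σ, toMatrixHom_apply, LinearMap.det_toMatrix]
  have e2 : LinearMap.det (ρbar.ρ σ) = (rMat ρbar bbar σ).det := by
    rw [rMat_apply, LinearMap.det_toMatrix]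
  have h3 : TrivSqZeroExt.snd (tanMat (rMat ρbar bbar σ) (c σ)).det = 0 := by
    rw [← e1, h1]
    simp
  rw [snd_det_tanMat] at h3
  have hdet0 : (rMat ρbar bbar σ).det ≠ 0 := by
    have h4 : (rMat ρbar bbar σ).det * (rMat ρbar bbar σ⁻¹).det = 1 := by
      rw [← Matrix.det_mul, map_mul_map_inv, Matrix.det_one]
    intro h0
    rw [h0, zero_mul] at h4
    exact zero_ne_one h4
  exact (mul_eq_zero.1 h3).resolve_left hdet0

end trace

/-! ### Levels -/

section level

variable {k : Type} [Field k]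

/-- A tangent lift is trivial on the fixing subgroup of a finite extension. -/
theorem exists_finite_level (ρ : GaloisRepAdic (DualNumber k))
    (b : Module.Basis (Fin 2) (DualNumber k) ρ.V) :
    ∃ L : IntermediateField ℚ (AlgebraicClosure ℚ), FiniteDimensional ℚ L ∧
      ∀ σ ∈ L.fixingSubgroup, toMatrixHom ρ b σ = 1 := by
  obtain ⟨L, hL, h⟩ := matCont_toMatrixHom ρ b 2
  refine ⟨L, hL, fun σ hσ => ?_⟩
  have h1 := h σ (fun x hx => by
    rw [IntermediateField.mem_fixingSubgroup_iff] at hσ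
    exact hσ x hx)
  rw [dual_maximalIdeal_sq] at h1
  rw [← sub_eq_zero]
  ext i j : 1
  have := h1 i j
  rwa [Ideal.mem_bot] at this

/-- The cocycle of a tangent lift which is unramified outside `T` vanishes, together with the
residual representation, on a level of `galLevels T`. -/
theorem exists_level_of_unramified (T : Finset Nat.Primes) (ρ : GaloisRepAdic (DualNumber k))
    (b : Module.Basis (Fin 2) (DualNumber k) ρ.V) (r : Gal →* M2 k) (c : Gal → M2 k)
    (hb : ∀ σ, toMatrixHom ρ b σ = tanMat (r σ) (c σ))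
    (hur : ∀ q : Nat.Primes, q ∉ T → ρ.IsUnramifiedAt (q : ℕ)) :
    ∃ N ∈ (galLevels T).mem, ∀ s ∈ N, r s = 1 ∧ c s = 0 := by
  obtain ⟨L, hL, hLtriv⟩ := exists_finite_level ρ b
  haveI := hL
  refine ⟨(toMatrixHom ρ b).ker, ?_, fun s hs => ?_⟩
  · refine helper92.mem_galLevels_of_le T (toMatrixHom ρ b).ker L ?_ ?_
    · intro σ hσ
      rw [MonoidHom.mem_ker]
      exact hLtriv σ hσ
    · intro q hq A hA σ hσ
      rw [MonoidHom.mem_ker, toMatrixHom_apply, hur q hq A hA σ hσ]
      exact LinearMap.toMatrix_one b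
  · rw [MonoidHom.mem_ker, hb s, tanMat_eq_one_iff] at hs
    exact hs

theorem cocycle_mul_of_eq_zero {r : Gal →* M2 k} {c : Gal → M2 k} (hc : IsAdCocycle r c)
    (g s : Gal) (hs : c s = 0) : c (g * s) = c g := by
  rw [hc g s, hs, mul_zero, zero_mul, add_zero]

end level

/-! ### Non-surjective homomorphisms have the zero cocycle -/

section trivial

open GaloisRep

variable {𝒪 : Type} [CommRing 𝒪] [IsDomain 𝒪] [IsDiscreteValuationRing 𝒪]
  [IsAdicComplete (maximalIdeal 𝒪) 𝒪]
  {ρbar : ResidualGaloisRep (ResidueField 𝒪)}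
  {𝒟 : ∀ ⦃A : Type⦄ [CommRing A] [IsLocalRing A] [Algebra 𝒪 A], GaloisRepAdic A → Prop}

local notation "kk" => ResidueField 𝒪
local notation "Aε" => DualNumber (ResidueField 𝒪)

theorem snd_algHom_eq_zero (DQ : DeformationRingData 𝒪 ρbar 𝒟) (φ : DQ.R →ₐ[𝒪] Aε)
    (hns : ¬ Function.Surjective φ) (x : DQ.R) : TrivSqZeroExt.snd (φ x) = 0 := by
  obtain ⟨o, ho⟩ := exists_sub_mem_maximalIdeal DQ.residue_surjective x
  have h1 := helper78.map_eq_zero_of_not_surjective φ hns ho
  rw [map_sub, AlgHom.commutes, sub_eq_zero] at h1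
  rw [h1]
  rfl

theorem exists_basis_of_not_surjective (DQ : DeformationRingData 𝒪 ρbar 𝒟)
    (bbar : Module.Basis (Fin 2) kk ρbar.V) (φ : DQ.R →ₐ[𝒪] Aε)
    (hφ : IsLocalHom (φ : DQ.R →+* Aε)) (hns : ¬ Function.Surjective φ) :
    ∃ b : Module.Basis (Fin 2) Aε (DQ.ρ.baseChangeAlong (φ : DQ.R →+* Aε) hφ).V,
      ∀ σ, toMatrixHom (DQ.ρ.baseChangeAlong (φ : DQ.R →+* Aε) hφ) b σ =
        tanMat (rMat ρbar bbar σ) 0 := by
  obtain ⟨bR, hbR⟩ := (residual_isEquiv_iff DQ.ρ ρbar _ bbar).1 DQ.residual_isEquiv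
  refine ⟨bcBasis (φ : DQ.R →+* Aε) hφ DQ.ρ bR, fun σ => ?_⟩
  rw [toMatrixHom_baseChangeAlong, eq_tanMat_iff]
  constructor
  · ext i j
    simp only [Matrix.map_apply]
    have := congrFun (congrFun (hbR σ) i) j
    simp only [Matrix.map_apply] at this
    exact fst_algHom_eq DQ φ _ _ this
  · rw [zero_mul]
    ext i j
    simp only [Matrix.map_apply, Matrix.zero_apply]
    exact snd_algHom_eq_zero DQ φ hns _

end trivial

end Fermat.Agent.P1.helper56
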