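import Fermat.Agent.P1.helper70_Interface

/-!
# P1 (S56): the top assembly

`s56_of_outputs` : the frozen statement S56 from the module outputs `DefOut`, `TWOut`,
`SelOut`, `CocOut` (both condition families).
-/

set_option autoImplicit false

open IsLocalRing ExtCitation groupCohomology Polynomial

noncomputable section

namespace Fermat.Agent.P1.helper70

open Fermat.Agent.S55

variable {𝒪 : Type} [CommRing 𝒪] [IsDomain 𝒪] [IsDiscreteValuationRing 𝒪]
  [IsAdicComplete (maximalIdeal 𝒪) 𝒪] [Finite (ResidueField 𝒪)]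
  {p : ℕ} [Fact p.Prime]
  {ρbar : ResidualGaloisRep (ResidueField 𝒪)}
  {S Smin : Finset ℕ}

/-- The residue field has characteristic `p`. -/
theorem charP_residueField (hp𝒪 : (p : 𝒪) ∈ maximalIdeal 𝒪) : CharP (ResidueField 𝒪) p := by
  rw [CharP.charP_iff_prime_eq_zero (Fact.out : p.Prime)]
  have h := (residue_eq_zero_iff (p : 𝒪)).2 hp𝒪
  rwa [map_natCast] at h

/-- The `ZMod p`-algebra structure of the residue field (unique; any other instance may be
used in the module outputs, `Algebra (ZMod p) _` is a subsingleton). -/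
@[reducible] def residueAlgebra (hp𝒪 : (p : 𝒪) ∈ maximalIdeal 𝒪) :
    Algebra (ZMod p) (ResidueField 𝒪) :=
  haveI := charP_residueField hp𝒪
  ZMod.algebra (ResidueField 𝒪) p

/-- One half of S56 from the module outputs. -/
theorem twConclusion_of_outputs [Algebra (ZMod p) (ResidueField 𝒪)]
    (𝒟fam : Finset ℕ →
      ∀ ⦃A : Type⦄ [CommRing A] [IsLocalRing A] [Algebra 𝒪 A], GaloisRepAdic A → Prop)
    (hDef : DefOut 𝒪) (hTW : TWOut p ρbar S Smin)
    (hSel : SelOut p ρbar S Smin 𝒟fam) (hCoc : CocOut p ρbar Smin 𝒟fam) :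
    TWConclusion p ρbar S Smin 𝒟fam := by
  obtain ⟨r, hr⟩ := hTW
  refine ⟨r, fun n => ?_⟩
  obtain ⟨qv, hfam, hkill⟩ := hr n
  refine ⟨qv, hfam.1, hfam.2.1, hfam.2.2, fun DQ => ?_⟩
  obtain ⟨hfin, hcard⟩ := hSel n r qv hfam hkill
  obtain ⟨f, hf⟩ := hCoc (twSet Smin qv) Finset.subset_union_left DQ
  refine hDef DQ.R DQ.residue_surjective r ?_
  haveI := hfin
  exact (Nat.card_le_card_of_injective f hf).trans hcard

/-- S56 from the module outputs. -/
theorem s56_of_outputs (hset : Setting 𝒪 p ρbar S Smin)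
    (hDef : DefOut 𝒪)
    (hTW : ∀ [Algebra (ZMod p) (ResidueField 𝒪)], TWOut p ρbar S Smin)
    (hSelSO : ∀ [Algebra (ZMod p) (ResidueField 𝒪)],
      SelOut p ρbar S Smin (condSO 𝒪 p Smin))
    (hCocSO : ∀ [Algebra (ZMod p) (ResidueField 𝒪)], CocOut p ρbar Smin (condSO 𝒪 p Smin))
    (hSelFlat : ∀ [Algebra (ZMod p) (ResidueField 𝒪)],
      SelOut p ρbar S Smin (condFlat 𝒪 p Smin))
    (hCocFlat : ∀ [Algebra (ZMod p) (ResidueField 𝒪)],
      CocOut p ρbar Smin (condFlat 𝒪 p Smin)) :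
    TWConclusion p ρbar S Smin (condSO 𝒪 p Smin) ∧
      TWConclusion p ρbar S Smin (condFlat 𝒪 p Smin) := by
  letI := residueAlgebra hset.hp𝒪
  exact ⟨twConclusion_of_outputs _ hDef hTW hSelSO hCocSO,
    twConclusion_of_outputs _ hDef hTW hSelFlat hCocFlat⟩

end Fermat.Agent.P1.helper70
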