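/-
P1 / S56, module COC (helper56): the deliverable `CocOut` of helper70's interface, from the
matrix / cocycle dictionary, the universal property, and the base-change packages.
-/
import Mathlib
import Fermat.Agent.P1.helper56_CocProps
import Fermat.Agent.P1.helper70_Top
import Fermat.Agent.P1.helper13_CocBC1
import Fermat.Agent.P1.helper41_CocBC3
import Fermat.Agent.P1.helper17_CocBC2

set_option autoImplicit false
set_option linter.unusedSectionVars false
set_option linter.unusedVariables false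
set_option linter.style.haveILetI false

namespace Fermat.Agent.P1.helper56

open IsLocalRing Fermat.Agent.S53.helper56 Fermat.Agent.S53 Fermat.Agent.S55
  Fermat.Agent.P1.helper70 groupCohomology GaloisRep

/-! ### From matrices to `Ad0` -/

section toAd0

variable {k : Type} [Field k] (ρbar : ResidualGaloisRep k)
  (bbar : Module.Basis (Fin 2) k ρbar.V)

/-- The element of `Ad0` with a given trace-zero matrix. -/
noncomputable def toAd0 (X : M2 k) (hX : X.trace = 0) : Ad0 ρbar :=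
  ⟨Matrix.toLin bbar bbar X, by
    rw [LinearMap.mem_ker, LinearMap.trace_eq_matrix_trace k bbar, LinearMap.toMatrix_toLin]
    exact hX⟩

theorem toEnd_toAd0 (X : M2 k) (hX : X.trace = 0) :
    Ad0.toEnd ρbar (toAd0 ρbar bbar X hX) = Matrix.toLin bbar bbar X := rfl

theorem toMatrix_toEnd_toAd0 (X : M2 k) (hX : X.trace = 0) :
    LinearMap.toMatrix bbar bbar (Ad0.toEnd ρbar (toAd0 ρbar bbar X hX)) = X := by
  rw [toEnd_toAd0, LinearMap.toMatrix_toLin]

theorem toLin_rMat (g : Gal) : Matrix.toLin bbar bbar (rMat ρbar bbar g) = ρbar.ρ g := by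
  rw [rMat_apply, Matrix.toLin_toMatrix]

theorem toLin_mul' (X Y : M2 k) :
    Matrix.toLin bbar bbar (X * Y) = Matrix.toLin bbar bbar X * Matrix.toLin bbar bbar Y :=
  Matrix.toLin_mul bbar bbar bbar X Y

theorem tanMat_eq_add (r c : M2 k) :
    tanMat r c = r.map TrivSqZeroExt.inl + (c * r).map TrivSqZeroExt.inr := by
  ext i j <;> rfl

end toAd0

/-! ### The cocycle datum of a homomorphism -/

section datum

variable {𝒪 : Type} [CommRing 𝒪] [IsDomain 𝒪] [IsDiscreteValuationRing 𝒪]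
  [IsAdicComplete (maximalIdeal 𝒪) 𝒪] [Finite (ResidueField 𝒪)]
  (p : ℕ) [Fact p.Prime] [Algebra (ZMod p) (ResidueField 𝒪)]
  {ρbar : ResidualGaloisRep (ResidueField 𝒪)}
  {𝒟 : ∀ ⦃A : Type⦄ [CommRing A] [IsLocalRing A] [Algebra 𝒪 A], GaloisRepAdic A → Prop}

local notation "kk" => ResidueField 𝒪
local notation "Aε" => DualNumber (ResidueField 𝒪)

/-- The cochain with values in `ad0Rep` attached to a trace-zero matrix cochain. -/
noncomputable def toCoch (bbar : Module.Basis (Fin 2) kk ρbar.V) (c : Gal → M2 kk)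
    (htr : ∀ σ, (c σ).trace = 0) : GQ → ad0Rep ρbar p :=
  fun g => toAd0 ρbar bbar (c g) (htr g)

theorem toEnd_toCoch (bbar : Module.Basis (Fin 2) kk ρbar.V) (c : Gal → M2 kk)
    (htr : ∀ σ, (c σ).trace = 0) (g : GQ) :
    Ad0.toEnd ρbar (toCoch p bbar c htr g) = Matrix.toLin bbar bbar (c g) := rfl

theorem toCoch_zero (bbar : Module.Basis (Fin 2) kk ρbar.V)
    (htr : ∀ σ : Gal, ((fun _ => 0 : Gal → M2 kk) σ).trace = 0) :
    toCoch p bbar (fun _ => 0) htr = 0 := by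
  funext g
  apply Ad0.toEnd_injective
  rw [toEnd_toCoch, map_zero]
  exact (map_zero (Ad0.toEnd ρbar)).symm

/-- The adjoint cocycle condition in `Rep` form. -/
theorem toCoch_mem_ker_d₁₂ (bbar : Module.Basis (Fin 2) kk ρbar.V) (c : Gal → M2 kk)
    (hc : IsAdCocycle (rMat ρbar bbar) c) (htr : ∀ σ, (c σ).trace = 0) :
    (d₁₂ (ad0Rep ρbar p)).hom (toCoch p bbar c htr) = 0 := by
  funext ⟨g, h⟩
  rw [d₁₂_hom_apply]
  apply Ad0.toEnd_injective
  have e : Ad0.toEnd ρbar ((ad0Rep ρbar p).ρ g (toCoch p bbar c htr h) -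
      toCoch p bbar c htr (g * h) + toCoch p bbar c htr g) =
      ρbar.ρ g * Ad0.toEnd ρbar (toCoch p bbar c htr h) * ρbar.ρ g⁻¹ -
        Ad0.toEnd ρbar (toCoch p bbar c htr (g * h)) +
        Ad0.toEnd ρbar (toCoch p bbar c htr g) := rfl
  refine e.trans ?_
  rw [toEnd_toCoch, toEnd_toCoch, toEnd_toCoch, hc g h, map_add, toLin_mul',
    toLin_mul', toLin_rMat, toLin_rMat]
  have : (0 : Ad0 ρbar) = (0 : ad0Rep ρbar p) := rfl
  rw [show Ad0.toEnd ρbar ((0 : GQ × GQ → ad0Rep ρbar p) (g, h)) = 0 from map_zero _]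
  abel

/-- A coboundary in `Rep` form is an adjoint coboundary of matrices. -/
theorem isAdCoboundary_of_mem_B1 (bbar : Module.Basis (Fin 2) kk ρbar.V) (c c' : Gal → M2 kk)
    (htr : ∀ σ, (c σ).trace = 0) (htr' : ∀ σ, (c' σ).trace = 0)
    (h : toCoch p bbar c htr - toCoch p bbar c' htr' ∈ B1 (ad0Rep ρbar p)) :
    IsAdCoboundary (rMat ρbar bbar) (c - c') := by
  obtain ⟨x, hx⟩ := h
  let x' : Ad0 ρbar := x
  refine ⟨LinearMap.toMatrix bbar bbar (Ad0.toEnd ρbar x'), fun σ => ?_⟩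
  have h1 := congrFun hx σ
  rw [d₀₁_hom_apply] at h1
  have h2 : Ad0.toEnd ρbar ((ad0Rep ρbar p).ρ σ x - x) =
      Ad0.toEnd ρbar (toCoch p bbar c htr σ) - Ad0.toEnd ρbar (toCoch p bbar c' htr' σ) :=
    congrArg (Ad0.toEnd ρbar) h1
  have e1 : Ad0.toEnd ρbar ((ad0Rep ρbar p).ρ σ x - x) =
      ρbar.ρ σ * Ad0.toEnd ρbar x' * ρbar.ρ σ⁻¹ - Ad0.toEnd ρbar x' := rfl
  rw [e1, toEnd_toCoch, toEnd_toCoch] at h2
  have h3 := congrArg (LinearMap.toMatrix bbar bbar) h2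
  rw [map_sub, map_sub, LinearMap.toMatrix_toLin, LinearMap.toMatrix_toLin,
    LinearMap.toMatrix_mul, LinearMap.toMatrix_mul, ← rMat_apply, ← rMat_apply] at h3
  rw [Pi.sub_apply, ← h3]

/-- The cocycle datum of a homomorphism `φ : DQ.R → k[ε]`: a trace-zero adjoint cocycle,
constant on a level, describing the push-forward along `φ`, with its class in `tanZ`. -/
theorem exists_datum (hpk : (p : kk) = 0)
    (hdetbar : (GaloisRepAdic.ofResidualGaloisRep ρbar).DetIsCyclotomic p)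
    (T : Finset ℕ) (DQ : DeformationRingData 𝒪 ρbar 𝒟)
    (hD : ∀ (φ : DQ.R →ₐ[𝒪] Aε) (hφ : IsLocalHom (φ : DQ.R →+* Aε)), Function.Surjective φ →
      𝒟 (DQ.ρ.baseChangeAlong (φ : DQ.R →+* Aε) hφ))
    (hdet : ∀ ρ : GaloisRepAdic Aε, 𝒟 ρ → ρ.DetIsCyclotomic p)
    (hur : ∀ ρ : GaloisRepAdic Aε, 𝒟 ρ → ∀ q : ℕ, q.Prime → q ∉ T → ρ.IsUnramifiedAt q)
    (bbar : Module.Basis (Fin 2) kk ρbar.V) (φ : DQ.R →ₐ[𝒪] Aε) :
    ∃ (c : Gal → M2 kk) (htr : ∀ σ, (c σ).trace = 0),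
      IsAdCocycle (rMat ρbar bbar) c ∧
      (∃ (hφ : IsLocalHom (φ : DQ.R →+* Aε))
        (b : Module.Basis (Fin 2) Aε (DQ.ρ.baseChangeAlong (φ : DQ.R →+* Aε) hφ).V),
        ∀ σ, toMatrixHom (DQ.ρ.baseChangeAlong (φ : DQ.R →+* Aε) hφ) b σ =
          tanMat (rMat ρbar bbar σ) (c σ)) ∧
      (toCoch p bbar c htr ∈ Z1 (galLevels (primesOf T)) (ad0Rep ρbar p)) ∧
      (toCoch p bbar c htr ∈ tanZ ρbar p 𝒟 (primesOf T)) := by
  have hφ := isLocalHom_algHom_dual DQ φ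
  by_cases hs : Function.Surjective φ
  · obtain ⟨c, hc, b, hb⟩ := exists_cocycle_of_algHom DQ bbar φ hφ
    have h𝒟 := hD φ hφ hs
    have htr : ∀ σ, (c σ).trace = 0 := fun σ =>
      trace_eq_zero_of_detIsCyclotomic p hpk _ ρbar bbar b c hb (hdet _ h𝒟) hdetbar σ
    obtain ⟨N, hN, hNc⟩ := exists_level_of_unramified (primesOf T) _ b (rMat ρbar bbar) c hb
      (fun q hq => hur _ h𝒟 q q.2 (fun hqT => hq (mem_primesOf.2 hqT)))
    have hZ : toCoch p bbar c htr ∈ Z1 (galLevels (primesOf T)) (ad0Rep ρbar p) := by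
      refine ⟨⟨N, hN, fun g s hs => ?_⟩, ?_⟩
      · apply Ad0.toEnd_injective
        rw [toEnd_toCoch, toEnd_toCoch, cocycle_mul_of_eq_zero hc g s (hNc s hs).2]
      · exact toCoch_mem_ker_d₁₂ p bbar c hc htr
    refine ⟨c, htr, hc, ⟨hφ, b, hb⟩, hZ, ?_⟩
    have hmem : toCoch p bbar c htr ∈ tanCocycles ρbar p 𝒟 (primesOf T) := by
      refine ⟨hZ, _, h𝒟, b, bbar, fun g => ?_⟩
      have := hb g
      rw [toMatrixHom_apply, tanMat_eq_add, rMat_apply] at this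
      rw [this, LinearMap.toMatrix_mul, toEnd_toCoch, LinearMap.toMatrix_toLin]
    exact Submodule.mem_sup_left (Submodule.subset_span hmem)
  · obtain ⟨b, hb⟩ := exists_basis_of_not_surjective DQ bbar φ hφ hs
    have htr : ∀ σ : Gal, ((fun _ => 0 : Gal → M2 kk) σ).trace = 0 := fun σ => by simp
    have hc : IsAdCocycle (rMat ρbar bbar) (fun _ => 0) := by
      intro σ τ
      simp
    refine ⟨fun _ => 0, htr, hc, ⟨hφ, b, hb⟩, ?_, ?_⟩
    · rw [toCoch_zero]
      exact Submodule.zero_mem _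
    · rw [toCoch_zero]
      exact Submodule.zero_mem _

end datum

/-! ### The deliverable -/

section out

variable {𝒪 : Type} [CommRing 𝒪] [IsDomain 𝒪] [IsDiscreteValuationRing 𝒪]
  [IsAdicComplete (maximalIdeal 𝒪) 𝒪] [Finite (ResidueField 𝒪)]
  {p : ℕ} [Fact p.Prime] [Algebra (ZMod p) (ResidueField 𝒪)]
  {ρbar : ResidualGaloisRep (ResidueField 𝒪)}

local notation "kk" => ResidueField 𝒪
local notation "Aε" => DualNumber (ResidueField 𝒪)

/-- **COC, general form**: `CocOut` for any family of conditions which is stable under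
push-forward along surjections `DQ.R → k[ε]` and contains the cyclotomic determinant and
unramifiedness outside `T`. -/
theorem cocOut_of (Smin : Finset ℕ) (hpk : (p : kk) = 0)
    (hdetbar : (GaloisRepAdic.ofResidualGaloisRep ρbar).DetIsCyclotomic p)
    (𝒟fam : Finset ℕ →
      ∀ ⦃A : Type⦄ [CommRing A] [IsLocalRing A] [Algebra 𝒪 A], GaloisRepAdic A → Prop)
    (hD : ∀ (T : Finset ℕ) (DQ : DeformationRingData 𝒪 ρbar (𝒟fam T))
      (φ : DQ.R →ₐ[𝒪] Aε) (hφ : IsLocalHom (φ : DQ.R →+* Aε)), Function.Surjective φ →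
      𝒟fam T (DQ.ρ.baseChangeAlong (φ : DQ.R →+* Aε) hφ))
    (hdet : ∀ (T : Finset ℕ) (ρ : GaloisRepAdic Aε), 𝒟fam T ρ → ρ.DetIsCyclotomic p)
    (hur : ∀ (T : Finset ℕ) (ρ : GaloisRepAdic Aε), 𝒟fam T ρ →
      ∀ q : ℕ, q.Prime → q ∉ T → ρ.IsUnramifiedAt q)
    (hT : TrivStatement) :
    CocOut p ρbar Smin 𝒟fam := by
  intro T _ DQ
  obtain ⟨bbar⟩ := nonempty_rbasis ρbar
  choose c htr hc hb hZ htan using
    exists_datum p hpk hdetbar T DQ (hD T DQ) (hdet T) (hur T) bbar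
  refine ⟨fun φ => ⟨Submodule.mkQ _ ⟨_, hZ φ⟩, ⟨⟨_, hZ φ⟩, htan φ, rfl⟩⟩, fun φ φ' h => ?_⟩
  have h1 := congrArg Subtype.val h
  simp only [Submodule.mkQ_apply] at h1
  rw [Submodule.Quotient.eq, Submodule.mem_comap] at h1
  obtain ⟨hφ, b, hbφ⟩ := hb φ
  obtain ⟨hφ', b', hbφ'⟩ := hb φ'
  exact algHom_eq_of_isAdCoboundary DQ (hD T DQ) hT bbar φ φ' hφ hφ' (c φ) (c φ') b b' hbφ hbφ'
    (isAdCoboundary_of_mem_B1 p bbar (c φ) (c φ') (htr φ) (htr φ') h1)

/-- The push-forward of the universal deformation of flat type along a surjection to the dual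
numbers is of flat type. -/
theorem condFlat_baseChangeAlong (Smin T : Finset ℕ)
    (DQ : DeformationRingData 𝒪 ρbar (condFlat 𝒪 p Smin T))
    (φ : DQ.R →ₐ[𝒪] Aε) (hφ : IsLocalHom (φ : DQ.R →+* Aε)) (hs : Function.Surjective φ) :
    condFlat 𝒪 p Smin T (DQ.ρ.baseChangeAlong (φ : DQ.R →+* Aε) hφ) := by
  obtain ⟨⟨h1, h2, h3⟩, h4⟩ := DQ.isOfType
  have hB := helper13.bcBasic DQ.R Aε (φ : DQ.R →+* Aε) hφ DQ.ρ
  refine ⟨⟨hB.1 p h1, ?_, fun q hq hqT => hB.2.1 q (h3 q hq hqT)⟩,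
    fun q hqS hq hqp => hB.2.2 q (h4 q hqS hq hqp)⟩
  exact helper41.bcFlat DQ.R Aε (φ : DQ.R →+* Aε) hφ hs DQ.ρ p h2

/-- The push-forward of the universal deformation of strict-ordinary type along a homomorphism
to the dual numbers is of strict-ordinary type. -/
theorem condSO_baseChangeAlong (hBC2 : BCStrictOrdStatement) (Smin T : Finset ℕ)
    (DQ : DeformationRingData 𝒪 ρbar (condSO 𝒪 p Smin T))
    (φ : DQ.R →ₐ[𝒪] Aε) (hφ : IsLocalHom (φ : DQ.R →+* Aε)) :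
    condSO 𝒪 p Smin T (DQ.ρ.baseChangeAlong (φ : DQ.R →+* Aε) hφ) := by
  obtain ⟨⟨h1, h2, h3⟩, h4⟩ := DQ.isOfType
  have hB := helper13.bcBasic DQ.R Aε (φ : DQ.R →+* Aε) hφ DQ.ρ
  refine ⟨⟨hB.1 p h1, ?_, fun q hq hqT => hB.2.1 q (h3 q hq hqT)⟩,
    fun q hqS hq hqp => hB.2.2 q (h4 q hqS hq hqp)⟩
  exact hBC2 DQ.R Aε (φ : DQ.R →+* Aε) hφ DQ.ρ p h2

theorem natCast_residueField_eq_zero (hp𝒪 : (p : 𝒪) ∈ maximalIdeal 𝒪) : (p : kk) = 0 := by
  have h := (residue_eq_zero_iff (p : 𝒪)).2 hp𝒪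
  rwa [map_natCast] at h

/-- **COC, flat case** (unconditional): the deliverable `CocOut` of helper70's interface for
the flat condition of S56. -/
theorem cocOut_flat {S Smin : Finset ℕ} (hset : Setting 𝒪 p ρbar S Smin) :
    CocOut p ρbar Smin (condFlat 𝒪 p Smin) :=
  cocOut_of Smin (natCast_residueField_eq_zero hset.hp𝒪) hset.hdet (condFlat 𝒪 p Smin)
    (fun T DQ φ hφ hs => condFlat_baseChangeAlong Smin T DQ φ hφ hs)
    (fun T ρ h => h.1.1) (fun T ρ h => h.1.2.2) helper78.triv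

/-- **COC, strict-ordinary case**, from the base-change package BC2. -/
theorem cocOut_so_of (hBC2 : BCStrictOrdStatement) {S Smin : Finset ℕ}
    (hset : Setting 𝒪 p ρbar S Smin) :
    CocOut p ρbar Smin (condSO 𝒪 p Smin) :=
  cocOut_of Smin (natCast_residueField_eq_zero hset.hp𝒪) hset.hdet (condSO 𝒪 p Smin)
    (fun T DQ φ hφ _ => condSO_baseChangeAlong hBC2 Smin T DQ φ hφ)
    (fun T ρ h => h.1.1) (fun T ρ h => h.1.2.2) helper78.triv

/-- **COC, strict-ordinary case** (unconditional): the deliverable `CocOut` of helper70's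
interface for the strict-ordinary condition of S56. -/
theorem cocOut_so {S Smin : Finset ℕ} (hset : Setting 𝒪 p ρbar S Smin) :
    CocOut p ρbar Smin (condSO 𝒪 p Smin) :=
  cocOut_so_of helper17.bcStrictOrd hset

end out

end Fermat.Agent.P1.helper56
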