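import Fermat.Agent.P1.helper30_FlatCntL3
import Fermat.Agent.P1.helper56_CocOut

/-!
# P1 / FLAT-CNT, package MEM-I (helper66, task 793)

`memI : MemI2Statement p` — CASE I: the cocycle of a tangent lift whose `G_p`-module is
"bounded" (`IsBddGp`) is a bounded cocycle over the field `T` cut out by `ρbar`.
-/

set_option autoImplicit false
set_option linter.style.haveILetI false

open IsLocalRing ExtCitation groupCohomology

noncomputable section

namespace Fermat.Agent.P1.helper66

open Fermat.Agent.S55 Fermat.Agent.P1.helper70 Fermat.Agent.P1.helper30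
open Fermat.Agent.P1.helper56 Fermat.Agent.S53.helper56

section matrix

variable {k : Type} [Field k]

theorem tanMat_one_pow (c : M2 k) (n : ℕ) :
    (tanMat (1 : M2 k) c) ^ n = tanMat 1 (n • c) := by
  induction n with
  | zero => rw [pow_zero, zero_smul, tanMat_one_zero]
  | succ n ih =>
    rw [pow_succ, ih, tanMat_mul 1 1 1 _ _ (one_mul 1), one_mul, mul_one, one_mul, succ_nsmul]

theorem tanMat_one_pow_char (p : ℕ) (hpk : ((p : ℕ) : k) = 0) (c : M2 k) :
    (tanMat (1 : M2 k) c) ^ p = 1 := by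
  rw [tanMat_one_pow]
  have : p • c = 0 := by
    rw [← Nat.cast_smul_eq_nsmul k, hpk, zero_smul]
  rw [this, tanMat_one_zero]

end matrix

/-- **MEM-I**. -/
theorem memI (p : ℕ) [Fact p.Prime] : MemI2Statement p := by
  intro 𝒪 _ _ _ ρbar _ hset T _ hT hedeg hζ ρ c htan hbdd hZ
  refine ⟨hZ, fun _ => trivial, fun _ _ => trivial, fun ℓ => ?_⟩
  obtain ⟨b, bbar, hmat⟩ := htan
  have hmat' : ∀ g : GQ, LinearMap.toMatrix b b (ρ.ρ g) =
      tanMat (LinearMap.toMatrix bbar bbar (ρbar.ρ g))
        (LinearMap.toMatrix bbar bbar (Ad0.toEnd ρbar (c g))) := by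
    intro g
    rw [hmat g, tanMat_eq_add, LinearMap.toMatrix_mul]
  have key : ∀ G : GQ, ρ.ρ G = 1 → ρbar.ρ G = 1 ∧ c G = 0 := by
    intro G hG
    have h1 := hmat' G
    rw [hG, LinearMap.toMatrix_one] at h1
    obtain ⟨h2, h3⟩ := (tanMat_eq_one_iff _ _).mp h1.symm
    constructor
    · apply (LinearMap.toMatrix bbar bbar).injective
      rw [h2, LinearMap.toMatrix_one]
    · apply Ad0.toEnd_injective
      apply (LinearMap.toMatrix bbar bbar).injective
      rw [h3, map_zero, map_zero]
  have key2 : ∀ G : GQ, ρbar.ρ G = 1 → ρ.ρ (G ^ p) = 1 := by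
    intro G hG
    apply (LinearMap.toMatrix b b).injective
    have h1 := hmat' G
    rw [hG, LinearMap.toMatrix_one] at h1
    rw [map_pow, ← LinearMap.toMatrix_pow, h1, LinearMap.toMatrix_one]
    exact tanMat_one_pow_char p hset.hpk _
  -- the cocycle relation
  have hcoc : ∀ g h : Gp p, c (localGaloisToGlobal p (g * h)) =
      c (localGaloisToGlobal p g) +
        ad0Hom ρbar (localGaloisToGlobal p g) (c (localGaloisToGlobal p h)) := by
    intro g h
    have h1 := LinearMap.mem_ker.mp hZ.2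
    have h2 := congrFun h1 (g, h)
    have h3 : (ad0Hom ρbar (localGaloisToGlobal p g) (c (localGaloisToGlobal p h)) : Ad0 ρbar) -
        c (localGaloisToGlobal p (g * h)) + c (localGaloisToGlobal p g) = 0 := h2
    have h4 := sub_eq_zero.mp (show
      (c (localGaloisToGlobal p g) +
        ad0Hom ρbar (localGaloisToGlobal p g) (c (localGaloisToGlobal p h))) -
        c (localGaloisToGlobal p (g * h)) = 0 by rw [← h3]; abel)
    exact h4.symm
  have had : ∀ G : GQ, ρbar.ρ G = 1 → ∀ x : Ad0 ρbar, ad0Hom ρbar G x = x := by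
    intro G hG x
    apply Ad0.toEnd_injective
    have hinv : ρbar.ρ G⁻¹ = 1 := by
      have h := map_mul ρbar.ρ G⁻¹ G
      rw [inv_mul_cancel, map_one, hG, mul_one] at h
      exact h.symm
    rw [toEnd_ad0Hom, hinv, hG, one_mul, mul_one]
  refine hbdd T hedeg hζ ?_ ?_ (fun g => ℓ (c (localGaloisToGlobal p g))) ?_ ?_
  · intro g hg
    rw [hT]
    exact (key _ (LinearMap.ext hg)).1
  · intro g hg
    refine ⟨1, fun x => ?_⟩
    have h1 := key2 _ ((hT g).mp hg)
    show ρ.ρ (localGaloisToGlobal p (g ^ p ^ 1)) x = x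
    rw [pow_one, map_pow, h1]
    rfl
  · intro g hg h _
    show ℓ (c (localGaloisToGlobal p (g * h))) = _
    rw [hcoc, had _ ((hT g).mp hg), map_add]
  · intro g hg
    show ℓ (c (localGaloisToGlobal p g)) = 0
    rw [(key _ (LinearMap.ext hg)).2, map_zero]

end Fermat.Agent.P1.helper66
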