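import Fermat.Agent.P1.helper47_CountII
import Fermat.Agent.P1.helper66_MemI

/-!
# P1 / FLAT-CNT, packages MEM-II and MEM-B (helper26, task 795)

* `memII : helper30.MemII2Statement p` and `memB : helper30.MemBStatement p` (VERBATIM).

Both follow from one core statement `bdd_core`: a level cocycle `c'` of `G_p` with values in the
Borel `B⁰(L)`, with values in `W(L)` on inertia, vanishing on the kernel of a "bounded"
`G_p`-module (`IsBddGp`) lying over `ρbar`, is bounded over the field `T̂` (`IsHatField`).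
-/

set_option autoImplicit false
set_option linter.style.haveILetI false
set_option linter.unusedSectionVars false

open IsLocalRing ExtCitation groupCohomology

noncomputable section

namespace Fermat.Agent.P1.helper26

open Fermat.Agent.S55 Fermat.Agent.P1.helper70 Fermat.Agent.P1.helper30
open Fermat.Agent.P1.helper7 Fermat.Agent.P1.helper93
open Fermat.Agent.S55.helper8

/-! ## Linear algebra: endomorphisms unipotent with respect to a line -/

section LinAlg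

variable {k : Type} [Field k] (ρbar : ResidualGaloisRep k) (L : Submodule k ρbar.V)

/-- `N` is unipotent with respect to `L`: trivial on `L` and on `V / L`. -/
def IsUni (N : Module.End k ρbar.V) : Prop :=
  (∀ x ∈ L, N x = x) ∧ ∀ x, N x - x ∈ L

variable {ρbar L}

lemma isUni_one : IsUni ρbar L 1 :=
  ⟨fun _ _ => rfl, fun x => by
    rw [Module.End.one_apply, sub_self]
    exact L.zero_mem⟩

lemma IsUni.mul {M N : Module.End k ρbar.V} (hM : IsUni ρbar L M) (hN : IsUni ρbar L N) :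
    IsUni ρbar L (M * N) := by
  refine ⟨fun x hx => ?_, fun x => ?_⟩
  · rw [Module.End.mul_apply, hN.1 x hx, hM.1 x hx]
  · have e : (M * N) x - x = (N x - x) + (M x - x) := by
      rw [Module.End.mul_apply]
      have h1 : M (N x) = M (N x - x) + M x := by rw [← map_add, sub_add_cancel]
      rw [h1, hM.1 _ (hN.2 x)]
      abel
    rw [e]
    exact L.add_mem (hN.2 x) (hM.2 x)

lemma IsUni.of_mul_eq_one {M N : Module.End k ρbar.V} (hM : IsUni ρbar L M)
    (h : N * M = 1) : IsUni ρbar L N := by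
  have hNM : ∀ x, N (M x) = x := fun x => by
    rw [← Module.End.mul_apply, h, Module.End.one_apply]
  have h1 : ∀ x ∈ L, N x = x := fun x hx => by
    have := hNM x
    rwa [hM.1 x hx] at this
  refine ⟨h1, fun x => ?_⟩
  have e : N x - x = -(M x - x) := by
    have h2 : N (M x - x) = M x - x := h1 _ (hM.2 x)
    rw [map_sub, hNM] at h2
    rw [← h2]
    abel
  rw [e]
  exact L.neg_mem (hM.2 x)

lemma IsUni.sq_zero {N : Module.End k ρbar.V} (hN : IsUni ρbar L N) :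
    (N - 1) * (N - 1) = 0 := by
  ext x
  have h1 : (N - 1) x = N x - x := rfl
  rw [Module.End.mul_apply, h1, LinearMap.zero_apply]
  have h2 : (N - 1) (N x - x) = N (N x - x) - (N x - x) := rfl
  rw [h2, hN.1 _ (hN.2 x), sub_self]

lemma IsUni.pow_eq {N : Module.End k ρbar.V} (hN : IsUni ρbar L N) (m : ℕ) :
    N ^ m = 1 + m • (N - 1) := by
  induction m with
  | zero => rw [pow_zero, zero_smul, add_zero]
  | succ m ih =>
    have hsq := hN.sq_zero
    have e : (1 + m • (N - 1)) * N = (1 + m • (N - 1)) * (1 + (N - 1)) := by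
      congr 1
      abel
    rw [pow_succ, ih, e, add_mul, one_mul, mul_add, mul_one, smul_mul_assoc, hsq, smul_zero,
      add_zero, succ_nsmul]
    abel

lemma IsUni.pow_char {N : Module.End k ρbar.V} (hN : IsUni ρbar L N) (p : ℕ)
    (hpk : ((p : ℕ) : k) = 0) : N ^ p = 1 := by
  rw [hN.pow_eq, ← Nat.cast_smul_eq_nsmul k, hpk, zero_smul, add_zero]

variable (ρbar L)

/-- The subgroup of the `σ` acting unipotently with respect to `L`. -/
def uniSub : Subgroup GQ where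
  carrier := {σ | IsUni ρbar L (ρbar.ρ σ)}
  one_mem' := by
    change IsUni ρbar L (ρbar.ρ 1)
    rw [map_one]
    exact isUni_one
  mul_mem' := by
    intro a b ha hb
    change IsUni ρbar L (ρbar.ρ (a * b))
    rw [map_mul]
    exact IsUni.mul ha hb
  inv_mem' := by
    intro a ha
    change IsUni ρbar L (ρbar.ρ a⁻¹)
    refine IsUni.of_mul_eq_one ha ?_
    rw [← map_mul, inv_mul_cancel, map_one]

variable {ρbar L}

lemma mem_uniSub {σ : GQ} : σ ∈ uniSub ρbar L ↔ IsUni ρbar L (ρbar.ρ σ) := Iff.rfl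

/-- Elements acting unipotently act trivially on `W(L)`. -/
lemma ad0Hom_eq_of_mem_uniSub {σ : GQ} (hσ : σ ∈ uniSub ρbar L) {y : Ad0 ρbar}
    (hy : y ∈ nilSub ρbar L) : ad0Hom ρbar σ y = y := by
  apply Ad0.toEnd_injective
  rw [toEnd_ad0Hom]
  have hσ' : IsUni ρbar L (ρbar.ρ σ⁻¹) := (uniSub ρbar L).inv_mem hσ
  obtain ⟨hy1, hy2⟩ := (mem_nilSub ρbar).mp hy
  ext v
  rw [Module.End.mul_apply, Module.End.mul_apply]
  have h1 : Ad0.toEnd ρbar y (ρbar.ρ σ⁻¹ v) = Ad0.toEnd ρbar y v := by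
    have h2 : ρbar.ρ σ⁻¹ v = (ρbar.ρ σ⁻¹ v - v) + v := by abel
    rw [h2, map_add, hy2 _ (hσ'.2 v), zero_add]
  rw [h1]
  exact hσ.1 _ (hy1 v)

/-- The determinant of a unipotent endomorphism is `1`. -/
lemma IsUni.det_eq_one (hL : Module.finrank k L = 1) {N : Module.End k ρbar.V}
    (hN : IsUni ρbar L N) : LinearMap.det N = 1 := by
  obtain ⟨b, hb⟩ := lso_exists_adapted_basis ρbar L hL
  have h0 : b 0 ∈ L := by
    rw [hb, b.repr_self]
    simp
  rw [← LinearMap.det_toMatrix b, Matrix.det_fin_two]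
  have e00 : LinearMap.toMatrix b b N 0 0 = 1 := by
    rw [LinearMap.toMatrix_apply, hN.1 _ h0, b.repr_self]
    simp
  have e10 : LinearMap.toMatrix b b N 1 0 = 0 := by
    rw [LinearMap.toMatrix_apply, hN.1 _ h0, b.repr_self]
    simp
  have e11 : LinearMap.toMatrix b b N 1 1 = 1 := by
    rw [LinearMap.toMatrix_apply]
    have h1 := (hb _).mp (hN.2 (b 1))
    rw [map_sub, Finsupp.sub_apply, b.repr_self] at h1
    have h2 : (Finsupp.single (1 : Fin 2) (1 : k)) 1 = 1 := by simp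
    rw [h2] at h1
    exact sub_eq_zero.mp h1
  rw [e00, e10, e11]
  ring

/-! ### Coordinates in an adapted basis -/

section Basis

variable (b : Module.Basis (Fin 2) k ρbar.V) (hb : ∀ u : ρbar.V, u ∈ L ↔ b.repr u 1 = 0)

include hb

lemma basis_zero_mem : b 0 ∈ L := by
  rw [hb, b.repr_self]
  simp

lemma eq_smul_of_mem {v : ρbar.V} (hv : v ∈ L) : v = b.repr v 0 • b 0 := by
  conv_lhs => rw [← b.sum_repr v]
  rw [Fin.sum_univ_two, (hb v).mp hv, zero_smul, add_zero]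

lemma mem_nilSub_of_borel {x : Ad0 ρbar} (hx : x ∈ borelSub ρbar L)
    (h0 : lsoMat b x 0 0 = 0) : x ∈ nilSub ρbar L := by
  rw [mem_nilSub_iff_lsoMat b L hb]
  refine ⟨h0, (mem_borelSub_iff_lsoMat b L hb x).mp hx, ?_⟩
  have := lsoMat_trace b x
  rwa [h0, zero_add] at this

lemma lsoMat_eq_zero_of_nil {x : Ad0 ρbar} (hx : x ∈ nilSub ρbar L) :
    lsoMat b x 0 0 = 0 :=
  ((mem_nilSub_iff_lsoMat b L hb x).mp hx).1

lemma lsoMat_ad0Hom (hL : Module.finrank k L = 1) (σ : GQ)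
    (hσ : ∀ w ∈ L, ρbar.ρ σ w ∈ L) (hσ' : ∀ w ∈ L, ρbar.ρ σ⁻¹ w ∈ L)
    {x : Ad0 ρbar} (hx : x ∈ borelSub ρbar L) :
    lsoMat b (ad0Hom ρbar σ x) 0 0 = lsoMat b x 0 0 := by
  have h1 := lsoMat_eq_zero_of_nil b hb
    (helper47.ad0Hom_sub_mem_nilSub ρbar hL σ hσ hσ' x hx)
  rw [map_sub, Matrix.sub_apply] at h1
  exact sub_eq_zero.mp h1

/-- The eigenvalue of `N` on the line `L` (if `N` stabilises `L`). -/
def chiL (N : Module.End k ρbar.V) : k := b.repr (N (b 0)) 0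

omit hb in
lemma chiL_one : chiL b (1 : Module.End k ρbar.V) = 1 := by
  unfold chiL
  rw [Module.End.one_apply, b.repr_self]
  simp

lemma chiL_spec {N : Module.End k ρbar.V} (hN : ∀ w ∈ L, N w ∈ L) :
    N (b 0) = chiL b N • b 0 :=
  eq_smul_of_mem b hb (hN _ (basis_zero_mem b hb))

lemma chiL_mul {M N : Module.End k ρbar.V} (hM : ∀ w ∈ L, M w ∈ L)
    (hN : ∀ w ∈ L, N w ∈ L) : chiL b (M * N) = chiL b M * chiL b N := by
  have h1 : (M * N) (b 0) = (chiL b M * chiL b N) • b 0 := by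
    rw [Module.End.mul_apply, chiL_spec b hb hN, map_smul, chiL_spec b hb hM, smul_smul,
      mul_comm]
  unfold chiL at h1 ⊢
  rw [h1, map_smul, b.repr_self]
  simp

lemma isUni_iff_chiL {N : Module.End k ρbar.V} (hN : ∀ w ∈ L, N w ∈ L)
    (hN2 : ∀ x, N x - x ∈ L) : IsUni ρbar L N ↔ chiL b N = 1 := by
  constructor
  · intro h
    unfold chiL
    rw [h.1 _ (basis_zero_mem b hb), b.repr_self]
    simp
  · intro h
    refine ⟨fun x hx => ?_, hN2⟩
    have h1 := chiL_spec b hb hN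
    rw [h, one_smul] at h1
    rw [eq_smul_of_mem b hb hx, map_smul, h1]

end Basis

end LinAlg

/-! ## The cyclotomic exponent -/

section Cyc

variable (p : ℕ) [Fact p.Prime]

lemma exists_cyc_exp (g : Gp p) :
    ∃ a : ℕ, ∀ ζ : PadicAlgCl p, ζ ^ p = 1 → g ζ = ζ ^ a := by
  haveI : NeZero p := ⟨(Fact.out : p.Prime).ne_zero⟩
  obtain ⟨ζ₀, hζ₀⟩ := HasEnoughRootsOfUnity.exists_primitiveRoot (PadicAlgCl p) p
  have h1 : (g ζ₀) ^ p = 1 := by rw [← map_pow, hζ₀.pow_eq_one, map_one]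
  obtain ⟨a, -, ha⟩ := hζ₀.eq_pow_of_pow_eq_one h1
  refine ⟨a, fun ζ hζ => ?_⟩
  obtain ⟨j, -, rfl⟩ := hζ₀.eq_pow_of_pow_eq_one hζ
  rw [map_pow, ← ha, ← pow_mul, ← pow_mul, mul_comm]

end Cyc

/-! ## Tangent lifts -/

section Tan

open Fermat.Agent.P1.helper56 Fermat.Agent.S53.helper56

variable {𝒪 : Type} [CommRing 𝒪] [IsLocalRing 𝒪]
  {ρbar : ResidualGaloisRep (ResidueField 𝒪)}

lemma tan_keys {ρ : GaloisRepAdic (DualNumber (ResidueField 𝒪))} {c : GQ → Ad0 ρbar}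
    (htan : IsTanLift ρbar ρ c) (p : ℕ) (hpk : ((p : ℕ) : ResidueField 𝒪) = 0) :
    (∀ G : GQ, ρ.ρ G = 1 → ρbar.ρ G = 1 ∧ c G = 0) ∧
      ∀ G : GQ, ρbar.ρ G = 1 → ρ.ρ (G ^ p) = 1 := by
  obtain ⟨b, bbar, hmat⟩ := htan
  have hmat' : ∀ g : GQ, LinearMap.toMatrix b b (ρ.ρ g) =
      tanMat (LinearMap.toMatrix bbar bbar (ρbar.ρ g))
        (LinearMap.toMatrix bbar bbar (Ad0.toEnd ρbar (c g))) := by
    intro g
    rw [hmat g, tanMat_eq_add, LinearMap.toMatrix_mul]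
  constructor
  · intro G hG
    have h1 := hmat' G
    rw [hG, LinearMap.toMatrix_one] at h1
    obtain ⟨h2, h3⟩ := (tanMat_eq_one_iff _ _).mp h1.symm
    constructor
    · apply (LinearMap.toMatrix bbar bbar).injective
      rw [h2, LinearMap.toMatrix_one]
    · apply Ad0.toEnd_injective
      apply (LinearMap.toMatrix bbar bbar).injective
      rw [h3, map_zero, map_zero]
  · intro G hG
    apply (LinearMap.toMatrix b b).injective
    have h1 := hmat' G
    rw [hG, LinearMap.toMatrix_one] at h1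
    rw [map_pow, ← LinearMap.toMatrix_pow, h1, LinearMap.toMatrix_one]
    exact helper66.tanMat_one_pow_char p hpk _

end Tan

/-! ## The core -/

section Core

variable (p : ℕ) [Fact p.Prime]
  {𝒪 : Type} [CommRing 𝒪] [IsLocalRing 𝒪]
  (ρbar : ResidualGaloisRep (ResidueField 𝒪))
  (L : Submodule (ResidueField 𝒪) ρbar.V)

/-- The cocycle identity, in terms of the adjoint action. -/
def IsCoc (c' : Gp p → Ad0 ρbar) : Prop :=
  ∀ g h : Gp p, c' (g * h) = ad0Hom ρbar (localGaloisToGlobal p g) (c' h) + c' g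

variable {p ρbar}

lemma IsCoc.one {c' : Gp p → Ad0 ρbar} (hc : IsCoc p ρbar c') : c' 1 = 0 := by
  have h := hc 1 1
  rw [mul_one, map_one, map_one, Module.End.one_apply] at h
  have h' : c' 1 + 0 = c' 1 + c' 1 := by rw [add_zero]; exact h
  exact (add_left_cancel h').symm

variable (p ρbar)

/-- The subgroup `U₁`: the `g` acting unipotently with respect to `L` at which the cocycle has
values in `W(L)`. -/
def U1 (c' : Gp p → Ad0 ρbar) (hc : IsCoc p ρbar c') : Subgroup (Gp p) where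
  carrier := {g | localGaloisToGlobal p g ∈ uniSub ρbar L ∧ c' g ∈ nilSub ρbar L}
  one_mem' := by
    refine ⟨?_, ?_⟩
    · rw [map_one]
      exact one_mem _
    · rw [hc.one]
      exact Submodule.zero_mem _
  mul_mem' := by
    rintro g h ⟨hg1, hg2⟩ ⟨hh1, hh2⟩
    refine ⟨?_, ?_⟩
    · rw [map_mul]
      exact mul_mem hg1 hh1
    · rw [hc g h, ad0Hom_eq_of_mem_uniSub hg1 hh2]
      exact Submodule.add_mem _ hh2 hg2
  inv_mem' := by
    rintro g ⟨hg1, hg2⟩
    have hginv : localGaloisToGlobal p (g⁻¹ : Gp p) ∈ uniSub ρbar L := by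
      rw [map_inv]
      exact inv_mem hg1
    refine ⟨hginv, ?_⟩
    have e := hc g⁻¹ g
    rw [inv_mul_cancel, hc.one, ad0Hom_eq_of_mem_uniSub hginv hg2] at e
    have e3 : c' (g⁻¹ : Gp p) = -(c' g) := (neg_eq_of_add_eq_zero_right e.symm).symm
    rw [e3]
    exact Submodule.neg_mem _ hg2

variable {p ρbar L}

lemma mem_U1 {c' : Gp p → Ad0 ρbar} {hc : IsCoc p ρbar c'} {g : Gp p} :
    g ∈ U1 p ρbar L c' hc ↔ localGaloisToGlobal p g ∈ uniSub ρbar L ∧
      c' g ∈ nilSub ρbar L := Iff.rfl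

/-- `p` divides the cardinality of a finite field in which `p = 0`. -/
lemma not_dvd_card_units {k : Type} [Field k] [Finite k] (p : ℕ) [Fact p.Prime]
    (hpk : ((p : ℕ) : k) = 0) : ¬ p ∣ Nat.card kˣ := by
  have hp : p.Prime := Fact.out
  have h1 : addOrderOf (1 : k) = p := by
    apply addOrderOf_eq_prime
    · rw [nsmul_eq_mul, mul_one, hpk]
    · exact one_ne_zero
  have h2 : p ∣ Nat.card k := by
    rw [← h1]
    exact addOrderOf_dvd_natCard (1 : k)
  have h3 : 0 < Nat.card k := Nat.card_pos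
  rw [Nat.card_units]
  intro h4
  have h5 : p ∣ Nat.card k - (Nat.card k - 1) := Nat.dvd_sub h2 h4
  have h6 : Nat.card k - (Nat.card k - 1) = 1 := by omega
  rw [h6] at h5
  exact hp.one_lt.ne' (Nat.dvd_one.mp h5)

/-- **The core of MEM-II and MEM-B.** -/
theorem bdd_core (p : ℕ) [Fact p.Prime]
    (hOpen : LFOpenStatement p) (hEdeg : LFEdegStatement p)
    (hZeta : LFZetaStatement p) (hUnram : LFUnramStatement p)
    {𝒪 : Type} [CommRing 𝒪] [IsLocalRing 𝒪] [Finite (ResidueField 𝒪)]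
    (ρbar : ResidualGaloisRep (ResidueField 𝒪)) [Algebra (ZMod p) (ResidueField 𝒪)]
    (hset : LocSetting p ρbar)
    (hL : Module.finrank (ResidueField 𝒪) ↥(ramLine p ρbar) = 1)
    (hLst : ∀ g : Gp p, ∀ x ∈ ramLine p ρbar,
      ρbar.ρ (localGaloisToGlobal p g) x ∈ ramLine p ρbar)
    (T : IntermediateField ℚ_[p] (PadicAlgCl p)) [FiniteDimensional ℚ_[p] T]
    (hT : IsHatField p ρbar T)
    {E : Type} [AddCommGroup E] (act : Gp p → E → E) (hbdd : IsBddGp p act)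
    (hk1 : ∀ g : Gp p, (∀ x, act g x = x) → ρbar.ρ (localGaloisToGlobal p g) = 1)
    (hk2 : ∀ g : Gp p, ρbar.ρ (localGaloisToGlobal p g) = 1 → ∀ x, act (g ^ p) x = x)
    (c' : Gp p → Ad0 ρbar) (hc : IsCoc p ρbar c')
    (hlev : ∃ N : Subgroup (Gp p), N ∈ (locLevels (pPrime p)).mem ∧
      ∀ g : Gp p, ∀ s ∈ N, c' (g * s) = c' g)
    (hB : ∀ g : Gp p, c' g ∈ borelSub ρbar (ramLine p ρbar))
    (hW : ∀ g ∈ inertiaΩ p, c' g ∈ nilSub ρbar (ramLine p ρbar))
    (h4 : ∀ g : Gp p, (∀ x, act g x = x) → c' g = 0)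
    (ℓ : Ad0 ρbar →ₗ[ZMod p] ZMod p) : IsBddHom p T (fun g => ℓ (c' g)) := by
  have hp : p.Prime := Fact.out
  obtain ⟨b, hb⟩ := lso_exists_adapted_basis ρbar (ramLine p ρbar) hL
  -- stability under inverses
  have hLst' : ∀ g : Gp p, ∀ x ∈ ramLine p ρbar,
      ρbar.ρ (localGaloisToGlobal p g)⁻¹ x ∈ ramLine p ρbar := by
    intro g x hx
    have := hLst g⁻¹ x hx
    rwa [map_inv] at this
  -- inertia acts trivially on `V / L`
  have hI2 : ∀ g ∈ inertiaΩ p, ∀ x : ρbar.V,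
      ρbar.ρ (localGaloisToGlobal p g) x - x ∈ ramLine p ρbar :=
    fun g hg x => Submodule.subset_span ⟨g, hg, x, rfl⟩
  -- the diagonal part
  have hu_add : ∀ g h : Gp p,
      lsoMat b (c' (g * h)) 0 0 = lsoMat b (c' g) 0 0 + lsoMat b (c' h) 0 0 := by
    intro g h
    rw [hc g h, map_add, Matrix.add_apply,
      lsoMat_ad0Hom b hb hL _ (hLst g) (hLst' g) (hB h), add_comm]
  have hu_I : ∀ g ∈ inertiaΩ p, lsoMat b (c' g) 0 0 = 0 :=
    fun g hg => lsoMat_eq_zero_of_nil b hb (hW g hg)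
  obtain ⟨N₁, hN₁, hlev₁⟩ := hlev
  have hlevz : ∀ s : Gp p, s ∈ N₁ → c' s = 0 := by
    intro s hs
    have := hlev₁ 1 s hs
    rwa [one_mul, hc.one] at this
  -- `U₁` contains a level
  obtain ⟨N₀, hN₀, hlev₀⟩ := hset.hlev
  obtain ⟨N, hN, hNle⟩ := (locLevels (pPrime p)).directed N₀ hN₀ N₁ hN₁
  have hU_lev : ∃ N ∈ (locLevels (pPrime p)).mem, N ≤ U1 p ρbar (ramLine p ρbar) c' hc := by
    refine ⟨N, hN, fun s hs => ⟨?_, ?_⟩⟩
    · rw [mem_uniSub, hlev₀ s (hNle hs).1]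
      exact isUni_one
    · have h1 : c' s = 0 := hlevz s (hNle hs).2
      rw [h1]
      exact Submodule.zero_mem _
  obtain ⟨T₁, hT₁fin, hT₁⟩ := hOpen (U1 p ρbar (ramLine p ρbar) c' hc) hU_lev
  haveI := hT₁fin
  -- (1) `T₁` is tame
  have htame : ¬ p ∣ edeg p T₁ := by
    rw [(hEdeg T₁).1, hT₁]
    let χ₀ : Gp p →* ResidueField 𝒪 :=
      { toFun := fun g => chiL b (ρbar.ρ (localGaloisToGlobal p g))
        map_one' := by
          rw [map_one, map_one]
          exact chiL_one b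
        map_mul' := fun g h => by
          rw [map_mul, map_mul]
          exact chiL_mul b hb (hLst g) (hLst h) }
    let φ : ↥(inertiaΩ p) →* (ResidueField 𝒪)ˣ := χ₀.toHomUnits.comp (inertiaΩ p).subtype
    have hker : (U1 p ρbar (ramLine p ρbar) c' hc).subgroupOf (inertiaΩ p) = φ.ker := by
      ext σ
      rw [Subgroup.mem_subgroupOf, MonoidHom.mem_ker, mem_U1, mem_uniSub,
        isUni_iff_chiL b hb (hLst σ.1) (hI2 σ.1 σ.2), Units.ext_iff]
      constructor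
      · intro h
        exact h.1
      · intro h
        exact ⟨h, hW σ.1 σ.2⟩
    rw [Subgroup.relIndex, hker, Subgroup.index_ker]
    intro hdvd
    exact not_dvd_card_units p hset.hpk
      (dvd_trans hdvd (Subgroup.card_subgroup_dvd_card φ.range))
  -- (2) `ζ_p ∈ T₁`
  have hzeta : ∃ ζ ∈ T₁, IsPrimitiveRoot ζ p := by
    rw [hZeta T₁]
    intro g hg ζ hζ
    rw [hT₁] at hg
    obtain ⟨a, ha⟩ := exists_cyc_exp p g
    have h1 := hset.hdet g a ha
    rw [IsUni.det_eq_one hL hg.1] at h1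
    haveI : CharP (ResidueField 𝒪) p := (CharP.charP_iff_prime_eq_zero hp).mpr hset.hpk
    have h2 : ((a : ℕ) : ResidueField 𝒪) = ((1 : ℕ) : ResidueField 𝒪) := by
      rw [Nat.cast_one]
      exact h1.symm
    have h3 : a ≡ 1 [MOD p] := (CharP.natCast_eq_natCast (ResidueField 𝒪) p).mp h2
    have h4 : a % p = 1 := by
      have := h3
      rw [Nat.ModEq, Nat.mod_eq_of_lt hp.one_lt] at this
      exact this
    rw [ha ζ hζ]
    conv_lhs => rw [← Nat.div_add_mod a p, h4]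
    rw [pow_add, pow_mul, hζ, one_pow, one_mul, pow_one]
  -- (3) the kernel of the action
  have hker : ∀ g : Gp p, (∀ x, act g x = x) → g ∈ T₁.fixingSubgroup := by
    intro g hg
    rw [hT₁]
    refine ⟨?_, ?_⟩
    · rw [mem_uniSub, hk1 g hg]
      exact isUni_one
    · rw [h4 g hg]
      exact Submodule.zero_mem _
  -- (4) `p`-group
  have hpgrp : ∀ g ∈ T₁.fixingSubgroup, ∃ n : ℕ, ∀ x, act (g ^ p ^ n) x = x := by
    intro g hg
    rw [hT₁] at hg
    refine ⟨2, ?_⟩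
    have h1 : ρbar.ρ (localGaloisToGlobal p (g ^ p)) = 1 := by
      rw [map_pow, map_pow]
      exact IsUni.pow_char hg.1 p hset.hpk
    have h2 := hk2 (g ^ p) h1
    rw [← pow_mul, ← sq] at h2
    exact h2
  -- (5) additivity
  have hadd : ∀ g ∈ T₁.fixingSubgroup, ∀ h ∈ T₁.fixingSubgroup,
      ℓ (c' (g * h)) = ℓ (c' g) + ℓ (c' h) := by
    intro g hg h hh
    rw [hT₁] at hg hh
    rw [hc g h, ad0Hom_eq_of_mem_uniSub hg.1 hh.2, map_add, add_comm]
  have hzero : ∀ g : Gp p, (∀ x, act g x = x) → ℓ (c' g) = 0 := by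
    intro g hg
    rw [h4 g hg, map_zero]
  have hb1 : IsBddHom p T₁ (fun g => ℓ (c' g)) :=
    hbdd T₁ htame hzeta hker hpgrp (fun g => ℓ (c' g)) hadd hzero
  -- (6) from `T₁` to `T`
  have hGT : ∀ g ∈ T.fixingSubgroup, g ∈ U1 p ρbar (ramLine p ρbar) c' hc := by
    intro g hg
    obtain ⟨h1, h2, h3⟩ := (hT g).mp hg
    refine ⟨⟨h1, h2⟩, ?_⟩
    apply mem_nilSub_of_borel b hb (hB g)
    rw [← Module.forall_dual_apply_eq_zero_iff (ZMod p)]
    intro ℓ'
    have hu1 : ∀ g : Gp p, ∀ s ∈ N₁,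
        ℓ' (lsoMat b (c' (g * s)) 0 0) = ℓ' (lsoMat b (c' g) 0 0) :=
      fun g s hs => by rw [hlev₁ g s hs]
    have hu2 : ∀ a b' : Gp p, ℓ' (lsoMat b (c' (a * b')) 0 0) =
        ℓ' (lsoMat b (c' a) 0 0) + ℓ' (lsoMat b (c' b') 0 0) :=
      fun a b' => by rw [hu_add, map_add]
    have hu3 : ∀ i ∈ inertiaΩ p, ℓ' (lsoMat b (c' i) 0 0) = 0 :=
      fun i hi => by rw [hu_I i hi, map_zero]
    exact h3 (fun g => ℓ' (lsoMat b (c' g) 0 0)) ⟨N₁, hN₁, hu1⟩ hu2 hu3
  have hle : T₁ ≤ T := by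
    have hgalΩ : IsGalois ℚ_[p] (PadicAlgCl p) := IsGalois.mk
    intro x hx
    rw [← InfiniteGalois.fixedField_fixingSubgroup T, IntermediateField.mem_fixedField_iff]
    intro g hg
    have h1 : g ∈ T₁.fixingSubgroup := by
      rw [hT₁]
      exact hGT g hg
    exact (IntermediateField.mem_fixingSubgroup_iff T₁ g).mp h1 x hx
  have hedeg : edeg p T₁ = edeg p T := by
    rw [(hEdeg T₁).1, (hEdeg T).1, hT₁,
      ← Subgroup.inf_relIndex_right (U1 p ρbar (ramLine p ρbar) c' hc),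
      ← Subgroup.inf_relIndex_right T.fixingSubgroup]
    congr 1
    ext g
    rw [Subgroup.mem_inf, Subgroup.mem_inf]
    constructor
    · rintro ⟨hg1, hgI⟩
      exact ⟨(hT g).mpr ⟨hg1.1.1, hg1.1.2, fun u _ _ hu => hu g hgI⟩, hgI⟩
    · rintro ⟨hg1, hgI⟩
      exact ⟨hGT g hg1, hgI⟩
  exact hUnram T₁ T hle hedeg _ hb1

end Core

/-! ## The deliverables -/

section Final

variable {𝒪 : Type} [CommRing 𝒪] [IsLocalRing 𝒪]
  {ρbar : ResidualGaloisRep (ResidueField 𝒪)}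

lemma ad0Hom_of_rho_eq_one {G : GQ} (hG : ρbar.ρ G = 1) (x : Ad0 ρbar) :
    ad0Hom ρbar G x = x := by
  apply Ad0.toEnd_injective
  have hinv : ρbar.ρ G⁻¹ = 1 := by
    have h := map_mul ρbar.ρ G⁻¹ G
    rw [inv_mul_cancel, map_one, hG, mul_one] at h
    exact h.symm
  rw [toEnd_ad0Hom, hinv, hG, one_mul, mul_one]

variable (p : ℕ) [Fact p.Prime] [Algebra (ZMod p) (ResidueField 𝒪)]

/-- From a level cocycle of `locM` to the hypotheses of the core. -/
lemma coc_of_mem_Z1 (c' : Gp p → Ad0 ρbar)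
    (hZ : (fun g : primeLocalGaloisGroup (pPrime p) => (c' g : locM ρbar p)) ∈
      Z1 (locLevels (pPrime p)) (locM ρbar p)) :
    IsCoc p ρbar c' ∧ ∃ N : Subgroup (Gp p), N ∈ (locLevels (pPrime p)).mem ∧
      ∀ g : Gp p, ∀ s ∈ N, c' (g * s) = c' g := by
  refine ⟨fun g h => helper47.cocycle_mul hZ g h, ?_⟩
  obtain ⟨N, hN, h⟩ := hZ.1
  exact ⟨N, hN, fun g s hs => h g s hs⟩

/-- The coboundary of `X` is a level cocycle. -/
lemma cob_mem_Z1 (X : Ad0 ρbar) :
    (fun g : primeLocalGaloisGroup (pPrime p) =>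
      ((ad0Hom ρbar (primeLocalToGlobal (pPrime p) g) X - X : Ad0 ρbar) : locM ρbar p)) ∈
      Z1 (locLevels (pPrime p)) (locM ρbar p) := by
  have hsm : IsSmooth (locLevels (pPrime p)) (locM ρbar p) :=
    isSmooth_loc_ad0Rep ρbar p (pPrime p)
  exact S55.B1_le_Z1 hsm ⟨X, rfl⟩

end Final

/-- **MEM-II** (`helper30.MemII2Statement`, VERBATIM). -/
theorem memII (p : ℕ) [Fact p.Prime] : MemII2Statement p := by
  intro hOpen hEdeg hZeta hUnram 𝒪 _ _ _ ρbar _ hset hL hLst T _ hT ρ c X htan hbdd hB hW hZ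
  obtain ⟨hkey1, hkey2⟩ := tan_keys htan p hset.hpk
  have hZ' : (fun g : primeLocalGaloisGroup (pPrime p) =>
      ((c (primeLocalToGlobal (pPrime p) g) -
        (ad0Hom ρbar (primeLocalToGlobal (pPrime p) g) X - X) : Ad0 ρbar) : locM ρbar p)) ∈
      Z1 (locLevels (pPrime p)) (locM ρbar p) :=
    Submodule.sub_mem _ hZ (cob_mem_Z1 p X)
  refine ⟨hZ', hB, hW, fun ℓ => ?_⟩
  obtain ⟨hcoc, hlev⟩ := coc_of_mem_Z1 p
    (fun g : Gp p => c (localGaloisToGlobal p g) -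
      (ad0Hom ρbar (localGaloisToGlobal p g) X - X)) hZ'
  refine bdd_core p hOpen hEdeg hZeta hUnram ρbar hset hL hLst T hT (locAct p ρ) hbdd
    (fun g hg => (hkey1 _ (LinearMap.ext hg)).1) ?_ _ hcoc hlev hB hW ?_ ℓ
  · intro g hg x
    show ρ.ρ (localGaloisToGlobal p (g ^ p)) x = x
    rw [map_pow, hkey2 _ hg]
    rfl
  · intro g hg
    obtain ⟨h1, h2⟩ := hkey1 _ (LinearMap.ext hg)
    show c (localGaloisToGlobal p g) - (ad0Hom ρbar (localGaloisToGlobal p g) X - X) = 0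
    rw [h2, ad0Hom_of_rho_eq_one h1, sub_self, sub_zero]

/-- **MEM-B** (`helper30.MemBStatement`, VERBATIM). -/
theorem memB (p : ℕ) [Fact p.Prime] : MemBStatement p := by
  intro hOpen hEdeg hZeta hUnram 𝒪 _ _ _ ρbar _ hset hL hLst T _ hT ρ c htan hbdd X hX
  obtain ⟨hkey1, hkey2⟩ := tan_keys htan p hset.hpk
  have hLst' : ∀ g : Gp p, ∀ x ∈ ramLine p ρbar,
      ρbar.ρ (localGaloisToGlobal p g)⁻¹ x ∈ ramLine p ρbar := by
    intro g x hx
    have := hLst g⁻¹ x hx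
    rwa [map_inv] at this
  have hW : ∀ g : Gp p, ad0Hom ρbar (localGaloisToGlobal p g) X - X ∈
      nilSub ρbar (ramLine p ρbar) := fun g =>
    helper47.ad0Hom_sub_mem_nilSub ρbar hL (localGaloisToGlobal p g) (hLst g) (hLst' g) X hX
  have hB : ∀ g : Gp p, ad0Hom ρbar (localGaloisToGlobal p g) X - X ∈
      borelSub ρbar (ramLine p ρbar) := fun g =>
    helper47.nilSub_le_borelSub ρbar _ (hW g)
  have hZ' := cob_mem_Z1 (ρbar := ρbar) p X
  refine ⟨hZ', hB, fun g _ => hW g, fun ℓ => ?_⟩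
  obtain ⟨hcoc, hlev⟩ := coc_of_mem_Z1 p
    (fun g : Gp p => ad0Hom ρbar (localGaloisToGlobal p g) X - X) hZ'
  refine bdd_core p hOpen hEdeg hZeta hUnram ρbar hset hL hLst T hT (locAct p ρ) hbdd
    (fun g hg => (hkey1 _ (LinearMap.ext hg)).1) ?_ _ hcoc hlev hB (fun g _ => hW g) ?_ ℓ
  · intro g hg x
    show ρ.ρ (localGaloisToGlobal p (g ^ p)) x = x
    rw [map_pow, hkey2 _ hg]
    rfl
  · intro g hg
    obtain ⟨h1, -⟩ := hkey1 _ (LinearMap.ext hg)
    show ad0Hom ρbar (localGaloisToGlobal p g) X - X = 0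
    rw [ad0Hom_of_rho_eq_one h1, sub_self]

end Fermat.Agent.P1.helper26
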