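import Fermat.Agent.P1.helper3_GTDefs

/-!
# P1 (S56) module TW-GT: the ABSTRACT interface (helper2, coordinator, task 495)

Everything is stated for an abstract group `G` with `ρ : G →* GL (Fin 2) k` and explicit
cocycles `c : G → Matrix (Fin 2) (Fin 2) k` with values in trace-zero matrices for the
`det`-twisted adjoint action `helper3.tw (ρ g) X = det (ρ g) • ρ g * X * (ρ g)⁻¹`
(this is `ad⁰ ρ̄ (1)` when `det ρ̄` is the cyclotomic character).

* `IsCoc ρ c`, `IsCob ρ c` : cocycles / coboundaries of `G`;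
* `NoStableLine ρ H`       : `ρ(H)` stabilises no line of `k̄²`;
* `TWHyp ρ`                : the hypotheses of S56 on `ρ̄` in matrix form;
* the package statements `GtAStatement`, `GtAFixedStatement`, `GtBStatement`, `GtSigStatement`,
  `GtRedStatement`, `GtMatStatement`, `GtCStatement`.

DEFINITIONS ONLY.
-/

set_option autoImplicit false

open Matrix Polynomial

namespace Fermat.Agent.P1.helper2

open Fermat.Agent.P1.helper3

section Defs

variable {k : Type} [Field k] {G : Type} [Group G]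

/-- `1`-cocycles of `G` with values in trace-zero matrices, for the `det`-twisted adjoint action
through `ρ`. -/
def IsCoc (ρ : G →* GL (Fin 2) k) (c : G → Matrix (Fin 2) (Fin 2) k) : Prop :=
  (∀ g, (c g).trace = 0) ∧ ∀ g h, c (g * h) = c g + tw (ρ g) (c h)

/-- `1`-coboundaries of `G`. -/
def IsCob (ρ : G →* GL (Fin 2) k) (c : G → Matrix (Fin 2) (Fin 2) k) : Prop :=
  ∃ X : Matrix (Fin 2) (Fin 2) k, X.trace = 0 ∧ ∀ g, c g = tw (ρ g) X - X

/-- No line of `k̄²` is stable under `ρ(H)`. -/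
def NoStableLine (ρ : G →* GL (Fin 2) k) (H : Subgroup G) : Prop :=
  ∀ v : Fin 2 → AlgebraicClosure k, v ≠ 0 → ∃ g ∈ H, ∀ a : AlgebraicClosure k,
    ((ρ g : Matrix (Fin 2) (Fin 2) k).map (algebraMap k (AlgebraicClosure k))) *ᵥ v ≠ a • v

/-- The hypotheses of S56 on `ρ̄`, in matrix form: absolutely irreducible, absolutely irreducible
on every subgroup of index `2`, all eigenvalues in `k`. -/
structure TWHyp (ρ : G →* GL (Fin 2) k) : Prop where
  irr : NoStableLine ρ ⊤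
  irr₂ : ∀ H : Subgroup G, H.index = 2 → NoStableLine ρ H
  split : ∀ g : G, ∃ α β : k,
    (ρ g : Matrix (Fin 2) (Fin 2) k).charpoly = (X - C α) * (X - C β)

end Defs

/-- **GT-A**: the trace-zero matrices have no proper nonzero `k`-subspace stable under
conjugation by `ρ(G)`. -/
def GtAStatement : Prop :=
  ∀ (k : Type) [Field k] (G : Type) [Group G], (2 : k) ≠ 0 →
    ∀ ρ : G →* GL (Fin 2) k, NoStableLine ρ ⊤ →
      (∀ H : Subgroup G, H.index = 2 → NoStableLine ρ H) →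
      ∀ W : Submodule k (Matrix (Fin 2) (Fin 2) k), (∀ X ∈ W, X.trace = 0) →
        (∀ g : G, ∀ X ∈ W,
          (ρ g : Matrix (Fin 2) (Fin 2) k) * X *
            (((ρ g)⁻¹ : GL (Fin 2) k) : Matrix (Fin 2) (Fin 2) k) ∈ W) →
        W = ⊥ ∨ ∀ X : Matrix (Fin 2) (Fin 2) k, X.trace = 0 → X ∈ W

/-- **GT-A'**: the twisted action has no nonzero fixed vector in the trace-zero matrices. -/
def GtAFixedStatement : Prop :=
  ∀ (k : Type) [Field k] (G : Type) [Group G], (2 : k) ≠ 0 →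
    ∀ ρ : G →* GL (Fin 2) k, NoStableLine ρ ⊤ →
      (∀ H : Subgroup G, H.index = 2 → NoStableLine ρ H) →
      ∀ X : Matrix (Fin 2) (Fin 2) k, X.trace = 0 → (∀ g : G, tw (ρ g) X = X) → X = 0

/-- **GT-B**: a normal subgroup containing all commutators contains an element with two
distinct eigenvalues (in `k`). -/
def GtBStatement : Prop :=
  ∀ (k : Type) [Field k] (G : Type) [Group G], (2 : k) ≠ 0 →
    ∀ ρ : G →* GL (Fin 2) k, TWHyp ρ →
      ∀ N : Subgroup G, N.Normal → (∀ g h : G, g * h * g⁻¹ * h⁻¹ ∈ N) →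
        ∃ g ∈ N, ∃ α β : k, α ≠ β ∧
          (ρ g : Matrix (Fin 2) (Fin 2) k).charpoly = (X - C α) * (X - C β)

/-- **GT-SIG** (choice of `σ`): if the cocycle `c` does not vanish on the normal subgroup
`H₀ ≤ ker ρ`, and `ρ(σ₀)` is not scalar and has determinant `1`, then some `σ ∈ H₀ σ₀` has
`c(σ) ∉ (σ - 1) ad⁰(1)`. -/
def GtSigStatement : Prop :=
  ∀ (k : Type) [Field k] (G : Type) [Group G], (2 : k) ≠ 0 →
    ∀ ρ : G →* GL (Fin 2) k, NoStableLine ρ ⊤ →
      (∀ H : Subgroup G, H.index = 2 → NoStableLine ρ H) →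
      ∀ c : G → Matrix (Fin 2) (Fin 2) k, IsCoc ρ c →
        ∀ H₀ : Subgroup G, H₀.Normal → (∀ h ∈ H₀, ρ h = 1) → (∃ h ∈ H₀, c h ≠ 0) →
          ∀ σ₀ : G, (∀ a : k, (ρ σ₀ : Matrix (Fin 2) (Fin 2) k) ≠ a • 1) →
            (ρ σ₀ : Matrix (Fin 2) (Fin 2) k).det = 1 →
            ∃ h ∈ H₀, ∀ X : Matrix (Fin 2) (Fin 2) k, X.trace = 0 →
              c (h * σ₀) ≠ tw (ρ σ₀) X - X

/-- **GT-RED**: a cocycle which is constant on the cosets of a normal subgroup `H ≤ ker ρ`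
containing `[G, ker ρ]` vanishes on `ker ρ`. -/
def GtRedStatement : Prop :=
  ∀ (k : Type) [Field k] (G : Type) [Group G], (2 : k) ≠ 0 →
    ∀ ρ : G →* GL (Fin 2) k, NoStableLine ρ ⊤ →
      (∀ H : Subgroup G, H.index = 2 → NoStableLine ρ H) →
      ∀ H : Subgroup G, H.Normal → (∀ h ∈ H, ρ h = 1) →
        (∀ g n : G, ρ n = 1 → g * n * g⁻¹ * n⁻¹ ∈ H) →
        ∀ c : G → Matrix (Fin 2) (Fin 2) k, IsCoc ρ c → (∀ g, ∀ h ∈ H, c (g * h) = c g) →
          ∀ n : G, ρ n = 1 → c n = 0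

/-- **GT-MAT** (matrix form of GT-C; helper3): every cocycle on a finite irreducible subgroup
of `GL₂(k)` with split characteristic polynomials, whose determinants contain `𝔽_pˣ`, is a
coboundary. -/
def GtMatStatement : Prop :=
  ∀ (k : Type) [Field k] [Finite k] (p : ℕ) [Fact p.Prime] [CharP k p], p ≠ 2 →
    ∀ Γ : Subgroup (GL (Fin 2) k),
      (∀ g ∈ Γ, ∃ α β : k,
        (g : Matrix (Fin 2) (Fin 2) k).charpoly = (X - C α) * (X - C β)) →
      IsIrr Γ →
      (∀ n : ℕ, ¬ p ∣ n → ∃ g ∈ Γ, (g : Matrix (Fin 2) (Fin 2) k).det = (n : k)) →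
      ∀ c : GL (Fin 2) k → Matrix (Fin 2) (Fin 2) k, IsCocycle Γ c → IsCoboundary Γ c

/-- **GT-C** (abstract form, the deliverable): `H¹(Gal(F_n/ℚ), ad⁰ ρ̄ (1)) = 0`. -/
def GtCStatement : Prop :=
  ∀ (k : Type) [Field k] [Finite k] (p : ℕ) [Fact p.Prime] [CharP k p], p ≠ 2 →
    ∀ (G : Type) [Group G] (ρ : G →* GL (Fin 2) k), TWHyp ρ →
      (∀ n : ℕ, ¬ p ∣ n → ∃ g : G, (ρ g : Matrix (Fin 2) (Fin 2) k).det = (n : k)) →
      ∀ H : Subgroup G, H.Normal → (∀ h ∈ H, ρ h = 1) →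
        (∀ g n : G, ρ n = 1 → g * n * g⁻¹ * n⁻¹ ∈ H) →
        ∀ c : G → Matrix (Fin 2) (Fin 2) k, IsCoc ρ c → (∀ g, ∀ h ∈ H, c (g * h) = c g) →
          IsCob ρ c

end Fermat.Agent.P1.helper2
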