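import Fermat.Agent.P1.helper30_FlatCntL3

/-!
# P1 / FLAT-CNT (helper30): the final assembly of the module

`locMain_of` : from the outputs of layers 1+2 (`helper70_FlatDefs`: `DictHEmbStatement`,
`DictHR1Statement`, `DictHR2Statement`, `TameCharStatement`, `OrdStatement`) and the layer 3
packages (`helper30_FlatCntPkgs`, `helper30_FlatCntL3`) to the local form `LocMain ρbar p` of the
deliverable; `locPOut_flat_of` : the deliverable `LocPOut p ρbar Smin (condFlat 𝒪 p Smin)`.

CASE I  (`ρbar` irreducible on `G_p`): `T` = the field cut out by `ρbar` on `G_p` (LF-OPEN),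
tame with `ζ_p` (TAME-I); `BB = bbOf T ⊤ ⊤` (COUNT-I), membership by MEM-I.

CASE II (`ρbar` reducible on `G_p`): flat lifts are ordinary (ORD) with respect to THE line
`ramLine`; `T̂` from HAT-EX; `BB = bbOf T̂ B⁰ W` (COUNT-II), membership by MEM-II (+ MEM-B).
-/

set_option autoImplicit false
set_option linter.style.haveILetI false

open IsLocalRing ExtCitation groupCohomology Polynomial

noncomputable section

namespace Fermat.Agent.P1.helper30

open Fermat.Agent.S55 Fermat.Agent.P1.helper70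
open Fermat.Agent.S55.helper8 Fermat.Agent.S55.helper7

variable (p : ℕ) [Fact p.Prime]

/-! ## Dual numbers over a finite field of characteristic `p` -/

lemma finite_dualNumber (k : Type) [Field k] [Finite k] : Finite (DualNumber k) :=
  Finite.of_injective (fun x : DualNumber k => (x.fst, x.snd))
    (fun _ _ h => TrivSqZeroExt.ext (congrArg Prod.fst h) (congrArg Prod.snd h))

omit [Fact p.Prime] in
lemma natCast_dualNumber_eq_zero {k : Type} [Field k] (hpk : ((p : ℕ) : k) = 0) :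
    ((p : ℕ) : DualNumber k) = 0 := by
  apply TrivSqZeroExt.ext
  · simp [hpk]
  · simp

omit [Fact p.Prime] in
/-- The hypotheses `Finite (A ⧸ ⊥)`, `p ∈ ⊥` of layer 1 for the dual numbers. -/
lemma layer1_hyps {k : Type} [Field k] [Finite k] (hpk : ((p : ℕ) : k) = 0) :
    Finite (DualNumber k ⧸ (⊥ : Ideal (DualNumber k))) ∧
      ((p : ℕ) : DualNumber k) ∈ (⊥ : Ideal (DualNumber k)) := by
  haveI := finite_dualNumber k
  refine ⟨Finite.of_surjective (Ideal.Quotient.mk (⊥ : Ideal (DualNumber k)))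
    Ideal.Quotient.mk_surjective, ?_⟩
  rw [Ideal.mem_bot]
  exact natCast_dualNumber_eq_zero p hpk

/-- A flat representation over the dual numbers is bounded. -/
lemma isBddGp_of_flat {k : Type} [Field k] [Finite k] (hpk : ((p : ℕ) : k) = 0)
    (hEmb : helper70.DictHEmbStatement p) (hKB : helper14.KummerBounded p)
    (hFCBd : FCBdStatement p) (hBddGp : BddGpStatement p)
    (ρ : GaloisRepAdic (DualNumber k)) (hflat : ρ.IsFlatAt p) : IsBddGp p (locAct p ρ) :=
  hBddGp hFCBd hKB _ ρ (hEmb _ ρ hflat ⊥ (layer1_hyps p hpk).1 (layer1_hyps p hpk).2)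

/-! ## The ordinary line is `ramLine` -/

section RamLine

variable {k : Type} [Field k] (ρbar : ResidualGaloisRep k)

/-- Inertia acts non-trivially on `ρbar.V` (its determinant is the cyclotomic character, which
is ramified). -/
lemma ramLine_ne_bot (hLS : LocSetting p ρbar) : ramLine p ρbar ≠ ⊥ := by
  intro hbot
  obtain ⟨σ, hσ, ζ, hζ, hne⟩ := hLS.hram
  have hp : p.Prime := Fact.out
  -- `ρbar σ = 1`
  have h1 : ρbar.ρ (localGaloisToGlobal p σ) = 1 := by
    refine LinearMap.ext fun x => ?_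
    have hx : ρbar.ρ (localGaloisToGlobal p σ) x - x ∈ ramLine p ρbar :=
      Submodule.subset_span ⟨σ, hσ, x, rfl⟩
    rw [hbot, Submodule.mem_bot, sub_eq_zero] at hx
    simpa using hx
  -- `ζ` is a primitive `p`-th root of unity
  have hζ1 : ζ ≠ 1 := by
    rintro rfl
    exact hne (map_one σ)
  have hord : orderOf ζ = p := by
    have hdvd : orderOf ζ ∣ p := orderOf_dvd_of_pow_eq_one hζ
    rcases (Nat.dvd_prime hp).1 hdvd with h | h
    · exact absurd (orderOf_eq_one_iff.1 h) hζ1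
    · exact h
  have hprim : IsPrimitiveRoot ζ p := by
    have h0 := IsPrimitiveRoot.orderOf ζ
    rwa [hord] at h0
  have hσζ : (σ ζ) ^ p = 1 := by rw [← map_pow, hζ, map_one]
  obtain ⟨a, -, ha⟩ := hprim.eq_pow_of_pow_eq_one hσζ
  have hall : ∀ ζ' : PadicAlgCl p, ζ' ^ p = 1 → σ ζ' = ζ' ^ a := by
    intro ζ' hζ'
    obtain ⟨j, -, rfl⟩ := hprim.eq_pow_of_pow_eq_one hζ'
    rw [map_pow, ← ha, ← pow_mul, ← pow_mul, mul_comm]
  have hdet := hLS.hdet σ a hall
  rw [h1] at hdet
  have hdet1 : ((a : ℕ) : k) = ((1 : ℕ) : k) := by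
    rw [← hdet, Nat.cast_one]
    exact map_one _
  haveI : CharP k p := by
    haveI : Fact p.Prime := ⟨hp⟩
    exact (CharP.charP_iff_prime_eq_zero hp).2 hLS.hpk
  have hmod : a ≡ 1 [MOD p] := (CharP.natCast_eq_natCast k p).1 hdet1
  apply hne
  rw [← ha]
  have e1 := pow_mod_orderOf ζ a
  have e2 := pow_mod_orderOf ζ 1
  rw [hord] at e1 e2
  have e3 : a % p = 1 % p := hmod
  rw [← e1, e3, e2, pow_one]

/-- A line `L` with trivial action of inertia on `V / L` is the line `ramLine`. -/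
lemma ramLine_eq_of (hLS : LocSetting p ρbar) (L : Submodule k ρbar.V)
    (hL : Module.finrank k L = 1)
    (hI : ∀ τ ∈ helper92.locInertiaNat p, ∀ w : ρbar.V,
      ρbar.ρ (localGaloisToGlobal p τ) w - w ∈ L) : ramLine p ρbar = L := by
  have hle : ramLine p ρbar ≤ L := by
    refine Submodule.span_le.2 ?_
    rintro _ ⟨σ, hσ, x, rfl⟩
    exact hI σ (by rw [← inertiaΩ_eq_locInertiaNat]; exact hσ) x
  refine Submodule.eq_of_le_of_finrank_le hle ?_
  rw [hL]
  exact Submodule.one_le_finrank_iff.2 (ramLine_ne_bot p ρbar hLS)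

end RamLine

/-! ## Classes -/

section Classes

variable {𝒪 : Type} [CommRing 𝒪] [IsLocalRing 𝒪]
  (ρbar : ResidualGaloisRep (ResidueField 𝒪)) [Algebra (ZMod p) (ResidueField 𝒪)]

/-- The class of a cocycle which is the sum of a bounded cocycle and a coboundary lies in
`bbOf`. -/
lemma mkQ_mem_bbOf (T : IntermediateField ℚ_[p] (PadicAlgCl p)) [FiniteDimensional ℚ_[p] T]
    (B W : Submodule (ResidueField 𝒪) (Ad0 ρbar))
    (z : ↥(Z1 (locLevels (pPrime p)) (locM ρbar p)))
    (z' b : primeLocalGaloisGroup (pPrime p) → locM ρbar p)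
    (hz' : z' ∈ bddCocycles p ρbar T B W) (hb : b ∈ B1 (locM ρbar p))
    (hsum : (z : primeLocalGaloisGroup (pPrime p) → locM ρbar p) = z' + b) :
    Submodule.mkQ _ z ∈ bbOf p ρbar T B W := by
  refine Submodule.mem_map_of_mem ?_
  change (z : primeLocalGaloisGroup (pPrime p) → locM ρbar p) ∈
    Submodule.span (ZMod p) (bddCocycles p ρbar T B W) ⊔ B1 (locM ρbar p)
  rw [hsum]
  exact Submodule.add_mem_sup (Submodule.subset_span hz') hb

end Classes

/-! ## The assembly -/

section Main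

variable {𝒪 : Type} [CommRing 𝒪] [IsLocalRing 𝒪] [Finite (ResidueField 𝒪)]
  (ρbar : ResidualGaloisRep (ResidueField 𝒪)) [Algebra (ZMod p) (ResidueField 𝒪)]

omit [Finite (ResidueField 𝒪)] in
/-- The coboundary of `X`, restricted to `G_p`. -/
lemma cob_mem_B1 (X : Ad0 ρbar) :
    (fun g : primeLocalGaloisGroup (pPrime p) =>
      ((ad0Hom ρbar (primeLocalToGlobal (pPrime p) g) X - X : Ad0 ρbar) : locM ρbar p)) ∈
      B1 (locM ρbar p) :=
  ⟨X, rfl⟩

/-- **CASE I** of the assembly. -/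
theorem locMain_caseI (hLS : LocSetting p ρbar) (hred : ¬ LocRed p ρbar)
    (hEmb : helper70.DictHEmbStatement p)
    (hKB : helper14.KummerBounded p) (hFCBd : FCBdStatement p) (hBddGp : BddGpStatement p)
    (hOpen : LFOpenStatement p) (hEdeg : LFEdegStatement p) (hZeta : LFZetaStatement p)
    (hTameI : TameIStatement p) (hMemI : MemI2Statement p) (hCountI : CountIStatement p) :
    LocMain ρbar p := by
  classical
  -- the field cut out by `ρbar` on `G_p`
  obtain ⟨N, hN, hNtriv⟩ := hLS.hlev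
  let U : Subgroup (Gp p) := (ρbar.ρ.comp (localGaloisToGlobal p)).ker
  have hNU : N ≤ U := fun g hg => MonoidHom.mem_ker.2 (hNtriv g hg)
  obtain ⟨T, hTfin, hTU⟩ := hOpen U ⟨N, hN, hNU⟩
  haveI := hTfin
  have hT : ∀ g : Gp p, g ∈ T.fixingSubgroup ↔ ρbar.ρ (localGaloisToGlobal p g) = 1 := by
    intro g
    rw [hTU]
    exact MonoidHom.mem_ker
  obtain ⟨hedeg, -, hζ⟩ := hTameI hEdeg hZeta _ ρbar hLS hred T hT
  obtain ⟨hfin, hrank⟩ := hCountI 𝒪 ρbar hLS hred T hT
  refine ⟨bbOf p ρbar T ⊤ ⊤, hfin, le_trans hrank (Nat.le_add_left _ _), ?_⟩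
  rintro c ⟨ρ, -, hflat, htan⟩ z hz
  have hbdd : IsBddGp p (locAct p ρ) :=
    isBddGp_of_flat p hLS.hpk hEmb hKB hFCBd hBddGp ρ hflat
  have hzc : (z : primeLocalGaloisGroup (pPrime p) → locM ρbar p) =
      fun g : primeLocalGaloisGroup (pPrime p) =>
        (c (primeLocalToGlobal (pPrime p) g) : locM ρbar p) := funext hz
  have hZ1 : (fun g : primeLocalGaloisGroup (pPrime p) =>
      (c (primeLocalToGlobal (pPrime p) g) : locM ρbar p)) ∈
      Z1 (locLevels (pPrime p)) (locM ρbar p) := hzc ▸ z.2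
  have hmem := hMemI 𝒪 ρbar hLS T hT hedeg hζ ρ c htan hbdd hZ1
  refine mkQ_mem_bbOf p ρbar T ⊤ ⊤ z _ 0 hmem (Submodule.zero_mem _) ?_
  rw [hzc, add_zero]

/-- **CASE II** of the assembly. -/
theorem locMain_caseII (hLS : LocSetting p ρbar) (hred : LocRed p ρbar)
    (hramC : ∃ τ ∈ helper92.locInertiaNat p, cycloChar p (localGaloisToGlobal p τ) ≠ 1)
    (hEmb : helper70.DictHEmbStatement p) (hR1 : helper70.DictHR1Statement p)
    (hR2 : helper70.DictHR2Statement p) (hTC : helper70.TameCharStatement p)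
    (hOrd : helper70.OrdStatement p)
    (hKB : helper14.KummerBounded p) (hFCBd : FCBdStatement p) (hBddGp : BddGpStatement p)
    (hBddSub : BddSubStatement p)
    (hOpen : LFOpenStatement p) (hEdeg : LFEdegStatement p) (hZeta : LFZetaStatement p)
    (hUnram : LFUnramStatement p)
    (hHat : HatExistsStatement p) (hMemII : MemII2Statement p) (hMemB : MemBStatement p)
    (hKQII : KQIIStatement p) (hCountII : CountII2Statement p) :
    LocMain ρbar p := by
  classical
  by_cases hex : ∃ c : GQ → Ad0 ρbar, IsFlatTan ρbar p c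
  swap
  · refine ⟨⊥, inferInstance, ?_, ?_⟩
    · rw [finrank_bot]; exact Nat.zero_le _
    · intro c hc
      exact absurd ⟨c, hc⟩ hex
  -- every flat tangent lift is ordinary with respect to `ramLine`
  have hord : ∀ (ρ : GaloisRepAdic (DualNumber (ResidueField 𝒪))) (c : GQ → Ad0 ρbar),
      ρ.DetIsCyclotomic p → ρ.IsFlatAt p → IsTanLift ρbar ρ c →
      Module.finrank (ResidueField 𝒪) ↥(ramLine p ρbar) = 1 ∧
      (∀ g : Gp p, ∀ x ∈ ramLine p ρbar,
        ρbar.ρ (localGaloisToGlobal p g) x ∈ ramLine p ρbar) ∧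
      ∃ X : Ad0 ρbar,
        (∀ g : Gp p, c (localGaloisToGlobal p g) -
            (ad0Hom ρbar (localGaloisToGlobal p g) X - X) ∈
          helper7.borelSub ρbar (ramLine p ρbar)) ∧
        ∀ g ∈ inertiaΩ p, c (localGaloisToGlobal p g) -
            (ad0Hom ρbar (localGaloisToGlobal p g) X - X) ∈
          helper7.nilSub ρbar (ramLine p ρbar) := by
    intro ρ c hdet hflat htan
    obtain ⟨h1, h2⟩ := layer1_hyps p (k := ResidueField 𝒪) hLS.hpk
    obtain ⟨L, X, hL1, hLstab, hLI, hb, hn⟩ :=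
      hOrd 𝒪 ρbar hLS.hp2 hTC hramC ρ hdet (hR1 hLS.hp2 _ ρ hflat ⊥ h1 h2)
        (hR2 hLS.hp2 _ ρ hflat ⊥ h1 h2) c htan hred
    have hLeq : ramLine p ρbar = L := ramLine_eq_of p ρbar hLS L hL1 hLI
    rw [hLeq]
    refine ⟨hL1, hLstab, X, hb, ?_⟩
    intro g hg
    exact hn g (by rw [← inertiaΩ_eq_locInertiaNat]; exact hg)
  obtain ⟨c₀, ρ₀, hdet₀, hflat₀, htan₀⟩ := hex
  obtain ⟨hfinL, hstab, -⟩ := hord ρ₀ c₀ hdet₀ hflat₀ htan₀
  have hbdd₀ : IsBddGp p (locAct p ρ₀) :=
    isBddGp_of_flat p hLS.hpk hEmb hKB hFCBd hBddGp ρ₀ hflat₀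
  -- the field `T̂`
  obtain ⟨T, hTfin, hThat⟩ := hHat hOpen _ ρbar hLS
  haveI := hTfin
  have hB := hMemB hOpen hEdeg hZeta hUnram 𝒪 ρbar hLS hfinL hstab T hThat ρ₀ c₀ htan₀ hbdd₀
  obtain ⟨hfin, hrank⟩ := hCountII hKQII hBddSub 𝒪 ρbar hLS hfinL hstab T hThat hB
  refine ⟨bbOf p ρbar T (helper7.borelSub ρbar (ramLine p ρbar))
    (helper7.nilSub ρbar (ramLine p ρbar)), hfin, hrank, ?_⟩
  rintro c ⟨ρ, hdet, hflat, htan⟩ z hz
  obtain ⟨-, -, X, hb, hn⟩ := hord ρ c hdet hflat htan
  have hbdd : IsBddGp p (locAct p ρ) :=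
    isBddGp_of_flat p hLS.hpk hEmb hKB hFCBd hBddGp ρ hflat
  have hzc : (z : primeLocalGaloisGroup (pPrime p) → locM ρbar p) =
      fun g : primeLocalGaloisGroup (pPrime p) =>
        (c (primeLocalToGlobal (pPrime p) g) : locM ρbar p) := funext hz
  have hZ1 : (fun g : primeLocalGaloisGroup (pPrime p) =>
      (c (primeLocalToGlobal (pPrime p) g) : locM ρbar p)) ∈
      Z1 (locLevels (pPrime p)) (locM ρbar p) := hzc ▸ z.2
  have hmem := hMemII hOpen hEdeg hZeta hUnram 𝒪 ρbar hLS hfinL hstab T hThat ρ c X htan hbdd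
    hb hn hZ1
  refine mkQ_mem_bbOf p ρbar T _ _ z _ _ hmem (cob_mem_B1 p ρbar X) ?_
  rw [hzc]
  funext g
  change c (primeLocalToGlobal (pPrime p) g) =
    (c (primeLocalToGlobal (pPrime p) g) -
      (ad0Hom ρbar (primeLocalToGlobal (pPrime p) g) X - X)) +
    (ad0Hom ρbar (primeLocalToGlobal (pPrime p) g) X - X)
  abel

/-- **FLAT-CNT, local form**: the assembly of the module. -/
theorem locMain_of (hLS : LocSetting p ρbar)
    (hramC : ∃ τ ∈ helper92.locInertiaNat p, cycloChar p (localGaloisToGlobal p τ) ≠ 1)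
    (hEmb : helper70.DictHEmbStatement p) (hR1 : helper70.DictHR1Statement p)
    (hR2 : helper70.DictHR2Statement p) (hTC : helper70.TameCharStatement p)
    (hOrd : helper70.OrdStatement p)
    (hKB : helper14.KummerBounded p) (hFCBd : FCBdStatement p) (hBddGp : BddGpStatement p)
    (hBddSub : BddSubStatement p)
    (hOpen : LFOpenStatement p) (hEdeg : LFEdegStatement p) (hZeta : LFZetaStatement p)
    (hUnram : LFUnramStatement p)
    (hTameI : TameIStatement p) (hMemI : MemI2Statement p) (hCountI : CountIStatement p)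
    (hHat : HatExistsStatement p) (hMemII : MemII2Statement p) (hMemB : MemBStatement p)
    (hKQII : KQIIStatement p) (hCountII : CountII2Statement p) :
    LocMain ρbar p := by
  classical
  by_cases hred : LocRed p ρbar
  · exact locMain_caseII p ρbar hLS hred hramC hEmb hR1 hR2 hTC hOrd hKB hFCBd hBddGp hBddSub
      hOpen hEdeg hZeta hUnram hHat hMemII hMemB hKQII hCountII
  · exact locMain_caseI p ρbar hLS hred hEmb hKB hFCBd hBddGp hOpen hEdeg hZeta hTameI hMemI
      hCountI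

end Main

section Deliverable

variable {𝒪 : Type} [CommRing 𝒪] [IsDomain 𝒪] [IsDiscreteValuationRing 𝒪]
  [IsAdicComplete (maximalIdeal 𝒪) 𝒪] [Finite (ResidueField 𝒪)]
  (ρbar : ResidualGaloisRep (ResidueField 𝒪)) (Smin : Finset ℕ)
  [Algebra (ZMod p) (ResidueField 𝒪)]

omit [IsAdicComplete (maximalIdeal 𝒪) 𝒪] in
/-- **FLAT-CNT**: the deliverable of the module, from the packages. -/
theorem locPOut_flat_of (hLS : LocSetting p ρbar)
    (hramC : ∃ τ ∈ helper92.locInertiaNat p, cycloChar p (localGaloisToGlobal p τ) ≠ 1)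
    (hEmb : helper70.DictHEmbStatement p) (hR1 : helper70.DictHR1Statement p)
    (hR2 : helper70.DictHR2Statement p) (hTC : helper70.TameCharStatement p)
    (hOrd : helper70.OrdStatement p)
    (hKB : helper14.KummerBounded p) (hFCBd : FCBdStatement p) (hBddGp : BddGpStatement p)
    (hBddSub : BddSubStatement p)
    (hOpen : LFOpenStatement p) (hEdeg : LFEdegStatement p) (hZeta : LFZetaStatement p)
    (hUnram : LFUnramStatement p)
    (hTameI : TameIStatement p) (hMemI : MemI2Statement p) (hCountI : CountIStatement p)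
    (hHat : HatExistsStatement p) (hMemII : MemII2Statement p) (hMemB : MemBStatement p)
    (hKQII : KQIIStatement p) (hCountII : CountII2Statement p) :
    LocPOut p ρbar Smin (condFlat 𝒪 p Smin) :=
  locPOut_of_locMain p ρbar Smin
    (locMain_of p ρbar hLS hramC hEmb hR1 hR2 hTC hOrd hKB hFCBd hBddGp hBddSub hOpen hEdeg
      hZeta hUnram hTameI hMemI hCountI hHat hMemII hMemB hKQII hCountII)

end Deliverable

end Fermat.Agent.P1.helper30
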