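import Fermat.Agent.P1.helper30_FlatCntDefs
import Fermat.Agent.S55.ABasic

/-!
# P1 / FLAT-CNT (helper30): FC-ASM0, reduction of `LocPOut (condFlat)` to the local form `LocMain`

* `classes_le_of_gens` : abstract form (any `LocalData`): if the local classes of a set of
  generating level cocycles lie in `BB`, then `classes ((span gens ⊔ B1).map res ⊔ B1_loc) ≤ BB`;
* `locPOut_of_locMain` : `LocMain ρbar p → LocPOut p ρbar Smin (condFlat 𝒪 p Smin)`.
-/

set_option autoImplicit false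
set_option linter.style.haveILetI false

open IsLocalRing ExtCitation groupCohomology

noncomputable section

namespace Fermat.Agent.P1.helper30

open Fermat.Agent.S55 Fermat.Agent.P1.helper70

section Abstract

variable {k G : Type} [Field k] [Group G] {𝒩 : Levels G} {ι : Type}
  (L : LocalData G 𝒩 ι) (A : Rep k G)

/-- restriction of a level cocycle is a level cocycle -/
lemma res₁_mem_Z1' {c : G → A} (hc : c ∈ Z1 𝒩 A) (v : ι) :
    res₁ L A v c ∈ Z1 (L.lev v) (L.loc A v) := by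
  refine ⟨res₁_mem_C1 L hc.1 v, ?_⟩
  have h2 := LinearMap.mem_ker.1 hc.2
  refine LinearMap.mem_ker.2 ?_
  funext x
  have h3 := congrFun h2 (L.r v x.1, L.r v x.2)
  rw [d₁₂_hom_apply] at h3 ⊢
  simp only [res₁_apply, map_mul]
  exact h3

/-- restriction of a coboundary is a coboundary -/
lemma res₁_mem_B1' {c : G → A} (hc : c ∈ B1 A) (v : ι) :
    res₁ L A v c ∈ B1 (L.loc A v) := by
  obtain ⟨a, rfl⟩ := hc
  refine ⟨a, ?_⟩
  funext x
  simp [d₀₁_hom_apply, res₁_apply]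

/-- restriction of level cocycles, as a linear map -/
def resZ (v : ι) : ↥(Z1 𝒩 A) →ₗ[k] ↥(Z1 (L.lev v) (L.loc A v)) :=
  ((res₁ L A v).comp (Z1 𝒩 A).subtype).codRestrict _ (fun z => res₁_mem_Z1' L A z.2 v)

lemma coe_resZ (v : ι) (z : ↥(Z1 𝒩 A)) :
    ((resZ L A v z : ↥(Z1 (L.lev v) (L.loc A v))) : L.Gv v → L.loc A v) = res₁ L A v z.1 := rfl

/-- Abstract form of the key inclusion: if the local classes of the generators lie in `BB`, so
do the local classes of `span gens ⊔ B1`, restricted and enlarged by local coboundaries. -/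
lemma classes_le_of_gens (v : ι) (gens : Set (G → A))
    (BB : Submodule k (H1 (L.lev v) (L.loc A v)))
    (hgens : ∀ c ∈ gens, ∃ hc : c ∈ Z1 𝒩 A,
      Submodule.mkQ _ (resZ L A v ⟨c, hc⟩) ∈ BB) :
    classes (L.lev v) (L.loc A v)
      ((Submodule.span k gens ⊔ B1 A).map (res₁ L A v) ⊔ B1 (L.loc A v)) ≤ BB := by
  rintro _ ⟨z, hz, rfl⟩
  have hz' : (z : _ → _) ∈ (Submodule.span k gens ⊔ B1 A).map (res₁ L A v) ⊔ B1 (L.loc A v) := hz
  rw [Submodule.mem_sup] at hz'
  obtain ⟨y, ⟨x, hx, rfl⟩, b', hb', hsum⟩ := hz'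
  rw [SetLike.mem_coe, Submodule.mem_sup] at hx
  obtain ⟨s, hs, b, hb, rfl⟩ := hx
  have hspan : Submodule.span k gens ≤
      (BB.comap ((Submodule.mkQ _).comp (resZ L A v))).map (Z1 𝒩 A).subtype := by
    rw [Submodule.span_le]
    intro c hc
    obtain ⟨hc1, hc2⟩ := hgens c hc
    exact ⟨⟨c, hc1⟩, hc2, rfl⟩
  obtain ⟨zs, hzs, rfl⟩ := hspan hs
  have hzs' : Submodule.mkQ _ (resZ L A v zs) ∈ BB := hzs
  have hb1 : res₁ L A v b ∈ B1 (L.loc A v) := res₁_mem_B1' L A hb v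
  have hbb : res₁ L A v b + b' ∈ B1 (L.loc A v) := Submodule.add_mem _ hb1 hb'
  have hzeq : (z : _ → _) = (resZ L A v zs : _ → _) + (res₁ L A v b + b') := by
    rw [← hsum, map_add, add_assoc]
    rfl
  have hbbZ : res₁ L A v b + b' ∈ Z1 (L.lev v) (L.loc A v) := by
    have : res₁ L A v b + b' = (z : _ → _) - (resZ L A v zs : _ → _) := by
      rw [hzeq]; abel
    rw [this]
    exact Submodule.sub_mem _ z.2 (resZ L A v zs).2
  have hz2 : z = resZ L A v zs + ⟨_, hbbZ⟩ := Subtype.ext hzeq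
  rw [hz2, map_add]
  refine BB.add_mem hzs' ?_
  have : Submodule.mkQ ((B1 (L.loc A v)).comap (Z1 (L.lev v) (L.loc A v)).subtype)
      ⟨_, hbbZ⟩ = 0 := by
    rw [Submodule.mkQ_apply, Submodule.Quotient.mk_eq_zero]
    exact hbb
  rw [this]
  exact BB.zero_mem

end Abstract

section Main

variable {𝒪 : Type} [CommRing 𝒪] [IsDomain 𝒪] [IsDiscreteValuationRing 𝒪]
  [IsAdicComplete (maximalIdeal 𝒪) 𝒪] [Finite (ResidueField 𝒪)]
  (p : ℕ) [Fact p.Prime]
  (ρbar : ResidualGaloisRep (ResidueField 𝒪))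
  (Smin : Finset ℕ)
  [Algebra (ZMod p) (ResidueField 𝒪)]

omit [IsAdicComplete (maximalIdeal 𝒪) 𝒪] [Finite (ResidueField 𝒪)] in
/-- the key inclusion, at the place `pPrime p` -/
lemma locTanH_le (T : Finset ℕ) (hp : pPrime p ∈ primesOf T)
    (BB : Submodule (ZMod p) (H1 (locLevels (pPrime p)) (locM ρbar p)))
    (hBB : ∀ c : GQ → Ad0 ρbar, IsFlatTan ρbar p c →
      ∀ z : ↥(Z1 (locLevels (pPrime p)) (locM ρbar p)),
        (∀ g : primeLocalGaloisGroup (pPrime p),
          (z : primeLocalGaloisGroup (pPrime p) → locM ρbar p) g =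
            c (primeLocalToGlobal (pPrime p) g)) →
        Submodule.mkQ _ z ∈ BB) :
    locTanH ρbar p (condFlat 𝒪 p Smin T) (primesOf T) ⟨pPrime p, hp⟩ ≤ BB := by
  refine classes_le_of_gens (galLocal (primesOf T)) (ad0Rep ρbar p) ⟨pPrime p, hp⟩
    (tanCocycles ρbar p (condFlat 𝒪 p Smin T) (primesOf T)) BB ?_
  rintro c ⟨hc1, ρ, hρ, htan⟩
  exact ⟨hc1, hBB c ⟨ρ, hρ.1.1, hρ.1.2.1, htan⟩ _ (fun g => rfl)⟩

omit [IsAdicComplete (maximalIdeal 𝒪) 𝒪] [Finite (ResidueField 𝒪)] in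
/-- **FC-ASM0**: the local form `LocMain` implies the deliverable `LocPOut` for `condFlat`. -/
theorem locPOut_of_locMain (h : LocMain ρbar p) :
    LocPOut p ρbar Smin (condFlat 𝒪 p Smin) := by
  obtain ⟨BB, hfin, hrank, hBB⟩ := h
  intro T _ v hv
  have hmem : pPrime p ∈ primesOf T := by
    have h1 : (v : Nat.Primes) = pPrime p := Subtype.ext hv
    rw [← h1]
    exact v.2
  have hv' : v = ⟨pPrime p, hmem⟩ := Subtype.ext (Subtype.ext hv)
  subst hv'
  let BB' : Submodule (ZMod p) (H1 ((galLocal (primesOf T)).lev ⟨pPrime p, hmem⟩)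
    ((galLocal (primesOf T)).loc (ad0Rep ρbar p) ⟨pPrime p, hmem⟩)) := BB
  have hfin' : Module.Finite (ZMod p) ↥BB' := hfin
  have hrank' : Module.finrank (ZMod p) ↥BB' ≤
      Module.finrank (ZMod p)
          ↥(S55.H0 ((galLocal (primesOf T)).loc (ad0Rep ρbar p) ⟨pPrime p, hmem⟩)) +
        Module.finrank (ZMod p) (ResidueField 𝒪) := hrank
  have hle : locTanH ρbar p (condFlat 𝒪 p Smin T) (primesOf T) ⟨pPrime p, hmem⟩ ≤ BB' :=
    locTanH_le p ρbar Smin T hmem BB hBB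
  exact ⟨Module.Finite.of_injective (Submodule.inclusion hle) (Submodule.inclusion_injective hle),
    le_trans (Submodule.finrank_mono hle) hrank'⟩

end Main

end Fermat.Agent.P1.helper30
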