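import Mathlib

/-!
# P1 / LSO-KUMB (helper40, task 677), part 1: twisted Kummer theory

`K` a field of characteristic zero, `Ω` an algebraic closure, `z ∈ Ω` a primitive `p`-th root of
unity and `ω : Gal(Ω/K) → ZMod p` with `σ z = z ^ ω(σ)`.  A *twisted cocycle* is a function
`c : Gal(Ω/K) → ZMod p`, constant on the cosets of the fixing subgroup of a finite extension,
with `c (g h) = c g + ω(g) c h`.

* `exists_kummer_of_twCoc` (Hilbert 90): every twisted cocycle is of the form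
  `σ α = z ^ c(σ) α` with `α ^ p = a ∈ Kˣ`;
* `twCoc_eq_add_of_pow` : if `a' = a b ^ p` then `c' = c + j (ω - 1)`;
* `card_twCoc_le` : the set of twisted cocycles is finite of cardinality
  `≤ p · #(Kˣ / (Kˣ)^p)`.
-/

set_option autoImplicit false

open groupCohomology IntermediateField

namespace Fermat.Agent.P1.helper40

section PowVal

variable {p : ℕ} [NeZero p]

lemma pow_val_add {M : Type*} [Monoid M] {z : M} (hz : z ^ p = 1) (a b : ZMod p) :
    z ^ (a + b).val = z ^ a.val * z ^ b.val := by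
  rw [ZMod.val_add, ← pow_add]
  conv_rhs => rw [← Nat.mod_add_div (a.val + b.val) p]
  rw [pow_add, pow_mul, hz, one_pow, mul_one]

omit [NeZero p] in
lemma pow_val_mul {M : Type*} [Monoid M] {z : M} (hz : z ^ p = 1) (a b : ZMod p) :
    z ^ (a * b).val = (z ^ a.val) ^ b.val := by
  rw [ZMod.val_mul, ← pow_mul]
  conv_rhs => rw [← Nat.mod_add_div (a.val * b.val) p]
  rw [pow_add, pow_mul, hz, one_pow, mul_one]

omit [NeZero p] in
lemma pow_val_natCast {M : Type*} [Monoid M] {z : M} (hz : z ^ p = 1) (n : ℕ) :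
    z ^ ((n : ZMod p)).val = z ^ n := by
  rw [ZMod.val_natCast]
  conv_rhs => rw [← Nat.mod_add_div n p]
  rw [pow_add, pow_mul, hz, one_pow, mul_one]

/-- Uniqueness of the exponent: `ζ ^ a = ζ ^ b` for a primitive `p`-th root of unity forces
`a = b` in `ZMod p`. -/
lemma zmod_eq_of_pow_val_eq {M : Type*} [CommMonoid M] {z : M} (hz : IsPrimitiveRoot z p)
    {a b : ZMod p} (h : z ^ a.val = z ^ b.val) : a = b :=
  ZMod.val_injective p (hz.pow_inj (ZMod.val_lt a) (ZMod.val_lt b) h)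

end PowVal

section H90

/-- Hilbert 90 for a `μ_p`-valued twisted cocycle of the automorphism group of a finite
extension. -/
theorem exists_units_of_twCoc {K L : Type*} [Field K] [Field L] [Algebra K L]
    [FiniteDimensional K L] (p : ℕ) [NeZero p] (ζ : Lˣ) (hζp : ζ ^ p = 1)
    (w y : (L ≃ₐ[K] L) → ZMod p) (hw : ∀ τ : L ≃ₐ[K] L, τ (ζ : L) = (ζ : L) ^ (w τ).val)
    (hy : ∀ g h, y (g * h) = y g + w g * y h) :
    ∃ β : Lˣ, ∀ τ : L ≃ₐ[K] L, τ (β : L) = (ζ : L) ^ (y τ).val * β := by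
  have hζact : ∀ τ : L ≃ₐ[K] L, (τ • ζ : Lˣ) = ζ ^ (w τ).val := by
    intro τ
    ext
    simp [AlgEquiv.smul_units_def, hw]
  have hcoc : IsMulCocycle₁ (fun τ : L ≃ₐ[K] L => ζ ^ (y τ).val) := by
    intro g h
    simp only
    rw [smul_pow', hζact, hy, pow_val_add hζp, mul_comm (w g), pow_val_mul hζp,
      mul_comm, ← pow_mul, ← pow_mul, mul_comm (y h).val]
  obtain ⟨β, hβ⟩ := isMulCoboundary₁_of_isMulCocycle₁_of_aut_to_units _ hcoc
  refine ⟨β, fun τ => ?_⟩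
  have h1 : (τ • β : Lˣ) / β = ζ ^ (y τ).val := hβ τ
  have h2 : (τ • β : Lˣ) = ζ ^ (y τ).val * β := by
    rw [← h1, div_mul_cancel]
  have h3 := congrArg (fun u : Lˣ => (u : L)) h2
  simp only [Units.val_mul, Units.val_pow_eq_pow_val] at h3
  exact h3

end H90

section TwKummer

variable (p : ℕ) [Fact p.Prime] (K Ω : Type*) [Field K] [Field Ω] [Algebra K Ω]

/-- Level-constant twisted cocycles `c : Gal(Ω/K) → ZMod p` for the twist `ω`. -/
def IsTwCoc (ω c : (Ω ≃ₐ[K] Ω) → ZMod p) : Prop :=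
  (∃ L₀ : IntermediateField K Ω, FiniteDimensional K L₀ ∧
    ∀ g : Ω ≃ₐ[K] Ω, ∀ s ∈ L₀.fixingSubgroup, c (g * s) = c g) ∧
  ∀ g h : Ω ≃ₐ[K] Ω, c (g * h) = c g + ω g * c h

variable {p K Ω}

lemma isTwCoc_zero (ω : (Ω ≃ₐ[K] Ω) → ZMod p) : IsTwCoc p K Ω ω (fun _ => 0) := by
  refine ⟨⟨⊥, inferInstance, fun _ _ _ => rfl⟩, fun g h => ?_⟩
  simp

variable [CharZero K] [IsAlgClosure K Ω] {z : Ω} (hz : IsPrimitiveRoot z p)
  {ω : (Ω ≃ₐ[K] Ω) → ZMod p} (hω : ∀ σ : Ω ≃ₐ[K] Ω, σ z = z ^ (ω σ).val)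

include hz hω in
/-- **Hilbert 90 for twisted cocycles**: every level-constant twisted cocycle is a Kummer
cocycle `σ α = z ^ c(σ) α`, `α ^ p ∈ Kˣ`. -/
theorem exists_kummer_of_twCoc (c : (Ω ≃ₐ[K] Ω) → ZMod p) (hc : IsTwCoc p K Ω ω c) :
    ∃ (a : Kˣ) (α : Ω), α ^ p = algebraMap K Ω a ∧
      ∀ σ : Ω ≃ₐ[K] Ω, σ α = z ^ (c σ).val * α := by
  classical
  have hp : p.Prime := Fact.out
  have : NeZero p := ⟨hp.ne_zero⟩
  have : IsAlgClosed Ω := IsAlgClosure.isAlgClosed K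
  have : Algebra.IsAlgebraic K Ω := IsAlgClosure.isAlgebraic
  have : Normal K Ω := inferInstance
  have : IsGalois K Ω := inferInstance
  obtain ⟨⟨L₀, hL₀, hcs⟩, hmul⟩ := hc
  have hzp : z ^ p = 1 := hz.pow_eq_one
  have hz0 : z ≠ 0 := hz.ne_zero hp.ne_zero
  -- the finite normal field containing `L₀` and `z`
  have hfz : FiniteDimensional K K⟮z⟯ :=
    IntermediateField.adjoin.finiteDimensional (Algebra.IsIntegral.isIntegral z)
  have hfd : FiniteDimensional K ↥(L₀ ⊔ K⟮z⟯) := IntermediateField.finiteDimensional_sup L₀ K⟮z⟯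
  set L : IntermediateField K Ω := IntermediateField.normalClosure K ↥(L₀ ⊔ K⟮z⟯) Ω with hL
  have hle : L₀ ⊔ K⟮z⟯ ≤ L := IntermediateField.le_normalClosure _
  have hle₀ : L₀ ≤ L := le_sup_left.trans hle
  have hzL : z ∈ L := hle (le_sup_right (α := IntermediateField K Ω) (mem_adjoin_simple_self K z))
  have : Normal K L := inferInstance
  have : FiniteDimensional K L := inferInstance
  have hsurj : Function.Surjective (AlgEquiv.restrictNormalHom (F := K) (K₁ := Ω) L) :=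
    AlgEquiv.restrictNormalHom_surjective Ω
  -- `c` only depends on the restriction to `L`
  have hcR : ∀ σ σ' : Ω ≃ₐ[K] Ω,
      AlgEquiv.restrictNormalHom L σ = AlgEquiv.restrictNormalHom L σ' → c σ = c σ' := by
    intro σ σ' h
    have hs : σ⁻¹ * σ' ∈ L.fixingSubgroup := by
      rw [← IntermediateField.restrictNormalHom_ker, MonoidHom.mem_ker, map_mul, map_inv, h,
        inv_mul_cancel]
    have hs' : σ⁻¹ * σ' ∈ L₀.fixingSubgroup := IntermediateField.fixingSubgroup_antitone hle₀ hs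
    have := hcs σ _ hs'
    rw [mul_inv_cancel_left] at this
    exact this.symm
  set lift : (L ≃ₐ[K] L) → (Ω ≃ₐ[K] Ω) := Function.surjInv hsurj with hlift
  have hliftR : ∀ τ, AlgEquiv.restrictNormalHom L (lift τ) = τ := Function.surjInv_eq hsurj
  -- the root of unity in `L`
  set ζL : Lˣ := Units.mk0 (⟨z, hzL⟩ : L) (by
    intro h
    exact hz0 (congrArg Subtype.val h)) with hζL
  have hζLp : ζL ^ p = 1 := by
    apply Units.ext
    apply Subtype.ext
    simp [hζL, hzp]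
  have hζLact : ∀ τ : L ≃ₐ[K] L, τ (ζL : L) = (ζL : L) ^ (ω (lift τ)).val := by
    intro τ
    apply Subtype.ext
    have h1 : algebraMap L Ω ((AlgEquiv.restrictNormalHom L (lift τ)) (⟨z, hzL⟩ : L)) =
        (lift τ) (algebraMap L Ω (⟨z, hzL⟩ : L)) :=
      AlgEquiv.restrictNormal_commutes (lift τ) L (⟨z, hzL⟩ : L)
    rw [hliftR] at h1
    change algebraMap L Ω (τ (⟨z, hzL⟩ : L)) = _
    rw [h1]
    change (lift τ) z = _
    rw [hω]
    simp [hζL]
  -- the cocycle on `Gal(L/K)`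
  have hy : ∀ g h : L ≃ₐ[K] L, c (lift (g * h)) = c (lift g) + ω (lift g) * c (lift h) := by
    intro g h
    rw [← hmul]
    apply hcR
    rw [map_mul, hliftR, hliftR, hliftR]
  obtain ⟨β, hβ'⟩ := exists_units_of_twCoc (K := K) (L := L) p ζL hζLp
    (fun τ => ω (lift τ)) (fun τ => c (lift τ)) hζLact hy
  -- the Kummer generator in `Ω`
  set α : Ω := ((β : L) : Ω) with hα
  have hα0 : α ≠ 0 := by
    rw [hα]
    simp
  have hσα : ∀ σ : Ω ≃ₐ[K] Ω, σ α = z ^ (c σ).val * α := by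
    intro σ
    have h4 : σ α = algebraMap L Ω ((AlgEquiv.restrictNormalHom L σ) (β : L)) :=
      (AlgEquiv.restrictNormal_commutes σ L (β : L)).symm
    rw [h4, hβ', hcR _ _ (hliftR _), map_mul, map_pow]
    rfl
  have hfixed : ∀ σ : Ω ≃ₐ[K] Ω, σ (α ^ p) = α ^ p := by
    intro σ
    rw [map_pow, hσα, mul_pow, ← pow_mul, mul_comm _ p, pow_mul, hzp, one_pow, one_mul]
  have hbot : α ^ p ∈ (⊥ : IntermediateField K Ω) :=
    (InfiniteGalois.mem_bot_iff_fixed (α ^ p)).2 hfixed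
  obtain ⟨b, hb⟩ := IntermediateField.mem_bot.1 hbot
  have hb0 : b ≠ 0 := by
    rintro rfl
    rw [map_zero] at hb
    exact pow_ne_zero p hα0 hb.symm
  exact ⟨Units.mk0 b hb0, α, hb.symm, hσα⟩

omit [CharZero K] [IsAlgClosure K Ω] in
include hz hω in
/-- Two Kummer cocycles whose Kummer elements are in the same class modulo `p`-th powers differ
by a multiple of `ω - 1`. -/
theorem twCoc_eq_add_of_pow (c c' : (Ω ≃ₐ[K] Ω) → ZMod p) (a a' b : Kˣ)
    (hab : b ^ p = a⁻¹ * a') (α α' : Ω) (hα : α ^ p = algebraMap K Ω a)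
    (hα' : α' ^ p = algebraMap K Ω a')
    (hx : ∀ σ : Ω ≃ₐ[K] Ω, σ α = z ^ (c σ).val * α)
    (hx' : ∀ σ : Ω ≃ₐ[K] Ω, σ α' = z ^ (c' σ).val * α') :
    ∃ j : ZMod p, ∀ σ : Ω ≃ₐ[K] Ω, c' σ = c σ + j * (ω σ - 1) := by
  have hp : p.Prime := Fact.out
  have : NeZero p := ⟨hp.ne_zero⟩
  have hzp : z ^ p = 1 := hz.pow_eq_one
  have ha0 : algebraMap K Ω (a : K) ≠ 0 := (map_ne_zero (algebraMap K Ω)).mpr a.ne_zero
  have hb0 : algebraMap K Ω (b : K) ≠ 0 := (map_ne_zero (algebraMap K Ω)).mpr b.ne_zero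
  have hα0 : α ≠ 0 := by
    rintro rfl
    rw [zero_pow hp.ne_zero] at hα
    exact ha0 hα.symm
  have hα'0 : α' ≠ 0 := by
    rintro rfl
    rw [zero_pow hp.ne_zero] at hα'
    exact (map_ne_zero (algebraMap K Ω)).mpr a'.ne_zero hα'.symm
  have hab' : (a' : K) = a * b ^ p := by
    have : (a' : Kˣ) = a * b ^ p := by rw [hab, mul_inv_cancel_left]
    rw [this]
    simp
  have h1 : (α' / (α * algebraMap K Ω b)) ^ p = 1 := by
    rw [div_pow, mul_pow, hα, hα', hab', map_mul, map_pow, div_self]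
    exact mul_ne_zero ha0 (pow_ne_zero _ hb0)
  obtain ⟨i, -, hi⟩ := hz.eq_pow_of_pow_eq_one h1
  have hα'eq : α' = z ^ i * (α * algebraMap K Ω b) := by
    rw [hi, div_mul_cancel₀ _ (mul_ne_zero hα0 hb0)]
  refine ⟨(i : ZMod p), fun σ => ?_⟩
  have hkey : c' σ + (i : ZMod p) = c σ + ω σ * (i : ZMod p) := by
    apply zmod_eq_of_pow_val_eq hz
    rw [pow_val_add hzp, pow_val_add hzp, pow_val_mul hzp, pow_val_natCast hzp,
      pow_val_natCast (p := p) (by rw [← pow_mul, mul_comm, pow_mul, hzp, one_pow])]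
    have h2 : σ α' = (z ^ (ω σ).val) ^ i * (z ^ (c σ).val * α * algebraMap K Ω b) := by
      rw [hα'eq, map_mul, map_mul, map_pow, AlgEquiv.commutes, hx σ, hω σ]
    have h3 := hx' σ
    rw [h2] at h3
    have h4 : z ^ (c' σ).val * α' = z ^ (c' σ).val * z ^ i * (α * algebraMap K Ω b) := by
      rw [hα'eq]
      ring
    rw [h4] at h3
    have h5 : (z ^ (ω σ).val) ^ i * (z ^ (c σ).val * α * algebraMap K Ω b) =
        (z ^ (c σ).val * (z ^ (ω σ).val) ^ i) * (α * algebraMap K Ω b) := by ring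
    rw [h5] at h3
    exact (mul_right_cancel₀ (mul_ne_zero hα0 hb0) h3).symm
  linear_combination hkey

include hz hω in
/-- **Counting twisted cocycles**: the set of level-constant twisted cocycles is finite, of
cardinality at most `p · #(Kˣ / (Kˣ)^p)`. -/
theorem card_twCoc_le [Finite (Kˣ ⧸ (powMonoidHom p : Kˣ →* Kˣ).range)] :
    Finite {c : (Ω ≃ₐ[K] Ω) → ZMod p | IsTwCoc p K Ω ω c} ∧
      Nat.card {c : (Ω ≃ₐ[K] Ω) → ZMod p | IsTwCoc p K Ω ω c} ≤
        p * Nat.card (Kˣ ⧸ (powMonoidHom p : Kˣ →* Kˣ).range) := by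
  classical
  have hp : p.Prime := Fact.out
  have : NeZero p := ⟨hp.ne_zero⟩
  set Z : Set ((Ω ≃ₐ[K] Ω) → ZMod p) := {c | IsTwCoc p K Ω ω c} with hZ
  have hne : Nonempty Z := ⟨⟨fun _ => 0, isTwCoc_zero ω⟩⟩
  have hex : ∀ c : Z, ∃ (a : Kˣ) (α : Ω), α ^ p = algebraMap K Ω a ∧
      ∀ σ : Ω ≃ₐ[K] Ω, σ α = z ^ ((c : (Ω ≃ₐ[K] Ω) → ZMod p) σ).val * α :=
    fun c => exists_kummer_of_twCoc hz hω c.1 c.2
  choose a α hα hσ using hex
  set κ : Z → Kˣ ⧸ (powMonoidHom p : Kˣ →* Kˣ).range := fun c => QuotientGroup.mk (a c) with hκ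
  set r : Z → Z := fun c => Function.invFun κ (κ c) with hr
  have hκr : ∀ c : Z, κ (r c) = κ c := fun c => Function.invFun_eq ⟨c, rfl⟩
  have hj : ∀ c : Z, ∃ j : ZMod p, ∀ σ : Ω ≃ₐ[K] Ω,
      (c : (Ω ≃ₐ[K] Ω) → ZMod p) σ = (r c : (Ω ≃ₐ[K] Ω) → ZMod p) σ + j * (ω σ - 1) := by
    intro c
    have h1 : (a (r c))⁻¹ * a c ∈ (powMonoidHom p : Kˣ →* Kˣ).range := by
      rw [← QuotientGroup.eq]
      exact hκr c
    obtain ⟨b, hb⟩ := h1
    exact twCoc_eq_add_of_pow hz hω (r c).1 c.1 (a (r c)) (a c) b hb (α (r c)) (α c)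
      (hα (r c)) (hα c) (hσ (r c)) (hσ c)
  choose J hJ using hj
  set Φ : Z → (Kˣ ⧸ (powMonoidHom p : Kˣ →* Kˣ).range) × ZMod p := fun c => (κ c, J c) with hΦ
  have hinj : Function.Injective Φ := by
    intro c c' h
    have h1 : κ c = κ c' := congrArg Prod.fst h
    have h2 : J c = J c' := congrArg Prod.snd h
    have h3 : r c = r c' := by
      simp only [hr, h1]
    apply Subtype.ext
    funext σ
    rw [hJ c σ, hJ c' σ, h2, h3]
  have hfin : Finite Z := Finite.of_injective Φ hinj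
  refine ⟨hfin, ?_⟩
  have hle := Nat.card_le_card_of_injective Φ hinj
  rw [Nat.card_prod, Nat.card_zmod, mul_comm] at hle
  exact hle

end TwKummer

end Fermat.Agent.P1.helper40
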