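import Fermat.Agent.P1.helper7_LSODefs
import Fermat.Agent.S55.helper74_LocalLevels
import Fermat.Agent.P1.helper40_KumTw

/-!
# P1 / LSO-KUMB (helper40, task 677), part 2: `dim Z¹(G_p, 𝔽_p(ω)) ≤ 3`

`kumB : Fermat.Agent.P1.helper7.KumBStatement`: from `#(ℚ_pˣ / (ℚ_pˣ)^p) ≤ p²` (LSO-KUMA) the
space `cycloZ1 p (pPrime p)` of level-constant 1-cocycles of the local Galois group at `p` with
values in `𝔽_p(ω)` is finite of dimension `≤ 3` (twisted Kummer theory, `helper40_KumTw`).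
-/

set_option autoImplicit false

open ExtCitation

namespace Fermat.Agent.P1.helper40

open Fermat.Agent.S55 Fermat.Agent.P1.helper7

section

variable (p : ℕ) [Fact p.Prime]

local notation "Qbar" => AlgebraicClosure ℚ

/-- The spec of the mod `p` cyclotomic character on `p`-th roots of unity. -/
lemma cycloChar_spec (σ : Qbar ≃ₐ[ℚ] Qbar) {ζ : Qbar} (hζ : ζ ^ p = 1) :
    σ ζ = ζ ^ ((cycloChar p σ : (ZMod p)ˣ) : ZMod p).val := by
  have : NeZero p := ⟨(Fact.out : p.Prime).ne_zero⟩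
  have hζ0 : ζ ≠ 0 := by
    rintro rfl
    rw [zero_pow (NeZero.ne p)] at hζ
    exact zero_ne_one hζ
  set t : Qbarˣ := Units.mk0 ζ hζ0 with ht
  have htm : t ∈ rootsOfUnity p Qbar := by
    rw [mem_rootsOfUnity]
    exact Units.ext (by simpa [t] using hζ)
  have := modularCyclotomicCharacter.spec Qbar (card_rootsOfUnity_eq_self p)
    (σ : Qbar ≃+* Qbar) htm
  simpa [t, cycloChar] using this

/-- The twist: the mod `p` cyclotomic character on the local Galois group. -/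
noncomputable def locOmega (g : PadicAlgCl p ≃ₐ[ℚ_[p]] PadicAlgCl p) : ZMod p :=
  ((cycloChar p (localGaloisToGlobal p g) : (ZMod p)ˣ) : ZMod p)

lemma exists_primitiveRoot_Qbar : ∃ ζ : Qbar, IsPrimitiveRoot ζ p := by
  have : NeZero p := ⟨(Fact.out : p.Prime).ne_zero⟩
  have : NeZero (p : Qbar) := ⟨Nat.cast_ne_zero.mpr (NeZero.ne p)⟩
  exact HasEnoughRootsOfUnity.exists_primitiveRoot Qbar p

lemma locOmega_spec {ζ : Qbar} (hζ : ζ ^ p = 1) (g : PadicAlgCl p ≃ₐ[ℚ_[p]] PadicAlgCl p) :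
    g (padicEmbedding p ζ) = padicEmbedding p ζ ^ (locOmega p g).val := by
  rw [← padicEmbedding_localGaloisToGlobal, cycloChar_spec p _ hζ, map_pow]
  rfl

/-- Cocycles in `cycloZ1 p (pPrime p)` are level-constant twisted cocycles of
`Gal(PadicAlgCl p / ℚ_p)`. -/
lemma isTwCoc_of_mem_cycloZ1 (c : primeLocalGaloisGroup (pPrime p) → ZMod p)
    (hc : c ∈ cycloZ1 p (pPrime p)) :
    IsTwCoc p ℚ_[p] (PadicAlgCl p) (locOmega p) c := by
  obtain ⟨⟨N, ⟨F, hF, -, rfl⟩, hlev⟩, hcoc⟩ := hc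
  refine ⟨⟨helper74.localField p F, ?_, ?_⟩, ?_⟩
  · exact helper74.finiteDimensional_localField p F
  · intro g s hs
    exact hlev g s ((helper74.mem_fixingSubgroup_localField_iff p F s).1 hs)
  · intro g h
    exact hcoc g h

/-- The conclusion of LSO-KUMB for one odd prime, from the bound on `ℚ_pˣ / (ℚ_pˣ)^p`. -/
theorem kumOut_of_card
    (hfin : Finite (ℚ_[p]ˣ ⧸ (powMonoidHom p : ℚ_[p]ˣ →* ℚ_[p]ˣ).range))
    (hcard : Nat.card (ℚ_[p]ˣ ⧸ (powMonoidHom p : ℚ_[p]ˣ →* ℚ_[p]ˣ).range) ≤ p ^ 2) :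
    Module.Finite (ZMod p) ↥(cycloZ1 p (pPrime p)) ∧
      Module.finrank (ZMod p) ↥(cycloZ1 p (pPrime p)) ≤ 3 := by
  classical
  have hp : p.Prime := Fact.out
  have : NeZero p := ⟨hp.ne_zero⟩
  obtain ⟨ζ, hζ⟩ := exists_primitiveRoot_Qbar p
  have hz : IsPrimitiveRoot (padicEmbedding p ζ) p :=
    hζ.map_of_injective (padicEmbedding p).toRingHom.injective
  obtain ⟨hfinZ, hcardZ⟩ := card_twCoc_le (p := p) (K := ℚ_[p]) (Ω := PadicAlgCl p) hz
    (ω := locOmega p) (locOmega_spec p hζ.pow_eq_one)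
  -- the inclusion of `cycloZ1` into the twisted cocycles
  set ι : ↥(cycloZ1 p (pPrime p)) →
      {c : (PadicAlgCl p ≃ₐ[ℚ_[p]] PadicAlgCl p) → ZMod p |
        IsTwCoc p ℚ_[p] (PadicAlgCl p) (locOmega p) c} :=
    fun c => ⟨c.1, isTwCoc_of_mem_cycloZ1 p c.1 c.2⟩ with hι
  have hinj : Function.Injective ι := by
    intro c c' h
    apply Subtype.ext
    exact congrArg (fun x : {c : (PadicAlgCl p ≃ₐ[ℚ_[p]] PadicAlgCl p) → ZMod p |
        IsTwCoc p ℚ_[p] (PadicAlgCl p) (locOmega p) c} => x.1) h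
  have hfinC : Finite ↥(cycloZ1 p (pPrime p)) := Finite.of_injective ι hinj
  have hmf : Module.Finite (ZMod p) ↥(cycloZ1 p (pPrime p)) := Module.Finite.of_finite
  refine ⟨hmf, ?_⟩
  have h1 : Nat.card ↥(cycloZ1 p (pPrime p)) ≤ p ^ 3 := by
    calc Nat.card ↥(cycloZ1 p (pPrime p))
        ≤ Nat.card {c : (PadicAlgCl p ≃ₐ[ℚ_[p]] PadicAlgCl p) → ZMod p |
            IsTwCoc p ℚ_[p] (PadicAlgCl p) (locOmega p) c} :=
          Nat.card_le_card_of_injective ι hinj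
      _ ≤ p * Nat.card (ℚ_[p]ˣ ⧸ (powMonoidHom p : ℚ_[p]ˣ →* ℚ_[p]ˣ).range) := hcardZ
      _ ≤ p * p ^ 2 := Nat.mul_le_mul_left p hcard
      _ = p ^ 3 := by ring
  have h2 : Nat.card ↥(cycloZ1 p (pPrime p)) =
      p ^ Module.finrank (ZMod p) ↥(cycloZ1 p (pPrime p)) := by
    rw [Module.natCard_eq_pow_finrank (K := ZMod p), Nat.card_zmod]
  rw [h2] at h1
  exact (Nat.pow_le_pow_iff_right hp.one_lt).1 h1

end

/-- **LSO-KUMB**. -/
theorem kumB : KumBStatement := by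
  intro hA p _ hp2
  obtain ⟨hfin, hcard⟩ := hA p hp2
  exact kumOut_of_card p hfin hcard

end Fermat.Agent.P1.helper40
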