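import Fermat.Agent.P1.helper30_FlatCntAsm
import Fermat.Agent.P1.helper40_KumB

/-!
# P1 / FLAT-CNT (helper30): the final assembly, second form

`ramC_of_locSetting` : the ramification hypothesis of `helper70.OrdStatement` (the cyclotomic
character `cycloChar p` is non-trivial on the inertia group of `G_p`) follows from
`LocSetting.hram` (inertia moves a `p`-th root of unity of `Ω`).

`locMain_of'`, `locPOut_flat_of'` : the assembly without the hypothesis `hramC`.
-/

set_option autoImplicit false
set_option linter.style.haveILetI false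

open IsLocalRing ExtCitation groupCohomology Polynomial

noncomputable section

namespace Fermat.Agent.P1.helper30

open Fermat.Agent.S55 Fermat.Agent.P1.helper70
open Fermat.Agent.S55.helper8 Fermat.Agent.S55.helper7

variable (p : ℕ) [Fact p.Prime]

/-- If inertia moves a `p`-th root of unity of `Ω`, the mod `p` cyclotomic character is
non-trivial on inertia. -/
theorem ramC_of_hram (hram : ∃ σ ∈ inertiaΩ p, ∃ ζ : PadicAlgCl p, ζ ^ p = 1 ∧ σ ζ ≠ ζ) :
    ∃ τ ∈ helper92.locInertiaNat p, cycloChar p (localGaloisToGlobal p τ) ≠ 1 := by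
  obtain ⟨σ, hσ, ζ, hζ, hne⟩ := hram
  refine ⟨σ, by rw [← inertiaΩ_eq_locInertiaNat]; exact hσ, ?_⟩
  intro h1
  apply hne
  obtain ⟨ζ₀, hζ₀⟩ := helper40.exists_primitiveRoot_Qbar p
  have hz : IsPrimitiveRoot (padicEmbedding p ζ₀) p :=
    hζ₀.map_of_injective (padicEmbedding p).toRingHom.injective
  obtain ⟨j, -, rfl⟩ := hz.eq_pow_of_pow_eq_one hζ
  have hspec := helper40.locOmega_spec p hζ₀.pow_eq_one σ
  have hom : helper40.locOmega p σ = 1 := by
    unfold helper40.locOmega
    rw [h1]
    rfl
  have hp : p.Prime := Fact.out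
  haveI : Fact (1 < p) := ⟨hp.one_lt⟩
  rw [hom, ZMod.val_one, pow_one] at hspec
  rw [map_pow, hspec]

section Main

variable {𝒪 : Type} [CommRing 𝒪] [IsLocalRing 𝒪] [Finite (ResidueField 𝒪)]
  (ρbar : ResidualGaloisRep (ResidueField 𝒪)) [Algebra (ZMod p) (ResidueField 𝒪)]

/-- **FLAT-CNT, local form**: the assembly of the module. -/
theorem locMain_of' (hLS : LocSetting p ρbar)
    (hEmb : helper70.DictHEmbStatement p) (hR1 : helper70.DictHR1Statement p)
    (hR2 : helper70.DictHR2Statement p) (hTC : helper70.TameCharStatement p)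
    (hOrd : helper70.OrdStatement p)
    (hKB : helper14.KummerBounded p) (hFCBd : FCBdStatement p) (hBddGp : BddGpStatement p)
    (hBddSub : BddSubStatement p)
    (hOpen : LFOpenStatement p) (hEdeg : LFEdegStatement p) (hZeta : LFZetaStatement p)
    (hUnram : LFUnramStatement p)
    (hTameI : TameIStatement p) (hMemI : MemI2Statement p) (hCountI : CountIStatement p)
    (hHat : HatExistsStatement p) (hMemII : MemII2Statement p) (hMemB : MemBStatement p)
    (hKQII : KQIIStatement p) (hCountII : CountII2Statement p) :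
    LocMain ρbar p :=
  locMain_of p ρbar hLS (ramC_of_hram p hLS.hram) hEmb hR1 hR2 hTC hOrd hKB hFCBd hBddGp
    hBddSub hOpen hEdeg hZeta hUnram hTameI hMemI hCountI hHat hMemII hMemB hKQII hCountII

end Main

section Deliverable

variable {𝒪 : Type} [CommRing 𝒪] [IsDomain 𝒪] [IsDiscreteValuationRing 𝒪]
  [IsAdicComplete (maximalIdeal 𝒪) 𝒪] [Finite (ResidueField 𝒪)]
  (ρbar : ResidualGaloisRep (ResidueField 𝒪)) (Smin : Finset ℕ)
  [Algebra (ZMod p) (ResidueField 𝒪)]

omit [IsAdicComplete (maximalIdeal 𝒪) 𝒪] in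
/-- **FLAT-CNT**: the deliverable of the module, from the packages. -/
theorem locPOut_flat_of' (hLS : LocSetting p ρbar)
    (hEmb : helper70.DictHEmbStatement p) (hR1 : helper70.DictHR1Statement p)
    (hR2 : helper70.DictHR2Statement p) (hTC : helper70.TameCharStatement p)
    (hOrd : helper70.OrdStatement p)
    (hKB : helper14.KummerBounded p) (hFCBd : FCBdStatement p) (hBddGp : BddGpStatement p)
    (hBddSub : BddSubStatement p)
    (hOpen : LFOpenStatement p) (hEdeg : LFEdegStatement p) (hZeta : LFZetaStatement p)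
    (hUnram : LFUnramStatement p)
    (hTameI : TameIStatement p) (hMemI : MemI2Statement p) (hCountI : CountIStatement p)
    (hHat : HatExistsStatement p) (hMemII : MemII2Statement p) (hMemB : MemBStatement p)
    (hKQII : KQIIStatement p) (hCountII : CountII2Statement p) :
    LocPOut p ρbar Smin (condFlat 𝒪 p Smin) :=
  locPOut_of_locMain p ρbar Smin
    (locMain_of' p ρbar hLS hEmb hR1 hR2 hTC hOrd hKB hFCBd hBddGp hBddSub hOpen hEdeg
      hZeta hUnram hTameI hMemI hCountI hHat hMemII hMemB hKQII hCountII)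

end Deliverable

end Fermat.Agent.P1.helper30
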