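import Fermat.Agent.P1.helper70_Interface2

/-!
# P1 / module LSO (helper7, sub-coordinator): definitions

The local term at `p` for the STRICT-ORDINARY condition.

* `nilSub ρbar L`   : `W(L) = Hom(V/L, L) ⊆ ad⁰ ρbar` (image in `L`, kills `L`);
* `borelSub ρbar L` : `B⁰(L) ⊆ ad⁰ ρbar` (stabilises `L`);
* `IsSOLine ρbar p P L` : `L` is a strictly ordinary line of `ρbar` at the place `P`;
* `CycloRamified p P` : the mod `p` cyclotomic character is nontrivial on the inertia group of `P`;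
* `cycloZ1 p q`     : level-constant 1-cocycles of the local Galois group at `q` with values in
                      `𝔽_p(ω)`, written as functions to `ZMod p`;
* `Z1In 𝒩 N W`      : level 1-cocycles with values in a subspace `W` of `N`;
* the package statements of the module as `Prop`s: `LinStatement`, `ActStatement`,
  `DimStatement`, `UniqStatement`, `RamStatement`, `KumAStatement`, `KumBStatement`,
  `CrdStatement`, `CntStatement`.

DEFINITIONS ONLY.
-/

set_option autoImplicit false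

open IsLocalRing ExtCitation groupCohomology

noncomputable section

namespace Fermat.Agent.P1.helper7

open Fermat.Agent.S55 Fermat.Agent.P1.helper70

section Lines

variable {k : Type} [Field k] (ρbar : ResidualGaloisRep k)

/-- `W(L) = Hom(V/L, L) ⊆ ad⁰`: the trace-zero endomorphisms with image in `L` which
kill `L`. -/
def nilSub (L : Submodule k ρbar.V) : Submodule k (Ad0 ρbar) where
  carrier := {x | (∀ w : ρbar.V, Ad0.toEnd ρbar x w ∈ L) ∧ ∀ w ∈ L, Ad0.toEnd ρbar x w = 0}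
  add_mem' := by
    rintro x y ⟨hx1, hx2⟩ ⟨hy1, hy2⟩
    refine ⟨fun w => ?_, fun w hw => ?_⟩
    · rw [map_add, LinearMap.add_apply]
      exact L.add_mem (hx1 w) (hy1 w)
    · rw [map_add, LinearMap.add_apply, hx2 w hw, hy2 w hw, add_zero]
  zero_mem' := by
    refine ⟨fun w => ?_, fun w _ => ?_⟩
    · rw [map_zero, LinearMap.zero_apply]
      exact L.zero_mem
    · rw [map_zero, LinearMap.zero_apply]
  smul_mem' := by
    rintro a x ⟨hx1, hx2⟩
    refine ⟨fun w => ?_, fun w hw => ?_⟩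
    · rw [map_smul, LinearMap.smul_apply]
      exact L.smul_mem a (hx1 w)
    · rw [map_smul, LinearMap.smul_apply, hx2 w hw, smul_zero]

lemma mem_nilSub {L : Submodule k ρbar.V} {x : Ad0 ρbar} :
    x ∈ nilSub ρbar L ↔
      (∀ w : ρbar.V, Ad0.toEnd ρbar x w ∈ L) ∧ ∀ w ∈ L, Ad0.toEnd ρbar x w = 0 := Iff.rfl

/-- `B⁰(L) ⊆ ad⁰`: the trace-zero endomorphisms stabilising `L`. -/
def borelSub (L : Submodule k ρbar.V) : Submodule k (Ad0 ρbar) where
  carrier := {x | ∀ w ∈ L, Ad0.toEnd ρbar x w ∈ L}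
  add_mem' := by
    intro x y hx hy w hw
    rw [map_add, LinearMap.add_apply]
    exact L.add_mem (hx w hw) (hy w hw)
  zero_mem' := by
    intro w _
    rw [map_zero, LinearMap.zero_apply]
    exact L.zero_mem
  smul_mem' := by
    intro a x hx w hw
    rw [map_smul, LinearMap.smul_apply]
    exact L.smul_mem a (hx w hw)

lemma mem_borelSub {L : Submodule k ρbar.V} {x : Ad0 ρbar} :
    x ∈ borelSub ρbar L ↔ ∀ w ∈ L, Ad0.toEnd ρbar x w ∈ L := Iff.rfl

variable (p : ℕ) [Fact p.Prime] [Algebra (ZMod p) k]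

/-- `L` is a strictly ordinary line of `ρbar` at the place `P`: a line, stable under the
decomposition group, with trivial action of inertia on `V/L`, on which the decomposition group
acts by `ω z` while it acts on `V/L` by `z`, where `z² = 1`. -/
structure IsSOLine (P : ValuationSubring (AlgebraicClosure ℚ)) (L : Submodule k ρbar.V) :
    Prop where
  finrank_eq : Module.finrank k L = 1
  stable : ∀ σ ∈ P.decompositionSubgroup ℚ, ∀ w ∈ L, ρbar.ρ σ w ∈ L
  inertia : ∀ σ ∈ P.inertiaSubgroupIn ℚ, ∀ w : ρbar.V, ρbar.ρ σ w - w ∈ L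
  char : ∀ σ ∈ P.decompositionSubgroup ℚ, ∃ z : k, z ^ 2 = 1 ∧
    (∀ w : ρbar.V, ρbar.ρ σ w - z • w ∈ L) ∧
    ∀ w ∈ L, ρbar.ρ σ w = (algebraMap (ZMod p) k (cycloChar p σ : ZMod p) * z) • w

/-- The mod `p` cyclotomic character is nontrivial on the inertia group of `P`. -/
def CycloRamified (P : ValuationSubring (AlgebraicClosure ℚ)) : Prop :=
  ∃ σ ∈ P.inertiaSubgroupIn ℚ, cycloChar p σ ≠ 1

end Lines

section Local

variable (p : ℕ) [Fact p.Prime]

/-- The level-constant 1-cocycles of the local Galois group at `q` with values in `𝔽_p(ω)`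
(`ω` the mod `p` cyclotomic character), as functions to `ZMod p`:
`c (g h) = c g + ω(g) c h`. -/
def cycloZ1 (q : Nat.Primes) : Submodule (ZMod p) (primeLocalGaloisGroup q → ZMod p) where
  carrier := {c | IsLev₁ (locLevels q) c ∧ ∀ g h : primeLocalGaloisGroup q,
    c (g * h) = c g + (cycloChar p (primeLocalToGlobal q g) : ZMod p) * c h}
  add_mem' := by
    rintro c c' ⟨⟨N, hN, h⟩, hc⟩ ⟨⟨N', hN', h'⟩, hc'⟩
    obtain ⟨N'', hN'', hle⟩ := (locLevels q).directed N hN N' hN'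
    refine ⟨⟨N'', hN'', fun g s hs => ?_⟩, fun g h => ?_⟩
    · simp only [Pi.add_apply, h g s (hle hs).1, h' g s (hle hs).2]
    · simp only [Pi.add_apply, hc g h, hc' g h]
      ring
  zero_mem' := by
    obtain ⟨N, hN⟩ := (locLevels q).nonempty
    exact ⟨⟨N, hN, fun _ _ _ => rfl⟩, fun g h => by simp⟩
  smul_mem' := by
    rintro a c ⟨⟨N, hN, h⟩, hc⟩
    refine ⟨⟨N, hN, fun g s hs => ?_⟩, fun g h => ?_⟩
    · simp only [Pi.smul_apply, h g s hs]
    · simp only [Pi.smul_apply, hc g h, smul_eq_mul]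
      ring

lemma mem_cycloZ1 {q : Nat.Primes} {c : primeLocalGaloisGroup q → ZMod p} :
    c ∈ cycloZ1 p q ↔ IsLev₁ (locLevels q) c ∧ ∀ g h : primeLocalGaloisGroup q,
      c (g * h) = c g + (cycloChar p (primeLocalToGlobal q g) : ZMod p) * c h := Iff.rfl

variable {p}

/-- Level 1-cocycles with values in a subspace `W` of `N`. -/
def Z1In {G : Type} [Group G] (𝒩 : Levels G) (N : Rep (ZMod p) G) (W : Submodule (ZMod p) N) :
    Submodule (ZMod p) (G → N) :=
  Z1 𝒩 N ⊓ Submodule.pi Set.univ fun _ => W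

lemma mem_Z1In {G : Type} [Group G] {𝒩 : Levels G} {N : Rep (ZMod p) G}
    {W : Submodule (ZMod p) N} {c : G → N} :
    c ∈ Z1In 𝒩 N W ↔ c ∈ Z1 𝒩 N ∧ ∀ g, c g ∈ W := by
  rw [Z1In, Submodule.mem_inf, Submodule.mem_pi]
  exact and_congr_right fun _ => ⟨fun h g => h g (Set.mem_univ g), fun h g _ => h g⟩

end Local

/-! ## The package statements -/

/-- **LSO-LIN**. Let `ρ = (1 + ε c) ρbar` be a lift of `ρbar` to the dual numbers which has
cyclotomic determinant and is strictly ordinary at `p` (`p` odd), and let `P` be a place over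
`p`.  Then `ρbar` has a strictly ordinary line `L` at `P`, and on the decomposition group of `P`
the cocycle `c` differs from a cocycle with values in `W(L) = Hom(V/L, L)` by the coboundary of
some `X ∈ ad⁰`. -/
def LinStatement : Prop :=
  ∀ (𝒪 : Type) [CommRing 𝒪] [IsLocalRing 𝒪] (ρbar : ResidualGaloisRep (ResidueField 𝒪))
    (p : ℕ) [Fact p.Prime] [Algebra (ZMod p) (ResidueField 𝒪)], p ≠ 2 →
    ∀ (ρ : GaloisRepAdic (DualNumber (ResidueField 𝒪))), ρ.DetIsCyclotomic p →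
      ρ.IsStrictOrdinaryAt p → ∀ c : GQ → Ad0 ρbar, IsTanLift ρbar ρ c →
      ∀ P : ValuationSubring (AlgebraicClosure ℚ), P.LiesOverPrime p →
        ∃ (L : Submodule (ResidueField 𝒪) ρbar.V) (X : Ad0 ρbar), IsSOLine ρbar p P L ∧
          ∀ σ ∈ P.decompositionSubgroup ℚ,
            c σ - (ad0Hom ρbar σ X - X) ∈ nilSub ρbar L

/-- **LSO-ACT**. For a strictly ordinary line `L` at `P`: `W(L) ≤ B⁰(L)`, the decomposition
group acts on `W(L)` through the cyclotomic character and trivially on `B⁰(L) / W(L)`. -/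
def ActStatement : Prop :=
  ∀ (k : Type) [Field k] (ρbar : ResidualGaloisRep k) (p : ℕ) [Fact p.Prime]
    [Algebra (ZMod p) k] (P : ValuationSubring (AlgebraicClosure ℚ)) (L : Submodule k ρbar.V),
    IsSOLine ρbar p P L →
      nilSub ρbar L ≤ borelSub ρbar L ∧
      (∀ σ ∈ P.decompositionSubgroup ℚ, ∀ x ∈ nilSub ρbar L,
        ad0Hom ρbar σ x = algebraMap (ZMod p) k (cycloChar p σ : ZMod p) • x) ∧
      ∀ σ ∈ P.decompositionSubgroup ℚ, ∀ x ∈ borelSub ρbar L,
        ad0Hom ρbar σ x - x ∈ nilSub ρbar L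

/-- **LSO-DIM**. `dim_k W(L) = 1` and `dim_k B⁰(L) = 2` for a line `L`. -/
def DimStatement : Prop :=
  ∀ (k : Type) [Field k] (ρbar : ResidualGaloisRep k) (L : Submodule k ρbar.V),
    Module.finrank k L = 1 →
      Module.finrank k ↥(nilSub ρbar L) = 1 ∧ Module.finrank k ↥(borelSub ρbar L) = 2

/-- **LSO-UNIQ**. If the cyclotomic character is ramified at `P`, there is at most one strictly
ordinary line at `P`. -/
def UniqStatement : Prop :=
  ∀ (k : Type) [Field k] (ρbar : ResidualGaloisRep k) (p : ℕ) [Fact p.Prime]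
    [Algebra (ZMod p) k] (P : ValuationSubring (AlgebraicClosure ℚ)), CycloRamified p P →
    ∀ L L' : Submodule k ρbar.V, IsSOLine ρbar p P L → IsSOLine ρbar p P L' → L = L'

/-- **LSO-RAM**. `ℚ(ζ_p)/ℚ` is ramified at `p`: for every place `P` over the odd prime `p` the
mod `p` cyclotomic character is nontrivial on the inertia group of `P`. -/
def RamStatement : Prop :=
  ∀ (p : ℕ) [Fact p.Prime], p ≠ 2 →
    ∀ P : ValuationSubring (AlgebraicClosure ℚ), P.LiesOverPrime p → CycloRamified p P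

/-- **LSO-KUMA**. `ℚ_pˣ / (ℚ_pˣ)^p` is finite of order at most `p²` for odd `p`. -/
def KumAStatement : Prop :=
  ∀ (p : ℕ) [Fact p.Prime], p ≠ 2 →
    Finite (ℚ_[p]ˣ ⧸ (powMonoidHom p : ℚ_[p]ˣ →* ℚ_[p]ˣ).range) ∧
      Nat.card (ℚ_[p]ˣ ⧸ (powMonoidHom p : ℚ_[p]ˣ →* ℚ_[p]ˣ).range) ≤ p ^ 2

/-- The conclusion of LSO-KUMB: `dim Z¹(G_p, 𝔽_p(ω)) ≤ 3`. -/
def KumOut : Prop :=
  ∀ (p : ℕ) [Fact p.Prime], p ≠ 2 →
    Module.Finite (ZMod p) ↥(cycloZ1 p (pPrime p)) ∧
      Module.finrank (ZMod p) ↥(cycloZ1 p (pPrime p)) ≤ 3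

/-- **LSO-KUMB**. Kummer theory of `ℚ_p`: `H¹(G_p, μ_p)` injects into `ℚ_pˣ / (ℚ_pˣ)^p`
(Hilbert 90) and `dim B¹ ≤ 1`; hence LSO-KUMA gives `dim Z¹(G_p, 𝔽_p(ω)) ≤ 3`. -/
def KumBStatement : Prop := KumAStatement → KumOut

/-- **LSO-CRD**. If the local Galois group at `q` acts on the subspace `W` of `N` through the
cyclotomic character, then `dim Z¹(G_q, W) ≤ dim W · dim Z¹(G_q, 𝔽_p(ω))` (coordinates). -/
def CrdStatement : Prop :=
  ∀ (p : ℕ) [Fact p.Prime] (q : Nat.Primes) (N : Rep (ZMod p) (primeLocalGaloisGroup q))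
    (W : Submodule (ZMod p) N), Module.Finite (ZMod p) ↥W →
    (∀ g : primeLocalGaloisGroup q, ∀ w ∈ W,
      N.ρ g w = (cycloChar p (primeLocalToGlobal q g) : ZMod p) • w) →
    Module.Finite (ZMod p) ↥(cycloZ1 p q) →
    Module.Finite (ZMod p) ↥(Z1In (locLevels q) N W) ∧
      Module.finrank (ZMod p) ↥(Z1In (locLevels q) N W) ≤
        Module.finrank (ZMod p) ↥W * Module.finrank (ZMod p) ↥(cycloZ1 p q)

/-- **LSO-CNT**. Let `W, B ≤ N` with `g b - b ∈ W` for all `g ∈ G`, `b ∈ B`.  Then the classes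
in `H¹(G, N)` of the cocycles with values in `W` form a space of dimension
`≤ dim Z¹(G, W) - dim B + dim H⁰(G, N)`. -/
def CntStatement : Prop :=
  ∀ (p : ℕ) [Fact p.Prime] (G : Type) [Group G] (𝒩 : Levels G) (N : Rep (ZMod p) G),
    Module.Finite (ZMod p) N → IsSmooth 𝒩 N → ∀ W B : Submodule (ZMod p) N,
    (∀ g : G, ∀ b ∈ B, N.ρ g b - b ∈ W) → Module.Finite (ZMod p) ↥(Z1In 𝒩 N W) →
    Module.Finite (ZMod p) ↥(classes 𝒩 N (Z1In 𝒩 N W ⊔ B1 N)) ∧
      Module.finrank (ZMod p) ↥(classes 𝒩 N (Z1In 𝒩 N W ⊔ B1 N)) +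
          Module.finrank (ZMod p) ↥B ≤
        Module.finrank (ZMod p) ↥(Z1In 𝒩 N W) + Module.finrank (ZMod p) ↥(S55.H0 N)

end Fermat.Agent.P1.helper7
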