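import Fermat.Agent.P1.helper70_Interface2
import Fermat.Agent.P1.helper14_KRDefs
import Fermat.Agent.P1.helper47_HopfInterface
import Fermat.Agent.P1.helper7_LSODefs
import Fermat.Agent.P1.helper24_LQDefs

/-!
# P1 / module FLAT-CNT+ORDF (helper30, sub-coordinator, task 507): vocabulary and interface

Deliverable of the module: `LocPOut p ρbar Smin (condFlat 𝒪 p Smin)` (`helper70_Interface2`).

Standing notation: `Ω = PadicAlgCl p`, `G_p = Gp p = Ω ≃ₐ[ℚ_p] Ω` (definitionally
`primeLocalGaloisGroup (pPrime p)`), `k = ResidueField 𝒪`.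

## Vocabulary

* `inertiaΩ p`    : the inertia subgroup of `G_p` (trivial action on the residue field of `Ω`);
* `IsBddHom p T f`: the function `f : G_p → 𝔽_p` is, on `G_T`, the Kummer character of a unit
                    `u ∈ T` with `ord_T (u - 1) ≥ e_T`  ("bounded", "peu ramifié");
* `ramSub p act`  : the subgroup generated by the `σ x - x`, `σ` in inertia;
* `IsFlatGp p act`: the three properties of a finite flat `G_p`-module killed by `p` used by the
                    module: `bdd` (from `(BD)`), `quot` and `ot` (from the Hopf theory);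
* `locAct`, `locActBar` : the action of `G_p` on `ρ.V`, `ρbar.V`;
* `IsFlatTan ρbar p c` : `c` is the cocycle of a flat tangent lift with cyclotomic determinant;
* `LocMain ρbar p` : the local form of the deliverable.

DEFINITIONS ONLY (plus the subgroup axioms).
-/

set_option autoImplicit false

open IsLocalRing ExtCitation groupCohomology

noncomputable section

namespace Fermat.Agent.P1.helper30

open Fermat.Agent.S55 Fermat.Agent.P1.helper70
open Fermat.Agent.S55.helper8 Fermat.Agent.S55.helper7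

/-! ## The local Galois group -/

section Local

variable (p : ℕ) [Fact p.Prime]

/-- The local Galois group `G_p` (definitionally `primeLocalGaloisGroup (pPrime p)`). -/
abbrev Gp : Type := PadicAlgCl p ≃ₐ[ℚ_[p]] PadicAlgCl p

/-- The inertia subgroup of `G_p`: the automorphisms acting trivially on the residue field of
`PadicAlgCl p`. -/
def inertiaΩ : Subgroup (Gp p) where
  carrier := {g | ∀ x : PadicAlgCl p, ‖x‖ ≤ 1 → ‖g x - x‖ < 1}
  one_mem' := by
    intro x _
    simp
  mul_mem' := by
    intro g h hg hh x hx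
    have h1 : (g * h) x - x = (g (h x) - h x) + (h x - x) := by
      rw [AlgEquiv.mul_apply]; ring
    rw [h1]
    have hhx : ‖h x‖ ≤ 1 := by
      have := nnnorm_padicAlgCl_algEquiv p h x
      have h2 : ‖h x‖ = ‖x‖ := congrArg NNReal.toReal this
      rw [h2]; exact hx
    exact lt_of_le_of_lt (IsUltrametricDist.norm_add_le_max _ _) (max_lt (hg _ hhx) (hh x hx))
  inv_mem' := by
    intro g hg x hx
    have hgx : ‖g⁻¹ x‖ ≤ 1 := by
      have := nnnorm_padicAlgCl_algEquiv p g⁻¹ x
      have h2 : ‖g⁻¹ x‖ = ‖x‖ := congrArg NNReal.toReal this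
      rw [h2]; exact hx
    have h1 : g⁻¹ x - x = - (g (g⁻¹ x) - g⁻¹ x) := by
      have : g (g⁻¹ x) = x := by
        change g (g.symm x) = x
        simp
      rw [this]; ring
    rw [h1, norm_neg]
    exact hg _ hgx

lemma mem_inertiaΩ {g : Gp p} :
    g ∈ inertiaΩ p ↔ ∀ x : PadicAlgCl p, ‖x‖ ≤ 1 → ‖g x - x‖ < 1 := Iff.rfl

/-- `f : G_p → 𝔽_p` is BOUNDED over the `p`-adic field `T ⊆ Ω`: on `G_T` it is the Kummer
character `g ↦ (g α / α)` (in terms of a primitive `p`-th root of unity `ζ`) of a unit `u ∈ T`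
with `ord_T (u - 1) ≥ e_T`. -/
def IsBddHom (T : IntermediateField ℚ_[p] (PadicAlgCl p)) [FiniteDimensional ℚ_[p] T]
    (f : Gp p → ZMod p) : Prop :=
  ∃ (u : T) (α ζ : PadicAlgCl p),
    ((edeg p T : ℤ) : WithTop ℤ) ≤ ordT p T (u - 1) ∧ α ^ p = (u : PadicAlgCl p) ∧
    IsPrimitiveRoot ζ p ∧ ∀ g ∈ T.fixingSubgroup, g α = ζ ^ (f g).val * α

/-- The subgroup generated by the `σ x - x`, `σ` in the inertia group. -/
def ramSub {E : Type} [AddCommGroup E] (act : Gp p → E → E) : AddSubgroup E :=
  AddSubgroup.closure {y | ∃ σ ∈ inertiaΩ p, ∃ x : E, y = act σ x - x}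

/-- The properties of (the `Ω`-points of) a finite flat commutative group scheme over `ℤ_(p)`
killed by `p`, as a `G_p`-module `E`, which module FLAT-CNT uses.

* `bdd`  (from `(BD) = helper14.kummerBounded` and `helper47.HopfMainStatement`): if `T` is a
  tame `p`-adic field containing `ζ_p`, contained in the field `L` cut out by `E`, with
  `Gal(L/T)` a `p`-group, then every homomorphism `G_T → 𝔽_p` trivial on `G_L` is bounded;
* `quot` : for every inertia-stable subgroup `N₁` of `E`, the image of `E^ram` in `E / N₁` has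
  no nonzero inertia invariants  (`E^ram = ramSub` is the group of points of the connected
  component);
* `ot`   (Oort-Tate): inertia acts on a stable line of `E^ram` through the cyclotomic
  character. -/
structure IsFlatGp {E : Type} [AddCommGroup E] (act : Gp p → E → E) : Prop where
  bdd : ∀ (T : IntermediateField ℚ_[p] (PadicAlgCl p)) [FiniteDimensional ℚ_[p] T],
    ¬ p ∣ edeg p T → (∃ ζ ∈ T, IsPrimitiveRoot ζ p) →
    (∀ g : Gp p, (∀ x, act g x = x) → g ∈ T.fixingSubgroup) →
    (∀ g ∈ T.fixingSubgroup, ∃ n : ℕ, ∀ x, act (g ^ p ^ n) x = x) →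
    ∀ f : Gp p → ZMod p,
      (∀ g ∈ T.fixingSubgroup, ∀ h ∈ T.fixingSubgroup, f (g * h) = f g + f h) →
      (∀ g : Gp p, (∀ x, act g x = x) → f g = 0) → IsBddHom p T f
  quot : ∀ N₁ : AddSubgroup E, (∀ σ ∈ inertiaΩ p, ∀ x ∈ N₁, act σ x ∈ N₁) →
    ∀ x ∈ ramSub p act, (∀ σ ∈ inertiaΩ p, act σ x - x ∈ N₁) → x ∈ N₁
  ot : ∀ x ∈ ramSub p act, x ≠ 0 → ∀ ψ : Gp p → ℕ,
    (∀ σ ∈ inertiaΩ p, act σ x = ψ σ • x) →
    ∀ σ ∈ inertiaΩ p, ∀ ζ : PadicAlgCl p, ζ ^ p = 1 → σ ζ = ζ ^ ψ σ

/-- The action of `G_p` on the space of a Galois representation. -/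
def locAct {A : Type} [CommRing A] [IsLocalRing A] (ρ : GaloisRepAdic A) :
    Gp p → ρ.V → ρ.V :=
  fun g x => ρ.ρ (localGaloisToGlobal p g) x

/-- The action of `G_p` on the space of a residual Galois representation. -/
def locActBar {k : Type} [Field k] (ρbar : ResidualGaloisRep k) : Gp p → ρbar.V → ρbar.V :=
  fun g x => ρbar.ρ (localGaloisToGlobal p g) x

/-- `ρbar` restricted to `G_p` is reducible. -/
def LocRed {k : Type} [Field k] (ρbar : ResidualGaloisRep k) : Prop :=
  ∃ ℓ : Submodule k ρbar.V, Module.finrank k ℓ = 1 ∧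
    ∀ g : Gp p, ∀ x ∈ ℓ, ρbar.ρ (localGaloisToGlobal p g) x ∈ ℓ

/-- The `k`-subspace of `ρbar.V` generated by the `σ x - x`, `σ` in the inertia group of
`G_p`.  In the reducible flat case this is THE ordinary line. -/
def ramLine {k : Type} [Field k] (ρbar : ResidualGaloisRep k) : Submodule k ρbar.V :=
  Submodule.span k {y | ∃ σ ∈ inertiaΩ p, ∃ x : ρbar.V,
    y = ρbar.ρ (localGaloisToGlobal p σ) x - x}

end Local

/-! ## Tangent lifts -/

section Tangent

variable {𝒪 : Type} [CommRing 𝒪] [IsLocalRing 𝒪]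
  (ρbar : ResidualGaloisRep (ResidueField 𝒪)) (p : ℕ) [Fact p.Prime]

/-- `c` is the cocycle of a flat tangent lift with cyclotomic determinant (the part of
`condFlat` which matters at `p`). -/
def IsFlatTan (c : GQ → Ad0 ρbar) : Prop :=
  ∃ ρ : GaloisRepAdic (DualNumber (ResidueField 𝒪)),
    ρ.DetIsCyclotomic p ∧ ρ.IsFlatAt p ∧ IsTanLift ρbar ρ c

variable [Algebra (ZMod p) (ResidueField 𝒪)]

/-- `ad⁰ ρbar` as a representation of `G_p`. -/
abbrev locM : Rep (ZMod p) (primeLocalGaloisGroup (pPrime p)) :=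
  Rep.res (primeLocalToGlobal (pPrime p)) (ad0Rep ρbar p)

/-- The local form of the deliverable: a subspace `BB` of `H¹(G_p, ad⁰)` of dimension
`≤ h⁰(G_p, ad⁰) + d` containing the local classes of all flat tangent cocycles. -/
def LocMain : Prop :=
  ∃ BB : Submodule (ZMod p) (H1 (locLevels (pPrime p)) (locM ρbar p)),
    Module.Finite (ZMod p) ↥BB ∧
    Module.finrank (ZMod p) ↥BB ≤
      Module.finrank (ZMod p) ↥(S55.H0 (locM ρbar p)) +
        Module.finrank (ZMod p) (ResidueField 𝒪) ∧
    ∀ c : GQ → Ad0 ρbar, IsFlatTan ρbar p c →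
      ∀ z : ↥(Z1 (locLevels (pPrime p)) (locM ρbar p)),
        (∀ g : primeLocalGaloisGroup (pPrime p),
          (z : primeLocalGaloisGroup (pPrime p) → locM ρbar p) g =
            c (primeLocalToGlobal (pPrime p) g)) →
        Submodule.mkQ _ z ∈ BB

end Tangent

end Fermat.Agent.P1.helper30
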