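import Fermat.Agent.P1.helper30_FlatMemB

/-!
# P1 / FLAT-CNT (helper30): MEM-II2 from the core `memCore`

`memII : MemII2Statement p`: the cocycle `c' = c - ∂X` of ORD (Borel-valued, `W`-valued on
inertia) is bounded over `T̂`.  The subgroup `U₁ = {g ∈ memSsKer | c' g ∈ W}` contains `G_T̂`
(the diagonal part of `c'` is an unramified homomorphism, killed on `G_T̂` by the third clause
of `IsHatField`) and the kernel of `ρ`; `c'` is additive on `U₁`.
-/

set_option autoImplicit false
set_option linter.style.haveILetI false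
set_option linter.unusedSectionVars false

open IsLocalRing ExtCitation groupCohomology Polynomial

noncomputable section

namespace Fermat.Agent.P1.helper30

open Fermat.Agent.S55 Fermat.Agent.P1.helper70
open Fermat.Agent.S55.helper8 Fermat.Agent.S55.helper7
open Fermat.Agent.P1.helper56 Fermat.Agent.S53.helper56 Fermat.Agent.P1.helper11
open Fermat.Agent.P1.helper93

variable (p : ℕ) [Fact p.Prime]

/-- **MEM-II2**. -/
theorem memII : MemII2Statement p := by
  intro hOpen hEdeg hZeta hUnram 𝒪 _ _ _ ρbar _ hLS hfinL hstab T _ hT ρ c X htan hbdd hb hn hZ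
  classical
  have hstab' : ∀ g : Gp p, ∀ w ∈ ramLine p ρbar,
      ρbar.ρ (localGaloisToGlobal p g)⁻¹ w ∈ ramLine p ρbar := by
    intro g w hw
    rw [← map_inv]
    exact hstab g⁻¹ w hw
  have hsm : IsSmooth (locLevels (pPrime p)) (locM ρbar p) :=
    helper7.isSmooth_loc_ad0Rep ρbar p (pPrime p)
  -- the cocycle `c'`
  let c' : Gp p → Ad0 ρbar := fun g =>
    c (localGaloisToGlobal p g) - (ad0Hom ρbar (localGaloisToGlobal p g) X - X)
  have hB : (fun g : primeLocalGaloisGroup (pPrime p) =>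
      ((ad0Hom ρbar (primeLocalToGlobal (pPrime p) g) X - X : Ad0 ρbar) : locM ρbar p)) ∈
      Z1 (locLevels (pPrime p)) (locM ρbar p) := B1_le_Z1 hsm ⟨X, rfl⟩
  have hc'Z : (fun g : primeLocalGaloisGroup (pPrime p) =>
      ((c (primeLocalToGlobal (pPrime p) g) -
        (ad0Hom ρbar (primeLocalToGlobal (pPrime p) g) X - X) : Ad0 ρbar) : locM ρbar p)) ∈
      Z1 (locLevels (pPrime p)) (locM ρbar p) := Submodule.sub_mem _ hZ hB
  have hmul : ∀ g h : Gp p, c' (g * h) =
      ad0Hom ρbar (localGaloisToGlobal p g) (c' h) + c' g :=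
    fun g h => Fermat.Agent.P1.helper47.cocycle_mul hc'Z g h
  have hone : c' 1 = 0 := Fermat.Agent.P1.helper47.cocycle_one hc'Z
  have hbor : ∀ g : Gp p, c' g ∈ helper7.borelSub ρbar (ramLine p ρbar) := hb
  have hnilI : ∀ g ∈ inertiaΩ p, c' g ∈ helper7.nilSub ρbar (ramLine p ρbar) := hn
  refine ⟨hc'Z, hb, hn, fun ℓ => ?_⟩
  -- the subgroup `U₁`
  let U₁ : Subgroup (Gp p) :=
    { carrier := {g | g ∈ memSsKer p ρbar ∧ c' g ∈ helper7.nilSub ρbar (ramLine p ρbar)}
      one_mem' := ⟨one_mem _, by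
        change c' 1 ∈ _
        rw [hone]
        exact Submodule.zero_mem _⟩
      mul_mem' := by
        rintro g h ⟨hg1, hg2⟩ ⟨hh1, hh2⟩
        refine ⟨mul_mem hg1 hh1, ?_⟩
        change c' (g * h) ∈ _
        rw [hmul g h, memSsKer_ad0Hom p ρbar g hg1 _ hh2]
        exact Submodule.add_mem _ hh2 hg2
      inv_mem' := by
        rintro g ⟨hg1, hg2⟩
        refine ⟨inv_mem hg1, ?_⟩
        have h1 := hmul g⁻¹ g
        rw [inv_mul_cancel, hone, memSsKer_ad0Hom p ρbar g⁻¹ (inv_mem hg1) _ hg2] at h1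
        have h2 : c' g⁻¹ = -(c' g) := by
          have h3 : c' g + c' g⁻¹ = 0 := h1.symm
          exact (neg_eq_of_add_eq_zero_right h3).symm
        change c' g⁻¹ ∈ _
        rw [h2]
        exact Submodule.neg_mem _ hg2 }
  -- the diagonal part
  obtain ⟨b, hbas⟩ := lso_exists_adapted_basis ρbar (ramLine p ρbar) hfinL
  have hd_add : ∀ g h : Gp p, lsoMat b (c' (g * h)) 0 0 =
      lsoMat b (c' g) 0 0 + lsoMat b (c' h) 0 0 := by
    intro g h
    have h1 := Fermat.Agent.P1.helper47.ad0Hom_sub_mem_nilSub ρbar hfinL _ (hstab g) (hstab' g)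
      (c' h) (hbor h)
    have h2 := ((mem_nilSub_iff_lsoMat b _ hbas _).mp h1).1
    rw [map_sub, Matrix.sub_apply, sub_eq_zero] at h2
    rw [hmul g h, map_add, Matrix.add_apply, h2, add_comm]
  have hd_T : ∀ g ∈ T.fixingSubgroup, lsoMat b (c' g) 0 0 = 0 := by
    intro g hg
    obtain ⟨-, -, h3⟩ := (hT g).mp hg
    rw [← Module.forall_dual_apply_eq_zero_iff (ZMod p)]
    intro lam
    refine h3 (fun g => lam (lsoMat b (c' g) 0 0)) ?_ ?_ ?_
    · obtain ⟨N, hN, hlev⟩ := hc'Z.1
      refine ⟨N, hN, fun g s hs => ?_⟩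
      have e : c' (g * s) = c' g := hlev g s hs
      exact congrArg (fun y : Ad0 ρbar => lam (lsoMat b y 0 0)) e
    · intro a a'
      exact (congrArg lam (hd_add a a')).trans (map_add lam _ _)
    · intro i hi
      have e := ((mem_nilSub_iff_lsoMat b _ hbas _).mp (hnilI i hi)).1
      exact (congrArg lam e).trans (map_zero lam)
  have hnil_of : ∀ g : Gp p, lsoMat b (c' g) 0 0 = 0 →
      c' g ∈ helper7.nilSub ρbar (ramLine p ρbar) := by
    intro g h0
    rw [mem_nilSub_iff_lsoMat b _ hbas]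
    refine ⟨h0, (mem_borelSub_iff_lsoMat b _ hbas _).mp (hbor g), ?_⟩
    have := lsoMat_trace b (c' g)
    rw [h0, zero_add] at this
    exact this
  -- the kernel of `ρ`
  have hkerc : ∀ g : Gp p, (∀ x, locAct p ρ g x = x) →
      g ∈ memSsKer p ρbar ∧ c' g = 0 := by
    intro g hg
    obtain ⟨h1, h2⟩ := memTan_key ρbar ρ c htan _ (LinearMap.ext hg)
    refine ⟨⟨fun x _ => ?_, fun x => ?_⟩, ?_⟩
    · rw [h1]; rfl
    · rw [h1]
      change x - x ∈ _
      rw [sub_self]
      exact Submodule.zero_mem _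
    · change c (localGaloisToGlobal p g) - (ad0Hom ρbar (localGaloisToGlobal p g) X - X) = 0
      rw [h2, memAd_eq_of_one ρbar _ h1, sub_self, sub_zero]
  have hfin : IsBddHom p T (fun g => ℓ (c' g)) := by
    refine memCore p ρbar hOpen hEdeg hZeta hUnram hLS hfinL hstab T hT ρ c htan hbdd U₁ ?_
      (fun g hg => hg.1) ?_ _ ?_ ?_
    · intro g hg
      obtain ⟨h1, h2, -⟩ := (hT g).mp hg
      exact ⟨⟨h1, h2⟩, hnil_of g (hd_T g hg)⟩
    · intro g hg
      obtain ⟨h1, h2⟩ := hkerc g hg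
      refine ⟨h1, ?_⟩
      change c' g ∈ _
      rw [h2]
      exact Submodule.zero_mem _
    · intro g hg h hh
      change ℓ (c' (g * h)) = ℓ (c' g) + ℓ (c' h)
      rw [hmul g h, memSsKer_ad0Hom p ρbar g hg.1 _ hh.2, map_add, add_comm]
    · intro g hg
      change ℓ (c' g) = 0
      rw [(hkerc g hg).2, map_zero]
  exact hfin

end Fermat.Agent.P1.helper30
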