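import Fermat.Agent.P1.helper30_FlatCntWire3
import Fermat.Agent.P1.helper30_FlatMemII

/-!
# P1 / FLAT-CNT (helper30): THE DELIVERABLE OF THE MODULE

`locPOut_flat : Setting 𝒪 p ρbar S Smin → LocPOut p ρbar Smin (condFlat 𝒪 p Smin)`,
unconditional: the local term at `p` of the Selmer count for the flat deformation condition.

Layers 1+2 (`helper70_FlatDefs`): DICT-H0 (helper26), DICT-H-EMB (helper1), DICT-H-R1 / R2
(helper78, helper40), TAME-CHAR (helper3), ORD (helper49, helper57).
Layer 3 (`helper30_FlatCnt*`): BDD-GP (helper15), BDD-SUB (helper86), FC-BD (helper89, helper60),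
LF (helper65), LOCSET (helper62), TAME-I (helper97), RES-INJ (helper33), MEM-I (helper66),
HAT-EX (helper85), MEM-B / MEM-II (helper30), KQ-I (helper12), KQ-II (helper11), COUNT-I
(helper84), COUNT-II (helper47, helper88), KUMEQ (helper14 and his package owners), assembly
(helper30).
-/

set_option autoImplicit false

open IsLocalRing ExtCitation groupCohomology Polynomial

noncomputable section

namespace Fermat.Agent.P1.helper30

open Fermat.Agent.S55 Fermat.Agent.P1.helper70
open Fermat.Agent.S55.helper8 Fermat.Agent.S55.helper7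

variable (p : ℕ) [Fact p.Prime]

variable {𝒪 : Type} [CommRing 𝒪] [IsDomain 𝒪] [IsDiscreteValuationRing 𝒪]
  [IsAdicComplete (maximalIdeal 𝒪) 𝒪] [Finite (ResidueField 𝒪)]
  (ρbar : ResidualGaloisRep (ResidueField 𝒪)) (S Smin : Finset ℕ)
  [Algebra (ZMod p) (ResidueField 𝒪)]

/-- **FLAT-CNT**: the local term at `p` for the flat condition, unconditional. -/
theorem locPOut_flat (hset : helper70.Setting 𝒪 p ρbar S Smin) :
    LocPOut p ρbar Smin (condFlat 𝒪 p Smin) :=
  locPOut_flat_wire3 p ρbar S Smin hset (memII p) (memB p)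

/-- The local form `LocMain`, unconditional. -/
theorem locMain_flat (hset : helper70.Setting 𝒪 p ρbar S Smin) : LocMain ρbar p :=
  locMain_wire p ρbar (Fermat.Agent.P1.helper62.locSetting_of_setting p ρbar S Smin hset)
    (Fermat.Agent.P1.helper65.lfEdeg p) (Fermat.Agent.P1.helper65.lfUnram p)
    (Fermat.Agent.P1.helper97.tameI p) (memII p) (memB p) (kqI_holds p) (kqII_holds p)

end Fermat.Agent.P1.helper30
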