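import Fermat.Agent.P1.helper70_FTDefs
import Fermat.Agent.P1.helper92_DictDefs
import Fermat.Agent.P1.helper7_LSODefs
import Fermat.Prelude.Def_GaloisRep_Flat

/-!
# P1 / FLAT-CNT (helper70): the interface between `IsFlatAt` and the count

`Ω = PadicAlgCl p`, `G_p = Gal(Ω/ℚ_p)` (`= primeLocalGaloisGroup`), `I_p = locInertiaNat p`
(helper92_DictDefs).  For a representation `ρ : GaloisRepAdic A` and an ideal `I` of finite index,
`G_p` acts on `X = V / I V` through `locAct p ρ I`.

LAYER 1 (module DICT-H; the ONLY place where the Hopf algebra of `IsFlatAt` is used):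
* `DictH0Statement` : the points of the Hopf algebra with values in `Ω`, `G_p`-equivariantly;
* `FlatEmb ρ I`     : the field cut out by `X` has Fontaine's embedding property (from
                      `helper47.hopfMain`); input of KUMEQ / (BD);
* `FlatR1 ρ I`      : (R1) the ramified part `X^ram` has no trivial inertia subquotient
                      (from `FTAStatement`, `FTCStatement`);
* `FlatR2 ρ I`      : (R2) a tame inertia-stable line in `X^ram` carries the cyclotomic
                      character (from `FTOTStatement`).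

LAYER 2 (module ORD; pure algebra on top of layer 1):
* `TameCharStatement` : characters of `G_p` with values in a field of characteristic `p` have
                      order dividing `p - 1` on inertia (from the tame structure, module LQ);
* `OrdStatement`    : a flat tangent lift of a `ρbar` which is reducible at `p` is ORDINARY:
                      there is a `G_p`-stable line `L` with trivial inertia action on `V/L`,
                      and the cocycle is cohomologous (on `G_p`) to a `B⁰(L)`-valued cocycle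
                      which is `W(L)`-valued on inertia.

DEFINITIONS ONLY.
-/

set_option autoImplicit false

open IsLocalRing ExtCitation

namespace Fermat.Agent.P1.helper70

open Fermat.Agent.S55.helper8 Fermat.Agent.S55.helper7 Fermat.Agent.P1.helper14
open Fermat.Agent.P1.helper92 Fermat.Agent.S55

variable (p : ℕ) [Fact p.Prime]

section Layer1

variable {A : Type} [CommRing A] [IsLocalRing A] (ρ : GaloisRepAdic A) (I : Ideal A)

/-- The action of the local Galois group at `p` on `V / I V`. -/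
noncomputable def locAct (τ : PadicAlgCl p ≃ₐ[ℚ_[p]] PadicAlgCl p) :
    (ρ.V ⧸ (I • (⊤ : Submodule A ρ.V))) →ₗ[A] (ρ.V ⧸ (I • (⊤ : Submodule A ρ.V))) :=
  ρ.levelAction I (localGaloisToGlobal p τ)

/-- The ramified part of `V / I V`: the subgroup generated by the `τ x - x`, `τ` in the inertia
group at `p`. -/
def ramPart : AddSubgroup (ρ.V ⧸ (I • (⊤ : Submodule A ρ.V))) :=
  AddSubgroup.closure {y | ∃ τ ∈ locInertiaNat p, ∃ x, y = locAct p ρ I τ x - x}

/-- **(R1)**: the ramified part has no trivial inertia-subquotient: if `x ∈ X^ram` and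
`τ x - x ∈ Y` for all `τ ∈ I_p`, `Y` an inertia-stable subgroup, then `x ∈ Y`. -/
def FlatR1 : Prop :=
  ∀ Y : AddSubgroup (ρ.V ⧸ (I • (⊤ : Submodule A ρ.V))),
    (∀ τ ∈ locInertiaNat p, ∀ y ∈ Y, locAct p ρ I τ y ∈ Y) →
    ∀ x ∈ ramPart p ρ I, (∀ τ ∈ locInertiaNat p, locAct p ρ I τ x - x ∈ Y) → x ∈ Y

/-- **(R2)**: let `x ≠ 0` lie in the ramified part and be fixed by an open normal subgroup `N`
of `G_p` of index prime to `p` (so `x` is defined over a tame extension).  If inertia acts on `x`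
through a character `τ x = a_τ • x`, then this is the cyclotomic character. -/
def FlatR2 : Prop :=
  ∀ x ∈ ramPart p ρ I, x ≠ 0 →
    ∀ N : Subgroup (PadicAlgCl p ≃ₐ[ℚ_[p]] PadicAlgCl p), N.Normal →
      (∃ L₀ : IntermediateField ℚ (AlgebraicClosure ℚ), FiniteDimensional ℚ L₀ ∧
        ∀ τ : PadicAlgCl p ≃ₐ[ℚ_[p]] PadicAlgCl p,
          (∀ z ∈ L₀, localGaloisToGlobal p τ z = z) → τ ∈ N) →
      (∀ g : PadicAlgCl p ≃ₐ[ℚ_[p]] PadicAlgCl p, ∃ m : ℕ, ¬ p ∣ m ∧ g ^ m ∈ N) →
      (∀ s ∈ N, locAct p ρ I s x = x) →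
      (∀ τ ∈ locInertiaNat p, ∃ a : ℕ, locAct p ρ I τ x = a • x) →
      ∀ τ ∈ locInertiaNat p, ∀ a : ℕ, locAct p ρ I τ x = a • x →
        (a : ZMod p) = ((cycloChar p (localGaloisToGlobal p τ) : (ZMod p)ˣ) : ZMod p)

/-- **(EMB)**: the field cut out by `V / I V` at `p` has Fontaine's embedding property. -/
def FlatEmb : Prop :=
  ∃ (L : IntermediateField ℚ_[p] (PadicAlgCl p)) (_ : FiniteDimensional ℚ_[p] L),
    IsGalois ℚ_[p] L ∧
    (∀ τ : PadicAlgCl p ≃ₐ[ℚ_[p]] PadicAlgCl p,
      (∀ z ∈ L, τ z = z) ↔ ∀ x, locAct p ρ I τ x = x) ∧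
    EmbProperty p L

end Layer1

/-- **DICT-H0**: transport of `IsFlatAt` to `PadicAlgCl p`: the group `V / I V` is the group of
`Ω`-valued points of the Hopf algebra, compatibly with the action of `G_p`. -/
def DictH0Statement : Prop :=
  ∀ (A : Type) [CommRing A] [IsLocalRing A] (ρ : GaloisRepAdic A), ρ.IsFlatAt p →
    ∀ I : Ideal A, Finite (A ⧸ I) →
    ∃ (H : Type) (_ : CommRing H) (_ : HopfAlgebra (GaloisRep.ratLocalizedAt p) H),
      Module.Finite (GaloisRep.ratLocalizedAt p) H ∧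
      Module.Flat (GaloisRep.ratLocalizedAt p) H ∧
      Coalgebra.IsCocomm (GaloisRep.ratLocalizedAt p) H ∧
      ∃ e : WithConv (H →ₐ[GaloisRep.ratLocalizedAt p] PadicAlgCl p) ≃
          (ρ.V ⧸ (I • (⊤ : Submodule A ρ.V))),
        (∀ f g : WithConv (H →ₐ[GaloisRep.ratLocalizedAt p] PadicAlgCl p),
          e (f * g) = e f + e g) ∧
        ∀ (τ : PadicAlgCl p ≃ₐ[ℚ_[p]] PadicAlgCl p)
          (f g : WithConv (H →ₐ[GaloisRep.ratLocalizedAt p] PadicAlgCl p)),
          (∀ h : H, g.ofConv h = τ (f.ofConv h)) → e g = locAct p ρ I τ (e f)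

/-- **DICT-H (EMB)**. -/
def DictHEmbStatement : Prop :=
  ∀ (A : Type) [CommRing A] [IsLocalRing A] (ρ : GaloisRepAdic A), ρ.IsFlatAt p →
    ∀ I : Ideal A, Finite (A ⧸ I) → (p : A) ∈ I → FlatEmb p ρ I

/-- **DICT-H (R1)**. -/
def DictHR1Statement : Prop :=
  p ≠ 2 → ∀ (A : Type) [CommRing A] [IsLocalRing A] (ρ : GaloisRepAdic A), ρ.IsFlatAt p →
    ∀ I : Ideal A, Finite (A ⧸ I) → (p : A) ∈ I → FlatR1 p ρ I

/-- **DICT-H (R2)**. -/
def DictHR2Statement : Prop :=
  p ≠ 2 → ∀ (A : Type) [CommRing A] [IsLocalRing A] (ρ : GaloisRepAdic A), ρ.IsFlatAt p →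
    ∀ I : Ideal A, Finite (A ⧸ I) → (p : A) ∈ I → FlatR2 p ρ I

/-- **(TR)**: a character of `G_p` with values in a field of characteristic `p`, trivial on an
open subgroup, has order dividing `p - 1` on inertia. -/
def TameCharStatement : Prop :=
  ∀ (k : Type) [Field k] [CharP k p]
    (χ : (PadicAlgCl p ≃ₐ[ℚ_[p]] PadicAlgCl p) →* kˣ),
    (∃ L₀ : IntermediateField ℚ (AlgebraicClosure ℚ), FiniteDimensional ℚ L₀ ∧
      ∀ τ : PadicAlgCl p ≃ₐ[ℚ_[p]] PadicAlgCl p,
        (∀ z ∈ L₀, localGaloisToGlobal p τ z = z) → χ τ = 1) →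
    ∀ τ ∈ locInertiaNat p, χ τ ^ (p - 1) = 1

/-- **ORD**.  Let `ρ = (1 + ε c) ρbar` be a lift of `ρbar` to the dual numbers with cyclotomic
determinant satisfying (R1) and (R2) (e.g. a flat lift), `p` odd, and assume that `ρbar` has a
line stable under `G_p`.  Then there are a line `L` of `ρbar.V`, stable under `G_p`, with
trivial action of inertia on `V / L`, and `X ∈ ad⁰` such that `c - ∂X` has values in
`B⁰(L) = borelSub ρbar L` on `G_p` and in `W(L) = nilSub ρbar L` on inertia. -/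
def OrdStatement : Prop :=
  ∀ (𝒪 : Type) [CommRing 𝒪] [IsLocalRing 𝒪] (ρbar : ResidualGaloisRep (ResidueField 𝒪)),
    p ≠ 2 → TameCharStatement p →
    (∃ τ ∈ locInertiaNat p, cycloChar p (localGaloisToGlobal p τ) ≠ 1) →
    ∀ (ρ : GaloisRepAdic (DualNumber (ResidueField 𝒪))), ρ.DetIsCyclotomic p →
      FlatR1 p ρ ⊥ → FlatR2 p ρ ⊥ → ∀ c : GQ → Ad0 ρbar, IsTanLift ρbar ρ c →
      (∃ L₀ : Submodule (ResidueField 𝒪) ρbar.V, Module.finrank (ResidueField 𝒪) L₀ = 1 ∧
        ∀ τ : PadicAlgCl p ≃ₐ[ℚ_[p]] PadicAlgCl p, ∀ w ∈ L₀,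
          ρbar.ρ (localGaloisToGlobal p τ) w ∈ L₀) →
      ∃ (L : Submodule (ResidueField 𝒪) ρbar.V) (X : Ad0 ρbar),
        Module.finrank (ResidueField 𝒪) L = 1 ∧
        (∀ τ : PadicAlgCl p ≃ₐ[ℚ_[p]] PadicAlgCl p, ∀ w ∈ L,
          ρbar.ρ (localGaloisToGlobal p τ) w ∈ L) ∧
        (∀ τ ∈ locInertiaNat p, ∀ w : ρbar.V, ρbar.ρ (localGaloisToGlobal p τ) w - w ∈ L) ∧
        (∀ τ : PadicAlgCl p ≃ₐ[ℚ_[p]] PadicAlgCl p,
          c (localGaloisToGlobal p τ) - (ad0Hom ρbar (localGaloisToGlobal p τ) X - X) ∈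
            helper7.borelSub ρbar L) ∧
        (∀ τ ∈ locInertiaNat p,
          c (localGaloisToGlobal p τ) - (ad0Hom ρbar (localGaloisToGlobal p τ) X - X) ∈
            helper7.nilSub ρbar L)

end Fermat.Agent.P1.helper70
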