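import Fermat.Agent.P1.helper30_FlatCntPkgs
import Fermat.Agent.P1.helper30_FlatCntAsm0
import Fermat.Agent.P1.helper70_FlatDefs
import Fermat.Agent.P1.helper61_DictLocN

/-!
# P1 / FLAT-CNT (helper30): LAYER 3 on top of helper70's layers 1+2, and the final assembly

Layers 1+2 are `helper70_FlatDefs` (`FlatEmb`, `FlatR1`, `FlatR2`, `DictH*Statement`,
`TameCharStatement`, `OrdStatement`).  This file fixes the LAYER 3 statements in their final
form and proves the assembly

  `locMain_of : (layer 1+2 outputs) → (layer 3 packages) → LocSetting p ρbar → LocMain ρbar p`,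

hence (`locPOut_of_locMain`) the module deliverable `LocPOut p ρbar Smin (condFlat 𝒪 p Smin)`.

* `inertiaΩ_eq_locInertiaNat` : bridge of the two inertia groups;
* `IsBddGp`        : the `bdd` clause of `IsFlatGp` alone;
* `BddGpStatement` : `FlatEmb p ρ ⊥ → IsBddGp p (locAct p ρ)` (from FC-BD + (BD));
* `BddSubStatement`: bounded functions form a subgroup;
* `MemI2Statement`, `MemII2Statement`, `MemBStatement`, `CountII2Statement` : final forms of
  MEM-I, MEM-II, COUNT-II (the forms in `helper30_FlatCntPkgs` with `IsFlatGp` are superseded).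
-/

set_option autoImplicit false
set_option linter.style.haveILetI false

open IsLocalRing ExtCitation groupCohomology Polynomial

noncomputable section

namespace Fermat.Agent.P1.helper30

open Fermat.Agent.S55 Fermat.Agent.P1.helper70
open Fermat.Agent.S55.helper8 Fermat.Agent.S55.helper7

variable (p : ℕ) [Fact p.Prime]

/-- The inertia group of this module is the inertia group of module DICT. -/
theorem inertiaΩ_eq_locInertiaNat : inertiaΩ p = helper92.locInertiaNat p := by
  ext τ
  rw [Fermat.Agent.P1.helper61.mem_locInertiaNat_iff]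
  rfl

/-- The `bdd` clause of `IsFlatGp`: every homomorphism `G_T → 𝔽_p` trivial on the kernel of the
action is bounded, for `T` tame containing `ζ_p`, inside the field cut out by `E`, with
`p`-group Galois group. -/
def IsBddGp {E : Type} [AddCommGroup E] (act : Gp p → E → E) : Prop :=
  ∀ (T : IntermediateField ℚ_[p] (PadicAlgCl p)) [FiniteDimensional ℚ_[p] T],
    ¬ p ∣ edeg p T → (∃ ζ ∈ T, IsPrimitiveRoot ζ p) →
    (∀ g : Gp p, (∀ x, act g x = x) → g ∈ T.fixingSubgroup) →
    (∀ g ∈ T.fixingSubgroup, ∃ n : ℕ, ∀ x, act (g ^ p ^ n) x = x) →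
    ∀ f : Gp p → ZMod p,
      (∀ g ∈ T.fixingSubgroup, ∀ h ∈ T.fixingSubgroup, f (g * h) = f g + f h) →
      (∀ g : Gp p, (∀ x, act g x = x) → f g = 0) → IsBddHom p T f

lemma IsFlatGp.isBddGp {E : Type} [AddCommGroup E] {act : Gp p → E → E}
    (h : IsFlatGp p act) : IsBddGp p act := h.bdd

/-- **BDD-GP**: the field cut out by a flat `ρ` has the embedding property (`FlatEmb`, layer 1),
hence `(BD')` applies to it. -/
def BddGpStatement : Prop :=
  FCBdStatement p → helper14.KummerBounded p →
  ∀ (A : Type) [CommRing A] [IsLocalRing A] (ρ : GaloisRepAdic A),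
    helper70.FlatEmb p ρ ⊥ → IsBddGp p (locAct p ρ)

/-- **BDD-SUB**: the bounded functions form a subgroup, stable under scalars. -/
def BddSubStatement : Prop :=
  ∀ (T : IntermediateField ℚ_[p] (PadicAlgCl p)) [FiniteDimensional ℚ_[p] T]
    (f₁ f₂ : Gp p → ZMod p) (a : ZMod p),
    IsBddHom p T f₁ → IsBddHom p T f₂ →
      IsBddHom p T (fun g => f₁ g + f₂ g) ∧ IsBddHom p T (fun g => a * f₁ g)

/-- **MEM-I** (final form). -/
def MemI2Statement : Prop :=
  ∀ (𝒪 : Type) [CommRing 𝒪] [IsLocalRing 𝒪] [Finite (ResidueField 𝒪)]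
    (ρbar : ResidualGaloisRep (ResidueField 𝒪)) [Algebra (ZMod p) (ResidueField 𝒪)],
    LocSetting p ρbar →
    ∀ (T : IntermediateField ℚ_[p] (PadicAlgCl p)) [FiniteDimensional ℚ_[p] T],
      (∀ g : Gp p, g ∈ T.fixingSubgroup ↔ ρbar.ρ (localGaloisToGlobal p g) = 1) →
      ¬ p ∣ edeg p T → (∃ ζ ∈ T, IsPrimitiveRoot ζ p) →
      ∀ (ρ : GaloisRepAdic (DualNumber (ResidueField 𝒪))) (c : GQ → Ad0 ρbar),
        IsTanLift ρbar ρ c → IsBddGp p (locAct p ρ) →
        (fun g : primeLocalGaloisGroup (pPrime p) =>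
            (c (primeLocalToGlobal (pPrime p) g) : locM ρbar p)) ∈
          Z1 (locLevels (pPrime p)) (locM ρbar p) →
        (fun g : primeLocalGaloisGroup (pPrime p) =>
            (c (primeLocalToGlobal (pPrime p) g) : locM ρbar p)) ∈
          bddCocycles p ρbar T ⊤ ⊤

/-- **MEM-II** (final form). -/
def MemII2Statement : Prop :=
  LFOpenStatement p → LFEdegStatement p → LFZetaStatement p → LFUnramStatement p →
  ∀ (𝒪 : Type) [CommRing 𝒪] [IsLocalRing 𝒪] [Finite (ResidueField 𝒪)]
    (ρbar : ResidualGaloisRep (ResidueField 𝒪)) [Algebra (ZMod p) (ResidueField 𝒪)],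
    LocSetting p ρbar → Module.finrank (ResidueField 𝒪) ↥(ramLine p ρbar) = 1 →
    (∀ g : Gp p, ∀ x ∈ ramLine p ρbar,
      ρbar.ρ (localGaloisToGlobal p g) x ∈ ramLine p ρbar) →
    ∀ (T : IntermediateField ℚ_[p] (PadicAlgCl p)) [FiniteDimensional ℚ_[p] T],
      IsHatField p ρbar T →
      ∀ (ρ : GaloisRepAdic (DualNumber (ResidueField 𝒪))) (c : GQ → Ad0 ρbar) (X : Ad0 ρbar),
        IsTanLift ρbar ρ c → IsBddGp p (locAct p ρ) →
        (∀ g : Gp p, c (localGaloisToGlobal p g) -
            (ad0Hom ρbar (localGaloisToGlobal p g) X - X) ∈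
          helper7.borelSub ρbar (ramLine p ρbar)) →
        (∀ g ∈ inertiaΩ p, c (localGaloisToGlobal p g) -
            (ad0Hom ρbar (localGaloisToGlobal p g) X - X) ∈
          helper7.nilSub ρbar (ramLine p ρbar)) →
        (fun g : primeLocalGaloisGroup (pPrime p) =>
            (c (primeLocalToGlobal (pPrime p) g) : locM ρbar p)) ∈
          Z1 (locLevels (pPrime p)) (locM ρbar p) →
        (fun g : primeLocalGaloisGroup (pPrime p) =>
            ((c (primeLocalToGlobal (pPrime p) g) -
              (ad0Hom ρbar (primeLocalToGlobal (pPrime p) g) X - X) : Ad0 ρbar) :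
                locM ρbar p)) ∈
          bddCocycles p ρbar T
            (helper7.borelSub ρbar (ramLine p ρbar)) (helper7.nilSub ρbar (ramLine p ρbar))

/-- **MEM-B** (CASE II). If a flat tangent lift exists, the coboundaries of the elements of the
Borel are bounded over `T̂` (boundedness of the class of `ρbar` itself). -/
def MemBStatement : Prop :=
  LFOpenStatement p → LFEdegStatement p → LFZetaStatement p → LFUnramStatement p →
  ∀ (𝒪 : Type) [CommRing 𝒪] [IsLocalRing 𝒪] [Finite (ResidueField 𝒪)]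
    (ρbar : ResidualGaloisRep (ResidueField 𝒪)) [Algebra (ZMod p) (ResidueField 𝒪)],
    LocSetting p ρbar → Module.finrank (ResidueField 𝒪) ↥(ramLine p ρbar) = 1 →
    (∀ g : Gp p, ∀ x ∈ ramLine p ρbar,
      ρbar.ρ (localGaloisToGlobal p g) x ∈ ramLine p ρbar) →
    ∀ (T : IntermediateField ℚ_[p] (PadicAlgCl p)) [FiniteDimensional ℚ_[p] T],
      IsHatField p ρbar T →
      ∀ (ρ : GaloisRepAdic (DualNumber (ResidueField 𝒪))) (c : GQ → Ad0 ρbar),
        IsTanLift ρbar ρ c → IsBddGp p (locAct p ρ) →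
        ∀ X ∈ helper7.borelSub ρbar (ramLine p ρbar),
          (fun g : primeLocalGaloisGroup (pPrime p) =>
            ((ad0Hom ρbar (primeLocalToGlobal (pPrime p) g) X - X : Ad0 ρbar) :
              locM ρbar p)) ∈
          bddCocycles p ρbar T
            (helper7.borelSub ρbar (ramLine p ρbar)) (helper7.nilSub ρbar (ramLine p ρbar))

/-- **COUNT-II** (final form; from KQ-II + BDD-SUB + unramified homomorphisms + linear
algebra). -/
def CountII2Statement : Prop :=
  KQIIStatement p → BddSubStatement p →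
  ∀ (𝒪 : Type) [CommRing 𝒪] [IsLocalRing 𝒪] [Finite (ResidueField 𝒪)]
    (ρbar : ResidualGaloisRep (ResidueField 𝒪)) [Algebra (ZMod p) (ResidueField 𝒪)],
    LocSetting p ρbar →
    Module.finrank (ResidueField 𝒪) ↥(ramLine p ρbar) = 1 →
    (∀ g : Gp p, ∀ x ∈ ramLine p ρbar,
      ρbar.ρ (localGaloisToGlobal p g) x ∈ ramLine p ρbar) →
    ∀ (T : IntermediateField ℚ_[p] (PadicAlgCl p)) [FiniteDimensional ℚ_[p] T],
      IsHatField p ρbar T →
      (∀ X ∈ helper7.borelSub ρbar (ramLine p ρbar),
        (fun g : primeLocalGaloisGroup (pPrime p) =>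
          ((ad0Hom ρbar (primeLocalToGlobal (pPrime p) g) X - X : Ad0 ρbar) :
            locM ρbar p)) ∈
        bddCocycles p ρbar T
          (helper7.borelSub ρbar (ramLine p ρbar)) (helper7.nilSub ρbar (ramLine p ρbar))) →
      Module.Finite (ZMod p) ↥(bbOf p ρbar T
        (helper7.borelSub ρbar (ramLine p ρbar)) (helper7.nilSub ρbar (ramLine p ρbar))) ∧
      Module.finrank (ZMod p) ↥(bbOf p ρbar T
        (helper7.borelSub ρbar (ramLine p ρbar)) (helper7.nilSub ρbar (ramLine p ρbar))) ≤
        Module.finrank (ZMod p) ↥(S55.H0 (locM ρbar p)) +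
          Module.finrank (ZMod p) (ResidueField 𝒪)

end Fermat.Agent.P1.helper30
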