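import Fermat.Agent.P1.helper30_FlatCntPkgs

/-!
# P1 / module FLAT-CNT, package RES-INJ (helper33, task 792)

`resInj : helper30.ResInjStatement p` : a level `1`-cocycle with values in an `𝔽_p`-representation
which vanishes on a normal subgroup `U` of finite index prime to `p` acting trivially is a
coboundary (averaging over `G ⧸ U`).

* `resInj_mul` : the cocycle relation;
* `mem_B1_of_vanish` : the abstract statement over any commutative ring `k` in which the index
  of `U` is invertible;
* `resInj` : the package statement, verbatim.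
-/

set_option autoImplicit false

open groupCohomology

noncomputable section

namespace Fermat.Agent.P1.helper33

open Fermat.Agent.S55

section Abstract

variable {k G : Type} [CommRing k] [Group G] (A : Rep k G)

/-- the cocycle relation for a function killed by `d₁₂` -/
theorem resInj_mul {c : G → A} (hc : (d₁₂ A).hom c = 0) (g h : G) :
    c (g * h) = c g + A.ρ g (c h) := by
  have h1 : (d₁₂ A).hom c (g, h) = 0 := by
    rw [hc]
    rfl
  rw [d₁₂_hom_apply] at h1
  have h2 : A.ρ g (c h) - c (g * h) + c g = 0 := h1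
  have h3 : c (g * h) = A.ρ g (c h) + c g := by
    rw [sub_add_eq_add_sub, sub_eq_zero] at h2
    exact h2.symm
  rw [h3, add_comm]

/-- **RES-INJ**, abstract form: a `1`-cocycle vanishing on a normal subgroup `U` of finite index
`n`, with `n` invertible in `k`, is a coboundary (the action of `U` plays no role). -/
theorem mem_B1_of_vanish (U : Subgroup G) [U.Normal] [Finite (G ⧸ U)]
    (ninv : k) (hninv : ninv * (Nat.card (G ⧸ U) : k) = 1)
    {c : G → A} (hc : (d₁₂ A).hom c = 0) (hcU : ∀ u ∈ U, c u = 0) : c ∈ B1 A := by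
  classical
  let _ : Fintype (G ⧸ U) := Fintype.ofFinite _
  have hmul := resInj_mul A hc
  -- `c` is constant on the cosets of `U`
  have hcu : ∀ g : G, ∀ u ∈ U, c (g * u) = c g := by
    intro g u hu
    rw [hmul, hcU u hu, map_zero, add_zero]
  have hcoset : ∀ g h : G, (QuotientGroup.mk g : G ⧸ U) = QuotientGroup.mk h → c g = c h := by
    intro g h hgh
    have hmem : g⁻¹ * h ∈ U := QuotientGroup.eq.1 hgh
    have := hcu g (g⁻¹ * h) hmem
    rw [mul_inv_cancel_left] at this
    exact this.symm
  -- the induced function on the quotient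
  let cbar : G ⧸ U → A := fun x => c x.out
  have hcbar : ∀ g : G, cbar (QuotientGroup.mk g) = c g := fun g =>
    hcoset _ _ (QuotientGroup.out_eq' _)
  -- the sum
  let s : A := ∑ x : G ⧸ U, cbar x
  -- translation
  have htrans : ∀ g : G, ∑ x : G ⧸ U, cbar (QuotientGroup.mk g * x) = s := by
    intro g
    exact Fintype.sum_equiv (Equiv.mulLeft (QuotientGroup.mk g : G ⧸ U)) _ _ (fun x => rfl)
  have hstep : ∀ (g : G) (x : G ⧸ U),
      cbar (QuotientGroup.mk g * x) = c g + A.ρ g (cbar x) := by
    intro g x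
    have hx : x = QuotientGroup.mk x.out := (QuotientGroup.out_eq' x).symm
    have h1 : (QuotientGroup.mk g : G ⧸ U) * x = QuotientGroup.mk (g * x.out) := by
      conv_lhs => rw [hx]
      rfl
    rw [h1, hcbar, hmul]
  have hsum : ∀ g : G, s = (Nat.card (G ⧸ U) : k) • c g + A.ρ g s := by
    intro g
    have h1 : s = ∑ x : G ⧸ U, (c g + A.ρ g (cbar x)) := by
      rw [← htrans g]
      exact Finset.sum_congr rfl (fun x _ => hstep g x)
    have h2 : A.ρ g s = ∑ x : G ⧸ U, A.ρ g (cbar x) := map_sum (A.ρ g) cbar Finset.univ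
    have h3 : ∑ x : G ⧸ U, (c g + A.ρ g (cbar x)) =
        (Nat.card (G ⧸ U) : k) • c g + ∑ x : G ⧸ U, A.ρ g (cbar x) := by
      rw [Finset.sum_add_distrib, Finset.sum_const, Finset.card_univ,
        Nat.card_eq_fintype_card, Nat.cast_smul_eq_nsmul]
    rw [h2, ← h3]
    exact h1
  refine ⟨-(ninv • s), ?_⟩
  funext g
  have h1 : (d₀₁ A).hom (-(ninv • s)) g = A.ρ g (-(ninv • s)) - -(ninv • s) := rfl
  rw [h1, map_neg, map_smul]
  have h2 : A.ρ g s = s - (Nat.card (G ⧸ U) : k) • c g := by
    have := hsum g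
    rw [eq_sub_iff_add_eq, add_comm]
    exact this.symm
  rw [h2, smul_sub, smul_smul, hninv, one_smul]
  abel

end Abstract

/-- **RES-INJ** (package statement of `helper30_FlatCntPkgs`, verbatim). -/
theorem resInj (p : ℕ) [Fact p.Prime] : helper30.ResInjStatement p := by
  intro G _ 𝒩 M U hU hidx htriv c hc hcU
  have hidx0 : U.index ≠ 0 := fun h => hidx (h ▸ dvd_zero p)
  have : U.Normal := hU
  have : U.FiniteIndex := ⟨hidx0⟩
  have : Finite (G ⧸ U) := Subgroup.finite_quotient_of_finiteIndex
  have hcard : Nat.card (G ⧸ U) = U.index := rfl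
  have hne : ((Nat.card (G ⧸ U) : ℕ) : ZMod p) ≠ 0 := by
    rw [hcard]
    intro h
    exact hidx ((ZMod.natCast_eq_zero_iff _ _).1 h)
  exact mem_B1_of_vanish M U ((Nat.card (G ⧸ U) : ZMod p)⁻¹) (inv_mul_cancel₀ hne)
    (LinearMap.mem_ker.1 hc.2) hcU

end Fermat.Agent.P1.helper33
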