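import Fermat.Agent.P1.helper70_FlatDefs
import Fermat.Agent.P1.helper24_LQFinal
import Fermat.Agent.P1.helper24_LQArith

/-!
# P1 (S56), module ORD / FLAT-TR (helper3, task 746): `TameCharStatement`

A character `χ` of the local Galois group `G_p` with values in a field of characteristic `p`,
trivial on the preimage of the fixing subgroup of a number field, satisfies
`χ τ ^ (p - 1) = 1` for every `τ` in the inertia group.

Proof: tame structure of `G_p` (module LQ, `helper24.tameStatement`, for a Frobenius lift `σ`):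
modulo a level `N` on which `χ` is trivial, the wild part `P` is a `p`-group, hence killed by
`χ` (characteristic `p`), and `σ i σ⁻¹ ≡ i ^ p` modulo `P`.
-/

set_option autoImplicit false

open Fermat.Agent.S55 ExtCitation

namespace Fermat.Agent.P1.helper3

/-- In characteristic `p`, a unit `y` with `y ^ p ^ a = 1` is `1`. -/
lemma tr_eq_one_of_pow_char_pow {k : Type} [Field k] (p : ℕ) [Fact p.Prime] [CharP k p]
    (y : kˣ) (a : ℕ) (h : y ^ p ^ a = 1) : y = 1 := by
  have h1 : ((y : k) - 1) ^ p ^ a = 0 := by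
    rw [sub_pow_char_pow, one_pow, ← Units.val_pow_eq_pow_val, h, Units.val_one, sub_self]
  have h2 : (y : k) - 1 = 0 := eq_zero_of_pow_eq_zero h1
  exact Units.ext (by rw [Units.val_one]; exact sub_eq_zero.1 h2)

/-- The abstract core: a character with values in characteristic `p` which is trivial on `N`
kills every subgroup `P` which is a `p`-group modulo `N`, and has order dividing `p - 1` on `I`
if `σ i σ⁻¹ ≡ i ^ p` modulo `P` on `I`. -/
lemma tr_core {G : Type} [Group G] {k : Type} [Field k] (p : ℕ) [Fact p.Prime] [CharP k p]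
    (χ : G →* kˣ) (N P I : Subgroup G) (σ : G) (hχN : ∀ x ∈ N, χ x = 1)
    (hPpow : ∀ x ∈ P, ∃ a : ℕ, x ^ p ^ a ∈ N)
    (hfrob : ∀ i ∈ I, σ * i * σ⁻¹ * (i ^ p)⁻¹ ∈ P) :
    ∀ τ ∈ I, χ τ ^ (p - 1) = 1 := by
  intro τ hτ
  have hχP : ∀ x ∈ P, χ x = 1 := by
    intro x hx
    obtain ⟨a, ha⟩ := hPpow x hx
    have h1 := hχN _ ha
    rw [map_pow] at h1
    exact tr_eq_one_of_pow_char_pow p _ a h1
  have h1 := hχP _ (hfrob τ hτ)
  rw [map_mul, map_mul, map_mul, map_inv, map_inv, map_pow] at h1
  have h2 : χ τ = χ τ ^ p := by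
    have h3 : χ σ * χ τ * (χ σ)⁻¹ = χ τ := by
      rw [mul_comm (χ σ), mul_assoc, mul_inv_cancel, mul_one]
    rw [h3] at h1
    exact mul_inv_eq_one.1 h1
  have hp : 1 ≤ p := (Fact.out : p.Prime).one_le
  have h4 : χ τ ^ (p - 1) * χ τ = 1 * χ τ := by
    rw [← pow_succ, Nat.sub_add_cancel hp, one_mul, ← h2]
  exact mul_right_cancel h4

/-- **[FLAT-TR]** characters of `G_p` with values in a field of characteristic `p` have order
dividing `p - 1` on inertia. -/
theorem tameChar (p : ℕ) [Fact p.Prime] : Fermat.Agent.P1.helper70.TameCharStatement p := by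
  rintro k _ _ χ ⟨L₀, hfin, hL₀⟩
  have : Algebra.IsAlgebraic ℚ (AlgebraicClosure ℚ) := AlgebraicClosure.isAlgebraic ℚ
  have : IsAlgClosure ℚ (AlgebraicClosure ℚ) := ⟨inferInstance, inferInstance⟩
  have : Normal ℚ (AlgebraicClosure ℚ) := IsAlgClosure.normal ℚ (AlgebraicClosure ℚ)
  set F : IntermediateField ℚ (AlgebraicClosure ℚ) :=
    IntermediateField.normalClosure ℚ L₀ (AlgebraicClosure ℚ) with hF
  have hFfin : FiniteDimensional ℚ F := normalClosure.is_finiteDimensional ℚ L₀ _
  have hFnor : Normal ℚ F := normalClosure.normal ℚ L₀ _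
  have hFn : (F.fixingSubgroup : Subgroup GQ).Normal := by
    rw [← IntermediateField.restrictNormalHom_ker]
    infer_instance
  have hN : (F.fixingSubgroup.comap (primeLocalToGlobal (pPrime p)))
      ∈ (locLevels (pPrime p)).mem := ⟨F, hFfin, hFn, rfl⟩
  obtain ⟨σ, hσ⟩ := Fermat.Agent.P1.helper24.frobExists (pPrime p)
  have hT := Fermat.Agent.P1.helper24.tameStatement (pPrime p) σ hσ
  obtain ⟨P, hPI, hNP, hPnorm, hPpow, hcyc, hfrob⟩ := hT.tame _ hN
  have hχN : ∀ x ∈ F.fixingSubgroup.comap (primeLocalToGlobal (pPrime p)),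
      (χ : primeLocalGaloisGroup (pPrime p) →* kˣ) x = 1 := by
    intro x hx
    apply hL₀
    intro z hz
    have hx' : primeLocalToGlobal (pPrime p) x ∈ F.fixingSubgroup := hx
    exact (IntermediateField.mem_fixingSubgroup_iff F _).1 hx' z
      (IntermediateField.le_normalClosure L₀ hz)
  exact tr_core (G := primeLocalGaloisGroup (pPrime p)) p χ _ P
    (Fermat.Agent.P1.helper24.locInertia (pPrime p)) σ hχN hPpow hfrob

end Fermat.Agent.P1.helper3
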