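import Fermat.Agent.P1.helper7_LSOAsm
import Fermat.Agent.P1.helper70_FlatDefs

/-!
# P1 / FLAT-CNT, LAYER 3 (helper47): the assembly skeleton

* `locRes`          : restriction of a global cochain to the local Galois group at `q`;
* `IsFlatBound`     : a space `Z` of local cochains at `p` such that every flat tangent cocycle
                      lies in `Z + B¹` and the classes of `Z + B¹` span at most `h⁰ + d`
                      dimensions;
* `FlatBound`       : existence of such a `Z`;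
* `locTanH_flat_bound`, `locPOut_condFlat_of` : `FlatBound` gives `LocPOut` for `condFlat`;
* `cntGen`          : generalised LSO-CNT: for a finite-dimensional space `Z` of level cocycles
                      containing the coboundaries of the elements of `B`:
                      `dim classes (Z + B¹) + dim B ≤ dim Z + h⁰`.
-/

set_option autoImplicit false
set_option linter.style.haveILetI false
set_option linter.unusedSectionVars false

open IsLocalRing ExtCitation groupCohomology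

noncomputable section

namespace Fermat.Agent.P1.helper47

open Fermat.Agent.S55 Fermat.Agent.P1.helper70 Fermat.Agent.P1.helper7

section Defs

variable {𝒪 : Type} [CommRing 𝒪] [IsLocalRing 𝒪]
  (ρbar : ResidualGaloisRep (ResidueField 𝒪))
  (p : ℕ) [Fact p.Prime] [Algebra (ZMod p) (ResidueField 𝒪)]

/-- The restriction of a global cochain with values in `ad⁰` to the local Galois group at `q`. -/
def locRes (q : Nat.Primes) (c : GQ → Ad0 ρbar) :
    primeLocalGaloisGroup q → locAd ρbar p q :=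
  fun g => c (primeLocalToGlobal q g)

lemma locRes_apply (q : Nat.Primes) (c : GQ → Ad0 ρbar) (g : primeLocalGaloisGroup q) :
    locRes ρbar p q c g = c (primeLocalToGlobal q g) := rfl

/-- `Z` bounds the flat tangent classes at `q` (in the application `q = pPrime p`):
every tangent cocycle of a flat lift with cyclotomic determinant restricts into `Z + B¹`, and the
classes of `Z + B¹` span a space of dimension `≤ h⁰(G_q, ad⁰) + [k : 𝔽_p]`. -/
def IsFlatBound (q : Nat.Primes)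
    (Z : Submodule (ZMod p) (primeLocalGaloisGroup q → locAd ρbar p q)) : Prop :=
  (∀ (ρ : GaloisRepAdic (DualNumber (ResidueField 𝒪))) (c : GQ → Ad0 ρbar),
      ρ.DetIsCyclotomic p → ρ.IsFlatAt p → IsTanLift ρbar ρ c →
      locRes ρbar p q c ∈ Z1 (locLevels q) (locAd ρbar p q) →
      locRes ρbar p q c ∈ Z ⊔ B1 (locAd ρbar p q)) ∧
    Module.Finite (ZMod p)
      ↥(classes (locLevels q) (locAd ρbar p q) (Z ⊔ B1 (locAd ρbar p q))) ∧
    Module.finrank (ZMod p)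
        ↥(classes (locLevels q) (locAd ρbar p q) (Z ⊔ B1 (locAd ρbar p q))) ≤
      Module.finrank (ZMod p) ↥(S55.H0 (locAd ρbar p q)) +
        Module.finrank (ZMod p) (ResidueField 𝒪)

/-- **The linear target of FLAT-CNT** (STEP 0 of BLUEPRINT P1-FLAT-CNT): there is a space of
local cochains at `p` bounding the flat tangent classes. -/
def FlatBound : Prop :=
  ∃ Z : Submodule (ZMod p) (primeLocalGaloisGroup (pPrime p) → locAd ρbar p (pPrime p)),
    IsFlatBound ρbar p (pPrime p) Z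

end Defs

section Asm

variable {𝒪 : Type} [CommRing 𝒪] [IsLocalRing 𝒪]
  (ρbar : ResidualGaloisRep (ResidueField 𝒪))
  (p : ℕ) [Fact p.Prime] [Algebra (ZMod p) (ResidueField 𝒪)]

/-- The local tangent cocycles of a condition implying "cyclotomic determinant + flat at `p`"
lie in `Z + B¹` for every bounding space `Z`. -/
theorem locTanZ_le_of_isFlatBound (T' : Finset Nat.Primes) (v : ↥T')
    (Z : Submodule (ZMod p) (primeLocalGaloisGroup v.1 → locAd ρbar p v.1))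
    (hZ : IsFlatBound ρbar p v.1 Z)
    (𝒟 : ∀ ⦃A : Type⦄ [CommRing A] [IsLocalRing A] [Algebra 𝒪 A], GaloisRepAdic A → Prop)
    (h𝒟 : ∀ ρ : GaloisRepAdic (DualNumber (ResidueField 𝒪)), 𝒟 ρ →
      ρ.DetIsCyclotomic p ∧ ρ.IsFlatAt p) :
    locTanZ ρbar p 𝒟 T' v ≤ Z ⊔ B1 (locAd ρbar p v.1) := by
  rw [locTanZ, tanZ, Submodule.map_sup]
  refine sup_le (sup_le ?_ ?_) le_sup_right
  · refine Submodule.map_le_iff_le_comap.2 (Submodule.span_le.2 ?_)
    rintro c ⟨hc, ρ, hρ, hl⟩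
    have hres : res₁ (galLocal T') (ad0Rep ρbar p) v c ∈
        Z1 (locLevels v.1) (locAd ρbar p v.1) := res₁_mem_Z1 p T' v (ad0Rep ρbar p) hc
    exact hZ.1 ρ c (h𝒟 ρ hρ).1 (h𝒟 ρ hρ).2 hl hres
  · exact (map_res₁_B1_le p T' v (ad0Rep ρbar p)).trans le_sup_right

/-- **ASM-1**: the count at one place from a bounding space. -/
theorem locTanH_flat_bound (hFB : FlatBound ρbar p)
    (T' : Finset Nat.Primes) (v : ↥T') (hv : ((v : Nat.Primes) : ℕ) = p)
    (𝒟 : ∀ ⦃A : Type⦄ [CommRing A] [IsLocalRing A] [Algebra 𝒪 A], GaloisRepAdic A → Prop)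
    (h𝒟 : ∀ ρ : GaloisRepAdic (DualNumber (ResidueField 𝒪)), 𝒟 ρ →
      ρ.DetIsCyclotomic p ∧ ρ.IsFlatAt p) :
    Module.Finite (ZMod p) ↥(locTanH ρbar p 𝒟 T' v) ∧
      Module.finrank (ZMod p) ↥(locTanH ρbar p 𝒟 T' v) ≤
        Module.finrank (ZMod p) ↥(S55.H0 ((galLocal T').loc (ad0Rep ρbar p) v)) +
          Module.finrank (ZMod p) (ResidueField 𝒪) := by
  obtain ⟨q, hqT⟩ := v
  have hq : q = pPrime p := Subtype.ext hv
  subst hq
  obtain ⟨Z, hZ⟩ := hFB
  have hle := locTanZ_le_of_isFlatBound ρbar p T' ⟨pPrime p, hqT⟩ Z hZ 𝒟 h𝒟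
  let Cl : Submodule (ZMod p)
      (H1 ((galLocal T').lev ⟨pPrime p, hqT⟩)
        ((galLocal T').loc (ad0Rep ρbar p) ⟨pPrime p, hqT⟩)) :=
    classes (locLevels (pPrime p)) (locAd ρbar p (pPrime p))
      (Z ⊔ B1 (locAd ρbar p (pPrime p)))
  have hCfin : Module.Finite (ZMod p) ↥Cl := hZ.2.1
  have hCle : Module.finrank (ZMod p) ↥Cl ≤
      Module.finrank (ZMod p)
          ↥(S55.H0 ((galLocal T').loc (ad0Rep ρbar p) ⟨pPrime p, hqT⟩)) +
        Module.finrank (ZMod p) (ResidueField 𝒪) := hZ.2.2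
  have hsub : locTanH ρbar p 𝒟 T' ⟨pPrime p, hqT⟩ ≤ Cl := classes_mono p _ _ hle
  refine ⟨Module.Finite.of_injective (Submodule.inclusion hsub)
    (Submodule.inclusion_injective hsub), ?_⟩
  exact (Submodule.finrank_mono hsub).trans hCle

end Asm

section Deliverable

variable {𝒪 : Type} [CommRing 𝒪] [IsDomain 𝒪] [IsDiscreteValuationRing 𝒪]
  [IsAdicComplete (maximalIdeal 𝒪) 𝒪] [Finite (ResidueField 𝒪)]
  {p : ℕ} [Fact p.Prime]
  {ρbar : ResidualGaloisRep (ResidueField 𝒪)}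
  {Smin : Finset ℕ}
  [Algebra (ZMod p) (ResidueField 𝒪)]

/-- **DELIVERABLE of FLAT-CNT** from the linear target: `LocPOut` for the flat condition. -/
theorem locPOut_condFlat_of (hFB : FlatBound ρbar p) :
    LocPOut p ρbar Smin (condFlat 𝒪 p Smin) := by
  intro T _ v hv
  exact locTanH_flat_bound ρbar p hFB (primesOf T) v hv (condFlat 𝒪 p Smin T)
    (fun _ hρ => ⟨hρ.1.1, hρ.1.2.1⟩)

end Deliverable

/-! ## Generalised LSO-CNT -/

section CntGen

variable {p : ℕ} [Fact p.Prime] {G : Type} [Group G] (𝒩 : Levels G) (N : Rep (ZMod p) G)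

/-- a coboundary of a smooth module is a level cocycle. -/
theorem d₀₁_mem_Z1 (hN : IsSmooth 𝒩 N) (a : N) : (d₀₁ N).hom a ∈ Z1 𝒩 N := by
  refine ⟨?_, d₀₁_comp_d₁₂_apply N a⟩
  obtain ⟨N₀, hN₀, h⟩ := hN
  refine ⟨N₀, hN₀, fun g s hs => ?_⟩
  simp only [d₀₁_hom_apply, map_mul, Module.End.mul_apply, h s hs]

variable (Z : Submodule (ZMod p) (G → N)) (B : Submodule (ZMod p) N)

/-- the map `δ : B → Z`, `b ↦ (g ↦ g b - b)`. -/
def genDelta (hB : ∀ b ∈ B, (d₀₁ N).hom b ∈ Z) : ↥B →ₗ[ZMod p] ↥Z :=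
  LinearMap.codRestrict Z ((d₀₁ N).hom ∘ₗ B.subtype) fun b => hB b b.2

theorem genDelta_apply (hB : ∀ b ∈ B, (d₀₁ N).hom b ∈ Z) (b : ↥B) :
    ((genDelta N Z B hB b : ↥Z) : G → N) = (d₀₁ N).hom (b : N) := rfl

/-- the map `π : Z → H¹(G, N)`. -/
def genPi (hZ : Z ≤ Z1 𝒩 N) : ↥Z →ₗ[ZMod p] H1 𝒩 N :=
  (Submodule.mkQ ((B1 N).comap (Z1 𝒩 N).subtype)) ∘ₗ Submodule.inclusion hZ

/-- the range of `π` is the space of classes of `Z + B¹`. -/
theorem range_genPi (hN : IsSmooth 𝒩 N) (hZ : Z ≤ Z1 𝒩 N) :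
    LinearMap.range (genPi 𝒩 N Z hZ) = classes 𝒩 N (Z ⊔ B1 N) := by
  apply le_antisymm
  · rintro _ ⟨c, rfl⟩
    refine ⟨Submodule.inclusion hZ c, ?_, rfl⟩
    exact Submodule.mem_sup_left c.2
  · rintro _ ⟨z, hz, rfl⟩
    obtain ⟨a, ha, b, hb, hab⟩ := Submodule.mem_sup.1 hz
    obtain ⟨b₀, rfl⟩ := hb
    refine ⟨⟨a, ha⟩, ?_⟩
    have hb' : (d₀₁ N).hom b₀ ∈ Z1 𝒩 N := d₀₁_mem_Z1 𝒩 N hN b₀
    have hz' : z = Submodule.inclusion hZ ⟨a, ha⟩ + ⟨(d₀₁ N).hom b₀, hb'⟩ :=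
      Subtype.ext hab.symm
    rw [hz', map_add]
    have h0 : Submodule.mkQ ((B1 N).comap (Z1 𝒩 N).subtype)
        (⟨(d₀₁ N).hom b₀, hb'⟩ : ↥(Z1 𝒩 N)) = 0 := by
      rw [Submodule.mkQ_apply, Submodule.Quotient.mk_eq_zero]
      exact ⟨b₀, rfl⟩
    rw [h0, add_zero]
    rfl

/-- `range δ ≤ ker π`. -/
theorem range_genDelta_le (hZ : Z ≤ Z1 𝒩 N) (hB : ∀ b ∈ B, (d₀₁ N).hom b ∈ Z) :
    LinearMap.range (genDelta N Z B hB) ≤ LinearMap.ker (genPi 𝒩 N Z hZ) := by
  rintro _ ⟨b, rfl⟩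
  rw [LinearMap.mem_ker, genPi, LinearMap.comp_apply, Submodule.mkQ_apply,
    Submodule.Quotient.mk_eq_zero]
  exact ⟨(b : N), rfl⟩

/-- `ker δ` embeds into `H⁰(G, N)`. -/
theorem finrank_ker_genDelta_le [Module.Finite (ZMod p) N]
    (hB : ∀ b ∈ B, (d₀₁ N).hom b ∈ Z) :
    Module.finrank (ZMod p) ↥(LinearMap.ker (genDelta N Z B hB)) ≤
      Module.finrank (ZMod p) ↥(S55.H0 N) := by
  have hmem : ∀ x : ↥(LinearMap.ker (genDelta N Z B hB)), ((x : ↥B) : N) ∈ S55.H0 N := by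
    rintro ⟨b, hb⟩ g
    have h1 : ((genDelta N Z B hB b : ↥Z) : G → N) g = 0 := by
      rw [LinearMap.mem_ker.1 hb]
      rfl
    rw [genDelta_apply, d₀₁_hom_apply, sub_eq_zero] at h1
    exact h1
  let f : ↥(LinearMap.ker (genDelta N Z B hB)) →ₗ[ZMod p] ↥(S55.H0 N) :=
    LinearMap.codRestrict (S55.H0 N)
      (B.subtype ∘ₗ (LinearMap.ker (genDelta N Z B hB)).subtype) hmem
  refine LinearMap.finrank_le_finrank_of_injective (f := f) ?_
  intro x y hxy
  have h2 : ((f x : ↥(S55.H0 N)) : N) = ((f y : ↥(S55.H0 N)) : N) := congrArg Subtype.val hxy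
  exact Subtype.ext (Subtype.ext h2)

/-- **ASM-2 (generalised LSO-CNT)**: let `Z` be a finite-dimensional space of level cocycles
containing the coboundaries `g ↦ g b - b` of all `b ∈ B`.  Then the classes of `Z + B¹` form a
space of dimension `≤ dim Z - dim B + dim H⁰(G, N)`. -/
theorem cntGen [Module.Finite (ZMod p) N] (hN : IsSmooth 𝒩 N) (hZ : Z ≤ Z1 𝒩 N)
    (hB : ∀ b ∈ B, (d₀₁ N).hom b ∈ Z) [Module.Finite (ZMod p) ↥Z] :
    Module.Finite (ZMod p) ↥(classes 𝒩 N (Z ⊔ B1 N)) ∧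
      Module.finrank (ZMod p) ↥(classes 𝒩 N (Z ⊔ B1 N)) + Module.finrank (ZMod p) ↥B ≤
        Module.finrank (ZMod p) ↥Z + Module.finrank (ZMod p) ↥(S55.H0 N) := by
  have hr := range_genPi 𝒩 N Z hN hZ
  have hfinR : Module.Finite (ZMod p) ↥(LinearMap.range (genPi 𝒩 N Z hZ)) :=
    Module.Finite.range (genPi 𝒩 N Z hZ)
  have e1 := LinearMap.finrank_range_add_finrank_ker (genPi 𝒩 N Z hZ)
  have e2 := LinearMap.finrank_range_add_finrank_ker (genDelta N Z B hB)
  have e3 := finrank_ker_genDelta_le N Z B hB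
  have e4 : Module.finrank (ZMod p) ↥(LinearMap.range (genDelta N Z B hB)) ≤
      Module.finrank (ZMod p) ↥(LinearMap.ker (genPi 𝒩 N Z hZ)) :=
    Submodule.finrank_mono (range_genDelta_le 𝒩 N Z B hZ hB)
  rw [← hr]
  refine ⟨hfinR, ?_⟩
  omega

end CntGen

end Fermat.Agent.P1.helper47
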