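import Fermat.Agent.P1.helper7_LSODefs

/-!
# P1 / LSO-ACT (helper95, task 672): the decomposition group acts on `W(L)` by the cyclotomic
character and trivially on `B⁰(L) / W(L)`

`actStatement : Fermat.Agent.P1.helper7.ActStatement` (VERBATIM, unconditional).
-/

set_option autoImplicit false

open IsLocalRing ExtCitation

noncomputable section

namespace Fermat.Agent.P1.helper95

open Fermat.Agent.P1.helper70 Fermat.Agent.P1.helper7

section Aux

variable {k : Type} [Field k] (ρbar : ResidualGaloisRep k)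

/-- A scalar which maps the plane into a line is zero. -/
theorem eq_zero_of_forall_smul_mem {L : Submodule k ρbar.V} (hL : Module.finrank k L = 1)
    {c : k} (h : ∀ w : ρbar.V, c • w ∈ L) : c = 0 := by
  by_contra hc
  have htop : L = ⊤ := by
    rw [eq_top_iff]
    intro w _
    have := L.smul_mem c⁻¹ (h w)
    rwa [smul_smul, inv_mul_cancel₀ hc, one_smul] at this
  rw [htop, finrank_top, ρbar.finrank_eq] at hL
  exact absurd hL (by norm_num)

theorem rho_mul_rho_inv (σ : AlgebraicClosure ℚ ≃ₐ[ℚ] AlgebraicClosure ℚ) (w : ρbar.V) :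
    ρbar.ρ σ (ρbar.ρ σ⁻¹ w) = w := by
  have h : ρbar.ρ σ * ρbar.ρ σ⁻¹ = 1 := by
    rw [← map_mul, mul_inv_cancel, map_one]
  have := congrArg (fun f : Module.End k ρbar.V => f w) h
  simp only [Module.End.mul_apply, Module.End.one_apply] at this
  exact this

/-- An endomorphism stabilising the line `L` acts on `L` by a scalar. -/
theorem exists_scalar_on_line {L : Submodule k ρbar.V} (hL : Module.finrank k L = 1)
    (x : Module.End k ρbar.V) (hx : ∀ w ∈ L, x w ∈ L) :
    ∃ a : k, ∀ w ∈ L, x w = a • w := by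
  obtain ⟨l₀, hl₀⟩ := finrank_eq_one_iff'.mp hL
  obtain ⟨a, ha⟩ := hl₀.2 ⟨x l₀.1, hx l₀.1 l₀.2⟩
  refine ⟨a, fun w hw => ?_⟩
  obtain ⟨c, hc⟩ := hl₀.2 ⟨w, hw⟩
  have hc' : w = c • (l₀ : ρbar.V) := by
    have := congrArg Subtype.val hc
    simpa using this.symm
  have ha' : x (l₀ : ρbar.V) = a • (l₀ : ρbar.V) := by
    have := congrArg Subtype.val ha
    simpa using this.symm
  rw [hc', map_smul, ha', smul_smul, smul_smul, mul_comm]

/-- An endomorphism stabilising the line `L` of the plane acts on the quotient by a scalar. -/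
theorem exists_scalar_mod_line {L : Submodule k ρbar.V} (hL : Module.finrank k L = 1)
    (x : Module.End k ρbar.V) (hx : ∀ w ∈ L, x w ∈ L) :
    ∃ a : k, ∀ w : ρbar.V, x w - a • w ∈ L := by
  -- a vector outside `L`
  obtain ⟨w₀, hw₀⟩ : ∃ w₀ : ρbar.V, w₀ ∉ L := by
    by_contra h
    push Not at h
    have htop : L = ⊤ := eq_top_iff.mpr fun w _ => h w
    rw [htop, finrank_top, ρbar.finrank_eq] at hL
    exact absurd hL (by norm_num)
  -- `V = L + k w₀`
  have hsup : L ⊔ Submodule.span k {w₀} = ⊤ := by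
    apply Submodule.eq_top_of_finrank_eq
    rw [ρbar.finrank_eq]
    have hdisj : L ⊓ Submodule.span k {w₀} = ⊥ := by
      rw [eq_bot_iff]
      rintro v ⟨hv1, hv2⟩
      obtain ⟨c, rfl⟩ := Submodule.mem_span_singleton.mp hv2
      by_cases hc : c = 0
      · simp [hc]
      · exfalso
        apply hw₀
        have := L.smul_mem c⁻¹ hv1
        rwa [smul_smul, inv_mul_cancel₀ hc, one_smul] at this
    have h1 := Submodule.finrank_sup_add_finrank_inf_eq L (Submodule.span k {w₀})
    have hw₀0 : w₀ ≠ 0 := fun h => hw₀ (h ▸ L.zero_mem)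
    rw [hdisj, finrank_bot, add_zero, hL, finrank_span_singleton hw₀0] at h1
    exact h1
  have hdec : ∀ w : ρbar.V, ∃ l ∈ L, ∃ c : k, w = l + c • w₀ := by
    intro w
    have hw : w ∈ L ⊔ Submodule.span k {w₀} := hsup ▸ Submodule.mem_top
    obtain ⟨l, hl, v, hv, rfl⟩ := Submodule.mem_sup.mp hw
    obtain ⟨c, rfl⟩ := Submodule.mem_span_singleton.mp hv
    exact ⟨l, hl, c, rfl⟩
  obtain ⟨l₁, hl₁, a, ha⟩ := hdec (x w₀)
  refine ⟨a, fun w => ?_⟩
  obtain ⟨l, hl, c, rfl⟩ := hdec w
  have e : x (l + c • w₀) - a • (l + c • w₀) = x l - a • l + c • l₁ := by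
    rw [map_add, map_smul, ha]
    simp only [smul_add, smul_smul]
    rw [mul_comm a c]
    abel
  rw [e]
  exact L.add_mem (L.sub_mem (hx l hl) (L.smul_mem a hl)) (L.smul_mem c hl₁)

end Aux

/-- **LSO-ACT**. -/
theorem actStatement : ActStatement := by
  intro k _ ρbar p _ _ P L hL
  refine ⟨?_, ?_, ?_⟩
  · -- (i)
    intro x hx
    rw [mem_borelSub]
    intro w hw
    rw [(mem_nilSub ρbar).mp hx |>.2 w hw]
    exact L.zero_mem
  · -- (ii)
    intro σ hσ x hx
    obtain ⟨hx1, hx2⟩ := (mem_nilSub ρbar).mp hx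
    have hσ' : σ⁻¹ ∈ P.decompositionSubgroup ℚ := inv_mem hσ
    obtain ⟨z, -, hz1, hz2⟩ := hL.char σ hσ
    obtain ⟨z', -, hz1', hz2'⟩ := hL.char σ⁻¹ hσ'
    -- `z z' = 1`
    have hzz : z * z' = 1 := by
      have h0 : (1 - z * z') = 0 := by
        apply eq_zero_of_forall_smul_mem ρbar hL.finrank_eq
        intro w
        have h1 : ρbar.ρ σ (ρbar.ρ σ⁻¹ w - z' • w) ∈ L := hL.stable σ hσ _ (hz1' w)
        rw [map_sub, rho_mul_rho_inv, map_smul] at h1
        have h2 : z' • (ρbar.ρ σ w - z • w) ∈ L := L.smul_mem z' (hz1 w)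
        have e : (1 - z * z') • w = (w - z' • ρbar.ρ σ w) + z' • (ρbar.ρ σ w - z • w) := by
          rw [sub_smul, one_smul, smul_sub, smul_smul, mul_comm z z']
          abel
        rw [e]
        exact L.add_mem h1 h2
      exact (sub_eq_zero.mp h0).symm
    apply Ad0.toEnd_injective ρbar
    rw [toEnd_ad0Hom, map_smul]
    refine LinearMap.ext fun w => ?_
    rw [Module.End.mul_apply, Module.End.mul_apply, LinearMap.smul_apply]
    -- `x (r' w) = z' x w`
    have h1 : Ad0.toEnd ρbar x (ρbar.ρ σ⁻¹ w) = z' • Ad0.toEnd ρbar x w := by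
      have h := hx2 _ (hz1' w)
      rw [map_sub, map_smul, sub_eq_zero] at h
      exact h
    rw [h1, map_smul, hz2 _ (hx1 w), smul_smul]
    have e : z' * (algebraMap (ZMod p) k (cycloChar p σ : ZMod p) * z) =
        algebraMap (ZMod p) k (cycloChar p σ : ZMod p) := by
      rw [mul_comm z', mul_assoc, hzz, mul_one]
    rw [e]
  · -- (iii)
    intro σ hσ x hx
    have hxL := (mem_borelSub ρbar).mp hx
    have hσ' : σ⁻¹ ∈ P.decompositionSubgroup ℚ := inv_mem hσ
    obtain ⟨z, -, hz1, hz2⟩ := hL.char σ hσ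
    obtain ⟨z', -, hz1', hz2'⟩ := hL.char σ⁻¹ hσ'
    have hzz : z * z' = 1 := by
      have h0 : (1 - z * z') = 0 := by
        apply eq_zero_of_forall_smul_mem ρbar hL.finrank_eq
        intro w
        have h1 : ρbar.ρ σ (ρbar.ρ σ⁻¹ w - z' • w) ∈ L := hL.stable σ hσ _ (hz1' w)
        rw [map_sub, rho_mul_rho_inv, map_smul] at h1
        have h2 : z' • (ρbar.ρ σ w - z • w) ∈ L := L.smul_mem z' (hz1 w)
        have e : (1 - z * z') • w = (w - z' • ρbar.ρ σ w) + z' • (ρbar.ρ σ w - z • w) := by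
          rw [sub_smul, one_smul, smul_sub, smul_smul, mul_comm z z']
          abel
        rw [e]
        exact L.add_mem h1 h2
      exact (sub_eq_zero.mp h0).symm
    obtain ⟨a, ha⟩ := exists_scalar_on_line ρbar hL.finrank_eq (Ad0.toEnd ρbar x) hxL
    obtain ⟨a', ha'⟩ := exists_scalar_mod_line ρbar hL.finrank_eq (Ad0.toEnd ρbar x) hxL
    rw [mem_nilSub]
    have key : ∀ w : ρbar.V, Ad0.toEnd ρbar (ad0Hom ρbar σ x - x) w =
        ρbar.ρ σ (Ad0.toEnd ρbar x (ρbar.ρ σ⁻¹ w)) - Ad0.toEnd ρbar x w := by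
      intro w
      rw [map_sub, toEnd_ad0Hom, LinearMap.sub_apply, Module.End.mul_apply,
        Module.End.mul_apply]
    refine ⟨fun w => ?_, fun w hw => ?_⟩
    · rw [key]
      -- modulo `L`
      set r := ρbar.ρ σ with hr
      set r' := ρbar.ρ σ⁻¹ with hr'
      set X := Ad0.toEnd ρbar x with hX
      have h1 : r' w - z' • w ∈ L := hz1' w
      have h2 : X (r' w - z' • w) ∈ L := hxL _ h1
      have h3 : X w - a' • w ∈ L := ha' w
      have h4 : r (X (r' w - z' • w)) ∈ L := hL.stable σ hσ _ h2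
      have h5 : r (X w - a' • w) ∈ L := hL.stable σ hσ _ h3
      have h6 : r w - z • w ∈ L := hz1 w
      have e : r (X (r' w)) - X w =
          r (X (r' w - z' • w)) + z' • r (X w - a' • w) + (z' * a') • (r w - z • w)
            - (X w - a' • w) := by
        simp only [map_sub, map_smul, smul_sub, smul_smul]
        have hz : z' * a' * z = a' := by
          rw [mul_comm z' a', mul_assoc, mul_comm z' z, hzz, mul_one]
        rw [hz]
        abel
      rw [e]
      exact L.sub_mem (L.add_mem (L.add_mem h4 (L.smul_mem z' h5)) (L.smul_mem _ h6)) h3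
    · rw [key]
      have h1 : ρbar.ρ σ⁻¹ w ∈ L := hL.stable σ⁻¹ hσ' w hw
      rw [ha _ h1, map_smul, rho_mul_rho_inv, ha w hw, sub_self]

end Fermat.Agent.P1.helper95

end
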