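import Fermat.Agent.P1.helper30_FlatCntL3
import Fermat.Agent.P1.helper47_FlatAsm
import Fermat.Agent.P1.helper95_LSOAct
import Fermat.Agent.P1.helper93_LSODim

/-!
# P1 / FLAT-CNT, LAYER 3 (helper47): COUNT-II, the core

CASE II of BLUEPRINT P1-FLAT-CNT (`ρbar` reducible on `G_p`): let `L` be a `G_p`-stable line of
`ρbar.V`, `B = B⁰(L)`, `W = W(L)`, and `Z` the space of level cocycles of `G_p` with values in `B`,
with values in `W` on inertia, bounded over `T` (`helper30.bddCocycles p ρbar T B W`).  Then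

  `dim classes (Z + B¹) ≤ h⁰(G_p, ad⁰) + d`

provided that
* bounded functions are closed under addition (`BddSub`),
* `G_p` is generated modulo every level by inertia and one element `φ` (`helper92` DICT-LOCC),
* the bounded `W`-valued cocycles span a space of dimension `≤ 2 d` (`KQ-II`),
* the coboundaries of the elements of `B` are bounded.

Proof: `c ↦ c φ mod W` maps `Z` to `B / W` (dimension `d`) with kernel the `W`-valued bounded
cocycles; then the generalised LSO-CNT `cntGen` with `dim B = 2 d`.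
-/

set_option autoImplicit false
set_option linter.style.haveILetI false
set_option linter.unusedSectionVars false

open IsLocalRing ExtCitation groupCohomology

noncomputable section

namespace Fermat.Agent.P1.helper47

open Fermat.Agent.S55 Fermat.Agent.P1.helper70 Fermat.Agent.P1.helper7
open Fermat.Agent.P1.helper30

/-! ## The action on `B⁰(L) / W(L)` for a stable line -/

section Act

variable {k : Type} [Field k] (ρbar : ResidualGaloisRep k)

/-- `W(L) ≤ B⁰(L)`. -/
theorem nilSub_le_borelSub (L : Submodule k ρbar.V) : nilSub ρbar L ≤ borelSub ρbar L := by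
  intro x hx
  rw [mem_borelSub]
  intro w hw
  rw [((mem_nilSub ρbar).mp hx).2 w hw]
  exact L.zero_mem

/-- If `σ` and `σ⁻¹` stabilise the line `L`, then `σ` acts trivially on `B⁰(L) / W(L)`. -/
theorem ad0Hom_sub_mem_nilSub {L : Submodule k ρbar.V} (hL : Module.finrank k L = 1)
    (σ : GQ) (hσ : ∀ w ∈ L, ρbar.ρ σ w ∈ L) (hσ' : ∀ w ∈ L, ρbar.ρ σ⁻¹ w ∈ L)
    (b : Ad0 ρbar) (hb : b ∈ borelSub ρbar L) :
    ad0Hom ρbar σ b - b ∈ nilSub ρbar L := by
  rw [mem_nilSub]
  obtain ⟨β, hβ⟩ := helper95.exists_scalar_on_line ρbar hL (Ad0.toEnd ρbar b) hb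
  obtain ⟨γ, hγ⟩ := helper95.exists_scalar_mod_line ρbar hL (Ad0.toEnd ρbar b) hb
  have key : ∀ w, Ad0.toEnd ρbar (ad0Hom ρbar σ b - b) w =
      ρbar.ρ σ (Ad0.toEnd ρbar b (ρbar.ρ σ⁻¹ w)) - Ad0.toEnd ρbar b w := by
    intro w
    rw [map_sub, LinearMap.sub_apply, toEnd_ad0Hom]
    rfl
  refine ⟨fun w => ?_, fun w hw => ?_⟩
  · rw [key]
    have h1 : ρbar.ρ σ (Ad0.toEnd ρbar b (ρbar.ρ σ⁻¹ w) - γ • ρbar.ρ σ⁻¹ w) ∈ L :=
      hσ _ (hγ _)
    rw [map_sub, map_smul, helper95.rho_mul_rho_inv] at h1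
    have h2 := hγ w
    have e : ρbar.ρ σ (Ad0.toEnd ρbar b (ρbar.ρ σ⁻¹ w)) - Ad0.toEnd ρbar b w =
        (ρbar.ρ σ (Ad0.toEnd ρbar b (ρbar.ρ σ⁻¹ w)) - γ • w) -
          (Ad0.toEnd ρbar b w - γ • w) := by abel
    rw [e]
    exact L.sub_mem h1 h2
  · rw [key, hβ _ (hσ' w hw), map_smul, helper95.rho_mul_rho_inv, hβ w hw, sub_self]

end Act

/-! ## Bounded cocycles form a subspace -/

section Sub

variable {𝒪 : Type} [CommRing 𝒪] [IsLocalRing 𝒪]
  (ρbar : ResidualGaloisRep (ResidueField 𝒪)) (p : ℕ) [Fact p.Prime]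
  [Algebra (ZMod p) (ResidueField 𝒪)]
  (T : IntermediateField ℚ_[p] (PadicAlgCl p)) [FiniteDimensional ℚ_[p] T]

/-- **BddSub** (hypothesis form): bounded functions contain `0` and are closed under
addition. -/
def BddSubAt : Prop :=
  IsBddHom p T (fun _ => 0) ∧
    ∀ f f' : Gp p → ZMod p, IsBddHom p T f → IsBddHom p T f' →
      IsBddHom p T (fun g => f g + f' g)

variable {p T}

theorem isBddHom_nsmul (hsub : BddSubAt p T) (n : ℕ) {f : Gp p → ZMod p}
    (hf : IsBddHom p T f) : IsBddHom p T (fun g => (n : ZMod p) * f g) := by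
  induction n with
  | zero =>
    simpa using hsub.1
  | succ n ih =>
    have := hsub.2 _ _ ih hf
    have e : (fun g => ((n + 1 : ℕ) : ZMod p) * f g) =
        fun g => (n : ZMod p) * f g + f g := by
      funext g
      push_cast
      ring
    rw [e]
    exact this

theorem isBddHom_smul (hsub : BddSubAt p T) (a : ZMod p) {f : Gp p → ZMod p}
    (hf : IsBddHom p T f) : IsBddHom p T (fun g => a * f g) := by
  have := isBddHom_nsmul hsub a.val hf
  rwa [ZMod.natCast_zmod_val] at this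

variable {ρbar}

/-- Under `BddSub` the bounded cocycles form a subspace. -/
theorem mem_bddCocycles_of_mem_span (hsub : BddSubAt p T)
    (B W : Submodule (ResidueField 𝒪) (Ad0 ρbar))
    {c : primeLocalGaloisGroup (pPrime p) → locM ρbar p}
    (hc : c ∈ Submodule.span (ZMod p) (bddCocycles p ρbar T B W)) :
    c ∈ bddCocycles p ρbar T B W := by
  induction hc using Submodule.span_induction with
  | mem x hx => exact hx
  | zero =>
    refine ⟨Submodule.zero_mem _, fun g => B.zero_mem, fun g _ => W.zero_mem, fun ℓ => ?_⟩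
    have e : (fun g : Gp p => ℓ ((0 : primeLocalGaloisGroup (pPrime p) → locM ρbar p) g)) =
        fun _ => 0 := by
      funext g
      exact map_zero ℓ
    rw [e]
    exact hsub.1
  | add x y _ _ hx hy =>
    obtain ⟨hx1, hx2, hx3, hx4⟩ := hx
    obtain ⟨hy1, hy2, hy3, hy4⟩ := hy
    refine ⟨Submodule.add_mem _ hx1 hy1, fun g => B.add_mem (hx2 g) (hy2 g),
      fun g hg => W.add_mem (hx3 g hg) (hy3 g hg), fun ℓ => ?_⟩
    have e : (fun g : Gp p => ℓ ((x + y) g)) = fun g => ℓ (x g) + ℓ (y g) := by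
      funext g
      exact map_add ℓ _ _
    rw [e]
    exact hsub.2 _ _ (hx4 ℓ) (hy4 ℓ)
  | smul a x _ hx =>
    obtain ⟨hx1, hx2, hx3, hx4⟩ := hx
    refine ⟨Submodule.smul_mem _ a hx1, fun g => ?_, fun g hg => ?_, fun ℓ => ?_⟩
    · exact (B.restrictScalars (ZMod p)).smul_mem a (hx2 g)
    · exact (W.restrictScalars (ZMod p)).smul_mem a (hx3 g hg)
    · have e : (fun g : Gp p => ℓ ((a • x) g)) = fun g => a * ℓ (x g) := by
        funext g
        exact map_smul ℓ a _
      rw [e]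
      exact isBddHom_smul hsub a (hx4 ℓ)

end Sub

/-! ## The kernel of the diagonal part -/

section Kernel

variable {𝒪 : Type} [CommRing 𝒪] [IsLocalRing 𝒪]
  {ρbar : ResidualGaloisRep (ResidueField 𝒪)} {p : ℕ} [Fact p.Prime]
  [Algebra (ZMod p) (ResidueField 𝒪)]
  {L : Submodule (ResidueField 𝒪) ρbar.V}

/-- the cocycle identity -/
theorem cocycle_mul {c : primeLocalGaloisGroup (pPrime p) → locM ρbar p}
    (hc : c ∈ Z1 (locLevels (pPrime p)) (locM ρbar p))
    (g h : primeLocalGaloisGroup (pPrime p)) :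
    c (g * h) = (locM ρbar p).ρ g (c h) + c g := by
  have h2 : (d₁₂ (locM ρbar p)).hom c = 0 := hc.2
  have h3 : (d₁₂ (locM ρbar p)).hom c (g, h) = 0 := by rw [h2]; rfl
  rw [d₁₂_hom_apply] at h3
  have h6 : ((locM ρbar p).ρ g (c h) + c g) - c (g * h) = 0 := by
    rw [← h3]
    abel
  exact (sub_eq_zero.1 h6).symm

theorem cocycle_one {c : primeLocalGaloisGroup (pPrime p) → locM ρbar p}
    (hc : c ∈ Z1 (locLevels (pPrime p)) (locM ρbar p)) : c 1 = 0 := by
  have h := cocycle_mul hc 1 1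
  rw [mul_one, map_one] at h
  have h' : c 1 = c 1 + c 1 := h
  have h'' : c 1 + 0 = c 1 + c 1 := by rw [add_zero]; exact h'
  exact (add_left_cancel h'').symm

/-- For a `B⁰(L)`-valued cocycle, `L` a stable line: `c (g h) ≡ c g + c h` modulo `W(L)`. -/
theorem cocycle_mul_mod (hL : Module.finrank (ResidueField 𝒪) L = 1)
    (hLst : ∀ g : Gp p, ∀ x ∈ L, ρbar.ρ (localGaloisToGlobal p g) x ∈ L)
    {c : primeLocalGaloisGroup (pPrime p) → locM ρbar p}
    (hc : c ∈ Z1 (locLevels (pPrime p)) (locM ρbar p))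
    (hcB : ∀ g, c g ∈ borelZ ρbar p (pPrime p) L)
    (g h : primeLocalGaloisGroup (pPrime p)) :
    c (g * h) - c g - c h ∈ nilZ ρbar p (pPrime p) L := by
  have h1 := cocycle_mul hc g h
  have h2 : c (g * h) - c g - c h = (locM ρbar p).ρ g (c h) - c h := by
    rw [h1]
    abel
  rw [h2]
  have hinv : ∀ w ∈ L, ρbar.ρ (localGaloisToGlobal p g)⁻¹ w ∈ L := by
    intro w hw
    have := hLst (g⁻¹ : Gp p) w hw
    have e : localGaloisToGlobal p (g⁻¹ : Gp p) = (localGaloisToGlobal p g)⁻¹ :=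
      map_inv (localGaloisToGlobal p) (g : Gp p)
    rwa [e] at this
  exact ad0Hom_sub_mem_nilSub ρbar hL (localGaloisToGlobal p g) (hLst g) hinv (c h) (hcB h)

/-- **The kernel of the diagonal part**: a `B⁰(L)`-valued level cocycle with values in `W(L)`
on inertia and at `φ` has values in `W(L)`, if `G_p` is generated modulo every level by inertia
and `φ`. -/
theorem mem_nilZ_of_eval (hL : Module.finrank (ResidueField 𝒪) L = 1)
    (hLst : ∀ g : Gp p, ∀ x ∈ L, ρbar.ρ (localGaloisToGlobal p g) x ∈ L)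
    (φ : primeLocalGaloisGroup (pPrime p))
    (hcyc : ∀ N ∈ (locLevels (pPrime p)).mem, ∀ g : primeLocalGaloisGroup (pPrime p),
      ∃ n : ℕ, ∃ i : primeLocalGaloisGroup (pPrime p), i ∈ inertiaΩ p ∧ ∃ u ∈ N,
        g = φ ^ n * i * u)
    {c : primeLocalGaloisGroup (pPrime p) → locM ρbar p}
    (hc : c ∈ Z1 (locLevels (pPrime p)) (locM ρbar p))
    (hcB : ∀ g, c g ∈ borelZ ρbar p (pPrime p) L)
    (hcI : ∀ g : primeLocalGaloisGroup (pPrime p), g ∈ inertiaΩ p →
      c g ∈ nilZ ρbar p (pPrime p) L)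
    (hφ : c φ ∈ nilZ ρbar p (pPrime p) L) (g : primeLocalGaloisGroup (pPrime p)) :
    c g ∈ nilZ ρbar p (pPrime p) L := by
  obtain ⟨N₀, hN₀, hlev⟩ := hc.1
  have hpow : ∀ n : ℕ, c (φ ^ n) ∈ nilZ ρbar p (pPrime p) L := by
    intro n
    induction n with
    | zero =>
      rw [pow_zero, cocycle_one hc]
      exact Submodule.zero_mem _
    | succ n ih =>
      rw [pow_succ]
      have h1 := cocycle_mul_mod hL hLst hc hcB (φ ^ n) φ
      have e : c (φ ^ n * φ) = (c (φ ^ n * φ) - c (φ ^ n) - c φ) + c (φ ^ n) + c φ := by abel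
      rw [e]
      exact Submodule.add_mem _ (Submodule.add_mem _ h1 ih) hφ
  obtain ⟨n, i, hi, u, hu, rfl⟩ := hcyc N₀ hN₀ g
  have h1 : c (φ ^ n * i * u) = c (φ ^ n * i) := hlev (φ ^ n * i) u hu
  rw [h1]
  have h2 := cocycle_mul_mod hL hLst hc hcB (φ ^ n) i
  have e : c (φ ^ n * i) = (c (φ ^ n * i) - c (φ ^ n) - c i) + c (φ ^ n) + c i := by abel
  rw [e]
  exact Submodule.add_mem _ (Submodule.add_mem _ h2 (hpow n)) (hcI i hi)

end Kernel

/-! ## The count -/

section Count

variable {𝒪 : Type} [CommRing 𝒪] [IsLocalRing 𝒪] [Finite (ResidueField 𝒪)]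
  (ρbar : ResidualGaloisRep (ResidueField 𝒪)) (p : ℕ) [Fact p.Prime]
  [Algebra (ZMod p) (ResidueField 𝒪)]
  (T : IntermediateField ℚ_[p] (PadicAlgCl p)) [FiniteDimensional ℚ_[p] T]
  (L : Submodule (ResidueField 𝒪) ρbar.V)

lemma countII_arith (cl z r kk b w h0 d : ℕ) (h1 : cl + b ≤ z + h0) (h2 : r + kk = z)
    (h3 : r + w ≤ b) (h4 : kk ≤ 2 * d) (hw : w = d * 1) (hb : b = d * 2) : cl ≤ h0 + d := by
  subst hw hb
  omega

/-- **COUNT-II, core**.  `L` a `G_p`-stable line, `B = B⁰(L)`, `W = W(L)`.  If bounded functions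
form a subgroup, `G_p` is generated modulo every level by inertia and `φ`, the bounded `W`-valued
cocycles span a space of dimension `≤ 2 d`, and the coboundaries of the elements of `B` are
bounded, then the classes of the bounded `B`-valued cocycles with values in `W` on inertia span a
space of dimension `≤ h⁰(G_p, ad⁰) + d`. -/
theorem countII_core (hL : Module.finrank (ResidueField 𝒪) L = 1)
    (hLst : ∀ g : Gp p, ∀ x ∈ L, ρbar.ρ (localGaloisToGlobal p g) x ∈ L)
    (hsub : BddSubAt p T)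
    (φ : primeLocalGaloisGroup (pPrime p))
    (hcyc : ∀ N ∈ (locLevels (pPrime p)).mem, ∀ g : primeLocalGaloisGroup (pPrime p),
      ∃ n : ℕ, ∃ i : primeLocalGaloisGroup (pPrime p), i ∈ inertiaΩ p ∧ ∃ u ∈ N,
        g = φ ^ n * i * u)
    (hKQ : Module.Finite (ZMod p) ↥(Submodule.span (ZMod p)
        (bddCocycles p ρbar T (nilSub ρbar L) (nilSub ρbar L))) ∧
      Module.finrank (ZMod p) ↥(Submodule.span (ZMod p)
        (bddCocycles p ρbar T (nilSub ρbar L) (nilSub ρbar L))) ≤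
        2 * Module.finrank (ZMod p) (ResidueField 𝒪))
    (hcob : ∀ X ∈ borelSub ρbar L, (d₀₁ (locM ρbar p)).hom X ∈
      bddCocycles p ρbar T (borelSub ρbar L) (nilSub ρbar L)) :
    Module.Finite (ZMod p) ↥(bbOf p ρbar T (borelSub ρbar L) (nilSub ρbar L)) ∧
      Module.finrank (ZMod p) ↥(bbOf p ρbar T (borelSub ρbar L) (nilSub ρbar L)) ≤
        Module.finrank (ZMod p) ↥(S55.H0 (locM ρbar p)) +
          Module.finrank (ZMod p) (ResidueField 𝒪) := by
  haveI hfk : Module.Finite (ZMod p) (ResidueField 𝒪) := Module.Finite.of_finite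
  haveI hfA : Module.Finite (ZMod p) (Ad0 ρbar) := Module.Finite.trans (ResidueField 𝒪) _
  haveI hfN : Module.Finite (ZMod p) (locM ρbar p) := hfA
  have hsm : IsSmooth (locLevels (pPrime p)) (locM ρbar p) :=
    isSmooth_loc_ad0Rep ρbar p (pPrime p)
  obtain ⟨hKfin, hKle⟩ := hKQ
  haveI := hKfin
  -- notation
  let Bz : Submodule (ZMod p) (locM ρbar p) := borelZ ρbar p (pPrime p) L
  let Wz : Submodule (ZMod p) (locM ρbar p) := nilZ ρbar p (pPrime p) L
  let Z : Submodule (ZMod p) (primeLocalGaloisGroup (pPrime p) → locM ρbar p) :=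
    Submodule.span (ZMod p) (bddCocycles p ρbar T (borelSub ρbar L) (nilSub ρbar L))
  let ZW : Submodule (ZMod p) (primeLocalGaloisGroup (pPrime p) → locM ρbar p) :=
    Submodule.span (ZMod p) (bddCocycles p ρbar T (nilSub ρbar L) (nilSub ρbar L))
  have hZmem : ∀ c ∈ Z, c ∈ bddCocycles p ρbar T (borelSub ρbar L) (nilSub ρbar L) :=
    fun c hc => mem_bddCocycles_of_mem_span hsub _ _ hc
  have hZ1 : Z ≤ Z1 (locLevels (pPrime p)) (locM ρbar p) :=
    Submodule.span_le.2 fun c hc => hc.1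
  have hWB : Wz ≤ Bz := fun x hx => nilSub_le_borelSub ρbar L hx
  -- dimensions of `W` and `B`
  obtain ⟨hdimW, hdimB⟩ := helper93.dimStatement _ ρbar L hL
  have hW : Module.finrank (ZMod p) ↥Wz = Module.finrank (ZMod p) (ResidueField 𝒪) * 1 := by
    rw [← hdimW]
    exact finrank_restrictScalars_ad0 ρbar p (nilSub ρbar L)
  have hB : Module.finrank (ZMod p) ↥Bz = Module.finrank (ZMod p) (ResidueField 𝒪) * 2 := by
    rw [← hdimB]
    exact finrank_restrictScalars_ad0 ρbar p (borelSub ρbar L)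
  -- the evaluation at `φ` modulo `W`
  let ev0 : ↥Z →ₗ[ZMod p] ↥Bz :=
    LinearMap.codRestrict Bz
      ((LinearMap.proj (R := ZMod p)
        (φ := fun _ : primeLocalGaloisGroup (pPrime p) => locM ρbar p) φ) ∘ₗ Z.subtype)
      (fun c => (hZmem c.1 c.2).2.1 φ)
  let ev : ↥Z →ₗ[ZMod p] (↥Bz ⧸ Wz.comap Bz.subtype) := (Wz.comap Bz.subtype).mkQ ∘ₗ ev0
  have hev0 : ∀ c : ↥Z, ((ev0 c : ↥Bz) : locM ρbar p) = c.1 φ := fun c => rfl
  -- the kernel consists of `W`-valued bounded cocycles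
  have hker : ∀ c : ↥(LinearMap.ker ev),
      ((c : ↥Z) : primeLocalGaloisGroup (pPrime p) → locM ρbar p) ∈ ZW := by
    rintro ⟨c, hc⟩
    rw [LinearMap.mem_ker, LinearMap.comp_apply, Submodule.mkQ_apply,
      Submodule.Quotient.mk_eq_zero, Submodule.mem_comap, Submodule.subtype_apply, hev0] at hc
    obtain ⟨h1, h2, h3, h4⟩ := hZmem c.1 c.2
    have h5 : ∀ g, c.1 g ∈ Wz :=
      mem_nilZ_of_eval hL hLst φ hcyc h1 h2 h3 hc
    exact Submodule.subset_span ⟨h1, h5, fun g _ => h5 g, h4⟩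
  let incl : ↥(LinearMap.ker ev) →ₗ[ZMod p] ↥ZW :=
    LinearMap.codRestrict ZW (Z.subtype ∘ₗ (LinearMap.ker ev).subtype) hker
  have hincl : Function.Injective incl := by
    intro x y hxy
    have h2 : ((incl x : ↥ZW) : primeLocalGaloisGroup (pPrime p) → locM ρbar p) =
        ((incl y : ↥ZW) : primeLocalGaloisGroup (pPrime p) → locM ρbar p) :=
      congrArg Subtype.val hxy
    exact Subtype.ext (Subtype.ext h2)
  haveI hkerfin : Module.Finite (ZMod p) ↥(LinearMap.ker ev) :=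
    Module.Finite.of_injective incl hincl
  have hkerle : Module.finrank (ZMod p) ↥(LinearMap.ker ev) ≤
      2 * Module.finrank (ZMod p) (ResidueField 𝒪) :=
    (LinearMap.finrank_le_finrank_of_injective hincl).trans hKle
  -- `Z` is finite-dimensional
  haveI hBzfin : Module.Finite (ZMod p) ↥Bz :=
    Module.Finite.of_injective Bz.subtype Subtype.val_injective
  haveI hqfin : Module.Finite (ZMod p) (↥Z ⧸ LinearMap.ker ev) :=
    Module.Finite.equiv ev.quotKerEquivRange.symm
  haveI hZfin : Module.Finite (ZMod p) ↥Z := Module.Finite.of_submodule_quotient (LinearMap.ker ev)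
  -- rank-nullity
  have e1 := LinearMap.finrank_range_add_finrank_ker ev
  have e2 : Module.finrank (ZMod p) ↥(LinearMap.range ev) ≤
      Module.finrank (ZMod p) (↥Bz ⧸ Wz.comap Bz.subtype) := Submodule.finrank_le _
  have e3 := Submodule.finrank_quotient_add_finrank (Wz.comap Bz.subtype)
  have e4 : Module.finrank (ZMod p) ↥(Wz.comap Bz.subtype) = Module.finrank (ZMod p) ↥Wz :=
    (Submodule.comapSubtypeEquivOfLe hWB).finrank_eq
  -- the generalised LSO-CNT
  have hBmem : ∀ b ∈ Bz, (d₀₁ (locM ρbar p)).hom b ∈ Z :=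
    fun b hb => Submodule.subset_span (hcob b hb)
  obtain ⟨hCfin, hCle⟩ := cntGen (locLevels (pPrime p)) (locM ρbar p) Z Bz hsm hZ1 hBmem
  refine ⟨hCfin, ?_⟩
  have hCle' : Module.finrank (ZMod p)
      ↥(bbOf p ρbar T (borelSub ρbar L) (nilSub ρbar L)) + Module.finrank (ZMod p) ↥Bz ≤
      Module.finrank (ZMod p) ↥Z + Module.finrank (ZMod p) ↥(S55.H0 (locM ρbar p)) := hCle
  have e5 : Module.finrank (ZMod p) ↥(LinearMap.range ev) +
      Module.finrank (ZMod p) ↥Wz ≤ Module.finrank (ZMod p) ↥Bz := by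
    rw [← e3, e4]
    exact Nat.add_le_add_right e2 _
  exact countII_arith _ _ _ _ _ _ _ _ hCle' e1 e5 hkerle hW hB

end Count

/-! ## The deliverable -/

/-- **COUNT-II** (`helper30.CountII2Statement`, VERBATIM): from KQ-II and BDD-SUB. -/
theorem countII (p : ℕ) [Fact p.Prime] : CountII2Statement p := by
  intro hKQ hSub 𝒪 _ _ _ ρbar _ hset hL hLst T _ hT hcob
  obtain ⟨φ, hφ⟩ := hset.htame
  have hcob' : ∀ X ∈ borelSub ρbar (ramLine p ρbar), (d₀₁ (locM ρbar p)).hom X ∈
      bddCocycles p ρbar T (borelSub ρbar (ramLine p ρbar))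
        (nilSub ρbar (ramLine p ρbar)) := fun X hX => hcob X hX
  have hzero : IsBddHom p T (fun _ => 0) := by
    have h := (hcob' 0 (Submodule.zero_mem _)).2.2.2 0
    have e : (fun g : Gp p => (0 : Ad0 ρbar →ₗ[ZMod p] ZMod p)
        ((d₀₁ (locM ρbar p)).hom (0 : Ad0 ρbar) g)) = fun _ => 0 := by
      funext g
      rfl
    rw [e] at h
    exact h
  have hsub : BddSubAt p T := ⟨hzero, fun f f' hf hf' => (hSub T f f' 0 hf hf').1⟩
  exact countII_core ρbar p T (ramLine p ρbar) hL hLst hsub φ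
    (fun N hN g => by
      obtain ⟨n, i, hi, u, hu, h⟩ := hφ.gen N hN g
      exact ⟨n, i, hi, u, hu, h⟩)
    (hKQ 𝒪 ρbar hset hL hLst T hT) hcob'

end Fermat.Agent.P1.helper47
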