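import Mathlib
import Fermat.Agent.P1.helper92_DictDefs
import Fermat.Agent.P1.helper82_TameGlob
import Fermat.Agent.P1.helper15_TameFinGen

/-!
# P1 (S56), module DICT, package DICT-LOCC (helper82, task 668)

`locCyclicStatement : Fermat.Agent.P1.helper92.LocCyclicStatement` : for every prime `q`
the inertia subgroup of the local Galois group at `q` is normal, Frobenius elements exist and
are unique modulo inertia, and modulo every local level the local Galois group is generated by
inertia and one Frobenius element.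

Also the valuation criterion `dlc_isFrobeniusAt_iff_valuation` for Frobenius elements.
-/

set_option autoImplicit false

open Fermat.Agent.S55 ExtCitation
open scoped Pointwise NumberField

noncomputable section

namespace Fermat.Agent.P1.helper82

open Fermat.Agent.S14.helper91

local notation "Qbar" => AlgebraicClosure ℚ

/-- valuation criterion for Frobenius elements -/
theorem dlc_isFrobeniusAt_iff_valuation (A : ValuationSubring Qbar) (σ : GQ) (ℓ : ℕ) :
    A.IsFrobeniusAt σ ℓ ↔
      σ ∈ A.decompositionSubgroup ℚ ∧ ∀ a ∈ A, A.valuation (σ a - a ^ ℓ) < 1 := by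
  constructor
  · intro h
    exact ⟨h.mem_decompositionSubgroup, fun a ha => IsFrobeniusAt_valuation_lt_one A h ha⟩
  · rintro ⟨hσ, h⟩
    refine ⟨hσ, fun xbar => ?_⟩
    obtain ⟨a, rfl⟩ := IsLocalRing.residue_surjective xbar
    rw [← IsLocalRing.ResidueField.residue_smul, ← map_pow, ← sub_eq_zero, ← map_sub,
      IsLocalRing.residue_eq_zero_iff, A.valuation_lt_one_iff]
    exact h a.1 a.2

/-- two Frobenius elements differ by inertia, and conversely -/
theorem dlc_isFrobeniusAt_iff_inv_mul_mem (A : ValuationSubring Qbar) {ℓ : ℕ} {σ σ' : GQ}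
    (hσ : A.IsFrobeniusAt σ ℓ) :
    A.IsFrobeniusAt σ' ℓ ↔ σ⁻¹ * σ' ∈ A.inertiaSubgroupIn ℚ := by
  have hσD := hσ.mem_decompositionSubgroup
  have hσinvD : σ⁻¹ ∈ A.decompositionSubgroup ℚ := inv_mem hσD
  rw [dlc_isFrobeniusAt_iff_valuation, mem_inertiaSubgroupIn_iff_valuation]
  constructor
  · rintro ⟨hσ'D, h'⟩
    refine ⟨mul_mem hσinvD hσ'D, fun a ha => ?_⟩
    have h1 : A.valuation (σ' a - σ a) < 1 := by
      have e : σ' a - σ a = (σ' a - a ^ ℓ) - (σ a - a ^ ℓ) := by ring
      rw [e]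
      exact Valuation.map_sub_lt _ (h' a ha) (IsFrobeniusAt_valuation_lt_one A hσ ha)
    have h2 : (σ⁻¹ * σ') a - a = σ⁻¹ (σ' a - σ a) := by
      rw [map_sub]
      show σ⁻¹ (σ' a) - a = σ⁻¹ (σ' a) - σ⁻¹ (σ a)
      congr 1
      exact (AlgEquiv.symm_apply_apply σ a).symm
    rw [h2, valuation_apply_lt_one_iff_of_mem_dec A hσinvD]
    exact h1
  · rintro ⟨hD, h⟩
    have hσ'D : σ' ∈ A.decompositionSubgroup ℚ := by
      have := mul_mem hσD hD
      rwa [mul_inv_cancel_left] at this
    refine ⟨hσ'D, fun a ha => ?_⟩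
    have h1 : A.valuation (σ ((σ⁻¹ * σ') a - a)) < 1 := by
      rw [valuation_apply_lt_one_iff_of_mem_dec A hσD]
      exact h a ha
    have h2 : σ ((σ⁻¹ * σ') a - a) = σ' a - σ a := by
      rw [map_sub]
      congr 1
      show σ (σ⁻¹ (σ' a)) = σ' a
      exact AlgEquiv.apply_symm_apply σ (σ' a)
    rw [h2] at h1
    have e : σ' a - a ^ ℓ = (σ' a - σ a) + (σ a - a ^ ℓ) := by ring
    rw [e]
    exact Valuation.map_add_lt _ h1 (IsFrobeniusAt_valuation_lt_one A hσ ha)

/-- **[DICT-LOCC]** -/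
theorem locCyclicStatement : Fermat.Agent.P1.helper92.LocCyclicStatement := by
  intro q
  refine ⟨tg_locInertia_normal q, ?_, ?_, ?_⟩
  · obtain ⟨σ, hσ⟩ := Fermat.Agent.S54.helper91.exists_isFrobeniusAt_of_liesOver
      (primeLocalPlace q) q.2 (Fermat.Agent.S55.helper74.primeLocalPlace_liesOverPrime q)
    obtain ⟨φ, hφ⟩ := Fermat.Agent.S55.helper74.exists_primeLocalToGlobal_eq q
      hσ.mem_decompositionSubgroup
    refine ⟨φ, ?_⟩
    show (primeLocalPlace q).IsFrobeniusAt (primeLocalToGlobal q φ) (q : ℕ)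
    rw [hφ]
    exact hσ
  · intro φ φ' hφ
    show (primeLocalPlace q).IsFrobeniusAt (primeLocalToGlobal q φ') (q : ℕ) ↔
      primeLocalToGlobal q (φ⁻¹ * φ') ∈ (primeLocalPlace q).inertiaSubgroupIn ℚ
    rw [map_mul, map_inv]
    exact dlc_isFrobeniusAt_iff_inv_mul_mem (primeLocalPlace q) hφ
  · rintro φ hφ N ⟨F, hfd, hn, rfl⟩ g
    have hgal : IsGalois ℚ (AlgebraicClosure ℚ) := Fermat.Agent.S54.helper91.isGalois_Qbar
    have hFgal : IsGalois ℚ ↥F := (InfiniteGalois.normal_iff_isGalois F).mp hn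
    exact tg_gen F q Fermat.Agent.P1.helper15.tameFinGen hφ g

end Fermat.Agent.P1.helper82
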