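import Fermat.Agent.P1.helper49_OrdAlg
import Fermat.Agent.P1.helper70_FlatDefs
import Fermat.Agent.P1.helper82_DictLocC
import Fermat.Agent.P1.helper61_DictLocN

/-!
# P1 / FLAT-CNT, package ORD (helper49, task 747): `ord : OrdStatement p`

A flat tangent lift of a `ρbar` which is reducible at `p` is ordinary.  The abstract algebra is in
`helper49_OrdAlg`; this file transports (R1), (R2) from `V / (⊥ • ⊤)` to `V`, constructs the
character of the stable line, feeds (TR) and (R2), and translates into cocycles.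
-/

set_option autoImplicit false
set_option linter.style.haveILetI false

open IsLocalRing ExtCitation

noncomputable section

namespace Fermat.Agent.P1.helper49

open Fermat.Agent.P1.helper70 Fermat.Agent.P1.helper7 Fermat.Agent.P1.helper92
  Fermat.Agent.P1.helper94 Fermat.Agent.S55

/-! ## Transport of (R1), (R2) from the quotient `V / (⊥ • ⊤)` to `V` -/

section Transport

variable (p : ℕ) [Fact p.Prime] {k : Type} [Field k] (ρ : GaloisRepAdic (DualNumber k))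

/-- the action of the local Galois group on `V` -/
def locRep : (PadicAlgCl p ≃ₐ[ℚ_[p]] PadicAlgCl p) →* Module.End (DualNumber k) ρ.V :=
  ρ.ρ.comp (localGaloisToGlobal p)

theorem locRep_apply (τ : PadicAlgCl p ≃ₐ[ℚ_[p]] PadicAlgCl p) :
    locRep p ρ τ = ρ.ρ (localGaloisToGlobal p τ) := rfl

theorem ord_mk_injective {v : ρ.V}
    (h : (Submodule.Quotient.mk v :
      ρ.V ⧸ ((⊥ : Ideal (DualNumber k)) • (⊤ : Submodule (DualNumber k) ρ.V))) = 0) : v = 0 := by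
  rw [Submodule.Quotient.mk_eq_zero, Submodule.bot_smul, Submodule.mem_bot] at h
  exact h

theorem ord_locAct_mk (τ : PadicAlgCl p ≃ₐ[ℚ_[p]] PadicAlgCl p) (v : ρ.V) :
    locAct p ρ ⊥ τ (Submodule.Quotient.mk v) = Submodule.Quotient.mk (locRep p ρ τ v) := rfl

theorem ord_mk_mem_ramPart {x : ρ.V} (hx : x ∈ ramV (locInertiaNat p) (locRep p ρ)) :
    (Submodule.Quotient.mk x :
      ρ.V ⧸ ((⊥ : Ideal (DualNumber k)) • (⊤ : Submodule (DualNumber k) ρ.V))) ∈
        ramPart p ρ ⊥ := by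
  induction hx using AddSubgroup.closure_induction with
  | mem y hy =>
    obtain ⟨τ, hτ, x, rfl⟩ := hy
    exact AddSubgroup.subset_closure ⟨τ, hτ, Submodule.Quotient.mk x, rfl⟩
  | zero => exact zero_mem _
  | add y z _ _ hy hz => exact add_mem hy hz
  | neg y _ hy => exact neg_mem hy

/-- (R1) on `V` -/
theorem ord_r1V (h : FlatR1 p ρ ⊥) : R1V (locInertiaNat p) (locRep p ρ) := by
  intro Y hY x hx hxY
  have h1 := h (Y.map (Submodule.mkQ
      ((⊥ : Ideal (DualNumber k)) • (⊤ : Submodule (DualNumber k) ρ.V))).toAddMonoidHom)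
    (fun τ hτ y hy => by
      obtain ⟨y', hy', rfl⟩ := hy
      exact ⟨locRep p ρ τ y', hY τ hτ y' hy', rfl⟩)
    (Submodule.Quotient.mk x) (ord_mk_mem_ramPart p ρ hx)
    (fun τ hτ => ⟨locRep p ρ τ x - x, hxY τ hτ, rfl⟩)
  obtain ⟨y, hy, hyx⟩ := h1
  have h2 : y - x = 0 := ord_mk_injective ρ (by
    rw [Submodule.Quotient.mk_sub]
    exact sub_eq_zero.mpr hyx)
  rw [← sub_eq_zero.mp h2]
  exact hy

/-- (R2) on `V` -/
def R2V : Prop :=
  ∀ x ∈ ramV (locInertiaNat p) (locRep p ρ), x ≠ 0 →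
    ∀ N : Subgroup (PadicAlgCl p ≃ₐ[ℚ_[p]] PadicAlgCl p), N.Normal →
      (∃ L₀ : IntermediateField ℚ (AlgebraicClosure ℚ), FiniteDimensional ℚ L₀ ∧
        ∀ τ : PadicAlgCl p ≃ₐ[ℚ_[p]] PadicAlgCl p,
          (∀ z ∈ L₀, localGaloisToGlobal p τ z = z) → τ ∈ N) →
      (∀ g : PadicAlgCl p ≃ₐ[ℚ_[p]] PadicAlgCl p, ∃ m : ℕ, ¬ p ∣ m ∧ g ^ m ∈ N) →
      (∀ s ∈ N, locRep p ρ s x = x) →
      (∀ τ ∈ locInertiaNat p, ∃ a : ℕ, locRep p ρ τ x = a • x) →
      ∀ τ ∈ locInertiaNat p, ∀ a : ℕ, locRep p ρ τ x = a • x →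
        (a : ZMod p) = ((cycloChar p (localGaloisToGlobal p τ) : (ZMod p)ˣ) : ZMod p)

theorem ord_r2V (h : FlatR2 p ρ ⊥) : R2V p ρ := by
  intro x hx hx0 N hN hopen hpow hfix hchar τ hτ a ha
  refine h (Submodule.Quotient.mk x) (ord_mk_mem_ramPart p ρ hx)
    (fun h0 => hx0 (ord_mk_injective ρ h0)) N hN hopen hpow
    (fun s hs => by rw [ord_locAct_mk, hfix s hs])
    (fun τ' hτ' => by
      obtain ⟨a', ha'⟩ := hchar τ' hτ'
      exact ⟨a', by rw [ord_locAct_mk, ha']; rfl⟩) τ hτ a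
    (by rw [ord_locAct_mk, ha]; rfl)

end Transport

/-! ## Characteristic `p` facts -/

section CharPFacts

variable (p : ℕ) [Fact p.Prime] {k : Type} [Field k]

/-- `p = 0` in `k` if `p` lies in the maximal ideal of `k[ε]` -/
theorem ord_charP (h : (p : DualNumber k) ∈ maximalIdeal (DualNumber k)) : CharP k p := by
  rw [mem_maximalIdeal, mem_nonunits_iff, TrivSqZeroExt.isUnit_iff_isUnit_fst, isUnit_iff_ne_zero,
    not_not, TrivSqZeroExt.fst_natCast] at h
  exact (CharP.charP_iff_prime_eq_zero (Fact.out : p.Prime)).mpr h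

variable [CharP k p]

/-- an element with `y ^ (p - 1) = 1` is the image of a natural number -/
theorem ord_exists_natCast {y : k} (hy : y ^ (p - 1) = 1) : ∃ a : ℕ, (a : k) = y := by
  have hp : p.Prime := Fact.out
  have h1 : y ^ p = y := by
    have : p = (p - 1) + 1 := (Nat.sub_add_cancel hp.one_le).symm
    rw [this, pow_succ, hy, one_mul]
  obtain ⟨n, hn⟩ := (mem_bot_iff_intCast p k).mp ((Subfield.mem_bot_iff_pow_eq_self k p).mpr h1)
  refine ⟨(n : ZMod p).val, ?_⟩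
  haveI : NeZero p := ⟨hp.ne_zero⟩
  rw [ZMod.natCast_val, ← ZMod.castHom_apply (h := dvd_refl p), map_intCast, hn]

/-- in characteristic `p`, an element of finite order has order prime to `p` -/
theorem ord_exists_pow_eq_one {y : k} {n : ℕ} (hn : 0 < n) (hy : y ^ n = 1) :
    ∃ m : ℕ, ¬ p ∣ m ∧ y ^ m = 1 := by
  have hp : p.Prime := Fact.out
  obtain ⟨e, m, hm, rfl⟩ := Nat.exists_eq_pow_mul_and_not_dvd hn.ne' p hp.ne_one
  refine ⟨m, hm, ?_⟩
  have h1 : (y ^ m - 1) ^ p ^ e = 0 := by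
    rw [sub_pow_char_pow, one_pow, ← pow_mul, mul_comm, hy, sub_self]
  exact sub_eq_zero.mp ((pow_eq_zero_iff (pow_ne_zero e hp.ne_zero)).mp h1)

theorem ord_natCast_eq_of_zmod {a a' : ℕ} (h : (a : ZMod p) = (a' : ZMod p)) :
    (a : k) = (a' : k) :=
  (CharP.natCast_eq_natCast k p).mpr ((ZMod.natCast_eq_natCast_iff a a' p).mp h)

theorem ord_zmod_eq_of_natCast {a a' : ℕ} (h : (a : k) = (a' : k)) :
    (a : ZMod p) = (a' : ZMod p) :=
  (ZMod.natCast_eq_natCast_iff a a' p).mpr ((CharP.natCast_eq_natCast k p).mp h)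

end CharPFacts

/-! ## Finite order -/

section FinOrd

/-- every element of `G_ℚ` has a positive power fixing a given finite extension -/
theorem ord_exists_pow_fix (F : IntermediateField ℚ (AlgebraicClosure ℚ))
    [FiniteDimensional ℚ F] (σ : AlgebraicClosure ℚ ≃ₐ[ℚ] AlgebraicClosure ℚ) :
    ∃ n : ℕ, 0 < n ∧ ∀ x ∈ F, (σ ^ n) x = x := by
  haveI : IsGalois ℚ (AlgebraicClosure ℚ) := Fermat.Agent.S54.helper91.isGalois_Qbar
  have hidx : F.fixingSubgroup.index ≠ 0 := by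
    rw [← IntermediateField.finrank_eq_fixingSubgroup_index]
    exact Module.finrank_pos.ne'
  obtain ⟨n, hn, -, hmem⟩ := Subgroup.exists_pow_mem_of_index_ne_zero hidx σ
  exact ⟨n, hn, fun x hx => (IntermediateField.mem_fixingSubgroup_iff F _).mp hmem x hx⟩

end FinOrd

/-! ## The determinant of the residual representation -/

section Det

variable (p : ℕ) [Fact p.Prime] {k : Type} [Field k] [CharP k p]
  (ρ : GaloisRepAdic (DualNumber k)) {Vb : Type} [AddCommGroup Vb] [Module k Vb]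

theorem ord_det_eq_cycloExp (hdet : ρ.DetIsCyclotomic p)
    (σ : AlgebraicClosure ℚ ≃ₐ[ℚ] AlgebraicClosure ℚ) :
    LinearMap.det (ρ.ρ σ) = ((cycloExp p σ : ℕ) : DualNumber k) := by
  have hspec : ∀ μ : AlgebraicClosure ℚ, μ ^ p ^ 1 = 1 → σ μ = μ ^ cycloExp p σ := by
    intro μ hμ
    rw [pow_one] at hμ
    exact cyclo_apply_of_pow_eq_one p σ hμ
  have hd := hdet.2 1 σ (cycloExp p σ) hspec
  have hp0 : ((p : ℕ) : DualNumber k) = 0 := by
    refine TrivSqZeroExt.ext ?_ ?_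
    · rw [TrivSqZeroExt.fst_natCast, CharP.cast_eq_zero k p, TrivSqZeroExt.fst_zero]
    · rw [TrivSqZeroExt.snd_natCast, TrivSqZeroExt.snd_zero]
  rw [pow_one, hp0, Ideal.span_singleton_eq_bot.mpr rfl, Ideal.mem_bot, sub_eq_zero] at hd
  exact hd

theorem ord_det_bar (hdet : ρ.DetIsCyclotomic p)
    (b : Module.Basis (Fin 2) (DualNumber k) ρ.V) (bb : Module.Basis (Fin 2) k Vb)
    (f : Module.End k Vb) (g : Module.End k Vb)
    (σ : AlgebraicClosure ℚ ≃ₐ[ℚ] AlgebraicClosure ℚ)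
    (hM : LinearMap.toMatrix b b (ρ.ρ σ) =
      (LinearMap.toMatrix bb bb f).map TrivSqZeroExt.inl +
        (LinearMap.toMatrix bb bb g).map TrivSqZeroExt.inr) :
    LinearMap.det f = ((cycloExp p σ : ℕ) : k) := by
  have h1 : (LinearMap.toMatrix b b (ρ.ρ σ)).map
      (TrivSqZeroExt.fstHom k k k : DualNumber k →ₐ[k] k) = LinearMap.toMatrix bb bb f := by
    rw [hM]
    ext i j
    simp only [Matrix.map_apply, Matrix.add_apply, TrivSqZeroExt.fstHom_apply,
      TrivSqZeroExt.fst_add, TrivSqZeroExt.fst_inl, TrivSqZeroExt.fst_inr, add_zero]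
  have h2 := RingHom.map_det (TrivSqZeroExt.fstHom k k k : DualNumber k →ₐ[k] k).toRingHom
    (LinearMap.toMatrix b b (ρ.ρ σ))
  rw [LinearMap.det_toMatrix, ord_det_eq_cycloExp p ρ hdet σ] at h2
  have h3 : ((TrivSqZeroExt.fstHom k k k : DualNumber k →ₐ[k] k).toRingHom.mapMatrix
      (LinearMap.toMatrix b b (ρ.ρ σ))) = LinearMap.toMatrix bb bb f := h1
  rw [h3, LinearMap.det_toMatrix] at h2
  rw [← h2]
  simp

end Det

/-! ## The statement -/

/-- **ORD**. -/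
theorem ord (p : ℕ) [Fact p.Prime] : OrdStatement p := by
  intro 𝒪 _ _ ρbar hp2 hTR hram ρ hdet hR1 hR2 c hc hL₀
  obtain ⟨b, bb, hM⟩ := hc
  obtain ⟨L₀, hL₀fin, hL₀stab⟩ := hL₀
  obtain ⟨τr, hτrI, hτr⟩ := hram
  have hp : p.Prime := Fact.out
  haveI hchar : CharP (ResidueField 𝒪) p := ord_charP p hdet.1
  have h2 : (2 : ResidueField 𝒪) ≠ 0 := by
    intro h
    have h' : ((2 : ℕ) : ResidueField 𝒪) = 0 := by exact_mod_cast h
    have hdvd := (CharP.cast_eq_zero_iff (ResidueField 𝒪) p 2).mp h'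
    exact hp2 ((Nat.prime_dvd_prime_iff_eq hp Nat.prime_two).mp hdvd)
  -- the groups and the actions
  haveI hI : (locInertiaNat p).Normal :=
    (Fermat.Agent.P1.helper82.locCyclicStatement ⟨p, hp⟩).1
  set r : (PadicAlgCl p ≃ₐ[ℚ_[p]] PadicAlgCl p) →* Module.End (DualNumber (ResidueField 𝒪)) ρ.V :=
    locRep p ρ with hr
  set rb : (PadicAlgCl p ≃ₐ[ℚ_[p]] PadicAlgCl p) →* Module.End (ResidueField 𝒪) ρbar.V :=
    ρbar.ρ.comp (localGaloisToGlobal p) with hrb
  set C : (PadicAlgCl p ≃ₐ[ℚ_[p]] PadicAlgCl p) → Module.End (ResidueField 𝒪) ρbar.V :=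
    fun g => Ad0.toEnd ρbar (c (localGaloisToGlobal p g)) with hC
  have hM' : ∀ g, LinearMap.toMatrix b b (r g) =
      (LinearMap.toMatrix bb bb (rb g)).map TrivSqZeroExt.inl +
        (LinearMap.toMatrix bb bb (C g * rb g)).map TrivSqZeroExt.inr := fun g => hM _
  have hR1V : R1V (locInertiaNat p) r := ord_r1V p ρ hR1
  have hR2V := ord_r2V p ρ hR2
  -- the cyclotomic character in `k`
  set ω : (PadicAlgCl p ≃ₐ[ℚ_[p]] PadicAlgCl p) → ResidueField 𝒪 :=
    fun g => ((cycloExp p (localGaloisToGlobal p g) : ℕ) : ResidueField 𝒪) with hωdef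
  have hdetb : ∀ g, LinearMap.det (rb g) = ω g := fun g =>
    ord_det_bar p ρ hdet b bb (rb g) (C g * rb g) (localGaloisToGlobal p g) (hM' g)
  have hω : ω τr ≠ 1 := by
    intro h
    apply hτr
    have h1 : ((cycloExp p (localGaloisToGlobal p τr) : ℕ) : ZMod p) = ((1 : ℕ) : ZMod p) :=
      ord_zmod_eq_of_natCast (k := ResidueField 𝒪) p (by rw [Nat.cast_one]; exact h)
    apply Units.ext
    rw [coe_cycloChar, h1, Nat.cast_one, Units.val_one]
  -- the generator of `L₀` and its character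
  obtain ⟨v₀, hv₀, hv₀span⟩ := finrank_eq_one_iff'.mp hL₀fin
  set w₀ : ρbar.V := (v₀ : ρbar.V) with hw₀def
  have hw₀ : w₀ ≠ 0 := fun h => hv₀ (Subtype.ext h)
  have hχex : ∀ g : PadicAlgCl p ≃ₐ[ℚ_[p]] PadicAlgCl p,
      ∃ a : ResidueField 𝒪, rb g w₀ = a • w₀ := by
    intro g
    obtain ⟨a, ha⟩ := hv₀span ⟨rb g w₀, hL₀stab g w₀ v₀.2⟩
    exact ⟨a, (congrArg Subtype.val ha).symm⟩
  choose χ hχ using hχex
  have hχ1 : χ 1 = 1 := by
    refine smul_left_injective (ResidueField 𝒪) hw₀ ?_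
    show χ 1 • w₀ = (1 : ResidueField 𝒪) • w₀
    rw [← hχ 1, map_one, Module.End.one_apply, one_smul]
  have hχmul : ∀ g h, χ (g * h) = χ g * χ h := by
    intro g h
    refine smul_left_injective (ResidueField 𝒪) hw₀ ?_
    show χ (g * h) • w₀ = (χ g * χ h) • w₀
    rw [← hχ (g * h), map_mul, Module.End.mul_apply, hχ h, map_smul, hχ g, smul_smul, mul_comm]
  set χm : (PadicAlgCl p ≃ₐ[ℚ_[p]] PadicAlgCl p) →* ResidueField 𝒪 :=
    { toFun := χ, map_one' := hχ1, map_mul' := hχmul } with hχm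
  set χu : (PadicAlgCl p ≃ₐ[ℚ_[p]] PadicAlgCl p) →* (ResidueField 𝒪)ˣ := χm.toHomUnits with hχudef
  have hχu : ∀ g, ((χu g : (ResidueField 𝒪)ˣ) : ResidueField 𝒪) = χ g := fun g =>
    MonoidHom.coe_toHomUnits χm g
  have hχpow : ∀ g (n : ℕ), χ (g ^ n) = χ g ^ n := fun g n => map_pow χm g n
  -- finite level
  obtain ⟨F, hF, hFρ⟩ := ρbar.factorsThroughFiniteLevel
  have hopen : ∀ τ : PadicAlgCl p ≃ₐ[ℚ_[p]] PadicAlgCl p,
      (∀ z ∈ F, localGaloisToGlobal p τ z = z) → χ τ = 1 := by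
    intro τ hτ
    have h1 : rb τ w₀ = w₀ := by
      show ρbar.ρ (localGaloisToGlobal p τ) w₀ = w₀
      rw [hFρ _ hτ, Module.End.one_apply]
    rw [hχ τ] at h1
    refine smul_left_injective (ResidueField 𝒪) hw₀ ?_
    show χ τ • w₀ = (1 : ResidueField 𝒪) • w₀
    rw [h1, one_smul]
  have hopenu : ∀ τ : PadicAlgCl p ≃ₐ[ℚ_[p]] PadicAlgCl p,
      (∀ z ∈ F, localGaloisToGlobal p τ z = z) → χu τ = 1 := fun τ hτ =>
    Units.ext (by rw [hχu, hopen τ hτ, Units.val_one])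
  -- (TR)
  have hTRχ : ∀ τ ∈ locInertiaNat p, ∃ a : ℕ, (a : ResidueField 𝒪) = χ τ := by
    intro τ hτ
    have h1 := hTR (ResidueField 𝒪) χu ⟨F, hF, hopenu⟩ τ hτ
    have h2 : χ τ ^ (p - 1) = 1 := by
      have := congrArg Units.val h1
      rwa [Units.val_pow_eq_pow_val, hχu, Units.val_one] at this
    exact ord_exists_natCast p h2
  -- (R2): a ramified character of the stable line is cyclotomic on inertia
  have hA : (∃ τ₁ ∈ locInertiaNat p, χ τ₁ ≠ 1) → ∀ τ ∈ locInertiaNat p, χ τ = ω τ := by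
    rintro ⟨τ₁, hτ₁, hχ₁⟩ τ hτ
    set x : ρ.V := epsV b bb w₀ with hx
    have hrx : ∀ g, r g x = (TrivSqZeroExt.inl (χ g) : DualNumber (ResidueField 𝒪)) • x :=
      fun g => by rw [hx, apply_epsV r rb C hM', hχ g, epsV_smul]
    have hrxn : ∀ g (a : ℕ), (a : ResidueField 𝒪) = χ g → r g x = a • x := fun g a ha => by
      rw [hx, apply_epsV r rb C hM', hχ g, ← ha, epsV_natCast_smul]
    have hx0 : x ≠ 0 := fun h => hw₀ (epsV_injective h)
    have hxram : x ∈ ramV (locInertiaNat p) r := by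
      have e1 : (TrivSqZeroExt.inl (χ τ₁) : DualNumber (ResidueField 𝒪)) • x - x =
          (TrivSqZeroExt.inl (χ τ₁ - 1) : DualNumber (ResidueField 𝒪)) • x := by
        rw [TrivSqZeroExt.inl_sub, sub_smul, TrivSqZeroExt.inl_one, one_smul]
      have e : x = (TrivSqZeroExt.inl (χ τ₁ - 1)⁻¹ : DualNumber (ResidueField 𝒪)) •
          (r τ₁ x - x) := by
        rw [hrx τ₁, e1, smul_smul, ← TrivSqZeroExt.inl_mul,
          inv_mul_cancel₀ (sub_ne_zero.mpr hχ₁), TrivSqZeroExt.inl_one, one_smul]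
      rw [e]
      exact smul_mem_ramV _ (sub_mem_ramV hτ₁ _)
    obtain ⟨a, ha⟩ := hTRχ τ hτ
    have hRes := hR2V x hxram hx0 χu.ker (MonoidHom.normal_ker χu)
      ⟨F, hF, fun τ' hτ' => MonoidHom.mem_ker.mpr (hopenu τ' hτ')⟩
      (fun g => by
        obtain ⟨n, hn, hfix⟩ := ord_exists_pow_fix F (localGaloisToGlobal p g)
        have h1 : χ g ^ n = 1 := by
          rw [← hχpow]
          exact hopen (g ^ n) (fun z hz => by rw [map_pow]; exact hfix z hz)
        obtain ⟨m, hm, hm1⟩ := ord_exists_pow_eq_one p hn h1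
        refine ⟨m, hm, MonoidHom.mem_ker.mpr (Units.ext ?_)⟩
        rw [hχu, hχpow, hm1, Units.val_one])
      (fun s hs => by
        have h1 : χ s = 1 := by
          rw [← hχu, MonoidHom.mem_ker.mp hs, Units.val_one]
        show r s x = x
        rw [hrx s, h1, TrivSqZeroExt.inl_one, one_smul])
      (fun τ' hτ' => by
        obtain ⟨a', ha'⟩ := hTRχ τ' hτ'
        exact ⟨a', hrxn τ' a' ha'⟩)
      τ hτ a (hrxn τ a ha)
    rw [coe_cycloChar] at hRes
    rw [← ha]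
    exact ord_natCast_eq_of_zmod p hRes
  -- the line
  obtain ⟨u₀, hu₀, hstab, hin, τ₁, hτ₁, a₁, ha₁, hτ₁u⟩ :=
    ord_line (locInertiaNat p) rb (ord_finrank_eq bb) ω (fun τ _ => hdetb τ) τr hτrI hω w₀ hw₀
      χ hχ hA (fun hfix => ord_not_mem_of_fixed (locInertiaNat p) r rb C hM' hR1V hw₀ hfix)
  -- the structure of the ramified part
  obtain ⟨m, hfm, hmstab, hmin⟩ :=
    ord_struct b bb (locInertiaNat p) r rb C hM' hR1V u₀ hstab hin τ₁ hτ₁ a₁ ha₁ hτ₁u
  have hu₀' : fstV b bb m ≠ 0 := by rw [hfm]; exact hu₀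
  obtain ⟨Xt, hXt⟩ := exists_end_apply_eq bb hu₀' (sndV b bb m)
  -- the trace-zero endomorphism `X`
  set s : ResidueField 𝒪 := LinearMap.trace (ResidueField 𝒪) ρbar.V Xt / 2 with hs
  have hXtr : LinearMap.trace (ResidueField 𝒪) ρbar.V
      (-(Xt - s • (1 : Module.End (ResidueField 𝒪) ρbar.V))) = 0 := by
    rw [map_neg, map_sub, map_smul, LinearMap.trace_one, ρbar.finrank_eq, hs, smul_eq_mul,
      Nat.cast_ofNat, div_mul_cancel₀ _ h2, sub_self, neg_zero]
  let X : Ad0 ρbar := ⟨-(Xt - s • (1 : Module.End (ResidueField 𝒪) ρbar.V)), hXtr⟩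
  have hXend : Ad0.toEnd ρbar X = -(Xt - s • (1 : Module.End (ResidueField 𝒪) ρbar.V)) := rfl
  have hend : ∀ σ : AlgebraicClosure ℚ ≃ₐ[ℚ] AlgebraicClosure ℚ,
      Ad0.toEnd ρbar (c σ - (ad0Hom ρbar σ X - X)) =
        Ad0.toEnd ρbar (c σ) + ρbar.ρ σ * Xt * ρbar.ρ σ⁻¹ - Xt := by
    intro σ
    rw [map_sub, map_sub, toEnd_ad0Hom, hXend]
    have e1 : ρbar.ρ σ * (s • (1 : Module.End (ResidueField 𝒪) ρbar.V)) * ρbar.ρ σ⁻¹ =
        s • (1 : Module.End (ResidueField 𝒪) ρbar.V) := by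
      rw [mul_smul_comm, mul_one, smul_mul_assoc, ← map_mul, mul_inv_cancel, map_one]
    rw [neg_sub, mul_sub, sub_mul, e1]
    abel
  have hinv : ∀ g : PadicAlgCl p ≃ₐ[ℚ_[p]] PadicAlgCl p,
      ρbar.ρ (localGaloisToGlobal p g)⁻¹ * rb g = 1 := fun g => by
    show ρbar.ρ (localGaloisToGlobal p g)⁻¹ * ρbar.ρ (localGaloisToGlobal p g) = 1
    rw [← map_mul, inv_mul_cancel, map_one]
  have hinv' : ∀ g : PadicAlgCl p ≃ₐ[ℚ_[p]] PadicAlgCl p,
      rb g * ρbar.ρ (localGaloisToGlobal p g)⁻¹ = 1 := fun g => by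
    show ρbar.ρ (localGaloisToGlobal p g) * ρbar.ρ (localGaloisToGlobal p g)⁻¹ = 1
    rw [← map_mul, mul_inv_cancel, map_one]
  refine ⟨Submodule.span (ResidueField 𝒪) {u₀}, X, finrank_span_singleton hu₀, ?_, ?_, ?_, ?_⟩
  · -- stable
    intro τ w hw
    obtain ⟨t, rfl⟩ := Submodule.mem_span_singleton.mp hw
    rw [map_smul]
    exact Submodule.smul_mem _ _ (hstab τ)
  · -- inertia
    exact fun τ hτ w => hin τ hτ w
  · -- Borel
    intro τ
    rw [mem_borelSub, hend]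
    intro w hw
    obtain ⟨t, rfl⟩ := Submodule.mem_span_singleton.mp hw
    rw [map_smul]
    refine Submodule.smul_mem _ _ ?_
    obtain ⟨x, hx⟩ := hmstab τ
    obtain ⟨h1, h2'⟩ := ord_borel_core b bb m Xt hXt (r τ) (rb τ)
      (ρbar.ρ (localGaloisToGlobal p τ)⁻¹) (C τ) (hinv τ) (hM' τ) x hx
    have hx0 : x.fst ≠ 0 := by
      intro h0
      rw [h0, zero_smul] at h1
      have h3 := congrArg (ρbar.ρ (localGaloisToGlobal p τ)⁻¹) h1
      rw [← Module.End.mul_apply, hinv τ, Module.End.one_apply, map_zero] at h3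
      exact hu₀' h3
    have h4 : (C τ + rb τ * Xt * ρbar.ρ (localGaloisToGlobal p τ)⁻¹ - Xt) (fstV b bb m) =
        (x.fst⁻¹ * x.snd) • fstV b bb m := by
      rw [mul_smul, ← h2', smul_smul, inv_mul_cancel₀ hx0, one_smul]
    rw [hfm] at h4
    show (C τ + rb τ * Xt * ρbar.ρ (localGaloisToGlobal p τ)⁻¹ - Xt) u₀ ∈ _
    rw [h4]
    exact Submodule.smul_mem _ _ (Submodule.mem_span_singleton_self _)
  · -- nilpotent on inertia
    intro τ hτ
    rw [mem_nilSub, hend]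
    have hD : ∀ w, (C τ + rb τ * Xt * ρbar.ρ (localGaloisToGlobal p τ)⁻¹ - Xt) w ∈
        Submodule.span (ResidueField 𝒪) {u₀} := by
      intro w
      have := ord_nil_core b bb m Xt hXt (r τ) (rb τ)
        (ρbar.ρ (localGaloisToGlobal p τ)⁻¹) (C τ) (hinv' τ) (hM' τ) (hmin τ hτ)
        (by rw [hfm]; exact hin τ hτ) w
      rwa [hfm] at this
    have htr : LinearMap.trace (ResidueField 𝒪) ρbar.V
        (C τ + rb τ * Xt * ρbar.ρ (localGaloisToGlobal p τ)⁻¹ - Xt) = 0 := by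
      have := Ad0.trace_toEnd ρbar (c (localGaloisToGlobal p τ) -
        (ad0Hom ρbar (localGaloisToGlobal p τ) X - X))
      rwa [hend] at this
    have hDu := ord_eq_zero_of_trace (ord_finrank_eq bb) _ hu₀
      (fun w => by
        obtain ⟨t, ht⟩ := Submodule.mem_span_singleton.mp (hD w)
        exact ⟨t, ht.symm⟩) htr
    refine ⟨hD, fun w hw => ?_⟩
    obtain ⟨t, rfl⟩ := Submodule.mem_span_singleton.mp hw
    rw [map_smul]
    show t • (C τ + rb τ * Xt * ρbar.ρ (localGaloisToGlobal p τ)⁻¹ - Xt) u₀ = 0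
    rw [hDu, smul_zero]

end Fermat.Agent.P1.helper49
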