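import Mathlib

/-!
# P1 / FT-C (helper71): abstract algebra

* `ftc_pow_dvd` : in a commutative ring `A` with an additive subgroup `n`, if `(1 + t)^p = 1`
  (`p ≥ 3` prime), `t n ⊆ p n` and `A` has no `p`-torsion, then `t n ⊆ p^k n` for all `k`.
* `sum_comp_eq_of_injOn` : reindexing a finite sum by an injective self-map.
* `mem_of_sum_eq_sum` : Dedekind independence, in the form used for FT-C.
-/

set_option autoImplicit false
set_option linter.unusedSectionVars false
set_option linter.style.haveILetI false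
set_option linter.unusedVariables false

namespace Fermat.Agent.P1.helper71

section Abs

variable {A : Type*} [CommRing A]

/-- the binomial expansion `(1 + t)^p = 1 + p t + t² R` -/
theorem ftc_binom (p : ℕ) (hp3 : 3 ≤ p) (t : A) :
    (1 + t) ^ p = 1 + (p : A) * t +
      t ^ 2 * ∑ m ∈ Finset.range (p - 1), t ^ m * ((p.choose (m + 2) : ℕ) : A) := by
  obtain ⟨k, rfl⟩ := Nat.exists_eq_add_of_le hp3
  rw [add_comm (1 : A) t, add_pow]
  have hk : 3 + k + 1 = (3 + k - 1) + 1 + 1 := by omega
  rw [hk, Finset.sum_range_succ', Finset.sum_range_succ']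
  simp only [one_pow, mul_one, pow_zero, Nat.choose_zero_right, Nat.cast_one, zero_add, pow_one,
    Nat.choose_one_right]
  rw [Finset.mul_sum]
  have : ∀ m ∈ Finset.range (3 + k - 1), t ^ (m + 1 + 1) * (((3 + k).choose (m + 1 + 1) : ℕ) : A)
      = t ^ 2 * (t ^ m * (((3 + k).choose (m + 2) : ℕ) : A)) := by
    intro m _
    ring
  rw [Finset.sum_congr rfl this]
  ring

/-- **the `p`-adic induction of FT-C** -/
theorem ftc_pow_dvd (p : ℕ) (hp : p.Prime) (hp2 : p ≠ 2) (n : AddSubgroup A) (t : A)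
    (ht : (1 + t) ^ p = 1)
    (hn : ∀ f ∈ n, ∃ g ∈ n, t * f = (p : A) * g)
    (htf : ∀ g : A, (p : A) * g = 0 → g = 0) :
    ∀ k : ℕ, ∀ f ∈ n, ∃ g ∈ n, t * f = (p : A) ^ (k + 1) * g := by
  have hp3 : 3 ≤ p := by
    have := hp.two_le
    omega
  have hpn : ∀ g ∈ n, (p : A) * g ∈ n := by
    intro g hg
    rw [← nsmul_eq_mul]
    exact n.nsmul_mem hg p
  have hstab : ∀ f ∈ n, t * f ∈ n := by
    intro f hf
    obtain ⟨g, hg, h⟩ := hn f hf
    rw [h]
    exact hpn g hg
  have hstabj : ∀ j : ℕ, ∀ f ∈ n, t ^ j * f ∈ n := by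
    intro j
    induction j with
    | zero => intro f hf; simpa using hf
    | succ j ih =>
      intro f hf
      rw [pow_succ, mul_assoc]
      exact ih _ (hstab f hf)
  -- `R f ∈ p n`
  have hR : ∀ f ∈ n, ∃ g ∈ n,
      (∑ m ∈ Finset.range (p - 1), t ^ m * ((p.choose (m + 2) : ℕ) : A)) * f = (p : A) * g := by
    intro f hf
    have hmem : (∑ m ∈ Finset.range (p - 1), t ^ m * ((p.choose (m + 2) : ℕ) : A)) * f ∈
        n.map (AddMonoidHom.mulLeft (p : A)) := by
      rw [Finset.sum_mul]
      refine AddSubgroup.sum_mem _ fun m _ => ?_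
      rcases Nat.eq_zero_or_pos m with rfl | hm
      · obtain ⟨c, hc⟩ : p ∣ p.choose 2 := hp.dvd_choose_self (by norm_num) (by omega)
        refine ⟨(c : A) * f, ?_, ?_⟩
        · rw [← nsmul_eq_mul]
          exact n.nsmul_mem hf c
        · show (p : A) * ((c : A) * f) = _
          rw [zero_add, hc]
          push_cast
          ring
      · obtain ⟨m', rfl⟩ : ∃ m', m = m' + 1 := ⟨m - 1, by omega⟩
        obtain ⟨g, hg, h⟩ := hn f hf
        refine ⟨((p.choose (m' + 1 + 2) : ℕ) : A) * (t ^ m' * g), ?_, ?_⟩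
        · rw [← nsmul_eq_mul]
          exact n.nsmul_mem (hstabj m' g hg) _
        · show (p : A) * (((p.choose (m' + 1 + 2) : ℕ) : A) * (t ^ m' * g)) = _
          have : t ^ (m' + 1) * ((p.choose (m' + 1 + 2) : ℕ) : A) * f
              = ((p.choose (m' + 1 + 2) : ℕ) : A) * (t ^ m' * (t * f)) := by ring
          rw [this, h]
          ring
    obtain ⟨g, hg, h⟩ := hmem
    exact ⟨g, hg, h.symm⟩
  intro k
  induction k with
  | zero =>
    intro f hf
    obtain ⟨g, hg, h⟩ := hn f hf
    exact ⟨g, hg, by rw [h, zero_add, pow_one]⟩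
  | succ k ih =>
    intro f hf
    obtain ⟨g₁, hg₁, h₁⟩ := hn f hf
    obtain ⟨g₂, hg₂, h₂⟩ := ih g₁ hg₁
    obtain ⟨g₃, hg₃, h₃⟩ := hR g₂ hg₂
    refine ⟨-g₃, n.neg_mem hg₃, ?_⟩
    have hbin := ftc_binom p hp3 t
    rw [ht] at hbin
    -- `0 = p t + t² R`
    have h0 : (p : A) * (t * f + (p : A) ^ (k + 1 + 1) * g₃) = 0 := by
      have e1 : (p : A) * t * f + t ^ 2 *
          (∑ m ∈ Finset.range (p - 1), t ^ m * ((p.choose (m + 2) : ℕ) : A)) * f = 0 := by
        have hb : (1 : A) * f = (1 + (p : A) * t + t ^ 2 *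
            ∑ m ∈ Finset.range (p - 1), t ^ m * ((p.choose (m + 2) : ℕ) : A)) * f := by
          rw [← hbin]
        linear_combination -hb
      have e2 : t ^ 2 * (∑ m ∈ Finset.range (p - 1), t ^ m * ((p.choose (m + 2) : ℕ) : A)) * f
          = (p : A) ^ (k + 1 + 1 + 1) * g₃ := by
        have : t ^ 2 * (∑ m ∈ Finset.range (p - 1), t ^ m * ((p.choose (m + 2) : ℕ) : A)) * f
            = (∑ m ∈ Finset.range (p - 1), t ^ m * ((p.choose (m + 2) : ℕ) : A)) * (t * (t * f)) := by
          ring
        rw [this, h₁]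
        have : t * ((p : A) * g₁) = (p : A) * (t * g₁) := by ring
        rw [this, h₂]
        have : (∑ m ∈ Finset.range (p - 1), t ^ m * ((p.choose (m + 2) : ℕ) : A)) *
            ((p : A) * ((p : A) ^ (k + 1) * g₂))
            = (p : A) ^ (k + 1 + 1) *
              ((∑ m ∈ Finset.range (p - 1), t ^ m * ((p.choose (m + 2) : ℕ) : A)) * g₂) := by
          ring
        rw [this, h₃]
        ring
      rw [e2] at e1
      linear_combination e1
    have h1 := htf _ h0
    linear_combination h1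

end Abs

section Comb

/-- reindexing a finite sum by an injective self-map of the index set -/
theorem sum_comp_eq_of_injOn {α M : Type*} [AddCommMonoid M] (S : Finset α) (π : α → α)
    (hmaps : ∀ a ∈ S, π a ∈ S) (hinj : Set.InjOn π S) (f : α → M) :
    ∑ a ∈ S, f (π a) = ∑ a ∈ S, f a := by
  classical
  have himg : S.image π = S := by
    apply Finset.eq_of_subset_of_card_le
    · intro b hb
      obtain ⟨a, ha, rfl⟩ := Finset.mem_image.mp hb
      exact hmaps a ha
    · rw [Finset.card_image_of_injOn hinj]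
  conv_rhs => rw [← himg]
  rw [Finset.sum_image hinj]

/-- Dedekind independence: two finite sets of characters with the same sum, as functions, are
equal (one inclusion) -/
theorem subset_of_sum_eq_sum {G L : Type*} [Monoid G] [Field L] (S₁ S₂ : Finset (G →* L))
    (h : ∀ g : G, ∑ φ ∈ S₁, φ g = ∑ φ ∈ S₂, φ g) : S₁ ⊆ S₂ := by
  classical
  intro φ₀ hφ₀
  by_contra hφ₀'
  have hli := linearIndependent_monoidHom G L
  rw [linearIndependent_iff'] at hli
  have key := hli (S₁ ∪ S₂)
    (fun φ => (if φ ∈ S₁ then (1 : L) else 0) - (if φ ∈ S₂ then 1 else 0)) ?_ φ₀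
    (Finset.mem_union_left _ hφ₀)
  · simp [hφ₀, hφ₀'] at key
  · ext g
    simp only [Finset.sum_apply, Pi.smul_apply, smul_eq_mul, Pi.zero_apply, sub_mul,
      Finset.sum_sub_distrib, ite_mul, one_mul, zero_mul]
    rw [Finset.sum_ite_mem, Finset.sum_ite_mem, Finset.union_inter_cancel_left,
      Finset.union_inter_cancel_right, h g, sub_self]

end Comb

end Fermat.Agent.P1.helper71
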