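import Mathlib
import Fermat.Agent.P1.helper70_FTDefs
import Fermat.Agent.P1.helper78_KRInert
import Fermat.Agent.S55.helper7_LocRes
import Fermat.Agent.P1.helper71_FTCAlg

/-!
# P1 / FT-C (helper71, task 707): the connected part is contained in the ramified part
-/

set_option autoImplicit false
set_option linter.unusedSectionVars false
set_option linter.style.haveILetI false
set_option linter.unusedVariables false

namespace Fermat.Agent.P1.helper71

open Fermat.Agent.S55.helper8 Fermat.Agent.S55.helper7 Fermat.Agent.P1.helper14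
open WithConv Coalgebra

noncomputable section

section Conv

variable {O H F : Type} [CommRing O] [CommRing H] [Bialgebra O H] [Coalgebra.IsCocomm O H]
  [Field F] [Algebra O F]

/-- a point as an element of the convolution ring of linear maps -/
def lin (x : WithConv (H →ₐ[O] F)) : WithConv (H →ₗ[O] F) := toConv x.ofConv.toLinearMap

theorem lin_apply (x : WithConv (H →ₐ[O] F)) (h : H) : lin x h = x.ofConv h := rfl

theorem lin_one : lin (1 : WithConv (H →ₐ[O] F)) = 1 := rfl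

theorem lin_mul (x y : WithConv (H →ₐ[O] F)) : lin (x * y) = lin x * lin y := rfl

theorem lin_pow (x : WithConv (H →ₐ[O] F)) (n : ℕ) : lin (x ^ n) = lin x ^ n :=
  AlgHom.toLinearMap_convPow x n

theorem lin_injective : Function.Injective (lin : WithConv (H →ₐ[O] F) → WithConv (H →ₗ[O] F)) :=
  toConv_injective.comp (AlgHom.toLinearMap_injective.comp ofConv_injective)

theorem conv_ext {f g : WithConv (H →ₗ[O] F)} (h : ∀ a : H, f a = g a) : f = g :=
  WithConv.ext (LinearMap.ext h)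

theorem conv_sub_apply (f g : WithConv (H →ₗ[O] F)) (a : H) : (f - g) a = f a - g a := rfl

theorem conv_add_apply (f g : WithConv (H →ₗ[O] F)) (a : H) : (f + g) a = f a + g a := rfl

theorem conv_zero_apply (a : H) : (0 : WithConv (H →ₗ[O] F)) a = 0 := rfl

theorem conv_one_apply (a : H) :
    (1 : WithConv (H →ₗ[O] F)) a = algebraMap O F (Coalgebra.counit a) := rfl

theorem conv_smul_apply (c : F) (f : WithConv (H →ₗ[O] F)) (a : H) : (c • f) a = c * f a := rfl

theorem conv_natCast_mul (n : ℕ) (f : WithConv (H →ₗ[O] F)) :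
    (n : WithConv (H →ₗ[O] F)) * f = (n : F) • f := by
  rw [← nsmul_eq_mul]
  apply conv_ext
  intro a
  rw [conv_smul_apply]
  show (n • f.ofConv) a = _
  rw [LinearMap.smul_apply, nsmul_eq_mul]

theorem conv_sum_apply {ι : Type*} (s : Finset ι) (f : ι → WithConv (H →ₗ[O] F)) (a : H) :
    (∑ i ∈ s, f i) a = ∑ i ∈ s, f i a := by
  classical
  induction s using Finset.induction_on with
  | empty => simp
  | insert i s hi ih => rw [Finset.sum_insert hi, Finset.sum_insert hi, conv_add_apply, ih]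

end Conv

section Act

variable (p : ℕ) [Fact p.Prime]
variable {O H F : Type} [CommRing O] [CommRing H] [Bialgebra O H] [Coalgebra.IsCocomm O H]
  [Field F] [Algebra ℚ_[p] F] [Algebra O ℚ_[p]] [Algebra O F] [IsScalarTower O ℚ_[p] F]

/-- a Galois automorphism as an `O`-algebra homomorphism -/
def sigO (σ : F ≃ₐ[ℚ_[p]] F) : F →ₐ[O] F := (σ : F →ₐ[ℚ_[p]] F).restrictScalars O

theorem sigO_apply (σ : F ≃ₐ[ℚ_[p]] F) (a : F) : sigO (O := O) p σ a = σ a := rfl

/-- the Galois action on the convolution ring, by post-composition -/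
def act (σ : F ≃ₐ[ℚ_[p]] F) : WithConv (H →ₗ[O] F) →+* WithConv (H →ₗ[O] F) where
  toFun f := toConv ((sigO (O := O) p σ).toLinearMap.comp f.ofConv)
  map_one' := by
    apply conv_ext
    intro a
    show sigO (O := O) p σ (algebraMap O F _) = algebraMap O F _
    exact (sigO (O := O) p σ).commutes _
  map_mul' f g := by
    apply WithConv.ext
    exact LinearMap.algHom_comp_convMul_distrib (sigO (O := O) p σ) f g
  map_zero' := by
    apply conv_ext
    intro a
    show σ 0 = 0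
    exact map_zero σ
  map_add' f g := by
    apply conv_ext
    intro a
    show σ (f a + g a) = σ (f a) + σ (g a)
    exact map_add σ _ _

theorem act_apply (σ : F ≃ₐ[ℚ_[p]] F) (f : WithConv (H →ₗ[O] F)) (a : H) :
    act p σ f a = σ (f a) := rfl

theorem act_lin (σ : F ≃ₐ[ℚ_[p]] F) (x y : WithConv (H →ₐ[O] F))
    (h : ∀ a, σ (x.ofConv a) = y.ofConv a) : act p σ (lin x) = lin y := by
  apply conv_ext
  intro a
  rw [act_apply, lin_apply, lin_apply, h]

theorem act_eq_self (σ : F ≃ₐ[ℚ_[p]] F) (f : WithConv (H →ₗ[O] F))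
    (h : ∀ a, σ (f a) = f a) : act p σ f = f := by
  apply conv_ext
  intro a
  rw [act_apply, h]

end Act

section Val

variable (p : ℕ) [Fact p.Prime]
variable (F : Type) [Field F] [Algebra ℚ_[p] F] [FiniteDimensional ℚ_[p] F]

theorem ordT_sum_pos {ι : Type*} (s : Finset ι) (f : ι → F) (h : ∀ i ∈ s, 0 < ordT p F (f i)) :
    0 < ordT p F (∑ i ∈ s, f i) := by
  classical
  induction s using Finset.induction_on with
  | empty =>
    rw [Finset.sum_empty, Fermat.Agent.S55.helper7.ordT_zero]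
    exact WithTop.top_pos
  | insert i s hi ih =>
    rw [Finset.sum_insert hi]
    exact Fermat.Agent.S55.helper7.ordT_add_pos p F (h i (Finset.mem_insert_self i s))
      (ih fun j hj => h j (Finset.mem_insert_of_mem hj))

theorem ordT_sum_nonneg {ι : Type*} (s : Finset ι) (f : ι → F)
    (h : ∀ i ∈ s, 0 ≤ ordT p F (f i)) : 0 ≤ ordT p F (∑ i ∈ s, f i) := by
  classical
  induction s using Finset.induction_on with
  | empty =>
    rw [Finset.sum_empty, Fermat.Agent.S55.helper7.ordT_zero]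
    exact le_top
  | insert i s hi ih =>
    rw [Finset.sum_insert hi]
    exact Fermat.Agent.S55.helper7.ordT_add_nonneg p F (h i (Finset.mem_insert_self i s))
      (ih fun j hj => h j (Finset.mem_insert_of_mem hj))

/-- an element fixed by inertia lies in the inertia field -/
theorem mem_of_fixed [IsGalois ℚ_[p] F] (K0 : IntermediateField ℚ_[p] F)
    (hK0 : ∀ s : F ≃ₐ[ℚ_[p]] F, s ∈ inertia p F ↔ ∀ x ∈ K0, s x = x) (v : F)
    (hv : ∀ σ ∈ inertia p F, σ v = v) : v ∈ K0 := by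
  rw [← IsGalois.fixedField_fixingSubgroup K0, IntermediateField.mem_fixedField_iff]
  intro σ hσ
  apply hv
  rw [hK0]
  intro x hx
  exact (IntermediateField.mem_fixingSubgroup_iff K0 σ).mp hσ x hx

/-- in the inertia field, an element of positive valuation is divisible by `p` -/
theorem ordT_inv_p_mul_nonneg (K0 : IntermediateField ℚ_[p] F) (he : edeg p K0 = 1) (v : F)
    (hv : v ∈ K0) (hpos : 0 < ordT p F v) : 0 ≤ ordT p F ((p : F)⁻¹ * v) := by
  by_cases h0 : v = 0
  · rw [h0, mul_zero, Fermat.Agent.S55.helper7.ordT_zero]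
    exact le_top
  have hp0 : (p : F) ≠ 0 := by
    have h : (algebraMap ℚ_[p] F) (p : ℚ_[p]) ≠ 0 := by
      rw [Ne, map_eq_zero]
      exact_mod_cast (Fact.out : p.Prime).ne_zero
    simpa using h
  have hx0 : (⟨v, hv⟩ : K0) ≠ 0 := fun h => h0 (congrArg Subtype.val h)
  have h1 := Fermat.Agent.S55.helper7.ordT_algebraMap_of_ne_zero p K0 F hx0
  have h1' : ordT p F v = (((relE p K0 F : ℤ) * ord p K0 (Units.mk0 _ hx0) : ℤ) : WithTop ℤ) :=
    h1
  have hrel : relE p K0 F = edeg p F := by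
    unfold relE
    rw [he, Nat.div_one]
  rw [hrel] at h1'
  have hepos : (0 : ℤ) < (edeg p F : ℤ) := by
    exact_mod_cast Fermat.Agent.S55.helper33.edeg_pos p F
  rw [h1'] at hpos
  have hpos' : (0 : ℤ) < (edeg p F : ℤ) * ord p K0 (Units.mk0 _ hx0) := by
    exact_mod_cast hpos
  have hn : 1 ≤ ord p K0 (Units.mk0 _ hx0) := by
    have := pos_of_mul_pos_right hpos' hepos.le
    omega
  -- the valuation of `p⁻¹`
  have hinv := Fermat.Agent.S55.helper7.ordT_inv p F hp0
  rw [Fermat.Agent.S55.helper7.ordT_q] at hinv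
  have hpinv0 : ((p : F)⁻¹) ≠ 0 := inv_ne_zero hp0
  rw [Fermat.Agent.S55.helper7.ordT_of_ne_zero p F hpinv0] at hinv
  have hinv' : (edeg p F : ℤ) + ord p F (Units.mk0 _ hpinv0) = 0 := by
    exact_mod_cast hinv
  rw [Fermat.Agent.S55.helper7.ordT_mul, h1', Fermat.Agent.S55.helper7.ordT_of_ne_zero p F hpinv0]
  have : (0 : ℤ) ≤ ord p F (Units.mk0 _ hpinv0) + (edeg p F : ℤ) * ord p K0 (Units.mk0 _ hx0) := by
    nlinarith
  exact_mod_cast this

end Val

section Main

variable (p : ℕ) [Fact p.Prime]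
variable {F : Type} [Field F] [Algebra ℚ_[p] F] [FiniteDimensional ℚ_[p] F]
variable {O H : Type} [CommRing O] [CommRing H] [Bialgebra O H] [Coalgebra.IsCocomm O H]
  [Algebra O ℚ_[p]] [Algebra O F] [IsScalarTower O ℚ_[p] F]

/-- the additive group `𝔫` of `Y`-invariant linear maps with integral values in `K0` -/
def nn (K0 : IntermediateField ℚ_[p] F) (Y : Submonoid (WithConv (H →ₐ[O] F))) :
    AddSubgroup (WithConv (H →ₗ[O] F)) where
  carrier := {f | (∀ a, f a ∈ K0 ∧ 0 ≤ ordT p F (f a)) ∧ ∀ y ∈ Y, f * lin y = f}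
  zero_mem' := by
    refine ⟨fun a => ⟨?_, ?_⟩, fun y _ => zero_mul _⟩
    · rw [conv_zero_apply]
      exact K0.zero_mem
    · rw [conv_zero_apply, Fermat.Agent.S55.helper7.ordT_zero]
      exact le_top
  add_mem' := by
    rintro f g ⟨hf1, hf2⟩ ⟨hg1, hg2⟩
    refine ⟨fun a => ⟨?_, ?_⟩, fun y hy => ?_⟩
    · rw [conv_add_apply]
      exact K0.add_mem (hf1 a).1 (hg1 a).1
    · rw [conv_add_apply]
      exact Fermat.Agent.S55.helper7.ordT_add_nonneg p F (hf1 a).2 (hg1 a).2
    · rw [add_mul, hf2 y hy, hg2 y hy]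
  neg_mem' := by
    rintro f ⟨hf1, hf2⟩
    refine ⟨fun a => ⟨?_, ?_⟩, fun y hy => ?_⟩
    · show -(f a) ∈ K0
      exact K0.neg_mem (hf1 a).1
    · show 0 ≤ ordT p F (-(f a))
      rw [Fermat.Agent.S55.helper7.ordT_neg]
      exact (hf1 a).2
    · rw [neg_mul, hf2 y hy]

theorem mem_nn {K0 : IntermediateField ℚ_[p] F} {Y : Submonoid (WithConv (H →ₐ[O] F))}
    {f : WithConv (H →ₗ[O] F)} :
    f ∈ nn p K0 Y ↔ (∀ a, f a ∈ K0 ∧ 0 ≤ ordT p F (f a)) ∧ ∀ y ∈ Y, f * lin y = f := Iff.rfl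

/-- values of a convolution product: positive valuation -/
theorem ordT_conv_pos (t f : WithConv (H →ₗ[O] F)) (ht : ∀ a, 0 < ordT p F (t a))
    (hf : ∀ a, 0 ≤ ordT p F (f a)) (a : H) : 0 < ordT p F ((t * f) a) := by
  rw [(Coalgebra.Repr.arbitrary O a).convMul_apply]
  refine ordT_sum_pos p F _ _ fun i _ => ?_
  rw [Fermat.Agent.S55.helper7.ordT_mul]
  exact add_pos_of_pos_of_nonneg (ht _) (hf _)

/-- values of a convolution product: nonnegative valuation -/
theorem ordT_conv_nonneg (t f : WithConv (H →ₗ[O] F)) (ht : ∀ a, 0 ≤ ordT p F (t a))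
    (hf : ∀ a, 0 ≤ ordT p F (f a)) (a : H) : 0 ≤ ordT p F ((t * f) a) := by
  rw [(Coalgebra.Repr.arbitrary O a).convMul_apply]
  refine ordT_sum_nonneg p F _ _ fun i _ => ?_
  rw [Fermat.Agent.S55.helper7.ordT_mul]
  exact add_nonneg (ht _) (hf _)

variable [IsGalois ℚ_[p] F]

/-- **Step 1**: `(x - 1) 𝔫 ⊆ p 𝔫` -/
theorem ftc_step (K0 : IntermediateField ℚ_[p] F) (he : edeg p K0 = 1)
    (hK0 : ∀ s : F ≃ₐ[ℚ_[p]] F, s ∈ inertia p F ↔ ∀ x ∈ K0, s x = x)
    (Y : Submonoid (WithConv (H →ₐ[O] F))) (x : WithConv (H →ₐ[O] F))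
    (hx1 : Fermat.Agent.P1.helper70.PointRedOne p x)
    (hxst : ∀ σ ∈ inertia p F, ∃ y ∈ Y, ∀ h, σ (x.ofConv h) = (x * y).ofConv h)
    (f : WithConv (H →ₗ[O] F)) (hf : f ∈ nn p K0 Y) :
    ∃ g ∈ nn p K0 Y, (lin x - 1) * f = (p : WithConv (H →ₗ[O] F)) * g := by
  obtain ⟨hf1, hf2⟩ := hf
  have hp0 : (p : F) ≠ 0 := by
    have h : (algebraMap ℚ_[p] F) (p : ℚ_[p]) ≠ 0 := by
      rw [Ne, map_eq_zero]
      exact_mod_cast (Fact.out : p.Prime).ne_zero
    simpa using h
  -- valuations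
  have htpos : ∀ a, 0 < ordT p F ((lin x - 1 : WithConv (H →ₗ[O] F)) a) := fun a => hx1 a
  have hpos : ∀ a, 0 < ordT p F (((lin x - 1) * f) a) :=
    ordT_conv_pos p _ _ htpos (fun a => (hf1 a).2)
  -- invariance under inertia
  have hinv : ∀ σ ∈ inertia p F, act p σ ((lin x - 1) * f) = (lin x - 1) * f := by
    intro σ hσ
    obtain ⟨y, hy, hxy⟩ := hxst σ hσ
    have hfσ : act p σ f = f :=
      act_eq_self p σ f fun a => ((hK0 σ).mp hσ) _ (hf1 a).1
    rw [map_mul, map_sub, map_one, act_lin p σ x (x * y) hxy, hfσ, lin_mul]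
    have : (lin x * lin y - 1) * f = lin x * (f * lin y) - f := by ring
    rw [this, hf2 y hy]
    ring
  have hK : ∀ a, ((lin x - 1) * f) a ∈ K0 := fun a =>
    mem_of_fixed p F K0 hK0 _ fun σ hσ => by
      have := congrArg (fun g : WithConv (H →ₗ[O] F) => g a) (hinv σ hσ)
      exact this
  refine ⟨(p : F)⁻¹ • ((lin x - 1) * f), ⟨fun a => ⟨?_, ?_⟩, fun y hy => ?_⟩, ?_⟩
  · rw [conv_smul_apply]
    exact K0.mul_mem (K0.inv_mem (natCast_mem K0 p)) (hK a)
  · rw [conv_smul_apply]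
    exact ordT_inv_p_mul_nonneg p F K0 he _ (hK a) (hpos a)
  · rw [smul_mul_assoc, mul_assoc, hf2 y hy]
  · rw [conv_natCast_mul, smul_smul, mul_inv_cancel₀ hp0, one_smul]

/-- a point as a character `H →* F` -/
def chr (z : WithConv (H →ₐ[O] F)) : H →* F := MonoidHomClass.toMonoidHom z.ofConv

theorem chr_apply (z : WithConv (H →ₐ[O] F)) (a : H) : chr z a = z.ofConv a := rfl

theorem pt_ext {z z' : WithConv (H →ₐ[O] F)} (h : ∀ a, z.ofConv a = z'.ofConv a) : z = z' :=
  WithConv.ext (AlgHom.ext h)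

theorem chr_injective : Function.Injective (chr : WithConv (H →ₐ[O] F) → (H →* F)) := by
  intro z z' h
  apply pt_ext
  intro a
  have := congrArg (fun φ : H →* F => φ a) h
  exact this

omit [IsGalois ℚ_[p] F] in
theorem conv_natCast_pow_mul_apply (k : ℕ) (g : WithConv (H →ₗ[O] F)) (a : H) :
    (((p : WithConv (H →ₗ[O] F)) ^ k * g) a) = (p : F) ^ k * g a := by
  rw [← Nat.cast_pow, conv_natCast_mul, conv_smul_apply, Nat.cast_pow]

/-- **FT-C**, with the inertia field as a hypothesis -/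
theorem ftc_core (hp2 : p ≠ 2) (K0 : IntermediateField ℚ_[p] F) (he : edeg p K0 = 1)
    (hK0 : ∀ s : F ≃ₐ[ℚ_[p]] F, s ∈ inertia p F ↔ ∀ x ∈ K0, s x = x)
    (hint : Fermat.Agent.P1.helper70.PointsIntegral p F O H)
    (Y : Submonoid (WithConv (H →ₐ[O] F))) (x : WithConv (H →ₐ[O] F))
    (hYfin : (Y : Set (WithConv (H →ₐ[O] F))).Finite) (hYp : ∀ y ∈ Y, y ^ p = 1)
    (hYst : ∀ σ ∈ inertia p F, ∀ y ∈ Y, ∃ y' ∈ Y, ∀ h, σ (y.ofConv h) = y'.ofConv h)
    (hxp : x ^ p = 1) (hx1 : Fermat.Agent.P1.helper70.PointRedOne p x)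
    (hxst : ∀ σ ∈ inertia p F, ∃ y ∈ Y, ∀ h, σ (x.ofConv h) = (x * y).ofConv h) :
    x ∈ Y := by
  classical
  have hpp : p.Prime := Fact.out
  have hp1 : 1 ≤ p := hpp.one_le
  have hp0 : (p : F) ≠ 0 := by
    have h : (algebraMap ℚ_[p] F) (p : ℚ_[p]) ≠ 0 := by
      rw [Ne, map_eq_zero]
      exact_mod_cast hpp.ne_zero
    simpa using h
  -- cancellation
  have hcancelR : ∀ z : WithConv (H →ₐ[O] F), z ^ p = 1 → ∀ y y', y * z = y' * z → y = y' := by
    intro z hz y y' h
    have hz' : z * z ^ (p - 1) = 1 := by rw [← pow_succ', Nat.sub_add_cancel hp1, hz]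
    calc y = y * (z * z ^ (p - 1)) := by rw [hz', mul_one]
      _ = (y * z) * z ^ (p - 1) := by rw [mul_assoc]
      _ = (y' * z) * z ^ (p - 1) := by rw [h]
      _ = y' * (z * z ^ (p - 1)) := by rw [mul_assoc]
      _ = y' := by rw [hz', mul_one]
  have hcancelL : ∀ z : WithConv (H →ₐ[O] F), z ^ p = 1 → ∀ y y', z * y = z * y' → y = y' := by
    intro z hz y y' h
    rw [mul_comm z y, mul_comm z y'] at h
    exact hcancelR z hz y y' h
  have hmemf : ∀ y, y ∈ hYfin.toFinset ↔ y ∈ Y := fun y => Set.Finite.mem_toFinset hYfin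
  -- the norm element
  have hNY : ∀ y₀ ∈ Y, (∑ y ∈ hYfin.toFinset, lin y) * lin y₀ = ∑ y ∈ hYfin.toFinset, lin y := by
    intro y₀ hy₀
    rw [Finset.sum_mul]
    have h1 : ∀ y ∈ hYfin.toFinset, lin y * lin y₀ = lin (y * y₀) := fun y _ => (lin_mul y y₀).symm
    rw [Finset.sum_congr rfl h1]
    refine sum_comp_eq_of_injOn hYfin.toFinset (fun y => y * y₀) ?_ ?_ lin
    · intro y hy
      rw [hmemf] at hy ⊢
      exact Y.mul_mem hy hy₀
    · intro y _ y' _ h
      exact hcancelR y₀ (hYp y₀ hy₀) y y' h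
  have hNK : ∀ a, (∑ y ∈ hYfin.toFinset, lin y : WithConv (H →ₗ[O] F)) a ∈ K0 := by
    intro a
    refine mem_of_fixed p F K0 hK0 _ fun σ hσ => ?_
    rw [conv_sum_apply, map_sum]
    have hch : ∀ y : WithConv (H →ₐ[O] F), ∃ y' : WithConv (H →ₐ[O] F),
        y ∈ Y → (y' ∈ Y ∧ ∀ h, σ (y.ofConv h) = y'.ofConv h) := by
      intro y
      by_cases hy : y ∈ Y
      · obtain ⟨y', hy', h⟩ := hYst σ hσ y hy
        exact ⟨y', fun _ => ⟨hy', h⟩⟩
      · exact ⟨y, fun h => absurd h hy⟩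
    choose π hπ using hch
    have h1 : ∀ y ∈ hYfin.toFinset, σ (lin y a) = (fun z : WithConv (H →ₐ[O] F) => lin z a) (π y) := by
      intro y hy
      rw [hmemf] at hy
      exact (hπ y hy).2 a
    rw [Finset.sum_congr rfl h1]
    refine sum_comp_eq_of_injOn hYfin.toFinset π ?_ ?_ (fun z => lin z a)
    · intro y hy
      rw [hmemf] at hy ⊢
      exact (hπ y hy).1
    · intro y hy y' hy' h
      rw [Finset.mem_coe, hmemf] at hy hy'
      apply pt_ext
      intro b
      apply σ.injective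
      rw [(hπ y hy).2 b, (hπ y' hy').2 b]
      show (π y).ofConv b = (π y').ofConv b
      rw [show π y = π y' from h]
  have hNint : ∀ a, 0 ≤ ordT p F ((∑ y ∈ hYfin.toFinset, lin y : WithConv (H →ₗ[O] F)) a) := by
    intro a
    rw [conv_sum_apply]
    exact ordT_sum_nonneg p F _ _ fun y _ => hint y a
  have hN : (∑ y ∈ hYfin.toFinset, lin y) ∈ nn p K0 Y :=
    ⟨fun a => ⟨hNK a, hNint a⟩, hNY⟩
  -- the `p`-adic induction
  have ht : (1 + (lin x - 1)) ^ p = (1 : WithConv (H →ₗ[O] F)) := by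
    rw [add_sub_cancel, ← lin_pow, hxp, lin_one]
  have htf : ∀ g : WithConv (H →ₗ[O] F), (p : WithConv (H →ₗ[O] F)) * g = 0 → g = 0 := by
    intro g hg
    rw [conv_natCast_mul] at hg
    have := congrArg (fun f => (p : F)⁻¹ • f) hg
    simpa [smul_smul, inv_mul_cancel₀ hp0] using this
  have hdvd := ftc_pow_dvd p hpp hp2 (nn p K0 Y) (lin x - 1) ht
    (ftc_step p K0 he hK0 Y x hx1 hxst) htf
  -- `(x - 1) N = 0`
  have hzero : (lin x - 1) * (∑ y ∈ hYfin.toFinset, lin y) = 0 := by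
    apply conv_ext
    intro a
    rw [conv_zero_apply]
    by_contra hne
    obtain ⟨m, hm⟩ : ∃ m : ℤ,
        ordT p F (((lin x - 1) * (∑ y ∈ hYfin.toFinset, lin y)) a) = (m : WithTop ℤ) :=
      ⟨_, Fermat.Agent.S55.helper7.ordT_of_ne_zero p F hne⟩
    obtain ⟨g, hg, hgeq⟩ := hdvd m.toNat _ hN
    have hval : ((lin x - 1) * (∑ y ∈ hYfin.toFinset, lin y)) a
        = (p : F) ^ (m.toNat + 1) * g a := by
      have h1 : ((lin x - 1) * (∑ y ∈ hYfin.toFinset, lin y)) a
          = ((p : WithConv (H →ₗ[O] F)) ^ (m.toNat + 1) * g) a := by rw [hgeq]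
      rw [conv_natCast_pow_mul_apply] at h1
      exact h1
    have hge : (((m.toNat + 1 : ℕ) : ℤ) : WithTop ℤ)
        ≤ ordT p F (((lin x - 1) * (∑ y ∈ hYfin.toFinset, lin y)) a) := by
      rw [hval, Fermat.Agent.S55.helper7.ordT_mul, Fermat.Agent.S55.helper7.ordT_pow,
        Fermat.Agent.S55.helper7.ordT_q]
      have h1 : (((m.toNat + 1 : ℕ) : ℤ) : WithTop ℤ)
          ≤ (m.toNat + 1) • (((edeg p F : ℤ)) : WithTop ℤ) := by
        have he1 : (1 : ℤ) ≤ (edeg p F : ℤ) := by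
          exact_mod_cast Fermat.Agent.S55.helper33.edeg_pos p F
        have h2 : (m.toNat + 1) • (((edeg p F : ℤ)) : WithTop ℤ)
            = ((((m.toNat + 1 : ℕ) : ℤ) * (edeg p F : ℤ) : ℤ) : WithTop ℤ) := by
          rw [← WithTop.coe_nsmul, nsmul_eq_mul]
        rw [h2]
        have h3 : (((m.toNat + 1 : ℕ) : ℤ)) ≤ ((m.toNat + 1 : ℕ) : ℤ) * (edeg p F : ℤ) := by
          nlinarith [Int.natCast_nonneg (m.toNat + 1)]
        exact_mod_cast h3
      exact le_trans h1 (le_add_of_nonneg_right (hg.1 a).2)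
    rw [hm] at hge
    have hge' : ((m.toNat + 1 : ℕ) : ℤ) ≤ m := by
      exact_mod_cast hge
    have := Int.self_le_toNat m
    push_cast at hge'
    omega
  have hxN : lin x * (∑ y ∈ hYfin.toFinset, lin y) = ∑ y ∈ hYfin.toFinset, lin y := by
    have : lin x * (∑ y ∈ hYfin.toFinset, lin y)
        = (lin x - 1) * (∑ y ∈ hYfin.toFinset, lin y) + ∑ y ∈ hYfin.toFinset, lin y := by ring
    rw [this, hzero, zero_add]
  -- Dedekind independence
  have hsub := subset_of_sum_eq_sum (hYfin.toFinset.image fun y => chr (x * y))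
    (hYfin.toFinset.image chr) (by
      intro a
      rw [Finset.sum_image (fun y _ y' _ h => hcancelL x hxp y y' (chr_injective h)),
        Finset.sum_image (fun y _ y' _ h => chr_injective h)]
      have h1 : (lin x * (∑ y ∈ hYfin.toFinset, lin y)) a
          = (∑ y ∈ hYfin.toFinset, lin y : WithConv (H →ₗ[O] F)) a := by rw [hxN]
      rw [Finset.mul_sum, conv_sum_apply, conv_sum_apply] at h1
      exact h1)
  have h1Y : (1 : WithConv (H →ₐ[O] F)) ∈ hYfin.toFinset := (hmemf 1).mpr Y.one_mem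
  have hx_mem : chr x ∈ hYfin.toFinset.image fun y => chr (x * y) :=
    Finset.mem_image.mpr ⟨1, h1Y, by rw [mul_one]⟩
  obtain ⟨y, hy, hyx⟩ := Finset.mem_image.mp (hsub hx_mem)
  rw [← chr_injective hyx]
  exact (hmemf y).mp hy

/-- **[FT-C]** the connected part is contained in the ramified part (relative form). -/
theorem ftC : Fermat.Agent.P1.helper70.FTCStatement p := by
  intro F _ _ _ _ O H _ _ _ _ _ _ _ hp2 hint Y x hYfin hYp hYst hxp hx1 hxst
  obtain ⟨K0, he, -, -, hK0⟩ := Fermat.Agent.P1.helper78.krInert p F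
  exact ftc_core p hp2 K0 he hK0 hint Y x hYfin hYp hYst hxp hx1 hxst

end Main

end

end Fermat.Agent.P1.helper71
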