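import Mathlib
import Fermat.Agent.P1.helper70_FTDefs

/-!
# P1 / FLAT-CNT / FT-A (helper89, task 706): inertia moves a point by a point reducing to `1`

`ftA p : helper70.FTAStatement p` : for `σ` in the inertia group and a point `x` with
`x ^ p = 1`, the point `(σ ∘ x) * x ^ (p - 1)` reduces to the identity.
-/

set_option autoImplicit false

open scoped TensorProduct

namespace Fermat.Agent.P1.helper89

open Fermat.Agent.S55.helper8 Fermat.Agent.S55.helper7 Fermat.Agent.P1.helper14
  Fermat.Agent.P1.helper70

variable (p : ℕ) [Fact p.Prime]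

section

variable {F : Type} [Field F] [Algebra ℚ_[p] F] [FiniteDimensional ℚ_[p] F]
  {O H : Type} [CommRing O] [CommRing H] [Bialgebra O H] [Algebra O F]

/-- if `y a ≡ x a` modulo the maximal ideal for all `a` and `z` has integral values, then
`lift y z t ≡ lift x z t` for every tensor `t`. -/
lemma ordT_lift_sub_pos (x y z : H →ₐ[O] F)
    (hxy : ∀ a : H, 0 < ordT p F (y a - x a)) (hz : ∀ b : H, 0 ≤ ordT p F (z b))
    (t : H ⊗[O] H) :
    0 < ordT p F (Algebra.TensorProduct.lift y z (fun _ _ => Commute.all _ _) t -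
      Algebra.TensorProduct.lift x z (fun _ _ => Commute.all _ _) t) := by
  induction t using TensorProduct.induction_on with
  | zero =>
    rw [map_zero, map_zero, sub_zero, ordT_zero]
    exact WithTop.top_pos
  | tmul a b =>
    rw [Algebra.TensorProduct.lift_tmul, Algebra.TensorProduct.lift_tmul, ← sub_mul, ordT_mul]
    exact lt_of_lt_of_le (hxy a) (le_add_of_nonneg_right (hz b))
  | add s t hs ht =>
    rw [map_add, map_add]
    have e : ∀ a b c d : F, a + b - (c + d) = (a - c) + (b - d) := fun a b c d => by ring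
    rw [e]
    exact ordT_add_pos p F hs ht

end

/-- **FT-A** -/
theorem ftA : FTAStatement p := by
  intro F _ _ _ O H _ _ _ _ _ hint x y σ hσ hx hy h
  have hxx : x * x ^ (p - 1) = 1 := by
    rw [← pow_succ', Nat.sub_add_cancel (Fact.out : p.Prime).one_le, hx]
  have h1 : algebraMap O F (Coalgebra.counit h) = (x * x ^ (p - 1)).ofConv h := by
    rw [hxx]
    rfl
  rw [h1]
  have e1 := AlgHom.convMul_apply y (x ^ (p - 1)) h
  have e2 := AlgHom.convMul_apply x (x ^ (p - 1)) h
  have key := ordT_lift_sub_pos p x.ofConv y.ofConv (x ^ (p - 1)).ofConv (fun a => by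
    rw [← hy a]
    exact (mem_inertia p F).1 hσ _ (hint x a)) (fun b => hint (x ^ (p - 1)) b)
    (Coalgebra.comul h)
  exact (congrArg₂ (fun u v => ordT p F (u - v)) e1 e2) ▸ key

end Fermat.Agent.P1.helper89
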