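import Fermat.Agent.P1.helper78_DictInertia
import Fermat.Agent.P1.helper70_FlatDefs
import Fermat.Agent.P1.helper71_FTC
import Fermat.Agent.P1.helper47_HopfMain
import Fermat.Agent.P1.helper26_DictH0
import Fermat.Agent.P1.helper89_FTA

/-!
# P1 / FLAT-CNT, package DICT-H-R1 (helper78, task 744)

`dictHR1 p : DictH0Statement p → FTAStatement p → FTCStatement p → DictHR1Statement p`.

From DICT-H0 the group `X = V / I V` is the group of `Ω`-valued points of a finite
`ℤ_(p)`-Hopf algebra `H`, `G_p`-equivariantly.  All points have their values in one finite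
Galois extension `F/ℚ_p` (`dictP_exists_field`), and `I_p → I(F)` is surjective
(`helper78_DictInertia`).  The generators `τ z - z` of the ramified part reduce to the identity
(FT-A), points reducing to the identity form a subgroup (`dictP_redOne_mul`), and FT-C gives (R1).

Reusable pieces (transport of points `Ω ↔ F`): `dictP_incl`, `dictP_restr`, `dictP_act`,
`dictP_pointsIntegral`, `dictP_exists_field`, `dictP_redOne_one / _mul / _pow`,
`dictP_nsmul_eq_zero`, `dictP_finite_quot`.
-/

set_option linter.unusedSectionVars false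
set_option autoImplicit false

namespace Fermat.Agent.P1.helper78

open Fermat.Agent.S55.helper8 Fermat.Agent.S55.helper7 Fermat.Agent.P1.helper14
open Fermat.Agent.P1.helper92 Fermat.Agent.P1.helper70 WithConv

section DictPts

variable (p : ℕ) [Fact p.Prime]

section General

variable {F : Type} [Field F] [Algebra ℚ_[p] F] [FiniteDimensional ℚ_[p] F]
  {O H : Type} [CommRing O] [CommRing H] [Bialgebra O H] [Coalgebra.IsCocomm O H]
  [Algebra O ℚ_[p]] [Algebra O F] [IsScalarTower O ℚ_[p] F]

/-- the trivial point reduces to the identity -/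
theorem dictP_redOne_one : PointRedOne p (1 : WithConv (H →ₐ[O] F)) := by
  intro h
  rw [AlgHom.convOne_apply, sub_self, Fermat.Agent.S55.helper7.ordT_zero]
  exact WithTop.top_pos

/-- points reducing to the identity are stable under products -/
theorem dictP_redOne_mul (hint : PointsIntegral p F O H) {x y : WithConv (H →ₐ[O] F)}
    (hx : PointRedOne p x) (hy : PointRedOne p y) : PointRedOne p (x * y) := by
  intro h
  have key : (x * y).ofConv h - algebraMap O F (Coalgebra.counit h) =
      ((helper71.lin x - 1) * helper71.lin y) h +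
        (y.ofConv h - algebraMap O F (Coalgebra.counit h)) := by
    rw [sub_mul, one_mul, ← helper71.lin_mul, helper71.conv_sub_apply, helper71.lin_apply,
      helper71.lin_apply]
    ring
  rw [key]
  refine Fermat.Agent.S55.helper7.ordT_add_pos p F ?_ (hy h)
  apply helper71.ordT_conv_pos p
  · intro a
    rw [helper71.conv_sub_apply, helper71.conv_one_apply, helper71.lin_apply]
    exact hx a
  · intro a
    exact hint y a

/-- points reducing to the identity are stable under powers -/
theorem dictP_redOne_pow (hint : PointsIntegral p F O H) {x : WithConv (H →ₐ[O] F)}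
    (hx : PointRedOne p x) (n : ℕ) : PointRedOne p (x ^ n) := by
  induction n with
  | zero => rw [pow_zero]; exact dictP_redOne_one p
  | succ k ih => rw [pow_succ]; exact dictP_redOne_mul p hint ih hx

end General

section Transport

variable (F : IntermediateField ℚ_[p] (PadicAlgCl p))
  {H : Type} [CommRing H] [Bialgebra (GaloisRep.ratLocalizedAt p) H]

/-- an `Ω`-valued point with values in `F`, as an `F`-valued point -/
noncomputable def dictP_restr (f : H →ₐ[GaloisRep.ratLocalizedAt p] PadicAlgCl p)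
    (hf : ∀ h, f h ∈ F) : H →ₐ[GaloisRep.ratLocalizedAt p] F where
  toFun h := ⟨f h, hf h⟩
  map_one' := Subtype.ext (map_one f)
  map_mul' a b := Subtype.ext (map_mul f a b)
  map_zero' := Subtype.ext (map_zero f)
  map_add' a b := Subtype.ext (map_add f a b)
  commutes' r := Subtype.ext ((f.commutes r).trans
    ((F.val.restrictScalars (GaloisRep.ratLocalizedAt p)).commutes r).symm)

/-- the inclusion of the `F`-valued points into the `Ω`-valued points -/
noncomputable def dictP_incl :
    WithConv (H →ₐ[GaloisRep.ratLocalizedAt p] F) →*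
      WithConv (H →ₐ[GaloisRep.ratLocalizedAt p] PadicAlgCl p) :=
  helper47.compPts (F.val.restrictScalars (GaloisRep.ratLocalizedAt p))

theorem dictP_incl_apply (x : WithConv (H →ₐ[GaloisRep.ratLocalizedAt p] F)) (h : H) :
    (dictP_incl p F x).ofConv h = ((x.ofConv h : F) : PadicAlgCl p) := rfl

theorem dictP_incl_injective : Function.Injective (dictP_incl p F (H := H)) :=
  helper47.compPts_injective _ (fun _ _ h => Subtype.ext h)

theorem dictP_incl_restr (f : WithConv (H →ₐ[GaloisRep.ratLocalizedAt p] PadicAlgCl p))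
    (hf : ∀ h, f.ofConv h ∈ F) : dictP_incl p F (toConv (dictP_restr p F f.ofConv hf)) = f := by
  apply WithConv.ext
  ext h
  rfl

/-- the action of `Gal(F/ℚ_p)` on the `F`-valued points -/
noncomputable def dictP_act (σ : F ≃ₐ[ℚ_[p]] F) :
    WithConv (H →ₐ[GaloisRep.ratLocalizedAt p] F) →*
      WithConv (H →ₐ[GaloisRep.ratLocalizedAt p] F) :=
  helper47.compPts (helper71.sigO (O := GaloisRep.ratLocalizedAt p) p σ)

theorem dictP_act_apply (σ : F ≃ₐ[ℚ_[p]] F)
    (x : WithConv (H →ₐ[GaloisRep.ratLocalizedAt p] F)) (h : H) :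
    (dictP_act p F σ x).ofConv h = σ (x.ofConv h) := rfl

/-- the points with values in a `p`-adic field are integral -/
theorem dictP_pointsIntegral (L : Type) [Field L] [Algebra ℚ_[p] L] [FiniteDimensional ℚ_[p] L]
    [Algebra (GaloisRep.ratLocalizedAt p) L] [Module.Finite (GaloisRep.ratLocalizedAt p) H] :
    PointsIntegral p L (GaloisRep.ratLocalizedAt p) H :=
  fun y h => helper47.ordT_nonneg_of_ringHom p L H (y.ofConv : H →+* L) h

/-- **(V)** for points: all `Ω`-valued points have their values in one finite normal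
extension `F` of `ℚ_p`. -/
theorem dictP_exists_field [Module.Finite (GaloisRep.ratLocalizedAt p) H]
    [Finite (WithConv (H →ₐ[GaloisRep.ratLocalizedAt p] PadicAlgCl p))] :
    ∃ F : IntermediateField ℚ_[p] (PadicAlgCl p),
      FiniteDimensional ℚ_[p] F ∧ Normal ℚ_[p] F ∧
      ∀ (f : WithConv (H →ₐ[GaloisRep.ratLocalizedAt p] PadicAlgCl p)) (h : H),
        f.ofConv h ∈ F := by
  obtain ⟨s, hs⟩ := (Module.Finite.fg_top : (⊤ : Submodule (GaloisRep.ratLocalizedAt p) H).FG)
  have hSfin : (⋃ f : WithConv (H →ₐ[GaloisRep.ratLocalizedAt p] PadicAlgCl p),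
      (fun h => f.ofConv h) '' (s : Set H)).Finite :=
    Set.finite_iUnion (fun f => s.finite_toSet.image _)
  obtain ⟨F, hfd, hn, hSF⟩ := dictI_exists_field p _ hSfin
  refine ⟨F, hfd, hn, fun f h => ?_⟩
  have hmem : h ∈ Submodule.span (GaloisRep.ratLocalizedAt p) (s : Set H) := hs ▸ Submodule.mem_top
  induction hmem using Submodule.span_induction with
  | mem x hx => exact hSF (Set.mem_iUnion.mpr ⟨f, ⟨x, hx, rfl⟩⟩)
  | zero => rw [map_zero]; exact zero_mem F
  | add x y _ _ hx hy => rw [map_add]; exact add_mem hx hy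
  | smul c x _ hx =>
    rw [map_smul, Algebra.smul_def,
      IsScalarTower.algebraMap_apply (GaloisRep.ratLocalizedAt p) ℚ_[p] (PadicAlgCl p)]
    exact mul_mem (F.algebraMap_mem _) hx

end Transport

section Core

variable {A : Type} [CommRing A] [IsLocalRing A] (ρ : GaloisRepAdic A) (I : Ideal A)

/-- `V / I V` is killed by `p` if `p ∈ I` -/
theorem dictP_nsmul_eq_zero (hpI : (p : A) ∈ I) (x : ρ.V ⧸ (I • (⊤ : Submodule A ρ.V))) :
    p • x = 0 := by
  obtain ⟨v, rfl⟩ := Submodule.Quotient.mk_surjective _ x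
  rw [← Submodule.Quotient.mk_smul, Submodule.Quotient.mk_eq_zero,
    ← Nat.cast_smul_eq_nsmul A p v]
  exact Submodule.smul_mem_smul hpI Submodule.mem_top

/-- `V / I V` is finite -/
theorem dictP_finite_quot (hfin : Finite (A ⧸ I)) :
    Finite (ρ.V ⧸ (I • (⊤ : Submodule A ρ.V))) := by
  have : Module.Finite (A ⧸ I) (ρ.V ⧸ (I • (⊤ : Submodule A ρ.V))) :=
    Module.Finite.of_restrictScalars_finite A (A ⧸ I) _
  exact Module.finite_of_finite (A ⧸ I)

variable {H : Type} [CommRing H] [Bialgebra (GaloisRep.ratLocalizedAt p) H]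
  [Module.Finite (GaloisRep.ratLocalizedAt p) H]
  [Coalgebra.IsCocomm (GaloisRep.ratLocalizedAt p) H]

/-- **DICT-H (R1)**, core: from the points of the Hopf algebra to `FlatR1`. -/
theorem dictHR1_core (hA : FTAStatement p) (hC : FTCStatement p) (hp2 : p ≠ 2)
    (hfin : Finite (A ⧸ I)) (hpI : (p : A) ∈ I)
    (e : WithConv (H →ₐ[GaloisRep.ratLocalizedAt p] PadicAlgCl p) ≃
      (ρ.V ⧸ (I • (⊤ : Submodule A ρ.V))))
    (hadd : ∀ f g : WithConv (H →ₐ[GaloisRep.ratLocalizedAt p] PadicAlgCl p),
      e (f * g) = e f + e g)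
    (heq : ∀ (τ : PadicAlgCl p ≃ₐ[ℚ_[p]] PadicAlgCl p)
      (f g : WithConv (H →ₐ[GaloisRep.ratLocalizedAt p] PadicAlgCl p)),
      (∀ h : H, g.ofConv h = τ (f.ofConv h)) → e g = locAct p ρ I τ (e f)) :
    FlatR1 p ρ I := by
  classical
  -- the group of points
  have hfX : Finite (ρ.V ⧸ (I • (⊤ : Submodule A ρ.V))) := dictP_finite_quot ρ I hfin
  have hfP : Finite (WithConv (H →ₐ[GaloisRep.ratLocalizedAt p] PadicAlgCl p)) :=
    Finite.of_injective e e.injective
  obtain ⟨F, hfd, hn, hval⟩ := dictP_exists_field p (H := H)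
  have hgal : IsGalois ℚ_[p] F := IsGalois.mk
  have hint : PointsIntegral p F (GaloisRep.ratLocalizedAt p) H := dictP_pointsIntegral p F
  have hpX := dictP_nsmul_eq_zero p ρ I hpI
  -- the bijection `φ` between the `F`-valued points and `V / I V`
  have hφinj : ∀ a b : WithConv (H →ₐ[GaloisRep.ratLocalizedAt p] F),
      e (dictP_incl p F a) = e (dictP_incl p F b) → a = b :=
    fun a b h => dictP_incl_injective p F (e.injective h)
  have hφsurj : ∀ x : ρ.V ⧸ (I • (⊤ : Submodule A ρ.V)),
      ∃ a : WithConv (H →ₐ[GaloisRep.ratLocalizedAt p] F), e (dictP_incl p F a) = x := by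
    intro x
    refine ⟨toConv (dictP_restr p F (e.symm x).ofConv (hval _)), ?_⟩
    rw [dictP_incl_restr, Equiv.apply_symm_apply]
  have hφmul : ∀ a b : WithConv (H →ₐ[GaloisRep.ratLocalizedAt p] F),
      e (dictP_incl p F (a * b)) = e (dictP_incl p F a) + e (dictP_incl p F b) := by
    intro a b
    rw [map_mul, hadd]
  have hφone : e (dictP_incl p F (1 : WithConv (H →ₐ[GaloisRep.ratLocalizedAt p] F))) = 0 := by
    have h := hφmul 1 1
    rw [one_mul] at h
    exact left_eq_add.mp h
  have hφpow : ∀ (a : WithConv (H →ₐ[GaloisRep.ratLocalizedAt p] F)) (n : ℕ),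
      e (dictP_incl p F (a ^ n)) = n • e (dictP_incl p F a) := by
    intro a n
    induction n with
    | zero => rw [pow_zero, zero_smul, hφone]
    | succ k ih => rw [pow_succ, hφmul, ih, succ_nsmul]
  have hpow_p : ∀ a : WithConv (H →ₐ[GaloisRep.ratLocalizedAt p] F), a ^ p = 1 := by
    intro a
    apply hφinj
    rw [hφpow, hpX, hφone]
  have hp1 : ∀ x : ρ.V ⧸ (I • (⊤ : Submodule A ρ.V)), (p - 1) • x = - x := by
    intro x
    have hp : 1 ≤ p := (Fact.out : p.Prime).one_lt.le
    have h := hpX x
    rw [← Nat.sub_add_cancel hp, add_smul, one_smul] at h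
    exact eq_neg_of_add_eq_zero_left h
  -- equivariance
  have hequiv : ∀ (τ : PadicAlgCl p ≃ₐ[ℚ_[p]] PadicAlgCl p)
      (a : WithConv (H →ₐ[GaloisRep.ratLocalizedAt p] F)),
      e (dictP_incl p F (dictP_act p F (AlgEquiv.restrictNormalHom F τ) a)) =
        locAct p ρ I τ (e (dictP_incl p F a)) := by
    intro τ a
    apply heq τ
    intro h
    exact AlgEquiv.restrictNormal_commutes τ F (a.ofConv h)
  -- `(σ a) a⁻¹`
  have hdiff : ∀ (τ : PadicAlgCl p ≃ₐ[ℚ_[p]] PadicAlgCl p)
      (a : WithConv (H →ₐ[GaloisRep.ratLocalizedAt p] F)),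
      e (dictP_incl p F (dictP_act p F (AlgEquiv.restrictNormalHom F τ) a * a ^ (p - 1))) =
        locAct p ρ I τ (e (dictP_incl p F a)) - e (dictP_incl p F a) := by
    intro τ a
    rw [hφmul, hequiv, hφpow, hp1, sub_eq_add_neg]
  -- the ramified part reduces to the identity
  have hram : ∀ x ∈ ramPart p ρ I, ∀ a : WithConv (H →ₐ[GaloisRep.ratLocalizedAt p] F),
      e (dictP_incl p F a) = x → PointRedOne p a := by
    intro x hx
    unfold ramPart at hx
    induction hx using AddSubgroup.closure_induction with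
    | mem y hy =>
      obtain ⟨τ, hτ, z, rfl⟩ := hy
      intro a ha
      obtain ⟨az, rfl⟩ := hφsurj z
      have h1 : a = dictP_act p F (AlgEquiv.restrictNormalHom F τ) az * az ^ (p - 1) := by
        apply hφinj
        rw [ha, hdiff]
      rw [h1]
      exact hA F (GaloisRep.ratLocalizedAt p) H hint az _ (AlgEquiv.restrictNormalHom F τ)
        (dictI_restrict_mem_inertia p F hτ) (hpow_p az) (fun h => rfl)
    | zero =>
      intro a ha
      have h1 : a = 1 := hφinj _ _ (ha.trans hφone.symm)
      rw [h1]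
      exact dictP_redOne_one p
    | add y z _ _ hy hz =>
      intro a ha
      obtain ⟨ay, hay⟩ := hφsurj y
      obtain ⟨az, haz⟩ := hφsurj z
      have h1 : a = ay * az := by
        apply hφinj
        rw [ha, hφmul, hay, haz]
      rw [h1]
      exact dictP_redOne_mul p hint (hy ay hay) (hz az haz)
    | neg y _ hy =>
      intro a ha
      obtain ⟨ay, hay⟩ := hφsurj y
      have h1 : a = ay ^ (p - 1) := by
        apply hφinj
        rw [ha, hφpow, hay, hp1]
      rw [h1]
      exact dictP_redOne_pow p hint (hy ay hay) _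
  -- the main argument
  intro Y hY x hx hxY
  obtain ⟨x', hx'⟩ := hφsurj x
  let Y' : Submonoid (WithConv (H →ₐ[GaloisRep.ratLocalizedAt p] F)) :=
    { carrier := {a | e (dictP_incl p F a) ∈ Y}
      one_mem' := by
        show e (dictP_incl p F 1) ∈ Y
        rw [hφone]
        exact zero_mem Y
      mul_mem' := by
        intro a b ha hb
        show e (dictP_incl p F (a * b)) ∈ Y
        rw [hφmul]
        exact add_mem ha hb }
  have hfPF : Finite (WithConv (H →ₐ[GaloisRep.ratLocalizedAt p] F)) :=
    Finite.of_injective _ (dictP_incl_injective p F)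
  have hmain : x' ∈ Y' := by
    apply hC F (GaloisRep.ratLocalizedAt p) H hp2 hint Y' x' (Set.toFinite _)
      (fun y _ => hpow_p y)
    · intro σ hσ y hy
      obtain ⟨τ, hτ, rfl⟩ := dictI_exists_lift p F hσ
      refine ⟨dictP_act p F (AlgEquiv.restrictNormalHom F τ) y, ?_, fun h => rfl⟩
      show e (dictP_incl p F (dictP_act p F (AlgEquiv.restrictNormalHom F τ) y)) ∈ Y
      rw [hequiv]
      exact hY τ hτ _ hy
    · exact hpow_p x'
    · exact hram x hx x' hx'
    · intro σ hσ
      obtain ⟨τ, hτ, rfl⟩ := dictI_exists_lift p F hσ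
      refine ⟨dictP_act p F (AlgEquiv.restrictNormalHom F τ) x' * x' ^ (p - 1), ?_, ?_⟩
      · show e (dictP_incl p F
          (dictP_act p F (AlgEquiv.restrictNormalHom F τ) x' * x' ^ (p - 1))) ∈ Y
        rw [hdiff, hx']
        exact hxY τ hτ
      · intro h
        have h1 : x' * (dictP_act p F (AlgEquiv.restrictNormalHom F τ) x' * x' ^ (p - 1)) =
            dictP_act p F (AlgEquiv.restrictNormalHom F τ) x' := by
          apply hφinj
          rw [hφmul, hdiff, hequiv]
          abel
        rw [h1]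
        rfl
  have h2 : e (dictP_incl p F x') ∈ Y := hmain
  rw [hx'] at h2
  exact h2

end Core

end DictPts

/-- **DICT-H (R1)**: the ramified part of `V / I V` has no trivial inertia subquotient. -/
theorem dictHR1 (p : ℕ) [Fact p.Prime] :
    Fermat.Agent.P1.helper70.DictH0Statement p → Fermat.Agent.P1.helper70.FTAStatement p →
      Fermat.Agent.P1.helper70.FTCStatement p → Fermat.Agent.P1.helper70.DictHR1Statement p := by
  intro hH0 hA hC hp2 A _ _ ρ hflat I hfin hpI
  obtain ⟨H, instR, instH, hHfin, -, hco, e, hadd, heq⟩ := hH0 A ρ hflat I hfin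
  exact dictHR1_core p ρ I hA hC hp2 hfin hpI e hadd heq

/-- **DICT-H (R1)**, unconditional. -/
theorem dictHR1_holds (p : ℕ) [Fact p.Prime] : Fermat.Agent.P1.helper70.DictHR1Statement p :=
  dictHR1 p (Fermat.Agent.P1.helper26.dictH0 p) (Fermat.Agent.P1.helper89.ftA p)
    (Fermat.Agent.P1.helper71.ftC p)

/-- **(R1)** for a flat representation, unconditional. -/
theorem flatR1_holds (p : ℕ) [Fact p.Prime] (hp2 : p ≠ 2) {A : Type} [CommRing A]
    [IsLocalRing A] (ρ : GaloisRepAdic A) (hflat : ρ.IsFlatAt p) (I : Ideal A)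
    (hfin : Finite (A ⧸ I)) (hpI : (p : A) ∈ I) : Fermat.Agent.P1.helper70.FlatR1 p ρ I :=
  dictHR1_holds p hp2 A ρ hflat I hfin hpI

end Fermat.Agent.P1.helper78
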