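import Fermat.Agent.P1.helper40_KumB
import Fermat.Agent.S55.helper97_LocVal

/-!
# P1 / FLAT-CNT, module DICT-H (helper40, task 745): the tame level of (R2)

Let `N` be a normal subgroup of `G_p = Gal(Ω/ℚ_p)` containing the fixing subgroup of a finite
level, such that every element of `G_p` has a power of exponent prime to `p` in `N`.  Then
`F := fixedField (N ⊓ ker χ)` (`χ` the mod `p` cyclotomic character) is a finite normal
extension of `ℚ_p` of degree prime to `p`, containing `μ_p` and everything fixed by `N`.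
-/

set_option autoImplicit false

open ExtCitation

namespace Fermat.Agent.P1.helper40

open Fermat.Agent.S55 Fermat.Agent.S55.helper8

variable (p : ℕ) [Fact p.Prime]

local notation "Qbar" => AlgebraicClosure ℚ

/-- the mod `p` cyclotomic character of the local Galois group -/
noncomputable def locChi : (PadicAlgCl p ≃ₐ[ℚ_[p]] PadicAlgCl p) →* (ZMod p)ˣ :=
  (cycloChar p).comp (localGaloisToGlobal p)

theorem coe_locChi (g : PadicAlgCl p ≃ₐ[ℚ_[p]] PadicAlgCl p) :
    ((locChi p g : (ZMod p)ˣ) : ZMod p) = locOmega p g := rfl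

/-- an element of the kernel of `χ` fixes the `p`-th roots of unity -/
theorem apply_eq_of_mem_ker_locChi {s : PadicAlgCl p ≃ₐ[ℚ_[p]] PadicAlgCl p}
    (hs : s ∈ (locChi p).ker) {ζ : Qbar} (hζ : ζ ^ p = 1) :
    s (padicEmbedding p ζ) = padicEmbedding p ζ := by
  have hp : p.Prime := Fact.out
  have : Fact (1 < p) := ⟨hp.one_lt⟩
  have h1 := locOmega_spec p hζ s
  rw [← coe_locChi, MonoidHom.mem_ker.1 hs, Units.val_one, ZMod.val_one, pow_one] at h1
  exact h1

/-- an element fixing a primitive `p`-th root of unity lies in the kernel of `χ` -/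
theorem mem_ker_locChi_of_apply_eq {s : PadicAlgCl p ≃ₐ[ℚ_[p]] PadicAlgCl p}
    {ζ : Qbar} (hζ : IsPrimitiveRoot ζ p)
    (hs : localGaloisToGlobal p s ζ = ζ) : s ∈ (locChi p).ker := by
  have hp : p.Prime := Fact.out
  have : Fact (1 < p) := ⟨hp.one_lt⟩
  have : NeZero p := ⟨hp.ne_zero⟩
  rw [MonoidHom.mem_ker]
  apply Units.ext
  have h1 := cycloChar_spec p (localGaloisToGlobal p s) hζ.pow_eq_one
  rw [hs] at h1
  apply zmod_eq_of_pow_val_eq hζ
  rw [Units.val_one, ZMod.val_one, pow_one]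
  exact h1.symm

section Level

variable (N : Subgroup (PadicAlgCl p ≃ₐ[ℚ_[p]] PadicAlgCl p))

/-- the tame level attached to `N` -/
noncomputable def tameLevel : IntermediateField ℚ_[p] (PadicAlgCl p) :=
  IntermediateField.fixedField (N ⊓ (locChi p).ker)

theorem mem_tameLevel_iff (y : PadicAlgCl p) :
    y ∈ tameLevel p N ↔ ∀ s ∈ N, s ∈ (locChi p).ker → s y = y := by
  unfold tameLevel
  rw [IntermediateField.mem_fixedField_iff]
  constructor
  · intro h s hs hs'
    exact h s ⟨hs, hs'⟩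
  · intro h s hs
    exact h s hs.1 hs.2

theorem mem_tameLevel_of_fixed {y : PadicAlgCl p} (hy : ∀ s ∈ N, s y = y) :
    y ∈ tameLevel p N :=
  (mem_tameLevel_iff p N y).2 fun s hs _ => hy s hs

theorem padicEmbedding_mem_tameLevel {ζ : Qbar} (hζ : ζ ^ p = 1) :
    padicEmbedding p ζ ∈ tameLevel p N :=
  (mem_tameLevel_iff p N _).2 fun _ _ hs => apply_eq_of_mem_ker_locChi p hs hζ

/-- the tame level is normal over `ℚ_p` if `N` is a normal subgroup. -/
theorem normal_tameLevel (hN : N.Normal) : Normal ℚ_[p] (tameLevel p N) := by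
  rw [IntermediateField.normal_iff_forall_map_le']
  intro σ y hy
  rw [IntermediateField.mem_map] at hy
  obtain ⟨x, hx, rfl⟩ := hy
  rw [mem_tameLevel_iff]
  intro s hs hs'
  have h1 : σ⁻¹ * s * σ ∈ N := by
    have := hN.conj_mem s hs σ⁻¹
    rwa [inv_inv] at this
  have h2 : σ⁻¹ * s * σ ∈ (locChi p).ker := by
    have := (MonoidHom.normal_ker (locChi p)).conj_mem s hs' σ⁻¹
    rwa [inv_inv] at this
  have h3 := (mem_tameLevel_iff p N x).1 hx _ h1 h2
  have h4 : s (σ x) = σ ((σ⁻¹ * s * σ) x) := by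
    simp only [AlgEquiv.mul_apply]
    change s (σ x) = σ (σ.symm (s (σ x)))
    rw [AlgEquiv.apply_symm_apply]
  change s (σ x) = σ x
  rw [h4, h3]

/-- the tame level is finite over `ℚ_p` if `N` contains the fixing subgroup of a finite level. -/
theorem finiteDimensional_tameLevel
    (hlev : ∃ L₀ : IntermediateField ℚ Qbar, FiniteDimensional ℚ L₀ ∧
      ∀ τ : PadicAlgCl p ≃ₐ[ℚ_[p]] PadicAlgCl p,
        (∀ z ∈ L₀, localGaloisToGlobal p τ z = z) → τ ∈ N) :
    FiniteDimensional ℚ_[p] (tameLevel p N) := by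
  obtain ⟨L₀, hL₀, hL₀N⟩ := hlev
  obtain ⟨ζ, hζ⟩ := exists_primitiveRoot_Qbar p
  have hint : IsIntegral ℚ ζ := ((AlgebraicClosure.isAlgebraic ℚ).isAlgebraic ζ).isIntegral
  have hfd1 : FiniteDimensional ℚ (IntermediateField.adjoin ℚ {ζ}) :=
    IntermediateField.adjoin.finiteDimensional hint
  have hfd2 : FiniteDimensional ℚ ↥(L₀ ⊔ IntermediateField.adjoin ℚ {ζ}) :=
    IntermediateField.finiteDimensional_sup _ _
  set K := helper74.localField p (L₀ ⊔ IntermediateField.adjoin ℚ {ζ}) with hK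
  have hKfd : FiniteDimensional ℚ_[p] K := helper74.finiteDimensional_localField p _
  have hle : tameLevel p N ≤ K := by
    intro y hy
    rw [← InfiniteGalois.fixedField_fixingSubgroup K, IntermediateField.mem_fixedField_iff]
    intro s hs
    have hs' := (helper74.mem_fixingSubgroup_localField_iff p _ s).1 hs
    rw [IntermediateField.mem_fixingSubgroup_iff] at hs'
    refine (mem_tameLevel_iff p N y).1 hy s ?_ ?_
    · exact hL₀N s fun z hz => hs' z ((le_sup_left : L₀ ≤ _) hz)
    · refine mem_ker_locChi_of_apply_eq p hζ (hs' ζ ?_)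
      exact (le_sup_right : IntermediateField.adjoin ℚ {ζ} ≤ _)
        (IntermediateField.mem_adjoin_simple_self ℚ ζ)
  exact FiniteDimensional.of_injective (IntermediateField.inclusion hle).toLinearMap
    (IntermediateField.inclusion_injective hle)

/-- the elements of `N ⊓ ker χ` restrict to the identity of the tame level. -/
theorem restrict_tameLevel_eq_one [Normal ℚ_[p] (tameLevel p N)]
    {s : PadicAlgCl p ≃ₐ[ℚ_[p]] PadicAlgCl p} (hs : s ∈ N) (hs' : s ∈ (locChi p).ker) :
    AlgEquiv.restrictNormalHom (tameLevel p N) s = 1 := by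
  apply AlgEquiv.ext
  intro x
  apply Subtype.ext
  rw [AlgEquiv.restrictNormalHom_apply]
  exact (mem_tameLevel_iff p N x).1 x.2 s hs hs'

/-- the degree of the tame level is prime to `p`. -/
theorem not_dvd_finrank_tameLevel [FiniteDimensional ℚ_[p] (tameLevel p N)]
    [Normal ℚ_[p] (tameLevel p N)]
    (htame : ∀ g : PadicAlgCl p ≃ₐ[ℚ_[p]] PadicAlgCl p, ∃ m : ℕ, ¬ p ∣ m ∧ g ^ m ∈ N) :
    ¬ p ∣ Module.finrank ℚ_[p] (tameLevel p N) := by
  have hp : p.Prime := Fact.out
  intro hdvd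
  have hgal : IsGalois ℚ_[p] (tameLevel p N) := ⟨⟩
  rw [← IsGalois.card_aut_eq_finrank] at hdvd
  obtain ⟨σ, hσ⟩ := exists_prime_orderOf_dvd_card' p hdvd
  obtain ⟨g, rfl⟩ := AlgEquiv.restrictNormalHom_surjective (F := ℚ_[p])
    (K₁ := tameLevel p N) (PadicAlgCl p) σ
  obtain ⟨m, hm, hgm⟩ := htame g
  have h1 : g ^ (m * (p - 1)) ∈ N := by
    rw [pow_mul]
    exact N.pow_mem hgm _
  have h2 : g ^ (m * (p - 1)) ∈ (locChi p).ker := by
    rw [MonoidHom.mem_ker, map_pow, mul_comm, pow_mul, ZMod.units_pow_card_sub_one_eq_one,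
      one_pow]
  have h3 := restrict_tameLevel_eq_one p N h1 h2
  rw [map_pow] at h3
  have h4 := orderOf_dvd_of_pow_eq_one h3
  rw [hσ] at h4
  rcases (Nat.Prime.dvd_mul hp).1 h4 with h | h
  · exact hm h
  · have h5 := Nat.le_of_dvd (Nat.sub_pos_of_lt hp.one_lt) h
    have h6 := hp.one_lt
    omega

/-- the ramification index of the tame level is prime to `p`. -/
theorem not_dvd_edeg_tameLevel [FiniteDimensional ℚ_[p] (tameLevel p N)]
    [Normal ℚ_[p] (tameLevel p N)]
    (htame : ∀ g : PadicAlgCl p ≃ₐ[ℚ_[p]] PadicAlgCl p, ∃ m : ℕ, ¬ p ∣ m ∧ g ^ m ∈ N) :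
    ¬ p ∣ edeg p (tameLevel p N) := by
  intro h
  apply not_dvd_finrank_tameLevel p N htame
  rw [← helper97.edeg_mul_fdeg p (tameLevel p N)]
  exact Dvd.dvd.mul_right h _

end Level

end Fermat.Agent.P1.helper40
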