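import Fermat.Agent.P1.helper40_PtLevel
import Fermat.Agent.P1.helper40_TameLevel

/-!
# P1 / FLAT-CNT, module DICT-H, package (R2) (helper40, task 745)

`dictHR2_of : DictIStatement p → DictH0Statement p → FTOTStatement p → DictHR2Statement p`:
a tame inertia-stable line in the ramified part of `V / I V` (`ρ` flat at `p`, `p ∈ I`) carries
the mod `p` cyclotomic character.

Proof.  Let `(H, e)` be the Hopf algebra of `DictH0`, `f := e.symm x` the point attached to `x`,
`F := tameLevel p N`.  The values of `f` lie in `F` (they are fixed by `N`), `f ≠ 1`, `f ^ p = 1`,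
`f` reduces to the identity (`redOneΩ_of_mem_ramPart`), the ramification index of `F` is prime to
`p`, and inertia acts on `f` through `τ ∘ f = f ^ a`; by the surjectivity part of the inertia
dictionary this holds for the whole inertia group of `F`.  Now apply (FT-OT).
-/

set_option autoImplicit false

open WithConv ExtCitation

namespace Fermat.Agent.P1.helper40

open Fermat.Agent.S55.helper8 Fermat.Agent.S55.helper7 Fermat.Agent.P1.helper14
  Fermat.Agent.P1.helper70 Fermat.Agent.P1.helper92

/-- **DICT-H (R2)**, from the inertia dictionary, DICT-H0 and (FT-OT). -/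
theorem dictHR2_of (p : ℕ) [Fact p.Prime] (hI : DictIStatement p) (h0 : DictH0Statement p)
    (hOT : FTOTStatement p) : DictHR2Statement p := by
  intro _ A _ _ ρ hflat I hfin hpI
  obtain ⟨H, instR, instH, hHfin, -, hco, e, hadd, heq⟩ := h0 A ρ hflat I hfin
  intro x hx hx0 N hN hlev htame hNfix hchar τ₀ hτ₀ a₀ ha₀
  have hp : p.Prime := Fact.out
  have : NeZero p := ⟨hp.ne_zero⟩
  -- the level
  have hFfd : FiniteDimensional ℚ_[p] (tameLevel p N) := finiteDimensional_tameLevel p N hlev
  have hFn : Normal ℚ_[p] (tameLevel p N) := normal_tameLevel p N hN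
  have hFgal : IsGalois ℚ_[p] (tameLevel p N) := ⟨⟩
  -- the point
  have hf1 : e.symm x ≠ 1 := by
    intro h
    apply hx0
    rw [← e.apply_symm_apply x, h]
    exact ptEq_one p ρ I e hadd
  have hfp : e.symm x ^ p = 1 := ptEq_pow_p p ρ I e hadd hpI _
  have hfF : ∀ h : H, (e.symm x).ofConv h ∈ tameLevel p N := by
    intro h
    apply mem_tameLevel_of_fixed
    intro s hs
    have h1 : compPt p s (e.symm x) = e.symm x := by
      apply e.injective
      rw [ptEq_compPt p ρ I e heq, e.apply_symm_apply]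
      exact hNfix s hs
    exact congrArg (fun g : WithConv (H →ₐ[GaloisRep.ratLocalizedAt p] PadicAlgCl p) =>
      g.ofConv h) h1
  have hred : RedOneΩ p (e.symm x) := redOneΩ_of_mem_ramPart p ρ I e hadd heq hpI hx
  -- the `F`-valued point
  have hy1 : ptF p (tameLevel p N) (e.symm x) hfF ≠ 1 := ptF_ne_one p _ hfF hf1
  have hyp : ptF p (tameLevel p N) (e.symm x) hfF ^ p = 1 := ptF_pow_eq_one p _ hfF hfp
  have hyred : PointRedOne p (ptF p (tameLevel p N) (e.symm x) hfF) :=
    pointRedOne_of_redOneΩ p _ hI _ (by rw [ptΩ_ptF]; exact hred)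
  have hint : PointsIntegral p (tameLevel p N) (GaloisRep.ratLocalizedAt p) H :=
    pointsIntegral_of_dictI p _ hI
  have hedeg : ¬ p ∣ edeg p (tameLevel p N) := not_dvd_edeg_tameLevel p N htame
  -- the root of unity
  obtain ⟨ζ₀, hζ₀⟩ := exists_primitiveRoot_Qbar p
  have hz : IsPrimitiveRoot (padicEmbedding p ζ₀) p :=
    hζ₀.map_of_injective (padicEmbedding p).toRingHom.injective
  have hζ : IsPrimitiveRoot
      (⟨padicEmbedding p ζ₀, padicEmbedding_mem_tameLevel p N hζ₀.pow_eq_one⟩ :
        tameLevel p N) p :=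
    IsPrimitiveRoot.of_map_of_injective (f := (tameLevel p N).val) hz
      (tameLevel p N).val.toRingHom.injective
  -- the action of inertia
  have key : ∀ (τ : PadicAlgCl p ≃ₐ[ℚ_[p]] PadicAlgCl p) (a : ℕ),
      locAct p ρ I τ x = a • x → ∀ h : H,
        AlgEquiv.restrictNormalHom (tameLevel p N) τ
          ((ptF p (tameLevel p N) (e.symm x) hfF).ofConv h) =
        (ptF p (tameLevel p N) (e.symm x) hfF ^ a).ofConv h := by
    intro τ a ha h
    refine restrict_ptF_apply p _ τ hfF (g' := e.symm x ^ a) ?_ _ ?_ h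
    · intro h'
      have h1 : compPt p τ (e.symm x) = e.symm x ^ a := by
        apply e.injective
        rw [ptEq_compPt p ρ I e heq, ptEq_pow p ρ I e hadd, e.apply_symm_apply]
        exact ha
      exact congrArg (fun g : WithConv (H →ₐ[GaloisRep.ratLocalizedAt p] PadicAlgCl p) =>
        g.ofConv h') h1
    · rw [ptΩ_pow, ptΩ_ptF]
  have hall : ∀ σ ∈ inertia p (tameLevel p N), ∃ a : ℕ, ∀ h : H,
      σ ((ptF p (tameLevel p N) (e.symm x) hfF).ofConv h) =
        (ptF p (tameLevel p N) (e.symm x) hfF ^ a).ofConv h := by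
    intro σ hσ
    obtain ⟨τ, hτ, rfl⟩ := (hI (tameLevel p N)).2.2.2 σ hσ
    obtain ⟨a, ha⟩ := hchar τ hτ
    exact ⟨a, key τ a ha⟩
  have hfin' := hOT (tameLevel p N) (GaloisRep.ratLocalizedAt p) H hint hedeg _ hζ _ hy1 hyp
    hyred hall (AlgEquiv.restrictNormalHom (tameLevel p N) τ₀)
    ((hI (tameLevel p N)).2.2.1 τ₀ hτ₀) a₀ (key τ₀ a₀ ha₀)
  -- translation
  have h1 : τ₀ (padicEmbedding p ζ₀) = padicEmbedding p ζ₀ ^ a₀ := by
    have h2 := congrArg (fun z : tameLevel p N => (z : PadicAlgCl p)) hfin'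
    simp only [AlgEquiv.restrictNormalHom_apply] at h2
    exact h2
  have h3 := locOmega_spec p hζ₀.pow_eq_one τ₀
  change (a₀ : ZMod p) = locOmega p τ₀
  apply zmod_eq_of_pow_val_eq hz
  rw [pow_val_natCast hz.pow_eq_one, ← h1, h3]

end Fermat.Agent.P1.helper40
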