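import Fermat.Agent.P1.helper78_DictInertia
import Fermat.Agent.P1.helper40_DictHR2
import Fermat.Agent.P1.helper26_DictH0
import Fermat.Agent.P1.helper88_FTOT

/-!
# P1 / FLAT-CNT, DICT-H: wiring of the inertia dictionary (helper78)

* `dictIStatement p : helper40.DictIStatement p` (= `helper78_DictInertia`);
* `dictHR2 p : DictH0Statement p → FTOTStatement p → DictHR2Statement p` (VERBATIM task 745,
  from `helper40.dictHR2_of`);
* `dictHR2_holds p : DictHR2Statement p`, unconditional.
-/

set_option autoImplicit false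

namespace Fermat.Agent.P1.helper78

/-- the inertia dictionary in the bundled form of `helper40_PtLevel` -/
theorem dictIStatement (p : ℕ) [Fact p.Prime] : Fermat.Agent.P1.helper40.DictIStatement p := by
  intro F _ _
  exact ⟨dictI_ordT_nonneg_iff p F, dictI_ordT_pos_iff p F,
    fun _ hτ => dictI_restrict_mem_inertia p F hτ, fun _ hs => dictI_exists_lift p F hs⟩

/-- **DICT-H (R2)**, from DICT-H0 and (FT-OT). -/
theorem dictHR2 (p : ℕ) [Fact p.Prime] :
    Fermat.Agent.P1.helper70.DictH0Statement p → Fermat.Agent.P1.helper70.FTOTStatement p →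
      Fermat.Agent.P1.helper70.DictHR2Statement p :=
  fun h0 hOT => Fermat.Agent.P1.helper40.dictHR2_of p (dictIStatement p) h0 hOT

/-- **DICT-H (R2)**, unconditional. -/
theorem dictHR2_holds (p : ℕ) [Fact p.Prime] : Fermat.Agent.P1.helper70.DictHR2Statement p :=
  dictHR2 p (Fermat.Agent.P1.helper26.dictH0 p) (Fermat.Agent.P1.helper88.ftOT p)

end Fermat.Agent.P1.helper78
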