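import Fermat.Agent.P1.helper30_FlatCntPkgs

/-!
# P1 / module FLAT-CNT, package HAT-EX (helper85): the field `T̂` of CASE II exists

`hatExists p : HatExistsStatement p`.  The subgroup

`U = {g | g = 1 on ramLine, g = 1 on V / ramLine, u g = 0 for all unramified level homs u}`

of `G_p` contains a level: the level of `ρbar` takes care of the first two clauses, and all
unramified level homomorphisms `G_p → 𝔽_p` are multiples of one of them (`G_p` is generated by a
Frobenius lift and inertia modulo every level, `TameStructure.gen`), hence vanish on a common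
level.  `LFOpenStatement` turns `U` into a finite extension `T̂` of `ℚ_p`.
-/

set_option autoImplicit false

open IsLocalRing ExtCitation groupCohomology Polynomial

noncomputable section

namespace Fermat.Agent.P1.helper85

open Fermat.Agent.S55 Fermat.Agent.P1.helper70 Fermat.Agent.P1.helper30

variable (p : ℕ) [Fact p.Prime]

/-- an additive function on a group vanishes at `1` -/
lemma hat_map_one {G : Type} [Group G] (u : G → ZMod p) (hadd : ∀ a b, u (a * b) = u a + u b) :
    u 1 = 0 := by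
  have h := hadd 1 1
  rw [mul_one] at h
  exact left_eq_add.mp h

/-- an additive function on a group is odd -/
lemma hat_map_inv {G : Type} [Group G] (u : G → ZMod p) (hadd : ∀ a b, u (a * b) = u a + u b)
    (g : G) : u g⁻¹ = - u g := by
  have h := hadd g g⁻¹
  rw [mul_inv_cancel, hat_map_one p u hadd] at h
  exact eq_neg_of_add_eq_zero_right h.symm

/-- an additive function on a group, on powers -/
lemma hat_map_pow {G : Type} [Group G] (u : G → ZMod p) (hadd : ∀ a b, u (a * b) = u a + u b)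
    (g : G) (n : ℕ) : u (g ^ n) = n * u g := by
  induction n with
  | zero => rw [pow_zero, hat_map_one p u hadd, Nat.cast_zero, zero_mul]
  | succ n ih => rw [pow_succ, hadd, ih, Nat.cast_succ, add_mul, one_mul]

/-- a level-constant additive function vanishes on its level -/
lemma hat_map_level {G : Type} [Group G] (u : G → ZMod p)
    (hadd : ∀ a b, u (a * b) = u a + u b) {N : Subgroup G}
    (hN : ∀ g : G, ∀ s ∈ N, u (g * s) = u g) {s : G} (hs : s ∈ N) : u s = 0 := by
  have h := hN 1 s hs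
  rw [one_mul, hat_map_one p u hadd] at h
  exact h

/-- **Abstract core.**  In a group with a tame structure, the additive level-constant functions
to `𝔽_p` which vanish on inertia all vanish on a common level. -/
theorem exists_level_unram {G : Type} [Group G] (𝒩 : Levels G) (I : Subgroup G) (σ : G)
    (hgen : ∀ N ∈ 𝒩.mem, ∀ g : G, ∃ n : ℕ, ∃ i ∈ I, ∃ s ∈ N, g = σ ^ n * i * s) :
    ∃ N₀ ∈ 𝒩.mem, ∀ u : G → ZMod p, IsLev₁ 𝒩 u → (∀ a b, u (a * b) = u a + u b) →
      (∀ i ∈ I, u i = 0) → ∀ g ∈ N₀, u g = 0 := by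
  classical
  -- the value of an unramified level hom in terms of a decomposition
  have key : ∀ u : G → ZMod p, (∀ a b, u (a * b) = u a + u b) → (∀ i ∈ I, u i = 0) →
      ∀ N : Subgroup G, (∀ g : G, ∀ s ∈ N, u (g * s) = u g) →
      ∀ (n : ℕ) (i : G), i ∈ I → ∀ s ∈ N, u (σ ^ n * i * s) = n * u σ := by
    intro u hadd hI N hN n i hi s hs
    rw [hN _ s hs, hadd, hI i hi, add_zero, hat_map_pow p u hadd]
  by_cases h0 : ∃ u₀ : G → ZMod p, IsLev₁ 𝒩 u₀ ∧ (∀ a b, u₀ (a * b) = u₀ a + u₀ b) ∧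
      (∀ i ∈ I, u₀ i = 0) ∧ u₀ σ ≠ 0
  · obtain ⟨u₀, ⟨N₀, hN₀, hlev₀⟩, hadd₀, hI₀, hσ₀⟩ := h0
    refine ⟨N₀, hN₀, ?_⟩
    rintro u ⟨N₁, hN₁, hlev₁⟩ hadd hI g hg
    obtain ⟨N, hN, hle⟩ := 𝒩.directed N₀ hN₀ N₁ hN₁
    obtain ⟨n, i, hi, s, hs, rfl⟩ := hgen N hN g
    have h1 : u₀ (σ ^ n * i * s) = n * u₀ σ :=
      key u₀ hadd₀ hI₀ N (fun g s hs => hlev₀ g s (hle hs).1) n i hi s hs
    have h2 : u (σ ^ n * i * s) = n * u σ :=
      key u hadd hI N (fun g s hs => hlev₁ g s (hle hs).2) n i hi s hs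
    have h3 : u₀ (σ ^ n * i * s) = 0 := hat_map_level p u₀ hadd₀ hlev₀ hg
    have hp : p.Prime := Fact.out
    rw [h1] at h3
    have hn : (n : ZMod p) = 0 := (mul_eq_zero.mp h3).resolve_right hσ₀
    rw [h2, hn, zero_mul]
  · obtain ⟨N₀, hN₀⟩ := 𝒩.nonempty
    refine ⟨N₀, hN₀, ?_⟩
    rintro u ⟨N₁, hN₁, hlev₁⟩ hadd hI g -
    have hσ : u σ = 0 := by
      by_contra hne
      exact h0 ⟨u, ⟨N₁, hN₁, hlev₁⟩, hadd, hI, hne⟩
    obtain ⟨n, i, hi, s, hs, rfl⟩ := hgen N₁ hN₁ g
    rw [key u hadd hI N₁ hlev₁ n i hi s hs, hσ, mul_zero]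

/-- the subgroup of `G_p` cut out by the three conditions of `IsHatField` -/
def hatSubgroup {k : Type} [Field k] (ρbar : ResidualGaloisRep k) : Subgroup (Gp p) where
  carrier := {g | (∀ x ∈ ramLine p ρbar, ρbar.ρ (localGaloisToGlobal p g) x = x) ∧
    (∀ x : ρbar.V, ρbar.ρ (localGaloisToGlobal p g) x - x ∈ ramLine p ρbar) ∧
    ∀ u : primeLocalGaloisGroup (pPrime p) → ZMod p, IsLev₁ (locLevels (pPrime p)) u →
      (∀ a b, u (a * b) = u a + u b) → (∀ i ∈ inertiaΩ p, u i = 0) → u g = 0}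
  one_mem' := by
    refine ⟨fun x _ => ?_, fun x => ?_, fun u _ hadd _ => hat_map_one p u hadd⟩
    · rw [map_one, map_one, Module.End.one_apply]
    · rw [map_one, map_one, Module.End.one_apply, sub_self]
      exact Submodule.zero_mem _
  mul_mem' := by
    rintro g h ⟨hg1, hg2, hg3⟩ ⟨hh1, hh2, hh3⟩
    refine ⟨fun x hx => ?_, fun x => ?_, fun u hlev hadd hI => ?_⟩
    · rw [map_mul, map_mul, Module.End.mul_apply, hh1 x hx, hg1 x hx]
    · rw [map_mul, map_mul, Module.End.mul_apply]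
      have h1 := hg2 (ρbar.ρ (localGaloisToGlobal p h) x)
      have h2 := hh2 x
      have h3 := Submodule.add_mem _ h1 h2
      rw [sub_add_sub_cancel] at h3
      exact h3
    · have h1 := hadd g h
      rw [hg3 u hlev hadd hI, hh3 u hlev hadd hI, add_zero] at h1
      exact h1
  inv_mem' := by
    rintro g ⟨hg1, hg2, hg3⟩
    have hinv : ∀ x : ρbar.V, ρbar.ρ (localGaloisToGlobal p g⁻¹)
        (ρbar.ρ (localGaloisToGlobal p g) x) = x := by
      intro x
      rw [← Module.End.mul_apply, ← map_mul, ← map_mul, inv_mul_cancel, map_one, map_one,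
        Module.End.one_apply]
    have hinv' : ∀ x : ρbar.V, ρbar.ρ (localGaloisToGlobal p g)
        (ρbar.ρ (localGaloisToGlobal p g⁻¹) x) = x := by
      intro x
      rw [← Module.End.mul_apply, ← map_mul, ← map_mul, mul_inv_cancel, map_one, map_one,
        Module.End.one_apply]
    refine ⟨fun x hx => ?_, fun x => ?_, fun u hlev hadd hI => ?_⟩
    · have h := hinv x
      rw [hg1 x hx] at h
      exact h
    · have h1 := hg2 (ρbar.ρ (localGaloisToGlobal p g⁻¹) x)
      rw [hinv' x] at h1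
      have h2 := Submodule.neg_mem _ h1
      rw [neg_sub] at h2
      exact h2
    · have h1 := hat_map_inv p u hadd g
      rw [hg3 u hlev hadd hI, neg_zero] at h1
      exact h1

lemma mem_hatSubgroup {k : Type} [Field k] (ρbar : ResidualGaloisRep k) (g : Gp p) :
    g ∈ hatSubgroup p ρbar ↔
      (∀ x ∈ ramLine p ρbar, ρbar.ρ (localGaloisToGlobal p g) x = x) ∧
      (∀ x : ρbar.V, ρbar.ρ (localGaloisToGlobal p g) x - x ∈ ramLine p ρbar) ∧
      ∀ u : primeLocalGaloisGroup (pPrime p) → ZMod p, IsLev₁ (locLevels (pPrime p)) u →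
        (∀ a b, u (a * b) = u a + u b) → (∀ i ∈ inertiaΩ p, u i = 0) → u g = 0 := Iff.rfl

/-- the subgroup `hatSubgroup` contains a level -/
theorem exists_level_le_hatSubgroup {k : Type} [Field k] (ρbar : ResidualGaloisRep k)
    (hS : LocSetting p ρbar) :
    ∃ N ∈ (locLevels (pPrime p)).mem, N ≤ hatSubgroup p ρbar := by
  obtain ⟨σ, hσ⟩ := hS.htame
  obtain ⟨N₁, hN₁, hρ⟩ := hS.hlev
  obtain ⟨N₀, hN₀, hu⟩ := exists_level_unram p (locLevels (pPrime p)) (inertiaΩ p) σ hσ.gen
  obtain ⟨N, hN, hle⟩ := (locLevels (pPrime p)).directed N₁ hN₁ N₀ hN₀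
  refine ⟨N, hN, fun g hg => ?_⟩
  have h1 : ρbar.ρ (localGaloisToGlobal p g) = 1 := hρ g (hle hg).1
  refine ⟨fun x _ => ?_, fun x => ?_, fun u hlev hadd hI => hu u hlev hadd hI g (hle hg).2⟩
  · rw [h1, Module.End.one_apply]
  · rw [h1, Module.End.one_apply, sub_self]
    exact Submodule.zero_mem _

/-- **HAT-EX** (CASE II): the field `T̂` exists. -/
theorem hatExists : HatExistsStatement p := by
  intro hopen k _ _ ρbar hS
  obtain ⟨T, hT, hfix⟩ := hopen (hatSubgroup p ρbar) (exists_level_le_hatSubgroup p ρbar hS)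
  refine ⟨T, hT, fun g => ?_⟩
  rw [hfix]
  exact mem_hatSubgroup p ρbar g

end Fermat.Agent.P1.helper85
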