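import Fermat.Agent.P1.helper30_FlatCntPkgs
import Fermat.Agent.P1.helper14_KumEqDefs2
import Fermat.Agent.S55.helper30_LocKummer

/-!
# P1 / FLAT-CNT, package FCBD (helper89, task 788): `(BD')` bounded Kummer homomorphisms

Main results (namespace `Fermat.Agent.P1.helper89`):

* `fcBd p : helper30.FCBdStatement p` (row 788, conclusion `IsBddHom`, hypothesis
  `L.fixingSubgroup ≤ T.fixingSubgroup`, `KummerBounded p` is a hypothesis of the statement);
* `fcBd_hasLevel p : helper14.KummerBounded p → helper14.FCBdStatement p` (row 780, conclusion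
  `HasLevel p T ζ (edeg p T) f`, hypothesis `T ≤ L`).

Both are corollaries of `FCBd.bdd_core`, assembled from

* `FCBd.exists_kummer_root` (Kummer generator: Hilbert 90 `S55.helper30.exists_units_of_char` for
  `Gal(L/T)` and the character `τ ↦ f (lift of τ)`);
* `FCBd.bdd_of_root` (transport of `helper14.KummerBounded` to subfields of `Ω = PadicAlgCl p`:
  `α ∈ L` by the Galois correspondence, `Gal(L/T)` is a `p`-group by lifting automorphisms).
-/

set_option autoImplicit false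

noncomputable section

namespace Fermat.Agent.P1.helper89.FCBd

open Fermat.Agent.S55.helper8 Fermat.Agent.S55.helper7 IntermediateField

variable (p : ℕ) [Fact p.Prime]

/-- Galois correspondence in `Ω/ℚ_p`: elements fixed by `G_L` lie in `L`. -/
lemma mem_of_fixed (L : IntermediateField ℚ_[p] (PadicAlgCl p)) (α : PadicAlgCl p)
    (h : ∀ g ∈ L.fixingSubgroup, g α = α) : α ∈ L := by
  rw [← InfiniteGalois.fixedField_fixingSubgroup L, IntermediateField.mem_fixedField_iff]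
  exact h

/-- Galois correspondence in `Ω/ℚ_p`: `G_L ≤ G_T` implies `T ≤ L`. -/
lemma le_of_fixingSubgroup_le (L T : IntermediateField ℚ_[p] (PadicAlgCl p))
    (h : L.fixingSubgroup ≤ T.fixingSubgroup) : T ≤ L := by
  rw [← InfiniteGalois.fixedField_fixingSubgroup L, IntermediateField.le_iff_le]
  exact h

section Tower

variable {p}
variable {L T : IntermediateField ℚ_[p] (PadicAlgCl p)} [hTL : Fact (T ≤ L)]

/-- the algebra structure of `L` over `T` -/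
local instance algTL : Algebra ↥T ↥L := (IntermediateField.inclusion hTL.out).toRingHom.toAlgebra

lemma algebraMap_TL (t : ↥T) : ((algebraMap ↥T ↥L t : ↥L) : PadicAlgCl p) = (t : PadicAlgCl p) :=
  rfl

local instance towerTL : IsScalarTower ℚ_[p] ↥T ↥L :=
  IsScalarTower.of_algebraMap_eq (fun _ => rfl)

/-- lift of an automorphism of `L/T` to `Ω` -/
def liftAut (τ : ↥L ≃ₐ[↥T] ↥L) : PadicAlgCl p ≃ₐ[ℚ_[p]] PadicAlgCl p :=
  (τ.restrictScalars ℚ_[p]).liftNormal (PadicAlgCl p)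

lemma liftAut_apply (τ : ↥L ≃ₐ[↥T] ↥L) (x : ↥L) :
    liftAut τ (x : PadicAlgCl p) = ((τ x : ↥L) : PadicAlgCl p) :=
  (τ.restrictScalars ℚ_[p]).liftNormal_commutes (PadicAlgCl p) x

lemma liftAut_mem (τ : ↥L ≃ₐ[↥T] ↥L) : liftAut τ ∈ T.fixingSubgroup := by
  rw [IntermediateField.mem_fixingSubgroup_iff]
  intro t ht
  have h1 := liftAut_apply τ (algebraMap ↥T ↥L ⟨t, ht⟩)
  rw [τ.commutes] at h1
  exact h1

lemma liftAut_pow_apply (τ : ↥L ≃ₐ[↥T] ↥L) (n : ℕ) (x : ↥L) :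
    (liftAut τ ^ n) (x : PadicAlgCl p) = (((τ ^ n) x : ↥L) : PadicAlgCl p) := by
  induction n generalizing x with
  | zero => simp
  | succ n ih =>
    rw [pow_succ, pow_succ, AlgEquiv.mul_apply, AlgEquiv.mul_apply, liftAut_apply, ih]

/-- `Gal(L/T)` is a `p`-group if every element of `G_T` has a `p`-power in `G_L`. -/
lemma isPGroup_aut
    (hpg : ∀ g ∈ T.fixingSubgroup, ∃ n : ℕ, g ^ p ^ n ∈ L.fixingSubgroup) :
    IsPGroup p (↥L ≃ₐ[↥T] ↥L) := by
  intro τ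
  obtain ⟨n, hn⟩ := hpg (liftAut τ) (liftAut_mem τ)
  refine ⟨n, ?_⟩
  ext x
  have h1 := liftAut_pow_apply τ (p ^ n) x
  rw [(IntermediateField.mem_fixingSubgroup_iff L _).1 hn x x.2] at h1
  simp only [AlgEquiv.one_apply]
  exact h1.symm

omit hTL in
/-- two elements of `G_T` which agree on `L` have the same value under a homomorphism which is
trivial on `G_L` -/
lemma eq_of_agree (f : (PadicAlgCl p ≃ₐ[ℚ_[p]] PadicAlgCl p) → ZMod p)
    (hadd : ∀ g ∈ T.fixingSubgroup, ∀ h ∈ T.fixingSubgroup, f (g * h) = f g + f h)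
    (hzero : ∀ g ∈ L.fixingSubgroup, f g = 0)
    (g g' : PadicAlgCl p ≃ₐ[ℚ_[p]] PadicAlgCl p) (hg : g ∈ T.fixingSubgroup)
    (hg' : g' ∈ T.fixingSubgroup) (h : ∀ x : ↥L, g (x : PadicAlgCl p) = g' (x : PadicAlgCl p)) :
    f g = f g' := by
  have hL : g⁻¹ * g' ∈ L.fixingSubgroup := by
    rw [IntermediateField.mem_fixingSubgroup_iff]
    intro x hx
    rw [AlgEquiv.mul_apply, ← h ⟨x, hx⟩]
    change g.symm (g x) = x
    exact g.symm_apply_apply x
  have h1 : g' = g * (g⁻¹ * g') := by group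
  rw [h1, hadd g hg _ (T.fixingSubgroup.mul_mem (T.fixingSubgroup.inv_mem hg) hg'),
    hzero _ hL, add_zero]

/-- the induced character of `Gal(L/T)` -/
lemma liftAut_add (f : (PadicAlgCl p ≃ₐ[ℚ_[p]] PadicAlgCl p) → ZMod p)
    (hadd : ∀ g ∈ T.fixingSubgroup, ∀ h ∈ T.fixingSubgroup, f (g * h) = f g + f h)
    (hzero : ∀ g ∈ L.fixingSubgroup, f g = 0) (τ τ' : ↥L ≃ₐ[↥T] ↥L) :
    f (liftAut (τ * τ')) = f (liftAut τ) + f (liftAut τ') := by
  rw [← hadd _ (liftAut_mem τ) _ (liftAut_mem τ')]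
  refine eq_of_agree f hadd hzero _ _ (liftAut_mem _)
    (T.fixingSubgroup.mul_mem (liftAut_mem τ) (liftAut_mem τ')) (fun x => ?_)
  rw [AlgEquiv.mul_apply, liftAut_apply, liftAut_apply, liftAut_apply, AlgEquiv.mul_apply]

variable [Normal ℚ_[p] L]

/-- restriction of an element of `G_T` to `L` -/
def resAut (g : PadicAlgCl p ≃ₐ[ℚ_[p]] PadicAlgCl p) (hg : g ∈ T.fixingSubgroup) :
    ↥L ≃ₐ[↥T] ↥L :=
  AlgEquiv.ofRingEquiv (f := (g.restrictNormal L).toRingEquiv) (fun t => by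
    apply Subtype.ext
    have h1 : (((g.restrictNormal L) (algebraMap ↥T ↥L t) : ↥L) : PadicAlgCl p) =
        g ((algebraMap ↥T ↥L t : ↥L) : PadicAlgCl p) :=
      AlgEquiv.restrictNormal_commutes g L (algebraMap ↥T ↥L t)
    rw [algebraMap_TL] at h1
    rw [(IntermediateField.mem_fixingSubgroup_iff T _).1 hg t t.2] at h1
    exact h1)

lemma resAut_apply (g : PadicAlgCl p ≃ₐ[ℚ_[p]] PadicAlgCl p) (hg : g ∈ T.fixingSubgroup)
    (x : ↥L) : ((resAut g hg x : ↥L) : PadicAlgCl p) = g (x : PadicAlgCl p) :=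
  AlgEquiv.restrictNormal_commutes g L x

lemma liftAut_resAut (f : (PadicAlgCl p ≃ₐ[ℚ_[p]] PadicAlgCl p) → ZMod p)
    (hadd : ∀ g ∈ T.fixingSubgroup, ∀ h ∈ T.fixingSubgroup, f (g * h) = f g + f h)
    (hzero : ∀ g ∈ L.fixingSubgroup, f g = 0)
    (g : PadicAlgCl p ≃ₐ[ℚ_[p]] PadicAlgCl p) (hg : g ∈ T.fixingSubgroup) :
    f (liftAut (resAut (L := L) g hg)) = f g :=
  eq_of_agree f hadd hzero _ _ (liftAut_mem _) hg (fun x => by
    rw [liftAut_apply, resAut_apply])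

end Tower

section Main

attribute [local instance] algTL towerTL

/-- **(A)** the Kummer generator: a homomorphism `G_T → 𝔽_p` which is trivial on `G_L`
(`L/ℚ_p` finite normal, `ζ_p ∈ T ≤ L`) is the Kummer character of some `a ∈ Tˣ`. -/
theorem exists_kummer_root (L T : IntermediateField ℚ_[p] (PadicAlgCl p))
    [FiniteDimensional ℚ_[p] L] [Normal ℚ_[p] L] (hTL : T ≤ L)
    (ζ : PadicAlgCl p) (hζ : IsPrimitiveRoot ζ p) (hζT : ζ ∈ T)
    (f : (PadicAlgCl p ≃ₐ[ℚ_[p]] PadicAlgCl p) → ZMod p)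
    (hadd : ∀ g ∈ T.fixingSubgroup, ∀ h ∈ T.fixingSubgroup, f (g * h) = f g + f h)
    (hzero : ∀ g ∈ L.fixingSubgroup, f g = 0) :
    ∃ a : T, a ≠ 0 ∧ ∃ α : PadicAlgCl p, α ^ p = (a : PadicAlgCl p) ∧
      ∀ g ∈ T.fixingSubgroup, g α = ζ ^ (f g).val * α := by
  have : Fact (T ≤ L) := ⟨hTL⟩
  have hp : p.Prime := Fact.out
  have : NeZero p := ⟨hp.ne_zero⟩
  have : FiniteDimensional ↥T ↥L := FiniteDimensional.right ℚ_[p] ↥T ↥L
  have hζ0 : ζ ≠ 0 := hζ.ne_zero hp.ne_zero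
  have hζT0 : (⟨ζ, hζT⟩ : ↥T) ≠ 0 := fun h => hζ0 (congrArg Subtype.val h)
  have hζp : (Units.mk0 (⟨ζ, hζT⟩ : ↥T) hζT0) ^ p = 1 := by
    apply Units.ext
    apply Subtype.ext
    simpa using hζ.pow_eq_one
  obtain ⟨β, hβ⟩ := Fermat.Agent.S55.helper30.exists_units_of_char (K := ↥T) (L := ↥L) p
    (Units.mk0 (⟨ζ, hζT⟩ : ↥T) hζT0) hζp (fun τ => f (liftAut τ)) (liftAut_add f hadd hzero)
  have hgβ : ∀ g ∈ T.fixingSubgroup,
      g ((β : ↥L) : PadicAlgCl p) = ζ ^ (f g).val * ((β : ↥L) : PadicAlgCl p) := by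
    intro g hg
    have h1 := hβ (resAut g hg)
    have h2 := congrArg (fun x : ↥L => (x : PadicAlgCl p)) h1
    beta_reduce at h2
    rw [resAut_apply, liftAut_resAut f hadd hzero g hg] at h2
    rw [h2]
    rfl
  refine ⟨⟨((β : ↥L) : PadicAlgCl p) ^ p, mem_of_fixed p T _ ?_⟩, ?_, ((β : ↥L) : PadicAlgCl p),
    rfl, hgβ⟩
  · intro g hg
    rw [map_pow, hgβ g hg, mul_pow, ← pow_mul, mul_comm (f g).val p, pow_mul, hζ.pow_eq_one,
      one_pow, one_mul]
  · intro h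
    have h1 : ((β : ↥L) : PadicAlgCl p) ^ p = 0 := congrArg Subtype.val h
    have h2 : ((β : ↥L) : PadicAlgCl p) = 0 := pow_eq_zero_iff hp.ne_zero |>.1 h1
    exact β.ne_zero (Subtype.ext h2)

/-- **(B)** transport of `helper14.KummerBounded` to subfields of `Ω`. -/
theorem bdd_of_root (hKB : helper14.KummerBounded p)
    (L T : IntermediateField ℚ_[p] (PadicAlgCl p)) [FiniteDimensional ℚ_[p] L]
    [FiniteDimensional ℚ_[p] T] [IsGalois ℚ_[p] L] (hTL : T ≤ L)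
    (hemb : helper14.EmbProperty p L) (htame : ¬ p ∣ edeg p T)
    (hζ : ∃ ζ ∈ T, IsPrimitiveRoot ζ p)
    (hpg : ∀ g ∈ T.fixingSubgroup, ∃ n : ℕ, g ^ p ^ n ∈ L.fixingSubgroup)
    (a : T) (α : PadicAlgCl p) (ha : a ≠ 0) (hα : α ^ p = (a : PadicAlgCl p))
    (hfix : ∀ g ∈ L.fixingSubgroup, g α = α) :
    ∃ b u : T, b ≠ 0 ∧ a = u * b ^ p ∧ ((edeg p T : ℤ) : WithTop ℤ) ≤ ordT p T (u - 1) := by
  have : Fact (T ≤ L) := ⟨hTL⟩
  have hp : p.Prime := Fact.out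
  obtain ⟨ζ, hζT, hζ⟩ := hζ
  have hαL : α ∈ L := mem_of_fixed p L α hfix
  have hζ' : IsPrimitiveRoot (⟨ζ, hζT⟩ : ↥T) p :=
    (IsPrimitiveRoot.coe_submonoidClass_iff (M := PadicAlgCl p) (N := T)
      (ζ := ⟨ζ, hζT⟩)).1 hζ
  obtain ⟨b, u, hab, hu⟩ := hKB ↥L hemb ↥T htame ⟨⟨ζ, hζT⟩, hζ'⟩ (isPGroup_aut hpg) a
    ⟨α, hαL⟩ ha (Subtype.ext hα)
  refine ⟨b, u, ?_, hab, hu⟩
  rintro rfl
  apply ha
  rw [hab, zero_pow hp.ne_zero, mul_zero]

/-- **(BD')**, neutral form: `f` is the Kummer character (with respect to the given `ζ`) of a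
unit `u ∈ T` of level `≥ e_T`. -/
theorem bdd_core (hKB : helper14.KummerBounded p)
    (L T : IntermediateField ℚ_[p] (PadicAlgCl p)) [FiniteDimensional ℚ_[p] L]
    [FiniteDimensional ℚ_[p] T] [IsGalois ℚ_[p] L] (hTL : T ≤ L)
    (hemb : helper14.EmbProperty p L) (htame : ¬ p ∣ edeg p T)
    (ζ : PadicAlgCl p) (hζ : IsPrimitiveRoot ζ p) (hζT : ζ ∈ T)
    (hpg : ∀ g ∈ T.fixingSubgroup, ∃ n : ℕ, g ^ p ^ n ∈ L.fixingSubgroup)
    (f : (PadicAlgCl p ≃ₐ[ℚ_[p]] PadicAlgCl p) → ZMod p)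
    (hadd : ∀ g ∈ T.fixingSubgroup, ∀ h ∈ T.fixingSubgroup, f (g * h) = f g + f h)
    (hzero : ∀ g ∈ L.fixingSubgroup, f g = 0) :
    ∃ u : T, u ≠ 0 ∧ ((edeg p T : ℤ) : WithTop ℤ) ≤ ordT p T (u - 1) ∧
      ∃ α : PadicAlgCl p, α ^ p = (u : PadicAlgCl p) ∧
        ∀ g ∈ T.fixingSubgroup, g α = ζ ^ (f g).val * α := by
  have hp : p.Prime := Fact.out
  obtain ⟨a, ha, α, hα, hg⟩ := exists_kummer_root p L T hTL ζ hζ hζT f hadd hzero
  have hfix : ∀ g ∈ L.fixingSubgroup, g α = α := by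
    intro g hgL
    have hgT : g ∈ T.fixingSubgroup := IntermediateField.fixingSubgroup_le hTL hgL
    rw [hg g hgT, hzero g hgL, ZMod.val_zero, pow_zero, one_mul]
  obtain ⟨b, u, hb, hab, hu⟩ := bdd_of_root p hKB L T hTL hemb htame ⟨ζ, hζT, hζ⟩ hpg a α ha hα
    hfix
  have hb' : (b : PadicAlgCl p) ≠ 0 := fun h => hb (Subtype.ext h)
  have hab' : (a : PadicAlgCl p) = (u : PadicAlgCl p) * (b : PadicAlgCl p) ^ p := by
    have := congrArg (fun x : ↥T => (x : PadicAlgCl p)) hab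
    simpa using this
  refine ⟨u, ?_, hu, α / (b : PadicAlgCl p), ?_, ?_⟩
  · rintro rfl
    apply ha
    rw [hab, zero_mul]
  · rw [div_pow, hα, hab', mul_div_assoc, div_self (pow_ne_zero p hb'), mul_one]
  · intro g hgT
    rw [map_div₀, hg g hgT, (IntermediateField.mem_fixingSubgroup_iff T _).1 hgT b b.2,
      mul_div_assoc]

end Main

end Fermat.Agent.P1.helper89.FCBd

namespace Fermat.Agent.P1.helper89

open Fermat.Agent.S55.helper8 Fermat.Agent.S55.helper7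

/-- **FC-BD** in the form of `helper30_FlatCntPkgs` (row 788). -/
theorem fcBd (p : ℕ) [Fact p.Prime] : Fermat.Agent.P1.helper30.FCBdStatement p := by
  intro hKB L _ _ hemb T _ hLT htame hζ hpg f hadd hzero
  obtain ⟨ζ, hζT, hζ⟩ := hζ
  obtain ⟨u, -, hu, α, hα, hg⟩ := FCBd.bdd_core p hKB L T (FCBd.le_of_fixingSubgroup_le p L T hLT)
    hemb htame ζ hζ hζT hpg f hadd hzero
  exact ⟨u, α, ζ, hu, hα, hζ, hg⟩

/-- **FC-BD** in the form of `helper14_KumEqDefs2` (row 780), from `KummerBounded`. -/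
theorem fcBd_hasLevel (p : ℕ) [Fact p.Prime] (hKB : Fermat.Agent.P1.helper14.KummerBounded p) :
    Fermat.Agent.P1.helper14.FCBdStatement p := by
  intro L T _ _ _ ζ hTL hemb htame hζ hζT hpg f hadd hzero
  have : IsGalois ℚ_[p] ↥L := ⟨⟩
  obtain ⟨u, hu0, hu, α, hα, hg⟩ := FCBd.bdd_core p hKB L T hTL hemb htame ζ hζ hζT hpg f hadd
    hzero
  exact ⟨u, hu0, hu, α, hα, hg⟩

end Fermat.Agent.P1.helper89
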