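import Fermat.Agent.P1.helper30_FlatCntAsm2
import Fermat.Agent.P1.helper15_FlatBddGp
import Fermat.Agent.P1.helper86_FlatBddSub
import Fermat.Agent.P1.helper47_CountII
import Fermat.Agent.P1.helper78_DictHR1
import Fermat.Agent.P1.helper78_DictIWire
import Fermat.Agent.P1.helper1_DictHEmb
import Fermat.Agent.P1.helper3_TameChar
import Fermat.Agent.P1.helper49_Ord
import Fermat.Agent.P1.helper66_MemI
import Fermat.Agent.P1.helper85_FlatCntHatEx
import Fermat.Agent.P1.helper33_FlatCntResInj
import Fermat.Agent.P1.helper84_FlatCountI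
import Fermat.Agent.P1.helper89_FCBdCore
import Fermat.Agent.P1.helper14_KumFinal
import Fermat.Agent.P1.helper65_LFOpenZeta

/-!
# P1 / FLAT-CNT (helper30): wiring of the landed packages

`locMain_wire`, `locPOut_flat_wire` : the assembly `locMain_of'` with all the landed packages
plugged in.  REMAINING inputs (hypotheses): `LocSetting p ρbar`, `LFEdegStatement p`,
`LFUnramStatement p`, `TameIStatement p`, `MemII2Statement p`, `MemBStatement p`,
`KQIStatement p`, `KQIIStatement p`.
-/

set_option autoImplicit false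

open IsLocalRing ExtCitation groupCohomology Polynomial

noncomputable section

namespace Fermat.Agent.P1.helper30

open Fermat.Agent.S55 Fermat.Agent.P1.helper70
open Fermat.Agent.S55.helper8 Fermat.Agent.S55.helper7

variable (p : ℕ) [Fact p.Prime]

section Main

variable {𝒪 : Type} [CommRing 𝒪] [IsLocalRing 𝒪] [Finite (ResidueField 𝒪)]
  (ρbar : ResidualGaloisRep (ResidueField 𝒪)) [Algebra (ZMod p) (ResidueField 𝒪)]

/-- The local form of the deliverable, from the remaining packages. -/
theorem locMain_wire (hLS : LocSetting p ρbar)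
    (hEdeg : LFEdegStatement p) (hUnram : LFUnramStatement p)
    (hTameI : TameIStatement p) (hMemII : MemII2Statement p) (hMemB : MemBStatement p)
    (hKQI : KQIStatement p) (hKQII : KQIIStatement p) :
    LocMain ρbar p :=
  locMain_of' p ρbar hLS
    (Fermat.Agent.P1.helper1.dictHEmb_of_dictH0 p (Fermat.Agent.P1.helper26.dictH0 p))
    (Fermat.Agent.P1.helper78.dictHR1_holds p)
    (Fermat.Agent.P1.helper78.dictHR2_holds p)
    (Fermat.Agent.P1.helper3.tameChar p)
    (Fermat.Agent.P1.helper49.ord p)
    (Fermat.Agent.P1.helper14.kummerBounded p)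
    (Fermat.Agent.P1.helper89.fcBd p)
    (Fermat.Agent.P1.helper15.bddGp p)
    (Fermat.Agent.P1.helper86.bddSub p)
    (Fermat.Agent.P1.helper65.lfOpen p) hEdeg (Fermat.Agent.P1.helper65.lfZeta p) hUnram
    hTameI
    (Fermat.Agent.P1.helper66.memI p)
    (Fermat.Agent.P1.helper84.countI p hKQI (Fermat.Agent.P1.helper33.resInj p) hTameI hEdeg
      (Fermat.Agent.P1.helper65.lfZeta p))
    (Fermat.Agent.P1.helper85.hatExists p) hMemII hMemB hKQII
    (Fermat.Agent.P1.helper47.countII p)

end Main

section Deliverable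

variable {𝒪 : Type} [CommRing 𝒪] [IsDomain 𝒪] [IsDiscreteValuationRing 𝒪]
  [IsAdicComplete (maximalIdeal 𝒪) 𝒪] [Finite (ResidueField 𝒪)]
  (ρbar : ResidualGaloisRep (ResidueField 𝒪)) (Smin : Finset ℕ)
  [Algebra (ZMod p) (ResidueField 𝒪)]

omit [IsAdicComplete (maximalIdeal 𝒪) 𝒪] in
/-- The deliverable of FLAT-CNT, from the remaining packages. -/
theorem locPOut_flat_wire (hLS : LocSetting p ρbar)
    (hEdeg : LFEdegStatement p) (hUnram : LFUnramStatement p)
    (hTameI : TameIStatement p) (hMemII : MemII2Statement p) (hMemB : MemBStatement p)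
    (hKQI : KQIStatement p) (hKQII : KQIIStatement p) :
    LocPOut p ρbar Smin (condFlat 𝒪 p Smin) :=
  locPOut_of_locMain p ρbar Smin
    (locMain_wire p ρbar hLS hEdeg hUnram hTameI hMemII hMemB hKQI hKQII)

end Deliverable

end Fermat.Agent.P1.helper30
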