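import Mathlib
import Fermat.Agent.P1.helper7_LSODefs
import Fermat.Agent.S14.helper54_Resolvent
import Fermat.Agent.S14.helper91_Dictionary

/-!
# P1 / LSO-RAM (helper58): `ℚ(ζ_p)/ℚ` is ramified at `p`

For an odd prime `p` and every valuation subring `P` of `ℚ̄` over `p`, the mod `p` cyclotomic
character is nontrivial on the inertia group of `P`.

Proof: the inertia group of the prime `𝔓 = primeOf ℚ(ζ) P` of `ℚ(ζ)` has order
`e(𝔓 | p) = p - 1 ≥ 2` (Mathlib), inertia groups surject under restriction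
(S14 `exists_mem_inertia_restrict_eq`), and the kernel of the cyclotomic character is the fixing
subgroup of `ℚ(ζ)`.
-/

set_option autoImplicit false
set_option linter.unusedSectionVars false
set_option linter.style.haveILetI false

open scoped NumberField Pointwise

namespace Fermat.Agent.P1.helper58

open ExtCitation Fermat.Agent.S14 Fermat.Agent.S14.helper91 Fermat.Agent.S14.helper54

theorem cycloRamified (p : ℕ) [hp : Fact p.Prime] (hp2 : p ≠ 2)
    (P : ValuationSubring (AlgebraicClosure ℚ)) (hP : P.LiesOverPrime p) :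
    Fermat.Agent.P1.helper7.CycloRamified p P := by
  haveI : NeZero p := ⟨hp.out.ne_zero⟩
  obtain ⟨ζ, hζ⟩ := exists_primitiveRoot_Qb p
  haveI : Algebra.IsAlgebraic ℚ Qb := AlgebraicClosure.isAlgebraic ℚ
  haveI : Algebra.IsIntegral ℚ Qb := Algebra.IsAlgebraic.isIntegral
  haveI hcyc : IsCyclotomicExtension {p} ℚ (cycField ζ) :=
    hζ.intermediateField_adjoin_isCyclotomicExtension ℚ
  haveI : NumberField (cycField ζ) := IsCyclotomicExtension.numberField {p} ℚ (cycField ζ)
  haveI : IsGalois ℚ (cycField ζ) := IsCyclotomicExtension.isGalois {p} ℚ (cycField ζ)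
  haveI hLO : (primeOf (cycField ζ) P).LiesOver (Ideal.span {(p : ℤ)}) := by
    constructor
    have hmax : (Ideal.span {(p : ℤ)}).IsMaximal :=
      PrincipalIdealRing.isMaximal_of_irreducible
        (Nat.prime_iff_prime_int.mp hp.out).irreducible
    have hne : (primeOf (cycField ζ) P).under ℤ ≠ ⊤ :=
      (Ideal.IsPrime.under ℤ (primeOf (cycField ζ) P)).ne_top
    refine hmax.eq_of_le hne ?_
    rw [Ideal.span_singleton_le_iff_mem, Ideal.under_def, Ideal.mem_comap]
    have h := natCast_mem_primeOf (cycField ζ) P hP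
    simpa using h
  have hcard : Nat.card (Ideal.inertia ((cycField ζ) ≃ₐ[ℚ] (cycField ζ)) (primeOf (cycField ζ) P))
      = p - 1 := by
    rw [Ideal.card_inertia_eq_ramificationIdxIn (Ideal.span {(p : ℤ)}) (primeOf (cycField ζ) P),
      IsCyclotomicExtension.Rat.ramificationIdxIn_eq_of_prime p (cycField ζ)]
  obtain ⟨τ, hτ, hτ1⟩ : ∃ τ ∈ Ideal.inertia ((cycField ζ) ≃ₐ[ℚ] (cycField ζ))
      (primeOf (cycField ζ) P), τ ≠ 1 := by
    by_contra hcon
    push Not at hcon
    have hbot : Ideal.inertia ((cycField ζ) ≃ₐ[ℚ] (cycField ζ)) (primeOf (cycField ζ) P) = ⊥ :=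
      (Subgroup.eq_bot_iff_forall _).mpr hcon
    rw [hbot, Subgroup.card_bot] at hcard
    have h2 := hp.out.two_le
    omega
  obtain ⟨σ, hσ, hστ⟩ := exists_mem_inertia_restrict_eq (cycField ζ) P hp.out hP τ hτ
  refine ⟨σ, hσ, fun h1 => hτ1 ?_⟩
  have hker : σ ∈ (cycloChar p).ker := MonoidHom.mem_ker.mpr h1
  rw [← fixingSubgroup_cycField hζ] at hker
  rw [← hστ]
  ext x
  have h1 := AlgEquiv.restrictNormal_commutes σ (cycField ζ) x
  have h2 := (IntermediateField.mem_fixingSubgroup_iff _ _).mp hker x x.2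
  exact h1.trans h2

/-- **LSO-RAM** (verbatim): `ℚ(ζ_p)/ℚ` is ramified at every place over the odd prime `p`. -/
theorem ramStatement : Fermat.Agent.P1.helper7.RamStatement :=
  fun p _ hp2 P hP => cycloRamified p hp2 P hP

end Fermat.Agent.P1.helper58
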