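import Fermat.Agent.P1.helper30_FlatCntL3
import Fermat.Agent.P1.helper24_LQFinal
import Fermat.Agent.P1.helper24_LQArith
import Fermat.Agent.P1.helper58_Ram
import Fermat.Agent.S14.helper91_FieldObstruction

/-!
# P1 / FLAT-CNT, package LOCSET (helper62, task 790)

* `lfDet : LFDetStatement p` : the local form of `DetIsCyclotomic` for a residual representation;
* `lfRam : LFRamStatement p` : the cyclotomic character is ramified at `p` (`p` odd);
* `lfInertia : LFInertiaStatement p` : `inertiaΩ p` is the inertia group of the Prelude's place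
  over `p` and the local Galois group has a tame structure;
* `exists_locLevel_eq_one` : a residual representation is trivial on a local level;
* `locSetting_of_setting : Setting 𝒪 p ρbar S Smin → LocSetting p ρbar`.
-/

set_option autoImplicit false
set_option linter.unusedSectionVars false
set_option linter.unusedVariables false
set_option linter.style.longLine false
set_option linter.style.haveILetI false

open IsLocalRing ExtCitation groupCohomology Polynomial

noncomputable section

namespace Fermat.Agent.P1.helper62

open Fermat.Agent.S55 Fermat.Agent.P1.helper70 Fermat.Agent.P1.helper30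

variable (p : ℕ) [Fact p.Prime]

/-- the Prelude's place over `p` lies over `p` -/
lemma padicPlace_liesOverPrime : (padicPlace p).LiesOverPrime p :=
  Fermat.Agent.S55.helper74.primeLocalPlace_liesOverPrime (pPrime p)

/-- membership in `inertiaΩ` in terms of the Prelude's inertia group -/
lemma mem_inertiaΩ_iff_toGQ (g : Gp p) :
    g ∈ inertiaΩ p ↔ localGaloisToGlobal p g ∈ (padicPlace p).inertiaSubgroupIn ℚ := by
  rw [inertiaΩ_eq_locInertiaNat]
  rfl

/-- the inertia group of module LQ at `p` is `inertiaΩ p` -/
lemma locInertia_pPrime_eq : helper24.locInertia (pPrime p) = inertiaΩ p := by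
  rw [inertiaΩ_eq_locInertiaNat]
  rfl

/-- **LF-DET**. -/
theorem lfDet : LFDetStatement p := by
  intro k _ ρbar hdet g a hg
  have hp0 : ((p : ℕ) : k) = 0 := by
    have h := hdet.1
    rw [IsLocalRing.maximalIdeal_eq_bot] at h
    exact h
  have h := hdet.2 1 (localGaloisToGlobal p g) a (by
    intro μ hμ
    apply (padicEmbedding p).injective
    change padicEmbedding p (localGaloisToGlobal p g μ) = padicEmbedding p (μ ^ a)
    rw [padicEmbedding_localGaloisToGlobal, map_pow]
    apply hg
    rw [← map_pow]
    rw [pow_one] at hμ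
    rw [hμ, map_one])
  rw [pow_one, hp0, Ideal.span_singleton_eq_bot.mpr rfl, Ideal.mem_bot, sub_eq_zero] at h
  exact h

/-- **LF-RAM**. -/
theorem lfRam : LFRamStatement p := by
  intro hp2
  obtain ⟨σ, hσ, hne⟩ := Fermat.Agent.P1.helper58.cycloRamified p hp2 (padicPlace p)
    (padicPlace_liesOverPrime p)
  obtain ⟨i, hi, hiσ⟩ := helper24.exists_mem_locInertia_eq (pPrime p) hσ
  obtain ⟨ζ, hζ⟩ := Fermat.Agent.S14.helper91.exists_primitiveRoot p
  refine ⟨i, ?_, padicEmbedding p ζ, ?_, ?_⟩
  · rw [← locInertia_pPrime_eq]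
    exact hi
  · rw [← map_pow, hζ.pow_eq_one, map_one]
  · intro h
    apply hne
    have hker : σ ∈ (cycloChar p).ker := by
      rw [Fermat.Agent.S14.helper91.mem_ker_cycloChar_iff p hζ]
      apply (padicEmbedding p).injective
      change padicEmbedding p (σ ζ) = padicEmbedding p ζ
      rw [← hiσ]
      exact (padicEmbedding_localGaloisToGlobal p i ζ).trans h
    exact hker

/-- the tame structure of `G_p` with respect to `inertiaΩ p` -/
theorem exists_tameStructure :
    ∃ σ : Gp p, helper24.TameStructure (locLevels (pPrime p)) (inertiaΩ p) σ p := by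
  obtain ⟨σ, hσ⟩ := helper24.frobExists (pPrime p)
  refine ⟨σ, ?_⟩
  have h := helper24.tameStatement (pPrime p) σ hσ
  rw [locInertia_pPrime_eq] at h
  exact h

/-- **LF-INERTIA**. -/
theorem lfInertia : LFInertiaStatement p :=
  ⟨mem_inertiaΩ_iff_toGQ p, exists_tameStructure p⟩

/-- a residual representation is trivial on a level of the local Galois group -/
theorem exists_locLevel_eq_one {k : Type} [Field k] (ρbar : ResidualGaloisRep k) :
    ∃ N ∈ (locLevels (pPrime p)).mem, ∀ g ∈ N, ρbar.ρ (localGaloisToGlobal p g) = 1 := by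
  obtain ⟨L, hL, hρ⟩ := ρbar.factorsThroughFiniteLevel
  refine ⟨(Fermat.Agent.S55.helper4.ncl L).fixingSubgroup.comap (primeLocalToGlobal (pPrime p)),
    ⟨_, Fermat.Agent.S55.helper4.finiteDimensional_ncl L hL,
      Fermat.Agent.S55.helper4.normal_fixingSubgroup_ncl L, rfl⟩, fun s hs => ?_⟩
  have h1 : primeLocalToGlobal (pPrime p) s ∈ L.fixingSubgroup :=
    Fermat.Agent.S55.helper4.fixingSubgroup_ncl_le L hs
  exact hρ _ fun x hx => (IntermediateField.mem_fixingSubgroup_iff _ _).mp h1 x hx

variable {𝒪 : Type} [CommRing 𝒪] [IsDomain 𝒪] [IsDiscreteValuationRing 𝒪]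
  [IsAdicComplete (maximalIdeal 𝒪) 𝒪] [Finite (ResidueField 𝒪)]
  (ρbar : ResidualGaloisRep (ResidueField 𝒪))
  (S Smin : Finset ℕ)

/-- **LOCSET**: the hypotheses of S56 give the local setting at `p`. -/
theorem locSetting_of_setting (hset : helper70.Setting 𝒪 p ρbar S Smin) :
    LocSetting p ρbar where
  hp2 := hset.hp2
  hpk := by
    have h := hset.hdet.1
    rw [IsLocalRing.maximalIdeal_eq_bot] at h
    exact h
  hdet := lfDet p (ResidueField 𝒪) ρbar hset.hdet
  hsplit := fun g => hset.hsplit (localGaloisToGlobal p g)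
  hram := lfRam p hset.hp2
  htame := exists_tameStructure p
  hlev := exists_locLevel_eq_one p ρbar

end Fermat.Agent.P1.helper62
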