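import Fermat.Agent.P1.helper30_FlatCntPkgs
import Fermat.Agent.S55.helper7_LocRes

/-!
# P1 / FLAT-CNT, package LF (helper65, task 789): LF-UNRAM

* `lf_ordT_inclusion` : for `T ≤ T'` with `e_T = e_T'` the valuation of `T'` restricts to the
  valuation of `T`;
* `lfUnram : LFUnramStatement p` : boundedness passes to extensions with the same ramification
  index (same `u`, `α`, `ζ`).
-/

set_option autoImplicit false
set_option linter.style.haveILetI false

open IsLocalRing ExtCitation groupCohomology Polynomial

noncomputable section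

namespace Fermat.Agent.P1.helper65

open Fermat.Agent.S55 Fermat.Agent.P1.helper70 Fermat.Agent.P1.helper30
open Fermat.Agent.S55.helper8 Fermat.Agent.S55.helper7

variable (p : ℕ) [Fact p.Prime]

/-- the valuation of `T'` restricted to `T ≤ T'` is the valuation of `T`, if `e_T = e_T'`. -/
lemma lf_ordT_inclusion (T T' : IntermediateField ℚ_[p] (PadicAlgCl p))
    [FiniteDimensional ℚ_[p] T] [FiniteDimensional ℚ_[p] T'] (hle : T ≤ T')
    (he : edeg p T = edeg p T') (x : T) :
    ordT p T' (IntermediateField.inclusion hle x) = ordT p T x := by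
  letI : Algebra ↥T ↥T' := (IntermediateField.inclusion hle).toRingHom.toAlgebra
  haveI : IsScalarTower ℚ_[p] ↥T ↥T' :=
    IsScalarTower.of_algebraMap_eq fun r => rfl
  haveI : FiniteDimensional ↥T ↥T' := Module.Finite.of_restrictScalars_finite ℚ_[p] ↥T ↥T'
  have hrel : relE p ↥T ↥T' = 1 := by
    unfold relE
    rw [← he]
    exact Nat.div_self (Fermat.Agent.S55.helper33.edeg_pos p ↥T)
  by_cases hx : x = 0
  · subst hx
    rw [map_zero, Fermat.Agent.S55.helper7.ordT_zero, Fermat.Agent.S55.helper7.ordT_zero]
  · have h := ordT_algebraMap_of_ne_zero p ↥T ↥T' hx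
    rw [hrel, Nat.cast_one, one_mul] at h
    rw [Fermat.Agent.S55.helper7.ordT_of_ne_zero p ↥T hx]
    exact h

/-- **LF-UNRAM**. -/
theorem lfUnram : LFUnramStatement p := by
  intro T T' _ _ hle he f hf
  obtain ⟨u, α, ζ, hu, hα, hζ, hg⟩ := hf
  refine ⟨IntermediateField.inclusion hle u, α, ζ, ?_, ?_, hζ, ?_⟩
  · have h1 : IntermediateField.inclusion hle u - 1 = IntermediateField.inclusion hle (u - 1) := by
      rw [map_sub, map_one]
    rw [h1, lf_ordT_inclusion p T T' hle he, ← he]
    exact hu
  · rw [hα]
    rfl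
  · intro g hgT'
    exact hg g (IntermediateField.fixingSubgroup_antitone hle hgT')

end Fermat.Agent.P1.helper65
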