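import Fermat.Agent.P1.helper30_FlatCntWire
import Fermat.Agent.P1.helper62_FlatLocSet
import Fermat.Agent.P1.helper65_LFEdeg
import Fermat.Agent.P1.helper65_LFUnram
import Fermat.Agent.P1.helper97_TameI
import Fermat.Agent.P1.helper11_FlatJ1

/-!
# P1 / FLAT-CNT (helper30): wiring of the landed packages, second version

`locPOut_flat_wire2 : Setting 𝒪 p ρbar S Smin → … → LocPOut p ρbar Smin (condFlat 𝒪 p Smin)`.
REMAINING inputs (hypotheses): `MemII2Statement p`, `MemBStatement p`, `KQIStatement p`,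
`helper14.KumEqIIStatement p`.
-/

set_option autoImplicit false

open IsLocalRing ExtCitation groupCohomology Polynomial

noncomputable section

namespace Fermat.Agent.P1.helper30

open Fermat.Agent.S55 Fermat.Agent.P1.helper70
open Fermat.Agent.S55.helper8 Fermat.Agent.S55.helper7

variable (p : ℕ) [Fact p.Prime]

variable {𝒪 : Type} [CommRing 𝒪] [IsDomain 𝒪] [IsDiscreteValuationRing 𝒪]
  [IsAdicComplete (maximalIdeal 𝒪) 𝒪] [Finite (ResidueField 𝒪)]
  (ρbar : ResidualGaloisRep (ResidueField 𝒪)) (S Smin : Finset ℕ)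
  [Algebra (ZMod p) (ResidueField 𝒪)]

/-- The deliverable of FLAT-CNT, from the remaining packages. -/
theorem locPOut_flat_wire2 (hset : helper70.Setting 𝒪 p ρbar S Smin)
    (hMemII : MemII2Statement p) (hMemB : MemBStatement p)
    (hKQI : KQIStatement p) (hKumEqII : Fermat.Agent.P1.helper14.KumEqIIStatement p) :
    LocPOut p ρbar Smin (condFlat 𝒪 p Smin) :=
  locPOut_flat_wire p ρbar Smin
    (Fermat.Agent.P1.helper62.locSetting_of_setting p ρbar S Smin hset)
    (Fermat.Agent.P1.helper65.lfEdeg p) (Fermat.Agent.P1.helper65.lfUnram p)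
    (Fermat.Agent.P1.helper97.tameI p) hMemII hMemB hKQI
    (Fermat.Agent.P1.helper11.kqII_of_kumEqII p hKumEqII (Fermat.Agent.P1.helper65.lfEdeg p))

end Fermat.Agent.P1.helper30
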