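import Fermat.Agent.P1.helper30_FlatCntWire2
import Fermat.Agent.P1.helper12_FlatKQI
import Fermat.Agent.P1.helper14_KumEqFinal

/-!
# P1 / FLAT-CNT (helper30): wiring of the landed packages, third version

`locPOut_flat_wire3 : Setting 𝒪 p ρbar S Smin → MemII2Statement p → MemBStatement p →
  LocPOut p ρbar Smin (condFlat 𝒪 p Smin)`:
everything except MEM-II2 and MEM-B is plugged in (KUMEQ = `helper14.kumEqI / kumEqInv /
kumEqII`, KQ-I = `helper12.kqI_of`, KQ-II = `helper11.kqII_of_kumEqII`).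
-/

set_option autoImplicit false

open IsLocalRing ExtCitation groupCohomology Polynomial

noncomputable section

namespace Fermat.Agent.P1.helper30

open Fermat.Agent.S55 Fermat.Agent.P1.helper70
open Fermat.Agent.S55.helper8 Fermat.Agent.S55.helper7

variable (p : ℕ) [Fact p.Prime]

/-- **KQ-I**, unconditional. -/
theorem kqI_holds : KQIStatement p :=
  Fermat.Agent.P1.helper12.kqI_of p (Fermat.Agent.P1.helper97.tameI p)
    (Fermat.Agent.P1.helper65.lfEdeg p) (Fermat.Agent.P1.helper65.lfZeta p)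
    (Fermat.Agent.P1.helper10.fcIn p) (Fermat.Agent.P1.helper14.kumEqI p)
    (Fermat.Agent.P1.helper14.kumEqInv p) (Fermat.Agent.P1.helper11.bddLevel p)

/-- **KQ-II**, unconditional. -/
theorem kqII_holds : KQIIStatement p :=
  Fermat.Agent.P1.helper11.kqII_of_kumEqII p (Fermat.Agent.P1.helper14.kumEqII p)
    (Fermat.Agent.P1.helper65.lfEdeg p)

variable {𝒪 : Type} [CommRing 𝒪] [IsDomain 𝒪] [IsDiscreteValuationRing 𝒪]
  [IsAdicComplete (maximalIdeal 𝒪) 𝒪] [Finite (ResidueField 𝒪)]
  (ρbar : ResidualGaloisRep (ResidueField 𝒪)) (S Smin : Finset ℕ)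
  [Algebra (ZMod p) (ResidueField 𝒪)]

/-- The deliverable of FLAT-CNT, from MEM-II2 and MEM-B. -/
theorem locPOut_flat_wire3 (hset : helper70.Setting 𝒪 p ρbar S Smin)
    (hMemII : MemII2Statement p) (hMemB : MemBStatement p) :
    LocPOut p ρbar Smin (condFlat 𝒪 p Smin) :=
  locPOut_flat_wire2 p ρbar S Smin hset hMemII hMemB (kqI_holds p)
    (Fermat.Agent.P1.helper14.kumEqII p)

end Fermat.Agent.P1.helper30
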