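import Fermat.Agent.P1.helper30_FlatCntL3
import Fermat.Agent.P1.helper11_FlatKQII
import Fermat.Agent.P1.helper66_MemI
import Fermat.Agent.P1.helper85_FlatCntHatEx
import Fermat.Agent.P1.helper89_FCBdCore

/-!
# P1 / FLAT-CNT (helper30): MEM-II2 and MEM-B (CASE II, boundedness over `T̂`)

* `memCore` : a function `f : G_p → 𝔽_p`, additive on a subgroup `U₁` between `G_T̂` and the
  group of the `g` acting unipotently with respect to `ramLine`, and vanishing on the kernel of
  a bounded tangent lift `ρ`, is bounded over `T̂`;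
* `memB : MemBStatement p`, `memII : MemII2Statement p`.
-/

set_option autoImplicit false
set_option linter.style.haveILetI false
set_option linter.unusedSectionVars false

open IsLocalRing ExtCitation groupCohomology Polynomial

noncomputable section

namespace Fermat.Agent.P1.helper30

open Fermat.Agent.S55 Fermat.Agent.P1.helper70
open Fermat.Agent.S55.helper8 Fermat.Agent.S55.helper7
open Fermat.Agent.P1.helper56 Fermat.Agent.S53.helper56 Fermat.Agent.P1.helper11
open Fermat.Agent.P1.helper93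

/-! ## Matrices: unipotent lifts have `p`-power order -/

section Matrix

variable {k : Type} [Field k]

/-- `(1 + N)^p = 1` for `N² = 0` in characteristic `p`. -/
lemma memUnip_pow_char (p : ℕ) [Fact p.Prime] (hpk : ((p : ℕ) : k) = 0) (M : M2 k)
    (hM : (M - 1) * (M - 1) = 0) : M ^ p = 1 := by
  have hp : p.Prime := Fact.out
  haveI : CharP k p := (CharP.charP_iff_prime_eq_zero hp).2 hpk
  have e : M = 1 + (M - 1) := by abel
  have hN : (M - 1) ^ p = 0 := by
    obtain ⟨n, hn⟩ : ∃ n, p = n + 2 := ⟨p - 2, by have := hp.two_le; omega⟩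
    rw [hn, pow_add, pow_two, hM, mul_zero]
  haveI : CharP (M2 k) p := inferInstanceAs (CharP (Matrix (Fin 2) (Fin 2) k) p)
  rw [e, add_pow_char_of_commute p (Commute.one_left _), one_pow, hN, add_zero]

/-- `fst` of a power. -/
lemma memFst_pow (Y : M2 (DualNumber k)) (n : ℕ) :
    (Y ^ n).map TrivSqZeroExt.fst = (Y.map TrivSqZeroExt.fst) ^ n := by
  induction n with
  | zero => rw [pow_zero, pow_zero, fst_one]
  | succ n ih => rw [pow_succ, pow_succ, fst_mul, ih]

/-- A lift of a unipotent matrix has order dividing `p²`. -/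
lemma memTanMat_pow_sq (p : ℕ) [Fact p.Prime] (hpk : ((p : ℕ) : k) = 0) (M C : M2 k)
    (hM : (M - 1) * (M - 1) = 0) : (tanMat M C) ^ (p ^ 2) = 1 := by
  have h1 : ((tanMat M C) ^ p).map TrivSqZeroExt.fst = 1 := by
    rw [memFst_pow, fst_tanMat, memUnip_pow_char p hpk M hM]
  have h2 := exists_eq_tanMat ((tanMat M C) ^ p) 1 1 (one_mul 1) h1
  rw [pow_two, pow_mul, h2]
  exact Fermat.Agent.P1.helper66.tanMat_one_pow_char p hpk _

end Matrix

/-! ## The core -/

section Core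

variable (p : ℕ) [Fact p.Prime]
variable {𝒪 : Type} [CommRing 𝒪] [IsLocalRing 𝒪] [Finite (ResidueField 𝒪)]
  (ρbar : ResidualGaloisRep (ResidueField 𝒪)) [Algebra (ZMod p) (ResidueField 𝒪)]

/-- `T̂` is tamely ramified. -/
lemma memHat_tame (hEdeg : LFEdegStatement p)
    (hfinL : Module.finrank (ResidueField 𝒪) ↥(ramLine p ρbar) = 1)
    (hstab : ∀ g : Gp p, ∀ x ∈ ramLine p ρbar,
      ρbar.ρ (localGaloisToGlobal p g) x ∈ ramLine p ρbar)
    (T : IntermediateField ℚ_[p] (PadicAlgCl p)) [FiniteDimensional ℚ_[p] T]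
    (hT : IsHatField p ρbar T) : ¬ p ∣ edeg p T := by
  classical
  obtain ⟨b, hb⟩ := lso_exists_adapted_basis ρbar (ramLine p ρbar) hfinL
  have hM00 : ∀ g h : Gp p,
      locMat ρbar p b (g * h) 0 0 = locMat ρbar p b g 0 0 * locMat ρbar p b h 0 0 :=
    fun g h => locMat_00_mul hb g h (hstab h)
  have hM00one : locMat ρbar p b 1 0 0 = 1 := by rw [locMat_one]; simp
  have hI11 : ∀ i ∈ inertiaΩ p, locMat ρbar p b i 1 1 = 1 := by
    intro i hi
    apply (triv_mod_iff hb i (hstab i)).mp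
    intro x
    exact Submodule.subset_span ⟨i, hi, x, rfl⟩
  rw [(hEdeg T).1]
  let χ : Gp p →* ResidueField 𝒪 :=
    { toFun := fun g => locMat ρbar p b g 0 0
      map_one' := hM00one
      map_mul' := hM00 }
  let φ : ↥(inertiaΩ p) →* (ResidueField 𝒪)ˣ := χ.toHomUnits.comp (inertiaΩ p).subtype
  have hφ : ∀ i : ↥(inertiaΩ p), ((φ i : (ResidueField 𝒪)ˣ) : ResidueField 𝒪) =
      locMat ρbar p b (i : Gp p) 0 0 := fun i => rfl
  have hker : φ.ker = T.fixingSubgroup.subgroupOf (inertiaΩ p) := by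
    ext i
    rw [MonoidHom.mem_ker, Subgroup.mem_subgroupOf, hT]
    constructor
    · intro h
      have h00 : locMat ρbar p b (i : Gp p) 0 0 = 1 := by
        rw [← hφ i, h, Units.val_one]
      exact ⟨(triv_on_iff hb _ (hstab _)).mpr h00,
        (triv_mod_iff hb _ (hstab _)).mpr (hI11 i i.2), fun u _ _ hui => hui i i.2⟩
    · rintro ⟨h1, -, -⟩
      apply Units.ext
      rw [hφ i, Units.val_one]
      exact (triv_on_iff hb _ (hstab _)).mp h1
  have hrel : T.fixingSubgroup.relIndex (inertiaΩ p) = Nat.card ↥φ.range := by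
    rw [← Subgroup.index_ker, hker]
    rfl
  rw [hrel]
  intro hdvd
  have h1 : p ∣ Nat.card (ResidueField 𝒪)ˣ := hdvd.trans (Subgroup.card_subgroup_dvd_card _)
  rw [Nat.card_units] at h1
  have h2 : Nat.card (ResidueField 𝒪) =
      p ^ Module.finrank (ZMod p) (ResidueField 𝒪) := by
    rw [Module.natCard_eq_pow_finrank (K := ZMod p), Nat.card_zmod]
  have h3 : 0 < Module.finrank (ZMod p) (ResidueField 𝒪) := Module.finrank_pos
  have h4 : p ∣ Nat.card (ResidueField 𝒪) := by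
    rw [h2]
    exact dvd_pow_self p h3.ne'
  have h5 : 0 < Nat.card (ResidueField 𝒪) := Nat.card_pos
  have h6 : p ∣ 1 := by
    have := Nat.dvd_sub h4 h1
    rwa [Nat.sub_sub_self h5] at this
  exact (Fact.out : p.Prime).one_lt.ne' (Nat.dvd_one.mp h6)

/-- **The core of MEM-II / MEM-B**. -/
theorem memCore (hOpen : LFOpenStatement p) (hEdeg : LFEdegStatement p)
    (hZeta : LFZetaStatement p) (hUnram : LFUnramStatement p)
    (hLS : LocSetting p ρbar)
    (hfinL : Module.finrank (ResidueField 𝒪) ↥(ramLine p ρbar) = 1)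
    (hstab : ∀ g : Gp p, ∀ x ∈ ramLine p ρbar,
      ρbar.ρ (localGaloisToGlobal p g) x ∈ ramLine p ρbar)
    (T : IntermediateField ℚ_[p] (PadicAlgCl p)) [FiniteDimensional ℚ_[p] T]
    (hT : IsHatField p ρbar T)
    (ρ : GaloisRepAdic (DualNumber (ResidueField 𝒪))) (c : GQ → Ad0 ρbar)
    (htan : IsTanLift ρbar ρ c) (hbdd : IsBddGp p (locAct p ρ))
    (U₁ : Subgroup (Gp p)) (hTU : T.fixingSubgroup ≤ U₁)
    (hUss : ∀ g ∈ U₁, (∀ x ∈ ramLine p ρbar, ρbar.ρ (localGaloisToGlobal p g) x = x) ∧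
      ∀ x : ρbar.V, ρbar.ρ (localGaloisToGlobal p g) x - x ∈ ramLine p ρbar)
    (hker : ∀ g : Gp p, (∀ x, locAct p ρ g x = x) → g ∈ U₁)
    (f : Gp p → ZMod p) (hadd : ∀ g ∈ U₁, ∀ h ∈ U₁, f (g * h) = f g + f h)
    (hf0 : ∀ g : Gp p, (∀ x, locAct p ρ g x = x) → f g = 0) : IsBddHom p T f := by
  classical
  obtain ⟨b, hb⟩ := lso_exists_adapted_basis ρbar (ramLine p ρbar) hfinL
  -- a level inside `U₁`
  obtain ⟨N, hN, hNhat⟩ := Fermat.Agent.P1.helper85.exists_level_le_hatSubgroup p ρbar hLS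
  have hNT : N ≤ T.fixingSubgroup := fun g hg =>
    (hT g).2 ((Fermat.Agent.P1.helper85.mem_hatSubgroup p ρbar g).1 (hNhat hg))
  obtain ⟨T₁, hT₁fin, hT₁U⟩ := hOpen U₁ ⟨N, hN, hNT.trans hTU⟩
  haveI := hT₁fin
  have hT₁T : T₁ ≤ T :=
    Fermat.Agent.P1.helper89.FCBd.le_of_fixingSubgroup_le p T T₁ (by rw [hT₁U]; exact hTU)
  -- the matrices on `U₁`
  have hU00 : ∀ g ∈ U₁, locMat ρbar p b g 0 0 = 1 := fun g hg =>
    (triv_on_iff hb g (hstab g)).mp (hUss g hg).1
  have hU11 : ∀ g ∈ U₁, locMat ρbar p b g 1 1 = 1 := fun g hg =>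
    (triv_mod_iff hb g (hstab g)).mp (hUss g hg).2
  -- `I ∩ U₁ = I ∩ G_T̂`
  have hsub : U₁.subgroupOf (inertiaΩ p) = T.fixingSubgroup.subgroupOf (inertiaΩ p) := by
    ext i
    rw [Subgroup.mem_subgroupOf, Subgroup.mem_subgroupOf]
    constructor
    · intro hi
      rw [hT]
      exact ⟨(hUss _ hi).1, (hUss _ hi).2, fun u _ _ hui => hui i i.2⟩
    · intro hi
      exact hTU hi
  have hedegEq : edeg p T₁ = edeg p T := by
    rw [(hEdeg T₁).1, (hEdeg T).1, hT₁U]
    unfold Subgroup.relIndex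
    rw [hsub]
  have htame₁ : ¬ p ∣ edeg p T₁ := by
    rw [hedegEq]
    exact memHat_tame p ρbar hEdeg hfinL hstab T hT
  -- `ζ_p ∈ T₁`
  obtain ⟨ω, hω⟩ := exists_cyc p
  have hinj : Function.Injective (algebraMap (ZMod p) (ResidueField 𝒪)) :=
    (algebraMap (ZMod p) (ResidueField 𝒪)).injective
  have hζ₁ : ∃ ζ ∈ T₁, IsPrimitiveRoot ζ p := by
    rw [hZeta T₁]
    intro g hg ζ hζ
    rw [hT₁U] at hg
    have hdet := hLS.hdet g (ω g).val (hω g)
    rw [locMat_det_eq hb g (hstab g), hU00 g hg, hU11 g hg, one_mul,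
      ← map_natCast (algebraMap (ZMod p) (ResidueField 𝒪)), ZMod.natCast_zmod_val] at hdet
    have h2 : ω g = 1 := hinj (hdet.symm.trans (map_one _).symm)
    rw [hω g ζ hζ, h2, ZMod.val_one, pow_one]
  -- the `p`-group clause
  obtain ⟨b', bbar, hmat⟩ := htan
  have hmat' : ∀ g : GQ, LinearMap.toMatrix b' b' (ρ.ρ g) =
      tanMat (LinearMap.toMatrix bbar bbar (ρbar.ρ g))
        (LinearMap.toMatrix bbar bbar (Ad0.toEnd ρbar (c g))) := by
    intro g
    rw [hmat g, tanMat_eq_add, LinearMap.toMatrix_mul]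
  have hN2 : ∀ g ∈ U₁, (ρbar.ρ (localGaloisToGlobal p g) - 1) *
      (ρbar.ρ (localGaloisToGlobal p g) - 1) = 0 := by
    intro g hg
    refine LinearMap.ext fun x => ?_
    have h1 := (hUss g hg).2 x
    have h2 := (hUss g hg).1 _ h1
    change ρbar.ρ (localGaloisToGlobal p g) (ρbar.ρ (localGaloisToGlobal p g) x - x) -
      (ρbar.ρ (localGaloisToGlobal p g) x - x) = 0
    rw [h2, sub_self]
  have hpg : ∀ g ∈ U₁, ρ.ρ (localGaloisToGlobal p (g ^ p ^ 2)) = 1 := by
    intro g hg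
    apply (LinearMap.toMatrix b' b').injective
    rw [map_pow, map_pow, ← LinearMap.toMatrix_pow, hmat', LinearMap.toMatrix_one]
    refine memTanMat_pow_sq p hLS.hpk _ _ ?_
    have h := congrArg (LinearMap.toMatrix bbar bbar) (hN2 g hg)
    rw [LinearMap.toMatrix_mul, map_sub, LinearMap.toMatrix_one, map_zero] at h
    exact h
  -- boundedness over `T₁`
  have h1 : IsBddHom p T₁ f := by
    refine hbdd T₁ htame₁ hζ₁ ?_ ?_ f ?_ hf0
    · intro g hg
      rw [hT₁U]
      exact hker g hg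
    · intro g hg
      rw [hT₁U] at hg
      refine ⟨2, fun x => ?_⟩
      change ρ.ρ (localGaloisToGlobal p (g ^ p ^ 2)) x = x
      rw [hpg g hg]
      rfl
    · intro g hg h hh
      rw [hT₁U] at hg hh
      exact hadd g hg h hh
  exact hUnram T₁ T hT₁T hedegEq f h1

end Core

end Fermat.Agent.P1.helper30
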