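import Fermat.Agent.P1.helper30_FlatMem
import Fermat.Agent.P1.helper47_CountII
import Fermat.Agent.S55.ABasic

/-!
# P1 / FLAT-CNT (helper30): MEM-B and MEM-II2 from the core `memCore`

* `memSsKer` : the subgroup of the `g ∈ G_p` acting trivially on `ramLine` and on `V / ramLine`;
* `memB : MemBStatement p`;
* `memII : MemII2Statement p`.
-/

set_option autoImplicit false
set_option linter.style.haveILetI false
set_option linter.unusedSectionVars false

open IsLocalRing ExtCitation groupCohomology Polynomial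

noncomputable section

namespace Fermat.Agent.P1.helper30

open Fermat.Agent.S55 Fermat.Agent.P1.helper70
open Fermat.Agent.S55.helper8 Fermat.Agent.S55.helper7
open Fermat.Agent.P1.helper56 Fermat.Agent.S53.helper56 Fermat.Agent.P1.helper11
open Fermat.Agent.P1.helper93

section SsKer

variable (p : ℕ) [Fact p.Prime] {k : Type} [Field k] (ρbar : ResidualGaloisRep k)

lemma memRho_inv_apply (g : Gp p) (x : ρbar.V) :
    ρbar.ρ (localGaloisToGlobal p g⁻¹) (ρbar.ρ (localGaloisToGlobal p g) x) = x := by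
  have h := map_mul ρbar.ρ (localGaloisToGlobal p g⁻¹) (localGaloisToGlobal p g)
  rw [← map_mul, inv_mul_cancel, map_one, map_one] at h
  have h2 := congrArg (fun φ : Module.End k ρbar.V => φ x) h
  exact h2.symm

lemma memRho_apply_inv (g : Gp p) (x : ρbar.V) :
    ρbar.ρ (localGaloisToGlobal p g) (ρbar.ρ (localGaloisToGlobal p g⁻¹) x) = x := by
  have h := memRho_inv_apply p ρbar g⁻¹ x
  rwa [inv_inv] at h

/-- The subgroup of the `g ∈ G_p` acting trivially on `ramLine` and on `V / ramLine`. -/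
def memSsKer : Subgroup (Gp p) where
  carrier := {g | (∀ x ∈ ramLine p ρbar, ρbar.ρ (localGaloisToGlobal p g) x = x) ∧
    ∀ x : ρbar.V, ρbar.ρ (localGaloisToGlobal p g) x - x ∈ ramLine p ρbar}
  one_mem' := by
    refine ⟨fun x _ => ?_, fun x => ?_⟩
    · rw [map_one, map_one]; rfl
    · rw [map_one, map_one]
      change x - x ∈ _
      rw [sub_self]
      exact Submodule.zero_mem _
  mul_mem' := by
    rintro g h ⟨hg1, hg2⟩ ⟨hh1, hh2⟩
    refine ⟨fun x hx => ?_, fun x => ?_⟩
    · rw [map_mul, map_mul]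
      change ρbar.ρ (localGaloisToGlobal p g) (ρbar.ρ (localGaloisToGlobal p h) x) = x
      rw [hh1 x hx, hg1 x hx]
    · have e : ρbar.ρ (localGaloisToGlobal p (g * h)) x - x =
          (ρbar.ρ (localGaloisToGlobal p g) (ρbar.ρ (localGaloisToGlobal p h) x) -
            ρbar.ρ (localGaloisToGlobal p h) x) +
          (ρbar.ρ (localGaloisToGlobal p h) x - x) := by
        rw [map_mul, map_mul]
        change ρbar.ρ (localGaloisToGlobal p g) (ρbar.ρ (localGaloisToGlobal p h) x) - x = _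
        abel
      rw [e]
      exact Submodule.add_mem _ (hg2 _) (hh2 x)
  inv_mem' := by
    rintro g ⟨hg1, hg2⟩
    refine ⟨fun x hx => ?_, fun x => ?_⟩
    · have h := memRho_inv_apply p ρbar g x
      rwa [hg1 x hx] at h
    · have h := hg2 (ρbar.ρ (localGaloisToGlobal p g⁻¹) x)
      rw [memRho_apply_inv] at h
      have e : ρbar.ρ (localGaloisToGlobal p g⁻¹) x - x =
          -(x - ρbar.ρ (localGaloisToGlobal p g⁻¹) x) := by abel
      rw [e]
      exact Submodule.neg_mem _ h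

lemma mem_memSsKer (g : Gp p) : g ∈ memSsKer p ρbar ↔
    (∀ x ∈ ramLine p ρbar, ρbar.ρ (localGaloisToGlobal p g) x = x) ∧
    ∀ x : ρbar.V, ρbar.ρ (localGaloisToGlobal p g) x - x ∈ ramLine p ρbar := Iff.rfl

/-- The elements of `memSsKer` act trivially on `W = nilSub ramLine`. -/
lemma memSsKer_ad0Hom (g : Gp p) (hg : g ∈ memSsKer p ρbar) (y : Ad0 ρbar)
    (hy : y ∈ helper7.nilSub ρbar (ramLine p ρbar)) :
    ad0Hom ρbar (localGaloisToGlobal p g) y = y := by
  apply Ad0.toEnd_injective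
  refine LinearMap.ext fun w => ?_
  rw [toEnd_ad0Hom]
  obtain ⟨hy1, hy2⟩ := (Fermat.Agent.P1.helper7.mem_nilSub ρbar).mp hy
  have hginv : g⁻¹ ∈ memSsKer p ρbar := inv_mem hg
  change ρbar.ρ (localGaloisToGlobal p g)
    (Ad0.toEnd ρbar y (ρbar.ρ (localGaloisToGlobal p g)⁻¹ w)) = Ad0.toEnd ρbar y w
  rw [← map_inv (localGaloisToGlobal p) g]
  have h1 : Ad0.toEnd ρbar y (ρbar.ρ (localGaloisToGlobal p g⁻¹) w) = Ad0.toEnd ρbar y w := by
    have h2 := hy2 _ (hginv.2 w)
    rw [map_sub, sub_eq_zero] at h2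
    exact h2
  rw [h1]
  exact hg.1 _ (hy1 w)

/-- An element acting trivially on `V` acts trivially on `ad⁰`. -/
lemma memAd_eq_of_one (G : GQ) (hG : ρbar.ρ G = 1) (x : Ad0 ρbar) : ad0Hom ρbar G x = x := by
  apply Ad0.toEnd_injective
  have hinv : ρbar.ρ G⁻¹ = 1 := by
    have h := map_mul ρbar.ρ G⁻¹ G
    rw [inv_mul_cancel, map_one, hG, mul_one] at h
    exact h.symm
  rw [toEnd_ad0Hom, hinv, hG, one_mul, mul_one]

end SsKer

section Main

variable (p : ℕ) [Fact p.Prime]
variable {𝒪 : Type} [CommRing 𝒪] [IsLocalRing 𝒪] [Finite (ResidueField 𝒪)]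
  (ρbar : ResidualGaloisRep (ResidueField 𝒪)) [Algebra (ZMod p) (ResidueField 𝒪)]

/-- The kernel of a tangent lift. -/
lemma memTan_key (ρ : GaloisRepAdic (DualNumber (ResidueField 𝒪))) (c : GQ → Ad0 ρbar)
    (htan : IsTanLift ρbar ρ c) (G : GQ) (hG : ρ.ρ G = 1) : ρbar.ρ G = 1 ∧ c G = 0 := by
  obtain ⟨b, bbar, hmat⟩ := htan
  have h1 : LinearMap.toMatrix b b (ρ.ρ G) =
      tanMat (LinearMap.toMatrix bbar bbar (ρbar.ρ G))
        (LinearMap.toMatrix bbar bbar (Ad0.toEnd ρbar (c G))) := by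
    rw [hmat G, tanMat_eq_add, LinearMap.toMatrix_mul]
  rw [hG, LinearMap.toMatrix_one] at h1
  obtain ⟨h2, h3⟩ := (tanMat_eq_one_iff _ _).mp h1.symm
  constructor
  · apply (LinearMap.toMatrix bbar bbar).injective
    rw [h2, LinearMap.toMatrix_one]
  · apply Ad0.toEnd_injective
    apply (LinearMap.toMatrix bbar bbar).injective
    rw [h3, map_zero, map_zero]

/-- **MEM-B**. -/
theorem memB : MemBStatement p := by
  intro hOpen hEdeg hZeta hUnram 𝒪 _ _ _ ρbar _ hLS hfinL hstab T _ hT ρ c htan hbdd X hX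
  have hstab' : ∀ g : Gp p, ∀ w ∈ ramLine p ρbar,
      ρbar.ρ (localGaloisToGlobal p g)⁻¹ w ∈ ramLine p ρbar := by
    intro g w hw
    rw [← map_inv]
    exact hstab g⁻¹ w hw
  have hnil : ∀ g : Gp p, ad0Hom ρbar (localGaloisToGlobal p g) X - X ∈
      helper7.nilSub ρbar (ramLine p ρbar) := fun g =>
    Fermat.Agent.P1.helper47.ad0Hom_sub_mem_nilSub ρbar hfinL _ (hstab g) (hstab' g) X hX
  have hsm : IsSmooth (locLevels (pPrime p)) (locM ρbar p) :=
    helper7.isSmooth_loc_ad0Rep ρbar p (pPrime p)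
  refine ⟨B1_le_Z1 hsm ⟨X, rfl⟩,
    fun g => Fermat.Agent.P1.helper47.nilSub_le_borelSub ρbar _ (hnil g),
    fun g _ => hnil g, fun ℓ => ?_⟩
  refine memCore p ρbar hOpen hEdeg hZeta hUnram hLS hfinL hstab T hT ρ c htan hbdd
    (memSsKer p ρbar) ?_ (fun g hg => hg) ?_ _ ?_ ?_
  · intro g hg
    obtain ⟨h1, h2, -⟩ := (hT g).mp hg
    exact ⟨h1, h2⟩
  · intro g hg
    have h1 := (memTan_key ρbar ρ c htan _ (LinearMap.ext hg)).1
    refine ⟨fun x _ => ?_, fun x => ?_⟩
    · rw [h1]; rfl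
    · rw [h1]
      change x - x ∈ _
      rw [sub_self]
      exact Submodule.zero_mem _
  · intro g hg h _
    change ℓ (ad0Hom ρbar (localGaloisToGlobal p (g * h)) X - X) =
      ℓ (ad0Hom ρbar (localGaloisToGlobal p g) X - X) +
        ℓ (ad0Hom ρbar (localGaloisToGlobal p h) X - X)
    rw [← map_add]
    congr 1
    have e : ad0Hom ρbar (localGaloisToGlobal p (g * h)) X - X =
        ad0Hom ρbar (localGaloisToGlobal p g) (ad0Hom ρbar (localGaloisToGlobal p h) X - X) +
          (ad0Hom ρbar (localGaloisToGlobal p g) X - X) := by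
      rw [map_mul, map_mul, map_sub]
      change ad0Hom ρbar (localGaloisToGlobal p g) (ad0Hom ρbar (localGaloisToGlobal p h) X) - X
        = _
      abel
    rw [e, memSsKer_ad0Hom p ρbar g hg _ (hnil h)]
    abel
  · intro g hg
    have h1 := (memTan_key ρbar ρ c htan _ (LinearMap.ext hg)).1
    change ℓ (ad0Hom ρbar (localGaloisToGlobal p g) X - X) = 0
    rw [memAd_eq_of_one ρbar _ h1, sub_self, map_zero]

end Main

end Fermat.Agent.P1.helper30
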