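import Fermat.Agent.P1.helper91_TWSelDefs
import Fermat.Agent.S55.helper97_KumGFinal
import Fermat.Agent.S55.ShArith

/-!
# P1 (S56), package TW-SEL-FIN (helper30, task 556): finiteness of `Z¹(G_{ℚ,S}, M')`

* `finite_Z1_of_restrict` : ABSTRACT finiteness: if `U` is an open subgroup of finite index acting
  trivially on the finite module `A`, and the level homomorphisms `U → k` form a finite set, then
  the level 1-cocycles of `G` with values in `A` form a finite set
  (`c ↦ (λ ∘ c|U)_λ, (c(g_x))_{x ∈ G/U}` is injective);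
* `finite_Z1_sLevels` : `Z¹(G_{F,S}, ℤ/p)` is finite for `F ∋ ζ_p` unramified outside `S ∋ p`
  (from the Kummer count `helper97.card_Z1_glob_primesOverS`);
* `finStatement` : `helper91.FinStatement p`, VERBATIM.
-/

set_option autoImplicit false
set_option linter.style.haveILetI false

open groupCohomology ExtCitation

noncomputable section

namespace Fermat.Agent.P1.helper30

open Fermat.Agent.S55 Fermat.Agent.S55.helper35

/-! ## Abstract finiteness -/

section Abstract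

variable {k G : Type} [Field k] [Group G] (𝒩 : Levels G) (A : Rep.{0} k G)
  (U : Subgroup G) (hU : ∃ N ∈ 𝒩.mem, N ≤ U)

/-- the cocycle relation -/
theorem z1_mul {c : G → A} (hc : c ∈ Z1 𝒩 A) (g h : G) : c (g * h) = c g + A.ρ g (c h) := by
  have h1 : (d₁₂ A).hom c (g, h) = 0 := by
    rw [LinearMap.mem_ker.1 hc.2]
    rfl
  rw [d₁₂_hom_apply] at h1
  have h2 : A.ρ g (c h) - c (g * h) + c g = 0 := h1
  have h3 : c (g * h) = A.ρ g (c h) + c g := by
    rw [sub_add_eq_add_sub, sub_eq_zero] at h2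
    exact h2.symm
  rw [h3, add_comm]

/-- a linear functional of the restriction to `U` of a level cocycle is a level homomorphism -/
theorem dual_comp_restrict_mem_Z1 (htriv : ∀ u ∈ U, ∀ a : A, A.ρ u a = a)
    {c : G → A} (hc : c ∈ Z1 𝒩 A) (l : A →ₗ[k] k) :
    (fun u : ↥U => l (c (u : G))) ∈ Z1 (restrictLevels 𝒩 U hU) (Rep.trivial k ↥U k) := by
  refine ⟨?_, ?_⟩
  · obtain ⟨N, hN, hlev⟩ := hc.1
    obtain ⟨N₀, hN₀, hN₀U⟩ := hU
    obtain ⟨N', hN', hle⟩ := 𝒩.directed N hN N₀ hN₀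
    refine ⟨N'.subgroupOf U, ⟨N', hN', fun x hx => hN₀U (hle hx).2, rfl⟩, ?_⟩
    intro g s hs
    change l (c ((g : G) * (s : G))) = l (c (g : G))
    rw [hlev (g : G) (s : G) (hle hs).1]
  · refine LinearMap.mem_ker.2 ?_
    funext ⟨u, u'⟩
    rw [d₁₂_hom_apply]
    change l (c (u' : G)) - l (c ((u : G) * (u' : G))) + l (c (u : G)) = 0
    rw [z1_mul 𝒩 A hc, htriv (u : G) u.2, map_add]
    ring

/-- ABSTRACT FINITENESS of level 1-cocycles. -/
theorem finite_Z1_of_restrict [Finite k] [Module.Finite k A] [Finite (G ⧸ U)]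
    (htriv : ∀ u ∈ U, ∀ a : A, A.ρ u a = a)
    (hfin : Finite ↥(Z1 (restrictLevels 𝒩 U hU) (Rep.trivial k ↥U k))) :
    Finite ↥(Z1 𝒩 A) := by
  classical
  haveI : Finite A := Module.finite_of_finite k
  haveI : Finite (A →ₗ[k] k) := Finite.of_injective (fun l : A →ₗ[k] k => (l : A → k))
    DFunLike.coe_injective
  let Φ : ↥(Z1 𝒩 A) → ((A →ₗ[k] k) → ↥(Z1 (restrictLevels 𝒩 U hU) (Rep.trivial k ↥U k))) ×
      ((G ⧸ U) → A) :=
    fun c => (fun l => ⟨fun u : ↥U => l (c.1 (u : G)),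
      dual_comp_restrict_mem_Z1 𝒩 A U hU htriv c.2 l⟩, fun x => c.1 x.out)
  refine Finite.of_injective Φ ?_
  intro c c' h
  have h1 : ∀ (l : A →ₗ[k] k) (u : ↥U), l (c.1 (u : G)) = l (c'.1 (u : G)) := by
    intro l u
    have := congrFun (congrArg Prod.fst h) l
    exact congrFun (congrArg Subtype.val this) u
  have h2 : ∀ x : G ⧸ U, c.1 x.out = c'.1 x.out := fun x => congrFun (congrArg Prod.snd h) x
  have h3 : ∀ u : ↥U, c.1 (u : G) = c'.1 (u : G) := by
    intro u
    rw [← sub_eq_zero, ← Module.forall_dual_apply_eq_zero_iff k]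
    intro l
    rw [map_sub, sub_eq_zero]
    exact h1 l u
  apply Subtype.ext
  funext g
  have hg : (QuotientGroup.mk g : G ⧸ U).out⁻¹ * g ∈ U :=
    QuotientGroup.eq.1 (QuotientGroup.out_eq' _)
  have e : g = (QuotientGroup.mk g : G ⧸ U).out * ((QuotientGroup.mk g : G ⧸ U).out⁻¹ * g) := by
    rw [mul_inv_cancel_left]
  rw [e, z1_mul 𝒩 A c.2, z1_mul 𝒩 A c'.2, h2, h3 ⟨_, hg⟩]

end Abstract

/-! ## The arithmetic input -/

section Arith

variable {p : ℕ} [Fact p.Prime] {S : Finset Nat.Primes}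

/-- `Z¹(G_{F,S}, ℤ/p)` is finite (Kummer theory: `helper97.card_Z1_glob_primesOverS`). -/
theorem finite_Z1_sLevels (hp2 : p ≠ 2) (hpS : pPrime p ∈ S)
    (F : IntermediateField ℚ (AlgebraicClosure ℚ)) (hF : F.IsUnramifiedOutside S)
    (hU : ∃ N ∈ (galLevels S).mem, N ≤ F.fixingSubgroup)
    (hχ : ∀ g ∈ F.fixingSubgroup, cycloChar p g = 1) :
    Finite ↥(Z1 (restrictLevels (galLevels S) F.fixingSubgroup hU)
      (Rep.trivial (ZMod p) ↥F.fixingSubgroup (ZMod p))) := by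
  have hp : p.Prime := Fact.out
  haveI : FiniteDimensional ℚ F := hF.1
  haveI : NumberField ↥F := ⟨⟩
  obtain ⟨ζ, hζ, hζF⟩ := hasZeta_of_cycloChar_eq_one F p hχ
  have hζ' : IsPrimitiveRoot (⟨ζ, hζF⟩ : ↥F) p :=
    IsPrimitiveRoot.of_map_of_injective (f := F.val) hζ F.val.injective
  obtain ⟨u, hu⟩ := hζ'.isUnit hp.ne_zero
  have hu' : IsPrimitiveRoot u p := by
    rw [← IsPrimitiveRoot.coe_units_iff, hu]
    exact hζ'
  have hcard := helper97.card_Z1_glob_primesOverS (p := p) (S := S) (F := F)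
    (𝒩 := restrictLevels (galLevels S) F.fixingSubgroup hU) hp2 hpS hF
    (restrictLevels_mem_eq_sLevels S F hU) u hu'
  refine Nat.finite_of_card_ne_zero ?_
  rw [hcard]
  refine mul_ne_zero (pow_ne_zero _ hp.ne_zero) ?_
  haveI : Finite (helper75.ClSModP (↥F) p S) := inferInstance
  exact Nat.card_pos.ne'

end Arith

/-! ## The statement -/

/-- **TW-SEL-FIN**: `Z¹(G_{ℚ,Smin}, M')` is a finite module for every finite smooth `M'`. -/
theorem finStatement (p : ℕ) [Fact p.Prime] : helper91.FinStatement p := by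
  intro hp2 Smin hpS M' hM' hsmooth
  obtain ⟨hfin, N₁, hN₁, hχN₁⟩ := helper92.levelStatement p Smin hpS
  obtain ⟨N₀, hN₀, htriv₀⟩ := hsmooth
  obtain ⟨N, hN, hle⟩ := (galLevels Smin).directed N₀ hN₀ N₁ hN₁
  obtain ⟨hNn, F, hF, rfl⟩ := hN
  have hNmem : F.fixingSubgroup ∈ (galLevels Smin).mem := ⟨hNn, F, hF, rfl⟩
  have hU : ∃ N ∈ (galLevels Smin).mem, N ≤ F.fixingSubgroup := ⟨_, hNmem, le_rfl⟩
  haveI : Finite (GQ ⧸ F.fixingSubgroup) := hfin _ hNmem
  haveI := hM'
  have hZ := finite_Z1_sLevels hp2 hpS F hF hU (fun g hg => hχN₁ g (hle hg).2)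
  haveI : Finite ↥(Z1 (galLevels Smin) M') :=
    finite_Z1_of_restrict (galLevels Smin) M' F.fixingSubgroup hU
      (fun u hu a => htriv₀ u (hle hu).1 a) hZ
  exact Module.Finite.of_finite

end Fermat.Agent.P1.helper30
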