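import Fermat.Agent.P1.helper63_ECDefs2
import Fermat.Agent.S55.helper92_SmoothLevel

/-!
# P1 / module EC, package EC-TATE-ASM (helper31, task 739)

Tate's global Euler characteristic formula `TateOut p T` from additivity of the Tate defect
(`AddOut`), the base case (`BaseOut`) and the dévissage to cyclic `p'`-groups (package EC-DEV,
which enters as the explicit hypothesis `DevOut p T`: the statement `devissage_cyclic` of the
interface for `G = G_ℚ`, `𝒩 = galLevels T`).

* `DevOut p T` : the output of EC-DEV at `(G_ℚ, galLevels T)`;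
* `tateOut_of_dev` : `DevOut p T → AddOut p T → BaseOut p T → TateOut p T`;
* `exists_level_trivial` : a smooth module and the cyclotomic character are trivial on a common
  level of finite index.
-/

set_option autoImplicit false

open groupCohomology ExtCitation

noncomputable section

namespace Fermat.Agent.P1.helper31

open Fermat.Agent.S55 Fermat.Agent.P1.helper70 Fermat.Agent.P1.helper63

variable (p : ℕ) [Fact p.Prime] (T : Finset Nat.Primes)

/-- The output of package **EC-DEV** (`devissage_cyclic` of the interface) for `G = G_ℚ` and the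
levels `galLevels T`. -/
def DevOut : Prop :=
  ∀ (N₀ : Subgroup GQ) (_ : N₀ ∈ (galLevels T).mem) [Finite (GQ ⧸ N₀)]
    (g : Rep.{0} (ZMod p) GQ → ℤ) (_ : IsAddInv (galLevels T) g)
    (_ : ∀ C : Subgroup GQ, N₀ ≤ C → IsCyclicMod C N₀ →
      ∀ Y : Rep.{0} (ZMod p) ↥C, Module.Finite (ZMod p) Y →
        (∀ u : ↥C, (∃ m : ℕ, (u : GQ) ^ p ^ m ∈ N₀) → ∀ y : Y, Y.ρ u y = y) →
        g (indRep Y) = 0),
    ∀ N : Rep.{0} (ZMod p) GQ, Module.Finite (ZMod p) N →
      (∀ s ∈ N₀, ∀ a : N, N.ρ s a = a) → g N = 0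

variable {p T}

/-- A smooth module and the mod `p` cyclotomic character are trivial on a common level, which has
finite index. -/
theorem exists_level_trivial (hpT : pPrime p ∈ T) (N : Rep.{0} (ZMod p) GQ)
    (hsm : IsSmooth (galLevels T) N) :
    ∃ N₀ ∈ (galLevels T).mem, Finite (GQ ⧸ N₀) ∧ (∀ g ∈ N₀, cycloChar p g = 1) ∧
      ∀ s ∈ N₀, ∀ a : N, N.ρ s a = a := by
  obtain ⟨hfinL, N₁, hN₁, hχ⟩ := Fermat.Agent.S55.helper92.levelStatement p T hpT
  obtain ⟨N₂, hN₂, htriv⟩ := hsm
  obtain ⟨N₀, hN₀, hle⟩ := (galLevels T).directed N₁ hN₁ N₂ hN₂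
  exact ⟨N₀, hN₀, hfinL N₀ hN₀, fun g hg => hχ g (hle hg).1, fun s hs a => htriv s (hle hs).2 a⟩

/-- **EC-TATE-ASM**: Tate's formula from additivity, the dévissage and the base case. -/
theorem tateOut_of_dev (hpT : pPrime p ∈ T) (hDev : DevOut p T) (hA : AddOut p T)
    (hbase : BaseOut p T) : TateOut p T := by
  intro N hfin hsm
  obtain ⟨N₀, hN₀, hfinN₀, hχ, htriv⟩ := exists_level_trivial hpT N hsm
  haveI := hfinN₀
  exact hDev N₀ hN₀ (tateDefect p T) hA
    (fun C hC hcyc Y hY hYp => hbase N₀ hN₀ hχ C hC hcyc Y hY hYp) N hfin htriv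

end Fermat.Agent.P1.helper31
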