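import Fermat.Agent.P1.helper70_Interface2
import Fermat.Agent.S55.helper57_Devissage

/-!
# P1 / module EC (helper63, sub-coordinator): shared definitions

Module EC proves the global Euler characteristic inequality `helper70.ECOut`.  Standing notation:
`k = ZMod p`, `T : Finset Nat.Primes` a finite set of primes containing `p`, cohomology = the
level-constant cochain cohomology of S55 (`H0`, `H1`, `H2`, `H3` for `galLevels T`).

* `hd0`, `hd1`, `hd2`     : dimensions of `H⁰`, `H¹`, `H²`;
* `IsoInv`, `ExtAdd`, `ExtSuperAdd` : an integer invariant of finite smooth modules is invariant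
                            under isomorphisms / additive / superadditive on short exact sequences
                            (hypotheses in the shape of `helper57.ExtClosed`);
* `tateDefect p T N`      : `h¹ - h² - h⁰ - dim N + dim N^{c = 1}` (Tate: it is `0`);
* `gwDefect p T N`        : the same number in Greenberg-Wiles form (only `H¹`, `Ш¹`, `H⁰`);
* module outputs as `Prop`s: `FinOut`, `H3Out`, `AddOut`, `PTEndOut`, `ArchOut`, `TateOut`,
                            `ECGenOut`.

DEFINITIONS ONLY.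
-/

set_option autoImplicit false

open groupCohomology ExtCitation

noncomputable section

namespace Fermat.Agent.P1.helper63

open Fermat.Agent.S55 Fermat.Agent.P1.helper70

/-! ## Dimensions (abstract setting) -/

section Abstract

variable {k G : Type} [Field k] [Group G] (𝒩 : Levels G)

/-- `h⁰(A) = dim H⁰(A)` -/
def hd0 (A : Rep.{0} k G) : ℕ := Module.finrank k ↥(S55.H0 A)

/-- `h¹(A) = dim H¹(A)` (level-constant cochains) -/
def hd1 (A : Rep.{0} k G) : ℕ := Module.finrank k (S55.H1 𝒩 A)

/-- `h²(A) = dim H²(A)` (level-constant cochains) -/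
def hd2 (A : Rep.{0} k G) : ℕ := Module.finrank k (S55.H2 𝒩 A)

/-- `g` is invariant under isomorphisms of finite dimensional smooth representations. -/
def IsoInv (g : Rep.{0} k G → ℤ) : Prop :=
  ∀ (A B : Rep.{0} k G) (e : A →ₗ[k] B), (∀ s a, e (A.ρ s a) = B.ρ s (e a)) →
    Function.Bijective e → Module.Finite k A → IsSmooth 𝒩 A → g A = g B

/-- `g` is additive on short exact sequences of finite dimensional smooth representations. -/
def ExtAdd (g : Rep.{0} k G → ℤ) : Prop :=
  ∀ (A₁ A A₂ : Rep.{0} k G) (i : A₁ →ₗ[k] A) (q : A →ₗ[k] A₂),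
    (∀ s a, i (A₁.ρ s a) = A.ρ s (i a)) → (∀ s a, q (A.ρ s a) = A₂.ρ s (q a)) →
    Function.Injective i → Function.Surjective q → LinearMap.range i = LinearMap.ker q →
    Module.Finite k A → IsSmooth 𝒩 A → g A = g A₁ + g A₂

/-- `g` is superadditive on short exact sequences of finite dimensional smooth
representations. -/
def ExtSuperAdd (g : Rep.{0} k G → ℤ) : Prop :=
  ∀ (A₁ A A₂ : Rep.{0} k G) (i : A₁ →ₗ[k] A) (q : A →ₗ[k] A₂),
    (∀ s a, i (A₁.ρ s a) = A.ρ s (i a)) → (∀ s a, q (A.ρ s a) = A₂.ρ s (q a)) →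
    Function.Injective i → Function.Surjective q → LinearMap.range i = LinearMap.ker q →
    Module.Finite k A → IsSmooth 𝒩 A → g A₁ + g A₂ ≤ g A

/-- An additive invariant: invariant under isomorphisms and additive on short exact sequences. -/
structure IsAddInv (g : Rep.{0} k G → ℤ) : Prop where
  iso : IsoInv 𝒩 g
  add : ExtAdd 𝒩 g

/-- The module induced from the subgroup `U` (S55 realisation `helper57.indRepn` on
`G ⧸ U → W`). -/
def indRep {U : Subgroup G} (W : Rep.{0} k ↥U) : Rep.{0} k G := Rep.of (helper57.indRepn W.ρ)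

end Abstract

/-! ## The arithmetic invariants -/

section Arith

variable (p : ℕ) [Fact p.Prime] (T : Finset Nat.Primes)

/-- `N' = N^*(1)` -/
abbrev dualT (N : Rep.{0} (ZMod p) GQ) : Rep.{0} (ZMod p) GQ := N.dualTwist (cycloChar p)

/-- `dim Ш¹_T(N)` -/
def sha1d (N : Rep.{0} (ZMod p) GQ) : ℕ := Module.finrank (ZMod p) ↥(Sha1 (galLocal T) N)

/-- `∑_{v ∈ T} h⁰(G_v, N)` -/
def locH0d (N : Rep.{0} (ZMod p) GQ) : ℕ :=
  ∑ v : ↥T, Module.finrank (ZMod p) ↥(S55.H0 ((galLocal T).loc N v))

/-- `h⁰(ℝ, N) = dim N^{c = 1}` -/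
def realH0d (N : Rep.{0} (ZMod p) GQ) : ℕ := Module.finrank (ZMod p) ↥(realH0 N)

/-- The Tate defect `h¹ - h² - h⁰ - dim N + h⁰(ℝ, N)`; Tate's global Euler characteristic
formula says that it vanishes. -/
def tateDefect (N : Rep.{0} (ZMod p) GQ) : ℤ :=
  (hd1 (galLevels T) N : ℤ) - hd2 (galLevels T) N - hd0 N - Module.finrank (ZMod p) N
    + realH0d p N

/-- The Tate defect in Greenberg-Wiles form:
`h¹(N) - dim Ш¹(N') - ∑_v h⁰(G_v, N') + h⁰(N') - h⁰(N) - dim N + h⁰(ℝ, N)`. -/
def gwDefect (N : Rep.{0} (ZMod p) GQ) : ℤ :=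
  (hd1 (galLevels T) N : ℤ) - sha1d p T (dualT p N) - locH0d p T (dualT p N)
    + hd0 (dualT p N) - hd0 N - Module.finrank (ZMod p) N + realH0d p N

/-! ## Module outputs -/

/-- EC-FIN: `H¹` and `H²` of finite smooth modules are finite dimensional. -/
def FinOut : Prop :=
  ∀ N : Rep.{0} (ZMod p) GQ, Module.Finite (ZMod p) N → IsSmooth (galLevels T) N →
    Module.Finite (ZMod p) (S55.H1 (galLevels T) N) ∧
      Module.Finite (ZMod p) (S55.H2 (galLevels T) N)

/-- EC-H3: `H³(G_T, N) = 0` for finite smooth modules. -/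
def H3Out : Prop :=
  ∀ N : Rep.{0} (ZMod p) GQ, Module.Finite (ZMod p) N → IsSmooth (galLevels T) N →
    Z3 (galLevels T) N ≤ B3 (galLevels T) N

/-- EC-ADD: the Tate defect is an additive invariant. -/
def AddOut : Prop := IsAddInv (galLevels T) (tateDefect p T)

/-- EC-PTEND: the end of the Poitou-Tate sequence in dimension form:
`h²(N) = dim Ш¹(N') + ∑_v h⁰(G_v, N') - h⁰(N')`. -/
def PTEndOut : Prop :=
  ∀ N : Rep.{0} (ZMod p) GQ, Module.Finite (ZMod p) N → IsSmooth (galLevels T) N →
    (hd2 (galLevels T) N : ℤ) =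
      (sha1d p T (dualT p N) : ℤ) + locH0d p T (dualT p N) - hd0 (dualT p N)

/-- EC-ARCH: `h⁰(ℝ, N') = dim N - h⁰(ℝ, N)` (`p` odd). -/
def ArchOut : Prop :=
  ∀ N : Rep.{0} (ZMod p) GQ, Module.Finite (ZMod p) N →
    realH0d p (dualT p N) + realH0d p N = Module.finrank (ZMod p) N

/-- EC-TATE: Tate's global Euler characteristic formula. -/
def TateOut : Prop :=
  ∀ N : Rep.{0} (ZMod p) GQ, Module.Finite (ZMod p) N → IsSmooth (galLevels T) N →
    tateDefect p T N = 0

/-- The general form of `helper70.ECOut`, for every finite smooth module. -/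
def ECGenOut : Prop :=
  ∀ N : Rep.{0} (ZMod p) GQ, Module.Finite (ZMod p) N → IsSmooth (galLevels T) N →
    Module.Finite (ZMod p) (S55.H1 (galLevels T) N) ∧
    Module.Finite (ZMod p) (S55.H1 (galLevels T) (dualT p N)) ∧
    sha1d p T N + locH0d p T N + realH0d p N + hd0 (dualT p N) ≤
      hd1 (galLevels T) (dualT p N) + hd0 N

end Arith

end Fermat.Agent.P1.helper63
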