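/-
P1 (S56), module EC, package [EC-ART] (helper68): ARTIN INDUCTION for additive invariants -
shared definitions and the exact statements of the three sub-packages.

* `BNStatement`   : **[ART-BN]** Brauer-Nesbitt in characteristic-polynomial form: an additive
                    invariant of finite dimensional smooth representations over a FINITE field takes
                    the same value on two representations on which every group element has the same
                    characteristic polynomial;
* `PermStatement` : **[ART-PERM]** Artin induction for the trivial character on the level of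
                    `G`-sets: there are `n ≥ 1` and two finite families of subgroups `C₁ i`, `C₂ i`
                    (each generated by `N₀` and one element) such that for EVERY `x : G` the `x`-sets
                    `⨆ G ⧸ C₁ i` and `(⨆ G ⧸ C₂ i) ⊔ {1..n}` (trivial action on `{1..n}`) are
                    isomorphic;
* `ArtStatement`  : **[ART]** `n • g N + ∑ i, g (Ind_{C₂ i} Res N) = ∑ i, g (Ind_{C₁ i} Res N)`
                    for every additive invariant `g` and every finite dimensional representation `N`
                    on which `N₀` acts trivially.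

DEFINITIONS ONLY.
-/
import Fermat.Agent.P1.helper63_ECDefs

set_option autoImplicit false

open groupCohomology

noncomputable section

namespace Fermat.Agent.P1.helper68

open Fermat.Agent.S55 Fermat.Agent.P1.helper63

/-- `C` is generated by `N₀` and one element (`C / N₀` is cyclic). -/
def CycMod {G : Type} [Group G] (N₀ C : Subgroup G) : Prop :=
  ∃ c : G, C = N₀ ⊔ Subgroup.zpowers c

/-- the action of `x` on the `G`-set `Σ i, G ⧸ C i` -/
def sigAct {G : Type} [Group G] {I : Type} (C : I → Subgroup G) (x : G) :
    (Σ i, G ⧸ C i) → (Σ i, G ⧸ C i) :=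
  Sigma.map id (fun _ q => x • q)

/-- **[ART-BN]** Brauer-Nesbitt, characteristic polynomial form, for additive invariants. -/
def BNStatement : Prop :=
  ∀ (k G : Type) [Field k] [Finite k] [Group G] (𝒩 : Levels G) (g : Rep.{0} k G → ℤ),
    IsAddInv 𝒩 g → ∀ (V W : Rep.{0} k G) [Module.Finite k V] [Module.Finite k W],
      IsSmooth 𝒩 V → IsSmooth 𝒩 W →
      (∀ x : G, LinearMap.charpoly (V.ρ x) = LinearMap.charpoly (W.ρ x)) → g V = g W

/-- **[ART-PERM]** Artin induction for the trivial character, on the level of `G`-sets and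
restricted to cyclic subgroups. -/
def PermStatement : Prop :=
  ∀ (G : Type) [Group G] (N₀ : Subgroup G) [N₀.Normal] [Finite (G ⧸ N₀)],
    ∃ (n : ℕ) (I₁ I₂ : Type) (_ : Fintype I₁) (_ : Fintype I₂)
      (C₁ : I₁ → Subgroup G) (C₂ : I₂ → Subgroup G),
      0 < n ∧ (∀ i, CycMod N₀ (C₁ i)) ∧ (∀ i, CycMod N₀ (C₂ i)) ∧
      ∀ x : G, ∃ β : (Σ i, G ⧸ C₁ i) ≃ ((Σ i, G ⧸ C₂ i) ⊕ Fin n),
        ∀ ξ, β (sigAct C₁ x ξ) = Sum.map (sigAct C₂ x) id (β ξ)

/-- **[ART]** Artin induction for additive invariants of finite dimensional smooth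
representations over a finite field. -/
def ArtStatement : Prop :=
  ∀ (G : Type) [Group G] (N₀ : Subgroup G) [N₀.Normal] [Finite (G ⧸ N₀)],
    ∃ (n : ℕ) (I₁ I₂ : Type) (_ : Fintype I₁) (_ : Fintype I₂)
      (C₁ : I₁ → Subgroup G) (C₂ : I₂ → Subgroup G),
      0 < n ∧ (∀ i, CycMod N₀ (C₁ i)) ∧ (∀ i, CycMod N₀ (C₂ i)) ∧
      ∀ (k : Type) [Field k] [Finite k] (𝒩 : Levels G), N₀ ∈ 𝒩.mem →
        ∀ g : Rep.{0} k G → ℤ, IsAddInv 𝒩 g →
        ∀ N : Rep.{0} k G, Module.Finite k N → (∀ s ∈ N₀, ∀ a : N, N.ρ s a = a) →
          (n : ℤ) * g N + ∑ i, g (indRep (Rep.res (C₂ i).subtype N)) =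
            ∑ i, g (indRep (Rep.res (C₁ i).subtype N))

end Fermat.Agent.P1.helper68

end
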