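import Fermat.Agent.P1.helper63_ECDefs2
import Fermat.Agent.P1.helper68_ArtDefs

/-!
# P1 / module EC, package [EC-DEV] (helper60, task 723): dévissage to cyclic `p'`-groups

Blueprint: `origin/helper63:blueprints/P1/helper63_ECInterface.lean`, theorem `devissage_cyclic`.

* `ind_vanish`                : THE CORE (no Artin induction): for a subgroup `C ⊇ N₀` with
                                `C / N₀` cyclic, an additive invariant which vanishes on the
                                modules `Ind_C^G Y` (`Y` trivial on the elements of `p`-power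
                                order modulo `N₀`) vanishes on every `Ind_C^G W`, `W` a finite
                                dimensional `C`-module trivial on `N₀`;
* `devissage_cyclic_of_art`   : the blueprint statement `devissage_cyclic`, with the conclusion
                                of the blueprint theorem `artin_induction` (package EC-ART) as
                                the only extra hypothesis `hart`;
* `devissage_cyclic_of_artStatement` : the same from `helper68.ArtStatement`.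

Proof of the core: induction on `dim W`.  The elements of `C` of `p`-power order modulo `N₀`
form a subgroup `P` (`C / N₀` is abelian) with `P / N₀` a `p`-group; the subspace `L = W^P` is
`C`-stable, non zero if `W ≠ 0` (`helper57.exists_fixed_ne_zero_of_pQuot`), and
`0 → Ind L → Ind W → Ind (W / L) → 0` is exact.
-/

set_option autoImplicit false

open groupCohomology

noncomputable section

namespace Fermat.Agent.P1.helper60

open Fermat.Agent.S55 Fermat.Agent.P1.helper63

variable {G : Type} [Group G]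

/-! ## The subgroup of elements of `p`-power order modulo `N₀` -/

/-- In `G ⧸ N₀` the classes of two elements of `C` commute if `C / N₀` is cyclic. -/
lemma commute_mk_of_isCyclicMod {C N₀ : Subgroup G} [N₀.Normal] (hcyc : IsCyclicMod C N₀)
    {x y : G} (hx : x ∈ C) (hy : y ∈ C) :
    Commute (x : G ⧸ N₀) (y : G ⧸ N₀) := by
  obtain ⟨c, -, hc⟩ := hcyc
  obtain ⟨m, hm⟩ := hc x hx
  obtain ⟨n, hn⟩ := hc y hy
  have h1 : (x : G ⧸ N₀) = (c : G ⧸ N₀) ^ m := by
    rw [← QuotientGroup.mk_pow]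
    exact QuotientGroup.eq.2 hm
  have h2 : (y : G ⧸ N₀) = (c : G ⧸ N₀) ^ n := by
    rw [← QuotientGroup.mk_pow]
    exact QuotientGroup.eq.2 hn
  rw [h1, h2]
  exact (Commute.refl _).pow_pow m n

/-- The elements of `C` of `p`-power order modulo `N₀` (`C / N₀` cyclic). -/
def pPart (p : ℕ) {C N₀ : Subgroup G} [N₀.Normal] (hcyc : IsCyclicMod C N₀) : Subgroup G where
  carrier := {u | u ∈ C ∧ ∃ m : ℕ, u ^ p ^ m ∈ N₀}
  one_mem' := ⟨C.one_mem, 0, by simp⟩
  mul_mem' := by
    rintro u v ⟨hu, m, hm⟩ ⟨hv, n, hn⟩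
    refine ⟨C.mul_mem hu hv, m + n, ?_⟩
    rw [← QuotientGroup.eq_one_iff, QuotientGroup.mk_pow, QuotientGroup.mk_mul,
      (commute_mk_of_isCyclicMod hcyc hu hv).mul_pow]
    have h1 : (u : G ⧸ N₀) ^ p ^ m = 1 := by
      rw [← QuotientGroup.mk_pow]; exact (QuotientGroup.eq_one_iff _).2 hm
    have h2 : (v : G ⧸ N₀) ^ p ^ n = 1 := by
      rw [← QuotientGroup.mk_pow]; exact (QuotientGroup.eq_one_iff _).2 hn
    rw [pow_add, pow_mul, h1, one_pow, mul_comm (p ^ m) (p ^ n), pow_mul, h2, one_pow, mul_one]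
  inv_mem' := by
    rintro u ⟨hu, m, hm⟩
    exact ⟨C.inv_mem hu, m, by rw [inv_pow]; exact N₀.inv_mem hm⟩

lemma mem_pPart (p : ℕ) {C N₀ : Subgroup G} [N₀.Normal] (hcyc : IsCyclicMod C N₀) (u : G) :
    u ∈ pPart p hcyc ↔ u ∈ C ∧ ∃ m : ℕ, u ^ p ^ m ∈ N₀ := Iff.rfl

lemma pPart_le (p : ℕ) {C N₀ : Subgroup G} [N₀.Normal] (hcyc : IsCyclicMod C N₀) :
    pPart p hcyc ≤ C := fun _ h => h.1

/-! ## The subspace fixed by the elements of `p`-power order -/

/-- `W^P`: the vectors fixed by all elements of `C` of `p`-power order modulo `N₀`. -/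
def fixP (p : ℕ) {C : Subgroup G} (N₀ : Subgroup G) (W : Rep.{0} (ZMod p) ↥C) :
    Submodule (ZMod p) W where
  carrier := {w | ∀ u : ↥C, (∃ m : ℕ, (u : G) ^ p ^ m ∈ N₀) → W.ρ u w = w}
  add_mem' := fun {a b} ha hb u hu => by rw [map_add, ha u hu, hb u hu]
  zero_mem' := fun u _ => map_zero _
  smul_mem' := fun c a ha u hu => by rw [map_smul, ha u hu]

lemma mem_fixP (p : ℕ) {C : Subgroup G} (N₀ : Subgroup G) (W : Rep.{0} (ZMod p) ↥C) (w : W) :
    w ∈ fixP p N₀ W ↔ ∀ u : ↥C, (∃ m : ℕ, (u : G) ^ p ^ m ∈ N₀) → W.ρ u w = w := Iff.rfl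

lemma fixP_le_comap (p : ℕ) {C : Subgroup G} (N₀ : Subgroup G) [N₀.Normal]
    (W : Rep.{0} (ZMod p) ↥C) (c : ↥C) :
    fixP p N₀ W ≤ (fixP p N₀ W).comap (W.ρ c) := by
  intro w hw u hu
  obtain ⟨m, hm⟩ := hu
  have hconj : ∃ m : ℕ, ((c⁻¹ * u * c : ↥C) : G) ^ p ^ m ∈ N₀ := by
    refine ⟨m, ?_⟩
    have h := (inferInstance : N₀.Normal).conj_mem _ hm (c : G)⁻¹
    have e : ((c⁻¹ * u * c : ↥C) : G) ^ p ^ m = (c : G)⁻¹ * (u : G) ^ p ^ m * ((c : G)⁻¹)⁻¹ := by
      rw [← conj_pow]
      simp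
    rw [e]
    exact h
  have h1 := hw (c⁻¹ * u * c) hconj
  have h2 : W.ρ u (W.ρ c w) = W.ρ c (W.ρ (c⁻¹ * u * c) w) := by
    rw [← Module.End.mul_apply, ← Module.End.mul_apply, ← map_mul, ← map_mul]
    congr 2
    group
  rw [h2, h1]

/-! ## The core -/

/-- **EC-DEV, core**: for `C ⊇ N₀` with `C / N₀` cyclic, an additive invariant which vanishes on
the modules `Ind_C^G Y`, `Y` trivial on the elements of `p`-power order modulo `N₀`, vanishes on
`Ind_C^G W` for every finite dimensional `C`-module `W` on which `N₀` acts trivially. -/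
theorem ind_vanish (𝒩 : Levels G) (p : ℕ) [Fact p.Prime] (N₀ : Subgroup G)
    (hN₀ : N₀ ∈ 𝒩.mem) [Finite (G ⧸ N₀)]
    (g : Rep.{0} (ZMod p) G → ℤ) (hg : IsAddInv 𝒩 g)
    (C : Subgroup G) (hC : N₀ ≤ C) (hcyc : IsCyclicMod C N₀)
    (hbase : ∀ Y : Rep.{0} (ZMod p) ↥C, Module.Finite (ZMod p) Y →
        (∀ u : ↥C, (∃ m : ℕ, (u : G) ^ p ^ m ∈ N₀) → ∀ y : Y, Y.ρ u y = y) →
        g (indRep Y) = 0)
    (W : Rep.{0} (ZMod p) ↥C) (hfin : Module.Finite (ZMod p) W)
    (htriv : ∀ u : ↥C, (u : G) ∈ N₀ → ∀ w : W, W.ρ u w = w) :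
    g (indRep W) = 0 := by
  haveI : N₀.Normal := 𝒩.normal N₀ hN₀
  haveI : N₀.FiniteIndex := Subgroup.finiteIndex_of_finite_quotient
  haveI : C.FiniteIndex := Subgroup.finiteIndex_of_le hC
  haveI : Finite (G ⧸ C) := Subgroup.finite_quotient_of_finiteIndex
  -- strong induction on the dimension
  suffices H : ∀ (n : ℕ) (W : Rep.{0} (ZMod p) ↥C), Module.Finite (ZMod p) W →
      Module.finrank (ZMod p) W = n →
      (∀ u : ↥C, (u : G) ∈ N₀ → ∀ w : W, W.ρ u w = w) → g (indRep W) = 0 from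
    H _ W hfin rfl htriv
  intro n
  induction n using Nat.strong_induction_on with
  | _ n ih =>
    intro W hfin hn htriv
    haveI := hfin
    set L : Submodule (ZMod p) W := fixP p N₀ W with hLdef
    by_cases hL : L = ⊤
    · refine hbase W hfin fun u hu y => ?_
      have hy : y ∈ L := hL ▸ Submodule.mem_top
      exact hy u hu
    · -- a non zero fixed vector
      obtain ⟨w₀, hw₀⟩ : ∃ w₀ : W, w₀ ∉ L := by
        by_contra hcon
        apply hL
        rw [eq_top_iff]
        intro w _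
        by_contra hw
        exact hcon ⟨w, hw⟩
      have hw₀0 : w₀ ≠ 0 := fun h => hw₀ (h ▸ L.zero_mem)
      let τ : Representation (ZMod p) ↥(pPart p hcyc) W :=
        W.ρ.comp (Subgroup.inclusion (pPart_le p hcyc))
      obtain ⟨w₁, hw₁0, hw₁⟩ := helper57.exists_fixed_ne_zero_of_pQuot (p := p) (k := ZMod p)
        (N₀ := N₀) (U := pPart p hcyc) (fun u hu => hu.2) τ
        (fun u hu w => htriv (Subgroup.inclusion (pPart_le p hcyc) u) hu w) hw₀0
      have hw₁L : w₁ ∈ L := by
        intro u hu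
        exact hw₁ ⟨(u : G), u.2, hu⟩
      have hLbot : L ≠ ⊥ := fun h => hw₁0 ((Submodule.eq_bot_iff L).1 h w₁ hw₁L)
      have hstab : ∀ c : ↥C, L ≤ L.comap (W.ρ c) := fixP_le_comap p N₀ W
      -- the three modules
      let W₁ : Rep.{0} (ZMod p) ↥C := Rep.of (W.ρ.subrepresentation L hstab)
      let W₂ : Rep.{0} (ZMod p) ↥C := Rep.of (W.ρ.quotient L hstab)
      let i : (indRep W₁) →ₗ[ZMod p] (indRep W) := L.subtype.compLeft (G ⧸ C)
      let q : (indRep W) →ₗ[ZMod p] (indRep W₂) := helper57.indQuot (U := C) L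
      have hi : ∀ s a, i ((indRep W₁).ρ s a) = (indRep W).ρ s (i a) := by
        intro s a
        funext x
        rfl
      have hq : ∀ s a, q ((indRep W).ρ s a) = (indRep W₂).ρ s (q a) := by
        intro s a
        exact helper57.indQuot_equivariant W.ρ L hstab s a
      have hinj : Function.Injective i := by
        intro a b hab
        funext x
        exact Subtype.ext (congrFun hab x)
      have hsurj : Function.Surjective q := helper57.indQuot_surjective L
      have hex : LinearMap.range i = LinearMap.ker q := by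
        ext f
        rw [LinearMap.mem_ker]
        change f ∈ LinearMap.range i ↔ helper57.indQuot (U := C) L f = 0
        rw [helper57.indQuot_eq_zero_iff]
        constructor
        · rintro ⟨a, rfl⟩ x
          exact (a x).2
        · intro h
          exact ⟨fun x => ⟨f x, h x⟩, rfl⟩
      have hfinA : Module.Finite (ZMod p) (indRep W) := by
        change Module.Finite (ZMod p) (G ⧸ C → W)
        infer_instance
      have hsmA : IsSmooth 𝒩 (indRep W) :=
        ⟨N₀, hN₀, fun s hs a => helper57.indRepn_trivial_of_mem hC W.ρ htriv hs a⟩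
      have hadd := hg.add (indRep W₁) (indRep W) (indRep W₂) i q hi hq hinj hsurj hex hfinA hsmA
      have h1 : g (indRep W₁) = 0 := by
        refine hbase W₁ ?_ fun u hu y => ?_
        · change Module.Finite (ZMod p) L
          infer_instance
        · exact Subtype.ext (y.2 u hu)
      have h2 : g (indRep W₂) = 0 := by
        have hfin₂ : Module.Finite (ZMod p) W₂ := by
          change Module.Finite (ZMod p) (W ⧸ L)
          infer_instance
        have hlt : Module.finrank (ZMod p) W₂ < n := by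
          have e := Submodule.finrank_quotient_add_finrank L
          have hpos : 0 < Module.finrank (ZMod p) L := by
            rw [Module.finrank_pos_iff]
            exact (Submodule.nontrivial_iff_ne_bot).2 hLbot
          change Module.finrank (ZMod p) (W ⧸ L) < n
          omega
        refine ih _ hlt W₂ hfin₂ rfl fun u hu w => ?_
        obtain ⟨w', rfl⟩ := L.mkQ_surjective w
        change L.mkQ (W.ρ u w') = L.mkQ w'
        rw [htriv u hu w']
      rw [hadd, h1, h2, add_zero]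

/-! ## The blueprint statement, from Artin induction -/

/-- **EC-DEV** = blueprint `devissage_cyclic`, with the conclusion of the blueprint theorem
`artin_induction` (package EC-ART) for `(p, N₀)` as extra hypothesis `hart`. -/
theorem devissage_cyclic_of_art (𝒩 : Levels G) (p : ℕ) [Fact p.Prime] (N₀ : Subgroup G)
    (hN₀ : N₀ ∈ 𝒩.mem) [Finite (G ⧸ N₀)]
    (hart : ∃ (n : ℕ) (b : Subgroup G →₀ ℤ), 0 < n ∧
      (∀ C ∈ b.support, N₀ ≤ C ∧ IsCyclicMod C N₀) ∧
      ∀ g : Rep.{0} (ZMod p) G → ℤ, IsAddInv 𝒩 g →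
        ∀ N : Rep.{0} (ZMod p) G, Module.Finite (ZMod p) N →
          (∀ s ∈ N₀, ∀ a : N, N.ρ s a = a) →
          (n : ℤ) * g N =
            b.sum fun C c => c * g (indRep (Rep.of (N.ρ.comp C.subtype))))
    (g : Rep.{0} (ZMod p) G → ℤ) (hg : IsAddInv 𝒩 g)
    (hbase : ∀ C : Subgroup G, N₀ ≤ C → IsCyclicMod C N₀ →
      ∀ Y : Rep.{0} (ZMod p) ↥C, Module.Finite (ZMod p) Y →
        (∀ u : ↥C, (∃ m : ℕ, (u : G) ^ p ^ m ∈ N₀) → ∀ y : Y, Y.ρ u y = y) →
        g (indRep Y) = 0) :
    ∀ N : Rep.{0} (ZMod p) G, Module.Finite (ZMod p) N →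
      (∀ s ∈ N₀, ∀ a : N, N.ρ s a = a) → g N = 0 := by
  intro N hfin htriv
  obtain ⟨n, b, hn, hb, hsum⟩ := hart
  have h := hsum g hg N hfin htriv
  have hz : (b.sum fun C c => c * g (indRep (Rep.of (N.ρ.comp C.subtype)))) = 0 := by
    apply Finset.sum_eq_zero
    intro C hC
    obtain ⟨hle, hcyc⟩ := hb C hC
    have h0 : g (indRep (Rep.of (N.ρ.comp C.subtype))) = 0 := by
      refine ind_vanish 𝒩 p N₀ hN₀ g hg C hle hcyc (hbase C hle hcyc) _ ?_ ?_
      · change Module.Finite (ZMod p) N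
        exact hfin
      · intro u hu w
        exact htriv (u : G) hu w
    change b C * g (indRep (Rep.of (N.ρ.comp C.subtype))) = 0
    rw [h0, mul_zero]
  rw [hz] at h
  have hn' : (n : ℤ) ≠ 0 := by exact_mod_cast hn.ne'
  exact (mul_eq_zero.1 h).resolve_left hn'

/-! ## The same from `helper68.ArtStatement` -/

/-- `C = N₀ ⊔ ⟨c⟩` (with `N₀` normal of finite index) gives `N₀ ≤ C` and `IsCyclicMod C N₀`. -/
lemma isCyclicMod_of_cycMod {N₀ C : Subgroup G} [N₀.Normal] [Finite (G ⧸ N₀)]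
    (h : helper68.CycMod N₀ C) : N₀ ≤ C ∧ IsCyclicMod C N₀ := by
  obtain ⟨c, rfl⟩ := h
  refine ⟨le_sup_left, c, (le_sup_right : Subgroup.zpowers c ≤ N₀ ⊔ Subgroup.zpowers c)
    (Subgroup.mem_zpowers c), fun x hx => ?_⟩
  have hx' : (x : G ⧸ N₀) ∈ Subgroup.zpowers (c : G ⧸ N₀) := by
    have h1 : (QuotientGroup.mk' N₀) x ∈ (N₀ ⊔ Subgroup.zpowers c).map (QuotientGroup.mk' N₀) :=
      Subgroup.mem_map_of_mem _ hx
    rw [Subgroup.map_sup, MonoidHom.map_zpowers] at h1
    have h2 : N₀.map (QuotientGroup.mk' N₀) = ⊥ := by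
      rw [eq_bot_iff]
      rintro _ ⟨y, hy, rfl⟩
      rw [Subgroup.mem_bot, QuotientGroup.mk'_apply]
      exact (QuotientGroup.eq_one_iff y).2 hy
    rw [h2, bot_sup_eq] at h1
    exact h1
  rw [← mem_powers_iff_mem_zpowers] at hx'
  obtain ⟨m, hm⟩ := hx'
  refine ⟨m, ?_⟩
  rw [← QuotientGroup.eq, QuotientGroup.mk_pow]
  exact hm.symm

/-- **EC-DEV** from Artin induction in the form `helper68.ArtStatement`. -/
theorem devissage_cyclic_of_artStatement (hA : helper68.ArtStatement)
    (𝒩 : Levels G) (p : ℕ) [Fact p.Prime] (N₀ : Subgroup G)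
    (hN₀ : N₀ ∈ 𝒩.mem) [Finite (G ⧸ N₀)]
    (g : Rep.{0} (ZMod p) G → ℤ) (hg : IsAddInv 𝒩 g)
    (hbase : ∀ C : Subgroup G, N₀ ≤ C → IsCyclicMod C N₀ →
      ∀ Y : Rep.{0} (ZMod p) ↥C, Module.Finite (ZMod p) Y →
        (∀ u : ↥C, (∃ m : ℕ, (u : G) ^ p ^ m ∈ N₀) → ∀ y : Y, Y.ρ u y = y) →
        g (indRep Y) = 0) :
    ∀ N : Rep.{0} (ZMod p) G, Module.Finite (ZMod p) N →
      (∀ s ∈ N₀, ∀ a : N, N.ρ s a = a) → g N = 0 := by
  intro N hfin htriv
  haveI : N₀.Normal := 𝒩.normal N₀ hN₀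
  obtain ⟨n, I₁, I₂, _, _, C₁, C₂, hn, h1, h2, hsum⟩ := hA G N₀
  have h := hsum (ZMod p) 𝒩 hN₀ g hg N hfin htriv
  have key : ∀ C : Subgroup G, helper68.CycMod N₀ C →
      g (indRep (Rep.res C.subtype N)) = 0 := by
    intro C hC
    obtain ⟨hle, hcyc⟩ := isCyclicMod_of_cycMod hC
    refine ind_vanish 𝒩 p N₀ hN₀ g hg C hle hcyc (hbase C hle hcyc) _ ?_ ?_
    · change Module.Finite (ZMod p) N
      exact hfin
    · intro u hu w
      exact htriv (u : G) hu w
  rw [Finset.sum_eq_zero (fun i _ => key _ (h1 i)),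
    Finset.sum_eq_zero (fun i _ => key _ (h2 i)), add_zero] at h
  have hn' : (n : ℤ) ≠ 0 := by exact_mod_cast hn.ne'
  exact (mul_eq_zero.1 h).resolve_left hn'

end Fermat.Agent.P1.helper60

end
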