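import Mathlib

/-!
# P1 / EC, package ART-CHAR0 (helper41)

Two finite `Γ`-sets on which every element has the same number of fixed points have isomorphic
permutation representations over `ℚ`; after clearing denominators there is an injective
equivariant map of the permutation lattices.
-/

set_option autoImplicit false

noncomputable section

namespace Fermat.Agent.P1.helper41

open Representation Module

section general

variable {k Γ V W : Type*} [Field k] [CharZero k] [Group Γ] [Finite Γ]
  [AddCommGroup V] [Module k V] [AddCommGroup W] [Module k W]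
  (ρ : Representation k Γ V) (σ : Representation k Γ W)

/-- Maschke: an equivariant projection onto a subrepresentation, together with a complementary
subrepresentation. -/
theorem art_exists_proj (K : Subrepresentation ρ) :
    ∃ (K' : Subrepresentation ρ) (P : V →ₗ[k] V), (∀ v, P v ∈ K.toSubmodule) ∧
      (∀ v ∈ K.toSubmodule, P v = v) ∧ (∀ v, v - P v ∈ K'.toSubmodule) ∧
      (∀ v ∈ K'.toSubmodule, P v = 0) ∧
      K.toSubmodule ⊓ K'.toSubmodule = ⊥ ∧ (∀ γ, P ∘ₗ ρ γ = ρ γ ∘ₗ P) := by
  have : NeZero (Nat.card Γ : k) := ⟨Nat.cast_ne_zero.2 Nat.card_pos.ne'⟩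
  obtain ⟨K', hK'⟩ := exists_isCompl K
  have hc : IsCompl K.toSubmodule K'.toSubmodule := by
    constructor
    · rw [disjoint_iff]
      have := hK'.inf_eq_bot
      exact congrArg Subrepresentation.toSubmodule this
    · rw [codisjoint_iff]
      have := hK'.sup_eq_top
      exact congrArg Subrepresentation.toSubmodule this
  obtain ⟨π, hπl, hπz⟩ : ∃ π : V →ₗ[k] K.toSubmodule, (∀ x : K.toSubmodule, π x = x) ∧
      (∀ x : V, π x = 0 ↔ x ∈ K'.toSubmodule) :=
    ⟨Submodule.projectionOnto K.toSubmodule K'.toSubmodule hc,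
      fun x => Submodule.projectionOnto_apply_left hc x,
      fun x => Submodule.projectionOnto_apply_eq_zero_iff hc⟩
  have h1 : ∀ v, (K.toSubmodule.subtype ∘ₗ π) v ∈ K.toSubmodule := fun v => (π v).2
  have h2 : ∀ v ∈ K.toSubmodule, (K.toSubmodule.subtype ∘ₗ π) v = v := by
    intro v hv
    have := hπl ⟨v, hv⟩
    simp only [LinearMap.coe_comp, Submodule.coe_subtype, Function.comp_apply]
    rw [this]
  have h4 : ∀ v ∈ K'.toSubmodule, (K.toSubmodule.subtype ∘ₗ π) v = 0 := by
    intro v hv
    have := (hπz v).2 hv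
    simp only [LinearMap.coe_comp, Submodule.coe_subtype, Function.comp_apply]
    rw [this]
    rfl
  have h3 : ∀ v, v - (K.toSubmodule.subtype ∘ₗ π) v ∈ K'.toSubmodule := by
    intro v
    rw [← hπz, map_sub]
    have := hπl (π v)
    simp only [LinearMap.coe_comp, Submodule.coe_subtype, Function.comp_apply]
    rw [this, sub_self]
  refine ⟨K', K.toSubmodule.subtype ∘ₗ π, h1, h2, h3, h4, hc.inf_eq_bot, ?_⟩
  intro γ
  ext v
  simp only [LinearMap.coe_comp, Function.comp_apply]
  have hv : v = (K.toSubmodule.subtype ∘ₗ π) v + (v - (K.toSubmodule.subtype ∘ₗ π) v) := by abel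
  have e1 : (K.toSubmodule.subtype ∘ₗ π) (ρ γ ((K.toSubmodule.subtype ∘ₗ π) v)) =
      ρ γ ((K.toSubmodule.subtype ∘ₗ π) v) :=
    h2 _ (K.apply_mem_toSubmodule γ (h1 v))
  have e2 : (K.toSubmodule.subtype ∘ₗ π) (ρ γ (v - (K.toSubmodule.subtype ∘ₗ π) v)) = 0 :=
    h4 _ (K'.apply_mem_toSubmodule γ (h3 v))
  have e3 : (K.toSubmodule.subtype ∘ₗ π) (ρ γ v) =
      (K.toSubmodule.subtype ∘ₗ π) (ρ γ ((K.toSubmodule.subtype ∘ₗ π) v)) +
        (K.toSubmodule.subtype ∘ₗ π) (ρ γ (v - (K.toSubmodule.subtype ∘ₗ π) v)) := by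
    rw [← map_add, ← map_add]
    congr 2
  have e4 := e3
  rw [e1, e2, add_zero] at e4
  exact e4

variable [FiniteDimensional k V] [FiniteDimensional k W]

omit [CharZero k] [Finite Γ] in
/-- The character of a subrepresentation, computed with a projection. -/
theorem art_char_sub (K : Subrepresentation ρ) (P : V →ₗ[k] V)
    (hP1 : ∀ v, P v ∈ K.toSubmodule) (hP2 : ∀ v ∈ K.toSubmodule, P v = v) (γ : Γ) :
    K.toRepresentation.character γ = LinearMap.trace k V (ρ γ ∘ₗ P) := by
  have h1 : K.toRepresentation γ =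
      (P.codRestrict K.toSubmodule hP1) ∘ₗ (ρ γ ∘ₗ K.toSubmodule.subtype) := by
    ext a
    simp only [LinearMap.coe_comp, Submodule.coe_subtype, Function.comp_apply,
      LinearMap.codRestrict_apply]
    rw [hP2 _ (K.apply_mem_toSubmodule γ a.2)]
    rfl
  have h2 : (ρ γ ∘ₗ K.toSubmodule.subtype) ∘ₗ (P.codRestrict K.toSubmodule hP1) = ρ γ ∘ₗ P := by
    ext v
    simp
  unfold Representation.character
  rw [h1, LinearMap.trace_comp_comm', h2]

omit [CharZero k] [Group Γ] [Finite Γ] in
/-- A trace identity for a pseudo-inverse. -/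
theorem art_trace_pinv (f : V →ₗ[k] W) (f' : W →ₗ[k] V) (A : V →ₗ[k] V) (B : W →ₗ[k] W)
    (hAB : f ∘ₗ A = B ∘ₗ f) :
    LinearMap.trace k V (A ∘ₗ (f' ∘ₗ f)) = LinearMap.trace k W (B ∘ₗ (f ∘ₗ f')) := by
  rw [← LinearMap.comp_assoc, LinearMap.trace_comp_comm', ← LinearMap.comp_assoc, hAB,
    LinearMap.comp_assoc]

omit [CharZero k] [FiniteDimensional k V] [FiniteDimensional k W] in
/-- Existence of a pseudo-inverse adapted to two projections. -/
theorem art_exists_pinv (f : V →ₗ[k] W) (PK : V →ₗ[k] V) (PI : W →ₗ[k] W)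
    (hK1 : ∀ v, f (PK v) = 0)
    (hK2 : ∀ v, f v = 0 → PK v = v)
    (hI1 : ∀ w, ∃ v, f v = PI w) (hI2 : ∀ v, PI (f v) = f v) :
    ∃ f' : W →ₗ[k] V, f' ∘ₗ f = LinearMap.id - PK ∧ f ∘ₗ f' = PI := by
  have hle : LinearMap.ker f ≤ LinearMap.ker (LinearMap.id - PK) := by
    intro v hv
    rw [LinearMap.mem_ker] at hv ⊢
    rw [LinearMap.sub_apply, LinearMap.id_apply, hK2 v hv, sub_self]
  set L := (LinearMap.ker f).liftQ (LinearMap.id - PK) hle with hL
  set c : W →ₗ[k] LinearMap.range f :=
    PI.codRestrict (LinearMap.range f) (fun w => by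
      obtain ⟨v, hv⟩ := hI1 w
      exact ⟨v, hv⟩) with hc
  refine ⟨L ∘ₗ f.quotKerEquivRange.symm.toLinearMap ∘ₗ c, ?_, ?_⟩
  · ext v
    have h1 : c (f v) = ⟨f v, LinearMap.mem_range_self f v⟩ := by
      apply Subtype.ext
      show PI (f v) = f v
      exact hI2 v
    simp only [LinearMap.coe_comp, LinearEquiv.coe_coe, Function.comp_apply]
    rw [h1, LinearMap.quotKerEquivRange_symm_apply_image, hL]
    simp
  · ext w
    obtain ⟨v, hv⟩ := hI1 w
    have h1 : c w = ⟨f v, LinearMap.mem_range_self f v⟩ := by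
      apply Subtype.ext
      show PI w = f v
      exact hv.symm
    simp only [LinearMap.coe_comp, LinearEquiv.coe_coe, Function.comp_apply]
    rw [h1, LinearMap.quotKerEquivRange_symm_apply_image, hL]
    simp only [Submodule.mkQ_apply, Submodule.liftQ_apply, LinearMap.sub_apply,
      LinearMap.id_coe, id_eq, map_sub]
    rw [hK1, sub_zero, hv]

omit [CharZero k] [FiniteDimensional k V] in
/-- Adding a map supported on the kernel with values in a complement of the range increases
the rank. -/
theorem art_rank_lt (f g : V →ₗ[k] W) (PK : V →ₗ[k] V) (PI : W →ₗ[k] W)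
    (hK1 : ∀ v, f (PK v) = 0) (hI2 : ∀ v, PI (f v) = f v)
    (hg1 : ∀ v, g v = g (PK v)) (hg2 : ∀ v, PI (g v) = 0) (hg : g ≠ 0) :
    finrank k (LinearMap.range f) < finrank k (LinearMap.range (f + g)) := by
  apply Submodule.finrank_lt_finrank_of_lt
  have hg3 : ∀ v, g (v - PK v) = 0 := by
    intro v
    rw [map_sub, ← hg1, sub_self]
  rw [lt_iff_le_and_ne]
  constructor
  · rintro _ ⟨v, rfl⟩
    refine ⟨v - PK v, ?_⟩
    rw [LinearMap.add_apply, hg3, add_zero, map_sub, hK1, sub_zero]
  · intro heq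
    apply hg
    ext v
    have h1 : g v ∈ LinearMap.range (f + g) := by
      refine ⟨PK v, ?_⟩
      rw [LinearMap.add_apply, hK1, zero_add, ← hg1]
    rw [← heq] at h1
    obtain ⟨u, hu⟩ := h1
    have h2 := hg2 v
    rw [← hu, hI2] at h2
    rw [LinearMap.zero_apply, ← hu, h2]

omit [CharZero k] [Finite Γ] [FiniteDimensional k V] in
/-- For an intertwining map `f` of maximal rank, every intertwining map from (a complement-
projected) kernel to a complement of the range vanishes. -/
theorem art_hom_eq_zero (f : IntertwiningMap ρ σ)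
    (hmax : ∀ g : IntertwiningMap ρ σ,
      finrank k (LinearMap.range g.toLinearMap) ≤ finrank k (LinearMap.range f.toLinearMap))
    (K : Subrepresentation ρ) (I' : Subrepresentation σ) (PK : V →ₗ[k] V) (PI : W →ₗ[k] W)
    (hPK1 : ∀ v, PK v ∈ K.toSubmodule) (hPK2 : ∀ v ∈ K.toSubmodule, PK v = v)
    (hPKc : ∀ γ, PK ∘ₗ ρ γ = ρ γ ∘ₗ PK)
    (hK : ∀ v ∈ K.toSubmodule, f.toLinearMap v = 0)
    (hI2 : ∀ v, PI (f.toLinearMap v) = f.toLinearMap v) (hI4 : ∀ w ∈ I'.toSubmodule, PI w = 0)
    (g : IntertwiningMap K.toRepresentation I'.toRepresentation) : g = 0 := by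
  by_contra hg
  set gt : V →ₗ[k] W :=
    I'.toSubmodule.subtype ∘ₗ g.toLinearMap ∘ₗ PK.codRestrict K.toSubmodule hPK1 with hgt
  have hgt_apply : ∀ v, gt v = (g.toLinearMap ⟨PK v, hPK1 v⟩ : W) := fun v => rfl
  have hgtc : ∀ γ, gt ∘ₗ ρ γ = σ γ ∘ₗ gt := by
    intro γ
    ext v
    simp only [LinearMap.coe_comp, Function.comp_apply]
    rw [hgt_apply, hgt_apply]
    have h1 : (⟨PK (ρ γ v), hPK1 _⟩ : K.toSubmodule) =
        K.toRepresentation γ ⟨PK v, hPK1 v⟩ := by
      apply Subtype.ext
      have := LinearMap.congr_fun (hPKc γ) v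
      simp only [LinearMap.coe_comp, Function.comp_apply] at this
      exact this
    rw [h1]
    have h2 := LinearMap.congr_fun (g.isIntertwining' γ) ⟨PK v, hPK1 v⟩
    simp only [LinearMap.coe_comp, Function.comp_apply] at h2
    rw [h2]
    rfl
  have hne : gt ≠ 0 := by
    intro h0
    apply hg
    apply IntertwiningMap.ext
    ext x
    have h1 := LinearMap.congr_fun h0 (x : V)
    rw [hgt_apply] at h1
    have h2 : (⟨PK (x : V), hPK1 _⟩ : K.toSubmodule) = x := Subtype.ext (hPK2 _ x.2)
    rw [h2] at h1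
    simpa using h1
  have hlt := art_rank_lt f.toLinearMap gt PK PI (fun v => hK _ (hPK1 v)) hI2
    (fun v => by
      rw [hgt_apply, hgt_apply]
      have h2 : (⟨PK (PK v), hPK1 _⟩ : K.toSubmodule) = ⟨PK v, hPK1 v⟩ :=
        Subtype.ext (hPK2 _ (hPK1 v))
      rw [h2])
    (fun v => by
      rw [hgt_apply]
      exact hI4 _ (g.toLinearMap ⟨PK v, hPK1 v⟩).2) hne
  have := hmax ⟨f.toLinearMap + gt, fun γ => by
    rw [LinearMap.add_comp, LinearMap.comp_add, f.isIntertwining' γ, hgtc γ]⟩
  exact absurd this (not_le.2 hlt)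

/-- **Theorem A.** Two finite-dimensional representations of a finite group over a field of
characteristic zero with the same character admit an injective intertwining map. -/
theorem art_exists_injective
    (h : ∀ γ, LinearMap.trace k V (ρ γ) = LinearMap.trace k W (σ γ)) :
    ∃ f : V →ₗ[k] W, Function.Injective f ∧ ∀ γ, f ∘ₗ ρ γ = σ γ ∘ₗ f := by
  classical
  have hfin : ∃ f : IntertwiningMap ρ σ, ∀ g : IntertwiningMap ρ σ,
      finrank k (LinearMap.range g.toLinearMap) ≤ finrank k (LinearMap.range f.toLinearMap) := by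
    let S : Set ℕ :=
      Set.range fun g : IntertwiningMap ρ σ => finrank k (LinearMap.range g.toLinearMap)
    have hne : S.Nonempty := ⟨_, ⟨0, rfl⟩⟩
    have hbdd : BddAbove S := ⟨finrank k W, by
      rintro _ ⟨g, rfl⟩
      exact Submodule.finrank_le _⟩
    obtain ⟨f, hf⟩ := Nat.sSup_mem hne hbdd
    refine ⟨f, fun g => ?_⟩
    have := le_csSup hbdd (⟨g, rfl⟩ : finrank k (LinearMap.range g.toLinearMap) ∈ S)
    rw [← hf] at this
    exact this
  obtain ⟨f, hmax⟩ := hfin
  obtain ⟨K', PK, hK1, hK2, hK3, hK4, -, hKc⟩ := art_exists_proj ρ f.ker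
  obtain ⟨I', PI, hI1, hI2, hI3, hI4, -, hIc⟩ := art_exists_proj σ f.range
  -- the pseudo-inverse
  obtain ⟨f', hf'1, hf'2⟩ := art_exists_pinv f.toLinearMap PK PI
    (fun v => hK1 v) (fun v hv => hK2 v hv) (fun w => hI1 w)
    (fun v => hI2 _ (LinearMap.mem_range_self _ v))
  -- the complementary projection onto `I'`
  set Q : W →ₗ[k] W := LinearMap.id - PI with hQ
  have hQ1 : ∀ w, Q w ∈ I'.toSubmodule := fun w => hI3 w
  have hQ2 : ∀ w ∈ I'.toSubmodule, Q w = w := by
    intro w hw
    rw [hQ, LinearMap.sub_apply, LinearMap.id_apply, hI4 w hw, sub_zero]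
  -- characters agree
  have hchar : ∀ γ, f.ker.toRepresentation.character γ = I'.toRepresentation.character γ := by
    intro γ
    rw [art_char_sub ρ f.ker PK hK1 hK2 γ, art_char_sub σ I' Q hQ1 hQ2 γ]
    have e1 := art_trace_pinv f.toLinearMap f' (ρ γ) (σ γ) (f.isIntertwining' γ)
    rw [hf'1, hf'2, LinearMap.comp_sub, LinearMap.comp_id, map_sub] at e1
    rw [hQ, LinearMap.comp_sub, LinearMap.comp_id, map_sub, ← e1, h γ]
    ring
  -- no intertwining maps from the kernel to `I'`
  have hzero : ∀ g : IntertwiningMap f.ker.toRepresentation I'.toRepresentation, g = 0 :=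
    art_hom_eq_zero ρ σ f hmax f.ker I' PK PI hK1 hK2 hKc (fun v hv => hv)
      (fun v => hI2 _ (LinearMap.mem_range_self _ v)) hI4
  have hsub : Subsingleton (IntertwiningMap f.ker.toRepresentation I'.toRepresentation) :=
    ⟨fun a b => by rw [hzero a, hzero b]⟩
  have : Fintype Γ := Fintype.ofFinite Γ
  have : Invertible (Nat.card Γ : k) :=
    invertibleOfNonzero (Nat.cast_ne_zero.2 Nat.card_pos.ne')
  have o1 := card_inv_mul_sum_char_mul_char_eq_finrank f.ker.toRepresentation
    I'.toRepresentation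
  have o2 := card_inv_mul_sum_char_mul_char_eq_finrank f.ker.toRepresentation
    f.ker.toRepresentation
  rw [Module.finrank_zero_of_subsingleton] at o1
  simp only [← hchar] at o1
  rw [o1] at o2
  have o3 : finrank k (IntertwiningMap f.ker.toRepresentation f.ker.toRepresentation) = 0 := by
    exact_mod_cast o2.symm
  have o4 : Subsingleton (IntertwiningMap f.ker.toRepresentation f.ker.toRepresentation) :=
    Module.finrank_zero_iff.1 o3
  have o5 : IntertwiningMap.id f.ker.toRepresentation = 0 := Subsingleton.elim _ _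
  refine ⟨f.toLinearMap, ?_, f.isIntertwining'⟩
  rw [← LinearMap.ker_eq_bot, eq_bot_iff]
  intro v hv
  have := congrArg (fun g : IntertwiningMap f.ker.toRepresentation f.ker.toRepresentation =>
    ((g ⟨v, hv⟩ : f.ker.toSubmodule) : V)) o5
  simpa using this

end general

section perm

variable {Γ X Y : Type*} [Group Γ] [MulAction Γ X] [MulAction Γ Y]

/-- The permutation representation on `X →₀ ℚ`. -/
def artPerm (Γ X : Type*) [Group Γ] [MulAction Γ X] : Representation ℚ Γ (X →₀ ℚ) where
  toFun g := Finsupp.lmapDomain ℚ ℚ (g • ·)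
  map_one' := by
    ext x y
    simp
  map_mul' g h := by
    ext x y
    simp [mul_smul]

theorem artPerm_apply (γ : Γ) (f : X →₀ ℚ) :
    artPerm Γ X γ f = Finsupp.mapDomain (γ • ·) f := rfl

/-- The character of the permutation representation counts fixed points. -/
theorem artPerm_trace [Finite X] (γ : Γ) :
    LinearMap.trace ℚ (X →₀ ℚ) (artPerm Γ X γ) = (Nat.card {x : X | γ • x = x} : ℚ) := by
  classical
  have : Fintype X := Fintype.ofFinite X
  rw [LinearMap.trace_eq_matrix_trace ℚ (Finsupp.basisSingleOne (R := ℚ) (ι := X))]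
  unfold Matrix.trace
  have h1 : ∀ x : X, Matrix.diag (LinearMap.toMatrix (Finsupp.basisSingleOne (R := ℚ) (ι := X))
      Finsupp.basisSingleOne (artPerm Γ X γ)) x = if γ • x = x then 1 else 0 := by
    intro x
    rw [Matrix.diag_apply, LinearMap.toMatrix_apply]
    simp only [Finsupp.basisSingleOne_repr, LinearEquiv.refl_apply, Finsupp.coe_basisSingleOne]
    rw [artPerm_apply, Finsupp.mapDomain_single, Finsupp.single_apply]
  rw [Finset.sum_congr rfl (fun x _ => h1 x), Finset.sum_boole]
  congr 1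
  rw [Nat.card_eq_fintype_card, Fintype.card_subtype]
  rfl

/-- The inclusion of the integral permutation lattice into the rational one. -/
def artIncl (X : Type*) : (X →₀ ℤ) →+ (X →₀ ℚ) :=
  Finsupp.mapRange.addMonoidHom (Int.castAddHom ℚ)

theorem artIncl_injective (X : Type*) : Function.Injective (artIncl X) :=
  Finsupp.mapRange_injective _ (by simp) Int.cast_injective

theorem artIncl_single (x : X) (n : ℤ) :
    artIncl X (Finsupp.single x n) = Finsupp.single x (n : ℚ) := by
  unfold artIncl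
  simp

theorem artIncl_mapDomain (g : X → X) (f : X →₀ ℤ) :
    artIncl X (Finsupp.mapDomain g f) = Finsupp.mapDomain g (artIncl X f) := by
  unfold artIncl
  exact (Finsupp.mapDomain_mapRange g f _ (by simp) (by simp)).symm

/-- **Theorem C.** Clearing denominators in an injective equivariant map of rational permutation
modules. -/
theorem art_clear_denominators [Finite X] [Finite Y]
    (e : (X →₀ ℚ) →ₗ[ℚ] (Y →₀ ℚ)) (he : Function.Injective e)
    (hc : ∀ (γ : Γ) (f : X →₀ ℚ),
      e (Finsupp.mapDomain (γ • ·) f) = Finsupp.mapDomain (γ • ·) (e f)) :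
    ∃ j : (X →₀ ℤ) →ₗ[ℤ] (Y →₀ ℤ), Function.Injective j ∧
      ∀ (γ : Γ) (f : X →₀ ℤ),
        j (Finsupp.mapDomain (γ • ·) f) = Finsupp.mapDomain (γ • ·) (j f) := by
  classical
  have : Fintype X := Fintype.ofFinite X
  have : Fintype Y := Fintype.ofFinite Y
  obtain ⟨⟨m, hm⟩, hint⟩ := IsLocalization.exist_integer_multiples_of_finite
    (nonZeroDivisors ℤ) (S := ℚ) (fun p : X × Y => e (Finsupp.single p.1 1) p.2)
  have hm0 : (m : ℚ) ≠ 0 := by
    have := nonZeroDivisors.ne_zero hm
    exact_mod_cast this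
  have hint' : ∀ x y, ∃ n : ℤ, (n : ℚ) = (m : ℚ) * e (Finsupp.single x 1) y := by
    intro x y
    obtain ⟨n, hn⟩ := hint (x, y)
    refine ⟨n, ?_⟩
    simpa [zsmul_eq_mul] using hn
  choose a ha using hint'
  set j : (X →₀ ℤ) →ₗ[ℤ] (Y →₀ ℤ) :=
    Finsupp.linearCombination ℤ (fun x => Finsupp.equivFunOnFinite.symm (a x)) with hj
  have key : ∀ f : X →₀ ℤ, artIncl Y (j f) = (m : ℚ) • e (artIncl X f) := by
    intro f
    induction f using Finsupp.induction_linear with
    | zero => simp
    | add f g hf hg => rw [map_add, map_add, hf, hg, map_add, map_add, smul_add]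
    | single x n =>
      rw [artIncl_single, hj, Finsupp.linearCombination_single]
      ext y
      have h1 : Finsupp.single x (n : ℚ) = (n : ℚ) • Finsupp.single x (1 : ℚ) := by
        rw [Finsupp.smul_single, smul_eq_mul, mul_one]
      rw [h1, LinearMap.map_smul]
      simp only [artIncl, Finsupp.mapRange.addMonoidHom_apply, Finsupp.mapRange_apply,
        Finsupp.smul_apply, Finsupp.equivFunOnFinite_symm_apply_apply, Int.coe_castAddHom,
        smul_eq_mul, Int.cast_mul, ha]
      ring
  refine ⟨j, ?_, ?_⟩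
  · intro f g hfg
    apply artIncl_injective X
    apply he
    have h1 := key f
    rw [hfg, key g] at h1
    exact (smul_right_injective _ hm0 h1).symm
  · intro γ f
    apply artIncl_injective Y
    rw [key, artIncl_mapDomain, artIncl_mapDomain, key, hc, Finsupp.mapDomain_smul]

end perm

/-- **ART-CHAR0.** Two finite `Γ`-sets with the same fixed-point counts have an injective
equivariant map between their integral permutation lattices. -/
theorem exists_lattice_map_of_fixedPoints (Γ : Type) [Group Γ] [Finite Γ]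
    (X Y : Type) [Finite X] [Finite Y] [MulAction Γ X] [MulAction Γ Y]
    (h : ∀ γ : Γ, Nat.card {x : X | γ • x = x} = Nat.card {y : Y | γ • y = y}) :
    ∃ j : (X →₀ ℤ) →ₗ[ℤ] (Y →₀ ℤ), Function.Injective j ∧
      ∀ (γ : Γ) (f : X →₀ ℤ),
        j (Finsupp.mapDomain (γ • ·) f) = Finsupp.mapDomain (γ • ·) (j f) := by
  obtain ⟨e, he, hc⟩ := art_exists_injective (artPerm Γ X) (artPerm Γ Y) (fun γ => by
    rw [artPerm_trace, artPerm_trace, h γ])
  refine art_clear_denominators e he (fun γ f => ?_)
  exact LinearMap.congr_fun (hc γ) f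

end Fermat.Agent.P1.helper41
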