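/-
P1 / module EC, package ART-COMB (helper56, task 719): Artin's induction theorem for the trivial
character, in fixed point form.

For a finite group `Γ` there are integers `a C`, supported on the cyclic subgroups, with
`∑_C a C * #Fix(γ | Γ ⧸ C) = |Γ|` for every `γ`.

The coefficients are `a C = α C * |C|` where `α` is the solution of the triangular system
`∑_{C ≥ D} α C = 1` (`D` cyclic), defined by recursion on the subgroups ordered by reverse
inclusion.
-/
import Mathlib

set_option autoImplicit false
set_option linter.unusedSectionVars false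
set_option linter.unusedVariables false
set_option linter.style.haveILetI false

namespace Fermat.Agent.P1.helper56

open scoped Classical

variable (Γ : Type) [Group Γ] [Finite Γ]

/-- The solution of the triangular system `∑_{C ≥ D} α C = 1` for cyclic `D`, supported on the
cyclic subgroups. -/
noncomputable def artinAlpha : Subgroup Γ → ℤ :=
  letI : Fintype (Subgroup Γ) := Fintype.ofFinite _
  WellFounded.fix (wellFounded_gt : WellFounded fun C C' : Subgroup Γ => C > C')
    fun C rec => if IsCyclic C then 1 - ∑ C' : {C' : Subgroup Γ // C' > C}, rec C'.1 C'.2 else 0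

theorem artinAlpha_eq (C : Subgroup Γ) :
    artinAlpha Γ C = letI : Fintype (Subgroup Γ) := Fintype.ofFinite _
      if IsCyclic C then 1 - ∑ C' : {C' : Subgroup Γ // C' > C}, artinAlpha Γ C'.1 else 0 := by
  unfold artinAlpha
  rw [WellFounded.fix_eq]

theorem artinAlpha_of_not_isCyclic {C : Subgroup Γ} (hC : ¬ IsCyclic C) :
    artinAlpha Γ C = 0 := by
  rw [artinAlpha_eq]
  simp only [hC, if_false]

theorem isCyclic_of_artinAlpha_ne_zero {C : Subgroup Γ} (hC : artinAlpha Γ C ≠ 0) :
    IsCyclic C := by
  by_contra h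
  exact hC (artinAlpha_of_not_isCyclic Γ h)

/-- The triangular system. -/
theorem sum_artinAlpha_ge [Fintype (Subgroup Γ)] {D : Subgroup Γ} (hD : IsCyclic D) :
    ∑ C ∈ Finset.univ.filter (fun C : Subgroup Γ => D ≤ C), artinAlpha Γ C = 1 := by
  have hsplit : Finset.univ.filter (fun C : Subgroup Γ => D ≤ C) =
      insert D (Finset.univ.filter (fun C : Subgroup Γ => C > D)) := by
    ext C
    simp only [Finset.mem_filter, Finset.mem_univ, true_and, Finset.mem_insert, gt_iff_lt]
    constructor
    · intro h
      rcases h.eq_or_lt with h1 | h1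
      · exact Or.inl h1.symm
      · exact Or.inr h1
    · rintro (h | h)
      · exact h ▸ le_rfl
      · exact h.le
  have hnot : D ∉ Finset.univ.filter (fun C : Subgroup Γ => C > D) := by
    simp
  rw [hsplit, Finset.sum_insert hnot, artinAlpha_eq Γ D]
  simp only [hD, if_true]
  have hsum : (∑ C' : {C' : Subgroup Γ // C' > D}, artinAlpha Γ C'.1) =
      ∑ C ∈ Finset.univ.filter (fun C : Subgroup Γ => C > D), artinAlpha Γ C := by
    rw [← Finset.sum_subtype_eq_sum_filter]
    refine Finset.sum_congr ?_ fun _ _ => rfl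
    ext C
    simp
  have hsum' : (letI : Fintype (Subgroup Γ) := Fintype.ofFinite _
      ∑ C' : {C' : Subgroup Γ // C' > D}, artinAlpha Γ C'.1) =
      ∑ C ∈ Finset.univ.filter (fun C : Subgroup Γ => C > D), artinAlpha Γ C := by
    rw [← hsum]
    refine Finset.sum_congr ?_ fun _ _ => rfl
    ext C
    simp
  rw [hsum']
  ring

/-- The sum of `α` over the subgroups containing a given element is `1`. -/
theorem sum_artinAlpha_mem [Fintype (Subgroup Γ)] (y : Γ) :
    ∑ C : Subgroup Γ, (if y ∈ C then artinAlpha Γ C else 0) = 1 := by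
  rw [← Finset.sum_filter]
  have h : Finset.univ.filter (fun C : Subgroup Γ => y ∈ C) =
      Finset.univ.filter (fun C : Subgroup Γ => Subgroup.zpowers y ≤ C) := by
    ext C
    simp [Subgroup.zpowers_le]
  rw [h]
  exact sum_artinAlpha_ge Γ (D := Subgroup.zpowers y) inferInstance

variable {Γ}

/-- Counting fixed points on `Γ ⧸ C`. -/
theorem card_fixed_mul_card (C : Subgroup Γ) (γ : Γ) :
    Nat.card {x : Γ ⧸ C | γ • x = x} * Nat.card C =
      Nat.card {x : Γ | x⁻¹ * γ * x ∈ C} := by
  have hpre : {x : Γ | x⁻¹ * γ * x ∈ C} =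
      QuotientGroup.mk ⁻¹' {x : Γ ⧸ C | γ • x = x} := by
    ext x
    simp only [Set.mem_ofPred_eq, Set.mem_preimage]
    rw [MulAction.Quotient.smul_mk, QuotientGroup.eq]
    constructor
    · intro h
      have := C.inv_mem h
      simpa [mul_assoc] using this
    · intro h
      have := C.inv_mem h
      simpa [mul_assoc] using this
  rw [hpre, Nat.card_congr (QuotientGroup.preimageMkEquivSubgroupProdSet C _), Nat.card_prod,
    mul_comm]

theorem natCast_card_setOf (P : Γ → Prop) [Fintype Γ] :
    ((Nat.card {x : Γ | P x} : ℕ) : ℤ) = ∑ x : Γ, if P x then (1 : ℤ) else 0 := by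
  rw [Finset.sum_boole]
  congr 1
  rw [Nat.card_eq_fintype_card]
  exact Fintype.card_subtype P

/-- **EC-ART-COMB** (Artin's induction theorem for the trivial character, fixed point form).
For a finite group `Γ` there are integers `a_C`, supported on the cyclic subgroups, with
`∑_C a_C #Fix(γ | Γ/C) = |Γ|` for every `γ`. -/
theorem artin_fixedPoints (Γ : Type) [Group Γ] [Finite Γ] :
    ∃ a : Subgroup Γ → ℤ, (∀ C, a C ≠ 0 → IsCyclic C) ∧
      ∀ γ : Γ, ∑ᶠ C : Subgroup Γ, a C * (Nat.card {x : Γ ⧸ C | γ • x = x} : ℤ) =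
        Nat.card Γ := by
  haveI : Fintype (Subgroup Γ) := Fintype.ofFinite _
  haveI : Fintype Γ := Fintype.ofFinite _
  refine ⟨fun C => artinAlpha Γ C * (Nat.card C : ℤ), fun C hC => ?_, fun γ => ?_⟩
  · refine isCyclic_of_artinAlpha_ne_zero Γ fun h => hC ?_
    simp only [h, zero_mul]
  · rw [finsum_eq_sum_of_fintype]
    have h1 : ∀ C : Subgroup Γ,
        artinAlpha Γ C * (Nat.card C : ℤ) * (Nat.card {x : Γ ⧸ C | γ • x = x} : ℤ) =
          ∑ x : Γ, if x⁻¹ * γ * x ∈ C then artinAlpha Γ C else 0 := by
      intro C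
      have h2 := card_fixed_mul_card C γ
      have h3 : (Nat.card C : ℤ) * (Nat.card {x : Γ ⧸ C | γ • x = x} : ℤ) =
          ∑ x : Γ, if x⁻¹ * γ * x ∈ C then (1 : ℤ) else 0 := by
        rw [← natCast_card_setOf, ← h2]
        push_cast
        ring
      rw [mul_assoc, h3, Finset.mul_sum]
      refine Finset.sum_congr rfl fun x _ => ?_
      split_ifs <;> simp
    simp_rw [h1]
    rw [Finset.sum_comm]
    simp_rw [sum_artinAlpha_mem]
    simp [Nat.card_eq_fintype_card]

end Fermat.Agent.P1.helper56
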