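import Fermat.Agent.P1.helper63_ECDefs
import Fermat.Agent.S55.helper35_SHDefs

/-!
# P1 / module EC (helper63, sub-coordinator): shared definitions, part 2

Targets of the packages of module EC (see `blueprints/P1/helper63_ECInterface.lean` on
`origin/helper63` and the findings `P1 EC`).  Notation as in `helper63_ECDefs`:
`N' = dualT p N = N^*(1)`.

* `IsCyclicMod C N₀`  : `C = ⟨c⟩ N₀`;
* `mu p`              : the module `μ_p = (ZMod p)(χ_cyc)`;
* `PTEndLeOut`        : `h²(N) + h⁰(N') ≤ dim Ш¹(N') + ∑_v h⁰(G_v, N')`  (from `Claim.inj2`);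
* `PTEndGeOut`        : `dim Ш¹(M) + ∑_v h⁰(G_v, M) ≤ h²(M') + h⁰(M)`    (needs `Loc2Out`);
* `Loc2Out tr`        : local duality `H⁰(G_v, M) ↪ H²(G_v, M')^*` in trace form;
* `LocH3Out`          : `H³(G_v, X) = 0` for finite smooth local modules;
* `LocH3BaseOut`      : `H³(U_w, ZMod p) = 0` for open subgroups `U_w ≤ G_v` with `χ_cyc|U_w = 1`;
* `BaseNumOut`        : Tate's formula (the inequality `≤ 0` of the defect) for the permutation
                        modules `k[G/U]`, `χ_cyc|U = 1`;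
* `BaseStarOut`       : the lower bound for `h¹` of the modules `Ind_C^G Y` (`C/N₀` cyclic, `Y`
                        trivial on the `p`-part);
* `BaseGeOut`, `BaseOut` : `0 ≤ tateDefect`, `tateDefect = 0` for these modules;
* `TateGeOut`         : `0 ≤ tateDefect` for all finite smooth modules.

DEFINITIONS ONLY.
-/

set_option autoImplicit false

open groupCohomology ExtCitation

noncomputable section

namespace Fermat.Agent.P1.helper63

open Fermat.Agent.S55 Fermat.Agent.P1.helper70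

/-- `C = ⟨c⟩ N₀` for some `c ∈ C`. -/
def IsCyclicMod {G : Type} [Group G] (C N₀ : Subgroup G) : Prop :=
  ∃ c ∈ C, ∀ x ∈ C, ∃ m : ℕ, x⁻¹ * c ^ m ∈ N₀

section Arith

variable (p : ℕ) [Fact p.Prime] (T : Finset Nat.Primes)

/-- `μ_p` as a module over `G_ℚ`. -/
abbrev mu : Rep.{0} (ZMod p) GQ := groupCohomology.ofChar (k := ZMod p) (cycloChar p)

/-- EC-PTEND-LE: `h²(N) + h⁰(N') ≤ dim Ш¹(N') + ∑_v h⁰(G_v, N')`. -/
def PTEndLeOut : Prop :=
  ∀ N : Rep.{0} (ZMod p) GQ, Module.Finite (ZMod p) N → IsSmooth (galLevels T) N →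
    hd2 (galLevels T) N + hd0 (dualT p N) ≤ sha1d p T (dualT p N) + locH0d p T (dualT p N)

/-- EC-PTEND-GE: `dim Ш¹(M) + ∑_v h⁰(G_v, M) ≤ h²(M') + h⁰(M)`. -/
def PTEndGeOut : Prop :=
  ∀ M : Rep.{0} (ZMod p) GQ, Module.Finite (ZMod p) M → IsSmooth (galLevels T) M →
    sha1d p T M + locH0d p T M ≤ hd2 (galLevels T) (dualT p M) + hd0 M

/-- EC-LOC2: for `v ∈ T` the pairing `H⁰(G_v, M) × H²(G_v, M') → ZMod p`,
`(n, c) ↦ tr (n ∪ (0, c at v))`, has trivial left kernel. -/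
def Loc2Out (tr : CcAmb3 (galLocal T) (mu p) →ₗ[ZMod p] ZMod p) : Prop :=
  ∀ M : Rep.{0} (ZMod p) GQ, Module.Finite (ZMod p) M → IsSmooth (galLevels T) M →
    ∀ (v : ↥T) (n : M), (∀ s : (galLocal T).Gv v, M.ρ ((galLocal T).r v s) n = n) → n ≠ 0 →
      ∃ c ∈ Z2 ((galLocal T).lev v) ((galLocal T).loc (dualT p M) v),
        tr (cupc₀₃ (galLocal T) (evPairing M (cycloChar p)) n
          ((0, Pi.single v c) : CcAmb3 (galLocal T) (dualT p M))) ≠ 0

/-- EC-LOC-H3: `H³(G_v, X) = 0` for every finite smooth module `X` of the local Galois group at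
`v ∈ T`. -/
def LocH3Out : Prop :=
  ∀ (v : ↥T) (X : Rep.{0} (ZMod p) ((galLocal T).Gv v)), Module.Finite (ZMod p) X →
    IsSmooth ((galLocal T).lev v) X →
    Z3 ((galLocal T).lev v) X ≤ B3 ((galLocal T).lev v) X

/-- EC-LOC-H3-BASE: `H³(U, ZMod p) = 0` for every open subgroup `U` of the local Galois group at
`v ∈ T` on which the cyclotomic character is trivial (the absolute Galois group of a finite
extension of `ℚ_v` containing `ζ_p`). -/
def LocH3BaseOut : Prop :=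
  ∀ (v : ↥T) (U : Subgroup ((galLocal T).Gv v)) (hU : ∃ N ∈ ((galLocal T).lev v).mem, N ≤ U),
    (∀ g ∈ U, cycloChar p ((galLocal T).r v g) = 1) →
    Z3 (helper35.restrictLevels ((galLocal T).lev v) U hU) (helper35.trivRep (ZMod p) ↥U) ≤
      B3 (helper35.restrictLevels ((galLocal T).lev v) U hU) (helper35.trivRep (ZMod p) ↥U)

/-- EC-BASE-NUM: the defect of the permutation modules `k[G/U]` (`U` open, `χ_cyc|U = 1`) is
`≤ 0` (it is `0`). -/
def BaseNumOut : Prop :=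
  ∀ U : Subgroup GQ, (∃ N ∈ (galLevels T).mem, N ≤ U) → (∀ g ∈ U, cycloChar p g = 1) →
    tateDefect p T (permRep (ZMod p) U) ≤ 0

/-- EC-BASE-STAR: the lower bound for `h¹` of the induced modules `N = Ind_C^G Y`, `C / N₀`
cyclic, `Y` trivial on the elements of `p`-power order modulo `N₀`:
`dim Ш¹(N') + ∑_v h⁰(G_v, N') + h⁰(ℝ, N') + h⁰(N) ≤ h¹(N) + h⁰(N')`. -/
def BaseStarOut : Prop :=
  ∀ N₀ ∈ (galLevels T).mem, (∀ g ∈ N₀, cycloChar p g = 1) →
    ∀ C : Subgroup GQ, N₀ ≤ C → IsCyclicMod C N₀ →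
    ∀ Y : Rep.{0} (ZMod p) ↥C, Module.Finite (ZMod p) Y →
      (∀ u : ↥C, (∃ m : ℕ, (u : GQ) ^ p ^ m ∈ N₀) → ∀ y : Y, Y.ρ u y = y) →
      sha1d p T (dualT p (indRep Y)) + locH0d p T (dualT p (indRep Y)) +
          realH0d p (dualT p (indRep Y)) + hd0 (indRep Y) ≤
        hd1 (galLevels T) (indRep Y) + hd0 (dualT p (indRep Y))

/-- EC-BASE-GE: `0 ≤ tateDefect` for the induced modules of `BaseStarOut`. -/
def BaseGeOut : Prop :=
  ∀ N₀ ∈ (galLevels T).mem, (∀ g ∈ N₀, cycloChar p g = 1) →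
    ∀ C : Subgroup GQ, N₀ ≤ C → IsCyclicMod C N₀ →
    ∀ Y : Rep.{0} (ZMod p) ↥C, Module.Finite (ZMod p) Y →
      (∀ u : ↥C, (∃ m : ℕ, (u : GQ) ^ p ^ m ∈ N₀) → ∀ y : Y, Y.ρ u y = y) →
      0 ≤ tateDefect p T (indRep Y)

/-- EC-BASE: Tate's formula for the induced modules of `BaseStarOut` (the hypothesis `hbase` of
the dévissage). -/
def BaseOut : Prop :=
  ∀ N₀ ∈ (galLevels T).mem, (∀ g ∈ N₀, cycloChar p g = 1) →
    ∀ C : Subgroup GQ, N₀ ≤ C → IsCyclicMod C N₀ →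
    ∀ Y : Rep.{0} (ZMod p) ↥C, Module.Finite (ZMod p) Y →
      (∀ u : ↥C, (∃ m : ℕ, (u : GQ) ^ p ^ m ∈ N₀) → ∀ y : Y, Y.ρ u y = y) →
      tateDefect p T (indRep Y) = 0

/-- `0 ≤ tateDefect` for all finite smooth modules (what the top level uses). -/
def TateGeOut : Prop :=
  ∀ N : Rep.{0} (ZMod p) GQ, Module.Finite (ZMod p) N → IsSmooth (galLevels T) N →
    0 ≤ tateDefect p T N

end Arith

end Fermat.Agent.P1.helper63
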