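/-
P1 / module EC, package EC-ART (helper86, task 722): Artin induction in functional form.

`artin_induction_of` : the blueprint statement `artin_induction` of
`blueprints/P1/helper63_ECInterface.lean`, with the three inputs ART-COMB, ART-CHAR0, ART-LAT
as explicit hypotheses (their blueprint statements, verbatim).
-/
import Mathlib
import Fermat.Agent.P1.helper63_ECDefs2

set_option autoImplicit false

open TensorProduct

namespace Fermat.Agent.P1.helper86.Art

open Fermat.Agent.S55 Fermat.Agent.P1.helper63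

noncomputable section

/-! ### The functor `N ⊗ -` -/

section Tens

variable {k G : Type} [Field k] [Group G] (𝒩 : Levels G)

/-- `N ⊗ A` -/
abbrev tens (N A : Rep.{0} k G) : Rep.{0} k G := Rep.of (Representation.tprod N.ρ A.ρ)

theorem tprod_trivial {N A : Rep.{0} k G} {s : G} (h1 : ∀ n : N, N.ρ s n = n)
    (h2 : ∀ a : A, A.ρ s a = a) (z : N ⊗[k] A) : Representation.tprod N.ρ A.ρ s z = z := by
  induction z using TensorProduct.induction_on with
  | zero => exact map_zero _
  | tmul n a => rw [Representation.tprod_apply, TensorProduct.map_tmul, h1, h2]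
  | add x y hx hy => rw [map_add, hx, hy]

theorem isSmooth_tens {N A : Rep.{0} k G} (hN : IsSmooth 𝒩 N) (hA : IsSmooth 𝒩 A) :
    IsSmooth 𝒩 (tens N A) := by
  obtain ⟨N₁, hN₁, h1⟩ := hN
  obtain ⟨N₂, hN₂, h2⟩ := hA
  obtain ⟨N₃, hN₃, hle⟩ := 𝒩.directed N₁ hN₁ N₂ hN₂
  exact ⟨N₃, hN₃, fun s hs z => tprod_trivial (h1 s (hle hs).1) (h2 s (hle hs).2) z⟩

theorem lTensor_tprod (N : Rep.{0} k G) {A B : Rep.{0} k G} (e : A →ₗ[k] B)
    (he : ∀ s a, e (A.ρ s a) = B.ρ s (e a)) (s : G) (z : N ⊗[k] A) :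
    LinearMap.lTensor N e (Representation.tprod N.ρ A.ρ s z) =
      Representation.tprod N.ρ B.ρ s (LinearMap.lTensor N e z) := by
  induction z using TensorProduct.induction_on with
  | zero => simp only [map_zero]
  | tmul n a =>
    rw [Representation.tprod_apply, TensorProduct.map_tmul, LinearMap.lTensor_tmul,
      LinearMap.lTensor_tmul, Representation.tprod_apply, TensorProduct.map_tmul, he]
  | add x y hx hy => simp only [map_add, hx, hy]

theorem lTensor_equivariant (N : Rep.{0} k G) {A B : Rep.{0} k G} (e : A →ₗ[k] B)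
    (he : ∀ s a, e (A.ρ s a) = B.ρ s (e a)) (s : G) (z : tens N A) :
    (LinearMap.lTensor N e : tens N A →ₗ[k] tens N B) ((tens N A).ρ s z) =
      (tens N B).ρ s ((LinearMap.lTensor N e : tens N A →ₗ[k] tens N B) z) :=
  lTensor_tprod N e he s z

theorem isAddInv_tens {g : Rep.{0} k G → ℤ} (hg : IsAddInv 𝒩 g) (N : Rep.{0} k G)
    (hNfin : Module.Finite k N) (hN : IsSmooth 𝒩 N) :
    IsAddInv 𝒩 (fun A => g (tens N A)) where
  iso := by
    intro A B e he hbij hfin hsm
    have := hfin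
    have := hNfin
    refine hg.iso (tens N A) (tens N B) (LinearMap.lTensor N e) (lTensor_equivariant N e he) ?_ ?_
      (isSmooth_tens 𝒩 hN hsm)
    · exact (LinearEquiv.lTensor N (LinearEquiv.ofBijective e hbij)).bijective
    · exact (inferInstance : Module.Finite k (N ⊗[k] A))
  add := by
    intro A₁ A A₂ i q hi hq hinj hsurj hex hfin hsm
    have := hfin
    have := hNfin
    refine hg.add (tens N A₁) (tens N A) (tens N A₂) (LinearMap.lTensor N i)
      (LinearMap.lTensor N q) (lTensor_equivariant N i hi) (lTensor_equivariant N q hq) ?_ ?_ ?_ ?_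
      (isSmooth_tens 𝒩 hN hsm)
    · exact Module.Flat.lTensor_preserves_injective_linearMap i hinj
    · exact LinearMap.lTensor_surjective N hsurj
    · have hexact : Function.Exact i q := (LinearMap.exact_iff).2 hex.symm
      have := lTensor_exact N hexact hsurj
      exact ((LinearMap.exact_iff).1 this).symm
    · exact (inferInstance : Module.Finite k (N ⊗[k] A))

end Tens

/-! ### Finite products of representations -/

section Pi

variable {k G : Type} [Field k] [Group G] (𝒩 : Levels G)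

/-- the product of a family of representations -/
def piRepn {T : Type} {V : T → Type} [∀ t, AddCommGroup (V t)] [∀ t, Module k (V t)]
    (ρ : ∀ t, Representation k G (V t)) : Representation k G (∀ t, V t) where
  toFun g := LinearMap.pi fun t => (ρ t g) ∘ₗ LinearMap.proj t
  map_one' := by
    ext f t
    simp
  map_mul' g h := by
    ext f t
    simp

@[simp] theorem piRepn_apply {T : Type} {V : T → Type} [∀ t, AddCommGroup (V t)]
    [∀ t, Module k (V t)] (ρ : ∀ t, Representation k G (V t)) (g : G) (f : ∀ t, V t) (t : T) :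
    piRepn ρ g f t = ρ t g (f t) := rfl

/-- the product of a family of objects of `Rep` -/
abbrev piRep {T : Type} (V : T → Rep.{0} k G) : Rep.{0} k G :=
  Rep.of (piRepn fun t => (V t).ρ)

variable {𝒩}

/-- an additive invariant vanishes on the zero module -/
theorem addInv_subsingleton {g : Rep.{0} k G → ℤ} (hg : IsAddInv 𝒩 g) (A : Rep.{0} k G)
    [Subsingleton A] : g A = 0 := by
  have hfin : Module.Finite k A := Module.Finite.of_finite
  have hsm : IsSmooth 𝒩 A := by
    obtain ⟨N, hN⟩ := 𝒩.nonempty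
    exact ⟨N, hN, fun s _ a => Subsingleton.elim _ _⟩
  have h := hg.add A A A 0 0 (fun s a => Subsingleton.elim _ _) (fun s a => Subsingleton.elim _ _)
    (fun a b _ => Subsingleton.elim _ _) (fun a => ⟨a, Subsingleton.elim _ _⟩)
    (Subsingleton.elim _ _) hfin hsm
  linarith

/-- additivity on finite products (uniform level) -/
theorem addInv_pi_aux {g : Rep.{0} k G → ℤ} (hg : IsAddInv 𝒩 g) {N₀ : Subgroup G}
    (hN₀ : N₀ ∈ 𝒩.mem) (T : Type) [Finite T] :
    Finite T → ∀ V : T → Rep.{0} k G, (∀ t, Module.Finite k (V t)) →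
      (∀ t, ∀ s ∈ N₀, ∀ a : V t, (V t).ρ s a = a) →
      g (piRep V) = ∑ᶠ t, g (V t) := by
  classical
  induction T using Finite.induction_empty_option with
  | of_equiv e ih =>
    rename_i α β
    intro hfinβ V hfin htriv
    have hfinα : Finite α := Finite.of_equiv β e.symm
    have h1 := ih hfinα (fun a => V (e a)) (fun a => hfin (e a)) (fun a => htriv (e a))
    have hF : Module.Finite k (piRep V) := (inferInstance : Module.Finite k (∀ b, V b))
    have hsm : IsSmooth 𝒩 (piRep V) :=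
      ⟨N₀, hN₀, fun s hs f => funext fun b => htriv b s hs (f b)⟩
    have h2 : g (piRep V) = g (piRep fun a => V (e a)) := by
      refine hg.iso (piRep V) (piRep fun a => V (e a))
        (LinearMap.pi fun a => LinearMap.proj (e a)) (fun s f => rfl) ?_ hF hsm
      have hb := (Equiv.piCongrLeft (fun b => (V b : Type)) e).symm.bijective
      have heq : (⇑(LinearMap.pi fun a => LinearMap.proj (e a) :
          (∀ b, V b) →ₗ[k] ∀ a, V (e a))) = ⇑(Equiv.piCongrLeft (fun b => (V b : Type)) e).symm := by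
        funext f a
        rw [Equiv.piCongrLeft_symm_apply]
        rfl
      rw [heq]
      exact hb
    rw [h2, h1]
    exact finsum_comp_equiv e (f := fun b => g (V b))
  | h_empty =>
    intro _ V _ _
    have : Subsingleton (piRep V) := (inferInstance : Subsingleton (∀ t : PEmpty, V t))
    rw [addInv_subsingleton hg, finsum_of_isEmpty]
  | h_option ih =>
    rename_i α _
    intro _ V hfin htriv
    have h1 := ih inferInstance (fun a => V (some a)) (fun a => hfin (some a))
      (fun a => htriv (some a))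
    have hF : Module.Finite k (piRep V) := (inferInstance : Module.Finite k (∀ b, V b))
    have hsm : IsSmooth 𝒩 (piRep V) :=
      ⟨N₀, hN₀, fun s hs f => funext fun b => htriv b s hs (f b)⟩
    have h2 : g (piRep V) = g (V none) + g (piRep fun a => V (some a)) := by
      refine hg.add (V none) (piRep V) (piRep fun a => V (some a))
        (LinearMap.single k (fun t => (V t : Type)) none)
        (LinearMap.pi fun a => LinearMap.proj (some a)) ?_ (fun s f => rfl) ?_ ?_ ?_ hF hsm
      · intro s v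
        funext t
        rcases t with _ | a
        · simp [piRepn_apply]
        · simp [piRepn_apply]
      · intro v w hvw
        have := congrFun hvw none
        simpa using this
      · intro f
        refine ⟨fun t => match t with
          | none => 0
          | some a => f a, ?_⟩
        rfl
      · ext f
        constructor
        · rintro ⟨v, rfl⟩
          rw [LinearMap.mem_ker]
          funext a
          simp
          rfl
        · intro hf
          rw [LinearMap.mem_ker] at hf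
          refine ⟨f none, ?_⟩
          funext t
          rcases t with _ | a
          · simp
          · have := congrFun hf a
            simp only [LinearMap.pi_apply, LinearMap.proj_apply] at this
            simp [this]
            rfl
    rw [h2, h1, finsum_eq_sum_of_fintype, finsum_eq_sum_of_fintype, Fintype.sum_option]

theorem addInv_pi {g : Rep.{0} k G → ℤ} (hg : IsAddInv 𝒩 g) {N₀ : Subgroup G}
    (hN₀ : N₀ ∈ 𝒩.mem) {T : Type} [Finite T] (V : T → Rep.{0} k G)
    (hfin : ∀ t, Module.Finite k (V t)) (htriv : ∀ t, ∀ s ∈ N₀, ∀ a : V t, (V t).ρ s a = a) :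
    g (piRep V) = ∑ᶠ t, g (V t) :=
  addInv_pi_aux hg hN₀ T inferInstance V hfin htriv

end Pi

/-! ### The `G`-sets `⨆ₜ Γ / d t`, `Γ = G / N₀` -/

section GSet

variable {G : Type} [Group G] (N₀ : Subgroup G) [N₀.Normal]

/-- the `G`-set `⨆ₜ Γ / d t` -/
def gSet {T : Type} (d : T → Subgroup (G ⧸ N₀)) : Type := Σ t : T, (G ⧸ N₀) ⧸ d t

variable {N₀} {T : Type} (d : T → Subgroup (G ⧸ N₀))

instance gSet.instMulActionQuot : MulAction (G ⧸ N₀) (gSet N₀ d) :=
  inferInstanceAs (MulAction (G ⧸ N₀) (Σ t : T, (G ⧸ N₀) ⧸ d t))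

instance gSet.instMulAction : MulAction G (gSet N₀ d) :=
  MulAction.compHom _ (QuotientGroup.mk' N₀)

instance gSet.instFinite [Finite T] [Finite (G ⧸ N₀)] : Finite (gSet N₀ d) :=
  inferInstanceAs (Finite (Σ t : T, (G ⧸ N₀) ⧸ d t))

/-- the point `(t, y)` of `⨆ₜ Γ / d t` -/
def gSet.mk (t : T) (y : (G ⧸ N₀) ⧸ d t) : gSet N₀ d := ⟨t, y⟩

theorem gSet.smul_def (g : G) (x : gSet N₀ d) : g • x = (QuotientGroup.mk' N₀ g) • x := rfl

theorem gSet.quot_smul_mk (γ : G ⧸ N₀) (t : T) (y : (G ⧸ N₀) ⧸ d t) :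
    γ • gSet.mk d t y = gSet.mk d t (γ • y) := rfl

theorem gSet.smul_mk (g : G) (t : T) (y : (G ⧸ N₀) ⧸ d t) :
    g • gSet.mk d t y = gSet.mk d t ((QuotientGroup.mk' N₀ g) • y) := rfl

theorem gSet.mk_surjective (x : gSet N₀ d) : ∃ t y, x = gSet.mk d t y := ⟨x.1, x.2, rfl⟩

theorem gSet.mk_injective (t : T) {y y' : (G ⧸ N₀) ⧸ d t}
    (h : gSet.mk d t y = gSet.mk d t y') : y = y' :=
  eq_of_heq (Sigma.mk.inj h).2

theorem gSet.smul_trivial {s : G} (hs : s ∈ N₀) (x : gSet N₀ d) : s • x = x := by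
  rw [gSet.smul_def, QuotientGroup.mk'_apply, (QuotientGroup.eq_one_iff s).2 hs, one_smul]

/-- the number of fixed points -/
theorem gSet.card_fixed [Finite T] [Finite (G ⧸ N₀)] (γ : G ⧸ N₀) :
    Nat.card {x : gSet N₀ d | γ • x = x} =
      ∑ᶠ t, Nat.card {y : (G ⧸ N₀) ⧸ d t | γ • y = y} := by
  classical
  have : Fintype T := Fintype.ofFinite T
  let e : {x : gSet N₀ d | γ • x = x} ≃ Σ t : T, {y : (G ⧸ N₀) ⧸ d t | γ • y = y} :=
    { toFun := fun x => ⟨x.1.1, ⟨x.1.2, by
        rcases x with ⟨⟨t, y⟩, hx⟩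
        have h' : γ • gSet.mk d t y = gSet.mk d t y := hx
        rw [gSet.quot_smul_mk] at h'
        exact gSet.mk_injective d t h'⟩⟩
      invFun := fun z => ⟨gSet.mk d z.1 z.2.1, by
        have h : γ • z.2.1 = z.2.1 := z.2.2
        show γ • gSet.mk d z.1 z.2.1 = gSet.mk d z.1 z.2.1
        rw [gSet.quot_smul_mk, h]⟩
      left_inv := fun x => by
        rcases x with ⟨⟨t, y⟩, hx⟩
        rfl
      right_inv := fun z => by
        rcases z with ⟨t, ⟨y, hy⟩⟩
        rfl }
  rw [Nat.card_congr e, Nat.card_sigma, finsum_eq_sum_of_fintype]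

/-- the canonical map `G / π⁻¹(D) → Γ / D` -/
def beta (D : Subgroup (G ⧸ N₀)) :
    G ⧸ (D.comap (QuotientGroup.mk' N₀)) → (G ⧸ N₀) ⧸ D :=
  Quotient.map' (QuotientGroup.mk' N₀) (by
    intro a b hab
    rw [QuotientGroup.leftRel_apply] at hab ⊢
    rw [Subgroup.mem_comap] at hab
    simpa using hab)

theorem beta_mk (D : Subgroup (G ⧸ N₀)) (g : G) :
    beta D (g : G ⧸ (D.comap (QuotientGroup.mk' N₀))) =
      (((g : G ⧸ N₀)) : (G ⧸ N₀) ⧸ D) := rfl

theorem beta_injective (D : Subgroup (G ⧸ N₀)) : Function.Injective (beta D) := by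
  intro x y hxy
  induction x using QuotientGroup.induction_on with
  | H a =>
    induction y using QuotientGroup.induction_on with
    | H b =>
      rw [beta_mk, beta_mk, QuotientGroup.eq] at hxy
      rw [QuotientGroup.eq, Subgroup.mem_comap]
      simpa using hxy

theorem beta_surjective (D : Subgroup (G ⧸ N₀)) : Function.Surjective (beta D) := by
  intro y
  induction y using QuotientGroup.induction_on with
  | H γ =>
    induction γ using QuotientGroup.induction_on with
    | H g => exact ⟨(g : G ⧸ (D.comap (QuotientGroup.mk' N₀))), rfl⟩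

theorem beta_smul (D : Subgroup (G ⧸ N₀)) (g : G)
    (x : G ⧸ (D.comap (QuotientGroup.mk' N₀))) :
    beta D (g • x) = (QuotientGroup.mk' N₀ g) • beta D x := by
  induction x using QuotientGroup.induction_on with
  | H a =>
    rw [MulAction.Quotient.smul_mk, beta_mk, beta_mk, MulAction.Quotient.smul_mk]
    rfl

end GSet

/-! ### `N ⊗ k[X] ≅ Fun(X, N) ≅ ∏ₜ Ind_{C t} Res N` -/

section Iso

variable {k G : Type} [Field k] [Group G]

/-- the diagonal representation on functions `X → N` -/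
def funRepn {N : Type} [AddCommGroup N] [Module k N] (ρ : Representation k G N) (X : Type)
    [MulAction G X] : Representation k G (X → N) where
  toFun g := LinearMap.pi fun x => (ρ g) ∘ₗ LinearMap.proj (g⁻¹ • x)
  map_one' := by
    ext f x
    simp
  map_mul' g h := by
    ext f x
    simp [mul_smul]

@[simp] theorem funRepn_apply {N : Type} [AddCommGroup N] [Module k N]
    (ρ : Representation k G N) (X : Type) [MulAction G X] (g : G) (f : X → N) (x : X) :
    funRepn ρ X g f x = ρ g (f (g⁻¹ • x)) := rfl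

/-- `N ⊗ k[X] ≃ (X → N)` -/
def tensEquiv (N : Type) [AddCommGroup N] [Module k N] (X : Type) [Finite X] :
    N ⊗[k] MonoidAlgebra k X ≃ₗ[k] (X → N) := by
  classical
  exact (LinearEquiv.lTensor N (MonoidAlgebra.coeffLinearEquiv k)) ≪≫ₗ
    (TensorProduct.finsuppScalarRight k k N X) ≪≫ₗ (Finsupp.linearEquivFunOnFinite k N X)

theorem tensEquiv_tmul {N : Type} [AddCommGroup N] [Module k N] {X : Type} [Finite X]
    (n : N) (a : MonoidAlgebra k X) (x : X) :
    tensEquiv (k := k) N X (n ⊗ₜ[k] a) x = a.coeff x • n := by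
  simp [tensEquiv]

theorem tensEquiv_equivariant {N : Type} [AddCommGroup N] [Module k N]
    (ρ : Representation k G N) {X : Type} [Finite X] [MulAction G X] (g : G)
    (z : N ⊗[k] MonoidAlgebra k X) :
    tensEquiv (k := k) N X (Representation.tprod ρ (Representation.ofMulAction k G X) g z) =
      funRepn ρ X g (tensEquiv (k := k) N X z) := by
  induction z using TensorProduct.induction_on with
  | zero => simp only [map_zero]
  | tmul n a =>
    funext x
    rw [Representation.tprod_apply, TensorProduct.map_tmul, tensEquiv_tmul, funRepn_apply,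
      tensEquiv_tmul, Representation.coeff_ofMulAction, LinearMap.map_smul]
  | add x y hx hy => simp only [map_add, hx, hy]

variable {N₀ : Subgroup G} [N₀.Normal] {T : Type} (d : T → Subgroup (G ⧸ N₀))

/-- the subgroup `C t = π⁻¹ (d t)` -/
abbrev preim (t : T) : Subgroup G := (d t).comap (QuotientGroup.mk' N₀)

theorem le_preim (t : T) : N₀ ≤ preim d t := by
  intro s hs
  rw [Subgroup.mem_comap, QuotientGroup.mk'_apply, (QuotientGroup.eq_one_iff s).2 hs]
  exact one_mem _

variable {N : Type} [AddCommGroup N] [Module k N] (ρ : Representation k G N)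

/-- `Fun(⨆ₜ Γ / d t, N) → ∏ₜ Ind_{C t} Res N` -/
def theta : (gSet N₀ d → N) →ₗ[k] (∀ t, (G ⧸ preim d t) → N) where
  toFun f t x := ρ (helper57.cosetRep _ x)⁻¹ (f (gSet.mk d t (beta (d t) x)))
  map_add' f f' := by
    funext t x
    simp only [Pi.add_apply, map_add]
  map_smul' c f := by
    funext t x
    simp only [Pi.smul_apply, map_smul, RingHom.id_apply]

theorem theta_apply (f : gSet N₀ d → N) (t : T) (x : G ⧸ preim d t) :
    theta d ρ f t x = ρ (helper57.cosetRep _ x)⁻¹ (f (gSet.mk d t (beta (d t) x))) := rfl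

theorem theta_equivariant (g : G) (f : gSet N₀ d → N) :
    theta d ρ (funRepn ρ (gSet N₀ d) g f) =
      piRepn (fun t => helper57.indRepn (ρ.comp (preim d t).subtype)) g (theta d ρ f) := by
  funext t x
  rw [piRepn_apply, helper57.indRepn_apply, theta_apply, theta_apply, funRepn_apply,
    gSet.smul_mk, beta_smul]
  simp only [MonoidHom.comp_apply, Subgroup.coe_subtype, helper57.coe_cocyc,
    ← Module.End.mul_apply, ← map_mul]
  congr 2
  group

theorem theta_injective : Function.Injective (theta d ρ) := by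
  intro f f' h
  funext z
  obtain ⟨t, y, rfl⟩ := gSet.mk_surjective d z
  obtain ⟨x, rfl⟩ := beta_surjective (d t) y
  have h1 := congrFun (congrFun h t) x
  rw [theta_apply, theta_apply] at h1
  have h2 := congrArg (ρ (helper57.cosetRep _ x)) h1
  simpa [← Module.End.mul_apply, ← map_mul] using h2

theorem theta_surjective : Function.Surjective (theta d ρ) := by
  intro h
  let inv : ∀ t, (G ⧸ N₀) ⧸ d t → G ⧸ preim d t := fun t =>
    (Equiv.ofBijective (beta (d t)) ⟨beta_injective (d t), beta_surjective (d t)⟩).symm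
  have hinv : ∀ t x, inv t (beta (d t) x) = x := fun t x =>
    (Equiv.ofBijective (beta (d t)) ⟨beta_injective (d t), beta_surjective (d t)⟩).symm_apply_apply
      x
  refine ⟨fun z => ρ (helper57.cosetRep _ (inv z.1 z.2)) (h z.1 (inv z.1 z.2)), ?_⟩
  funext t x
  rw [theta_apply]
  show ρ (helper57.cosetRep _ x)⁻¹ (ρ (helper57.cosetRep _ (inv t (beta (d t) x)))
    (h t (inv t (beta (d t) x)))) = h t x
  rw [hinv]
  simp [← Module.End.mul_apply, ← map_mul]

end Iso

/-! ### The value of an additive invariant on `N ⊗ k[⨆ₜ Γ / d t]` -/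

section Assemble

variable {k G : Type} [Field k] [Group G] {𝒩 : Levels G}

theorem ofMulAction_trivial {N₀ : Subgroup G} [N₀.Normal] {T : Type}
    (d : T → Subgroup (G ⧸ N₀)) {s : G} (hs : s ∈ N₀) (a : MonoidAlgebra k (gSet N₀ d)) :
    Representation.ofMulAction k G (gSet N₀ d) s a = a := by
  apply MonoidAlgebra.coeff_injective
  ext x
  rw [Representation.coeff_ofMulAction, gSet.smul_trivial d (inv_mem hs)]

theorem addInv_tens_perm {g : Rep.{0} k G → ℤ} (hg : IsAddInv 𝒩 g) {N₀ : Subgroup G}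
    [N₀.Normal] (hN₀ : N₀ ∈ 𝒩.mem) [Finite (G ⧸ N₀)] (N : Rep.{0} k G)
    (hNfin : Module.Finite k N) (hNtriv : ∀ s ∈ N₀, ∀ a : N, N.ρ s a = a) {T : Type} [Finite T]
    (d : T → Subgroup (G ⧸ N₀)) :
    g (tens N (Rep.ofMulAction k G (gSet N₀ d))) =
      ∑ᶠ t, g (indRep (Rep.of (N.ρ.comp (preim d t).subtype))) := by
  have hNsm : IsSmooth 𝒩 N := ⟨N₀, hN₀, hNtriv⟩
  have hFfun : Module.Finite k (gSet N₀ d → N) := inferInstance
  -- step 1
  have h1 : g (tens N (Rep.ofMulAction k G (gSet N₀ d))) =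
      g (Rep.of (funRepn N.ρ (gSet N₀ d))) := by
    refine hg.iso (tens N (Rep.ofMulAction k G (gSet N₀ d))) (Rep.of (funRepn N.ρ (gSet N₀ d)))
      (tensEquiv (k := k) N (gSet N₀ d)).toLinearMap
      (fun s z => tensEquiv_equivariant N.ρ s z) (tensEquiv (k := k) N (gSet N₀ d)).bijective
      ?_ ?_
    · exact Module.Finite.equiv (tensEquiv (k := k) N (gSet N₀ d)).symm
    · exact isSmooth_tens 𝒩 hNsm ⟨N₀, hN₀, fun s hs a => ofMulAction_trivial d hs a⟩
  -- step 2
  have h2 : g (Rep.of (funRepn N.ρ (gSet N₀ d))) =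
      g (piRep fun t => indRep (Rep.of (N.ρ.comp (preim d t).subtype))) := by
    refine hg.iso (Rep.of (funRepn N.ρ (gSet N₀ d)))
      (piRep fun t => indRep (Rep.of (N.ρ.comp (preim d t).subtype)))
      (theta d N.ρ) (fun s f => theta_equivariant d N.ρ s f)
      ⟨theta_injective d N.ρ, theta_surjective d N.ρ⟩ hFfun ?_
    refine ⟨N₀, hN₀, fun s hs f => ?_⟩
    funext x
    show funRepn N.ρ (gSet N₀ d) s f x = f x
    rw [funRepn_apply, gSet.smul_trivial d (inv_mem hs), hNtriv s hs]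
  -- step 3
  have h3 := addInv_pi hg hN₀ (fun t => indRep (Rep.of (N.ρ.comp (preim d t).subtype)))
    (fun t => by
      have : Finite (G ⧸ preim d t) := Finite.of_injective (beta (d t)) (beta_injective (d t))
      exact (inferInstance : Module.Finite k (G ⧸ preim d t → N)))
    (fun t s hs f =>
      helper57.indRepn_trivial_of_mem (le_preim d t) (N.ρ.comp (preim d t).subtype)
        (fun u hu w => hNtriv _ hu w) hs f)
  rw [h1, h2, h3]

/-- `Ind_G^G N ≅ N` -/
theorem addInv_ind_top {g : Rep.{0} k G → ℤ} (hg : IsAddInv 𝒩 g) (N : Rep.{0} k G)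
    (hNfin : Module.Finite k N) (hNsm : IsSmooth 𝒩 N) (U : Subgroup G)
    (hU : ∀ x y : G ⧸ U, x = y) :
    g (indRep (Rep.of (N.ρ.comp U.subtype))) = g N := by
  symm
  refine hg.iso N (indRep (Rep.of (N.ρ.comp U.subtype))) (helper57.toInd U N.ρ)
    (fun s a => helper57.toInd_equivariant U N.ρ s a) ⟨?_, ?_⟩ hNfin hNsm
  · intro m m' h
    have h1 : N.ρ (helper57.cosetRep U ((1 : G) : G ⧸ U))⁻¹ m =
        N.ρ (helper57.cosetRep U ((1 : G) : G ⧸ U))⁻¹ m' := congrFun h ((1 : G) : G ⧸ U)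
    have h2 := congrArg (N.ρ (helper57.cosetRep U ((1 : G) : G ⧸ U))) h1
    simpa [← Module.End.mul_apply, ← map_mul] using h2
  · intro f
    refine ⟨N.ρ (helper57.cosetRep U ((1 : G) : G ⧸ U))
      ((f : G ⧸ U → N) ((1 : G) : G ⧸ U)), ?_⟩
    funext x
    show N.ρ (helper57.cosetRep U x)⁻¹ (N.ρ (helper57.cosetRep U ((1 : G) : G ⧸ U))
      ((f : G ⧸ U → N) ((1 : G) : G ⧸ U))) = (f : G ⧸ U → N) x
    rw [hU x ((1 : G) : G ⧸ U)]
    simp [← Module.End.mul_apply, ← map_mul]

end Assemble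

/-! ### Bookkeeping -/

section Book

theorem finsum_sigma_fin {I : Type} [Fintype I] (m : I → ℕ) (F : I → ℤ) :
    ∑ᶠ t : (Σ i : I, Fin (m i)), F t.1 = ∑ i, (m i : ℤ) * F i := by
  rw [finsum_eq_sum_of_fintype, Fintype.sum_sigma]
  refine Finset.sum_congr rfl fun i _ => ?_
  simp [Finset.sum_const, Finset.card_univ]

theorem multiplicity_diff {I : Type} [Fintype I] [DecidableEq I] (a : I → ℤ) (n : ℕ)
    (top : I) (F : I → ℤ) :
    (∑ i, (((a i).toNat : ℕ) : ℤ) * F i) -
      (∑ i, ((((-a i).toNat + (if i = top then n else 0) : ℕ)) : ℤ) * F i) =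
      (∑ i, a i * F i) - (n : ℤ) * F top := by
  have key : ∀ i, (((a i).toNat : ℕ) : ℤ) * F i -
      ((((-a i).toNat + (if i = top then n else 0) : ℕ)) : ℤ) * F i =
        a i * F i - (if i = top then (n : ℤ) * F top else 0) := by
    intro i
    have h1 := Int.toNat_sub_toNat_neg (a i)
    split_ifs with hi
    · subst hi
      push_cast
      linear_combination (F i) * h1
    · push_cast
      linear_combination (F i) * h1
  have h2 : ∑ i, ((((a i).toNat : ℕ) : ℤ) * F i -
      ((((-a i).toNat + (if i = top then n else 0) : ℕ)) : ℤ) * F i) =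
        ∑ i, (a i * F i - (if i = top then (n : ℤ) * F top else 0)) :=
    Finset.sum_congr rfl fun i _ => key i
  rw [Finset.sum_sub_distrib, Finset.sum_sub_distrib, Finset.sum_ite_eq'] at h2
  simp only [Finset.mem_univ, if_true] at h2
  exact h2

theorem card_fixed_top {Γ : Type} [Group Γ] (γ : Γ) :
    Nat.card {x : Γ ⧸ (⊤ : Subgroup Γ) | γ • x = x} = 1 := by
  have : Subsingleton (Γ ⧸ (⊤ : Subgroup Γ)) := QuotientGroup.subsingleton_quotient_top
  rw [Nat.card_eq_one_iff_unique]
  exact ⟨⟨fun a b => Subtype.ext (Subsingleton.elim _ _)⟩,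
    ⟨⟨((1 : Γ) : Γ ⧸ (⊤ : Subgroup Γ)), Subsingleton.elim _ _⟩⟩⟩

theorem isCyclicMod_comap {G : Type} [Group G] (N₀ : Subgroup G) [N₀.Normal]
    [Finite (G ⧸ N₀)] (D : Subgroup (G ⧸ N₀)) (hD : IsCyclic D) :
    IsCyclicMod (D.comap (QuotientGroup.mk' N₀)) N₀ := by
  obtain ⟨δ, hδ⟩ := hD.exists_generator
  obtain ⟨c, hc⟩ := QuotientGroup.mk'_surjective N₀ (δ : G ⧸ N₀)
  refine ⟨c, ?_, ?_⟩
  · rw [Subgroup.mem_comap, hc]
    exact δ.2
  · intro x hx
    rw [Subgroup.mem_comap] at hx
    have h1 : (⟨QuotientGroup.mk' N₀ x, hx⟩ : D) ∈ Subgroup.zpowers δ := hδ _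
    rw [← mem_powers_iff_mem_zpowers] at h1
    obtain ⟨m, hm⟩ := h1
    refine ⟨m, ?_⟩
    have h2 : (δ : G ⧸ N₀) ^ m = QuotientGroup.mk' N₀ x := by
      have := congrArg (fun z : D => (z : G ⧸ N₀)) hm
      simpa using this
    rw [← QuotientGroup.eq_one_iff, QuotientGroup.mk_mul, QuotientGroup.mk_inv,
      QuotientGroup.mk_pow]
    rw [QuotientGroup.mk'_apply] at hc h2
    rw [hc, h2, inv_mul_cancel]

end Book

end

end Fermat.Agent.P1.helper86.Art

namespace Fermat.Agent.P1.helper86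

open Fermat.Agent.S55 Fermat.Agent.P1.helper63 Fermat.Agent.P1.helper86.Art

/-- **[EC-ART]** Artin induction in functional form, from ART-COMB, ART-CHAR0 and ART-LAT. -/
theorem artin_induction_of
    (hComb : ∀ (Γ : Type) [Group Γ] [Finite Γ],
      ∃ a : Subgroup Γ → ℤ, (∀ C, a C ≠ 0 → IsCyclic C) ∧
        ∀ γ : Γ, ∑ᶠ C : Subgroup Γ, a C * (Nat.card {x : Γ ⧸ C | γ • x = x} : ℤ) =
          Nat.card Γ)
    (hChar0 : ∀ (Γ : Type) [Group Γ] [Finite Γ] (X Y : Type) [Finite X] [Finite Y]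
      [MulAction Γ X] [MulAction Γ Y],
      (∀ γ : Γ, Nat.card {x : X | γ • x = x} = Nat.card {y : Y | γ • y = y}) →
      ∃ j : (X →₀ ℤ) →ₗ[ℤ] (Y →₀ ℤ), Function.Injective j ∧
        ∀ (γ : Γ) (f : X →₀ ℤ),
          j (Finsupp.mapDomain (γ • ·) f) = Finsupp.mapDomain (γ • ·) (j f))
    {G : Type} [Group G] (𝒩 : Levels G) (p : ℕ) [Fact p.Prime]
    (hLat : ∀ (X Y : Type) [Finite X] [Finite Y] [MulAction G X] [MulAction G Y],
      (∃ N ∈ 𝒩.mem, ∀ s ∈ N, ∀ x : X, s • x = x) →
      (∃ N ∈ 𝒩.mem, ∀ s ∈ N, ∀ y : Y, s • y = y) →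
      ∀ j : (X →₀ ℤ) →ₗ[ℤ] (Y →₀ ℤ), Function.Injective j →
      (∀ (γ : G) (f : X →₀ ℤ),
        j (Finsupp.mapDomain (γ • ·) f) = Finsupp.mapDomain (γ • ·) (j f)) →
      Nat.card X = Nat.card Y →
      ∀ g : Rep.{0} (ZMod p) G → ℤ, IsAddInv 𝒩 g →
        g (Rep.ofMulAction (ZMod p) G X) = g (Rep.ofMulAction (ZMod p) G Y))
    (N₀ : Subgroup G) (hN₀ : N₀ ∈ 𝒩.mem) [Finite (G ⧸ N₀)] :
    ∃ (n : ℕ) (b : Subgroup G →₀ ℤ), 0 < n ∧
      (∀ C ∈ b.support, N₀ ≤ C ∧ IsCyclicMod C N₀) ∧
      ∀ g : Rep.{0} (ZMod p) G → ℤ, IsAddInv 𝒩 g →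
        ∀ N : Rep.{0} (ZMod p) G, Module.Finite (ZMod p) N →
          (∀ s ∈ N₀, ∀ a : N, N.ρ s a = a) →
          (n : ℤ) * g N =
            b.sum fun C c => c * g (indRep (Rep.of (N.ρ.comp C.subtype))) := by
  classical
  have : N₀.Normal := 𝒩.normal N₀ hN₀
  obtain ⟨a, ha_cyc, ha_sum⟩ := hComb (G ⧸ N₀)
  have : Fintype (Subgroup (G ⧸ N₀)) := Fintype.ofFinite _
  set n : ℕ := Nat.card (G ⧸ N₀) with hn
  have hnpos : 0 < n := Nat.card_pos
  -- the index types
  let mX : Subgroup (G ⧸ N₀) → ℕ := fun D => (-a D).toNat + (if D = ⊤ then n else 0)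
  let mY : Subgroup (G ⧸ N₀) → ℕ := fun D => (a D).toNat
  let dX : (Σ D : Subgroup (G ⧸ N₀), Fin (mX D)) → Subgroup (G ⧸ N₀) := fun t => t.1
  let dY : (Σ D : Subgroup (G ⧸ N₀), Fin (mY D)) → Subgroup (G ⧸ N₀) := fun t => t.1
  have hdiff : ∀ F : Subgroup (G ⧸ N₀) → ℤ,
      (∑ᶠ t, F (dY t)) - (∑ᶠ t, F (dX t)) = (∑ D, a D * F D) - (n : ℤ) * F ⊤ := by
    intro F
    rw [finsum_sigma_fin mX F, finsum_sigma_fin mY F]
    exact multiplicity_diff a n ⊤ F
  -- fixed points
  have hfix : ∀ γ : G ⧸ N₀, Nat.card {x : gSet N₀ dX | γ • x = x} =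
      Nat.card {y : gSet N₀ dY | γ • y = y} := by
    intro γ
    rw [gSet.card_fixed, gSet.card_fixed]
    have h1 := hdiff fun D => (Nat.card {x : (G ⧸ N₀) ⧸ D | γ • x = x} : ℤ)
    have h2 := ha_sum γ
    rw [finsum_eq_sum_of_fintype] at h2
    rw [h2, card_fixed_top γ] at h1
    have h3 : (∑ᶠ t, (Nat.card {x : (G ⧸ N₀) ⧸ dX t | γ • x = x} : ℤ)) =
        ∑ᶠ t, (Nat.card {x : (G ⧸ N₀) ⧸ dY t | γ • x = x} : ℤ) := by
      push_cast at h1
      linarith
    rw [finsum_eq_sum_of_fintype, finsum_eq_sum_of_fintype] at h3 ⊢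
    exact_mod_cast h3
  obtain ⟨j, hjinj, hj⟩ := hChar0 (G ⧸ N₀) (gSet N₀ dX) (gSet N₀ dY) hfix
  have hcard : Nat.card (gSet N₀ dX) = Nat.card (gSet N₀ dY) := by
    have h1 := hfix 1
    have eX : {x : gSet N₀ dX | (1 : G ⧸ N₀) • x = x} ≃ gSet N₀ dX :=
      Equiv.subtypeUnivEquiv fun x => one_smul _ x
    have eY : {y : gSet N₀ dY | (1 : G ⧸ N₀) • y = y} ≃ gSet N₀ dY :=
      Equiv.subtypeUnivEquiv fun y => one_smul _ y
    rw [Nat.card_congr eX, Nat.card_congr eY] at h1
    exact h1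
  -- the coefficients
  let φ : Subgroup (G ⧸ N₀) → Subgroup G := fun D => D.comap (QuotientGroup.mk' N₀)
  refine ⟨n, Finsupp.mapDomain φ (Finsupp.equivFunOnFinite.symm a), hnpos, ?_, ?_⟩
  · intro C hC
    have h1 := Finsupp.mapDomain_support hC
    rw [Finset.mem_image] at h1
    obtain ⟨D, hD, rfl⟩ := h1
    rw [Finsupp.mem_support_iff] at hD
    have hD' : a D ≠ 0 := by simpa using hD
    refine ⟨?_, isCyclicMod_comap N₀ D (ha_cyc D hD')⟩
    intro s hs
    show s ∈ D.comap (QuotientGroup.mk' N₀)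
    rw [Subgroup.mem_comap, QuotientGroup.mk'_apply, (QuotientGroup.eq_one_iff s).2 hs]
    exact one_mem _
  · intro g hg N hNfin hNtriv
    have hNsm : IsSmooth 𝒩 N := ⟨N₀, hN₀, hNtriv⟩
    have hgN := isAddInv_tens 𝒩 hg N hNfin hNsm
    have hL := hLat (gSet N₀ dX) (gSet N₀ dY)
      ⟨N₀, hN₀, fun s hs x => gSet.smul_trivial dX hs x⟩
      ⟨N₀, hN₀, fun s hs y => gSet.smul_trivial dY hs y⟩ j hjinj
      (fun γ f => hj (QuotientGroup.mk' N₀ γ) f) hcard (fun A => g (tens N A)) hgN
    have hL' : g (tens N (Rep.ofMulAction (ZMod p) G (gSet N₀ dX))) =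
        g (tens N (Rep.ofMulAction (ZMod p) G (gSet N₀ dY))) := hL
    rw [addInv_tens_perm hg hN₀ N hNfin hNtriv dX,
      addInv_tens_perm hg hN₀ N hNfin hNtriv dY] at hL'
    have h1 := hdiff fun D => g (indRep (Rep.of (N.ρ.comp (φ D).subtype)))
    have h2 : g (indRep (Rep.of (N.ρ.comp (φ ⊤).subtype))) = g N := by
      refine addInv_ind_top hg N hNfin hNsm (φ ⊤) ?_
      intro x y
      induction x using QuotientGroup.induction_on with
      | H u =>
        induction y using QuotientGroup.induction_on with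
        | H v =>
          rw [QuotientGroup.eq]
          show u⁻¹ * v ∈ (⊤ : Subgroup (G ⧸ N₀)).comap (QuotientGroup.mk' N₀)
          rw [Subgroup.mem_comap]
          exact Subgroup.mem_top _
    have h3 : (∑ᶠ t, g (indRep (Rep.of (N.ρ.comp (φ (dY t)).subtype)))) =
        ∑ᶠ t, g (indRep (Rep.of (N.ρ.comp (φ (dX t)).subtype))) := hL'.symm
    rw [h3, sub_self, h2] at h1
    rw [Finsupp.sum_mapDomain_index (fun _ => zero_mul _) (fun _ _ _ => add_mul _ _ _),
      Finsupp.sum_fintype _ _ (fun _ => zero_mul _)]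
    simp only [Finsupp.coe_equivFunOnFinite_symm]
    linarith

end Fermat.Agent.P1.helper86
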