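/-
P1 / module EC, package EC-ART (helper86, task 722): Artin induction in functional form,
UNCONDITIONAL: `artin_induction` = the blueprint statement of
`blueprints/P1/helper63_ECInterface.lean`, verbatim, from
`helper56.artin_fixedPoints` (ART-COMB), `helper41.exists_lattice_map_of_fixedPoints`
(ART-CHAR0) and `helper61.addInv_perm_eq_of_lattice_map` (ART-LAT).
-/
import Fermat.Agent.P1.helper86_ECArt
import Fermat.Agent.P1.helper56_ECArtComb
import Fermat.Agent.P1.helper41_ECArtChar0
import Fermat.Agent.P1.helper61_ECArtLat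

set_option autoImplicit false

noncomputable section

namespace Fermat.Agent.P1.helper86

open Fermat.Agent.S55 Fermat.Agent.P1.helper70 Fermat.Agent.P1.helper63

variable {G : Type} [Group G] (𝒩 : Levels G)

/-- **EC-ART** (Artin induction in functional form): for a level `N₀` of finite index there are
`n > 0` and integers `b_C` (`C ⊇ N₀`, `C / N₀` cyclic) such that for every additive invariant `g`
and every finite dimensional module `N` trivial on `N₀`:
`n * g(N) = ∑_C b_C * g(Ind_C^G Res_C N)`. -/
theorem artin_induction (p : ℕ) [Fact p.Prime] (N₀ : Subgroup G)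
    (hN₀ : N₀ ∈ 𝒩.mem) [Finite (G ⧸ N₀)] :
    ∃ (n : ℕ) (b : Subgroup G →₀ ℤ), 0 < n ∧
      (∀ C ∈ b.support, N₀ ≤ C ∧ IsCyclicMod C N₀) ∧
      ∀ g : Rep.{0} (ZMod p) G → ℤ, IsAddInv 𝒩 g →
        ∀ N : Rep.{0} (ZMod p) G, Module.Finite (ZMod p) N →
          (∀ s ∈ N₀, ∀ a : N, N.ρ s a = a) →
          (n : ℤ) * g N =
            b.sum fun C c => c * g (indRep (Rep.of (N.ρ.comp C.subtype))) :=
  artin_induction_of helper56.artin_fixedPoints helper41.exists_lattice_map_of_fixedPoints
    𝒩 p (helper61.addInv_perm_eq_of_lattice_map 𝒩 p) N₀ hN₀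

end Fermat.Agent.P1.helper86
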