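import Fermat.Agent.P1.helper31_ECTateAsm
import Fermat.Agent.P1.helper60_ECDev
import Fermat.Agent.P1.helper86_ECArtFinal

/-!
# P1 / module EC: `devissage_cyclic` and `tateOut`, verbatim and unconditional in EC-DEV / EC-ART

* `devissage_cyclic` : the interface statement of package EC-DEV, verbatim
  (`helper60.devissage_cyclic_of_art` fed with `helper86.artin_induction`);
* `devOut : DevOut p T` : its instance at `(G_ℚ, galLevels T)`;
* `tateOut` : the interface statement of package EC-TATE-ASM, verbatim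
  (`pPrime p ∈ T → AddOut p T → BaseOut p T → TateOut p T`).
-/

set_option autoImplicit false

open groupCohomology ExtCitation

noncomputable section

namespace Fermat.Agent.P1.helper31

open Fermat.Agent.S55 Fermat.Agent.P1.helper70 Fermat.Agent.P1.helper63

section Dev

variable {G : Type} [Group G] (𝒩 : Levels G)

/-- **EC-DEV** (dévissage to cyclic `p'`-groups), the interface statement verbatim. -/
theorem devissage_cyclic (p : ℕ) [Fact p.Prime] (N₀ : Subgroup G)
    (hN₀ : N₀ ∈ 𝒩.mem) [Finite (G ⧸ N₀)]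
    (g : Rep.{0} (ZMod p) G → ℤ) (hg : IsAddInv 𝒩 g)
    (hbase : ∀ C : Subgroup G, N₀ ≤ C → IsCyclicMod C N₀ →
      ∀ Y : Rep.{0} (ZMod p) ↥C, Module.Finite (ZMod p) Y →
        (∀ u : ↥C, (∃ m : ℕ, (u : G) ^ p ^ m ∈ N₀) → ∀ y : Y, Y.ρ u y = y) →
        g (indRep Y) = 0) :
    ∀ N : Rep.{0} (ZMod p) G, Module.Finite (ZMod p) N →
      (∀ s ∈ N₀, ∀ a : N, N.ρ s a = a) → g N = 0 :=
  Fermat.Agent.P1.helper60.devissage_cyclic_of_art 𝒩 p N₀ hN₀
    (Fermat.Agent.P1.helper86.artin_induction 𝒩 p N₀ hN₀) g hg hbase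

end Dev

variable {p : ℕ} [Fact p.Prime] {T : Finset Nat.Primes}

/-- The output of EC-DEV at `(G_ℚ, galLevels T)`. -/
theorem devOut : DevOut p T :=
  fun N₀ hN₀ _ g hg hb => devissage_cyclic (galLevels T) p N₀ hN₀ g hg hb

/-- **EC-TATE-ASM**, the interface statement verbatim: Tate's global Euler characteristic formula
from additivity of the Tate defect and the base case. -/
theorem tateOut (hpT : pPrime p ∈ T) (hA : AddOut p T) (hbase : BaseOut p T) : TateOut p T :=
  tateOut_of_dev hpT devOut hA hbase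

end Fermat.Agent.P1.helper31
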