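import Fermat.Agent.P1.helper31_ECTateFinal
import Fermat.Agent.P1.helper63_ECAsm

/-!
# P1 / module EC: the field `tate` of `helper63.Packages`
-/

set_option autoImplicit false

noncomputable section

namespace Fermat.Agent.P1.helper31

open Fermat.Agent.S55 Fermat.Agent.P1.helper70 Fermat.Agent.P1.helper63

/-- The package `tate` of `helper63.Packages p T`. -/
theorem pkgTate (p : ℕ) [Fact p.Prime] (T : Finset Nat.Primes) : PkgTate p T :=
  fun hpT hA hbase => tateOut hpT hA hbase

end Fermat.Agent.P1.helper31
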