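import Fermat.Agent.P1.helper7_LSODefs

/-!
# P1 / module LSO, package LSO-CRD (helper31, task 678)

`crd : helper7.CrdStatement` : if the local Galois group at `q` acts on the finite-dimensional
subspace `W` of `N` through the mod `p` cyclotomic character, then the level 1-cocycles with
values in `W` embed (by coordinates in a basis of `W`) into `dim W` copies of
`Z¹(G_q, 𝔽_p(ω)) = cycloZ1 p q`.
-/

set_option autoImplicit false

open IsLocalRing ExtCitation groupCohomology

noncomputable section

namespace Fermat.Agent.P1.helper31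

open Fermat.Agent.S55 Fermat.Agent.P1.helper70 Fermat.Agent.P1.helper7

section Crd

variable {p : ℕ} [Fact p.Prime] {q : Nat.Primes} {N : Rep (ZMod p) (primeLocalGaloisGroup q)}
  {W : Submodule (ZMod p) N}

/-- The cocycle relation in the form `c (g h) = c g + g • c h`. -/
lemma crd_cocycle {c : primeLocalGaloisGroup q → N} (hc : c ∈ Z1 (locLevels q) N)
    (g h : primeLocalGaloisGroup q) : c (g * h) = c g + N.ρ g (c h) := by
  have h1 : (d₁₂ N).hom c = 0 := LinearMap.mem_ker.1 hc.2
  have h2 : (d₁₂ N).hom c (g, h) = 0 := by rw [h1]; rfl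
  rw [d₁₂_hom_apply] at h2
  have h3 : N.ρ g (c h) + c g = c (g * h) := by
    have := sub_eq_zero.1 (by rw [← h2]; abel : N.ρ g (c h) + c g - c (g * h) = 0)
    exact this
  rw [← h3, add_comm]

/-- The value of a cocycle with values in `W`, as an element of `W`. -/
def crdVal (c : ↥(Z1In (locLevels q) N W)) (g : primeLocalGaloisGroup q) : ↥W :=
  ⟨c.1 g, (mem_Z1In.1 c.2).2 g⟩

lemma crdVal_add (c c' : ↥(Z1In (locLevels q) N W)) (g : primeLocalGaloisGroup q) :
    crdVal (c + c') g = crdVal c g + crdVal c' g := rfl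

lemma crdVal_smul (a : ZMod p) (c : ↥(Z1In (locLevels q) N W))
    (g : primeLocalGaloisGroup q) : crdVal (a • c) g = a • crdVal c g := rfl

/-- The `i`-th coordinate of a cocycle with values in `W`. -/
def crdCoord {ι : Type} (b : Module.Basis ι (ZMod p) ↥W)
    (c : ↥(Z1In (locLevels q) N W)) (i : ι) : primeLocalGaloisGroup q → ZMod p :=
  fun g => b.repr (crdVal c g) i

lemma crdCoord_mem {ι : Type} (b : Module.Basis ι (ZMod p) ↥W)
    (hact : ∀ g : primeLocalGaloisGroup q, ∀ w ∈ W,
      N.ρ g w = (cycloChar p (primeLocalToGlobal q g) : ZMod p) • w)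
    (c : ↥(Z1In (locLevels q) N W)) (i : ι) : crdCoord b c i ∈ cycloZ1 p q := by
  have hc := mem_Z1In.1 c.2
  rw [mem_cycloZ1]
  refine ⟨?_, fun g h => ?_⟩
  · obtain ⟨M, hM, hlev⟩ := hc.1.1
    refine ⟨M, hM, fun g s hs => ?_⟩
    have : crdVal c (g * s) = crdVal c g := Subtype.ext (hlev g s hs)
    simp only [crdCoord, this]
  · have : crdVal c (g * h)
        = crdVal c g + (cycloChar p (primeLocalToGlobal q g) : ZMod p) • crdVal c h := by
      apply Subtype.ext
      rw [Submodule.coe_add, Submodule.coe_smul]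
      change c.1 (g * h) = c.1 g + _ • c.1 h
      rw [crd_cocycle hc.1 g h, hact g _ (hc.2 h)]
    simp only [crdCoord, this, map_add, map_smul, Finsupp.coe_add, Finsupp.coe_smul,
      Pi.add_apply, Pi.smul_apply, smul_eq_mul]

/-- The coordinate map `Z¹(G_q, W) → (cycloZ1 p q)^ι`. -/
def crdMap {ι : Type} (b : Module.Basis ι (ZMod p) ↥W)
    (hact : ∀ g : primeLocalGaloisGroup q, ∀ w ∈ W,
      N.ρ g w = (cycloChar p (primeLocalToGlobal q g) : ZMod p) • w) :
    ↥(Z1In (locLevels q) N W) →ₗ[ZMod p] (ι → ↥(cycloZ1 p q)) where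
  toFun c i := ⟨crdCoord b c i, crdCoord_mem b hact c i⟩
  map_add' c c' := by
    funext i
    apply Subtype.ext
    funext g
    simp only [crdCoord, crdVal_add, map_add, Finsupp.coe_add, Pi.add_apply,
      Submodule.coe_add]
  map_smul' a c := by
    funext i
    apply Subtype.ext
    funext g
    simp only [crdCoord, crdVal_smul, map_smul, Finsupp.coe_smul, Pi.smul_apply, smul_eq_mul,
      RingHom.id_apply, Submodule.coe_smul]

lemma crdMap_injective {ι : Type} (b : Module.Basis ι (ZMod p) ↥W)
    (hact : ∀ g : primeLocalGaloisGroup q, ∀ w ∈ W,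
      N.ρ g w = (cycloChar p (primeLocalToGlobal q g) : ZMod p) • w) :
    Function.Injective (crdMap b hact) := by
  rw [← LinearMap.ker_eq_bot, LinearMap.ker_eq_bot']
  intro c hc
  apply Subtype.ext
  funext g
  have h1 : b.repr (crdVal c g) = 0 := by
    apply Finsupp.ext
    intro i
    have h2 := congrArg (fun f : ι → ↥(cycloZ1 p q) => (f i).1 g) hc
    exact h2
  have h3 : crdVal c g = 0 := by
    rw [← b.repr.map_eq_zero_iff]
    exact h1
  exact congrArg Subtype.val h3

end Crd

/-- **LSO-CRD** (verbatim). -/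
theorem crd : CrdStatement := by
  intro p _ q N W hW hact hZ
  haveI := hW
  haveI := hZ
  let b := Module.finBasis (ZMod p) ↥W
  have hinj := crdMap_injective b hact
  refine ⟨Module.Finite.of_injective (crdMap b hact) hinj, ?_⟩
  have h1 := LinearMap.finrank_le_finrank_of_injective hinj
  rw [Module.finrank_pi_fintype, Finset.sum_const, Finset.card_univ, Fintype.card_fin,
    smul_eq_mul] at h1
  exact h1

end Fermat.Agent.P1.helper31
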