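import Fermat.Agent.P1.helper8_SelDefs
import Fermat.Agent.S13.helper92_Minkowski
import Fermat.Agent.S55.helper69_BArLev
import Fermat.Agent.S55.helper96_BArDeg
import Fermat.Agent.S55.helper74_LocalLevels

/-!
# P1 (S56), module SEL, package [SEL-INFL] (helper34, task 696)

`infl p : helper8.InflStatement p`: a level-`T'` cocycle `x` of a module `N` of level `S₀ ⊆ T'`
whose restrictions to the local Galois groups at the primes of `T' \ S₀` are coboundaries has
level `S₀`.

Proof: `N₀ = F₀.fixingSubgroup` a level of `S₀` acting trivially on `N`;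
`H = {s ∈ N₀ | x s = 0}` is an open normal subgroup of `G_ℚ` (`x` is additive on `N₀` and
`x (g s g⁻¹) = g • x s`), it contains all inertia groups at the primes outside `S₀`
(outside `T'` by the level of `x`; at `v ∈ T' \ S₀` because `x` is locally a coboundary and
inertia acts trivially on `N`), hence `H` is a level of `S₀`, and `x` is constant on its cosets.
-/

set_option autoImplicit false

open groupCohomology ExtCitation
open scoped Pointwise

noncomputable section

namespace Fermat.Agent.P1.helper34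

open Fermat.Agent.S55

section Abstract

variable {k G : Type} [CommRing k] [Group G] {A : Rep k G}

/-- the cocycle identity -/
lemma coc_mul {x : G → A} (hx : (d₁₂ A).hom x = 0) (g h : G) :
    x (g * h) = A.ρ g (x h) + x g := by
  have h0 : (d₁₂ A).hom x (g, h) = 0 := by
    rw [hx]
    rfl
  rw [d₁₂_hom_apply] at h0
  simp only at h0
  rw [sub_add_eq_add_sub, sub_eq_zero] at h0
  exact h0.symm

lemma coc_one {x : G → A} (hx : (d₁₂ A).hom x = 0) : x 1 = 0 := by
  have := coc_mul hx 1 1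
  simpa using this

/-- conjugation: `x (g s g⁻¹) = g • x s` if `s` acts trivially. -/
lemma coc_conj {x : G → A} (hx : (d₁₂ A).hom x = 0) (g s : G) (hs : ∀ a : A, A.ρ s a = a) :
    x (g * s * g⁻¹) = A.ρ g (x s) := by
  have h1 : A.ρ g (x g⁻¹) + x g = 0 := by
    rw [← coc_mul hx g g⁻¹, mul_inv_cancel, coc_one hx]
  rw [coc_mul hx (g * s) g⁻¹, coc_mul hx g s, map_mul, Module.End.mul_apply, hs]
  rw [add_comm (A.ρ g (x s)), ← add_assoc, h1, zero_add]

end Abstract

/-- **[SEL-INFL]** -/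
theorem infl (p : ℕ) : Fermat.Agent.P1.helper8.InflStatement p := by
  intro S₀ T' hST N hN x hx hloc
  obtain ⟨N0, ⟨hN0n, F0, hF0, rfl⟩, htriv⟩ := hN
  obtain ⟨⟨N1, ⟨hN1n, F, hF, rfl⟩, hlev⟩, hcoc⟩ := hx
  have hcoc' : (d₁₂ N).hom x = 0 := hcoc
  refine ⟨?_, hcoc⟩
  -- the subgroup `H`
  let H : Subgroup GQ :=
    { carrier := {s | s ∈ F0.fixingSubgroup ∧ x s = 0}
      mul_mem' := by
        rintro s t ⟨hs, hxs⟩ ⟨ht, hxt⟩
        refine ⟨mul_mem hs ht, ?_⟩
        rw [coc_mul hcoc' s t, hxt, hxs, map_zero, add_zero]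
      one_mem' := ⟨one_mem _, coc_one hcoc'⟩
      inv_mem' := by
        rintro s ⟨hs, hxs⟩
        refine ⟨inv_mem hs, ?_⟩
        have h1 := coc_mul hcoc' s s⁻¹
        rw [mul_inv_cancel, coc_one hcoc', hxs, add_zero, htriv s hs] at h1
        exact h1.symm }
  have hHmem : ∀ s : GQ, s ∈ H ↔ s ∈ F0.fixingSubgroup ∧ x s = 0 := fun _ => Iff.rfl
  have hHnormal : H.Normal := by
    refine ⟨fun s hs g => ?_⟩
    rw [hHmem] at hs ⊢
    refine ⟨hN0n.conj_mem s hs.1 g, ?_⟩
    rw [coc_conj hcoc' g s (htriv s hs.1), hs.2, map_zero]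
  have hFle : (F ⊔ F0).fixingSubgroup ≤ H := by
    intro s hs
    rw [IntermediateField.fixingSubgroup_sup] at hs
    refine ⟨hs.2, ?_⟩
    have := hlev 1 s hs.1
    rw [one_mul, coc_one hcoc'] at this
    exact this
  have hHopen : IsOpen (H : Set GQ) := by
    have := hF.1
    have := hF0.1
    have : FiniteDimensional ℚ ↥(F ⊔ F0) := IntermediateField.finiteDimensional_sup F F0
    exact Subgroup.isOpen_mono hFle (IntermediateField.fixingSubgroup_isOpen (F ⊔ F0))
  have hE := Fermat.Agent.S13.helper92.fixingSubgroup_fixedField_of_isOpen H hHopen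
  refine ⟨H, ⟨hHnormal, IntermediateField.fixedField H,
    ⟨Fermat.Agent.S13.helper92.finiteDimensional_fixedField_of_isOpen H hHopen, ?_⟩,
    hE.symm⟩, ?_⟩
  · -- unramified outside `S₀`
    intro q hq A hA σ hσ
    rw [hE, hHmem]
    have hσ0 : σ ∈ F0.fixingSubgroup := hF0.2 q hq A hA hσ
    refine ⟨hσ0, ?_⟩
    by_cases hqT : q ∈ T'
    · -- `q ∈ T' \ S₀`
      obtain ⟨m, hm⟩ := hloc ⟨q, hqT⟩ hq
      have hP := Fermat.Agent.S55.helper74.primeLocalPlace_liesOverPrime q
      obtain ⟨τ, rfl⟩ := Fermat.Agent.S55.helper96.exists_smul_eq_of_liesOverPrime q.2 hP hA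
      rw [Fermat.Agent.S55.helper69.inertiaSubgroupIn_smul] at hσ
      obtain ⟨σ₀, hσ₀, rfl⟩ := hσ
      have hσ₀F : σ₀ ∈ F0.fixingSubgroup := hF0.2 q hq _ hP hσ₀
      have hdec : σ₀ ∈ (primeLocalPlace q).decompositionSubgroup ℚ :=
        ((Fermat.Agent.S55.helper69.mem_inertiaSubgroupIn_iff_nonunits _ σ₀).1 hσ₀).1
      obtain ⟨s, hs⟩ := Fermat.Agent.S55.helper74.exists_primeLocalToGlobal_eq q hdec
      have h1 := congrFun hm s
      have h2 : x σ₀ = 0 := by
        have h3 : x σ₀ = N.ρ σ₀ m - m := by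
          rw [← hs]
          exact h1.symm
        rw [h3, htriv σ₀ hσ₀F, sub_self]
      show x (τ * σ₀ * τ⁻¹) = 0
      rw [coc_conj hcoc' τ σ₀ (htriv σ₀ hσ₀F), h2, map_zero]
    · -- `q ∉ T'`
      have hσF : σ ∈ F.fixingSubgroup := hF.2 q hqT A hA hσ
      have := hlev 1 σ hσF
      rw [one_mul, coc_one hcoc'] at this
      exact this
  · intro g s hs
    rw [coc_mul hcoc' g s, ((hHmem s).1 hs).2, map_zero, zero_add]

end Fermat.Agent.P1.helper34
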