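import Fermat.Agent.P1.helper35_BSUnitsCore
import Fermat.Agent.S13.helper92_Minkowski
import Fermat.Agent.S55.helper92_SmoothLevel

/-!
# P1 / module EC / BASE-STAR / package BS-UNITS (helper35): arithmetic preparations

* `exists_order`       : `∃ n > 0, p ∤ n ∧ c^n ∈ P`;
* `isOpen_pSub`, `numberField_K1` : `P` is open, `K₁` is a number field;
* `cycloChar_eq_one_of_mem_pSub` : `χ` is trivial on `P`;
* `rho_eq_one_of_mem_pSub`       : `P` acts trivially on `Y`;
* `sigmaC_pow_coe`     : `σ_c^d` is the restriction of `c^d`;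
* `mem_sUnits_of_pow_mem`, `mem_sUnits_of_pow_eq_one` : the `T`-units are saturated and contain
                         the roots of unity.
-/

set_option autoImplicit false
set_option linter.style.haveILetI false
set_option linter.unusedSectionVars false

open groupCohomology ExtCitation

noncomputable section

namespace Fermat.Agent.P1.helper35.BSU

open Fermat.Agent.S55 Fermat.Agent.P1.helper70 Fermat.Agent.P1.helper63 Fermat.Agent.P1.helper7

variable {p : ℕ} [Fact p.Prime] {T : Finset Nat.Primes} (D : BSData p T)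

/-! ## Group theory of `C ⊇ P ⊇ N₀` -/

lemma finite_quotient_N₀ : Finite (GQ ⧸ D.N₀) :=
  Fermat.Agent.S55.helper92.finite_quotient_of_mem_galLevels T D.N₀ D.hN₀

lemma finite_quotient_pSub : Finite (GQ ⧸ D.pSub) := by
  haveI := finite_quotient_N₀ D
  exact Finite.of_surjective (Quotient.map' id (fun a b hab => by
    rw [QuotientGroup.leftRel_apply] at hab ⊢
    exact D.le_pSub hab) : GQ ⧸ D.N₀ → GQ ⧸ D.pSub) (by
      intro q
      induction q using Quotient.inductionOn' with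
      | h a => exact ⟨QuotientGroup.mk a, rfl⟩)

/-- `∃ n > 0, p ∤ n ∧ c^n ∈ P` -/
lemma exists_order : ∃ n : ℕ, 0 < n ∧ ¬ p ∣ n ∧ D.c ^ n ∈ D.pSub := by
  have hp : p.Prime := Fact.out
  haveI := D.normal_N₀
  haveI := finite_quotient_N₀ D
  set x : GQ ⧸ D.N₀ := QuotientGroup.mk D.c with hx
  have hm : 0 < orderOf x := orderOf_pos x
  obtain ⟨a, n, hn, hmn⟩ := Nat.exists_eq_pow_mul_and_not_dvd hm.ne' p hp.ne_one
  refine ⟨n, Nat.pos_of_ne_zero (fun h => by simp [h] at hn), hn, ?_⟩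
  refine Subgroup.subset_closure ⟨D.C.pow_mem D.hc n, a, ?_⟩
  have h1 : x ^ (p ^ a * n) = 1 := by rw [← hmn]; exact pow_orderOf_eq_one x
  have h2 : (QuotientGroup.mk ((D.c ^ n) ^ p ^ a) : GQ ⧸ D.N₀) = 1 := by
    rw [← pow_mul, mul_comm, QuotientGroup.mk_pow]
    exact h1
  exact (QuotientGroup.eq_one_iff _).1 h2

lemma isOpen_N₀ : IsOpen (D.N₀ : Set GQ) := by
  obtain ⟨-, F, hF, hN⟩ := D.hN₀
  haveI := hF.1
  rw [hN]
  exact IntermediateField.fixingSubgroup_isOpen F

lemma isOpen_pSub : IsOpen (D.pSub : Set GQ) :=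
  Subgroup.isOpen_mono D.le_pSub (isOpen_N₀ D)

/-- `K₁` is a number field. -/
theorem numberField_K1 : NumberField ↥D.K1 :=
  Fermat.Agent.S13.helper92.numberField_fixedField_of_isOpen D.pSub (isOpen_pSub D)

/-- `χ` is trivial on `P`. -/
lemma cycloChar_eq_one_of_mem_pSub {u : GQ} (hu : u ∈ D.pSub) : cycloChar p u = 1 := by
  have hp : p.Prime := Fact.out
  induction hu using Subgroup.closure_induction with
  | mem x hx =>
    obtain ⟨-, m, hm⟩ := hx
    have h1 : (cycloChar p x) ^ p ^ m = 1 := by rw [← map_pow]; exact D.hχ _ hm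
    have h2 : (cycloChar p x) ^ (p - 1) = 1 := by
      have := ZMod.pow_card_sub_one_eq_one (p := p) (a := ((cycloChar p x : (ZMod p)ˣ) : ZMod p))
        (Units.ne_zero _)
      apply Units.ext
      rw [Units.val_pow_eq_pow_val, this, Units.val_one]
    have hcop : Nat.Coprime (p ^ m) (p - 1) := by
      apply Nat.Coprime.pow_left
      rw [Nat.coprime_comm]
      apply Nat.Coprime.symm
      rw [Nat.Prime.coprime_iff_not_dvd hp]
      intro h
      have := Nat.le_of_dvd (by have := hp.two_le; omega) h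
      have := hp.two_le
      omega
    have h3 := orderOf_dvd_of_pow_eq_one h1
    have h4 := orderOf_dvd_of_pow_eq_one h2
    have h5 : orderOf (cycloChar p x) = 1 :=
      Nat.eq_one_of_dvd_coprimes hcop h3 h4
    exact orderOf_eq_one_iff.1 h5
  | one => exact map_one _
  | mul x y _ _ hx hy => rw [map_mul, hx, hy, one_mul]
  | inv x _ hx => rw [map_inv, hx, inv_one]

/-- `P` acts trivially on `Y`. -/
lemma rho_eq_one_of_mem_pSub {Y : Rep.{0} (ZMod p) ↥D.C} (hY : YOk D Y) {u : GQ}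
    (hu : u ∈ D.pSub) : ∀ hC : u ∈ D.C, Y.ρ ⟨u, hC⟩ = 1 := by
  induction hu using Subgroup.closure_induction with
  | mem x hx =>
    intro hC
    apply LinearMap.ext
    intro y
    exact hY.2 ⟨x, hC⟩ hx.2 y
  | one =>
    intro hC
    have : (⟨1, hC⟩ : ↥D.C) = 1 := rfl
    rw [this, map_one]
  | mul x y hx hy ihx ihy =>
    intro hC
    have hxC : x ∈ D.C := D.pSub_le hx
    have hyC : y ∈ D.C := D.pSub_le hy
    have : (⟨x * y, hC⟩ : ↥D.C) = ⟨x, hxC⟩ * ⟨y, hyC⟩ := rfl
    rw [this, map_mul, ihx hxC, ihy hyC, mul_one]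
  | inv x hx ihx =>
    intro hC
    have hxC : x ∈ D.C := D.pSub_le hx
    have h1 : Y.ρ (⟨x⁻¹, hC⟩ : ↥D.C) * Y.ρ ⟨x, hxC⟩ = 1 := by
      rw [← map_mul]
      have : (⟨x⁻¹, hC⟩ : ↥D.C) * ⟨x, hxC⟩ = 1 := Subtype.ext (inv_mul_cancel x)
      rw [this, map_one]
    rwa [ihx hxC, mul_one] at h1

/-! ## The automorphism `σ_c` -/

lemma sigmaC_pow_coe (d : ℕ) (x : ↥D.K1) :
    (((D.sigmaC ^ d) x : ↥D.K1) : AlgebraicClosure ℚ) = (D.c ^ d) (x : AlgebraicClosure ℚ) := by
  induction d generalizing x with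
  | zero => simp
  | succ d ih =>
    rw [pow_succ, pow_succ, AlgEquiv.mul_apply, AlgEquiv.mul_apply, ih, BSData.coe_sigmaC]

lemma apply_eq_of_mem_pSub {u : GQ} (hu : u ∈ D.pSub) (x : ↥D.K1) :
    u (x : AlgebraicClosure ℚ) = x :=
  (D.mem_K1_iff _).1 x.2 u hu

lemma sigmaC_pow_eq_one {n : ℕ} (hn : D.c ^ n ∈ D.pSub) : D.sigmaC ^ n = 1 := by
  apply AlgEquiv.ext
  intro x
  apply Subtype.ext
  rw [sigmaC_pow_coe, AlgEquiv.one_apply]
  exact apply_eq_of_mem_pSub D hn x

end Fermat.Agent.P1.helper35.BSU
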