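import Fermat.Agent.P1.helper35_BSUnitsO
import Fermat.Agent.S55.helper57_ShData

/-!
# P1 / module EC / BASE-STAR / package BS-UNITS (helper35): the assembly

`units_of` : `helper7.UnitsStatement p T` (the equivariant Dirichlet unit theorem modulo `p`)

  `dim Y^c + ∑_v mult(y', k[D_v\G/P]) ≤ mult(z, 𝐔) + dim Y'^c`

from the Kummer bridge (`KumBridgeStatement`), the abstract packages (`AbsLatStatement`,
`AbsSymmStatement`, `AbsDualStatement`, `AbsAddStatement`) and the sub-packages of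
`helper35_BSUnitsDefs` (`DcOrbitStatement`, `DcFunStatement`, `SigmaStatement`, `TFreeStatement`,
`TorsStatement`, `RankStatement`).
-/

set_option autoImplicit false
set_option linter.style.haveILetI false
set_option linter.unusedSectionVars false

open groupCohomology ExtCitation

noncomputable section

namespace Fermat.Agent.P1.helper35.BSU

open Fermat.Agent.S55 Fermat.Agent.P1.helper70 Fermat.Agent.P1.helper63 Fermat.Agent.P1.helper7

/-! ## Linear algebra -/

section Lin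

variable {k : Type} [Field k] {A : Type} [AddCommGroup A] [Module k A]

lemma dualMap_pow_eq (f : A →ₗ[k] A) (n : ℕ) : f.dualMap ^ n = (f ^ n).dualMap := by
  induction n with
  | zero =>
    rw [pow_zero, pow_zero]
    exact LinearMap.dualMap_id.symm
  | succ n ih =>
    rw [pow_succ, ih, pow_succ']
    exact LinearMap.dualMap_comp_dualMap _ _

end Lin

/-! ## The assembly -/

section Asm

variable {p : ℕ} [Fact p.Prime] {T : Finset Nat.Primes} (D : BSData p T)

lemma finite_Xv (v : Option ↥T) : Finite (Data.Xv D v) := by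
  haveI : Finite (GQ ⧸ D.pSub) := finite_quotient_pSub D
  exact Fermat.Agent.S55.helper57.finite_doubleCoset_quotient D.pSub (D.dec v)

/-- `π^n = 1` when `c^n ∈ P` -/
lemma piv_pow_apply (v : Option ↥T) (n : ℕ) (g : GQ) :
    (Data.piv D v ^ n) (DoubleCoset.mk (D.dec v) D.pSub g) =
      DoubleCoset.mk (D.dec v) D.pSub (g * D.c ^ n) := by
  induction n generalizing g with
  | zero => simp
  | succ n ih =>
    rw [pow_succ, Equiv.Perm.mul_apply]
    have h1 : Data.piv D v (DoubleCoset.mk (D.dec v) D.pSub g) =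
        DoubleCoset.mk (D.dec v) D.pSub (g * D.c) := rfl
    rw [h1, ih, pow_succ', mul_assoc]

lemma piv_pow_eq_one (v : Option ↥T) {n : ℕ} (hn : D.c ^ n ∈ D.pSub) : Data.piv D v ^ n = 1 := by
  apply Equiv.ext
  intro q
  induction q using Quotient.inductionOn' with
  | h g =>
    change (Data.piv D v ^ n) (DoubleCoset.mk (D.dec v) D.pSub g) =
      DoubleCoset.mk (D.dec v) D.pSub g
    rw [piv_pow_apply]
    refine (DoubleCoset.eq _ _ _ _).2 ⟨1, (D.dec v).one_mem, (D.c ^ n)⁻¹, D.pSub.inv_mem hn, ?_⟩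
    rw [one_mul, mul_inv_cancel_right]

lemma piX_pow_apply (n : ℕ) (s : Data.X D) :
    (Data.piX D ^ n) s = ⟨s.1, (Data.piv D s.1 ^ n) s.2⟩ := by
  induction n generalizing s with
  | zero => rfl
  | succ n ih =>
    rw [pow_succ, pow_succ, Equiv.Perm.mul_apply, Equiv.Perm.mul_apply]
    exact ih _

lemma piX_pow_eq_one {n : ℕ} (hn : D.c ^ n ∈ D.pSub) : Data.piX D ^ n = 1 := by
  apply Equiv.ext
  intro s
  rw [piX_pow_apply, piv_pow_eq_one D s.1 hn]
  rfl

lemma rtr_mem_dcFun (v : Option ↥T) (x : GQ → ZMod p)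
    (hx : x ∈ dcFun (k := ZMod p) (D.dec v) D.pSub) :
    rtr D.c x ∈ dcFun (k := ZMod p) (D.dec v) D.pSub := by
  intro d hd u hu g
  rw [rtr_apply, rtr_apply]
  have h := hx d hd (D.c⁻¹ * u * D.c) (D.conj_mem_pSub' hu) (g * D.c)
  rw [← h]
  congr 1
  group

variable (Y : Rep.{0} (ZMod p) ↥D.C)

lemma cC_inv_pow_eq (n : ℕ) (h : (D.c ^ n)⁻¹ ∈ D.C) :
    (D.cC⁻¹ ^ n : ↥D.C) = ⟨(D.c ^ n)⁻¹, h⟩ := by
  apply Subtype.ext
  simp [BSData.cC]

lemma zY_pow_eq_one (hY : YOk D Y) {n : ℕ} (hn : D.c ^ n ∈ D.pSub) : D.zY Y ^ n = 1 := by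
  have h1 : (D.c ^ n)⁻¹ ∈ D.pSub := D.pSub.inv_mem hn
  have h2 : Y.ρ (D.cC⁻¹) ^ n = 1 := by
    rw [← map_pow, cC_inv_pow_eq D n (D.pSub_le h1)]
    exact rho_eq_one_of_mem_pSub D hY h1 _
  unfold BSData.zY
  rw [dualMap_pow_eq, h2]
  exact LinearMap.dualMap_id

lemma cycloChar_pow_eq_one {n : ℕ} (hn : D.c ^ n ∈ D.pSub) : cycloChar p D.c ^ n = 1 := by
  rw [← map_pow]
  exact cycloChar_eq_one_of_mem_pSub D hn

lemma rho_cC_inv_apply (y : Y) : Y.ρ D.cC⁻¹ (Y.ρ D.cC y) = y := by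
  rw [← Module.End.mul_apply, ← map_mul, inv_mul_cancel, map_one, Module.End.one_apply]

lemma rho_cC_apply_inv (y : Y) : Y.ρ D.cC (Y.ρ D.cC⁻¹ y) = y := by
  rw [← Module.End.mul_apply, ← map_mul, mul_inv_cancel, map_one, Module.End.one_apply]

lemma ker_rho_inv_sub_one :
    LinearMap.ker (Y.ρ D.cC⁻¹ - 1) = LinearMap.ker (Y.ρ D.cC - 1) := by
  ext y
  rw [LinearMap.mem_ker, LinearMap.mem_ker, LinearMap.sub_apply, LinearMap.sub_apply,
    Module.End.one_apply, sub_eq_zero, sub_eq_zero]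
  constructor
  · intro h
    have := rho_cC_apply_inv D Y y
    rwa [h] at this
  · intro h
    have := rho_cC_inv_apply D Y y
    rwa [h] at this

lemma fixY_eq (hSymm : AbsSymmStatement) [Module.Finite (ZMod p) Y] :
    D.fixY Y = mlt (D.zY Y) (1 : ZMod p →ₗ[ZMod p] ZMod p) := by
  rw [mlt_one_eq hSymm]
  unfold BSData.fixY BSData.zY
  rw [finrank_ker_dualMap_sub_one, ker_rho_inv_sub_one]

lemma fixY'_eq (hSymm : AbsSymmStatement) [Module.Finite (ZMod p) Y] :
    D.fixY' Y = mlt (((cycloChar p D.c : (ZMod p)ˣ) : ZMod p) • D.zY Y)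
      (1 : ZMod p →ₗ[ZMod p] ZMod p) := by
  rw [mlt_one_eq hSymm]
  rfl

lemma zTw_comp_yTw_dualMap :
    (((cycloChar p D.c : (ZMod p)ˣ) : ZMod p) • D.zY Y) ∘ₗ (D.yTw Y).dualMap = LinearMap.id := by
  apply LinearMap.ext
  intro ξ
  apply LinearMap.ext
  intro y
  have hχ : ((cycloChar p D.c : (ZMod p)ˣ) : ZMod p) *
      (((cycloChar p D.c)⁻¹ : (ZMod p)ˣ) : ZMod p) = 1 := by
    rw [← Units.val_mul, mul_inv_cancel, Units.val_one]
  simp only [LinearMap.comp_apply, LinearMap.smul_apply, BSData.zY, BSData.yTw,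
    LinearMap.dualMap_apply, LinearMap.id_apply, map_smul, smul_eq_mul]
  rw [rho_cC_apply_inv, ← mul_assoc, hχ, one_mul]

lemma yTw_dualMap_comp_zTw :
    (D.yTw Y).dualMap ∘ₗ (((cycloChar p D.c : (ZMod p)ˣ) : ZMod p) • D.zY Y) = LinearMap.id := by
  apply LinearMap.ext
  intro ξ
  apply LinearMap.ext
  intro y
  have hχ : ((cycloChar p D.c : (ZMod p)ˣ) : ZMod p) *
      (((cycloChar p D.c)⁻¹ : (ZMod p)ˣ) : ZMod p) = 1 := by
    rw [← Units.val_mul, mul_inv_cancel, Units.val_one]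
  simp only [LinearMap.comp_apply, LinearMap.smul_apply, BSData.zY, BSData.yTw,
    LinearMap.dualMap_apply, LinearMap.id_apply, map_smul, smul_eq_mul]
  rw [rho_cC_inv_apply, ← mul_assoc, hχ, one_mul]

/-- **BS-UNITS, conditional assembly.** -/
theorem units_of (hKum : KumBridgeStatement p T) (hLat : AbsLatStatement)
    (hSymm : AbsSymmStatement) (hDual : AbsDualStatement) (hAdd : AbsAddStatement)
    (hDcO : DcOrbitStatement) (hDcF : DcFunStatement) (hSig : SigmaStatement)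
    (hTF : TFreeStatement) (hTors : TorsStatement p T) (hRank : RankStatement p T) :
    UnitsStatement p T := by
  intro hp2 hpT _ _ D Y hY
  classical
  have hp : p.Prime := Fact.out
  haveI := numberField_K1 D
  haveI : Module.Finite (ZMod p) Y := hY.1
  haveI : Module.Finite ℤ (Oa D) := finite_Oa D
  obtain ⟨n, -, hpn, hcn⟩ := exists_order D
  obtain ⟨κ, hκ1, -, -, hκ4, hκ5, hκ6⟩ := hKum hp2 hpT D
  obtain ⟨x₀, hx₀, hx₀', hfix⟩ := hTors hp2 hpT D
  haveI hfinX : ∀ v, Finite (Data.Xv D v) := fun v => finite_Xv D v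
  letI : ∀ v, Fintype (Data.Xv D v) := fun v => Fintype.ofFinite _
  -- the Kummer map on the `T`-units
  have hker : ∀ a : Oa D, (κ.comp (inclA D)) a = 0 ↔ ∃ b, a = p • b := by
    intro a
    rw [exists_eq_nsmul_iff D p hp.pos a]
    exact hκ1 _
  have hcs : ∀ a : Oa D, D.cs ((κ.comp (inclA D)) a) =
      (((cycloChar p D.c)⁻¹ : (ZMod p)ˣ) : ZMod p) • (κ.comp (inclA D)) (sigA D a) := by
    intro a
    exact hκ4 _
  have hU : ∀ x, x ∈ D.Usp ↔ ∃ a : Oa D, (κ.comp (inclA D)) a = x := by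
    intro x
    rw [hκ5]
    constructor
    · rintro ⟨a, ha, rfl⟩
      exact ⟨Additive.ofMul ⟨a, ha⟩, rfl⟩
    · rintro ⟨a, rfl⟩
      exact ⟨_, (Additive.toMul a).2, rfl⟩
  have hM : ∀ x, x ∈ D.Msp ↔ ∃ a ∈ Submodule.torsion ℤ (Oa D), (κ.comp (inclA D)) a = x := by
    intro x
    rw [hκ6]
    constructor
    · rintro ⟨a, ⟨m, hm, ham⟩, rfl⟩
      refine ⟨Additive.ofMul ⟨a, mem_sUnits_of_pow_eq_one T hm ham⟩, ?_, rfl⟩
      rw [mem_torsion_Oa_iff]
      exact ⟨m, hm, ham⟩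
    · rintro ⟨a, ha, rfl⟩
      rw [mem_torsion_Oa_iff] at ha
      exact ⟨_, ha, rfl⟩
  -- ranks
  have hrank : ∀ d : ℕ, Module.finrank ℤ ↥(LinearMap.ker (sigA D ^ d - 1)) + 1 =
      Nat.card (MulAction.orbitRel.Quotient ↥(Subgroup.zpowers (Data.piX D ^ d)) (Data.X D)) := by
    intro d
    have h1 := (kerEquiv D d).finrank_eq
    have h2 := hRank hp2 hpT D d
    have h3 : Nat.card (MulAction.orbitRel.Quotient ↥(Subgroup.zpowers (Data.piX D ^ d))
        (Data.X D)) = ∑ v, Nat.card (MulAction.orbitRel.Quotient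
          ↥(Subgroup.zpowers (Data.piv D v ^ d)) (Data.Xv D v)) :=
      (hSig (Option ↥T) (Data.Xv D) (Data.piv D)).1 d
    have h4 : ∀ v, Nat.card (MulAction.orbitRel.Quotient
        ↥(Subgroup.zpowers (Data.piv D v ^ d)) (Data.Xv D v)) =
          Nat.card (DoubleCoset.Quotient ((D.dec v : Subgroup GQ) : Set GQ)
            ((Subgroup.zpowers (D.c ^ d) ⊔ D.pSub : Subgroup GQ) : Set GQ)) :=
      fun v => hDcO GQ (D.dec v) D.pSub D.c _ _ d
    rw [h1, h2, h3]
    exact Finset.sum_congr rfl (fun v _ => (h4 v).symm)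
  -- the core
  have hcore := units_core hAdd hLat hTF n hpn (sigA D) (sigA_pow_eq_one D hcn) D.cs
    (κ.comp (inclA D)) hker (cycloChar p D.c) (cycloChar_pow_eq_one D hcn) hcs D.Usp D.Msp hU hM
    x₀ hx₀ hx₀' hfix (Data.piX D) (piX_pow_eq_one D hcn) hrank (D.zY Y) (zY_pow_eq_one D Y hY hcn)
  -- the permutation modules
  have hsum : ∑ v : Option ↥T, mltIn (D.yTw Y) (rtr D.c) (dcFun (D.dec v) D.pSub) =
      mlt (D.yTw Y) (permOp (ZMod p) (Data.piX D)) := by
    have h : mlt (D.yTw Y) (permOp (ZMod p) (Data.piX D)) =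
        ∑ v, mlt (D.yTw Y) (permOp (ZMod p) (Data.piv D v)) :=
      (hSig (Option ↥T) (Data.Xv D) (Data.piv D)).2 (ZMod p) Y (D.yTw Y)
    rw [h]
    refine Finset.sum_congr rfl (fun v _ => ?_)
    obtain ⟨e, he⟩ := hDcF (ZMod p) GQ (D.dec v) D.pSub D.c
      (fun _ hu => D.conj_mem_pSub' hu) (fun _ hu => D.conj_mem_pSub D.hc hu)
    exact mltIn_eq_mlt_of_equiv (D.yTw Y) (rtr D.c) _ (rtr_mem_dcFun D v)
      (permOp (ZMod p) (Data.piv D v)) e he
  have hdual : mlt (D.yTw Y) (permOp (ZMod p) (Data.piX D)) =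
      mlt (((cycloChar p D.c : (ZMod p)ˣ) : ZMod p) • D.zY Y) (permOp (ZMod p) (Data.piX D)) :=
    mlt_perm_dual hSymm hDual (D.yTw Y) _ (zTw_comp_yTw_dualMap D Y) (yTw_dualMap_comp_zTw D Y)
      (Data.X D) (Data.piX D)
  rw [hsum, hdual, fixY_eq D Y hSymm, fixY'_eq D Y hSymm]
  exact hcore

end Asm

end Fermat.Agent.P1.helper35.BSU
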