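import Fermat.Agent.P1.helper35_BSUnitsMlt

/-!
# P1 / module EC / BASE-STAR / package BS-UNITS (helper35): the abstract core

`units_core`: for a finitely generated abelian group `Oa` (the `T`-units, written additively) with
an automorphism `σ` of order dividing `n` (`p ∤ n`), a Kummer map `κ : Oa → B` with kernel `p Oa`
and `cs (κ a) = χ⁻¹ κ (σ a)`, `U = κ(Oa)`, `M = κ(torsion)` containing a nonzero `cs`-fixed vector,
and a permutation set `(X, π)` with `rank Oa^{σ^d} + 1 = #(X / π^d)` for all `d`: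

  `mlt z 1 + mlt (χ z) (permOp π) ≤ mltIn z cs U + mlt (χ z) 1`

for every operator `z` with `z^n = 1` on a finite dimensional space.
-/

set_option autoImplicit false
set_option linter.style.haveILetI false
set_option linter.unusedSectionVars false

noncomputable section

namespace Fermat.Agent.P1.helper35.BSU

open Fermat.Agent.P1.helper7

section Core

variable (p : ℕ) [Fact p.Prime]

/-- `p • x = 0` in a `ZMod p`-module -/
lemma nsmul_eq_zero_of_zmod {B : Type} [AddCommGroup B] [Module (ZMod p) B] (x : B) :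
    p • x = 0 := by
  have h : (p : ZMod p) • x = 0 := by rw [ZMod.natCast_self, zero_smul]
  rwa [Nat.cast_smul_eq_nsmul] at h

/-- integer multiples in a `ZMod p`-module -/
lemma zsmul_eq_smul_zmod {B : Type} [AddCommGroup B] [Module (ZMod p) B] (m : ℤ) (x : B) :
    m • x = (m : ZMod p) • x := (Int.cast_smul_eq_zsmul (ZMod p) m x).symm

variable {p}

variable {Oa : Type} [AddCommGroup Oa]
  {B : Type} [AddCommGroup B] [Module (ZMod p) B]

/-- the image of an additive map from a finitely generated abelian group into a `ZMod p`-module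
is finite dimensional -/
lemma finite_of_range_eq [Module.Finite ℤ Oa] (κ : Oa →+ B) (U : Submodule (ZMod p) B)
    (hU : ∀ x, x ∈ U ↔ ∃ a, κ a = x) : Module.Finite (ZMod p) ↥U := by
  obtain ⟨S, hS⟩ := (Module.finite_def (R := ℤ) (M := Oa)).1 inferInstance
  have key : ∀ a ∈ Submodule.span ℤ (S : Set Oa),
      κ a ∈ Submodule.span (ZMod p) ((fun a => κ a) '' (S : Set Oa)) := by
    intro a ha
    induction ha using Submodule.span_induction with
    | mem y hy => exact Submodule.subset_span ⟨y, hy, rfl⟩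
    | zero => rw [map_zero]; exact Submodule.zero_mem _
    | add y y' _ _ hy hy' => rw [map_add]; exact Submodule.add_mem _ hy hy'
    | smul m y _ hy =>
      rw [map_zsmul, zsmul_eq_smul_zmod p]
      exact Submodule.smul_mem _ _ hy
  have hle : U ≤ Submodule.span (ZMod p) ((fun a => κ a) '' (S : Set Oa)) := by
    intro x hx
    obtain ⟨a, rfl⟩ := (hU x).1 hx
    exact key a (by rw [hS]; trivial)
  haveI : Module.Finite (ZMod p)
      ↥(Submodule.span (ZMod p) ((fun a => κ a) '' (S : Set Oa))) :=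
    Module.Finite.span_of_finite (ZMod p) ((S.finite_toSet).image _)
  exact Module.Finite.of_injective (Submodule.inclusion hle) (Submodule.inclusion_injective hle)

variable [Module.Finite ℤ Oa]

/-- powers of the map induced on the quotient by the torsion subgroup -/
lemma mapQ_pow_mkQ (σ : Oa →ₗ[ℤ] Oa)
    (s : (Oa ⧸ Submodule.torsion ℤ Oa) →ₗ[ℤ] (Oa ⧸ Submodule.torsion ℤ Oa))
    (hs : ∀ x, s ((Submodule.torsion ℤ Oa).mkQ x) = (Submodule.torsion ℤ Oa).mkQ (σ x))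
    (d : ℕ) (x : Oa) :
    (s ^ d) ((Submodule.torsion ℤ Oa).mkQ x) = (Submodule.torsion ℤ Oa).mkQ ((σ ^ d) x) := by
  induction d generalizing x with
  | zero => simp
  | succ d ih =>
    rw [pow_succ, pow_succ, Module.End.mul_apply, Module.End.mul_apply, hs, ih]

/-- `σ` maps torsion elements to torsion elements -/
lemma map_mem_torsion (σ : Oa →ₗ[ℤ] Oa) {a : Oa} (ha : a ∈ Submodule.torsion ℤ Oa) :
    σ a ∈ Submodule.torsion ℤ Oa := by
  rw [Submodule.mem_torsion_iff] at ha ⊢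
  obtain ⟨m, hm⟩ := ha
  refine ⟨m, ?_⟩
  rw [Submonoid.smul_def] at hm ⊢
  rw [← map_smul, hm, map_zero]

/-- **THE ABSTRACT CORE OF BS-UNITS.** -/
theorem units_core (hAdd : AbsAddStatement) (hLat : AbsLatStatement) (hTF : TFreeStatement)
    (n : ℕ) (hpn : ¬ p ∣ n)
    (σ : Oa →ₗ[ℤ] Oa) (hσ : σ ^ n = 1)
    (cs : B →ₗ[ZMod p] B) (κ : Oa →+ B) (hker : ∀ a, κ a = 0 ↔ ∃ b, a = p • b)
    (χ : (ZMod p)ˣ) (hχ : χ ^ n = 1)
    (hcs : ∀ a, cs (κ a) = ((χ⁻¹ : (ZMod p)ˣ) : ZMod p) • κ (σ a))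
    (U M : Submodule (ZMod p) B)
    (hU : ∀ x, x ∈ U ↔ ∃ a, κ a = x)
    (hM : ∀ x, x ∈ M ↔ ∃ a ∈ Submodule.torsion ℤ Oa, κ a = x)
    (x₀ : B) (hx₀ : x₀ ∈ M) (hx₀' : x₀ ≠ 0) (hfix : cs x₀ = x₀)
    {X : Type} [Fintype X] (π : Equiv.Perm X) (hπ : π ^ n = 1)
    (hrank : ∀ d : ℕ, Module.finrank ℤ ↥(LinearMap.ker (σ ^ d - 1)) + 1 =
      Nat.card (MulAction.orbitRel.Quotient ↥(Subgroup.zpowers (π ^ d)) X))
    {A : Type} [AddCommGroup A] [Module (ZMod p) A] [Module.Finite (ZMod p) A]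
    (z : A →ₗ[ZMod p] A) (hz : z ^ n = 1) :
    mlt z (1 : ZMod p →ₗ[ZMod p] ZMod p) + mlt ((χ : ZMod p) • z) (permOp (ZMod p) π) ≤
      mltIn z cs U + mlt ((χ : ZMod p) • z) (1 : ZMod p →ₗ[ZMod p] ZMod p) := by
  classical
  have hp : p.Prime := Fact.out
  set tors := Submodule.torsion ℤ Oa with htors
  -- basic facts
  have hMU : M ≤ U := fun x hx => by
    obtain ⟨a, -, rfl⟩ := (hM x).1 hx
    exact (hU _).2 ⟨a, rfl⟩
  haveI hUfin : Module.Finite (ZMod p) ↥U := finite_of_range_eq κ U hU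
  haveI hMfin : Module.Finite (ZMod p) ↥M :=
    Module.Finite.of_injective (Submodule.inclusion hMU) (Submodule.inclusion_injective hMU)
  have hχne : (χ : ZMod p) ≠ 0 := χ.ne_zero
  have hχinv : ((χ⁻¹ : (ZMod p)ˣ) : ZMod p) * (χ : ZMod p) = 1 := by
    rw [← Units.val_mul, inv_mul_cancel, Units.val_one]
  have hχinv' : (χ : ZMod p) * ((χ⁻¹ : (ZMod p)ˣ) : ZMod p) = 1 := by
    rw [← Units.val_mul, mul_inv_cancel, Units.val_one]
  have hκsmul : ∀ (a : Oa), κ (p • a) = 0 := fun a => by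
    rw [map_nsmul]; exact nsmul_eq_zero_of_zmod p _
  -- `cs` on `U` and `M`
  have hUcs : ∀ x ∈ U, cs x ∈ U := by
    intro x hx
    obtain ⟨a, rfl⟩ := (hU x).1 hx
    rw [hcs]
    exact U.smul_mem _ ((hU _).2 ⟨σ a, rfl⟩)
  have hMcs : ∀ x ∈ M, cs x ∈ M := by
    intro x hx
    obtain ⟨a, ha, rfl⟩ := (hM x).1 hx
    rw [hcs]
    exact M.smul_mem _ ((hM _).2 ⟨σ a, map_mem_torsion σ ha, rfl⟩)
  have hcspow : ∀ (m : ℕ) (a : Oa),
      (cs ^ m) (κ a) = (((χ⁻¹ : (ZMod p)ˣ) : ZMod p) ^ m) • κ ((σ ^ m) a) := by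
    intro m
    induction m with
    | zero =>
      intro a
      rw [pow_zero, pow_zero, pow_zero, Module.End.one_apply, Module.End.one_apply, one_smul]
    | succ m ih =>
      intro a
      rw [pow_succ', Module.End.mul_apply, ih, map_smul, hcs, smul_smul, pow_succ,
        pow_succ', Module.End.mul_apply]
  have hUn : ∀ x ∈ U, (cs ^ n) x = x := by
    intro x hx
    obtain ⟨a, rfl⟩ := (hU x).1 hx
    rw [hcspow, hσ, Module.End.one_apply]
    have : (((χ⁻¹ : (ZMod p)ˣ) : ZMod p)) ^ n = 1 := by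
      rw [← Units.val_pow_eq_pow_val, inv_pow, hχ, inv_one, Units.val_one]
    rw [this, one_smul]
  have hnk : ((n : ℕ) : ZMod p) ≠ 0 := by
    intro h
    exact hpn ((ZMod.natCast_eq_zero_iff n p).1 h)
  -- the quotient `B / M`
  let q : B →ₗ[ZMod p] (B ⧸ M) := M.mkQ
  let b' : (B ⧸ M) →ₗ[ZMod p] (B ⧸ M) := M.mapQ M cs (fun x hx => hMcs x hx)
  have hq1 : ∀ x, q (cs x) = b' (q x) := fun x => rfl
  have hq2 : ∀ x, q x = 0 ↔ x ∈ M := fun x => Submodule.Quotient.mk_eq_zero M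
  -- ADD
  have e2 := hAdd (ZMod p) n hnk A z hz B cs M U hMU hUfin hUcs hUn (B ⧸ M) b' q
    (fun x _ => hq1 x) (fun x _ => hq2 x)
  -- the subspace `Ū`
  set Ub : Submodule (ZMod p) (B ⧸ M) := U.map q with hUb
  have hUbmem : ∀ a : Oa, q (κ a) ∈ Ub := fun a =>
    Submodule.mem_map.2 ⟨κ a, (hU _).2 ⟨a, rfl⟩, rfl⟩
  have hUbcs : ∀ x ∈ Ub, b' x ∈ Ub := by
    intro x hx
    obtain ⟨y, hy, rfl⟩ := Submodule.mem_map.1 hx
    rw [← hq1]
    exact Submodule.mem_map.2 ⟨cs y, hUcs y hy, rfl⟩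
  let vb : ↥Ub →ₗ[ZMod p] ↥Ub := b'.restrict hUbcs
  let v : ↥Ub →ₗ[ZMod p] ↥Ub := (χ : ZMod p) • vb
  -- the lattice
  let L := Oa ⧸ tors
  have hσt : tors ≤ tors.comap σ := fun a ha => map_mem_torsion σ ha
  let s : L →ₗ[ℤ] L := tors.mapQ tors σ hσt
  have hs : ∀ x, s (tors.mkQ x) = tors.mkQ (σ x) := fun x => rfl
  have hsn : s ^ n = 1 := by
    apply LinearMap.ext
    intro x
    obtain ⟨a, rfl⟩ := tors.mkQ_surjective x
    rw [mapQ_pow_mkQ σ s hs, hσ, Module.End.one_apply, Module.End.one_apply]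
  have hrank' : ∀ d : ℕ, Module.finrank ℤ ↥(LinearMap.ker (s ^ d - 1)) + 1 =
      Nat.card (MulAction.orbitRel.Quotient ↥(Subgroup.zpowers (π ^ d)) X) := by
    intro d
    rw [← hrank d]
    congr 1
    refine hTF Oa (σ ^ d - 1) (s ^ d - 1) ?_
    intro x
    rw [LinearMap.sub_apply, LinearMap.sub_apply, Module.End.one_apply, Module.End.one_apply,
      mapQ_pow_mkQ σ s hs, map_sub]
  -- the reduction map
  let r₀ : Oa →ₗ[ℤ] ↥Ub :=
    ({ toFun := fun a => (⟨q (κ a), hUbmem a⟩ : ↥Ub)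
       map_zero' := by
        apply Subtype.ext
        change q (κ 0) = 0
        rw [map_zero, map_zero]
       map_add' := fun a a' => by
        apply Subtype.ext
        change q (κ (a + a')) = q (κ a) + q (κ a')
        rw [map_add, map_add] } : Oa →+ ↥Ub).toIntLinearMap
  have hr₀ : ∀ a, ((r₀ a : ↥Ub) : B ⧸ M) = q (κ a) := fun a => rfl
  have hr₀t : tors ≤ LinearMap.ker r₀ := by
    intro a ha
    rw [LinearMap.mem_ker]
    apply Subtype.ext
    rw [hr₀]
    exact (hq2 _).2 ((hM _).2 ⟨a, ha, rfl⟩)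
  let r : L →ₗ[ℤ] ↥Ub := tors.liftQ r₀ hr₀t
  have hr : ∀ a, ((r (tors.mkQ a) : ↥Ub) : B ⧸ M) = q (κ a) := fun a => rfl
  have hrsurj : Function.Surjective (r : L →+ ↥Ub) := by
    rintro ⟨x, hx⟩
    obtain ⟨y, hy, rfl⟩ := Submodule.mem_map.1 hx
    obtain ⟨a, rfl⟩ := (hU y).1 hy
    exact ⟨tors.mkQ a, Subtype.ext (hr a)⟩
  have hrker : ∀ x : L, (r : L →+ ↥Ub) x = 0 ↔ ∃ y, x = p • y := by
    intro x
    obtain ⟨a, rfl⟩ := tors.mkQ_surjective x
    constructor
    · intro h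
      have h1 : q (κ a) = 0 := by
        rw [← hr a]
        exact congrArg Subtype.val h
      obtain ⟨t, ht, hta⟩ := (hM _).1 ((hq2 _).1 h1)
      have h2 : κ (a - t) = 0 := by rw [map_sub, hta, sub_self]
      obtain ⟨b, hb⟩ := (hker _).1 h2
      refine ⟨tors.mkQ b, ?_⟩
      have ht0 : tors.mkQ t = 0 := (Submodule.Quotient.mk_eq_zero tors).2 ht
      have h3 : tors.mkQ a = tors.mkQ (a - t) := by
        rw [map_sub, ht0, sub_zero]
      rw [h3, hb, map_nsmul]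
    · rintro ⟨y, hy⟩
      obtain ⟨b, rfl⟩ := tors.mkQ_surjective y
      have h1 : tors.mkQ (a - p • b) = 0 := by
        rw [map_sub, hy, map_nsmul, sub_self]
      have h2 : a - p • b ∈ tors := (Submodule.Quotient.mk_eq_zero tors).1 h1
      have h3 : κ a = κ (a - p • b) := by
        rw [map_sub, hκsmul, sub_zero]
      apply Subtype.ext
      change ((r (tors.mkQ a) : ↥Ub) : B ⧸ M) = 0
      rw [hr, h3]
      exact (hq2 _).2 ((hM _).2 ⟨_, h2, rfl⟩)
  have hrs : ∀ x : L, (r : L →+ ↥Ub) (s x) = v ((r : L →+ ↥Ub) x) := by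
    intro x
    obtain ⟨a, rfl⟩ := tors.mkQ_surjective x
    apply Subtype.ext
    change ((r (tors.mkQ (σ a)) : ↥Ub) : B ⧸ M) =
      (χ : ZMod p) • b' ((r (tors.mkQ a) : ↥Ub) : B ⧸ M)
    rw [hr, hr, ← hq1, hcs, map_smul, smul_smul, hχinv', one_smul]
  -- LAT
  have ha : ((χ : ZMod p) • z) ^ n = 1 := by
    rw [smul_pow, hz, ← Units.val_pow_eq_pow_val, hχ, Units.val_one, one_smul]
  have e1 := hLat p n hpn L s hsn X π hπ hrank' ↥Ub v (r : L →+ ↥Ub) hrsurj hrker hrs A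
    ((χ : ZMod p) • z) ha
  -- bookkeeping
  have e3 : mltIn z b' Ub = mlt ((χ : ZMod p) • z) v := by
    rw [mltIn_eq_mlt_restrict z b' Ub hUbcs]
    exact (mlt_smul_smul (χ : ZMod p) hχne z vb).symm
  have e4 : mlt z (1 : ZMod p →ₗ[ZMod p] ZMod p) ≤ mltIn z cs M :=
    mlt_one_le_mltIn z cs M x₀ hx₀ hx₀' hfix
  rw [e3] at e2
  omega

end Core

end Fermat.Agent.P1.helper35.BSU
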