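import Fermat.Agent.P1.helper7_BSDefs

/-!
# P1 / module EC / BASE-STAR (helper7): the abstract packages (Mathlib + `eqv`/`mlt` only)

Tools for the arithmetic packages BS-UNITS and BS-CLASS.  `mlt a b = dim Hom_{a,b}(A, B)` is the
multiplicity calculus of modules over `k[x]`; on modules killed by `x^n - 1`, `n` invertible in
`k`, it is additive (Maschke).

* `AbsSymmStatement` : `mlt a b = mlt b a`                         (transpose of `φ ↦ bφ - φa`);
* `AbsDualStatement` : `mlt a b = mlt bᵀ aᵀ`;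
* `AbsAddStatement`  : additivity on short exact sequences (averaging);
* `AbsCpqStatement`  : for a finite abelian group `𝒜` with an automorphism of order prime to `p`,
                       `𝒜[p]` and `𝒜/p𝒜` have the same multiplicities;
* `AbsLatStatement`  : the lattice lemma (equivariant Dirichlet mod `p`): a lattice `L` with an
                       automorphism `s`, `s^n = 1`, `p ∤ n`, whose invariants `L^{s^d}` have rank
                       `#(X/π^d) - 1` for all `d`, satisfies `L/p ⊕ k ≅ k[X]` in multiplicities.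
-/

set_option autoImplicit false

noncomputable section

namespace Fermat.Agent.P1.helper7

/-- the operator `f ↦ f ∘ π` on functions on `X` -/
def permOp (k : Type) [Field k] {X : Type} (π : Equiv.Perm X) : (X → k) →ₗ[k] (X → k) where
  toFun f := fun x => f (π x)
  map_add' _ _ := rfl
  map_smul' _ _ := rfl

@[simp] lemma permOp_apply (k : Type) [Field k] {X : Type} (π : Equiv.Perm X) (f : X → k)
    (x : X) : permOp k π f x = f (π x) := rfl

/-- **BS-ABS-SYMM**: `dim Hom_{k[x]}(A, B) = dim Hom_{k[x]}(B, A)`. -/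
def AbsSymmStatement : Prop :=
  ∀ (k : Type) [Field k] (A B : Type) [AddCommGroup A] [Module k A] [AddCommGroup B]
    [Module k B] [Module.Finite k A] [Module.Finite k B] (a : A →ₗ[k] A) (b : B →ₗ[k] B),
    mlt a b = mlt b a

/-- **BS-ABS-DUAL**: `dim Hom_{k[x]}(A, B) = dim Hom_{k[x]}(B^*, A^*)`. -/
def AbsDualStatement : Prop :=
  ∀ (k : Type) [Field k] (A B : Type) [AddCommGroup A] [Module k A] [AddCommGroup B]
    [Module k B] [Module.Finite k A] [Module.Finite k B] (a : A →ₗ[k] A) (b : B →ₗ[k] B),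
    mlt a b = mlt b.dualMap a.dualMap

/-- **BS-ABS-ADD** (Maschke): for `W₁ ≤ W₂` and `q` with `ker q ∩ W₂ = W₁`, intertwining `b` and
`b'` on `W₂`: `mult(a, W₂) = mult(a, W₁) + mult(a, q W₂)`. -/
def AbsAddStatement : Prop :=
  ∀ (k : Type) [Field k] (n : ℕ), (n : k) ≠ 0 →
  ∀ (A : Type) [AddCommGroup A] [Module k A] [Module.Finite k A] (a : A →ₗ[k] A), a ^ n = 1 →
  ∀ (B : Type) [AddCommGroup B] [Module k B] (b : B →ₗ[k] B) (W₁ W₂ : Submodule k B),
    W₁ ≤ W₂ → Module.Finite k ↥W₂ → (∀ x ∈ W₂, b x ∈ W₂) → (∀ x ∈ W₂, (b ^ n) x = x) →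
  ∀ (B' : Type) [AddCommGroup B'] [Module k B'] (b' : B' →ₗ[k] B') (q : B →ₗ[k] B'),
    (∀ x ∈ W₂, q (b x) = b' (q x)) → (∀ x ∈ W₂, q x = 0 ↔ x ∈ W₁) →
    mltIn a b W₂ = mltIn a b W₁ + mltIn a b' (W₂.map q)

/-- **BS-ABS-CPQ**: `𝒜[p]` and `𝒜 / p𝒜` have the same multiplicities. -/
def AbsCpqStatement : Prop :=
  ∀ (p : ℕ) [Fact p.Prime] (n : ℕ), ¬ p ∣ n →
  ∀ (𝒜 : Type) [AddCommGroup 𝒜] [Finite 𝒜] (σ : 𝒜 →+ 𝒜), (∀ x, σ^[n] x = x) →
  ∀ (V₁ : Type) [AddCommGroup V₁] [Module (ZMod p) V₁] (v₁ : V₁ →ₗ[ZMod p] V₁) (i : V₁ →+ 𝒜),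
    Function.Injective i → (∀ x, x ∈ Set.range i ↔ p • x = 0) → (∀ y, i (v₁ y) = σ (i y)) →
  ∀ (V₂ : Type) [AddCommGroup V₂] [Module (ZMod p) V₂] (v₂ : V₂ →ₗ[ZMod p] V₂) (q : 𝒜 →+ V₂),
    Function.Surjective q → (∀ x, q x = 0 ↔ ∃ y, x = p • y) → (∀ x, q (σ x) = v₂ (q x)) →
  ∀ (A : Type) [AddCommGroup A] [Module (ZMod p) A] [Module.Finite (ZMod p) A]
    (a : A →ₗ[ZMod p] A), a ^ n = 1 →
    mlt a v₁ = mlt a v₂

/-- **BS-ABS-LAT** (the lattice lemma). -/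
def AbsLatStatement : Prop :=
  ∀ (p : ℕ) [Fact p.Prime] (n : ℕ), ¬ p ∣ n →
  ∀ (L : Type) [AddCommGroup L] [Module.Free ℤ L] [Module.Finite ℤ L] (s : L →ₗ[ℤ] L),
    s ^ n = 1 →
  ∀ (X : Type) [Fintype X] (π : Equiv.Perm X), π ^ n = 1 →
    (∀ d : ℕ, Module.finrank ℤ ↥(LinearMap.ker (s ^ d - 1)) + 1 =
      Nat.card (MulAction.orbitRel.Quotient ↥(Subgroup.zpowers (π ^ d)) X)) →
  ∀ (V : Type) [AddCommGroup V] [Module (ZMod p) V] (v : V →ₗ[ZMod p] V) (r : L →+ V),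
    Function.Surjective r → (∀ x, r x = 0 ↔ ∃ y, x = p • y) → (∀ x, r (s x) = v (r x)) →
  ∀ (A : Type) [AddCommGroup A] [Module (ZMod p) A] [Module.Finite (ZMod p) A]
    (a : A →ₗ[ZMod p] A), a ^ n = 1 →
    mlt a v + mlt a (1 : ZMod p →ₗ[ZMod p] ZMod p) = mlt a (permOp (ZMod p) π)

end Fermat.Agent.P1.helper7
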