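import Fermat.Agent.P1.helper7_BSDefs2
import Fermat.Agent.P1.helper7_BSAbs

/-!
# P1 / module EC / BASE-STAR / package BS-UNITS (helper35, mini-coordinator): interface

Target: `helper7.UnitsStatement p T` (equivariant Dirichlet unit theorem modulo `p`).

Definitions:

* `dcPerm D P c`  : the permutation `D g P ↦ D g c P` of the double cosets `D \ G / P`
                    (`c` normalises `P`);
* `BSData.piX`    : the permutation of `X = Σ v, D_v \ G / P` (`v ∈ T ∪ {∞}`) induced by `c`;
* `fixSub σ d`    : the subgroup of the elements fixed by `σ^d`.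

Sub-packages (as `Prop`s; each is an independent row of the task board):

* `DcOrbitStatement`   (BS-UNITS-DC)    : orbits of `π^d` on `D\G/P` = `D \ G / ⟨c^d⟩P`;
* `DcFunStatement`     (BS-UNITS-DC)    : `(dcFun D P, rtr c) ≅ (functions on D\G/P, permOp π)`;
* `SigmaStatement`     (BS-UNITS-SIGMA) : orbit counts and multiplicities of a disjoint union;
* `TFreeStatement`     (BS-UNITS-TFREE) : passing to the quotient by the torsion subgroup does
                                          not change the rank of the kernel of an endomorphism;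
* `TorsStatement p T`  (BS-UNITS-TORS)  : `𝐌` contains a nonzero vector fixed by `cs`;
* `RankStatement p T`  (BS-UNITS-RANK)  : rank of the `σ^d`-fixed `T`-units of `K₁`
                                          `+ 1 = ∑_v #(D_v \ G / ⟨c^d⟩P)`;
* `DcplStatement T`    (BS-DCPL)        : places of `E` = double cosets (consumed by RANK).

DEFINITIONS ONLY (plus the lemmas needed to state them).
-/

set_option autoImplicit false

open groupCohomology ExtCitation

noncomputable section

namespace Fermat.Agent.P1.helper35.BSU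

open Fermat.Agent.S55 Fermat.Agent.P1.helper70 Fermat.Agent.P1.helper63 Fermat.Agent.P1.helper7

/-! ## The permutation of the double cosets -/

section DC

variable {G : Type} [Group G]

/-- the map `D g P ↦ D g c P` on double cosets, for `c` with `c⁻¹ P c ⊆ P` -/
def dcMap (D P : Subgroup G) (c : G) (hc : ∀ u ∈ P, c⁻¹ * u * c ∈ P) :
    DoubleCoset.Quotient (D : Set G) (P : Set G) → DoubleCoset.Quotient (D : Set G) (P : Set G) :=
  Quotient.map' (fun g => g * c) (fun a b hab => by
    obtain ⟨x, hx, y, hy, rfl⟩ := DoubleCoset.rel_iff.1 hab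
    exact DoubleCoset.rel_iff.2 ⟨x, hx, c⁻¹ * y * c, hc y hy, by group⟩)

@[simp] lemma dcMap_mk (D P : Subgroup G) (c : G) (hc : ∀ u ∈ P, c⁻¹ * u * c ∈ P) (g : G) :
    dcMap D P c hc (DoubleCoset.mk D P g) = DoubleCoset.mk D P (g * c) := rfl

/-- **the permutation `D g P ↦ D g c P`** of the double cosets `D \ G / P`, for `c` normalising
`P` -/
def dcPerm (D P : Subgroup G) (c : G) (hc : ∀ u ∈ P, c⁻¹ * u * c ∈ P)
    (hc' : ∀ u ∈ P, c * u * c⁻¹ ∈ P) :
    Equiv.Perm (DoubleCoset.Quotient (D : Set G) (P : Set G)) where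
  toFun := dcMap D P c hc
  invFun := dcMap D P c⁻¹ (fun u hu => by simpa using hc' u hu)
  left_inv q := by
    induction q using Quotient.inductionOn' with
    | h g =>
      change DoubleCoset.mk D P (g * c * c⁻¹) = DoubleCoset.mk D P g
      rw [mul_inv_cancel_right]
  right_inv q := by
    induction q using Quotient.inductionOn' with
    | h g =>
      change DoubleCoset.mk D P (g * c⁻¹ * c) = DoubleCoset.mk D P g
      rw [inv_mul_cancel_right]

@[simp] lemma dcPerm_mk (D P : Subgroup G) (c : G) (hc : ∀ u ∈ P, c⁻¹ * u * c ∈ P)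
    (hc' : ∀ u ∈ P, c * u * c⁻¹ ∈ P) (g : G) :
    dcPerm D P c hc hc' (DoubleCoset.mk D P g) = DoubleCoset.mk D P (g * c) := rfl

/-- **BS-UNITS-DC (a)**: the orbits of `π^d` on `D \ G / P` are the double cosets
`D \ G / ⟨c^d⟩ P`. -/
def DcOrbitStatement : Prop :=
  ∀ (G : Type) [Group G] (D P : Subgroup G) (c : G) (hc : ∀ u ∈ P, c⁻¹ * u * c ∈ P)
    (hc' : ∀ u ∈ P, c * u * c⁻¹ ∈ P) (d : ℕ),
    Nat.card (MulAction.orbitRel.Quotient ↥(Subgroup.zpowers (dcPerm D P c hc hc' ^ d))
        (DoubleCoset.Quotient (D : Set G) (P : Set G))) =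
      Nat.card (DoubleCoset.Quotient (D : Set G)
        ((Subgroup.zpowers (c ^ d) ⊔ P : Subgroup G) : Set G))

/-- **BS-UNITS-DC (b)**: `(dcFun D P, rtr c)` is the space of functions on `D \ G / P` with the
operator `permOp π`. -/
def DcFunStatement : Prop :=
  ∀ (k : Type) [Field k] (G : Type) [Group G] (D P : Subgroup G) (c : G)
    (hc : ∀ u ∈ P, c⁻¹ * u * c ∈ P) (hc' : ∀ u ∈ P, c * u * c⁻¹ ∈ P),
    ∃ e : (DoubleCoset.Quotient (D : Set G) (P : Set G) → k) ≃ₗ[k] ↥(dcFun (k := k) D P),
      ∀ f, rtr c ((e f : ↥(dcFun (k := k) D P)) : G → k) =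
        ((e (permOp k (dcPerm D P c hc hc') f) : ↥(dcFun (k := k) D P)) : G → k)

end DC

/-! ## Disjoint unions -/

/-- **BS-UNITS-SIGMA**: orbit counts and multiplicities of a finite disjoint union. -/
def SigmaStatement : Prop :=
  ∀ (ι : Type) [Fintype ι] (X : ι → Type) [∀ i, Fintype (X i)] (π : ∀ i, Equiv.Perm (X i)),
    (∀ d : ℕ,
      Nat.card (MulAction.orbitRel.Quotient
          ↥(Subgroup.zpowers ((Equiv.sigmaCongrRight π : Equiv.Perm (Σ i, X i)) ^ d))
          (Σ i, X i)) =
        ∑ i, Nat.card (MulAction.orbitRel.Quotient ↥(Subgroup.zpowers (π i ^ d)) (X i))) ∧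
    ∀ (k : Type) [Field k] (A : Type) [AddCommGroup A] [Module k A] [Module.Finite k A]
      (a : A →ₗ[k] A),
      mlt a (permOp k (Equiv.sigmaCongrRight π : Equiv.Perm (Σ i, X i))) =
        ∑ i, mlt a (permOp k (π i))

/-! ## Torsion -/

/-- **BS-UNITS-TFREE**: for an endomorphism `g` of a finitely generated abelian group `M` and the
induced endomorphism `g'` of `M / torsion`, the kernels of `g` and `g'` have the same rank. -/
def TFreeStatement : Prop :=
  ∀ (M : Type) [AddCommGroup M] [Module.Finite ℤ M] (g : M →ₗ[ℤ] M)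
    (g' : (M ⧸ Submodule.torsion ℤ M) →ₗ[ℤ] (M ⧸ Submodule.torsion ℤ M)),
    (∀ x : M, g' ((Submodule.torsion ℤ M).mkQ x) = (Submodule.torsion ℤ M).mkQ (g x)) →
    Module.finrank ℤ ↥(LinearMap.ker g') = Module.finrank ℤ ↥(LinearMap.ker g)

variable (p : ℕ) [Fact p.Prime] (T : Finset Nat.Primes)

/-- **BS-UNITS-TORS**: `𝐌` (the Kummer characters of the roots of unity) contains a nonzero
vector fixed by the conjugation operator `cs`. -/
def TorsStatement : Prop :=
  p ≠ 2 → pPrime p ∈ T → ∀ D : BSData p T, ∃ x₀ ∈ D.Msp, x₀ ≠ 0 ∧ D.cs x₀ = x₀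

/-! ## Ranks -/

/-- **BS-DCPL** (consumed by BS-UNITS-RANK): the places of a number field `E ⊆ ℚbar` above `T`
and above `∞` are counted by double cosets. -/
def DcplStatement : Prop :=
  ∀ (E : IntermediateField ℚ (AlgebraicClosure ℚ)) [NumberField ↥E],
    Nat.card ↥(helper97.placesOver ↥E T) =
        ∑ v : ↥T, Nat.card (DoubleCoset.Quotient
          (((primeLocalToGlobal v.1).range : Subgroup GQ) : Set GQ)
          ((E.fixingSubgroup : Subgroup GQ) : Set GQ)) ∧
      Nat.card (NumberField.InfinitePlace ↥E) =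
        Nat.card (DoubleCoset.Quotient
          ((Subgroup.zpowers complexConjugation : Subgroup GQ) : Set GQ)
          ((E.fixingSubgroup : Subgroup GQ) : Set GQ))

/-- **BS-UNITS-RANK**: the rank of the `T`-units of `K₁` fixed by `σ_c^d`, plus one, is the
number of double cosets `D_v \ G / ⟨c^d⟩ P`, `v ∈ T ∪ {∞}`. -/
def RankStatement : Prop :=
  p ≠ 2 → pPrime p ∈ T → ∀ (D : BSData p T) [NumberField ↥D.K1] (d : ℕ),
    Module.finrank ℤ (Additive ↥(Fermat.Agent.P1.helper79.fixedSUnits ℚ ↥D.K1 T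
        (Subgroup.zpowers (D.sigmaC ^ d)))) + 1 =
      ∑ v : Option ↥T, Nat.card (DoubleCoset.Quotient ((D.dec v : Subgroup GQ) : Set GQ)
        ((Subgroup.zpowers (D.c ^ d) ⊔ D.pSub : Subgroup GQ) : Set GQ))

/-! ## The permutation set of the datum -/

namespace Data

variable {p T}
variable (D : BSData p T)

/-- `X_v = D_v \ G / P` -/
abbrev Xv (v : Option ↥T) : Type :=
  DoubleCoset.Quotient ((D.dec v : Subgroup GQ) : Set GQ) ((D.pSub : Subgroup GQ) : Set GQ)

/-- `π_v : D_v g P ↦ D_v g c P` -/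
def piv (v : Option ↥T) : Equiv.Perm (Xv D v) :=
  dcPerm (D.dec v) D.pSub D.c (fun _ hu => D.conj_mem_pSub' hu)
    (fun _ hu => D.conj_mem_pSub D.hc hu)

/-- `X = Σ_v D_v \ G / P` -/
abbrev X : Type := Σ v : Option ↥T, Xv D v

/-- the permutation of `X` induced by `c` -/
def piX : Equiv.Perm (X D) := Equiv.sigmaCongrRight (piv D)

end Data

end Fermat.Agent.P1.helper35.BSU
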