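import Fermat.Agent.P1.helper7_BSDefs2
import Fermat.Agent.S55.helper97_KumGFinal
import Fermat.Agent.S55.helper52_KumG2b
import Fermat.Agent.S55.ShArith

/-!
# P1 / module EC / BASE-STAR, row BS-KUM (helper7): the Kummer bridge

`kumBridge : KumBridgeStatement p T` — the junction between the function spaces
`𝐇 = D.Hsp ⊇ 𝐔 = D.Usp ⊇ 𝐌 = D.Msp` of `helper7_BSDefs` and the arithmetic of the field
`K₁ = D.K1` (the fixed field of `P = D.pSub`).

Inputs: the global Kummer dictionary of S55 module B (`helper97_KumG1`, KG2a `helper42`,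
KG2b `helper97`), the valuation dictionary of `S14.helper91`.
-/

set_option autoImplicit false
set_option linter.unusedSectionVars false
set_option linter.style.haveILetI false

open groupCohomology ExtCitation IsDedekindDomain
open scoped NumberField

noncomputable section

namespace Fermat.Agent.P1.helper7

open Fermat.Agent.S55 Fermat.Agent.P1.helper70 Fermat.Agent.P1.helper63

local notation "Qbar" => AlgebraicClosure ℚ

/-! ## Elementary facts on roots of unity -/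

section Roots

variable {p : ℕ} [Fact p.Prime]

/-- exponents of a `p`-th root of unity only matter modulo `p` -/
lemma bsk_pow_val_natCast {ζ : Qbar} (hζ : ζ ^ p = 1) (m : ℕ) :
    ζ ^ ((m : ZMod p)).val = ζ ^ m := by
  rw [ZMod.val_natCast]
  conv_rhs => rw [← Nat.mod_add_div m p]
  rw [pow_add, pow_mul, hζ, one_pow, mul_one]

lemma bsk_pow_val_mul {ζ : Qbar} (hζ : ζ ^ p = 1) (r s : ZMod p) :
    ζ ^ (r * s).val = (ζ ^ r.val) ^ s.val := by
  have hp : p.Prime := Fact.out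
  have : NeZero p := ⟨hp.ne_zero⟩
  rw [← pow_mul, ← bsk_pow_val_natCast hζ (r.val * s.val)]
  congr 2
  rw [Nat.cast_mul, ZMod.natCast_zmod_val, ZMod.natCast_zmod_val]

lemma bsk_pow_val_add {ζ : Qbar} (hζ : ζ ^ p = 1) (r s : ZMod p) :
    ζ ^ (r + s).val = ζ ^ r.val * ζ ^ s.val := by
  have hp : p.Prime := Fact.out
  have : NeZero p := ⟨hp.ne_zero⟩
  rw [← pow_add, ← bsk_pow_val_natCast hζ (r.val + s.val)]
  congr 2
  rw [Nat.cast_add, ZMod.natCast_zmod_val, ZMod.natCast_zmod_val]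

/-- the cyclotomic character on `p`-th roots of unity -/
lemma bsk_cycloChar_spec (σ : Qbar ≃ₐ[ℚ] Qbar) {ζ : Qbar} (hζ : ζ ^ p = 1) :
    σ ζ = ζ ^ ((cycloChar p σ : (ZMod p)ˣ) : ZMod p).val := by
  have : NeZero p := ⟨(Fact.out : p.Prime).ne_zero⟩
  have hζ0 : ζ ≠ 0 := by
    rintro rfl
    rw [zero_pow (NeZero.ne p)] at hζ
    exact zero_ne_one hζ
  set t : Qbarˣ := Units.mk0 ζ hζ0 with ht
  have htm : t ∈ rootsOfUnity p Qbar := by
    rw [mem_rootsOfUnity]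
    exact Units.ext (by simpa [t] using hζ)
  have := modularCyclotomicCharacter.spec Qbar (card_rootsOfUnity_eq_self p)
    (σ : Qbar ≃+* Qbar) htm
  simpa [t, cycloChar] using this

/-- an element of `(ZMod p)ˣ` of `p`-power order is trivial -/
lemma bsk_unit_eq_one_of_pow (z : (ZMod p)ˣ) (m : ℕ) (h : z ^ p ^ m = 1) : z = 1 := by
  have hp : p.Prime := Fact.out
  have h1 : orderOf z ∣ p ^ m := orderOf_dvd_of_pow_eq_one h
  have h2 : orderOf z ∣ p - 1 := by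
    have := ZMod.card_units p
    rw [← this]
    exact orderOf_dvd_card
  have hcop : Nat.Coprime (p ^ m) (p - 1) := by
    apply Nat.Coprime.pow_left
    rw [hp.coprime_iff_not_dvd]
    have h2 := hp.two_le
    exact Nat.not_dvd_of_pos_of_lt (by omega) (by omega)
  have h3 : orderOf z ∣ 1 := by
    rw [← Nat.Coprime.gcd_eq_one hcop]
    exact Nat.dvd_gcd h1 h2
  exact orderOf_eq_one_iff.mp (Nat.dvd_one.mp h3)

end Roots

/-! ## The field `K₁` -/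

namespace BSData

variable {p : ℕ} [Fact p.Prime] {T : Finset Nat.Primes} (D : BSData p T)

/-- `Gal(ℚbar/K₁) = P` -/
lemma fixingSubgroup_K1 : D.K1.fixingSubgroup = D.pSub := by
  obtain ⟨-, E, hE, hNE⟩ := D.hN₀
  have hA := helper69.isAlgebraic_Qbar
  have hC := helper69.isAlgClosure_Qbar
  have hN := helper69.normal_Qbar
  have hG : IsGalois ℚ Qbar := ⟨⟩
  have hfd : FiniteDimensional ℚ E := hE.1
  have hopenE : IsOpen (E.fixingSubgroup : Set GQ) := IntermediateField.fixingSubgroup_isOpen E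
  have hle : E.fixingSubgroup ≤ D.pSub := hNE ▸ D.le_pSub
  have hopen : IsOpen (D.pSub : Set GQ) := Subgroup.isOpen_mono hle hopenE
  have hclosed : IsClosed (D.pSub : Set GQ) := Subgroup.isClosed_of_isOpen D.pSub hopen
  exact InfiniteGalois.fixingSubgroup_fixedField ⟨D.pSub, hclosed⟩

/-- `K₁` is unramified outside `T` (and finite over `ℚ`) -/
lemma isUnramifiedOutside_K1 : D.K1.IsUnramifiedOutside T := by
  obtain ⟨-, E, hE, hNE⟩ := D.hN₀
  have hA := helper69.isAlgebraic_Qbar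
  have hC := helper69.isAlgClosure_Qbar
  have hN := helper69.normal_Qbar
  have hG : IsGalois ℚ Qbar := ⟨⟩
  have hle : E.fixingSubgroup ≤ D.pSub := hNE ▸ D.le_pSub
  refine hE.of_le ?_
  rw [← InfiniteGalois.fixedField_fixingSubgroup E]
  exact IntermediateField.fixedField_antitone hle

/-- the cyclotomic character is trivial on `P` -/
lemma cycloChar_eq_one_of_mem_pSub {u : GQ} (hu : u ∈ D.pSub) : cycloChar p u = 1 := by
  have hle : D.pSub ≤ (cycloChar p).ker := by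
    rw [pSub, Subgroup.closure_le]
    rintro x ⟨-, m, hm⟩
    rw [SetLike.mem_coe, MonoidHom.mem_ker]
    apply bsk_unit_eq_one_of_pow _ m
    rw [← map_pow]
    exact D.hχ _ hm
  exact MonoidHom.mem_ker.mp (hle hu)

/-- `K₁` contains the `p`-th roots of unity -/
lemma hasZeta_K1 : helper59.HasZeta p D.K1 :=
  hasZeta_of_cycloChar_eq_one D.K1 p fun _ hg =>
    D.cycloChar_eq_one_of_mem_pSub (D.fixingSubgroup_K1 ▸ hg)

lemma exists_level_le_fixingSubgroup_K1 :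
    ∃ N ∈ (galLevels T).mem, N ≤ D.K1.fixingSubgroup :=
  ⟨D.N₀, D.hN₀, D.fixingSubgroup_K1 ▸ D.le_pSub⟩

end BSData

/-! ## The Kummer map of a field `F ∋ ζ_p` -/

section Kum

attribute [local instance] helper69.isAlgebraic_Qbar helper69.isAlgClosure_Qbar
  helper69.normal_Qbar

open Fermat.Agent.S55.helper59 (UF sLevels HasZeta)
open Fermat.Agent.S55.helper97

variable {p : ℕ} [Fact p.Prime] {F : IntermediateField ℚ Qbar}

lemma bsk_zeta_pow {ζ : (↥F)ˣ} (hζ : IsPrimitiveRoot ζ p) : (((ζ : ↥F) : Qbar)) ^ p = 1 := by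
  have h := hζ.pow_eq_one
  have h2 : ((ζ ^ p : (↥F)ˣ) : ↥F) = 1 := by rw [h]; rfl
  have h3 := congrArg (fun z : ↥F => (z : Qbar)) h2
  simpa using h3

lemma bsk_zeta_prim {ζ : (↥F)ˣ} (hζ : IsPrimitiveRoot ζ p) :
    IsPrimitiveRoot (((ζ : ↥F) : Qbar)) p := by
  have hζK : IsPrimitiveRoot (ζ : ↥F) p :=
    hζ.map_of_injective (f := Units.coeHom ↥F) Units.val_injective
  exact hζK.map_of_injective (f := algebraMap ↥F Qbar) (algebraMap ↥F Qbar).injective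

/-- the chosen `p`-th root of `a` -/
def bskA (ζ : (↥F)ˣ) (hζ : IsPrimitiveRoot ζ p) (a : (↥F)ˣ) : Qbar :=
  (helper97.exists_isKummerChar ζ hζ a).choose

/-- the Kummer character of `a` -/
def bskX (ζ : (↥F)ˣ) (hζ : IsPrimitiveRoot ζ p) (a : (↥F)ˣ) : UF F → ZMod p :=
  (helper97.exists_isKummerChar ζ hζ a).choose_spec.choose

lemma bsk_spec (ζ : (↥F)ˣ) (hζ : IsPrimitiveRoot ζ p) (a : (↥F)ˣ) :
    IsKummerChar p ζ a (bskA ζ hζ a) (bskX ζ hζ a) :=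
  (helper97.exists_isKummerChar ζ hζ a).choose_spec.choose_spec.1

/-- uniqueness of the Kummer character -/
lemma bskX_eq_of {ζ : (↥F)ˣ} (hζ : IsPrimitiveRoot ζ p) {a : (↥F)ˣ} {α : Qbar}
    {x : UF F → ZMod p} (h : IsKummerChar p ζ a α x) : bskX ζ hζ a = x :=
  (isKummerChar_eq_iff hζ (bsk_spec ζ hζ a) h).mpr ⟨1, by simp⟩

lemma bsk_isKummerChar_one (ζ : (↥F)ˣ) :
    IsKummerChar p ζ (1 : (↥F)ˣ) (1 : Qbar) (0 : UF F → ZMod p) := by
  refine ⟨by simp, fun σ => ?_⟩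
  simp

lemma bsk_isKummerChar_mul {ζ : (↥F)ˣ} (hζ : IsPrimitiveRoot ζ p) {a b : (↥F)ˣ} {α β : Qbar}
    {x y : UF F → ZMod p} (h : IsKummerChar p ζ a α x) (h' : IsKummerChar p ζ b β y) :
    IsKummerChar p ζ (a * b) (α * β) (x + y) := by
  refine ⟨?_, fun σ => ?_⟩
  · rw [mul_pow, h.1, h'.1]
    simp
  · rw [map_mul, h.2 σ, h'.2 σ, Pi.add_apply, bsk_pow_val_add (bsk_zeta_pow hζ)]
    ring

lemma bskX_one (ζ : (↥F)ˣ) (hζ : IsPrimitiveRoot ζ p) : bskX ζ hζ (1 : (↥F)ˣ) = 0 :=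
  bskX_eq_of hζ (bsk_isKummerChar_one ζ)

lemma bskX_mul (ζ : (↥F)ˣ) (hζ : IsPrimitiveRoot ζ p) (a b : (↥F)ˣ) :
    bskX ζ hζ (a * b) = bskX ζ hζ a + bskX ζ hζ b :=
  bskX_eq_of hζ (bsk_isKummerChar_mul hζ (bsk_spec ζ hζ a) (bsk_spec ζ hζ b))

lemma bskX_eq_zero_iff (ζ : (↥F)ˣ) (hζ : IsPrimitiveRoot ζ p) (a : (↥F)ˣ) :
    bskX ζ hζ a = 0 ↔ ∃ b : (↥F)ˣ, a = b ^ p := by
  rw [isKummerChar_eq_iff hζ (bsk_spec ζ hζ a) (bsk_isKummerChar_one ζ)]
  constructor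
  · rintro ⟨b, hb⟩
    refine ⟨b⁻¹, ?_⟩
    rw [inv_pow, hb]
    simp
  · rintro ⟨b, rfl⟩
    exact ⟨b⁻¹, by simp⟩

lemma bskX_pow (ζ : (↥F)ˣ) (hζ : IsPrimitiveRoot ζ p) (a : (↥F)ˣ) (n : ℕ) :
    bskX ζ hζ (a ^ n) = n • bskX ζ hζ a := by
  induction n with
  | zero => simp [bskX_one]
  | succ n ih => rw [pow_succ, bskX_mul, ih, succ_nsmul]

/-- the Selmer criterion -/
lemma bskX_mem_Z1_iff {S : Finset Nat.Primes} {𝒩 : Levels (UF F)} [NumberField ↥F]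
    (hpS : (⟨p, Fact.out⟩ : Nat.Primes) ∈ S) (hF : F.IsUnramifiedOutside S)
    (h𝒩 : 𝒩.mem = sLevels S F) (ζ : (↥F)ˣ) (hζ : IsPrimitiveRoot ζ p) (a : (↥F)ˣ) :
    bskX ζ hζ a ∈ Z1 𝒩 (helper59.T (ZMod p) (UF F)) ↔ IsSelmer (↥F) S p a := by
  rw [mem_Z1_iff_inSLevel h𝒩 hζ (bsk_spec ζ hζ a)]
  exact ⟨fun h => isSelmer_of_inSLevel' a _ (bsk_spec ζ hζ a).1 h,
    fun h => helper42.inSLevel_of_isSelmer hpS hF ζ hζ a _ (bsk_spec ζ hζ a).1 h⟩

/-- every level character is a Kummer character -/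
lemma exists_bskX_eq {S : Finset Nat.Primes} {𝒩 : Levels (UF F)}
    (h𝒩 : 𝒩.mem = sLevels S F) (ζ : (↥F)ˣ) (hζ : IsPrimitiveRoot ζ p) (x : UF F → ZMod p)
    (hx : x ∈ Z1 𝒩 (helper59.T (ZMod p) (UF F))) : ∃ a : (↥F)ˣ, bskX ζ hζ a = x := by
  obtain ⟨a, α, h⟩ := exists_isKummerChar_of_mem_Z1 h𝒩 ζ hζ x hx
  exact ⟨a, bskX_eq_of hζ h⟩

/-- conjugation of Kummer characters -/
lemma bsk_isKummerChar_conj {ζ : (↥F)ˣ} (hζ : IsPrimitiveRoot ζ p) {a a' : (↥F)ˣ} {α : Qbar}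
    {x : UF F → ZMod p} (h : IsKummerChar p ζ a α x) (c : GQ)
    (ha' : ((a' : ↥F) : Qbar) = c ((a : ↥F) : Qbar))
    (hconj : ∀ σ : UF F, c⁻¹ * (σ : GQ) * c ∈ F.fixingSubgroup) :
    IsKummerChar p ζ a' (c α)
      (fun σ => ((cycloChar p c : (ZMod p)ˣ) : ZMod p) * x ⟨c⁻¹ * (σ : GQ) * c, hconj σ⟩) := by
  refine ⟨?_, fun σ => ?_⟩
  · rw [← map_pow, h.1, ha']
  · have h1 : (σ : GQ) (c α) = c ((c⁻¹ * (σ : GQ) * c) α) := by
      simp [AlgEquiv.mul_apply]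
    have h2 := h.2 ⟨c⁻¹ * (σ : GQ) * c, hconj σ⟩
    change (c⁻¹ * (σ : GQ) * c) α = _ at h2
    rw [h1, h2, map_mul, map_pow, bsk_cycloChar_spec c (bsk_zeta_pow hζ),
      bsk_pow_val_mul (bsk_zeta_pow hζ)]

lemma bsk_exists_unit (h : HasZeta p F) : ∃ ζ : (↥F)ˣ, IsPrimitiveRoot ζ p := by
  obtain ⟨z, hz, hzF⟩ := h
  have hp : p.Prime := Fact.out
  have hz' : IsPrimitiveRoot (⟨z, hzF⟩ : ↥F) p :=
    hz.of_map_of_injective (f := F.val) Subtype.val_injective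
  have hz0 : (⟨z, hzF⟩ : ↥F) ≠ 0 := hz'.ne_zero hp.ne_zero
  refine ⟨Units.mk0 _ hz0, ?_⟩
  exact IsPrimitiveRoot.of_map_of_injective (f := Units.coeHom ↥F) hz' Units.val_injective

end Kum

/-! ## Transport between `P` and `Gal(ℚbar/K₁)` -/

section Transport

variable {p : ℕ} [Fact p.Prime] {T : Finset Nat.Primes}

lemma bsk_Z1_transport {U U' : Subgroup GQ} (h : U = U')
    (hU : ∃ N ∈ (galLevels T).mem, N ≤ U) (hU' : ∃ N ∈ (galLevels T).mem, N ≤ U')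
    (x : ↥U → ZMod p) :
    x ∈ Z1 (helper35.restrictLevels (galLevels T) U hU) (helper35.trivRep (ZMod p) ↥U) ↔
      (fun u : ↥U' => x ⟨u.1, h ▸ u.2⟩) ∈
        Z1 (helper35.restrictLevels (galLevels T) U' hU') (helper35.trivRep (ZMod p) ↥U') := by
  subst h
  exact Iff.rfl

end Transport

namespace BSData

open Fermat.Agent.S55.helper59 (UF sLevels HasZeta)
open Fermat.Agent.S55.helper97

variable {p : ℕ} [Fact p.Prime] {T : Finset Nat.Primes} (D : BSData p T)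

/-- `P → Gal(ℚbar/K₁)` -/
def toUF (u : ↥D.pSub) : UF D.K1 := ⟨u.1, D.fixingSubgroup_K1.symm ▸ u.2⟩

/-- `Gal(ℚbar/K₁) → P` -/
def ofUF (σ : UF D.K1) : ↥D.pSub := ⟨σ.1, D.fixingSubgroup_K1 ▸ σ.2⟩

@[simp] lemma coe_toUF (u : ↥D.pSub) : ((D.toUF u : UF D.K1) : GQ) = u := rfl
@[simp] lemma coe_ofUF (σ : UF D.K1) : ((D.ofUF σ : ↥D.pSub) : GQ) = σ := rfl
@[simp] lemma toUF_ofUF (σ : UF D.K1) : D.toUF (D.ofUF σ) = σ := rfl
@[simp] lemma ofUF_toUF (u : ↥D.pSub) : D.ofUF (D.toUF u) = u := rfl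

/-- the Kummer map `K₁ˣ → (P → 𝔽_p)` -/
def kumMap (ζ : (↥D.K1)ˣ) (hζ : IsPrimitiveRoot ζ p) : Additive (↥D.K1)ˣ →+ D.Fun where
  toFun a := fun u => bskX ζ hζ (Additive.toMul a) (D.toUF u)
  map_zero' := by
    funext u
    change bskX ζ hζ 1 (D.toUF u) = 0
    rw [bskX_one]
    rfl
  map_add' a b := by
    funext u
    change bskX ζ hζ (Additive.toMul a * Additive.toMul b) (D.toUF u) = _
    rw [bskX_mul]
    rfl

@[simp] lemma kumMap_apply (ζ : (↥D.K1)ˣ) (hζ : IsPrimitiveRoot ζ p) (a : (↥D.K1)ˣ)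
    (u : ↥D.pSub) : D.kumMap ζ hζ (Additive.ofMul a) u = bskX ζ hζ a (D.toUF u) := rfl

lemma kumMap_eq_iff (ζ : (↥D.K1)ˣ) (hζ : IsPrimitiveRoot ζ p) (a : (↥D.K1)ˣ) (x : D.Fun) :
    D.kumMap ζ hζ (Additive.ofMul a) = x ↔ bskX ζ hζ a = fun σ => x (D.ofUF σ) := by
  constructor
  · rintro rfl
    funext σ
    rfl
  · intro h
    funext u
    rw [kumMap_apply, h]
    rfl

/-- (ker) -/
lemma kumMap_eq_zero_iff (ζ : (↥D.K1)ˣ) (hζ : IsPrimitiveRoot ζ p) (a : (↥D.K1)ˣ) :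
    D.kumMap ζ hζ (Additive.ofMul a) = 0 ↔ ∃ b : (↥D.K1)ˣ, a = b ^ p := by
  rw [kumMap_eq_iff, ← bskX_eq_zero_iff ζ hζ a]
  rfl

lemma mem_Hsp_iff (x : UF D.K1 → ZMod p) :
    (fun u : ↥D.pSub => x (D.toUF u)) ∈ D.Hsp ↔
      x ∈ Z1 (helper35.restrictLevels (galLevels T) D.K1.fixingSubgroup
        D.exists_level_le_fixingSubgroup_K1) (helper59.T (ZMod p) (UF D.K1)) :=
  (bsk_Z1_transport D.fixingSubgroup_K1 D.exists_level_le_fixingSubgroup_K1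
    D.exists_level_le_pSub x).symm

/-- (sel) -/
lemma kumMap_mem_Hsp_iff [NumberField ↥D.K1] (hpT : pPrime p ∈ T) (ζ : (↥D.K1)ˣ)
    (hζ : IsPrimitiveRoot ζ p) (a : (↥D.K1)ˣ) :
    D.kumMap ζ hζ (Additive.ofMul a) ∈ D.Hsp ↔ IsSelmer ↥D.K1 T p a := by
  have h1 := D.mem_Hsp_iff (bskX ζ hζ a)
  have h2 := bskX_mem_Z1_iff (S := T) hpT D.isUnramifiedOutside_K1
    (restrictLevels_mem_eq_sLevels T D.K1 D.exists_level_le_fixingSubgroup_K1) ζ hζ a
  exact h1.trans h2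

/-- (surj) -/
lemma exists_kumMap_eq (ζ : (↥D.K1)ˣ) (hζ : IsPrimitiveRoot ζ p) (x : D.Fun)
    (hx : x ∈ D.Hsp) : ∃ a : (↥D.K1)ˣ, D.kumMap ζ hζ (Additive.ofMul a) = x := by
  have h1 := (D.mem_Hsp_iff (fun σ => x (D.ofUF σ))).mp hx
  obtain ⟨a, ha⟩ := exists_bskX_eq
    (restrictLevels_mem_eq_sLevels T D.K1 D.exists_level_le_fixingSubgroup_K1) ζ hζ _ h1
  exact ⟨a, (D.kumMap_eq_iff ζ hζ a x).mpr ha⟩

/-- (conj) -/
lemma cs_kumMap (ζ : (↥D.K1)ˣ) (hζ : IsPrimitiveRoot ζ p) (a : (↥D.K1)ˣ) :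
    D.cs (D.kumMap ζ hζ (Additive.ofMul a)) =
      (((cycloChar p D.c)⁻¹ : (ZMod p)ˣ) : ZMod p) •
        D.kumMap ζ hζ (Additive.ofMul (Units.map (D.sigmaC : ↥D.K1 →* ↥D.K1) a)) := by
  have hconj : ∀ σ : UF D.K1, D.c⁻¹ * (σ : GQ) * D.c ∈ D.K1.fixingSubgroup := fun σ =>
    (SetLike.ext_iff.mp D.fixingSubgroup_K1 _).mpr (D.conj_mem_pSub' (D.ofUF σ).2)
  have h := bsk_isKummerChar_conj hζ (bsk_spec ζ hζ a) D.c
    (a' := Units.map (D.sigmaC : ↥D.K1 →* ↥D.K1) a) rfl hconj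
  have h2 := bskX_eq_of hζ h
  funext u
  rw [cs_apply, Pi.smul_apply, kumMap_apply, kumMap_apply, h2, smul_eq_mul, ← mul_assoc,
    Units.inv_mul, one_mul]
  rfl

lemma kumMap_pow (ζ : (↥D.K1)ˣ) (hζ : IsPrimitiveRoot ζ p) (a : (↥D.K1)ˣ) (n : ℕ) :
    D.kumMap ζ hζ (Additive.ofMul (a ^ n)) = n • D.kumMap ζ hζ (Additive.ofMul a) := by
  rw [ofMul_pow, map_nsmul]

lemma smul_kumMap (ζ : (↥D.K1)ˣ) (hζ : IsPrimitiveRoot ζ p) (a : (↥D.K1)ˣ) (r : ZMod p) :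
    r • D.kumMap ζ hζ (Additive.ofMul a) = D.kumMap ζ hζ (Additive.ofMul (a ^ r.val)) := by
  have hp : p.Prime := Fact.out
  have : NeZero p := ⟨hp.ne_zero⟩
  rw [kumMap_pow, ← Nat.cast_smul_eq_nsmul (ZMod p), ZMod.natCast_zmod_val]

/-- the span of the Kummer characters of the `p`-th roots `α` with a property `Pbar` is the image
of a subgroup `PK` of `K₁ˣ` as soon as `Pbar α ↔ α ^ p ∈ PK` -/
lemma span_kum_iff (ζ : (↥D.K1)ˣ) (hζ : IsPrimitiveRoot ζ p) (Pbar : Qbar → Prop)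
    (PK : Subgroup (↥D.K1)ˣ) (h0 : ∀ α, Pbar α → α ≠ 0)
    (h1 : ∀ a ∈ PK, ∀ α : Qbar, α ^ p = ((a : ↥D.K1) : Qbar) → Pbar α)
    (h2 : ∀ (a : (↥D.K1)ˣ) (α : Qbar), α ^ p = ((a : ↥D.K1) : Qbar) → Pbar α → a ∈ PK)
    (x : D.Fun) :
    x ∈ Submodule.span (ZMod p) {x | ∃ ζ' α : Qbar, D.IsKum ζ' α x ∧ Pbar α} ↔
      ∃ a ∈ PK, D.kumMap ζ hζ (Additive.ofMul a) = x := by
  have hp : p.Prime := Fact.out
  have : NeZero p := ⟨hp.ne_zero⟩
  constructor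
  · intro hx
    induction hx using Submodule.span_induction with
    | mem x hx =>
      obtain ⟨ζ', α, ⟨hζ', hu⟩, hP⟩ := hx
      have hα0 : α ≠ 0 := h0 α hP
      have hαK : α ^ p ∈ D.K1 := by
        rw [mem_K1_iff]
        intro u hu'
        rw [map_pow, hu ⟨u, hu'⟩, mul_pow, ← pow_mul, mul_comm _ p, pow_mul, hζ'.pow_eq_one,
          one_pow, one_mul]
      have ha0 : (⟨α ^ p, hαK⟩ : ↥D.K1) ≠ 0 := by
        intro h
        have := congrArg (fun z : ↥D.K1 => (z : Qbar)) h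
        exact pow_ne_zero p hα0 this
      set a : (↥D.K1)ˣ := Units.mk0 _ ha0 with ha
      obtain ⟨j, -, hj⟩ := (bsk_zeta_prim hζ).eq_pow_of_pow_eq_one hζ'.pow_eq_one
      have hK : IsKummerChar p ζ a α (fun σ => (j : ZMod p) * x (D.ofUF σ)) := by
        refine ⟨rfl, fun σ => ?_⟩
        have h3 := hu (D.ofUF σ)
        rw [coe_ofUF] at h3
        rw [h3, bsk_pow_val_mul (bsk_zeta_pow hζ), bsk_pow_val_natCast (bsk_zeta_pow hζ), hj]
      have hj0 : (j : ZMod p) ≠ 0 := by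
        intro h0'
        rw [ZMod.natCast_eq_zero_iff] at h0'
        obtain ⟨m, rfl⟩ := h0'
        rw [pow_mul, bsk_zeta_pow hζ, one_pow] at hj
        exact hζ'.ne_one hp.one_lt hj.symm
      have hkm : D.kumMap ζ hζ (Additive.ofMul a) = (j : ZMod p) • x := by
        rw [kumMap_eq_iff, bskX_eq_of hζ hK]
        rfl
      refine ⟨a ^ ((j : ZMod p)⁻¹).val, PK.pow_mem (h2 a α rfl hP) _, ?_⟩
      rw [← smul_kumMap, hkm, smul_smul, inv_mul_cancel₀ hj0, one_smul]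
    | zero => exact ⟨1, PK.one_mem, map_zero _⟩
    | add x y _ _ hx hy =>
      obtain ⟨a, ha, rfl⟩ := hx
      obtain ⟨b, hb, rfl⟩ := hy
      exact ⟨a * b, PK.mul_mem ha hb, map_add _ _ _⟩
    | smul r x _ hx =>
      obtain ⟨a, ha, rfl⟩ := hx
      exact ⟨a ^ r.val, PK.pow_mem ha _, (D.smul_kumMap ζ hζ a r).symm⟩
  · rintro ⟨a, ha, rfl⟩
    refine Submodule.subset_span ⟨((ζ : ↥D.K1) : Qbar), bskA ζ hζ a, ⟨bsk_zeta_prim hζ, fun u => ?_⟩,
      h1 a ha _ (bsk_spec ζ hζ a).1⟩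
    exact (bsk_spec ζ hζ a).2 (D.toUF u)

end BSData

/-! ## The dictionary for `T`-units and roots of unity -/

section Dict

open Fermat.Agent.S14.helper91 Fermat.Agent.S54.helper91
open Fermat.Agent.S55.helper97

variable {p : ℕ} [Fact p.Prime] {T : Finset Nat.Primes}
  (F : IntermediateField ℚ Qbar) [NumberField ↥F]

/-- a `p`-th root of a `T`-unit of `F` is a `T`-unit of `ℚbar` -/
lemma bsk_isTUnitBar_of_mem_sUnits {a : (↥F)ˣ} (ha : a ∈ Fermat.Agent.S55.helper79.sUnits ↥F T)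
    {α : Qbar} (hα : α ^ p = ((a : ↥F) : Qbar)) : BSData.IsTUnitBar T α := by
  have hp : p.Prime := Fact.out
  have hα0 : α ≠ 0 := by
    rintro rfl
    rw [zero_pow hp.ne_zero] at hα
    exact (map_ne_zero (algebraMap ↥F Qbar)).mpr a.ne_zero hα.symm
  refine ⟨hα0, fun q hq A hA => ?_⟩
  have hv := helper42.placeOf_notMem_placesOver F hq hA
  have h1 : (helper42.placeOf F q.2 hA).valuation ↥F (a : ↥F) = 1 := ha _ hv
  have h2 := helper42.valuation_eq_one_of_place F q.2 hA (a : ↥F) h1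
  exact helper42.valuation_eq_one_of_pow A hp.ne_zero (by rw [hα]; exact h2)

/-- if a `p`-th root of `a ∈ Fˣ` is a `T`-unit of `ℚbar` then `a` is a `T`-unit of `F` -/
lemma bsk_mem_sUnits_of_isTUnitBar {a : (↥F)ˣ} {α : Qbar} (hα : α ^ p = ((a : ↥F) : Qbar))
    (h : BSData.IsTUnitBar T α) : a ∈ Fermat.Agent.S55.helper79.sUnits ↥F T := by
  have hp : p.Prime := Fact.out
  intro v hv
  have hmax := v.isMaximal
  obtain ⟨A, hA⟩ := exists_primeOf_eq ↥F v.asIdeal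
  obtain ⟨q, n, -, hq, hqp, -⟩ := Ideal.exists_prime_and_absNorm_eq_pow v.asIdeal
  have hqT : (⟨q, hqp⟩ : Nat.Primes) ∉ T := by
    intro hqT
    exact hv ((mem_placesOver_iff v).mpr ⟨⟨q, hqp⟩, hqT, hq⟩)
  have hAq : A.LiesOverPrime q := liesOverPrime_of_natCast_mem ↥F A (by rw [hA]; exact hq)
  have h1 : A.valuation α = 1 := h.2 ⟨q, hqp⟩ hqT A hAq
  have h2 : A.valuation (algebraMap ↥F Qbar (a : ↥F)) = 1 := by
    change A.valuation (((a : ↥F) : Qbar)) = 1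
    rw [← hα, map_pow, h1, one_pow]
  -- the unit `q` of `F`
  have hq0 : ((q : ℕ) : ↥F) ≠ 0 := Nat.cast_ne_zero.mpr hqp.ne_zero
  set y : (↥F)ˣ := Units.mk0 _ hq0 with hy
  have h3 := helper52.valuation_zpow_eq_zpow ↥F A v hA.symm a y
  rw [h2, one_zpow] at h3
  have hyv : A.valuation (algebraMap ↥F Qbar (y : ↥F)) < 1 := by
    have := (mem_primeOf_iff ↥F A (q : 𝓞 ↥F)).mp (by rw [hA]; exact hq)
    simpa [hy] using this
  have hy0 : A.valuation (algebraMap ↥F Qbar (y : ↥F)) ≠ 0 := by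
    rw [Ne, map_eq_zero, map_eq_zero]
    exact y.ne_zero
  have h4 : Multiplicative.toAdd (v.valuationOfNeZero a) = 0 := by
    by_contra hne
    have := (zpow_eq_one_iff_right₀ zero_le hyv.ne).mp h3.symm
    exact hne this
  have h5 : v.valuationOfNeZero a = 1 := by
    apply Multiplicative.toAdd.injective
    rw [h4]
    rfl
  rw [← HeightOneSpectrum.valuationOfNeZero_eq, h5]
  rfl

/-- a `p`-th root of a root of unity is a root of unity -/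
lemma bsk_root_of_torsion {a : (↥F)ˣ} (ha : a ∈ CommGroup.torsion (↥F)ˣ)
    {α : Qbar} (hα : α ^ p = ((a : ↥F) : Qbar)) : ∃ m : ℕ, 0 < m ∧ α ^ m = 1 := by
  have hp : p.Prime := Fact.out
  rw [CommGroup.mem_torsion, isOfFinOrder_iff_pow_eq_one] at ha
  obtain ⟨m, hm, ham⟩ := ha
  refine ⟨p * m, Nat.mul_pos hp.pos hm, ?_⟩
  rw [pow_mul, hα]
  have h2 : ((a ^ m : (↥F)ˣ) : ↥F) = 1 := by rw [ham]; rfl
  have h3 := congrArg (fun z : ↥F => (z : Qbar)) h2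
  simpa using h3

lemma bsk_torsion_of_root {a : (↥F)ˣ} {α : Qbar} (hα : α ^ p = ((a : ↥F) : Qbar))
    (h : ∃ m : ℕ, 0 < m ∧ α ^ m = 1) : a ∈ CommGroup.torsion (↥F)ˣ := by
  obtain ⟨m, hm, hαm⟩ := h
  rw [CommGroup.mem_torsion, isOfFinOrder_iff_pow_eq_one]
  refine ⟨m, hm, ?_⟩
  apply Units.ext
  apply Subtype.ext
  have : (((a : ↥F) : Qbar)) ^ m = 1 := by
    rw [← hα, ← pow_mul, mul_comm, pow_mul, hαm, one_pow]
  simpa using this

end Dict

/-! ## The deliverable -/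

section Final

variable (p : ℕ) [Fact p.Prime] (T : Finset Nat.Primes)

/-- **BS-KUM**: the Kummer bridge. -/
theorem kumBridge : KumBridgeStatement p T := by
  intro _ hpT D _
  obtain ⟨ζ, hζ⟩ := bsk_exists_unit D.hasZeta_K1
  refine ⟨D.kumMap ζ hζ, D.kumMap_eq_zero_iff ζ hζ, D.kumMap_mem_Hsp_iff hpT ζ hζ,
    fun x hx => D.exists_kumMap_eq ζ hζ x hx, D.cs_kumMap ζ hζ, fun x => ?_, fun x => ?_⟩
  · exact D.span_kum_iff ζ hζ (BSData.IsTUnitBar T) (Fermat.Agent.S55.helper79.sUnits ↥D.K1 T)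
      (fun α h => h.1) (fun a ha α hα => bsk_isTUnitBar_of_mem_sUnits D.K1 ha hα)
      (fun a α hα h => bsk_mem_sUnits_of_isTUnitBar D.K1 hα h) x
  · have h := D.span_kum_iff ζ hζ (fun α => ∃ m : ℕ, 0 < m ∧ α ^ m = 1)
      (CommGroup.torsion (↥D.K1)ˣ)
      (fun α h => by
        obtain ⟨m, hm, hαm⟩ := h
        rintro rfl
        rw [zero_pow hm.ne'] at hαm
        exact zero_ne_one hαm)
      (fun a ha α hα => bsk_root_of_torsion D.K1 ha hα)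
      (fun a α hα h => bsk_torsion_of_root D.K1 hα h) x
    refine h.trans (exists_congr fun a => and_congr ?_ Iff.rfl)
    rw [CommGroup.mem_torsion, isOfFinOrder_iff_pow_eq_one]

end Final

end Fermat.Agent.P1.helper7
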