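import Fermat.Agent.P1.helper35_BSUnitsFinal
import Fermat.Agent.P1.helper7_BSKum

/-!
# P1 / module EC / BASE-STAR / package BS-UNITS (helper35): UNCONDITIONAL

`units : helper7.UnitsStatement p T` — the equivariant Dirichlet unit theorem modulo `p`:

  `dim Y^c + ∑_v mult(y', k[D_v\G/P]) ≤ mult(z, 𝐔) + dim Y'^c`.
-/

set_option autoImplicit false

noncomputable section

namespace Fermat.Agent.P1.helper35.BSU

open Fermat.Agent.P1.helper7

/-- **BS-UNITS**, unconditional. -/
theorem units (p : ℕ) [Fact p.Prime] (T : Finset Nat.Primes) : UnitsStatement p T :=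
  units_of_kum (Fermat.Agent.P1.helper7.kumBridge p T)

end Fermat.Agent.P1.helper35.BSU
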