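import Fermat.Agent.P1.helper35_BSUnitsDefs

/-!
# P1 / EC / BASE-STAR / BS-UNITS-DC (helper38, task 834)

* `dcOrbit : DcOrbitStatement` : the orbits of `π^d` on `D \ G / P` are the double cosets
  `D \ G / ⟨c^d⟩ P`;
* `dcFunEquiv : DcFunStatement` : `(dcFun D P, rtr c) ≅ (functions on D \ G / P, permOp π)`.
-/

set_option autoImplicit false

namespace Fermat.Agent.P1.helper38

open Fermat.Agent.P1.helper35.BSU Fermat.Agent.P1.helper7

section DC

variable {G : Type} [Group G] (D P : Subgroup G) (c : G)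
  (hc : ∀ u ∈ P, c⁻¹ * u * c ∈ P) (hc' : ∀ u ∈ P, c * u * c⁻¹ ∈ P)

include hc hc' in
theorem dc_mem_normalizer : c ∈ Subgroup.normalizer P := by
  rw [Subgroup.mem_normalizer_iff]
  intro h
  constructor
  · exact hc' h
  · intro hh
    have := hc _ hh
    simpa [mul_assoc] using this

theorem dcPerm_pow_mk (n : ℕ) (g : G) :
    (dcPerm D P c hc hc' ^ n) (DoubleCoset.mk D P g) = DoubleCoset.mk D P (g * c ^ n) := by
  induction n generalizing g with
  | zero => simp
  | succ n ih =>
    rw [pow_succ, Equiv.Perm.mul_apply, dcPerm_mk, ih, pow_succ', mul_assoc]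

theorem dcPerm_zpow_mk (z : ℤ) (g : G) :
    (dcPerm D P c hc hc' ^ z) (DoubleCoset.mk D P g) = DoubleCoset.mk D P (g * c ^ z) := by
  cases z with
  | ofNat n =>
    rw [Int.ofNat_eq_natCast, zpow_natCast, zpow_natCast]
    exact dcPerm_pow_mk D P c hc hc' n g
  | negSucc n =>
    rw [zpow_negSucc, zpow_negSucc, Equiv.Perm.inv_eq_iff_eq, dcPerm_pow_mk,
      inv_mul_cancel_right]

/-- the canonical map `D \ G / P → D \ G / Q` for `P ≤ Q` -/
def dcProj (Q : Subgroup G) (hPQ : P ≤ Q) :
    DoubleCoset.Quotient (D : Set G) (P : Set G) → DoubleCoset.Quotient (D : Set G) (Q : Set G) :=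
  Quotient.map' id (fun a b hab => by
    obtain ⟨x, hx, y, hy, rfl⟩ := DoubleCoset.rel_iff.1 hab
    exact DoubleCoset.rel_iff.2 ⟨x, hx, y, hPQ hy, rfl⟩)

@[simp] theorem dcProj_mk (Q : Subgroup G) (hPQ : P ≤ Q) (g : G) :
    dcProj D P Q hPQ (DoubleCoset.mk D P g) = DoubleCoset.mk D Q g := rfl

theorem dcProj_surjective (Q : Subgroup G) (hPQ : P ≤ Q) :
    Function.Surjective (dcProj D P Q hPQ) := by
  intro q
  induction q using Quotient.inductionOn' with
  | h g => exact ⟨DoubleCoset.mk D P g, rfl⟩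

include hc hc' in
/-- elements of `⟨c^d⟩ ⊔ P` are of the form `(c^d)^m * u` -/
theorem dc_mem_sup (d : ℕ) {q : G} (hq : q ∈ Subgroup.zpowers (c ^ d) ⊔ P) :
    ∃ (m : ℤ) (u : G), u ∈ P ∧ q = (c ^ d) ^ m * u := by
  have hle : Subgroup.zpowers (c ^ d) ≤ Subgroup.normalizer P := by
    rw [Subgroup.zpowers_le]
    exact pow_mem (dc_mem_normalizer P c hc hc') d
  have hq' : q ∈ ((Subgroup.zpowers (c ^ d) ⊔ P : Subgroup G) : Set G) := hq
  rw [Subgroup.coe_mul_of_left_le_normalizer_right _ _ hle, Set.mem_mul] at hq'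
  obtain ⟨x, hx, u, hu, rfl⟩ := hq'
  obtain ⟨m, rfl⟩ := Subgroup.mem_zpowers_iff.1 hx
  exact ⟨m, u, hu, rfl⟩

/-- **BS-UNITS-DC (a)** as an equivalence -/
noncomputable def dcOrbitEquiv (d : ℕ) :
    MulAction.orbitRel.Quotient ↥(Subgroup.zpowers (dcPerm D P c hc hc' ^ d))
        (DoubleCoset.Quotient (D : Set G) (P : Set G)) ≃
      DoubleCoset.Quotient (D : Set G) ((Subgroup.zpowers (c ^ d) ⊔ P : Subgroup G) : Set G) := by
  refine Equiv.ofBijective
    (Quotient.lift (dcProj D P (Subgroup.zpowers (c ^ d) ⊔ P) le_sup_right) ?_) ⟨?_, ?_⟩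
  · -- the projection is constant on orbits
    intro a b hab
    obtain ⟨⟨σ, hσ⟩, hσa⟩ := MulAction.mem_orbit_iff.1 (MulAction.orbitRel_apply.1 hab)
    obtain ⟨m, rfl⟩ := Subgroup.mem_zpowers_iff.1 hσ
    induction b using Quotient.inductionOn' with
    | h g =>
      have h1 : a = DoubleCoset.mk D P (g * (c ^ d) ^ m) := by
        rw [← hσa]
        change ((dcPerm D P c hc hc' ^ d) ^ m) (DoubleCoset.mk D P g) = _
        rw [← zpow_natCast, ← zpow_mul, dcPerm_zpow_mk, zpow_mul, zpow_natCast]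
      rw [h1]
      change DoubleCoset.mk D _ (g * (c ^ d) ^ m) = DoubleCoset.mk D _ g
      rw [DoubleCoset.eq]
      refine ⟨1, D.one_mem, ((c ^ d) ^ m)⁻¹,
        Subgroup.mem_sup_left (inv_mem (Subgroup.zpow_mem_zpowers _ _)), ?_⟩
      rw [one_mul, mul_inv_cancel_right]
  · -- injectivity
    intro x y hxy
    induction x using Quotient.inductionOn with
    | h a =>
      induction y using Quotient.inductionOn with
      | h b =>
        induction a using Quotient.inductionOn' with
        | h g =>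
          induction b using Quotient.inductionOn' with
          | h g' =>
            change DoubleCoset.mk D _ g = DoubleCoset.mk D _ g' at hxy
            rw [DoubleCoset.eq] at hxy
            obtain ⟨x, hx, q, hq, rfl⟩ := hxy
            obtain ⟨m, u, hu, rfl⟩ := dc_mem_sup P c hc hc' d hq
            apply Quotient.sound
            change DoubleCoset.mk D P g ∈
              MulAction.orbit ↥(Subgroup.zpowers (dcPerm D P c hc hc' ^ d))
                (DoubleCoset.mk D P (x * g * ((c ^ d) ^ m * u)))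
            rw [MulAction.mem_orbit_iff]
            refine ⟨⟨(dcPerm D P c hc hc' ^ d) ^ (-m), Subgroup.zpow_mem_zpowers _ _⟩, ?_⟩
            change ((dcPerm D P c hc hc' ^ d) ^ (-m))
              (DoubleCoset.mk D P (x * g * ((c ^ d) ^ m * u))) = DoubleCoset.mk D P g
            rw [← zpow_natCast, ← zpow_mul, dcPerm_zpow_mk, DoubleCoset.eq]
            refine ⟨x⁻¹, inv_mem hx, (c ^ ((d : ℤ) * -m))⁻¹ * u⁻¹ * c ^ ((d : ℤ) * -m), ?_, ?_⟩
            · have hn : c ^ ((d : ℤ) * -m) ∈ Subgroup.normalizer P :=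
                zpow_mem (dc_mem_normalizer P c hc hc') _
              exact (Subgroup.mem_normalizer_iff''.1 hn u⁻¹).1 (inv_mem hu)
            · rw [zpow_mul, zpow_natCast, zpow_neg]
              group
  · -- surjectivity
    intro q
    obtain ⟨x, rfl⟩ := dcProj_surjective D P (Subgroup.zpowers (c ^ d) ⊔ P) le_sup_right q
    exact ⟨Quotient.mk _ x, rfl⟩

end DC

/-- **BS-UNITS-DC (a)** -/
theorem dcOrbit : DcOrbitStatement := by
  intro G _ D P c hc hc' d
  exact Nat.card_congr (dcOrbitEquiv D P c hc hc' d)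

/-- **BS-UNITS-DC (b)** -/
theorem dcFunEquiv : DcFunStatement := by
  intro k _ G _ D P c hc hc'
  refine ⟨{
    toFun := fun f => ⟨fun g => f (DoubleCoset.mk D P g), ?_⟩
    map_add' := fun f f' => rfl
    map_smul' := fun r f => rfl
    invFun := fun F => Quotient.lift (F : G → k) ?_
    left_inv := ?_
    right_inv := ?_ }, ?_⟩
  · intro x hx u hu g
    have h : DoubleCoset.mk D P (x * g * u) = DoubleCoset.mk D P g :=
      ((DoubleCoset.eq D P g (x * g * u)).2 ⟨x, hx, u, hu, rfl⟩).symm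
    show f (DoubleCoset.mk D P (x * g * u)) = f (DoubleCoset.mk D P g)
    rw [h]
  · intro a b hab
    obtain ⟨x, hx, y, hy, rfl⟩ := DoubleCoset.rel_iff.1 hab
    exact (F.2 x hx y hy a).symm
  · intro f
    funext q
    induction q using Quotient.inductionOn' with
    | h g => rfl
  · intro F
    rfl
  · intro f
    rfl

end Fermat.Agent.P1.helper38
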