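import Mathlib

/-!
# P1 / EC / BASE-STAR / BS-UNITS-TFREE (helper44, task 836): core (Mathlib only)

For an endomorphism `g` of a finitely generated abelian group `M` and an endomorphism `g'` of
`M / torsion` compatible with `g`, the kernels of `g` and `g'` have the same rank.
-/

set_option autoImplicit false

noncomputable section

namespace Fermat.Agent.P1.helper44

open Submodule

/-- a submodule of a torsion-free-rank computation: if the quotient `N / P` is torsion then
`P` and `N` have the same `finrank` (over `ℤ`). -/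
theorem finrank_eq_of_torsion_quotient {N : Type*} [AddCommGroup N] [Module.Finite ℤ N]
    (P : Submodule ℤ N) (h : ∀ x : N, ∃ n : ℤ, n ≠ 0 ∧ n • x ∈ P) :
    Module.finrank ℤ ↥P = Module.finrank ℤ N := by
  have h1 := P.finrank_quotient_add_finrank
  have h2 : Module.finrank ℤ (N ⧸ P) = 0 := by
    apply Module.IsTorsion.finrank_eq_zero
    intro y
    obtain ⟨x, rfl⟩ := P.mkQ_surjective y
    obtain ⟨n, hn, hx⟩ := h x
    refine ⟨⟨n, mem_nonZeroDivisors_of_ne_zero hn⟩, ?_⟩
    change n • P.mkQ x = 0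
    rw [← map_smul]
    exact (Submodule.Quotient.mk_eq_zero P).2 hx
  omega

/-- **BS-UNITS-TFREE**, core form. -/
theorem tfree_core (M : Type) [AddCommGroup M] [Module.Finite ℤ M] (g : M →ₗ[ℤ] M)
    (g' : (M ⧸ Submodule.torsion ℤ M) →ₗ[ℤ] (M ⧸ Submodule.torsion ℤ M))
    (hg : ∀ x : M, g' ((Submodule.torsion ℤ M).mkQ x) = (Submodule.torsion ℤ M).mkQ (g x)) :
    Module.finrank ℤ ↥(LinearMap.ker g') = Module.finrank ℤ ↥(LinearMap.ker g) := by
  -- the map `ker g → ker g'`
  let f : ↥(LinearMap.ker g) →ₗ[ℤ] ↥(LinearMap.ker g') :=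
    LinearMap.codRestrict (LinearMap.ker g')
      ((Submodule.torsion ℤ M).mkQ.comp (LinearMap.ker g).subtype) (fun x => by
        rw [LinearMap.mem_ker, LinearMap.comp_apply, hg, Submodule.subtype_apply,
          LinearMap.mem_ker.1 x.2, map_zero])
  have hf : ∀ x : ↥(LinearMap.ker g), ((f x : ↥(LinearMap.ker g')) :
      M ⧸ Submodule.torsion ℤ M) = (Submodule.torsion ℤ M).mkQ (x : M) := fun x => rfl
  -- rank-nullity for `f`
  have h1 : Module.finrank ℤ ↥(LinearMap.range f) + Module.finrank ℤ ↥(LinearMap.ker f) =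
      Module.finrank ℤ ↥(LinearMap.ker g) := by
    have := (LinearMap.ker f).finrank_quotient_add_finrank
    rwa [LinearEquiv.finrank_eq f.quotKerEquivRange] at this
  -- the kernel of `f` is torsion
  have h2 : Module.finrank ℤ ↥(LinearMap.ker f) = 0 := by
    apply Module.IsTorsion.finrank_eq_zero
    intro y
    have hy : f (y : ↥(LinearMap.ker g)) = 0 := LinearMap.mem_ker.1 y.2
    have hy' : (Submodule.torsion ℤ M).mkQ ((y : ↥(LinearMap.ker g)) : M) = 0 := by
      rw [← hf, hy]
      rfl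
    have hy'' : ((y : ↥(LinearMap.ker g)) : M) ∈ Submodule.torsion ℤ M :=
      (Submodule.Quotient.mk_eq_zero _).1 hy'
    obtain ⟨a, ha⟩ := (Submodule.mem_torsion_iff _).1 hy''
    refine ⟨a, ?_⟩
    apply Subtype.ext
    apply Subtype.ext
    exact ha
  -- the range of `f` has torsion quotient
  have h3 : Module.finrank ℤ ↥(LinearMap.range f) = Module.finrank ℤ ↥(LinearMap.ker g') := by
    apply finrank_eq_of_torsion_quotient
    intro z
    obtain ⟨x, hx⟩ := (Submodule.torsion ℤ M).mkQ_surjective (z : M ⧸ Submodule.torsion ℤ M)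
    have hz : g' (z : M ⧸ Submodule.torsion ℤ M) = 0 := LinearMap.mem_ker.1 z.2
    rw [← hx, hg] at hz
    have hgx : g x ∈ Submodule.torsion ℤ M := (Submodule.Quotient.mk_eq_zero _).1 hz
    obtain ⟨a, ha⟩ := (Submodule.mem_torsion_iff _).1 hgx
    have ha0 : (a : ℤ) ≠ 0 := nonZeroDivisors.coe_ne_zero a
    have hax : (a : ℤ) • x ∈ LinearMap.ker g := by
      rw [LinearMap.mem_ker, map_smul]
      exact ha
    refine ⟨(a : ℤ), ha0, ⟨⟨(a : ℤ) • x, hax⟩, ?_⟩⟩
    apply Subtype.ext
    rw [hf]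
    change (Submodule.torsion ℤ M).mkQ ((a : ℤ) • x) = (a : ℤ) • (z : M ⧸ Submodule.torsion ℤ M)
    rw [map_smul, hx]
  omega

end Fermat.Agent.P1.helper44

end
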