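import Fermat.Agent.P1.helper35_BSUnitsDefs
import Fermat.Agent.P1.helper44_BSUnitsTFreeCore

/-!
# P1 / EC / BASE-STAR / BS-UNITS-TFREE (helper44, task 836)

`tfree : helper35.BSU.TFreeStatement` VERBATIM, from the Mathlib-only core `tfree_core`.
-/

set_option autoImplicit false

noncomputable section

namespace Fermat.Agent.P1.helper44

/-- **BS-UNITS-TFREE**: passing to the quotient by the torsion subgroup does not change the rank
of the kernel of an endomorphism. -/
theorem tfree : Fermat.Agent.P1.helper35.BSU.TFreeStatement :=
  fun M _ _ g g' hg => tfree_core M g g' hg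

end Fermat.Agent.P1.helper44

end
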