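import Fermat.Agent.P1.helper35_BSUnitsDefs

/-!
# P1 / module EC / BASE-STAR / BS-UNITS, package BS-UNITS-SIGMA (helper60)

`sigma : helper35.BSU.SigmaStatement`: orbit counts and multiplicities of a finite disjoint
union of permutation sets.

* `sigmaPerm_zpow_apply` : `((Π)^d)^n ⟨i, x⟩ = ⟨i, ((π i)^d)^n x⟩`;
* `sigmaOrbitEquiv`      : the orbits of `Π^d` on `Σ i, X i` are the disjoint union of the orbits
                           of the `π i ^ d` on the `X i`;
* `sigmaEqvEquiv`        : `Hom_{a, permOp Π}(A, k^{Σ X}) ≃ ∏ i, Hom_{a, permOp (π i)}(A, k^{X i})`;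
* `sigma`                : the statement.
-/

set_option autoImplicit false

noncomputable section

namespace Fermat.Agent.P1.helper60

open Fermat.Agent.P1.helper7

section Orbits

variable {ι : Type} {X : ι → Type} (π : ∀ i, Equiv.Perm (X i))

lemma sigmaPerm_pow_apply (d : ℕ) (s : Σ i, X i) :
    ((Equiv.sigmaCongrRight π : Equiv.Perm (Σ i, X i)) ^ d) s = ⟨s.1, (π s.1 ^ d) s.2⟩ := by
  induction d generalizing s with
  | zero => rfl
  | succ d ih =>
    rw [pow_succ, pow_succ, Equiv.Perm.mul_apply, Equiv.Perm.mul_apply]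
    exact ih _

lemma sigmaPerm_pow_eq (d : ℕ) :
    ((Equiv.sigmaCongrRight π : Equiv.Perm (Σ i, X i)) ^ d) =
      Equiv.sigmaCongrRight (fun i => π i ^ d) := by
  ext s : 1
  rw [sigmaPerm_pow_apply]
  rfl

lemma sigmaPerm_inv_eq :
    ((Equiv.sigmaCongrRight π : Equiv.Perm (Σ i, X i)))⁻¹ =
      Equiv.sigmaCongrRight (fun i => (π i)⁻¹) := by
  ext s : 1
  rfl

lemma sigmaPerm_zpow_eq (n : ℤ) :
    ((Equiv.sigmaCongrRight π : Equiv.Perm (Σ i, X i)) ^ n) =
      Equiv.sigmaCongrRight (fun i => π i ^ n) := by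
  cases n with
  | ofNat m =>
    simp only [Int.ofNat_eq_natCast, zpow_natCast]
    exact sigmaPerm_pow_eq π m
  | negSucc m =>
    simp only [zpow_negSucc]
    rw [sigmaPerm_pow_eq, sigmaPerm_inv_eq]

lemma sigmaPerm_zpow_apply (d : ℕ) (n : ℤ) (s : Σ i, X i) :
    (((Equiv.sigmaCongrRight π : Equiv.Perm (Σ i, X i)) ^ d) ^ n) s =
      ⟨s.1, ((π s.1 ^ d) ^ n) s.2⟩ := by
  rw [sigmaPerm_pow_eq, sigmaPerm_zpow_eq]
  rfl

/-- the map from the orbits of `Π^d` to the disjoint union of the orbits of the `π i ^ d` -/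
def sigmaOrbitTo (d : ℕ) :
    MulAction.orbitRel.Quotient
        ↥(Subgroup.zpowers ((Equiv.sigmaCongrRight π : Equiv.Perm (Σ i, X i)) ^ d)) (Σ i, X i) →
      Σ i, MulAction.orbitRel.Quotient ↥(Subgroup.zpowers (π i ^ d)) (X i) :=
  Quotient.lift (fun s => ⟨s.1, Quotient.mk'' s.2⟩) (by
    rintro ⟨i, x⟩ ⟨j, y⟩ h
    obtain ⟨⟨g, hg⟩, hgy⟩ := (MulAction.orbitRel_apply.1 h : _)
    obtain ⟨n, rfl⟩ := Subgroup.mem_zpowers_iff.1 hg
    have h1 : (((Equiv.sigmaCongrRight π : Equiv.Perm (Σ i, X i)) ^ d) ^ n) ⟨j, y⟩ = ⟨i, x⟩ := hgy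
    rw [sigmaPerm_zpow_apply] at h1
    obtain ⟨rfl, h2⟩ := Sigma.mk.inj_iff.1 h1
    have h3 : ((π j ^ d) ^ n) y = x := eq_of_heq h2
    refine Sigma.ext rfl (heq_of_eq ?_)
    refine Quotient.sound' ?_
    refine MulAction.orbitRel_apply.2 ⟨⟨(π j ^ d) ^ n, Subgroup.mem_zpowers_iff.2 ⟨n, rfl⟩⟩, h3⟩)

/-- the map from the disjoint union of the orbits of the `π i ^ d` to the orbits of `Π^d` -/
def sigmaOrbitFrom (d : ℕ) :
    (Σ i, MulAction.orbitRel.Quotient ↥(Subgroup.zpowers (π i ^ d)) (X i)) →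
      MulAction.orbitRel.Quotient
        ↥(Subgroup.zpowers ((Equiv.sigmaCongrRight π : Equiv.Perm (Σ i, X i)) ^ d)) (Σ i, X i) :=
  fun s => Quotient.lift (fun x : X s.1 => (Quotient.mk'' (⟨s.1, x⟩ : Σ i, X i) :
      MulAction.orbitRel.Quotient
        ↥(Subgroup.zpowers ((Equiv.sigmaCongrRight π : Equiv.Perm (Σ i, X i)) ^ d)) (Σ i, X i)))
    (by
      intro x y h
      obtain ⟨⟨g, hg⟩, hgy⟩ := (MulAction.orbitRel_apply.1 h : _)
      obtain ⟨n, rfl⟩ := Subgroup.mem_zpowers_iff.1 hg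
      have h1 : ((π s.1 ^ d) ^ n) y = x := hgy
      refine Quotient.sound' ?_
      refine MulAction.orbitRel_apply.2
        ⟨⟨((Equiv.sigmaCongrRight π : Equiv.Perm (Σ i, X i)) ^ d) ^ n,
          Subgroup.mem_zpowers_iff.2 ⟨n, rfl⟩⟩, ?_⟩
      change (((Equiv.sigmaCongrRight π : Equiv.Perm (Σ i, X i)) ^ d) ^ n) ⟨s.1, y⟩ = ⟨s.1, x⟩
      rw [sigmaPerm_zpow_apply, h1]) s.2

/-- the orbits of `Π^d` on a disjoint union are the disjoint union of the orbits -/
def sigmaOrbitEquiv (d : ℕ) :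
    MulAction.orbitRel.Quotient
        ↥(Subgroup.zpowers ((Equiv.sigmaCongrRight π : Equiv.Perm (Σ i, X i)) ^ d)) (Σ i, X i) ≃
      Σ i, MulAction.orbitRel.Quotient ↥(Subgroup.zpowers (π i ^ d)) (X i) where
  toFun := sigmaOrbitTo π d
  invFun := sigmaOrbitFrom π d
  left_inv q := by
    induction q using Quotient.inductionOn' with
    | h s => rfl
  right_inv s := by
    obtain ⟨i, q⟩ := s
    induction q using Quotient.inductionOn' with
    | h x => rfl

end Orbits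

section Mult

variable {ι : Type} {X : ι → Type} (π : ∀ i, Equiv.Perm (X i))
variable (k : Type) [Field k] {A : Type} [AddCommGroup A] [Module k A] (a : A →ₗ[k] A)

/-- restriction of functions on `Σ i, X i` to the `i`-th summand -/
def sigmaRestr (i : ι) : ((Σ i, X i) → k) →ₗ[k] (X i → k) where
  toFun f := fun x => f ⟨i, x⟩
  map_add' _ _ := rfl
  map_smul' _ _ := rfl

@[simp] lemma sigmaRestr_apply (i : ι) (f : (Σ i, X i) → k) (x : X i) :
    sigmaRestr (X := X) k i f x = f ⟨i, x⟩ := rfl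

/-- gluing a family of maps `A → (X i → k)` -/
def sigmaGlue (ψ : ∀ i, A →ₗ[k] (X i → k)) : A →ₗ[k] ((Σ i, X i) → k) where
  toFun v := fun s => ψ s.1 v s.2
  map_add' v w := by
    funext s
    simp
  map_smul' r v := by
    funext s
    simp

@[simp] lemma sigmaGlue_apply (ψ : ∀ i, A →ₗ[k] (X i → k)) (v : A) (s : Σ i, X i) :
    sigmaGlue k ψ v s = ψ s.1 v s.2 := rfl

/-- `Hom_{a, permOp Π}(A, k^{Σ X}) ≃ ∏ i, Hom_{a, permOp (π i)}(A, k^{X i})` -/
def sigmaEqvEquiv :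
    ↥(eqv a (permOp k (Equiv.sigmaCongrRight π : Equiv.Perm (Σ i, X i)))) ≃ₗ[k]
      (∀ i, ↥(eqv a (permOp k (π i)))) where
  toFun φ := fun i => ⟨sigmaRestr k i ∘ₗ φ.1, by
    have h := φ.2
    rw [mem_eqv] at h ⊢
    ext v x
    have h2 := congrArg (fun F : A →ₗ[k] ((Σ i, X i) → k) => F v ⟨i, x⟩) h
    simpa using h2⟩
  map_add' φ ψ := by
    funext i
    apply Subtype.ext
    ext v x
    rfl
  map_smul' r φ := by
    funext i
    apply Subtype.ext
    ext v x
    rfl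
  invFun ψ := ⟨sigmaGlue k (fun i => (ψ i).1), by
    rw [mem_eqv]
    ext v s
    obtain ⟨i, x⟩ := s
    have h := (ψ i).2
    rw [mem_eqv] at h
    have h2 := congrArg (fun F : A →ₗ[k] (X i → k) => F v x) h
    simpa using h2⟩
  left_inv φ := by
    apply Subtype.ext
    ext v s
    obtain ⟨i, x⟩ := s
    rfl
  right_inv ψ := by
    funext i
    apply Subtype.ext
    ext v x
    rfl

end Mult

/-- **BS-UNITS-SIGMA**: orbit counts and multiplicities of a finite disjoint union. -/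
theorem sigma : Fermat.Agent.P1.helper35.BSU.SigmaStatement := by
  intro ι _ X _ π
  refine ⟨fun d => ?_, fun k _ A _ _ _ a => ?_⟩
  · rw [Nat.card_congr (sigmaOrbitEquiv π d), Nat.card_sigma]
  · unfold mlt
    rw [LinearEquiv.finrank_eq (sigmaEqvEquiv π k a), Module.finrank_pi_fintype]

end Fermat.Agent.P1.helper60
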