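import Fermat.Agent.P1.helper83_BSDcplFinal
import Fermat.Agent.S55.ShArith

/-!
# P1 / module EC / BASE-STAR, package BS-UNITS-RANK (helper83, second prover of task 838)

`rank p T : helper35.BSU.RankStatement p T` : the rank of the `T`-units of `K₁` fixed by
`σ_c^d`, plus one, is the number of double cosets `D_v \ G / ⟨c^d⟩ P`, `v ∈ T ∪ {∞}`.

Route: `E_d := fixedField (⟨c^d⟩ ⊔ P) ⊆ K₁`; the `T`-units of `E_d` are the `σ_c^d`-fixed
`T`-units of `K₁`; Dirichlet's `S`-unit theorem for `E_d`; `Gal(ℚbar/E_d) = ⟨c^d⟩ ⊔ P`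
(open subgroups are closed); double cosets = places (`helper83_BSDcpl`).
-/

set_option autoImplicit false
set_option linter.unusedSectionVars false
set_option linter.style.haveILetI false

open scoped NumberField
open ExtCitation

noncomputable section

namespace Fermat.Agent.P1.helper83

open Fermat.Agent.S55 Fermat.Agent.P1.helper7 Fermat.Agent.P1.helper35.BSU

local notation "Qbar" => AlgebraicClosure ℚ

local notation "Gal" => Fermat.Agent.S55.GQ

/-! ## Subgroups containing a level -/

section Open

variable {T : Finset Nat.Primes}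

/-- a subgroup containing a level is the group of its fixed field -/
theorem fixingSubgroup_fixedField_of_level (H : Subgroup Gal)
    (hH : ∃ N ∈ (galLevels T).mem, N ≤ H) :
    (IntermediateField.fixedField H).fixingSubgroup = H := by
  obtain ⟨F, -, hF⟩ := exists_field_of_open T H hH
  have hA := helper69.isAlgebraic_Qbar
  have hC := helper69.isAlgClosure_Qbar
  have hN := helper69.normal_Qbar
  have hG : IsGalois ℚ Qbar := ⟨⟩
  have e : IntermediateField.fixedField H = F := by
    rw [hF]
    exact InfiniteGalois.fixedField_fixingSubgroup F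
  rw [e]
  exact hF.symm

/-- the fixed field of a subgroup containing a level is a finite extension of `ℚ` -/
theorem finiteDimensional_fixedField_of_level (H : Subgroup Gal)
    (hH : ∃ N ∈ (galLevels T).mem, N ≤ H) :
    FiniteDimensional ℚ ↥(IntermediateField.fixedField H) := by
  obtain ⟨F, hFu, hF⟩ := exists_field_of_open T H hH
  have hA := helper69.isAlgebraic_Qbar
  have hC := helper69.isAlgClosure_Qbar
  have hN := helper69.normal_Qbar
  have hG : IsGalois ℚ Qbar := ⟨⟩
  have e : IntermediateField.fixedField H = F := by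
    rw [hF]
    exact InfiniteGalois.fixedField_fixingSubgroup F
  rw [e]
  exact hFu.1

/-- the fixed field of a subgroup containing a level is a number field -/
theorem numberField_fixedField_of_level (H : Subgroup Gal)
    (hH : ∃ N ∈ (galLevels T).mem, N ≤ H) :
    NumberField ↥(IntermediateField.fixedField H) :=
  haveI := finiteDimensional_fixedField_of_level H hH
  ⟨⟩

/-- membership in the fixed field of a supremum -/
theorem mem_fixedField_sup_iff (A B : Subgroup Gal) (x : Qbar) :
    x ∈ IntermediateField.fixedField (A ⊔ B) ↔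
      x ∈ IntermediateField.fixedField A ∧ x ∈ IntermediateField.fixedField B := by
  simp only [IntermediateField.mem_fixedField_iff]
  constructor
  · intro h
    exact ⟨fun g hg => h g (le_sup_left (a := A) hg), fun g hg => h g (le_sup_right (b := B) hg)⟩
  · rintro ⟨hA, hB⟩ g hg
    have hle : A ⊔ B ≤ MulAction.stabilizer Gal x :=
      sup_le (fun a ha => MulAction.mem_stabilizer_iff.2 (hA a ha))
        (fun b hb => MulAction.mem_stabilizer_iff.2 (hB b hb))
    exact MulAction.mem_stabilizer_iff.1 (hle hg)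

/-- membership in the fixed field of a cyclic group -/
theorem mem_fixedField_zpowers_iff (g : Gal) (x : Qbar) :
    x ∈ IntermediateField.fixedField (Subgroup.zpowers g) ↔ g x = x := by
  rw [IntermediateField.mem_fixedField_iff]
  constructor
  · intro h
    exact h g (Subgroup.mem_zpowers g)
  · intro h a ha
    have hle : Subgroup.zpowers g ≤ MulAction.stabilizer Gal x :=
      (Subgroup.zpowers_le).2 (MulAction.mem_stabilizer_iff.2 h)
    exact MulAction.mem_stabilizer_iff.1 (hle ha)

end Open

/-! ## The field `E_d` -/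

section Field

variable {p : ℕ} [Fact p.Prime] {T : Finset Nat.Primes} (D : BSData p T)

/-- `K₁` is a number field -/
theorem numberField_K1 : NumberField ↥D.K1 :=
  numberField_fixedField_of_level D.pSub D.exists_level_le_pSub

/-- the subgroup `⟨c^d⟩ ⊔ P` -/
def rankSub (d : ℕ) : Subgroup Gal := Subgroup.zpowers (D.c ^ d) ⊔ D.pSub

theorem exists_level_le_rankSub (d : ℕ) : ∃ N ∈ (galLevels T).mem, N ≤ rankSub D d :=
  ⟨D.N₀, D.hN₀, D.le_pSub.trans le_sup_right⟩

/-- `E_d`: the fixed field of `⟨c^d⟩ ⊔ P` -/
def rankField (d : ℕ) : IntermediateField ℚ Qbar := IntermediateField.fixedField (rankSub D d)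

theorem fixingSubgroup_rankField (d : ℕ) :
    (rankField D d).fixingSubgroup = Subgroup.zpowers (D.c ^ d) ⊔ D.pSub :=
  fixingSubgroup_fixedField_of_level (rankSub D d) (exists_level_le_rankSub D d)

instance numberField_rankField (d : ℕ) : NumberField ↥(rankField D d) :=
  numberField_fixedField_of_level (rankSub D d) (exists_level_le_rankSub D d)

theorem mem_rankField_iff (d : ℕ) (x : Qbar) :
    x ∈ rankField D d ↔ x ∈ D.K1 ∧ (D.c ^ d) x = x := by
  rw [rankField, rankSub, mem_fixedField_sup_iff, mem_fixedField_zpowers_iff, and_comm]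
  rfl

theorem rankField_le_K1 (d : ℕ) : rankField D d ≤ D.K1 :=
  fun x hx => ((mem_rankField_iff D d x).1 hx).1

theorem coe_sigmaC_pow (d : ℕ) (x : ↥D.K1) :
    (((D.sigmaC ^ d) x : ↥D.K1) : Qbar) = (D.c ^ d) (x : Qbar) := by
  induction d generalizing x with
  | zero => simp
  | succ n ih =>
    rw [pow_succ, pow_succ, AlgEquiv.mul_apply, AlgEquiv.mul_apply, ih, BSData.coe_sigmaC]

end Field

/-! ## The `T`-units -/

section Units

variable {p : ℕ} [Fact p.Prime] {T : Finset Nat.Primes} (D : BSData p T) [NumberField ↥D.K1]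

/-- the inclusion `E_d → K₁` -/
def rankIncl (d : ℕ) : ↥(rankField D d) →+* ↥D.K1 :=
  (IntermediateField.inclusion (rankField_le_K1 D d)).toRingHom

theorem coe_rankIncl (d : ℕ) (x : ↥(rankField D d)) :
    ((rankIncl D d x : ↥D.K1) : Qbar) = (x : Qbar) := rfl

/-- an element of `K₁` fixed by `σ_c^d` lies in `E_d` -/
theorem mem_rankField_of_fixed (d : ℕ) (x : ↥D.K1) (h : (D.sigmaC ^ d) x = x) :
    (x : Qbar) ∈ rankField D d := by
  rw [mem_rankField_iff]
  refine ⟨x.2, ?_⟩
  rw [← coe_sigmaC_pow, h]

/-- the elements of `E_d` are fixed by the powers of `σ_c^d` -/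
theorem smul_rankIncl (d : ℕ) (x : ↥(rankField D d)) {σ : ↥D.K1 ≃ₐ[ℚ] ↥D.K1}
    (hσ : σ ∈ Subgroup.zpowers (D.sigmaC ^ d)) : σ (rankIncl D d x) = rankIncl D d x := by
  have h1 : (D.sigmaC ^ d) (rankIncl D d x) = rankIncl D d x := by
    apply Subtype.ext
    rw [coe_sigmaC_pow, coe_rankIncl]
    exact ((mem_rankField_iff D d _).1 x.2).2
  have hle : Subgroup.zpowers (D.sigmaC ^ d) ≤
      MulAction.stabilizer (↥D.K1 ≃ₐ[ℚ] ↥D.K1) (rankIncl D d x) :=
    (Subgroup.zpowers_le).2 (MulAction.mem_stabilizer_iff.2 h1)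
  exact MulAction.mem_stabilizer_iff.1 (hle hσ)

/-- the `T`-units of `E_d` as `σ_c^d`-fixed `T`-units of `K₁` -/
def rankUnitsHom (d : ℕ) :
    ↥(helper79.sUnits ↥(rankField D d) T) →*
      ↥(Fermat.Agent.P1.helper79.fixedSUnits ℚ ↥D.K1 T (Subgroup.zpowers (D.sigmaC ^ d))) where
  toFun u := ⟨Units.map ((rankIncl D d : ↥(rankField D d) →+* ↥D.K1) : _ →* ↥D.K1)
      (u : (↥(rankField D d))ˣ), by
    refine ⟨(Fermat.Agent.P1.helper79.map_mem_sUnits_iff T _ _).2 u.2, fun σ hσ => ?_⟩
    apply Units.ext
    exact smul_rankIncl D d _ hσ⟩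
  map_one' := by
    apply Subtype.ext
    simp
  map_mul' a b := by
    apply Subtype.ext
    simp

theorem rankUnitsHom_bijective (d : ℕ) : Function.Bijective (rankUnitsHom D d) := by
  constructor
  · intro a b hab
    have h1 := congrArg (fun x : ↥(Fermat.Agent.P1.helper79.fixedSUnits ℚ ↥D.K1 T
      (Subgroup.zpowers (D.sigmaC ^ d))) => (((x : (↥D.K1)ˣ) : ↥D.K1) : Qbar)) hab
    exact Subtype.ext (Units.ext (Subtype.ext h1))
  · rintro ⟨u, hu, hfix⟩
    have hfix' : (D.sigmaC ^ d) (u : ↥D.K1) = (u : ↥D.K1) := by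
      have := hfix (D.sigmaC ^ d) (Subgroup.mem_zpowers _)
      exact congrArg (fun x : (↥D.K1)ˣ => (x : ↥D.K1)) this
    have hmem : ((u : ↥D.K1) : Qbar) ∈ rankField D d := mem_rankField_of_fixed D d _ hfix'
    set u' : (↥(rankField D d))ˣ :=
      Units.mk0 ⟨((u : ↥D.K1) : Qbar), hmem⟩ (fun h0 => u.ne_zero (by
        apply Subtype.ext
        exact congrArg (fun z : ↥(rankField D d) => (z : Qbar)) h0)) with hu'
    have hmap : Units.map ((rankIncl D d : ↥(rankField D d) →+* ↥D.K1) : _ →* ↥D.K1) u' = u :=
      Units.ext (Subtype.ext rfl)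
    have hu'' : u' ∈ helper79.sUnits ↥(rankField D d) T := by
      rw [← Fermat.Agent.P1.helper79.map_mem_sUnits_iff T (rankIncl D d), hmap]
      exact hu
    exact ⟨⟨u', hu''⟩, Subtype.ext hmap⟩

/-- the rank of the `σ_c^d`-fixed `T`-units of `K₁` -/
theorem finrank_fixedSUnits_rankField (d : ℕ) :
    Module.finrank ℤ (Additive ↥(Fermat.Agent.P1.helper79.fixedSUnits ℚ ↥D.K1 T
        (Subgroup.zpowers (D.sigmaC ^ d)))) =
      NumberField.Units.rank ↥(rankField D d) +
        Nat.card ↥(helper97.placesOver ↥(rankField D d) T) := by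
  haveI : Finite ↥(helper97.placesOver ↥(rankField D d) T) :=
    (helper97.finite_placesOver _ T).to_subtype
  rw [← helper79.numberField_finrank_sunit]
  exact (LinearEquiv.finrank_eq ((MulEquiv.toAdditive
    (MulEquiv.ofBijective (rankUnitsHom D d) (rankUnitsHom_bijective D d))).toIntLinearEquiv)).symm

end Units

/-! ## The theorem -/

/-- the unit rank plus one is the number of infinite places -/
theorem rank_add_one (K : Type) [Field K] [NumberField K] :
    NumberField.Units.rank K + 1 = Nat.card (NumberField.InfinitePlace K) := by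
  rw [NumberField.Units.rank, Nat.card_eq_fintype_card]
  have h : 0 < Fintype.card (NumberField.InfinitePlace K) := Fintype.card_pos
  omega

/-- **BS-UNITS-RANK**, unconditional. -/
theorem rank (p : ℕ) [Fact p.Prime] (T : Finset Nat.Primes) : RankStatement p T := by
  intro _ _ D _ d
  rw [finrank_fixedSUnits_rankField D d, add_right_comm, rank_add_one, add_comm,
    card_places_eq_sum_dec D (rankField D d), fixingSubgroup_rankField]

/-- **BS-UNITS-RANK** in the shape of the task row (the hypothesis is not needed). -/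
theorem rank_of (p : ℕ) [Fact p.Prime] (T : Finset Nat.Primes) (_hD : DcplStatement T) :
    RankStatement p T :=
  rank p T

end Fermat.Agent.P1.helper83
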