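import Fermat.Agent.P1.helper35_BSUnitsDefs

/-!
# P1 / module EC / BASE-STAR / BS-UNITS, package BS-UNITS-TORS (helper94)

`tors : Fermat.Agent.P1.helper35.BSU.TorsStatement p T`: the space `𝐌 = D.Msp` of the Kummer
characters of the roots of unity of `K₁` contains a nonzero vector fixed by the conjugation
operator `cs`.

Proof: `P = D.pSub` fixes the `p`-th roots of unity; let `n ≥ 1` be maximal such that `P` fixes a
primitive `p^n`-th root of unity `η` (`n ≤ [F : ℚ]` for the field `F` of the level `N₀ ≤ P`, by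
the irreducibility of the cyclotomic polynomials), `α ^ p = η`, `ζ = α ^ (p ^ n)`.  Then
`u α = ζ ^ x₀(u) α` for `u ∈ P`, `x₀ ≠ 0` and `(c⁻¹ u c) α = u α`.
-/

set_option autoImplicit false
set_option linter.unusedSectionVars false
set_option linter.style.haveILetI false
set_option linter.unusedVariables false
set_option linter.unusedSimpArgs false

open ExtCitation

namespace Fermat.Agent.P1.helper94.Tors

open Fermat.Agent.S55 Fermat.Agent.P1.helper70 Fermat.Agent.P1.helper63 Fermat.Agent.P1.helper7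

/-! ## Roots of unity -/

section Roots

variable {p : ℕ} [Fact p.Prime]

/-- if `α ^ p` is a primitive `p ^ n`-th root of unity, `n ≥ 1`, then `α` is a primitive
`p ^ (n + 1)`-th root of unity -/
lemma isPrimitiveRoot_of_pow {M : Type} [CommMonoid M] {α : M} {n : ℕ} (hn : 1 ≤ n)
    (h : IsPrimitiveRoot (α ^ p) (p ^ n)) : IsPrimitiveRoot α (p ^ (n + 1)) := by
  have hp : p.Prime := Fact.out
  have h1 : α ^ (p ^ (n + 1)) = 1 := by
    rw [pow_succ', pow_mul]
    exact h.pow_eq_one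
  have ho : orderOf (α ^ p) = p ^ n := h.eq_orderOf.symm
  obtain ⟨j, hj, hoj⟩ := (Nat.dvd_prime_pow hp).1 (orderOf_dvd_of_pow_eq_one h1)
  have hj1 : 1 ≤ j := by
    by_contra hcon
    have hj0 : j = 0 := by omega
    rw [hj0, pow_zero, orderOf_eq_one_iff] at hoj
    rw [hoj, one_pow, orderOf_one] at ho
    have : 1 < p ^ n := Nat.one_lt_pow (by omega) hp.one_lt
    omega
  have hdvd : p ∣ orderOf α := by
    rw [hoj]; exact dvd_pow_self p (by omega)
  have h2 := orderOf_pow_of_dvd hp.ne_zero hdvd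
  rw [ho, hoj] at h2
  have h3 : p ^ j / p = p ^ (j - 1) := by
    obtain ⟨i, rfl⟩ : ∃ i, j = i + 1 := ⟨j - 1, by omega⟩
    rw [pow_succ, Nat.mul_div_cancel _ hp.pos, Nat.add_sub_cancel]
  rw [h3] at h2
  have h4 : n = j - 1 := Nat.pow_right_injective hp.two_le h2
  have h5 : j = n + 1 := by omega
  rw [h5] at hoj
  rw [← hoj]
  exact IsPrimitiveRoot.orderOf α

/-- a finite extension of `ℚ` of degree `d` contains no primitive `p ^ n`-th root of unity for
`n > d` -/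
lemma le_finrank_of_mem (F : IntermediateField ℚ (AlgebraicClosure ℚ)) [FiniteDimensional ℚ F]
    {η : AlgebraicClosure ℚ} {n : ℕ} (hη : IsPrimitiveRoot η (p ^ n)) (hmem : η ∈ F) :
    n ≤ Module.finrank ℚ F := by
  have hp : p.Prime := Fact.out
  have hpos : 0 < p ^ n := pow_pos hp.pos n
  have h1 : (minpoly ℚ η).natDegree = (p ^ n).totient := by
    rw [← Polynomial.cyclotomic_eq_minpoly_rat hη hpos, Polynomial.natDegree_cyclotomic]
  have h2 : (minpoly ℚ (⟨η, hmem⟩ : F)).natDegree ≤ Module.finrank ℚ F :=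
    minpoly.natDegree_le _
  have h2' : minpoly ℚ (⟨η, hmem⟩ : F) = minpoly ℚ η :=
    (minpoly.algebraMap_eq (A := ℚ) (algebraMap F (AlgebraicClosure ℚ)).injective
      (⟨η, hmem⟩ : F)).symm
  have h3 : (minpoly ℚ η).natDegree ≤ Module.finrank ℚ F := by
    rw [← h2']; exact h2
  rw [h1] at h3
  refine le_trans ?_ h3
  rcases Nat.eq_zero_or_pos n with rfl | hn
  · exact Nat.zero_le _
  · rw [Nat.totient_prime_pow hp hn]
    have h4 : n - 1 < p ^ (n - 1) := Nat.lt_pow_self hp.one_lt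
    have h5 : 1 ≤ p - 1 := by have := hp.two_le; omega
    calc n ≤ p ^ (n - 1) := by omega
      _ = p ^ (n - 1) * 1 := (mul_one _).symm
      _ ≤ p ^ (n - 1) * (p - 1) := Nat.mul_le_mul_left _ h5

/-- `σ` acts on the `p`-th roots of unity by raising to the power `cycloExp p σ`. -/
lemma apply_of_pow_eq_one (p : ℕ) [Fact p.Prime]
    (σ : AlgebraicClosure ℚ ≃ₐ[ℚ] AlgebraicClosure ℚ)
    {ζ : AlgebraicClosure ℚ} (hζ : ζ ^ p = 1) : σ ζ = ζ ^ cycloExp p σ := by
  haveI : NeZero p := ⟨(Fact.out : p.Prime).ne_zero⟩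
  have hζ0 : ζ ≠ 0 := by
    rintro rfl
    simp [(Fact.out : p.Prime).ne_zero] at hζ
  let t : (AlgebraicClosure ℚ)ˣ := Units.mk0 ζ hζ0
  have ht : t ∈ rootsOfUnity p (AlgebraicClosure ℚ) := by
    rw [mem_rootsOfUnity]
    exact Units.ext (by simpa [t] using hζ)
  have := modularCyclotomicCharacter.spec (AlgebraicClosure ℚ) (card_rootsOfUnity_eq_self p)
    (σ : AlgebraicClosure ℚ ≃+* AlgebraicClosure ℚ) ht
  simpa [t, cycloExp] using this

/-- an automorphism with trivial mod `p` cyclotomic character fixes the `p`-th roots of unity -/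
lemma apply_eq_of_cycloChar_eq_one (σ : AlgebraicClosure ℚ ≃ₐ[ℚ] AlgebraicClosure ℚ)
    (hσ : cycloChar p σ = 1) {ζ : AlgebraicClosure ℚ} (hζ : ζ ^ p = 1) : σ ζ = ζ := by
  have hp : p.Prime := Fact.out
  haveI : Fact (1 < p) := ⟨hp.one_lt⟩
  have h1 : cycloExp p σ = 1 := by
    rw [← val_cycloChar, hσ, Units.val_one, ZMod.val_one]
  rw [apply_of_pow_eq_one p σ hζ, h1, pow_one]

end Roots

/-! ## The statement -/

section Main

variable {p : ℕ} [Fact p.Prime] {T : Finset Nat.Primes}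

/-- the cyclotomic character is trivial on `P` -/
lemma cycloChar_eq_one_of_mem_pSub (D : BSData p T) {u : GQ} (hu : u ∈ D.pSub) :
    cycloChar p u = 1 := by
  have hp : p.Prime := Fact.out
  induction hu using Subgroup.closure_induction with
  | mem x hx =>
    obtain ⟨hxC, m, hm⟩ := hx
    have h1 := D.hχ _ hm
    rw [map_pow] at h1
    have h2 : (cycloChar p x) ^ (p - 1) = 1 := ZMod.units_pow_card_sub_one_eq_one p _
    have hcop : Nat.Coprime (p ^ m) (p - 1) := by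
      apply Nat.Coprime.pow_left
      exact (Nat.coprime_self_sub_right hp.one_lt.le).2 (Nat.coprime_one_right p)
    have h3 : orderOf (cycloChar p x) ∣ Nat.gcd (p ^ m) (p - 1) :=
      Nat.dvd_gcd (orderOf_dvd_of_pow_eq_one h1) (orderOf_dvd_of_pow_eq_one h2)
    rw [hcop.gcd_eq_one, Nat.dvd_one] at h3
    exact orderOf_eq_one_iff.1 h3
  | one => exact map_one _
  | mul x y _ _ hx hy => rw [map_mul, hx, hy, mul_one]
  | inv x _ hx => rw [map_inv, hx, inv_one]

/-- `P` fixes the `p`-th roots of unity -/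
lemma apply_eq_of_mem_pSub (D : BSData p T) {u : GQ} (hu : u ∈ D.pSub)
    {ζ : AlgebraicClosure ℚ} (hζ : ζ ^ p = 1) : u ζ = ζ :=
  apply_eq_of_cycloChar_eq_one u (cycloChar_eq_one_of_mem_pSub D hu) hζ

/-- an element fixed by `P` lies in the field of the level `N₀` -/
lemma mem_of_fixed (D : BSData p T) (F : IntermediateField ℚ (AlgebraicClosure ℚ))
    (hNF : D.N₀ = F.fixingSubgroup) {η : AlgebraicClosure ℚ}
    (hfix : ∀ u ∈ D.pSub, u η = η) : η ∈ F := by
  have hA := helper69.isAlgebraic_Qbar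
  have hN := helper69.normal_Qbar
  have hG : IsGalois ℚ (AlgebraicClosure ℚ) := ⟨⟩
  have h1 : η ∈ IntermediateField.fixedField (F.fixingSubgroup) := by
    rw [IntermediateField.mem_fixedField_iff]
    intro g hg
    exact hfix g (D.le_pSub (hNF ▸ hg))
  rwa [InfiniteGalois.fixedField_fixingSubgroup] at h1

/-- there is a maximal `n ≥ 1` such that `P` fixes a primitive `p ^ n`-th root of unity -/
lemma exists_max_level (D : BSData p T) :
    ∃ n : ℕ, 1 ≤ n ∧ (∃ η : AlgebraicClosure ℚ, IsPrimitiveRoot η (p ^ n) ∧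
        ∀ u ∈ D.pSub, u η = η) ∧
      ¬ ∃ η : AlgebraicClosure ℚ, IsPrimitiveRoot η (p ^ (n + 1)) ∧ ∀ u ∈ D.pSub, u η = η := by
  have hp : p.Prime := Fact.out
  haveI : NeZero p := ⟨hp.ne_zero⟩
  obtain ⟨hN, F, hF, hNF⟩ := D.hN₀
  haveI : FiniteDimensional ℚ F := hF.1
  have hS1 : ∃ η : AlgebraicClosure ℚ, IsPrimitiveRoot η (p ^ 1) ∧ ∀ u ∈ D.pSub, u η = η := by
    obtain ⟨ζ, hζ⟩ := HasEnoughRootsOfUnity.exists_primitiveRoot (AlgebraicClosure ℚ) p
    exact ⟨ζ, by simpa using hζ, fun u hu => apply_eq_of_mem_pSub D hu hζ.pow_eq_one⟩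
  have hbound : ∀ n : ℕ, (∃ η : AlgebraicClosure ℚ, IsPrimitiveRoot η (p ^ n) ∧
      ∀ u ∈ D.pSub, u η = η) → n ≤ Module.finrank ℚ F := by
    rintro n ⟨η, hη, hfix⟩
    exact le_finrank_of_mem F hη (mem_of_fixed D F hNF hfix)
  by_contra hcon
  have hall : ∀ n : ℕ, 1 ≤ n → ∃ η : AlgebraicClosure ℚ, IsPrimitiveRoot η (p ^ n) ∧
      ∀ u ∈ D.pSub, u η = η := by
    intro n hn
    induction n, hn using Nat.le_induction with
    | base => exact hS1
    | succ n hn ih =>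
      by_contra h
      exact hcon ⟨n, hn, ih, h⟩
  have := hbound _ (hall (Module.finrank ℚ F + 1) (by omega))
  omega

/-- **BS-UNITS-TORS** -/
theorem tors (p : ℕ) [Fact p.Prime] (T : Finset Nat.Primes) :
    Fermat.Agent.P1.helper35.BSU.TorsStatement p T := by
  intro hp2 hpT D
  have hp : p.Prime := Fact.out
  haveI : NeZero p := ⟨hp.ne_zero⟩
  obtain ⟨n, hn1, ⟨η, hη, hfix⟩, hnS⟩ := exists_max_level D
  obtain ⟨α, hα⟩ := IsAlgClosed.exists_pow_nat_eq η hp.pos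
  have hαprim : IsPrimitiveRoot α (p ^ (n + 1)) := isPrimitiveRoot_of_pow hn1 (hα ▸ hη)
  have hα0 : α ≠ 0 := hαprim.ne_zero (pow_ne_zero _ hp.ne_zero)
  have hη0 : η ≠ 0 := hη.ne_zero (pow_ne_zero _ hp.ne_zero)
  have hζ : IsPrimitiveRoot (α ^ (p ^ n)) p :=
    hαprim.pow (pow_pos hp.pos _) (pow_succ p n)
  -- `u α = ζ ^ i α`
  have hex : ∀ u : ↥D.pSub, ∃ i : ℕ, i < p ∧ (u : GQ) α = (α ^ (p ^ n)) ^ i * α := by
    intro u
    have h1 : ((u : GQ) α / α) ^ p = 1 := by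
      rw [div_pow, ← map_pow, hα, hfix u u.2, div_self hη0]
    obtain ⟨i, hi, hiz⟩ := hζ.eq_pow_of_pow_eq_one h1
    refine ⟨i, hi, ?_⟩
    rw [hiz, div_mul_cancel₀ _ hα0]
  choose i hi hiα using hex
  let x₀ : D.Fun := fun u => ((i u : ℕ) : ZMod p)
  have hx₀val : ∀ u, (x₀ u : ZMod p).val = i u := fun u => ZMod.val_natCast_of_lt (hi u)
  have hkum : D.IsKum (α ^ (p ^ n)) α x₀ := ⟨hζ, fun u => by rw [hx₀val]; exact hiα u⟩
  refine ⟨x₀, Submodule.subset_span
    ⟨α ^ (p ^ n), α, hkum, p ^ (n + 1), pow_pos hp.pos _, hαprim.pow_eq_one⟩, ?_, ?_⟩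
  · -- `x₀ ≠ 0`
    intro h0
    apply hnS
    refine ⟨α, hαprim, fun u hu => ?_⟩
    have h1 := hiα ⟨u, hu⟩
    have hi0 : i ⟨u, hu⟩ = 0 := by
      have h2 := congrFun h0 ⟨u, hu⟩
      rw [← hx₀val, h2]
      exact ZMod.val_zero
    rw [hi0, pow_zero, one_mul] at h1
    exact h1
  · -- `cs x₀ = x₀`
    funext u
    rw [D.cs_apply]
    change ((i ⟨D.c⁻¹ * (u : GQ) * D.c, D.conj_mem_pSub' u.2⟩ : ℕ) : ZMod p) = ((i u : ℕ) : ZMod p)
    congr 1
    apply hζ.pow_inj (hi _) (hi _)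
    have h1 := hiα ⟨D.c⁻¹ * (u : GQ) * D.c, D.conj_mem_pSub' u.2⟩
    have h2 := hiα u
    have hcc : ∀ x : AlgebraicClosure ℚ, D.c⁻¹ (D.c x) = x := by
      intro x
      rw [← AlgEquiv.mul_apply, inv_mul_cancel, AlgEquiv.one_apply]
    -- `c α = α ^ j`
    have hcα : (D.c α) ^ (p ^ (n + 1)) = 1 := by
      rw [← map_pow, hαprim.pow_eq_one, map_one]
    obtain ⟨j, hj, hjα⟩ := hαprim.eq_pow_of_pow_eq_one hcα
    -- `c ζ = ζ ^ j`
    have hcζ : D.c (α ^ (p ^ n)) = (α ^ (p ^ n)) ^ j := by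
      rw [map_pow, ← hjα, ← pow_mul, ← pow_mul, mul_comm]
    have hcζ' : D.c⁻¹ ((α ^ (p ^ n)) ^ j) = α ^ (p ^ n) := by
      rw [← hcζ, hcc]
    have h3 : (D.c⁻¹ * (u : GQ) * D.c) α = (u : GQ) α := by
      rw [AlgEquiv.mul_apply, AlgEquiv.mul_apply, ← hjα, map_pow, h2, mul_pow, map_mul,
        ← pow_mul, mul_comm (i u) j, pow_mul, map_pow, hcζ', hjα, hcc]
    have h4 : (α ^ (p ^ n)) ^ i ⟨D.c⁻¹ * (u : GQ) * D.c, D.conj_mem_pSub' u.2⟩ * α =
        (α ^ (p ^ n)) ^ i u * α := by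
      rw [← h1, ← h2]
      exact h3
    exact mul_right_cancel₀ hα0 h4

end Main

end Fermat.Agent.P1.helper94.Tors
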