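import Fermat.Agent.P1.helper35_BSUnitsAsm
import Fermat.Agent.P1.helper24_BSLatFinal
import Fermat.Agent.P1.helper38_BSUnitsDc
import Fermat.Agent.P1.helper44_BSUnitsTFree
import Fermat.Agent.P1.helper60_BSUnitsSigma
import Fermat.Agent.P1.helper83_BSUnitsRank
import Fermat.Agent.P1.helper94_BSUnitsTors

/-!
# P1 / module EC / BASE-STAR / package BS-UNITS (helper35): the final wiring

`units_of_kum : KumBridgeStatement p T → UnitsStatement p T` — every sub-package of BS-UNITS
plugged in (lattice lemma `helper24.absLat`, `helper24.absSymm / absDual / absAdd`,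
`helper38.dcOrbit / dcFunEquiv`, `helper60.sigma`, `helper44.tfree`, `helper94.Tors.tors`,
`helper83.rank`); the only remaining input is the Kummer bridge (BS-KUM, helper7).
-/

set_option autoImplicit false

noncomputable section

namespace Fermat.Agent.P1.helper35.BSU

open Fermat.Agent.P1.helper7

variable {p : ℕ} [Fact p.Prime] {T : Finset Nat.Primes}

/-- **BS-UNITS** from the Kummer bridge alone. -/
theorem units_of_kum (hKum : KumBridgeStatement p T) : UnitsStatement p T :=
  units_of hKum Fermat.Agent.P1.helper24.absLat Fermat.Agent.P1.helper24.absSymm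
    Fermat.Agent.P1.helper24.absDual Fermat.Agent.P1.helper24.absAdd
    Fermat.Agent.P1.helper38.dcOrbit Fermat.Agent.P1.helper38.dcFunEquiv
    Fermat.Agent.P1.helper60.sigma Fermat.Agent.P1.helper44.tfree
    (Fermat.Agent.P1.helper94.Tors.tors p T) (Fermat.Agent.P1.helper83.rank p T)

end Fermat.Agent.P1.helper35.BSU
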