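import Fermat.Agent.P1.helper35_BSUnitsDefs

/-!
# P1 / module EC / BASE-STAR / package BS-UNITS (helper35): multiplicity calculus

Small lemmas on `helper7.mlt`, `helper7.mltIn` (Mathlib + `helper7_BSAbs` only):

* `mlt_smul_smul`         : `mlt (c • a) (c • b) = mlt a b` for `c ≠ 0`;
* `mltIn_eq_mlt_restrict` : `mltIn a b W = mlt a (b|_W)`;
* `mlt_congr_right`       : invariance under isomorphisms of the target;
* `mlt_one_le_mltIn`      : a nonzero `b`-fixed vector in `W` gives `mlt a 1 ≤ mltIn a b W`;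
* `mlt_one_eq`            : `mlt a 1 = dim ker (a - 1)` (from `AbsSymm`);
* `finrank_ker_dualMap_sub_one` : `dim ker (fᵀ - 1) = dim ker (f - 1)`;
* `mlt_perm_dual`         : `mlt y (permOp π) = mlt z' (permOp π)` for `z' = (yᵀ)⁻¹`
                            (from `AbsSymm`, `AbsDual`).
-/

set_option autoImplicit false

noncomputable section

namespace Fermat.Agent.P1.helper35.BSU

open Fermat.Agent.P1.helper7

variable {k : Type} [Field k]
variable {A B B' : Type} [AddCommGroup A] [Module k A] [AddCommGroup B] [Module k B]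
  [AddCommGroup B'] [Module k B']

/-! ## Scaling -/

lemma eqv_smul_smul (c : k) (hc : c ≠ 0) (a : A →ₗ[k] A) (b : B →ₗ[k] B) :
    eqv (c • a) (c • b) = eqv a b := by
  ext φ
  simp only [mem_eqv, LinearMap.comp_smul, LinearMap.smul_comp]
  constructor
  · intro h
    exact smul_right_injective _ hc h
  · intro h
    rw [h]

lemma mlt_smul_smul (c : k) (hc : c ≠ 0) (a : A →ₗ[k] A) (b : B →ₗ[k] B) :
    mlt (c • a) (c • b) = mlt a b := by
  unfold mlt
  rw [eqv_smul_smul c hc]

/-! ## Restriction to an invariant subspace -/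

/-- maps into `W` intertwining `a` and `b` = maps to `↥W` intertwining `a` and `b|_W` -/
def eqvInEquiv (a : A →ₗ[k] A) (b : B →ₗ[k] B) (W : Submodule k B) (hW : ∀ x ∈ W, b x ∈ W) :
    ↥(eqvIn a b W) ≃ₗ[k] ↥(eqv a (b.restrict hW)) where
  toFun φ := ⟨(φ : A →ₗ[k] B).codRestrict W φ.2.2, by
    rw [mem_eqv]
    apply LinearMap.ext
    intro x
    apply Subtype.ext
    exact LinearMap.congr_fun φ.2.1 x⟩
  invFun ψ := ⟨W.subtype ∘ₗ (ψ : A →ₗ[k] ↥W), by
    rw [mem_eqvIn]
    refine ⟨?_, fun x => (ψ.1 x).2⟩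
    apply LinearMap.ext
    intro x
    have := congrArg Subtype.val (LinearMap.congr_fun ψ.2 x)
    exact this⟩
  map_add' _ _ := rfl
  map_smul' _ _ := rfl
  left_inv _ := rfl
  right_inv _ := rfl

lemma mltIn_eq_mlt_restrict (a : A →ₗ[k] A) (b : B →ₗ[k] B) (W : Submodule k B)
    (hW : ∀ x ∈ W, b x ∈ W) : mltIn a b W = mlt a (b.restrict hW) :=
  (eqvInEquiv a b W hW).finrank_eq

/-! ## Invariance under isomorphisms -/

/-- post-composition with an intertwining isomorphism -/
def eqvCongrRight (a : A →ₗ[k] A) (b : B →ₗ[k] B) (b' : B' →ₗ[k] B') (e : B ≃ₗ[k] B')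
    (h : ∀ x, e (b x) = b' (e x)) : ↥(eqv a b) ≃ₗ[k] ↥(eqv a b') where
  toFun φ := ⟨(e : B →ₗ[k] B') ∘ₗ (φ : A →ₗ[k] B), by
    rw [mem_eqv]
    apply LinearMap.ext
    intro x
    have := LinearMap.congr_fun φ.2 x
    simp only [LinearMap.comp_apply] at this ⊢
    rw [this]
    exact h _⟩
  invFun ψ := ⟨(e.symm : B' →ₗ[k] B) ∘ₗ (ψ : A →ₗ[k] B'), by
    rw [mem_eqv]
    apply LinearMap.ext
    intro x
    have := LinearMap.congr_fun ψ.2 x
    simp only [LinearMap.comp_apply] at this ⊢
    rw [this]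
    apply e.injective
    change e (e.symm (b' (ψ.1 x))) = e (b (e.symm (ψ.1 x)))
    rw [h, e.apply_symm_apply, e.apply_symm_apply]⟩
  map_add' φ ψ := by
    apply Subtype.ext
    exact LinearMap.comp_add _ _ _
  map_smul' c φ := by
    apply Subtype.ext
    exact LinearMap.comp_smul _ _ _
  left_inv φ := by
    apply Subtype.ext
    apply LinearMap.ext
    intro x
    exact e.symm_apply_apply _
  right_inv ψ := by
    apply Subtype.ext
    apply LinearMap.ext
    intro x
    exact e.apply_symm_apply _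

lemma mlt_congr_right (a : A →ₗ[k] A) (b : B →ₗ[k] B) (b' : B' →ₗ[k] B') (e : B ≃ₗ[k] B')
    (h : ∀ x, e (b x) = b' (e x)) : mlt a b = mlt a b' :=
  (eqvCongrRight a b b' e h).finrank_eq

/-- `mltIn` in terms of an isomorphism of another space onto the subspace -/
lemma mltIn_eq_mlt_of_equiv (a : A →ₗ[k] A) (b : B →ₗ[k] B) (W : Submodule k B)
    (hW : ∀ x ∈ W, b x ∈ W) (b' : B' →ₗ[k] B') (e : B' ≃ₗ[k] ↥W)
    (h : ∀ x, b ((e x : ↥W) : B) = ((e (b' x) : ↥W) : B)) : mltIn a b W = mlt a b' := by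
  rw [mltIn_eq_mlt_restrict a b W hW]
  refine (mlt_congr_right a b' (b.restrict hW) e ?_).symm
  intro x
  apply Subtype.ext
  exact (h x).symm

/-! ## Finite dimensionality -/

instance finite_eqv [Module.Finite k A] [Module.Finite k B] (a : A →ₗ[k] A) (b : B →ₗ[k] B) :
    Module.Finite k ↥(eqv a b) := inferInstance

lemma finite_eqvIn [Module.Finite k A] (a : A →ₗ[k] A) (b : B →ₗ[k] B) (W : Submodule k B)
    [Module.Finite k ↥W] : Module.Finite k ↥(eqvIn a b W) := by
  let f : ↥(eqvIn a b W) →ₗ[k] (A →ₗ[k] ↥W) :=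
    { toFun := fun φ => (φ : A →ₗ[k] B).codRestrict W φ.2.2
      map_add' := fun _ _ => rfl
      map_smul' := fun _ _ => rfl }
  refine Module.Finite.of_injective f ?_
  intro φ ψ h
  apply Subtype.ext
  apply LinearMap.ext
  intro x
  exact congrArg Subtype.val (LinearMap.congr_fun h x)

/-! ## A fixed line -/

/-- a nonzero `b`-fixed vector of `W` gives `mlt a 1 ≤ mltIn a b W` -/
lemma mlt_one_le_mltIn [Module.Finite k A] (a : A →ₗ[k] A) (b : B →ₗ[k] B) (W : Submodule k B)
    [Module.Finite k ↥W] (x₀ : B) (hx₀ : x₀ ∈ W) (hne : x₀ ≠ 0) (hfix : b x₀ = x₀) :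
    mlt a (1 : k →ₗ[k] k) ≤ mltIn a b W := by
  haveI := finite_eqvIn a b W
  let f : ↥(eqv a (1 : k →ₗ[k] k)) →ₗ[k] ↥(eqvIn a b W) :=
    { toFun := fun φ => ⟨(LinearMap.toSpanSingleton k B x₀) ∘ₗ (φ : A →ₗ[k] k), by
        rw [mem_eqvIn]
        refine ⟨?_, fun x => W.smul_mem _ hx₀⟩
        apply LinearMap.ext
        intro x
        have := LinearMap.congr_fun φ.2 x
        simp only [LinearMap.comp_apply, Module.End.one_apply] at this
        simp only [LinearMap.comp_apply, LinearMap.toSpanSingleton_apply, map_smul, hfix, this]⟩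
      map_add' := fun φ ψ => by
        apply Subtype.ext
        exact LinearMap.comp_add _ _ _
      map_smul' := fun c φ => by
        apply Subtype.ext
        exact LinearMap.comp_smul _ _ _ }
  refine LinearMap.finrank_le_finrank_of_injective (f := f) ?_
  intro φ ψ h
  apply Subtype.ext
  apply LinearMap.ext
  intro x
  have h1 := LinearMap.congr_fun (congrArg Subtype.val h) x
  simp only [f, LinearMap.coe_mk, AddHom.coe_mk, LinearMap.comp_apply,
    LinearMap.toSpanSingleton_apply] at h1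
  exact smul_left_injective k hne h1

/-! ## Maps from the ground field -/

/-- `Hom_{1, a}(k, A) = ker (a - 1)` -/
def eqvOneEquiv (a : A →ₗ[k] A) : ↥(eqv (1 : k →ₗ[k] k) a) ≃ₗ[k] ↥(LinearMap.ker (a - 1)) where
  toFun φ := ⟨(φ : k →ₗ[k] A) 1, by
    rw [LinearMap.mem_ker, LinearMap.sub_apply, Module.End.one_apply, sub_eq_zero]
    have := LinearMap.congr_fun φ.2 1
    simp only [LinearMap.comp_apply, Module.End.one_apply] at this
    exact this.symm⟩
  invFun x := ⟨LinearMap.toSpanSingleton k A (x : A), by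
    rw [mem_eqv]
    apply LinearMap.ext
    intro r
    have hx := x.2
    rw [LinearMap.mem_ker, LinearMap.sub_apply, Module.End.one_apply, sub_eq_zero] at hx
    simp only [LinearMap.comp_apply, Module.End.one_apply, LinearMap.toSpanSingleton_apply,
      map_smul, hx]⟩
  map_add' _ _ := rfl
  map_smul' _ _ := rfl
  left_inv φ := by
    apply Subtype.ext
    apply LinearMap.ext
    intro r
    change r • (φ : k →ₗ[k] A) 1 = (φ : k →ₗ[k] A) r
    rw [← map_smul, smul_eq_mul, mul_one]
  right_inv x := by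
    apply Subtype.ext
    change (1 : k) • (x : A) = x
    rw [one_smul]

lemma mlt_one_left_eq (a : A →ₗ[k] A) :
    mlt (1 : k →ₗ[k] k) a = Module.finrank k ↥(LinearMap.ker (a - 1)) :=
  (eqvOneEquiv a).finrank_eq

/-- `mlt a 1 = dim ker (a - 1)` -/
lemma mlt_one_eq (hSymm : AbsSymmStatement) [Module.Finite k A] (a : A →ₗ[k] A) :
    mlt a (1 : k →ₗ[k] k) = Module.finrank k ↥(LinearMap.ker (a - 1)) := by
  rw [hSymm k A k a 1, mlt_one_left_eq]

/-! ## Duals -/

/-- `dim ker (fᵀ - 1) = dim ker (f - 1)` -/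
lemma finrank_ker_dualMap_sub_one [Module.Finite k A] (f : A →ₗ[k] A) :
    Module.finrank k ↥(LinearMap.ker (f.dualMap - 1)) =
      Module.finrank k ↥(LinearMap.ker (f - 1)) := by
  have e : f.dualMap - 1 = (f - 1).dualMap := by
    apply LinearMap.ext
    intro ξ
    apply LinearMap.ext
    intro x
    simp [LinearMap.dualMap_apply]
  rw [e]
  have h1 := LinearMap.finrank_range_add_finrank_ker (f - 1).dualMap
  have h2 := LinearMap.finrank_range_add_finrank_ker (f - 1)
  rw [LinearMap.finrank_range_dualMap_eq_finrank_range, Subspace.dual_finrank_eq] at h1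
  omega

/-- the dual of the space of functions on a finite set -/
def dualPiEquiv (X : Type) [Fintype X] [DecidableEq X] :
    Module.Dual k (X → k) ≃ₗ[k] (X → k) := LinearEquiv.piRing k k X k

lemma dualPiEquiv_apply (X : Type) [Fintype X] [DecidableEq X] (ξ : Module.Dual k (X → k))
    (x : X) : dualPiEquiv (k := k) X ξ x = ξ (Pi.single x 1) := rfl

lemma permOp_single (X : Type) [DecidableEq X] (π : Equiv.Perm X) (x : X) :
    permOp k π⁻¹ (Pi.single x 1) = Pi.single (π x) 1 := by
  funext y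
  simp only [permOp_apply, Pi.single_apply]
  by_cases h : y = π x
  · subst h
    simp
  · rw [if_neg h, if_neg]
    intro h'
    apply h
    rw [← h']
    simp

/-- **self-duality of permutation modules, with the contragredient twist**:
`mlt y (permOp π) = mlt z' (permOp π)` for `z' = (yᵀ)⁻¹`. -/
lemma mlt_perm_dual (hSymm : AbsSymmStatement) (hDual : AbsDualStatement) [Module.Finite k A]
    (y : A →ₗ[k] A) (z' : Module.Dual k A →ₗ[k] Module.Dual k A)
    (h1 : z' ∘ₗ y.dualMap = LinearMap.id) (h2 : y.dualMap ∘ₗ z' = LinearMap.id)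
    (X : Type) [Fintype X] (π : Equiv.Perm X) :
    mlt y (permOp k π) = mlt z' (permOp k π) := by
  classical
  rw [hDual k A (X → k) y (permOp k π), hSymm k _ _ (permOp k π).dualMap y.dualMap]
  -- `eqv yᵀ bᵀ = eqv z' ((b⁻¹)ᵀ)`
  have hb1 : (permOp k π).dualMap ∘ₗ (permOp k π⁻¹).dualMap = LinearMap.id := by
    apply LinearMap.ext
    intro ξ
    apply LinearMap.ext
    intro f
    simp only [LinearMap.comp_apply, LinearMap.dualMap_apply, LinearMap.id_apply]
    congr 1
    funext x
    simp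
  have hb2 : (permOp k π⁻¹).dualMap ∘ₗ (permOp k π).dualMap = LinearMap.id := by
    apply LinearMap.ext
    intro ξ
    apply LinearMap.ext
    intro f
    simp only [LinearMap.comp_apply, LinearMap.dualMap_apply, LinearMap.id_apply]
    congr 1
    funext x
    simp
  have hE : eqv y.dualMap (permOp k π).dualMap = eqv z' (permOp k π⁻¹).dualMap := by
    ext ψ
    simp only [mem_eqv]
    constructor
    · intro h
      calc ψ ∘ₗ z' = ((permOp k π⁻¹).dualMap ∘ₗ (permOp k π).dualMap) ∘ₗ ψ ∘ₗ z' := by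
            rw [hb2, LinearMap.id_comp]
        _ = (permOp k π⁻¹).dualMap ∘ₗ ((permOp k π).dualMap ∘ₗ ψ) ∘ₗ z' := by
            simp only [LinearMap.comp_assoc]
        _ = (permOp k π⁻¹).dualMap ∘ₗ (ψ ∘ₗ y.dualMap) ∘ₗ z' := by rw [h]
        _ = (permOp k π⁻¹).dualMap ∘ₗ ψ ∘ₗ (y.dualMap ∘ₗ z') := by
            simp only [LinearMap.comp_assoc]
        _ = (permOp k π⁻¹).dualMap ∘ₗ ψ := by rw [h2, LinearMap.comp_id]
    · intro h
      calc ψ ∘ₗ y.dualMap
          = ((permOp k π).dualMap ∘ₗ (permOp k π⁻¹).dualMap) ∘ₗ ψ ∘ₗ y.dualMap := by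
            rw [hb1, LinearMap.id_comp]
        _ = (permOp k π).dualMap ∘ₗ ((permOp k π⁻¹).dualMap ∘ₗ ψ) ∘ₗ y.dualMap := by
            simp only [LinearMap.comp_assoc]
        _ = (permOp k π).dualMap ∘ₗ (ψ ∘ₗ z') ∘ₗ y.dualMap := by rw [h]
        _ = (permOp k π).dualMap ∘ₗ ψ ∘ₗ (z' ∘ₗ y.dualMap) := by
            simp only [LinearMap.comp_assoc]
        _ = (permOp k π).dualMap ∘ₗ ψ := by rw [h1, LinearMap.comp_id]
  have e1 : mlt y.dualMap (permOp k π).dualMap = mlt z' (permOp k π⁻¹).dualMap := by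
    unfold mlt
    rw [hE]
  rw [e1]
  refine mlt_congr_right z' (permOp k π⁻¹).dualMap (permOp k π) (dualPiEquiv X) ?_
  intro ξ
  funext x
  rw [dualPiEquiv_apply, LinearMap.dualMap_apply, permOp_single, permOp_apply,
    dualPiEquiv_apply]

end Fermat.Agent.P1.helper35.BSU
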