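import Fermat.Agent.P1.helper35_BSUnitsArith

/-!
# P1 / module EC / BASE-STAR / package BS-UNITS (helper35): the `T`-units of `K₁`

* `mem_sUnits_of_pow_mem`, `mem_sUnits_of_pow_eq_one` : the `T`-units are saturated and contain
  the roots of unity;
* `Oa D`          : the `T`-units of `K₁`, written additively;
* `sigO D d`      : the automorphism `σ_c^d` of the `T`-units; `sigA D` : `σ_c` on `Oa`;
* `sigA_pow`      : `(sigA D)^d = sigO D d`;
* `kerEquiv D d`  : `ker ((sigA D)^d - 1) ≃ fixedSUnits ℚ K₁ T ⟨σ_c^d⟩`;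
* `mem_torsion_Oa_iff` : torsion elements of `Oa` = roots of unity.
-/

set_option autoImplicit false
set_option linter.style.haveILetI false
set_option linter.unusedSectionVars false

open groupCohomology ExtCitation

noncomputable section

namespace Fermat.Agent.P1.helper35.BSU

open Fermat.Agent.S55 Fermat.Agent.P1.helper70 Fermat.Agent.P1.helper63 Fermat.Agent.P1.helper7

/-! ## Saturation -/

section Sat

variable {K : Type*} [Field K] [NumberField K] (T : Finset Nat.Primes)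

lemma mem_sUnits_of_pow_mem {u : Kˣ} {m : ℕ} (hm : 0 < m)
    (h : u ^ m ∈ Fermat.Agent.S55.helper79.sUnits K T) :
    u ∈ Fermat.Agent.S55.helper79.sUnits K T := by
  rw [Fermat.Agent.P1.helper79.mem_sUnits_iff_isIntegral] at h ⊢
  obtain ⟨k, h1, h2⟩ := h
  have hN : ∀ j : ℕ, IsIntegral ℤ (((Fermat.Agent.S55.helper79.sProd T : ℕ) : K) ^ j) := by
    intro j
    have h0 : IsIntegral ℤ (((Fermat.Agent.S55.helper79.sProd T : ℕ) : K)) := by
      have h := isIntegral_algebraMap (R := ℤ) (A := K)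
        (x := ((Fermat.Agent.S55.helper79.sProd T : ℕ) : ℤ))
      have e : algebraMap ℤ K ((Fermat.Agent.S55.helper79.sProd T : ℕ) : ℤ) =
          ((Fermat.Agent.S55.helper79.sProd T : ℕ) : K) := by simp
      rwa [e] at h
    exact h0.pow j
  refine ⟨k, ?_, ?_⟩
  · refine IsIntegral.of_pow hm ?_
    have e : (((Fermat.Agent.S55.helper79.sProd T : ℕ) : K) ^ k * (u : K)) ^ m =
        ((Fermat.Agent.S55.helper79.sProd T : ℕ) : K) ^ (k * (m - 1)) *
          (((Fermat.Agent.S55.helper79.sProd T : ℕ) : K) ^ k * ((u ^ m : Kˣ) : K)) := by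
      rw [mul_pow, Units.val_pow_eq_pow_val, ← mul_assoc, ← pow_add, ← pow_mul]
      congr 2
      have : k * m = k * (m - 1) + k := by
        rw [← Nat.mul_succ]
        congr 1
        omega
      exact this
    rw [e]
    exact (hN _).mul h1
  · refine IsIntegral.of_pow hm ?_
    have e : (((Fermat.Agent.S55.helper79.sProd T : ℕ) : K) ^ k * ((u⁻¹ : Kˣ) : K)) ^ m =
        ((Fermat.Agent.S55.helper79.sProd T : ℕ) : K) ^ (k * (m - 1)) *
          (((Fermat.Agent.S55.helper79.sProd T : ℕ) : K) ^ k * (((u ^ m)⁻¹ : Kˣ) : K)) := by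
      rw [mul_pow, ← Units.val_pow_eq_pow_val, inv_pow, ← mul_assoc, ← pow_add, ← pow_mul]
      congr 2
      have : k * m = k * (m - 1) + k := by
        rw [← Nat.mul_succ]
        congr 1
        omega
      exact this
    rw [e]
    exact (hN _).mul h2

lemma mem_sUnits_of_pow_eq_one {u : Kˣ} {m : ℕ} (hm : 0 < m) (h : u ^ m = 1) :
    u ∈ Fermat.Agent.S55.helper79.sUnits K T :=
  mem_sUnits_of_pow_mem T hm (by rw [h]; exact one_mem _)

end Sat

/-! ## The `T`-units of `K₁` -/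

section O

variable {p : ℕ} [Fact p.Prime] {T : Finset Nat.Primes} (D : BSData p T) [NumberField ↥D.K1]

/-- the `T`-units of `K₁`, written additively -/
abbrev Oa : Type := Additive ↥(Fermat.Agent.S55.helper79.sUnits ↥D.K1 T)

/-- Dirichlet: the `T`-units are finitely generated -/
lemma finite_Oa : Module.Finite ℤ (Oa D) := by
  haveI : Finite ↥(Fermat.Agent.S55.helper97.placesOver ↥D.K1 T) :=
    (Fermat.Agent.S55.helper79.finite_placesOver _ T).to_subtype
  exact Fermat.Agent.S55.helper79.numberField_module_finite_sunit ↥D.K1 _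

/-- `σ_c` on the `T`-units -/
def sigO : ↥(Fermat.Agent.S55.helper79.sUnits ↥D.K1 T) →*
    ↥(Fermat.Agent.S55.helper79.sUnits ↥D.K1 T) where
  toFun u := ⟨Units.map (D.sigmaC : ↥D.K1 →* ↥D.K1) (u : (↥D.K1)ˣ), by
    have h : Units.map (D.sigmaC : ↥D.K1 →* ↥D.K1) (u : (↥D.K1)ˣ) =
        Units.map (((D.sigmaC : ↥D.K1 →+* ↥D.K1)) : ↥D.K1 →* ↥D.K1) (u : (↥D.K1)ˣ) :=
      Units.ext rfl
    rw [h, Fermat.Agent.P1.helper79.map_mem_sUnits_iff]
    exact u.2⟩
  map_one' := by
    apply Subtype.ext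
    apply Units.ext
    change D.sigmaC (1 : ↥D.K1) = 1
    exact map_one _
  map_mul' a b := by
    apply Subtype.ext
    apply Units.ext
    change D.sigmaC (((a : (↥D.K1)ˣ) : ↥D.K1) * ((b : (↥D.K1)ˣ) : ↥D.K1)) = _
    exact map_mul _ _ _

/-- `σ_c` on the `T`-units, additively -/
def sigA : Oa D →ₗ[ℤ] Oa D := (MonoidHom.toAdditive (sigO D)).toIntLinearMap

/-- the underlying element of `K₁` -/
def valO (a : Oa D) : ↥D.K1 :=
  (((Additive.toMul a : ↥(Fermat.Agent.S55.helper79.sUnits ↥D.K1 T)) : (↥D.K1)ˣ) : ↥D.K1)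

lemma valO_injective : Function.Injective (valO D) := by
  intro a b h
  apply Additive.toMul.injective
  apply Subtype.ext
  apply Units.ext
  exact h

lemma valO_sigA (a : Oa D) : valO D (sigA D a) = D.sigmaC (valO D a) := rfl

lemma valO_sigA_pow (d : ℕ) (a : Oa D) :
    valO D ((sigA D ^ d) a) = (D.sigmaC ^ d) (valO D a) := by
  induction d generalizing a with
  | zero => simp
  | succ d ih =>
    rw [pow_succ', pow_succ', Module.End.mul_apply, AlgEquiv.mul_apply, valO_sigA, ih]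

lemma sigA_pow_eq_one {n : ℕ} (hn : D.c ^ n ∈ D.pSub) : sigA D ^ n = 1 := by
  apply LinearMap.ext
  intro a
  apply valO_injective D
  rw [valO_sigA_pow, sigmaC_pow_eq_one D hn, Module.End.one_apply, AlgEquiv.one_apply]

/-- the inclusion of the `T`-units into `K₁ˣ`, additively -/
def inclA : Oa D →+ Additive (↥D.K1)ˣ :=
  MonoidHom.toAdditive (Subgroup.subtype (Fermat.Agent.S55.helper79.sUnits ↥D.K1 T))

lemma inclA_apply (a : Oa D) :
    inclA D a = Additive.ofMul
      ((Additive.toMul a : ↥(Fermat.Agent.S55.helper79.sUnits ↥D.K1 T)) : (↥D.K1)ˣ) := rfl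

lemma inclA_sigA (a : Oa D) :
    inclA D (sigA D a) = Additive.ofMul (Units.map (D.sigmaC : ↥D.K1 →* ↥D.K1)
      ((Additive.toMul a : ↥(Fermat.Agent.S55.helper79.sUnits ↥D.K1 T)) : (↥D.K1)ˣ)) := rfl

lemma inclA_nsmul (m : ℕ) (a : Oa D) :
    inclA D (m • a) = Additive.ofMul
      (((Additive.toMul a : ↥(Fermat.Agent.S55.helper79.sUnits ↥D.K1 T)) : (↥D.K1)ˣ) ^ m) := by
  rw [map_nsmul, inclA_apply]
  rfl

lemma inclA_injective : Function.Injective (inclA D) := by
  intro a b h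
  apply Additive.toMul.injective
  apply Subtype.ext
  exact Additive.ofMul.injective h

/-- `p`-th powers -/
lemma exists_eq_nsmul_iff (m : ℕ) (hm : 0 < m) (a : Oa D) :
    (∃ b : Oa D, a = m • b) ↔ ∃ b : (↥D.K1)ˣ,
      ((Additive.toMul a : ↥(Fermat.Agent.S55.helper79.sUnits ↥D.K1 T)) : (↥D.K1)ˣ) = b ^ m := by
  constructor
  · rintro ⟨b, rfl⟩
    refine ⟨((Additive.toMul b : ↥(Fermat.Agent.S55.helper79.sUnits ↥D.K1 T)) : (↥D.K1)ˣ), ?_⟩
    have := inclA_nsmul D m b
    rw [inclA_apply] at this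
    exact Additive.ofMul.injective this
  · rintro ⟨b, hb⟩
    have hbO : b ∈ Fermat.Agent.S55.helper79.sUnits ↥D.K1 T := by
      apply mem_sUnits_of_pow_mem T hm
      rw [← hb]
      exact (Additive.toMul a).2
    refine ⟨Additive.ofMul ⟨b, hbO⟩, ?_⟩
    apply inclA_injective D
    rw [inclA_nsmul, inclA_apply]
    exact congrArg Additive.ofMul hb

/-- torsion elements = roots of unity -/
lemma mem_torsion_Oa_iff (a : Oa D) :
    a ∈ Submodule.torsion ℤ (Oa D) ↔ ∃ m : ℕ, 0 < m ∧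
      ((Additive.toMul a : ↥(Fermat.Agent.S55.helper79.sUnits ↥D.K1 T)) : (↥D.K1)ˣ) ^ m = 1 := by
  rw [Submodule.mem_torsion_iff]
  constructor
  · rintro ⟨m, hm⟩
    rw [Submonoid.smul_def] at hm
    have hm0 : (m : ℤ) ≠ 0 := nonZeroDivisors.coe_ne_zero m
    refine ⟨(m : ℤ).natAbs, Int.natAbs_pos.2 hm0, ?_⟩
    have h1 : (m : ℤ).natAbs • a = 0 := natAbs_nsmul_eq_zero.2 hm
    have h2 := congrArg (inclA D) h1
    rw [inclA_nsmul, map_zero] at h2
    exact Additive.ofMul.injective h2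
  · rintro ⟨m, hm, h⟩
    refine ⟨⟨(m : ℤ), mem_nonZeroDivisors_of_ne_zero (by exact_mod_cast hm.ne')⟩, ?_⟩
    rw [Submonoid.smul_def]
    change ((m : ℕ) : ℤ) • a = 0
    rw [natCast_zsmul]
    apply inclA_injective D
    rw [inclA_nsmul, map_zero, h]
    rfl

/-- membership in the fixed `T`-units of `⟨σ_c^d⟩` -/
lemma mem_fixedSUnits_zpowers_iff (d : ℕ) (u : (↥D.K1)ˣ) :
    u ∈ Fermat.Agent.P1.helper79.fixedSUnits ℚ ↥D.K1 T (Subgroup.zpowers (D.sigmaC ^ d)) ↔
      u ∈ Fermat.Agent.S55.helper79.sUnits ↥D.K1 T ∧ (D.sigmaC ^ d) (u : ↥D.K1) = u := by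
  rw [Fermat.Agent.P1.helper79.mem_fixedSUnits]
  refine and_congr Iff.rfl ?_
  constructor
  · intro h
    have := h _ (Subgroup.mem_zpowers _)
    exact congrArg Units.val this
  · intro h τ hτ
    have hle : Subgroup.zpowers (D.sigmaC ^ d) ≤
        MulAction.stabilizer (↥D.K1 ≃ₐ[ℚ] ↥D.K1) u := by
      rw [Subgroup.zpowers_le, MulAction.mem_stabilizer_iff]
      exact Units.ext h
    exact MulAction.mem_stabilizer_iff.1 (hle hτ)

lemma mem_ker_sigA_pow_iff (d : ℕ) (a : Oa D) :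
    a ∈ LinearMap.ker (sigA D ^ d - 1) ↔ (D.sigmaC ^ d) (valO D a) = valO D a := by
  rw [LinearMap.mem_ker, LinearMap.sub_apply, Module.End.one_apply, sub_eq_zero,
    ← valO_sigA_pow]
  exact ⟨fun h => congrArg _ h, fun h => valO_injective D h⟩

/-- `ker (σ^d - 1)` on the `T`-units = the `T`-units fixed by `⟨σ_c^d⟩` -/
def kerEquiv (d : ℕ) : ↥(LinearMap.ker (sigA D ^ d - 1)) ≃ₗ[ℤ]
    Additive ↥(Fermat.Agent.P1.helper79.fixedSUnits ℚ ↥D.K1 T
      (Subgroup.zpowers (D.sigmaC ^ d))) :=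
  AddEquiv.toIntLinearEquiv
    { toFun := fun x => Additive.ofMul
        ⟨((Additive.toMul (x : Oa D) : ↥(Fermat.Agent.S55.helper79.sUnits ↥D.K1 T)) :
          (↥D.K1)ˣ), (mem_fixedSUnits_zpowers_iff D d _).2
            ⟨(Additive.toMul (x : Oa D)).2, (mem_ker_sigA_pow_iff D d _).1 x.2⟩⟩
      invFun := fun y =>
        ⟨Additive.ofMul ⟨((Additive.toMul y : ↥(Fermat.Agent.P1.helper79.fixedSUnits ℚ ↥D.K1 T
            (Subgroup.zpowers (D.sigmaC ^ d)))) : (↥D.K1)ˣ),
          ((mem_fixedSUnits_zpowers_iff D d _).1 (Additive.toMul y).2).1⟩,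
          (mem_ker_sigA_pow_iff D d _).2
            ((mem_fixedSUnits_zpowers_iff D d _).1 (Additive.toMul y).2).2⟩
      left_inv := fun _ => rfl
      right_inv := fun _ => rfl
      map_add' := fun _ _ => rfl }

end O

end Fermat.Agent.P1.helper35.BSU
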