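import Mathlib

/-!
# P1 / module EC, package EC-ADD: the long exact cohomology sequence, abstract part (helper35)

Pure linear algebra (no groups).

* `HQ Z B = Z / (B ∩ Z)` and `Hmap f : HQ Z B → HQ Z' B'` : cohomology-type quotients and induced
  maps; `Hmap_exact` : an elementwise criterion for `ker (Hmap g) = range (Hmap f)`;
* `LesWin` : one window (four consecutive degrees `P → Q → R → S`) of a short exact sequence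
  `0 → X₁ → X → X₂ → 0` of complexes with "level" submodules, with linear sections `s` of `q`
  and retractions `r` of `i` preserving the levels (in the application: post-composition with a
  linear section / retraction on the coefficient modules);
* `LesWin.δ = r ∘ d ∘ s` : the connecting map on cochains, and the six elementwise exactness
  statements `exact_mid_*`, `exact_δ_left_*`, `exact_δ_right_*` at `H(Q)`, `H(Q₂)`, `H(R₁)`.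
-/

set_option autoImplicit false

open Module

namespace Fermat.Agent.P1.helper35

/-! ## Cohomology-type quotients -/

section Hmap

variable {k : Type*} [Field k]
  {M M' M'' : Type*} [AddCommGroup M] [Module k M] [AddCommGroup M'] [Module k M']
  [AddCommGroup M''] [Module k M'']

/-- the quotient `Z / (B ∩ Z)` ("cocycles modulo coboundaries") -/
abbrev HQ (Z B : Submodule k M) : Type _ := ↥Z ⧸ B.comap Z.subtype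

/-- the class of a cocycle -/
def hcls {Z : Submodule k M} (B : Submodule k M) (x : M) (hx : x ∈ Z) : HQ Z B :=
  Submodule.Quotient.mk ⟨x, hx⟩

lemma hcls_surjective {Z B : Submodule k M} (ξ : HQ Z B) : ∃ x, ∃ hx : x ∈ Z, hcls B x hx = ξ := by
  obtain ⟨⟨x, hx⟩, rfl⟩ := Submodule.Quotient.mk_surjective _ ξ
  exact ⟨x, hx, rfl⟩

lemma hcls_eq_zero_iff {Z B : Submodule k M} {x : M} (hx : x ∈ Z) :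
    hcls B x hx = 0 ↔ x ∈ B := by
  unfold hcls
  rw [Submodule.Quotient.mk_eq_zero]
  rfl

lemma hcls_eq_iff {Z B : Submodule k M} {x y : M} (hx : x ∈ Z) (hy : y ∈ Z) :
    hcls B x hx = hcls B y hy ↔ x - y ∈ B := by
  unfold hcls
  rw [Submodule.Quotient.eq]
  rfl

/-- the map induced on cohomology-type quotients -/
def Hmap (f : M →ₗ[k] M') {Z B : Submodule k M} {Z' B' : Submodule k M'}
    (hZ : ∀ x ∈ Z, f x ∈ Z') (hB : ∀ x ∈ Z, x ∈ B → f x ∈ B') : HQ Z B →ₗ[k] HQ Z' B' :=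
  Submodule.mapQ _ _ (f.restrict hZ) (fun x hx => hB x.1 x.2 hx)

@[simp] lemma Hmap_hcls (f : M →ₗ[k] M') {Z B : Submodule k M} {Z' B' : Submodule k M'}
    (hZ : ∀ x ∈ Z, f x ∈ Z') (hB : ∀ x ∈ Z, x ∈ B → f x ∈ B') {x : M} (hx : x ∈ Z) :
    Hmap f hZ hB (hcls B x hx) = hcls B' (f x) (hZ x hx) := rfl

/-- ELEMENTWISE CRITERION FOR EXACTNESS. -/
theorem Hmap_exact (f : M →ₗ[k] M') (g : M' →ₗ[k] M'')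
    {Z B : Submodule k M} {Z' B' : Submodule k M'} {Z'' B'' : Submodule k M''}
    (hfZ : ∀ x ∈ Z, f x ∈ Z') (hfB : ∀ x ∈ Z, x ∈ B → f x ∈ B')
    (hgZ : ∀ x ∈ Z', g x ∈ Z'') (hgB : ∀ x ∈ Z', x ∈ B' → g x ∈ B'')
    (h1 : ∀ x ∈ Z, g (f x) ∈ B'')
    (h2 : ∀ y ∈ Z', g y ∈ B'' → ∃ x ∈ Z, y - f x ∈ B') :
    LinearMap.ker (Hmap g hgZ hgB) = LinearMap.range (Hmap f hfZ hfB) := by
  ext ξ
  obtain ⟨y, hy, rfl⟩ := hcls_surjective ξ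
  rw [LinearMap.mem_ker, Hmap_hcls, hcls_eq_zero_iff, LinearMap.mem_range]
  constructor
  · intro h
    obtain ⟨x, hx, hxy⟩ := h2 y hy h
    refine ⟨hcls B x hx, ?_⟩
    rw [Hmap_hcls, hcls_eq_iff]
    have : f x - y = -(y - f x) := by abel
    rw [this]
    exact B'.neg_mem hxy
  · rintro ⟨η, hη⟩
    obtain ⟨x, hx, rfl⟩ := hcls_surjective η
    rw [Hmap_hcls, hcls_eq_iff] at hη
    have e : g y = g (f x) - g (f x - y) := by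
      rw [map_sub]; abel
    rw [e]
    exact B''.sub_mem (h1 x hx) (hgB _ (Z'.sub_mem (hfZ x hx) hy) hη)

/-- injectivity criterion -/
theorem Hmap_injective (f : M →ₗ[k] M') {Z B : Submodule k M} {Z' B' : Submodule k M'}
    (hZ : ∀ x ∈ Z, f x ∈ Z') (hB : ∀ x ∈ Z, x ∈ B → f x ∈ B')
    (h : ∀ x ∈ Z, f x ∈ B' → x ∈ B) : Function.Injective (Hmap f hZ hB) := by
  rw [← LinearMap.ker_eq_bot, LinearMap.ker_eq_bot']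
  intro ξ hξ
  obtain ⟨x, hx, rfl⟩ := hcls_surjective ξ
  rw [Hmap_hcls, hcls_eq_zero_iff] at hξ
  rw [hcls_eq_zero_iff]
  exact h x hx hξ

/-- surjectivity criterion -/
theorem Hmap_surjective (f : M →ₗ[k] M') {Z B : Submodule k M} {Z' B' : Submodule k M'}
    (hZ : ∀ x ∈ Z, f x ∈ Z') (hB : ∀ x ∈ Z, x ∈ B → f x ∈ B')
    (h : ∀ y ∈ Z', ∃ x ∈ Z, y - f x ∈ B') : Function.Surjective (Hmap f hZ hB) := by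
  intro η
  obtain ⟨y, hy, rfl⟩ := hcls_surjective η
  obtain ⟨x, hx, hxy⟩ := h y hy
  refine ⟨hcls B x hx, ?_⟩
  rw [Hmap_hcls, hcls_eq_iff]
  have : f x - y = -(y - f x) := by abel
  rw [this]
  exact B'.neg_mem hxy

end Hmap

/-! ## One window of a short exact sequence of complexes with levels -/

section Window

variable (k : Type*) [Field k]
  (P₁ Q₁ R₁ S₁ P Q R S P₂ Q₂ R₂ : Type*)
  [AddCommGroup P₁] [Module k P₁] [AddCommGroup Q₁] [Module k Q₁]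
  [AddCommGroup R₁] [Module k R₁] [AddCommGroup S₁] [Module k S₁]
  [AddCommGroup P] [Module k P] [AddCommGroup Q] [Module k Q]
  [AddCommGroup R] [Module k R] [AddCommGroup S] [Module k S]
  [AddCommGroup P₂] [Module k P₂] [AddCommGroup Q₂] [Module k Q₂]
  [AddCommGroup R₂] [Module k R₂]

/-- One window `P → Q → R → S` of a short exact sequence `0 → X₁ → X → X₂ → 0` of complexes with
level submodules `C`, with level-preserving linear sections `s` of `q` and retractions `r` of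
`i`. -/
structure LesWin where
  dP₁ : P₁ →ₗ[k] Q₁
  dQ₁ : Q₁ →ₗ[k] R₁
  dR₁ : R₁ →ₗ[k] S₁
  dP : P →ₗ[k] Q
  dQ : Q →ₗ[k] R
  dR : R →ₗ[k] S
  dP₂ : P₂ →ₗ[k] Q₂
  dQ₂ : Q₂ →ₗ[k] R₂
  CP₁ : Submodule k P₁
  CQ₁ : Submodule k Q₁
  CR₁ : Submodule k R₁
  CP : Submodule k P
  CQ : Submodule k Q
  CR : Submodule k R
  CP₂ : Submodule k P₂
  CQ₂ : Submodule k Q₂
  iP : P₁ →ₗ[k] P
  iQ : Q₁ →ₗ[k] Q
  iR : R₁ →ₗ[k] R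
  iS : S₁ →ₗ[k] S
  qP : P →ₗ[k] P₂
  qQ : Q →ₗ[k] Q₂
  qR : R →ₗ[k] R₂
  sP : P₂ →ₗ[k] P
  sQ : Q₂ →ₗ[k] Q
  rQ : Q →ₗ[k] Q₁
  rR : R →ₗ[k] R₁
  dQ_dP : ∀ x, dQ (dP x) = 0
  dR_dQ : ∀ x, dR (dQ x) = 0
  dQ₁_dP₁ : ∀ x, dQ₁ (dP₁ x) = 0
  dR₁_dQ₁ : ∀ x, dR₁ (dQ₁ x) = 0
  dQ₂_dP₂ : ∀ x, dQ₂ (dP₂ x) = 0
  dP₁_mem : ∀ x ∈ CP₁, dP₁ x ∈ CQ₁
  dQ₁_mem : ∀ x ∈ CQ₁, dQ₁ x ∈ CR₁
  dP_mem : ∀ x ∈ CP, dP x ∈ CQ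
  dQ_mem : ∀ x ∈ CQ, dQ x ∈ CR
  dP₂_mem : ∀ x ∈ CP₂, dP₂ x ∈ CQ₂
  iQ_dP₁ : ∀ x, iQ (dP₁ x) = dP (iP x)
  iR_dQ₁ : ∀ x, iR (dQ₁ x) = dQ (iQ x)
  iS_dR₁ : ∀ x, iS (dR₁ x) = dR (iR x)
  qQ_dP : ∀ x, qQ (dP x) = dP₂ (qP x)
  qR_dQ : ∀ x, qR (dQ x) = dQ₂ (qQ x)
  iP_mem : ∀ x ∈ CP₁, iP x ∈ CP
  iQ_mem : ∀ x ∈ CQ₁, iQ x ∈ CQ
  iR_mem : ∀ x ∈ CR₁, iR x ∈ CR
  qP_mem : ∀ x ∈ CP, qP x ∈ CP₂
  qQ_mem : ∀ x ∈ CQ, qQ x ∈ CQ₂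
  sP_mem : ∀ x ∈ CP₂, sP x ∈ CP
  sQ_mem : ∀ x ∈ CQ₂, sQ x ∈ CQ
  rQ_mem : ∀ x ∈ CQ, rQ x ∈ CQ₁
  rR_mem : ∀ x ∈ CR, rR x ∈ CR₁
  qP_sP : ∀ x, qP (sP x) = x
  qQ_sQ : ∀ x, qQ (sQ x) = x
  qQ_iQ : ∀ x, qQ (iQ x) = 0
  qR_iR : ∀ x, qR (iR x) = 0
  iQ_rQ : ∀ x, qQ x = 0 → iQ (rQ x) = x
  iR_rR : ∀ x, qR x = 0 → iR (rR x) = x
  rR_iR : ∀ x, rR (iR x) = x
  iS_inj : Function.Injective iS

end Window

namespace LesWin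

variable {k : Type*} [Field k]
  {P₁ Q₁ R₁ S₁ P Q R S P₂ Q₂ R₂ : Type*}
  [AddCommGroup P₁] [Module k P₁] [AddCommGroup Q₁] [Module k Q₁]
  [AddCommGroup R₁] [Module k R₁] [AddCommGroup S₁] [Module k S₁]
  [AddCommGroup P] [Module k P] [AddCommGroup Q] [Module k Q]
  [AddCommGroup R] [Module k R] [AddCommGroup S] [Module k S]
  [AddCommGroup P₂] [Module k P₂] [AddCommGroup Q₂] [Module k Q₂]
  [AddCommGroup R₂] [Module k R₂]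
  (W : LesWin k P₁ Q₁ R₁ S₁ P Q R S P₂ Q₂ R₂)

/-- **the connecting map** on cochains, `δ = r ∘ d ∘ s` -/
def δ : Q₂ →ₗ[k] R₁ := W.rR ∘ₗ W.dQ ∘ₗ W.sQ

lemma δ_apply (z : Q₂) : W.δ z = W.rR (W.dQ (W.sQ z)) := rfl

lemma iR_inj : Function.Injective W.iR := fun x y h => by
  have := congrArg W.rR h
  rwa [W.rR_iR, W.rR_iR] at this

/-- `i (δ z) = d (s z)` for cocycles `z` -/
lemma iR_δ {z : Q₂} (hz : W.dQ₂ z = 0) : W.iR (W.δ z) = W.dQ (W.sQ z) := by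
  rw [δ_apply]
  apply W.iR_rR
  rw [W.qR_dQ, W.qQ_sQ, hz]

/-- elements of the kernel of `q` come from `X₁` -/
lemma exists_of_qQ_eq_zero {u : Q} (hu : u ∈ W.CQ) (hq : W.qQ u = 0) :
    ∃ u₁ ∈ W.CQ₁, W.iQ u₁ = u :=
  ⟨W.rQ u, W.rQ_mem u hu, W.iQ_rQ u hq⟩

/-! ### the maps are maps of cocycles and coboundaries -/

lemma iQ_cocycle {x : Q₁} (hx : x ∈ W.CQ₁ ∧ W.dQ₁ x = 0) :
    W.iQ x ∈ W.CQ ∧ W.dQ (W.iQ x) = 0 :=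
  ⟨W.iQ_mem x hx.1, by rw [← W.iR_dQ₁, hx.2, map_zero]⟩

lemma iQ_cobdry {x : Q₁} (hx : ∃ y ∈ W.CP₁, W.dP₁ y = x) : ∃ y ∈ W.CP, W.dP y = W.iQ x := by
  obtain ⟨y, hy, rfl⟩ := hx
  exact ⟨W.iP y, W.iP_mem y hy, (W.iQ_dP₁ y).symm⟩

lemma qQ_cocycle {x : Q} (hx : x ∈ W.CQ ∧ W.dQ x = 0) :
    W.qQ x ∈ W.CQ₂ ∧ W.dQ₂ (W.qQ x) = 0 :=
  ⟨W.qQ_mem x hx.1, by rw [← W.qR_dQ, hx.2, map_zero]⟩

lemma qQ_cobdry {x : Q} (hx : ∃ y ∈ W.CP, W.dP y = x) : ∃ y ∈ W.CP₂, W.dP₂ y = W.qQ x := by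
  obtain ⟨y, hy, rfl⟩ := hx
  exact ⟨W.qP y, W.qP_mem y hy, (W.qQ_dP y).symm⟩

lemma iR_cocycle {x : R₁} (hx : x ∈ W.CR₁ ∧ W.dR₁ x = 0) :
    W.iR x ∈ W.CR ∧ W.dR (W.iR x) = 0 :=
  ⟨W.iR_mem x hx.1, by rw [← W.iS_dR₁, hx.2, map_zero]⟩

lemma iR_cobdry {x : R₁} (hx : ∃ y ∈ W.CQ₁, W.dQ₁ y = x) : ∃ y ∈ W.CQ, W.dQ y = W.iR x := by
  obtain ⟨y, hy, rfl⟩ := hx
  exact ⟨W.iQ y, W.iQ_mem y hy, (W.iR_dQ₁ y).symm⟩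

lemma δ_cocycle {z : Q₂} (hz : z ∈ W.CQ₂ ∧ W.dQ₂ z = 0) :
    W.δ z ∈ W.CR₁ ∧ W.dR₁ (W.δ z) = 0 := by
  refine ⟨W.rR_mem _ (W.dQ_mem _ (W.sQ_mem z hz.1)), W.iS_inj ?_⟩
  rw [W.iS_dR₁, W.iR_δ hz.2, W.dR_dQ, map_zero]

/-- the difference `s (q x) - x` comes from `X₁` -/
lemma exists_sQ_qQ_sub {x : Q} (hx : x ∈ W.CQ) :
    ∃ u₁ ∈ W.CQ₁, W.iQ u₁ = W.sQ (W.qQ x) - x := by
  refine W.exists_of_qQ_eq_zero (W.CQ.sub_mem (W.sQ_mem _ (W.qQ_mem x hx)) hx) ?_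
  rw [map_sub, W.qQ_sQ, sub_self]

lemma δ_cobdry {z : Q₂} (hz : ∃ y ∈ W.CP₂, W.dP₂ y = z) : ∃ y ∈ W.CQ₁, W.dQ₁ y = W.δ z := by
  obtain ⟨b, hb, rfl⟩ := hz
  have hu : W.sQ (W.dP₂ b) - W.dP (W.sP b) ∈ W.CQ :=
    W.CQ.sub_mem (W.sQ_mem _ (W.dP₂_mem b hb)) (W.dP_mem _ (W.sP_mem b hb))
  have hq : W.qQ (W.sQ (W.dP₂ b) - W.dP (W.sP b)) = 0 := by
    rw [map_sub, W.qQ_sQ, W.qQ_dP, W.qP_sP, sub_self]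
  obtain ⟨u₁, hu₁, hiu⟩ := W.exists_of_qQ_eq_zero hu hq
  refine ⟨u₁, hu₁, W.iR_inj ?_⟩
  rw [W.iR_dQ₁, hiu, W.iR_δ (W.dQ₂_dP₂ b), map_sub, W.dQ_dP, sub_zero]

/-! ### exactness at `H(Q)` -/

theorem exact_mid_comp {x : Q₁} : W.qQ (W.iQ x) = 0 := W.qQ_iQ x

theorem exact_mid {x : Q} (hx : x ∈ W.CQ ∧ W.dQ x = 0)
    (h : ∃ b ∈ W.CP₂, W.dP₂ b = W.qQ x) :
    ∃ x₁, (x₁ ∈ W.CQ₁ ∧ W.dQ₁ x₁ = 0) ∧ ∃ y ∈ W.CP, W.dP y = x - W.iQ x₁ := by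
  obtain ⟨b, hb, hbx⟩ := h
  have hu : x - W.dP (W.sP b) ∈ W.CQ := W.CQ.sub_mem hx.1 (W.dP_mem _ (W.sP_mem b hb))
  have hq : W.qQ (x - W.dP (W.sP b)) = 0 := by
    rw [map_sub, W.qQ_dP, W.qP_sP, hbx, sub_self]
  obtain ⟨x₁, hx₁, hix⟩ := W.exists_of_qQ_eq_zero hu hq
  refine ⟨x₁, ⟨hx₁, W.iR_inj ?_⟩, W.sP b, W.sP_mem b hb, ?_⟩
  · rw [W.iR_dQ₁, hix, map_sub, hx.2, W.dQ_dP, sub_zero, map_zero]
  · rw [hix]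
    abel

/-! ### exactness at `H(Q₂)` -/

theorem exact_δ_left_comp {x : Q} (hx : x ∈ W.CQ ∧ W.dQ x = 0) :
    ∃ y ∈ W.CQ₁, W.dQ₁ y = W.δ (W.qQ x) := by
  obtain ⟨u₁, hu₁, hiu⟩ := W.exists_sQ_qQ_sub hx.1
  refine ⟨u₁, hu₁, W.iR_inj ?_⟩
  rw [W.iR_dQ₁, hiu, W.iR_δ (W.qQ_cocycle hx).2, map_sub, hx.2, sub_zero]

theorem exact_δ_left {z : Q₂} (hz : z ∈ W.CQ₂ ∧ W.dQ₂ z = 0)
    (h : ∃ y ∈ W.CQ₁, W.dQ₁ y = W.δ z) :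
    ∃ x, (x ∈ W.CQ ∧ W.dQ x = 0) ∧ ∃ b ∈ W.CP₂, W.dP₂ b = z - W.qQ x := by
  obtain ⟨u₁, hu₁, hu⟩ := h
  refine ⟨W.sQ z - W.iQ u₁, ⟨W.CQ.sub_mem (W.sQ_mem z hz.1) (W.iQ_mem u₁ hu₁), ?_⟩,
    0, W.CP₂.zero_mem, ?_⟩
  · rw [map_sub, ← W.iR_dQ₁, hu, W.iR_δ hz.2, sub_self]
  · rw [map_zero, map_sub, W.qQ_sQ, W.qQ_iQ, sub_zero, sub_self]

/-! ### exactness at `H(R₁)` -/

theorem exact_δ_right_comp {z : Q₂} (hz : z ∈ W.CQ₂ ∧ W.dQ₂ z = 0) :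
    ∃ y ∈ W.CQ, W.dQ y = W.iR (W.δ z) :=
  ⟨W.sQ z, W.sQ_mem z hz.1, (W.iR_δ hz.2).symm⟩

theorem exact_δ_right {w : R₁} (hw : w ∈ W.CR₁ ∧ W.dR₁ w = 0)
    (h : ∃ c ∈ W.CQ, W.dQ c = W.iR w) :
    ∃ z, (z ∈ W.CQ₂ ∧ W.dQ₂ z = 0) ∧ ∃ y ∈ W.CQ₁, W.dQ₁ y = w - W.δ z := by
  obtain ⟨c, hc, hcw⟩ := h
  have hz : W.qQ c ∈ W.CQ₂ ∧ W.dQ₂ (W.qQ c) = 0 :=
    ⟨W.qQ_mem c hc, by rw [← W.qR_dQ, hcw, W.qR_iR]⟩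
  obtain ⟨u₁, hu₁, hiu⟩ := W.exists_sQ_qQ_sub hc
  refine ⟨W.qQ c, hz, -u₁, W.CQ₁.neg_mem hu₁, W.iR_inj ?_⟩
  have e1 : W.iR (W.dQ₁ (-u₁)) = -(W.dQ (W.sQ (W.qQ c)) - W.dQ c) := by
    rw [map_neg, map_neg, W.iR_dQ₁, hiu, map_sub]
  have e2 : W.iR (w - W.δ (W.qQ c)) = W.iR w - W.dQ (W.sQ (W.qQ c)) := by
    rw [map_sub, W.iR_δ hz.2]
  rw [e1, e2, hcw]
  abel

/-! ### the maps on cohomology -/

/-- identification of given submodules with the cocycles / coboundaries of the window -/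
structure Bridge (ZQ₁ BQ₁ : Submodule k Q₁) (ZQ BQ : Submodule k Q) (ZQ₂ BQ₂ : Submodule k Q₂)
    (ZR₁ BR₁ : Submodule k R₁) (ZR BR : Submodule k R) : Prop where
  zq₁ : ∀ x, x ∈ ZQ₁ ↔ x ∈ W.CQ₁ ∧ W.dQ₁ x = 0
  bq₁ : ∀ x, x ∈ BQ₁ ↔ ∃ y ∈ W.CP₁, W.dP₁ y = x
  zq : ∀ x, x ∈ ZQ ↔ x ∈ W.CQ ∧ W.dQ x = 0
  bq : ∀ x, x ∈ BQ ↔ ∃ y ∈ W.CP, W.dP y = x
  zq₂ : ∀ x, x ∈ ZQ₂ ↔ x ∈ W.CQ₂ ∧ W.dQ₂ x = 0
  bq₂ : ∀ x, x ∈ BQ₂ ↔ ∃ y ∈ W.CP₂, W.dP₂ y = x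
  zr₁ : ∀ x, x ∈ ZR₁ ↔ x ∈ W.CR₁ ∧ W.dR₁ x = 0
  br₁ : ∀ x, x ∈ BR₁ ↔ ∃ y ∈ W.CQ₁, W.dQ₁ y = x
  zr : ∀ x, x ∈ ZR ↔ x ∈ W.CR ∧ W.dR x = 0
  br : ∀ x, x ∈ BR ↔ ∃ y ∈ W.CQ, W.dQ y = x

namespace Bridge

variable {W}
variable {ZQ₁ BQ₁ : Submodule k Q₁} {ZQ BQ : Submodule k Q} {ZQ₂ BQ₂ : Submodule k Q₂}
  {ZR₁ BR₁ : Submodule k R₁} {ZR BR : Submodule k R}
  (h : W.Bridge ZQ₁ BQ₁ ZQ BQ ZQ₂ BQ₂ ZR₁ BR₁ ZR BR)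

include h in
lemma iQ_Z : ∀ x ∈ ZQ₁, W.iQ x ∈ ZQ := fun x hx => (h.zq _).2 (W.iQ_cocycle ((h.zq₁ x).1 hx))

include h in
lemma iQ_B : ∀ x ∈ ZQ₁, x ∈ BQ₁ → W.iQ x ∈ BQ := fun x _ hx =>
  (h.bq _).2 (W.iQ_cobdry ((h.bq₁ x).1 hx))

include h in
lemma qQ_Z : ∀ x ∈ ZQ, W.qQ x ∈ ZQ₂ := fun x hx => (h.zq₂ _).2 (W.qQ_cocycle ((h.zq x).1 hx))

include h in
lemma qQ_B : ∀ x ∈ ZQ, x ∈ BQ → W.qQ x ∈ BQ₂ := fun x _ hx =>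
  (h.bq₂ _).2 (W.qQ_cobdry ((h.bq x).1 hx))

include h in
lemma δ_Z : ∀ x ∈ ZQ₂, W.δ x ∈ ZR₁ := fun x hx => (h.zr₁ _).2 (W.δ_cocycle ((h.zq₂ x).1 hx))

include h in
lemma δ_B : ∀ x ∈ ZQ₂, x ∈ BQ₂ → W.δ x ∈ BR₁ := fun x _ hx =>
  (h.br₁ _).2 (W.δ_cobdry ((h.bq₂ x).1 hx))

include h in
lemma iR_Z : ∀ x ∈ ZR₁, W.iR x ∈ ZR := fun x hx => (h.zr _).2 (W.iR_cocycle ((h.zr₁ x).1 hx))

include h in
lemma iR_B : ∀ x ∈ ZR₁, x ∈ BR₁ → W.iR x ∈ BR := fun x _ hx =>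
  (h.br _).2 (W.iR_cobdry ((h.br₁ x).1 hx))

/-- `H(Q₁) → H(Q)` -/
def Hi : HQ ZQ₁ BQ₁ →ₗ[k] HQ ZQ BQ := Hmap W.iQ h.iQ_Z h.iQ_B

/-- `H(Q) → H(Q₂)` -/
def Hq : HQ ZQ BQ →ₗ[k] HQ ZQ₂ BQ₂ := Hmap W.qQ h.qQ_Z h.qQ_B

/-- the connecting map `H(Q₂) → H(R₁)` -/
def Hδ : HQ ZQ₂ BQ₂ →ₗ[k] HQ ZR₁ BR₁ := Hmap W.δ h.δ_Z h.δ_B

/-- `H(R₁) → H(R)` -/
def HiR : HQ ZR₁ BR₁ →ₗ[k] HQ ZR BR := Hmap W.iR h.iR_Z h.iR_B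

/-- exactness at `H(Q)` -/
theorem exact_Q : LinearMap.ker h.Hq = LinearMap.range h.Hi := by
  refine Hmap_exact W.iQ W.qQ h.iQ_Z h.iQ_B h.qQ_Z h.qQ_B ?_ ?_
  · intro x _
    rw [W.qQ_iQ]
    exact BQ₂.zero_mem
  · intro y hy hqy
    obtain ⟨x₁, hx₁, hb⟩ := W.exact_mid ((h.zq y).1 hy) ((h.bq₂ _).1 hqy)
    exact ⟨x₁, (h.zq₁ x₁).2 hx₁, (h.bq _).2 hb⟩

/-- exactness at `H(Q₂)` -/
theorem exact_Q₂ : LinearMap.ker h.Hδ = LinearMap.range h.Hq := by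
  refine Hmap_exact W.qQ W.δ h.qQ_Z h.qQ_B h.δ_Z h.δ_B ?_ ?_
  · intro x hx
    exact (h.br₁ _).2 (W.exact_δ_left_comp ((h.zq x).1 hx))
  · intro z hz hδz
    obtain ⟨x, hx, hb⟩ := W.exact_δ_left ((h.zq₂ z).1 hz) ((h.br₁ _).1 hδz)
    exact ⟨x, (h.zq x).2 hx, (h.bq₂ _).2 hb⟩

/-- exactness at `H(R₁)` -/
theorem exact_R₁ : LinearMap.ker h.HiR = LinearMap.range h.Hδ := by
  refine Hmap_exact W.δ W.iR h.δ_Z h.δ_B h.iR_Z h.iR_B ?_ ?_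
  · intro z hz
    exact (h.br _).2 (W.exact_δ_right_comp ((h.zq₂ z).1 hz))
  · intro w hw hiw
    obtain ⟨z, hz, hb⟩ := W.exact_δ_right ((h.zr₁ w).1 hw) ((h.br _).1 hiw)
    exact ⟨z, (h.zq₂ z).2 hz, (h.br₁ _).2 hb⟩

/-- if `H(R₁) = 0` then `H(Q) → H(Q₂)` is surjective -/
theorem Hq_surjective (h3 : ZR₁ ≤ BR₁) : Function.Surjective h.Hq := by
  refine Hmap_surjective W.qQ h.qQ_Z h.qQ_B ?_
  intro z hz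
  obtain ⟨x, hx, hb⟩ := W.exact_δ_left ((h.zq₂ z).1 hz) ((h.br₁ _).1 (h3 (h.δ_Z z hz)))
  exact ⟨x, (h.zq x).2 hx, (h.bq₂ _).2 hb⟩

end Bridge

end LesWin

/-! ## The Euler characteristic of a nine term exact sequence -/

section Euler

variable {k : Type*} [Field k]
  {V₀ V₁ V₂ V₃ V₄ V₅ V₆ V₇ V₈ : Type*}
  [AddCommGroup V₀] [Module k V₀] [AddCommGroup V₁] [Module k V₁]
  [AddCommGroup V₂] [Module k V₂] [AddCommGroup V₃] [Module k V₃]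
  [AddCommGroup V₄] [Module k V₄] [AddCommGroup V₅] [Module k V₅]
  [AddCommGroup V₆] [Module k V₆] [AddCommGroup V₇] [Module k V₇]
  [AddCommGroup V₈] [Module k V₈]
  [Module.Finite k V₀] [Module.Finite k V₁] [Module.Finite k V₂] [Module.Finite k V₃]
  [Module.Finite k V₄] [Module.Finite k V₅] [Module.Finite k V₆] [Module.Finite k V₇]
  [Module.Finite k V₈]

/-- the alternating sum of the dimensions in an exact sequence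
`0 → V₀ → V₁ → ⋯ → V₈ → 0` vanishes -/
theorem euler_nine (f₀ : V₀ →ₗ[k] V₁) (f₁ : V₁ →ₗ[k] V₂) (f₂ : V₂ →ₗ[k] V₃) (f₃ : V₃ →ₗ[k] V₄)
    (f₄ : V₄ →ₗ[k] V₅) (f₅ : V₅ →ₗ[k] V₆) (f₆ : V₆ →ₗ[k] V₇) (f₇ : V₇ →ₗ[k] V₈)
    (h0 : Function.Injective f₀)
    (e1 : LinearMap.ker f₁ = LinearMap.range f₀) (e2 : LinearMap.ker f₂ = LinearMap.range f₁)
    (e3 : LinearMap.ker f₃ = LinearMap.range f₂) (e4 : LinearMap.ker f₄ = LinearMap.range f₃)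
    (e5 : LinearMap.ker f₅ = LinearMap.range f₄) (e6 : LinearMap.ker f₆ = LinearMap.range f₅)
    (e7 : LinearMap.ker f₇ = LinearMap.range f₆) (h8 : Function.Surjective f₇) :
    finrank k V₀ + finrank k V₂ + finrank k V₄ + finrank k V₆ + finrank k V₈ =
      finrank k V₁ + finrank k V₃ + finrank k V₅ + finrank k V₇ := by
  have r0 := LinearMap.finrank_range_add_finrank_ker f₀
  have r1 := LinearMap.finrank_range_add_finrank_ker f₁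
  have r2 := LinearMap.finrank_range_add_finrank_ker f₂
  have r3 := LinearMap.finrank_range_add_finrank_ker f₃
  have r4 := LinearMap.finrank_range_add_finrank_ker f₄
  have r5 := LinearMap.finrank_range_add_finrank_ker f₅
  have r6 := LinearMap.finrank_range_add_finrank_ker f₆
  have r7 := LinearMap.finrank_range_add_finrank_ker f₇
  rw [e1] at r1
  rw [e2] at r2
  rw [e3] at r3
  rw [e4] at r4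
  rw [e5] at r5
  rw [e6] at r6
  rw [e7] at r7
  rw [LinearMap.ker_eq_bot.2 h0, finrank_bot, add_zero] at r0
  rw [LinearMap.range_eq_top.2 h8, finrank_top] at r7
  omega

end Euler

end Fermat.Agent.P1.helper35
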