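import Fermat.Agent.S55.ABasic
import Fermat.Agent.P1.helper35_ECLes

/-!
# P1 / module EC, package EC-ADD: the three windows of the long exact sequence (helper35)

For a linearly split short exact sequence `0 → A₁ → A → A₂ → 0` of smooth representations
(`SplitSES`), the three windows `win0`, `win1`, `win2` of the short exact sequence of
level-constant cochain complexes (degrees `-1..2`, `0..3`, `1..4`).
-/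

set_option autoImplicit false

open groupCohomology

noncomputable section

namespace Fermat.Agent.P1.helper35

open Fermat.Agent.S55

variable {k G : Type} [Field k] [Group G]

/-- a short exact sequence of representations together with a linear splitting -/
structure SplitSES (A₁ A A₂ : Rep.{0} k G) where
  i : EqHom A₁ A
  q : EqHom A A₂
  s : A₂ →ₗ[k] A
  r : A →ₗ[k] A₁
  q_s : ∀ x, q.f (s x) = x
  r_i : ∀ x, r (i.f x) = x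
  q_i : ∀ x, q.f (i.f x) = 0
  i_r : ∀ x, q.f x = 0 → i.f (r x) = x

/-- post-composition of cochains with a linear map -/
def pc {A A' : Rep.{0} k G} (f : A →ₗ[k] A') (X : Type) : (X → A) →ₗ[k] (X → A') :=
  f.compLeft X

@[simp] lemma pc_apply {A A' : Rep.{0} k G} (f : A →ₗ[k] A') (X : Type) (x : X → A) (g : X) :
    pc f X x g = f (x g) := rfl

lemma pc_eq {A A' : Rep.{0} k G} (f : A →ₗ[k] A') (X : Type) (x : X → A) :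
    pc f X x = fun g => f (x g) := rfl

variable {A₁ A A₂ : Rep.{0} k G} (E : SplitSES A₁ A A₂)

namespace SplitSES

lemma pc_q_s (X : Type) (x : X → A₂) : pc E.q.f X (pc E.s X x) = x :=
  funext fun g => E.q_s (x g)

lemma pc_r_i (X : Type) (x : X → A₁) : pc E.r X (pc E.i.f X x) = x :=
  funext fun g => E.r_i (x g)

lemma pc_q_i (X : Type) (x : X → A₁) : pc E.q.f X (pc E.i.f X x) = 0 :=
  funext fun g => E.q_i (x g)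

lemma pc_i_r (X : Type) (x : X → A) (h : pc E.q.f X x = 0) : pc E.i.f X (pc E.r X x) = x :=
  funext fun g => E.i_r (x g) (congrFun h g)

lemma pc_i_injective (X : Type) : Function.Injective (pc E.i.f X) := fun x y h => by
  have := congrArg (pc E.r X) h
  rwa [E.pc_r_i, E.pc_r_i] at this

end SplitSES

variable (𝒩 : Levels G)

/-- the window in degrees `-1, 0, 1, 2` -/
def win0 (hA₁ : IsSmooth 𝒩 A₁) (hA : IsSmooth 𝒩 A) :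
    LesWin k PUnit.{1} A₁ (G → A₁) (G × G → A₁) PUnit.{1} A (G → A) (G × G → A)
      PUnit.{1} A₂ (G → A₂) where
  dP₁ := 0
  dQ₁ := (d₀₁ A₁).hom
  dR₁ := (d₁₂ A₁).hom
  dP := 0
  dQ := (d₀₁ A).hom
  dR := (d₁₂ A).hom
  dP₂ := 0
  dQ₂ := (d₀₁ A₂).hom
  CP₁ := ⊤
  CQ₁ := ⊤
  CR₁ := C1 𝒩 A₁
  CP := ⊤
  CQ := ⊤
  CR := C1 𝒩 A
  CP₂ := ⊤
  CQ₂ := ⊤
  iP := LinearMap.id
  iQ := E.i.f
  iR := pc E.i.f G
  iS := pc E.i.f (G × G)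
  qP := LinearMap.id
  qQ := E.q.f
  qR := pc E.q.f G
  sP := LinearMap.id
  sQ := E.s
  rQ := E.r
  rR := pc E.r G
  dQ_dP _ := map_zero _
  dR_dQ x := d₀₁_comp_d₁₂_apply A x
  dQ₁_dP₁ _ := map_zero _
  dR₁_dQ₁ x := d₀₁_comp_d₁₂_apply A₁ x
  dQ₂_dP₂ _ := map_zero _
  dP₁_mem _ _ := Submodule.mem_top
  dQ₁_mem x _ := d₀₁_mem_C1 hA₁ x
  dP_mem _ _ := Submodule.mem_top
  dQ_mem x _ := d₀₁_mem_C1 hA x
  dP₂_mem _ _ := Submodule.mem_top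
  iQ_dP₁ _ := map_zero _
  iR_dQ₁ x := (d₀₁_map E.i x).symm
  iS_dR₁ x := (d₁₂_map E.i x).symm
  qQ_dP _ := map_zero _
  qR_dQ x := (d₀₁_map E.q x).symm
  iP_mem _ _ := Submodule.mem_top
  iQ_mem _ _ := Submodule.mem_top
  iR_mem _ hx := map_mem_C1 E.i.f hx
  qP_mem _ _ := Submodule.mem_top
  qQ_mem _ _ := Submodule.mem_top
  sP_mem _ _ := Submodule.mem_top
  sQ_mem _ _ := Submodule.mem_top
  rQ_mem _ _ := Submodule.mem_top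
  rR_mem _ hx := map_mem_C1 E.r hx
  qP_sP _ := rfl
  qQ_sQ := E.q_s
  qQ_iQ := E.q_i
  qR_iR := E.pc_q_i G
  iQ_rQ := E.i_r
  iR_rR := E.pc_i_r G
  rR_iR := E.pc_r_i G
  iS_inj := E.pc_i_injective (G × G)

/-- the window in degrees `0, 1, 2, 3` -/
def win1 (hA₁ : IsSmooth 𝒩 A₁) (hA : IsSmooth 𝒩 A) (hA₂ : IsSmooth 𝒩 A₂) :
    LesWin k A₁ (G → A₁) (G × G → A₁) (G × G × G → A₁) A (G → A) (G × G → A) (G × G × G → A)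
      A₂ (G → A₂) (G × G → A₂) where
  dP₁ := (d₀₁ A₁).hom
  dQ₁ := (d₁₂ A₁).hom
  dR₁ := (d₂₃ A₁).hom
  dP := (d₀₁ A).hom
  dQ := (d₁₂ A).hom
  dR := (d₂₃ A).hom
  dP₂ := (d₀₁ A₂).hom
  dQ₂ := (d₁₂ A₂).hom
  CP₁ := ⊤
  CQ₁ := C1 𝒩 A₁
  CR₁ := C2 𝒩 A₁
  CP := ⊤
  CQ := C1 𝒩 A
  CR := C2 𝒩 A
  CP₂ := ⊤
  CQ₂ := C1 𝒩 A₂
  iP := E.i.f
  iQ := pc E.i.f G
  iR := pc E.i.f (G × G)
  iS := pc E.i.f (G × G × G)
  qP := E.q.f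
  qQ := pc E.q.f G
  qR := pc E.q.f (G × G)
  sP := E.s
  sQ := pc E.s G
  rQ := pc E.r G
  rR := pc E.r (G × G)
  dQ_dP x := d₀₁_comp_d₁₂_apply A x
  dR_dQ x := d₁₂_comp_d₂₃_apply A x
  dQ₁_dP₁ x := d₀₁_comp_d₁₂_apply A₁ x
  dR₁_dQ₁ x := d₁₂_comp_d₂₃_apply A₁ x
  dQ₂_dP₂ x := d₀₁_comp_d₁₂_apply A₂ x
  dP₁_mem x _ := d₀₁_mem_C1 hA₁ x
  dQ₁_mem _ hx := d₁₂_mem_C2 hA₁ hx
  dP_mem x _ := d₀₁_mem_C1 hA x
  dQ_mem _ hx := d₁₂_mem_C2 hA hx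
  dP₂_mem x _ := d₀₁_mem_C1 hA₂ x
  iQ_dP₁ x := (d₀₁_map E.i x).symm
  iR_dQ₁ x := (d₁₂_map E.i x).symm
  iS_dR₁ x := (d₂₃_map E.i x).symm
  qQ_dP x := (d₀₁_map E.q x).symm
  qR_dQ x := (d₁₂_map E.q x).symm
  iP_mem _ _ := Submodule.mem_top
  iQ_mem _ hx := map_mem_C1 E.i.f hx
  iR_mem _ hx := map_mem_C2 E.i.f hx
  qP_mem _ _ := Submodule.mem_top
  qQ_mem _ hx := map_mem_C1 E.q.f hx
  sP_mem _ _ := Submodule.mem_top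
  sQ_mem _ hx := map_mem_C1 E.s hx
  rQ_mem _ hx := map_mem_C1 E.r hx
  rR_mem _ hx := map_mem_C2 E.r hx
  qP_sP := E.q_s
  qQ_sQ := E.pc_q_s G
  qQ_iQ := E.pc_q_i G
  qR_iR := E.pc_q_i (G × G)
  iQ_rQ := E.pc_i_r G
  iR_rR := E.pc_i_r (G × G)
  rR_iR := E.pc_r_i (G × G)
  iS_inj := E.pc_i_injective (G × G × G)

/-- the window in degrees `1, 2, 3, 4` -/
def win2 (hA₁ : IsSmooth 𝒩 A₁) (hA : IsSmooth 𝒩 A) (hA₂ : IsSmooth 𝒩 A₂) :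
    LesWin k (G → A₁) (G × G → A₁) (G × G × G → A₁) (G × G × G × G → A₁)
      (G → A) (G × G → A) (G × G × G → A) (G × G × G × G → A)
      (G → A₂) (G × G → A₂) (G × G × G → A₂) where
  dP₁ := (d₁₂ A₁).hom
  dQ₁ := (d₂₃ A₁).hom
  dR₁ := d₃₄ A₁
  dP := (d₁₂ A).hom
  dQ := (d₂₃ A).hom
  dR := d₃₄ A
  dP₂ := (d₁₂ A₂).hom
  dQ₂ := (d₂₃ A₂).hom
  CP₁ := C1 𝒩 A₁
  CQ₁ := C2 𝒩 A₁
  CR₁ := C3 𝒩 A₁
  CP := C1 𝒩 A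
  CQ := C2 𝒩 A
  CR := C3 𝒩 A
  CP₂ := C1 𝒩 A₂
  CQ₂ := C2 𝒩 A₂
  iP := pc E.i.f G
  iQ := pc E.i.f (G × G)
  iR := pc E.i.f (G × G × G)
  iS := pc E.i.f (G × G × G × G)
  qP := pc E.q.f G
  qQ := pc E.q.f (G × G)
  qR := pc E.q.f (G × G × G)
  sP := pc E.s G
  sQ := pc E.s (G × G)
  rQ := pc E.r (G × G)
  rR := pc E.r (G × G × G)
  dQ_dP x := d₁₂_comp_d₂₃_apply A x
  dR_dQ x := d₃₄_d₂₃ A x
  dQ₁_dP₁ x := d₁₂_comp_d₂₃_apply A₁ x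
  dR₁_dQ₁ x := d₃₄_d₂₃ A₁ x
  dQ₂_dP₂ x := d₁₂_comp_d₂₃_apply A₂ x
  dP₁_mem _ hx := d₁₂_mem_C2 hA₁ hx
  dQ₁_mem _ hx := d₂₃_mem_C3 hA₁ hx
  dP_mem _ hx := d₁₂_mem_C2 hA hx
  dQ_mem _ hx := d₂₃_mem_C3 hA hx
  dP₂_mem _ hx := d₁₂_mem_C2 hA₂ hx
  iQ_dP₁ x := (d₁₂_map E.i x).symm
  iR_dQ₁ x := (d₂₃_map E.i x).symm
  iS_dR₁ x := (d₃₄_map E.i x).symm
  qQ_dP x := (d₁₂_map E.q x).symm
  qR_dQ x := (d₂₃_map E.q x).symm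
  iP_mem _ hx := map_mem_C1 E.i.f hx
  iQ_mem _ hx := map_mem_C2 E.i.f hx
  iR_mem _ hx := map_mem_C3 E.i.f hx
  qP_mem _ hx := map_mem_C1 E.q.f hx
  qQ_mem _ hx := map_mem_C2 E.q.f hx
  sP_mem _ hx := map_mem_C1 E.s hx
  sQ_mem _ hx := map_mem_C2 E.s hx
  rQ_mem _ hx := map_mem_C2 E.r hx
  rR_mem _ hx := map_mem_C3 E.r hx
  qP_sP := E.pc_q_s G
  qQ_sQ := E.pc_q_s (G × G)
  qQ_iQ := E.pc_q_i (G × G)
  qR_iR := E.pc_q_i (G × G × G)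
  iQ_rQ := E.pc_i_r (G × G)
  iR_rR := E.pc_i_r (G × G × G)
  rR_iR := E.pc_r_i (G × G × G)
  iS_inj := E.pc_i_injective (G × G × G × G)

/-! ## The bridges -/

lemma mem_H0_iff_d₀₁ {B : Rep.{0} k G} (a : B) : a ∈ S55.H0 B ↔ (d₀₁ B).hom a = 0 := by
  rw [← LinearMap.mem_ker, d₀₁_ker_eq_invariants]

lemma mem_bot_iff_punit {M : Type} [AddCommGroup M] [Module k M] (x : M) :
    x ∈ (⊥ : Submodule k M) ↔
      ∃ y ∈ (⊤ : Submodule k PUnit.{1}), (0 : PUnit.{1} →ₗ[k] M) y = x := by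
  rw [Submodule.mem_bot]
  constructor
  · rintro rfl
    exact ⟨PUnit.unit, Submodule.mem_top, rfl⟩
  · rintro ⟨y, -, rfl⟩
    rfl

lemma mem_B1_iff_top {B : Rep.{0} k G} (x : G → B) :
    x ∈ B1 B ↔ ∃ y ∈ (⊤ : Submodule k B), (d₀₁ B).hom y = x := by
  constructor
  · rintro ⟨y, rfl⟩
    exact ⟨y, Submodule.mem_top, rfl⟩
  · rintro ⟨y, -, rfl⟩
    exact ⟨y, rfl⟩

lemma mem_H0_iff_top {B : Rep.{0} k G} (a : B) :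
    a ∈ S55.H0 B ↔ a ∈ (⊤ : Submodule k B) ∧ (d₀₁ B).hom a = 0 := by
  rw [mem_H0_iff_d₀₁]
  exact ⟨fun h => ⟨Submodule.mem_top, h⟩, fun h => h.2⟩

lemma bridge0 (hA₁ : IsSmooth 𝒩 A₁) (hA : IsSmooth 𝒩 A) :
    (win0 E 𝒩 hA₁ hA).Bridge (S55.H0 A₁) ⊥ (S55.H0 A) ⊥ (S55.H0 A₂) ⊥ (Z1 𝒩 A₁) (B1 A₁) (Z1 𝒩 A) (B1 A) where
  zq₁ x := mem_H0_iff_top x
  bq₁ x := mem_bot_iff_punit x
  zq x := mem_H0_iff_top x
  bq x := mem_bot_iff_punit x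
  zq₂ x := mem_H0_iff_top x
  bq₂ x := mem_bot_iff_punit x
  zr₁ _ := Iff.rfl
  br₁ x := mem_B1_iff_top x
  zr _ := Iff.rfl
  br x := mem_B1_iff_top x

lemma bridge1 (hA₁ : IsSmooth 𝒩 A₁) (hA : IsSmooth 𝒩 A) (hA₂ : IsSmooth 𝒩 A₂) :
    (win1 E 𝒩 hA₁ hA hA₂).Bridge (Z1 𝒩 A₁) (B1 A₁) (Z1 𝒩 A) (B1 A) (Z1 𝒩 A₂) (B1 A₂)
      (Z2 𝒩 A₁) (B2 𝒩 A₁) (Z2 𝒩 A) (B2 𝒩 A) where
  zq₁ _ := Iff.rfl
  bq₁ x := mem_B1_iff_top x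
  zq _ := Iff.rfl
  bq x := mem_B1_iff_top x
  zq₂ _ := Iff.rfl
  bq₂ x := mem_B1_iff_top x
  zr₁ _ := Iff.rfl
  br₁ _ := Iff.rfl
  zr _ := Iff.rfl
  br _ := Iff.rfl

lemma bridge2 (hA₁ : IsSmooth 𝒩 A₁) (hA : IsSmooth 𝒩 A) (hA₂ : IsSmooth 𝒩 A₂) :
    (win2 E 𝒩 hA₁ hA hA₂).Bridge (Z2 𝒩 A₁) (B2 𝒩 A₁) (Z2 𝒩 A) (B2 𝒩 A) (Z2 𝒩 A₂) (B2 𝒩 A₂)
      (Z3 𝒩 A₁) (B3 𝒩 A₁) (Z3 𝒩 A) (B3 𝒩 A) where
  zq₁ _ := Iff.rfl
  bq₁ _ := Iff.rfl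
  zq _ := Iff.rfl
  bq _ := Iff.rfl
  zq₂ _ := Iff.rfl
  bq₂ _ := Iff.rfl
  zr₁ _ := Iff.rfl
  br₁ _ := Iff.rfl
  zr _ := Iff.rfl
  br _ := Iff.rfl

/-! ## The dimension formula -/

/-- `H⁰` as a cohomology-type quotient -/
def h0Equiv (B : Rep.{0} k G) : HQ (S55.H0 B) (⊥ : Submodule k B) ≃ₗ[k] ↥(S55.H0 B) :=
  Submodule.quotEquivOfEqBot _ (by
    rw [Submodule.comap_bot, Submodule.ker_subtype])

lemma finrank_HQ_H0 (B : Rep.{0} k G) :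
    Module.finrank k (HQ (S55.H0 B) (⊥ : Submodule k B)) = Module.finrank k ↥(S55.H0 B) :=
  (h0Equiv B).finrank_eq

include E in
/-- **The Euler characteristic of the long exact cohomology sequence**, in the presence of
`H³(A₁) = 0`. -/
theorem les_dimension (hA₁ : IsSmooth 𝒩 A₁) (hA : IsSmooth 𝒩 A) (hA₂ : IsSmooth 𝒩 A₂)
    [Module.Finite k A₁] [Module.Finite k A] [Module.Finite k A₂]
    [Module.Finite k (S55.H1 𝒩 A₁)] [Module.Finite k (S55.H1 𝒩 A)] [Module.Finite k (S55.H1 𝒩 A₂)]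
    [Module.Finite k (S55.H2 𝒩 A₁)] [Module.Finite k (S55.H2 𝒩 A)] [Module.Finite k (S55.H2 𝒩 A₂)]
    (h3 : Z3 𝒩 A₁ ≤ B3 𝒩 A₁) :
    Module.finrank k ↥(S55.H0 A₁) + Module.finrank k ↥(S55.H0 A₂) + Module.finrank k (S55.H1 𝒩 A)
        + Module.finrank k (S55.H2 𝒩 A₁) + Module.finrank k (S55.H2 𝒩 A₂) =
      Module.finrank k ↥(S55.H0 A) + Module.finrank k (S55.H1 𝒩 A₁) + Module.finrank k (S55.H1 𝒩 A₂)
        + Module.finrank k (S55.H2 𝒩 A) := by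
  have b0 := bridge0 E 𝒩 hA₁ hA
  have b1 := bridge1 E 𝒩 hA₁ hA hA₂
  have b2 := bridge2 E 𝒩 hA₁ hA hA₂
  have h0 : Function.Injective b0.Hi := by
    refine Hmap_injective _ _ _ ?_
    intro x _ hx
    rw [Submodule.mem_bot] at hx ⊢
    have := congrArg E.r hx
    rw [map_zero] at this
    rw [← this]
    exact (E.r_i x).symm
  have key := euler_nine b0.Hi b0.Hq b0.Hδ b0.HiR b1.Hq b1.Hδ b1.HiR b2.Hq h0
    b0.exact_Q b0.exact_Q₂ b0.exact_R₁ b1.exact_Q b1.exact_Q₂ b1.exact_R₁ b2.exact_Q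
    (b2.Hq_surjective h3)
  rw [finrank_HQ_H0, finrank_HQ_H0, finrank_HQ_H0] at key
  exact key

end Fermat.Agent.P1.helper35
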