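import Fermat.Agent.P1.helper63_ECDefs
import Fermat.Agent.P1.helper35_ECLesG

/-!
# P1 / module EC, package EC-ADD: the Tate defect is an additive invariant (helper35)

* `exists_splitSES`          : a short exact sequence of representations is linearly split;
* `isSmooth_of_injective`, `isSmooth_of_surjective` : sub- and quotient representations of smooth
                               representations are smooth;
* `finrank_ses`              : `dim A = dim A₁ + dim A₂`;
* `finrank_fix_ses`          : `dim A^{c=1} = dim A₁^{c=1} + dim A₂^{c=1}` for an involution `c`,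
                               `2 ≠ 0`;
* `euler_ses`                : `h¹ - h² - h⁰` is additive (from the long exact sequence,
                               `helper35_ECLesG.les_dimension`);
* **`addOut`**               : `p ≠ 2 → FinOut p T → H3Out p T → AddOut p T`.
-/

set_option autoImplicit false

open groupCohomology ExtCitation

noncomputable section

namespace Fermat.Agent.P1.helper35

open Fermat.Agent.S55 Fermat.Agent.P1.helper70 Fermat.Agent.P1.helper63

/-! ## Abstract part -/

section Abstract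

variable {k G : Type} [Field k] [Group G] {𝒩 : Levels G} {A₁ A A₂ : Rep.{0} k G}
  (i : A₁ →ₗ[k] A) (q : A →ₗ[k] A₂)

/-- a short exact sequence of representations is linearly split -/
lemma exists_splitSES (hi : ∀ s a, i (A₁.ρ s a) = A.ρ s (i a))
    (hq : ∀ s a, q (A.ρ s a) = A₂.ρ s (q a))
    (hinj : Function.Injective i) (hsurj : Function.Surjective q)
    (hex : LinearMap.range i = LinearMap.ker q) :
    Nonempty (SplitSES A₁ A A₂) := by
  obtain ⟨s, hs⟩ := q.exists_rightInverse_of_surjective (LinearMap.range_eq_top.2 hsurj)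
  obtain ⟨r, hr⟩ := i.exists_leftInverse_of_injective (LinearMap.ker_eq_bot.2 hinj)
  refine ⟨{ i := ⟨i, fun g a => hi g a⟩, q := ⟨q, fun g a => hq g a⟩, s := s, r := r,
            q_s := fun x => LinearMap.congr_fun hs x, r_i := fun x => LinearMap.congr_fun hr x,
            q_i := ?_, i_r := ?_ }⟩
  · intro x
    have h : i x ∈ LinearMap.ker q := hex ▸ LinearMap.mem_range_self i x
    exact h
  · intro x hx
    have h : x ∈ LinearMap.range i := hex ▸ (LinearMap.mem_ker.2 hx)
    obtain ⟨y, rfl⟩ := h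
    change i (r (i y)) = i y
    have := LinearMap.congr_fun hr y
    simp only [LinearMap.comp_apply, LinearMap.id_apply] at this
    rw [this]

omit q in
lemma isSmooth_of_injective (hi : ∀ s a, i (A₁.ρ s a) = A.ρ s (i a))
    (hinj : Function.Injective i) (hA : IsSmooth 𝒩 A) : IsSmooth 𝒩 A₁ := by
  obtain ⟨N, hN, h⟩ := hA
  exact ⟨N, hN, fun s hs a => hinj (by rw [hi, h s hs])⟩

omit i in
lemma isSmooth_of_surjective (hq : ∀ s a, q (A.ρ s a) = A₂.ρ s (q a))
    (hsurj : Function.Surjective q) (hA : IsSmooth 𝒩 A) : IsSmooth 𝒩 A₂ := by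
  obtain ⟨N, hN, h⟩ := hA
  refine ⟨N, hN, fun s hs a => ?_⟩
  obtain ⟨b, rfl⟩ := hsurj a
  rw [← hq, h s hs]

lemma finrank_ses [Module.Finite k A] (hinj : Function.Injective i)
    (hsurj : Function.Surjective q) (hex : LinearMap.range i = LinearMap.ker q) :
    Module.finrank k A = Module.finrank k A₁ + Module.finrank k A₂ := by
  have h := LinearMap.finrank_range_add_finrank_ker q
  rw [LinearMap.range_eq_top.2 hsurj, finrank_top, ← hex, LinearMap.finrank_range_of_inj hinj]
    at h
  omega

/-- the fixed space of an involution is additive in short exact sequences (`2 ≠ 0`) -/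
lemma finrank_fix_ses (c : G) (hc : c * c = 1) (h2 : (2 : k) ≠ 0) [Module.Finite k A]
    (hi : ∀ s a, i (A₁.ρ s a) = A.ρ s (i a)) (hq : ∀ s a, q (A.ρ s a) = A₂.ρ s (q a))
    (hinj : Function.Injective i) (hsurj : Function.Surjective q)
    (hex : LinearMap.range i = LinearMap.ker q) :
    Module.finrank k ↥(LinearMap.ker (A.ρ c - 1)) =
      Module.finrank k ↥(LinearMap.ker (A₁.ρ c - 1)) +
        Module.finrank k ↥(LinearMap.ker (A₂.ρ c - 1)) := by
  have mem : ∀ (B : Rep.{0} k G) (b : B), b ∈ LinearMap.ker (B.ρ c - 1) ↔ B.ρ c b = b := by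
    intro B b
    rw [LinearMap.mem_ker, LinearMap.sub_apply, Module.End.one_apply, sub_eq_zero]
  have hcc : ∀ x : A, A.ρ c (A.ρ c x) = x := by
    intro x
    rw [← Module.End.mul_apply, ← map_mul, hc, map_one, Module.End.one_apply]
  -- the restricted maps
  let i' : ↥(LinearMap.ker (A₁.ρ c - 1)) →ₗ[k] ↥(LinearMap.ker (A.ρ c - 1)) :=
    i.restrict (fun x hx => by
      rw [mem] at hx ⊢
      rw [← hi, hx])
  let q' : ↥(LinearMap.ker (A.ρ c - 1)) →ₗ[k] ↥(LinearMap.ker (A₂.ρ c - 1)) :=
    q.restrict (fun x hx => by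
      rw [mem] at hx ⊢
      rw [← hq, hx])
  have hi'inj : Function.Injective i' := by
    intro x y hxy
    apply Subtype.ext
    apply hinj
    exact congrArg Subtype.val hxy
  have hq'surj : Function.Surjective q' := by
    rintro ⟨a₂, ha₂⟩
    rw [mem] at ha₂
    obtain ⟨a, rfl⟩ := hsurj a₂
    have hmem : (2 : k)⁻¹ • (a + A.ρ c a) ∈ LinearMap.ker (A.ρ c - 1) := by
      rw [mem, map_smul, map_add, hcc, add_comm]
    refine ⟨⟨_, hmem⟩, Subtype.ext ?_⟩
    change q ((2 : k)⁻¹ • (a + A.ρ c a)) = q a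
    rw [map_smul, map_add, hq, ha₂, ← two_smul k (q a), smul_smul, inv_mul_cancel₀ h2, one_smul]
  have hex' : LinearMap.ker q' = LinearMap.range i' := by
    ext ⟨x, hx⟩
    rw [LinearMap.mem_ker, LinearMap.mem_range]
    constructor
    · intro h
      have hqx : q x = 0 := congrArg Subtype.val h
      have hxr : x ∈ LinearMap.range i := hex ▸ (LinearMap.mem_ker.2 hqx)
      obtain ⟨y, rfl⟩ := hxr
      have hy : y ∈ LinearMap.ker (A₁.ρ c - 1) := by
        rw [mem] at hx ⊢
        apply hinj
        rw [hi, hx]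
      exact ⟨⟨y, hy⟩, Subtype.ext rfl⟩
    · rintro ⟨⟨y, hy⟩, hyx⟩
      have hyx' : i y = x := congrArg Subtype.val hyx
      apply Subtype.ext
      change q x = 0
      rw [← hyx']
      have h : i y ∈ LinearMap.ker q := hex ▸ LinearMap.mem_range_self i y
      exact h
  have h := LinearMap.finrank_range_add_finrank_ker q'
  rw [LinearMap.range_eq_top.2 hq'surj, finrank_top, hex',
    LinearMap.finrank_range_of_inj hi'inj] at h
  omega

/-- `h¹ - h² - h⁰` is additive in short exact sequences with `H³(A₁) = 0` -/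
lemma euler_ses (hi : ∀ s a, i (A₁.ρ s a) = A.ρ s (i a))
    (hq : ∀ s a, q (A.ρ s a) = A₂.ρ s (q a))
    (hinj : Function.Injective i) (hsurj : Function.Surjective q)
    (hex : LinearMap.range i = LinearMap.ker q) [Module.Finite k A] (hA : IsSmooth 𝒩 A)
    [Module.Finite k (S55.H1 𝒩 A₁)] [Module.Finite k (S55.H1 𝒩 A)]
    [Module.Finite k (S55.H1 𝒩 A₂)]
    [Module.Finite k (S55.H2 𝒩 A₁)] [Module.Finite k (S55.H2 𝒩 A)]
    [Module.Finite k (S55.H2 𝒩 A₂)]
    (h3 : Z3 𝒩 A₁ ≤ B3 𝒩 A₁) :
    hd0 A₁ + hd0 A₂ + hd1 𝒩 A + hd2 𝒩 A₁ + hd2 𝒩 A₂ =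
      hd0 A + hd1 𝒩 A₁ + hd1 𝒩 A₂ + hd2 𝒩 A := by
  obtain ⟨E⟩ := exists_splitSES i q hi hq hinj hsurj hex
  haveI : Module.Finite k A₁ := Module.Finite.of_injective i hinj
  haveI : Module.Finite k A₂ := Module.Finite.of_surjective q hsurj
  exact les_dimension E 𝒩 (isSmooth_of_injective i hi hinj hA) hA
    (isSmooth_of_surjective q hq hsurj hA) h3

end Abstract

/-! ## The arithmetic statement -/

section Arith

variable (p : ℕ) [Fact p.Prime] (T : Finset Nat.Primes)

lemma two_ne_zero_of_ne_two (hp2 : p ≠ 2) : (2 : ZMod p) ≠ 0 := by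
  have hp : p.Prime := Fact.out
  intro h
  have h1 : ((2 : ℕ) : ZMod p) = 0 := by exact_mod_cast h
  rw [ZMod.natCast_eq_zero_iff] at h1
  exact hp2 ((Nat.prime_dvd_prime_iff_eq hp Nat.prime_two).mp h1)

/-- the Tate defect is additive in short exact sequences -/
theorem tateDefect_extAdd (hp2 : p ≠ 2) (hfin : FinOut p T) (hH3 : H3Out p T) :
    ExtAdd (galLevels T) (tateDefect p T) := by
  intro A₁ A A₂ i q hi hq hinj hsurj hex hAfin hA
  haveI : Module.Finite (ZMod p) A := hAfin
  have hA₁fin : Module.Finite (ZMod p) A₁ := Module.Finite.of_injective i hinj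
  have hA₂fin : Module.Finite (ZMod p) A₂ := Module.Finite.of_surjective q hsurj
  have hA₁ : IsSmooth (galLevels T) A₁ := isSmooth_of_injective i hi hinj hA
  have hA₂ : IsSmooth (galLevels T) A₂ := isSmooth_of_surjective q hq hsurj hA
  obtain ⟨f1, f2⟩ := hfin A hAfin hA
  obtain ⟨f1₁, f2₁⟩ := hfin A₁ hA₁fin hA₁
  obtain ⟨f1₂, f2₂⟩ := hfin A₂ hA₂fin hA₂
  have e1 := euler_ses i q hi hq hinj hsurj hex hA (hH3 A₁ hA₁fin hA₁)
  have e2 := finrank_ses i q hinj hsurj hex
  have e3 := finrank_fix_ses i q complexConjugation complexConjugation_mul_self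
    (two_ne_zero_of_ne_two p hp2) hi hq hinj hsurj hex
  unfold tateDefect realH0d realH0
  omega

/-- the zero representation -/
abbrev zeroRep (k G : Type) [Field k] [Group G] : Rep.{0} k G := Rep.trivial k G PUnit.{1}

lemma tateDefect_zeroRep : tateDefect p T (zeroRep (ZMod p) GQ) = 0 := by
  unfold tateDefect realH0d hd0 hd1 hd2
  rw [Module.finrank_zero_of_subsingleton, Module.finrank_zero_of_subsingleton,
    Module.finrank_zero_of_subsingleton, Module.finrank_zero_of_subsingleton,
    Module.finrank_zero_of_subsingleton]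
  simp

/-- the Tate defect is invariant under isomorphisms -/
theorem tateDefect_isoInv (hp2 : p ≠ 2) (hfin : FinOut p T) (hH3 : H3Out p T) :
    IsoInv (galLevels T) (tateDefect p T) := by
  intro A B e he hbij hAfin hA
  haveI : Module.Finite (ZMod p) A := hAfin
  have hBfin : Module.Finite (ZMod p) B := Module.Finite.of_surjective e hbij.2
  have hB : IsSmooth (galLevels T) B := isSmooth_of_surjective e he hbij.2 hA
  have h := tateDefect_extAdd p T hp2 hfin hH3 A B (zeroRep (ZMod p) GQ) e 0 he
    (fun _ _ => rfl) hbij.1 (fun _ => ⟨0, rfl⟩)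
    (by rw [LinearMap.range_eq_top.2 hbij.2, LinearMap.ker_zero]) hBfin hB
  rw [h, tateDefect_zeroRep, add_zero]

/-- **[EC-ADD]** the Tate defect is an additive invariant. -/
theorem addOut (hp2 : p ≠ 2) (hfin : FinOut p T) (hH3 : H3Out p T) : AddOut p T :=
  ⟨tateDefect_isoInv p T hp2 hfin hH3, tateDefect_extAdd p T hp2 hfin hH3⟩

end Arith

end Fermat.Agent.P1.helper35
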