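import Mathlib

/-!
# P1 / module SEL, package GW-A: the linear algebra behind the Greenberg–Wiles formula (helper35)

For a linear map `lam : X → V` and a bilinear form `β : V × W → k` on finite dimensional spaces
with `range lam = ker β` (the left kernel):

  `dim X + dim W = dim (ker lam) + dim V + dim (ker β.flip)`.

In the application `X = Sel_ℒ(A)`, `V = ∏_v ℒ_v`, `W = H¹(B)`, `ker lam = Ш¹(A)`,
`ker β.flip = Sel_{ℒ^⊥}(B)`.
-/

set_option autoImplicit false

open Module

namespace Fermat.Agent.P1.helper35

variable {k : Type*} [Field k] {X V W : Type*} [AddCommGroup X] [Module k X]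
  [AddCommGroup V] [Module k V] [AddCommGroup W] [Module k W]

/-- the rank of a bilinear form equals the rank of its flip -/
theorem finrank_range_flip [Module.Finite k V] [Module.Finite k W] (β : V →ₗ[k] W →ₗ[k] k) :
    finrank k (LinearMap.range β.flip) = finrank k (LinearMap.range β) := by
  have h1 : (LinearMap.ker β.flip).dualAnnihilator = LinearMap.range β.flip.flip :=
    LinearMap.dualAnnihilator_ker_eq_range_flip
  rw [LinearMap.flip_flip] at h1
  have h2 := Subspace.finrank_add_finrank_dualAnnihilator_eq (LinearMap.ker β.flip)
  have h3 := LinearMap.finrank_range_add_finrank_ker β.flip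
  rw [h1] at h2
  have h4 : finrank k (LinearMap.range β) + finrank k (LinearMap.ker β.flip)
      = finrank k (LinearMap.range β.flip) + finrank k (LinearMap.ker β.flip) := by
    rw [h3, add_comm]
    exact h2
  exact (Nat.add_right_cancel h4).symm

/-- THE LINEAR ALGEBRA OF GREENBERG–WILES. -/
theorem gw_linalg [Module.Finite k X] [Module.Finite k V] [Module.Finite k W]
    (lam : X →ₗ[k] V) (β : V →ₗ[k] W →ₗ[k] k)
    (h : LinearMap.range lam = LinearMap.ker β) :
    finrank k X + finrank k W
      = finrank k (LinearMap.ker lam) + finrank k V + finrank k (LinearMap.ker β.flip) := by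
  have h1 := LinearMap.finrank_range_add_finrank_ker lam
  have h2 := LinearMap.finrank_range_add_finrank_ker β
  have h3 := LinearMap.finrank_range_add_finrank_ker β.flip
  have h4 := finrank_range_flip β
  rw [h] at h1
  omega

end Fermat.Agent.P1.helper35
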