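import Fermat.Agent.S55.ABasic
import Fermat.Agent.P1.helper35_GWLin

/-!
# P1 / module SEL, package GW-A: abstract Greenberg–Wiles on the S55 cone (helper35)

Setting (S55 vocabulary): a group `G` with levels `𝒩`, finitely many local groups
`L : LocalData G 𝒩 ι`, an equivariant pairing `φ : X × Y → C` and a trace functional
`tr : C_c^3(C) → k` killing cone coboundaries.  (In the application `Y = M = ad⁰`,
`X = M' = M^*(1)`, `φ = evPairing' M χ`.)

* `locH L A v : H¹(G, A) → H¹(G_v, A)`, the localisation map; `sha1_eq_iInf_ker`;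
* `cupLoc`, `coneEmb₃`, `locPair` : the local cup product, the embedding of the local component
  at `v` into cone `3`-cochains, the local pairing `(y_v, x_v) ↦ tr (0, (y_v ∪ x_v) at v)`;
* `locPairH` : the induced pairing `H¹(G_v, X) × H¹(G_v, Y) → k`;
* `SelH L A ℒ` : the Selmer group of a family `ℒ v ⊆ H¹(G_v, A)`; `perp` : the orthogonal family;
* `reciprocity`, `exists_global_of_orthogonal` : the exact sequence
  `H¹(G, Y) → ⊕_v H¹(G_v, Y) → H¹(G, X)^*` (exactness in the middle is `Surj1` of the CLAIM);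
* `greenberg_wiles` :
  `dim Sel_ℒ(Y) + dim H¹(X) = dim Ш¹(Y) + ∑_v dim ℒ_v + dim Sel_{ℒ^⊥}(X)`.
-/

set_option autoImplicit false

universe u

open groupCohomology Module

noncomputable section

namespace Fermat.Agent.P1.helper35

open Fermat.Agent.S55

variable {k G : Type u} [Field k] [Group G] {𝒩 : Levels G} {ι : Type} (L : LocalData G 𝒩 ι)

/-! ## Localisation on `H¹` -/

section Loc

variable (A : Rep.{u} k G)

lemma d₁₂_res₁ (v : ι) (x : G → A) :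
    (d₁₂ (L.loc A v)).hom (res₁ L A v x) = res₂ L A v ((d₁₂ A).hom x) := by
  funext s
  simp only [d₁₂_hom_apply, res₁_apply, map_mul]
  rfl

lemma d₀₁_res (v : ι) (a : A) :
    (d₀₁ (L.loc A v)).hom a = res₁ L A v ((d₀₁ A).hom a) := by
  funext s
  rfl

variable {A}

lemma res₁_mem_Z1 {x : G → A} (hx : x ∈ Z1 𝒩 A) (v : ι) :
    res₁ L A v x ∈ Z1 (L.lev v) (L.loc A v) := by
  refine ⟨res₁_mem_C1 L hx.1 v, ?_⟩
  have h : (d₁₂ A).hom x = 0 := hx.2
  show (d₁₂ (L.loc A v)).hom (res₁ L A v x) = 0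
  rw [d₁₂_res₁, h, map_zero]

lemma res₁_mem_B1 {x : G → A} (hx : x ∈ B1 A) (v : ι) : res₁ L A v x ∈ B1 (L.loc A v) := by
  obtain ⟨a, rfl⟩ := hx
  exact ⟨a, d₀₁_res L A v a⟩

variable (A)

/-- restriction of level cocycles -/
def resZ (v : ι) : ↥(Z1 𝒩 A) →ₗ[k] ↥(Z1 (L.lev v) (L.loc A v)) :=
  (res₁ L A v).restrict fun _ hx => res₁_mem_Z1 L hx v

@[simp] lemma resZ_coe (v : ι) (x : ↥(Z1 𝒩 A)) :
    ((resZ L A v x : ↥(Z1 (L.lev v) (L.loc A v))) : L.Gv v → L.loc A v) = res₁ L A v x := rfl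

/-- **the localisation map** `H¹(G, A) → H¹(G_v, A)` -/
def locH (v : ι) : H1 𝒩 A →ₗ[k] H1 (L.lev v) (L.loc A v) :=
  Submodule.mapQ _ _ (resZ L A v) fun x hx => res₁_mem_B1 L (x := (x : G → A)) hx v

@[simp] lemma locH_mk (v : ι) (x : ↥(Z1 𝒩 A)) :
    locH L A v (Submodule.Quotient.mk x) = Submodule.Quotient.mk (resZ L A v x) := rfl

/-- the class of a level cocycle -/
def cls (x : G → A) (hx : x ∈ Z1 𝒩 A) : H1 𝒩 A := Submodule.Quotient.mk ⟨x, hx⟩

lemma cls_surjective (ξ : H1 𝒩 A) : ∃ x, ∃ hx : x ∈ Z1 𝒩 A, cls A x hx = ξ := by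
  obtain ⟨⟨x, hx⟩, rfl⟩ := Submodule.Quotient.mk_surjective _ ξ
  exact ⟨x, hx, rfl⟩

lemma cls_eq_zero_iff {x : G → A} (hx : x ∈ Z1 𝒩 A) : cls A x hx = 0 ↔ x ∈ B1 A := by
  unfold cls
  rw [Submodule.Quotient.mk_eq_zero]
  rfl

lemma cls_eq_cls_iff {x x' : G → A} (hx : x ∈ Z1 𝒩 A) (hx' : x' ∈ Z1 𝒩 A) :
    cls A x hx = cls A x' hx' ↔ x - x' ∈ B1 A := by
  unfold cls
  rw [Submodule.Quotient.eq]
  rfl

lemma locH_cls (v : ι) {x : G → A} (hx : x ∈ Z1 𝒩 A) :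
    locH L A v (cls A x hx) = cls (L.loc A v) (res₁ L A v x) (res₁_mem_Z1 L hx v) := rfl

/-- `Ш¹` is the intersection of the kernels of the localisation maps. -/
theorem sha1_eq_iInf_ker : Sha1 L A = ⨅ v, LinearMap.ker (locH L A v) := by
  ext ξ
  obtain ⟨x, hx, rfl⟩ := cls_surjective A ξ
  simp only [Submodule.mem_iInf, LinearMap.mem_ker]
  constructor
  · rintro ⟨⟨z, hz⟩, hzloc, hzx⟩ v
    have h1 : z - x ∈ B1 A := (cls_eq_cls_iff A hz hx).1 hzx
    have h2 : z ∈ LocTriv1 L A := hzloc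
    have h3 : res₁ L A v z ∈ B1 (L.loc A v) := by
      have := (Submodule.mem_iInf _).1 h2 v
      exact this
    rw [locH_cls, cls_eq_zero_iff]
    have h4 : res₁ L A v x = res₁ L A v z - res₁ L A v (z - x) := by
      rw [map_sub]; abel
    rw [h4]
    exact Submodule.sub_mem _ h3 (res₁_mem_B1 L h1 v)
  · intro h
    refine ⟨⟨x, hx⟩, ?_, rfl⟩
    show x ∈ LocTriv1 L A
    refine (Submodule.mem_iInf _).2 fun v => ?_
    have := h v
    rw [locH_cls, cls_eq_zero_iff] at this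
    exact this

end Loc

/-! ## The local cup product and the local pairing -/

section Pairing

variable [DecidableEq ι] {X Y C : Rep.{u} k G} (φ : EqPairing X Y C)

/-- the local cup product `(y ∪ x)(s, t) = φ (y s) (s • x t)` of `1`-cochains at `v` -/
def cupLoc (v : ι) : (L.Gv v → L.loc X v) →ₗ[k] (L.Gv v → L.loc Y v) →ₗ[k]
    (L.Gv v × L.Gv v → L.loc C v) :=
  LinearMap.mk₂ k (fun y x s => φ.φ (y s.1) (Y.ρ (L.r v s.1) (x s.2)))
    (fun y y' x => by funext s; simp only [Pi.add_apply, map_add, LinearMap.add_apply])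
    (fun c y x => by funext s; simp only [Pi.smul_apply, map_smul, LinearMap.smul_apply])
    (fun y x x' => by funext s; simp only [Pi.add_apply, map_add])
    (fun c y x => by funext s; simp only [Pi.smul_apply, map_smul])

@[simp] lemma cupLoc_apply (v : ι) (y : L.Gv v → L.loc X v) (x : L.Gv v → L.loc Y v)
    (s t : L.Gv v) : cupLoc L φ v y x (s, t) = φ.φ (y s) (Y.ρ (L.r v s) (x t)) := rfl

variable (C) in
/-- the local component at `v` of cone `2`-cochains -/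
def coneEmb₂ (v : ι) : (L.Gv v → L.loc C v) →ₗ[k] CcAmb2 L C :=
  (LinearMap.inr k (G × G → C) (∀ w : ι, L.Gv w → L.loc C w)).comp
    (LinearMap.single k (fun w : ι => L.Gv w → L.loc C w) v)

variable (C) in
/-- the local component at `v` of cone `3`-cochains -/
def coneEmb₃ (v : ι) : (L.Gv v × L.Gv v → L.loc C v) →ₗ[k] CcAmb3 L C :=
  (LinearMap.inr k (G × G × G → C) (∀ w : ι, L.Gv w × L.Gv w → L.loc C w)).comp
    (LinearMap.single k (fun w : ι => L.Gv w × L.Gv w → L.loc C w) v)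

@[simp] lemma coneEmb₂_fst (v : ι) (h : L.Gv v → L.loc C v) : (coneEmb₂ L C v h).1 = 0 := rfl
@[simp] lemma coneEmb₂_snd (v : ι) (h : L.Gv v → L.loc C v) :
    (coneEmb₂ L C v h).2 = Pi.single v h := rfl
@[simp] lemma coneEmb₃_fst (v : ι) (h : L.Gv v × L.Gv v → L.loc C v) :
    (coneEmb₃ L C v h).1 = 0 := rfl
@[simp] lemma coneEmb₃_snd (v : ι) (h : L.Gv v × L.Gv v → L.loc C v) :
    (coneEmb₃ L C v h).2 = Pi.single v h := rfl

lemma coneEmb₂_mem_Cc2 (v : ι) {h : L.Gv v → L.loc C v} (hh : h ∈ C1 (L.lev v) (L.loc C v)) :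
    coneEmb₂ L C v h ∈ Cc2 L C := by
  rw [mem_Cc2]
  refine ⟨(C2 𝒩 C).zero_mem, fun w => ?_⟩
  rw [coneEmb₂_snd]
  by_cases hw : w = v
  · subst hw
    rw [Pi.single_eq_same]
    exact hh
  · rw [Pi.single_eq_of_ne hw]
    exact (C1 (L.lev w) (L.loc C w)).zero_mem

lemma dc₂₃_coneEmb₂ (v : ι) (h : L.Gv v → L.loc C v) :
    dc₂₃ L C (coneEmb₂ L C v h) = - coneEmb₃ L C v ((d₁₂ (L.loc C v)).hom h) := by
  refine Prod.ext ?_ ?_
  · show (d₂₃ C).hom 0 = -0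
    rw [map_zero, neg_zero]
  · funext w
    show res₂ L C w 0
        - (d₁₂ (L.loc C w)).hom ((Pi.single v h : ∀ w : ι, L.Gv w → L.loc C w) w)
      = - (Pi.single v ((d₁₂ (L.loc C v)).hom h) : ∀ w : ι, L.Gv w × L.Gv w → L.loc C w) w
    rw [map_zero, zero_sub]
    by_cases hw : w = v
    · subst hw
      rw [Pi.single_eq_same, Pi.single_eq_same]
    · rw [Pi.single_eq_of_ne hw, Pi.single_eq_of_ne hw, map_zero]

variable (tr : CcAmb3 L C →ₗ[k] k)

/-- **the local pairing at `v`** on cochains: `(y_v, x_v) ↦ tr (0, (y_v ∪ x_v) at v)` -/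
def locPair (v : ι) : (L.Gv v → L.loc X v) →ₗ[k] (L.Gv v → L.loc Y v) →ₗ[k] k :=
  (cupLoc L φ v).compr₂ (tr ∘ₗ coneEmb₃ L C v)

lemma locPair_apply (v : ι) (y : L.Gv v → L.loc X v) (x : L.Gv v → L.loc Y v) :
    locPair L φ tr v y x = tr (coneEmb₃ L C v (cupLoc L φ v y x)) := rfl

/-- the local cup product with a coboundary on the left -/
lemma cupLoc_d₀₁_left (v : ι) (b : L.loc X v) {x : L.Gv v → L.loc Y v}
    (hx : (d₁₂ (L.loc Y v)).hom x = 0) :
    cupLoc L φ v ((d₀₁ (L.loc X v)).hom b) x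
      = (d₁₂ (L.loc C v)).hom (fun s => φ.φ b (x s)) := by
  funext s
  obtain ⟨s, t⟩ := s
  have h1 : (L.loc Y v).ρ s (x t) - x (s * t) + x s = 0 := congrFun hx (s, t)
  have h2 : x (s * t) = (L.loc Y v).ρ s (x t) + x s := by
    rw [sub_add_eq_add_sub, sub_eq_zero] at h1
    exact h1.symm
  rw [cupLoc_apply, d₁₂_hom_apply, d₀₁_hom_apply]
  show φ.φ (X.ρ (L.r v s) b - b) (Y.ρ (L.r v s) (x t))
    = C.ρ (L.r v s) (φ.φ b (x t)) - φ.φ b (x (s * t)) + φ.φ b (x s)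
  rw [h2, EqPairing.ρ_apply]
  show _ = _ - φ.φ b (Y.ρ (L.r v s) (x t) + x s) + _
  simp only [map_sub, map_add, LinearMap.sub_apply]
  abel

/-- the local cup product with a coboundary on the right -/
lemma cupLoc_d₀₁_right (v : ι) {y : L.Gv v → L.loc X v}
    (hy : (d₁₂ (L.loc X v)).hom y = 0) (a : L.loc Y v) :
    cupLoc L φ v y ((d₀₁ (L.loc Y v)).hom a)
      = - (d₁₂ (L.loc C v)).hom (fun s => φ.φ (y s) (Y.ρ (L.r v s) a)) := by
  funext s
  obtain ⟨s, t⟩ := s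
  have h1 : (L.loc X v).ρ s (y t) - y (s * t) + y s = 0 := congrFun hy (s, t)
  have h2 : y (s * t) = (L.loc X v).ρ s (y t) + y s := by
    rw [sub_add_eq_add_sub, sub_eq_zero] at h1
    exact h1.symm
  rw [cupLoc_apply, Pi.neg_apply, d₁₂_hom_apply, d₀₁_hom_apply]
  show φ.φ (y s) (Y.ρ (L.r v s) (Y.ρ (L.r v t) a - a))
    = - (C.ρ (L.r v s) (φ.φ (y t) (Y.ρ (L.r v t) a)) - φ.φ (y (s * t)) (Y.ρ (L.r v (s * t)) a)
      + φ.φ (y s) (Y.ρ (L.r v s) a))
  rw [h2, EqPairing.ρ_apply, map_mul, map_mul, Module.End.mul_apply]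
  show _ = - (_ - φ.φ (X.ρ (L.r v s) (y t) + y s) _ + _)
  simp only [map_sub, map_add, LinearMap.add_apply]
  abel

/-- `tr` kills the local component of a level coboundary -/
lemma tr_coneEmb₃_d₁₂ (htr : ∀ c ∈ Bc3 L C, tr c = 0) (v : ι) {h : L.Gv v → L.loc C v}
    (hh : h ∈ C1 (L.lev v) (L.loc C v)) :
    tr (coneEmb₃ L C v ((d₁₂ (L.loc C v)).hom h)) = 0 := by
  have h1 : coneEmb₃ L C v ((d₁₂ (L.loc C v)).hom h) = - dc₂₃ L C (coneEmb₂ L C v h) := by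
    rw [dc₂₃_coneEmb₂, neg_neg]
  rw [h1, map_neg, htr _ ⟨_, coneEmb₂_mem_Cc2 L v hh, rfl⟩, neg_zero]

/-- the local pairing kills coboundaries on the left -/
theorem locPair_d₀₁_left (htr : ∀ c ∈ Bc3 L C, tr c = 0) (v : ι) (b : L.loc X v)
    {x : L.Gv v → L.loc Y v} (hx : x ∈ Z1 (L.lev v) (L.loc Y v)) :
    locPair L φ tr v ((d₀₁ (L.loc X v)).hom b) x = 0 := by
  rw [locPair_apply, cupLoc_d₀₁_left L φ v b hx.2]
  refine tr_coneEmb₃_d₁₂ L tr htr v ?_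
  obtain ⟨N, hN, h⟩ := hx.1
  exact ⟨N, hN, fun g s hs => by simp only [h g s hs]⟩

/-- the local pairing kills coboundaries on the right -/
theorem locPair_d₀₁_right (htr : ∀ c ∈ Bc3 L C, tr c = 0) (hY : IsSmooth 𝒩 Y) (v : ι)
    {y : L.Gv v → L.loc X v} (hy : y ∈ Z1 (L.lev v) (L.loc X v)) (a : L.loc Y v) :
    locPair L φ tr v y ((d₀₁ (L.loc Y v)).hom a) = 0 := by
  rw [locPair_apply, cupLoc_d₀₁_right L φ v hy.2 a, map_neg, map_neg, neg_eq_zero]
  refine tr_coneEmb₃_d₁₂ L tr htr v ?_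
  obtain ⟨N₁, hN₁, h₁⟩ := hy.1
  obtain ⟨N₂, hN₂, h₂⟩ := isSmooth_loc L hY v
  obtain ⟨N, hN, hle⟩ := (L.lev v).directed N₁ hN₁ N₂ hN₂
  refine ⟨N, hN, fun g s hs => ?_⟩
  have e : Y.ρ (L.r v (g * s)) a = Y.ρ (L.r v g) a := by
    rw [map_mul, map_mul, Module.End.mul_apply]
    congr 1
    exact h₂ s (hle hs).2 a
  simp only [h₁ g s (hle hs).1, e]

/-! ### The pairing on local cohomology -/

/-- the local pairing restricted to cocycles -/
def locPairZ (v : ι) :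
    ↥(Z1 (L.lev v) (L.loc X v)) →ₗ[k] ↥(Z1 (L.lev v) (L.loc Y v)) →ₗ[k] k :=
  (locPair L φ tr v).domRestrict₁₂ _ _

lemma locPairZ_apply (v : ι) (y : ↥(Z1 (L.lev v) (L.loc X v)))
    (x : ↥(Z1 (L.lev v) (L.loc Y v))) :
    locPairZ L φ tr v y x = locPair L φ tr v (y : L.Gv v → L.loc X v) x := rfl

/-- the local pairing, descended in the second variable -/
def locPairH₁ (htr : ∀ c ∈ Bc3 L C, tr c = 0) (hY : IsSmooth 𝒩 Y) (v : ι) :
    H1 (L.lev v) (L.loc Y v) →ₗ[k] ↥(Z1 (L.lev v) (L.loc X v)) →ₗ[k] k :=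
  Submodule.liftQ _ (locPairZ L φ tr v).flip (by
    rintro ⟨x, hx⟩ ⟨a, ha⟩
    rw [LinearMap.mem_ker]
    refine LinearMap.ext fun y => ?_
    rw [LinearMap.flip_apply, locPairZ_apply, LinearMap.zero_apply]
    have : x = (d₀₁ (L.loc Y v)).hom a := ha.symm
    subst this
    exact locPair_d₀₁_right L φ tr htr hY v y.2 a)

/-- **the local pairing** `H¹(G_v, X) × H¹(G_v, Y) → k` -/
def locPairH (htr : ∀ c ∈ Bc3 L C, tr c = 0) (hY : IsSmooth 𝒩 Y) (v : ι) :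
    H1 (L.lev v) (L.loc X v) →ₗ[k] H1 (L.lev v) (L.loc Y v) →ₗ[k] k :=
  Submodule.liftQ _ (locPairH₁ L φ tr htr hY v).flip (by
    rintro ⟨y, hy⟩ ⟨b, hb⟩
    rw [LinearMap.mem_ker]
    refine LinearMap.ext fun ξ => ?_
    obtain ⟨⟨x, hx⟩, rfl⟩ := Submodule.Quotient.mk_surjective _ ξ
    rw [LinearMap.flip_apply, LinearMap.zero_apply]
    show locPair L φ tr v y x = 0
    have : y = (d₀₁ (L.loc X v)).hom b := hb.symm
    subst this
    exact locPair_d₀₁_left L φ tr htr v b hx)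

lemma locPairH_cls (htr : ∀ c ∈ Bc3 L C, tr c = 0) (hY : IsSmooth 𝒩 Y) (v : ι)
    {y : L.Gv v → L.loc X v} (hy : y ∈ Z1 (L.lev v) (L.loc X v))
    {x : L.Gv v → L.loc Y v} (hx : x ∈ Z1 (L.lev v) (L.loc Y v)) :
    locPairH L φ tr htr hY v (cls (L.loc X v) y hy) (cls (L.loc Y v) x hx)
      = tr (coneEmb₃ L C v (cupLoc L φ v y x)) := rfl

end Pairing

/-! ## Selmer groups -/

section Selmer

variable (A : Rep.{u} k G)

/-- **the Selmer group** of a family of local conditions `ℒ v ⊆ H¹(G_v, A)` -/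
def SelH (ℒ : ∀ v, Submodule k (H1 (L.lev v) (L.loc A v))) : Submodule k (H1 𝒩 A) :=
  ⨅ v, (ℒ v).comap (locH L A v)

variable {A}

lemma mem_SelH {ℒ : ∀ v, Submodule k (H1 (L.lev v) (L.loc A v))} {ξ : H1 𝒩 A} :
    ξ ∈ SelH L A ℒ ↔ ∀ v, locH L A v ξ ∈ ℒ v := by
  simp only [SelH, Submodule.mem_iInf, Submodule.mem_comap]

lemma sha1_le_SelH (ℒ : ∀ v, Submodule k (H1 (L.lev v) (L.loc A v))) :
    Sha1 L A ≤ SelH L A ℒ := by
  rw [sha1_eq_iInf_ker]
  intro ξ hξ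
  rw [mem_SelH]
  intro v
  have := (Submodule.mem_iInf _).1 hξ v
  rw [LinearMap.mem_ker] at this
  rw [this]
  exact (ℒ v).zero_mem

lemma SelH_mono {ℒ ℒ' : ∀ v, Submodule k (H1 (L.lev v) (L.loc A v))} (h : ∀ v, ℒ v ≤ ℒ' v) :
    SelH L A ℒ ≤ SelH L A ℒ' := fun ξ hξ =>
  (mem_SelH L).2 fun v => h v ((mem_SelH L).1 hξ v)

lemma SelH_bot : SelH L A (fun _ => ⊥) = Sha1 L A := by
  rw [sha1_eq_iInf_ker]
  rfl

lemma SelH_top : SelH L A (fun _ => ⊤) = ⊤ := by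
  ext ξ
  simp only [mem_SelH, Submodule.mem_top, implies_true]

end Selmer

/-! ## Reciprocity and exactness -/

section Exact

variable [Fintype ι] [DecidableEq ι] {X Y C : Rep.{u} k G} (φ : EqPairing X Y C)
  (tr : CcAmb3 L C →ₗ[k] k)

/-- the cone `2`-cochain `(0, (l_v)_v)` of a family of local `1`-cochains -/
def famCone (l : ∀ v, L.Gv v → L.loc Y v) : CcAmb2 L Y := (0, l)

lemma famCone_mem_Zc2 {l : ∀ v, L.Gv v → L.loc Y v} (hl : ∀ v, l v ∈ Z1 (L.lev v) (L.loc Y v)) :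
    famCone L l ∈ Zc2 L Y := by
  rw [mem_Zc2, mem_Cc2]
  refine ⟨⟨(C2 𝒩 Y).zero_mem, fun v => (hl v).1⟩, ?_⟩
  refine Prod.ext ?_ ?_
  · show (d₂₃ Y).hom 0 = 0
    rw [map_zero]
  · funext v
    show res₂ L Y v 0 - (d₁₂ (L.loc Y v)).hom (l v) = 0
    have : (d₁₂ (L.loc Y v)).hom (l v) = 0 := (hl v).2
    rw [this, map_zero, sub_zero]

/-- the cup product of a global cochain with a family of local cochains is the sum of the local
cup products (up to the sign of the cone conventions) -/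
lemma cupc₁₂_famCone (y : G → X) (l : ∀ v, L.Gv v → L.loc Y v) :
    cupc₁₂ L φ y (famCone L l)
      = - ∑ v, coneEmb₃ L C v (cupLoc L φ v (res₁ L X v y) (l v)) := by
  refine Prod.ext ?_ ?_
  · funext g
    obtain ⟨g₁, g₂, g₃⟩ := g
    rw [cupc₁₂_fst]
    show φ.φ (y g₁) (Y.ρ g₁ 0) = (- ∑ v, coneEmb₃ L C v (cupLoc L φ v (res₁ L X v y) (l v))).1 _
    rw [Prod.fst_neg, Prod.fst_sum]
    simp only [coneEmb₃_fst, Finset.sum_const_zero, neg_zero, map_zero, Pi.zero_apply]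
  · funext w s
    obtain ⟨s, t⟩ := s
    rw [cupc₁₂_snd]
    show - φ.φ (y (L.r w s)) (Y.ρ (L.r w s) (l w t))
      = (- ∑ v, coneEmb₃ L C v (cupLoc L φ v (res₁ L X v y) (l v))).2 w (s, t)
    rw [Prod.snd_neg, Prod.snd_sum]
    simp only [coneEmb₃_snd, Pi.neg_apply, Finset.sum_apply]
    rw [Finset.sum_eq_single w]
    · rw [Pi.single_eq_same]
      rfl
    · intro v _ hv
      rw [Pi.single_eq_of_ne hv.symm]
      rfl
    · intro h
      exact absurd (Finset.mem_univ w) h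

lemma tr_cupc₁₂_famCone (y : G → X) (l : ∀ v, L.Gv v → L.loc Y v) :
    tr (cupc₁₂ L φ y (famCone L l)) = - ∑ v, locPair L φ tr v (res₁ L X v y) (l v) := by
  rw [cupc₁₂_famCone, map_neg, map_sum]
  rfl

/-- RECIPROCITY: the sum of the local pairings of two global classes vanishes. -/
theorem reciprocity (htr : ∀ c ∈ Bc3 L C, tr c = 0) (hY : IsSmooth 𝒩 Y)
    {y : G → X} (hy : y ∈ Z1 𝒩 X) {x : G → Y} (hx : x ∈ Z1 𝒩 Y) :
    ∑ v, locPair L φ tr v (res₁ L X v y) (res₁ L Y v x) = 0 := by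
  have h1 : famCone L (fun v => res₁ L Y v x) = dc₁₂ L Y (x, 0) := by
    refine Prod.ext ?_ ?_
    · exact (show (d₁₂ Y).hom x = 0 from hx.2).symm
    · funext v
      show res₁ L Y v x = res₁ L Y v x - (d₀₁ (L.loc Y v)).hom 0
      rw [map_zero, sub_zero]
  have h2 := tr_cupc₁₂_famCone L φ tr y (fun v => res₁ L Y v x)
  rw [h1, htr _ (cupc₁₂_dc₁₂_mem_Bc3 L φ hY hy ((mem_Cc1 L).2 hx.1))] at h2
  exact neg_eq_zero.1 h2.symm

/-- EXACTNESS (from `Surj1` of the CLAIM): a cone `2`-cocycle orthogonal to all global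
`1`-cocycles of `X` is a cone coboundary. -/
theorem mem_Bc2_of_orthogonal (hsurj : Surj1 L φ tr) {z : CcAmb2 L Y} (hz : z ∈ Zc2 L Y)
    (h : ∀ y ∈ Z1 𝒩 X, tr (cupc₁₂ L φ y z) = 0) : z ∈ Bc2 L Y := by
  by_contra hn
  obtain ⟨ψ, hψz, hψ⟩ := Submodule.exists_le_ker_of_notMem hn
  obtain ⟨y, hy, hyψ⟩ := hsurj ψ (fun w hw => hψ hw)
  exact hψz ((hyψ z hz).trans (h y hy))

/-- EXACTNESS in the middle of `H¹(G, Y) → ⊕_v H¹(G_v, Y) → H¹(G, X)^*`: a family of local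
cocycles orthogonal to all global classes of `X` comes from a global cocycle, modulo local
coboundaries. -/
theorem exists_global_of_orthogonal (hsurj : Surj1 L φ tr)
    {l : ∀ v, L.Gv v → L.loc Y v} (hl : ∀ v, l v ∈ Z1 (L.lev v) (L.loc Y v))
    (h : ∀ y ∈ Z1 𝒩 X, ∑ v, locPair L φ tr v (res₁ L X v y) (l v) = 0) :
    ∃ x ∈ Z1 𝒩 Y, ∀ v, res₁ L Y v x - l v ∈ B1 (L.loc Y v) := by
  have hz := mem_Bc2_of_orthogonal L φ tr hsurj (famCone_mem_Zc2 L hl) (fun y hy => by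
    rw [tr_cupc₁₂_famCone, h y hy, neg_zero])
  obtain ⟨w, hw, hwz⟩ := hz
  have h1 : (d₁₂ Y).hom w.1 = 0 := congrArg Prod.fst hwz
  have h2 : ∀ v, res₁ L Y v w.1 - (d₀₁ (L.loc Y v)).hom (w.2 v) = l v := fun v =>
    congrFun (congrArg Prod.snd hwz) v
  refine ⟨w.1, ⟨(mem_Cc1 L).1 hw, h1⟩, fun v => ⟨w.2 v, ?_⟩⟩
  rw [← h2 v]
  abel

end Exact

/-! ## The Greenberg–Wiles formula -/

section Main

variable [Fintype ι] [DecidableEq ι] {X Y C : Rep.{u} k G} (φ : EqPairing X Y C)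
  (tr : CcAmb3 L C →ₗ[k] k) (htr : ∀ c ∈ Bc3 L C, tr c = 0) (hY : IsSmooth 𝒩 Y)
  (ℒ : ∀ v, Submodule k (H1 (L.lev v) (L.loc Y v)))

/-- **the orthogonal local conditions** `ℒ_v^⊥ ⊆ H¹(G_v, X)` -/
def perp (v : ι) : Submodule k (H1 (L.lev v) (L.loc X v)) :=
  LinearMap.ker ((locPairH L φ tr htr hY v).compl₂ (ℒ v).subtype)

lemma mem_perp {v : ι} {η : H1 (L.lev v) (L.loc X v)} :
    η ∈ perp L φ tr htr hY ℒ v ↔ ∀ ξ ∈ ℒ v, locPairH L φ tr htr hY v η ξ = 0 := by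
  unfold perp
  rw [LinearMap.mem_ker]
  constructor
  · intro h ξ hξ
    exact LinearMap.congr_fun h ⟨ξ, hξ⟩
  · intro h
    refine LinearMap.ext fun ξ => ?_
    exact h ξ.1 ξ.2

/-- the global pairing `(∏_v ℒ_v) × H¹(G, X) → k`, `(ξ, η) ↦ ∑_v ⟨loc_v η, ξ_v⟩_v` -/
def gwPair : (∀ v, ↥(ℒ v)) →ₗ[k] H1 𝒩 X →ₗ[k] k :=
  ∑ v, ((((locPairH L φ tr htr hY v).comp (locH L X v)).flip).comp (ℒ v).subtype).comp
    (LinearMap.proj v)

lemma gwPair_apply (ξ : ∀ v, ↥(ℒ v)) (η : H1 𝒩 X) :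
    gwPair L φ tr htr hY ℒ ξ η
      = ∑ v, locPairH L φ tr htr hY v (locH L X v η) (ξ v : H1 (L.lev v) (L.loc Y v)) := by
  unfold gwPair
  rw [LinearMap.sum_apply, LinearMap.sum_apply]
  rfl

/-- the localisation of Selmer classes -/
def selLoc : ↥(SelH L Y ℒ) →ₗ[k] ∀ v, ↥(ℒ v) :=
  LinearMap.pi fun v =>
    ((locH L Y v).comp (SelH L Y ℒ).subtype).codRestrict (ℒ v) fun ξ => (mem_SelH L).1 ξ.2 v

@[simp] lemma selLoc_apply (ξ : ↥(SelH L Y ℒ)) (v : ι) :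
    ((selLoc L ℒ ξ v : ↥(ℒ v)) : H1 (L.lev v) (L.loc Y v)) = locH L Y v ξ := rfl

lemma ker_selLoc : LinearMap.ker (selLoc L ℒ) = (Sha1 L Y).comap (SelH L Y ℒ).subtype := by
  ext ξ
  rw [LinearMap.mem_ker, Submodule.mem_comap, sha1_eq_iInf_ker, Submodule.mem_iInf]
  constructor
  · intro h v
    rw [LinearMap.mem_ker]
    have := congrArg (fun f => ((f v : ↥(ℒ v)) : H1 (L.lev v) (L.loc Y v))) h
    exact this
  · intro h
    funext v
    apply Subtype.ext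
    have := h v
    rw [LinearMap.mem_ker] at this
    exact this

lemma finrank_ker_selLoc :
    finrank k (LinearMap.ker (selLoc L ℒ)) = finrank k (Sha1 L Y) := by
  rw [ker_selLoc]
  exact (Submodule.comapSubtypeEquivOfLe (sha1_le_SelH L ℒ)).finrank_eq

lemma range_selLoc (hsurj : Surj1 L φ tr) :
    LinearMap.range (selLoc L ℒ) = LinearMap.ker (gwPair L φ tr htr hY ℒ) := by
  ext ξ
  rw [LinearMap.mem_range, LinearMap.mem_ker]
  constructor
  · rintro ⟨⟨x, hx⟩, rfl⟩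
    refine LinearMap.ext fun η => ?_
    rw [gwPair_apply, LinearMap.zero_apply]
    obtain ⟨x₀, hx₀, rfl⟩ := cls_surjective Y x
    obtain ⟨y₀, hy₀, rfl⟩ := cls_surjective X η
    exact reciprocity L φ tr htr hY hy₀ hx₀
  · intro h
    have hrep : ∀ v, ∃ l : L.Gv v → L.loc Y v, ∃ hl : l ∈ Z1 (L.lev v) (L.loc Y v),
        cls (L.loc Y v) l hl = (ξ v : H1 (L.lev v) (L.loc Y v)) := fun v =>
      cls_surjective (L.loc Y v) _
    choose l hl hlξ using hrep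
    have hort : ∀ y ∈ Z1 𝒩 X, ∑ v, locPair L φ tr v (res₁ L X v y) (l v) = 0 := by
      intro y hy
      have := LinearMap.congr_fun h (cls X y hy)
      rw [gwPair_apply, LinearMap.zero_apply] at this
      rw [← this]
      refine Finset.sum_congr rfl fun v _ => ?_
      rw [← hlξ v, locH_cls, locPairH_cls]
      rfl
    obtain ⟨x, hx, hxl⟩ := exists_global_of_orthogonal L φ tr hsurj hl hort
    have hloc : ∀ v, locH L Y v (cls Y x hx) = (ξ v : H1 (L.lev v) (L.loc Y v)) := by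
      intro v
      rw [locH_cls, ← hlξ v, cls_eq_cls_iff]
      exact hxl v
    have hmem : cls Y x hx ∈ SelH L Y ℒ := by
      rw [mem_SelH]
      intro v
      rw [hloc v]
      exact (ξ v).2
    refine ⟨⟨cls Y x hx, hmem⟩, ?_⟩
    funext v
    apply Subtype.ext
    exact hloc v

lemma ker_gwPair_flip :
    LinearMap.ker (gwPair L φ tr htr hY ℒ).flip = SelH L X (perp L φ tr htr hY ℒ) := by
  ext η
  rw [LinearMap.mem_ker, mem_SelH]
  constructor
  · intro h v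
    rw [mem_perp]
    intro ξ hξ
    have := LinearMap.congr_fun h (Pi.single v ⟨ξ, hξ⟩)
    rw [LinearMap.flip_apply, gwPair_apply, LinearMap.zero_apply,
      Finset.sum_eq_single v] at this
    · rw [Pi.single_eq_same] at this
      exact this
    · intro w _ hw
      rw [Pi.single_eq_of_ne hw]
      exact map_zero _
    · intro hv
      exact absurd (Finset.mem_univ v) hv
  · intro h
    refine LinearMap.ext fun ξ => ?_
    rw [LinearMap.flip_apply, gwPair_apply, LinearMap.zero_apply]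
    refine Finset.sum_eq_zero fun v _ => ?_
    exact (mem_perp L φ tr htr hY ℒ).1 (h v) _ (ξ v).2

/-- **GREENBERG–WILES** (package GW-A): for local conditions `ℒ v ⊆ H¹(G_v, Y)`,
`dim Sel_ℒ(Y) + dim H¹(G, X) = dim Ш¹(Y) + ∑_v dim ℒ_v + dim Sel_{ℒ^⊥}(X)`. -/
theorem greenberg_wiles (hsurj : Surj1 L φ tr)
    [Module.Finite k (H1 𝒩 Y)] [Module.Finite k (H1 𝒩 X)] [∀ v, Module.Finite k ↥(ℒ v)] :
    finrank k ↥(SelH L Y ℒ) + finrank k (H1 𝒩 X)
      = finrank k ↥(Sha1 L Y) + ∑ v, finrank k ↥(ℒ v)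
        + finrank k ↥(SelH L X (perp L φ tr htr hY ℒ)) := by
  letI : AddCommGroup (∀ v, ↥(ℒ v)) :=
    @Pi.addCommGroup ι (fun v => ↥(ℒ v)) (fun v => inferInstance)
  have h := gw_linalg (k := k) (X := ↥(SelH L Y ℒ)) (V := ∀ v, ↥(ℒ v)) (W := H1 𝒩 X)
    (selLoc L ℒ) (gwPair L φ tr htr hY ℒ) (range_selLoc L φ tr htr hY ℒ hsurj)
  have hpi : finrank k (∀ v, ↥(ℒ v)) = ∑ v, finrank k ↥(ℒ v) :=
    @Module.finrank_pi_fintype k _ _ ι _ (fun v => ↥(ℒ v)) (fun v => inferInstance)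
      (fun v => inferInstance) (fun v => inferInstance) (fun v => inferInstance)
  rw [finrank_ker_selLoc, ker_gwPair_flip, hpi] at h
  exact h

end Main

end Fermat.Agent.P1.helper35
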