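import Fermat.Agent.P1.helper2_GTAbs

set_option autoImplicit false

open Matrix

namespace Fermat.Agent.P1.helper3

section Lin

variable {K : Type*} [Field K]

lemma gta_apply_11 {X : Matrix (Fin 2) (Fin 2) K} (hX : X.trace = 0) : X 1 1 = -X 0 0 := by
  rw [Matrix.trace_fin_two] at hX
  linear_combination hX

lemma gta_vec_ne_zero {v : Fin 2 → K} (hv : v ≠ 0) : v 0 ≠ 0 ∨ v 1 ≠ 0 := by
  by_contra h
  push Not at h
  apply hv
  funext i
  fin_cases i
  · exact h.1
  · exact h.2

lemma gta_mat_ne_zero {X : Matrix (Fin 2) (Fin 2) K} (hX : X.trace = 0) (hX0 : X ≠ 0) :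
    X 0 0 ≠ 0 ∨ X 0 1 ≠ 0 ∨ X 1 0 ≠ 0 := by
  by_contra h
  push Not at h
  apply hX0
  ext i j
  fin_cases i <;> fin_cases j
  · exact h.1
  · exact h.2.1
  · exact h.2.2
  · simp only [Fin.mk_one, Fin.isValue, Matrix.zero_apply]
    rw [gta_apply_11 hX, h.1, neg_zero]

/-- The kernel of a nonzero `2 × 2` matrix is at most a line. -/
lemma gta_ker_line {M : Matrix (Fin 2) (Fin 2) K} (hM : M ≠ 0) {v u : Fin 2 → K} (hv : v ≠ 0)
    (hMv : M *ᵥ v = 0) (hMu : M *ᵥ u = 0) : ∃ a : K, u = a • v := by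
  have hv0 := congrFun hMv 0
  have hv1 := congrFun hMv 1
  have hu0 := congrFun hMu 0
  have hu1 := congrFun hMu 1
  simp only [Matrix.mulVec, dotProduct, Fin.sum_univ_two, Pi.zero_apply] at hv0 hv1 hu0 hu1
  have hdet : u 0 * v 1 - u 1 * v 0 = 0 := by
    by_contra hd
    apply hM
    ext i j
    fin_cases i <;> fin_cases j
    · simp only [Fin.zero_eta, Fin.isValue, Matrix.zero_apply]
      have : M 0 0 * (u 0 * v 1 - u 1 * v 0) = 0 := by linear_combination v 1 * hu0 - u 1 * hv0
      rcases mul_eq_zero.1 this with h | h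
      · exact h
      · exact absurd h hd
    · simp only [Fin.zero_eta, Fin.mk_one, Fin.isValue, Matrix.zero_apply]
      have : M 0 1 * (u 0 * v 1 - u 1 * v 0) = 0 := by linear_combination u 0 * hv0 - v 0 * hu0
      rcases mul_eq_zero.1 this with h | h
      · exact h
      · exact absurd h hd
    · simp only [Fin.zero_eta, Fin.mk_one, Fin.isValue, Matrix.zero_apply]
      have : M 1 0 * (u 0 * v 1 - u 1 * v 0) = 0 := by linear_combination v 1 * hu1 - u 1 * hv1
      rcases mul_eq_zero.1 this with h | h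
      · exact h
      · exact absurd h hd
    · simp only [Fin.mk_one, Fin.isValue, Matrix.zero_apply]
      have : M 1 1 * (u 0 * v 1 - u 1 * v 0) = 0 := by linear_combination u 0 * hv1 - v 0 * hu1
      rcases mul_eq_zero.1 this with h | h
      · exact h
      · exact absurd h hd
  rcases gta_vec_ne_zero hv with h0 | h1
  · refine ⟨u 0 / v 0, ?_⟩
    funext i
    fin_cases i
    · simp only [Fin.zero_eta, Pi.smul_apply, smul_eq_mul]
      field_simp
    · simp only [Fin.mk_one, Pi.smul_apply, smul_eq_mul]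
      field_simp
      linear_combination -hdet
  · refine ⟨u 1 / v 1, ?_⟩
    funext i
    fin_cases i
    · simp only [Fin.zero_eta, Pi.smul_apply, smul_eq_mul]
      field_simp
      linear_combination hdet
    · simp only [Fin.mk_one, Pi.smul_apply, smul_eq_mul]
      field_simp

/-- A trace zero `2 × 2` matrix squares to a scalar. -/
lemma gta_sq {X : Matrix (Fin 2) (Fin 2) K} (hX : X.trace = 0) :
    X * X = (X 0 0 ^ 2 + X 0 1 * X 1 0) • (1 : Matrix (Fin 2) (Fin 2) K) := by
  have h11 := gta_apply_11 hX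
  ext i j
  fin_cases i <;> fin_cases j <;>
    simp [Matrix.mul_apply, Fin.sum_univ_two, h11] <;> ring

/-- Proportionality from vanishing minors. -/
lemma gta_prop {X Y : Matrix (Fin 2) (Fin 2) K} (hX : X.trace = 0) (hY : Y.trace = 0)
    (hX0 : X ≠ 0) (m₁ : X 0 1 * Y 1 0 - X 1 0 * Y 0 1 = 0)
    (m₂ : X 0 0 * Y 0 1 - X 0 1 * Y 0 0 = 0) (m₃ : X 1 0 * Y 0 0 - X 0 0 * Y 1 0 = 0) :
    ∃ χ : K, Y = χ • X := by
  have hX11 := gta_apply_11 hX
  have hY11 := gta_apply_11 hY
  rcases gta_mat_ne_zero hX hX0 with h | h | h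
  · refine ⟨Y 0 0 / X 0 0, ?_⟩
    ext i j
    fin_cases i <;> fin_cases j <;>
      simp only [Fin.zero_eta, Fin.mk_one, Fin.isValue, Matrix.smul_apply, smul_eq_mul, hX11, hY11]
        <;> field_simp
    · linear_combination m₂
    · linear_combination -m₃
  · refine ⟨Y 0 1 / X 0 1, ?_⟩
    ext i j
    fin_cases i <;> fin_cases j <;>
      simp only [Fin.zero_eta, Fin.mk_one, Fin.isValue, Matrix.smul_apply, smul_eq_mul, hX11, hY11]
        <;> field_simp
    · linear_combination -m₂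
    · linear_combination m₁
    · linear_combination m₂
  · refine ⟨Y 1 0 / X 1 0, ?_⟩
    ext i j
    fin_cases i <;> fin_cases j <;>
      simp only [Fin.zero_eta, Fin.mk_one, Fin.isValue, Matrix.smul_apply, smul_eq_mul, hX11, hY11]
        <;> field_simp
    · linear_combination m₃
    · linear_combination -m₁
    · linear_combination -m₃

lemma gta_comm_apply_00 {X Y : Matrix (Fin 2) (Fin 2) K} :
    (X * Y - Y * X) 0 0 = X 0 1 * Y 1 0 - X 1 0 * Y 0 1 := by
  simp only [Matrix.sub_apply, Matrix.mul_apply, Fin.sum_univ_two]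
  ring

lemma gta_comm_apply_01 {X Y : Matrix (Fin 2) (Fin 2) K} (hX : X.trace = 0) (hY : Y.trace = 0) :
    (X * Y - Y * X) 0 1 = 2 * (X 0 0 * Y 0 1 - X 0 1 * Y 0 0) := by
  simp only [Matrix.sub_apply, Matrix.mul_apply, Fin.sum_univ_two, gta_apply_11 hX,
    gta_apply_11 hY]
  ring

lemma gta_comm_apply_10 {X Y : Matrix (Fin 2) (Fin 2) K} (hX : X.trace = 0) (hY : Y.trace = 0) :
    (X * Y - Y * X) 1 0 = 2 * (X 1 0 * Y 0 0 - X 0 0 * Y 1 0) := by
  simp only [Matrix.sub_apply, Matrix.mul_apply, Fin.sum_univ_two, gta_apply_11 hX,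
    gta_apply_11 hY]
  ring

lemma gta_comm_trace (X Y : Matrix (Fin 2) (Fin 2) K) : (X * Y - Y * X).trace = 0 := by
  rw [Matrix.trace_sub, Matrix.trace_mul_comm, sub_self]

lemma gta_trace_mul {X Y : Matrix (Fin 2) (Fin 2) K} (hX : X.trace = 0) (hY : Y.trace = 0) :
    (X * Y).trace = 2 * X 0 0 * Y 0 0 + X 0 1 * Y 1 0 + X 1 0 * Y 0 1 := by
  simp only [Matrix.trace_fin_two, Matrix.mul_apply, Fin.sum_univ_two, gta_apply_11 hX,
    gta_apply_11 hY]
  ring

/-- Commuting trace zero matrices are proportional. -/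
lemma gta_comm_zero (h2 : (2 : K) ≠ 0) {X Y : Matrix (Fin 2) (Fin 2) K} (hX : X.trace = 0)
    (hY : Y.trace = 0) (hX0 : X ≠ 0) (h : X * Y - Y * X = 0) : ∃ χ : K, Y = χ • X := by
  have h00 := gta_comm_apply_00 (X := X) (Y := Y)
  have h01 := gta_comm_apply_01 hX hY
  have h10 := gta_comm_apply_10 hX hY
  rw [h] at h00 h01 h10
  simp only [Matrix.zero_apply] at h00 h01 h10
  refine gta_prop hX hY hX0 h00.symm ?_ ?_
  · rcases mul_eq_zero.1 h01.symm with h' | h'
    · exact absurd h' h2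
    · exact h'
  · rcases mul_eq_zero.1 h10.symm with h' | h'
    · exact absurd h' h2
    · exact h'

/-- A trace zero matrix orthogonal (for the trace form) to `X` and `Y` is proportional to the
commutator of `X` and `Y`. -/
lemma gta_orth {X Y Z : Matrix (Fin 2) (Fin 2) K} (hX : X.trace = 0)
    (hY : Y.trace = 0) (hZ : Z.trace = 0) (h0 : X * Y - Y * X ≠ 0)
    (hZX : (Z * X).trace = 0) (hZY : (Z * Y).trace = 0) :
    ∃ χ : K, Z = χ • (X * Y - Y * X) := by
  rw [gta_trace_mul hZ hX] at hZX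
  rw [gta_trace_mul hZ hY] at hZY
  refine gta_prop (gta_comm_trace X Y) hZ h0 ?_ ?_ ?_
  · rw [gta_comm_apply_01 hX hY, gta_comm_apply_10 hX hY]
    linear_combination (2 * X 0 0) * hZY - (2 * Y 0 0) * hZX
  · rw [gta_comm_apply_00, gta_comm_apply_01 hX hY]
    linear_combination X 0 1 * hZY - Y 0 1 * hZX
  · rw [gta_comm_apply_00, gta_comm_apply_10 hX hY]
    linear_combination X 1 0 * hZY - Y 1 0 * hZX

/-- Cramer's rule in the trace zero matrices. -/
lemma gta_cramer {X Y T U : Matrix (Fin 2) (Fin 2) K} (hX : X.trace = 0)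
    (hY : Y.trace = 0) (hT : T.trace = 0) (hU : U.trace = 0) :
    ((X * Y - Y * X) * T).trace • U = ((Y * T - T * Y) * U).trace • X
      + ((T * X - X * T) * U).trace • Y + ((X * Y - Y * X) * U).trace • T := by
  rw [gta_trace_mul (gta_comm_trace X Y) hT, gta_trace_mul (gta_comm_trace Y T) hU,
    gta_trace_mul (gta_comm_trace T X) hU, gta_trace_mul (gta_comm_trace X Y) hU]
  simp only [gta_comm_apply_00, gta_comm_apply_01 hX hY, gta_comm_apply_10 hX hY,
    gta_comm_apply_01 hY hT, gta_comm_apply_10 hY hT, gta_comm_apply_01 hT hX,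
    gta_comm_apply_10 hT hX]
  have hX11 := gta_apply_11 hX
  have hY11 := gta_apply_11 hY
  have hT11 := gta_apply_11 hT
  have hU11 := gta_apply_11 hU
  ext i j
  fin_cases i <;> fin_cases j <;>
    simp only [Fin.zero_eta, Fin.mk_one, Fin.isValue, Matrix.smul_apply, Matrix.add_apply,
      smul_eq_mul, hX11, hY11, hT11, hU11] <;> ring


/-- Existence of an eigenvector for a square root of `X * X`. -/
lemma gta_exists_eigen (h2 : (2 : K) ≠ 0) {X : Matrix (Fin 2) (Fin 2) K} (hX : X.trace = 0)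
    (hX0 : X ≠ 0) (s : K) (hs : X * X = (s * s) • (1 : Matrix (Fin 2) (Fin 2) K)) :
    ∃ v : Fin 2 → K, v ≠ 0 ∧ X *ᵥ v = s • v := by
  have hN : X + s • (1 : Matrix (Fin 2) (Fin 2) K) ≠ 0 := by
    intro h
    have ht := congrArg Matrix.trace h
    rw [Matrix.trace_add, hX, Matrix.trace_smul, Matrix.trace_one, Fintype.card_fin, zero_add,
      Matrix.trace_zero, smul_eq_mul] at ht
    have hs0 : s = 0 := by
      rcases mul_eq_zero.1 ht with h' | h'
      · exact h'
      · exact absurd (by exact_mod_cast h') h2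
    rw [hs0, zero_smul, add_zero] at h
    exact hX0 h
  have hXN : X * (X + s • (1 : Matrix (Fin 2) (Fin 2) K))
      = s • (X + s • (1 : Matrix (Fin 2) (Fin 2) K)) := by
    rw [Matrix.mul_add, hs, Matrix.mul_smul, Matrix.mul_one, smul_add, smul_smul, add_comm]
  have hex : ∃ j : Fin 2, (X + s • (1 : Matrix (Fin 2) (Fin 2) K)) *ᵥ (Pi.single j 1) ≠ 0 := by
    by_contra hcon
    push Not at hcon
    apply hN
    ext i j
    have := congrFun (hcon j) i
    rw [Matrix.mulVec_single_one] at this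
    simpa using this
  obtain ⟨j, hj⟩ := hex
  refine ⟨_, hj, ?_⟩
  rw [Matrix.mulVec_mulVec, hXN, Matrix.smul_mulVec]

lemma gta_sub_smul_ne_zero (h2 : (2 : K) ≠ 0) {X : Matrix (Fin 2) (Fin 2) K} (hX : X.trace = 0)
    (hX0 : X ≠ 0) (s : K) : X - s • (1 : Matrix (Fin 2) (Fin 2) K) ≠ 0 := by
  intro h
  have ht := congrArg Matrix.trace h
  rw [Matrix.trace_sub, hX, Matrix.trace_smul, Matrix.trace_one, Fintype.card_fin, zero_sub,
    Matrix.trace_zero, smul_eq_mul, neg_eq_zero] at ht
  have hs0 : s = 0 := by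
    rcases mul_eq_zero.1 ht with h' | h'
    · exact h'
    · exact absurd (by exact_mod_cast h') h2
  rw [hs0, zero_smul, sub_zero] at h
  exact hX0 h

lemma gta_cancel_right (u : GL (Fin 2) K) {M : Matrix (Fin 2) (Fin 2) K}
    (h : M * (u : Matrix (Fin 2) (Fin 2) K) = 0) : M = 0 := by
  have := congrArg (fun N => N * ((u⁻¹ : GL (Fin 2) K) : Matrix (Fin 2) (Fin 2) K)) h
  simpa [Matrix.mul_assoc] using this

lemma gta_cancel_left (u : GL (Fin 2) K) {M : Matrix (Fin 2) (Fin 2) K}
    (h : (u : Matrix (Fin 2) (Fin 2) K) * M = 0) : M = 0 := by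
  have := congrArg (fun N => ((u⁻¹ : GL (Fin 2) K) : Matrix (Fin 2) (Fin 2) K) * N) h
  simpa [← Matrix.mul_assoc] using this

/-- conjugation relation, without inverses -/
lemma gta_conj_iff (u : GL (Fin 2) K) (X Y : Matrix (Fin 2) (Fin 2) K) :
    (u : Matrix (Fin 2) (Fin 2) K) * X * ((u⁻¹ : GL (Fin 2) K) : Matrix (Fin 2) (Fin 2) K) = Y ↔
      (u : Matrix (Fin 2) (Fin 2) K) * X = Y * (u : Matrix (Fin 2) (Fin 2) K) := by
  constructor
  · intro h
    rw [← h, Matrix.mul_assoc, ← Units.val_mul, inv_mul_cancel, Units.val_one, Matrix.mul_one]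
  · intro h
    rw [h, Matrix.mul_assoc, ← Units.val_mul, mul_inv_cancel, Units.val_one, Matrix.mul_one]

lemma gta_trace_conj (u : GL (Fin 2) K) (X : Matrix (Fin 2) (Fin 2) K) :
    ((u : Matrix (Fin 2) (Fin 2) K) * X *
      ((u⁻¹ : GL (Fin 2) K) : Matrix (Fin 2) (Fin 2) K)).trace = X.trace := by
  rw [Matrix.trace_mul_cycle, ← Units.val_mul, inv_mul_cancel, Units.val_one, Matrix.one_mul]

end Lin

section Main

open Fermat.Agent.P1.helper2

variable {k : Type} [Field k] {G : Type} [Group G]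

/-- **Key lemma**: no line of trace zero matrices is stable under conjugation by `ρ(G)`. -/
lemma gta_no_line (h2 : (2 : k) ≠ 0) (ρ : G →* GL (Fin 2) k) (hirr : NoStableLine ρ ⊤)
    (hirr₂ : ∀ H : Subgroup G, H.index = 2 → NoStableLine ρ H)
    {X : Matrix (Fin 2) (Fin 2) k} (hX : X.trace = 0)
    (hstab : ∀ g : G, ∃ χ : k, (ρ g : Matrix (Fin 2) (Fin 2) k) * X
      = χ • (X * (ρ g : Matrix (Fin 2) (Fin 2) k))) : X = 0 := by
  by_contra hX0
  set φ : k →+* AlgebraicClosure k := algebraMap k (AlgebraicClosure k) with hφdef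
  have hφ : Function.Injective φ := φ.injective
  set Xb : Matrix (Fin 2) (Fin 2) (AlgebraicClosure k) := X.map φ with hXb
  have hXb0 : Xb ≠ 0 := by
    intro h
    apply hX0
    apply Matrix.map_injective hφ
    show Xb = (0 : Matrix (Fin 2) (Fin 2) k).map φ
    rw [h]
    ext i j
    simp
  have hXbtr : Xb.trace = 0 := by
    rw [Matrix.trace_fin_two, hXb, Matrix.map_apply, Matrix.map_apply, ← map_add,
      ← Matrix.trace_fin_two, hX, map_zero]
  have h2b : (2 : AlgebraicClosure k) ≠ 0 := by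
    intro h
    apply h2
    apply hφ
    rw [map_zero, map_ofNat]
    exact h
  -- the relation over the algebraic closure
  have hrel : ∀ (g : G) (χ : k), (ρ g : Matrix (Fin 2) (Fin 2) k) * X
      = χ • (X * (ρ g : Matrix (Fin 2) (Fin 2) k)) →
      ((ρ g : Matrix (Fin 2) (Fin 2) k).map φ) * Xb
        = φ χ • (Xb * ((ρ g : Matrix (Fin 2) (Fin 2) k).map φ)) := by
    intro g χ h
    have : ((ρ g : Matrix (Fin 2) (Fin 2) k) * X).map φ
        = (χ • (X * (ρ g : Matrix (Fin 2) (Fin 2) k))).map φ := by rw [h]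
    rw [Matrix.map_mul, Matrix.map_smul' φ χ _ (map_mul φ), Matrix.map_mul] at this
    exact this
  set δ : k := X 0 0 ^ 2 + X 0 1 * X 1 0 with hδ
  have hXX : X * X = δ • (1 : Matrix (Fin 2) (Fin 2) k) := gta_sq hX
  obtain ⟨s, hs⟩ := IsAlgClosed.exists_eq_mul_self (φ δ)
  have hXXb : Xb * Xb = (s * s) • (1 : Matrix (Fin 2) (Fin 2) (AlgebraicClosure k)) := by
    rw [← hs, hXb, ← Matrix.map_mul, hXX, Matrix.map_smul' φ δ _ (map_mul φ)]
    congr 1
    ext i j
    by_cases hij : i = j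
    · subst hij
      simp
    · simp [Matrix.one_apply_ne hij]
  obtain ⟨v, hv, hXv⟩ := gta_exists_eigen h2b hXbtr hXb0 s hXXb
  by_cases hδ0 : δ = 0
  · -- nilpotent case: the kernel of `X` is a stable line
    have hs0 : s = 0 := by
      rw [hδ0, map_zero] at hs
      rcases mul_eq_zero.1 hs.symm with h | h <;> exact h
    rw [hs0, zero_smul] at hXv
    obtain ⟨g, -, hg⟩ := hirr v hv
    obtain ⟨χ, hχ⟩ := hstab g
    have hχ0 : χ ≠ 0 := by
      intro h0
      rw [h0, zero_smul] at hχ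
      exact hX0 (gta_cancel_left (ρ g) hχ)
    have hχb := hrel g χ hχ
    have h1 : (φ χ • (Xb * ((ρ g : Matrix (Fin 2) (Fin 2) k).map φ))) *ᵥ v = 0 := by
      rw [← hχb, ← Matrix.mulVec_mulVec, hXv, Matrix.mulVec_zero]
    rw [Matrix.smul_mulVec] at h1
    have h3 : (Xb * ((ρ g : Matrix (Fin 2) (Fin 2) k).map φ)) *ᵥ v = 0 := by
      rcases smul_eq_zero.1 h1 with h | h
      · exact absurd ((map_eq_zero φ).1 h) hχ0
      · exact h
    rw [← Matrix.mulVec_mulVec] at h3
    obtain ⟨a, ha⟩ := gta_ker_line hXb0 hv hXv h3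
    exact hg a ha
  · -- semisimple case: the centraliser of `X` has index at most `2` and stabilises an eigenline
    have hpm : ∀ g : G, (ρ g : Matrix (Fin 2) (Fin 2) k) * X = X * (ρ g : Matrix (Fin 2) (Fin 2) k)
        ∨ (ρ g : Matrix (Fin 2) (Fin 2) k) * X = -(X * (ρ g : Matrix (Fin 2) (Fin 2) k)) := by
      intro g
      obtain ⟨χ, hχ⟩ := hstab g
      have e1 : (ρ g : Matrix (Fin 2) (Fin 2) k) * X * X
          = (χ * χ) • (X * X * (ρ g : Matrix (Fin 2) (Fin 2) k)) := by
        rw [hχ, Matrix.smul_mul, Matrix.mul_assoc, hχ, Matrix.mul_smul, smul_smul,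
          Matrix.mul_assoc]
      rw [Matrix.mul_assoc, hXX, Matrix.mul_smul, Matrix.mul_one, Matrix.smul_mul,
        Matrix.one_mul, smul_smul] at e1
      have e2 : (δ - χ * χ * δ) • (ρ g : Matrix (Fin 2) (Fin 2) k) = 0 := by
        rw [sub_smul, ← e1, sub_self]
      have e3 : δ - χ * χ * δ = 0 := by
        rcases smul_eq_zero.1 e2 with h | h
        · exact h
        · exfalso
          have h1 : (ρ g : Matrix (Fin 2) (Fin 2) k) * (1 : Matrix (Fin 2) (Fin 2) k) = 0 := by
            rw [Matrix.mul_one, h]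
          have := gta_cancel_left (ρ g) h1
          exact one_ne_zero this
      have e4 : (χ - 1) * (χ + 1) = 0 := by
        have : δ * ((χ - 1) * (χ + 1)) = 0 := by linear_combination -e3
        rcases mul_eq_zero.1 this with h | h
        · exact absurd h hδ0
        · exact h
      rcases mul_eq_zero.1 e4 with h | h
      · left
        have hχ1 : χ = 1 := by linear_combination h
        rw [hχ, hχ1, one_smul]
      · right
        have hχ1 : χ = -1 := by linear_combination h
        rw [hχ, hχ1, neg_smul, one_smul]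
    let H : Subgroup G :=
      { carrier := {g | (ρ g : Matrix (Fin 2) (Fin 2) k) * X
          = X * (ρ g : Matrix (Fin 2) (Fin 2) k)}
        mul_mem' := by
          intro a b ha hb
          have ha' : (ρ a : Matrix (Fin 2) (Fin 2) k) * X
              = X * (ρ a : Matrix (Fin 2) (Fin 2) k) := ha
          have hb' : (ρ b : Matrix (Fin 2) (Fin 2) k) * X
              = X * (ρ b : Matrix (Fin 2) (Fin 2) k) := hb
          show (ρ (a * b) : Matrix (Fin 2) (Fin 2) k) * X
              = X * (ρ (a * b) : Matrix (Fin 2) (Fin 2) k)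
          rw [map_mul, Units.val_mul, Matrix.mul_assoc, hb', ← Matrix.mul_assoc, ha',
            Matrix.mul_assoc]
        one_mem' := by
          show (ρ 1 : Matrix (Fin 2) (Fin 2) k) * X = X * (ρ 1 : Matrix (Fin 2) (Fin 2) k)
          rw [map_one, Units.val_one, Matrix.one_mul, Matrix.mul_one]
        inv_mem' := by
          intro a ha
          have ha' : (ρ a : Matrix (Fin 2) (Fin 2) k) * X
              = X * (ρ a : Matrix (Fin 2) (Fin 2) k) := ha
          show (ρ a⁻¹ : Matrix (Fin 2) (Fin 2) k) * X = X * (ρ a⁻¹ : Matrix (Fin 2) (Fin 2) k)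
          rw [map_inv]
          calc (((ρ a)⁻¹ : GL (Fin 2) k) : Matrix (Fin 2) (Fin 2) k) * X
              = (((ρ a)⁻¹ : GL (Fin 2) k) : Matrix (Fin 2) (Fin 2) k)
                  * (X * (ρ a : Matrix (Fin 2) (Fin 2) k))
                  * (((ρ a)⁻¹ : GL (Fin 2) k) : Matrix (Fin 2) (Fin 2) k) := by
                rw [Matrix.mul_assoc, Matrix.mul_assoc, ← Units.val_mul, mul_inv_cancel,
                  Units.val_one, Matrix.mul_one]
            _ = (((ρ a)⁻¹ : GL (Fin 2) k) : Matrix (Fin 2) (Fin 2) k)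
                  * ((ρ a : Matrix (Fin 2) (Fin 2) k) * X)
                  * (((ρ a)⁻¹ : GL (Fin 2) k) : Matrix (Fin 2) (Fin 2) k) := by rw [ha']
            _ = X * (((ρ a)⁻¹ : GL (Fin 2) k) : Matrix (Fin 2) (Fin 2) k) := by
                rw [← Matrix.mul_assoc, ← Units.val_mul, inv_mul_cancel, Units.val_one,
                  Matrix.one_mul] }
    have hHmem : ∀ g : G, g ∈ H ↔ (ρ g : Matrix (Fin 2) (Fin 2) k) * X
        = X * (ρ g : Matrix (Fin 2) (Fin 2) k) := fun g => Iff.rfl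
    have hMne := gta_sub_smul_ne_zero h2b hXbtr hXb0 s
    have hMv : (Xb - s • (1 : Matrix (Fin 2) (Fin 2) (AlgebraicClosure k))) *ᵥ v = 0 := by
      rw [Matrix.sub_mulVec, hXv, Matrix.smul_mulVec, Matrix.one_mulVec, sub_self]
    have hHstab : ∀ g ∈ H, ∃ a : AlgebraicClosure k,
        ((ρ g : Matrix (Fin 2) (Fin 2) k).map φ) *ᵥ v = a • v := by
      intro g hg
      have hc := hrel g 1 (by rw [one_smul]; exact (hHmem g).1 hg)
      rw [map_one, one_smul] at hc
      apply gta_ker_line hMne hv hMv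
      rw [Matrix.sub_mulVec, Matrix.mulVec_mulVec, ← hc, ← Matrix.mulVec_mulVec, hXv,
        Matrix.smul_mulVec, Matrix.one_mulVec, Matrix.mulVec_smul, sub_self]
    by_cases hall : ∀ g : G, g ∈ H
    · obtain ⟨g, -, hg⟩ := hirr v hv
      obtain ⟨a, ha⟩ := hHstab g (hall g)
      exact hg a ha
    · push Not at hall
      obtain ⟨g₀, hg₀⟩ := hall
      have hanti : (ρ g₀ : Matrix (Fin 2) (Fin 2) k) * X
          = -(X * (ρ g₀ : Matrix (Fin 2) (Fin 2) k)) := by
        rcases hpm g₀ with h | h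
        · exact absurd ((hHmem g₀).2 h) hg₀
        · exact h
      have hidx : H.index = 2 := by
        rw [Subgroup.index_eq_two_iff]
        refine ⟨g₀, fun b => ?_⟩
        by_cases hb : b ∈ H
        · right
          refine ⟨hb, fun hbg => ?_⟩
          have hb' := (hHmem b).1 hb
          have hbg' := (hHmem (b * g₀)).1 hbg
          rw [map_mul, Units.val_mul, Matrix.mul_assoc, hanti, Matrix.mul_neg,
            ← Matrix.mul_assoc, hb', Matrix.mul_assoc] at hbg'
          have h4 : (2 : k) • (X * ((ρ b : Matrix (Fin 2) (Fin 2) k)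
              * (ρ g₀ : Matrix (Fin 2) (Fin 2) k))) = 0 := by
            rw [two_smul]
            nth_rewrite 1 [← hbg']
            rw [neg_add_cancel]
          have h5 : X * ((ρ b : Matrix (Fin 2) (Fin 2) k)
              * (ρ g₀ : Matrix (Fin 2) (Fin 2) k)) = 0 := by
            rcases smul_eq_zero.1 h4 with h | h
            · exact absurd h h2
            · exact h
          rw [← Units.val_mul] at h5
          exact hX0 (gta_cancel_right _ h5)
        · left
          refine ⟨?_, hb⟩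
          have hb' : (ρ b : Matrix (Fin 2) (Fin 2) k) * X
              = -(X * (ρ b : Matrix (Fin 2) (Fin 2) k)) := by
            rcases hpm b with h | h
            · exact absurd ((hHmem b).2 h) hb
            · exact h
          rw [hHmem, map_mul, Units.val_mul, Matrix.mul_assoc, hanti, Matrix.mul_neg,
            ← Matrix.mul_assoc, hb', Matrix.neg_mul, neg_neg, Matrix.mul_assoc]
      obtain ⟨g, hgH, hg⟩ := hirr₂ H hidx v hv
      obtain ⟨a, ha⟩ := hHstab g hgH
      exact hg a ha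

/-- **GT-A'**: the twisted action has no nonzero fixed vector in the trace zero matrices. -/
theorem gtAFixed : Fermat.Agent.P1.helper2.GtAFixedStatement := by
  intro k _ G _ h2 ρ hirr hirr₂ X hX hfix
  refine gta_no_line h2 ρ hirr hirr₂ hX (fun g => ?_)
  have h := hfix g
  unfold tw at h
  have hd : ((Matrix.GeneralLinearGroup.det (ρ g) : kˣ) : k) ≠ 0 := Units.ne_zero _
  refine ⟨((Matrix.GeneralLinearGroup.det (ρ g) : kˣ) : k)⁻¹, ?_⟩
  have h1 : (ρ g : Matrix (Fin 2) (Fin 2) k) * X *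
      (((ρ g)⁻¹ : GL (Fin 2) k) : Matrix (Fin 2) (Fin 2) k)
      = ((Matrix.GeneralLinearGroup.det (ρ g) : kˣ) : k)⁻¹ • X := by
    nth_rewrite 2 [← h]
    rw [smul_smul, inv_mul_cancel₀ hd, one_smul]
  have h3 := (gta_conj_iff (ρ g) X _).1 h1
  rw [h3, Matrix.smul_mul]

/-- **GT-A**: the trace zero matrices have no proper nonzero subspace stable under conjugation
by `ρ(G)`. -/
theorem gtA : Fermat.Agent.P1.helper2.GtAStatement := by
  intro k _ G _ h2 ρ hirr hirr₂ W hW hstab
  by_cases hbot : W = ⊥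
  · left
    exact hbot
  right
  obtain ⟨X, hXW, hX0⟩ := Submodule.exists_mem_ne_zero_of_ne_bot hbot
  have hXtr := hW X hXW
  have hex1 : ∃ g : G, ∀ χ : k, (ρ g : Matrix (Fin 2) (Fin 2) k) * X
      ≠ χ • (X * (ρ g : Matrix (Fin 2) (Fin 2) k)) := by
    by_contra hcon
    push Not at hcon
    exact hX0 (gta_no_line h2 ρ hirr hirr₂ hXtr hcon)
  obtain ⟨g, hg⟩ := hex1
  set Y : Matrix (Fin 2) (Fin 2) k := (ρ g : Matrix (Fin 2) (Fin 2) k) * X *
      (((ρ g)⁻¹ : GL (Fin 2) k) : Matrix (Fin 2) (Fin 2) k) with hY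
  have hYW : Y ∈ W := hstab g X hXW
  have hYtr := hW Y hYW
  have hZ0 : X * Y - Y * X ≠ 0 := by
    intro h
    obtain ⟨χ, hχ⟩ := gta_comm_zero h2 hXtr hYtr hX0 h
    apply hg χ
    have := (gta_conj_iff (ρ g) X (χ • X)).1 (by rw [← hχ])
    rw [this, Matrix.smul_mul]
  have hZtr := gta_comm_trace X Y
  have hex2 : ∃ h : G, ∀ χ : k, (ρ h : Matrix (Fin 2) (Fin 2) k) * (X * Y - Y * X)
      ≠ χ • ((X * Y - Y * X) * (ρ h : Matrix (Fin 2) (Fin 2) k)) := by
    by_contra hcon
    push Not at hcon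
    exact hZ0 (gta_no_line h2 ρ hirr hirr₂ hZtr hcon)
  obtain ⟨h, hh⟩ := hex2
  have hX' := hstab h⁻¹ X hXW
  have hY' := hstab h⁻¹ Y hYW
  rw [map_inv, inv_inv] at hX' hY'
  have hT : ∃ T ∈ W, ((X * Y - Y * X) * T).trace ≠ 0 := by
    by_contra hcon
    push Not at hcon
    have e1 := hcon _ hX'
    have e2 := hcon _ hY'
    have hZ'tr : ((ρ h : Matrix (Fin 2) (Fin 2) k) * (X * Y - Y * X) *
        (((ρ h)⁻¹ : GL (Fin 2) k) : Matrix (Fin 2) (Fin 2) k)).trace = 0 := by
      rw [gta_trace_conj, hZtr]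
    have hZ'X : ((ρ h : Matrix (Fin 2) (Fin 2) k) * (X * Y - Y * X) *
        (((ρ h)⁻¹ : GL (Fin 2) k) : Matrix (Fin 2) (Fin 2) k) * X).trace = 0 := by
      have e' := e1
      simp only [Matrix.mul_assoc] at e' ⊢
      rw [Matrix.trace_mul_comm]
      simp only [Matrix.mul_assoc]
      exact e'
    have hZ'Y : ((ρ h : Matrix (Fin 2) (Fin 2) k) * (X * Y - Y * X) *
        (((ρ h)⁻¹ : GL (Fin 2) k) : Matrix (Fin 2) (Fin 2) k) * Y).trace = 0 := by
      have e' := e2
      simp only [Matrix.mul_assoc] at e' ⊢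
      rw [Matrix.trace_mul_comm]
      simp only [Matrix.mul_assoc]
      exact e'
    obtain ⟨χ, hχ⟩ := gta_orth hXtr hYtr hZ'tr hZ0 hZ'X hZ'Y
    apply hh χ
    rw [(gta_conj_iff (ρ h) _ _).1 hχ, Matrix.smul_mul]
  obtain ⟨T, hTW, hT0⟩ := hT
  intro U hU
  have hcr := gta_cramer hXtr hYtr (hW T hTW) hU
  have hU' : U = (((X * Y - Y * X) * T).trace)⁻¹ •
      (((Y * T - T * Y) * U).trace • X + ((T * X - X * T) * U).trace • Y
        + ((X * Y - Y * X) * U).trace • T) := by
    rw [← hcr, smul_smul, inv_mul_cancel₀ hT0, one_smul]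
  rw [hU']
  exact W.smul_mem _ (W.add_mem (W.add_mem (W.smul_mem _ hXW) (W.smul_mem _ hYW))
    (W.smul_mem _ hTW))

end Main

end Fermat.Agent.P1.helper3
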