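import Fermat.Agent.P1.helper3_GTCoc

/-!
# P1 / TW-GT (helper3): GT-AVG and conjugation transport

* `isCoboundary_of_le`: a cocycle on `Γ` which is a coboundary on a subgroup `B ≤ Γ` whose index
  is invertible in `k` is a coboundary on `Γ` (averaging over `Γ / B`).
* `isCoboundary_of_card`: every cocycle on a finite group of order invertible in `k` is a
  coboundary.
* `IsCocycle.conj`, `isCoboundary_of_conj`: transport along the conjugation `Γ ↦ γ⁻¹ Γ γ`.
-/

set_option autoImplicit false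
open Matrix

namespace Fermat.Agent.P1.helper3

variable {k : Type*} [Field k]

/-- averaging: a cocycle vanishing on `B` -/
lemma isCoboundary_of_le_of_zero (Γ B : Subgroup (GL (Fin 2) k)) (hBΓ : B ≤ Γ)
    (hidx : ((B.relIndex Γ : ℕ) : k) ≠ 0)
    (c : GL (Fin 2) k → Matrix (Fin 2) (Fin 2) k) (hc : IsCocycle Γ c)
    (hB : ∀ b ∈ B, c b = 0) : IsCoboundary Γ c := by
  classical
  have hidx' : (B.subgroupOf Γ).index ≠ 0 := by
    intro h
    apply hidx
    rw [Subgroup.relIndex, h, Nat.cast_zero]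
  have hfin : Fintype (Γ ⧸ B.subgroupOf Γ) := Subgroup.fintypeOfIndexNeZero hidx'
  -- `c` is constant on left cosets
  have hconst : ∀ g ∈ Γ, ∀ b ∈ B, c (g * b) = c g := by
    intro g hg b hb
    rw [hc.2 g hg b (hBΓ hb), hB b hb, tw_zero, add_zero]
  let cbar : Γ ⧸ B.subgroupOf Γ → Matrix (Fin 2) (Fin 2) k :=
    Quotient.lift (fun g : Γ => c (g : GL (Fin 2) k)) (by
      intro g h hgh
      have hrel : g⁻¹ * h ∈ B.subgroupOf Γ := QuotientGroup.leftRel_apply.mp hgh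
      have hb : ((g : GL (Fin 2) k))⁻¹ * (h : GL (Fin 2) k) ∈ B := by
        simpa [Subgroup.mem_subgroupOf] using hrel
      have := hconst g g.2 _ hb
      rw [mul_inv_cancel_left] at this
      exact this.symm)
  have hcbar : ∀ g : Γ, cbar (QuotientGroup.mk g) = c (g : GL (Fin 2) k) := fun g => rfl
  set Y : Matrix (Fin 2) (Fin 2) k := ∑ q : Γ ⧸ B.subgroupOf Γ, cbar q with hY
  have hYtr : Y.trace = 0 := by
    rw [hY, Matrix.trace_sum]
    apply Finset.sum_eq_zero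
    intro q _
    induction q using QuotientGroup.induction_on with
    | H g => rw [hcbar]; exact hc.1 _ g.2
  have hcard : (Fintype.card (Γ ⧸ B.subgroupOf Γ) : k) = ((B.relIndex Γ : ℕ) : k) := by
    rw [Subgroup.relIndex, Subgroup.index_eq_card, Nat.card_eq_fintype_card]
  have key : ∀ g ∈ Γ, tw g Y = Y - ((B.relIndex Γ : ℕ) : k) • c g := by
    intro g hg
    have h1 : ∀ q : Γ ⧸ B.subgroupOf Γ, tw g (cbar q) = cbar ((⟨g, hg⟩ : Γ) • q) - c g := by
      intro q
      induction q using QuotientGroup.induction_on with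
      | H h =>
        rw [hcbar]
        have : ((⟨g, hg⟩ : Γ) • (QuotientGroup.mk h : Γ ⧸ B.subgroupOf Γ))
            = QuotientGroup.mk (⟨g, hg⟩ * h) := rfl
        rw [this, hcbar]
        have := hc.2 g hg h h.2
        rw [Subgroup.coe_mul]
        simp only at this ⊢
        rw [this]
        abel
    rw [hY, tw_sum]
    simp only [h1]
    rw [Finset.sum_sub_distrib, Finset.sum_const, Finset.card_univ]
    have hperm : ∑ x : Γ ⧸ B.subgroupOf Γ, cbar ((⟨g, hg⟩ : Γ) • x) = ∑ q, cbar q :=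
      Equiv.sum_comp (MulAction.toPerm (⟨g, hg⟩ : Γ)) cbar
    rw [hperm, ← hcard, Nat.cast_smul_eq_nsmul]
  refine ⟨-(((B.relIndex Γ : ℕ) : k)⁻¹ • Y), ?_, fun g hg => ?_⟩
  · rw [Matrix.trace_neg, Matrix.trace_smul, hYtr, smul_zero, neg_zero]
  · rw [tw_neg, tw_smul, key g hg, smul_sub, smul_smul, inv_mul_cancel₀ hidx, one_smul]
    abel

/-- **GT-AVG**: a cocycle on `Γ` which is a coboundary on a subgroup `B ≤ Γ` whose index is
invertible in `k` is a coboundary on `Γ`. -/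
theorem isCoboundary_of_le (Γ B : Subgroup (GL (Fin 2) k)) (hBΓ : B ≤ Γ)
    (hidx : ((B.relIndex Γ : ℕ) : k) ≠ 0)
    (c : GL (Fin 2) k → Matrix (Fin 2) (Fin 2) k) (hc : IsCocycle Γ c)
    (hB : IsCoboundary B c) : IsCoboundary Γ c := by
  obtain ⟨X, hX, hXc⟩ := hB
  apply isCoboundary_of_sub_cob X hX
  apply isCoboundary_of_le_of_zero Γ B hBΓ hidx _ (hc.sub_cob X hX)
  intro b hb
  show c b - (tw b X - X) = 0
  rw [hXc b hb, sub_self]

/-- every cocycle on a finite group of order invertible in `k` is a coboundary -/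
theorem isCoboundary_of_card (Γ : Subgroup (GL (Fin 2) k))
    (hcard : ((Nat.card Γ : ℕ) : k) ≠ 0)
    (c : GL (Fin 2) k → Matrix (Fin 2) (Fin 2) k) (hc : IsCocycle Γ c) : IsCoboundary Γ c := by
  apply isCoboundary_of_le Γ ⊥ bot_le _ c hc
  · refine ⟨0, by simp, fun g hg => ?_⟩
    rw [Subgroup.mem_bot] at hg
    rw [hg, hc.map_one, tw_zero, sub_zero]
  · rw [Subgroup.relIndex_bot_left]
    exact hcard

/-! ### conjugation -/

/-- transport of a cocycle to the conjugate group `γ Γ γ⁻¹` -/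
def conjCoc (γ : GL (Fin 2) k) (c : GL (Fin 2) k → Matrix (Fin 2) (Fin 2) k) :
    GL (Fin 2) k → Matrix (Fin 2) (Fin 2) k :=
  fun g => tw γ (c (γ⁻¹ * g * γ))

lemma IsCocycle.conj {Γ : Subgroup (GL (Fin 2) k)}
    {c : GL (Fin 2) k → Matrix (Fin 2) (Fin 2) k} (hc : IsCocycle Γ c) (γ : GL (Fin 2) k) :
    IsCocycle (conj γ Γ) (conjCoc γ c) := by
  refine ⟨fun g hg => ?_, fun g hg h hh => ?_⟩
  · rw [conjCoc, trace_tw, hc.1 _ (mem_conj.mp hg), mul_zero]
  · have hg' := mem_conj.mp hg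
    have hh' := mem_conj.mp hh
    have e1 : γ⁻¹ * (g * h) * γ = (γ⁻¹ * g * γ) * (γ⁻¹ * h * γ) := by group
    have e2 : γ * (γ⁻¹ * g * γ) = g * γ := by group
    simp only [conjCoc]
    rw [e1, hc.2 _ hg' _ hh', tw_add, ← tw_mul, e2, tw_mul]

lemma isCoboundary_of_conj {Γ : Subgroup (GL (Fin 2) k)}
    {c : GL (Fin 2) k → Matrix (Fin 2) (Fin 2) k} (γ : GL (Fin 2) k)
    (h : IsCoboundary (conj γ Γ) (conjCoc γ c)) : IsCoboundary Γ c := by
  obtain ⟨X, hX, hc⟩ := h
  refine ⟨tw γ⁻¹ X, by rw [trace_tw, hX, mul_zero], fun g hg => ?_⟩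
  have hmem : γ * g * γ⁻¹ ∈ conj γ Γ := by
    rw [mem_conj]
    have : γ⁻¹ * (γ * g * γ⁻¹) * γ = g := by group
    rw [this]; exact hg
  have h1 := hc _ hmem
  have e1 : γ⁻¹ * (γ * g * γ⁻¹) * γ = g := by group
  simp only [conjCoc] at h1
  rw [e1] at h1
  have h2 : c g = tw γ⁻¹ (tw γ (c g)) := (tw_inv_tw γ (c g)).symm
  rw [h2, h1, tw_sub, ← tw_mul, ← tw_mul]
  have e2 : γ⁻¹ * (γ * g * γ⁻¹) = g * γ⁻¹ := by group
  rw [e2]

end Fermat.Agent.P1.helper3
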