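import Fermat.Agent.P1.helper3_GTDefs

/-!
# P1 / TW-GT (helper3): GT-COC, the Borel cocycle computation

`coc_core`: on a finite group `B` of upper triangular matrices in `GL₂(k)` (`k` finite of odd
characteristic) every cocycle with values in `ad0(1)` is a coboundary, provided that
* some element of `B` has determinant `≠ 1`,
* some element `!![a, b; 0, d]` of `B` has `a ≠ d ^ 3` (if `B` has a nontrivial unipotent element),
* additive maps on `A = {x | uu x ∈ B}` which are semilinear for the multipliers `a / d` of the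
  determinant one elements of `B` are of the form `x ↦ κ x`.
-/

set_option autoImplicit false
open Matrix

namespace Fermat.Agent.P1.helper3

variable {k : Type*} [Field k]


lemma tw_eq_adjugate (g : GL (Fin 2) k) (X : Matrix (Fin 2) (Fin 2) k) :
    tw g X = (g : Matrix (Fin 2) (Fin 2) k) * X * (g : Matrix (Fin 2) (Fin 2) k).adjugate := by
  have h1 : ((g⁻¹ : GL (Fin 2) k) : Matrix (Fin 2) (Fin 2) k) * (g : Matrix (Fin 2) (Fin 2) k)
      = 1 := by rw [← Units.val_mul, inv_mul_cancel, Units.val_one]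
  have h2 : (g : Matrix (Fin 2) (Fin 2) k).adjugate
      = (g : Matrix (Fin 2) (Fin 2) k).det • ((g⁻¹ : GL (Fin 2) k) : Matrix (Fin 2) (Fin 2) k) := by
    calc (g : Matrix (Fin 2) (Fin 2) k).adjugate
        = (((g⁻¹ : GL (Fin 2) k) : Matrix (Fin 2) (Fin 2) k) * (g : Matrix (Fin 2) (Fin 2) k))
            * (g : Matrix (Fin 2) (Fin 2) k).adjugate := by rw [h1, Matrix.one_mul]
      _ = ((g⁻¹ : GL (Fin 2) k) : Matrix (Fin 2) (Fin 2) k)
            * ((g : Matrix (Fin 2) (Fin 2) k).det • 1) := by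
          rw [Matrix.mul_assoc, Matrix.mul_adjugate]
      _ = _ := by rw [Matrix.mul_smul, Matrix.mul_one]
  rw [tw, h2, Matrix.mul_smul]
  rfl

lemma tw_apply_10 {g : GL (Fin 2) k} (hg : (g : Matrix (Fin 2) (Fin 2) k) 1 0 = 0)
    (X : Matrix (Fin 2) (Fin 2) k) :
    (tw g X) 1 0 = (g : Matrix (Fin 2) (Fin 2) k) 1 1 ^ 2 * X 1 0 := by
  rw [tw_eq_adjugate, Matrix.adjugate_fin_two]
  simp only [Matrix.mul_apply, Fin.sum_univ_two, Matrix.of_apply, Matrix.cons_val', Matrix.cons_val_zero,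
    Matrix.cons_val_one, hg]
  simp
  ring

lemma tw_apply_00 {g : GL (Fin 2) k} (hg : (g : Matrix (Fin 2) (Fin 2) k) 1 0 = 0)
    (X : Matrix (Fin 2) (Fin 2) k) :
    (tw g X) 0 0 = (g : Matrix (Fin 2) (Fin 2) k) 0 0 * (g : Matrix (Fin 2) (Fin 2) k) 1 1 * X 0 0
      + (g : Matrix (Fin 2) (Fin 2) k) 0 1 * (g : Matrix (Fin 2) (Fin 2) k) 1 1 * X 1 0 := by
  rw [tw_eq_adjugate, Matrix.adjugate_fin_two]
  simp only [Matrix.mul_apply, Fin.sum_univ_two, Matrix.of_apply, Matrix.cons_val', Matrix.cons_val_zero,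
    Matrix.cons_val_one, hg]
  simp
  ring

lemma tw_apply_01 {g : GL (Fin 2) k} (hg : (g : Matrix (Fin 2) (Fin 2) k) 1 0 = 0)
    (X : Matrix (Fin 2) (Fin 2) k) (hX : X.trace = 0) :
    (tw g X) 0 1 = (g : Matrix (Fin 2) (Fin 2) k) 0 0 ^ 2 * X 0 1
      - 2 * (g : Matrix (Fin 2) (Fin 2) k) 0 0 * (g : Matrix (Fin 2) (Fin 2) k) 0 1 * X 0 0
      - (g : Matrix (Fin 2) (Fin 2) k) 0 1 ^ 2 * X 1 0 := by
  have h11 : X 1 1 = - X 0 0 := by
    rw [Matrix.trace_fin_two] at hX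
    linear_combination hX
  rw [tw_eq_adjugate, Matrix.adjugate_fin_two]
  simp only [Matrix.mul_apply, Fin.sum_univ_two, Matrix.of_apply, Matrix.cons_val', Matrix.cons_val_zero,
    Matrix.cons_val_one, hg, h11]
  simp
  ring



lemma um_apply_00 {g g' : GL (Fin 2) k} (hg' : g' 1 0 = 0) :
    (g * g') 0 0 = g 0 0 * g' 0 0 := by
  rw [Units.val_mul, Matrix.mul_apply, Fin.sum_univ_two, hg', mul_zero, add_zero]

lemma um_apply_11 {g g' : GL (Fin 2) k} (hg : g 1 0 = 0) :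
    (g * g') 1 1 = g 1 1 * g' 1 1 := by
  rw [Units.val_mul, Matrix.mul_apply, Fin.sum_univ_two, hg, zero_mul, zero_add]

lemma um_apply_10 {g g' : GL (Fin 2) k} (hg : g 1 0 = 0) (hg' : g' 1 0 = 0) :
    (g * g') 1 0 = 0 := by
  rw [Units.val_mul, Matrix.mul_apply, Fin.sum_univ_two, hg, hg', zero_mul, mul_zero, add_zero]

lemma um_apply_01 {g g' : GL (Fin 2) k} :
    (g * g') 0 1 = g 0 0 * g' 0 1 + g 0 1 * g' 1 1 := by
  rw [Units.val_mul, Matrix.mul_apply, Fin.sum_univ_two]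

lemma um_det {g : GL (Fin 2) k} (hg : g 1 0 = 0) :
    (g : Matrix (Fin 2) (Fin 2) k).det = g 0 0 * g 1 1 := by
  rw [Matrix.det_fin_two, hg, mul_zero, sub_zero]

lemma um_apply_00_ne {g : GL (Fin 2) k} (hg : g 1 0 = 0) : g 0 0 ≠ 0 := by
  intro h
  have := g.det_ne_zero
  rw [um_det hg, h, zero_mul] at this
  exact this rfl

lemma um_apply_11_ne {g : GL (Fin 2) k} (hg : g 1 0 = 0) : g 1 1 ≠ 0 := by
  intro h
  have := g.det_ne_zero
  rw [um_det hg, h, mul_zero] at this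
  exact this rfl

lemma uu_mul_uu (x y : k) : uu x * uu y = uu (x + y) := by
  apply Units.ext
  ext i j
  fin_cases i <;> fin_cases j <;> simp [Matrix.mul_apply, Fin.sum_univ_two, add_comm]

lemma uu_zero : uu (0 : k) = 1 := by
  apply Units.ext
  ext i j
  fin_cases i <;> fin_cases j <;> simp

lemma uu_apply_10 (x : k) : (uu x) 1 0 = 0 := by simp
lemma uu_apply_00 (x : k) : (uu x) 0 0 = 1 := by simp
lemma uu_apply_11 (x : k) : (uu x) 1 1 = 1 := by simp
lemma uu_apply_01 (x : k) : (uu x) 0 1 = x := by simp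

lemma uu_injective : Function.Injective (uu : k → GL (Fin 2) k) := by
  intro x y h
  have := congrArg (fun g : GL (Fin 2) k => g 0 1) h
  simpa using this

lemma eq_uu_of {g : GL (Fin 2) k} (hg : g 1 0 = 0) (h0 : g 0 0 = 1) (h1 : g 1 1 = 1) :
    g = uu (g 0 1) := by
  apply Units.ext
  ext i j
  fin_cases i <;> fin_cases j <;> simp [hg, h0, h1]

set_option linter.unnecessarySeqFocus false in
lemma um_mul_uu {g : GL (Fin 2) k} (hg : g 1 0 = 0) (x : k) :
    g * uu x = uu (g 0 0 / g 1 1 * x) * g := by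
  have hd := um_apply_11_ne hg
  apply Units.ext
  ext i j
  fin_cases i <;> fin_cases j <;>
    simp [Matrix.mul_apply, Fin.sum_univ_two, hg] <;> field_simp <;> ring

set_option linter.unnecessarySeqFocus false in
lemma um_comm {g g' : GL (Fin 2) k} (hg : g 1 0 = 0) (hg' : g' 1 0 = 0) :
    g * g' = g' * g * uu (((g * g') 0 1 - (g' * g) 0 1) / (g 0 0 * g' 0 0)) := by
  have ha := um_apply_00_ne hg
  have ha' := um_apply_00_ne hg'
  apply Units.ext
  ext i j
  fin_cases i <;> fin_cases j <;>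
    simp [Matrix.mul_apply, Fin.sum_univ_two, hg, hg'] <;> field_simp <;> ring

lemma um_pow_apply_10 {g : GL (Fin 2) k} (hg : g 1 0 = 0) (n : ℕ) : (g ^ n) 1 0 = 0 := by
  induction n with
  | zero => simp
  | succ n ih => rw [pow_succ]; exact um_apply_10 ih hg

lemma um_pow_apply_00 {g : GL (Fin 2) k} (hg : g 1 0 = 0) (n : ℕ) :
    (g ^ n) 0 0 = g 0 0 ^ n := by
  induction n with
  | zero => simp
  | succ n ih => rw [pow_succ, um_apply_00 hg, ih, pow_succ]

lemma um_pow_apply_11 {g : GL (Fin 2) k} (hg : g 1 0 = 0) (n : ℕ) :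
    (g ^ n) 1 1 = g 1 1 ^ n := by
  induction n with
  | zero => simp
  | succ n ih => rw [pow_succ, um_apply_11 (um_pow_apply_10 hg n), ih, pow_succ]

/-- conjugates of unipotent elements: `uu (s x) ∈ B` -/
lemma uu_smul_mem {B : Subgroup (GL (Fin 2) k)} {g : GL (Fin 2) k} (hgB : g ∈ B)
    (hg : g 1 0 = 0) {x : k} (hx : uu x ∈ B) : uu (g 0 0 / g 1 1 * x) ∈ B := by
  have h : uu (g 0 0 / g 1 1 * x) = g * uu x * g⁻¹ := by
    rw [um_mul_uu hg, mul_assoc, mul_inv_cancel, mul_one]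
  rw [h]
  exact B.mul_mem (B.mul_mem hgB hx) (B.inv_mem hgB)

/-- `D (g g') = D (g' g)` for a twisted cocycle vanishing on the unipotent part -/
lemma layer_comm (B : Subgroup (GL (Fin 2) k)) (hB : ∀ g ∈ B, g 1 0 = 0)
    (χ D : GL (Fin 2) k → k)
    (hD : ∀ g ∈ B, ∀ g' ∈ B, D (g * g') = D g + χ g * D g')
    (hDP : ∀ x, uu x ∈ B → D (uu x) = 0) {g g' : GL (Fin 2) k} (hg : g ∈ B) (hg' : g' ∈ B) :
    D (g * g') = D (g' * g) := by
  have h := um_comm (hB g hg) (hB g' hg')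
  set y := ((g * g') 0 1 - (g' * g) 0 1) / (g 0 0 * g' 0 0) with hy
  have hyB : uu y ∈ B := by
    have : uu y = (g' * g)⁻¹ * (g * g') := by
      rw [h, ← mul_assoc, inv_mul_cancel, one_mul]
    rw [this]
    exact B.mul_mem (B.inv_mem (B.mul_mem hg' hg)) (B.mul_mem hg hg')
  rw [h, hD _ (B.mul_mem hg' hg) _ hyB, hDP y hyB, mul_zero, add_zero]

/-- **Layer lemma**: a cocycle for a character `χ` on a finite upper triangular group which
vanishes on the unipotent elements is the coboundary `ν (χ - 1)`. -/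
lemma layer [Finite k] (B : Subgroup (GL (Fin 2) k)) (hB : ∀ g ∈ B, g 1 0 = 0)
    (χ D : GL (Fin 2) k → k)
    (hD : ∀ g ∈ B, ∀ g' ∈ B, D (g * g') = D g + χ g * D g')
    (hDP : ∀ x, uu x ∈ B → D (uu x) = 0) :
    ∃ ν : k, ∀ g ∈ B, D g = ν * (χ g - 1) := by
  classical
  by_cases h1 : ∃ g₁ ∈ B, χ g₁ ≠ 1
  · obtain ⟨g₁, hg₁, hχ₁⟩ := h1
    have hne : χ g₁ - 1 ≠ 0 := sub_ne_zero.mpr hχ₁
    refine ⟨D g₁ / (χ g₁ - 1), fun g hg => ?_⟩
    have e1 := layer_comm B hB χ D hD hDP hg hg₁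
    rw [hD g hg g₁ hg₁, hD g₁ hg₁ g hg] at e1
    field_simp
    linear_combination (-1 : k) * e1
  · simp only [not_exists, not_and, not_not] at h1
    refine ⟨0, fun g hg => ?_⟩
    rw [zero_mul]
    have : Fintype k := Fintype.ofFinite k
    have hD1 : D 1 = 0 := by
      have := hD 1 B.one_mem 1 B.one_mem
      rw [mul_one, h1 1 B.one_mem, one_mul] at this
      simpa using this
    have hpow : ∀ n : ℕ, D (g ^ n) = n * D g := by
      intro n
      induction n with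
      | zero => simp [hD1]
      | succ n ih =>
        rw [pow_succ, hD _ (B.pow_mem hg n) _ hg, ih, h1 _ (B.pow_mem hg n)]
        push_cast
        ring
    set N := Fintype.card k - 1 with hN
    have hgN : g ^ N = uu ((g ^ N) 0 1) := by
      apply eq_uu_of (um_pow_apply_10 (hB g hg) N)
      · rw [um_pow_apply_00 (hB g hg)]
        exact FiniteField.pow_card_sub_one_eq_one _ (um_apply_00_ne (hB g hg))
      · rw [um_pow_apply_11 (hB g hg)]
        exact FiniteField.pow_card_sub_one_eq_one _ (um_apply_11_ne (hB g hg))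
    have hmem : uu ((g ^ N) 0 1) ∈ B := by
      rw [← hgN]; exact B.pow_mem hg N
    have h0 : D (g ^ N) = 0 := by
      rw [hgN]; exact hDP _ hmem
    rw [hpow N] at h0
    have hcard : ((Fintype.card k : ℕ) : k) = 0 := FiniteField.cast_card_eq_zero k
    have hNk : ((N : ℕ) : k) = -1 := by
      have hpos : 1 ≤ Fintype.card k := Fintype.card_pos
      rw [hN, Nat.cast_sub hpos, hcard]
      simp
    rw [hNk] at h0
    simpa using h0


/-! ### cocycles: generalities -/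

lemma IsCocycle.map_one {B : Subgroup (GL (Fin 2) k)}
    {c : GL (Fin 2) k → Matrix (Fin 2) (Fin 2) k} (hc : IsCocycle B c) : c 1 = 0 := by
  have := hc.2 1 B.one_mem 1 B.one_mem
  rw [mul_one, tw_one] at this
  simpa using this

lemma IsCocycle.sub_cob {B : Subgroup (GL (Fin 2) k)}
    {c : GL (Fin 2) k → Matrix (Fin 2) (Fin 2) k} (hc : IsCocycle B c)
    (X : Matrix (Fin 2) (Fin 2) k) (hX : X.trace = 0) :
    IsCocycle B (fun g => c g - (tw g X - X)) := by
  refine ⟨fun g hg => ?_, fun g hg h hh => ?_⟩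
  · simp only [Matrix.trace_sub, hc.1 g hg, trace_tw, hX, mul_zero, sub_self]
  · simp only [hc.2 g hg h hh, tw_mul, tw_sub]
    abel

lemma isCoboundary_of_sub_cob {B : Subgroup (GL (Fin 2) k)}
    {c : GL (Fin 2) k → Matrix (Fin 2) (Fin 2) k}
    (X : Matrix (Fin 2) (Fin 2) k) (hX : X.trace = 0)
    (h : IsCoboundary B (fun g => c g - (tw g X - X))) : IsCoboundary B c := by
  obtain ⟨Y, hY, hc⟩ := h
  refine ⟨Y + X, by rw [Matrix.trace_add, hY, hX, add_zero], fun g hg => ?_⟩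
  have := hc g hg
  simp only at this
  rw [tw_add]
  rw [sub_eq_iff_eq_add] at this
  rw [this]
  abel

/-- equality of trace zero matrices can be checked on three entries -/
lemma eq_of_trace_zero {X Y : Matrix (Fin 2) (Fin 2) k} (hX : X.trace = 0) (hY : Y.trace = 0)
    (h10 : X 1 0 = Y 1 0) (h00 : X 0 0 = Y 0 0) (h01 : X 0 1 = Y 0 1) : X = Y := by
  rw [Matrix.trace_fin_two] at hX hY
  ext i j
  fin_cases i <;> fin_cases j
  · exact h00
  · exact h01
  · exact h10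
  · show X 1 1 = Y 1 1
    have e1 : X 1 1 = - X 0 0 := by linear_combination hX
    have e2 : Y 1 1 = - Y 0 0 := by linear_combination hY
    rw [e1, e2, h00]

section components

variable {B : Subgroup (GL (Fin 2) k)} {c : GL (Fin 2) k → Matrix (Fin 2) (Fin 2) k}

lemma IsCocycle.eqF (hc : IsCocycle B c) (hB : ∀ g ∈ B, g 1 0 = 0) {g g' : GL (Fin 2) k}
    (hg : g ∈ B) (hg' : g' ∈ B) :
    (c (g * g')) 1 0 = (c g) 1 0 + g 1 1 ^ 2 * (c g') 1 0 := by
  rw [hc.2 g hg g' hg', Matrix.add_apply, tw_apply_10 (hB g hg)]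

lemma IsCocycle.eqH (hc : IsCocycle B c) (hB : ∀ g ∈ B, g 1 0 = 0) {g g' : GL (Fin 2) k}
    (hg : g ∈ B) (hg' : g' ∈ B) :
    (c (g * g')) 0 0 = (c g) 0 0 + (g 0 0 * g 1 1 * (c g') 0 0 + g 0 1 * g 1 1 * (c g') 1 0) := by
  rw [hc.2 g hg g' hg', Matrix.add_apply, tw_apply_00 (hB g hg)]

lemma IsCocycle.eqE (hc : IsCocycle B c) (hB : ∀ g ∈ B, g 1 0 = 0) {g g' : GL (Fin 2) k}
    (hg : g ∈ B) (hg' : g' ∈ B) :
    (c (g * g')) 0 1 = (c g) 0 1 + (g 0 0 ^ 2 * (c g') 0 1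
      - 2 * g 0 0 * g 0 1 * (c g') 0 0 - g 0 1 ^ 2 * (c g') 1 0) := by
  rw [hc.2 g hg g' hg', Matrix.add_apply, tw_apply_01 (hB g hg) _ (hc.1 g' hg')]

end components

/-! ### the three layers -/

/-- the matrix `ε e + η h + φ f` -/
def ehf (ε η φ : k) : Matrix (Fin 2) (Fin 2) k := !![η, ε; φ, -η]

@[simp] lemma ehf_apply_00 (ε η φ : k) : ehf ε η φ 0 0 = η := rfl
@[simp] lemma ehf_apply_01 (ε η φ : k) : ehf ε η φ 0 1 = ε := rfl
@[simp] lemma ehf_apply_10 (ε η φ : k) : ehf ε η φ 1 0 = φ := rfl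
@[simp] lemma ehf_apply_11 (ε η φ : k) : ehf ε η φ 1 1 = -η := rfl

lemma trace_ehf (ε η φ : k) : (ehf ε η φ).trace = 0 := by
  rw [Matrix.trace_fin_two]; simp

section steps

variable [Finite k] {B : Subgroup (GL (Fin 2) k)}
  {c : GL (Fin 2) k → Matrix (Fin 2) (Fin 2) k}

/-- **Layer `f`**: after subtracting a coboundary the `(1,0)`-entry of the cocycle vanishes. -/
lemma stepF (hB : ∀ g ∈ B, g 1 0 = 0)
    (hf : (∃ x : k, x ≠ 0 ∧ uu x ∈ B) → ∃ g ∈ B, g 0 0 ≠ g 1 1 ^ 3)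
    (hc : IsCocycle B c) :
    ∃ X : Matrix (Fin 2) (Fin 2) k, X.trace = 0 ∧ ∀ g ∈ B, (c g - (tw g X - X)) 1 0 = 0 := by
  -- symmetry on the unipotent part
  have hsym : ∀ x y : k, uu x ∈ B → uu y ∈ B →
      x * (c (uu y)) 1 0 = y * (c (uu x)) 1 0 := by
    intro x y hx hy
    have e1 := hc.eqH hB hx hy
    have e2 := hc.eqH hB hy hx
    rw [uu_mul_uu] at e1 e2
    rw [add_comm y x, e1] at e2
    simp only [uu_apply_00, uu_apply_11, uu_apply_01, one_mul, mul_one] at e2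
    linear_combination e2
  -- equivariance
  have hequiv : ∀ g ∈ B, ∀ x : k, uu x ∈ B →
      (c (uu (g 0 0 / g 1 1 * x))) 1 0 = g 1 1 ^ 2 * (c (uu x)) 1 0 := by
    intro g hg x hx
    have e1 := hc.eqF hB hg hx
    have e2 := hc.eqF hB (uu_smul_mem hg (hB g hg) hx) hg
    rw [← um_mul_uu (hB g hg), e1] at e2
    simp only [uu_apply_11, one_pow, one_mul] at e2
    linear_combination -e2
  -- vanishing on the unipotent part
  have hP : ∀ x : k, uu x ∈ B → (c (uu x)) 1 0 = 0 := by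
    intro x hx
    by_cases hx0 : x = 0
    · rw [hx0, uu_zero, hc.map_one]; rfl
    · obtain ⟨g, hg, hne⟩ := hf ⟨x, hx0, hx⟩
      have hd := um_apply_11_ne (hB g hg)
      have e1 := hsym x _ hx (uu_smul_mem hg (hB g hg) hx)
      rw [hequiv g hg x hx] at e1
      have e2 : (g 1 1 ^ 3 - g 0 0) * (x * (c (uu x)) 1 0) = 0 := by
        have : g 0 0 / g 1 1 * x * (c (uu x)) 1 0 * g 1 1 = g 0 0 * (x * (c (uu x)) 1 0) := by
          field_simp
        linear_combination g 1 1 * e1 + this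
      rcases mul_eq_zero.mp e2 with h | h
      · exact absurd (sub_eq_zero.mp h).symm hne
      · rcases mul_eq_zero.mp h with h | h
        · exact absurd h hx0
        · exact h
  obtain ⟨ν, hν⟩ := layer B hB (fun g => g 1 1 ^ 2) (fun g => (c g) 1 0)
    (fun g hg g' hg' => hc.eqF hB hg hg') hP
  refine ⟨ehf 0 0 ν, trace_ehf _ _ _, fun g hg => ?_⟩
  rw [Matrix.sub_apply, Matrix.sub_apply, tw_apply_10 (hB g hg), hν g hg]
  simp only [ehf_apply_10]
  ring

/-- **Layer `h`**: if the `(1,0)`-entry of the cocycle vanishes then after subtracting a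
coboundary the `(1,0)`- and `(0,0)`-entries vanish. -/
lemma stepH (p : ℕ) [CharP k p] (hp2 : p ≠ 2) (hB : ∀ g ∈ B, g 1 0 = 0)
    (hc : IsCocycle B c) (hF : ∀ g ∈ B, (c g) 1 0 = 0) :
    ∃ X : Matrix (Fin 2) (Fin 2) k, X.trace = 0 ∧
      ∀ g ∈ B, (c g - (tw g X - X)) 1 0 = 0 ∧ (c g - (tw g X - X)) 0 0 = 0 := by
  have h2 : (2 : k) ≠ 0 := by
    intro h
    have h' : ((2 : ℕ) : k) = 0 := by exact_mod_cast h
    have hdvd := (CharP.cast_eq_zero_iff k p 2).mp h'
    have hp : p.Prime := by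
      rcases CharP.char_is_prime_or_zero k p with hp | hp
      · exact hp
      · rw [hp] at hdvd; simp at hdvd
    exact hp2 ((Nat.prime_dvd_prime_iff_eq hp Nat.prime_two).mp hdvd)
  -- symmetry on the unipotent part
  have hsym : ∀ x y : k, uu x ∈ B → uu y ∈ B →
      x * (c (uu y)) 0 0 = y * (c (uu x)) 0 0 := by
    intro x y hx hy
    have e1 := hc.eqE hB hx hy
    have e2 := hc.eqE hB hy hx
    rw [uu_mul_uu] at e1 e2
    rw [add_comm y x, e1] at e2
    simp only [uu_apply_00, uu_apply_01, hF _ hx, hF _ hy, one_pow, one_mul, mul_one,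
      mul_zero, sub_zero] at e2
    have e3 : 2 * (x * (c (uu y)) 0 0 - y * (c (uu x)) 0 0) = 0 := by
      linear_combination (-1 : k) * e2
    rcases mul_eq_zero.mp e3 with h | h
    · exact absurd h h2
    · exact sub_eq_zero.mp h
  -- equivariance
  have hequiv : ∀ g ∈ B, ∀ x : k, uu x ∈ B →
      (c (uu (g 0 0 / g 1 1 * x))) 0 0 = g 0 0 * g 1 1 * (c (uu x)) 0 0 := by
    intro g hg x hx
    have e1 := hc.eqH hB hg hx
    have e2 := hc.eqH hB (uu_smul_mem hg (hB g hg) hx) hg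
    rw [← um_mul_uu (hB g hg), e1] at e2
    simp only [uu_apply_00, uu_apply_11, hF _ hx, hF _ hg, one_mul, mul_zero, add_zero] at e2
    linear_combination -e2
  -- the constant `μ`
  have hμ : ∃ μ : k, (∀ g ∈ B, g 1 1 ^ 2 * μ = μ) ∧ ∀ x : k, uu x ∈ B → (c (uu x)) 0 0 = μ * x := by
    by_cases hcase : ∃ g ∈ B, g 1 1 ^ 2 ≠ 1
    · obtain ⟨g, hg, hne⟩ := hcase
      refine ⟨0, fun _ _ => by simp, fun x hx => ?_⟩
      rw [zero_mul]
      by_cases hx0 : x = 0
      · rw [hx0, uu_zero, hc.map_one]; rfl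
      · have hd := um_apply_11_ne (hB g hg)
        have ha := um_apply_00_ne (hB g hg)
        have e1 := hsym x _ hx (uu_smul_mem hg (hB g hg) hx)
        rw [hequiv g hg x hx] at e1
        have e2 : g 0 0 * (g 1 1 ^ 2 - 1) * (x * (c (uu x)) 0 0) = 0 := by
          have : g 0 0 / g 1 1 * x * (c (uu x)) 0 0 * g 1 1 = g 0 0 * (x * (c (uu x)) 0 0) := by
            field_simp
          linear_combination g 1 1 * e1 + this
        rcases mul_eq_zero.mp e2 with h | h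
        · rcases mul_eq_zero.mp h with h | h
          · exact absurd h ha
          · exact absurd (sub_eq_zero.mp h) hne
        · rcases mul_eq_zero.mp h with h | h
          · exact absurd h hx0
          · exact h
    · simp only [not_exists, not_and, not_not] at hcase
      by_cases hA : ∃ x₀ : k, x₀ ≠ 0 ∧ uu x₀ ∈ B
      · obtain ⟨x₀, hx₀, hx₀B⟩ := hA
        refine ⟨(c (uu x₀)) 0 0 / x₀, fun g hg => by rw [hcase g hg, one_mul], fun x hx => ?_⟩
        have := hsym x₀ x hx₀B hx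
        field_simp
        linear_combination this
      · simp only [not_exists, not_and] at hA
        refine ⟨0, fun _ _ => by simp, fun x hx => ?_⟩
        have hx0 : x = 0 := by
          by_contra h
          exact hA x h hx
        rw [hx0, uu_zero, hc.map_one]; simp
  obtain ⟨μ, hμ1, hμ2⟩ := hμ
  -- the modified cocycle
  have hc' := hc.sub_cob (ehf 0 0 μ) (trace_ehf _ _ _)
  have hF' : ∀ g ∈ B, (c g - (tw g (ehf 0 0 μ) - ehf 0 0 μ)) 1 0 = 0 := by
    intro g hg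
    rw [Matrix.sub_apply, Matrix.sub_apply, tw_apply_10 (hB g hg), hF g hg]
    simp only [ehf_apply_10]
    rw [hμ1 g hg]; ring
  have hP' : ∀ x : k, uu x ∈ B → (c (uu x) - (tw (uu x) (ehf 0 0 μ) - ehf 0 0 μ)) 0 0 = 0 := by
    intro x hx
    rw [Matrix.sub_apply, Matrix.sub_apply, tw_apply_00 (hB _ hx), hμ2 x hx]
    simp only [ehf_apply_10, ehf_apply_00, uu_apply_00, uu_apply_11, uu_apply_01]
    ring
  obtain ⟨ν, hν⟩ := layer B hB (fun g => g 0 0 * g 1 1)
    (fun g => (c g - (tw g (ehf 0 0 μ) - ehf 0 0 μ)) 0 0)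
    (fun g hg g' hg' => by
      have := hc'.eqH hB hg hg'
      rw [hF' g' hg', mul_zero, add_zero] at this
      exact this) hP'
  refine ⟨ehf 0 ν μ, trace_ehf _ _ _, fun g hg => ⟨?_, ?_⟩⟩
  · have := hF' g hg
    rw [Matrix.sub_apply, Matrix.sub_apply, tw_apply_10 (hB g hg)] at this ⊢
    simpa using this
  · have := hν g hg
    rw [Matrix.sub_apply, Matrix.sub_apply, tw_apply_00 (hB g hg)] at this ⊢
    simp only [ehf_apply_10, ehf_apply_00] at this ⊢
    linear_combination this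

/-- **Layer `e`**: a cocycle with vanishing `(1,0)`- and `(0,0)`-entries is a coboundary. -/
lemma stepE (hB : ∀ g ∈ B, g 1 0 = 0)
    (hδ : ∃ g ∈ B, g 0 0 * g 1 1 ≠ 1)
    (hlin : ∀ φ : k → k, (∀ x y, uu x ∈ B → uu y ∈ B → φ (x + y) = φ x + φ y) →
      (∀ g ∈ B, g 0 0 * g 1 1 = 1 → ∀ x, uu x ∈ B →
        φ (g 0 0 / g 1 1 * x) = g 0 0 / g 1 1 * φ x) →
      ∃ κ : k, ∀ x, uu x ∈ B → φ x = κ * x)
    (hc : IsCocycle B c) (hF : ∀ g ∈ B, (c g) 1 0 = 0) (hH : ∀ g ∈ B, (c g) 0 0 = 0) :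
    IsCoboundary B c := by
  -- additivity
  have hadd : ∀ x y : k, uu x ∈ B → uu y ∈ B →
      (c (uu (x + y))) 0 1 = (c (uu x)) 0 1 + (c (uu y)) 0 1 := by
    intro x y hx hy
    have e1 := hc.eqE hB hx hy
    rw [uu_mul_uu] at e1
    rw [e1, hF _ hy, hH _ hy]
    simp
  -- equivariance
  have hequiv : ∀ g ∈ B, ∀ x : k, uu x ∈ B →
      (c (uu (g 0 0 / g 1 1 * x))) 0 1 = g 0 0 ^ 2 * (c (uu x)) 0 1 := by
    intro g hg x hx
    have e1 := hc.eqE hB hg hx
    have e2 := hc.eqE hB (uu_smul_mem hg (hB g hg) hx) hg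
    rw [← um_mul_uu (hB g hg), e1] at e2
    simp only [uu_apply_00, hF _ hx, hF _ hg, hH _ hx, hH _ hg, one_pow, one_mul, mul_zero,
      sub_zero] at e2
    linear_combination -e2
  obtain ⟨κ, hκ⟩ := hlin (fun x => (c (uu x)) 0 1) hadd (by
    intro g hg hdet x hx
    have hd := um_apply_11_ne (hB g hg)
    show (c (uu (g 0 0 / g 1 1 * x))) 0 1 = g 0 0 / g 1 1 * (c (uu x)) 0 1
    rw [hequiv g hg x hx]
    have : g 0 0 ^ 2 = g 0 0 / g 1 1 := by
      field_simp
      linear_combination g 0 0 * hdet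
    rw [this])
  -- vanishing on the unipotent part
  have hP : ∀ x : k, uu x ∈ B → (c (uu x)) 0 1 = 0 := by
    intro x hx
    obtain ⟨g, hg, hne⟩ := hδ
    have hd := um_apply_11_ne (hB g hg)
    have ha := um_apply_00_ne (hB g hg)
    have e1 := hequiv g hg x hx
    have e2 : (c (uu (g 0 0 / g 1 1 * x))) 0 1 = κ * (g 0 0 / g 1 1 * x) :=
      hκ _ (uu_smul_mem hg (hB g hg) hx)
    have e3 : (c (uu x)) 0 1 = κ * x := hκ x hx
    rw [e2, e3] at e1
    have e4 : g 0 0 * (1 - g 0 0 * g 1 1) * (κ * x) = 0 := by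
      have : κ * (g 0 0 / g 1 1 * x) * g 1 1 = g 0 0 * (κ * x) := by
        field_simp
      linear_combination g 1 1 * e1 - this
    rw [e3]
    rcases mul_eq_zero.mp e4 with h | h
    · rcases mul_eq_zero.mp h with h | h
      · exact absurd h ha
      · exact absurd (sub_eq_zero.mp h).symm hne
    · exact h
  obtain ⟨ν, hν⟩ := layer B hB (fun g => g 0 0 ^ 2) (fun g => (c g) 0 1)
    (fun g hg g' hg' => by
      have := hc.eqE hB hg hg'
      rw [this, hF g' hg', hH g' hg']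
      ring) hP
  refine ⟨ehf ν 0 0, trace_ehf _ _ _, fun g hg => ?_⟩
  have htr : (tw g (ehf ν 0 0) - ehf ν 0 0).trace = 0 := by
    rw [Matrix.trace_sub, trace_tw, trace_ehf, mul_zero, sub_zero]
  apply eq_of_trace_zero (hc.1 g hg) htr
  · rw [hF g hg, Matrix.sub_apply, tw_apply_10 (hB g hg)]
    simp
  · rw [hH g hg, Matrix.sub_apply, tw_apply_00 (hB g hg)]
    simp
  · rw [hν g hg, Matrix.sub_apply, tw_apply_01 (hB g hg) _ (trace_ehf _ _ _)]
    simp only [ehf_apply_01, ehf_apply_00, ehf_apply_10]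
    ring

end steps

/-- **GT-COC, core**: on a finite group `B` of upper triangular matrices every cocycle with
values in `ad0(1)` is a coboundary, under the hypotheses `hδ`, `hf`, `hlin`. -/
theorem coc_core [Finite k] (p : ℕ) [CharP k p] (hp2 : p ≠ 2)
    (B : Subgroup (GL (Fin 2) k)) (hB : ∀ g ∈ B, g 1 0 = 0)
    (hδ : ∃ g ∈ B, g 0 0 * g 1 1 ≠ 1)
    (hf : (∃ x : k, x ≠ 0 ∧ uu x ∈ B) → ∃ g ∈ B, g 0 0 ≠ g 1 1 ^ 3)
    (hlin : ∀ φ : k → k, (∀ x y, uu x ∈ B → uu y ∈ B → φ (x + y) = φ x + φ y) →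
      (∀ g ∈ B, g 0 0 * g 1 1 = 1 → ∀ x, uu x ∈ B →
        φ (g 0 0 / g 1 1 * x) = g 0 0 / g 1 1 * φ x) →
      ∃ κ : k, ∀ x, uu x ∈ B → φ x = κ * x)
    (c : GL (Fin 2) k → Matrix (Fin 2) (Fin 2) k) (hc : IsCocycle B c) :
    IsCoboundary B c := by
  obtain ⟨X₁, hX₁, h1⟩ := stepF hB hf hc
  have hc₁ := hc.sub_cob X₁ hX₁
  obtain ⟨X₂, hX₂, h2⟩ := stepH p hp2 hB hc₁ h1
  have hc₂ := hc₁.sub_cob X₂ hX₂
  have h3 := stepE hB hδ hlin hc₂ (fun g hg => (h2 g hg).1) (fun g hg => (h2 g hg).2)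
  exact isCoboundary_of_sub_cob X₁ hX₁ (isCoboundary_of_sub_cob X₂ hX₂ h3)

end Fermat.Agent.P1.helper3
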