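import Fermat.Agent.P1.helper3_GTCoc

/-!
# P1 / TW-GT (helper3): GT-COC, corollaries

`coc_upperPart`: for a subgroup `Γ` of `GL₂(k)` (`k` finite of odd characteristic `p`) every
cocycle with values in `ad0(1)` on the upper triangular part of `Γ` is a coboundary, provided
* the determinant of the upper triangular part takes every value of `𝔽_p^×` (Frattini),
* if `A = {a | uu a ∈ Γ}` has more than `p` elements: `|A| ≤ 2 |Θ| + 1`, where `Θ` is the set of
  multipliers `a / d` of the determinant one upper triangular elements (class equation).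
-/

set_option autoImplicit false
open Matrix

namespace Fermat.Agent.P1.helper3

variable {k : Type*} [Field k]

/-- the additive group `A = {x | uu x ∈ Γ}` -/
def unipAdd (Γ : Subgroup (GL (Fin 2) k)) : AddSubgroup k where
  carrier := {x | uu x ∈ Γ}
  zero_mem' := by
    show uu 0 ∈ Γ
    rw [uu_zero]; exact Γ.one_mem
  add_mem' := fun {x y} hx hy => by
    show uu (x + y) ∈ Γ
    rw [← uu_mul_uu]; exact Γ.mul_mem hx hy
  neg_mem' := fun {x} hx => by
    show uu (-x) ∈ Γ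
    have : uu (-x) = (uu x)⁻¹ := by
      rw [eq_inv_iff_mul_eq_one, uu_mul_uu, neg_add_cancel, uu_zero]
    rw [this]; exact Γ.inv_mem hx

lemma mem_unipAdd {Γ : Subgroup (GL (Fin 2) k)} {x : k} : x ∈ unipAdd Γ ↔ uu x ∈ Γ := Iff.rfl

lemma uu_mem_upperPart {Γ : Subgroup (GL (Fin 2) k)} {x : k} :
    uu x ∈ upperPart Γ ↔ uu x ∈ Γ := by
  rw [mem_upperPart]
  exact ⟨fun h => h.1, fun h => ⟨h, uu_apply_10 x⟩⟩

/-- the set `Θ` of multipliers of the determinant one upper triangular elements -/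
def multSet (Γ : Subgroup (GL (Fin 2) k)) : Set k :=
  {τ : k | ∃ g ∈ Γ, (g : Matrix (Fin 2) (Fin 2) k).det = 1 ∧
    (g : Matrix (Fin 2) (Fin 2) k) 1 0 = 0 ∧
    τ = (g : Matrix (Fin 2) (Fin 2) k) 0 0 / (g : Matrix (Fin 2) (Fin 2) k) 1 1}

lemma card_unipAdd (Γ : Subgroup (GL (Fin 2) k)) :
    Nat.card (unipAdd Γ) = Nat.card {a : k | uu a ∈ Γ} := rfl

/-- the additive subgroup of `A` on which `φ` is given by the slope at `x₀` -/
def linSub (Γ : Subgroup (GL (Fin 2) k)) (φ : k → k)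
    (hadd : ∀ x y, uu x ∈ Γ → uu y ∈ Γ → φ (x + y) = φ x + φ y) (x₀ : k) : AddSubgroup k where
  carrier := {x | uu x ∈ Γ ∧ φ x * x₀ = x * φ x₀}
  zero_mem' := by
    have h0 : φ 0 = 0 := by
      have := hadd 0 0 (unipAdd Γ).zero_mem (unipAdd Γ).zero_mem
      rw [add_zero] at this
      simpa using this
    exact ⟨(unipAdd Γ).zero_mem, by rw [h0]; ring⟩
  add_mem' := fun {x y} hx hy => by
    refine ⟨(unipAdd Γ).add_mem hx.1 hy.1, ?_⟩
    rw [hadd x y hx.1 hy.1]
    linear_combination hx.2 + hy.2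
  neg_mem' := fun {x} hx => by
    have h0 : φ 0 = 0 := by
      have := hadd 0 0 (unipAdd Γ).zero_mem (unipAdd Γ).zero_mem
      rw [add_zero] at this
      simpa using this
    have hneg : uu (-x) ∈ Γ := (unipAdd Γ).neg_mem hx.1
    have h1 := hadd x (-x) hx.1 hneg
    rw [add_neg_cancel, h0] at h1
    refine ⟨hneg, ?_⟩
    have : φ (-x) = - φ x := by linear_combination -h1
    rw [this]
    linear_combination -hx.2

lemma linSub_le (Γ : Subgroup (GL (Fin 2) k)) (φ : k → k)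
    (hadd : ∀ x y, uu x ∈ Γ → uu y ∈ Γ → φ (x + y) = φ x + φ y) (x₀ : k) :
    linSub Γ φ hadd x₀ ≤ unipAdd Γ := fun _ hx => hx.1

/-- if the subgroup `linSub` has more than `|A| / 2` elements then `φ` is linear on `A` -/
lemma exists_slope_of_card [Finite k] (Γ : Subgroup (GL (Fin 2) k)) (φ : k → k)
    (hadd : ∀ x y, uu x ∈ Γ → uu y ∈ Γ → φ (x + y) = φ x + φ y) (x₀ : k) (hx₀ : x₀ ≠ 0)
    (hbig : Nat.card (unipAdd Γ) < 2 * Nat.card (linSub Γ φ hadd x₀)) :
    ∃ κ : k, ∀ x, uu x ∈ Γ → φ x = κ * x := by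
  have hdvd : Nat.card (linSub Γ φ hadd x₀) ∣ Nat.card (unipAdd Γ) :=
    AddSubgroup.card_dvd_of_le (linSub_le Γ φ hadd x₀)
  have hpos : 0 < Nat.card (unipAdd Γ) := Nat.card_pos
  obtain ⟨m, hm⟩ := hdvd
  have hm1 : m = 1 := by
    rcases Nat.lt_or_ge m 2 with h | h
    · rcases Nat.eq_zero_or_pos m with h0 | h0
      · rw [h0, mul_zero] at hm; omega
      · omega
    · exfalso
      have : 2 * Nat.card (linSub Γ φ hadd x₀) ≤ Nat.card (linSub Γ φ hadd x₀) * m := by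
        rw [mul_comm]; exact Nat.mul_le_mul_left _ h
      omega
  rw [hm1, mul_one] at hm
  have heq : linSub Γ φ hadd x₀ = unipAdd Γ :=
    AddSubgroup.eq_of_le_of_card_ge (linSub_le Γ φ hadd x₀) hm.le
  refine ⟨φ x₀ / x₀, fun x hx => ?_⟩
  have hx' : x ∈ linSub Γ φ hadd x₀ := by rw [heq]; exact hx
  have := hx'.2
  field_simp
  linear_combination this

/-- `hlin` from the class equation inequality -/
lemma hlin_of_count [Finite k] (Γ : Subgroup (GL (Fin 2) k))
    (hcount : Nat.card {a : k | uu a ∈ Γ} ≤ 2 * Nat.card (multSet Γ) + 1)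
    (φ : k → k)
    (hadd : ∀ x y, uu x ∈ upperPart Γ → uu y ∈ upperPart Γ → φ (x + y) = φ x + φ y)
    (hsemi : ∀ g ∈ upperPart Γ, g 0 0 * g 1 1 = 1 → ∀ x, uu x ∈ upperPart Γ →
        φ (g 0 0 / g 1 1 * x) = g 0 0 / g 1 1 * φ x) :
    ∃ κ : k, ∀ x, uu x ∈ upperPart Γ → φ x = κ * x := by
  classical
  have hadd' : ∀ x y, uu x ∈ Γ → uu y ∈ Γ → φ (x + y) = φ x + φ y := fun x y hx hy =>
    hadd x y (uu_mem_upperPart.mpr hx) (uu_mem_upperPart.mpr hy)
  have h0 : φ 0 = 0 := by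
    have := hadd' 0 0 (unipAdd Γ).zero_mem (unipAdd Γ).zero_mem
    rw [add_zero] at this
    simpa using this
  by_cases hA : ∃ x₀ : k, x₀ ≠ 0 ∧ uu x₀ ∈ Γ
  · obtain ⟨x₀, hx₀, hx₀Γ⟩ := hA
    suffices h : Nat.card (unipAdd Γ) < 2 * Nat.card (linSub Γ φ hadd' x₀) by
      obtain ⟨κ, hκ⟩ := exists_slope_of_card Γ φ hadd' x₀ hx₀ h
      exact ⟨κ, fun x hx => hκ x (uu_mem_upperPart.mp hx)⟩
    -- the subset `Θ x₀ ∪ {0}` of `linSub`
    have hsub : insert 0 ((fun τ : k => τ * x₀) '' multSet Γ)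
        ⊆ (linSub Γ φ hadd' x₀ : Set k) := by
      intro y hy
      rcases hy with rfl | ⟨τ, ⟨g, hg, hdet, hg10, rfl⟩, rfl⟩
      · exact (linSub Γ φ hadd' x₀).zero_mem
      · have hgB : g ∈ upperPart Γ := ⟨hg, hg10⟩
        have hd1 : g 0 0 * g 1 1 = 1 := by rw [← um_det hg10]; exact hdet
        refine ⟨uu_smul_mem hg hg10 hx₀Γ, ?_⟩
        show φ (g 0 0 / g 1 1 * x₀) * x₀ = g 0 0 / g 1 1 * x₀ * φ x₀
        rw [hsemi g hgB hd1 x₀ (uu_mem_upperPart.mpr hx₀Γ)]
        ring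
    have hnot : (0 : k) ∉ (fun τ : k => τ * x₀) '' multSet Γ := by
      rintro ⟨τ, ⟨g, hg, hdet, hg10, rfl⟩, h⟩
      have ha := um_apply_00_ne hg10
      have hd := um_apply_11_ne hg10
      simp only at h
      rcases mul_eq_zero.mp h with h | h
      · exact absurd h (div_ne_zero ha hd)
      · exact hx₀ h
    have hinj : Function.Injective (fun τ : k => τ * x₀) := mul_left_injective₀ hx₀
    have hfin : ((linSub Γ φ hadd' x₀ : Set k)).Finite := Set.toFinite _
    have hcard := Set.ncard_le_ncard hsub hfin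
    rw [Set.ncard_insert_of_notMem hnot (Set.toFinite _),
      Set.ncard_image_of_injective _ hinj] at hcard
    have e1 : Nat.card (linSub Γ φ hadd' x₀) = ((linSub Γ φ hadd' x₀ : Set k)).ncard :=
      Nat.card_coe_set_eq _
    have e2 : Nat.card (multSet Γ) = (multSet Γ).ncard := Nat.card_coe_set_eq _
    rw [card_unipAdd, e1]
    rw [e2] at hcount
    omega
  · simp only [not_exists, not_and] at hA
    refine ⟨0, fun x hx => ?_⟩
    have hx0 : x = 0 := by
      by_contra h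
      exact hA x h (uu_mem_upperPart.mp hx)
    rw [hx0, h0, zero_mul]

/-- `hf` from the class equation inequality: if `|A| ≥ 7` some determinant one upper triangular
element has a multiplier `τ` with `τ ^ 2 ≠ 1`. -/
lemma hf_of_count [Finite k] (Γ : Subgroup (GL (Fin 2) k))
    (hcount : Nat.card {a : k | uu a ∈ Γ} ≤ 2 * Nat.card (multSet Γ) + 1)
    (h7 : 7 ≤ Nat.card {a : k | uu a ∈ Γ}) :
    ∃ g ∈ upperPart Γ, g 0 0 ≠ g 1 1 ^ 3 := by
  classical
  have e2 : Nat.card (multSet Γ) = (multSet Γ).ncard := Nat.card_coe_set_eq _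
  rw [e2] at hcount
  have h3 : 3 ≤ (multSet Γ).ncard := by omega
  have hlt : ({1, -1} : Set k).ncard < (multSet Γ).ncard := by
    have : ({1, -1} : Set k).ncard ≤ 2 := by
      have := Set.ncard_insert_le (1 : k) ({-1} : Set k)
      rw [Set.ncard_singleton] at this
      exact this
    omega
  obtain ⟨τ, hτ, hτn⟩ := Set.exists_mem_notMem_of_ncard_lt_ncard hlt (Set.toFinite _)
  obtain ⟨g, hg, hdet, hg10, rfl⟩ := hτ
  refine ⟨g, ⟨hg, hg10⟩, fun h => hτn ?_⟩
  have hd := um_apply_11_ne hg10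
  have hd1 : g 0 0 * g 1 1 = 1 := by rw [← um_det hg10]; exact hdet
  have h4 : g 1 1 ^ 4 = 1 := by rw [← hd1, h]; ring
  have hτ2 : (g 0 0 / g 1 1) ^ 2 = 1 := by
    rw [h]
    field_simp
    linear_combination h4
  have : (g 0 0 / g 1 1 - 1) * (g 0 0 / g 1 1 + 1) = 0 := by linear_combination hτ2
  rcases mul_eq_zero.mp this with h | h
  · left; exact sub_eq_zero.mp h
  · right
    show g 0 0 / g 1 1 = -1
    linear_combination h

/-! ### the case `|A| = p` -/

lemma exists_ne_zero_of_card_prime [Finite k] (p : ℕ) [Fact p.Prime]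
    (Γ : Subgroup (GL (Fin 2) k)) (hcard : Nat.card {a : k | uu a ∈ Γ} = p) :
    ∃ x₀ : k, x₀ ≠ 0 ∧ uu x₀ ∈ Γ := by
  by_contra h
  simp only [not_exists, not_and] at h
  have hbot : unipAdd Γ = ⊥ := by
    rw [eq_bot_iff]
    intro x hx
    by_contra hx0
    exact h x hx0 hx
  have : Nat.card (unipAdd Γ) = 1 := AddSubgroup.card_eq_one.mpr hbot
  rw [card_unipAdd, hcard] at this
  exact (Fact.out : p.Prime).one_lt.ne' this

/-- `hlin` when `|A| = p` -/
lemma hlin_of_card_prime [Finite k] (p : ℕ) [Fact p.Prime]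
    (Γ : Subgroup (GL (Fin 2) k)) (hcard : Nat.card {a : k | uu a ∈ Γ} = p)
    (φ : k → k)
    (hadd : ∀ x y, uu x ∈ upperPart Γ → uu y ∈ upperPart Γ → φ (x + y) = φ x + φ y) :
    ∃ κ : k, ∀ x, uu x ∈ upperPart Γ → φ x = κ * x := by
  have hp : p.Prime := Fact.out
  have hadd' : ∀ x y, uu x ∈ Γ → uu y ∈ Γ → φ (x + y) = φ x + φ y := fun x y hx hy =>
    hadd x y (uu_mem_upperPart.mpr hx) (uu_mem_upperPart.mpr hy)
  obtain ⟨x₀, hx₀, hx₀Γ⟩ := exists_ne_zero_of_card_prime p Γ hcard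
  have hdvd : Nat.card (linSub Γ φ hadd' x₀) ∣ Nat.card (unipAdd Γ) :=
    AddSubgroup.card_dvd_of_le (linSub_le Γ φ hadd' x₀)
  rw [card_unipAdd, hcard] at hdvd
  have hne1 : Nat.card (linSub Γ φ hadd' x₀) ≠ 1 := by
    intro h1
    have hbot := AddSubgroup.card_eq_one.mp h1
    have hmem : x₀ ∈ linSub Γ φ hadd' x₀ := ⟨hx₀Γ, mul_comm _ _⟩
    rw [hbot, AddSubgroup.mem_bot] at hmem
    exact hx₀ hmem
  have heq : Nat.card (linSub Γ φ hadd' x₀) = p :=
    (hp.eq_one_or_self_of_dvd _ hdvd).resolve_left hne1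
  have hbig : Nat.card (unipAdd Γ) < 2 * Nat.card (linSub Γ φ hadd' x₀) := by
    rw [card_unipAdd, hcard, heq]
    have := hp.pos
    omega
  obtain ⟨κ, hκ⟩ := exists_slope_of_card Γ φ hadd' x₀ hx₀ hbig
  exact ⟨κ, fun x hx => hκ x (uu_mem_upperPart.mp hx)⟩

/-- `hf` when `|A| = p`, from the surjectivity of the determinant onto `𝔽_p^×` -/
lemma hf_of_card_prime [Finite k] (p : ℕ) [Fact p.Prime] [CharP k p] (hp2 : p ≠ 2)
    (Γ : Subgroup (GL (Fin 2) k)) (hcard : Nat.card {a : k | uu a ∈ Γ} = p)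
    (hdet : ∀ n : ℕ, ¬ p ∣ n → ∃ g ∈ upperPart Γ, (g : Matrix (Fin 2) (Fin 2) k).det = (n : k)) :
    ∃ g ∈ upperPart Γ, g 0 0 ≠ g 1 1 ^ 3 := by
  have hp : p.Prime := Fact.out
  obtain ⟨x, hx0, hxΓ⟩ := exists_ne_zero_of_card_prime p Γ hcard
  obtain ⟨n₀, hn₀⟩ := FiniteField.exists_nonsquare (F := ZMod p)
    (by rw [ZMod.ringChar_zmod_n]; exact hp2)
  have hpn : ¬ p ∣ n₀.val := by
    intro h
    apply hn₀
    have h0 : n₀ = 0 := by
      rw [← ZMod.natCast_zmod_val n₀]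
      exact (ZMod.natCast_eq_zero_iff _ _).mpr h
    rw [h0]
    exact ⟨0, by simp⟩
  obtain ⟨g, hg, hdetg⟩ := hdet n₀.val hpn
  refine ⟨g, hg, fun h => hn₀ ?_⟩
  have hg10 : g 1 0 = 0 := hg.2
  have hd := um_apply_11_ne hg10
  rw [um_det hg10] at hdetg
  -- the subgroup generated by `x` is `A`
  have hzm : AddSubgroup.zmultiples x = unipAdd Γ := by
    have hle : AddSubgroup.zmultiples x ≤ unipAdd Γ :=
      AddSubgroup.zmultiples_le_of_mem (show x ∈ unipAdd Γ from hxΓ)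
    apply AddSubgroup.eq_of_le_of_card_ge hle
    rw [card_unipAdd, hcard, Nat.card_zmultiples]
    have hpx : p • x = 0 := by
      rw [nsmul_eq_mul, CharP.cast_eq_zero k p, zero_mul]
    rw [addOrderOf_eq_prime hpx hx0]
  have hsx : g 0 0 / g 1 1 * x ∈ AddSubgroup.zmultiples x := by
    rw [hzm]
    exact uu_smul_mem hg.1 hg10 hxΓ
  obtain ⟨m, hm⟩ := AddSubgroup.mem_zmultiples_iff.mp hsx
  rw [zsmul_eq_mul] at hm
  have hs : g 0 0 / g 1 1 = (m : k) := (mul_right_cancel₀ hx0 hm).symm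
  have hsd : g 0 0 / g 1 1 = g 1 1 ^ 2 := by
    rw [h]; field_simp
  have hkey : ((n₀.val : ℤ) : k) = ((m ^ 2 : ℤ) : k) := by
    push_cast
    rw [← hs, hsd, ← hdetg, h]
    ring
  have hz : (((n₀.val : ℤ) - m ^ 2 : ℤ) : k) = 0 := by
    rw [Int.cast_sub, hkey, sub_self]
  have hdvd := (CharP.intCast_eq_zero_iff k p _).mp hz
  have hz' : (((n₀.val : ℤ) - m ^ 2 : ℤ) : ZMod p) = 0 :=
    (ZMod.intCast_zmod_eq_zero_iff_dvd _ p).mpr hdvd
  refine ⟨(m : ZMod p), ?_⟩
  have : n₀ = ((n₀.val : ℤ) : ZMod p) := by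
    rw [Int.cast_natCast, ZMod.natCast_zmod_val]
  rw [this]
  push_cast at hz' ⊢
  linear_combination hz'

/-! ### the main corollary -/

/-- **GT-COC**: every cocycle with values in `ad0(1)` on the upper triangular part of `Γ` is a
coboundary, if the determinant of the upper triangular part takes all values of `𝔽_p^×` and the
class equation inequality holds when `|A| > p`. -/
theorem coc_upperPart [Finite k] (p : ℕ) [Fact p.Prime] [CharP k p] (hp2 : p ≠ 2)
    (Γ : Subgroup (GL (Fin 2) k))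
    (hdet : ∀ n : ℕ, ¬ p ∣ n → ∃ g ∈ upperPart Γ, (g : Matrix (Fin 2) (Fin 2) k).det = (n : k))
    (hcount : p < Nat.card {a : k | uu a ∈ Γ} →
      Nat.card {a : k | uu a ∈ Γ} ≤ 2 * Nat.card {τ : k | ∃ g ∈ Γ,
        (g : Matrix (Fin 2) (Fin 2) k).det = 1 ∧ (g : Matrix (Fin 2) (Fin 2) k) 1 0 = 0 ∧
        τ = (g : Matrix (Fin 2) (Fin 2) k) 0 0 / (g : Matrix (Fin 2) (Fin 2) k) 1 1} + 1)
    (c : GL (Fin 2) k → Matrix (Fin 2) (Fin 2) k) (hc : IsCocycle (upperPart Γ) c) :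
    IsCoboundary (upperPart Γ) c := by
  have hp : p.Prime := Fact.out
  have hB : ∀ g ∈ upperPart Γ, g 1 0 = 0 := fun g hg => hg.2
  -- `hδ`
  have hδ : ∃ g ∈ upperPart Γ, g 0 0 * g 1 1 ≠ 1 := by
    have hp2' : ¬ p ∣ 2 := by
      intro h
      exact hp2 ((Nat.prime_dvd_prime_iff_eq hp Nat.prime_two).mp h)
    obtain ⟨g, hg, hdetg⟩ := hdet 2 hp2'
    refine ⟨g, hg, ?_⟩
    rw [← um_det hg.2, hdetg]
    intro h
    have h1 : (1 : k) = 0 := by
      push_cast at h
      linear_combination h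
    exact one_ne_zero h1
  -- the cardinality of `A` is a power of `p`
  have hpow : ∃ m : ℕ, Nat.card {a : k | uu a ∈ Γ} = p ^ m := by
    have : Fintype k := Fintype.ofFinite k
    obtain ⟨n, -, hn⟩ := FiniteField.card k p
    have hdvd : Nat.card (unipAdd Γ) ∣ Nat.card k := AddSubgroup.card_addSubgroup_dvd_card _
    rw [Nat.card_eq_fintype_card (α := k), hn, card_unipAdd] at hdvd
    obtain ⟨m, -, hm⟩ := (Nat.dvd_prime_pow hp).mp hdvd
    exact ⟨m, hm⟩
  obtain ⟨m, hm⟩ := hpow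
  by_cases hQ : p < Nat.card {a : k | uu a ∈ Γ}
  · -- `|A| ≥ p ^ 2`
    have hcnt := hcount hQ
    have h7 : 7 ≤ Nat.card {a : k | uu a ∈ Γ} := by
      have hm2 : 2 ≤ m := by
        by_contra hlt
        have hm1 : m ≤ 1 := by omega
        have : p ^ m ≤ p ^ 1 := Nat.pow_le_pow_right hp.pos hm1
        rw [pow_one] at this
        omega
      have h3 : 3 ≤ p := by
        have := hp.two_le
        omega
      have : p ^ 2 ≤ p ^ m := Nat.pow_le_pow_right hp.pos hm2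
      have h9 : 3 ^ 2 ≤ p ^ 2 := Nat.pow_le_pow_left h3 2
      omega
    exact coc_core p hp2 (upperPart Γ) hB hδ (fun _ => hf_of_count Γ hcnt h7)
      (hlin_of_count Γ hcnt) c hc
  · -- `|A| = 1` or `|A| = p`
    have hm1 : m ≤ 1 := by
      by_contra hlt
      have hm2 : 2 ≤ m := by omega
      have h1 : p ^ 2 ≤ p ^ m := Nat.pow_le_pow_right hp.pos hm2
      have h2 : p * 2 ≤ p * p := Nat.mul_le_mul_left p hp.two_le
      have h3 : p ^ 2 = p * p := by ring
      have := hp.pos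
      omega
    rcases Nat.le_one_iff_eq_zero_or_eq_one.mp hm1 with h0 | h1
    · -- `A = 0`
      rw [h0, pow_zero] at hm
      have hbot : unipAdd Γ = ⊥ := AddSubgroup.card_eq_one.mp (by rw [card_unipAdd]; exact hm)
      have hA0 : ∀ x : k, uu x ∈ upperPart Γ → x = 0 := by
        intro x hx
        have : x ∈ unipAdd Γ := uu_mem_upperPart.mp hx
        rw [hbot, AddSubgroup.mem_bot] at this
        exact this
      refine coc_core p hp2 (upperPart Γ) hB hδ ?_ ?_ c hc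
      · rintro ⟨x, hx0, hx⟩
        exact absurd (hA0 x hx) hx0
      · intro φ hadd _
        refine ⟨0, fun x hx => ?_⟩
        have h00 : uu (0 : k) ∈ upperPart Γ := by rw [uu_zero]; exact (upperPart Γ).one_mem
        have h0 : φ 0 = 0 := by
          have := hadd 0 0 h00 h00
          rw [add_zero] at this
          simpa using this
        rw [hA0 x hx, h0, zero_mul]
    · -- `|A| = p`
      rw [h1, pow_one] at hm
      exact coc_core p hp2 (upperPart Γ) hB hδ (fun _ => hf_of_card_prime p hp2 Γ hm hdet)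
        (fun φ hadd _ => hlin_of_card_prime p Γ hm φ hadd) c hc

/-- bridge to the `mkOfDetNeZero` form of the unipotent matrices -/
lemma uu_eq_mkOfDetNeZero (a : k) (h : (!![1, a; 0, 1] : Matrix (Fin 2) (Fin 2) k).det ≠ 0) :
    uu a = Matrix.GeneralLinearGroup.mkOfDetNeZero !![1, a; 0, 1] h := by
  apply Units.ext
  rfl

end Fermat.Agent.P1.helper3
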