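import Mathlib

/-!
# P1 / TW-GT (helper3): definitions for the group theory of Taylor-Wiles primes

Everything is stated for subgroups `Γ` of `GL (Fin 2) k`, `k` a field, and explicit cocycles
with values in `ad(1)`: the `2 × 2` matrices with the twisted adjoint action
`g • X = det g • (g X g⁻¹)` (`ad0(1)` = the trace zero part).

* `tw g X` : the twisted adjoint action.
* `IsCocycle Γ c`, `IsCoboundary Γ c` : `1`-cocycles / coboundaries on `Γ` with values in `ad0(1)`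
  (functions on the whole group, only the values on `Γ` matter).
* `IsIrr Γ` : `Γ` has no invariant line in `k²`.
* `uu x`, `dd a d` : the matrices `!![1, x; 0, 1]` and `!![a, 0; 0, d]` as elements of `GL`.
* `NormalForm p Γ` : the upper triangular part of `Γ` is `{uu x} ⋊ {dd a d}`, contains a
  nontrivial `uu x` and has index prime to `p`.
-/

set_option autoImplicit false

open Matrix

namespace Fermat.Agent.P1.helper3

variable {k : Type*} [Field k]

/-- the twisted adjoint action `g • X = det g • (g X g⁻¹)` -/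
def tw (g : GL (Fin 2) k) (X : Matrix (Fin 2) (Fin 2) k) : Matrix (Fin 2) (Fin 2) k :=
  ((Matrix.GeneralLinearGroup.det g : kˣ) : k) •
    ((g : Matrix (Fin 2) (Fin 2) k) * X * ((g⁻¹ : GL (Fin 2) k) : Matrix (Fin 2) (Fin 2) k))

@[simp] lemma tw_one (X : Matrix (Fin 2) (Fin 2) k) : tw (1 : GL (Fin 2) k) X = X := by
  simp [tw]

lemma tw_mul (g h : GL (Fin 2) k) (X : Matrix (Fin 2) (Fin 2) k) :
    tw (g * h) X = tw g (tw h X) := by
  rw [tw, tw, tw, _root_.mul_inv_rev]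
  simp only [map_mul, Units.val_mul, Matrix.mul_smul, Matrix.smul_mul, smul_smul,
    Matrix.mul_assoc]

@[simp] lemma tw_zero (g : GL (Fin 2) k) : tw g (0 : Matrix (Fin 2) (Fin 2) k) = 0 := by
  simp [tw]

lemma tw_add (g : GL (Fin 2) k) (X Y : Matrix (Fin 2) (Fin 2) k) :
    tw g (X + Y) = tw g X + tw g Y := by
  simp [tw, Matrix.mul_add, Matrix.add_mul]

lemma tw_sub (g : GL (Fin 2) k) (X Y : Matrix (Fin 2) (Fin 2) k) :
    tw g (X - Y) = tw g X - tw g Y := by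
  simp [tw, Matrix.mul_sub, Matrix.sub_mul, smul_sub]

lemma tw_neg (g : GL (Fin 2) k) (X : Matrix (Fin 2) (Fin 2) k) :
    tw g (-X) = -tw g X := by
  simp [tw]

lemma tw_smul (g : GL (Fin 2) k) (a : k) (X : Matrix (Fin 2) (Fin 2) k) :
    tw g (a • X) = a • tw g X := by
  simp [tw, smul_smul, mul_comm]

lemma tw_sum {ι : Type*} (s : Finset ι) (g : GL (Fin 2) k)
    (X : ι → Matrix (Fin 2) (Fin 2) k) : tw g (∑ i ∈ s, X i) = ∑ i ∈ s, tw g (X i) := by
  classical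
  induction s using Finset.induction_on with
  | empty => simp
  | insert a s ha ih => rw [Finset.sum_insert ha, Finset.sum_insert ha, tw_add, ih]

lemma trace_tw (g : GL (Fin 2) k) (X : Matrix (Fin 2) (Fin 2) k) :
    (tw g X).trace = ((Matrix.GeneralLinearGroup.det g : kˣ) : k) * X.trace := by
  rw [tw, Matrix.trace_smul, Matrix.trace_mul_cycle, smul_eq_mul]
  congr 2
  have : ((g⁻¹ : GL (Fin 2) k) : Matrix (Fin 2) (Fin 2) k) * (g : Matrix (Fin 2) (Fin 2) k) = 1 := by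
    rw [← Units.val_mul, inv_mul_cancel, Units.val_one]
  rw [this, Matrix.one_mul]

lemma tw_inv_tw (g : GL (Fin 2) k) (X : Matrix (Fin 2) (Fin 2) k) : tw g⁻¹ (tw g X) = X := by
  rw [← tw_mul, inv_mul_cancel, tw_one]

lemma tw_tw_inv (g : GL (Fin 2) k) (X : Matrix (Fin 2) (Fin 2) k) : tw g (tw g⁻¹ X) = X := by
  rw [← tw_mul, mul_inv_cancel, tw_one]

/-- `1`-cocycles on `Γ` with values in `ad0(1)` -/
def IsCocycle (Γ : Subgroup (GL (Fin 2) k))
    (c : GL (Fin 2) k → Matrix (Fin 2) (Fin 2) k) : Prop :=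
  (∀ g ∈ Γ, (c g).trace = 0) ∧ ∀ g ∈ Γ, ∀ h ∈ Γ, c (g * h) = c g + tw g (c h)

/-- `1`-coboundaries on `Γ` with values in `ad0(1)` -/
def IsCoboundary (Γ : Subgroup (GL (Fin 2) k))
    (c : GL (Fin 2) k → Matrix (Fin 2) (Fin 2) k) : Prop :=
  ∃ X : Matrix (Fin 2) (Fin 2) k, X.trace = 0 ∧ ∀ g ∈ Γ, c g = tw g X - X

/-- `Γ` has no invariant line in `k²` -/
def IsIrr (Γ : Subgroup (GL (Fin 2) k)) : Prop :=
  ∀ v : Fin 2 → k, v ≠ 0 → ∃ g ∈ Γ, ∀ a : k, (g : Matrix (Fin 2) (Fin 2) k) *ᵥ v ≠ a • v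

/-- the unipotent matrix `!![1, x; 0, 1]` -/
def uu (x : k) : GL (Fin 2) k :=
  ⟨!![1, x; 0, 1], !![1, -x; 0, 1],
    by ext i j; fin_cases i <;> fin_cases j <;> simp [Matrix.mul_apply, Fin.sum_univ_two],
    by ext i j; fin_cases i <;> fin_cases j <;> simp [Matrix.mul_apply, Fin.sum_univ_two]⟩

@[simp] lemma coe_uu (x : k) : ((uu x : GL (Fin 2) k) : Matrix (Fin 2) (Fin 2) k) = !![1, x; 0, 1] :=
  rfl

/-- the diagonal matrix `!![a, 0; 0, d]` -/
def dd (a d : kˣ) : GL (Fin 2) k :=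
  ⟨!![(a : k), 0; 0, (d : k)], !![((a⁻¹ : kˣ) : k), 0; 0, ((d⁻¹ : kˣ) : k)],
    by ext i j; fin_cases i <;> fin_cases j <;> simp [Matrix.mul_apply, Fin.sum_univ_two],
    by ext i j; fin_cases i <;> fin_cases j <;> simp [Matrix.mul_apply, Fin.sum_univ_two]⟩

@[simp] lemma coe_dd (a d : kˣ) :
    ((dd a d : GL (Fin 2) k) : Matrix (Fin 2) (Fin 2) k) = !![(a : k), 0; 0, (d : k)] := rfl

/-- the upper triangular part of `Γ` (the stabiliser of the first coordinate line) -/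
def upperPart (Γ : Subgroup (GL (Fin 2) k)) : Subgroup (GL (Fin 2) k) where
  carrier := {g | g ∈ Γ ∧ (g : Matrix (Fin 2) (Fin 2) k) 1 0 = 0}
  one_mem' := ⟨Γ.one_mem, by simp⟩
  mul_mem' := by
    rintro g h ⟨hg, hg0⟩ ⟨hh, hh0⟩
    refine ⟨Γ.mul_mem hg hh, ?_⟩
    rw [Units.val_mul, Matrix.mul_apply, Fin.sum_univ_two, hg0, hh0]
    simp
  inv_mem' := by
    rintro g ⟨hg, hg0⟩
    refine ⟨Γ.inv_mem hg, ?_⟩
    have h1 : (g : Matrix (Fin 2) (Fin 2) k) * ((g⁻¹ : GL (Fin 2) k) : Matrix (Fin 2) (Fin 2) k)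
        = 1 := by rw [← Units.val_mul, mul_inv_cancel, Units.val_one]
    have e10 := congrFun (congrFun h1 1) 0
    have e11 := congrFun (congrFun h1 1) 1
    rw [Matrix.mul_apply, Fin.sum_univ_two, hg0] at e10 e11
    simp only [zero_mul, zero_add, Matrix.one_apply_ne (show (1 : Fin 2) ≠ 0 by decide),
      Matrix.one_apply_eq] at e10 e11
    have hne : (g : Matrix (Fin 2) (Fin 2) k) 1 1 ≠ 0 := by
      intro h
      rw [h, zero_mul] at e11
      exact zero_ne_one e11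
    rcases mul_eq_zero.mp e10 with h | h
    · exact absurd h hne
    · exact h

lemma mem_upperPart {Γ : Subgroup (GL (Fin 2) k)} {g : GL (Fin 2) k} :
    g ∈ upperPart Γ ↔ g ∈ Γ ∧ (g : Matrix (Fin 2) (Fin 2) k) 1 0 = 0 := Iff.rfl

lemma upperPart_le (Γ : Subgroup (GL (Fin 2) k)) : upperPart Γ ≤ Γ := fun _ h => h.1

/-- **Normal form**: `Γ` contains a nontrivial `uu x`, the upper triangular part of `Γ` is the
product of its unipotent and its diagonal elements, and it has index prime to `p` in `Γ`. -/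
def NormalForm (p : ℕ) (Γ : Subgroup (GL (Fin 2) k)) : Prop :=
  (∃ x : k, x ≠ 0 ∧ uu x ∈ Γ) ∧
  (∀ g ∈ upperPart Γ, ∃ (a d : kˣ) (x : k), dd a d ∈ Γ ∧ uu x ∈ Γ ∧ g = uu x * dd a d) ∧
  ¬ p ∣ (upperPart Γ).relIndex Γ

/-- the conjugate subgroup `γ Γ γ⁻¹` -/
def conj (γ : GL (Fin 2) k) (Γ : Subgroup (GL (Fin 2) k)) : Subgroup (GL (Fin 2) k) :=
  Γ.map (MulAut.conj γ).toMonoidHom

lemma mem_conj {γ : GL (Fin 2) k} {Γ : Subgroup (GL (Fin 2) k)} {g : GL (Fin 2) k} :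
    g ∈ conj γ Γ ↔ γ⁻¹ * g * γ ∈ Γ := by
  constructor
  · rintro ⟨h, hh, rfl⟩
    simpa [mul_assoc] using hh
  · intro h
    exact ⟨γ⁻¹ * g * γ, h, by simp [mul_assoc]⟩

end Fermat.Agent.P1.helper3
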