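import Fermat.Agent.P1.helper40_CEOrbit

/-!
# P1 / TW-GT / class equation (helper40): the statement `ClassEqStatement` and its proof

Let `k` be a finite field of odd characteristic `p` and `Γ ≤ GL₂(k)` a subgroup all of whose
elements have a split characteristic polynomial, which is not contained in the upper triangular
Borel subgroup and contains a nontrivial upper unitriangular element.  Then

`#{a | u(a) ∈ Γ} ≤ 2 · #{t₀₀ / t₁₁ | t ∈ Γ, det t = 1, t upper triangular} + 1`.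

This is the Dickson-type counting bound, proved by the class equation of the action of
`Γ ∩ SL₂(k)` on the set of fixed points of its elements of order `p` in `ℙ¹(k)`.
-/

set_option autoImplicit false

open Polynomial Matrix MatrixGroups
open scoped LinearAlgebra.Projectivization

namespace Fermat.Agent.P1.helper40

section Defs

variable {k : Type*} [Field k]

/-- The upper unitriangular matrix `u a = !![1, a; 0, 1]` as an element of `GL (Fin 2) k`. -/
noncomputable def uMat (a : k) : GL (Fin 2) k :=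
  Matrix.GeneralLinearGroup.mkOfDetNeZero !![1, a; 0, 1] (by simp [Matrix.det_fin_two])

/-- **Class equation bound** (Dickson counting). -/
def ClassEqStatement : Prop :=
  ∀ (k : Type) [Field k] [Finite k] (p : ℕ) [Fact p.Prime] [CharP k p], p ≠ 2 →
    ∀ (Γ : Subgroup (GL (Fin 2) k)),
      (∀ g ∈ Γ, ∃ α β : k, (g : Matrix (Fin 2) (Fin 2) k).charpoly = (X - C α) * (X - C β)) →
      (∃ g ∈ Γ, (g : Matrix (Fin 2) (Fin 2) k) 1 0 ≠ 0) →
      (∃ a : k, a ≠ 0 ∧ uMat a ∈ Γ) →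
      Nat.card {a : k | uMat a ∈ Γ} ≤
        2 * Nat.card {τ : k | ∃ g ∈ Γ, (g : Matrix (Fin 2) (Fin 2) k).det = 1 ∧
          (g : Matrix (Fin 2) (Fin 2) k) 1 0 = 0 ∧
          τ = (g : Matrix (Fin 2) (Fin 2) k) 0 0 / (g : Matrix (Fin 2) (Fin 2) k) 1 1} + 1

lemma uMat_apply (a : k) : ((uMat a : GL (Fin 2) k) : Matrix (Fin 2) (Fin 2) k) = !![1, a; 0, 1] :=
  rfl

lemma toGL_uSL (a : k) : Matrix.SpecialLinearGroup.toGL (uSL a) = uMat a := by
  apply Matrix.GeneralLinearGroup.ext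
  intro i j
  rfl

lemma toGL_smul (s : SL(2, k)) (x : PL k) : Matrix.SpecialLinearGroup.toGL s • x = s • x := by
  induction x using Projectivization.ind with
  | h v hv => rfl

lemma toGL_apply (s : SL(2, k)) (i j : Fin 2) :
    ((Matrix.SpecialLinearGroup.toGL s : GL (Fin 2) k) : Matrix (Fin 2) (Fin 2) k) i j = s i j :=
  rfl

/-- An element of `GL₂` of determinant one, as an element of `SL₂`. -/
def slOfDet (g : GL (Fin 2) k) (hg : (g : Matrix (Fin 2) (Fin 2) k).det = 1) : SL(2, k) :=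
  ⟨(g : Matrix (Fin 2) (Fin 2) k), hg⟩

lemma toGL_slOfDet (g : GL (Fin 2) k) (hg : (g : Matrix (Fin 2) (Fin 2) k).det = 1) :
    Matrix.SpecialLinearGroup.toGL (slOfDet g hg) = g := by
  apply Matrix.GeneralLinearGroup.ext
  intro i j
  rfl

lemma slOfDet_apply (g : GL (Fin 2) k) (hg : (g : Matrix (Fin 2) (Fin 2) k).det = 1)
    (i j : Fin 2) : slOfDet g hg i j = (g : Matrix (Fin 2) (Fin 2) k) i j := rfl

/-- A matrix with split characteristic polynomial fixes a point of the projective line. -/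
lemma exists_fixed_of_split (s : SL(2, k)) (α β : k)
    (h : (s : Matrix (Fin 2) (Fin 2) k).charpoly = (X - C α) * (X - C β)) :
    ∃ x : PL k, s • x = x := by
  have h0 : ((Matrix.scalar (Fin 2)) α - (s : Matrix (Fin 2) (Fin 2) k)).det = 0 := by
    rw [← Matrix.eval_charpoly, h]
    simp
  obtain ⟨v, hv, hv0⟩ := Matrix.exists_mulVec_eq_zero_iff.2 h0
  refine ⟨Projectivization.mk k v hv, ?_⟩
  rw [smul_mk_eq_iff]
  refine ⟨α, ?_⟩
  rw [Matrix.sub_mulVec, sub_eq_zero] at hv0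
  rw [← hv0]
  funext i
  simp [Matrix.mulVec, dotProduct, Matrix.scalar_apply, Matrix.diagonal_apply]

end Defs

section Main

variable {k : Type*} [Field k]

/-- The conjugate of a nontrivial unipotent by a non-upper-triangular element moves `x₀`. -/
lemma conj_uSL_smul_x0_ne {a : k} (ha : a ≠ 0) (γ : GL (Fin 2) k)
    (hγ : (γ : Matrix (Fin 2) (Fin 2) k) 1 0 ≠ 0) :
    (γ * uMat a * γ⁻¹) • x0 k ≠ x0 k := by
  intro h
  rw [mul_smul, mul_smul, smul_eq_iff_eq_inv_smul, ← toGL_uSL, toGL_smul,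
    uSL_smul_eq_iff ha] at h
  have h2 : γ • x0 k = x0 k := by
    rw [smul_eq_iff_eq_inv_smul]
    exact h.symm
  apply hγ
  unfold x0 at h2
  rw [Projectivization.smul_mk, Projectivization.mk_eq_mk_iff'] at h2
  obtain ⟨c, hc⟩ := h2
  have h1 := congrFun hc 1
  have : (γ • e0 k) 1 = (γ : Matrix (Fin 2) (Fin 2) k) 1 0 := by
    change ((γ : Matrix (Fin 2) (Fin 2) k) *ᵥ e0 k) 1 = _
    rw [mulVec_fin_two]
    simp [e0]
  rw [this] at h1
  rw [← h1]
  simp [e0]

lemma det_conj_uMat (a : k) (γ : GL (Fin 2) k) :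
    ((γ * uMat a * γ⁻¹ : GL (Fin 2) k) : Matrix (Fin 2) (Fin 2) k).det = 1 := by
  rw [← Matrix.GeneralLinearGroup.val_det_apply, map_mul, map_mul, map_inv, mul_comm,
    inv_mul_cancel_left, Matrix.GeneralLinearGroup.val_det_apply, uMat_apply]
  simp [Matrix.det_fin_two]

variable [Finite k] (p : ℕ) [Fact p.Prime] [CharP k p]

/-- **Class equation bound**, universe polymorphic version. -/
theorem classEq_of_field (hp2 : p ≠ 2) (Γ : Subgroup (GL (Fin 2) k))
    (hsplit : ∀ g ∈ Γ, ∃ α β : k,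
      (g : Matrix (Fin 2) (Fin 2) k).charpoly = (X - C α) * (X - C β))
    (hmove : ∃ g ∈ Γ, (g : Matrix (Fin 2) (Fin 2) k) 1 0 ≠ 0)
    (hA : ∃ a : k, a ≠ 0 ∧ uMat a ∈ Γ) :
    Nat.card {a : k | uMat a ∈ Γ} ≤
      2 * Nat.card {τ : k | ∃ g ∈ Γ, (g : Matrix (Fin 2) (Fin 2) k).det = 1 ∧
        (g : Matrix (Fin 2) (Fin 2) k) 1 0 = 0 ∧
        τ = (g : Matrix (Fin 2) (Fin 2) k) 0 0 / (g : Matrix (Fin 2) (Fin 2) k) 1 1} + 1 := by
  classical
  set G : Subgroup SL(2, k) := Γ.comap Matrix.SpecialLinearGroup.toGL with hG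
  have hmemG : ∀ s : SL(2, k), s ∈ G ↔ Matrix.SpecialLinearGroup.toGL s ∈ Γ := fun s => Iff.rfl
  -- the unipotent set
  have hU : ∀ a : k, a ∈ unipSet G ↔ uMat a ∈ Γ := by
    intro a
    rw [mem_unipSet, hmemG, toGL_uSL]
  have hcardU : Nat.card {a : k | uMat a ∈ Γ} = Nat.card (unipSet G) := by
    apply Nat.card_congr
    exact Equiv.subtypeEquivRight fun a => (hU a).symm
  -- hypotheses of the core theorem
  have hA' : ∃ a : k, a ≠ 0 ∧ uSL a ∈ G := by
    obtain ⟨a, ha, haΓ⟩ := hA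
    exact ⟨a, ha, (hU a).2 haΓ⟩
  have hfix : ∀ g : G, ∃ x : PL k, g • x = x := by
    intro g
    obtain ⟨α, β, hαβ⟩ := hsplit _ ((hmemG _).1 g.2)
    exact exists_fixed_of_split (g : SL(2, k)) α β hαβ
  have hmove' : ∃ g : G, g • x0 k ≠ x0 k := by
    obtain ⟨γ, hγΓ, hγ⟩ := hmove
    obtain ⟨a, ha, haΓ⟩ := hA
    have hmem : γ * uMat a * γ⁻¹ ∈ Γ := Γ.mul_mem (Γ.mul_mem hγΓ haΓ) (Γ.inv_mem hγΓ)
    have hdet := det_conj_uMat a γ
    refine ⟨⟨slOfDet _ hdet, ?_⟩, ?_⟩
    · rw [hmemG, toGL_slOfDet]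
      exact hmem
    · change slOfDet _ hdet • x0 k ≠ x0 k
      rw [← toGL_smul, toGL_slOfDet]
      exact conj_uSL_smul_x0_ne ha γ hγ
  have hcore := card_unipSet_le G p hp2 hA' hfix hmove'
  -- the multiplier set
  have hfin : Finite {τ : k | ∃ g ∈ Γ, (g : Matrix (Fin 2) (Fin 2) k).det = 1 ∧
        (g : Matrix (Fin 2) (Fin 2) k) 1 0 = 0 ∧
        τ = (g : Matrix (Fin 2) (Fin 2) k) 0 0 / (g : Matrix (Fin 2) (Fin 2) k) 1 1} :=
    inferInstance
  have hle : Nat.card (tauHom G).range ≤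
      Nat.card {τ : k | ∃ g ∈ Γ, (g : Matrix (Fin 2) (Fin 2) k).det = 1 ∧
        (g : Matrix (Fin 2) (Fin 2) k) 1 0 = 0 ∧
        τ = (g : Matrix (Fin 2) (Fin 2) k) 0 0 / (g : Matrix (Fin 2) (Fin 2) k) 1 1} := by
    refine Nat.card_le_card_of_injective
      (fun u => ⟨((u : kˣ) : k), ?_⟩) ?_
    · obtain ⟨t, ht⟩ := u.2
      refine ⟨Matrix.SpecialLinearGroup.toGL ((t : G) : SL(2, k)), (hmemG _).1 (t : G).2, ?_, ?_, ?_⟩
      · exact ((t : G) : SL(2, k)).2
      · exact (mem_borel_iff G (t : G)).1 t.2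
      · rw [← ht, tauHom_apply']
        rfl
    · intro u u' h
      have := congrArg Subtype.val h
      exact Subtype.ext (Units.ext this)
  rw [hcardU]
  omega

/-- **Class equation bound**: `ClassEqStatement` holds. -/
theorem classEq : ClassEqStatement := by
  intro k _ _ p _ _ hp2 Γ hsplit hmove hA
  exact classEq_of_field p hp2 Γ hsplit hmove hA

end Main

end Fermat.Agent.P1.helper40
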