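import Fermat.Agent.P1.helper3_GTTop
import Fermat.Agent.P1.helper40_ClassEq

/-!
# P1 / TW-GT (helper3): GT-C in matrix form, unconditional

`gtC`: for a finite field `k` of odd characteristic `p` and an irreducible subgroup `Γ` of
`GL₂(k)` all of whose elements have their eigenvalues in `k` and whose determinants contain
`𝔽_p^×`, every cocycle on `Γ` with values in `ad0(1)` is a coboundary.
(`gtC_matrix` + the class equation inequality `helper40.classEq_of_field`.)
-/

set_option autoImplicit false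
open Matrix Polynomial

namespace Fermat.Agent.P1.helper3

variable {k : Type*} [Field k]

lemma uu_eq_uMat (a : k) : uu a = Fermat.Agent.P1.helper40.uMat a := by
  apply Units.ext
  rfl

/-- the class equation inequality (helper40) in the vocabulary of `helper3_GTTop` -/
theorem classEq_holds [Finite k] (p : ℕ) [Fact p.Prime] [CharP k p] (hp2 : p ≠ 2) :
    ClassEq k := by
  intro G hsplit hmove hA
  have h := Fermat.Agent.P1.helper40.classEq_of_field p hp2 G hsplit hmove
    (by obtain ⟨a, ha, haG⟩ := hA; exact ⟨a, ha, by rw [← uu_eq_uMat]; exact haG⟩)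
  simp only [← uu_eq_uMat] at h
  exact h

/-- **GT-C, matrix form**: `H¹(Γ, ad0(1)) = 0`. -/
theorem gtC [Finite k] (p : ℕ) [Fact p.Prime] [CharP k p] (hp2 : p ≠ 2)
    (Γ : Subgroup (GL (Fin 2) k))
    (hsplit : ∀ g ∈ Γ, ∃ α β : k,
      (g : Matrix (Fin 2) (Fin 2) k).charpoly = (X - C α) * (X - C β))
    (hirr : IsIrr Γ)
    (hdet : ∀ n : ℕ, ¬ p ∣ n → ∃ g ∈ Γ, (g : Matrix (Fin 2) (Fin 2) k).det = (n : k))
    (c : GL (Fin 2) k → Matrix (Fin 2) (Fin 2) k) (hc : IsCocycle Γ c) :
    IsCoboundary Γ c :=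
  gtC_matrix p hp2 (classEq_holds p hp2) Γ hsplit hirr hdet c hc

end Fermat.Agent.P1.helper3
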