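import Fermat.Agent.P1.helper3_GTAvg

/-!
# P1 / TW-GT (helper3): GT-SYL and GT-FRAT

`k` a finite field of characteristic `p`, `Γ` a subgroup of `GL₂(k)`.

* `exists_fixed_vector`: a `p`-subgroup of `GL₂(k)` fixes a nonzero vector.
* `exists_conj_normal` (GT-SYL): if `p ∣ #Γ` then some conjugate `Γ'` of `Γ` contains a
  nontrivial `uu x` and the index of `upperPart Γ'` in `Γ'` is prime to `p`.
* `exists_upperPart_det_eq` (GT-FRAT): if `Γ` contains a nontrivial `uu x` then every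
  determinant of an element of `Γ` is the determinant of an element of `upperPart Γ`.
-/

set_option autoImplicit false
open Matrix

namespace Fermat.Agent.P1.helper3

variable {k : Type*} [Field k]

/-- elements of `p`-power order have determinant one -/
lemma det_eq_one_of_pow_eq_one (p : ℕ) [Fact p.Prime] [CharP k p] {g : GL (Fin 2) k} {n : ℕ}
    (h : g ^ (p ^ n) = 1) : (g : Matrix (Fin 2) (Fin 2) k).det = 1 := by
  have h1 : (g : Matrix (Fin 2) (Fin 2) k).det ^ (p ^ n) = 1 := by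
    rw [← Matrix.det_pow, ← Units.val_pow_eq_pow_val, h, Units.val_one, Matrix.det_one]
  have h2 : ((g : Matrix (Fin 2) (Fin 2) k).det - 1) ^ (p ^ n) = 0 := by
    rw [sub_pow_char_pow, h1, one_pow, sub_self]
  exact sub_eq_zero.mp (pow_eq_zero_iff (pow_ne_zero n (Fact.out : p.Prime).ne_zero) |>.mp h2)

/-- a `p`-subgroup of `GL₂(k)` fixes a nonzero vector -/
lemma exists_fixed_vector [Finite k] (p : ℕ) [Fact p.Prime] [CharP k p]
    (S : Subgroup (GL (Fin 2) k)) (hS : IsPGroup p S) :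
    ∃ v : Fin 2 → k, v ≠ 0 ∧ ∀ g ∈ S, (g : Matrix (Fin 2) (Fin 2) k) *ᵥ v = v := by
  classical
  have : Fintype k := Fintype.ofFinite k
  have hdvd : p ∣ Nat.card (Fin 2 → k) := by
    obtain ⟨n, -, hn⟩ := FiniteField.card k p
    rw [Nat.card_eq_fintype_card, Fintype.card_fun, hn, Fintype.card_fin]
    exact dvd_pow (dvd_pow_self p n.ne_zero) (by norm_num)
  have h0 : (0 : Fin 2 → k) ∈ MulAction.fixedPoints S (Fin 2 → k) := fun g => smul_zero g
  obtain ⟨b, hb, hne⟩ :=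
    hS.exists_fixed_point_of_prime_dvd_card_of_fixed_point (Fin 2 → k) hdvd h0
  exact ⟨b, fun h => hne h.symm, fun g hg => hb ⟨g, hg⟩⟩

/-- a vector fixed by a nontrivial `uu x` lies on the first coordinate axis -/
lemma apply_one_eq_zero_of_uu_fixed {x : k} (hx : x ≠ 0) {v : Fin 2 → k}
    (h : (uu x : Matrix (Fin 2) (Fin 2) k) *ᵥ v = v) : v 1 = 0 := by
  have h0 := congrFun h 0
  rw [Matrix.mulVec, dotProduct, Fin.sum_univ_two, uu_apply_00, uu_apply_01] at h0
  have h1 : x * v 1 = 0 := by linear_combination h0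
  rcases mul_eq_zero.mp h1 with h1 | h1
  · exact absurd h1 hx
  · exact h1

/-- a matrix fixing a nonzero vector of the first coordinate axis is upper triangular with
`(0,0)`-entry one -/
lemma upper_of_fixed {g : GL (Fin 2) k} {v : Fin 2 → k} (hv0 : v 0 ≠ 0) (hv1 : v 1 = 0)
    (h : (g : Matrix (Fin 2) (Fin 2) k) *ᵥ v = v) : g 1 0 = 0 ∧ g 0 0 = 1 := by
  have h0 := congrFun h 0
  have h1 := congrFun h 1
  rw [Matrix.mulVec, dotProduct, Fin.sum_univ_two, hv1, mul_zero, add_zero] at h0 h1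
  refine ⟨?_, ?_⟩
  · rcases mul_eq_zero.mp h1 with h1 | h1
    · exact h1
    · exact absurd h1 hv0
  · have h2 : (g 0 0 - 1) * v 0 = 0 := by linear_combination h0
    rcases mul_eq_zero.mp h2 with h2 | h2
    · exact sub_eq_zero.mp h2
    · exact absurd h2 hv0

/-- the elements of a `p`-subgroup containing a nontrivial `uu x` are of the form `uu y` -/
lemma eq_uu_of_mem_pGroup [Finite k] (p : ℕ) [Fact p.Prime] [CharP k p]
    (S : Subgroup (GL (Fin 2) k)) (hS : IsPGroup p S) {x : k} (hx : x ≠ 0) (hxS : uu x ∈ S)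
    {g : GL (Fin 2) k} (hg : g ∈ S) : g = uu (g 0 1) := by
  obtain ⟨v, hv, hfix⟩ := exists_fixed_vector p S hS
  have hv1 : v 1 = 0 := apply_one_eq_zero_of_uu_fixed hx (hfix _ hxS)
  have hv0 : v 0 ≠ 0 := by
    intro h
    apply hv
    ext i
    fin_cases i
    · exact h
    · exact hv1
  obtain ⟨h10, h00⟩ := upper_of_fixed hv0 hv1 (hfix g hg)
  obtain ⟨n, hn⟩ := hS ⟨g, hg⟩
  have hn' : g ^ (p ^ n) = 1 := by
    have := congrArg Subtype.val hn
    simpa using this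
  have hdet := det_eq_one_of_pow_eq_one p hn'
  rw [um_det h10, h00, one_mul] at hdet
  exact eq_uu_of h10 h00 hdet

lemma uu_pow (x : k) (n : ℕ) : uu x ^ n = uu (n * x) := by
  induction n with
  | zero => simp [uu_zero]
  | succ n ih =>
    rw [pow_succ, ih, uu_mul_uu]
    congr 1
    push_cast
    ring

lemma uu_pow_char (p : ℕ) [CharP k p] (x : k) : uu x ^ p = 1 := by
  rw [uu_pow, CharP.cast_eq_zero k p, zero_mul, uu_zero]

/-- **GT-FRAT** (Frattini argument): if `Γ` contains a nontrivial `uu x`, every determinant of an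
element of `Γ` is the determinant of an upper triangular element of `Γ`. -/
theorem exists_upperPart_det_eq [Finite k] (p : ℕ) [Fact p.Prime] [CharP k p]
    (Γ : Subgroup (GL (Fin 2) k)) {x₀ : k} (hx₀ : x₀ ≠ 0) (hx₀Γ : uu x₀ ∈ Γ)
    {g : GL (Fin 2) k} (hg : g ∈ Γ) :
    ∃ b ∈ upperPart Γ, (b : Matrix (Fin 2) (Fin 2) k).det = (g : Matrix (Fin 2) (Fin 2) k).det := by
  classical
  have : Finite Γ := inferInstance
  let u₀ : Γ := ⟨uu x₀, hx₀Γ⟩
  -- the cyclic group generated by `u₀` is a `p`-group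
  have hP₀ : IsPGroup p (Subgroup.zpowers u₀) := by
    rintro ⟨h, hh⟩
    obtain ⟨m, rfl⟩ := Subgroup.mem_zpowers_iff.mp hh
    refine ⟨1, ?_⟩
    apply Subtype.ext
    have : (u₀ ^ m) ^ p ^ 1 = 1 := by
      rw [pow_one, ← zpow_natCast, ← _root_.zpow_mul, mul_comm, _root_.zpow_mul, zpow_natCast]
      have : u₀ ^ p = 1 := by
        apply Subtype.ext
        simp only [Subgroup.coe_pow, Subgroup.coe_one]
        exact uu_pow_char p x₀
      rw [this, _root_.one_zpow]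
    simpa using this
  obtain ⟨Q, hQ⟩ := hP₀.exists_le_sylow
  have hu₀Q : u₀ ∈ (Q : Subgroup Γ) := hQ (Subgroup.mem_zpowers u₀)
  -- the kernel of the determinant
  let detΓ : Γ →* kˣ := (Matrix.GeneralLinearGroup.det).comp Γ.subtype
  have hQN : (Q : Subgroup Γ) ≤ detΓ.ker := by
    intro q hq
    obtain ⟨n, hn⟩ := Q.isPGroup' ⟨q, hq⟩
    have hn' : (q : GL (Fin 2) k) ^ (p ^ n) = 1 := by
      have := congrArg (fun x : (Q : Subgroup Γ) => ((x : Γ) : GL (Fin 2) k)) hn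
      simpa using this
    rw [MonoidHom.mem_ker]
    apply Units.ext
    exact det_eq_one_of_pow_eq_one p hn'
  have hfrat := Sylow.normalizer_sup_eq_top' Q hQN
  have hgtop : (⟨g, hg⟩ : Γ) ∈ (⊤ : Subgroup Γ) := trivial
  rw [← hfrat, ← SetLike.mem_coe, Subgroup.mul_normal] at hgtop
  obtain ⟨n₁, hn₁, n₂, hn₂, hprod⟩ := Set.mem_mul.mp hgtop
  -- the Sylow subgroup as a subgroup of `GL`
  have hS : IsPGroup p ((Q : Subgroup Γ).map Γ.subtype) := Q.isPGroup'.map _
  have hxS : uu x₀ ∈ (Q : Subgroup Γ).map Γ.subtype := ⟨u₀, hu₀Q, rfl⟩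
  -- `n₁` normalises `Q`
  have hm : n₁ * u₀ * n₁⁻¹ ∈ (Q : Subgroup Γ) :=
    (Subgroup.mem_set_normalizer_iff.mp hn₁ u₀).mp hu₀Q
  have hmS : ((n₁ * u₀ * n₁⁻¹ : Γ) : GL (Fin 2) k) ∈ (Q : Subgroup Γ).map Γ.subtype :=
    ⟨_, hm, rfl⟩
  have hmuu := eq_uu_of_mem_pGroup p _ hS hx₀ hxS hmS
  set y := ((n₁ * u₀ * n₁⁻¹ : Γ) : GL (Fin 2) k) 0 1 with hy
  have hrel : (n₁ : GL (Fin 2) k) * uu x₀ = uu y * (n₁ : GL (Fin 2) k) := by
    rw [← hmuu]
    simp only [Subgroup.coe_mul, Subgroup.coe_inv]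
    show (n₁ : GL (Fin 2) k) * uu x₀ = (n₁ : GL (Fin 2) k) * uu x₀ * (n₁ : GL (Fin 2) k)⁻¹ *
      (n₁ : GL (Fin 2) k)
    group
  have h10 : (n₁ : GL (Fin 2) k) 1 0 = 0 := by
    have e := congrArg (fun m : GL (Fin 2) k => m 1 1) hrel
    simp only [Units.val_mul, Matrix.mul_apply, Fin.sum_univ_two, uu_apply_01,
      uu_apply_10, uu_apply_11] at e
    have e' : (n₁ : GL (Fin 2) k) 1 0 * x₀ = 0 := by linear_combination e
    rcases mul_eq_zero.mp e' with h | h
    · exact h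
    · exact absurd h hx₀
  refine ⟨(n₁ : GL (Fin 2) k), ⟨n₁.2, h10⟩, ?_⟩
  have hdet2 : ((n₂ : GL (Fin 2) k) : Matrix (Fin 2) (Fin 2) k).det = 1 := by
    have := MonoidHom.mem_ker.mp hn₂
    have h2 := congrArg Units.val this
    simpa [detΓ] using h2
  have hg' : g = (n₁ : GL (Fin 2) k) * (n₂ : GL (Fin 2) k) := by
    have := congrArg (fun x : Γ => (x : GL (Fin 2) k)) hprod
    simpa using this.symm
  rw [hg', Units.val_mul, Matrix.det_mul, hdet2, mul_one]

/-- an invertible matrix with prescribed nonzero first column -/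
lemma exists_gl_col {v : Fin 2 → k} (hv : v ≠ 0) :
    ∃ δ : GL (Fin 2) k, (δ : Matrix (Fin 2) (Fin 2) k) *ᵥ ![1, 0] = v := by
  by_cases h0 : v 0 = 0
  · have h1 : v 1 ≠ 0 := by
      intro h
      apply hv
      ext i
      fin_cases i
      · exact h0
      · exact h
    have hdet : (!![v 0, 1; v 1, 0] : Matrix (Fin 2) (Fin 2) k).det ≠ 0 := by
      rw [Matrix.det_fin_two_of]
      simpa using h1
    refine ⟨Matrix.GeneralLinearGroup.mkOfDetNeZero _ hdet, ?_⟩
    ext i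
    fin_cases i <;> simp [Matrix.GeneralLinearGroup.mkOfDetNeZero, Matrix.mulVec, dotProduct,
      Fin.sum_univ_two]
  · have hdet : (!![v 0, 0; v 1, 1] : Matrix (Fin 2) (Fin 2) k).det ≠ 0 := by
      rw [Matrix.det_fin_two_of]
      simpa using h0
    refine ⟨Matrix.GeneralLinearGroup.mkOfDetNeZero _ hdet, ?_⟩
    ext i
    fin_cases i <;> simp [Matrix.GeneralLinearGroup.mkOfDetNeZero, Matrix.mulVec, dotProduct,
      Fin.sum_univ_two]

/-- conjugating a matrix fixing `δ e₁` by `δ` gives a matrix fixing `e₁` -/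
lemma conj_fixes {δ h : GL (Fin 2) k} {v : Fin 2 → k}
    (hδ : (δ : Matrix (Fin 2) (Fin 2) k) *ᵥ ![1, 0] = v)
    (hh : (h : Matrix (Fin 2) (Fin 2) k) *ᵥ v = v) :
    ((δ⁻¹ * h * δ : GL (Fin 2) k) : Matrix (Fin 2) (Fin 2) k) *ᵥ ![1, 0] = ![1, 0] := by
  have h1 : ((δ⁻¹ : GL (Fin 2) k) : Matrix (Fin 2) (Fin 2) k) * (δ : Matrix (Fin 2) (Fin 2) k)
      = 1 := by rw [← Units.val_mul, inv_mul_cancel, Units.val_one]
  rw [Units.val_mul, Units.val_mul, ← Matrix.mulVec_mulVec, ← Matrix.mulVec_mulVec, hδ, hh, ← hδ,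
    Matrix.mulVec_mulVec, h1, Matrix.one_mulVec]

/-- **GT-SYL**: if `p` divides the order of `Γ`, some conjugate `Γ'` of `Γ` contains a nontrivial
`uu x`, and the index of the upper triangular part of `Γ'` in `Γ'` is prime to `p`. -/
theorem exists_conj_normal [Finite k] (p : ℕ) [Fact p.Prime] [CharP k p]
    (Γ : Subgroup (GL (Fin 2) k)) (hp : p ∣ Nat.card Γ) :
    ∃ γ : GL (Fin 2) k, (∃ x : k, x ≠ 0 ∧ uu x ∈ conj γ Γ) ∧
      ¬ p ∣ (upperPart (conj γ Γ)).relIndex (conj γ Γ) := by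
  classical
  have : Finite Γ := inferInstance
  obtain ⟨Q⟩ := (inferInstance : Nonempty (Sylow p Γ))
  have hQbot : (Q : Subgroup Γ) ≠ ⊥ := Q.ne_bot_of_dvd_card hp
  have hS : IsPGroup p ((Q : Subgroup Γ).map Γ.subtype) := Q.isPGroup'.map _
  obtain ⟨v, hv, hfix⟩ := exists_fixed_vector p _ hS
  obtain ⟨δ, hδ⟩ := exists_gl_col hv
  have he1 : (![1, 0] : Fin 2 → k) 0 ≠ 0 := by simp
  have he2 : (![1, 0] : Fin 2 → k) 1 = 0 := by simp
  -- the conjugate of the Sylow subgroup is upper triangular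
  have hupper : ∀ s ∈ (Q : Subgroup Γ).map Γ.subtype,
      (δ⁻¹ * s * δ : GL (Fin 2) k) 1 0 = 0 ∧ (δ⁻¹ * s * δ : GL (Fin 2) k) 0 0 = 1 :=
    fun s hs => upper_of_fixed he1 he2 (conj_fixes hδ (hfix s hs))
  have hSΓ : (Q : Subgroup Γ).map Γ.subtype ≤ Γ := Subgroup.map_subtype_le _
  have hmemconj : ∀ s ∈ Γ, δ⁻¹ * s * δ ∈ conj δ⁻¹ Γ := by
    intro s hs
    rw [mem_conj]
    have : δ⁻¹⁻¹ * (δ⁻¹ * s * δ) * δ⁻¹ = s := by group
    rw [this]; exact hs
  refine ⟨δ⁻¹, ?_, ?_⟩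
  · -- a nontrivial unipotent element
    obtain ⟨⟨q, hqQ⟩, hq1⟩ := (Subgroup.ne_bot_iff_exists_ne_one).mp hQbot
    have hq1' : (q : GL (Fin 2) k) ≠ 1 := by
      intro h
      apply hq1
      apply Subtype.ext
      apply Subtype.ext
      exact h
    have hqS : (q : GL (Fin 2) k) ∈ (Q : Subgroup Γ).map Γ.subtype := ⟨q, hqQ, rfl⟩
    obtain ⟨h10, h00⟩ := hupper _ hqS
    obtain ⟨n, hn⟩ := Q.isPGroup' ⟨q, hqQ⟩
    have hn' : (q : GL (Fin 2) k) ^ (p ^ n) = 1 := by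
      have := congrArg (fun x : (Q : Subgroup Γ) => ((x : Γ) : GL (Fin 2) k)) hn
      simpa using this
    have hn'' : (δ⁻¹ * (q : GL (Fin 2) k) * δ) ^ (p ^ n) = 1 := by
      have : δ⁻¹ * (q : GL (Fin 2) k) * δ = MulAut.conj δ⁻¹ (q : GL (Fin 2) k) := by
        simp
      rw [this, ← map_pow, hn', map_one]
    have hdet := det_eq_one_of_pow_eq_one p hn''
    rw [um_det h10, h00, one_mul] at hdet
    have huu := eq_uu_of h10 h00 hdet
    refine ⟨(δ⁻¹ * (q : GL (Fin 2) k) * δ : GL (Fin 2) k) 0 1, ?_, ?_⟩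
    · intro h0
      rw [h0, uu_zero] at huu
      apply hq1'
      have : (q : GL (Fin 2) k) = δ * (δ⁻¹ * (q : GL (Fin 2) k) * δ) * δ⁻¹ := by group
      rw [this, huu]
      group
    · rw [← huu]
      exact hmemconj _ q.2
  · -- the index
    intro hdvd
    have hle : conj δ⁻¹ ((Q : Subgroup Γ).map Γ.subtype) ≤ upperPart (conj δ⁻¹ Γ) := by
      intro g hg
      have hg' := mem_conj.mp hg
      have hgΓ : g ∈ conj δ⁻¹ Γ := by
        rw [mem_conj]; exact hSΓ hg'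
      refine ⟨hgΓ, ?_⟩
      have := (hupper _ hg').1
      have e : δ⁻¹ * (δ⁻¹⁻¹ * g * δ⁻¹) * δ = g := by group
      rw [e] at this
      exact this
    have h1 := Subgroup.relIndex_dvd_of_le_left (conj δ⁻¹ Γ) hle
    have h2 : (conj δ⁻¹ ((Q : Subgroup Γ).map Γ.subtype)).relIndex (conj δ⁻¹ Γ)
        = ((Q : Subgroup Γ).map Γ.subtype).relIndex Γ :=
      Subgroup.relIndex_map_map_of_injective _ _ (MulAut.conj δ⁻¹).injective
    have h3 : ((Q : Subgroup Γ).map Γ.subtype).relIndex Γ = (Q : Subgroup Γ).index := by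
      rw [Subgroup.relIndex, Subgroup.subgroupOf,
        Subgroup.comap_map_eq_self_of_injective Γ.subtype_injective]
    rw [h2, h3] at h1
    exact Q.not_dvd_index (hdvd.trans h1)

end Fermat.Agent.P1.helper3
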