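import Fermat.Agent.P1.helper3_GTCocCor
import Fermat.Agent.P1.helper3_GTSyl

/-!
# P1 / TW-GT (helper3): GT-C in matrix form

`gtC_matrix`: let `k` be a finite field of odd characteristic `p` and `Γ` a subgroup of `GL₂(k)`
which is irreducible, all of whose elements have their eigenvalues in `k`, and whose determinants
contain `𝔽_p^×`. Then every cocycle on `Γ` with values in `ad0(1)` is a coboundary, PROVIDED the
class equation inequality `ClassEq k` holds (package CLASSEQ).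
-/

set_option autoImplicit false
open Matrix Polynomial

namespace Fermat.Agent.P1.helper3

variable {k : Type*} [Field k]

/-- the class equation inequality (conclusion of the package CLASSEQ), for all subgroups of
`GL₂(k)` -/
def ClassEq (k : Type*) [Field k] : Prop :=
  ∀ G : Subgroup (GL (Fin 2) k),
    (∀ g ∈ G, ∃ α β : k, (g : Matrix (Fin 2) (Fin 2) k).charpoly = (X - C α) * (X - C β)) →
    (∃ g ∈ G, (g : Matrix (Fin 2) (Fin 2) k) 1 0 ≠ 0) →
    (∃ a : k, a ≠ 0 ∧ uu a ∈ G) →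
    Nat.card {a : k | uu a ∈ G} ≤ 2 * Nat.card {τ : k | ∃ g ∈ G,
      (g : Matrix (Fin 2) (Fin 2) k).det = 1 ∧ (g : Matrix (Fin 2) (Fin 2) k) 1 0 = 0 ∧
      τ = (g : Matrix (Fin 2) (Fin 2) k) 0 0 / (g : Matrix (Fin 2) (Fin 2) k) 1 1} + 1

lemma IsCocycle.mono {Γ B : Subgroup (GL (Fin 2) k)}
    {c : GL (Fin 2) k → Matrix (Fin 2) (Fin 2) k} (hc : IsCocycle Γ c) (h : B ≤ Γ) :
    IsCocycle B c :=
  ⟨fun g hg => hc.1 g (h hg), fun g hg g' hg' => hc.2 g (h hg) g' (h hg')⟩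

lemma mem_conj_of_mem {Γ : Subgroup (GL (Fin 2) k)} (γ : GL (Fin 2) k) {g : GL (Fin 2) k}
    (hg : g ∈ Γ) : γ * g * γ⁻¹ ∈ conj γ Γ := by
  rw [mem_conj]
  have : γ⁻¹ * (γ * g * γ⁻¹) * γ = g := by group
  rw [this]; exact hg

lemma mulVec_e1_of_upper {m : GL (Fin 2) k} (h10 : (m : Matrix (Fin 2) (Fin 2) k) 1 0 = 0) :
    (m : Matrix (Fin 2) (Fin 2) k) *ᵥ ![1, 0] = (m : Matrix (Fin 2) (Fin 2) k) 0 0 • ![1, 0] := by
  ext i
  fin_cases i
  · simp [Matrix.mulVec, dotProduct, Fin.sum_univ_two]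
  · simp [Matrix.mulVec, dotProduct, Fin.sum_univ_two, h10]

lemma det_conj_eq (γ g : GL (Fin 2) k) :
    ((γ * g * γ⁻¹ : GL (Fin 2) k) : Matrix (Fin 2) (Fin 2) k).det
      = (g : Matrix (Fin 2) (Fin 2) k).det := by
  have h : Matrix.GeneralLinearGroup.det (γ * g * γ⁻¹) = Matrix.GeneralLinearGroup.det g := by
    rw [map_mul, map_mul, map_inv, mul_comm, ← mul_assoc, inv_mul_cancel, one_mul]
  exact congrArg Units.val h

lemma charpoly_conj_eq (γ g : GL (Fin 2) k) :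
    ((γ * g * γ⁻¹ : GL (Fin 2) k) : Matrix (Fin 2) (Fin 2) k).charpoly
      = (g : Matrix (Fin 2) (Fin 2) k).charpoly := by
  rw [Units.val_mul, Units.val_mul, Matrix.coe_units_inv]
  exact Matrix.charpoly_units_conj γ _

/-- irreducibility gives an element of the conjugate group which is not upper triangular -/
lemma exists_not_upper_of_isIrr {Γ : Subgroup (GL (Fin 2) k)} (hirr : IsIrr Γ)
    (γ : GL (Fin 2) k) : ∃ g ∈ conj γ Γ, (g : Matrix (Fin 2) (Fin 2) k) 1 0 ≠ 0 := by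
  have hγ : ((γ⁻¹ : GL (Fin 2) k) : Matrix (Fin 2) (Fin 2) k) * (γ : Matrix (Fin 2) (Fin 2) k)
      = 1 := by rw [← Units.val_mul, inv_mul_cancel, Units.val_one]
  have hγ' : (γ : Matrix (Fin 2) (Fin 2) k) * ((γ⁻¹ : GL (Fin 2) k) : Matrix (Fin 2) (Fin 2) k)
      = 1 := by rw [← Units.val_mul, mul_inv_cancel, Units.val_one]
  set v : Fin 2 → k := ((γ⁻¹ : GL (Fin 2) k) : Matrix (Fin 2) (Fin 2) k) *ᵥ ![1, 0] with hv
  have hv0 : v ≠ 0 := by
    intro h
    have h1 : (γ : Matrix (Fin 2) (Fin 2) k) *ᵥ v = ![1, 0] := by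
      rw [hv, Matrix.mulVec_mulVec, hγ', Matrix.one_mulVec]
    rw [h, Matrix.mulVec_zero] at h1
    have := congrFun h1 0
    simp at this
  obtain ⟨g, hg, hne⟩ := hirr v hv0
  refine ⟨γ * g * γ⁻¹, mem_conj_of_mem γ hg, fun h10 => ?_⟩
  apply hne ((γ * g * γ⁻¹ : GL (Fin 2) k) 0 0)
  -- `(γ g γ⁻¹) e₁ = a e₁`
  have h1 : ((γ * g * γ⁻¹ : GL (Fin 2) k) : Matrix (Fin 2) (Fin 2) k) *ᵥ ![1, 0]
      = (γ * g * γ⁻¹ : GL (Fin 2) k) 0 0 • ![1, 0] := mulVec_e1_of_upper h10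
  have h2 : (g : Matrix (Fin 2) (Fin 2) k) *ᵥ v
      = ((γ⁻¹ : GL (Fin 2) k) : Matrix (Fin 2) (Fin 2) k) *ᵥ
        (((γ * g * γ⁻¹ : GL (Fin 2) k) : Matrix (Fin 2) (Fin 2) k) *ᵥ ![1, 0]) := by
    rw [hv, Matrix.mulVec_mulVec, Matrix.mulVec_mulVec]
    congr 1
    simp only [Units.val_mul]
    rw [← Matrix.mul_assoc, ← Matrix.mul_assoc, hγ, Matrix.one_mul]
  rw [h2, h1, Matrix.mulVec_smul]

/-- **GT-C, matrix form** (modulo the class equation inequality). -/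
theorem gtC_matrix [Finite k] (p : ℕ) [Fact p.Prime] [CharP k p] (hp2 : p ≠ 2)
    (hCE : ClassEq k) (Γ : Subgroup (GL (Fin 2) k))
    (hsplit : ∀ g ∈ Γ, ∃ α β : k,
      (g : Matrix (Fin 2) (Fin 2) k).charpoly = (X - C α) * (X - C β))
    (hirr : IsIrr Γ)
    (hdet : ∀ n : ℕ, ¬ p ∣ n → ∃ g ∈ Γ, (g : Matrix (Fin 2) (Fin 2) k).det = (n : k))
    (c : GL (Fin 2) k → Matrix (Fin 2) (Fin 2) k) (hc : IsCocycle Γ c) :
    IsCoboundary Γ c := by
  by_cases hpΓ : p ∣ Nat.card Γ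
  · obtain ⟨γ, ⟨x, hx, hxΓ⟩, hidx⟩ := exists_conj_normal p Γ hpΓ
    have hc' := hc.conj γ
    -- determinants on the upper triangular part
    have hdet' : ∀ n : ℕ, ¬ p ∣ n → ∃ g ∈ upperPart (conj γ Γ),
        (g : Matrix (Fin 2) (Fin 2) k).det = (n : k) := by
      intro n hn
      obtain ⟨g, hg, hgdet⟩ := hdet n hn
      obtain ⟨b, hb, hbdet⟩ := exists_upperPart_det_eq p (conj γ Γ) hx hxΓ
        (mem_conj_of_mem γ hg)
      refine ⟨b, hb, ?_⟩
      rw [hbdet, det_conj_eq, hgdet]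
    -- the class equation inequality for the conjugate group
    have hsplit' : ∀ g ∈ conj γ Γ, ∃ α β : k,
        (g : Matrix (Fin 2) (Fin 2) k).charpoly = (X - C α) * (X - C β) := by
      intro g hg
      obtain ⟨α, β, h⟩ := hsplit _ (mem_conj.mp hg)
      refine ⟨α, β, ?_⟩
      rw [← h, ← charpoly_conj_eq γ (γ⁻¹ * g * γ)]
      have e : γ * (γ⁻¹ * g * γ) * γ⁻¹ = g := by group
      rw [e]
    have hcount := hCE (conj γ Γ) hsplit' (exists_not_upper_of_isIrr hirr γ) ⟨x, hx, hxΓ⟩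
    have hB := coc_upperPart p hp2 (conj γ Γ) hdet' (fun _ => hcount) (conjCoc γ c)
      (hc'.mono (upperPart_le _))
    have hidx' : (((upperPart (conj γ Γ)).relIndex (conj γ Γ) : ℕ) : k) ≠ 0 := by
      intro h
      exact hidx ((CharP.cast_eq_zero_iff k p _).mp h)
    exact isCoboundary_of_conj γ
      (isCoboundary_of_le (conj γ Γ) (upperPart (conj γ Γ)) (upperPart_le _) hidx' _ hc' hB)
  · apply isCoboundary_of_card Γ _ c hc
    intro h
    exact hpΓ ((CharP.cast_eq_zero_iff k p _).mp h)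

end Fermat.Agent.P1.helper3
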