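import Fermat.Agent.P1.helper40_CEFix

/-!
# P1 / TW-GT / class equation (helper40), part 2: the Borel subgroup of a subgroup of `SL(2, k)`

For a subgroup `G` of `SL(2, k)`:

* `uSL a` : the unipotent element `!![1, a; 0, 1]`; `unipSet G = {a | uSL a ∈ G}`;
* `borel G` : the stabiliser of `x₀` in `G`; `tauHom G : borel G →* kˣ`, `t ↦ t₀₀ / t₁₁ = t₀₀²`;
* `scal G` : the scalar elements of `G`;
* `card_ker_tauHom` : `|ker τ| = |scal G| * |unipSet G|` (odd characteristic `p`);
* `card_borel` : `|borel G| = |scal G| * |unipSet G| * |range τ|`.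
-/

set_option autoImplicit false

open Polynomial Matrix MatrixGroups
open scoped LinearAlgebra.Projectivization

namespace Fermat.Agent.P1.helper40

variable {k : Type*} [Field k]

/-- The unipotent element `!![1, a; 0, 1]` of `SL(2, k)`. -/
def uSL (a : k) : SL(2, k) := ⟨!![1, a; 0, 1], by simp [Matrix.det_fin_two]⟩

@[simp] lemma uSL_apply_00 (a : k) : uSL a 0 0 = 1 := rfl
@[simp] lemma uSL_apply_01 (a : k) : uSL a 0 1 = a := rfl
@[simp] lemma uSL_apply_10 (a : k) : uSL a 1 0 = 0 := rfl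
@[simp] lemma uSL_apply_11 (a : k) : uSL a 1 1 = 1 := rfl

lemma SL_ext {g h : SL(2, k)} (h00 : g 0 0 = h 0 0) (h01 : g 0 1 = h 0 1)
    (h10 : g 1 0 = h 1 0) (h11 : g 1 1 = h 1 1) : g = h := by
  apply Subtype.ext
  ext i j
  fin_cases i <;> fin_cases j
  · exact h00
  · exact h01
  · exact h10
  · exact h11

lemma SL_mul_apply (g h : SL(2, k)) (i j : Fin 2) :
    (g * h) i j = g i 0 * h 0 j + g i 1 * h 1 j := by
  simp [Matrix.SpecialLinearGroup.coe_mul, Matrix.mul_apply, Fin.sum_univ_two]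

lemma SL_det (g : SL(2, k)) : g 0 0 * g 1 1 - g 0 1 * g 1 0 = 1 := by
  have := g.2
  rw [Matrix.det_fin_two] at this
  exact this

lemma SL_inv_apply_00 (g : SL(2, k)) : g⁻¹ 0 0 = g 1 1 := by
  simp [Matrix.SpecialLinearGroup.coe_inv, Matrix.adjugate_fin_two]

lemma SL_inv_apply_01 (g : SL(2, k)) : g⁻¹ 0 1 = - g 0 1 := by
  simp [Matrix.SpecialLinearGroup.coe_inv, Matrix.adjugate_fin_two]

lemma SL_inv_apply_10 (g : SL(2, k)) : g⁻¹ 1 0 = - g 1 0 := by
  simp [Matrix.SpecialLinearGroup.coe_inv, Matrix.adjugate_fin_two]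

lemma SL_inv_apply_11 (g : SL(2, k)) : g⁻¹ 1 1 = g 0 0 := by
  simp [Matrix.SpecialLinearGroup.coe_inv, Matrix.adjugate_fin_two]

lemma SL_one_apply_00 : (1 : SL(2, k)) 0 0 = 1 := by simp
lemma SL_one_apply_01 : (1 : SL(2, k)) 0 1 = 0 := by simp
lemma SL_one_apply_10 : (1 : SL(2, k)) 1 0 = 0 := by simp
lemma SL_one_apply_11 : (1 : SL(2, k)) 1 1 = 1 := by simp

lemma uSL_zero : uSL (0 : k) = 1 := by
  apply SL_ext <;> simp

lemma uSL_add (a b : k) : uSL (a + b) = uSL a * uSL b := by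
  apply SL_ext <;> simp [SL_mul_apply]
  ring

lemma uSL_neg (a : k) : uSL (-a) = (uSL a)⁻¹ := by
  rw [eq_inv_iff_mul_eq_one, ← uSL_add, neg_add_cancel, uSL_zero]

lemma uSL_injective : Function.Injective (uSL : k → SL(2, k)) := by
  intro a b h
  have := congrArg (fun g : SL(2, k) => g 0 1) h
  simpa using this

lemma uSL_nsmul (a : k) (n : ℕ) : uSL (n • a) = uSL a ^ n := by
  induction n with
  | zero => simp [uSL_zero]
  | succ n ih => rw [succ_nsmul, uSL_add, ih, pow_succ]

lemma eq_uSL_of_upper_of_one {g : SL(2, k)} (h10 : g 1 0 = 0) (h00 : g 0 0 = 1) :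
    g = uSL (g 0 1) := by
  have hd := SL_det g
  rw [h10, h00, mul_zero, sub_zero, one_mul] at hd
  apply SL_ext <;> simp [h10, h00, hd]

/-- A nontrivial unipotent upper triangular element fixes only `x₀`. -/
lemma uSL_smul_eq_iff {a : k} (ha : a ≠ 0) (x : PL k) : uSL a • x = x ↔ x = x0 k := by
  constructor
  · intro h
    by_contra hx
    obtain ⟨c, hc, rfl⟩ := exists_eq_mk_of_ne_x0 x hx
    rw [upper_smul_mk_c_eq_iff _ (uSL_apply_10 a)] at h
    simp at h
    exact ha h
  · rintro rfl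
    exact (smul_x0_eq_iff _).2 (uSL_apply_10 a)

section Subgroup

variable (G : Subgroup SL(2, k))

/-- The set of `a` with `uSL a ∈ G`, as an additive subgroup of `k`. -/
def unipSet : AddSubgroup k where
  carrier := {a | uSL a ∈ G}
  zero_mem' := by
    change uSL 0 ∈ G
    rw [uSL_zero]
    exact one_mem G
  add_mem' := by
    intro a b ha hb
    change uSL (a + b) ∈ G
    rw [uSL_add]
    exact mul_mem ha hb
  neg_mem' := by
    intro a ha
    change uSL (-a) ∈ G
    rw [uSL_neg]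
    exact inv_mem ha

lemma mem_unipSet {a : k} : a ∈ unipSet G ↔ uSL a ∈ G := Iff.rfl

/-- The stabiliser of `x₀` in `G`. -/
abbrev borel : Subgroup G := MulAction.stabilizer G (x0 k)

lemma mem_borel_iff (g : G) : g ∈ borel G ↔ (g : SL(2, k)) 1 0 = 0 := by
  rw [MulAction.mem_stabilizer_iff]
  exact smul_x0_eq_iff (g : SL(2, k))

/-- The scalar elements of `G`. -/
def scal : Subgroup G where
  carrier := {g | IsScalar (g : SL(2, k))}
  one_mem' := by
    change IsScalar ((1 : G) : SL(2, k))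
    refine ⟨?_, ?_, ?_⟩ <;> simp
  mul_mem' := by
    intro g h hg hh
    change IsScalar ((g * h : G) : SL(2, k))
    obtain ⟨g1, g2, g3⟩ := hg
    obtain ⟨h1, h2, h3⟩ := hh
    refine ⟨?_, ?_, ?_⟩
    · rw [Subgroup.coe_mul, SL_mul_apply, g1, h1]; ring
    · rw [Subgroup.coe_mul, SL_mul_apply, g2, h2]; ring
    · rw [Subgroup.coe_mul, SL_mul_apply, SL_mul_apply, g1, g2, g3, h3]; ring
  inv_mem' := by
    intro g hg
    change IsScalar ((g⁻¹ : G) : SL(2, k))
    obtain ⟨g1, g2, g3⟩ := hg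
    refine ⟨?_, ?_, ?_⟩
    · rw [Subgroup.coe_inv, SL_inv_apply_01, g1, neg_zero]
    · rw [Subgroup.coe_inv, SL_inv_apply_10, g2, neg_zero]
    · rw [Subgroup.coe_inv, SL_inv_apply_00, SL_inv_apply_11, g3]

lemma mem_scal_iff (g : G) : g ∈ scal G ↔ IsScalar (g : SL(2, k)) := Iff.rfl

lemma mem_scal_iff_forall (g : G) : g ∈ scal G ↔ ∀ x : PL k, g • x = x := by
  constructor
  · intro h x
    exact h.smul_eq x
  · intro h
    exact isScalar_of_forall_smul_eq h

lemma scal_le_stabilizer (x : PL k) : scal G ≤ MulAction.stabilizer G x := by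
  intro g hg
  rw [MulAction.mem_stabilizer_iff]
  exact (mem_scal_iff_forall G g).1 hg x

end Subgroup

end Fermat.Agent.P1.helper40

namespace Fermat.Agent.P1.helper40

variable {k : Type*} [Field k]

section Tau

variable (G : Subgroup SL(2, k))

lemma borel_apply_00_mul_11 (t : borel G) :
    ((t : G) : SL(2, k)) 0 0 * ((t : G) : SL(2, k)) 1 1 = 1 := by
  have h := SL_det ((t : G) : SL(2, k))
  rw [(mem_borel_iff G t).1 t.2, mul_zero, sub_zero] at h
  exact h

lemma borel_apply_00_ne_zero (t : borel G) : ((t : G) : SL(2, k)) 0 0 ≠ 0 := by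
  intro h
  have := borel_apply_00_mul_11 G t
  rw [h, zero_mul] at this
  exact zero_ne_one this

/-- The diagonal character `t ↦ t₀₀` of the Borel subgroup. -/
noncomputable def phiHom : borel G →* kˣ where
  toFun t := Units.mk0 (((t : G) : SL(2, k)) 0 0) (borel_apply_00_ne_zero G t)
  map_one' := by
    apply Units.ext
    simp
  map_mul' := by
    intro t t'
    apply Units.ext
    simp only [Units.val_mk0, Units.val_mul, Subgroup.coe_mul]
    rw [SL_mul_apply, (mem_borel_iff G t').1 t'.2, mul_zero, add_zero]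

lemma phiHom_apply (t : borel G) : ((phiHom G t : kˣ) : k) = ((t : G) : SL(2, k)) 0 0 := rfl

/-- The multiplier character `t ↦ t₀₀ / t₁₁ = t₀₀²` of the Borel subgroup. -/
noncomputable def tauHom : borel G →* kˣ := (powMonoidHom 2).comp (phiHom G)

lemma tauHom_apply (t : borel G) :
    ((tauHom G t : kˣ) : k) = (((t : G) : SL(2, k)) 0 0) ^ 2 := rfl

lemma tauHom_apply' (t : borel G) :
    ((tauHom G t : kˣ) : k) = ((t : G) : SL(2, k)) 0 0 / ((t : G) : SL(2, k)) 1 1 := by
  rw [tauHom_apply]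
  have h := borel_apply_00_mul_11 G t
  have h11 : ((t : G) : SL(2, k)) 1 1 ≠ 0 := by
    intro h0
    rw [h0, mul_zero] at h
    exact zero_ne_one h
  field_simp
  rw [pow_two, mul_assoc, h, mul_one]

lemma mem_ker_tauHom_iff (t : borel G) :
    t ∈ (tauHom G).ker ↔ (((t : G) : SL(2, k)) 0 0) ^ 2 = 1 := by
  rw [MonoidHom.mem_ker, ← Units.val_inj, tauHom_apply, Units.val_one]

lemma card_borel : Nat.card (borel G) = Nat.card (tauHom G).ker * Nat.card (tauHom G).range := by
  rw [← Subgroup.index_ker, Subgroup.card_mul_index]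

end Tau

section Ker

variable (G : Subgroup SL(2, k)) (p : ℕ) [Fact p.Prime] [CharP k p]

lemma unipSet_half (hp2 : p ≠ 2) {a : k} (ha : 2 * a ∈ unipSet G) : a ∈ unipSet G := by
  have hp : p.Prime := Fact.out
  have hodd : Odd p := hp.odd_of_ne_two hp2
  obtain ⟨m, hm⟩ := hodd
  have h1 : (m + 1) • (2 * a) ∈ unipSet G := (unipSet G).nsmul_mem ha (m + 1)
  have h2 : (m + 1) • (2 * a) = a := by
    rw [nsmul_eq_mul]
    have hp0 : ((p : ℕ) : k) = 0 := CharP.cast_eq_zero k p
    rw [hm] at hp0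
    push_cast at hp0 ⊢
    linear_combination a * hp0
  rwa [h2] at h1

/-- The map `(ζ, a) ↦ ζ * uSL a` from `scal G × unipSet G` to the kernel of `τ`. -/
noncomputable def kerMap : scal G × unipSet G → (tauHom G).ker := fun x =>
  ⟨⟨(x.1 : G) * ⟨uSL (x.2 : k), x.2.2⟩, by
      rw [mem_borel_iff, Subgroup.coe_mul, SL_mul_apply]
      have h := x.1.2
      rw [mem_scal_iff] at h
      simp [h.2.1]⟩, by
      rw [mem_ker_tauHom_iff]
      have h := x.1.2
      rw [mem_scal_iff] at h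
      have hd := SL_det ((x.1 : G) : SL(2, k))
      rw [h.1, zero_mul, sub_zero, ← h.2.2] at hd
      simp only [Subgroup.coe_mul, SL_mul_apply, uSL_apply_00, uSL_apply_10, mul_one, mul_zero,
        add_zero]
      rw [pow_two]
      exact hd⟩

lemma kerMap_coe (x : scal G × unipSet G) :
    (((kerMap G x : (tauHom G).ker) : borel G) : G) = (x.1 : G) * ⟨uSL (x.2 : k), x.2.2⟩ := rfl

lemma kerMap_injective : Function.Injective (kerMap G) := by
  rintro ⟨ζ, a⟩ ⟨ζ', a'⟩ h
  have h1 := congrArg (fun t : (tauHom G).ker => (((t : borel G) : G) : SL(2, k))) h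
  simp only [kerMap_coe, Subgroup.coe_mul] at h1
  have hζ := ζ.2
  have hζ' := ζ'.2
  rw [mem_scal_iff] at hζ hζ'
  have h00 := congrArg (fun g : SL(2, k) => g 0 0) h1
  have h01 := congrArg (fun g : SL(2, k) => g 0 1) h1
  simp only [SL_mul_apply, uSL_apply_00, uSL_apply_10, uSL_apply_01, uSL_apply_11, mul_one,
    mul_zero, add_zero, hζ.1, hζ'.1] at h00 h01
  have hne : ((ζ : G) : SL(2, k)) 0 0 ≠ 0 := by
    intro h0
    have hd := SL_det ((ζ : G) : SL(2, k))
    rw [h0, zero_mul, hζ.1, zero_mul, sub_zero] at hd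
    exact zero_ne_one hd
  have haa : (a : k) = a' := by
    rw [← h00] at h01
    have : ((ζ : G) : SL(2, k)) 0 0 * ((a : k) - a') = 0 := by linear_combination h01
    rcases mul_eq_zero.1 this with h | h
    · exact absurd h hne
    · exact sub_eq_zero.1 h
  have ha : a = a' := Subtype.ext haa
  subst ha
  have hz : ((ζ : G) : SL(2, k)) = ζ' := mul_right_cancel h1
  have hz' : ζ = ζ' := Subtype.ext (Subtype.ext hz)
  rw [hz']

lemma kerMap_surjective (hp2 : p ≠ 2) : Function.Surjective (kerMap G) := by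
  intro t
  have ht := (mem_ker_tauHom_iff G (t : borel G)).1 t.2
  set g : SL(2, k) := (((t : borel G) : G) : SL(2, k)) with hg
  have hg10 : g 1 0 = 0 := (mem_borel_iff G (t : borel G)).1 (t : borel G).2
  have hd : g 0 0 * g 1 1 = 1 := borel_apply_00_mul_11 G (t : borel G)
  have h11 : g 1 1 = g 0 0 := by
    have : g 0 0 * g 1 1 = g 0 0 * g 0 0 := by rw [hd, ← pow_two, ht]
    have hne : g 0 0 ≠ 0 := borel_apply_00_ne_zero G (t : borel G)
    exact mul_left_cancel₀ hne this
  -- `g ^ 2 = uSL (2 * α * s)`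
  have hsq : g * g = uSL (2 * (g 0 0 * g 0 1)) := by
    apply SL_ext
    · rw [SL_mul_apply, hg10, mul_zero, add_zero, ← pow_two, ht]; simp
    · rw [SL_mul_apply, h11]; simp; ring
    · rw [SL_mul_apply, hg10]; simp
    · rw [SL_mul_apply, hg10, h11, zero_mul, zero_add, ← pow_two, ht]; simp
  have hgG : g ∈ G := ((t : borel G) : G).2
  have h2a : 2 * (g 0 0 * g 0 1) ∈ unipSet G := by
    rw [mem_unipSet, ← hsq]
    exact mul_mem hgG hgG
  have ha : g 0 0 * g 0 1 ∈ unipSet G := unipSet_half G p hp2 h2a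
  -- the scalar part
  set ζ : SL(2, k) := g * (uSL (g 0 0 * g 0 1))⁻¹ with hζ
  have hζG : ζ ∈ G := mul_mem hgG (inv_mem ha)
  have hζs : IsScalar ζ := by
    refine ⟨?_, ?_, ?_⟩
    · rw [hζ, ← uSL_neg, SL_mul_apply]
      simp only [uSL_apply_01, uSL_apply_11, mul_one]
      have : g 0 0 * -(g 0 0 * g 0 1) + g 0 1 = - (g 0 0 ^ 2 - 1) * g 0 1 := by ring
      rw [this, ht]; ring
    · rw [hζ, ← uSL_neg, SL_mul_apply, hg10]; simp
    · rw [hζ, ← uSL_neg, SL_mul_apply, SL_mul_apply, hg10, h11]; simp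
  refine ⟨(⟨⟨ζ, hζG⟩, hζs⟩, ⟨g 0 0 * g 0 1, ha⟩), ?_⟩
  apply Subtype.ext
  apply Subtype.ext
  apply Subtype.ext
  rw [kerMap_coe]
  simp only [Subgroup.coe_mul]
  rw [hζ, inv_mul_cancel_right]

lemma card_ker_tauHom (hp2 : p ≠ 2) :
    Nat.card (tauHom G).ker = Nat.card (scal G) * Nat.card (unipSet G) := by
  rw [← Nat.card_prod]
  exact (Nat.card_eq_of_bijective _ ⟨kerMap_injective G, kerMap_surjective G p hp2⟩).symm

/-- `|B| = z q e`. -/
theorem card_borel_eq (hp2 : p ≠ 2) :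
    Nat.card (borel G) =
      Nat.card (scal G) * Nat.card (unipSet G) * Nat.card (tauHom G).range := by
  rw [card_borel, card_ker_tauHom G p hp2]

end Ker

end Fermat.Agent.P1.helper40
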