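import Fermat.Agent.P1.helper40_CEPar

/-!
# P1 / TW-GT / class equation (helper40), part 5: the counting argument

Double counting of the pairs `(g, x)`, `g ∈ G`, `x` a point of the projective line with
`g • x = x`.
-/

set_option autoImplicit false
set_option linter.unusedSectionVars false
set_option linter.style.haveILetI false
set_option linter.unusedVariables false

open Polynomial Matrix MatrixGroups
open scoped LinearAlgebra.Projectivization

namespace Fermat.Agent.P1.helper40

/-- Double counting. -/
lemma sum_card_rel {α β : Type*} [Fintype α] [Fintype β] (r : α → β → Prop) :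
    ∑ a, Nat.card {b // r a b} = ∑ b, Nat.card {a // r a b} := by
  classical
  have h1 : ∀ a, Nat.card {b // r a b} = (Finset.bipartiteAbove r Finset.univ a).card := by
    intro a
    rw [Nat.card_eq_fintype_card, Fintype.card_subtype]
    rfl
  have h2 : ∀ b, Nat.card {a // r a b} = (Finset.bipartiteBelow r Finset.univ b).card := by
    intro b
    rw [Nat.card_eq_fintype_card, Fintype.card_subtype]
    rfl
  simp_rw [h1, h2]
  exact Finset.sum_card_bipartiteAbove_eq_sum_card_bipartiteBelow r

variable {k : Type*} [Field k]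

section Count

variable (G : Subgroup SL(2, k)) [Finite k]

/-- The number of fixed points of `g`. -/
noncomputable def fc (g : G) : ℕ := Nat.card {x : PL k // g • x = x}

/-- The order of the stabiliser of `x`. -/
noncomputable def sc (x : PL k) : ℕ := Nat.card {g : G // g • x = x}

lemma sc_eq (x : PL k) : sc G x = Nat.card (MulAction.stabilizer G x) := rfl

/-- `g` has exactly one fixed point. -/
def IsPar (g : G) : Prop := ∃ x : PL k, g • x = x ∧ ∀ y : PL k, g • y = y → y = x

lemma card_PL : Nat.card (PL k) = Nat.card k + 1 :=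
  Projectivization.card_of_finrank_two k (Fin 2 → k) (by simp)

lemma two_lt_card_PL : 2 < Nat.card (PL k) := by
  rw [card_PL]
  have : 1 < Nat.card k := Finite.one_lt_card
  omega

lemma fc_of_mem_scal {g : G} (hg : g ∈ scal G) : fc G g = Nat.card (PL k) := by
  unfold fc
  have : ∀ x : PL k, g • x = x := (mem_scal_iff_forall G g).1 hg
  exact Nat.card_congr (Equiv.subtypeUnivEquiv this)

lemma fc_le_two {g : G} (hg : g ∉ scal G) : fc G g ≤ 2 := by
  classical
  haveI := Fintype.ofFinite (PL k)
  unfold fc
  rw [Nat.card_eq_fintype_card, Fintype.card_subtype]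
  by_contra h
  rw [not_le, Finset.two_lt_card_iff] at h
  obtain ⟨a, b, c, ha, hb, hc, hab, hac, hbc⟩ := h
  simp only [Finset.mem_filter, Finset.mem_univ, true_and] at ha hb hc
  exact hg (fixes_all_of_three (g : SL(2, k)) a b c hab hac hbc ha hb hc)

lemma fc_eq_one_iff (g : G) : fc G g = 1 ↔ IsPar G g := by
  classical
  haveI := Fintype.ofFinite (PL k)
  unfold fc IsPar
  rw [Nat.card_eq_fintype_card, Fintype.card_subtype, Finset.card_eq_one]
  constructor
  · rintro ⟨x, hx⟩
    refine ⟨x, ?_, ?_⟩
    · have : x ∈ Finset.univ.filter (fun x : PL k => g • x = x) := by rw [hx]; simp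
      simpa using this
    · intro y hy
      have : y ∈ Finset.univ.filter (fun x : PL k => g • x = x) := by simpa using hy
      rw [hx] at this
      simpa using this
  · rintro ⟨x, hx, huniq⟩
    refine ⟨x, ?_⟩
    ext y
    simp only [Finset.mem_filter, Finset.mem_univ, true_and, Finset.mem_singleton]
    constructor
    · exact huniq y
    · rintro rfl
      exact hx

lemma not_isPar_of_mem_scal {g : G} (hg : g ∈ scal G) : ¬ IsPar G g := by
  intro h
  rw [← fc_eq_one_iff, fc_of_mem_scal G hg] at h
  have := two_lt_card_PL (k := k)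
  omega

/-- The pointwise identity behind the count. -/
lemma fc_identity (hfix : ∀ g : G, ∃ x : PL k, g • x = x) (g : G) [Decidable (IsPar G g)]
    [Decidable (g ∈ scal G)] :
    fc G g + (if IsPar G g then 1 else 0) + (if g ∈ scal G then 2 else 0) =
      2 + (if g ∈ scal G then Nat.card (PL k) else 0) := by
  by_cases hs : g ∈ scal G
  · rw [if_pos hs, if_pos hs, if_neg (not_isPar_of_mem_scal G hs), fc_of_mem_scal G hs]
    ring
  · rw [if_neg hs, if_neg hs]
    have h2 := fc_le_two G hs
    have h1 : 1 ≤ fc G g := by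
      obtain ⟨x, hx⟩ := hfix g
      unfold fc
      haveI : Nonempty {x : PL k // g • x = x} := ⟨⟨x, hx⟩⟩
      exact Nat.card_pos
    by_cases hp : IsPar G g
    · rw [if_pos hp, (fc_eq_one_iff G g).2 hp]
    · rw [if_neg hp]
      have : fc G g ≠ 1 := fun h => hp ((fc_eq_one_iff G g).1 h)
      omega

/-- `∑_g fc(g) + |par| + 2 z = 2 |G| + z |X|`. -/
lemma sum_fc (hfix : ∀ g : G, ∃ x : PL k, g • x = x) [Fintype G] :
    ∑ g : G, fc G g + Nat.card {g : G // IsPar G g} + 2 * Nat.card (scal G) =
      2 * Nat.card G + Nat.card (scal G) * Nat.card (PL k) := by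
  classical
  have h := Finset.sum_congr (rfl : (Finset.univ : Finset G) = Finset.univ)
    (fun g _ => fc_identity G hfix g)
  rw [Finset.sum_add_distrib, Finset.sum_add_distrib, Finset.sum_add_distrib] at h
  simp only [Finset.sum_ite, Finset.sum_const, smul_eq_mul, mul_one, Finset.card_univ] at h
  have e1 : (Finset.univ.filter (fun g : G => IsPar G g)).card = Nat.card {g : G // IsPar G g} := by
    rw [Nat.card_eq_fintype_card, Fintype.card_subtype]
  have e2 : (Finset.univ.filter (fun g : G => g ∈ scal G)).card = Nat.card (scal G) := by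
    rw [Nat.card_eq_fintype_card]
    exact (Fintype.card_subtype _).symm
  rw [e1, e2, ← Nat.card_eq_fintype_card] at h
  linarith

/-- The orbit of `x₀`. -/
abbrev Om : Set (PL k) := MulAction.orbit G (x0 k)

/-- The elements of `G` whose unique fixed point is `x`. -/
def parAt (x : PL k) : Set G := {g | g • x = x ∧ ∀ y : PL k, g • y = y → y = x}

lemma sum_card_parAt [Fintype (PL k)] :
    ∑ x : PL k, Nat.card (parAt G x) = Nat.card {g : G // IsPar G g} := by
  classical
  haveI := Fintype.ofFinite G
  have h := sum_card_rel (α := G) (β := PL k)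
    (fun g x => g • x = x ∧ ∀ y : PL k, g • y = y → y = x)
  have h1 : ∀ g : G, Nat.card {x : PL k // g • x = x ∧ ∀ y : PL k, g • y = y → y = x} =
      if IsPar G g then 1 else 0 := by
    intro g
    by_cases hp : IsPar G g
    · rw [if_pos hp]
      obtain ⟨x, hx, hu⟩ := hp
      rw [Nat.card_eq_one_iff_unique]
      refine ⟨⟨fun a b => Subtype.ext ?_⟩, ⟨⟨x, hx, hu⟩⟩⟩
      rw [hu a.1 a.2.1, hu b.1 b.2.1]
    · rw [if_neg hp]
      haveI : IsEmpty {x : PL k // g • x = x ∧ ∀ y : PL k, g • y = y → y = x} := by
        constructor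
        rintro ⟨x, hx, hu⟩
        exact hp ⟨x, hx, hu⟩
      exact Nat.card_of_isEmpty
  simp_rw [h1] at h
  rw [Finset.sum_ite, Finset.sum_const, Finset.sum_const_zero, add_zero, smul_eq_mul,
    mul_one] at h
  rw [Nat.card_eq_fintype_card, Fintype.card_subtype, h]
  rfl

variable (p : ℕ) [Fact p.Prime] [CharP k p]

lemma parAt_eq_empty (hp2 : p ≠ 2) (hA : ∃ a : k, a ≠ 0 ∧ uSL a ∈ G) (x : PL k)
    (hx : x ∉ Om G) : parAt G x = ∅ := by
  ext g
  simp only [Set.mem_empty_iff_false, iff_false]
  rintro ⟨h1, h2⟩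
  exact hx (mem_orbit_of_unique_fixed G p hp2 hA g x h1 h2)

lemma card_parAt_smul (γ : G) (x : PL k) : Nat.card (parAt G (γ • x)) = Nat.card (parAt G x) := by
  symm
  refine Nat.card_eq_of_bijective
    (fun g : parAt G x => (⟨γ * (g : G) * γ⁻¹, ?_⟩ : parAt G (γ • x))) ⟨?_, ?_⟩
  · obtain ⟨h1, h2⟩ := g.2
    refine ⟨?_, ?_⟩
    · rw [mul_smul, mul_smul, inv_smul_smul, h1]
    · intro y hy
      have : (g : G) • (γ⁻¹ • y) = γ⁻¹ • y := by
        have := congrArg (fun z => γ⁻¹ • z) hy
        simpa [mul_smul] using this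
      have h3 := h2 _ this
      exact inv_smul_eq_iff.1 h3
  · intro g g' h
    have h1 : γ * (g : G) * γ⁻¹ = γ * (g' : G) * γ⁻¹ := congrArg Subtype.val h
    have h2 : (g : G) = g' := by
      have := congrArg (fun z => γ⁻¹ * z * γ) h1
      simpa [mul_assoc] using this
    exact Subtype.ext h2
  · rintro ⟨g, h1, h2⟩
    refine ⟨⟨γ⁻¹ * g * γ, ?_, ?_⟩, ?_⟩
    · rw [mul_smul, mul_smul, h1, inv_smul_smul]
    · intro y hy
      have : g • (γ • y) = γ • y := by
        have := congrArg (fun z => γ • z) hy
        simpa [mul_smul] using this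
      have h3 := h2 _ this
      exact smul_left_cancel _ h3
    · apply Subtype.ext
      simp only
      group

lemma sc_smul (γ : G) (x : PL k) : sc G (γ • x) = sc G x := by
  rw [sc_eq, sc_eq]
  exact (Nat.card_congr (MulAction.stabilizerEquivStabilizer (g := γ) (a := x) rfl).toEquiv).symm

lemma sc_x0 (hp2 : p ≠ 2) :
    sc G (x0 k) = Nat.card (scal G) * Nat.card (unipSet G) * Nat.card (tauHom G).range := by
  rw [sc_eq]
  exact card_borel_eq G p hp2

/-- `|parAt x₀| + z = z q`. -/
lemma card_parAt_x0 (hp2 : p ≠ 2) :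
    Nat.card (parAt G (x0 k)) + Nat.card (scal G) =
      Nat.card (scal G) * Nat.card (unipSet G) := by
  classical
  rw [← card_ker_tauHom G p hp2]
  -- the kernel of `τ` is the disjoint union of `parAt x₀` and `scal G`
  have hmem : ∀ t : (tauHom G).ker, ((t : borel G) : G) ∈ parAt G (x0 k) ∨
      ((t : borel G) : G) ∈ scal G := by
    intro t
    have h10 := (mem_borel_iff G (t : borel G)).1 (t : borel G).2
    have hsq := (mem_ker_tauHom_iff G (t : borel G)).1 t.2
    have h00 := (sq_eq_one_iff_of_upper _ h10).1 hsq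
    by_cases h01 : (((t : borel G) : G) : SL(2, k)) 0 1 = 0
    · right
      exact ⟨h01, h10, h00⟩
    · left
      refine ⟨(t : borel G).2, ?_⟩
      exact (unique_fixed_iff_upper _ h10).2 ⟨h00, h01⟩
  let f : (parAt G (x0 k)) ⊕ (scal G) → (tauHom G).ker := fun s =>
    match s with
    | Sum.inl g => ⟨⟨(g : G), g.2.1⟩, by
        rw [mem_ker_tauHom_iff]
        have h10 : ((g : G) : SL(2, k)) 1 0 = 0 := (smul_x0_eq_iff _).1 g.2.1
        exact (sq_eq_one_iff_of_upper _ h10).2
          ((unique_fixed_iff_upper _ h10).1 g.2.2).1⟩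
    | Sum.inr g => ⟨⟨(g : G), scal_le_stabilizer G (x0 k) g.2⟩, by
        rw [mem_ker_tauHom_iff]
        have hs : IsScalar ((g : G) : SL(2, k)) := g.2
        exact (sq_eq_one_iff_of_upper _ hs.2.1).2 hs.2.2⟩
  have hf : Function.Bijective f := by
    constructor
    · rintro (g | g) (g' | g') h
      · have : (g : G) = g' := congrArg (fun t : (tauHom G).ker => ((t : borel G) : G)) h
        rw [Subtype.ext this]
      · exfalso
        have : (g : G) = g' := congrArg (fun t : (tauHom G).ker => ((t : borel G) : G)) h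
        have hs : IsScalar ((g : G) : SL(2, k)) := by rw [this]; exact g'.2
        obtain ⟨y, hy⟩ := exists_ne_x0 (k := k)
        exact hy (g.2.2 y (hs.smul_eq y))
      · exfalso
        have : (g : G) = g' := congrArg (fun t : (tauHom G).ker => ((t : borel G) : G)) h
        have hs : IsScalar ((g' : G) : SL(2, k)) := by rw [← this]; exact g.2
        obtain ⟨y, hy⟩ := exists_ne_x0 (k := k)
        exact hy (g'.2.2 y (hs.smul_eq y))
      · have : (g : G) = g' := congrArg (fun t : (tauHom G).ker => ((t : borel G) : G)) h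
        rw [Subtype.ext this]
    · intro t
      rcases hmem t with h | h
      · exact ⟨Sum.inl ⟨_, h⟩, rfl⟩
      · exact ⟨Sum.inr ⟨_, h⟩, rfl⟩
  rw [← Nat.card_eq_of_bijective f hf, Nat.card_sum]

lemma sc_mul_card_orbit (x : PL k) :
    sc G x * Nat.card (MulAction.orbit G x) = Nat.card G := by
  rw [sc_eq, Nat.card_coe_set_eq, ← MulAction.index_stabilizer, Subgroup.card_mul_index]

lemma scal_card_dvd_sc (x : PL k) : Nat.card (scal G) ∣ sc G x := by
  rw [sc_eq]
  exact Subgroup.card_dvd_of_le (scal_le_stabilizer G x)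

lemma sc_pos (x : PL k) : 0 < sc G x := by
  rw [sc_eq]
  exact Nat.card_pos

lemma scal_card_le_sc (x : PL k) : Nat.card (scal G) ≤ sc G x :=
  Nat.le_of_dvd (sc_pos G x) (scal_card_dvd_sc G x)

lemma sum_fc_eq_sum_sc [Fintype G] [Fintype (PL k)] :
    ∑ g : G, fc G g = ∑ x : PL k, sc G x :=
  sum_card_rel (fun (g : G) (x : PL k) => g • x = x)

/-- The defect sum `D = ∑_{x ∉ Ω} (|G_x| - z)`. -/
noncomputable def defect [Fintype (PL k)] : ℕ := by
  classical
  exact ∑ x ∈ Finset.univ.filter (fun x : PL k => x ∉ Om G), (sc G x - Nat.card (scal G))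

/-- **The class equation**: `D + n z q + 2 z = n z q e + 2 n z`. -/
theorem class_equation [Fintype (PL k)] (hp2 : p ≠ 2) (hA : ∃ a : k, a ≠ 0 ∧ uSL a ∈ G)
    (hfix : ∀ g : G, ∃ x : PL k, g • x = x) :
    defect G + Nat.card (Om G) * Nat.card (scal G) * Nat.card (unipSet G) +
        2 * Nat.card (scal G) =
      Nat.card (Om G) * Nat.card (scal G) * Nat.card (unipSet G) * Nat.card (tauHom G).range +
        2 * Nat.card (Om G) * Nat.card (scal G) := by
  classical
  haveI := Fintype.ofFinite G
  set z := Nat.card (scal G) with hz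
  set q := Nat.card (unipSet G) with hq
  set e := Nat.card (tauHom G).range with he
  set n := Nat.card (Om G) with hn
  -- cardinalities of `Ω` and its complement
  have hnΩ : (Finset.univ.filter (fun x : PL k => x ∈ Om G)).card = n := by
    rw [hn, Nat.card_eq_fintype_card, Fintype.card_subtype]
  have hX : n + (Finset.univ.filter (fun x : PL k => x ∉ Om G)).card = Nat.card (PL k) := by
    rw [← hnΩ, Finset.card_filter_add_card_filter_not, Nat.card_eq_fintype_card]
    rfl
  -- `|G| = n z q e`
  have hG : Nat.card G = n * (z * q * e) := by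
    rw [← sc_mul_card_orbit G (x0 k), sc_x0 G p hp2]
    ring
  -- stabilisers on `Ω`
  have hscΩ : ∀ x ∈ Finset.univ.filter (fun x : PL k => x ∈ Om G), sc G x = z * q * e := by
    intro x hx
    simp only [Finset.mem_filter, Finset.mem_univ, true_and] at hx
    obtain ⟨γ, rfl⟩ := hx
    change sc G (γ • x0 k) = _
    rw [sc_smul, sc_x0 G p hp2]
  have hsum_sc : ∑ x : PL k, sc G x =
      n * (z * q * e) + (defect G + z * (Finset.univ.filter (fun x : PL k => x ∉ Om G)).card) := by
    rw [← Finset.sum_filter_add_sum_filter_not Finset.univ (fun x : PL k => x ∈ Om G)]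
    congr 1
    · rw [Finset.sum_congr rfl hscΩ, Finset.sum_const, smul_eq_mul, hnΩ]
    · unfold defect
      rw [mul_comm, ← smul_eq_mul, ← Finset.sum_const, ← Finset.sum_add_distrib]
      refine Finset.sum_congr rfl fun x _ => ?_
      exact (Nat.sub_add_cancel (scal_card_le_sc G x)).symm
  -- parabolic elements
  have hparΩ : ∀ x ∈ Finset.univ.filter (fun x : PL k => x ∈ Om G),
      Nat.card (parAt G x) = Nat.card (parAt G (x0 k)) := by
    intro x hx
    simp only [Finset.mem_filter, Finset.mem_univ, true_and] at hx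
    obtain ⟨γ, rfl⟩ := hx
    exact card_parAt_smul G γ (x0 k)
  have hparΩc : ∀ x ∈ Finset.univ.filter (fun x : PL k => ¬ x ∈ Om G),
      Nat.card (parAt G x) = 0 := by
    intro x hx
    simp only [Finset.mem_filter, Finset.mem_univ, true_and] at hx
    rw [parAt_eq_empty G p hp2 hA x hx]
    simp
  have hpar : Nat.card {g : G // IsPar G g} = n * Nat.card (parAt G (x0 k)) := by
    rw [← sum_card_parAt G,
      ← Finset.sum_filter_add_sum_filter_not Finset.univ (fun x : PL k => x ∈ Om G),
      Finset.sum_congr rfl hparΩ, Finset.sum_congr rfl hparΩc, Finset.sum_const,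
      Finset.sum_const_zero, add_zero, smul_eq_mul, hnΩ]
  have hpar0 := card_parAt_x0 G p hp2
  rw [← hz, ← hq] at hpar0
  have h1 := sum_fc G hfix
  rw [sum_fc_eq_sum_sc G, hsum_sc, hpar, hG, ← hX, ← hz] at h1
  have h2 : n * Nat.card (parAt G (x0 k)) + n * z = n * (z * q) := by
    rw [← mul_add, hpar0]
  set D := defect G
  set c := (Finset.univ.filter (fun x : PL k => x ∉ Om G)).card
  set P := Nat.card (parAt G (x0 k))
  have h3 : D + n * P + 2 * z = n * (z * q * e) + z * n := by
    have e1 : z * (n + c) = z * n + z * c := by ring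
    rw [e1] at h1
    linarith
  have h4 : D + (n * P + n * z) + 2 * z = n * (z * q * e) + 2 * (z * n) := by linarith
  rw [h2] at h4
  have e2 : n * z * q = n * (z * q) := by ring
  have e3 : n * z * q * e = n * (z * q * e) := by ring
  have e4 : 2 * n * z = 2 * (z * n) := by ring
  calc D + n * z * q + 2 * z = D + n * (z * q) + 2 * z := by rw [e2]
    _ = n * (z * q * e) + 2 * (z * n) := h4
    _ = n * z * q * e + 2 * n * z := by rw [e3, e4]

end Count

end Fermat.Agent.P1.helper40
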