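import Mathlib

/-!
# P1 / TW-GT / class equation (helper40), part 1: fixed points of `SL(2, k)` on the projective line

Linear algebra on `ℙ k (Fin 2 → k)`:

* `smul_mk_eq_iff` : `g • [v] = [v]` iff `v` is an eigenvector;
* `smul_x0_eq_iff` : `g` fixes `x₀ = [1 : 0]` iff `g 1 0 = 0`;
* `fixes_all_of_three` : an element fixing three distinct points fixes every point;
* the analysis of the fixed points of an upper triangular element.
-/

set_option autoImplicit false

open Polynomial Matrix MatrixGroups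
open scoped LinearAlgebra.Projectivization

namespace Fermat.Agent.P1.helper40

variable {k : Type*} [Field k]

/-- The projective line over `k`. -/
abbrev PL (k : Type*) [Field k] : Type _ := ℙ k (Fin 2 → k)

/-- The vector `(1, 0)`. -/
def e0 (k : Type*) [Field k] : Fin 2 → k := ![1, 0]

lemma e0_ne_zero : e0 k ≠ 0 := by
  intro h
  have := congrFun h 0
  simp [e0] at this

/-- The base point `x₀ = [1 : 0]`. -/
def x0 (k : Type*) [Field k] : PL k := Projectivization.mk k (e0 k) e0_ne_zero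

lemma smul_mk_eq_iff (g : SL(2, k)) (v : Fin 2 → k) (hv : v ≠ 0) :
    g • (Projectivization.mk k v hv : PL k) = Projectivization.mk k v hv ↔
      ∃ a : k, (g : Matrix (Fin 2) (Fin 2) k) *ᵥ v = a • v := by
  rw [Projectivization.smul_mk, Projectivization.mk_eq_mk_iff']
  constructor
  · rintro ⟨a, ha⟩
    exact ⟨a, ha.symm⟩
  · rintro ⟨a, ha⟩
    exact ⟨a, ha.symm⟩

lemma mulVec_fin_two (M : Matrix (Fin 2) (Fin 2) k) (v : Fin 2 → k) :
    M *ᵥ v = ![M 0 0 * v 0 + M 0 1 * v 1, M 1 0 * v 0 + M 1 1 * v 1] := by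
  funext i
  fin_cases i <;> simp [Matrix.mulVec, dotProduct, Fin.sum_univ_two]

lemma smul_mk_eq_iff' (g : SL(2, k)) (v : Fin 2 → k) (hv : v ≠ 0) :
    g • (Projectivization.mk k v hv : PL k) = Projectivization.mk k v hv ↔
      ∃ a : k, g 0 0 * v 0 + g 0 1 * v 1 = a * v 0 ∧ g 1 0 * v 0 + g 1 1 * v 1 = a * v 1 := by
  rw [smul_mk_eq_iff]
  refine exists_congr fun a => ?_
  rw [mulVec_fin_two]
  constructor
  · intro h
    have h0 := congrFun h 0
    have h1 := congrFun h 1
    simp at h0 h1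
    exact ⟨h0, h1⟩
  · rintro ⟨h0, h1⟩
    funext i
    fin_cases i
    · simpa using h0
    · simpa using h1

/-- `g` fixes the base point iff it is upper triangular. -/
lemma smul_x0_eq_iff (g : SL(2, k)) : g • x0 k = x0 k ↔ g 1 0 = 0 := by
  unfold x0
  rw [smul_mk_eq_iff']
  simp only [e0, Matrix.cons_val_zero, Matrix.cons_val_one, mul_one, mul_zero, add_zero]
  constructor
  · rintro ⟨a, -, h⟩
    exact h
  · intro h
    exact ⟨g 0 0, rfl, h⟩

/-- Every point other than `x₀` is of the form `[c : 1]`. -/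
lemma exists_eq_mk_of_ne_x0 (x : PL k) (hx : x ≠ x0 k) :
    ∃ c : k, ∃ h : (![c, 1] : Fin 2 → k) ≠ 0, x = Projectivization.mk k ![c, 1] h := by
  induction x using Projectivization.ind with
  | _ v hv =>
    have hv1 : v 1 ≠ 0 := by
      intro h1
      apply hx
      unfold x0
      rw [Projectivization.mk_eq_mk_iff']
      refine ⟨v 0, ?_⟩
      funext i
      fin_cases i
      · simp [e0]
      · simp [e0, h1]
    have hne : (![v 0 / v 1, 1] : Fin 2 → k) ≠ 0 := by
      intro h
      have := congrFun h 1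
      simp at this
    refine ⟨v 0 / v 1, hne, ?_⟩
    rw [Projectivization.mk_eq_mk_iff']
    refine ⟨v 1, ?_⟩
    funext i
    fin_cases i
    · simp only [Fin.zero_eta, Pi.smul_apply, Matrix.cons_val_zero, smul_eq_mul]
      field_simp
    · simp

lemma mk_c_ne_x0 (c : k) (h : (![c, 1] : Fin 2 → k) ≠ 0) :
    (Projectivization.mk k ![c, 1] h : PL k) ≠ x0 k := by
  unfold x0
  rw [Ne, Projectivization.mk_eq_mk_iff']
  rintro ⟨a, ha⟩
  have := congrFun ha 1
  simp [e0] at this

lemma mk_c_injective (c c' : k) (h : (![c, 1] : Fin 2 → k) ≠ 0) (h' : (![c', 1] : Fin 2 → k) ≠ 0)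
    (heq : (Projectivization.mk k ![c, 1] h : PL k) = Projectivization.mk k ![c', 1] h') :
    c = c' := by
  rw [Projectivization.mk_eq_mk_iff'] at heq
  obtain ⟨a, ha⟩ := heq
  have h1 := congrFun ha 1
  have h0 := congrFun ha 0
  simp at h0 h1
  rw [h1, one_mul] at h0
  exact h0.symm

/-- An upper triangular element fixes `[c : 1]` iff `(t₀₀ - t₁₁) c + t₀₁ = 0`. -/
lemma upper_smul_mk_c_eq_iff (t : SL(2, k)) (ht : t 1 0 = 0) (c : k)
    (h : (![c, 1] : Fin 2 → k) ≠ 0) :
    t • (Projectivization.mk k ![c, 1] h : PL k) = Projectivization.mk k ![c, 1] h ↔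
      (t 0 0 - t 1 1) * c + t 0 1 = 0 := by
  rw [smul_mk_eq_iff']
  simp only [Matrix.cons_val_zero, Matrix.cons_val_one, mul_one, ht, zero_mul, zero_add]
  constructor
  · rintro ⟨a, h0, h1⟩
    rw [← h1] at h0
    linear_combination h0
  · intro h0
    exact ⟨t 1 1, by linear_combination h0, rfl⟩

/-- An element of `SL(2, k)` is scalar. -/
def IsScalar (g : SL(2, k)) : Prop := g 0 1 = 0 ∧ g 1 0 = 0 ∧ g 0 0 = g 1 1

lemma IsScalar.smul_eq {g : SL(2, k)} (hg : IsScalar g) (x : PL k) : g • x = x := by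
  induction x using Projectivization.ind with
  | _ v hv =>
    rw [smul_mk_eq_iff']
    refine ⟨g 0 0, ?_, ?_⟩
    · rw [hg.1]; ring
    · rw [hg.2.1, ← hg.2.2]; ring

lemma isScalar_of_forall_smul_eq {g : SL(2, k)} (hg : ∀ x : PL k, g • x = x) : IsScalar g := by
  have h1 : g 1 0 = 0 := (smul_x0_eq_iff g).1 (hg _)
  have hne0 : (![(0 : k), 1] : Fin 2 → k) ≠ 0 := by
    intro h
    have := congrFun h 1
    simp at this
  have hne1 : (![(1 : k), 1] : Fin 2 → k) ≠ 0 := by
    intro h
    have := congrFun h 1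
    simp at this
  have h2 := (upper_smul_mk_c_eq_iff g h1 0 hne0).1 (hg _)
  have h3 := (upper_smul_mk_c_eq_iff g h1 1 hne1).1 (hg _)
  simp only [mul_zero, zero_add] at h2
  rw [h2, add_zero, mul_one, sub_eq_zero] at h3
  exact ⟨h2, h1, h3⟩

/-- Scalar elements commute with everything. -/
lemma IsScalar.mul_comm {g : SL(2, k)} (hg : IsScalar g) (h : SL(2, k)) : g * h = h * g := by
  apply Subtype.ext
  ext i j
  simp only [Matrix.SpecialLinearGroup.coe_mul, Matrix.mul_apply, Fin.sum_univ_two]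
  obtain ⟨h1, h2, h3⟩ := hg
  fin_cases i <;> fin_cases j <;> simp [h1, h2, h3] <;> ring

/-- An upper triangular element which fixes two distinct points other than `x₀` is scalar. -/
lemma isScalar_of_upper_of_two (t : SL(2, k)) (ht : t 1 0 = 0) (y y' : PL k)
    (hy : y ≠ x0 k) (hy' : y' ≠ x0 k) (hne : y ≠ y') (h1 : t • y = y) (h2 : t • y' = y') :
    IsScalar t := by
  obtain ⟨c, hc, rfl⟩ := exists_eq_mk_of_ne_x0 y hy
  obtain ⟨c', hc', rfl⟩ := exists_eq_mk_of_ne_x0 y' hy'
  rw [upper_smul_mk_c_eq_iff t ht] at h1 h2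
  have hcc : c ≠ c' := by
    rintro rfl
    exact hne rfl
  have hd : t 0 0 - t 1 1 = 0 := by
    have : (t 0 0 - t 1 1) * (c - c') = 0 := by linear_combination h1 - h2
    rcases mul_eq_zero.1 this with h | h
    · exact h
    · exact absurd (sub_eq_zero.1 h) hcc
  rw [hd, zero_mul, zero_add] at h1
  exact ⟨h1, ht, sub_eq_zero.1 hd⟩

/-- An element of `SL(2, k)` which fixes three distinct points fixes every point. -/
theorem fixes_all_of_three (g : SL(2, k)) (x y w : PL k) (hxy : x ≠ y) (hxw : x ≠ w)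
    (hyw : y ≠ w) (hx : g • x = x) (hy : g • y = y) (hw : g • w = w) : IsScalar g := by
  obtain ⟨h, hh⟩ := MulAction.exists_smul_eq SL(2, k) (x0 k) x
  set t := h⁻¹ * g * h with ht
  have hfix : ∀ u : PL k, g • u = u → t • (h⁻¹ • u) = h⁻¹ • u := by
    intro u hu
    rw [ht, mul_smul, mul_smul, smul_inv_smul, hu]
  have htx : t • x0 k = x0 k := by
    have := hfix x hx
    rwa [← hh, inv_smul_smul] at this
  have ht10 : t 1 0 = 0 := (smul_x0_eq_iff t).1 htx
  have hx0 : h⁻¹ • x = x0 k := by rw [← hh, inv_smul_smul]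
  have hts : IsScalar t := by
    refine isScalar_of_upper_of_two t ht10 (h⁻¹ • y) (h⁻¹ • w) ?_ ?_ ?_ (hfix y hy) (hfix w hw)
    · intro h'
      apply hxy
      rw [← hx0] at h'
      exact (smul_left_cancel _ h').symm
    · intro h'
      apply hxw
      rw [← hx0] at h'
      exact (smul_left_cancel _ h').symm
    · intro h'
      exact hyw (smul_left_cancel _ h')
  have hg : g = t := by
    have : g = h * t * h⁻¹ := by rw [ht]; group
    rw [this, ← hts.mul_comm h, mul_inv_cancel_right]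
  rw [hg]
  exact hts

end Fermat.Agent.P1.helper40
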