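import Fermat.Agent.P1.helper40_CECount

/-!
# P1 / TW-GT / class equation (helper40), part 6: analysis of the orbits

From the class equation `D + n z q + 2 z = n z q e + 2 n z`:

* there is exactly one orbit `O₁` outside `Ω` with stabilisers bigger than `z`;
* `n q + 2 = |O₁| + 2 n`;
* the stabiliser `C` of a point of `O₁` acts on `Ω` with all stabilisers equal to the scalars,
  so `|C| ∣ n z`;
* `q ≤ 2 e + 1`.
-/

set_option autoImplicit false
set_option linter.unusedSectionVars false
set_option linter.style.haveILetI false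
set_option linter.unusedVariables false

open Polynomial Matrix MatrixGroups
open scoped LinearAlgebra.Projectivization

namespace Fermat.Agent.P1.helper40

variable {k : Type*} [Field k]

section Orbit

variable (G : Subgroup SL(2, k)) [Finite k] (p : ℕ) [Fact p.Prime] [CharP k p]

/-- `q ≥ 2`. -/
lemma two_le_card_unipSet (hA : ∃ a : k, a ≠ 0 ∧ uSL a ∈ G) : 2 ≤ Nat.card (unipSet G) := by
  obtain ⟨a, ha, haG⟩ := hA
  have : 1 < Nat.card (unipSet G) := by
    rw [Finite.one_lt_card_iff_nontrivial]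
    refine ⟨⟨⟨a, haG⟩, 0, ?_⟩⟩
    intro h
    exact ha (congrArg Subtype.val h)
  exact this

/-- `n ≥ q + 1`. -/
lemma card_unipSet_lt_card_Om (hmove : ∃ g : G, g • x0 k ≠ x0 k) :
    Nat.card (unipSet G) + 1 ≤ Nat.card (Om G) := by
  obtain ⟨g, hg⟩ := hmove
  rw [← Finite.card_option]
  let f : Option (unipSet G) → Om G := fun o =>
    match o with
    | none => ⟨x0 k, MulAction.mem_orbit_self _⟩
    | some a => ⟨(⟨uSL (a : k), a.2⟩ * g : G) • x0 k, MulAction.mem_orbit _ _⟩
  refine Nat.card_le_card_of_injective f ?_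
  rintro (_ | a) (_ | b) h
  · rfl
  · exfalso
    have h1 : x0 k = (⟨uSL (b : k), b.2⟩ * g : G) • x0 k := congrArg Subtype.val h
    rw [mul_smul] at h1
    have h2 : (⟨uSL (b : k), b.2⟩ : G)⁻¹ • x0 k = g • x0 k := inv_smul_eq_iff.2 h1
    have h3 : (⟨uSL (b : k), b.2⟩ : G)⁻¹ • x0 k = x0 k := by
      rw [inv_smul_eq_iff]
      exact ((smul_x0_eq_iff (uSL (b : k))).2 (uSL_apply_10 _)).symm
    exact hg (h2.symm.trans h3)
  · exfalso
    have h1 : (⟨uSL (a : k), a.2⟩ * g : G) • x0 k = x0 k := congrArg Subtype.val h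
    rw [mul_smul] at h1
    have h2 : g • x0 k = (⟨uSL (a : k), a.2⟩ : G)⁻¹ • x0 k := (inv_smul_eq_iff.2 h1.symm).symm
    have h3 : (⟨uSL (a : k), a.2⟩ : G)⁻¹ • x0 k = x0 k := by
      rw [inv_smul_eq_iff]
      exact ((smul_x0_eq_iff (uSL (a : k))).2 (uSL_apply_10 _)).symm
    exact hg (h2.trans h3)
  · have h1 : (⟨uSL (a : k), a.2⟩ * g : G) • x0 k = (⟨uSL (b : k), b.2⟩ * g : G) • x0 k :=
      congrArg Subtype.val h
    rw [mul_smul, mul_smul] at h1
    have h2 : ((⟨uSL (b : k), b.2⟩ : G)⁻¹ * ⟨uSL (a : k), a.2⟩) • (g • x0 k) = g • x0 k := by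
      rw [mul_smul, h1, inv_smul_smul]
    have h3 : uSL ((a : k) - b) • (g • x0 k) = g • x0 k := by
      have e : uSL ((a : k) - b) = (uSL (b : k))⁻¹ * uSL (a : k) := by
        rw [← uSL_neg, ← uSL_add]
        congr 1
        ring
      rw [e]
      exact h2
    by_contra hne
    have hab : (a : k) - b ≠ 0 := by
      intro h0
      apply hne
      have : a = b := Subtype.ext (sub_eq_zero.1 h0)
      rw [this]
    exact hg ((uSL_smul_eq_iff hab _).1 h3)

open Classical in
/-- The orbit of `x` as a finset. -/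
noncomputable def orbF [Fintype (PL k)] (x : PL k) : Finset (PL k) :=
  Finset.univ.filter (fun y : PL k => y ∈ MulAction.orbit G x)

open Classical in
/-- The complement of `Ω` as a finset. -/
noncomputable def OmC [Fintype (PL k)] : Finset (PL k) :=
  Finset.univ.filter (fun y : PL k => y ∉ Om G)

lemma mem_orbF [Fintype (PL k)] {x y : PL k} : y ∈ orbF G x ↔ y ∈ MulAction.orbit G x := by
  classical
  simp [orbF]

lemma mem_OmC [Fintype (PL k)] {y : PL k} : y ∈ OmC G ↔ y ∉ Om G := by
  classical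
  simp [OmC]

lemma defect_eq [Fintype (PL k)] :
    defect G = ∑ x ∈ OmC G, (sc G x - Nat.card (scal G)) := by
  classical
  unfold defect OmC
  rfl

lemma orbF_subset_OmC [Fintype (PL k)] {x : PL k} (hx : x ∉ Om G) : orbF G x ⊆ OmC G := by
  intro y hy
  rw [mem_orbF] at hy
  rw [mem_OmC]
  intro hyΩ
  apply hx
  have h1 : MulAction.orbit G y = MulAction.orbit G x := MulAction.orbit_eq_iff.2 hy
  have h2 : MulAction.orbit G y = MulAction.orbit G (x0 k) := MulAction.orbit_eq_iff.2 hyΩ
  have h3 : x ∈ MulAction.orbit G x := MulAction.mem_orbit_self x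
  rw [← h1, h2] at h3
  exact h3

lemma sc_of_mem_orbF [Fintype (PL k)] {x y : PL k} (hy : y ∈ orbF G x) : sc G y = sc G x := by
  rw [mem_orbF] at hy
  obtain ⟨γ, rfl⟩ := hy
  exact sc_smul G γ x

lemma card_orbF [Fintype (PL k)] (x : PL k) :
    (orbF G x).card = Nat.card (MulAction.orbit G x) := by
  classical
  rw [Nat.card_eq_fintype_card, Fintype.card_subtype]
  rfl

lemma sc_mul_card_orbF [Fintype (PL k)] (x : PL k) :
    sc G x * (orbF G x).card = Nat.card G := by
  rw [card_orbF, sc_mul_card_orbit]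

lemma sum_orbF [Fintype (PL k)] (x : PL k) :
    ∑ y ∈ orbF G x, (sc G y - Nat.card (scal G)) =
      (orbF G x).card * (sc G x - Nat.card (scal G)) := by
  rw [Finset.sum_congr rfl (fun y hy => by rw [sc_of_mem_orbF G hy]), Finset.sum_const,
    smul_eq_mul]

lemma orbF_disjoint [Fintype (PL k)] {x y : PL k} (hy : y ∉ orbF G x) :
    Disjoint (orbF G x) (orbF G y) := by
  rw [Finset.disjoint_left]
  intro w hw hw'
  rw [mem_orbF] at hw hw' hy
  apply hy
  have h1 : MulAction.orbit G w = MulAction.orbit G x := MulAction.orbit_eq_iff.2 hw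
  have h2 : MulAction.orbit G w = MulAction.orbit G y := MulAction.orbit_eq_iff.2 hw'
  have h3 : y ∈ MulAction.orbit G y := MulAction.mem_orbit_self y
  rw [← h2, h1] at h3
  exact h3

/-- If the stabiliser of `x` is bigger than `z` then `2 (|G_x| - z) ≥ |G_x|`. -/
lemma two_mul_sub_ge {x : PL k} (hx : Nat.card (scal G) < sc G x) :
    sc G x ≤ 2 * (sc G x - Nat.card (scal G)) := by
  obtain ⟨m, hm⟩ := scal_card_dvd_sc G x
  have hz : 0 < Nat.card (scal G) := Nat.card_pos
  rw [hm] at hx ⊢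
  have hm2 : 2 ≤ m := by
    by_contra h
    have : m ≤ 1 := by omega
    have : Nat.card (scal G) * m ≤ Nat.card (scal G) * 1 := Nat.mul_le_mul_left _ this
    omega
  have : Nat.card (scal G) * 2 ≤ Nat.card (scal G) * m := Nat.mul_le_mul_left _ hm2
  omega

omit [Finite k] in
lemma arith_D_pos {n z q e D : ℕ} (hz : 0 < z) (he : 0 < e) (hn : 2 ≤ n)
    (hCE : D + n * z * q + 2 * z = n * z * q * e + 2 * n * z) : 0 < D := by
  have h1 : n * z * q ≤ n * z * q * e := Nat.le_mul_of_pos_right _ he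
  have h2 : 2 * z < 2 * n * z := by nlinarith
  omega

omit [Finite k] in
lemma arith_two_orbits {n z q e D A₁ A₂ Gc : ℕ} (hz : 0 < z) (hq : 2 ≤ q)
    (hCE : D + n * z * q + 2 * z = n * z * q * e + 2 * n * z) (hG : Gc = n * z * q * e)
    (h4 : Gc ≤ 2 * A₁) (h5 : Gc ≤ 2 * A₂) (h1 : A₁ + A₂ ≤ D) : False := by
  have h6 : Gc ≤ D := by omega
  rw [hG] at h6
  have h7 : n * z * q + 2 * z ≤ 2 * n * z := by omega
  have h8 : 2 * n * z ≤ n * z * q := by
    calc 2 * n * z = n * z * 2 := by ring
      _ ≤ n * z * q := Nat.mul_le_mul_left _ hq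
  omega

omit [Finite k] in
lemma arith_dagger {n z q e D O s Gc : ℕ} (hz : 0 < z) (hs : z ≤ s)
    (hCE : D + n * z * q + 2 * z = n * z * q * e + 2 * n * z) (hG : Gc = n * z * q * e)
    (hDeq : D = O * (s - z)) (hO : s * O = Gc) : n * q + 2 = O + 2 * n := by
  have h9 : D + O * z = n * z * q * e := by
    rw [hDeq, ← mul_add, Nat.sub_add_cancel hs, mul_comm, hO, hG]
  have h10 : n * z * q + 2 * z = O * z + 2 * n * z := by omega
  have h11 : (n * q + 2) * z = (O + 2 * n) * z := by
    calc (n * q + 2) * z = n * z * q + 2 * z := by ring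
      _ = O * z + 2 * n * z := h10
      _ = (O + 2 * n) * z := by ring
  exact Nat.eq_of_mul_eq_mul_right hz h11

/-- There is exactly one orbit outside `Ω` with stabilisers bigger than the scalars, and its
cardinality is `n q + 2 - 2 n`. -/
theorem exists_big_orbit (hp2 : p ≠ 2) (hA : ∃ a : k, a ≠ 0 ∧ uSL a ∈ G)
    (hfix : ∀ g : G, ∃ x : PL k, g • x = x) (hmove : ∃ g : G, g • x0 k ≠ x0 k) :
    ∃ x₁ : PL k, x₁ ∉ Om G ∧ Nat.card (scal G) < sc G x₁ ∧
      Nat.card (Om G) * Nat.card (unipSet G) + 2 =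
        Nat.card (MulAction.orbit G x₁) + 2 * Nat.card (Om G) := by
  classical
  haveI := Fintype.ofFinite (PL k)
  have hCE := class_equation G p hp2 hA hfix
  have hq := two_le_card_unipSet G hA
  have hn := card_unipSet_lt_card_Om G hmove
  have hz : 0 < Nat.card (scal G) := Nat.card_pos
  have he : 0 < Nat.card (tauHom G).range := Nat.card_pos
  have hG : Nat.card G = Nat.card (Om G) * Nat.card (scal G) * Nat.card (unipSet G) *
      Nat.card (tauHom G).range := by
    rw [← sc_mul_card_orbit G (x0 k), sc_x0 G p hp2]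
    ring
  -- `D > 0`
  have hDpos : 0 < defect G := arith_D_pos hz he (by omega) hCE
  rw [defect_eq, Finset.sum_pos_iff] at hDpos
  obtain ⟨x₁, hx₁, hpos⟩ := hDpos
  have hx₁Ω : x₁ ∉ Om G := (mem_OmC G).1 hx₁
  have hs₁ : Nat.card (scal G) < sc G x₁ := by omega
  refine ⟨x₁, hx₁Ω, hs₁, ?_⟩
  have hsub := orbF_subset_OmC G hx₁Ω
  have hO₁ := sc_mul_card_orbF G x₁
  -- no other big orbit
  have hother : ∀ x ∈ OmC G, x ∉ orbF G x₁ → sc G x - Nat.card (scal G) = 0 := by
    intro x₂ hx₂ hx₂O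
    by_contra hne
    exfalso
    have hs₂ : Nat.card (scal G) < sc G x₂ := by omega
    have hx₂Ω : x₂ ∉ Om G := (mem_OmC G).1 hx₂
    have hsub₂ := orbF_subset_OmC G hx₂Ω
    have hO₂ := sc_mul_card_orbF G x₂
    have hdisj := orbF_disjoint G hx₂O
    have h1 : ∑ x ∈ orbF G x₁ ∪ orbF G x₂, (sc G x - Nat.card (scal G)) ≤ defect G := by
      rw [defect_eq]
      exact Finset.sum_le_sum_of_subset (Finset.union_subset hsub hsub₂)
    rw [Finset.sum_union hdisj, sum_orbF, sum_orbF] at h1
    have h2 := two_mul_sub_ge G hs₁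
    have h3 := two_mul_sub_ge G hs₂
    have h4 : Nat.card G ≤ 2 * ((orbF G x₁).card * (sc G x₁ - Nat.card (scal G))) := by
      rw [← hO₁]
      calc sc G x₁ * (orbF G x₁).card
          ≤ (2 * (sc G x₁ - Nat.card (scal G))) * (orbF G x₁).card :=
            Nat.mul_le_mul_right _ h2
        _ = 2 * ((orbF G x₁).card * (sc G x₁ - Nat.card (scal G))) := by ring
    have h5 : Nat.card G ≤ 2 * ((orbF G x₂).card * (sc G x₂ - Nat.card (scal G))) := by
      rw [← hO₂]
      calc sc G x₂ * (orbF G x₂).card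
          ≤ (2 * (sc G x₂ - Nat.card (scal G))) * (orbF G x₂).card :=
            Nat.mul_le_mul_right _ h3
        _ = 2 * ((orbF G x₂).card * (sc G x₂ - Nat.card (scal G))) := by ring
    exact arith_two_orbits hz hq hCE hG h4 h5 h1
  have hDeq : defect G = (orbF G x₁).card * (sc G x₁ - Nat.card (scal G)) := by
    rw [defect_eq, ← sum_orbF]
    exact (Finset.sum_subset hsub hother).symm
  rw [← card_orbF G x₁]
  exact arith_dagger hz hs₁.le hCE hG hDeq hO₁

omit [Finite k] in
lemma arith_final {n z q e s O N t : ℕ} (hz : 0 < z) (hq : 2 ≤ q) (hn : q + 1 ≤ n)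
    (hsO : s * O = n * z * q * e) (hdag : n * q + 2 = O + 2 * n) (hN : n = N * t)
    (ht : t * z = s) : q ≤ 2 * e + 1 := by
  have ht0 : 0 < t := by
    rcases Nat.eq_zero_or_pos t with h | h
    · rw [h, mul_zero] at hN; omega
    · exact h
  have hN0 : 0 < N := by
    rcases Nat.eq_zero_or_pos N with h | h
    · rw [h, zero_mul] at hN; omega
    · exact h
  -- `O = N q e`
  have hO : O = N * q * e := by
    have h1 : (t * z) * O = (t * z) * (N * q * e) := by
      calc (t * z) * O = s * O := by rw [ht]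
        _ = n * z * q * e := hsO
        _ = (N * t) * z * q * e := by rw [hN]
        _ = (t * z) * (N * q * e) := by ring
    exact Nat.eq_of_mul_eq_mul_left (Nat.mul_pos ht0 hz) h1
  rw [hO, hN] at hdag
  -- `N ∣ 2`
  have hN2 : N ∣ 2 := by
    have h1 : N ∣ N * t * q + 2 := by
      rw [hdag]
      exact Dvd.intro (q * e + 2 * t) (by ring)
    have h2 : N ∣ N * t * q := Dvd.intro (t * q) (by ring)
    exact (Nat.dvd_add_right h2).1 h1
  have hN12 : N = 1 ∨ N = 2 := by
    have := Nat.le_of_dvd (by norm_num) hN2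
    interval_cases N
    · left; rfl
    · right; rfl
  rcases hN12 with rfl | rfl
  · simp only [one_mul] at hdag hN
    subst hN
    by_contra hlt
    have h1 : 2 * e + 2 ≤ q := by omega
    nlinarith
  · by_contra hlt
    have h1 : 2 * e + 2 ≤ q := by omega
    nlinarith

omit [Finite k] in
lemma arith_free {n z q e s O : ℕ} (hz : 0 < z) (he : 0 < e) (hn : 2 ≤ n)
    (hsO : s * O = n * z * q * e) (hdag : n * q + 2 = O + 2 * n) (hs : s ≤ z * e) : False := by
  -- `O ≥ n q`
  have h1 : n * q ≤ O := by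
    by_contra hlt
    have h2 : O < n * q := by omega
    have h3 : s * O ≤ z * e * O := Nat.mul_le_mul_right _ hs
    have h4 : z * e * O < z * e * (n * q) := Nat.mul_lt_mul_of_pos_left h2 (Nat.mul_pos hz he)
    have h5 : z * e * (n * q) = n * z * q * e := by ring
    omega
  omega

/-- The stabiliser of a point of the big orbit acts on `Ω` with scalar stabilisers. -/
theorem scalar_of_fixes (hp2 : p ≠ 2) (hA : ∃ a : k, a ≠ 0 ∧ uSL a ∈ G)
    (hmove : ∃ g : G, g • x0 k ≠ x0 k) (x₁ : PL k) (hx₁ : x₁ ∉ Om G)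
    (hdag : Nat.card (Om G) * Nat.card (unipSet G) + 2 =
        Nat.card (MulAction.orbit G x₁) + 2 * Nat.card (Om G))
    (c : G) (hc : c • x₁ = x₁) (ω : PL k) (hω : ω ∈ Om G) (hcω : c • ω = ω) : c ∈ scal G := by
  by_contra hcs
  have h1 := card_stabilizer_le_of_fixes G p hp2 hA x₁ hx₁ c hc hcs ω hω hcω
  rw [card_range_phiHom G p hp2, ← sc_eq] at h1
  have hq := two_le_card_unipSet G hA
  have hn := card_unipSet_lt_card_Om G hmove
  have hz : 0 < Nat.card (scal G) := Nat.card_pos
  have he : 0 < Nat.card (tauHom G).range := Nat.card_pos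
  have hG : Nat.card G = Nat.card (Om G) * Nat.card (scal G) * Nat.card (unipSet G) *
      Nat.card (tauHom G).range := by
    rw [← sc_mul_card_orbit G (x0 k), sc_x0 G p hp2]
    ring
  have hsO := sc_mul_card_orbit G x₁
  rw [hG] at hsO
  exact arith_free hz he (by omega) hsO hdag h1

/-- If the stabiliser `C` of `x₁` acts on `Ω` with scalar stabilisers, then
`n = N t` with `t z = |C|`. -/
theorem exists_card_Om_eq (x₁ : PL k)
    (hfree : ∀ c : G, c • x₁ = x₁ → ∀ ω : PL k, ω ∈ Om G → c • ω = ω → c ∈ scal G) :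
    ∃ N t : ℕ, Nat.card (Om G) = N * t ∧ t * Nat.card (scal G) = sc G x₁ := by
  classical
  set C : Subgroup G := MulAction.stabilizer G x₁ with hC
  -- stabilisers in `C` of the points of `Ω`
  have hstab : ∀ ω : Om G, Nat.card (MulAction.stabilizer C ω) = Nat.card (scal G) := by
    intro ω
    symm
    refine Nat.card_eq_of_bijective
      (fun g : scal G => (⟨⟨(g : G), scal_le_stabilizer G x₁ g.2⟩, ?_⟩ :
        MulAction.stabilizer C ω)) ⟨?_, ?_⟩
    · rw [MulAction.mem_stabilizer_iff]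
      apply Subtype.ext
      exact (mem_scal_iff_forall G (g : G)).1 g.2 (ω : PL k)
    · intro g g' h
      have h1 : (g : G) = g' :=
        congrArg (fun t : MulAction.stabilizer C ω => ((t : C) : G)) h
      exact Subtype.ext h1
    · rintro ⟨⟨c, hc⟩, hcω⟩
      have h1 : c • (ω : PL k) = ω := by
        have := MulAction.mem_stabilizer_iff.1 hcω
        exact congrArg Subtype.val this
      have h2 : c ∈ scal G := hfree c (MulAction.mem_stabilizer_iff.1 hc) ω ω.2 h1
      exact ⟨⟨c, h2⟩, rfl⟩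
  have hz : 0 < Nat.card (scal G) := Nat.card_pos
  have horb : ∀ ω : Om G, Nat.card (MulAction.orbit C ω) * Nat.card (scal G) = sc G x₁ := by
    intro ω
    rw [← hstab ω, Nat.card_coe_set_eq, ← MulAction.index_stabilizer, Subgroup.index_mul_card]
    rfl
  let ω₀ : Om G := ⟨x0 k, MulAction.mem_orbit_self _⟩
  refine ⟨Nat.card (MulAction.orbitRel.Quotient C (Om G)), Nat.card (MulAction.orbit C ω₀), ?_,
    horb ω₀⟩
  haveI : Finite (Om G) := inferInstance
  haveI := Fintype.ofFinite (MulAction.orbitRel.Quotient C (Om G))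
  rw [Nat.card_congr (MulAction.selfEquivSigmaOrbits C (Om G)), Nat.card_sigma]
  have hconst : ∀ o : MulAction.orbitRel.Quotient C (Om G),
      Nat.card (MulAction.orbit C (Quotient.out o)) = Nat.card (MulAction.orbit C ω₀) := by
    intro o
    have h1 := horb (Quotient.out o)
    have h2 := horb ω₀
    exact Nat.eq_of_mul_eq_mul_right hz (h1.trans h2.symm)
  rw [Finset.sum_congr rfl (fun o _ => hconst o), Finset.sum_const, smul_eq_mul,
    Finset.card_univ, Nat.card_eq_fintype_card (α := MulAction.orbitRel.Quotient C (Om G))]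

/-- **The class equation bound**: `q ≤ 2 e + 1`. -/
theorem card_unipSet_le (hp2 : p ≠ 2) (hA : ∃ a : k, a ≠ 0 ∧ uSL a ∈ G)
    (hfix : ∀ g : G, ∃ x : PL k, g • x = x) (hmove : ∃ g : G, g • x0 k ≠ x0 k) :
    Nat.card (unipSet G) ≤ 2 * Nat.card (tauHom G).range + 1 := by
  obtain ⟨x₁, hx₁, hs₁, hdag⟩ := exists_big_orbit G p hp2 hA hfix hmove
  have hfree := fun c hc ω hω hcω =>
    scalar_of_fixes G p hp2 hA hmove x₁ hx₁ hdag c hc ω hω hcω
  obtain ⟨N, t, hN, ht⟩ := exists_card_Om_eq G x₁ hfree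
  have hq := two_le_card_unipSet G hA
  have hn := card_unipSet_lt_card_Om G hmove
  have hz : 0 < Nat.card (scal G) := Nat.card_pos
  have hG : Nat.card G = Nat.card (Om G) * Nat.card (scal G) * Nat.card (unipSet G) *
      Nat.card (tauHom G).range := by
    rw [← sc_mul_card_orbit G (x0 k), sc_x0 G p hp2]
    ring
  have hsO := sc_mul_card_orbit G x₁
  rw [hG] at hsO
  exact arith_final hz hq hn hsO hdag hN ht

end Orbit

end Fermat.Agent.P1.helper40
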