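import Fermat.Agent.P1.helper40_CESylow

/-!
# P1 / TW-GT / class equation (helper40), part 4: parabolic elements and stabilisers

* `smul_conj_x0_iff` : `g` fixes `h • x₀` iff `h⁻¹ g h` is upper triangular;
* `unique_fixed_iff_upper` : an upper triangular element fixes only `x₀` iff `t₀₀² = 1` and `t` is
  not scalar;
* `mem_orbit_of_unique_fixed` : the fixed point of an element of `G` with exactly one fixed point
  lies in the `G`-orbit of `x₀`;
* `stabilizer_comm` : the stabiliser of a point outside this orbit is commutative.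
-/

set_option autoImplicit false
set_option linter.unusedSectionVars false
set_option linter.style.haveILetI false

open Polynomial Matrix MatrixGroups
open scoped LinearAlgebra.Projectivization

namespace Fermat.Agent.P1.helper40

variable {k : Type*} [Field k]

lemma smul_conj_x0_iff (g h : SL(2, k)) :
    g • (h • x0 k) = h • x0 k ↔ (h⁻¹ * g * h) 1 0 = 0 := by
  rw [← smul_x0_eq_iff, mul_smul, mul_smul]
  constructor
  · intro hg
    rw [hg, inv_smul_smul]
  · intro hg
    have := congrArg (fun y => h • y) hg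
    simpa using this

lemma smul_conj_iff (g h : SL(2, k)) (y : PL k) :
    g • (h • y) = h • y ↔ (h⁻¹ * g * h) • y = y := by
  rw [mul_smul, mul_smul]
  constructor
  · intro hg
    rw [hg, inv_smul_smul]
  · intro hg
    have := congrArg (fun y => h • y) hg
    simpa using this

/-- The point `[0 : 1]`. -/
lemma exists_ne_x0 : ∃ y : PL k, y ≠ x0 k := by
  have hne0 : (![(0 : k), 1] : Fin 2 → k) ≠ 0 := by
    intro h
    have := congrFun h 1
    simp at this
  exact ⟨_, mk_c_ne_x0 0 hne0⟩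

/-- An upper triangular element with `t₀₀ ≠ t₁₁` has a second fixed point. -/
lemma exists_fixed_ne_x0_of_upper (t : SL(2, k)) (ht : t 1 0 = 0) (hne : t 0 0 ≠ t 1 1) :
    ∃ y : PL k, y ≠ x0 k ∧ t • y = y := by
  have hne0 : (![- t 0 1 / (t 0 0 - t 1 1), 1] : Fin 2 → k) ≠ 0 := by
    intro h
    have := congrFun h 1
    simp at this
  refine ⟨_, mk_c_ne_x0 _ hne0, ?_⟩
  rw [upper_smul_mk_c_eq_iff t ht]
  have : t 0 0 - t 1 1 ≠ 0 := sub_ne_zero.2 hne
  field_simp
  ring

/-- An upper triangular element fixes only `x₀` iff `t₀₀ = t₁₁` and `t₀₁ ≠ 0`. -/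
lemma unique_fixed_iff_upper (t : SL(2, k)) (ht : t 1 0 = 0) :
    (∀ y : PL k, t • y = y → y = x0 k) ↔ t 0 0 = t 1 1 ∧ t 0 1 ≠ 0 := by
  constructor
  · intro h
    have h1 : t 0 0 = t 1 1 := by
      by_contra hne
      obtain ⟨y, hy, hty⟩ := exists_fixed_ne_x0_of_upper t ht hne
      exact hy (h y hty)
    refine ⟨h1, ?_⟩
    intro h01
    obtain ⟨y, hy⟩ := exists_ne_x0 (k := k)
    have hs : IsScalar t := ⟨h01, ht, h1⟩
    exact hy (h y (hs.smul_eq y))
  · rintro ⟨h1, h01⟩ y hy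
    by_contra hne
    obtain ⟨c, hc, rfl⟩ := exists_eq_mk_of_ne_x0 y hne
    rw [upper_smul_mk_c_eq_iff t ht, h1, sub_self, zero_mul, zero_add] at hy
    exact h01 hy

lemma sq_eq_one_iff_of_upper (t : SL(2, k)) (ht : t 1 0 = 0) :
    t 0 0 ^ 2 = 1 ↔ t 0 0 = t 1 1 := by
  have hd := SL_det t
  rw [ht, mul_zero, sub_zero] at hd
  have hne : t 0 0 ≠ 0 := by
    intro h0
    rw [h0, zero_mul] at hd
    exact zero_ne_one hd
  constructor
  · intro h
    have : t 0 0 * t 0 0 = t 0 0 * t 1 1 := by rw [hd, ← pow_two, h]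
    exact mul_left_cancel₀ hne this
  · intro h
    rw [pow_two]
    nth_rewrite 2 [h]
    exact hd

/-- The square of an upper triangular element with `t₀₀ = t₁₁`. -/
lemma sq_eq_uSL_of_upper (t : SL(2, k)) (ht : t 1 0 = 0) (h : t 0 0 = t 1 1) :
    t * t = uSL (2 * (t 0 0 * t 0 1)) := by
  have hsq := (sq_eq_one_iff_of_upper t ht).2 h
  apply SL_ext
  · rw [SL_mul_apply, ht, mul_zero, add_zero, ← pow_two, hsq]; simp
  · rw [SL_mul_apply, ← h]; simp; ring
  · rw [SL_mul_apply, ht]; simp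
  · rw [SL_mul_apply, ht, ← h, zero_mul, zero_add, ← pow_two, hsq]; simp

section Par

variable (G : Subgroup SL(2, k)) (p : ℕ) [Fact p.Prime] [CharP k p] [Finite k]

/-- The fixed point of an element of `G` with exactly one fixed point lies in the `G`-orbit of
`x₀`. -/
theorem mem_orbit_of_unique_fixed (hp2 : p ≠ 2) (hA : ∃ a : k, a ≠ 0 ∧ uSL a ∈ G) (g : G)
    (x : PL k) (hx : g • x = x) (huniq : ∀ y : PL k, g • y = y → y = x) :
    x ∈ MulAction.orbit G (x0 k) := by
  have h2 : (2 : k) ≠ 0 := by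
    intro h
    have h' : ((2 : ℕ) : k) = 0 := by exact_mod_cast h
    have := (CharP.cast_eq_zero_iff k p 2).1 h'
    have hp : p.Prime := Fact.out
    exact hp2 ((Nat.prime_dvd_prime_iff_eq hp Nat.prime_two).1 this)
  obtain ⟨h, hh⟩ := MulAction.exists_smul_eq SL(2, k) (x0 k) x
  set t : SL(2, k) := h⁻¹ * (g : SL(2, k)) * h with ht
  have hgx : (g : SL(2, k)) • (h • x0 k) = h • x0 k := by rw [hh]; exact hx
  have ht10 : t 1 0 = 0 := (smul_conj_x0_iff _ h).1 hgx
  have htuniq : ∀ y : PL k, t • y = y → y = x0 k := by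
    intro y hy
    have h1 : (g : SL(2, k)) • (h • y) = h • y := (smul_conj_iff _ h y).2 hy
    have h2 := huniq (h • y) h1
    rw [← hh] at h2
    exact smul_left_cancel _ h2
  obtain ⟨h00, h01⟩ := (unique_fixed_iff_upper t ht10).1 htuniq
  have htt : t * t = uSL (2 * (t 0 0 * t 0 1)) := sq_eq_uSL_of_upper t ht10 h00
  have hb : 2 * (t 0 0 * t 0 1) ≠ 0 := by
    have hd := SL_det t
    rw [ht10, mul_zero, sub_zero] at hd
    have hne : t 0 0 ≠ 0 := by
      intro h0
      rw [h0, zero_mul] at hd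
      exact zero_ne_one hd
    exact mul_ne_zero h2 (mul_ne_zero hne h01)
  -- `g ^ 2 = h (t ^ 2) h⁻¹`
  have hgg : (g : SL(2, k)) * (g : SL(2, k)) = h * uSL (2 * (t 0 0 * t 0 1)) * h⁻¹ := by
    rw [← htt, ht]; group
  have hgp : (g * g) ^ p ^ 1 = 1 := by
    apply Subtype.ext
    simp only [pow_one, Subgroup.coe_pow, Subgroup.coe_mul, Subgroup.coe_one]
    rw [hgg, conj_pow, uSL_pow_p, mul_one, mul_inv_cancel]
  obtain ⟨γ, a, haG, hγ⟩ := exists_conj_uSL G p hA (g * g) hgp
  rw [Subgroup.coe_mul, hgg] at hγ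
  -- `a ≠ 0`
  have ha : a ≠ 0 := by
    rintro rfl
    rw [uSL_zero, mul_one, mul_inv_cancel] at hγ
    have : uSL (2 * (t 0 0 * t 0 1)) = 1 := by
      have := congrArg (fun z => h⁻¹ * z * h) hγ
      simpa [mul_assoc] using this
    rw [← uSL_zero] at this
    exact hb (uSL_injective this)
  -- `γ • x₀` is fixed by `g ^ 2`, hence equal to `x`
  have hfix1 : (h * uSL (2 * (t 0 0 * t 0 1)) * h⁻¹) • ((γ : SL(2, k)) • x0 k) =
      (γ : SL(2, k)) • x0 k := by
    rw [hγ, mul_smul, mul_smul, inv_smul_smul, (uSL_smul_eq_iff ha _).2 rfl]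
  have hfix2 : uSL (2 * (t 0 0 * t 0 1)) • (h⁻¹ • ((γ : SL(2, k)) • x0 k)) =
      h⁻¹ • ((γ : SL(2, k)) • x0 k) := by
    have := congrArg (fun y => h⁻¹ • y) hfix1
    simp only [mul_smul, inv_smul_smul] at this
    exact this
  have h3 := (uSL_smul_eq_iff hb _).1 hfix2
  have h4 : (γ : SL(2, k)) • x0 k = x := by
    rw [← hh]
    exact inv_smul_eq_iff.1 h3
  exact ⟨γ, h4⟩

/-- The stabiliser of a point outside the orbit of `x₀` is commutative. -/
theorem stabilizer_comm (hp2 : p ≠ 2) (hA : ∃ a : k, a ≠ 0 ∧ uSL a ∈ G) (x : PL k)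
    (hx : x ∉ MulAction.orbit G (x0 k)) (c c' : G) (hc : c • x = x) (hc' : c' • x = x) :
    c * c' = c' * c := by
  obtain ⟨h, hh⟩ := MulAction.exists_smul_eq SL(2, k) (x0 k) x
  set d : G := c * c' * c⁻¹ * c'⁻¹ with hd
  have hdx : d • x = x := by
    have hci : c⁻¹ • x = x := by
      rw [inv_smul_eq_iff, hc]
    have hci' : c'⁻¹ • x = x := by
      rw [inv_smul_eq_iff, hc']
    rw [hd, mul_smul, mul_smul, mul_smul, hci', hci, hc', hc]
  have key : ∀ g : G, g • x = x → (h⁻¹ * (g : SL(2, k)) * h) 1 0 = 0 := by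
    intro g hg
    apply (smul_conj_x0_iff _ h).1
    rw [hh]
    exact hg
  set t : SL(2, k) := h⁻¹ * (c : SL(2, k)) * h with ht
  set t' : SL(2, k) := h⁻¹ * (c' : SL(2, k)) * h with ht'
  have ht10 := key c hc
  have ht'10 := key c' hc'
  have htd : h⁻¹ * (d : SL(2, k)) * h = t * t' * t⁻¹ * t'⁻¹ := by
    rw [hd, ht, ht']
    simp only [Subgroup.coe_mul, Subgroup.coe_inv]
    group
  have hdet := SL_det t
  have hdet' := SL_det t'
  rw [← ht] at ht10
  rw [← ht'] at ht'10
  rw [ht10, mul_zero, sub_zero] at hdet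
  rw [ht'10, mul_zero, sub_zero] at hdet'
  have hd10 : (t * t' * t⁻¹ * t'⁻¹) 1 0 = 0 := by
    simp only [SL_mul_apply, SL_inv_apply_00, SL_inv_apply_10, SL_inv_apply_01, SL_inv_apply_11,
      ht10, ht'10]
    ring
  have hd00 : (t * t' * t⁻¹ * t'⁻¹) 0 0 = 1 := by
    simp only [SL_mul_apply, SL_inv_apply_00, SL_inv_apply_10, SL_inv_apply_01, SL_inv_apply_11,
      ht10, ht'10]
    have : t 0 0 * t' 0 0 * t 1 1 * t' 1 1 = 1 := by
      calc t 0 0 * t' 0 0 * t 1 1 * t' 1 1 = (t 0 0 * t 1 1) * (t' 0 0 * t' 1 1) := by ring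
        _ = 1 := by rw [hdet, hdet', mul_one]
    linear_combination this
  have hu := eq_uSL_of_upper_of_one hd10 hd00
  set b := (t * t' * t⁻¹ * t'⁻¹) 0 1 with hb
  have hb0 : b = 0 := by
    by_contra hne
    apply hx
    refine mem_orbit_of_unique_fixed G p hp2 hA d x hdx ?_
    intro y hy
    have h1 : (h⁻¹ * (d : SL(2, k)) * h) • (h⁻¹ • y) = h⁻¹ • y := by
      rw [mul_smul, mul_smul, smul_inv_smul]
      exact congrArg (fun z => h⁻¹ • z) hy
    rw [htd, hu] at h1
    have h2 := (uSL_smul_eq_iff hne _).1 h1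
    rw [← hh]
    exact inv_smul_eq_iff.1 h2
  rw [hb0, uSL_zero] at hu
  rw [hu] at htd
  have hd1 : (d : SL(2, k)) = 1 := by
    have := congrArg (fun z => h * z * h⁻¹) htd
    simpa [mul_assoc] using this
  have hd1' : d = 1 := Subtype.ext hd1
  rw [hd] at hd1'
  have : c * c' = c' * c := by
    have h3 := congrArg (fun z => z * c' * c) hd1'
    simpa [mul_assoc] using h3
  exact this

/-- If a non-scalar element of the stabiliser `C` of a point `x` outside the orbit `Ω` of `x₀`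
fixes a point of `Ω`, then `|C| ≤ |range φ|`. -/
theorem card_stabilizer_le_of_fixes (hp2 : p ≠ 2) (hA : ∃ a : k, a ≠ 0 ∧ uSL a ∈ G) (x : PL k)
    (hx : x ∉ MulAction.orbit G (x0 k)) (c : G) (hc : c • x = x) (hcs : c ∉ scal G)
    (ω : PL k) (hω : ω ∈ MulAction.orbit G (x0 k)) (hcω : c • ω = ω) :
    Nat.card (MulAction.stabilizer G x) ≤ Nat.card (phiHom G).range := by
  have hxω : x ≠ ω := by
    rintro rfl
    exact hx hω
  -- every element of the stabiliser fixes `ω`
  have hall : ∀ c' : G, c' • x = x → c' • ω = ω := by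
    intro c' hc'
    by_contra hne
    have hcomm := stabilizer_comm G p hp2 hA x hx c c' hc hc'
    have hfix : c • (c' • ω) = c' • ω := by
      rw [← mul_smul, hcomm, mul_smul, hcω]
    have hne2 : x ≠ c' • ω := by
      intro h
      apply hxω
      have h' : c' • x = c' • ω := by rw [hc']; exact h
      exact smul_left_cancel _ h'
    have hsc : IsScalar (c : SL(2, k)) :=
      fixes_all_of_three (c : SL(2, k)) x ω (c' • ω) hxω hne2 (fun h => hne h.symm) hc hcω hfix
    exact hcs hsc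
  obtain ⟨γ, hγ'⟩ := hω
  have hγ : γ • x0 k = ω := hγ'
  -- the conjugation map into the Borel subgroup
  have hmem : ∀ c' : MulAction.stabilizer G x, γ⁻¹ * (c' : G) * γ ∈ borel G := by
    intro c'
    rw [MulAction.mem_stabilizer_iff, mul_smul, mul_smul, hγ,
      hall c' (MulAction.mem_stabilizer_iff.1 c'.2), ← hγ, inv_smul_smul]
  let f : MulAction.stabilizer G x → (phiHom G).range := fun c' =>
    ⟨phiHom G ⟨γ⁻¹ * (c' : G) * γ, hmem c'⟩, ⟨_, rfl⟩⟩
  have hf : Function.Injective f := by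
    intro c₁ c₂ h12
    have h1 : phiHom G ⟨γ⁻¹ * (c₁ : G) * γ, hmem c₁⟩ = phiHom G ⟨γ⁻¹ * (c₂ : G) * γ, hmem c₂⟩ :=
      congrArg Subtype.val h12
    set d : MulAction.stabilizer G x := c₁⁻¹ * c₂ with hd
    have h2 : phiHom G ⟨γ⁻¹ * (d : G) * γ, hmem d⟩ = 1 := by
      have e : (⟨γ⁻¹ * (d : G) * γ, hmem d⟩ : borel G) =
          (⟨γ⁻¹ * (c₁ : G) * γ, hmem c₁⟩ : borel G)⁻¹ * ⟨γ⁻¹ * (c₂ : G) * γ, hmem c₂⟩ := by
        apply Subtype.ext
        simp only [hd, Subgroup.coe_mul, Subgroup.coe_inv]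
        group
      rw [e, map_mul, map_inv, h1, inv_mul_cancel]
    have h3 : ((γ⁻¹ * (d : G) * γ : G) : SL(2, k)) 0 0 = 1 := by
      have := congrArg Units.val h2
      rw [phiHom_apply] at this
      simpa using this
    have h4 : ((γ⁻¹ * (d : G) * γ : G) : SL(2, k)) 1 0 = 0 := (mem_borel_iff G _).1 (hmem d)
    have hu := eq_uSL_of_upper_of_one h4 h3
    set b := ((γ⁻¹ * (d : G) * γ : G) : SL(2, k)) 0 1 with hb
    have hb0 : b = 0 := by
      by_contra hne
      -- `γ⁻¹ d γ` fixes `γ⁻¹ x ≠ x₀`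
      have h5 : (γ⁻¹ * (d : G) * γ) • (γ⁻¹ • x) = γ⁻¹ • x := by
        rw [mul_smul, mul_smul, smul_inv_smul, MulAction.mem_stabilizer_iff.1 d.2]
      have h6 : ((γ⁻¹ * (d : G) * γ : G) : SL(2, k)) • (γ⁻¹ • x) = γ⁻¹ • x := h5
      rw [hu] at h6
      have h7 := (uSL_smul_eq_iff hne _).1 h6
      apply hxω
      rw [← hγ]
      exact inv_smul_eq_iff.1 h7
    rw [hb0, uSL_zero] at hu
    have h8 : γ⁻¹ * (d : G) * γ = 1 := Subtype.ext hu
    have h9 : (d : G) = 1 := by
      have := congrArg (fun z => γ * z * γ⁻¹) h8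
      simpa [mul_assoc] using this
    have h10 : d = 1 := Subtype.ext h9
    rw [hd, inv_mul_eq_one] at h10
    exact h10
  exact Nat.card_le_card_of_injective f hf

end Par

end Fermat.Agent.P1.helper40
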