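import Fermat.Agent.P1.helper40_CEBorel

/-!
# P1 / TW-GT / class equation (helper40), part 3: the Sylow `p`-subgroup

For a subgroup `G` of `SL(2, k)`, `k` a finite field of characteristic `p`:

* `unipSub G` : the upper unitriangular elements of `G`; it is a `p`-group of order `|unipSet G|`;
* `exists_fixed_of_isPGroup` : a `p`-subgroup fixes a point of the projective line;
* `sylowUnip` : if `unipSub G ≠ 1` then it is a Sylow `p`-subgroup;
* `exists_conj_uSL` : every element of `p`-power order of `G` is `G`-conjugate to some `uSL a ∈ G`;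
* `mem_orbit_of_unique_fixed` : the unique fixed point of an element with exactly one fixed point
  lies in the orbit of `x₀`.
-/

set_option autoImplicit false
set_option linter.unusedSectionVars false
set_option linter.style.haveILetI false

open Polynomial Matrix MatrixGroups
open scoped LinearAlgebra.Projectivization

namespace Fermat.Agent.P1.helper40

variable {k : Type*} [Field k]

section UnipSub

variable (G : Subgroup SL(2, k))

/-- The upper unitriangular elements of `G`. -/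
noncomputable def unipSub : Subgroup G := (phiHom G).ker.map (borel G).subtype

lemma mem_unipSub_iff (g : G) :
    g ∈ unipSub G ↔ (g : SL(2, k)) 1 0 = 0 ∧ (g : SL(2, k)) 0 0 = 1 := by
  unfold unipSub
  rw [Subgroup.mem_map]
  constructor
  · rintro ⟨t, ht, rfl⟩
    refine ⟨(mem_borel_iff G t).1 t.2, ?_⟩
    rw [MonoidHom.mem_ker, ← Units.val_inj, phiHom_apply, Units.val_one] at ht
    exact ht
  · rintro ⟨h1, h2⟩
    refine ⟨⟨g, (mem_borel_iff G g).2 h1⟩, ?_, rfl⟩
    rw [MonoidHom.mem_ker, ← Units.val_inj, phiHom_apply, Units.val_one]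
    exact h2

lemma mem_unipSub_iff' (g : G) :
    g ∈ unipSub G ↔ ∃ a : k, (g : SL(2, k)) = uSL a := by
  rw [mem_unipSub_iff]
  constructor
  · rintro ⟨h1, h2⟩
    exact ⟨_, eq_uSL_of_upper_of_one h1 h2⟩
  · rintro ⟨a, ha⟩
    rw [ha]
    simp

lemma card_unipSub : Nat.card (unipSub G) = Nat.card (unipSet G) := by
  symm
  refine Nat.card_eq_of_bijective
    (fun a : unipSet G => (⟨⟨uSL (a : k), a.2⟩, (mem_unipSub_iff' G _).2 ⟨a, rfl⟩⟩ : unipSub G))
    ⟨?_, ?_⟩
  · intro a b h
    have h1 := congrArg (fun t : unipSub G => ((t : G) : SL(2, k))) h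
    exact Subtype.ext (uSL_injective h1)
  · rintro ⟨g, hg⟩
    obtain ⟨a, ha⟩ := (mem_unipSub_iff' G g).1 hg
    have haG : a ∈ unipSet G := by
      rw [mem_unipSet, ← ha]
      exact g.2
    refine ⟨⟨a, haG⟩, ?_⟩
    apply Subtype.ext
    apply Subtype.ext
    exact ha.symm

lemma card_ker_phiHom : Nat.card (phiHom G).ker = Nat.card (unipSet G) := by
  rw [← card_unipSub]
  unfold unipSub
  exact (Subgroup.card_map_of_injective (borel G).subtype_injective).symm

lemma card_borel_phi :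
    Nat.card (borel G) = Nat.card (unipSet G) * Nat.card (phiHom G).range := by
  rw [← card_ker_phiHom, ← Subgroup.index_ker, Subgroup.card_mul_index]

variable (p : ℕ) [Fact p.Prime] [CharP k p]

lemma uSL_pow_p (a : k) : uSL a ^ p = 1 := by
  rw [← uSL_nsmul, nsmul_eq_mul, CharP.cast_eq_zero k p, zero_mul, uSL_zero]

lemma isPGroup_unipSub : IsPGroup p (unipSub G) := by
  intro g
  refine ⟨1, ?_⟩
  obtain ⟨a, ha⟩ := (mem_unipSub_iff' G (g : G)).1 g.2
  apply Subtype.ext
  apply Subtype.ext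
  simp only [pow_one, Subgroup.coe_pow, Subgroup.coe_one]
  rw [ha]
  exact uSL_pow_p p a

/-- `|range φ| = z e` (if `q ≠ 0`, i.e. `G` finite). -/
lemma card_range_phiHom [Finite k] (hp2 : p ≠ 2) :
    Nat.card (phiHom G).range = Nat.card (scal G) * Nat.card (tauHom G).range := by
  have h1 := card_borel_phi G
  have h2 := card_borel_eq G p hp2
  rw [h1] at h2
  have hq : 0 < Nat.card (unipSet G) := Nat.card_pos
  have : Nat.card (unipSet G) * Nat.card (phiHom G).range =
      Nat.card (unipSet G) * (Nat.card (scal G) * Nat.card (tauHom G).range) := by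
    rw [h2]; ring
  exact Nat.eq_of_mul_eq_mul_left hq this

end UnipSub

section Sylow

variable (G : Subgroup SL(2, k)) (p : ℕ) [Fact p.Prime] [CharP k p] [Finite k]

lemma card_PL_modEq : Nat.card (PL k) ≡ 1 [MOD p] := by
  have h : Nat.card (PL k) = Nat.card k + 1 :=
    Projectivization.card_of_finrank_two k (Fin 2 → k) (by simp)
  rw [h]
  haveI := Fintype.ofFinite k
  have hk : (p : ℕ) ∣ Nat.card k := by
    rw [Nat.card_eq_fintype_card]
    exact (CharP.cast_eq_zero_iff k p _).1 (FiniteField.cast_card_eq_zero k)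
  obtain ⟨m, hm⟩ := hk
  rw [hm]
  have : p * m + 1 ≡ 0 + 1 [MOD p] :=
    Nat.ModEq.add_right 1 ((Nat.modEq_zero_iff_dvd).2 (dvd_mul_right p m))
  rw [zero_add] at this
  exact this

/-- A `p`-subgroup of `G` fixes a point of the projective line. -/
lemma exists_fixed_of_isPGroup (Q : Subgroup G) (hQ : IsPGroup p Q) :
    ∃ x : PL k, ∀ g ∈ Q, g • x = x := by
  have h1 := hQ.card_modEq_card_fixedPoints (PL k)
  have h2 := card_PL_modEq (k := k) p
  have h3 : Nat.card (MulAction.fixedPoints Q (PL k)) ≡ 1 [MOD p] := h1.symm.trans h2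
  have hne : Nat.card (MulAction.fixedPoints Q (PL k)) ≠ 0 := by
    intro h0
    rw [h0] at h3
    have hp : p.Prime := Fact.out
    have := (Nat.modEq_iff_dvd' (Nat.zero_le 1)).1 h3
    simp at this
    exact hp.one_lt.ne' this
  have hne' : Nonempty (MulAction.fixedPoints Q (PL k)) := by
    by_contra h
    rw [not_nonempty_iff] at h
    exact hne Nat.card_of_isEmpty
  obtain ⟨x, hx⟩ := hne'
  refine ⟨x, fun g hg => ?_⟩
  exact hx ⟨g, hg⟩

lemma one_of_pow_prime_pow_eq_one {x : k} {m : ℕ} (h : x ^ p ^ m = 1) : x = 1 := by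
  haveI : ExpChar k p := ExpChar.prime Fact.out
  have := (ExpChar.pow_prime_pow_mul_eq_one_iff p m 1 x).1 (by rwa [mul_one])
  rwa [pow_one] at this

lemma SL_pow_apply_00_of_upper {g : SL(2, k)} (h : g 1 0 = 0) (n : ℕ) :
    (g ^ n) 1 0 = 0 ∧ (g ^ n) 0 0 = g 0 0 ^ n := by
  induction n with
  | zero => simp
  | succ n ih =>
    rw [pow_succ]
    refine ⟨?_, ?_⟩
    · rw [SL_mul_apply, ih.1, h]; ring
    · rw [SL_mul_apply, ih.2, h]; ring

/-- A `p`-subgroup containing a nontrivial `uSL a` consists of upper unitriangular elements. -/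
lemma le_unipSub_of_isPGroup (Q : Subgroup G) (hQ : IsPGroup p Q) {a : k} (ha : a ≠ 0)
    (haQ : ∃ h : uSL a ∈ G, (⟨uSL a, h⟩ : G) ∈ Q) : Q ≤ unipSub G := by
  obtain ⟨x, hx⟩ := exists_fixed_of_isPGroup G p Q hQ
  obtain ⟨haG, haQ⟩ := haQ
  have hx0 : x = x0 k := (uSL_smul_eq_iff ha x).1 (hx _ haQ)
  intro g hg
  have h10 : (g : SL(2, k)) 1 0 = 0 := by
    rw [← smul_x0_eq_iff, ← hx0]
    exact hx g hg
  rw [mem_unipSub_iff]
  refine ⟨h10, ?_⟩
  obtain ⟨m, hm⟩ := hQ ⟨g, hg⟩
  have hm' : (g : SL(2, k)) ^ p ^ m = 1 := by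
    have := congrArg (fun t : Q => ((t : G) : SL(2, k))) hm
    simpa using this
  have h00 := (SL_pow_apply_00_of_upper h10 (p ^ m)).2
  rw [hm'] at h00
  simp only [Matrix.SpecialLinearGroup.coe_one, Matrix.one_apply_eq] at h00
  exact one_of_pow_prime_pow_eq_one p h00.symm

/-- If `G` contains a nontrivial `uSL a`, the upper unitriangular elements of `G` form a Sylow
`p`-subgroup. -/
noncomputable def sylowUnip (hA : ∃ a : k, a ≠ 0 ∧ uSL a ∈ G) : Sylow p G :=
  Sylow.mk (unipSub G) (isPGroup_unipSub G p) (by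
    intro Q hQ hle
    obtain ⟨a, ha, haG⟩ := hA
    refine le_antisymm (le_unipSub_of_isPGroup G p Q hQ ha ⟨haG, hle ?_⟩) hle
    exact (mem_unipSub_iff' G _).2 ⟨a, rfl⟩)

lemma coe_sylowUnip (hA : ∃ a : k, a ≠ 0 ∧ uSL a ∈ G) :
    ((sylowUnip G p hA : Sylow p G) : Subgroup G) = unipSub G := rfl

/-- Every element of `p`-power order of `G` is `G`-conjugate to some `uSL a ∈ G`. -/
theorem exists_conj_uSL (hA : ∃ a : k, a ≠ 0 ∧ uSL a ∈ G) (g : G) {m : ℕ}
    (hg : g ^ p ^ m = 1) :
    ∃ γ : G, ∃ a : k, uSL a ∈ G ∧ (g : SL(2, k)) = (γ : SL(2, k)) * uSL a * (γ : SL(2, k))⁻¹ := by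
  have hpg : IsPGroup p (Subgroup.zpowers g) := by
    rw [IsPGroup.iff_orderOf]
    rintro ⟨x, hx⟩
    obtain ⟨n, rfl⟩ := Subgroup.mem_zpowers_iff.1 hx
    have hdvd : orderOf (⟨g ^ n, hx⟩ : Subgroup.zpowers g) ∣ p ^ m := by
      rw [orderOf_dvd_iff_pow_eq_one]
      apply Subtype.ext
      simp only [Subgroup.coe_pow, Subgroup.coe_one]
      rw [← zpow_natCast, ← _root_.zpow_mul, mul_comm, _root_.zpow_mul, zpow_natCast, hg,
        _root_.one_zpow]
    obtain ⟨j, -, hj⟩ := (Nat.dvd_prime_pow Fact.out).1 hdvd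
    exact ⟨j, hj⟩
  obtain ⟨Q, hQ⟩ := hpg.exists_le_sylow
  haveI : Finite (Sylow p G) := inferInstance
  obtain ⟨γ, hγ⟩ := MulAction.exists_smul_eq G (sylowUnip G p hA) Q
  have hgQ : g ∈ (Q : Subgroup G) := hQ (Subgroup.mem_zpowers g)
  rw [← hγ, Sylow.coe_subgroup_smul, coe_sylowUnip,
    Subgroup.mem_smul_pointwise_iff_exists] at hgQ
  obtain ⟨u, hu, hug⟩ := hgQ
  obtain ⟨a, ha⟩ := (mem_unipSub_iff' G u).1 hu
  refine ⟨γ, a, ?_, ?_⟩
  · rw [← ha]; exact u.2
  · rw [← hug, MulAut.smul_def, MulAut.conj_apply]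
    simp only [Subgroup.coe_mul, Subgroup.coe_inv, ha]

end Sylow

end Fermat.Agent.P1.helper40
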