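import Fermat.Agent.P1.helper40_DictHR2
import Fermat.Agent.P1.helper78_DictInertia
import Fermat.Agent.P1.helper26_DictH0
import Fermat.Agent.P1.helper88_FTOT

/-!
# P1 / FLAT-CNT, module DICT-H, package (R2) (helper40, task 745): final wiring

* `dictI p : DictIStatement p` : the inertia dictionary (helper78's CORE-A);
* `dictHR2 p : DictH0Statement p → FTAStatement p → FTOTStatement p → DictHR2Statement p`
  (the task statement, verbatim);
* `dictHR2_holds p : DictHR2Statement p`, `flatR2_holds` : unconditional.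
-/

set_option autoImplicit false

namespace Fermat.Agent.P1.helper40

open Fermat.Agent.P1.helper70

/-- the inertia dictionary (helper78's CORE-A) -/
theorem dictI (p : ℕ) [Fact p.Prime] : DictIStatement p := fun F _ _ =>
  ⟨Fermat.Agent.P1.helper78.dictI_ordT_nonneg_iff p F,
    Fermat.Agent.P1.helper78.dictI_ordT_pos_iff p F,
    fun _ hτ => Fermat.Agent.P1.helper78.dictI_restrict_mem_inertia p F hτ,
    fun _ hs => Fermat.Agent.P1.helper78.dictI_exists_lift p F hs⟩

/-- **DICT-H (R2)** (task 745, verbatim). -/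
theorem dictHR2 (p : ℕ) [Fact p.Prime] :
    Fermat.Agent.P1.helper70.DictH0Statement p → Fermat.Agent.P1.helper70.FTAStatement p →
      Fermat.Agent.P1.helper70.FTOTStatement p → Fermat.Agent.P1.helper70.DictHR2Statement p :=
  fun h0 _ hOT => dictHR2_of p (dictI p) h0 hOT

/-- **DICT-H (R2)**, unconditional. -/
theorem dictHR2_holds (p : ℕ) [Fact p.Prime] : Fermat.Agent.P1.helper70.DictHR2Statement p :=
  dictHR2_of p (dictI p) (Fermat.Agent.P1.helper26.dictH0 p) (Fermat.Agent.P1.helper88.ftOT p)

/-- **(R2)** for a flat representation, unconditional. -/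
theorem flatR2_holds (p : ℕ) [Fact p.Prime] (hp2 : p ≠ 2) {A : Type} [CommRing A]
    [IsLocalRing A] (ρ : GaloisRepAdic A) (hflat : ρ.IsFlatAt p) (I : Ideal A)
    (hfin : Finite (A ⧸ I)) (hpI : (p : A) ∈ I) : Fermat.Agent.P1.helper70.FlatR2 p ρ I :=
  dictHR2_holds p hp2 A ρ hflat I hfin hpI

end Fermat.Agent.P1.helper40
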