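import Fermat.Agent.P1.helper14_KumEqDefs2

/-!
# P1 / FLAT-CNT / KUMEQ, FC-STEP (helper40): the abstract linear-algebra core

The graded piece of level `m` of the Kummer theory of a tame field is encoded by a relation
`R f x` between functions `f : G → ZMod p` ("Kummer homomorphisms of level `≥ m`") and elements
`x` of a finite field `κ` ("leading coefficients"), which is an additive subgroup of
`(G → ZMod p) × κ` and only depends on the values of `f` on a subset `GT`.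

`S := {x | R 0 x}`, `V := κ / S`, `W := k ⊗[ZMod p] V`; a `k`-valued function `F` all of whose
functionals `ℓ ∘ F` have a leading coefficient defines `gr F ∈ W`, and semi-invariance of `F`
under an operator turns into an eigenvector equation for `gr F`.

* `fcStep_abstract`  : `N + 1` joint eigenvectors, `N ≥` the number of embeddings: some
  non-trivial linear combination has leading coefficient `0` (uses `FCEigLinQStatement` (1));
* `fcStep0_abstract` : an eigenvector for the eigenvalue `n` in the prime field has leading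
  coefficient `0` unless `u = n` (uses `FCEigLinQStatement` (2)).
-/

set_option autoImplicit false
set_option linter.unusedSectionVars false
set_option linter.style.haveILetI false

open scoped TensorProduct

namespace Fermat.Agent.P1.helper40

open Fermat.Agent.P1.helper14

/-- The closure properties of the relation "`x` is a leading coefficient of `f`". -/
structure GrRel (p : ℕ) {G κ : Type} [AddCommGroup κ] (GT : Set G)
    (R : (G → ZMod p) → κ → Prop) : Prop where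
  zero : R 0 0
  add : ∀ f f' x x', R f x → R f' x' → R (f + f') (x + x')
  neg : ∀ f x, R f x → R (-f) (-x)
  congr : ∀ f f' x, R f x → (∀ g ∈ GT, f g = f' g) → R f' x

namespace GrRel

variable {p : ℕ} [Fact p.Prime] {G κ : Type} [AddCommGroup κ] [Module (ZMod p) κ]
  {GT : Set G} {R : (G → ZMod p) → κ → Prop} (h : GrRel p GT R)

include h

theorem sub {f f' : G → ZMod p} {x x' : κ} (hf : R f x) (hf' : R f' x') :
    R (f - f') (x - x') := by
  rw [sub_eq_add_neg, sub_eq_add_neg]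
  exact h.add _ _ _ _ hf (h.neg _ _ hf')

theorem nsmul {f : G → ZMod p} {x : κ} (hf : R f x) (n : ℕ) : R (n • f) (n • x) := by
  induction n with
  | zero => rw [zero_smul, zero_smul]; exact h.zero
  | succ n ih => rw [succ_nsmul, succ_nsmul]; exact h.add _ _ _ _ ih hf

theorem smul {f : G → ZMod p} {x : κ} (hf : R f x) (c : ZMod p) : R (c • f) (c • x) := by
  have hp : p.Prime := Fact.out
  have : NeZero p := ⟨hp.ne_zero⟩
  have h1 : c • f = c.val • f := by
    rw [← Nat.cast_smul_eq_nsmul (ZMod p), ZMod.natCast_zmod_val]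
  have h2 : c • x = c.val • x := by
    rw [← Nat.cast_smul_eq_nsmul (ZMod p), ZMod.natCast_zmod_val]
  rw [h1, h2]
  exact h.nsmul hf _

theorem sum {ι : Type} (s : Finset ι) (f : ι → G → ZMod p) (x : ι → κ)
    (hf : ∀ i ∈ s, R (f i) (x i)) : R (∑ i ∈ s, f i) (∑ i ∈ s, x i) := by
  classical
  induction s using Finset.induction_on with
  | empty => simpa using h.zero
  | insert a s ha ih =>
    rw [Finset.sum_insert ha, Finset.sum_insert ha]
    exact h.add _ _ _ _ (hf a (Finset.mem_insert_self a s))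
      (ih fun i hi => hf i (Finset.mem_insert_of_mem hi))

/-- the leading coefficients of the zero function -/
def grS : Submodule (ZMod p) κ where
  carrier := {x | R 0 x}
  add_mem' := by
    intro a b ha hb
    have := h.add _ _ _ _ ha hb
    rwa [add_zero] at this
  zero_mem' := h.zero
  smul_mem' := by
    intro c x hx
    have := h.smul hx c
    rwa [smul_zero] at this

theorem mem_grS {x : κ} : x ∈ h.grS ↔ R 0 x := Iff.rfl

theorem sub_mem_grS {f : G → ZMod p} {x x' : κ} (hf : R f x) (hf' : R f x') :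
    x - x' ∈ h.grS := by
  have := h.sub hf hf'
  rwa [sub_self] at this

theorem of_mem_grS {f : G → ZMod p} {x : κ} (hf : R f x) (hx : x ∈ h.grS) : R f 0 := by
  have := h.sub hf hx
  rwa [sub_zero, sub_self] at this

theorem mk_eq_mk {f : G → ZMod p} {x x' : κ} (hf : R f x) (hf' : R f x') :
    (Submodule.Quotient.mk x : κ ⧸ h.grS) = Submodule.Quotient.mk x' :=
  (Submodule.Quotient.eq _).2 (h.sub_mem_grS hf hf')

section Phi

variable {k : Type} [Field k] [Algebra (ZMod p) k]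

/-- the leading coefficient of `ℓ ∘ F` modulo `S`, as a linear map in `ℓ` -/
noncomputable def grPhi (F : G → k)
    (hF : ∀ ℓ : k →ₗ[ZMod p] ZMod p, ∃ x, R (fun g => ℓ (F g)) x) :
    (k →ₗ[ZMod p] ZMod p) →ₗ[ZMod p] (κ ⧸ h.grS) where
  toFun ℓ := Submodule.Quotient.mk (hF ℓ).choose
  map_add' := by
    intro ℓ ℓ'
    rw [← Submodule.Quotient.mk_add]
    refine h.mk_eq_mk (hF (ℓ + ℓ')).choose_spec ?_
    exact h.add _ _ _ _ (hF ℓ).choose_spec (hF ℓ').choose_spec
  map_smul' := by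
    intro c ℓ
    rw [RingHom.id_apply, ← Submodule.Quotient.mk_smul]
    refine h.mk_eq_mk (hF (c • ℓ)).choose_spec ?_
    exact h.smul (hF ℓ).choose_spec c

theorem grPhi_eq (F : G → k)
    (hF : ∀ ℓ : k →ₗ[ZMod p] ZMod p, ∃ x, R (fun g => ℓ (F g)) x)
    (ℓ : k →ₗ[ZMod p] ZMod p) {x : κ} (hx : R (fun g => ℓ (F g)) x) :
    h.grPhi F hF ℓ = Submodule.Quotient.mk x :=
  h.mk_eq_mk (hF ℓ).choose_spec hx

theorem of_grPhi_eq_zero (F : G → k)
    (hF : ∀ ℓ : k →ₗ[ZMod p] ZMod p, ∃ x, R (fun g => ℓ (F g)) x)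
    (ℓ : k →ₗ[ZMod p] ZMod p) (h0 : h.grPhi F hF ℓ = 0) : R (fun g => ℓ (F g)) 0 := by
  have h1 : (Submodule.Quotient.mk (hF ℓ).choose : κ ⧸ h.grS) = 0 := h0
  rw [Submodule.Quotient.mk_eq_zero] at h1
  exact h.of_mem_grS (hF ℓ).choose_spec h1

end Phi

end GrRel

/-! ## The tensor product `k ⊗ V` -/

section Tensor

variable {p : ℕ} [Fact p.Prime] {k : Type} [Field k] [Algebra (ZMod p) k]
  {V : Type} [AddCommGroup V] [Module (ZMod p) V]

/-- the functional `ℓ ∘ (c · )` -/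
noncomputable def funMul (ℓ : k →ₗ[ZMod p] ZMod p) (c : k) : k →ₗ[ZMod p] ZMod p :=
  ℓ.comp (LinearMap.mulLeft (ZMod p) c)

@[simp] theorem funMul_apply (ℓ : k →ₗ[ZMod p] ZMod p) (c y : k) :
    funMul ℓ c y = ℓ (c * y) := rfl

/-- evaluation of the first factor by a functional -/
noncomputable def tEv (ℓ : k →ₗ[ZMod p] ZMod p) : k ⊗[ZMod p] V →ₗ[ZMod p] V :=
  (TensorProduct.lid (ZMod p) V).toLinearMap.comp (LinearMap.rTensor V ℓ)

@[simp] theorem tEv_tmul (ℓ : k →ₗ[ZMod p] ZMod p) (c : k) (v : V) :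
    tEv ℓ (c ⊗ₜ[ZMod p] v) = ℓ c • v := by
  simp [tEv]

theorem tEv_smul (ℓ : k →ₗ[ZMod p] ZMod p) (c : k) (w : k ⊗[ZMod p] V) :
    tEv ℓ (c • w) = tEv (funMul ℓ c) w := by
  induction w using TensorProduct.induction_on with
  | zero => simp
  | tmul d v => rw [TensorProduct.smul_tmul', tEv_tmul, tEv_tmul, smul_eq_mul, funMul_apply]
  | add x y hx hy => rw [smul_add, map_add, map_add, hx, hy]

theorem tEv_baseChange (ℓ : k →ₗ[ZMod p] ZMod p) (τ : V →ₗ[ZMod p] V)
    (w : k ⊗[ZMod p] V) : tEv ℓ (τ.baseChange k w) = τ (tEv ℓ w) := by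
  induction w using TensorProduct.induction_on with
  | zero => simp
  | tmul d v => rw [LinearMap.baseChange_tmul, tEv_tmul, tEv_tmul, map_smul]
  | add x y hx hy => rw [map_add, map_add, map_add, map_add, hx, hy]

variable [Module.Finite (ZMod p) k]

/-- the functionals `tEv ℓ` separate the points of `k ⊗ V` -/
theorem eq_zero_of_tEv_eq_zero (w : k ⊗[ZMod p] V)
    (hw : ∀ ℓ : k →ₗ[ZMod p] ZMod p, tEv ℓ w = 0) : w = 0 := by
  classical
  set b := Module.finBasis (ZMod p) k with hb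
  have key : ∀ (w : k ⊗[ZMod p] V) (i : Fin (Module.finrank (ZMod p) k)),
      TensorProduct.equivFinsuppOfBasisLeft b w i = tEv (b.coord i) w := by
    intro w i
    induction w using TensorProduct.induction_on with
    | zero => simp
    | tmul d v =>
      rw [TensorProduct.equivFinsuppOfBasisLeft_apply_tmul_apply, tEv_tmul]
      rfl
    | add x y hx hy => rw [map_add, map_add, Finsupp.add_apply, hx, hy]
  apply (TensorProduct.equivFinsuppOfBasisLeft b).injective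
  rw [map_zero]
  ext i
  rw [key, hw]
  rfl

theorem eq_of_tEv_eq (w w' : k ⊗[ZMod p] V)
    (hw : ∀ ℓ : k →ₗ[ZMod p] ZMod p, tEv ℓ w = tEv ℓ w') : w = w' := by
  rw [← sub_eq_zero]
  apply eq_zero_of_tEv_eq_zero
  intro ℓ
  rw [map_sub, hw, sub_self]

/-- the vector of `k ⊗ V` with prescribed evaluations -/
noncomputable def tVec (Φ : (k →ₗ[ZMod p] ZMod p) →ₗ[ZMod p] V) : k ⊗[ZMod p] V :=
  ∑ i, (Module.finBasis (ZMod p) k i) ⊗ₜ[ZMod p] Φ ((Module.finBasis (ZMod p) k).coord i)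

theorem tEv_tVec (Φ : (k →ₗ[ZMod p] ZMod p) →ₗ[ZMod p] V) (ℓ : k →ₗ[ZMod p] ZMod p) :
    tEv ℓ (tVec Φ) = Φ ℓ := by
  unfold tVec
  rw [map_sum]
  simp only [tEv_tmul]
  rw [← map_smul_sum_helper Φ ℓ]
where
  map_smul_sum_helper (Φ : (k →ₗ[ZMod p] ZMod p) →ₗ[ZMod p] V) (ℓ : k →ₗ[ZMod p] ZMod p) :
      Φ ℓ = ∑ i, ℓ (Module.finBasis (ZMod p) k i) •
        Φ ((Module.finBasis (ZMod p) k).coord i) := by
    conv_lhs => rw [← (Module.finBasis (ZMod p) k).sum_dual_apply_smul_coord ℓ]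
    rw [map_sum]
    simp only [map_smul]

end Tensor

/-! ## The graded vector `gr F` and the operators -/

section Gr

variable {p : ℕ} [Fact p.Prime] {G κ : Type} [Field κ] [Algebra (ZMod p) κ]
  {GT : Set G} {R : (G → ZMod p) → κ → Prop} (h : GrRel p GT R)
  {k : Type} [Field k] [Algebra (ZMod p) k] [Module.Finite (ZMod p) k]

/-- the graded vector of `F` in `k ⊗ (κ / S)` -/
noncomputable def GrRel.gr (F : G → k)
    (hF : ∀ ℓ : k →ₗ[ZMod p] ZMod p, ∃ x, R (fun g => ℓ (F g)) x) :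
    k ⊗[ZMod p] (κ ⧸ h.grS) :=
  tVec (h.grPhi F hF)

theorem GrRel.tEv_gr (F : G → k)
    (hF : ∀ ℓ : k →ₗ[ZMod p] ZMod p, ∃ x, R (fun g => ℓ (F g)) x)
    (ℓ : k →ₗ[ZMod p] ZMod p) {x : κ} (hx : R (fun g => ℓ (F g)) x) :
    tEv ℓ (h.gr F hF) = Submodule.Quotient.mk x := by
  rw [GrRel.gr, tEv_tVec, h.grPhi_eq F hF ℓ hx]

theorem GrRel.of_gr_eq_zero (F : G → k)
    (hF : ∀ ℓ : k →ₗ[ZMod p] ZMod p, ∃ x, R (fun g => ℓ (F g)) x)
    (h0 : h.gr F hF = 0) (ℓ : k →ₗ[ZMod p] ZMod p) : R (fun g => ℓ (F g)) 0 := by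
  apply h.of_grPhi_eq_zero F hF ℓ
  rw [← tEv_tVec (h.grPhi F hF) ℓ]
  change tEv ℓ (h.gr F hF) = 0
  rw [h0, map_zero]

/-- a linear combination of graded vectors vanishes iff the linear combination of the functions
has leading coefficient `0`. -/
theorem GrRel.of_sum_smul_gr_eq_zero {ι : Type} [Fintype ι] (F : ι → G → k)
    (hF : ∀ i, ∀ ℓ : k →ₗ[ZMod p] ZMod p, ∃ x, R (fun g => ℓ (F i g)) x)
    (cc : ι → k) (h0 : ∑ i, cc i • h.gr (F i) (hF i) = 0) (ℓ : k →ₗ[ZMod p] ZMod p) :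
    R (fun g => ℓ (∑ i, cc i * F i g)) 0 := by
  classical
  choose x hx using fun i => hF i (funMul ℓ (cc i))
  have h1 : R (∑ i, fun g => funMul ℓ (cc i) (F i g)) (∑ i, x i) :=
    h.sum Finset.univ _ _ fun i _ => hx i
  have h2 : (∑ i, fun g => funMul ℓ (cc i) (F i g)) = fun g => ℓ (∑ i, cc i * F i g) := by
    funext g
    rw [Finset.sum_apply, map_sum]
    rfl
  rw [h2] at h1
  refine h.of_mem_grS h1 ?_
  rw [← Submodule.Quotient.mk_eq_zero]
  change h.grS.mkQ (∑ i, x i) = 0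
  rw [map_sum]
  have h3 : ∀ i, h.grS.mkQ (x i) = tEv ℓ (cc i • h.gr (F i) (hF i)) := by
    intro i
    rw [tEv_smul, h.tEv_gr (F i) (hF i) _ (hx i)]
    rfl
  rw [Finset.sum_congr rfl fun i _ => h3 i, ← map_sum, h0, map_zero]

section Op

variable (A : κ →ₗ[ZMod p] κ) (conj : G → G) (ω' : ZMod p)
  (hRA : ∀ f x, R f x → R (fun g => ω' * f (conj g)) (A x))

include hRA

theorem GrRel.grS_le_comap : h.grS ≤ h.grS.comap A := by
  intro x hx
  rw [Submodule.mem_comap, h.mem_grS]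
  have h1 := hRA 0 x hx
  have h2 : (fun g => ω' * (0 : G → ZMod p) (conj g)) = 0 := by
    funext g
    simp
  rwa [h2] at h1

/-- the operator on `κ / S` induced by `A` -/
noncomputable def GrRel.tau : (κ ⧸ h.grS) →ₗ[ZMod p] (κ ⧸ h.grS) :=
  Submodule.mapQ _ _ A (h.grS_le_comap A conj ω' hRA)

theorem GrRel.tau_mk (x : κ) :
    h.tau A conj ω' hRA (Submodule.Quotient.mk x) = Submodule.Quotient.mk (A x) := rfl

/-- semi-invariance of `F` gives an eigenvector equation for `gr F`. -/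
theorem GrRel.baseChange_gr (a' : k) (ha' : a' ≠ 0) (F : G → k)
    (hF : ∀ ℓ : k →ₗ[ZMod p] ZMod p, ∃ x, R (fun g => ℓ (F g)) x)
    (hinv : ∀ g ∈ GT, a' * F (conj g) = F g) :
    (h.tau A conj ω' hRA).baseChange k (h.gr F hF) =
      (algebraMap (ZMod p) k ω' * a'⁻¹) • h.gr F hF := by
  apply eq_of_tEv_eq
  intro ℓ
  rw [tEv_baseChange, tEv_smul]
  obtain ⟨x, hx⟩ := hF ℓ
  rw [h.tEv_gr F hF ℓ hx, h.tau_mk]
  have hx' : R (fun g => funMul ℓ (algebraMap (ZMod p) k ω' * a'⁻¹) (F g)) (A x) := by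
    refine h.congr _ _ _ (hRA _ _ hx) ?_
    intro g hg
    have h1 : F (conj g) = a'⁻¹ * F g := by
      rw [← hinv g hg, inv_mul_cancel_left₀ ha']
    change ω' * ℓ (F (conj g)) = ℓ (algebraMap (ZMod p) k ω' * a'⁻¹ * F g)
    rw [h1, mul_assoc, ← Algebra.smul_def, map_smul, smul_eq_mul]
  rw [h.tEv_gr F hF _ hx']

end Op

end Gr

/-! ## The abstract theorems -/

section Main

variable (p : ℕ) [Fact p.Prime] {G : Type} (GT : Set G)
  (κ k : Type) [Field κ] [Finite κ] [CharP κ p] [Field k] [Finite k] [Algebra (ZMod p) k]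

/-- the additive map `x ↦ 1 ⊗ [x]` -/
noncomputable def grQ [Algebra (ZMod p) κ] (S : Submodule (ZMod p) κ) :
    κ →+ k ⊗[ZMod p] (κ ⧸ S) :=
  ((TensorProduct.mk (ZMod p) k (κ ⧸ S) 1).comp S.mkQ).toAddMonoidHom

omit [Finite κ] [CharP κ p] [Finite k] in
theorem grQ_apply [Algebra (ZMod p) κ] (S : Submodule (ZMod p) κ) (x : κ) :
    grQ p κ k S x = (1 : k) ⊗ₜ[ZMod p] (Submodule.Quotient.mk x : κ ⧸ S) := rfl

omit [Finite κ] [CharP κ p] [Finite k] in
theorem span_range_grQ [Algebra (ZMod p) κ] (S : Submodule (ZMod p) κ) :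
    Submodule.span k (Set.range (grQ p κ k S)) = ⊤ := by
  have key : ∀ w : k ⊗[ZMod p] (κ ⧸ S), w ∈ Submodule.span k (Set.range (grQ p κ k S)) := by
    intro w
    induction w using TensorProduct.induction_on with
    | zero => exact Submodule.zero_mem _
    | tmul c v =>
      obtain ⟨x, rfl⟩ := Submodule.Quotient.mk_surjective S v
      have h1 : c ⊗ₜ[ZMod p] (Submodule.Quotient.mk x : κ ⧸ S) = c • grQ p κ k S x := by
        rw [grQ_apply, TensorProduct.smul_tmul', smul_eq_mul, mul_one]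
      rw [h1]
      exact Submodule.smul_mem _ _ (Submodule.subset_span ⟨x, rfl⟩)
    | add x y hx hy => exact Submodule.add_mem _ hx hy
  rw [eq_top_iff]
  exact fun w _ => key w

/-- **FC-STEP, abstract form.** -/
theorem fcStep_abstract
    (hEig : FCEigLinQStatement)
    (R : (G → ZMod p) → κ → Prop)
    (hR0 : R 0 0)
    (hRadd : ∀ f f' x x', R f x → R f' x' → R (f + f') (x + x'))
    (hRneg : ∀ f x, R f x → R (-f) (-x))
    (hRcongr : ∀ f f' x, R f x → (∀ g ∈ GT, f g = f' g) → R f' x)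
    (cs cφ : G → G) (ωs ωφ : ZMod p) (hωφ : ωφ ≠ 0)
    (u c : κ) (t : ℕ) (ht : 0 < t) (hc : c ≠ 0) (hu : u ^ (p ^ t) = u)
    (hRs : ∀ f x, R f x → R (fun g => ωs * f (cs g)) (u * x))
    (hRφ : ∀ f x, R f x → R (fun g => ωφ * f (cφ g)) (c * x ^ (p ^ t)))
    (as aφ : k) (has : as ≠ 0) (haφ : aφ ≠ 0)
    (hemb : Nonempty (frobFixed p κ t →+* k))
    (N : ℕ)
    (hN : Nat.card {σ : frobFixed p κ t →+* k //
        ∀ h : u ∈ frobFixed p κ t, σ ⟨u, h⟩ * as = algebraMap (ZMod p) k ωs} ≤ N)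
    (F : Fin (N + 1) → (G → k))
    (hF : ∀ i, (∀ ℓ : k →ₗ[ZMod p] ZMod p, ∃ x, R (fun g => ℓ (F i g)) x) ∧
      (∀ g ∈ GT, as * F i (cs g) = F i g) ∧ (∀ g ∈ GT, aφ * F i (cφ g) = F i g)) :
    ∃ cc : Fin (N + 1) → k, cc ≠ 0 ∧
      ∀ ℓ : k →ₗ[ZMod p] ZMod p, R (fun g => ℓ (∑ i, cc i * F i g)) 0 := by
  classical
  have hp : p.Prime := Fact.out
  letI : Algebra (ZMod p) κ := ZMod.algebra κ p
  haveI : ExpChar κ p := ExpChar.prime hp
  haveI : Module.Finite (ZMod p) k := Module.Finite.of_finite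
  haveI : Module.Finite (ZMod p) κ := Module.Finite.of_finite
  have h : GrRel p GT R := ⟨hR0, hRadd, hRneg, hRcongr⟩
  -- the operators
  set Au : κ →ₗ[ZMod p] κ := LinearMap.mulLeft (ZMod p) u with hAu
  set Aφ : κ →ₗ[ZMod p] κ := (LinearMap.mulLeft (ZMod p) c).comp
    ((iterateFrobenius κ p t : κ →+* κ).toAddMonoidHom.toZModLinearMap p) with hAφ
  have hAφx : ∀ x, Aφ x = c * x ^ (p ^ t) := fun x => by
    simp [hAφ, iterateFrobenius_def]
  have hRs' : ∀ f x, R f x → R (fun g => ωs * f (cs g)) (Au x) := hRs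
  have hRφ' : ∀ f x, R f x → R (fun g => ωφ * f (cφ g)) (Aφ x) := fun f x hx => by
    rw [hAφx]
    exact hRφ f x hx
  set ρu : (k ⊗[ZMod p] (κ ⧸ h.grS)) →ₗ[k] (k ⊗[ZMod p] (κ ⧸ h.grS)) :=
    (h.tau Au cs ωs hRs').baseChange k with hρu
  set ρφ : (k ⊗[ZMod p] (κ ⧸ h.grS)) →ₗ[k] (k ⊗[ZMod p] (κ ⧸ h.grS)) :=
    (h.tau Aφ cφ ωφ hRφ').baseChange k with hρφ
  have hρuq : ∀ x, ρu (grQ p κ k h.grS x) = grQ p κ k h.grS (u * x) := by
    intro x
    rw [hρu, grQ_apply, LinearMap.baseChange_tmul, h.tau_mk]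
    rfl
  have hρφq : ∀ x, ρφ (grQ p κ k h.grS x) = grQ p κ k h.grS (c * x ^ (p ^ t)) := by
    intro x
    rw [hρφ, grQ_apply, LinearMap.baseChange_tmul, h.tau_mk, hAφx]
    rfl
  -- the eigenvectors
  set v : Fin (N + 1) → k ⊗[ZMod p] (κ ⧸ h.grS) := fun i => h.gr (F i) (hF i).1 with hv
  set a : k := algebraMap (ZMod p) k ωs * as⁻¹ with ha
  set b : k := algebraMap (ZMod p) k ωφ * aφ⁻¹ with hb
  have hb0 : b ≠ 0 := by
    rw [hb]
    refine mul_ne_zero ?_ (inv_ne_zero haφ)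
    rw [Ne, map_eq_zero_iff _ (algebraMap (ZMod p) k).injective]
    exact hωφ
  have hvu : ∀ i, ρu (v i) = a • v i := fun i =>
    h.baseChange_gr Au cs ωs hRs' as has (F i) (hF i).1 (hF i).2.1
  have hvφ : ∀ i, ρφ (v i) = b • v i := fun i =>
    h.baseChange_gr Aφ cφ ωφ hRφ' aφ haφ (F i) (hF i).1 (hF i).2.2
  set E : Submodule k (k ⊗[ZMod p] (κ ⧸ h.grS)) := Submodule.span k (Set.range v) with hE
  have hEeig : ∀ w ∈ E, ρu w = a • w ∧ ρφ w = b • w := by
    intro w hw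
    induction hw using Submodule.span_induction with
    | mem w hw =>
      obtain ⟨i, rfl⟩ := hw
      exact ⟨hvu i, hvφ i⟩
    | zero => simp
    | add x y _ _ hx hy =>
      rw [map_add, map_add, smul_add, smul_add, hx.1, hx.2, hy.1, hy.2]
      exact ⟨rfl, rfl⟩
    | smul r x _ hx =>
      rw [map_smul, map_smul, hx.1, hx.2, smul_comm r a, smul_comm r b]
      exact ⟨rfl, rfl⟩
  have hbound := (hEig p κ k (k ⊗[ZMod p] (κ ⧸ h.grS)) (grQ p κ k h.grS)
    (span_range_grQ p κ k h.grS) u ρu hρuq).1 t c ρφ a b ht hc hb0 hu hρφq hemb E hEeig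
  have hcard : Nat.card {σ : frobFixed p κ t →+* k //
      ∀ h' : u ∈ frobFixed p κ t, σ ⟨u, h'⟩ = a} =
      Nat.card {σ : frobFixed p κ t →+* k //
        ∀ h' : u ∈ frobFixed p κ t, σ ⟨u, h'⟩ * as = algebraMap (ZMod p) k ωs} := by
    apply Nat.card_congr
    apply Equiv.subtypeEquivRight
    intro σ
    apply forall_congr'
    intro h'
    rw [ha, eq_mul_inv_iff_mul_eq₀ has]
  rw [hcard] at hbound
  have hdep : ¬ LinearIndependent k v := by
    intro hli
    have h1 := linearIndependent_iff_card_eq_finrank_span.1 hli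
    rw [Fintype.card_fin] at h1
    have h2 : Module.finrank k E ≤ N := hbound.trans hN
    have h3 : (Set.range v).finrank k = Module.finrank k E := rfl
    omega
  rw [Fintype.not_linearIndependent_iff] at hdep
  obtain ⟨cc, hcc, i, hi⟩ := hdep
  refine ⟨cc, fun h0 => hi (by rw [h0]; rfl), fun ℓ => ?_⟩
  exact h.of_sum_smul_gr_eq_zero F (fun i => (hF i).1) cc hcc ℓ

/-- **FC-STEP0, abstract form.** -/
theorem fcStep0_abstract
    (hEig : FCEigLinQStatement)
    (R : (G → ZMod p) → κ → Prop)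
    (hR0 : R 0 0)
    (hRadd : ∀ f f' x x', R f x → R f' x' → R (f + f') (x + x'))
    (hRneg : ∀ f x, R f x → R (-f) (-x))
    (hRcongr : ∀ f f' x, R f x → (∀ g ∈ GT, f g = f' g) → R f' x)
    (cs : G → G) (n : ℕ) (u : κ) (hun : u ≠ (n : κ))
    (hRs : ∀ f x, R f x → R (fun g => (n : ZMod p) * f (cs g)) (u * x))
    (F : G → k)
    (hF : ∀ ℓ : k →ₗ[ZMod p] ZMod p, ∃ x, R (fun g => ℓ (F g)) x)
    (hFs : ∀ g ∈ GT, F (cs g) = F g) :
    ∀ ℓ : k →ₗ[ZMod p] ZMod p, R (fun g => ℓ (F g)) 0 := by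
  classical
  have hp : p.Prime := Fact.out
  letI : Algebra (ZMod p) κ := ZMod.algebra κ p
  haveI : Module.Finite (ZMod p) k := Module.Finite.of_finite
  haveI : Module.Finite (ZMod p) κ := Module.Finite.of_finite
  have h : GrRel p GT R := ⟨hR0, hRadd, hRneg, hRcongr⟩
  set Au : κ →ₗ[ZMod p] κ := LinearMap.mulLeft (ZMod p) u with hAu
  have hRs' : ∀ f x, R f x → R (fun g => (n : ZMod p) * f (cs g)) (Au x) := hRs
  set ρu : (k ⊗[ZMod p] (κ ⧸ h.grS)) →ₗ[k] (k ⊗[ZMod p] (κ ⧸ h.grS)) :=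
    (h.tau Au cs (n : ZMod p) hRs').baseChange k with hρu
  have hρuq : ∀ x, ρu (grQ p κ k h.grS x) = grQ p κ k h.grS (u * x) := by
    intro x
    rw [hρu, grQ_apply, LinearMap.baseChange_tmul, h.tau_mk]
    rfl
  have hvu : ρu (h.gr F hF) = (n : k) • h.gr F hF := by
    have h1 := h.baseChange_gr Au cs (n : ZMod p) hRs' (1 : k) one_ne_zero F hF
      (fun g hg => by rw [one_mul]; exact hFs g hg)
    rw [inv_one, mul_one, map_natCast] at h1
    exact h1
  have h0 := (hEig p κ k (k ⊗[ZMod p] (κ ⧸ h.grS)) (grQ p κ k h.grS)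
    (span_range_grQ p κ k h.grS) u ρu hρuq).2 n (h.gr F hF) hun hvu
  exact h.of_gr_eq_zero F hF h0

end Main

end Fermat.Agent.P1.helper40
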