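import Fermat.Agent.P1.helper2_GTAbs

/-!
# P1 / TW-GT / GT-B (helper40): a co-abelian normal subgroup contains an element with distinct
eigenvalues

`gtB : Fermat.Agent.P1.helper2.GtBStatement`.  Let `ρ : G → GL₂(k)`, `char k ≠ 2`, be absolutely
irreducible on `G` and on every subgroup of index `2`, with all characteristic polynomials split
over `k`, and let `N` be a normal subgroup of `G` containing all commutators.  Then some `g ∈ N`
has two distinct eigenvalues.

Proof.  Otherwise `disc (ρ n) = tr² - 4 det = 0` on `N`.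
* If `ρ(N)` consists of scalars, then for a non-scalar `ρ(g₀)` the elements `h` with
  `ρ(g₀) ρ(h) = ρ(h) ρ(g₀)` form a subgroup of index `≤ 2` (the commutator is `± 1`) which
  stabilises an eigenline of `ρ(g₀)`.
* If `ρ(n₀)` is not scalar for some `n₀ ∈ N`, then `disc = 0` for `n₀ n` and `n₀² n` forces
  `2 tr(n₀ n) = tr(n₀) tr(n)`, hence `n` stabilises the unique eigenline of `n₀`; this line is
  then stable under `G`.
-/

set_option autoImplicit false

open Matrix Polynomial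

namespace Fermat.Agent.P1.helper40

open Fermat.Agent.P1.helper2 Fermat.Agent.P1.helper3

section Mat

variable {k : Type*} [Field k]

/-- The discriminant of the characteristic polynomial of a `2 × 2` matrix. -/
def disc2 (A : Matrix (Fin 2) (Fin 2) k) : k := A.trace ^ 2 - 4 * A.det

lemma disc2_eq_of_charpoly {A : Matrix (Fin 2) (Fin 2) k} {α β : k}
    (h : A.charpoly = (X - C α) * (X - C β)) : disc2 A = (α - β) ^ 2 := by
  rw [Matrix.charpoly_fin_two] at h
  have h0 := congrArg (Polynomial.eval 0) h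
  have h1 := congrArg (Polynomial.eval 1) h
  simp only [eval_add, eval_sub, eval_mul, eval_pow, eval_X, eval_C] at h0 h1
  unfold disc2
  have hdet : A.det = α * β := by linear_combination h0
  have htr : A.trace = α + β := by linear_combination h0 - h1
  rw [hdet, htr]
  ring

lemma trace_mul_fin_two (A B : Matrix (Fin 2) (Fin 2) k) :
    (A * B).trace = A 0 0 * B 0 0 + A 0 1 * B 1 0 + A 1 0 * B 0 1 + A 1 1 * B 1 1 := by
  rw [Matrix.trace_fin_two, Matrix.mul_apply, Matrix.mul_apply, Fin.sum_univ_two,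
    Fin.sum_univ_two]
  ring

/-- The trace relation forced by double eigenvalues of `A`, `B`, `AB`, `A²B`. -/
lemma two_mul_trace_mul_eq (h2 : (2 : k) ≠ 0) (A B : Matrix (Fin 2) (Fin 2) k)
    (hA : A.det ≠ 0) (hB : B.det ≠ 0) (dA : disc2 A = 0) (dB : disc2 B = 0)
    (dAB : disc2 (A * B) = 0) (dAAB : disc2 (A * A * B) = 0) :
    2 * (A * B).trace = A.trace * B.trace := by
  have hm : (A * B).trace * (2 * (A * B).trace - A.trace * B.trace) = 0 := by
    have h4 : (2 : k) * A.det ≠ 0 := mul_ne_zero h2 hA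
    apply mul_left_cancel₀ h4
    rw [mul_zero]
    unfold disc2 at dA dB dAB dAAB
    rw [Matrix.det_mul] at dAB
    rw [Matrix.det_mul, Matrix.det_mul] at dAAB
    rw [trace_mul_fin_two] at dAB ⊢
    rw [Matrix.mul_assoc, trace_mul_fin_two A (A * B)] at dAAB
    simp only [Matrix.mul_apply, Fin.sum_univ_two, Matrix.trace_fin_two, Matrix.det_fin_two]
      at dA dB dAB dAAB ⊢
    linear_combination dAAB - (A 0 0 * A 1 1 - A 0 1 * A 1 0) ^ 2 * dB
      - (A 0 0 * B 0 0 + A 0 1 * B 1 0 + A 1 0 * B 0 1 + A 1 1 * B 1 1) ^ 2 * dA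
  rcases mul_eq_zero.1 hm with h | h
  · exfalso
    unfold disc2 at dAB
    rw [h, Matrix.det_mul] at dAB
    have : A.det * B.det = 0 := by
      have h4 : (4 : k) ≠ 0 := by
        have : (4 : k) = 2 * 2 := by norm_num
        rw [this]
        exact mul_ne_zero h2 h2
      have : (4 : k) * (A.det * B.det) = 0 := by linear_combination -dAB
      rcases mul_eq_zero.1 this with h' | h'
      · exact absurd h' h4
      · exact h'
    rcases mul_eq_zero.1 this with h' | h'
    · exact hA h'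
    · exact hB h'
  · linear_combination h

/-- The eigenvector equation in coordinates. -/
lemma mulVec_eq_smul_iff (A : Matrix (Fin 2) (Fin 2) k) (v : Fin 2 → k) (a : k) :
    A *ᵥ v = a • v ↔
      A 0 0 * v 0 + A 0 1 * v 1 = a * v 0 ∧ A 1 0 * v 0 + A 1 1 * v 1 = a * v 1 := by
  constructor
  · intro h
    have h0 := congrFun h 0
    have h1 := congrFun h 1
    simp only [Matrix.mulVec, dotProduct, Fin.sum_univ_two, Pi.smul_apply, smul_eq_mul] at h0 h1
    exact ⟨h0, h1⟩
  · rintro ⟨h0, h1⟩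
    funext i
    fin_cases i
    · simpa [Matrix.mulVec, dotProduct, Fin.sum_univ_two] using h0
    · simpa [Matrix.mulVec, dotProduct, Fin.sum_univ_two] using h1

lemma vec_ne_zero_iff (v : Fin 2 → k) : v ≠ 0 ↔ v 0 ≠ 0 ∨ v 1 ≠ 0 := by
  constructor
  · intro hv
    by_contra h
    push Not at h
    apply hv
    funext i
    fin_cases i
    · exact h.1
    · exact h.2
  · rintro (h | h) rfl
    · exact h rfl
    · exact h rfl

/-- Two vectors with vanishing determinant are proportional. -/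
lemma exists_smul_of_det_eq_zero {v w : Fin 2 → k} (hv : v ≠ 0)
    (h : v 0 * w 1 - v 1 * w 0 = 0) : ∃ t : k, w = t • v := by
  rcases (vec_ne_zero_iff v).1 hv with h0 | h1
  · refine ⟨w 0 / v 0, ?_⟩
    funext i
    fin_cases i
    · simp only [Fin.zero_eta, Pi.smul_apply, smul_eq_mul]
      field_simp
    · simp only [Fin.mk_one, Pi.smul_apply, smul_eq_mul]
      field_simp
      linear_combination h
  · refine ⟨w 1 / v 1, ?_⟩
    funext i
    fin_cases i
    · simp only [Fin.zero_eta, Pi.smul_apply, smul_eq_mul]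
      field_simp
      linear_combination -h
    · simp only [Fin.mk_one, Pi.smul_apply, smul_eq_mul]
      field_simp

/-- Non-scalar matrices in coordinates. -/
lemma nonscalar_iff (A : Matrix (Fin 2) (Fin 2) k) :
    (∀ a : k, A ≠ a • (1 : Matrix (Fin 2) (Fin 2) k)) ↔
      A 0 1 ≠ 0 ∨ A 1 0 ≠ 0 ∨ A 0 0 ≠ A 1 1 := by
  constructor
  · intro h
    by_contra hc
    push Not at hc
    apply h (A 0 0)
    ext i j
    fin_cases i <;> fin_cases j
    · simp
    · simpa using hc.1
    · simpa using hc.2.1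
    · simpa using hc.2.2.symm
  · rintro h a rfl
    simp at h

/-- An eigenvalue of a matrix with `disc = 0` is half the trace. -/
lemma two_mul_eq_trace_of_eigen {A : Matrix (Fin 2) (Fin 2) k}
    (dA : disc2 A = 0) {w : Fin 2 → k} (hw : w ≠ 0) {c : k} (h : A *ᵥ w = c • w) :
    2 * c = A.trace := by
  obtain ⟨e0, e1⟩ := (mulVec_eq_smul_iff A w c).1 h
  unfold disc2 at dA
  rw [Matrix.trace_fin_two, Matrix.det_fin_two] at dA
  rw [Matrix.trace_fin_two]
  have hχ : c ^ 2 - (A 0 0 + A 1 1) * c + (A 0 0 * A 1 1 - A 0 1 * A 1 0) = 0 := by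
    rcases (vec_ne_zero_iff w).1 hw with h0 | h1
    · apply mul_left_cancel₀ h0
      linear_combination (-(c - A 1 1)) * e0 - A 0 1 * e1
    · apply mul_left_cancel₀ h1
      linear_combination (-(A 1 0)) * e0 - (c - A 0 0) * e1
  have hsq : (2 * c - (A 0 0 + A 1 1)) ^ 2 = 0 := by
    linear_combination 4 * hχ + dA
  have := pow_eq_zero_iff (two_ne_zero) |>.1 hsq
  linear_combination this

/-- The eigenspace of a non-scalar matrix is a line. -/
lemma exists_smul_of_eigen {A : Matrix (Fin 2) (Fin 2) k}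
    (hA : ∀ a : k, A ≠ a • (1 : Matrix (Fin 2) (Fin 2) k)) {v w : Fin 2 → k} (hv : v ≠ 0)
    {α : k} (h : A *ᵥ v = α • v) (h' : A *ᵥ w = α • w) : ∃ t : k, w = t • v := by
  apply exists_smul_of_det_eq_zero hv
  obtain ⟨e0, e1⟩ := (mulVec_eq_smul_iff A v α).1 h
  obtain ⟨f0, f1⟩ := (mulVec_eq_smul_iff A w α).1 h'
  by_contra hΔ
  have r1 : A 0 1 = 0 := by
    apply mul_left_cancel₀ hΔ
    linear_combination v 0 * f0 - w 0 * e0
  have r2 : A 1 0 = 0 := by
    apply mul_left_cancel₀ hΔ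
    linear_combination (-v 1) * f1 + w 1 * e1
  have r3 : A 0 0 = α := by
    apply mul_left_cancel₀ hΔ
    linear_combination w 1 * e0 - v 1 * f0
  have r4 : A 1 1 = α := by
    apply mul_left_cancel₀ hΔ
    linear_combination v 0 * f1 - w 0 * e1
  rcases (nonscalar_iff A).1 hA with h | h | h
  · exact h r1
  · exact h r2
  · exact h (r3.trans r4.symm)

/-- If `2 tr(AB) = tr A tr B` and `disc A = 0`, `A` non-scalar, then `B` stabilises the eigenline
of `A`. -/
lemma exists_smul_of_trace_rel (h2 : (2 : k) ≠ 0) {A B : Matrix (Fin 2) (Fin 2) k}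
    (hA : ∀ a : k, A ≠ a • (1 : Matrix (Fin 2) (Fin 2) k)) (dA : disc2 A = 0)
    (hT : 2 * (A * B).trace = A.trace * B.trace) {v : Fin 2 → k} (hv : v ≠ 0) {α : k}
    (h : A *ᵥ v = α • v) : ∃ t : k, B *ᵥ v = t • v := by
  apply exists_smul_of_det_eq_zero hv
  have hα := two_mul_eq_trace_of_eigen dA hv h
  obtain ⟨e0, e1⟩ := (mulVec_eq_smul_iff A v α).1 h
  rw [trace_mul_fin_two, Matrix.trace_fin_two, Matrix.trace_fin_two] at hT
  rw [Matrix.trace_fin_two] at hα
  simp only [Matrix.mulVec, dotProduct, Fin.sum_univ_two]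
  -- `E' v = 0` for `E' = 2 A - tr A`
  have g0 : (A 0 0 - A 1 1) * v 0 + 2 * A 0 1 * v 1 = 0 := by
    linear_combination 2 * e0 + v 0 * hα
  have g1 : 2 * A 1 0 * v 0 - (A 0 0 - A 1 1) * v 1 = 0 := by
    linear_combination 2 * e1 + v 1 * hα
  set D : k := v 0 * (B 1 0 * v 0 + B 1 1 * v 1) - v 1 * (B 0 0 * v 0 + B 0 1 * v 1) with hD
  have hfD : A 0 1 * D = 0 := by
    apply mul_left_cancel₀ (mul_ne_zero h2 h2)
    rw [hD]
    linear_combination (2 * v 0 ^ 2) * hT - (2 * (B 0 0 - B 1 1) * v 0 + 2 * B 0 1 * v 1) * g0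
      - 2 * B 0 1 * v 0 * g1
  have hgD : A 1 0 * D = 0 := by
    apply mul_left_cancel₀ (mul_ne_zero h2 h2)
    rw [hD]
    linear_combination (-(2 * v 1 ^ 2)) * hT + 2 * B 1 0 * (v 1 * g0 + v 0 * g1)
      - 2 * (B 0 0 - B 1 1) * v 1 * g1
  have heD : (A 0 0 - A 1 1) * D = 0 := by
    apply mul_left_cancel₀ h2
    rw [hD]
    linear_combination (-(2 * v 0 * v 1)) * hT + 2 * B 1 0 * v 0 * g0 + 2 * B 0 1 * v 1 * g1
  rcases (nonscalar_iff A).1 hA with h | h | h
  · exact (mul_eq_zero.1 hfD).resolve_left h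
  · exact (mul_eq_zero.1 hgD).resolve_left h
  · exact (mul_eq_zero.1 heD).resolve_left (sub_ne_zero.2 h)

end Mat

section Group

variable {k : Type} [Field k] {G : Type} [Group G]

/-- A common eigenvector over `k` contradicts `NoStableLine`. -/
lemma not_noStableLine_of_eigen (ρ : G →* GL (Fin 2) k) (H : Subgroup G) {v : Fin 2 → k}
    (hv : v ≠ 0) (h : ∀ g ∈ H, ∃ a : k, (ρ g : Matrix (Fin 2) (Fin 2) k) *ᵥ v = a • v) :
    ¬ NoStableLine ρ H := by
  intro hns
  have hv' : (algebraMap k (AlgebraicClosure k)) ∘ v ≠ 0 := by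
    intro h0
    apply hv
    funext i
    have := congrFun h0 i
    simpa using this
  obtain ⟨g, hg, hne⟩ := hns _ hv'
  obtain ⟨a, ha⟩ := h g hg
  apply hne (algebraMap k (AlgebraicClosure k) a)
  funext i
  rw [← RingHom.map_mulVec, ha]
  simp

/-- An eigenvector for a root of the characteristic polynomial. -/
lemma exists_eigen_of_charpoly {A : Matrix (Fin 2) (Fin 2) k} {α β : k}
    (h : A.charpoly = (X - C α) * (X - C β)) : ∃ v : Fin 2 → k, v ≠ 0 ∧ A *ᵥ v = α • v := by
  have h0 : ((Matrix.scalar (Fin 2)) α - A).det = 0 := by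
    rw [← Matrix.eval_charpoly, h]
    simp
  obtain ⟨v, hv, hv0⟩ := Matrix.exists_mulVec_eq_zero_iff.2 h0
  refine ⟨v, hv, ?_⟩
  rw [Matrix.sub_mulVec, sub_eq_zero] at hv0
  rw [← hv0]
  funext i
  simp [Matrix.mulVec, dotProduct, Matrix.scalar_apply, Matrix.diagonal_apply]

/-- **GT-B**. -/
theorem gtB : GtBStatement := by
  intro k _ G _ h2 ρ hρ N hN hcomm
  by_contra hno
  push Not at hno
  have hdisc : ∀ g ∈ N, disc2 (ρ g : Matrix (Fin 2) (Fin 2) k) = 0 := by
    intro g hg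
    obtain ⟨α, β, hαβ⟩ := hρ.split g
    by_contra hd
    apply hno g hg α β _ hαβ
    intro h
    apply hd
    rw [disc2_eq_of_charpoly hαβ, h]
    ring
  have hdet : ∀ g : G, (ρ g : Matrix (Fin 2) (Fin 2) k).det ≠ 0 := fun g =>
    (Matrix.isUnits_det_units (ρ g)).ne_zero
  have hmul : ∀ g h : G, (ρ (g * h) : Matrix (Fin 2) (Fin 2) k) =
      (ρ g : Matrix (Fin 2) (Fin 2) k) * (ρ h : Matrix (Fin 2) (Fin 2) k) := by
    intro g h
    rw [map_mul, Units.val_mul]
  have hinj : ∀ (g : G) (v : Fin 2 → k), (ρ g : Matrix (Fin 2) (Fin 2) k) *ᵥ v = 0 → v = 0 := by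
    intro g v h
    have h1 : (ρ g⁻¹ : Matrix (Fin 2) (Fin 2) k) *ᵥ ((ρ g : Matrix (Fin 2) (Fin 2) k) *ᵥ v) = v := by
      rw [Matrix.mulVec_mulVec, ← hmul, inv_mul_cancel, map_one, Units.val_one, Matrix.one_mulVec]
    rw [← h1, h, Matrix.mulVec_zero]
  by_cases hsc : ∀ n ∈ N, ∃ a : k,
      (ρ n : Matrix (Fin 2) (Fin 2) k) = a • (1 : Matrix (Fin 2) (Fin 2) k)
  · -- `ρ(N)` consists of scalars
    have hex : ∃ g₀ : G, ∀ a : k,
        (ρ g₀ : Matrix (Fin 2) (Fin 2) k) ≠ a • (1 : Matrix (Fin 2) (Fin 2) k) := by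
      by_contra hall
      push Not at hall
      have hv : (![1, 0] : Fin 2 → k) ≠ 0 := by
        intro h
        have := congrFun h 0
        simp at this
      refine not_noStableLine_of_eigen ρ ⊤ hv (fun g _ => ?_) hρ.irr
      obtain ⟨a, ha⟩ := hall g
      exact ⟨a, by rw [ha, Matrix.smul_mulVec, Matrix.one_mulVec]⟩
    obtain ⟨g₀, hg₀⟩ := hex
    have hsign : ∀ h : G,
        (ρ g₀ : Matrix (Fin 2) (Fin 2) k) * (ρ h : Matrix (Fin 2) (Fin 2) k) =
          (ρ h : Matrix (Fin 2) (Fin 2) k) * (ρ g₀ : Matrix (Fin 2) (Fin 2) k) ∨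
        (ρ g₀ : Matrix (Fin 2) (Fin 2) k) * (ρ h : Matrix (Fin 2) (Fin 2) k) =
          -((ρ h : Matrix (Fin 2) (Fin 2) k) * (ρ g₀ : Matrix (Fin 2) (Fin 2) k)) := by
      intro h
      obtain ⟨lam, hlam⟩ := hsc (g₀ * h * g₀⁻¹ * h⁻¹) (hcomm g₀ h)
      have e : (ρ g₀ : Matrix (Fin 2) (Fin 2) k) * (ρ h : Matrix (Fin 2) (Fin 2) k) =
          lam • ((ρ h : Matrix (Fin 2) (Fin 2) k) * (ρ g₀ : Matrix (Fin 2) (Fin 2) k)) := by
        have hgh : g₀ * h = (g₀ * h * g₀⁻¹ * h⁻¹) * (h * g₀) := by group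
        rw [← hmul, hgh, hmul, hlam, hmul, Matrix.smul_mul, Matrix.one_mul]
      have hl : lam ^ 2 = 1 := by
        have hd := congrArg Matrix.det e
        rw [Matrix.det_mul, Matrix.det_smul, Matrix.det_mul, Fintype.card_fin] at hd
        have hne := mul_ne_zero (hdet h) (hdet g₀)
        apply mul_right_cancel₀ hne
        linear_combination -hd
      have hl' : (lam - 1) * (lam + 1) = 0 := by linear_combination hl
      rcases mul_eq_zero.1 hl' with h1 | h1
      · left
        rw [e, sub_eq_zero.1 h1, one_smul]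
      · right
        rw [e, eq_neg_of_add_eq_zero_left h1, neg_smul, one_smul]
    set Z : Subgroup G := Subgroup.comap ρ (Subgroup.centralizer {ρ g₀}) with hZ
    have hZmem : ∀ h : G, h ∈ Z ↔
        (ρ g₀ : Matrix (Fin 2) (Fin 2) k) * (ρ h : Matrix (Fin 2) (Fin 2) k) =
          (ρ h : Matrix (Fin 2) (Fin 2) k) * (ρ g₀ : Matrix (Fin 2) (Fin 2) k) := by
      intro h
      rw [hZ, Subgroup.mem_comap, Subgroup.mem_centralizer_iff]
      constructor
      · intro hh
        have := hh (ρ g₀) (Set.mem_singleton _)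
        rw [← Units.val_mul, this, Units.val_mul]
      · intro hh x hx
        rw [Set.mem_singleton_iff.1 hx]
        apply Units.ext
        rw [Units.val_mul, hh, Units.val_mul]
    obtain ⟨α, β, hαβ⟩ := hρ.split g₀
    obtain ⟨v, hv, hev⟩ := exists_eigen_of_charpoly hαβ
    have hZv : ∀ h ∈ Z, ∃ t : k, (ρ h : Matrix (Fin 2) (Fin 2) k) *ᵥ v = t • v := by
      intro h hh
      have hw : (ρ g₀ : Matrix (Fin 2) (Fin 2) k) *ᵥ ((ρ h : Matrix (Fin 2) (Fin 2) k) *ᵥ v) =
          α • ((ρ h : Matrix (Fin 2) (Fin 2) k) *ᵥ v) := by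
        rw [Matrix.mulVec_mulVec, (hZmem h).1 hh, ← Matrix.mulVec_mulVec, hev,
          Matrix.mulVec_smul]
      exact exists_smul_of_eigen hg₀ hv hev hw
    by_cases hZtop : Z = ⊤
    · exact not_noStableLine_of_eigen ρ ⊤ hv
        (fun g _ => hZv g (hZtop ▸ Subgroup.mem_top g)) hρ.irr
    · have hidx : Z.index = 2 := by
        rw [Subgroup.index_eq_two_iff_exists_notMem_and]
        obtain ⟨a, ha⟩ : ∃ a, a ∉ Z := by
          by_contra h
          push Not at h
          exact hZtop ((Subgroup.eq_top_iff' Z).2 h)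
        refine ⟨a, ha, fun b => ?_⟩
        by_cases hb : b ∈ Z
        · right
          exact hb
        · left
          have ea := (hsign a).resolve_left (fun h => ha ((hZmem a).2 h))
          have eb := (hsign b).resolve_left (fun h => hb ((hZmem b).2 h))
          rw [hZmem, hmul, ← Matrix.mul_assoc, eb, Matrix.neg_mul, Matrix.mul_assoc, ea,
            Matrix.mul_neg, neg_neg, Matrix.mul_assoc]
      exact not_noStableLine_of_eigen ρ Z hv hZv (hρ.irr₂ Z hidx)
  · -- some `ρ(n₀)`, `n₀ ∈ N`, is not scalar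
    push Not at hsc
    obtain ⟨n₀, hn₀, hns⟩ := hsc
    obtain ⟨α, β, hαβ⟩ := hρ.split n₀
    obtain ⟨v, hv, hev⟩ := exists_eigen_of_charpoly hαβ
    have hN1 : ∀ n ∈ N, ∃ t : k, (ρ n : Matrix (Fin 2) (Fin 2) k) *ᵥ v = t • v := by
      intro n hn
      have hT := two_mul_trace_mul_eq h2 (ρ n₀ : Matrix (Fin 2) (Fin 2) k)
        (ρ n : Matrix (Fin 2) (Fin 2) k) (hdet n₀) (hdet n) (hdisc n₀ hn₀) (hdisc n hn)
        (by rw [← hmul]; exact hdisc _ (N.mul_mem hn₀ hn))
        (by rw [← hmul, ← hmul]; exact hdisc _ (N.mul_mem (N.mul_mem hn₀ hn₀) hn))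
      exact exists_smul_of_trace_rel h2 hns (hdisc n₀ hn₀) hT hv hev
    have hG1 : ∀ g : G, ∃ t : k, (ρ g : Matrix (Fin 2) (Fin 2) k) *ᵥ v = t • v := by
      intro g
      have hmem : g⁻¹ * n₀ * g ∈ N := by
        have := hN.conj_mem n₀ hn₀ g⁻¹
        rwa [inv_inv] at this
      obtain ⟨c, hc⟩ := hN1 (g⁻¹ * n₀ * g) hmem
      have hw : (ρ n₀ : Matrix (Fin 2) (Fin 2) k) *ᵥ ((ρ g : Matrix (Fin 2) (Fin 2) k) *ᵥ v) =
          c • ((ρ g : Matrix (Fin 2) (Fin 2) k) *ᵥ v) := by
        have hcomm' : (ρ n₀ : Matrix (Fin 2) (Fin 2) k) * (ρ g : Matrix (Fin 2) (Fin 2) k) =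
            (ρ g : Matrix (Fin 2) (Fin 2) k) * (ρ (g⁻¹ * n₀ * g) : Matrix (Fin 2) (Fin 2) k) := by
          rw [← hmul, ← hmul]
          congr 2
          group
        rw [Matrix.mulVec_mulVec, hcomm', ← Matrix.mulVec_mulVec, hc, Matrix.mulVec_smul]
      have hw0 : (ρ g : Matrix (Fin 2) (Fin 2) k) *ᵥ v ≠ 0 := fun h => hv (hinj g v h)
      have hc' : c = α := by
        have e1 := two_mul_eq_trace_of_eigen (hdisc n₀ hn₀) hw0 hw
        have e2 := two_mul_eq_trace_of_eigen (hdisc n₀ hn₀) hv hev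
        exact mul_left_cancel₀ h2 (e1.trans e2.symm)
      rw [hc'] at hw
      exact exists_smul_of_eigen hns hv hev hw
    exact not_noStableLine_of_eigen ρ ⊤ hv (fun g _ => hG1 g) hρ.irr

end Group

end Fermat.Agent.P1.helper40
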