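import Mathlib

/-!
# P1 (S56), TW-GT: linear algebra of `2 × 2` matrices (helper91, task 700)

* `gt_sq_of_trace_zero` : Cayley-Hamilton for trace zero matrices;
* `gt_trace_det_of_charpoly` : trace and determinant from a split characteristic polynomial;
* `gt_exists_smul_of_mulVec_eq_zero` : the kernel of a nonzero `2 × 2` matrix is at most a line;
* `gt_exists_smul_of_commute` : the centraliser of a nonzero element of `sl₂` in `sl₂`;
* `gt_triple` : the triple product identity of `sl₂`.
-/

set_option autoImplicit false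

open Polynomial Matrix

noncomputable section

namespace Fermat.Agent.P1.helper91

variable {k : Type*} [Field k]

/-! ## `2 × 2` matrices -/

theorem gt_trace_eq (X : Matrix (Fin 2) (Fin 2) k) : X.trace = X 0 0 + X 1 1 :=
  Matrix.trace_fin_two X

theorem gt_entry11 {X : Matrix (Fin 2) (Fin 2) k} (hX : X.trace = 0) : X 1 1 = -X 0 0 := by
  rw [gt_trace_eq] at hX
  linear_combination hX

/-- Cayley-Hamilton for trace zero matrices. -/
theorem gt_sq_of_trace_zero {X : Matrix (Fin 2) (Fin 2) k} (hX : X.trace = 0) :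
    X * X = (-X.det) • (1 : Matrix (Fin 2) (Fin 2) k) := by
  have h11 := gt_entry11 hX
  ext i j
  fin_cases i <;> fin_cases j <;>
    simp [Matrix.mul_apply, Fin.sum_univ_two, Matrix.det_fin_two, h11] <;> ring

theorem gt_trace_det_of_charpoly {M : Matrix (Fin 2) (Fin 2) k} {α β : k}
    (h : M.charpoly = (X - C α) * (X - C β)) : M.trace = α + β ∧ M.det = α * β := by
  rw [Matrix.charpoly_fin_two] at h
  have h1 := congrArg (fun q : k[X] => q.coeff 1) h
  have h0 := congrArg (fun q : k[X] => q.coeff 0) h
  simp only [coeff_add, coeff_sub, coeff_X_pow, coeff_C_mul, coeff_C, coeff_X, mul_sub, sub_mul,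
    coeff_mul_C, coeff_mul_X] at h1 h0
  simp at h1 h0
  constructor
  · linear_combination -h1
  · rw [h0]

/-- The kernel of a nonzero `2 × 2` matrix is at most a line. -/
theorem gt_exists_smul_of_mulVec_eq_zero {N : Matrix (Fin 2) (Fin 2) k} (hN : N ≠ 0)
    {v u : Fin 2 → k} (hv : v ≠ 0) (hNv : N *ᵥ v = 0) (hNu : N *ᵥ u = 0) :
    ∃ a : k, u = a • v := by
  have e0 := congrFun hNv 0
  have e1 := congrFun hNv 1
  have f0 := congrFun hNu 0
  have f1 := congrFun hNu 1
  simp only [Matrix.mulVec, dotProduct, Fin.sum_univ_two, Pi.zero_apply] at e0 e1 f0 f1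
  -- the determinant of `(v | u)` vanishes
  have hdet : v 0 * u 1 - v 1 * u 0 = 0 := by
    by_contra hd
    apply hN
    have h00 : N 0 0 * (v 0 * u 1 - v 1 * u 0) = 0 := by linear_combination u 1 * e0 - v 1 * f0
    have h01 : N 0 1 * (v 0 * u 1 - v 1 * u 0) = 0 := by linear_combination v 0 * f0 - u 0 * e0
    have h10 : N 1 0 * (v 0 * u 1 - v 1 * u 0) = 0 := by linear_combination u 1 * e1 - v 1 * f1
    have h11 : N 1 1 * (v 0 * u 1 - v 1 * u 0) = 0 := by linear_combination v 0 * f1 - u 0 * e1
    ext i j
    fin_cases i <;> fin_cases j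
    · exact (mul_eq_zero.mp h00).resolve_right hd
    · exact (mul_eq_zero.mp h01).resolve_right hd
    · exact (mul_eq_zero.mp h10).resolve_right hd
    · exact (mul_eq_zero.mp h11).resolve_right hd
  by_cases h0 : v 0 = 0
  · have h1 : v 1 ≠ 0 := by
      intro h1
      apply hv
      ext i
      fin_cases i
      · exact h0
      · exact h1
    refine ⟨u 1 / v 1, ?_⟩
    ext i
    fin_cases i
    · simp only [Fin.zero_eta, Pi.smul_apply, smul_eq_mul]
      rw [h0, zero_mul, zero_sub] at hdet
      rw [h0, mul_zero]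
      have := mul_eq_zero.mp (neg_eq_zero.mp hdet)
      exact this.resolve_left h1
    · simp only [Fin.mk_one, Pi.smul_apply, smul_eq_mul]
      field_simp
  · refine ⟨u 0 / v 0, ?_⟩
    ext i
    fin_cases i
    · simp only [Fin.zero_eta, Pi.smul_apply, smul_eq_mul]
      field_simp
    · simp only [Fin.mk_one, Pi.smul_apply, smul_eq_mul]
      field_simp
      linear_combination hdet

/-- A singular `2 × 2` matrix has a nonzero kernel vector. -/
theorem gt_exists_mulVec_eq_zero {N : Matrix (Fin 2) (Fin 2) k} (hN : N.det = 0) :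
    ∃ v : Fin 2 → k, v ≠ 0 ∧ N *ᵥ v = 0 :=
  Matrix.exists_mulVec_eq_zero_iff.mpr hN

/-- A nonzero trace zero matrix is not scalar, and its centraliser in the trace zero matrices is
the line it spans. -/
theorem gt_exists_smul_of_commute (h2 : (2 : k) ≠ 0) {X Y : Matrix (Fin 2) (Fin 2) k}
    (hX0 : X ≠ 0) (hX : X.trace = 0) (hY : Y.trace = 0) (hXY : X * Y = Y * X) :
    ∃ a : k, Y = a • X := by
  have hX11 := gt_entry11 hX
  have hY11 := gt_entry11 hY
  have e00 := congrFun (congrFun hXY 0) 0
  have e01 := congrFun (congrFun hXY 0) 1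
  have e10 := congrFun (congrFun hXY 1) 0
  simp only [Matrix.mul_apply, Fin.sum_univ_two, hX11, hY11] at e00 e01 e10
  have c1 : X 0 1 * Y 1 0 = Y 0 1 * X 1 0 := by linear_combination e00
  have c2 : X 0 0 * Y 0 1 = Y 0 0 * X 0 1 := by
    have : (2 : k) * (X 0 0 * Y 0 1 - Y 0 0 * X 0 1) = 0 := by linear_combination e01
    have := (mul_eq_zero.mp this).resolve_left h2
    linear_combination this
  have c3 : X 0 0 * Y 1 0 = Y 0 0 * X 1 0 := by
    have : (2 : k) * (X 0 0 * Y 1 0 - Y 0 0 * X 1 0) = 0 := by linear_combination -e10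
    have := (mul_eq_zero.mp this).resolve_left h2
    linear_combination this
  by_cases ha : X 0 0 = 0
  · by_cases hb : X 0 1 = 0
    · have hc : X 1 0 ≠ 0 := by
        intro hc
        apply hX0
        ext i j
        fin_cases i <;> fin_cases j
        · exact ha
        · exact hb
        · exact hc
        · simp [hX11, ha]
      refine ⟨Y 1 0 / X 1 0, ?_⟩
      ext i j
      fin_cases i <;> fin_cases j <;>
        simp only [Fin.zero_eta, Fin.mk_one, Matrix.smul_apply, smul_eq_mul, hX11, hY11] <;>
        field_simp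
      · rw [ha] at c3 ⊢; simp at c3; rcases c3 with h | h
        · rw [h]; simp
        · exact absurd h hc
      · rw [hb] at c1 ⊢; simp at c1; rcases c1 with h | h
        · rw [h]; simp
        · exact absurd h hc
      · rw [ha] at c3 ⊢; simp at c3; rcases c3 with h | h
        · rw [h]; simp
        · exact absurd h hc
    · refine ⟨Y 0 1 / X 0 1, ?_⟩
      ext i j
      fin_cases i <;> fin_cases j <;>
        simp only [Fin.zero_eta, Fin.mk_one, Matrix.smul_apply, smul_eq_mul, hX11, hY11] <;>
        field_simp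
      · linear_combination -c2
      · linear_combination c1
      · linear_combination c2
  · refine ⟨Y 0 0 / X 0 0, ?_⟩
    ext i j
    fin_cases i <;> fin_cases j <;>
      simp only [Fin.zero_eta, Fin.mk_one, Matrix.smul_apply, smul_eq_mul, hX11, hY11] <;>
      field_simp
    · linear_combination c2
    · linear_combination c3

/-- The triple product identity in `sl₂`. -/
theorem gt_triple {X₁ X₂ Y : Matrix (Fin 2) (Fin 2) k} (h1 : X₁.trace = 0) (h2 : X₂.trace = 0)
    (hY : Y.trace = 0) :
    (X₁ * X₂ - X₂ * X₁) * Y - Y * (X₁ * X₂ - X₂ * X₁) =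
      (2 * (X₂ * Y).trace) • X₁ - (2 * (X₁ * Y).trace) • X₂ := by
  have e1 := gt_entry11 h1
  have e2 := gt_entry11 h2
  have e3 := gt_entry11 hY
  ext i j
  fin_cases i <;> fin_cases j <;>
    simp [Matrix.mul_apply, Fin.sum_univ_two, Matrix.trace_fin_two, e1, e2, e3] <;> ring

end Fermat.Agent.P1.helper91
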