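import Mathlib
import Fermat.Agent.P1.helper91_GTLin

/-!
# P1 (S56), TW-GT: no stable line in `ad⁰` (helper91, task 700)

For an abstract group `G` and `rho : G →* GL (Fin 2) k`:

* `NoEigen rho G' K` : the matrices `rho g`, `g ∈ G'`, have no common eigenvector in `K²`;
* `gt_index_le_two` : if every `rho g` commutes or anticommutes with a nonzero matrix `X`, then
  the subgroup of the `g` commuting with `X` is `⊤` or has index `2`;
* `gtA_line` (GT-A, line form): if `rho G` and `rho G'` (`G'` of index `2`) have no common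
  eigenvector over a field `K ⊇ k` containing the square roots of the elements of `k`, then there
  is no conjugation-stable line in the trace zero matrices.
-/

set_option autoImplicit false

open Polynomial Matrix

noncomputable section

namespace Fermat.Agent.P1.helper91

variable {k : Type*} [Field k] {G : Type*} [Group G]

/-- The matrices `rho g`, `g ∈ G'`, have no common eigenvector in `K²`. -/
def NoEigen (rho : G →* GL (Fin 2) k) (G' : Subgroup G) (K : Type*) [Field K] [Algebra k K] :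
    Prop :=
  ∀ v : Fin 2 → K, v ≠ 0 → ∃ g ∈ G', ∀ a : K,
    ((rho g : Matrix (Fin 2) (Fin 2) k).map (algebraMap k K)) *ᵥ v ≠ a • v

theorem NoEigen.mono {rho : G →* GL (Fin 2) k} {G' G'' : Subgroup G} {K : Type*} [Field K]
    [Algebra k K] (h : G' ≤ G'') (hG' : NoEigen rho G' K) : NoEigen rho G'' K := fun v hv => by
  obtain ⟨g, hg, hga⟩ := hG' v hv
  exact ⟨g, h hg, hga⟩

/-- A common eigenvector contradicts `NoEigen`. -/
theorem NoEigen.false_of {rho : G →* GL (Fin 2) k} {G' : Subgroup G} {K : Type*} [Field K]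
    [Algebra k K] (hG' : NoEigen rho G' K) {v : Fin 2 → K} (hv : v ≠ 0)
    (h : ∀ g ∈ G', ∃ a : K,
      ((rho g : Matrix (Fin 2) (Fin 2) k).map (algebraMap k K)) *ᵥ v = a • v) : False := by
  obtain ⟨g, hg, hga⟩ := hG' v hv
  obtain ⟨a, ha⟩ := h g hg
  exact hga a ha

theorem gt_map_id (M : Matrix (Fin 2) (Fin 2) k) : M.map (algebraMap k k) = M := by
  ext i j
  rfl

/-! ## Invertible matrices -/

theorem gt_coe_mul_inv (g : GL (Fin 2) k) :
    (g : Matrix (Fin 2) (Fin 2) k) * ((g⁻¹ : GL (Fin 2) k) : Matrix (Fin 2) (Fin 2) k) = 1 := by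
  rw [← Units.val_mul, mul_inv_cancel, Units.val_one]

theorem gt_coe_inv_mul (g : GL (Fin 2) k) :
    ((g⁻¹ : GL (Fin 2) k) : Matrix (Fin 2) (Fin 2) k) * (g : Matrix (Fin 2) (Fin 2) k) = 1 := by
  rw [← Units.val_mul, inv_mul_cancel, Units.val_one]

theorem gt_det_ne_zero (g : GL (Fin 2) k) : (g : Matrix (Fin 2) (Fin 2) k).det ≠ 0 := by
  intro h
  have := congrArg Matrix.det (gt_coe_mul_inv g)
  rw [Matrix.det_mul, h, zero_mul, Matrix.det_one] at this
  exact zero_ne_one this

theorem gt_eq_zero_of_mul_coe {g : GL (Fin 2) k} {X : Matrix (Fin 2) (Fin 2) k}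
    (h : X * (g : Matrix (Fin 2) (Fin 2) k) = 0) : X = 0 := by
  have := congrArg (fun Y => Y * ((g⁻¹ : GL (Fin 2) k) : Matrix (Fin 2) (Fin 2) k)) h
  simp only [Matrix.mul_assoc, gt_coe_mul_inv, Matrix.mul_one, Matrix.zero_mul] at this
  exact this

theorem gt_eq_zero_of_coe_mul {g : GL (Fin 2) k} {X : Matrix (Fin 2) (Fin 2) k}
    (h : (g : Matrix (Fin 2) (Fin 2) k) * X = 0) : X = 0 := by
  have := congrArg (fun Y => ((g⁻¹ : GL (Fin 2) k) : Matrix (Fin 2) (Fin 2) k) * Y) h
  simp only [← Matrix.mul_assoc, gt_coe_inv_mul, Matrix.one_mul, Matrix.mul_zero] at this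
  exact this

/-! ## Eigenvectors from (semi)commutation -/

/-- If `M N = ψ N M` with `ψ ≠ 0` and `N ≠ 0` kills `v ≠ 0`, then `v` is an eigenvector
of `M`. -/
theorem gt_eigen_of_semicomm {K : Type*} [Field K] {N M : Matrix (Fin 2) (Fin 2) K} (hN : N ≠ 0)
    {v : Fin 2 → K} (hv : v ≠ 0) (hNv : N *ᵥ v = 0) {ψ : K} (hψ : ψ ≠ 0)
    (h : M * N = ψ • (N * M)) : ∃ a : K, M *ᵥ v = a • v := by
  apply gt_exists_smul_of_mulVec_eq_zero hN hv hNv
  have h1 : (ψ • (N * M)) *ᵥ v = 0 := by
    rw [← h, ← Matrix.mulVec_mulVec, hNv, Matrix.mulVec_zero]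
  rw [Matrix.smul_mulVec, ← Matrix.mulVec_mulVec] at h1
  rcases smul_eq_zero.mp h1 with h0 | h0
  · exact absurd h0 hψ
  · exact h0

/-! ## Commuting or anticommuting with a matrix -/

/-- If every `rho g` commutes or anticommutes with `X ≠ 0`, the `g` which commute with `X` form
a subgroup which is everything or of index `2`. -/
theorem gt_index_le_two (h2 : (2 : k) ≠ 0) (rho : G →* GL (Fin 2) k)
    (X : Matrix (Fin 2) (Fin 2) k) (hX0 : X ≠ 0)
    (hpm : ∀ g : G, (rho g : Matrix (Fin 2) (Fin 2) k) * X = X * (rho g : Matrix (Fin 2) (Fin 2) k)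
      ∨ (rho g : Matrix (Fin 2) (Fin 2) k) * X = -(X * (rho g : Matrix (Fin 2) (Fin 2) k))) :
    ∃ G' : Subgroup G, (G' = ⊤ ∨ G'.index = 2) ∧
      ∀ g ∈ G', (rho g : Matrix (Fin 2) (Fin 2) k) * X = X * (rho g : Matrix (Fin 2) (Fin 2) k) := by
  classical
  let G' : Subgroup G :=
    { carrier := {g | (rho g : Matrix (Fin 2) (Fin 2) k) * X =
        X * (rho g : Matrix (Fin 2) (Fin 2) k)}
      one_mem' := by simp
      mul_mem' := by
        intro a b ha hb
        change _ = _ at ha hb ⊢
        rw [map_mul, Units.val_mul, Matrix.mul_assoc, hb, ← Matrix.mul_assoc, ha,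
          Matrix.mul_assoc]
      inv_mem' := by
        intro a ha
        change _ = _ at ha ⊢
        rw [map_inv]
        have h1 : ((rho a)⁻¹ : GL (Fin 2) k).1 * ((rho a : Matrix (Fin 2) (Fin 2) k) * X) *
            ((rho a)⁻¹ : GL (Fin 2) k).1 = ((rho a)⁻¹ : GL (Fin 2) k).1 *
              (X * (rho a : Matrix (Fin 2) (Fin 2) k)) * ((rho a)⁻¹ : GL (Fin 2) k).1 := by
          rw [ha]
        rw [← Matrix.mul_assoc, gt_coe_inv_mul, Matrix.one_mul, Matrix.mul_assoc,
          Matrix.mul_assoc, gt_coe_mul_inv, Matrix.mul_one] at h1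
        exact h1.symm }
  have hmem : ∀ g, g ∈ G' ↔ (rho g : Matrix (Fin 2) (Fin 2) k) * X =
      X * (rho g : Matrix (Fin 2) (Fin 2) k) := fun g => Iff.rfl
  -- an element which commutes and anticommutes
  have hboth : ∀ g : G, (rho g : Matrix (Fin 2) (Fin 2) k) * X =
      X * (rho g : Matrix (Fin 2) (Fin 2) k) →
      (rho g : Matrix (Fin 2) (Fin 2) k) * X = -(X * (rho g : Matrix (Fin 2) (Fin 2) k)) →
      False := by
    intro g hc ha
    rw [hc] at ha
    have h3 : (2 : k) • (X * (rho g : Matrix (Fin 2) (Fin 2) k)) = 0 := by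
      rw [two_smul]
      nth_rewrite 1 [ha]
      exact neg_add_cancel _
    rcases smul_eq_zero.mp h3 with h | h
    · exact h2 h
    · exact hX0 (gt_eq_zero_of_mul_coe h)
  refine ⟨G', ?_, fun g hg => hg⟩
  by_cases htop : G' = ⊤
  · exact Or.inl htop
  right
  obtain ⟨a, ha⟩ : ∃ a, a ∉ G' := by
    by_contra hcon
    apply htop
    rw [eq_top_iff]
    intro g _
    by_contra hg
    exact hcon ⟨g, hg⟩
  have ha' : (rho a : Matrix (Fin 2) (Fin 2) k) * X =
      -(X * (rho a : Matrix (Fin 2) (Fin 2) k)) := (hpm a).resolve_left ha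
  rw [Subgroup.index_eq_two_iff]
  refine ⟨a, fun b => ?_⟩
  by_cases hb : b ∈ G'
  · refine Or.inr ⟨hb, fun hba => ?_⟩
    have hb' := (hmem b).mp hb
    apply hboth (b * a) hba
    rw [map_mul, Units.val_mul, Matrix.mul_assoc, ha', Matrix.mul_neg, ← Matrix.mul_assoc, hb',
      Matrix.mul_assoc]
  · refine Or.inl ⟨?_, hb⟩
    have hb' := (hpm b).resolve_left hb
    rw [hmem, map_mul, Units.val_mul, Matrix.mul_assoc, ha', Matrix.mul_neg, ← Matrix.mul_assoc,
      hb', Matrix.neg_mul, neg_neg, Matrix.mul_assoc]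

/-! ## GT-A, line form -/

/-- **GT-A (line form).**  No conjugation-stable line in the trace zero matrices. -/
theorem gtA_line (h2 : (2 : k) ≠ 0) (rho : G →* GL (Fin 2) k) (K : Type*) [Field K]
    [Algebra k K] (hK : ∀ d : k, ∃ δ : K, δ ^ 2 = algebraMap k K d)
    (h1 : NoEigen rho ⊤ K) (hidx : ∀ G' : Subgroup G, G'.index = 2 → NoEigen rho G' K)
    (X : Matrix (Fin 2) (Fin 2) k) (hX : X.trace = 0)
    (hstab : ∀ g : G, ∃ ψ : k, (rho g : Matrix (Fin 2) (Fin 2) k) * X =
      ψ • (X * (rho g : Matrix (Fin 2) (Fin 2) k))) : X = 0 := by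
  by_contra hX0
  have hinj : Function.Injective (algebraMap k K) := (algebraMap k K).injective
  have hXK0 : X.map (algebraMap k K) ≠ 0 := by
    intro h
    apply hX0
    ext i j
    have := congrFun (congrFun h i) j
    simp only [Matrix.map_apply, Matrix.zero_apply] at this
    exact (map_eq_zero (algebraMap k K)).mp this
  have hX11 := gt_entry11 hX
  -- the relation over `K`
  have hstabK : ∀ g : G, ∀ ψ : k, (rho g : Matrix (Fin 2) (Fin 2) k) * X =
      ψ • (X * (rho g : Matrix (Fin 2) (Fin 2) k)) →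
      (rho g : Matrix (Fin 2) (Fin 2) k).map (algebraMap k K) * X.map (algebraMap k K) =
        algebraMap k K ψ • (X.map (algebraMap k K) *
          (rho g : Matrix (Fin 2) (Fin 2) k).map (algebraMap k K)) := by
    intro g ψ h
    rw [← Matrix.map_mul, ← Matrix.map_mul, h]
    ext i j
    simp only [Matrix.map_apply, Matrix.smul_apply, smul_eq_mul, map_mul]
  have hψ0 : ∀ g : G, ∀ ψ : k, (rho g : Matrix (Fin 2) (Fin 2) k) * X =
      ψ • (X * (rho g : Matrix (Fin 2) (Fin 2) k)) → ψ ≠ 0 := by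
    intro g ψ h hψ
    rw [hψ, zero_smul] at h
    exact hX0 (gt_eq_zero_of_coe_mul h)
  by_cases hdet : X.det = 0
  · -- nilpotent case
    have hdetK : (X.map (algebraMap k K)).det = 0 := by
      rw [Matrix.det_fin_two] at hdet ⊢
      simp only [Matrix.map_apply]
      rw [← map_mul, ← map_mul, ← map_sub, hdet, map_zero]
    obtain ⟨v, hv, hXv⟩ := gt_exists_mulVec_eq_zero hdetK
    refine h1.false_of hv (fun g _ => ?_)
    obtain ⟨ψ, hψ⟩ := hstab g
    exact gt_eigen_of_semicomm hXK0 hv hXv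
      ((map_ne_zero (algebraMap k K)).mpr (hψ0 g ψ hψ)) (hstabK g ψ hψ)
  · -- semisimple case
    have hpm : ∀ g : G, (rho g : Matrix (Fin 2) (Fin 2) k) * X =
        X * (rho g : Matrix (Fin 2) (Fin 2) k) ∨
        (rho g : Matrix (Fin 2) (Fin 2) k) * X = -(X * (rho g : Matrix (Fin 2) (Fin 2) k)) := by
      intro g
      obtain ⟨ψ, hψ⟩ := hstab g
      have hd := congrArg Matrix.det hψ
      rw [Matrix.det_mul, Matrix.det_smul, Matrix.det_mul, Fintype.card_fin] at hd
      have hg0 := gt_det_ne_zero (rho g)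
      have h3 : (ψ ^ 2 - 1) * ((rho g : Matrix (Fin 2) (Fin 2) k).det * X.det) = 0 := by
        linear_combination -hd
      have h4 : ψ ^ 2 - 1 = 0 := (mul_eq_zero.mp h3).resolve_right (mul_ne_zero hg0 hdet)
      have h5 : (ψ - 1) * (ψ + 1) = 0 := by linear_combination h4
      rcases mul_eq_zero.mp h5 with h | h
      · left
        rw [hψ, sub_eq_zero.mp h, one_smul]
      · right
        rw [hψ, eq_neg_of_add_eq_zero_left h, neg_smul, one_smul]
    obtain ⟨G', hG', hcomm⟩ := gt_index_le_two h2 rho X hX0 hpm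
    have hno : NoEigen rho G' K := by
      rcases hG' with h | h
      · rw [h]; exact h1
      · exact hidx G' h
    obtain ⟨δ, hδ⟩ := hK (-X.det)
    have hδ0 : δ ≠ 0 := by
      intro h
      rw [h] at hδ
      have h3 : algebraMap k K (-X.det) = 0 := by rw [← hδ]; ring
      have := (map_eq_zero (algebraMap k K)).mp h3
      exact hdet (neg_eq_zero.mp this)
    have h2K : (2 : K) ≠ 0 := by
      have : algebraMap k K 2 ≠ 0 := (map_ne_zero (algebraMap k K)).mpr h2
      rw [map_ofNat] at this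
      exact this
    let N : Matrix (Fin 2) (Fin 2) K := X.map (algebraMap k K) - δ • (1 : Matrix (Fin 2) (Fin 2) K)
    have hN0 : N ≠ 0 := by
      intro h
      have h00 := congrFun (congrFun h 0) 0
      have h11 := congrFun (congrFun h 1) 1
      simp only [N, Matrix.sub_apply, Matrix.map_apply, Matrix.smul_apply, Matrix.one_apply_eq,
        smul_eq_mul, mul_one, Matrix.zero_apply, hX11, map_neg] at h00 h11
      have h3 : (2 : K) * δ = 0 := by linear_combination -h00 - h11
      rcases mul_eq_zero.mp h3 with h | h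
      · exact h2K h
      · exact hδ0 h
    have hNdet : N.det = 0 := by
      have hd : algebraMap k K (-X.det) = -(algebraMap k K (X 0 0) * algebraMap k K (X 1 1)
          - algebraMap k K (X 0 1) * algebraMap k K (X 1 0)) := by
        rw [Matrix.det_fin_two]
        simp only [map_neg, map_sub, map_mul]
      rw [Matrix.det_fin_two]
      simp only [N, Matrix.sub_apply, Matrix.map_apply, Matrix.smul_apply, Matrix.one_apply_eq,
        smul_eq_mul, mul_one, Matrix.one_apply_ne (show (0 : Fin 2) ≠ 1 by decide),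
        Matrix.one_apply_ne (show (1 : Fin 2) ≠ 0 by decide), mul_zero, sub_zero]
      rw [hX11] at hd ⊢
      rw [hd] at hδ
      simp only [map_neg] at hδ ⊢
      linear_combination hδ
    obtain ⟨v, hv, hNv⟩ := gt_exists_mulVec_eq_zero hNdet
    refine hno.false_of hv (fun g hg => ?_)
    have hc := hcomm g hg
    refine gt_eigen_of_semicomm (ψ := 1) hN0 hv hNv one_ne_zero ?_
    rw [one_smul]
    simp only [N, Matrix.mul_sub, Matrix.sub_mul, Matrix.mul_smul, Matrix.smul_mul, Matrix.mul_one,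
      Matrix.one_mul]
    rw [← Matrix.map_mul, ← Matrix.map_mul, hc]

end Fermat.Agent.P1.helper91
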