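import Fermat.Agent.P1.helper40_GTRed
import Fermat.Agent.P1.helper91_GTALine

/-!
# P1 / TW-GT: `GtAFixedStatement`, `GtRedStatement` and `GtCStatement` unconditionally (helper40)

From `helper91.gtA_line` (no conjugation-stable line in the trace-zero matrices) and the abstract
reductions of `helper40_GTRed`.
-/

set_option autoImplicit false

open Matrix Polynomial

namespace Fermat.Agent.P1.helper40

open Fermat.Agent.P1.helper2 Fermat.Agent.P1.helper3

/-- **GT-A'**: the twisted action has no nonzero fixed vector in the trace-zero matrices. -/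
theorem gtAFixed : GtAFixedStatement := by
  intro k _ G _ h2 ρ hirr hirr₂ X hX hfix
  refine helper91.gtA_line h2 ρ (AlgebraicClosure k) ?_ hirr hirr₂ X hX ?_
  · intro d
    obtain ⟨δ, hδ⟩ := IsAlgClosed.exists_pow_nat_eq (algebraMap k (AlgebraicClosure k) d)
      (n := 2) (by norm_num)
    exact ⟨δ, hδ⟩
  · intro g
    refine ⟨(((Matrix.GeneralLinearGroup.det (ρ g))⁻¹ : kˣ) : k), ?_⟩
    have h1 : ((ρ g)⁻¹ : GL (Fin 2) k).val * (ρ g : Matrix (Fin 2) (Fin 2) k) = 1 := by
      rw [← Units.val_mul, inv_mul_cancel, Units.val_one]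
    have h3 := conj_eq_smul_tw (ρ g) X
    rw [hfix g] at h3
    calc (ρ g : Matrix (Fin 2) (Fin 2) k) * X
        = (ρ g : Matrix (Fin 2) (Fin 2) k) * X *
            (((ρ g)⁻¹ : GL (Fin 2) k).val * (ρ g : Matrix (Fin 2) (Fin 2) k)) := by
          rw [h1, Matrix.mul_one]
      _ = ((ρ g : Matrix (Fin 2) (Fin 2) k) * X * ((ρ g)⁻¹ : GL (Fin 2) k).val) *
            (ρ g : Matrix (Fin 2) (Fin 2) k) := by
          rw [Matrix.mul_assoc ((ρ g : Matrix (Fin 2) (Fin 2) k) * X)]
      _ = _ := by rw [h3, Matrix.smul_mul]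

/-- **GT-RED**. -/
theorem gtRed : GtRedStatement := gtRed_of_gtAFixed gtAFixed

/-- **GT-C** (abstract form): `H¹(G / H, ad⁰ ρ̄ (1)) = 0`. -/
theorem gtC_holds : GtCStatement := gtC_of_gtAFixed gtAFixed

end Fermat.Agent.P1.helper40
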