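import Mathlib
import Fermat.Agent.P1.helper91_GTALine

/-!
# P1 (S56), TW-GT: GT-B (helper91, task 700)

`gtB` : let `rho : G →* GL (Fin 2) k`, `char k ≠ 2`, all characteristic polynomials split, and
assume that neither `rho G` nor `rho G'` (`G'` of index `2`) has a common eigenvector in `k²`.
Then every normal subgroup `N` of `G` which contains all commutators contains an element `g`
such that `rho g` has two distinct eigenvalues.
-/

set_option autoImplicit false

open Polynomial Matrix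

noncomputable section

namespace Fermat.Agent.P1.helper91

variable {k : Type*} [Field k] {G : Type*} [Group G]

/-! ## Traces of products -/

theorem gt_anticomm {E F : Matrix (Fin 2) (Fin 2) k} (hE : E.trace = 0) (hF : F.trace = 0) :
    E * F + F * E = (E * F).trace • (1 : Matrix (Fin 2) (Fin 2) k) := by
  have e1 := gt_entry11 hE
  have e2 := gt_entry11 hF
  ext i j
  fin_cases i <;> fin_cases j <;>
    simp [Matrix.mul_apply, Fin.sum_univ_two, Matrix.trace_fin_two, e1, e2] <;> ring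

theorem gt_trace_mul (α₀ α : k) {E F : Matrix (Fin 2) (Fin 2) k} (hE : E.trace = 0)
    (hF : F.trace = 0) :
    ((α₀ • (1 : Matrix (Fin 2) (Fin 2) k) + E) * (α • (1 : Matrix (Fin 2) (Fin 2) k) + F)).trace =
      2 * α₀ * α + (E * F).trace := by
  have e1 := gt_entry11 hE
  have e2 := gt_entry11 hF
  simp [Matrix.mul_apply, Fin.sum_univ_two, Matrix.trace_fin_two, e1, e2]
  ring

theorem gt_sq_add (α₀ : k) {E : Matrix (Fin 2) (Fin 2) k} (hE2 : E * E = 0) :
    (α₀ • (1 : Matrix (Fin 2) (Fin 2) k) + E) * (α₀ • (1 : Matrix (Fin 2) (Fin 2) k) + E) =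
      (α₀ ^ 2) • (1 : Matrix (Fin 2) (Fin 2) k) + (2 * α₀) • E := by
  rw [add_mul, mul_add, mul_add, hE2, add_zero, Matrix.smul_mul, Matrix.smul_mul, Matrix.one_mul,
    Matrix.one_mul, Matrix.mul_smul, Matrix.mul_one, smul_smul, add_assoc, ← add_smul,
    ← two_mul, pow_two]

/-- Data of a matrix with a double eigenvalue. -/
theorem gt_double {M : Matrix (Fin 2) (Fin 2) k} {α : k} (htr : M.trace = 2 * α)
    (hdet : M.det = α ^ 2) :
    (M - α • (1 : Matrix (Fin 2) (Fin 2) k)).trace = 0 ∧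
      (M - α • (1 : Matrix (Fin 2) (Fin 2) k)).det = 0 := by
  rw [Matrix.trace_fin_two] at htr
  rw [Matrix.det_fin_two] at hdet
  constructor
  · rw [Matrix.trace_fin_two]
    simp only [Matrix.sub_apply, Matrix.smul_apply, Matrix.one_apply_eq, smul_eq_mul, mul_one]
    linear_combination htr
  · rw [Matrix.det_fin_two]
    simp only [Matrix.sub_apply, Matrix.smul_apply, Matrix.one_apply_eq, smul_eq_mul, mul_one,
      Matrix.one_apply_ne (show (0 : Fin 2) ≠ 1 by decide),
      Matrix.one_apply_ne (show (1 : Fin 2) ≠ 0 by decide), mul_zero, sub_zero]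
    linear_combination hdet - α * htr

/-- An eigenvalue `α` of `M` gives a singular matrix `M - α`. -/
theorem gt_det_sub_of_charpoly {M : Matrix (Fin 2) (Fin 2) k} {α β : k}
    (h : M.charpoly = (X - C α) * (X - C β)) :
    (M - α • (1 : Matrix (Fin 2) (Fin 2) k)).det = 0 := by
  obtain ⟨htr, hdet⟩ := gt_trace_det_of_charpoly h
  rw [Matrix.trace_fin_two] at htr
  rw [Matrix.det_fin_two] at hdet
  rw [Matrix.det_fin_two]
  simp only [Matrix.sub_apply, Matrix.smul_apply, Matrix.one_apply_eq, smul_eq_mul, mul_one,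
    Matrix.one_apply_ne (show (0 : Fin 2) ≠ 1 by decide),
    Matrix.one_apply_ne (show (1 : Fin 2) ≠ 0 by decide), mul_zero, sub_zero]
  linear_combination hdet - α * htr

theorem gt_e0_ne_zero : (![1, 0] : Fin 2 → k) ≠ 0 := by
  intro h
  have := congrFun h 0
  simp at this

/-! ## GT-B -/

/-- **GT-B.**  A normal subgroup containing all commutators contains an element with two
distinct eigenvalues. -/
theorem gtB (h2 : (2 : k) ≠ 0) (rho : G →* GL (Fin 2) k)
    (hsplit : ∀ g : G, ∃ α β : k,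
      (rho g : Matrix (Fin 2) (Fin 2) k).charpoly = (X - C α) * (X - C β))
    (h1 : NoEigen rho ⊤ k) (hidx : ∀ G' : Subgroup G, G'.index = 2 → NoEigen rho G' k)
    (N : Subgroup G) (hNn : N.Normal) (hN : ∀ g h : G, g * h * g⁻¹ * h⁻¹ ∈ N) :
    ∃ g ∈ N, ∃ α β : k, α ≠ β ∧
      (rho g : Matrix (Fin 2) (Fin 2) k).charpoly = (X - C α) * (X - C β) := by
  by_contra hcon
  -- every element of `N` has a double eigenvalue
  have hdbl : ∀ g ∈ N, ∃ α : k, α ≠ 0 ∧ (rho g : Matrix (Fin 2) (Fin 2) k).trace = 2 * α ∧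
      (rho g : Matrix (Fin 2) (Fin 2) k).det = α ^ 2 := by
    intro g hg
    obtain ⟨α, β, h⟩ := hsplit g
    have hαβ : α = β := by
      by_contra hne
      exact hcon ⟨g, hg, α, β, hne, h⟩
    obtain ⟨htr, hdet⟩ := gt_trace_det_of_charpoly h
    rw [← hαβ] at htr hdet
    refine ⟨α, ?_, by rw [htr]; ring, by rw [hdet]; ring⟩
    intro h0
    rw [h0, mul_zero] at hdet
    exact gt_det_ne_zero (rho g) hdet
  by_cases hsc : ∀ n ∈ N, ∃ a : k, (rho n : Matrix (Fin 2) (Fin 2) k) =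
      a • (1 : Matrix (Fin 2) (Fin 2) k)
  · -- Case 1: `rho N` consists of scalar matrices
    by_cases hG : ∀ g : G, ∃ a : k, (rho g : Matrix (Fin 2) (Fin 2) k) =
        a • (1 : Matrix (Fin 2) (Fin 2) k)
    · refine h1.false_of gt_e0_ne_zero (fun g _ => ?_)
      obtain ⟨a, ha⟩ := hG g
      refine ⟨a, ?_⟩
      rw [gt_map_id, ha, Matrix.smul_mulVec, Matrix.one_mulVec]
    · obtain ⟨g₀, hg₀⟩ : ∃ g₀ : G, ¬ ∃ a : k, (rho g₀ : Matrix (Fin 2) (Fin 2) k) =
          a • (1 : Matrix (Fin 2) (Fin 2) k) := by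
        by_contra h
        apply hG
        intro g
        by_contra hg
        exact h ⟨g, hg⟩
      have hM0 : (rho g₀ : Matrix (Fin 2) (Fin 2) k) ≠ 0 := by
        intro h
        exact hg₀ ⟨0, by rw [h, zero_smul]⟩
      have hpm : ∀ h : G, (rho h : Matrix (Fin 2) (Fin 2) k) * (rho g₀ : Matrix (Fin 2) (Fin 2) k)
          = (rho g₀ : Matrix (Fin 2) (Fin 2) k) * (rho h : Matrix (Fin 2) (Fin 2) k) ∨
          (rho h : Matrix (Fin 2) (Fin 2) k) * (rho g₀ : Matrix (Fin 2) (Fin 2) k)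
          = -((rho g₀ : Matrix (Fin 2) (Fin 2) k) * (rho h : Matrix (Fin 2) (Fin 2) k)) := by
        intro h
        obtain ⟨l, hl⟩ := hsc _ (hN g₀ h)
        have e1 : (rho g₀ : Matrix (Fin 2) (Fin 2) k) * (rho h : Matrix (Fin 2) (Fin 2) k) =
            l • ((rho h : Matrix (Fin 2) (Fin 2) k) * (rho g₀ : Matrix (Fin 2) (Fin 2) k)) := by
          have e2 : g₀ * h = (g₀ * h * g₀⁻¹ * h⁻¹) * (h * g₀) := by group
          have e3 : (rho (g₀ * h) : Matrix (Fin 2) (Fin 2) k) =
              (rho (g₀ * h * g₀⁻¹ * h⁻¹ * (h * g₀)) : Matrix (Fin 2) (Fin 2) k) := by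
            rw [← e2]
          rw [map_mul, Units.val_mul] at e3
          rw [e3, map_mul (f := rho) (g₀ * h * g₀⁻¹ * h⁻¹), Units.val_mul, hl, Matrix.smul_mul,
            Matrix.one_mul, map_mul, Units.val_mul]
        have hd := congrArg Matrix.det e1
        rw [Matrix.det_mul, Matrix.det_smul, Matrix.det_mul, Fintype.card_fin] at hd
        have h3 : (l ^ 2 - 1) * ((rho h : Matrix (Fin 2) (Fin 2) k).det *
            (rho g₀ : Matrix (Fin 2) (Fin 2) k).det) = 0 := by
          linear_combination -hd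
        have h4 : l ^ 2 - 1 = 0 := (mul_eq_zero.mp h3).resolve_right
          (mul_ne_zero (gt_det_ne_zero _) (gt_det_ne_zero _))
        have h5 : (l - 1) * (l + 1) = 0 := by linear_combination h4
        rcases mul_eq_zero.mp h5 with h | h
        · left
          rw [e1, sub_eq_zero.mp h, one_smul]
        · right
          rw [e1, eq_neg_of_add_eq_zero_left h, neg_smul, one_smul, neg_neg]
      obtain ⟨G', hG', hcomm⟩ := gt_index_le_two h2 rho _ hM0 hpm
      have hno : NoEigen rho G' k := by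
        rcases hG' with h | h
        · rw [h]; exact h1
        · exact hidx G' h
      obtain ⟨α, β, hch⟩ := hsplit g₀
      have hNdet := gt_det_sub_of_charpoly hch
      have hN0 : (rho g₀ : Matrix (Fin 2) (Fin 2) k) - α • (1 : Matrix (Fin 2) (Fin 2) k) ≠ 0 := by
        intro h
        exact hg₀ ⟨α, sub_eq_zero.mp h⟩
      obtain ⟨v, hv, hNv⟩ := gt_exists_mulVec_eq_zero hNdet
      refine hno.false_of hv (fun g hg => ?_)
      rw [gt_map_id]
      refine gt_eigen_of_semicomm (ψ := 1) hN0 hv hNv one_ne_zero ?_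
      rw [one_smul, Matrix.mul_sub, Matrix.sub_mul, hcomm g hg, Matrix.mul_smul, Matrix.smul_mul,
        Matrix.mul_one, Matrix.one_mul]
  · -- Case 2: some `rho n₀`, `n₀ ∈ N`, is not scalar
    obtain ⟨n₀, hn₀, hns⟩ : ∃ n₀ ∈ N, ¬ ∃ a : k, (rho n₀ : Matrix (Fin 2) (Fin 2) k) =
        a • (1 : Matrix (Fin 2) (Fin 2) k) := by
      by_contra h
      apply hsc
      intro n hn
      by_contra hn'
      exact h ⟨n, hn, hn'⟩
    obtain ⟨α₀, hα₀, htr₀, hdet₀⟩ := hdbl n₀ hn₀
    set E : Matrix (Fin 2) (Fin 2) k :=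
      (rho n₀ : Matrix (Fin 2) (Fin 2) k) - α₀ • (1 : Matrix (Fin 2) (Fin 2) k) with hEdef
    obtain ⟨hEtr, hEdet⟩ := gt_double htr₀ hdet₀
    have hE0 : E ≠ 0 := fun h => hns ⟨α₀, sub_eq_zero.mp h⟩
    have hE2 : E * E = 0 := by
      rw [gt_sq_of_trace_zero hEtr, hEdet, neg_zero, zero_smul]
    have hM₀ : (rho n₀ : Matrix (Fin 2) (Fin 2) k) = α₀ • (1 : Matrix (Fin 2) (Fin 2) k) + E := by
      rw [hEdef]; abel
    obtain ⟨v, hv, hEv⟩ := gt_exists_mulVec_eq_zero hEdet
    -- `v` is an eigenvector of `rho n`, `n ∈ N`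
    have hA : ∀ n ∈ N, ∃ a : k, (rho n : Matrix (Fin 2) (Fin 2) k) *ᵥ v = a • v := by
      intro n hn
      obtain ⟨α, hα, htr, hdet⟩ := hdbl n hn
      set F : Matrix (Fin 2) (Fin 2) k :=
        (rho n : Matrix (Fin 2) (Fin 2) k) - α • (1 : Matrix (Fin 2) (Fin 2) k) with hFdef
      obtain ⟨hFtr, hFdet⟩ := gt_double htr hdet
      have hM : (rho n : Matrix (Fin 2) (Fin 2) k) = α • (1 : Matrix (Fin 2) (Fin 2) k) + F := by
        rw [hFdef]; abel
      -- the products `n₀ n` and `n₀² n`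
      obtain ⟨γ₁, -, htr₁, hdet₁⟩ := hdbl (n₀ * n) (N.mul_mem hn₀ hn)
      obtain ⟨γ₂, -, htr₂, hdet₂⟩ := hdbl (n₀ * n₀ * n) (N.mul_mem (N.mul_mem hn₀ hn₀) hn)
      rw [map_mul, Units.val_mul] at htr₁ hdet₁
      rw [map_mul, map_mul, Units.val_mul, Units.val_mul] at htr₂ hdet₂
      rw [Matrix.det_mul, hdet₀, hdet] at hdet₁
      rw [Matrix.det_mul, Matrix.det_mul, hdet₀, hdet] at hdet₂
      rw [hM₀, hM, gt_trace_mul α₀ α hEtr hFtr] at htr₁
      have hEtr' : ((2 * α₀) • E).trace = 0 := by rw [Matrix.trace_smul, hEtr, smul_zero]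
      rw [hM₀, hM, gt_sq_add α₀ hE2, gt_trace_mul (α₀ ^ 2) α hEtr' hFtr, Matrix.smul_mul,
        Matrix.trace_smul, smul_eq_mul] at htr₂
      have hd1 : (2 * α₀ * α + (E * F).trace) ^ 2 = 4 * α₀ ^ 2 * α ^ 2 := by
        rw [htr₁]; linear_combination -4 * hdet₁
      have hd2 : (2 * α₀ ^ 2 * α + 2 * α₀ * (E * F).trace) ^ 2 = 4 * (α₀ ^ 2) ^ 2 * α ^ 2 := by
        rw [htr₂]; linear_combination -4 * hdet₂
      have h3 : (2 * 2 * 2 * α₀ ^ 3 * α) * (E * F).trace = 0 := by
        linear_combination 4 * α₀ ^ 2 * hd1 - hd2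
      have ht : (E * F).trace = 0 := by
        refine (mul_eq_zero.mp h3).resolve_left ?_
        exact mul_ne_zero (mul_ne_zero (mul_ne_zero (mul_ne_zero h2 h2) h2)
          (pow_ne_zero _ hα₀)) hα
      have hanti := gt_anticomm hEtr hFtr
      rw [ht, zero_smul] at hanti
      have hEFv : E *ᵥ (F *ᵥ v) = 0 := by
        have h4 : (E * F + F * E) *ᵥ v = 0 := by rw [hanti, Matrix.zero_mulVec]
        rw [Matrix.add_mulVec, ← Matrix.mulVec_mulVec, ← Matrix.mulVec_mulVec, hEv,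
          Matrix.mulVec_zero, add_zero] at h4
        exact h4
      obtain ⟨a, ha⟩ := gt_exists_smul_of_mulVec_eq_zero hE0 hv hEv hEFv
      refine ⟨α + a, ?_⟩
      rw [hM, Matrix.add_mulVec, Matrix.smul_mulVec, Matrix.one_mulVec, ha, add_smul]
    -- `v` is an eigenvector of `rho g`, `g ∈ G`
    refine h1.false_of hv (fun g _ => ?_)
    rw [gt_map_id]
    obtain ⟨a, ha⟩ := hA (g⁻¹ * n₀ * g) (by
      have := hNn.conj_mem n₀ hn₀ g⁻¹
      rwa [inv_inv] at this)
    rw [map_mul, map_mul, Units.val_mul, Units.val_mul, map_inv] at ha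
    set w : Fin 2 → k := (rho g : Matrix (Fin 2) (Fin 2) k) *ᵥ v with hw
    have hM0w : (rho n₀ : Matrix (Fin 2) (Fin 2) k) *ᵥ w = a • w := by
      have h4 := congrArg (fun u => (rho g : Matrix (Fin 2) (Fin 2) k) *ᵥ u) ha
      simp only [Matrix.mulVec_mulVec, Matrix.mulVec_smul] at h4
      rw [← Matrix.mul_assoc, ← Matrix.mul_assoc, gt_coe_mul_inv, Matrix.one_mul,
        ← Matrix.mulVec_mulVec] at h4
      exact h4
    have hEw : E *ᵥ w = (a - α₀) • w := by
      rw [hEdef, Matrix.sub_mulVec, hM0w, Matrix.smul_mulVec, Matrix.one_mulVec, sub_smul]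
    have hw0 : w ≠ 0 := by
      intro h
      apply hv
      have h4 := congrArg (fun u => ((rho g)⁻¹ : GL (Fin 2) k).1 *ᵥ u) h
      simp only [hw, Matrix.mulVec_mulVec, gt_coe_inv_mul, Matrix.one_mulVec,
        Matrix.mulVec_zero] at h4
      exact h4
    have haα : a - α₀ = 0 := by
      have h4 : (E * E) *ᵥ w = ((a - α₀) * (a - α₀)) • w := by
        rw [← Matrix.mulVec_mulVec, hEw, Matrix.mulVec_smul, hEw, smul_smul]
      rw [hE2, Matrix.zero_mulVec] at h4
      rcases smul_eq_zero.mp h4.symm with h | h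
      · exact mul_self_eq_zero.mp h
      · exact absurd h hw0
    rw [haα, zero_smul] at hEw
    exact gt_exists_smul_of_mulVec_eq_zero hE0 hv hEv hEw

end Fermat.Agent.P1.helper91
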