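import Mathlib
import Fermat.Agent.P1.helper91_GTALine
import Fermat.Agent.P1.helper3_GTDefs

/-!
# P1 (S56), TW-GT: GT-SIG, the choice of `σ` (helper91, task 700)

`gtSig` : let `c` be a cocycle of `G` with values in `ad⁰(1)` (twisted action `helper3.tw`),
`H₀` a normal subgroup on which `rho` is trivial and `c` is not, and `σ₀` an element with two
distinct eigenvalues and determinant `1`.  Then some `c (h σ₀)`, `h ∈ H₀`, is not of the form
`σ₀ X - X`.  (From GT-A in the line form.)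
-/

set_option autoImplicit false

open Polynomial Matrix

noncomputable section

namespace Fermat.Agent.P1.helper91

open Fermat.Agent.P1.helper3

variable {k : Type*} [Field k] {G : Type*} [Group G]

/-! ## The twisted action -/

theorem gt_tw_eq (g : GL (Fin 2) k) (X : Matrix (Fin 2) (Fin 2) k) :
    tw g X = (g : Matrix (Fin 2) (Fin 2) k).det •
      ((g : Matrix (Fin 2) (Fin 2) k) * X * ((g⁻¹ : GL (Fin 2) k) : Matrix (Fin 2) (Fin 2) k)) := by
  rw [tw, Matrix.GeneralLinearGroup.val_det_apply]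

/-- `Tr ((g • X) Z) = det g · Tr (X (g⁻¹ Z g))`. -/
theorem gt_trace_tw_mul (g : GL (Fin 2) k) (X Z : Matrix (Fin 2) (Fin 2) k) :
    (tw g X * Z).trace = (g : Matrix (Fin 2) (Fin 2) k).det *
      (X * (((g⁻¹ : GL (Fin 2) k) : Matrix (Fin 2) (Fin 2) k) * Z *
        (g : Matrix (Fin 2) (Fin 2) k))).trace := by
  rw [gt_tw_eq, Matrix.smul_mul, Matrix.trace_smul, smul_eq_mul]
  congr 1
  rw [Matrix.mul_assoc, Matrix.mul_assoc, Matrix.trace_mul_comm, Matrix.mul_assoc,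
    Matrix.mul_assoc]

/-- The image of `σ₀ - 1` is orthogonal to the matrices commuting with `σ₀`. -/
theorem gt_trace_sub_mul {g : GL (Fin 2) k} (hdet : (g : Matrix (Fin 2) (Fin 2) k).det = 1)
    {Z : Matrix (Fin 2) (Fin 2) k}
    (hZ : (g : Matrix (Fin 2) (Fin 2) k) * Z = Z * (g : Matrix (Fin 2) (Fin 2) k))
    (X : Matrix (Fin 2) (Fin 2) k) : ((tw g X - X) * Z).trace = 0 := by
  rw [Matrix.sub_mul, Matrix.trace_sub, gt_trace_tw_mul, hdet, one_mul, Matrix.mul_assoc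
    (((g⁻¹ : GL (Fin 2) k) : Matrix (Fin 2) (Fin 2) k)), ← hZ, ← Matrix.mul_assoc
    (((g⁻¹ : GL (Fin 2) k) : Matrix (Fin 2) (Fin 2) k)), gt_coe_inv_mul, Matrix.one_mul, sub_self]

/-! ## Cocycles -/

section Cocycle

variable {rho : G →* GL (Fin 2) k} {c : G → Matrix (Fin 2) (Fin 2) k}

theorem gt_cocycle_one (hc : ∀ g h, c (g * h) = c g + tw (rho g) (c h)) : c 1 = 0 := by
  have h := hc 1 1
  rw [mul_one, map_one, tw_one] at h
  exact left_eq_add.mp h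

theorem gt_cocycle_mul_of_ker (hc : ∀ g h, c (g * h) = c g + tw (rho g) (c h)) {h : G}
    (hh : rho h = 1) (g : G) : c (h * g) = c h + c g := by
  rw [hc, hh, tw_one]

theorem gt_cocycle_conj (hc : ∀ g h, c (g * h) = c g + tw (rho g) (c h)) {h : G}
    (hh : rho h = 1) (g : G) : c (g * h * g⁻¹) = tw (rho g) (c h) := by
  have h1 : c (g * g⁻¹) = c g + tw (rho g) (c g⁻¹) := hc g g⁻¹
  rw [mul_inv_cancel, gt_cocycle_one hc] at h1
  rw [mul_assoc, hc, gt_cocycle_mul_of_ker hc hh, tw_add, ← add_assoc, add_right_comm, ← h1,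
    zero_add]

end Cocycle

/-! ## GT-SIG -/

/-- **GT-SIG.** -/
theorem gtSig (h2 : (2 : k) ≠ 0) (rho : G →* GL (Fin 2) k) (K : Type*) [Field K]
    [Algebra k K] (hK : ∀ d : k, ∃ δ : K, δ ^ 2 = algebraMap k K d)
    (h1 : NoEigen rho ⊤ K) (hidx : ∀ G' : Subgroup G, G'.index = 2 → NoEigen rho G' K)
    (c : G → Matrix (Fin 2) (Fin 2) k) (hctr : ∀ g, (c g).trace = 0)
    (hc : ∀ g h, c (g * h) = c g + tw (rho g) (c h))
    (H₀ : Subgroup G) (hH₀n : H₀.Normal) (hH₀ : ∀ h ∈ H₀, rho h = 1)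
    (hne : ∃ h ∈ H₀, c h ≠ 0) (σ₀ : G)
    (hσ₀ : ∃ α β : k, α ≠ β ∧
      (rho σ₀ : Matrix (Fin 2) (Fin 2) k).charpoly = (X - C α) * (X - C β))
    (hdetσ : (rho σ₀ : Matrix (Fin 2) (Fin 2) k).det = 1) :
    ∃ h ∈ H₀, ∀ Y : Matrix (Fin 2) (Fin 2) k, Y.trace = 0 →
      c (h * σ₀) ≠ tw (rho σ₀) Y - Y := by
  by_contra hcon0
  have hcon : ∀ h ∈ H₀, ∃ Y : Matrix (Fin 2) (Fin 2) k, c (h * σ₀) = tw (rho σ₀) Y - Y := by
    intro h hh
    by_contra h0
    exact hcon0 ⟨h, hh, fun Y _ hY => h0 ⟨Y, hY⟩⟩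
  obtain ⟨α, β, hαβ, hch⟩ := hσ₀
  obtain ⟨htr, hdet⟩ := gt_trace_det_of_charpoly hch
  -- the trace zero part of `rho σ₀`
  set M : Matrix (Fin 2) (Fin 2) k := (rho σ₀ : Matrix (Fin 2) (Fin 2) k) with hM
  set Z₀ : Matrix (Fin 2) (Fin 2) k := M - ((α + β) / 2) • (1 : Matrix (Fin 2) (Fin 2) k)
    with hZ₀
  have hZtr : Z₀.trace = 0 := by
    rw [hZ₀, Matrix.trace_sub, Matrix.trace_smul, Matrix.trace_one, htr, Fintype.card_fin,
      smul_eq_mul]
    push_cast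
    field_simp
    ring
  have hZ0 : Z₀ ≠ 0 := by
    intro h
    have hMs : M = ((α + β) / 2) • (1 : Matrix (Fin 2) (Fin 2) k) := sub_eq_zero.mp h
    have hd : M.det = ((α + β) / 2) ^ 2 := by
      rw [hMs, Matrix.det_smul, Matrix.det_one, Fintype.card_fin, mul_one]
    rw [hdet] at hd
    apply hαβ
    have h3 : (α - β) ^ 2 = 0 := by
      field_simp at hd
      linear_combination -hd
    exact sub_eq_zero.mp (pow_eq_zero_iff (two_ne_zero) |>.mp h3)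
  have hZM : M * Z₀ = Z₀ * M := by
    rw [hZ₀, Matrix.mul_sub, Matrix.sub_mul, Matrix.mul_smul, Matrix.smul_mul, Matrix.mul_one,
      Matrix.one_mul]
  -- orthogonality
  have hc1 := gt_cocycle_one hc
  have hW : ∀ h ∈ H₀, (c h * Z₀).trace = 0 := by
    intro h hh
    obtain ⟨Y, hY⟩ := hcon h hh
    obtain ⟨Y₁, hY₁⟩ := hcon 1 H₀.one_mem
    rw [one_mul] at hY₁
    have e1 : c h = (tw (rho σ₀) Y - Y) - (tw (rho σ₀) Y₁ - Y₁) := by
      rw [← hY, ← hY₁, gt_cocycle_mul_of_ker hc (hH₀ h hh), add_sub_cancel_right]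
    rw [e1, Matrix.sub_mul, Matrix.trace_sub, gt_trace_sub_mul hdetσ hZM,
      gt_trace_sub_mul hdetσ hZM, sub_zero]
  have hW' : ∀ g : G, ∀ h ∈ H₀, (c h * ((rho g : Matrix (Fin 2) (Fin 2) k) * Z₀ *
      (((rho g)⁻¹ : GL (Fin 2) k) : Matrix (Fin 2) (Fin 2) k))).trace = 0 := by
    intro g h hh
    have hmem : g⁻¹ * h * g⁻¹⁻¹ ∈ H₀ := hH₀n.conj_mem h hh g⁻¹
    have h3 := hW _ hmem
    rw [gt_cocycle_conj hc (hH₀ h hh), gt_trace_tw_mul, map_inv, inv_inv] at h3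
    exact (mul_eq_zero.mp h3).resolve_left (gt_det_ne_zero _)
  have hconjtr : ∀ g : G, ((rho g : Matrix (Fin 2) (Fin 2) k) * Z₀ *
      (((rho g)⁻¹ : GL (Fin 2) k) : Matrix (Fin 2) (Fin 2) k)).trace = 0 := by
    intro g
    rw [Matrix.trace_mul_comm, ← Matrix.mul_assoc, gt_coe_inv_mul, Matrix.one_mul, hZtr]
  obtain ⟨h₁, hh₁, hX₁⟩ := hne
  by_cases hcase : ∀ h ∈ H₀, c h₁ * c h = c h * c h₁
  · -- `c H₀` spans a stable line
    apply hX₁
    apply gtA_line h2 rho K hK h1 hidx (c h₁) (hctr h₁)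
    intro g
    have hmem : g * h₁ * g⁻¹ ∈ H₀ := hH₀n.conj_mem h₁ hh₁ g
    obtain ⟨a, ha⟩ := gt_exists_smul_of_commute h2 hX₁ (hctr h₁) (hctr _) (hcase _ hmem)
    rw [gt_cocycle_conj hc (hH₀ h₁ hh₁), gt_tw_eq] at ha
    refine ⟨a / (rho g : Matrix (Fin 2) (Fin 2) k).det, ?_⟩
    have hd := gt_det_ne_zero (rho g)
    have h3 : (rho g : Matrix (Fin 2) (Fin 2) k) * c h₁ *
        (((rho g)⁻¹ : GL (Fin 2) k) : Matrix (Fin 2) (Fin 2) k) =
        (a / (rho g : Matrix (Fin 2) (Fin 2) k).det) • c h₁ := by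
      have h4 := congrArg (fun Y => ((rho g : Matrix (Fin 2) (Fin 2) k).det)⁻¹ • Y) ha
      simp only [smul_smul, inv_mul_cancel₀ hd, one_smul] at h4
      rw [h4, div_eq_inv_mul]
    have h5 := congrArg (fun Y => Y * (rho g : Matrix (Fin 2) (Fin 2) k)) h3
    simp only [Matrix.mul_assoc, gt_coe_inv_mul, Matrix.mul_one, Matrix.smul_mul] at h5
    exact h5
  · -- the conjugates of `Z₀` span a stable line
    obtain ⟨h₂, hh₂, hX₂⟩ : ∃ h₂ ∈ H₀, c h₁ * c h₂ ≠ c h₂ * c h₁ := by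
      by_contra h
      apply hcase
      intro h' hh'
      by_contra h0
      exact h ⟨h', hh', h0⟩
    set W : Matrix (Fin 2) (Fin 2) k := c h₁ * c h₂ - c h₂ * c h₁ with hWdef
    have hW0 : W ≠ 0 := fun h => hX₂ (sub_eq_zero.mp h)
    have hWtr : W.trace = 0 := by
      rw [hWdef, Matrix.trace_sub, Matrix.trace_mul_comm, sub_self]
    have hline : ∀ Y : Matrix (Fin 2) (Fin 2) k, Y.trace = 0 → (c h₁ * Y).trace = 0 →
        (c h₂ * Y).trace = 0 → ∃ a : k, Y = a • W := by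
      intro Y hY e1 e2
      have h3 := gt_triple (hctr h₁) (hctr h₂) hY
      rw [e1, e2, mul_zero, zero_smul, zero_smul, sub_zero] at h3
      exact gt_exists_smul_of_commute h2 hW0 hWtr hY (sub_eq_zero.mp h3)
    obtain ⟨a₀, ha₀⟩ := hline Z₀ hZtr (hW h₁ hh₁) (hW h₂ hh₂)
    have ha₀0 : a₀ ≠ 0 := by
      intro h
      rw [h, zero_smul] at ha₀
      exact hZ0 ha₀
    apply hZ0
    apply gtA_line h2 rho K hK h1 hidx Z₀ hZtr
    intro g
    obtain ⟨a, ha⟩ := hline _ (hconjtr g) (hW' g h₁ hh₁) (hW' g h₂ hh₂)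
    refine ⟨a / a₀, ?_⟩
    have hWZ : W = a₀⁻¹ • Z₀ := by
      rw [ha₀, smul_smul, inv_mul_cancel₀ ha₀0, one_smul]
    rw [hWZ, smul_smul] at ha
    have h5 := congrArg (fun Y => Y * (rho g : Matrix (Fin 2) (Fin 2) k)) ha
    simp only [Matrix.mul_assoc, gt_coe_inv_mul, Matrix.mul_one, Matrix.smul_mul] at h5
    rw [h5, div_eq_mul_inv]

end Fermat.Agent.P1.helper91
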