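import Mathlib
import Fermat.Agent.S55.Arith
import Fermat.Prelude.Def_GaloisRep_Residual

/-!
# P1 (S56), module TW-SEL: interface (helper91, sub-coordinator)

Selection of Taylor–Wiles primes by the weak Chebotarev theorem.  Everything is stated for an
ARBITRARY finite smooth module `M' : Rep (ZMod p) GQ` (in S56: `M' = ad⁰(ρbar)` dual-twisted by
the cyclotomic character), so that this module does not depend on the shared P1 definitions.

* `FixesRoots p n σ`      : `σ` fixes the `p^(n+1)`-th roots of unity;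
* `DistinctEigen ρbar σ`  : `ρbar σ` has two distinct eigenvalues in `k` (clause of S56);
* `IsTWPrime p n S ρbar q`: the three clauses of S56 on a Taylor–Wiles prime `q`;
* `LocTrivAt M' c q`      : the restriction of the cochain `c` to the local Galois group at `q`
                            is a coboundary;
* `SigmaStatement`  (input, = deliverable of TW-GT): choice of `σ`;
* `FinStatement`    (package TW-SEL-FIN): finiteness of `Z¹(G_{ℚ,Smin}, M')`;
* `SelCoreStatement` (package TW-SEL-CHEB): one Taylor–Wiles prime detecting a given class;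
* `TWSelStatement`  (package TW-SEL-IND, deliverable): `r` primes detecting all classes.
-/

set_option autoImplicit false

open Polynomial ExtCitation

noncomputable section

namespace Fermat.Agent.P1.helper91

open Fermat.Agent.S55

/-- `σ` fixes all `p^(n+1)`-th roots of unity of `ℚbar`. -/
def FixesRoots (p n : ℕ) (σ : GQ) : Prop :=
  ∀ μ : AlgebraicClosure ℚ, μ ^ p ^ (n + 1) = 1 → σ μ = μ

/-- `ρbar σ` has two DISTINCT eigenvalues in `k` (the shape of the clause of S56). -/
def DistinctEigen {k : Type} [Field k] (ρbar : ResidualGaloisRep k) (σ : GQ) : Prop :=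
  ∃ α β : k, α ≠ β ∧ LinearMap.charpoly (ρbar.ρ σ) = (X - C α) * (X - C β)

/-- The clauses of S56 on a Taylor–Wiles prime `q` (for the level `n` and the excluded set `S`). -/
def IsTWPrime {k : Type} [Field k] (p n : ℕ) (S : Finset ℕ) (ρbar : ResidualGaloisRep k)
    (q : ℕ) : Prop :=
  (q.Prime ∧ q ∉ S ∧ p ^ (n + 1) ∣ q - 1) ∧
    ∀ P : ValuationSubring (AlgebraicClosure ℚ), P.LiesOverPrime q →
      ∀ φ : GQ, P.IsFrobeniusAt φ q → DistinctEigen ρbar φ

/-- The restriction of the 1-cochain `c` to the local Galois group at `q` is a coboundary. -/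
def LocTrivAt {p : ℕ} (M' : Rep (ZMod p) GQ) (c : GQ → M') (q : Nat.Primes) : Prop :=
  ∃ m : M', ∀ x : primeLocalGaloisGroup q,
    c (primeLocalToGlobal q x) = M'.ρ (primeLocalToGlobal q x) m - m

/-- INPUT from module TW-GT (group theory + dictionary): for every level `n` and every level
cocycle `c` there is `σ ∈ G_{ℚ(ζ_{p^(n+1)})}` such that `ρbar σ` has distinct eigenvalues and,
if `c` is not a coboundary, `c σ ∉ (σ - 1) M'`. -/
def SigmaStatement {k : Type} [Field k] (p : ℕ) (ρbar : ResidualGaloisRep k)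
    (Smin : Finset Nat.Primes) (M' : Rep (ZMod p) GQ) : Prop :=
  ∀ n : ℕ, ∀ c ∈ Z1 (galLevels Smin) M',
    ∃ σ : GQ, FixesRoots p n σ ∧ DistinctEigen ρbar σ ∧
      (c ∉ B1 M' → ∀ m : M', c σ ≠ M'.ρ σ m - m)

/-- Package TW-SEL-FIN: the level cocycles of a finite smooth module form a finite module. -/
def FinStatement (p : ℕ) [Fact p.Prime] : Prop :=
  p ≠ 2 → ∀ Smin : Finset Nat.Primes, pPrime p ∈ Smin →
    ∀ M' : Rep (ZMod p) GQ, Module.Finite (ZMod p) M' → IsSmooth (galLevels Smin) M' →
      Module.Finite (ZMod p) ↥(Z1 (galLevels Smin) M')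

/-- Package TW-SEL-CHEB: for every level cocycle `c` and every finite set `E` of excluded primes
there is a Taylor–Wiles prime `q ∉ E` at which `c` is not locally trivial (if `c` is not a
coboundary). -/
def SelCoreStatement {k : Type} [Field k] (p : ℕ) (S : Finset ℕ) (ρbar : ResidualGaloisRep k)
    (Smin : Finset Nat.Primes) (M' : Rep (ZMod p) GQ) : Prop :=
  ∀ n : ℕ, ∀ c ∈ Z1 (galLevels Smin) M', ∀ E : Finset ℕ,
    ∃ q : Nat.Primes, (q : ℕ) ∉ E ∧ IsTWPrime p n S ρbar q ∧
      (c ∉ B1 M' → ¬ LocTrivAt M' c q)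

/-- DELIVERABLE of TW-SEL (generic form of `TWOut`): there is `r` such that for every `n` there
are `r` distinct Taylor–Wiles primes such that every level cocycle which is locally trivial at
all of them is a coboundary. -/
def TWSelStatement {k : Type} [Field k] (p : ℕ) (S : Finset ℕ) (ρbar : ResidualGaloisRep k)
    (Smin : Finset Nat.Primes) (M' : Rep (ZMod p) GQ) : Prop :=
  ∃ r : ℕ, ∀ n : ℕ, ∃ qv : Fin r → ℕ, Function.Injective qv ∧
    (∀ i, IsTWPrime p n S ρbar (qv i)) ∧
    ∀ c ∈ Z1 (galLevels Smin) M',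
      (∀ i, ∀ hq : (qv i).Prime, LocTrivAt M' c ⟨qv i, hq⟩) → c ∈ B1 M'

/-- `LocTrivAt` in the vocabulary of S55: the restricted cochain lies in `B1` of the restricted
module. -/
theorem locTrivAt_iff_mem_B1 {p : ℕ} (M' : Rep (ZMod p) GQ) (c : GQ → M') (q : Nat.Primes) :
    LocTrivAt M' c q ↔
      (fun x : primeLocalGaloisGroup q => c (primeLocalToGlobal q x)) ∈
        B1 (Rep.res (primeLocalToGlobal q) M') := by
  constructor
  · rintro ⟨m, hm⟩
    refine ⟨m, ?_⟩
    funext x
    exact (hm x).symm
  · rintro ⟨m, hm⟩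
    refine ⟨m, fun x => ?_⟩
    exact (congrFun hm x).symm

/-- `LocTrivAt` for the local data `galLocal T` of S55. -/
theorem locTrivAt_iff_res₁ {p : ℕ} (T : Finset Nat.Primes) (M' : Rep (ZMod p) GQ)
    (c : GQ → M') (v : ↥T) :
    LocTrivAt M' c v.1 ↔ res₁ (galLocal T) M' v c ∈ B1 ((galLocal T).loc M' v) :=
  locTrivAt_iff_mem_B1 M' c v.1

end Fermat.Agent.P1.helper91
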