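import Mathlib
import Fermat.Agent.P1.helper91_TWSelDefs
import Fermat.Agent.S55.helper69_BArLev

/-!
# P1 (S56), module TW-SEL: Frobenius elements under conjugation (helper91)

* `isFrobeniusAt_iff_nonunits` : `A.IsFrobeniusAt φ ℓ ↔ φ ∈ D(A) ∧ ∀ a ∈ A, φ a - a ^ ℓ ∈ 𝔪_A`;
* `isFrobeniusAt_conj` : if `φ` is a Frobenius element at `A` then `τ φ τ⁻¹` is one at `τ • A`;
* `inv_mul_mem_inertia_of_isFrobeniusAt` : two Frobenius elements at `A` differ by inertia.
-/

set_option autoImplicit false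

open scoped Pointwise

noncomputable section

namespace Fermat.Agent.P1.helper91

universe v w

variable {K : Type v} {L : Type w} [Field K] [Field L] [Algebra K L]

/-- Frobenius elements in elementary terms. -/
theorem isFrobeniusAt_iff_nonunits (A : ValuationSubring L) (φ : L ≃ₐ[K] L) (ℓ : ℕ) :
    A.IsFrobeniusAt φ ℓ ↔
      φ ∈ A.decompositionSubgroup K ∧ ∀ a ∈ A, φ a - a ^ ℓ ∈ A.nonunits := by
  constructor
  · intro h
    refine ⟨h.mem_decompositionSubgroup, fun a ha => ?_⟩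
    have h1 := h.smul_residue_eq (IsLocalRing.residue A ⟨a, ha⟩)
    rw [← IsLocalRing.ResidueField.residue_smul, ← map_pow, ← sub_eq_zero, ← map_sub,
      IsLocalRing.residue_eq_zero_iff, A.valuation_lt_one_iff] at h1
    rw [ValuationSubring.mem_nonunits_iff]
    exact h1
  · rintro ⟨hφ, h⟩
    refine ⟨hφ, fun xbar => ?_⟩
    obtain ⟨a, rfl⟩ := IsLocalRing.residue_surjective xbar
    rw [← IsLocalRing.ResidueField.residue_smul, ← map_pow, ← sub_eq_zero, ← map_sub,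
      IsLocalRing.residue_eq_zero_iff, A.valuation_lt_one_iff]
    have := h a.1 a.2
    rw [ValuationSubring.mem_nonunits_iff] at this
    exact this

/-- Conjugation of Frobenius elements. -/
theorem isFrobeniusAt_conj {A : ValuationSubring L} {φ : L ≃ₐ[K] L} {ℓ : ℕ}
    (h : A.IsFrobeniusAt φ ℓ) (τ : L ≃ₐ[K] L) :
    (τ • A).IsFrobeniusAt (τ * φ * τ⁻¹) ℓ := by
  rw [isFrobeniusAt_iff_nonunits] at h ⊢
  obtain ⟨hd, hi⟩ := h
  refine ⟨?_, fun a ha => ?_⟩
  · rw [MulAction.mem_stabilizer_iff] at hd ⊢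
    rw [mul_smul, mul_smul, inv_smul_smul, hd]
  · obtain ⟨b, rfl⟩ : ∃ b, a = τ b := ⟨τ⁻¹ a, by simp⟩
    rw [Fermat.Agent.S55.helper69.apply_mem_smul_iff] at ha
    have h1 : (τ * φ * τ⁻¹) (τ b) - (τ b) ^ ℓ = τ (φ b - b ^ ℓ) := by
      simp [AlgEquiv.mul_apply]
    rw [h1, Fermat.Agent.S55.helper69.apply_mem_nonunits_smul_iff]
    exact hi b ha

/-- Two Frobenius elements at the same valuation subring differ by an element of inertia. -/
theorem inv_mul_mem_inertia_of_isFrobeniusAt {A : ValuationSubring L} {φ φ' : L ≃ₐ[K] L}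
    {ℓ : ℕ} (h : A.IsFrobeniusAt φ ℓ) (h' : A.IsFrobeniusAt φ' ℓ) :
    φ⁻¹ * φ' ∈ A.inertiaSubgroupIn K := by
  rw [isFrobeniusAt_iff_nonunits] at h h'
  obtain ⟨hd, hi⟩ := h
  obtain ⟨hd', hi'⟩ := h'
  rw [Fermat.Agent.S55.helper69.mem_inertiaSubgroupIn_iff_nonunits]
  have hdinv : φ⁻¹ ∈ A.decompositionSubgroup K := (A.decompositionSubgroup K).inv_mem hd
  refine ⟨(A.decompositionSubgroup K).mul_mem hdinv hd', fun a ha => ?_⟩
  have h1 : φ' a - φ a ∈ A.nonunits := by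
    have e : φ' a - φ a = (φ' a - a ^ ℓ) - (φ a - a ^ ℓ) := by ring
    rw [e, ValuationSubring.mem_nonunits_iff]
    have h2 := hi' a ha
    have h3 := hi a ha
    rw [ValuationSubring.mem_nonunits_iff] at h2 h3
    exact Valuation.map_sub_lt _ h2 h3
  have h4 : (φ⁻¹ * φ') a - a = φ⁻¹ (φ' a - φ a) := by
    simp [AlgEquiv.mul_apply]
  rw [h4]
  have h5 := (Fermat.Agent.S55.helper69.apply_mem_nonunits_smul_iff A φ⁻¹ (φ' a - φ a)).mpr h1
  have h6 : φ⁻¹ • A = A := hdinv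
  rwa [h6] at h5

end Fermat.Agent.P1.helper91
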