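import Mathlib

/-!
# P1 (S56), module TW-SEL: linear algebra of distinct eigenvalues (helper91)

* `charpoly_pow_of_distinct` : if `T` on a plane has characteristic polynomial
  `(X - α)(X - β)` with `α ≠ β`, `R = T ^ a` and `T = R ^ b`, then `R` has characteristic
  polynomial `(X - α ^ a)(X - β ^ a)` with `α ^ a ≠ β ^ a`;
* `charpoly_conj_of_mul_eq_one` : invariance of the characteristic polynomial under conjugation
  by an invertible endomorphism.
-/

set_option autoImplicit false

open Polynomial

noncomputable section

namespace Fermat.Agent.P1.helper91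

variable {k : Type*} [Field k] {V : Type*} [AddCommGroup V] [Module k V]

theorem pow_apply_of_apply_eq_smul (T : Module.End k V) {μ : k} {v : V} (h : T v = μ • v)
    (n : ℕ) : (T ^ n) v = μ ^ n • v := by
  induction n with
  | zero => simp
  | succ n ih =>
    rw [pow_succ, Module.End.mul_apply, h, map_smul, ih, smul_smul, pow_succ, mul_comm]

/-- Powers of an endomorphism of a plane with two distinct eigenvalues. -/
theorem charpoly_pow_of_distinct [Module.Finite k V] (hV : Module.finrank k V = 2)
    (T R : Module.End k V)
    {α β : k} (hαβ : α ≠ β) (hT : LinearMap.charpoly T = (X - C α) * (X - C β))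
    (a b : ℕ) (hR : R = T ^ a) (hTR : T = R ^ b) :
    α ^ a ≠ β ^ a ∧ LinearMap.charpoly R = (X - C (α ^ a)) * (X - C (β ^ a)) := by
  have hα : T.HasEigenvalue α := by
    rw [Module.End.hasEigenvalue_iff_isRoot_charpoly, hT]
    simp
  have hβ : T.HasEigenvalue β := by
    rw [Module.End.hasEigenvalue_iff_isRoot_charpoly, hT]
    simp
  obtain ⟨v, hv⟩ := hα.exists_hasEigenvector
  obtain ⟨w, hw⟩ := hβ.exists_hasEigenvector
  have hTv : T v = α • v := hv.apply_eq_smul
  have hTw : T w = β • w := hw.apply_eq_smul
  have hv0 : v ≠ 0 := hv.2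
  have hw0 : w ≠ 0 := hw.2
  have hRv : R v = α ^ a • v := by rw [hR]; exact pow_apply_of_apply_eq_smul T hTv a
  have hRw : R w = β ^ a • w := by rw [hR]; exact pow_apply_of_apply_eq_smul T hTw a
  have hne : α ^ a ≠ β ^ a := by
    intro he
    have h1 : T v = (α ^ a) ^ b • v := by
      conv_lhs => rw [hTR]
      exact pow_apply_of_apply_eq_smul R hRv b
    have h2 : T w = (α ^ a) ^ b • w := by
      conv_lhs => rw [hTR]
      rw [he]
      exact pow_apply_of_apply_eq_smul R hRw b
    rw [hTv] at h1
    rw [hTw] at h2
    have e1 : α = (α ^ a) ^ b := by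
      by_contra hcon
      have : (α - (α ^ a) ^ b) • v = 0 := by rw [sub_smul, h1, sub_self]
      rcases smul_eq_zero.mp this with h | h
      · exact hcon (sub_eq_zero.mp h)
      · exact hv0 h
    have e2 : β = (α ^ a) ^ b := by
      by_contra hcon
      have : (β - (α ^ a) ^ b) • w = 0 := by rw [sub_smul, h2, sub_self]
      rcases smul_eq_zero.mp this with h | h
      · exact hcon (sub_eq_zero.mp h)
      · exact hw0 h
    exact hαβ (e1.trans e2.symm)
  refine ⟨hne, ?_⟩
  -- the eigenbasis
  have hli : LinearIndependent k ![v, w] := by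
    rw [LinearIndependent.pair_iff]
    intro s t hst
    have h1 : T (s • v + t • w) = 0 := by rw [hst, map_zero]
    rw [map_add, map_smul, map_smul, hTv, hTw] at h1
    have h2 : (t * (β - α)) • w = 0 := by
      have h3 : α • (s • v + t • w) = 0 := by rw [hst, smul_zero]
      have h4 : s • α • v + t • β • w - α • (s • v + t • w) = 0 := by rw [h1, h3, sub_zero]
      rw [← h4]
      simp only [smul_add, smul_smul, mul_sub, sub_smul]
      rw [mul_comm α s, mul_comm α t]
      abel
    rcases smul_eq_zero.mp h2 with h | h
    · rcases mul_eq_zero.mp h with h | h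
      · subst h
        rw [zero_smul, add_zero] at hst
        rcases smul_eq_zero.mp hst with h' | h'
        · exact ⟨h', rfl⟩
        · exact absurd h' hv0
      · exact absurd (sub_eq_zero.mp h).symm hαβ
    · exact absurd h hw0
  let bs : Module.Basis (Fin 2) k V :=
    basisOfLinearIndependentOfCardEqFinrank hli (by rw [Fintype.card_fin, hV])
  have hb0 : bs 0 = v := by simp [bs]
  have hb1 : bs 1 = w := by simp [bs]
  have hM : LinearMap.toMatrix bs bs R = !![α ^ a, 0; 0, β ^ a] := by
    ext i j
    rw [LinearMap.toMatrix_apply]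
    fin_cases j
    · have e : R (bs 0) = α ^ a • bs 0 := by rw [hb0]; exact hRv
      show (bs.repr (R (bs 0))) i = _
      rw [e, map_smul, Module.Basis.repr_self]
      fin_cases i <;> simp
    · have e : R (bs 1) = β ^ a • bs 1 := by rw [hb1]; exact hRw
      show (bs.repr (R (bs 1))) i = _
      rw [e, map_smul, Module.Basis.repr_self]
      fin_cases i <;> simp
  rw [← LinearMap.charpoly_toMatrix R bs, hM, Matrix.charpoly_fin_two]
  simp only [Matrix.trace_fin_two, Matrix.det_fin_two, Matrix.of_apply, Matrix.cons_val',
    Matrix.cons_val_zero, Matrix.cons_val_one, Matrix.cons_val_fin_one]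
  simp only [mul_zero, sub_zero, map_add, map_mul, map_pow]
  ring

/-- Invariance of the characteristic polynomial under conjugation. -/
theorem charpoly_conj_of_mul_eq_one [Module.Finite k V] (g g' f : Module.End k V)
    (h1 : g * g' = 1) (h2 : g' * g = 1) :
    LinearMap.charpoly (g * f * g') = LinearMap.charpoly f := by
  let e : V ≃ₗ[k] V := LinearEquiv.ofLinearMap g g' h1 h2
  have : g * f * g' = e.conj f := by
    ext x
    simp [e, LinearEquiv.conj_apply, Module.End.mul_apply]
  rw [this, LinearEquiv.charpoly_conj]

end Fermat.Agent.P1.helper91
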