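import Mathlib
import Fermat.Agent.P1.helper91_TWSelDefs
import Fermat.Agent.P1.helper91_TWSelFrob
import Fermat.Agent.P1.helper91_TWSelLinAlg
import Fermat.Agent.Cheb.helper91_ChebWFinal
import Fermat.Agent.P3.helper98_FrobRoots
import Fermat.Agent.S55.helper96_BArDeg
import Fermat.Agent.S55.helper74_LocalLevels

/-!
# P1 (S56), module TW-SEL, package TW-SEL-CHEB (helper91)

`selCore : SigmaStatement p ρbar Smin M' → SelCoreStatement p S ρbar Smin M'`: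
one Taylor–Wiles prime detecting a given cohomology class, by the weak Chebotarev theorem.
-/

set_option autoImplicit false
set_option linter.unusedSectionVars false
set_option linter.unusedVariables false
set_option linter.style.haveILetI false

open Polynomial ExtCitation groupCohomology

open scoped Pointwise

noncomputable section

namespace Fermat.Agent.P1.helper91

open Fermat.Agent.S55

local notation "Qbar" => AlgebraicClosure ℚ

/-! ## Cocycle identities -/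

section Cocycle

variable {k G : Type} [CommRing k] [Group G] {A : Rep k G} {c : G → A}

theorem cocycle_mul (hc : c ∈ LinearMap.ker (d₁₂ A).hom) (g h : G) :
    c (g * h) = c g + A.ρ g (c h) := by
  have h1 : (d₁₂ A).hom c (g, h) = 0 := by
    rw [LinearMap.mem_ker.mp hc]; rfl
  rw [d₁₂_hom_apply] at h1
  have h2 : A.ρ g (c h) - c (g * h) + c g = 0 := h1
  have h3 : c (g * h) = A.ρ g (c h) + c g := by
    rw [sub_add_eq_add_sub, sub_eq_zero] at h2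
    exact h2.symm
  rw [h3, add_comm]

theorem cocycle_one (hc : c ∈ LinearMap.ker (d₁₂ A).hom) : c 1 = 0 := by
  have h := cocycle_mul hc 1 1
  rw [mul_one, map_one] at h
  have h' : c 1 = c 1 + c 1 := h
  exact (add_eq_left.mp h'.symm)

/-- If `c φ = (φ - 1) m` then `c (φ ^ j) = (φ ^ j - 1) m`. -/
theorem cocycle_pow_of_eq (hc : c ∈ LinearMap.ker (d₁₂ A).hom) {φ : G} {m : A}
    (h : c φ = A.ρ φ m - m) (j : ℕ) : c (φ ^ j) = A.ρ (φ ^ j) m - m := by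
  induction j with
  | zero =>
    rw [pow_zero, cocycle_one hc, map_one]
    simp
  | succ j ih =>
    rw [pow_succ, cocycle_mul hc, ih, h, map_mul, map_sub]
    simp only [Module.End.mul_apply]
    abel

/-- Conjugation invariance of the condition `c φ ∈ (φ - 1) A`. -/
theorem cocycle_conj_of_eq (hc : c ∈ LinearMap.ker (d₁₂ A).hom) {φ τ : G} {m : A}
    (h : c (τ * φ * τ⁻¹) = A.ρ (τ * φ * τ⁻¹) m - m) :
    ∃ m' : A, c φ = A.ρ φ m' - m' := by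
  refine ⟨A.ρ τ⁻¹ (m + c τ), ?_⟩
  have h1 : c (τ * φ * τ⁻¹) = c τ + A.ρ τ (c φ) + A.ρ (τ * φ) (c τ⁻¹) := by
    rw [cocycle_mul hc (τ * φ) τ⁻¹, cocycle_mul hc τ φ]
  have h2 : c τ⁻¹ = - A.ρ τ⁻¹ (c τ) := by
    have := cocycle_mul hc τ⁻¹ τ
    rw [inv_mul_cancel, cocycle_one hc] at this
    exact eq_neg_of_add_eq_zero_left this.symm
  have h3 : A.ρ τ (c φ) = A.ρ (τ * φ * τ⁻¹) (m + c τ) - (m + c τ) := by
    have e : A.ρ (τ * φ) (c τ⁻¹) = - A.ρ (τ * φ * τ⁻¹) (c τ) := by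
      rw [h2, map_neg, map_mul (A.ρ) (τ * φ) τ⁻¹]
      simp only [Module.End.mul_apply]
    rw [h1, e] at h
    rw [map_add]
    have h4 : A.ρ τ (c φ) = A.ρ (τ * φ * τ⁻¹) m - m - c τ + A.ρ (τ * φ * τ⁻¹) (c τ) := by
      rw [← h]; abel
    rw [h4]; abel
  have h5 : A.ρ τ⁻¹ (A.ρ τ (c φ)) = c φ := by
    rw [← Module.End.mul_apply, ← map_mul, inv_mul_cancel, map_one]
    rfl
  rw [← h5, h3, map_sub]
  congr 1
  rw [← Module.End.mul_apply, ← map_mul, ← Module.End.mul_apply, ← map_mul]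
  congr 2
  group

end Cocycle


/-! ## A finite level trivialising everything -/

theorem pow_apply_eq_of_apply_eq {σ : GQ} {μ : Qbar} (h : σ μ = μ) (n : ℕ) :
    (σ ^ n) μ = μ := by
  induction n with
  | zero => rfl
  | succ n ih => rw [pow_succ, AlgEquiv.mul_apply, h, ih]

/-- The field of `p^(n+1)`-th roots of unity is a finite level. -/
theorem exists_cyclo_level (p : ℕ) [hp : Fact p.Prime] (n : ℕ) :
    ∃ L : IntermediateField ℚ Qbar, FiniteDimensional ℚ L ∧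
      ∀ u : GQ, (∀ x ∈ L, u x = x) → FixesRoots p n u := by
  have : NeZero (p ^ (n + 1)) := ⟨pow_ne_zero _ hp.out.ne_zero⟩
  obtain ⟨ζ, hζ⟩ := HasEnoughRootsOfUnity.exists_primitiveRoot Qbar (p ^ (n + 1))
  refine ⟨IntermediateField.adjoin ℚ {ζ}, ?_, ?_⟩
  · exact IntermediateField.adjoin.finiteDimensional
      ((hζ.isIntegral (Nat.pos_of_neZero _)).tower_top (R := ℤ))
  · intro u hu μ hμ
    have huζ : u ζ = ζ := hu ζ (IntermediateField.mem_adjoin_simple_self ℚ ζ)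
    obtain ⟨i, -, rfl⟩ := hζ.eq_pow_of_pow_eq_one hμ
    rw [map_pow, huζ]

/-- A finite level trivialising a level cocycle, a smooth module, `ρbar` and the
`p^(n+1)`-th roots of unity. -/
theorem exists_level_field {k : Type} [Field k] (p : ℕ) [hp : Fact p.Prime]
    (ρbar : ResidualGaloisRep k) (Smin : Finset Nat.Primes) (M' : Rep (ZMod p) GQ)
    (hsm : IsSmooth (galLevels Smin) M') (n : ℕ) {c : GQ → M'}
    (hc : c ∈ Z1 (galLevels Smin) M') :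
    ∃ L : IntermediateField ℚ Qbar, FiniteDimensional ℚ L ∧
      ∀ u : GQ, (∀ x ∈ L, u x = x) →
        (∀ g : GQ, c (g * u) = c g) ∧ (∀ a : M', M'.ρ u a = a) ∧ ρbar.ρ u = 1 ∧
          FixesRoots p n u := by
  obtain ⟨N, ⟨-, F, hF, rfl⟩, hNc⟩ := hc.1
  obtain ⟨N', ⟨-, F', hF', rfl⟩, hN'⟩ := hsm
  obtain ⟨Lρ, hLρ, hρ⟩ := ρbar.factorsThroughFiniteLevel
  obtain ⟨Lζ, hLζ, hζ⟩ := exists_cyclo_level p n
  haveI := hF.1
  haveI := hF'.1
  haveI := hLρ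
  haveI := hLζ
  refine ⟨F ⊔ F' ⊔ Lρ ⊔ Lζ, inferInstance, fun u hu => ⟨fun g => ?_, fun a => ?_, ?_, ?_⟩⟩
  · refine hNc g u ?_
    rw [IntermediateField.mem_fixingSubgroup_iff]
    intro x hx
    exact hu x ((le_sup_left.trans (le_sup_left.trans le_sup_left) :
      F ≤ F ⊔ F' ⊔ Lρ ⊔ Lζ) hx)
  · refine hN' u ?_ a
    rw [IntermediateField.mem_fixingSubgroup_iff]
    intro x hx
    exact hu x ((le_sup_right.trans (le_sup_left.trans le_sup_left) :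
      F' ≤ F ⊔ F' ⊔ Lρ ⊔ Lζ) hx)
  · refine hρ u fun x hx => ?_
    exact hu x ((le_sup_right.trans le_sup_left : Lρ ≤ F ⊔ F' ⊔ Lρ ⊔ Lζ) hx)
  · refine hζ u fun x hx => ?_
    exact hu x ((le_sup_right : Lζ ≤ F ⊔ F' ⊔ Lρ ⊔ Lζ) hx)

/-! ## The congruence `ℓ ≡ 1 mod p^(n+1)` -/

theorem dvd_sub_one_of_frobenius_fixesRoots (p : ℕ) [hp : Fact p.Prime] (n : ℕ) {ℓ : ℕ}
    (hℓ : ℓ.Prime) (hℓp : ℓ ≠ p) (A : ValuationSubring Qbar) (hA : A.LiesOverPrime ℓ)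
    {φ : GQ} (hφ : A.IsFrobeniusAt φ ℓ) (hfix : FixesRoots p n φ) :
    p ^ (n + 1) ∣ ℓ - 1 := by
  have : NeZero (p ^ (n + 1)) := ⟨pow_ne_zero _ hp.out.ne_zero⟩
  obtain ⟨ζ, hζ⟩ := HasEnoughRootsOfUnity.exists_primitiveRoot Qbar (p ^ (n + 1))
  have hnd : ¬ ℓ ∣ p ^ (n + 1) := fun h =>
    hℓp ((Nat.prime_dvd_prime_iff_eq hℓ hp.out).mp (hℓ.dvd_of_dvd_pow h))
  have h1 : φ ζ = ζ ^ ℓ :=
    Fermat.Agent.P3.helper98.frobenius_apply_rootOfUnity A hℓ hA hφ hnd hζ.pow_eq_one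
  have h2 : φ ζ = ζ := hfix ζ hζ.pow_eq_one
  have h3 : ζ ^ ℓ = ζ := h1.symm.trans h2
  have hζ0 : ζ ≠ 0 := hζ.ne_zero (NeZero.ne _)
  have h4 : ζ ^ (ℓ - 1) = 1 := by
    have e : ζ ^ (ℓ - 1) * ζ = 1 * ζ := by
      rw [← pow_succ, Nat.sub_add_cancel hℓ.one_le, h3, one_mul]
    exact mul_right_cancel₀ hζ0 e
  exact hζ.dvd_of_pow_eq_one _ h4

/-! ## The main theorem -/

/-- **TW-SEL-CHEB.**  One Taylor–Wiles prime detecting a given class. -/
theorem selCore {k : Type} [Field k] (p : ℕ) [hp : Fact p.Prime] (S : Finset ℕ)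
    (ρbar : ResidualGaloisRep k) (Smin : Finset Nat.Primes) (M' : Rep (ZMod p) GQ)
    (hpS : p ∈ S) (hunr : ∀ q : ℕ, q.Prime → q ∉ S → ρbar.IsUnramifiedAt q)
    (hsm : IsSmooth (galLevels Smin) M') (hσ : SigmaStatement p ρbar Smin M') :
    SelCoreStatement p S ρbar Smin M' := by
  intro n c hc E
  obtain ⟨σ, hσ1, ⟨α, β, hαβ, hσ2⟩, hσ3⟩ := hσ n c hc
  obtain ⟨L, hLfin, hL⟩ := exists_level_field p ρbar Smin M' hsm n hc
  haveI := hLfin
  obtain ⟨ℓ, A, φ, hℓ, hℓE, hA, hφ, -, ⟨j, hj⟩, ⟨k', hk⟩⟩ :=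
    Fermat.Agent.Cheb.helper91.weakChebotarev_finite L σ (E ∪ S)
  have hℓE' : ℓ ∉ E := fun h => hℓE (Finset.mem_union_left _ h)
  have hℓS : ℓ ∉ S := fun h => hℓE (Finset.mem_union_right _ h)
  have hℓp : ℓ ≠ p := fun h => hℓS (h ▸ hpS)
  -- the two elements of the level
  have hu : ∀ x ∈ L, (σ⁻¹ * φ ^ j) x = x := fun x hx => by
    rw [AlgEquiv.mul_apply, hj x hx]
    exact σ.symm_apply_apply x
  have hu' : ∀ x ∈ L, ((σ ^ k')⁻¹ * φ) x = x := fun x hx => by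
    rw [AlgEquiv.mul_apply, ← hk x hx]
    exact (σ ^ k').symm_apply_apply x
  have e1 : φ ^ j = σ * (σ⁻¹ * φ ^ j) := by group
  have e2 : φ = σ ^ k' * ((σ ^ k')⁻¹ * φ) := by group
  obtain ⟨hc1, hM1, hρ1, -⟩ := hL _ hu
  obtain ⟨-, -, hρ2, hζ2⟩ := hL _ hu'
  have hρφj : ρbar.ρ (φ ^ j) = ρbar.ρ σ := by
    rw [e1, map_mul, hρ1, mul_one]
  have hρφ : ρbar.ρ φ = ρbar.ρ σ ^ k' := by
    conv_lhs => rw [e2]
    rw [map_mul, hρ2, mul_one, map_pow]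
  have hfix : FixesRoots p n φ := by
    intro μ hμ
    have h1 : ((σ ^ k')⁻¹ * φ) μ = μ := hζ2 μ hμ
    have h2 : φ μ = (σ ^ k') (((σ ^ k')⁻¹ * φ) μ) := by
      conv_lhs => rw [e2]
      rfl
    rw [h2, h1]
    exact pow_apply_eq_of_apply_eq (hσ1 μ hμ) k'
  have hdist : DistinctEigen ρbar φ := by
    obtain ⟨hne, hch⟩ := charpoly_pow_of_distinct ρbar.finrank_eq (ρbar.ρ σ) (ρbar.ρ φ) hαβ hσ2
      k' j hρφ (by rw [← map_pow, hρφj])
    exact ⟨α ^ k', β ^ k', hne, hch⟩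
  refine ⟨⟨ℓ, hℓ⟩, hℓE', ⟨⟨hℓ, hℓS, ?_⟩, ?_⟩, ?_⟩
  · exact dvd_sub_one_of_frobenius_fixesRoots p n hℓ hℓp A hA hφ hfix
  · -- all Frobenius elements at all places over `ℓ`
    intro P hP φ' hφ'
    obtain ⟨τ, hτ⟩ := Fermat.Agent.S55.helper96.exists_smul_eq_of_liesOverPrime hℓ hA hP
    have h1 : P.IsFrobeniusAt (τ * φ * τ⁻¹) ℓ := by
      rw [hτ]
      exact isFrobeniusAt_conj hφ τ
    have h2 := inv_mul_mem_inertia_of_isFrobeniusAt h1 hφ'
    have h3 : ρbar.ρ ((τ * φ * τ⁻¹)⁻¹ * φ') = 1 := hunr ℓ hℓ hℓS P hP _ h2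
    have h4 : ρbar.ρ φ' = ρbar.ρ τ * ρbar.ρ φ * ρbar.ρ τ⁻¹ := by
      have e : φ' = (τ * φ * τ⁻¹) * ((τ * φ * τ⁻¹)⁻¹ * φ') := by group
      conv_lhs => rw [e]
      rw [map_mul, h3, mul_one, map_mul, map_mul]
    obtain ⟨a, b, hab, hch⟩ := hdist
    refine ⟨a, b, hab, ?_⟩
    rw [h4, charpoly_conj_of_mul_eq_one _ _ _ (by rw [← map_mul, mul_inv_cancel, map_one])
      (by rw [← map_mul, inv_mul_cancel, map_one])]
    exact hch
  · -- the class is not locally trivial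
    intro hcB ⟨m, hm⟩
    have hA0 := Fermat.Agent.S55.helper74.primeLocalPlace_liesOverPrime ⟨ℓ, hℓ⟩
    obtain ⟨τ, hτ⟩ := Fermat.Agent.S55.helper96.exists_smul_eq_of_liesOverPrime hℓ hA hA0
    have h1 : (primeLocalPlace ⟨ℓ, hℓ⟩).IsFrobeniusAt (τ * φ * τ⁻¹) ℓ := by
      rw [hτ]
      exact isFrobeniusAt_conj hφ τ
    obtain ⟨x, hx⟩ := Fermat.Agent.S55.helper74.exists_primeLocalToGlobal_eq ⟨ℓ, hℓ⟩
      h1.mem_decompositionSubgroup
    have h2 := hm x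
    rw [hx] at h2
    obtain ⟨m', hm'⟩ := cocycle_conj_of_eq hc.2 h2
    have h3 := cocycle_pow_of_eq hc.2 hm' j
    have h4 : c (φ ^ j) = c σ := by
      conv_lhs => rw [e1]
      exact hc1 σ
    have h5 : M'.ρ (φ ^ j) m' = M'.ρ σ m' := by
      conv_lhs => rw [e1]
      rw [map_mul, Module.End.mul_apply, hM1]
    rw [h4, h5] at h3
    exact hσ3 hcB m' h3

end Fermat.Agent.P1.helper91
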