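import Fermat.Agent.P1.helper70_Defs
import Mathlib.RingTheory.MvPowerSeries.Basic

/-!
# P1 (S56): the module interfaces (`Prop`s) of BLUEPRINT P1

Standing notation: `k = ResidueField 𝒪`, `M = ad0Rep ρbar p`, `M' = M.dualTwist (cycloChar p)`,
`d = finrank (ZMod p) k`; ALL dimensions are over `ZMod p`.

* `Setting`      : the hypotheses of S56, bundled;
* `condSO`, `condFlat` : the two families of deformation conditions of S56;
* `IsTWFamily`   : the three elementary clauses of S56 on the primes `qv i`;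
* `KillsDual`    : the primes `qv i` detect every class of `H¹(G_Smin, M')`;
* module outputs : `DefOut`, `CocOut`, `TWOut`, `SelOut`, and (second layer, inputs of `SelOut`)
  `ECOut`, `LocPOut`, `LocSminOut`, `LocQOut`, `OddOut`, `S55Claim`.

DEFINITIONS ONLY.
-/

set_option autoImplicit false

open IsLocalRing ExtCitation groupCohomology Polynomial

noncomputable section

namespace Fermat.Agent.P1.helper70

open Fermat.Agent.S55

variable (𝒪 : Type) [CommRing 𝒪] [IsDomain 𝒪] [IsDiscreteValuationRing 𝒪]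
  [IsAdicComplete (maximalIdeal 𝒪) 𝒪] [Finite (ResidueField 𝒪)]
  (p : ℕ) [Fact p.Prime]
  (ρbar : ResidualGaloisRep (ResidueField 𝒪))
  (S Smin : Finset ℕ)

/-- The hypotheses of S56. -/
structure Setting : Prop where
  hp2 : p ≠ 2
  hp𝒪 : (p : 𝒪) ∈ maximalIdeal 𝒪
  habs : ρbar.IsAbsolutelyIrreducible
  hdet : (GaloisRepAdic.ofResidualGaloisRep ρbar).DetIsCyclotomic p
  hsplit : ∀ σ : AlgebraicClosure ℚ ≃ₐ[ℚ] AlgebraicClosure ℚ,
      ∃ α β : ResidueField 𝒪, LinearMap.charpoly (ρbar.ρ σ) = (X - C α) * (X - C β)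
  hTW : ∀ (K : Type) [Field K] [Algebra (ResidueField 𝒪) K]
      (G : Subgroup (AlgebraicClosure ℚ ≃ₐ[ℚ] AlgebraicClosure ℚ)), G.index = 2 →
      ∀ V : Submodule K (ρbar.baseChange K).V,
        (∀ σ ∈ G, ∀ x ∈ V, (ρbar.baseChange K).ρ σ x ∈ V) → V = ⊥ ∨ V = ⊤
  hpSmin : p ∈ Smin
  hSmin : Smin ⊆ S
  hS : ∀ q ∈ S, q.Prime
  hmin : ∀ q : ℕ, q.Prime → q ≠ p → (q ∈ Smin ↔ ¬ ρbar.IsUnramifiedAt q)

/-- The strict-ordinary condition of S56 with ramification set `T`. -/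
@[reducible] def condSO (T : Finset ℕ) :
    ∀ ⦃A : Type⦄ [CommRing A] [IsLocalRing A] [Algebra 𝒪 A], GaloisRepAdic A → Prop :=
  fun _A _ _ _ ρ => GaloisRep.strictOrdinaryCondition 𝒪 p T ρ ∧
    ∀ q ∈ Smin, q.Prime → q ≠ p → ρ.IsUnipotentOnInertiaAt q

/-- The flat condition of S56 with ramification set `T`. -/
@[reducible] def condFlat (T : Finset ℕ) :
    ∀ ⦃A : Type⦄ [CommRing A] [IsLocalRing A] [Algebra 𝒪 A], GaloisRepAdic A → Prop :=
  fun _A _ _ _ ρ => GaloisRep.flatCondition 𝒪 p T ρ ∧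
    ∀ q ∈ Smin, q.Prime → q ≠ p → ρ.IsUnipotentOnInertiaAt q

variable {𝒪}

/-- The Frobenius elements at `q` have two distinct eigenvalues (clause 3 of S56). -/
def FrobDistinct (q : ℕ) : Prop :=
  ∀ P : ValuationSubring (AlgebraicClosure ℚ), P.LiesOverPrime q →
    ∀ φ : AlgebraicClosure ℚ ≃ₐ[ℚ] AlgebraicClosure ℚ, P.IsFrobeniusAt φ q →
      ∃ α β : ResidueField 𝒪, α ≠ β ∧ LinearMap.charpoly (ρbar.ρ φ) = (X - C α) * (X - C β)

/-- The three elementary clauses of S56 on a family of primes. -/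
def IsTWFamily (n r : ℕ) (qv : Fin r → ℕ) : Prop :=
  Function.Injective qv ∧
    (∀ i, (qv i).Prime ∧ qv i ∉ S ∧ p ^ (n + 1) ∣ qv i - 1) ∧
    ∀ i, FrobDistinct ρbar (qv i)

/-- The ramification set `Smin ∪ Q` of S56. -/
@[reducible] def twSet {r : ℕ} (qv : Fin r → ℕ) : Finset ℕ := Smin ∪ Finset.univ.image qv

section withAlg

variable [Algebra (ZMod p) (ResidueField 𝒪)]

/-- `M' = ad⁰(ρbar)^*(1)`. -/
abbrev ad0Dual : Rep (ZMod p) GQ := (ad0Rep ρbar p).dualTwist (cycloChar p)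

/-- The restriction of a global cochain to the local Galois group at the prime `q`. -/
def resAt (A : Rep (ZMod p) GQ) (q : Nat.Primes) :
    (GQ → A) →ₗ[ZMod p] (primeLocalGaloisGroup q → Rep.res (primeLocalToGlobal q) A) where
  toFun f := fun x => f (primeLocalToGlobal q x)
  map_add' _ _ := rfl
  map_smul' _ _ := rfl

/-- The primes `qv i` detect every class of `H¹(G_Smin, M')`: a cocycle of level `Smin` with
values in `M'` whose restriction to the local Galois group at every `qv i` is a coboundary, is a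
coboundary. -/
def KillsDual {r : ℕ} (qv : Fin r → ℕ) : Prop :=
  ∀ c ∈ Z1 (galLevels (primesOf Smin)) (ad0Dual p ρbar),
    (∀ q : Nat.Primes, (q : ℕ) ∈ Set.range qv →
      resAt p (ad0Dual p ρbar) q c ∈ B1 (Rep.res (primeLocalToGlobal q) (ad0Dual p ρbar))) →
    c ∈ B1 (ad0Dual p ρbar)

/-! ## First layer: the inputs of the top assembly -/

/-- OUTPUT of module TW (TW-GT + TW-SEL + weak Chebotarev). -/
def TWOut : Prop :=
  ∃ r : ℕ, ∀ n : ℕ, ∃ qv : Fin r → ℕ, IsTWFamily p ρbar S n r qv ∧ KillsDual p ρbar Smin qv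

/-- OUTPUT of module SEL for a family of conditions `𝒟fam T`: the tangent classes of level
`T = Smin ∪ Q` form a finite set of cardinality `≤ |k|^r`. -/
def SelOut (𝒟fam : Finset ℕ →
    ∀ ⦃A : Type⦄ [CommRing A] [IsLocalRing A] [Algebra 𝒪 A], GaloisRepAdic A → Prop) : Prop :=
  ∀ (n r : ℕ) (qv : Fin r → ℕ), IsTWFamily p ρbar S n r qv → KillsDual p ρbar Smin qv →
    Finite ↥(tanH ρbar p (𝒟fam (twSet Smin qv)) (primesOf (twSet Smin qv))) ∧
    Nat.card ↥(tanH ρbar p (𝒟fam (twSet Smin qv)) (primesOf (twSet Smin qv))) ≤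
      Nat.card (ResidueField 𝒪) ^ r

/-- OUTPUT of module COC for a family of conditions `𝒟fam T`: the tangent space of a universal
deformation ring of type `𝒟fam T` injects into the tangent classes of level `T`. -/
def CocOut (𝒟fam : Finset ℕ →
    ∀ ⦃A : Type⦄ [CommRing A] [IsLocalRing A] [Algebra 𝒪 A], GaloisRepAdic A → Prop) : Prop :=
  ∀ (T : Finset ℕ), Smin ⊆ T →
    ∀ DQ : GaloisRep.DeformationRingData 𝒪 ρbar (𝒟fam T),
      ∃ f : (DQ.R →ₐ[𝒪] DualNumber (ResidueField 𝒪)) →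
          ↥(tanH ρbar p (𝒟fam T) (primesOf T)),
        Function.Injective f

end withAlg

variable (𝒪) in
/-- OUTPUT of module DEF-1 (helper61, task 437). -/
def DefOut : Prop :=
  ∀ (R : Type) [CommRing R] [IsLocalRing R] [IsNoetherianRing R]
    [IsAdicComplete (maximalIdeal R) R] [Algebra 𝒪 R] [IsLocalHom (algebraMap 𝒪 R)],
    Function.Surjective (residue R ∘ algebraMap 𝒪 R) → ∀ r : ℕ,
    Nat.card (R →ₐ[𝒪] DualNumber (ResidueField 𝒪)) ≤ Nat.card (ResidueField 𝒪) ^ r →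
    ∃ γ : MvPowerSeries (Fin r) 𝒪 →ₐ[𝒪] R, Function.Surjective γ

/-- The conclusion of (one half of) S56 for a family of conditions. -/
def TWConclusion (𝒟fam : Finset ℕ →
    ∀ ⦃A : Type⦄ [CommRing A] [IsLocalRing A] [Algebra 𝒪 A], GaloisRepAdic A → Prop) : Prop :=
  ∃ r : ℕ, ∀ n : ℕ, ∃ qv : Fin r → ℕ, Function.Injective qv ∧
    (∀ i, (qv i).Prime ∧ qv i ∉ S ∧ p ^ (n + 1) ∣ qv i - 1) ∧
    (∀ i, ∀ P : ValuationSubring (AlgebraicClosure ℚ), P.LiesOverPrime (qv i) →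
      ∀ φ : AlgebraicClosure ℚ ≃ₐ[ℚ] AlgebraicClosure ℚ, P.IsFrobeniusAt φ (qv i) →
        ∃ α β : ResidueField 𝒪, α ≠ β ∧ LinearMap.charpoly (ρbar.ρ φ) = (X - C α) * (X - C β)) ∧
    ∀ DQ : GaloisRep.DeformationRingData 𝒪 ρbar (𝒟fam (Smin ∪ Finset.univ.image qv)),
      ∃ γ : MvPowerSeries (Fin r) 𝒪 →ₐ[𝒪] DQ.R, Function.Surjective γ

end Fermat.Agent.P1.helper70
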