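import Mathlib
import Fermat.Agent.P1.helper70_Interface

/-!
# P1 (S56), TW: the model `ad⁰(ρbar)^*(1) ≃ ad⁰(ρbar) ⊗ χ` (helper91, task 610)

`M' = ad0Dual p ρbar` is, by definition, the `𝔽_p`-dual of `ad⁰ ρbar` twisted by the cyclotomic
character.  The trace form `(X, Y) ↦ Tr_{k/𝔽_p} (tr (X Y))` identifies it with `ad⁰ ρbar`
itself, with the action `g • X = χ(g) ρ(g) X ρ(g)⁻¹`.

* `chiK p`        : the mod `p` cyclotomic character with values in `kˣ`;
* `trPair`        : the pairing, `trPairHom : Ad0 ρbar →ₗ[ZMod p] Module.Dual (ZMod p) (Ad0 ρbar)`;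
* `trPairHom_injective` (`p` odd), `trPairEquiv`;
* `trPairHom_twist` : equivariance.
-/

set_option autoImplicit false
set_option linter.unusedSectionVars false
set_option linter.unusedVariables false
set_option linter.style.haveILetI false

open IsLocalRing ExtCitation groupCohomology Polynomial

noncomputable section

namespace Fermat.Agent.P1.helper91

open Fermat.Agent.S55 Fermat.Agent.P1.helper70

variable {k : Type} [Field k] [Finite k] (ρbar : ResidualGaloisRep k)
  (p : ℕ) [Fact p.Prime] [Algebra (ZMod p) k]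

/-- The mod `p` cyclotomic character with values in `kˣ`. -/
def chiK : GQ →* kˣ :=
  (Units.map ((algebraMap (ZMod p) k : ZMod p →+* k) : ZMod p →* k)).comp (cycloChar p)

theorem coe_chiK (g : GQ) : ((chiK (k := k) p g : kˣ) : k) = algebraMap (ZMod p) k (cycloChar p g) :=
  rfl

theorem zmod_smul_ad0 (a : ZMod p) (X : Ad0 ρbar) :
    a • X = (algebraMap (ZMod p) k a) • X := rfl

theorem algebraTrace_algebraMap_mul (a : ZMod p) (z : k) :
    Algebra.trace (ZMod p) k (algebraMap (ZMod p) k a * z) = a * Algebra.trace (ZMod p) k z := by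
  rw [← Algebra.smul_def, map_smul, smul_eq_mul]

/-- The trace pairing on `ad⁰`, with values in `𝔽_p`. -/
def trPairHom : Ad0 ρbar →ₗ[ZMod p] Module.Dual (ZMod p) (Ad0 ρbar) where
  toFun X :=
    { toFun := fun Y => Algebra.trace (ZMod p) k
        (LinearMap.trace k ρbar.V (Ad0.toEnd ρbar X * Ad0.toEnd ρbar Y))
      map_add' := fun Y Y' => by
        rw [map_add, mul_add, map_add, map_add]
      map_smul' := fun a Y => by
        rw [zmod_smul_ad0, map_smul, mul_smul_comm, map_smul, smul_eq_mul,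
          algebraTrace_algebraMap_mul, RingHom.id_apply, smul_eq_mul] }
  map_add' := fun X X' => by
    refine LinearMap.ext fun Y => ?_
    simp only [LinearMap.coe_mk, AddHom.coe_mk, LinearMap.add_apply]
    rw [map_add, add_mul, map_add, map_add]
  map_smul' := fun a X => by
    refine LinearMap.ext fun Y => ?_
    simp only [LinearMap.coe_mk, AddHom.coe_mk, LinearMap.smul_apply, RingHom.id_apply]
    rw [zmod_smul_ad0, map_smul, smul_mul_assoc, map_smul, smul_eq_mul,
      algebraTrace_algebraMap_mul, smul_eq_mul]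

theorem trPairHom_apply (X Y : Ad0 ρbar) :
    trPairHom ρbar p X Y = Algebra.trace (ZMod p) k
      (LinearMap.trace k ρbar.V (Ad0.toEnd ρbar X * Ad0.toEnd ρbar Y)) := rfl


instance finite_Ad0_zmod : Module.Finite (ZMod p) (Ad0 ρbar) := by
  haveI : Module.Finite (ZMod p) k := Module.Finite.of_finite
  exact Module.Finite.trans (R := ZMod p) k (Ad0 ρbar)

theorem toEnd_smul (a : k) (X : Ad0 ρbar) : Ad0.toEnd ρbar (a • X) = a • Ad0.toEnd ρbar X :=
  map_smul _ _ _

/-- Every trace-zero endomorphism comes from `Ad0`. -/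
theorem exists_toEnd_eq {Z : Module.End k ρbar.V} (hZ : LinearMap.trace k ρbar.V Z = 0) :
    ∃ Y : Ad0 ρbar, Ad0.toEnd ρbar Y = Z :=
  ⟨⟨Z, LinearMap.mem_ker.mpr hZ⟩, rfl⟩

/-- The `k`-valued trace form on `End V` separates points. -/
theorem eq_zero_of_trace_mul_eq_zero (X : Module.End k ρbar.V)
    (h : ∀ Z : Module.End k ρbar.V, LinearMap.trace k ρbar.V (X * Z) = 0) : X = 0 := by
  classical
  let b := Module.finBasis k ρbar.V
  have h1 : LinearMap.toMatrix b b X = 0 := by
    rw [Matrix.ext_iff_trace_mul_right]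
    intro M
    have h2 := h (Matrix.toLin b b M)
    rw [LinearMap.trace_eq_matrix_trace k b, LinearMap.toMatrix_mul,
      LinearMap.toMatrix_toLin] at h2
    rw [h2, Matrix.zero_mul, Matrix.trace_zero]
  exact (LinearMap.toMatrix b b).injective (by rw [h1, map_zero])

/-- Nondegeneracy of the trace pairing on `ad⁰` (`p` odd). -/
theorem trPairHom_injective (h2 : (2 : k) ≠ 0) : Function.Injective (trPairHom ρbar p) := by
  rw [injective_iff_map_eq_zero]
  intro X hX
  haveI : Module.Finite (ZMod p) k := Module.Finite.of_finite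
  -- Step 1: `tr (X Y) = 0` for all `Y` in `Ad0`
  have h1 : ∀ Y : Ad0 ρbar,
      LinearMap.trace k ρbar.V (Ad0.toEnd ρbar X * Ad0.toEnd ρbar Y) = 0 := by
    intro Y
    refine (traceForm_nondegenerate (ZMod p) k).1 _ fun a => ?_
    rw [Algebra.traceForm_apply]
    have h3 : trPairHom ρbar p X (a • Y) = 0 := by rw [hX]; rfl
    rw [trPairHom_apply, toEnd_smul, mul_smul_comm, map_smul, smul_eq_mul] at h3
    rw [mul_comm]
    exact h3
  -- Step 2: `tr (X Z) = 0` for all `Z`
  have hX0 : LinearMap.trace k ρbar.V (Ad0.toEnd ρbar X) = 0 := Ad0.trace_toEnd ρbar X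
  have h4 : ∀ Z : Module.End k ρbar.V,
      LinearMap.trace k ρbar.V (Ad0.toEnd ρbar X * Z) = 0 := by
    intro Z
    set t : k := LinearMap.trace k ρbar.V Z with ht
    have hZ0 : LinearMap.trace k ρbar.V (Z - (t / 2) • (1 : Module.End k ρbar.V)) = 0 := by
      rw [map_sub, map_smul, LinearMap.trace_one, ρbar.finrank_eq, smul_eq_mul, ← ht]
      push_cast
      field_simp
      ring
    obtain ⟨Y, hY⟩ := exists_toEnd_eq ρbar hZ0
    have h5 := h1 Y
    rw [hY, mul_sub, mul_smul_comm, mul_one, map_sub, map_smul, hX0, smul_zero, sub_zero] at h5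
    exact h5
  have h6 := eq_zero_of_trace_mul_eq_zero ρbar _ h4
  exact Ad0.toEnd_injective ρbar (by rw [h6, map_zero])

/-- The trace pairing as an isomorphism `ad⁰ ≃ (ad⁰)^*` of `𝔽_p`-vector spaces. -/
def trPairEquiv (h2 : (2 : k) ≠ 0) : Ad0 ρbar ≃ₗ[ZMod p] Module.Dual (ZMod p) (Ad0 ρbar) :=
  LinearMap.linearEquivOfInjective (trPairHom ρbar p) (trPairHom_injective ρbar p h2)
    Subspace.dual_finrank_eq.symm

theorem trPairEquiv_apply (h2 : (2 : k) ≠ 0) (X : Ad0 ρbar) :
    trPairEquiv ρbar p h2 X = trPairHom ρbar p X := rfl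

theorem trPairHom_twist_apply (g : GQ) (X Y : Ad0 ρbar) :
    ((cycloChar p g : (ZMod p)ˣ) : ZMod p) • trPairHom ρbar p X (ad0Hom ρbar g⁻¹ Y) =
      trPairHom ρbar p (((chiK (k := k) p g : kˣ) : k) • ad0Hom ρbar g X) Y := by
  rw [trPairHom_apply, trPairHom_apply, toEnd_ad0Hom, inv_inv, toEnd_smul, toEnd_ad0Hom,
    smul_mul_assoc, map_smul]
  simp only [smul_eq_mul]
  rw [coe_chiK, algebraTrace_algebraMap_mul]
  congr 2
  rw [← mul_assoc, ← mul_assoc, LinearMap.trace_mul_comm]
  simp only [mul_assoc]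

/-- **Equivariance**: the trace pairing intertwines `χ ⊗ ad⁰` with the twisted dual. -/
theorem trPairHom_twist (g : GQ) (X : Ad0 ρbar) :
    ((ad0Rep ρbar p).dualTwist (cycloChar p)).ρ g (trPairHom ρbar p X) =
      trPairHom ρbar p (((chiK (k := k) p g : kˣ) : k) • ad0Hom ρbar g X) :=
  LinearMap.ext fun Y => trPairHom_twist_apply ρbar p g X Y

end Fermat.Agent.P1.helper91
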