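import Mathlib
import Fermat.Agent.P1.helper91_TWSigmaDict
import Fermat.Agent.P1.helper3_GTDefs
import Fermat.Agent.S14.helper91_FieldObstruction

/-!
# P1 (S56), TW: the matrix model of `M' = ad⁰(ρbar)^*(1)` (helper91, task 610)

For a basis `b` of `ρbar.V`:

* `rhoGL ρbar b : GQ →* GL (Fin 2) k` : `ρbar` in matrix form;
* `det_rhoGL` : `det (rhoGL g) = chiK p g` if the determinant of `ρbar` is cyclotomic;
* `matAd0 ρbar b : Ad0 ρbar →ₗ[k] Matrix (Fin 2) (Fin 2) k` : injective, image = trace zero;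
* `toMat ρbar p b h2 : M' →ₗ[ZMod p] Matrix (Fin 2) (Fin 2) k` : injective, image = trace zero,
  `toMat (g • f) = helper3.tw (rhoGL g) (toMat f)`.
-/

set_option autoImplicit false
set_option linter.unusedSectionVars false
set_option linter.unusedVariables false
set_option linter.style.haveILetI false

open IsLocalRing ExtCitation groupCohomology Polynomial

noncomputable section

namespace Fermat.Agent.P1.helper91

open Fermat.Agent.S55 Fermat.Agent.P1.helper70

variable {k : Type} [Field k] [Finite k] (ρbar : ResidualGaloisRep k)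
  (p : ℕ) [Fact p.Prime] [Algebra (ZMod p) k] (b : Module.Basis (Fin 2) k ρbar.V)

/-- `ρbar` in matrix form. -/
def rhoGL : GQ →* GL (Fin 2) k :=
  (Units.map ((LinearMap.toMatrixAlgEquiv b : Module.End k ρbar.V ≃ₐ[k] Matrix (Fin 2) (Fin 2) k) :
    Module.End k ρbar.V →* Matrix (Fin 2) (Fin 2) k)).comp ρbar.ρ.toHomUnits

theorem coe_rhoGL (g : GQ) :
    ((rhoGL ρbar b g : GL (Fin 2) k) : Matrix (Fin 2) (Fin 2) k) =
      LinearMap.toMatrix b b (ρbar.ρ g) := rfl

theorem coe_rhoGL_inv (g : GQ) :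
    (((rhoGL ρbar b g)⁻¹ : GL (Fin 2) k) : Matrix (Fin 2) (Fin 2) k) =
      LinearMap.toMatrix b b (ρbar.ρ g⁻¹) := by
  rw [← map_inv, coe_rhoGL]

theorem rhoGL_eq_one_iff (g : GQ) : rhoGL ρbar b g = 1 ↔ ρbar.ρ g = 1 := by
  constructor
  · intro h
    have h1 := congrArg (fun u : GL (Fin 2) k => (u : Matrix (Fin 2) (Fin 2) k)) h
    simp only [coe_rhoGL, Units.val_one] at h1
    apply (LinearMap.toMatrix b b).injective
    rw [h1, LinearMap.toMatrix_one]
  · intro h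
    apply Units.ext
    rw [coe_rhoGL, h, LinearMap.toMatrix_one, Units.val_one]

theorem charpoly_rhoGL (g : GQ) :
    ((rhoGL ρbar b g : GL (Fin 2) k) : Matrix (Fin 2) (Fin 2) k).charpoly =
      LinearMap.charpoly (ρbar.ρ g) := by
  rw [coe_rhoGL, LinearMap.charpoly_toMatrix]


/-! ## The determinant -/

/-- The characteristic of `k` is `p`. -/
theorem charP_of_algebra : CharP k p := by
  haveI : CharP (ZMod p) p := ZMod.charP p
  exact charP_of_injective_algebraMap (algebraMap (ZMod p) k).injective p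

theorem natCast_eq_zero_k : ((p : ℕ) : k) = 0 := by
  haveI := charP_of_algebra (k := k) p
  exact CharP.cast_eq_zero k p

/-- If the determinant of `ρbar` is cyclotomic, then `det (ρbar g) = χ(g)` in `k`. -/
theorem det_eq_chiK (hdet : (GaloisRepAdic.ofResidualGaloisRep ρbar).DetIsCyclotomic p)
    (g : GQ) : LinearMap.det (ρbar.ρ g) = ((chiK (k := k) p g : kˣ) : k) := by
  have h := hdet.2 1 g (cycloExp p g) (fun μ hμ => by
    rw [pow_one] at hμ
    exact Fermat.Agent.S14.helper91.apply_of_pow_eq_one p g hμ)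
  have h0 : ((p ^ 1 : ℕ) : k) = 0 := by rw [pow_one]; exact natCast_eq_zero_k p
  rw [h0] at h
  have h1 : LinearMap.det (ρbar.ρ g) - ((cycloExp p g : ℕ) : k) = 0 := by
    have : (Ideal.span {(0 : k)} : Ideal k) = ⊥ := Ideal.span_singleton_eq_bot.mpr rfl
    rw [this] at h
    exact h
  rw [coe_chiK, coe_cycloChar, map_natCast]
  exact sub_eq_zero.mp h1

theorem det_rhoGL (hdet : (GaloisRepAdic.ofResidualGaloisRep ρbar).DetIsCyclotomic p)
    (g : GQ) : Matrix.GeneralLinearGroup.det (rhoGL ρbar b g) = chiK (k := k) p g := by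
  apply Units.ext
  rw [Matrix.GeneralLinearGroup.val_det_apply, coe_rhoGL, LinearMap.det_toMatrix]
  exact det_eq_chiK ρbar p hdet g

/-! ## Trace-zero matrices -/

/-- `Ad0` in matrix form. -/
def matAd0 : Ad0 ρbar →ₗ[k] Matrix (Fin 2) (Fin 2) k :=
  (LinearMap.toMatrix b b : Module.End k ρbar.V ≃ₗ[k] Matrix (Fin 2) (Fin 2) k).toLinearMap ∘ₗ
    Ad0.toEnd ρbar

theorem matAd0_apply (X : Ad0 ρbar) :
    matAd0 ρbar b X = LinearMap.toMatrix b b (Ad0.toEnd ρbar X) := rfl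

theorem matAd0_injective : Function.Injective (matAd0 ρbar b) :=
  (LinearMap.toMatrix b b).injective.comp (Ad0.toEnd_injective ρbar)

theorem trace_matAd0 (X : Ad0 ρbar) : (matAd0 ρbar b X).trace = 0 := by
  rw [matAd0_apply, ← LinearMap.trace_eq_matrix_trace k b]
  exact Ad0.trace_toEnd ρbar X

theorem exists_matAd0_eq {X : Matrix (Fin 2) (Fin 2) k} (hX : X.trace = 0) :
    ∃ Y : Ad0 ρbar, matAd0 ρbar b Y = X := by
  have h1 : LinearMap.trace k ρbar.V (Matrix.toLin b b X) = 0 := by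
    rw [LinearMap.trace_eq_matrix_trace k b, LinearMap.toMatrix_toLin, hX]
  obtain ⟨Y, hY⟩ := exists_toEnd_eq ρbar h1
  exact ⟨Y, by rw [matAd0_apply, hY, LinearMap.toMatrix_toLin]⟩

theorem matAd0_ad0Hom (g : GQ) (X : Ad0 ρbar) :
    matAd0 ρbar b (ad0Hom ρbar g X) =
      ((rhoGL ρbar b g : GL (Fin 2) k) : Matrix (Fin 2) (Fin 2) k) * matAd0 ρbar b X *
        (((rhoGL ρbar b g)⁻¹ : GL (Fin 2) k) : Matrix (Fin 2) (Fin 2) k) := by
  rw [matAd0_apply, toEnd_ad0Hom, coe_rhoGL, coe_rhoGL_inv, matAd0_apply,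
    LinearMap.toMatrix_mul, LinearMap.toMatrix_mul]

/-! ## The matrix model of `M'` -/

/-- The matrix of an element of `M' = ad⁰(ρbar)^*(1)` (via the trace pairing). -/
def toMat (h2 : (2 : k) ≠ 0) :
    ↑((ad0Rep ρbar p).dualTwist (cycloChar p)) →ₗ[ZMod p] Matrix (Fin 2) (Fin 2) k :=
  ((matAd0 ρbar b).restrictScalars (ZMod p)) ∘ₗ
    ((trPairEquiv ρbar p h2).symm : Module.Dual (ZMod p) (Ad0 ρbar) →ₗ[ZMod p] Ad0 ρbar)

theorem toMat_trPairHom (h2 : (2 : k) ≠ 0) (X : Ad0 ρbar) :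
    toMat ρbar p b h2 (trPairHom ρbar p X) = matAd0 ρbar b X := by
  change matAd0 ρbar b ((trPairEquiv ρbar p h2).symm (trPairEquiv ρbar p h2 X)) = _
  rw [LinearEquiv.symm_apply_apply]

theorem exists_trPairHom_eq (h2 : (2 : k) ≠ 0)
    (f : ↑((ad0Rep ρbar p).dualTwist (cycloChar p))) :
    ∃ X : Ad0 ρbar, trPairHom ρbar p X = f :=
  ⟨(trPairEquiv ρbar p h2).symm f, (trPairEquiv ρbar p h2).apply_symm_apply f⟩

theorem toMat_injective (h2 : (2 : k) ≠ 0) : Function.Injective (toMat ρbar p b h2) :=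
  (matAd0_injective ρbar b).comp (trPairEquiv ρbar p h2).symm.injective

theorem trace_toMat (h2 : (2 : k) ≠ 0) (f : ↑((ad0Rep ρbar p).dualTwist (cycloChar p))) :
    (toMat ρbar p b h2 f).trace = 0 :=
  trace_matAd0 ρbar b _

theorem exists_toMat_eq (h2 : (2 : k) ≠ 0) {X : Matrix (Fin 2) (Fin 2) k} (hX : X.trace = 0) :
    ∃ f : ↑((ad0Rep ρbar p).dualTwist (cycloChar p)), toMat ρbar p b h2 f = X := by
  obtain ⟨Y, hY⟩ := exists_matAd0_eq ρbar b hX
  exact ⟨trPairHom ρbar p Y, by rw [toMat_trPairHom, hY]⟩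

/-- **Equivariance** of the matrix model. -/
theorem toMat_ρ (h2 : (2 : k) ≠ 0) (g : GQ)
    (f : ↑((ad0Rep ρbar p).dualTwist (cycloChar p))) :
    toMat ρbar p b h2 (((ad0Rep ρbar p).dualTwist (cycloChar p)).ρ g f) =
      ((chiK (k := k) p g : kˣ) : k) •
        (((rhoGL ρbar b g : GL (Fin 2) k) : Matrix (Fin 2) (Fin 2) k) * toMat ρbar p b h2 f *
          (((rhoGL ρbar b g)⁻¹ : GL (Fin 2) k) : Matrix (Fin 2) (Fin 2) k)) := by
  obtain ⟨X, rfl⟩ := exists_trPairHom_eq ρbar p h2 f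
  rw [trPairHom_twist, toMat_trPairHom, toMat_trPairHom, map_smul, matAd0_ad0Hom]

/-- **Equivariance**, in the vocabulary of TW-GT (`helper3.tw`). -/
theorem toMat_ρ_tw (h2 : (2 : k) ≠ 0)
    (hdet : (GaloisRepAdic.ofResidualGaloisRep ρbar).DetIsCyclotomic p) (g : GQ)
    (f : ↑((ad0Rep ρbar p).dualTwist (cycloChar p))) :
    toMat ρbar p b h2 (((ad0Rep ρbar p).dualTwist (cycloChar p)).ρ g f) =
      Fermat.Agent.P1.helper3.tw (rhoGL ρbar b g) (toMat ρbar p b h2 f) := by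
  rw [toMat_ρ, Fermat.Agent.P1.helper3.tw, det_rhoGL ρbar p b hdet]

end Fermat.Agent.P1.helper91
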