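import Mathlib
import Fermat.Agent.P1.helper91_TWSigmaMat
import Fermat.Agent.P1.helper91_TWSelCheb

/-!
# P1 (S56), TW: `SigmaStatement` from the group theory of TW-GT (helper91, task 610)

`sigma_of_gt` : `SigmaStatement p ρbar Smin (ad0Dual)` from three group-theoretic inputs, stated
for `G = GQ`, `rho = rhoGL ρbar b`, with matrix cocycles for the twisted action `helper3.tw`:

* `GtBIn`   (GT-B)  : a normal subgroup containing all commutators contains an element with two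
                      distinct eigenvalues;
* `GtSigIn` (GT-SIG): the choice of `σ` in a coset `H₀ σ₀`;
* `GtCIn`   (GT-C)  : a cocycle which is constant on the cosets of a normal subgroup
                      `H ≤ ker ρbar` containing `[G, ker ρbar]` is a coboundary.
-/

set_option autoImplicit false
set_option linter.unusedSectionVars false
set_option linter.unusedVariables false
set_option linter.style.haveILetI false

open IsLocalRing ExtCitation groupCohomology Polynomial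

noncomputable section

namespace Fermat.Agent.P1.helper91

open Fermat.Agent.S55 Fermat.Agent.P1.helper70 Fermat.Agent.P1.helper3

local notation "Qbar" => AlgebraicClosure ℚ

/-! ## The subgroup fixing the `p^(n+1)`-th roots of unity -/

/-- `H_n = Gal(ℚbar / ℚ(ζ_{p^(n+1)}))`. -/
def fixRoots (p n : ℕ) : Subgroup GQ where
  carrier := {g | FixesRoots p n g}
  one_mem' := fun μ _ => rfl
  mul_mem' := fun {g h} hg hh μ hμ => by
    rw [AlgEquiv.mul_apply, hh μ hμ, hg μ hμ]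
  inv_mem' := fun {g} hg μ hμ => by
    have h1 := hg μ hμ
    calc g⁻¹ μ = g⁻¹ (g μ) := by rw [h1]
      _ = μ := g.symm_apply_apply μ

theorem mem_fixRoots {p n : ℕ} {g : GQ} : g ∈ fixRoots p n ↔ FixesRoots p n g := Iff.rfl

theorem apply_pow_eq_one {m : ℕ} (g : GQ) {μ : Qbar} (hμ : μ ^ m = 1) : (g μ) ^ m = 1 := by
  rw [← map_pow, hμ, map_one]

instance fixRoots_normal (p n : ℕ) : (fixRoots p n).Normal where
  conj_mem := fun h hh g μ hμ => by
    have h1 : (g⁻¹ μ) ^ p ^ (n + 1) = 1 := apply_pow_eq_one g⁻¹ hμ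
    have h2 := hh (g⁻¹ μ) h1
    calc (g * h * g⁻¹) μ = g (h (g⁻¹ μ)) := rfl
      _ = g (g⁻¹ μ) := by rw [h2]
      _ = μ := g.apply_symm_apply μ

/-- Two automorphisms commute on the `p^(n+1)`-th roots of unity. -/
theorem mul_apply_comm_of_pow_eq_one (p : ℕ) [hp : Fact p.Prime] (n : ℕ) (g h : GQ) {μ : Qbar}
    (hμ : μ ^ p ^ (n + 1) = 1) : (g * h) μ = (h * g) μ := by
  have : NeZero (p ^ (n + 1)) := ⟨pow_ne_zero _ hp.out.ne_zero⟩
  obtain ⟨ζ, hζ⟩ := HasEnoughRootsOfUnity.exists_primitiveRoot Qbar (p ^ (n + 1))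
  obtain ⟨i, -, rfl⟩ := hζ.eq_pow_of_pow_eq_one hμ
  obtain ⟨a, -, ha⟩ := hζ.eq_pow_of_pow_eq_one (apply_pow_eq_one g hζ.pow_eq_one)
  obtain ⟨b, -, hb⟩ := hζ.eq_pow_of_pow_eq_one (apply_pow_eq_one h hζ.pow_eq_one)
  have hg : g ζ = ζ ^ a := ha.symm
  have hh : h ζ = ζ ^ b := hb.symm
  have e1 : (g * h) (ζ ^ i) = ζ ^ (a * b * i) := by
    rw [AlgEquiv.mul_apply, map_pow, hh, map_pow, map_pow, hg, ← pow_mul, ← pow_mul, mul_assoc]
  have e2 : (h * g) (ζ ^ i) = ζ ^ (b * a * i) := by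
    rw [AlgEquiv.mul_apply, map_pow, hg, map_pow, map_pow, hh, ← pow_mul, ← pow_mul, mul_assoc]
  rw [e1, e2, mul_comm a b]

/-- `H_n` contains all commutators. -/
theorem commutator_mem_fixRoots (p : ℕ) [hp : Fact p.Prime] (n : ℕ) (g h : GQ) :
    g * h * g⁻¹ * h⁻¹ ∈ fixRoots p n := by
  intro μ hμ
  have h1 : ((h * g)⁻¹ μ) ^ p ^ (n + 1) = 1 := apply_pow_eq_one _ hμ
  have h2 := mul_apply_comm_of_pow_eq_one p n g h h1
  have e : g * h * g⁻¹ * h⁻¹ = (g * h) * (h * g)⁻¹ := by group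
  rw [e, AlgEquiv.mul_apply, h2, ← AlgEquiv.mul_apply, mul_inv_cancel]
  rfl

/-- Elements of `H_n` have trivial mod `p` cyclotomic character. -/
theorem cycloChar_eq_one_of_mem_fixRoots (p : ℕ) [hp : Fact p.Prime] (n : ℕ) {g : GQ}
    (hg : g ∈ fixRoots p n) : cycloChar p g = 1 := by
  obtain ⟨ζ, hζ⟩ := Fermat.Agent.S14.helper91.exists_primitiveRoot p
  have h1 : g ∈ (cycloChar p).ker := by
    rw [Fermat.Agent.S14.helper91.mem_ker_cycloChar_iff p hζ]
    refine hg ζ ?_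
    rw [pow_succ, pow_mul', hζ.pow_eq_one, one_pow]
  exact h1


/-! ## The inputs from TW-GT -/

section Asm

variable {k : Type} [Field k] [Finite k] (ρbar : ResidualGaloisRep k)
  (p : ℕ) [Fact p.Prime] [Algebra (ZMod p) k] (b : Module.Basis (Fin 2) k ρbar.V)

/-- Matrix cocycles on `GQ` with values in `ad⁰(1)` (twisted action `helper3.tw`). -/
def IsMatCocycle (c : GQ → Matrix (Fin 2) (Fin 2) k) : Prop :=
  (∀ g, (c g).trace = 0) ∧ ∀ g h, c (g * h) = c g + tw (rhoGL ρbar b g) (c h)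

/-- Matrix coboundaries on `GQ`. -/
def IsMatCoboundary (c : GQ → Matrix (Fin 2) (Fin 2) k) : Prop :=
  ∃ X : Matrix (Fin 2) (Fin 2) k, X.trace = 0 ∧ ∀ g, c g = tw (rhoGL ρbar b g) X - X

/-- INPUT (GT-B): a normal subgroup containing all commutators contains an element with two
distinct eigenvalues. -/
def GtBIn : Prop :=
  ∀ N : Subgroup GQ, N.Normal → (∀ g h : GQ, g * h * g⁻¹ * h⁻¹ ∈ N) →
    ∃ g ∈ N, DistinctEigen ρbar g

/-- INPUT (GT-SIG): the choice of `σ` in the coset `H₀ σ₀`. -/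
def GtSigIn : Prop :=
  ∀ c : GQ → Matrix (Fin 2) (Fin 2) k, IsMatCocycle ρbar b c →
    ∀ H₀ : Subgroup GQ, H₀.Normal → (∀ h ∈ H₀, ρbar.ρ h = 1 ∧ cycloChar p h = 1) →
      (∃ h ∈ H₀, c h ≠ 0) →
      ∀ σ₀ : GQ, DistinctEigen ρbar σ₀ → cycloChar p σ₀ = 1 →
        ∃ h ∈ H₀, ∀ X : Matrix (Fin 2) (Fin 2) k, X.trace = 0 →
          c (h * σ₀) ≠ tw (rhoGL ρbar b σ₀) X - X

/-- INPUT (GT-C with GT-RED): a cocycle which is constant on the cosets of a normal subgroup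
`H ≤ ker ρbar` containing `[GQ, ker ρbar]` is a coboundary. -/
def GtCIn : Prop :=
  ∀ H : Subgroup GQ, H.Normal → (∀ h ∈ H, ρbar.ρ h = 1) →
    (∀ g h : GQ, ρbar.ρ h = 1 → g * h * g⁻¹ * h⁻¹ ∈ H) →
    ∀ c : GQ → Matrix (Fin 2) (Fin 2) k, IsMatCocycle ρbar b c →
      (∀ g, ∀ h ∈ H, c (g * h) = c g) → IsMatCoboundary ρbar b c

/-! ## Translation of cocycles -/

variable {ρbar p b}

theorem rhoGL_mul_of_eq_one {g h : GQ} (hh : ρbar.ρ h = 1) :
    rhoGL ρbar b (h * g) = rhoGL ρbar b g := by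
  rw [map_mul, (rhoGL_eq_one_iff ρbar b h).mpr hh, one_mul]

theorem distinctEigen_mul_of_eq_one {g h : GQ} (hh : ρbar.ρ h = 1)
    (hg : DistinctEigen ρbar g) : DistinctEigen ρbar (h * g) := by
  obtain ⟨α, β, hαβ, hch⟩ := hg
  exact ⟨α, β, hαβ, by rw [map_mul, hh, one_mul]; exact hch⟩

/-- The matrix cocycle of a cocycle with values in `M'`. -/
theorem isMatCocycle_toMat (h2 : (2 : k) ≠ 0)
    (hdet : (GaloisRepAdic.ofResidualGaloisRep ρbar).DetIsCyclotomic p)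
    {c : GQ → ↑((ad0Rep ρbar p).dualTwist (cycloChar p))}
    (hc : c ∈ LinearMap.ker (d₁₂ ((ad0Rep ρbar p).dualTwist (cycloChar p))).hom) :
    IsMatCocycle ρbar b (fun g => toMat ρbar p b h2 (c g)) := by
  refine ⟨fun g => trace_toMat ρbar p b h2 _, fun g h => ?_⟩
  show toMat ρbar p b h2 (c (g * h)) = _
  rw [cocycle_mul hc g h, map_add, toMat_ρ_tw ρbar p b h2 hdet]

/-- **SigmaStatement from TW-GT.** -/
theorem sigma_of_gt (h2 : (2 : k) ≠ 0)
    (hdet : (GaloisRepAdic.ofResidualGaloisRep ρbar).DetIsCyclotomic p)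
    (T : Finset Nat.Primes) (hB : GtBIn ρbar) (hSig : GtSigIn ρbar p b) (hC : GtCIn ρbar b) :
    SigmaStatement p ρbar T ((ad0Rep ρbar p).dualTwist (cycloChar p)) := by
  intro n c hc
  have hc' := isMatCocycle_toMat (b := b) h2 hdet hc.2
  obtain ⟨σ₀, hσ₀, hdist⟩ := hB (fixRoots p n) inferInstance (commutator_mem_fixRoots p n)
  by_cases hcB : c ∈ B1 ((ad0Rep ρbar p).dualTwist (cycloChar p))
  · exact ⟨σ₀, hσ₀, hdist, fun h => absurd hcB h⟩
  -- the subgroup `U_n`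
  let U : Subgroup GQ := fixRoots p n ⊓ (rhoGL ρbar b).ker
  have hUn : U.Normal := inferInstance
  have hUρ : ∀ h ∈ U, ρbar.ρ h = 1 := fun h hh =>
    (rhoGL_eq_one_iff ρbar b h).mp (MonoidHom.mem_ker.mp hh.2)
  have hUχ : ∀ h ∈ U, ρbar.ρ h = 1 ∧ cycloChar p h = 1 := fun h hh =>
    ⟨hUρ h hh, cycloChar_eq_one_of_mem_fixRoots p n hh.1⟩
  have hcomm : ∀ g h : GQ, ρbar.ρ h = 1 → g * h * g⁻¹ * h⁻¹ ∈ U := by
    intro g h hh
    refine ⟨commutator_mem_fixRoots p n g h, ?_⟩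
    show g * h * g⁻¹ * h⁻¹ ∈ (rhoGL ρbar b).ker
    rw [MonoidHom.mem_ker, map_mul, map_mul, map_mul, map_inv, map_inv,
      (rhoGL_eq_one_iff ρbar b h).mpr hh]
    group
  have hne : ∃ h ∈ U, toMat ρbar p b h2 (c h) ≠ 0 := by
    by_contra hcon0
    have hcon : ∀ h ∈ U, toMat ρbar p b h2 (c h) = 0 := fun h hh => by
      by_contra h0
      exact hcon0 ⟨h, hh, h0⟩
    have hconst : ∀ g, ∀ h ∈ U, toMat ρbar p b h2 (c (g * h)) = toMat ρbar p b h2 (c g) := by
      intro g h hh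
      have := hc'.2 g h
      simp only at this
      rw [this, hcon h hh, tw_zero, add_zero]
    obtain ⟨X, hX0, hX⟩ := hC U hUn hUρ hcomm _ hc' hconst
    obtain ⟨m, hm⟩ := exists_toMat_eq ρbar p b h2 hX0
    apply hcB
    refine ⟨m, ?_⟩
    funext g
    apply toMat_injective ρbar p b h2
    have h3 := hX g
    simp only at h3
    rw [h3, ← hm, ← toMat_ρ_tw ρbar p b h2 hdet, ← map_sub]
    rfl
  obtain ⟨h, hh, hsig⟩ := hSig _ hc' U hUn hUχ hne σ₀ hdist
    (cycloChar_eq_one_of_mem_fixRoots p n hσ₀)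
  refine ⟨h * σ₀, (fixRoots p n).mul_mem hh.1 hσ₀,
    distinctEigen_mul_of_eq_one (hUρ h hh) hdist, fun _ m hm => ?_⟩
  refine hsig (toMat ρbar p b h2 m) (trace_toMat ρbar p b h2 m) ?_
  show toMat ρbar p b h2 (c (h * σ₀)) = _
  rw [hm, map_sub, toMat_ρ_tw ρbar p b h2 hdet, rhoGL_mul_of_eq_one (hUρ h hh)]

end Asm

end Fermat.Agent.P1.helper91
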