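import Fermat.Agent.P1.helper91_TWSelFinal
import Fermat.Agent.P1.helper91_TWSigmaAsm

/-!
# P1 (S56), module TW: `TWOut` from the three group-theoretic inputs of TW-GT (helper91)

`twOut_of_gt : Setting → GtBIn → GtSigIn → GtCIn → TWOut p ρbar S Smin`.
-/

set_option autoImplicit false
set_option linter.unusedSectionVars false

open IsLocalRing ExtCitation

noncomputable section

namespace Fermat.Agent.P1.helper91

open Fermat.Agent.S55 Fermat.Agent.P1.helper70

variable {𝒪 : Type} [CommRing 𝒪] [IsDomain 𝒪] [IsDiscreteValuationRing 𝒪]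
  [IsAdicComplete (maximalIdeal 𝒪) 𝒪] [Finite (ResidueField 𝒪)]
  {p : ℕ} [Fact p.Prime]
  {ρbar : ResidualGaloisRep (ResidueField 𝒪)}
  {S Smin : Finset ℕ} [Algebra (ZMod p) (ResidueField 𝒪)]

/-- `2 ≠ 0` in a field which is an algebra over `ZMod p`, `p` odd. -/
theorem two_ne_zero_of_algebra {k : Type} [Field k] (p : ℕ) [Fact p.Prime] [Algebra (ZMod p) k]
    (hp2 : p ≠ 2) : (2 : k) ≠ 0 := by
  haveI : CharP (ZMod p) p := ZMod.charP p
  haveI : CharP k p := charP_of_injective_algebraMap (algebraMap (ZMod p) k).injective p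
  intro h
  have h1 : ((2 : ℕ) : k) = 0 := by exact_mod_cast h
  rw [CharP.cast_eq_zero_iff k p] at h1
  exact hp2 ((Nat.prime_dvd_prime_iff_eq (Fact.out : p.Prime) Nat.prime_two).mp h1)

/-- `SigmaStatement` for `M' = ad0Dual` under the hypotheses of S56, from TW-GT. -/
theorem sigma_of_setting (hset : Setting 𝒪 p ρbar S Smin)
    (b : Module.Basis (Fin 2) (ResidueField 𝒪) ρbar.V)
    (hB : GtBIn ρbar) (hSig : GtSigIn ρbar p b) (hC : GtCIn ρbar b) :
    SigmaStatement p ρbar (primesOf Smin) (ad0Dual p ρbar) :=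
  sigma_of_gt (two_ne_zero_of_algebra p hset.hp2) hset.hdet (primesOf Smin) hB hSig hC

/-- **Module TW.**  `TWOut` (helper70's interface) from the three inputs of TW-GT. -/
theorem twOut_of_gt (hset : Setting 𝒪 p ρbar S Smin)
    (b : Module.Basis (Fin 2) (ResidueField 𝒪) ρbar.V)
    (hB : GtBIn ρbar) (hSig : GtSigIn ρbar p b) (hC : GtCIn ρbar b) :
    TWOut p ρbar S Smin :=
  twOut hset (sigma_of_setting hset b hB hSig hC)

end Fermat.Agent.P1.helper91
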