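import Mathlib
import Fermat.Agent.P1.helper91_TWSigmaMat
import Fermat.Agent.S54.helper91_Frobenius

/-!
# P1 (S56), TW: the hypotheses of S56 in matrix form (helper91, task 610, DICT-3)

For `G = GQ`, `rho = rhoGL ρbar b`:

* `NoEigenOn ρbar b G'` : the matrices `rho g`, `g ∈ G'`, have no common eigenvector over any
  field `K ⊇ k`;
* `noEigenOn_of_hTW`   : `NoEigenOn` for every subgroup of index `2`, from the hypothesis `hTW`
  of S56;
* `exists_index_two`, `noEigenOn_top` : the same for `G' = ⊤`;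
* `splits_rhoGL`       : the characteristic polynomials split (hypothesis `hsplit`);
* `cycloChar_surjective` : the mod `p` cyclotomic character is onto `(ZMod p)ˣ`.
-/

set_option autoImplicit false
set_option linter.unusedSectionVars false
set_option linter.unusedVariables false
set_option linter.style.haveILetI false

open IsLocalRing ExtCitation Polynomial

open scoped TensorProduct

noncomputable section

namespace Fermat.Agent.P1.helper91

open Fermat.Agent.S55 Fermat.Agent.P1.helper70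

local notation "Qbar" => AlgebraicClosure ℚ

variable {k : Type} [Field k] [Finite k] (ρbar : ResidualGaloisRep k)
  (b : Module.Basis (Fin 2) k ρbar.V)

/-- The matrices `rhoGL g`, `g ∈ G'`, have no common eigenvector over any extension of `k`. -/
def NoEigenOn (G' : Subgroup GQ) : Prop :=
  ∀ (K : Type) [Field K] [Algebra k K] (v : Fin 2 → K), v ≠ 0 →
    ∃ g ∈ G', ∀ a : K,
      ((rhoGL ρbar b g : Matrix (Fin 2) (Fin 2) k).map (algebraMap k K)).mulVec v ≠ a • v

theorem NoEigenOn.mono {G' G'' : Subgroup GQ} (h : G' ≤ G'') (hG' : NoEigenOn ρbar b G') :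
    NoEigenOn ρbar b G'' := fun K _ _ v hv => by
  obtain ⟨g, hg, hga⟩ := hG' K v hv
  exact ⟨g, h hg, hga⟩

/-- `hTW` of S56 in matrix form. -/
theorem noEigenOn_of_hTW
    (hTW : ∀ (K : Type) [Field K] [Algebra k K] (G : Subgroup GQ), G.index = 2 →
      ∀ V : Submodule K (ρbar.baseChange K).V,
        (∀ σ ∈ G, ∀ x ∈ V, (ρbar.baseChange K).ρ σ x ∈ V) → V = ⊥ ∨ V = ⊤)
    (G' : Subgroup GQ) (hG' : G'.index = 2) : NoEigenOn ρbar b G' := by
  intro K _ _ v hv
  by_contra hcon0
  have hcon : ∀ g ∈ G', ∃ a : K,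
      ((rhoGL ρbar b g : Matrix (Fin 2) (Fin 2) k).map (algebraMap k K)).mulVec v = a • v := by
    intro g hg
    by_contra h0
    exact hcon0 ⟨g, hg, fun a ha => h0 ⟨a, ha⟩⟩
  let bK : Module.Basis (Fin 2) K (K ⊗[k] ρbar.V) := Algebra.TensorProduct.basis K b
  let x : K ⊗[k] ρbar.V := bK.equivFun.symm v
  have hxv : (bK.repr x : Fin 2 → K) = v := by
    rw [← Module.Basis.equivFun_apply]
    exact bK.equivFun.apply_symm_apply v
  have hx0 : x ≠ 0 := by
    intro h
    apply hv
    have := bK.equivFun.apply_symm_apply v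
    rw [show bK.equivFun.symm v = x from rfl, h, map_zero] at this
    exact this.symm
  have hstab : ∀ σ ∈ G', ∀ y ∈ Submodule.span K {x},
      (ρbar.baseChange K).ρ σ y ∈ Submodule.span K {x} := by
    intro σ hσ y hy
    obtain ⟨c, rfl⟩ := Submodule.mem_span_singleton.mp hy
    obtain ⟨a, ha⟩ := hcon σ hσ
    have h1 : (ρbar.baseChange K).ρ σ x = a • x := by
      apply bK.equivFun.injective
      rw [map_smul, show bK.equivFun x = v from bK.equivFun.apply_symm_apply v, ← ha]
      have h2 := LinearMap.toMatrix_mulVec_repr bK bK ((ρbar.ρ σ).baseChange K) x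
      rw [LinearMap.toMatrix_baseChange] at h2
      rw [hxv] at h2
      rw [coe_rhoGL, h2]
      rfl
    rw [map_smul, h1]
    exact Submodule.smul_mem _ _ (Submodule.smul_mem _ _ (Submodule.mem_span_singleton_self x))
  rcases hTW K G' hG' (Submodule.span K {x}) hstab with h | h
  · exact hx0 ((Submodule.span_singleton_eq_bot).mp h)
  · have h1 : Module.finrank K (Submodule.span K {x}) = 1 := finrank_span_singleton hx0
    rw [h, finrank_top, Module.finrank_eq_card_basis bK, Fintype.card_fin] at h1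
    exact absurd h1 (by norm_num)


/-! ## A subgroup of index two -/

/-- `Gal(ℚbar/ℚ)` has a subgroup of index `2` (the fixing subgroup of `ℚ(√-1)`). -/
theorem exists_index_two : ∃ G' : Subgroup GQ, G'.index = 2 := by
  obtain ⟨i, hi⟩ := IsAlgClosed.exists_pow_nat_eq (-1 : Qbar) (n := 2) (by norm_num)
  have hirr : Irreducible (X ^ 2 - C (-1 : ℚ)) := by
    rw [X_pow_sub_C_irreducible_iff_of_prime Nat.prime_two]
    intro b hb
    have := sq_nonneg b
    rw [hb] at this
    norm_num at this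
  have hmonic : (X ^ 2 - C (-1 : ℚ)).Monic := monic_X_pow_sub_C _ (by norm_num)
  have hroot : aeval i (X ^ 2 - C (-1 : ℚ)) = 0 := by
    simp [hi]
  have hmin : minpoly ℚ i = X ^ 2 - C (-1 : ℚ) :=
    (minpoly.eq_of_irreducible_of_monic hirr hroot hmonic).symm
  have hint : IsIntegral ℚ i := ⟨_, hmonic, by simpa [aeval_def] using hroot⟩
  haveI := Fermat.Agent.S54.helper91.isGalois_Qbar
  refine ⟨(IntermediateField.adjoin ℚ {i}).fixingSubgroup, ?_⟩
  rw [← IntermediateField.finrank_eq_fixingSubgroup_index, IntermediateField.adjoin.finrank hint,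
    hmin]
  exact natDegree_X_pow_sub_C

theorem noEigenOn_top
    (hTW : ∀ (K : Type) [Field K] [Algebra k K] (G : Subgroup GQ), G.index = 2 →
      ∀ V : Submodule K (ρbar.baseChange K).V,
        (∀ σ ∈ G, ∀ x ∈ V, (ρbar.baseChange K).ρ σ x ∈ V) → V = ⊥ ∨ V = ⊤) :
    NoEigenOn ρbar b ⊤ := by
  obtain ⟨G', hG'⟩ := exists_index_two
  exact (noEigenOn_of_hTW ρbar b hTW G' hG').mono ρbar b le_top

/-! ## Splitting -/

theorem splits_rhoGL
    (hsplit : ∀ σ : GQ, ∃ α β : k, LinearMap.charpoly (ρbar.ρ σ) = (X - C α) * (X - C β))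
    (g : GQ) : ∃ α β : k,
      ((rhoGL ρbar b g : GL (Fin 2) k) : Matrix (Fin 2) (Fin 2) k).charpoly =
        (X - C α) * (X - C β) := by
  obtain ⟨α, β, h⟩ := hsplit g
  exact ⟨α, β, by rw [charpoly_rhoGL, h]⟩

/-! ## Surjectivity of the cyclotomic character -/

/-- The mod `p` cyclotomic character of `Gal(ℚbar/ℚ)` is onto `(ZMod p)ˣ`. -/
theorem cycloChar_surjective (p : ℕ) [hp : Fact p.Prime] :
    Function.Surjective (cycloChar p) := by
  intro a
  haveI : NeZero p := ⟨hp.out.ne_zero⟩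
  obtain ⟨ζ, hζ⟩ := Fermat.Agent.S14.helper91.exists_primitiveRoot p
  have hcop : Nat.Coprime (a : ZMod p).val p := ZMod.val_coe_unit_coprime a
  have hζa : IsPrimitiveRoot (ζ ^ (a : ZMod p).val) p := hζ.pow_of_coprime _ hcop
  have hmin : minpoly ℚ (ζ ^ (a : ZMod p).val) = cyclotomic p ℚ :=
    (cyclotomic_eq_minpoly_rat hζa hp.out.pos).symm
  have hroot : aeval ζ (minpoly ℚ (ζ ^ (a : ZMod p).val)) = 0 := by
    rw [hmin, aeval_def, eval₂_eq_eval_map, map_cyclotomic]
    exact hζ.isRoot_cyclotomic hp.out.pos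
  haveI := Fermat.Agent.S54.helper91.normal_Qbar
  obtain ⟨σ, hσ⟩ := minpoly.exists_algEquiv_of_root
    (Algebra.IsAlgebraic.isAlgebraic (R := ℚ) (ζ ^ (a : ZMod p).val)) hroot
  refine ⟨σ, ?_⟩
  have h1 := Fermat.Agent.S14.helper91.apply_of_pow_eq_one p σ hζ.pow_eq_one
  rw [hσ] at h1
  have h2 : (a : ZMod p).val = cycloExp p σ :=
    hζ.pow_inj (ZMod.val_lt _) (Fermat.Agent.S14.helper91.cycloExp_lt p σ) h1
  apply Units.ext
  apply ZMod.val_injective
  rw [val_cycloChar, h2]

end Fermat.Agent.P1.helper91
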