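import Mathlib
import Fermat.Agent.P1.helper91_GTB
import Fermat.Agent.P1.helper91_GTSig
import Fermat.Agent.P1.helper91_TWSigmaHyp
import Fermat.Agent.P1.helper91_TWFinal

/-!
# P1 (S56), TW-GT: the inputs `GtBIn` and `GtSigIn` of module TW under the hypotheses of S56
(helper91, task 700)

* `gtBIn_of_hyp`, `gtSigIn_of_hyp` : for a finite field `k` of odd characteristic `p`, from `hTW`,
  `hsplit`, `hdet`;
* `gtBIn_of_setting`, `gtSigIn_of_setting` : under `Setting`;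
* `twOut_of_gtC` : `Setting → GtCIn → TWOut`.
-/

set_option autoImplicit false
set_option linter.unusedSectionVars false
set_option linter.unusedVariables false
set_option linter.style.haveILetI false

open IsLocalRing ExtCitation Polynomial

noncomputable section

namespace Fermat.Agent.P1.helper91

open Fermat.Agent.S55 Fermat.Agent.P1.helper70 Fermat.Agent.P1.helper3

section Generic

variable {k : Type} [Field k] [Finite k] (ρbar : ResidualGaloisRep k)
  (b : Module.Basis (Fin 2) k ρbar.V)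

theorem noEigen_of_noEigenOn {G' : Subgroup GQ} (h : NoEigenOn ρbar b G') (K : Type) [Field K]
    [Algebra k K] : NoEigen (rhoGL ρbar b) G' K := fun v hv => h K v hv

/-- Square roots exist in the algebraic closure. -/
theorem exists_sq_algebraicClosure (d : k) :
    ∃ δ : AlgebraicClosure k, δ ^ 2 = algebraMap k (AlgebraicClosure k) d :=
  IsAlgClosed.exists_pow_nat_eq _ (by norm_num)

/-- **GT-B** for `ρbar`. -/
theorem gtBIn_of_hyp (h2 : (2 : k) ≠ 0)
    (hsplit : ∀ σ : GQ, ∃ α β : k, LinearMap.charpoly (ρbar.ρ σ) = (X - C α) * (X - C β))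
    (hTW : ∀ (K : Type) [Field K] [Algebra k K] (G : Subgroup GQ), G.index = 2 →
      ∀ V : Submodule K (ρbar.baseChange K).V,
        (∀ σ ∈ G, ∀ x ∈ V, (ρbar.baseChange K).ρ σ x ∈ V) → V = ⊥ ∨ V = ⊤) :
    GtBIn ρbar := by
  intro N hNn hN
  let b : Module.Basis (Fin 2) k ρbar.V := Module.finBasisOfFinrankEq k ρbar.V ρbar.finrank_eq
  obtain ⟨g, hg, α, β, hαβ, hch⟩ := gtB h2 (rhoGL ρbar b) (splits_rhoGL ρbar b hsplit)
    (noEigen_of_noEigenOn ρbar b (noEigenOn_top ρbar b hTW) k)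
    (fun G' hG' => noEigen_of_noEigenOn ρbar b (noEigenOn_of_hTW ρbar b hTW G' hG') k)
    N hNn hN
  exact ⟨g, hg, α, β, hαβ, by rw [← charpoly_rhoGL ρbar b, hch]⟩

/-- **GT-SIG** for `ρbar`. -/
theorem gtSigIn_of_hyp (p : ℕ) [Fact p.Prime] [Algebra (ZMod p) k] (h2 : (2 : k) ≠ 0)
    (hdet : (GaloisRepAdic.ofResidualGaloisRep ρbar).DetIsCyclotomic p)
    (hTW : ∀ (K : Type) [Field K] [Algebra k K] (G : Subgroup GQ), G.index = 2 →
      ∀ V : Submodule K (ρbar.baseChange K).V,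
        (∀ σ ∈ G, ∀ x ∈ V, (ρbar.baseChange K).ρ σ x ∈ V) → V = ⊥ ∨ V = ⊤) :
    GtSigIn ρbar p b := by
  intro c hc H₀ hH₀n hH₀ hne σ₀ hσ₀ hχ
  obtain ⟨α, β, hαβ, hch⟩ := hσ₀
  refine gtSig h2 (rhoGL ρbar b) (AlgebraicClosure k) exists_sq_algebraicClosure
    (noEigen_of_noEigenOn ρbar b (noEigenOn_top ρbar b hTW) _)
    (fun G' hG' => noEigen_of_noEigenOn ρbar b (noEigenOn_of_hTW ρbar b hTW G' hG') _)
    c hc.1 hc.2 H₀ hH₀n (fun h hh => (rhoGL_eq_one_iff ρbar b h).mpr (hH₀ h hh).1) hne σ₀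
    ⟨α, β, hαβ, by rw [charpoly_rhoGL, hch]⟩ ?_
  rw [← Matrix.GeneralLinearGroup.val_det_apply, det_rhoGL ρbar p b hdet, coe_chiK, hχ,
    Units.val_one, map_one]

end Generic

section Setting

variable {𝒪 : Type} [CommRing 𝒪] [IsDomain 𝒪] [IsDiscreteValuationRing 𝒪]
  [IsAdicComplete (maximalIdeal 𝒪) 𝒪] [Finite (ResidueField 𝒪)]
  {p : ℕ} [Fact p.Prime]
  {ρbar : ResidualGaloisRep (ResidueField 𝒪)}
  {S Smin : Finset ℕ} [Algebra (ZMod p) (ResidueField 𝒪)]

theorem gtBIn_of_setting (hset : Setting 𝒪 p ρbar S Smin) : GtBIn ρbar :=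
  gtBIn_of_hyp ρbar (two_ne_zero_of_algebra p hset.hp2) hset.hsplit hset.hTW

theorem gtSigIn_of_setting (hset : Setting 𝒪 p ρbar S Smin)
    (b : Module.Basis (Fin 2) (ResidueField 𝒪) ρbar.V) : GtSigIn ρbar p b :=
  gtSigIn_of_hyp ρbar b p (two_ne_zero_of_algebra p hset.hp2) hset.hdet hset.hTW

/-- **Module TW.**  `TWOut` from the single remaining input GT-C. -/
theorem twOut_of_gtC (hset : Setting 𝒪 p ρbar S Smin)
    (b : Module.Basis (Fin 2) (ResidueField 𝒪) ρbar.V) (hC : GtCIn ρbar b) :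
    TWOut p ρbar S Smin :=
  twOut_of_gt hset b (gtBIn_of_setting hset) (gtSigIn_of_setting hset b) hC

end Setting

end Fermat.Agent.P1.helper91
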