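import Fermat.Agent.P1.helper40_GTCFinal
import Fermat.Agent.P1.helper91_GTInst

/-!
# P1 / TW-GT: the input `GtCIn` of module TW and `TWOut` under `Setting` (helper40)

`gtCIn_of_hyp`: instantiation of the abstract `gtC_holds : GtCStatement` at `G := GQ`,
`ρ := rhoGL ρbar b`; `twOut_of_setting : Setting → TWOut` via `helper91.twOut_of_gtC`.
-/

set_option autoImplicit false

open IsLocalRing ExtCitation Polynomial

noncomputable section

namespace Fermat.Agent.P1.helper40

open Fermat.Agent.S55 Fermat.Agent.P1.helper70 Fermat.Agent.P1.helper3 Fermat.Agent.P1.helper2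
  Fermat.Agent.P1.helper91

section Generic

variable {k : Type} [Field k] [Finite k] (ρbar : ResidualGaloisRep k)
  (b : Module.Basis (Fin 2) k ρbar.V)

/-- **GT-C** for `ρbar`. -/
theorem gtCIn_of_hyp (p : ℕ) [Fact p.Prime] [Algebra (ZMod p) k] (hp2 : p ≠ 2)
    (hsplit : ∀ σ : GQ, ∃ α β : k, LinearMap.charpoly (ρbar.ρ σ) = (X - C α) * (X - C β))
    (hdet : (GaloisRepAdic.ofResidualGaloisRep ρbar).DetIsCyclotomic p)
    (hTW : ∀ (K : Type) [Field K] [Algebra k K] (G : Subgroup GQ), G.index = 2 →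
      ∀ V : Submodule K (ρbar.baseChange K).V,
        (∀ σ ∈ G, ∀ x ∈ V, (ρbar.baseChange K).ρ σ x ∈ V) → V = ⊥ ∨ V = ⊤) :
    GtCIn ρbar b := by
  intro H hH hker hcomm c hc hconst
  have : CharP k p := charP_of_injective_algebraMap (algebraMap (ZMod p) k).injective p
  have hρ : TWHyp (rhoGL ρbar b) :=
    ⟨fun v hv => noEigenOn_top ρbar b hTW (AlgebraicClosure k) v hv,
     fun G' hG' v hv => noEigenOn_of_hTW ρbar b hTW G' hG' (AlgebraicClosure k) v hv,
     splits_rhoGL ρbar b hsplit⟩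
  have hd : ∀ n : ℕ, ¬ p ∣ n →
      ∃ g : GQ, ((rhoGL ρbar b g : GL (Fin 2) k) : Matrix (Fin 2) (Fin 2) k).det = (n : k) := by
    intro n hn
    have hu : IsUnit ((n : ℕ) : ZMod p) := by
      rw [ZMod.isUnit_iff_coprime]
      exact ((Nat.Prime.coprime_iff_not_dvd Fact.out).2 hn).symm
    obtain ⟨a, ha⟩ := hu
    obtain ⟨g, hg⟩ := cycloChar_surjective p a
    refine ⟨g, ?_⟩
    rw [← Matrix.GeneralLinearGroup.val_det_apply, det_rhoGL ρbar p b hdet, coe_chiK, hg, ha,
      map_natCast]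
  exact gtC_holds k p hp2 GQ (rhoGL ρbar b) hρ hd H hH
    (fun h hh => (rhoGL_eq_one_iff ρbar b h).mpr (hker h hh))
    (fun g n hn => hcomm g n ((rhoGL_eq_one_iff ρbar b n).mp hn)) c hc hconst

end Generic

section Setting

variable {𝒪 : Type} [CommRing 𝒪] [IsDomain 𝒪] [IsDiscreteValuationRing 𝒪]
  [IsAdicComplete (maximalIdeal 𝒪) 𝒪] [Finite (ResidueField 𝒪)]
  {p : ℕ} [Fact p.Prime]
  {ρbar : ResidualGaloisRep (ResidueField 𝒪)}
  {S Smin : Finset ℕ} [Algebra (ZMod p) (ResidueField 𝒪)]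

theorem gtCIn_of_setting (hset : Setting 𝒪 p ρbar S Smin)
    (b : Module.Basis (Fin 2) (ResidueField 𝒪) ρbar.V) : GtCIn ρbar b :=
  gtCIn_of_hyp ρbar b p hset.hp2 hset.hsplit hset.hdet hset.hTW

/-- **Module TW** (Taylor-Wiles primes kill the dual Selmer group): `TWOut` under `Setting`. -/
theorem twOut_of_setting (hset : Setting 𝒪 p ρbar S Smin) : TWOut p ρbar S Smin :=
  let b : Module.Basis (Fin 2) (ResidueField 𝒪) ρbar.V :=
    Module.finBasisOfFinrankEq (ResidueField 𝒪) ρbar.V ρbar.finrank_eq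
  twOut_of_gtC hset b (gtCIn_of_setting hset b)

end Setting

end Fermat.Agent.P1.helper40
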