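import Fermat.Agent.P1.helper40_GTSig
import Fermat.Agent.P1.helper3_GTFinal

/-!
# P1 / TW-GT / GT-RED and GT-C in abstract form (helper40)

* `gtAFixed_of_gtA   : GtAStatement → GtAFixedStatement`;
* `gtRed_of_gtAFixed : GtAFixedStatement → GtRedStatement`: a cocycle which is constant on the
  cosets of a normal subgroup `H ≤ ker ρ` containing `[G, ker ρ]` vanishes on `ker ρ`
  (its values on `ker ρ` are fixed vectors of the twisted action);
* `gtMat             : GtMatStatement` (= `helper3.gtC`);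
* `gtC_of_gtRed      : GtRedStatement → GtCStatement`: such a cocycle descends to the image
  `Γ = ρ(G) ≤ GL₂(k)`, where it is a coboundary by `helper3.gtC`;
* `gtC_of_gtAFixed`, `gtC_of_gtA`.
-/

set_option autoImplicit false

open Matrix Polynomial

namespace Fermat.Agent.P1.helper40

open Fermat.Agent.P1.helper2 Fermat.Agent.P1.helper3

/-- **GT-A'** from GT-A: a fixed vector of the twisted action spans a conjugation-stable line. -/
theorem gtAFixed_of_gtA (hA : GtAStatement) : GtAFixedStatement := by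
  intro k _ G _ h2 ρ hirr hirr₂ X hX hfix
  set W : Submodule k (Matrix (Fin 2) (Fin 2) k) := Submodule.span k {X} with hW
  have hWtr : ∀ Y ∈ W, Y.trace = 0 := by
    intro Y hY
    obtain ⟨a, rfl⟩ := Submodule.mem_span_singleton.1 hY
    rw [Matrix.trace_smul, hX, smul_zero]
  have hWst : ∀ g : G, ∀ Y ∈ W,
      (ρ g : Matrix (Fin 2) (Fin 2) k) * Y *
        (((ρ g)⁻¹ : GL (Fin 2) k) : Matrix (Fin 2) (Fin 2) k) ∈ W := by
    intro g Y hY
    obtain ⟨a, rfl⟩ := Submodule.mem_span_singleton.1 hY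
    rw [Matrix.mul_smul, Matrix.smul_mul, conj_eq_smul_tw, hfix g]
    exact W.smul_mem _ (W.smul_mem _ (Submodule.mem_span_singleton_self X))
  rcases hA k G h2 ρ hirr hirr₂ W hWtr hWst with hbot | hall
  · have : X ∈ W := Submodule.mem_span_singleton_self X
    rw [hbot, Submodule.mem_bot] at this
    exact this
  · -- `E₁₂` and `E₂₁` are both multiples of `X`: impossible unless ... contradiction
    obtain ⟨a, ha⟩ := Submodule.mem_span_singleton.1
      (hall (!![0, 1; 0, 0]) (by simp [Matrix.trace_fin_two]))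
    obtain ⟨b, hb⟩ := Submodule.mem_span_singleton.1
      (hall (!![0, 0; 1, 0]) (by simp [Matrix.trace_fin_two]))
    exfalso
    have a01 := congrFun (congrFun ha 0) 1
    have a10 := congrFun (congrFun ha 1) 0
    have b01 := congrFun (congrFun hb 0) 1
    have b10 := congrFun (congrFun hb 1) 0
    simp only [Matrix.smul_apply, smul_eq_mul, Matrix.of_apply, Matrix.cons_val',
      Matrix.cons_val_zero, Matrix.cons_val_one, Matrix.cons_val_fin_one] at a01 a10 b01 b10
    -- a * X 0 1 = 1, a * X 1 0 = 0, b * X 0 1 = 0, b * X 1 0 = 1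
    have ha0 : a ≠ 0 := by
      rintro rfl
      rw [zero_mul] at a01
      exact zero_ne_one a01
    have hb0 : b ≠ 0 := by
      rintro rfl
      rw [zero_mul] at b10
      exact zero_ne_one b10
    have hX10 : X 1 0 = 0 := (mul_eq_zero.1 a10).resolve_left ha0
    rw [hX10, mul_zero] at b10
    exact zero_ne_one b10

/-- **GT-RED** from GT-A'. -/
theorem gtRed_of_gtAFixed (hA : GtAFixedStatement) : GtRedStatement := by
  intro k _ G _ h2 ρ hirr hirr₂ H hH hker hcomm c hc hconst n hn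
  apply hA k G h2 ρ hirr hirr₂ (c n) (hc.1 n)
  intro g
  rw [← isCoc_map_conj hc hn g]
  -- `g n g⁻¹ = n * (n⁻¹ * (g n g⁻¹ n⁻¹) * n)`
  have h1 : g * n * g⁻¹ * n⁻¹ ∈ H := hcomm g n hn
  have h2' : n⁻¹ * (g * n * g⁻¹ * n⁻¹) * n ∈ H := by
    have := hH.conj_mem _ h1 n⁻¹
    rwa [inv_inv] at this
  have e : g * n * g⁻¹ = n * (n⁻¹ * (g * n * g⁻¹ * n⁻¹) * n) := by group
  rw [e, hconst n _ h2']

/-- **GT-MAT** (= `helper3.gtC`). -/
theorem gtMat : GtMatStatement := by
  intro k _ _ p _ _ hp2 Γ hsplit hirr hdet c hc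
  exact gtC p hp2 Γ hsplit hirr hdet c hc

/-- **GT-C** (abstract form) from GT-RED and the matrix form. -/
theorem gtC_of_gtRed (hR : GtRedStatement) : GtCStatement := by
  intro k _ _ p _ _ hp2 G _ ρ hρ hdet H hH hker hcomm c hc hconst
  classical
  have h2 : (2 : k) ≠ 0 := by
    intro h
    have h' : ((2 : ℕ) : k) = 0 := by exact_mod_cast h
    rw [CharP.cast_eq_zero_iff k p] at h'
    have hp : p.Prime := Fact.out
    exact hp2 ((Nat.prime_dvd_prime_iff_eq hp Nat.prime_two).1 h')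
  -- `c` vanishes on `ker ρ`
  have hvan : ∀ n : G, ρ n = 1 → c n = 0 :=
    hR k G h2 ρ hρ.irr hρ.irr₂ H hH hker hcomm c hc hconst
  -- `c` only depends on `ρ g`
  have hwd : ∀ x y : G, ρ x = ρ y → c x = c y := by
    intro x y hxy
    have hk : ρ (y⁻¹ * x) = 1 := by
      rw [map_mul, map_inv, hxy, inv_mul_cancel]
    have e : x = y * (y⁻¹ * x) := by group
    rw [e, hc.2, hvan _ hk, tw_zero, add_zero]
  -- the descended cocycle
  set Γ : Subgroup (GL (Fin 2) k) := ρ.range with hΓ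
  set cΓ : GL (Fin 2) k → Matrix (Fin 2) (Fin 2) k :=
    fun γ => if h : γ ∈ Γ then c (Classical.choose (MonoidHom.mem_range.1 h)) else 0 with hcΓ
  have hcΓρ : ∀ g : G, cΓ (ρ g) = c g := by
    intro g
    have hmem : ρ g ∈ Γ := MonoidHom.mem_range.2 ⟨g, rfl⟩
    simp only [hcΓ, dif_pos hmem]
    exact hwd _ _ (Classical.choose_spec (MonoidHom.mem_range.1 hmem))
  have hcoc : IsCocycle Γ cΓ := by
    refine ⟨?_, ?_⟩
    · rintro γ ⟨g, rfl⟩
      rw [hcΓρ]
      exact hc.1 g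
    · rintro γ ⟨g, rfl⟩ γ' ⟨g', rfl⟩
      rw [← map_mul, hcΓρ, hcΓρ, hcΓρ]
      exact hc.2 g g'
  have hsplit : ∀ γ ∈ Γ, ∃ α β : k,
      (γ : Matrix (Fin 2) (Fin 2) k).charpoly = (X - C α) * (X - C β) := by
    rintro γ ⟨g, rfl⟩
    exact hρ.split g
  have hirr : IsIrr Γ := by
    intro v hv
    by_contra hcon
    push Not at hcon
    refine not_noStableLine_of_eigen ρ ⊤ hv (fun g _ => ?_) hρ.irr
    exact hcon (ρ g) (MonoidHom.mem_range.2 ⟨g, rfl⟩)
  have hdetΓ : ∀ n : ℕ, ¬ p ∣ n → ∃ γ ∈ Γ, (γ : Matrix (Fin 2) (Fin 2) k).det = (n : k) := by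
    intro n hn
    obtain ⟨g, hg⟩ := hdet n hn
    exact ⟨ρ g, MonoidHom.mem_range.2 ⟨g, rfl⟩, hg⟩
  obtain ⟨X₁, hX₁, hcob⟩ := gtC p hp2 Γ hsplit hirr hdetΓ cΓ hcoc
  refine ⟨X₁, hX₁, fun g => ?_⟩
  rw [← hcΓρ g]
  exact hcob (ρ g) (MonoidHom.mem_range.2 ⟨g, rfl⟩)

/-- **GT-C** from GT-A'. -/
theorem gtC_of_gtAFixed (hA : GtAFixedStatement) : GtCStatement :=
  gtC_of_gtRed (gtRed_of_gtAFixed hA)

/-- **GT-C** from GT-A. -/
theorem gtC_of_gtA (hA : GtAStatement) : GtCStatement :=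
  gtC_of_gtAFixed (gtAFixed_of_gtA hA)

end Fermat.Agent.P1.helper40
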