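import Fermat.Agent.P1.helper40_GTB

/-!
# P1 / TW-GT / GT-SIG (helper40): the choice of `σ`

`gtSig_of_gtA : GtAStatement → GtSigStatement`.  Let `c` be a cocycle with values in `ad⁰(1)`
which does not vanish on the normal subgroup `H₀ ≤ ker ρ`, and let `ρ(σ₀)` be non-scalar of
determinant `1`.  Then some `σ ∈ H₀ σ₀` has `c(σ) ∉ (σ - 1) ad⁰(1)`.

Proof.  `c` is additive on `H₀` and `c (g h g⁻¹) = tw (ρ g) (c h)`, so the `k`-span `W` of
`c(H₀)` is a nonzero conjugation-stable subspace of the trace-zero matrices, hence everything by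
GT-A.  On the other hand `(σ₀ - 1) ad⁰` is killed by the functional `Y ↦ tr (Y X₀)`,
`X₀ = 2 ρ(σ₀) - tr ρ(σ₀)`, which is nonzero on the trace-zero matrices.
-/

set_option autoImplicit false

open Matrix Polynomial

namespace Fermat.Agent.P1.helper40

open Fermat.Agent.P1.helper2 Fermat.Agent.P1.helper3

section

variable {k : Type} [Field k] {G : Type} [Group G]

lemma isCoc_map_one {ρ : G →* GL (Fin 2) k} {c : G → Matrix (Fin 2) (Fin 2) k}
    (hc : IsCoc ρ c) : c 1 = 0 := by
  have h := hc.2 1 1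
  rw [mul_one, map_one, tw_one] at h
  exact left_eq_add.mp h

/-- On a subgroup of `ker ρ` a cocycle is additive. -/
lemma isCoc_map_mul_of_ker {ρ : G →* GL (Fin 2) k} {c : G → Matrix (Fin 2) (Fin 2) k}
    (hc : IsCoc ρ c) {h : G} (hh : ρ h = 1) (g : G) : c (h * g) = c h + c g := by
  rw [hc.2, hh, tw_one]

/-- Conjugation equivariance of a cocycle on `ker ρ`. -/
lemma isCoc_map_conj {ρ : G →* GL (Fin 2) k} {c : G → Matrix (Fin 2) (Fin 2) k}
    (hc : IsCoc ρ c) {h : G} (hh : ρ h = 1) (g : G) : c (g * h * g⁻¹) = tw (ρ g) (c h) := by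
  have h1 : c (g * g⁻¹) = c g + tw (ρ g) (c g⁻¹) := hc.2 g g⁻¹
  rw [mul_inv_cancel, isCoc_map_one hc] at h1
  rw [mul_assoc, hc.2, isCoc_map_mul_of_ker hc hh, tw_add]
  rw [← add_assoc, add_right_comm, ← h1, zero_add]

/-- `tw g X` is a multiple of the conjugate. -/
lemma conj_eq_smul_tw (g : GL (Fin 2) k) (X : Matrix (Fin 2) (Fin 2) k) :
    (g : Matrix (Fin 2) (Fin 2) k) * X * ((g⁻¹ : GL (Fin 2) k) : Matrix (Fin 2) (Fin 2) k) =
      (((Matrix.GeneralLinearGroup.det g)⁻¹ : kˣ) : k) • tw g X := by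
  rw [tw, smul_smul, ← Units.val_mul, inv_mul_cancel, Units.val_one, one_smul]

/-- The functional `Y ↦ tr (Y X₀)`, `X₀ = 2 A - tr A`, kills `(A - 1) ad`. -/
lemma trace_tw_sub_mul (g : GL (Fin 2) k) (hdet : (g : Matrix (Fin 2) (Fin 2) k).det = 1)
    (X : Matrix (Fin 2) (Fin 2) k) :
    ((tw g X - X) * ((2 : k) • (g : Matrix (Fin 2) (Fin 2) k) -
      (g : Matrix (Fin 2) (Fin 2) k).trace • (1 : Matrix (Fin 2) (Fin 2) k))).trace = 0 := by
  set A : Matrix (Fin 2) (Fin 2) k := (g : Matrix (Fin 2) (Fin 2) k) with hA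
  set Ai : Matrix (Fin 2) (Fin 2) k := ((g⁻¹ : GL (Fin 2) k) : Matrix (Fin 2) (Fin 2) k) with hAi
  set X₀ : Matrix (Fin 2) (Fin 2) k := (2 : k) • A - A.trace • (1 : Matrix (Fin 2) (Fin 2) k)
    with hX₀
  have h1 : A * Ai = 1 := by
    rw [hA, hAi, ← Units.val_mul, mul_inv_cancel, Units.val_one]
  have h2 : Ai * A = 1 := by
    rw [hA, hAi, ← Units.val_mul, inv_mul_cancel, Units.val_one]
  have hcomm : Ai * X₀ = X₀ * Ai := by
    rw [hX₀, Matrix.mul_sub, Matrix.sub_mul, Matrix.mul_smul, Matrix.smul_mul, h1, h2,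
      Matrix.mul_smul, Matrix.smul_mul, Matrix.mul_one, Matrix.one_mul]
  have hd : ((Matrix.GeneralLinearGroup.det g : kˣ) : k) = 1 := by
    rw [Matrix.GeneralLinearGroup.val_det_apply]
    exact hdet
  have htw : tw g X = A * X * Ai := by
    rw [tw, hd, one_smul]
  rw [Matrix.sub_mul, Matrix.trace_sub, sub_eq_zero, htw]
  calc (A * X * Ai * X₀).trace = (A * (X * X₀ * Ai)).trace := by
        rw [Matrix.mul_assoc (A * X), hcomm]
        simp only [Matrix.mul_assoc]
    _ = (X * X₀ * Ai * A).trace := by rw [Matrix.trace_mul_comm]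
    _ = (X * X₀).trace := by rw [Matrix.mul_assoc (X * X₀), h2, Matrix.mul_one]

/-- **GT-SIG** from GT-A. -/
theorem gtSig_of_gtA (hA : GtAStatement) : GtSigStatement := by
  intro k _ G _ h2 ρ hirr hirr₂ c hc H₀ hH₀ hker hnz σ₀ hσ₀ hdet
  by_contra hcon
  push Not at hcon
  set A : Matrix (Fin 2) (Fin 2) k := (ρ σ₀ : Matrix (Fin 2) (Fin 2) k) with hAdef
  set X₀ : Matrix (Fin 2) (Fin 2) k := (2 : k) • A - A.trace • (1 : Matrix (Fin 2) (Fin 2) k)
    with hX₀
  -- `c (h σ₀)` is killed by the functional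
  have hφ1 : ∀ h ∈ H₀, (c (h * σ₀) * X₀).trace = 0 := by
    intro h hh
    obtain ⟨X, -, hX⟩ := hcon h hh
    rw [hX]
    exact trace_tw_sub_mul (ρ σ₀) hdet X
  have hφσ : (c σ₀ * X₀).trace = 0 := by
    have := hφ1 1 H₀.one_mem
    rwa [one_mul] at this
  have hφ : ∀ h ∈ H₀, (c h * X₀).trace = 0 := by
    intro h hh
    have e := hφ1 h hh
    rw [isCoc_map_mul_of_ker hc (hker h hh), Matrix.add_mul, Matrix.trace_add, hφσ, add_zero] at e
    exact e
  -- the span of `c(H₀)`
  set W : Submodule k (Matrix (Fin 2) (Fin 2) k) := Submodule.span k (c '' (H₀ : Set G)) with hW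
  have hWφ : ∀ Y ∈ W, (Y * X₀).trace = 0 := by
    intro Y hY
    induction hY using Submodule.span_induction with
    | mem Y hY =>
      obtain ⟨h, hh, rfl⟩ := hY
      exact hφ h hh
    | zero => simp
    | add Y Y' _ _ hY hY' => rw [Matrix.add_mul, Matrix.trace_add, hY, hY', add_zero]
    | smul a Y _ hY => rw [Matrix.smul_mul, Matrix.trace_smul, hY, smul_zero]
  have hWtr : ∀ Y ∈ W, Y.trace = 0 := by
    intro Y hY
    induction hY using Submodule.span_induction with
    | mem Y hY =>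
      obtain ⟨h, -, rfl⟩ := hY
      exact hc.1 h
    | zero => simp
    | add Y Y' _ _ hY hY' => rw [Matrix.trace_add, hY, hY', add_zero]
    | smul a Y _ hY => rw [Matrix.trace_smul, hY, smul_zero]
  have hWst : ∀ g : G, ∀ Y ∈ W,
      (ρ g : Matrix (Fin 2) (Fin 2) k) * Y *
        (((ρ g)⁻¹ : GL (Fin 2) k) : Matrix (Fin 2) (Fin 2) k) ∈ W := by
    intro g Y hY
    induction hY using Submodule.span_induction with
    | mem Y hY =>
      obtain ⟨h, hh, rfl⟩ := hY
      rw [conj_eq_smul_tw, ← isCoc_map_conj hc (hker h hh)]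
      exact W.smul_mem _ (Submodule.subset_span ⟨g * h * g⁻¹, hH₀.conj_mem h hh g, rfl⟩)
    | zero => simp
    | add Y Y' _ _ hY hY' =>
      rw [Matrix.mul_add, Matrix.add_mul]
      exact W.add_mem hY hY'
    | smul a Y _ hY =>
      rw [Matrix.mul_smul, Matrix.smul_mul]
      exact W.smul_mem a hY
  have hWne : W ≠ ⊥ := by
    obtain ⟨h, hh, hne⟩ := hnz
    intro hbot
    have : c h ∈ W := Submodule.subset_span ⟨h, hh, rfl⟩
    rw [hbot, Submodule.mem_bot] at this
    exact hne this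
  rcases hA k G h2 ρ hirr hirr₂ W hWtr hWst with hbot | hall
  · exact hWne hbot
  · -- the functional vanishes on all trace-zero matrices: `A` is scalar
    have e1 := hWφ (!![0, 1; 0, 0]) (hall _ (by simp [Matrix.trace_fin_two]))
    have e2 := hWφ (!![0, 0; 1, 0]) (hall _ (by simp [Matrix.trace_fin_two]))
    have e3 := hWφ (!![1, 0; 0, -1]) (hall _ (by simp [Matrix.trace_fin_two]))
    rw [trace_mul_fin_two] at e1 e2 e3
    simp only [hX₀, Matrix.sub_apply, Matrix.smul_apply, Matrix.one_apply_eq,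
      Matrix.one_apply_ne (show (0 : Fin 2) ≠ 1 by decide),
      Matrix.one_apply_ne (show (1 : Fin 2) ≠ 0 by decide), Matrix.of_apply, Matrix.cons_val',
      Matrix.cons_val_zero, Matrix.cons_val_one, Matrix.cons_val_fin_one, smul_eq_mul,
      mul_zero, mul_one, sub_zero, zero_mul, one_mul, zero_add, add_zero] at e1 e2 e3
    rcases (nonscalar_iff A).1 hσ₀ with h | h | h
    · apply h
      apply mul_left_cancel₀ h2
      linear_combination e2
    · apply h
      apply mul_left_cancel₀ h2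
      linear_combination e1
    · apply h
      apply mul_left_cancel₀ h2
      rw [Matrix.trace_fin_two] at e3
      linear_combination e3

end

end Fermat.Agent.P1.helper40
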