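import Fermat.Agent.P1.helper70_FlatDefs
import Fermat.Agent.P1.helper61_DictLocN

/-!
# P1 / FLAT-CNT, module DICT-H (helper40, task 745): the points machinery (CORE-B)

`Ω = PadicAlgCl p`, `ℤ_(p) = GaloisRep.ratLocalizedAt p`, `H` a bialgebra over `ℤ_(p)`, finite as
a module.  Everything is formulated for `Ω`-valued points and the norm of `Ω`; no finite level
and no dictionary is needed here.

* `norm_le_one_of_isIntegral_ratLoc` : elements of `Ω` integral over `ℤ_(p)` have norm `≤ 1`;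
* `norm_pt_le_one` (B1) : the values of a point have norm `≤ 1`;
* `RedOneΩ f` : the point `f` reduces to the identity, `‖f h - ε h‖ < 1`;
* `norm_convMul_sub_lt_one` : convolution is compatible with congruences;
* `redOneΩ_one`, `redOneΩ_mul`, `redOneΩ_pow` (B2);
* `redOneΩ_of_inertia` : (FT-A over `Ω`) `(τ ∘ g) * g ^ (p - 1)` reduces to `1` for `τ` in the
  inertia group, if `g ^ p = 1`;
* `redOneΩ_of_mem_ramPart` (B3) : the points in the ramified part reduce to the identity.
-/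

set_option autoImplicit false
set_option linter.unusedSectionVars false

open scoped TensorProduct
open WithConv

namespace Fermat.Agent.P1.helper40

open Fermat.Agent.S55.helper8 Fermat.Agent.S55.helper7 Fermat.Agent.P1.helper14
  Fermat.Agent.P1.helper70 Fermat.Agent.P1.helper92 Fermat.Agent.P1.helper61

variable (p : ℕ) [Fact p.Prime]

/-! ## (B1) integrality -/

/-- the elements of `ℤ_(p)` have `p`-adic norm `≤ 1` -/
theorem norm_algebraMap_ratLoc_le_one (c : GaloisRep.ratLocalizedAt p) :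
    ‖algebraMap (GaloisRep.ratLocalizedAt p) ℚ_[p] c‖ ≤ 1 := by
  have hp : p.Prime := Fact.out
  have h1 : algebraMap (GaloisRep.ratLocalizedAt p) ℚ_[p] c = ((c : ℚ) : ℚ_[p]) := by
    change algebraMap ℚ ℚ_[p] (c : ℚ) = _
    exact eq_ratCast _ _
  rw [h1]
  apply Padic.norm_rat_le_one
  intro hdvd
  have hc : (c : ℚ).den.Coprime p := c.2
  have := Nat.Coprime.eq_one_of_dvd hc.symm hdvd
  exact hp.one_lt.ne' this

/-- elements of `Ω` which are integral over `ℤ_(p)` have norm `≤ 1` -/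
theorem norm_le_one_of_isIntegral_ratLoc {x : PadicAlgCl p}
    (hx : IsIntegral (GaloisRep.ratLocalizedAt p) x) : ‖x‖ ≤ 1 := by
  obtain ⟨P, hP, hPx⟩ := hx
  have hg : (P.map (algebraMap (GaloisRep.ratLocalizedAt p) ℚ_[p])).Monic := hP.map _
  have hgx : Polynomial.aeval x (P.map (algebraMap (GaloisRep.ratLocalizedAt p) ℚ_[p])) = 0 := by
    rw [Polynomial.aeval_def, Polynomial.eval₂_map,
      ← IsScalarTower.algebraMap_eq (GaloisRep.ratLocalizedAt p) ℚ_[p] (PadicAlgCl p)]
    exact hPx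
  have h1 : spectralAlgNorm ℚ_[p] (PadicAlgCl p) x ≤
      spectralValue (P.map (algebraMap (GaloisRep.ratLocalizedAt p) ℚ_[p])) :=
    norm_root_le_spectralValue spectralAlgNorm_isPowMul isNonarchimedean_spectralNorm hg hgx
  refine h1.trans ((spectralValue_le_one_iff hg).mpr (fun n => ?_))
  rw [Polynomial.coeff_map]
  exact norm_algebraMap_ratLoc_le_one p _

section Points

variable {H : Type} [CommRing H]

/-- **(B1)** the values of an `Ω`-valued point of a finite `ℤ_(p)`-algebra have norm `≤ 1`. -/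
theorem norm_pt_le_one [Algebra (GaloisRep.ratLocalizedAt p) H]
    [Module.Finite (GaloisRep.ratLocalizedAt p) H]
    (g : H →ₐ[GaloisRep.ratLocalizedAt p] PadicAlgCl p) (h : H) : ‖g h‖ ≤ 1 := by
  have h1 : IsIntegral (GaloisRep.ratLocalizedAt p) h := Algebra.IsIntegral.isIntegral h
  exact norm_le_one_of_isIntegral_ratLoc p (h1.map g)

variable [Bialgebra (GaloisRep.ratLocalizedAt p) H]

/-! ## (B2) points reducing to the identity -/

/-- The `Ω`-valued point `f` reduces to the identity. -/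
def RedOneΩ (f : WithConv (H →ₐ[GaloisRep.ratLocalizedAt p] PadicAlgCl p)) : Prop :=
  ∀ h : H, ‖f.ofConv h -
    algebraMap (GaloisRep.ratLocalizedAt p) (PadicAlgCl p) (Coalgebra.counit h)‖ < 1

/-- if `y a ≡ x a` modulo the open unit ball for all `a` and `z` has integral values, then
`lift y z t ≡ lift x z t` for every tensor `t`. -/
lemma norm_lift_sub_lt_one (x y z : H →ₐ[GaloisRep.ratLocalizedAt p] PadicAlgCl p)
    (hxy : ∀ a : H, ‖y a - x a‖ < 1) (hz : ∀ b : H, ‖z b‖ ≤ 1)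
    (t : H ⊗[GaloisRep.ratLocalizedAt p] H) :
    ‖Algebra.TensorProduct.lift y z (fun _ _ => Commute.all _ _) t -
      Algebra.TensorProduct.lift x z (fun _ _ => Commute.all _ _) t‖ < 1 := by
  induction t using TensorProduct.induction_on with
  | zero =>
    rw [map_zero, map_zero, sub_zero, norm_zero]
    exact one_pos
  | tmul a b =>
    rw [Algebra.TensorProduct.lift_tmul, Algebra.TensorProduct.lift_tmul, ← sub_mul, norm_mul]
    calc ‖y a - x a‖ * ‖z b‖ ≤ ‖y a - x a‖ * 1 :=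
          mul_le_mul_of_nonneg_left (hz b) (norm_nonneg _)
      _ < 1 := by rw [mul_one]; exact hxy a
  | add s t hs ht =>
    rw [map_add, map_add]
    have e : ∀ a b c d : PadicAlgCl p, a + b - (c + d) = (a - c) + (b - d) :=
      fun a b c d => by ring
    rw [e]
    exact norm_add_lt_one p hs ht

/-- convolution (on the right) with a point with integral values is compatible with
congruences. -/
theorem norm_convMul_sub_lt_one
    (x y z : WithConv (H →ₐ[GaloisRep.ratLocalizedAt p] PadicAlgCl p))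
    (hxy : ∀ a : H, ‖y.ofConv a - x.ofConv a‖ < 1) (hz : ∀ b : H, ‖z.ofConv b‖ ≤ 1) (h : H) :
    ‖(y * z).ofConv h - (x * z).ofConv h‖ < 1 := by
  have e1 := AlgHom.convMul_apply y z h
  have e2 := AlgHom.convMul_apply x z h
  have key := norm_lift_sub_lt_one p x.ofConv y.ofConv z.ofConv hxy hz (Coalgebra.comul h)
  exact (congrArg₂ (fun u v : PadicAlgCl p => ‖u - v‖) e1 e2) ▸ key

theorem redOneΩ_one :
    RedOneΩ p (1 : WithConv (H →ₐ[GaloisRep.ratLocalizedAt p] PadicAlgCl p)) := by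
  intro h
  have h1 : (1 : WithConv (H →ₐ[GaloisRep.ratLocalizedAt p] PadicAlgCl p)).ofConv h =
      algebraMap (GaloisRep.ratLocalizedAt p) (PadicAlgCl p) (Coalgebra.counit h) := rfl
  rw [h1, sub_self, norm_zero]
  exact one_pos

/-- congruent points: transitivity with a point reducing to the identity -/
theorem redOneΩ_of_cong {f g : WithConv (H →ₐ[GaloisRep.ratLocalizedAt p] PadicAlgCl p)}
    (hfg : ∀ h : H, ‖f.ofConv h - g.ofConv h‖ < 1) (hg : RedOneΩ p g) : RedOneΩ p f := by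
  intro h
  have e : f.ofConv h -
      algebraMap (GaloisRep.ratLocalizedAt p) (PadicAlgCl p) (Coalgebra.counit h) =
      (f.ofConv h - g.ofConv h) + (g.ofConv h -
        algebraMap (GaloisRep.ratLocalizedAt p) (PadicAlgCl p) (Coalgebra.counit h)) := by
    ring
  rw [e]
  exact norm_add_lt_one p (hfg h) (hg h)

variable [Module.Finite (GaloisRep.ratLocalizedAt p) H]

/-- **(B2)** the points reducing to the identity are stable under convolution. -/
theorem redOneΩ_mul {f g : WithConv (H →ₐ[GaloisRep.ratLocalizedAt p] PadicAlgCl p)}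
    (hf : RedOneΩ p f) (hg : RedOneΩ p g) : RedOneΩ p (f * g) := by
  refine redOneΩ_of_cong p (g := g) (fun h => ?_) hg
  have h1 := norm_convMul_sub_lt_one p 1 f g (fun a => hf a)
    (fun b => norm_pt_le_one p g.ofConv b) h
  rwa [one_mul] at h1

theorem redOneΩ_pow {f : WithConv (H →ₐ[GaloisRep.ratLocalizedAt p] PadicAlgCl p)}
    (hf : RedOneΩ p f) (n : ℕ) : RedOneΩ p (f ^ n) := by
  induction n with
  | zero => rw [pow_zero]; exact redOneΩ_one p
  | succ n ih => rw [pow_succ]; exact redOneΩ_mul p ih hf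

/-- **(FT-A over `Ω`)** for `τ` in the inertia group and a point `g` with `g ^ p = 1`, the point
`(τ ∘ g) * g ^ (p - 1)` reduces to the identity. -/
theorem redOneΩ_of_inertia {τ : PadicAlgCl p ≃ₐ[ℚ_[p]] PadicAlgCl p}
    (hτ : τ ∈ locInertiaNat p)
    (g g' : WithConv (H →ₐ[GaloisRep.ratLocalizedAt p] PadicAlgCl p)) (hg : g ^ p = 1)
    (hg' : ∀ h : H, g'.ofConv h = τ (g.ofConv h)) : RedOneΩ p (g' * g ^ (p - 1)) := by
  have hgg : g * g ^ (p - 1) = 1 := by
    rw [← pow_succ', Nat.sub_add_cancel (Fact.out : p.Prime).one_le, hg]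
  refine redOneΩ_of_cong p (g := g * g ^ (p - 1)) (fun h => ?_) (hgg ▸ redOneΩ_one p)
  refine norm_convMul_sub_lt_one p g g' (g ^ (p - 1)) (fun a => ?_)
    (fun b => norm_pt_le_one p _ b) h
  rw [hg' a]
  exact (mem_locInertiaNat_iff p τ).1 hτ _ (norm_pt_le_one p g.ofConv a)

/-! ## The action of `G_p` on points -/

/-- the point `τ ∘ g` -/
noncomputable def compPt (τ : PadicAlgCl p ≃ₐ[ℚ_[p]] PadicAlgCl p)
    (g : WithConv (H →ₐ[GaloisRep.ratLocalizedAt p] PadicAlgCl p)) :
    WithConv (H →ₐ[GaloisRep.ratLocalizedAt p] PadicAlgCl p) :=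
  toConv (((τ : PadicAlgCl p →ₐ[ℚ_[p]] PadicAlgCl p).restrictScalars
    (GaloisRep.ratLocalizedAt p)).comp g.ofConv)

@[simp] theorem compPt_apply (τ : PadicAlgCl p ≃ₐ[ℚ_[p]] PadicAlgCl p)
    (g : WithConv (H →ₐ[GaloisRep.ratLocalizedAt p] PadicAlgCl p)) (h : H) :
    (compPt p τ g).ofConv h = τ (g.ofConv h) := rfl

/-! ## (B3) the ramified part -/

section Ram

variable {A : Type} [CommRing A] [IsLocalRing A] (ρ : GaloisRepAdic A) (I : Ideal A)

/-- `V / I V` is killed by `p` if `p ∈ I`. -/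
theorem nsmul_quot_eq_zero (hpI : (p : A) ∈ I)
    (x : ρ.V ⧸ (I • (⊤ : Submodule A ρ.V))) : p • x = 0 := by
  obtain ⟨v, rfl⟩ := Submodule.Quotient.mk_surjective _ x
  rw [← Submodule.Quotient.mk_smul, Submodule.Quotient.mk_eq_zero, ← Nat.cast_smul_eq_nsmul A]
  exact Submodule.smul_mem_smul hpI Submodule.mem_top

variable (e : WithConv (H →ₐ[GaloisRep.ratLocalizedAt p] PadicAlgCl p) ≃
    (ρ.V ⧸ (I • (⊤ : Submodule A ρ.V))))
  (hadd : ∀ f g : WithConv (H →ₐ[GaloisRep.ratLocalizedAt p] PadicAlgCl p),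
    e (f * g) = e f + e g)

include hadd

theorem ptEq_one : e 1 = 0 := by
  have h := hadd 1 1
  rw [one_mul] at h
  exact left_eq_add.mp h

theorem ptEq_pow (f : WithConv (H →ₐ[GaloisRep.ratLocalizedAt p] PadicAlgCl p)) (n : ℕ) :
    e (f ^ n) = n • e f := by
  induction n with
  | zero => rw [pow_zero, zero_smul]; exact ptEq_one p ρ I e hadd
  | succ n ih => rw [pow_succ, hadd, ih, succ_nsmul]

theorem ptEq_symm_zero : e.symm 0 = 1 := by
  rw [Equiv.symm_apply_eq]
  exact (ptEq_one p ρ I e hadd).symm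

theorem ptEq_symm_add (x y : ρ.V ⧸ (I • (⊤ : Submodule A ρ.V))) :
    e.symm (x + y) = e.symm x * e.symm y := by
  rw [Equiv.symm_apply_eq, hadd, Equiv.apply_symm_apply, Equiv.apply_symm_apply]

theorem ptEq_symm_nsmul (x : ρ.V ⧸ (I • (⊤ : Submodule A ρ.V))) (n : ℕ) :
    e.symm (n • x) = e.symm x ^ n := by
  rw [Equiv.symm_apply_eq, ptEq_pow p ρ I e hadd, Equiv.apply_symm_apply]

/-- every point is killed by `p` -/
theorem ptEq_pow_p (hpI : (p : A) ∈ I)
    (f : WithConv (H →ₐ[GaloisRep.ratLocalizedAt p] PadicAlgCl p)) : f ^ p = 1 := by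
  apply e.injective
  rw [ptEq_pow p ρ I e hadd, nsmul_quot_eq_zero p ρ I hpI, ptEq_one p ρ I e hadd]

theorem ptEq_symm_neg (hpI : (p : A) ∈ I) (x : ρ.V ⧸ (I • (⊤ : Submodule A ρ.V))) :
    e.symm (-x) = e.symm x ^ (p - 1) := by
  rw [← ptEq_symm_nsmul p ρ I e hadd]
  congr 1
  have h1 : (p - 1) • x + x = 0 := by
    rw [← succ_nsmul, Nat.sub_add_cancel (Fact.out : p.Prime).one_le]
    exact nsmul_quot_eq_zero p ρ I hpI x
  exact (eq_neg_of_add_eq_zero_left h1).symm

variable (heq : ∀ (τ : PadicAlgCl p ≃ₐ[ℚ_[p]] PadicAlgCl p)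
    (f g : WithConv (H →ₐ[GaloisRep.ratLocalizedAt p] PadicAlgCl p)),
    (∀ h : H, g.ofConv h = τ (f.ofConv h)) → e g = locAct p ρ I τ (e f))

include heq

omit hadd in
theorem ptEq_compPt (τ : PadicAlgCl p ≃ₐ[ℚ_[p]] PadicAlgCl p)
    (g : WithConv (H →ₐ[GaloisRep.ratLocalizedAt p] PadicAlgCl p)) :
    e (compPt p τ g) = locAct p ρ I τ (e g) :=
  heq τ g (compPt p τ g) (fun _ => rfl)

omit hadd in
theorem ptEq_symm_locAct (τ : PadicAlgCl p ≃ₐ[ℚ_[p]] PadicAlgCl p)
    (x : ρ.V ⧸ (I • (⊤ : Submodule A ρ.V))) :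
    e.symm (locAct p ρ I τ x) = compPt p τ (e.symm x) := by
  rw [Equiv.symm_apply_eq, ptEq_compPt p ρ I e heq, Equiv.apply_symm_apply]

/-- **(B3)** the points in the ramified part reduce to the identity. -/
theorem redOneΩ_of_mem_ramPart (hpI : (p : A) ∈ I)
    {x : ρ.V ⧸ (I • (⊤ : Submodule A ρ.V))} (hx : x ∈ ramPart p ρ I) :
    RedOneΩ p (e.symm x) := by
  unfold ramPart at hx
  induction hx using AddSubgroup.closure_induction with
  | mem y hy =>
    obtain ⟨τ, hτ, z, rfl⟩ := hy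
    rw [sub_eq_add_neg, ptEq_symm_add p ρ I e hadd, ptEq_symm_neg p ρ I e hadd hpI,
      ptEq_symm_locAct p ρ I e heq]
    exact redOneΩ_of_inertia p hτ (e.symm z) _ (ptEq_pow_p p ρ I e hadd hpI _) (fun _ => rfl)
  | zero =>
    rw [ptEq_symm_zero p ρ I e hadd]
    exact redOneΩ_one p
  | add y z _ _ hy hz =>
    rw [ptEq_symm_add p ρ I e hadd]
    exact redOneΩ_mul p hy hz
  | neg y _ hy =>
    rw [ptEq_symm_neg p ρ I e hadd hpI]
    exact redOneΩ_pow p hy _

end Ram

end Points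

end Fermat.Agent.P1.helper40
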