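import Fermat.Agent.P1.helper40_PtCore

/-!
# P1 / FLAT-CNT, module DICT-H (helper40, task 745): points at a finite level (CORE-B, (B4))

`F ≤ Ω = PadicAlgCl p` a finite normal extension of `ℚ_p`.

* `DictIStatement p` : the inertia dictionary (CORE-A, helper78) as a `Prop`:
  `ordT p F` versus the norm of `Ω`, and `helper14.inertia p F` is the image of
  `locInertiaNat p`;
* `ptΩ`, `ptF` : transport of points `H → F` to points `H → Ω` and back;
* `pointsIntegral_of_dictI`, `pointRedOne_of_redOneΩ` : the hypotheses of the (FT) statements.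
-/

set_option autoImplicit false
set_option linter.unusedSectionVars false

open scoped TensorProduct
open WithConv

namespace Fermat.Agent.P1.helper40

open Fermat.Agent.S55.helper8 Fermat.Agent.S55.helper7 Fermat.Agent.P1.helper14
  Fermat.Agent.P1.helper70 Fermat.Agent.P1.helper92 Fermat.Agent.P1.helper61

variable (p : ℕ) [Fact p.Prime]

/-- **The inertia dictionary** (CORE-A): for a finite normal extension `F ≤ Ω` of `ℚ_p`, the
valuation `ordT p F` is the one of the norm of `Ω`, and the inertia group of `F` is the image of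
the inertia group of `Ω`. -/
def DictIStatement : Prop :=
  ∀ (F : IntermediateField ℚ_[p] (PadicAlgCl p)) [FiniteDimensional ℚ_[p] F] [Normal ℚ_[p] F],
    (∀ x : F, 0 ≤ ordT p F x ↔ ‖(x : PadicAlgCl p)‖ ≤ 1) ∧
    (∀ x : F, 0 < ordT p F x ↔ ‖(x : PadicAlgCl p)‖ < 1) ∧
    (∀ τ ∈ locInertiaNat p, AlgEquiv.restrictNormalHom F τ ∈ inertia p F) ∧
    (∀ s ∈ inertia p F, ∃ τ ∈ locInertiaNat p, AlgEquiv.restrictNormalHom F τ = s)

section Transport

variable (F : IntermediateField ℚ_[p] (PadicAlgCl p))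

/-- the inclusion `F → Ω` as a homomorphism of `ℤ_(p)`-algebras -/
noncomputable def inclZ : F →ₐ[GaloisRep.ratLocalizedAt p] PadicAlgCl p :=
  F.val.restrictScalars (GaloisRep.ratLocalizedAt p)

theorem inclZ_apply (x : F) : inclZ p F x = (x : PadicAlgCl p) := rfl

theorem inclZ_injective : Function.Injective (inclZ p F) := Subtype.val_injective

theorem coe_algebraMap_ratLoc (c : GaloisRep.ratLocalizedAt p) :
    ((algebraMap (GaloisRep.ratLocalizedAt p) F c : F) : PadicAlgCl p) =
      algebraMap (GaloisRep.ratLocalizedAt p) (PadicAlgCl p) c := rfl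

variable {H : Type} [CommRing H] [Bialgebra (GaloisRep.ratLocalizedAt p) H]

/-- an `F`-valued point as an `Ω`-valued point -/
noncomputable def ptΩ (y : WithConv (H →ₐ[GaloisRep.ratLocalizedAt p] F)) :
    WithConv (H →ₐ[GaloisRep.ratLocalizedAt p] PadicAlgCl p) :=
  toConv ((inclZ p F).comp y.ofConv)

theorem ptΩ_apply (y : WithConv (H →ₐ[GaloisRep.ratLocalizedAt p] F)) (h : H) :
    (ptΩ p F y).ofConv h = (y.ofConv h : PadicAlgCl p) := rfl

theorem ptΩ_injective :
    Function.Injective (ptΩ p F : WithConv (H →ₐ[GaloisRep.ratLocalizedAt p] F) → _) := by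
  intro y y' h
  apply WithConv.ext
  apply AlgHom.ext
  intro a
  apply Subtype.ext
  have := congrArg (fun g : WithConv (H →ₐ[GaloisRep.ratLocalizedAt p] PadicAlgCl p) =>
    g.ofConv a) h
  exact this

theorem ptΩ_one : ptΩ p F (1 : WithConv (H →ₐ[GaloisRep.ratLocalizedAt p] F)) = 1 := by
  apply WithConv.ext
  apply AlgHom.ext
  intro a
  rfl

theorem ptΩ_mul (y y' : WithConv (H →ₐ[GaloisRep.ratLocalizedAt p] F)) :
    ptΩ p F (y * y') = ptΩ p F y * ptΩ p F y' := by
  apply WithConv.ext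
  exact AlgHom.comp_convMul_distrib (inclZ p F) y y'

theorem ptΩ_pow (y : WithConv (H →ₐ[GaloisRep.ratLocalizedAt p] F)) (n : ℕ) :
    ptΩ p F (y ^ n) = ptΩ p F y ^ n := by
  induction n with
  | zero => rw [pow_zero, pow_zero]; exact ptΩ_one p F
  | succ n ih => rw [pow_succ, pow_succ, ptΩ_mul, ih]

/-- an `Ω`-valued point with values in `F` as an `F`-valued point -/
noncomputable def ptF (g : WithConv (H →ₐ[GaloisRep.ratLocalizedAt p] PadicAlgCl p))
    (hg : ∀ h : H, g.ofConv h ∈ F) : WithConv (H →ₐ[GaloisRep.ratLocalizedAt p] F) :=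
  toConv
    { toFun := fun h => ⟨g.ofConv h, hg h⟩
      map_one' := Subtype.ext (map_one g.ofConv)
      map_mul' := fun a b => Subtype.ext (map_mul g.ofConv a b)
      map_zero' := Subtype.ext (map_zero g.ofConv)
      map_add' := fun a b => Subtype.ext (map_add g.ofConv a b)
      commutes' := fun r => Subtype.ext (g.ofConv.commutes r) }

theorem ptF_apply (g : WithConv (H →ₐ[GaloisRep.ratLocalizedAt p] PadicAlgCl p))
    (hg : ∀ h : H, g.ofConv h ∈ F) (h : H) :
    (((ptF p F g hg).ofConv h : F) : PadicAlgCl p) = g.ofConv h := rfl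

theorem ptΩ_ptF (g : WithConv (H →ₐ[GaloisRep.ratLocalizedAt p] PadicAlgCl p))
    (hg : ∀ h : H, g.ofConv h ∈ F) : ptΩ p F (ptF p F g hg) = g := by
  apply WithConv.ext
  apply AlgHom.ext
  intro a
  rfl

theorem ptF_ne_one {g : WithConv (H →ₐ[GaloisRep.ratLocalizedAt p] PadicAlgCl p)}
    (hg : ∀ h : H, g.ofConv h ∈ F) (hg1 : g ≠ 1) : ptF p F g hg ≠ 1 := by
  intro h
  apply hg1
  rw [← ptΩ_ptF p F g hg, h, ptΩ_one]

theorem ptF_pow_eq_one {g : WithConv (H →ₐ[GaloisRep.ratLocalizedAt p] PadicAlgCl p)}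
    (hg : ∀ h : H, g.ofConv h ∈ F) {n : ℕ} (hgn : g ^ n = 1) : ptF p F g hg ^ n = 1 := by
  apply ptΩ_injective p F
  rw [ptΩ_pow, ptΩ_ptF, hgn, ptΩ_one]

/-- the action of `Gal(F/ℚ_p)` on `F`-valued points is the restriction of the action of `G_p` on
`Ω`-valued points -/
theorem restrict_ptF_apply [Normal ℚ_[p] F]
    (τ : PadicAlgCl p ≃ₐ[ℚ_[p]] PadicAlgCl p)
    {g g' : WithConv (H →ₐ[GaloisRep.ratLocalizedAt p] PadicAlgCl p)}
    (hg : ∀ h : H, g.ofConv h ∈ F) (hτ : ∀ h : H, τ (g.ofConv h) = g'.ofConv h)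
    (y' : WithConv (H →ₐ[GaloisRep.ratLocalizedAt p] F)) (hy' : ptΩ p F y' = g') (h : H) :
    AlgEquiv.restrictNormalHom F τ ((ptF p F g hg).ofConv h) = y'.ofConv h := by
  apply Subtype.ext
  have h1 : ((AlgEquiv.restrictNormalHom F τ ((ptF p F g hg).ofConv h) : F) : PadicAlgCl p) =
      τ (((ptF p F g hg).ofConv h : F) : PadicAlgCl p) :=
    AlgEquiv.restrictNormal_commutes τ F _
  rw [h1, ptF_apply, hτ, ← hy']
  rfl

end Transport

section Dict

variable (F : IntermediateField ℚ_[p] (PadicAlgCl p)) [FiniteDimensional ℚ_[p] F]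
  [Normal ℚ_[p] F]
variable {H : Type} [CommRing H] [Bialgebra (GaloisRep.ratLocalizedAt p) H]
  [Module.Finite (GaloisRep.ratLocalizedAt p) H]

/-- **(B1)** at a finite level. -/
theorem pointsIntegral_of_dictI (hI : DictIStatement p) :
    PointsIntegral p F (GaloisRep.ratLocalizedAt p) H := by
  intro y h
  rw [(hI F).1]
  exact norm_pt_le_one p (ptΩ p F y).ofConv h

/-- a point reducing to the identity over `Ω` reduces to the identity at a finite level. -/
theorem pointRedOne_of_redOneΩ (hI : DictIStatement p)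
    (y : WithConv (H →ₐ[GaloisRep.ratLocalizedAt p] F)) (hy : RedOneΩ p (ptΩ p F y)) :
    PointRedOne p y := by
  intro h
  rw [(hI F).2.1]
  exact hy h

end Dict

end Fermat.Agent.P1.helper40
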