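import Fermat.Agent.P1.helper43_FCStepLin

/-!
# P1 / FLAT-CNT / KUMEQ, package FC-STEP (helper43, task 784): the graded piece of level `m`

`fcStep p : FCGrStatement p → FCKumStatement p → FCEigLinQStatement → FCStepStatement p`.

With `V = k_T / S` (`S` = leading coefficients of `U^(m) ∩ U^(m+1) (Tˣ)^p`) and
`W = k ⊗[𝔽_p] V`, a homomorphism `f : G_T → k` of level `≥ m` has a graded class `w ∈ W`
(`IsGr`), characterised by `evT ℓ w = [lcoef a_ℓ]` where `ℓ ∘ f` is the Kummer homomorphism of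
`a_ℓ ∈ U^(m)`.  Semi-invariance of `f` under `γ` makes `w` an eigenvector of
`id ⊗ (x ↦ θ(γ)^m x^(p^j))` (`isGr_eigen`), and the eigenspace bound `FCEigLinQStatement` gives
a linear relation between `N + 1` graded classes.
-/

set_option autoImplicit false
set_option linter.unusedSectionVars false
set_option linter.style.haveILetI false
set_option linter.unusedVariables false

namespace Fermat.Agent.P1.helper43

open TensorProduct
open Fermat.Agent.S55.helper8 Fermat.Agent.S55.helper7 Fermat.Agent.P1.helper14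
open Fermat.Agent.P1.helper94

attribute [local instance] kqAlg

section gr

variable {p : ℕ} [Fact p.Prime]
variable {T : IntermediateField ℚ_[p] (PadicAlgCl p)} [FiniteDimensional ℚ_[p] T]
variable {ζ : PadicAlgCl p} {ϖ : T} {m : ℕ}
variable {k : Type} [Field k] [Algebra (ZMod p) k]

/-- `w` is the graded class of `f` -/
def IsGr (G : GrData p T ϖ m) (ζ : PadicAlgCl p) (f : GalP p → k)
    (w : k ⊗[ZMod p] VQ G) : Prop :=
  ∀ (ℓ : k →ₗ[ZMod p] ZMod p) (x : kq p T), Rel p T ζ ϖ m (fun g => ℓ (f g)) x →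
    evT ℓ w = (Submodule.Quotient.mk x : VQ G)

lemma exists_isGr [Finite k] (G : GrData p T ϖ m) (K : KumData p T ζ) {f : GalP p → k}
    (hf : HasLevelK p T ζ k m f) : ∃ w : k ⊗[ZMod p] VQ G, IsGr G ζ f w := by
  classical
  haveI : Module.Finite (ZMod p) k := Module.Finite.of_finite
  let b := Module.finBasis (ZMod p) k
  have hex : ∀ i, ∃ x : kq p T, Rel p T ζ ϖ m (fun g => b.coord i (f g)) x :=
    fun i => exists_rel_of_hasLevel (hf (b.coord i))
  choose x hx using hex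
  refine ⟨∑ i, b i ⊗ₜ[ZMod p] (Submodule.Quotient.mk (x i) : VQ G), ?_⟩
  intro ℓ y hy
  have h1 : Rel p T ζ ϖ m (fun g => ∑ i ∈ Finset.univ, ℓ (b i) * b.coord i (f g))
      (∑ i ∈ Finset.univ, (ℓ (b i)).val • x i) :=
    rel_sum G K Finset.univ (fun i g => ℓ (b i) * b.coord i (f g))
      (fun i => (ℓ (b i)).val • x i) (fun i _ => rel_smul G K (ℓ (b i)) (hx i))
  have h2 : Rel p T ζ ϖ m (fun g => ℓ (f g)) (∑ i ∈ Finset.univ, (ℓ (b i)).val • x i) := by
    refine h1.congr (fun g _ => ?_)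
    conv_rhs => rw [← b.sum_repr (f g)]
    rw [map_sum]
    refine Finset.sum_congr rfl (fun i _ => ?_)
    rw [map_smul, smul_eq_mul, mul_comm]
    rfl
  have h3 := rel_unique G K h2 hy
  rw [map_sum]
  have h4 : ∀ i, evT ℓ (b i ⊗ₜ[ZMod p] (Submodule.Quotient.mk (x i) : VQ G)) =
      (Submodule.Quotient.mk ((ℓ (b i)).val • x i) : VQ G) := by
    intro i
    rw [evT_tmul, ← zmod_smul_kq]
    rfl
  rw [Finset.sum_congr rfl (fun i _ => h4 i)]
  have h5 : (∑ i, (Submodule.Quotient.mk ((ℓ (b i)).val • x i) : VQ G)) =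
      (Submodule.Quotient.mk (∑ i, (ℓ (b i)).val • x i) : VQ G) := by
    rw [← Submodule.mkQ_apply, map_sum]
    rfl
  rw [h5, eq_comm, Submodule.Quotient.eq]
  exact h3

/-- conjugation invariance of `G_T` -/
lemma conj_mem_fixingSubgroup [Normal ℚ_[p] T] (γ : GalP p) {g : GalP p}
    (hg : g ∈ T.fixingSubgroup) : γ⁻¹ * g * γ ∈ T.fixingSubgroup := by
  rw [← IntermediateField.restrictNormalHom_ker] at hg ⊢
  rw [MonoidHom.mem_ker] at hg ⊢
  rw [map_mul, map_mul, hg, mul_one, ← map_mul, inv_mul_cancel, map_one]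

/-- semi-invariance under `γ` makes the graded class an eigenvector -/
lemma isGr_eigen [Finite k] [Normal ℚ_[p] T] (G : GrData p T ϖ m) (K : KumData p T ζ)
    {ω : GalP p → ZMod p} (hω : IsCycl p ζ ω) (γ : GalP p) (j : ℕ)
    (hγ : ∀ x : T, 0 ≤ ordT p T x →
      0 < ordT p T (AlgEquiv.restrictNormalHom T γ x - x ^ (p ^ j)))
    {f : GalP p → k} (hf : HasLevelK p T ζ k m f) {cγ : k} (hc : cγ ≠ 0)
    (hinv : ∀ g ∈ T.fixingSubgroup, f (γ * g * γ⁻¹) = cγ * f g)
    {w : k ⊗[ZMod p] VQ G} (hw : IsGr G ζ f w) :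
    (tauBar G (AlgEquiv.restrictNormalHom T γ) j hγ).baseChange k w =
      (algebraMap (ZMod p) k (ω γ) * cγ⁻¹) • w := by
  apply ext_evT
  intro ℓ
  obtain ⟨x, hx⟩ := exists_rel_of_hasLevel (ϖ := ϖ) (hf ℓ)
  rw [evT_baseChange, hw ℓ x hx, tauBar_mk, evT_smul]
  symm
  apply hw
  refine (rel_conj G K hω γ j hγ hx).congr (fun g hg => ?_)
  have hg' : γ⁻¹ * g * γ ∈ T.fixingSubgroup := conj_mem_fixingSubgroup γ hg
  have h1 := hinv _ hg'
  have e : γ * (γ⁻¹ * g * γ) * γ⁻¹ = g := by group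
  rw [e] at h1
  have h2 : f (γ⁻¹ * g * γ) = cγ⁻¹ * f g := by
    rw [h1, ← mul_assoc, inv_mul_cancel₀ hc, one_mul]
  show ω γ * ℓ (f (γ⁻¹ * g * γ)) = ℓ ((algebraMap (ZMod p) k (ω γ) * cγ⁻¹) * f g)
  rw [h2, mul_assoc, ← Algebra.smul_def, map_smul, smul_eq_mul]

end gr

/-- **FC-STEP**: the graded piece of level `m`. -/
theorem fcStep (p : ℕ) [Fact p.Prime] :
    FCGrStatement p → FCKumStatement p → FCEigLinQStatement → FCStepStatement p := by
  intro hGr hKum hEig T _ _ ζ ω k _ _ _ m ϖ s₀ φ t as aφ hζ hζT hω hm hϖ hs₀ ht hφ hcomm has haφ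
    hne N hN F hF
  classical
  have G : GrData p T ϖ m := grData_of_fcGr p T hGr hϖ hm
  have K : KumData p T ζ := kumData_of_fcKum p T hKum hζ hζT
  -- the restrictions of `s₀` and `φ` to `T`
  have hs₀' : AlgEquiv.restrictNormalHom T s₀ ∈ inertia p T := hs₀
  have hγs : ∀ x : T, 0 ≤ ordT p T x →
      0 < ordT p T (AlgEquiv.restrictNormalHom T s₀ x - x ^ (p ^ 0)) := by
    intro x hx
    rw [pow_zero, pow_one]
    exact hs₀' x hx
  have hcomm' : AlgEquiv.restrictNormalHom T s₀ * AlgEquiv.restrictNormalHom T φ =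
      AlgEquiv.restrictNormalHom T φ * AlgEquiv.restrictNormalHom T s₀ := by
    have h1 : AlgEquiv.restrictNormalHom T (s₀ * φ * s₀⁻¹ * φ⁻¹) = 1 := by
      rw [← MonoidHom.mem_ker, IntermediateField.restrictNormalHom_ker]
      exact hcomm
    rw [map_mul, map_mul, map_mul, map_inv, map_inv] at h1
    calc AlgEquiv.restrictNormalHom T s₀ * AlgEquiv.restrictNormalHom T φ
        = (AlgEquiv.restrictNormalHom T s₀ * AlgEquiv.restrictNormalHom T φ *
            (AlgEquiv.restrictNormalHom T s₀)⁻¹ * (AlgEquiv.restrictNormalHom T φ)⁻¹) *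
            (AlgEquiv.restrictNormalHom T φ * AlgEquiv.restrictNormalHom T s₀) := by group
      _ = AlgEquiv.restrictNormalHom T φ * AlgEquiv.restrictNormalHom T s₀ := by
          rw [h1, one_mul]
  -- the data of the eigenspace bound
  have hu : (thetaRes p T ϖ (AlgEquiv.restrictNormalHom T s₀) ^ m) ^ (p ^ t) =
      thetaRes p T ϖ (AlgEquiv.restrictNormalHom T s₀) ^ m := by
    rw [← pow_mul, mul_comm, pow_mul, thetaRes_pow_eq hϖ hs₀' t hφ hcomm']
  have hc : thetaRes p T ϖ (AlgEquiv.restrictNormalHom T φ) ^ m ≠ 0 :=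
    pow_ne_zero _ (thetaRes_ne_zero hϖ _)
  have hωφ : ω φ ≠ 0 := by
    intro h0
    have h1 := hω φ
    rw [h0, ZMod.val_zero, pow_zero] at h1
    have h2 : ζ = 1 := by
      have := congrArg φ.symm h1
      simpa using this
    exact hζ.ne_one (Fact.out : p.Prime).one_lt h2
  have hℓ' : algebraMap (ZMod p) k (ω φ) * aφ⁻¹ ≠ 0 :=
    mul_ne_zero ((map_ne_zero _).2 hωφ) (inv_ne_zero haφ)
  -- the graded classes
  have hex : ∀ i, ∃ w : k ⊗[ZMod p] VQ G, IsGr G ζ (F i) w := fun i => exists_isGr G K (hF i).1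
  choose w hw using hex
  have hws : ∀ i, (tauBar G (AlgEquiv.restrictNormalHom T s₀) 0 hγs).baseChange k (w i) =
      (algebraMap (ZMod p) k (ω s₀) * as⁻¹) • w i :=
    fun i => isGr_eigen G K hω s₀ 0 hγs (hF i).1 has (hF i).2.1 (hw i)
  have hwφ : ∀ i, (tauBar G (AlgEquiv.restrictNormalHom T φ) t hφ).baseChange k (w i) =
      (algebraMap (ZMod p) k (ω φ) * aφ⁻¹) • w i :=
    fun i => isGr_eigen G K hω φ t hφ (hF i).1 haφ (hF i).2.2 (hw i)
  -- the joint eigenspace
  haveI : Module.Finite (ZMod p) (kq p T) := Module.Finite.of_finite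
  haveI : Module.Finite (ZMod p) (VQ G) :=
    Module.Finite.of_surjective (Submodule.mkQ (sMod G)) (Submodule.mkQ_surjective _)
  let E : Submodule k (k ⊗[ZMod p] VQ G) :=
    LinearMap.ker ((tauBar G (AlgEquiv.restrictNormalHom T s₀) 0 hγs).baseChange k -
        (algebraMap (ZMod p) k (ω s₀) * as⁻¹) • LinearMap.id) ⊓
      LinearMap.ker ((tauBar G (AlgEquiv.restrictNormalHom T φ) t hφ).baseChange k -
        (algebraMap (ZMod p) k (ω φ) * aφ⁻¹) • LinearMap.id)
  have hE : ∀ v ∈ E,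
      (tauBar G (AlgEquiv.restrictNormalHom T s₀) 0 hγs).baseChange k v =
        (algebraMap (ZMod p) k (ω s₀) * as⁻¹) • v ∧
      (tauBar G (AlgEquiv.restrictNormalHom T φ) t hφ).baseChange k v =
        (algebraMap (ZMod p) k (ω φ) * aφ⁻¹) • v := by
    intro v hv
    obtain ⟨h1, h2⟩ := Submodule.mem_inf.1 hv
    rw [LinearMap.mem_ker, LinearMap.sub_apply, sub_eq_zero] at h1 h2
    exact ⟨h1, h2⟩
  have hwE : ∀ i, w i ∈ E := by
    intro i
    refine Submodule.mem_inf.2 ⟨?_, ?_⟩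
    · rw [LinearMap.mem_ker, LinearMap.sub_apply, sub_eq_zero]
      exact hws i
    · rw [LinearMap.mem_ker, LinearMap.sub_apply, sub_eq_zero]
      exact hwφ i
  have hbound := (hEig p (kq p T) k (k ⊗[ZMod p] VQ G) (qMap G k) (span_qMap G k)
    (thetaRes p T ϖ (AlgEquiv.restrictNormalHom T s₀) ^ m)
    ((tauBar G (AlgEquiv.restrictNormalHom T s₀) 0 hγs).baseChange k)
    (fun x => by rw [baseChange_tauBar_qMap, pow_zero, pow_one])).1 t
    (thetaRes p T ϖ (AlgEquiv.restrictNormalHom T φ) ^ m)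
    ((tauBar G (AlgEquiv.restrictNormalHom T φ) t hφ).baseChange k)
    (algebraMap (ZMod p) k (ω s₀) * as⁻¹) (algebraMap (ZMod p) k (ω φ) * aφ⁻¹) ht hc hℓ' hu
    (fun x => baseChange_tauBar_qMap G k _ t hφ x) hne E hE
  have hcard : Nat.card {σ : frobFixed p (kq p T) t →+* k //
      ∀ h : thetaRes p T ϖ (AlgEquiv.restrictNormalHom T s₀) ^ m ∈ frobFixed p (kq p T) t,
        σ ⟨_, h⟩ = algebraMap (ZMod p) k (ω s₀) * as⁻¹} =
      Nat.card {σ : frobFixed p (kq p T) t →+* k //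
      ∀ h : thetaRes p T ϖ (AlgEquiv.restrictNormalHom T s₀) ^ m ∈ frobFixed p (kq p T) t,
        σ ⟨_, h⟩ * as = algebraMap (ZMod p) k (ω s₀)} := by
    refine Nat.card_congr (Equiv.subtypeEquivRight (fun σ => forall_congr' (fun h => ?_)))
    exact eq_mul_inv_iff_mul_eq₀ has
  have hfin : Module.finrank k E ≤ N := le_trans hbound (hcard ▸ hN)
  -- a linear relation between the graded classes
  have hdep : ¬ LinearIndependent k w := by
    intro hli
    have hli' : LinearIndependent k (fun i => (⟨w i, hwE i⟩ : E)) :=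
      LinearIndependent.of_comp E.subtype hli
    have := hli'.fintype_card_le_finrank
    rw [Fintype.card_fin] at this
    omega
  obtain ⟨c, hsum, i₀, hi₀⟩ := Fintype.not_linearIndependent_iff.1 hdep
  refine ⟨c, fun h => hi₀ (congrFun h i₀), ?_⟩
  intro ℓ
  -- the leading coefficients of the components
  have hex2 : ∀ i, ∃ x : kq p T,
      Rel p T ζ ϖ m (fun g => (ℓ ∘ₗ LinearMap.mulLeft (ZMod p) (c i)) (F i g)) x :=
    fun i => exists_rel_of_hasLevel ((hF i).1 _)
  choose x hx using hex2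
  have h1 : Rel p T ζ ϖ m
      (fun g => ∑ i ∈ Finset.univ, (ℓ ∘ₗ LinearMap.mulLeft (ZMod p) (c i)) (F i g))
      (∑ i ∈ Finset.univ, x i) :=
    rel_sum G K Finset.univ _ x (fun i _ => hx i)
  have h2 : (∑ i, x i) ∈ sGrp G := by
    rw [← mem_sMod, ← Submodule.Quotient.mk_eq_zero, ← Submodule.mkQ_apply, map_sum]
    have h3 := congrArg (evT ℓ) hsum
    rw [map_zero, map_sum] at h3
    rw [← h3]
    refine Finset.sum_congr rfl (fun i _ => ?_)
    rw [evT_smul, hw i _ _ (hx i)]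
    rfl
  refine hasLevel_succ_of_rel G K (h1.congr (fun g _ => ?_)) h2
  rw [map_sum]
  rfl

end Fermat.Agent.P1.helper43
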