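import Fermat.Agent.P1.helper43_FCStepRel

/-!
# P1 / FLAT-CNT / KUMEQ, package FC-STEP (helper43, task 784), part 2: linear algebra

`W = k ⊗[𝔽_p] V` for an `𝔽_p`-space `V` and a finite field `k`:

* `evT ℓ : W → V` for `ℓ : k →ₗ[𝔽_p] 𝔽_p`, `c ⊗ v ↦ ℓ(c) v`; these maps separate the points of `W`
  (`eq_zero_of_evT`, `ext_evT`);
* `evT_smul`, `evT_baseChange` : compatibility with the `k`-action and with `id ⊗ τ`.
-/

set_option autoImplicit false
set_option linter.unusedSectionVars false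
set_option linter.style.haveILetI false
set_option linter.unusedVariables false

namespace Fermat.Agent.P1.helper43

open TensorProduct

section tensor

variable {p : ℕ} [Fact p.Prime]
variable {k : Type} [Field k] [Algebra (ZMod p) k]
variable {V : Type} [AddCommGroup V] [Module (ZMod p) V]

/-- `c ⊗ v ↦ ℓ(c) v` -/
noncomputable def evT (ℓ : k →ₗ[ZMod p] ZMod p) : k ⊗[ZMod p] V →ₗ[ZMod p] V :=
  (TensorProduct.lid (ZMod p) V).toLinearMap ∘ₗ LinearMap.rTensor V ℓ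

@[simp]
lemma evT_tmul (ℓ : k →ₗ[ZMod p] ZMod p) (c : k) (v : V) :
    evT ℓ (c ⊗ₜ[ZMod p] v) = ℓ c • v := by
  simp [evT]

lemma evT_smul (ℓ : k →ₗ[ZMod p] ZMod p) (e : k) (w : k ⊗[ZMod p] V) :
    evT ℓ (e • w) = evT (ℓ ∘ₗ LinearMap.mulLeft (ZMod p) e) w := by
  induction w using TensorProduct.induction_on with
  | zero => simp
  | tmul c v =>
    rw [TensorProduct.smul_tmul', evT_tmul, evT_tmul]
    simp [smul_eq_mul]
  | add x y hx hy => rw [smul_add, map_add, map_add, hx, hy]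

lemma evT_baseChange (τ : V →ₗ[ZMod p] V) (ℓ : k →ₗ[ZMod p] ZMod p) (w : k ⊗[ZMod p] V) :
    evT ℓ (τ.baseChange k w) = τ (evT ℓ w) := by
  induction w using TensorProduct.induction_on with
  | zero => simp
  | tmul c v => simp
  | add x y hx hy => rw [map_add, map_add, map_add, map_add, hx, hy]

lemma eq_zero_of_evT [Finite k] {w : k ⊗[ZMod p] V} (h : ∀ ℓ : k →ₗ[ZMod p] ZMod p, evT ℓ w = 0) :
    w = 0 := by
  haveI : Module.Finite (ZMod p) k := Module.Finite.of_finite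
  let b := Module.finBasis (ZMod p) k
  have key : ∀ (w : k ⊗[ZMod p] V) (i : Fin (Module.finrank (ZMod p) k)),
      TensorProduct.equivFinsuppOfBasisLeft b w i = evT (b.coord i) w := by
    intro w i
    induction w using TensorProduct.induction_on with
    | zero => simp
    | tmul c v =>
      rw [TensorProduct.equivFinsuppOfBasisLeft_apply_tmul_apply, evT_tmul]
      rfl
    | add x y hx hy => rw [map_add, Finsupp.add_apply, hx, hy, map_add]
  apply (TensorProduct.equivFinsuppOfBasisLeft b).injective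
  ext i
  rw [key, h, map_zero]
  rfl

lemma ext_evT [Finite k] {w w' : k ⊗[ZMod p] V}
    (h : ∀ ℓ : k →ₗ[ZMod p] ZMod p, evT ℓ w = evT ℓ w') : w = w' := by
  rw [← sub_eq_zero]
  apply eq_zero_of_evT
  intro ℓ
  rw [map_sub, h ℓ, sub_self]




end tensor

open Fermat.Agent.S55.helper8 Fermat.Agent.S55.helper7 Fermat.Agent.P1.helper14
open Fermat.Agent.P1.helper94

/-! ## The fundamental character -/

section theta

variable {p : ℕ} [Fact p.Prime]
variable {T : Type} [Field T] [Algebra ℚ_[p] T] [FiniteDimensional ℚ_[p] T]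

lemma ordT_quot {ϖ : T} (hϖ : ordT p T ϖ = 1) (s : T ≃ₐ[ℚ_[p]] T) :
    ordT p T (s ϖ / ϖ) = 0 := by
  have hϖ0 : ϖ ≠ 0 := unif_ne_zero hϖ
  rw [div_eq_mul_inv, ordT_mul, Fermat.Agent.P1.helper14.ordT_algEquiv]
  exact ordT_inv p T hϖ0

lemma resT_ne_zero_of_ordT {x : T} (hx : ordT p T x = 0) : resT p T x ≠ 0 := by
  intro h
  rw [resT_eq_zero_iff p T hx.ge, hx] at h
  exact lt_irrefl _ h

lemma thetaRes_ne_zero {ϖ : T} (hϖ : ordT p T ϖ = 1) (s : T ≃ₐ[ℚ_[p]] T) :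
    thetaRes p T ϖ s ≠ 0 :=
  resT_ne_zero_of_ordT (ordT_quot hϖ s)

/-- `θ(s)` is fixed by `Frob^t` if `s ∈ I` commutes with a lift `φ` of `Frob^t`. -/
lemma thetaRes_pow_eq {ϖ : T} (hϖ : ordT p T ϖ = 1) {s φ : T ≃ₐ[ℚ_[p]] T}
    (hs : s ∈ inertia p T) (t : ℕ)
    (hφ : ∀ x : T, 0 ≤ ordT p T x → 0 < ordT p T (φ x - x ^ (p ^ t)))
    (hcomm : s * φ = φ * s) :
    thetaRes p T ϖ s ^ (p ^ t) = thetaRes p T ϖ s := by
  have hϖ0 : ϖ ≠ 0 := unif_ne_zero hϖ
  have hφϖ0 : φ ϖ ≠ 0 := by simpa using hϖ0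
  have hy : ordT p T (s ϖ / ϖ) = 0 := ordT_quot hϖ s
  have hv : ordT p T (φ ϖ / ϖ) = 0 := ordT_quot hϖ φ
  have hv0 : φ ϖ / ϖ ≠ 0 := div_ne_zero hφϖ0 hϖ0
  have hφy : ordT p T (φ (s ϖ / ϖ)) = 0 := by
    rw [Fermat.Agent.P1.helper14.ordT_algEquiv]; exact hy
  -- `res (φ y) = res y ^ (p^t)`
  have h1 : resT p T (φ (s ϖ / ϖ)) = resT p T (s ϖ / ϖ) ^ (p ^ t) := by
    rw [← resT_pow p T hy.ge]
    exact resT_eq_of_sub_pos p T hφy.ge (ordT_pow_nonneg p T hy.ge _) (hφ _ hy.ge)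
  -- `φ y = (s v / v) * y`
  have h2 : φ (s ϖ / ϖ) = (s (φ ϖ / ϖ) / (φ ϖ / ϖ)) * (s ϖ / ϖ) := by
    have e1 : φ (s ϖ) = s (φ ϖ) := by
      have := congrArg (fun σ : T ≃ₐ[ℚ_[p]] T => σ ϖ) hcomm
      simpa [AlgEquiv.mul_apply] using this.symm
    have hsϖ0 : s ϖ ≠ 0 := by simpa using hϖ0
    rw [map_div₀, map_div₀, e1]
    field_simp
  -- `res (s v / v) = 1`
  have hsv : ordT p T (s (φ ϖ / ϖ)) = 0 := by
    rw [Fermat.Agent.P1.helper14.ordT_algEquiv]; exact hv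
  have hq : ordT p T (s (φ ϖ / ϖ) / (φ ϖ / ϖ)) = 0 := by
    rw [div_eq_mul_inv, ordT_mul, hsv, zero_add]
    have := ordT_inv p T hv0
    rwa [hv, zero_add] at this
  have h3 : resT p T (s (φ ϖ / ϖ) / (φ ϖ / ϖ)) = 1 := by
    rw [← resT_one p T]
    refine resT_eq_of_sub_pos p T hq.ge (ordT_one p T).ge ?_
    have e : s (φ ϖ / ϖ) / (φ ϖ / ϖ) - 1 = (s (φ ϖ / ϖ) - φ ϖ / ϖ) * (φ ϖ / ϖ)⁻¹ := by
      field_simp
    rw [e, ordT_mul]
    have hinv : ordT p T (φ ϖ / ϖ)⁻¹ = 0 := by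
      have := ordT_inv p T hv0
      rwa [hv, zero_add] at this
    rw [hinv, add_zero]
    exact hs _ hv.ge
  unfold thetaRes
  rw [← h1, h2, resT_mul p T hq.ge hy.ge, h3, one_mul]

end theta

/-! ## The quotient `V = k_T / S` and the graded map -/

section quot

variable (p : ℕ) [Fact p.Prime]

/-- the `𝔽_p`-algebra structure of the residue field -/
@[reducible] noncomputable def kqAlg (T : Type) [Field T] [Algebra ℚ_[p] T]
    [FiniteDimensional ℚ_[p] T] : Algebra (ZMod p) (kq p T) := ZMod.algebra (kq p T) p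

attribute [local instance] kqAlg

variable {p}
variable {T : Type} [Field T] [Algebra ℚ_[p] T] [FiniteDimensional ℚ_[p] T]
variable {ϖ : T} {m : ℕ}

lemma zmod_smul_kq (c : ZMod p) (x : kq p T) : c • x = c.val • x := by
  haveI : NeZero p := ⟨(Fact.out : p.Prime).ne_zero⟩
  rw [← Nat.cast_smul_eq_nsmul (ZMod p), ZMod.natCast_zmod_val]

/-- `S` as an `𝔽_p`-subspace -/
noncomputable def sMod (G : GrData p T ϖ m) : Submodule (ZMod p) (kq p T) :=
  AddSubgroup.toZModSubmodule p (sGrp G)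

lemma mem_sMod (G : GrData p T ϖ m) {x : kq p T} : x ∈ sMod G ↔ x ∈ sGrp G := Iff.rfl

/-- `V = k_T / S` -/
abbrev VQ (G : GrData p T ϖ m) : Type := kq p T ⧸ sMod G

/-- `x ↦ c x^(p^j)` on the residue field -/
noncomputable def tauLin (c : kq p T) (j : ℕ) : kq p T →ₗ[ZMod p] kq p T :=
  AddMonoidHom.toZModLinearMap p
    { toFun := fun x => c * x ^ (p ^ j)
      map_zero' := by
        simp [(Fact.out : p.Prime).ne_zero]
      map_add' := fun x y => by
        rw [add_pow_char_pow, mul_add] }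

@[simp]
lemma tauLin_apply (c : kq p T) (j : ℕ) (x : kq p T) : tauLin c j x = c * x ^ (p ^ j) := rfl

/-- the map induced on `V` by `x ↦ θ(δ)^m x^(p^j)` -/
noncomputable def tauBar (G : GrData p T ϖ m) (δ : T ≃ₐ[ℚ_[p]] T) (j : ℕ)
    (hδ : ∀ x : T, 0 ≤ ordT p T x → 0 < ordT p T (δ x - x ^ (p ^ j))) :
    VQ G →ₗ[ZMod p] VQ G :=
  Submodule.mapQ (sMod G) (sMod G) (tauLin (thetaRes p T ϖ δ ^ m) j)
    (fun x hx => sGrp_stable G δ j hδ hx)

lemma tauBar_mk (G : GrData p T ϖ m) (δ : T ≃ₐ[ℚ_[p]] T) (j : ℕ)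
    (hδ : ∀ x : T, 0 ≤ ordT p T x → 0 < ordT p T (δ x - x ^ (p ^ j))) (x : kq p T) :
    tauBar G δ j hδ (Submodule.Quotient.mk x) =
      Submodule.Quotient.mk (thetaRes p T ϖ δ ^ m * x ^ (p ^ j)) := rfl

/-- `q x = 1 ⊗ [x]` -/
noncomputable def qMap (G : GrData p T ϖ m) (k : Type) [Field k] [Algebra (ZMod p) k] :
    kq p T →+ k ⊗[ZMod p] VQ G :=
  ((TensorProduct.mk (ZMod p) k (VQ G) 1).comp (Submodule.mkQ (sMod G))).toAddMonoidHom

lemma qMap_apply (G : GrData p T ϖ m) (k : Type) [Field k] [Algebra (ZMod p) k] (x : kq p T) :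
    qMap G k x = (1 : k) ⊗ₜ[ZMod p] (Submodule.Quotient.mk x : VQ G) := rfl

lemma span_qMap (G : GrData p T ϖ m) (k : Type) [Field k] [Algebra (ZMod p) k] :
    Submodule.span k (Set.range (qMap G k)) = ⊤ := by
  rw [eq_top_iff]
  rintro w -
  induction w using TensorProduct.induction_on with
  | zero => exact Submodule.zero_mem _
  | tmul c v =>
    obtain ⟨x, rfl⟩ := Submodule.Quotient.mk_surjective _ v
    have e : c ⊗ₜ[ZMod p] (Submodule.Quotient.mk x : VQ G) = c • qMap G k x := by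
      rw [qMap_apply, TensorProduct.smul_tmul', smul_eq_mul, mul_one]
    rw [e]
    exact Submodule.smul_mem _ _ (Submodule.subset_span ⟨x, rfl⟩)
  | add x y hx hy => exact Submodule.add_mem _ hx hy

lemma baseChange_tauBar_qMap (G : GrData p T ϖ m) (k : Type) [Field k] [Algebra (ZMod p) k]
    (δ : T ≃ₐ[ℚ_[p]] T) (j : ℕ)
    (hδ : ∀ x : T, 0 ≤ ordT p T x → 0 < ordT p T (δ x - x ^ (p ^ j))) (x : kq p T) :
    (tauBar G δ j hδ).baseChange k (qMap G k x) =
      qMap G k (thetaRes p T ϖ δ ^ m * x ^ (p ^ j)) := by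
  rw [qMap_apply, LinearMap.baseChange_tmul, tauBar_mk, qMap_apply]

end quot

end Fermat.Agent.P1.helper43
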