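import Fermat.Agent.P1.helper94_FCGr

/-!
# P1 / FLAT-CNT / KUMEQ, package FC-STEP (helper43, task 784), part 1: the field side

For a `p`-adic field `T` with uniformiser `ϖ` and `m ≥ 1`:

* `Lvl p T m a`     : `a ∈ U^(m)`, i.e. `m ≤ ord (a - 1)`;
* `GrData p T ϖ m`  : the three properties of `lcoef ϖ m` used below (from `FCGrStatement`);
* `sGrp G`          : the additive subgroup `S ⊆ k_T` of leading coefficients of the elements
                      of `U^(m) ∩ U^(m+1) (Tˣ)^p`;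
* `Rel p T ζ ϖ m f x` : `f` is the Kummer homomorphism of some `a ∈ U^(m)` with leading
                      coefficient `x`;

and the calculus of `Rel`: uniqueness modulo `S`, additivity, scalars, the criterion
`x ∈ S ⟹ HasLevel (m + 1)`, and equivariance.
-/

set_option autoImplicit false
set_option linter.unusedSectionVars false
set_option linter.style.haveILetI false
set_option linter.unusedVariables false

namespace Fermat.Agent.P1.helper43

open Fermat.Agent.S55.helper8 Fermat.Agent.S55.helper7 Fermat.Agent.P1.helper14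
open Fermat.Agent.P1.helper94

variable (p : ℕ) [Fact p.Prime]

/-! ## The unit filtration -/

section units

variable (T : Type) [Field T] [Algebra ℚ_[p] T] [FiniteDimensional ℚ_[p] T]

/-- `a ∈ U^(m)` -/
def Lvl (m : ℕ) (a : T) : Prop := ((m : ℤ) : WithTop ℤ) ≤ ordT p T (a - 1)

variable {p T}

lemma lvl_one (m : ℕ) : Lvl p T m 1 := by
  unfold Lvl
  rw [sub_self, ordT_zero]
  exact le_top

lemma lvl_nonneg {m : ℕ} {a : T} (h : Lvl p T m a) : 0 ≤ ordT p T (a - 1) := by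
  refine le_trans ?_ h
  have h0 : (0 : WithTop ℤ) = ((0 : ℤ) : WithTop ℤ) := rfl
  rw [h0, WithTop.coe_le_coe]
  exact Int.natCast_nonneg m

lemma lvl_mono {m n : ℕ} (hmn : m ≤ n) {a : T} (h : Lvl p T n a) : Lvl p T m a := by
  refine le_trans ?_ h
  rw [WithTop.coe_le_coe]
  exact_mod_cast hmn

lemma ordT_nonneg_of_lvl {m : ℕ} {a : T} (h : Lvl p T m a) : 0 ≤ ordT p T a := by
  have e : a = (a - 1) + 1 := by ring
  rw [e]
  exact ordT_add_nonneg p T (lvl_nonneg h) (ordT_one p T).ge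

lemma ordT_eq_zero_of_lvl {m : ℕ} (hm : 1 ≤ m) {a : T} (h : Lvl p T m a) :
    ordT p T a = 0 := by
  refine le_antisymm ?_ (ordT_nonneg_of_lvl h)
  by_contra hlt
  rw [not_le] at hlt
  have hpos : 0 < ordT p T (a - 1) := pos_of_le hm h
  have h1 : 0 < ordT p T (a - (a - 1)) := ordT_sub_pos p T hlt hpos
  rw [show a - (a - 1) = 1 by ring, ordT_one] at h1
  exact lt_irrefl _ h1

lemma ne_zero_of_lvl {m : ℕ} (hm : 1 ≤ m) {a : T} (h : Lvl p T m a) : a ≠ 0 := by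
  rintro rfl
  have := ordT_eq_zero_of_lvl hm h
  rw [ordT_zero] at this
  exact WithTop.top_ne_zero this

lemma lvl_mul {m : ℕ} {a b : T} (ha : Lvl p T m a) (hb : Lvl p T m b) :
    Lvl p T m (a * b) := by
  unfold Lvl
  have e : a * b - 1 = a * (b - 1) + (a - 1) := by ring
  rw [e]
  refine le_trans (le_min ?_ ha) (ordT_add_ge p T _ _)
  rw [ordT_mul]
  exact le_trans hb (le_add_of_nonneg_left (ordT_nonneg_of_lvl ha))

lemma lvl_pow {m : ℕ} {a : T} (ha : Lvl p T m a) (n : ℕ) : Lvl p T m (a ^ n) := by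
  induction n with
  | zero => rw [pow_zero]; exact lvl_one m
  | succ n ih => rw [pow_succ]; exact lvl_mul ih ha

lemma lvl_inv {m : ℕ} (hm : 1 ≤ m) {a : T} (ha : Lvl p T m a) : Lvl p T m a⁻¹ := by
  have ha0 : a ≠ 0 := ne_zero_of_lvl hm ha
  unfold Lvl
  have e : a⁻¹ - 1 = -((a - 1) * a⁻¹) := by
    field_simp
    ring
  rw [e, ordT_neg, ordT_mul]
  have h1 : ordT p T a⁻¹ = 0 := by
    have := ordT_inv p T ha0
    rwa [ordT_eq_zero_of_lvl hm ha, zero_add] at this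
  rw [h1, add_zero]
  exact ha

lemma lvl_algEquiv {m : ℕ} (δ : T ≃ₐ[ℚ_[p]] T) {a : T} (ha : Lvl p T m a) :
    Lvl p T m (δ a) := by
  unfold Lvl
  have e : δ a - 1 = δ (a - 1) := by rw [map_sub, map_one]
  rw [e, Fermat.Agent.P1.helper14.ordT_algEquiv]
  exact ha

end units

/-! ## The leading coefficient -/

section gr

variable (T : Type) [Field T] [Algebra ℚ_[p] T] [FiniteDimensional ℚ_[p] T]

/-- The properties of the leading coefficient `lcoef ϖ m` (three of the four clauses of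
`FCGrStatement`). -/
structure GrData (ϖ : T) (m : ℕ) : Prop where
  one_le : 1 ≤ m
  add : ∀ a b : T, Lvl p T m a → Lvl p T m b →
    lcoef p T ϖ m (a * b) = lcoef p T ϖ m a + lcoef p T ϖ m b
  ker : ∀ a : T, Lvl p T m a → (lcoef p T ϖ m a = 0 ↔ Lvl p T (m + 1) a)
  eqv : ∀ (δ : T ≃ₐ[ℚ_[p]] T) (j : ℕ),
    (∀ x : T, 0 ≤ ordT p T x → 0 < ordT p T (δ x - x ^ (p ^ j))) →
    ∀ a : T, Lvl p T m a →
      lcoef p T ϖ m (δ a) = thetaRes p T ϖ δ ^ m * lcoef p T ϖ m a ^ (p ^ j)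

lemma grData_of_fcGr (h : FCGrStatement p) {ϖ : T} {m : ℕ} (hϖ : ordT p T ϖ = 1)
    (hm : 1 ≤ m) : GrData p T ϖ m := by
  obtain ⟨h1, h2, -, h4⟩ := h T ϖ m hϖ hm
  exact ⟨hm, h1, h2, h4⟩

variable {p T}
variable {ϖ : T} {m : ℕ}

lemma GrData.lcoef_one (G : GrData p T ϖ m) : lcoef p T ϖ m 1 = 0 :=
  (G.ker 1 (lvl_one m)).2 (lvl_one (m + 1))

lemma GrData.lcoef_inv (G : GrData p T ϖ m) {a : T} (ha : Lvl p T m a) :
    lcoef p T ϖ m a⁻¹ = - lcoef p T ϖ m a := by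
  have ha0 : a ≠ 0 := ne_zero_of_lvl G.one_le ha
  have h := G.add a a⁻¹ ha (lvl_inv G.one_le ha)
  rw [mul_inv_cancel₀ ha0, G.lcoef_one] at h
  exact eq_neg_of_add_eq_zero_right h.symm

lemma GrData.lcoef_pow (G : GrData p T ϖ m) {a : T} (ha : Lvl p T m a) (n : ℕ) :
    lcoef p T ϖ m (a ^ n) = n • lcoef p T ϖ m a := by
  induction n with
  | zero => rw [pow_zero, zero_smul]; exact G.lcoef_one
  | succ n ih => rw [pow_succ, G.add _ _ (lvl_pow ha n) ha, ih, succ_nsmul]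

/-- The subgroup `S` of the leading coefficients of the elements of
`U^(m) ∩ U^(m+1) (Tˣ)^p`. -/
def sGrp (G : GrData p T ϖ m) : AddSubgroup (kq p T) where
  carrier := {x | ∃ u b : T, b ≠ 0 ∧ Lvl p T (m + 1) u ∧ Lvl p T m (u * b ^ p) ∧
    lcoef p T ϖ m (u * b ^ p) = x}
  add_mem' := by
    rintro x y ⟨u, b, hb, hu, hub, rfl⟩ ⟨u', b', hb', hu', hub', rfl⟩
    refine ⟨u * u', b * b', mul_ne_zero hb hb', lvl_mul hu hu', ?_, ?_⟩
    · rw [show u * u' * (b * b') ^ p = (u * b ^ p) * (u' * b' ^ p) by ring]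
      exact lvl_mul hub hub'
    · rw [show u * u' * (b * b') ^ p = (u * b ^ p) * (u' * b' ^ p) by ring]
      exact G.add _ _ hub hub'
  zero_mem' := by
    refine ⟨1, 1, one_ne_zero, lvl_one _, ?_, ?_⟩
    · rw [one_pow, one_mul]; exact lvl_one m
    · rw [one_pow, one_mul]; exact G.lcoef_one
  neg_mem' := by
    rintro x ⟨u, b, hb, hu, hub, rfl⟩
    have hu0 : u ≠ 0 := ne_zero_of_lvl (Nat.succ_le_succ (Nat.zero_le m)) hu
    refine ⟨u⁻¹, b⁻¹, inv_ne_zero hb, lvl_inv (Nat.succ_le_succ (Nat.zero_le m)) hu, ?_, ?_⟩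
    · rw [show u⁻¹ * b⁻¹ ^ p = (u * b ^ p)⁻¹ by rw [mul_inv, inv_pow]]
      exact lvl_inv G.one_le hub
    · rw [show u⁻¹ * b⁻¹ ^ p = (u * b ^ p)⁻¹ by rw [mul_inv, inv_pow]]
      exact G.lcoef_inv hub

lemma mem_sGrp (G : GrData p T ϖ m) {x : kq p T} :
    x ∈ sGrp G ↔ ∃ u b : T, b ≠ 0 ∧ Lvl p T (m + 1) u ∧ Lvl p T m (u * b ^ p) ∧
      lcoef p T ϖ m (u * b ^ p) = x := Iff.rfl

/-- `S` is stable under `x ↦ θ(δ)^m x^(p^j)`. -/
lemma sGrp_stable (G : GrData p T ϖ m) (δ : T ≃ₐ[ℚ_[p]] T) (j : ℕ)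
    (hδ : ∀ x : T, 0 ≤ ordT p T x → 0 < ordT p T (δ x - x ^ (p ^ j)))
    {x : kq p T} (hx : x ∈ sGrp G) :
    thetaRes p T ϖ δ ^ m * x ^ (p ^ j) ∈ sGrp G := by
  obtain ⟨u, b, hb, hu, hub, rfl⟩ := hx
  refine ⟨δ u, δ b, by simpa using hb, lvl_algEquiv δ hu, ?_, ?_⟩
  · rw [show δ u * δ b ^ p = δ (u * b ^ p) by rw [map_mul, map_pow]]
    exact lvl_algEquiv δ hub
  · rw [show δ u * δ b ^ p = δ (u * b ^ p) by rw [map_mul, map_pow]]
    exact G.eqv δ j hδ _ hub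

end gr

/-! ## Kummer homomorphisms of elements of `U^(m)` -/

section rel

variable (T : IntermediateField ℚ_[p] (PadicAlgCl p)) [FiniteDimensional ℚ_[p] T]

/-- The properties of Kummer homomorphisms used below (five clauses of `FCKumStatement`). -/
structure KumData (ζ : PadicAlgCl p) : Prop where
  mul : ∀ (a b : PadicAlgCl p) (f f' : GalP p → ZMod p), IsKumHom p T ζ a f →
    IsKumHom p T ζ b f' → IsKumHom p T ζ (a * b) (fun g => f g + f' g)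
  pow : ∀ (a : PadicAlgCl p) (f : GalP p → ZMod p) (c : ZMod p), IsKumHom p T ζ a f →
    IsKumHom p T ζ (a ^ c.val) (fun g => c * f g)
  ppow : ∀ b : PadicAlgCl p, b ∈ T → IsKumHom p T ζ (b ^ p) (fun _ => 0)
  uniq : ∀ (a a' : PadicAlgCl p) (f f' : GalP p → ZMod p), a ∈ T → a' ∈ T → a ≠ 0 → a' ≠ 0 →
    IsKumHom p T ζ a f → IsKumHom p T ζ a' f' → (∀ g ∈ T.fixingSubgroup, f g = f' g) →
    ∃ b : PadicAlgCl p, b ∈ T ∧ a' = a * b ^ p
  eqv : ∀ (ω : GalP p → ZMod p), IsCycl p ζ ω → Normal ℚ_[p] T →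
    ∀ (a : PadicAlgCl p) (f : GalP p → ZMod p) (γ : GalP p), IsKumHom p T ζ a f →
      IsKumHom p T ζ (γ a) (fun g => ω γ * f (γ⁻¹ * g * γ))

lemma kumData_of_fcKum (h : FCKumStatement p) {ζ : PadicAlgCl p} (hζ : IsPrimitiveRoot ζ p)
    (hζT : ζ ∈ T) : KumData p T ζ := by
  obtain ⟨-, -, h3, h4, h5, -, h7, h8⟩ := h T ζ hζ hζT
  exact ⟨h3, h4, h5, h7, h8⟩

/-- `f` is the Kummer homomorphism of some `a ∈ U^(m)` with leading coefficient `x`. -/
def Rel (ζ : PadicAlgCl p) (ϖ : T) (m : ℕ) (f : GalP p → ZMod p) (x : kq p T) : Prop :=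
  ∃ a : T, Lvl p T m a ∧ IsKumHom p T ζ (a : PadicAlgCl p) f ∧ lcoef p T ϖ m a = x

variable {p T}
variable {ζ : PadicAlgCl p} {ϖ : T} {m : ℕ}

lemma isKumHom_congr {a : PadicAlgCl p} {f f' : GalP p → ZMod p} (h : IsKumHom p T ζ a f)
    (hff : ∀ g ∈ T.fixingSubgroup, f g = f' g) : IsKumHom p T ζ a f' := by
  obtain ⟨α, hα, hg⟩ := h
  exact ⟨α, hα, fun g hg' => by rw [← hff g hg']; exact hg g hg'⟩

lemma Rel.congr {f f' : GalP p → ZMod p} {x : kq p T} (h : Rel p T ζ ϖ m f x)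
    (hff : ∀ g ∈ T.fixingSubgroup, f g = f' g) : Rel p T ζ ϖ m f' x := by
  obtain ⟨a, ha, hk, hx⟩ := h
  exact ⟨a, ha, isKumHom_congr hk hff, hx⟩

lemma exists_rel_of_hasLevel {f : GalP p → ZMod p} (h : HasLevel p T ζ m f) :
    ∃ x, Rel p T ζ ϖ m f x := by
  obtain ⟨a, -, ha, hk⟩ := h
  exact ⟨_, a, ha, hk, rfl⟩

lemma hasLevel_of_rel (hm : 1 ≤ m) {f : GalP p → ZMod p} {x : kq p T}
    (h : Rel p T ζ ϖ m f x) : HasLevel p T ζ m f := by
  obtain ⟨a, ha, hk, -⟩ := h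
  exact ⟨a, ne_zero_of_lvl hm ha, ha, hk⟩

lemma rel_zero (G : GrData p T ϖ m) (K : KumData p T ζ) :
    Rel p T ζ ϖ m (fun _ => 0) 0 := by
  refine ⟨1, lvl_one m, ?_, G.lcoef_one⟩
  have h := K.ppow 1 (one_mem T)
  rw [one_pow] at h
  simpa using h

lemma rel_add (G : GrData p T ϖ m) (K : KumData p T ζ) {f f' : GalP p → ZMod p}
    {x x' : kq p T} (h : Rel p T ζ ϖ m f x) (h' : Rel p T ζ ϖ m f' x') :
    Rel p T ζ ϖ m (fun g => f g + f' g) (x + x') := by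
  obtain ⟨a, ha, hk, rfl⟩ := h
  obtain ⟨a', ha', hk', rfl⟩ := h'
  refine ⟨a * a', lvl_mul ha ha', ?_, G.add a a' ha ha'⟩
  have := K.mul _ _ _ _ hk hk'
  simpa using this

lemma rel_smul (G : GrData p T ϖ m) (K : KumData p T ζ) {f : GalP p → ZMod p}
    {x : kq p T} (c : ZMod p) (h : Rel p T ζ ϖ m f x) :
    Rel p T ζ ϖ m (fun g => c * f g) (c.val • x) := by
  obtain ⟨a, ha, hk, rfl⟩ := h
  refine ⟨a ^ c.val, lvl_pow ha _, ?_, G.lcoef_pow ha _⟩
  have := K.pow _ _ c hk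
  simpa using this

lemma rel_sum (G : GrData p T ϖ m) (K : KumData p T ζ) {ι : Type} (s : Finset ι)
    (f : ι → GalP p → ZMod p) (x : ι → kq p T) (h : ∀ i ∈ s, Rel p T ζ ϖ m (f i) (x i)) :
    Rel p T ζ ϖ m (fun g => ∑ i ∈ s, f i g) (∑ i ∈ s, x i) := by
  classical
  induction s using Finset.induction_on with
  | empty => simpa using rel_zero G K
  | insert a s ha ih =>
    have h1 := rel_add G K (h a (Finset.mem_insert_self a s))
      (ih (fun i hi => h i (Finset.mem_insert_of_mem hi)))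
    rw [Finset.sum_insert ha]
    refine h1.congr (fun g _ => ?_)
    rw [Finset.sum_insert ha]

/-- (i) uniqueness of the leading coefficient modulo `S` -/
lemma rel_unique (G : GrData p T ϖ m) (K : KumData p T ζ) {f : GalP p → ZMod p}
    {x x' : kq p T} (h : Rel p T ζ ϖ m f x) (h' : Rel p T ζ ϖ m f x') :
    x' - x ∈ sGrp G := by
  obtain ⟨a, ha, hk, rfl⟩ := h
  obtain ⟨a', ha', hk', rfl⟩ := h'
  have ha0 : a ≠ 0 := ne_zero_of_lvl G.one_le ha
  have ha'0 : a' ≠ 0 := ne_zero_of_lvl G.one_le ha'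
  obtain ⟨b, hbT, hb⟩ := K.uniq (a : PadicAlgCl p) (a' : PadicAlgCl p) f f a.2 a'.2
    (by simpa using ha0) (by simpa using ha'0) hk hk' (fun _ _ => rfl)
  have e : a' = a * (⟨b, hbT⟩ : T) ^ p := by
    apply Subtype.ext
    simpa using hb
  have hb0 : (⟨b, hbT⟩ : T) ≠ 0 := by
    intro h0
    rw [h0, zero_pow (Fact.out : p.Prime).ne_zero, mul_zero] at e
    exact ha'0 e
  have hbp : Lvl p T m ((⟨b, hbT⟩ : T) ^ p) := by
    have e2 : (⟨b, hbT⟩ : T) ^ p = a⁻¹ * a' := by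
      rw [e, ← mul_assoc, inv_mul_cancel₀ ha0, one_mul]
    rw [e2]
    exact lvl_mul (lvl_inv G.one_le ha) ha'
  refine ⟨1, ⟨b, hbT⟩, hb0, lvl_one _, by rwa [one_mul], ?_⟩
  rw [one_mul, e, G.add _ _ ha hbp]
  ring

/-- (iii) if the leading coefficient lies in `S`, the level is `≥ m + 1` -/
lemma hasLevel_succ_of_rel (G : GrData p T ϖ m) (K : KumData p T ζ) {f : GalP p → ZMod p}
    {x : kq p T} (h : Rel p T ζ ϖ m f x) (hx : x ∈ sGrp G) :
    HasLevel p T ζ (m + 1) f := by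
  obtain ⟨a, ha, hk, rfl⟩ := h
  obtain ⟨u, b, hb, hu, hub, hxx⟩ := hx
  have hub0 : u * b ^ p ≠ 0 := ne_zero_of_lvl G.one_le hub
  -- `a / (u b^p) ∈ U^(m+1)`
  have h1 : Lvl p T (m + 1) (a * (u * b ^ p)⁻¹) := by
    have hl : Lvl p T m (a * (u * b ^ p)⁻¹) := lvl_mul ha (lvl_inv G.one_le hub)
    rw [← G.ker _ hl, G.add _ _ ha (lvl_inv G.one_le hub), G.lcoef_inv hub, hxx]
    ring
  have h2 : Lvl p T (m + 1) (a * (u * b ^ p)⁻¹ * u) := lvl_mul h1 hu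
  have hm1 : 1 ≤ m + 1 := Nat.succ_le_succ (Nat.zero_le m)
  refine ⟨a * (u * b ^ p)⁻¹ * u, ne_zero_of_lvl hm1 h2, h2, ?_⟩
  have hk2 := K.mul _ _ _ _ hk (K.ppow ((b⁻¹ : T) : PadicAlgCl p) (b⁻¹ : T).2)
  have e : ((a * (u * b ^ p)⁻¹ * u : T) : PadicAlgCl p) =
      (a : PadicAlgCl p) * ((b⁻¹ : T) : PadicAlgCl p) ^ p := by
    have hu0 : u ≠ 0 := ne_zero_of_lvl hm1 hu
    have : a * (u * b ^ p)⁻¹ * u = a * b⁻¹ ^ p := by
      rw [mul_inv, inv_pow, mul_assoc, mul_comm u⁻¹, mul_assoc, inv_mul_cancel₀ hu0,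
        mul_one]
    rw [this]
    push_cast
    rfl
  rw [e]
  refine isKumHom_congr hk2 (fun g _ => ?_)
  simp

/-- (v) equivariance -/
lemma rel_conj (G : GrData p T ϖ m) (K : KumData p T ζ) [hN : Normal ℚ_[p] T]
    {ω : GalP p → ZMod p} (hω : IsCycl p ζ ω) (γ : GalP p) (j : ℕ)
    (hγ : ∀ x : T, 0 ≤ ordT p T x →
      0 < ordT p T (AlgEquiv.restrictNormalHom T γ x - x ^ (p ^ j)))
    {f : GalP p → ZMod p} {x : kq p T} (h : Rel p T ζ ϖ m f x) :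
    Rel p T ζ ϖ m (fun g => ω γ * f (γ⁻¹ * g * γ))
      (thetaRes p T ϖ (AlgEquiv.restrictNormalHom T γ) ^ m * x ^ (p ^ j)) := by
  obtain ⟨a, ha, hk, rfl⟩ := h
  refine ⟨AlgEquiv.restrictNormalHom T γ a, lvl_algEquiv _ ha, ?_, G.eqv _ j hγ a ha⟩
  have e : ((AlgEquiv.restrictNormalHom T γ a : T) : PadicAlgCl p) = γ (a : PadicAlgCl p) :=
    AlgEquiv.restrictNormal_commutes γ T a
  rw [e]
  exact K.eqv ω hω hN _ _ γ hk

end rel

end Fermat.Agent.P1.helper43
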