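import Fermat.Agent.S55.helper57_Devissage

/-!
# P1 / module EC / BASE-STAR, package BS-SHAIND (helper46): the abstract part

`G` a group, `C ≤ G` a subgroup of finite index, `τ` a representation of `C` on `W`,
`I = helper57.indRepn τ` the induced representation on `G ⧸ C → W`, `χ` a character of `G` and
`ρ' = I^*(χ)` the twisted dual (`bsRho`).

* `bsDelta C τ : W →ₗ (G ⧸ C → W)` : the `C`-equivariant embedding `δ` of `W` as the summand
  of the unit coset (`bsDelta_smul`, `indRepn_cosetRep_bsDelta`);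
* `bs_shapiro_inj` : Shapiro's lemma in degree one, injectivity: a cocycle `x : G → I^*(χ)`
  whose `δ`-component on `C` is a coboundary is a coboundary;
* `bs_average` : a cocycle of `C` which vanishes on a subgroup `P` of index invertible in `k`
  is a coboundary;
* `bs_inj` : a cocycle `x : G → I^*(χ)` with `x(u)(δ w) = 0` for all `u ∈ P` is a coboundary;
* `bs_add`, `bs_conj`, `bs_loc` : the `δ`-components of `x` on `P` are additive, are compatible
  with conjugation by `c ∈ C`, and vanish on the conjugates of a subgroup on which `x` is a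
  coboundary.
-/

set_option autoImplicit false

noncomputable section

namespace Fermat.Agent.P1.helper46

open Fermat.Agent.S55 Fermat.Agent.S55.helper57

attribute [local instance] Classical.propDecidable

/-! ## The embedding `δ` -/

section Delta

variable {k G : Type} [Field k] [Group G] (C : Subgroup G)
  {W : Type} [AddCommGroup W] [Module k W] (τ : Representation k ↥C W)

/-- the unit coset -/
def bsX0 : G ⧸ C := ((1 : G) : G ⧸ C)

lemma bsX0_rep_mem : cosetRep C (bsX0 C) ∈ C := by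
  have h : ((cosetRep C (bsX0 C) : G) : G ⧸ C) = ((1 : G) : G ⧸ C) := mk_cosetRep C _
  have := QuotientGroup.eq.1 h.symm
  simpa using this

/-- the representative of the unit coset, as an element of `C` -/
def bsS0 : ↥C := ⟨cosetRep C (bsX0 C), bsX0_rep_mem C⟩

@[simp] lemma coe_bsS0 : ((bsS0 C : ↥C) : G) = cosetRep C (bsX0 C) := rfl

lemma smul_bsX0 (g : G) : g • bsX0 C = ((g : G) : G ⧸ C) := by
  have h := MulAction.Quotient.smul_mk C g (1 : G)
  rw [smul_eq_mul, mul_one] at h
  exact h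

lemma smul_bsX0_of_mem {u : G} (hu : u ∈ C) : u • bsX0 C = bsX0 C := by
  rw [smul_bsX0]
  refine (QuotientGroup.eq.2 ?_)
  simpa using hu

lemma smul_eq_bsX0_iff (g : G) (x : G ⧸ C) : g⁻¹ • x = bsX0 C ↔ x = ((g : G) : G ⧸ C) := by
  rw [← smul_bsX0, inv_smul_eq_iff]

/-- `δ : W → Ind W`, the summand of the unit coset (normalised so that it is `C`-equivariant) -/
def bsDelta : W →ₗ[k] (G ⧸ C → W) :=
  (LinearMap.single k (fun _ : G ⧸ C => W) (bsX0 C)) ∘ₗ (τ (bsS0 C)⁻¹)

lemma bsDelta_apply (w : W) : bsDelta C τ w = Pi.single (bsX0 C) (τ (bsS0 C)⁻¹ w) := rfl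

/-- `σ(t) δ(w)` is the function supported at `t` with value `w` -/
lemma indRepn_cosetRep_bsDelta (t : G ⧸ C) (w : W) :
    indRepn τ (cosetRep C t) (bsDelta C τ w) = Pi.single t w := by
  funext x
  rw [indRepn_apply, bsDelta_apply]
  by_cases hx : x = t
  · subst hx
    have h1 : (cosetRep C x)⁻¹ • x = bsX0 C := by
      rw [smul_eq_bsX0_iff, mk_cosetRep]
    have h2 : cocyc C (cosetRep C x) x = bsS0 C := by
      apply Subtype.ext
      rw [coe_cocyc, h1, coe_bsS0]
      group
    rw [h1, h2, Pi.single_eq_same, Pi.single_eq_same, ← Module.End.mul_apply, ← map_mul,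
      mul_inv_cancel, map_one, Module.End.one_apply]
  · have h1 : (cosetRep C t)⁻¹ • x ≠ bsX0 C := by
      rw [Ne, smul_eq_bsX0_iff, mk_cosetRep]
      exact hx
    rw [Pi.single_eq_of_ne h1, map_zero, Pi.single_eq_of_ne hx]

/-- `δ` is `C`-equivariant -/
lemma bsDelta_smul (u : ↥C) (w : W) :
    indRepn τ (u : G) (bsDelta C τ w) = bsDelta C τ (τ u w) := by
  funext x
  rw [indRepn_apply, bsDelta_apply, bsDelta_apply]
  by_cases hx : x = bsX0 C
  · subst hx
    have h1 : (u : G)⁻¹ • bsX0 C = bsX0 C := smul_bsX0_of_mem C (C.inv_mem u.2)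
    have h2 : cocyc C (u : G) (bsX0 C) = (bsS0 C)⁻¹ * u * bsS0 C := by
      apply Subtype.ext
      rw [coe_cocyc, h1]
      rfl
    rw [h1, h2, Pi.single_eq_same, Pi.single_eq_same, ← Module.End.mul_apply,
      ← Module.End.mul_apply, ← map_mul, ← map_mul]
    congr 2
    group
  · have h1 : (u : G)⁻¹ • x ≠ bsX0 C := by
      intro h
      apply hx
      have h2 : x = (u : G) • bsX0 C := by rw [← h, smul_inv_smul]
      rw [h2, smul_bsX0_of_mem C u.2]
    rw [Pi.single_eq_of_ne h1, map_zero, Pi.single_eq_of_ne hx]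

end Delta

/-! ## The twisted dual of the induced representation -/

section Shapiro

variable {k G : Type} [Field k] [Group G] {C : Subgroup G}
  {W : Type} [AddCommGroup W] [Module k W] (τ : Representation k ↥C W) (χ : G →* kˣ)

/-- the twisted dual `I^*(χ)` of the induced representation -/
abbrev bsRho : Representation k G (Module.Dual k (G ⧸ C → W)) := (indRepn τ).dual.twist χ

lemma bsRho_apply (g : G) (F : Module.Dual k (G ⧸ C → W)) (n : G ⧸ C → W) :
    bsRho τ χ g F n = (χ g : k) * F (indRepn τ g⁻¹ n) := rfl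

/-- the twisted dual `W^*(χ)` of `τ` -/
abbrev bsRhoW : Representation k ↥C (Module.Dual k W) := τ.dual.twist (χ.comp C.subtype)

lemma bsRhoW_apply (u : ↥C) (f : Module.Dual k W) (w : W) :
    bsRhoW τ χ u f w = (χ (u : G) : k) * f (τ u⁻¹ w) := rfl

variable {τ χ}

lemma bs_cocycle_one {x : G → Module.Dual k (G ⧸ C → W)}
    (hx : ∀ g h, x (g * h) = bsRho τ χ g (x h) + x g) : x 1 = 0 := by
  have h := hx 1 1
  rw [mul_one, map_one, Module.End.one_apply] at h
  exact left_eq_add.1 h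

/-- **Shapiro's lemma, injectivity in degree one**: a cocycle `x : G → I^*(χ)` whose
`δ`-component on `C` is the coboundary of `f₀` is a coboundary. -/
theorem bs_shapiro_inj [Finite (G ⧸ C)] (x : G → Module.Dual k (G ⧸ C → W))
    (hx : ∀ g h, x (g * h) = bsRho τ χ g (x h) + x g) (f₀ : Module.Dual k W)
    (h0 : ∀ (u : ↥C) (w : W),
      x (u : G) (bsDelta C τ w) = (χ (u : G) : k) * f₀ (τ u⁻¹ w) - f₀ w) :
    ∃ a : Module.Dual k (G ⧸ C → W), ∀ g, x g = bsRho τ χ g a - a := by
  have := Fintype.ofFinite (G ⧸ C)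
  -- the translates of `δ`
  let e : G → W → (G ⧸ C → W) := fun g w => indRepn τ g (bsDelta C τ w)
  have he_def : ∀ g w, e g w = indRepn τ g (bsDelta C τ w) := fun _ _ => rfl
  have he_one : ∀ w, e 1 w = bsDelta C τ w := by
    intro w
    rw [he_def, map_one, Module.End.one_apply]
  have he_mul : ∀ (h g : G) (w : W), indRepn τ h (e g w) = e (h * g) w := by
    intro h g w
    rw [he_def, he_def, map_mul, Module.End.mul_apply]
  have he_C : ∀ (g : G) (u : ↥C) (w : W), e (g * u) w = e g (τ u w) := by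
    intro g u w
    rw [he_def, he_def, map_mul, Module.End.mul_apply, bsDelta_smul]
  have he_rep : ∀ (t : G ⧸ C) (w : W), e (cosetRep C t) w = Pi.single t w :=
    fun t w => indRepn_cosetRep_bsDelta C τ t w
  have hx1 : x 1 = 0 := bs_cocycle_one hx
  -- the cochain `a`
  let ψ : G ⧸ C → Module.Dual k W := fun t =>
    (χ (cosetRep C t) : k) • f₀ -
      (x (cosetRep C t)) ∘ₗ (LinearMap.single k (fun _ : G ⧸ C => W) t)
  let a : Module.Dual k (G ⧸ C → W) := LinearMap.lsum k (fun _ : G ⧸ C => W) ℕ ψ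
  have ha_single : ∀ (t : G ⧸ C) (w : W), a (Pi.single t w) =
      (χ (cosetRep C t) : k) * f₀ w - x (cosetRep C t) (Pi.single t w) := by
    intro t w
    change LinearMap.lsum k (fun _ : G ⧸ C => W) ℕ ψ (Pi.single t w) = _
    rw [LinearMap.lsum_piSingle]
    rfl
  have ha_e : ∀ (g : G) (w : W), a (e g w) = (χ g : k) * f₀ w - x g (e g w) := by
    intro g w
    set t : G ⧸ C := ((g : G) : G ⧸ C) with ht
    have hu : (cosetRep C t)⁻¹ * g ∈ C := by
      rw [← QuotientGroup.eq, mk_cosetRep]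
    set u : ↥C := ⟨(cosetRep C t)⁻¹ * g, hu⟩ with hu_def
    have hg : g = cosetRep C t * (u : G) := by
      rw [hu_def]
      group
    have h1 : e g w = Pi.single t (τ u w) := by
      rw [← he_rep, ← he_C, ← hg]
    have h2 : indRepn τ (cosetRep C t)⁻¹ (e g w) = bsDelta C τ (τ u w) := by
      rw [he_mul, ← he_one, ← he_C, one_mul]
    have h3 : x g (e g w) = (χ (cosetRep C t) : k) * ((χ (u : G) : k) * f₀ w - f₀ (τ u w))
        + x (cosetRep C t) (e g w) := by
      conv_lhs => rw [hg, hx]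
      rw [LinearMap.add_apply, bsRho_apply, ← hg, h2, h0, ← Module.End.mul_apply, ← map_mul,
        inv_mul_cancel, map_one, Module.End.one_apply]
    have h4 : (χ g : k) = (χ (cosetRep C t) : k) * (χ (u : G) : k) := by
      conv_lhs => rw [hg, map_mul, Units.val_mul]
    rw [h3, h4, h1, ha_single, ← h1]
    ring
  -- the difference `b = x - d a` vanishes
  refine ⟨a, fun g => ?_⟩
  let b : G → Module.Dual k (G ⧸ C → W) := fun g => x g - (bsRho τ χ g a - a)
  have hb : ∀ g h, b (g * h) = bsRho τ χ g (b h) + b g := by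
    intro g h
    change x (g * h) - (bsRho τ χ (g * h) a - a) =
      bsRho τ χ g (x h - (bsRho τ χ h a - a)) + (x g - (bsRho τ χ g a - a))
    rw [hx, map_sub, map_sub, map_mul, Module.End.mul_apply]
    abel
  have hb_diag : ∀ (g : G) (w : W), b g (e g w) = 0 := by
    intro g w
    change (x g - (bsRho τ χ g a - a)) (e g w) = 0
    rw [LinearMap.sub_apply, LinearMap.sub_apply, bsRho_apply, he_mul, inv_mul_cancel, ha_e,
      ha_e, hx1, LinearMap.zero_apply, map_one, Units.val_one]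
    ring
  have hb_all : ∀ (g h : G) (w : W), b g (e h w) = 0 := by
    intro g h w
    have h1 := hb g (g⁻¹ * h)
    rw [mul_inv_cancel_left] at h1
    have h2 := congrArg (fun F : Module.Dual k (G ⧸ C → W) => F (e h w)) h1
    simp only [LinearMap.add_apply] at h2
    rw [hb_diag, bsRho_apply, he_mul, hb_diag, mul_zero, zero_add] at h2
    exact h2.symm
  have hb0 : b g = 0 := by
    refine LinearMap.pi_ext fun t w => ?_
    rw [← he_rep, hb_all, LinearMap.zero_apply]
  exact sub_eq_zero.1 hb0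

end Shapiro

/-! ## Averaging -/

section Average

variable {k : Type} [Field k] {Γ : Type} [Group Γ] {V : Type} [AddCommGroup V] [Module k V]

/-- a cocycle which vanishes on a subgroup of index invertible in `k` is a coboundary -/
theorem bs_average (ρ : Representation k Γ V) (P : Subgroup Γ) [Finite (Γ ⧸ P)]
    (hn : (Nat.card (Γ ⧸ P) : k) ≠ 0) (z : Γ → V)
    (hz : ∀ u v, z (u * v) = ρ u (z v) + z u) (hP : ∀ u ∈ P, z u = 0) :
    ∃ f : V, ∀ u, z u = ρ u f - f := by
  have := Fintype.ofFinite (Γ ⧸ P)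
  have hconst : ∀ u v : Γ, u⁻¹ * v ∈ P → z u = z v := by
    intro u v h
    have h1 := hz u (u⁻¹ * v)
    rw [mul_inv_cancel_left, hP _ h, map_zero, zero_add] at h1
    exact h1.symm
  let zb : Γ ⧸ P → V := fun q =>
    Quotient.liftOn' q z fun u v h => hconst u v (QuotientGroup.leftRel_apply.1 h)
  have hzb : ∀ u : Γ, zb ((u : Γ) : Γ ⧸ P) = z u := fun _ => rfl
  have hzb_smul : ∀ (u : Γ) (q : Γ ⧸ P), ρ u (zb q) = zb (u • q) - z u := by
    intro u q
    induction q using QuotientGroup.induction_on with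
    | H v =>
      rw [MulAction.Quotient.smul_mk, smul_eq_mul, hzb, hzb, hz]
      abel
  have hcard : (Fintype.card (Γ ⧸ P) : k) ≠ 0 := by
    rwa [← Nat.card_eq_fintype_card]
  refine ⟨-((Fintype.card (Γ ⧸ P) : k)⁻¹ • ∑ q : Γ ⧸ P, zb q), fun u => ?_⟩
  have hsum : ∑ q : Γ ⧸ P, zb (u • q) = ∑ q : Γ ⧸ P, zb q :=
    Equiv.sum_comp (MulAction.toPerm u) zb
  have h1 : ρ u (∑ q : Γ ⧸ P, zb q) = ∑ q : Γ ⧸ P, zb q - (Fintype.card (Γ ⧸ P) : k) • z u := by
    rw [map_sum]
    simp only [hzb_smul]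
    rw [Finset.sum_sub_distrib, hsum, Finset.sum_const, Finset.card_univ,
      Nat.cast_smul_eq_nsmul]
  rw [map_neg, map_smul, h1, smul_sub, smul_smul, inv_mul_cancel₀ hcard, one_smul]
  abel

end Average

/-! ## Injectivity of the restriction to `P` -/

section Inj

variable {k G : Type} [Field k] [Group G] {C : Subgroup G}
  {W : Type} [AddCommGroup W] [Module k W] {τ : Representation k ↥C W} {χ : G →* kˣ}

/-- a cocycle `x : G → I^*(χ)` with `x(u)(δ w) = 0` for all `u ∈ P`, `[C : P]` invertible in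
`k`, is a coboundary -/
theorem bs_inj [Finite (G ⧸ C)] (P : Subgroup ↥C) [Finite (↥C ⧸ P)]
    (hn : (Nat.card (↥C ⧸ P) : k) ≠ 0) (x : G → Module.Dual k (G ⧸ C → W))
    (hx : ∀ g h, x (g * h) = bsRho τ χ g (x h) + x g)
    (hP : ∀ u ∈ P, ∀ w : W, x (u : G) (bsDelta C τ w) = 0) :
    ∃ a : Module.Dual k (G ⧸ C → W), ∀ g, x g = bsRho τ χ g a - a := by
  let z : ↥C → Module.Dual k W := fun u => (x (u : G)) ∘ₗ bsDelta C τ
  have hz : ∀ u v, z (u * v) = bsRhoW τ χ u (z v) + z u := by
    intro u v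
    refine LinearMap.ext fun w => ?_
    change x ((u : G) * (v : G)) (bsDelta C τ w) =
      (χ (u : G) : k) * x (v : G) (bsDelta C τ (τ u⁻¹ w)) + x (u : G) (bsDelta C τ w)
    rw [hx, LinearMap.add_apply, bsRho_apply, ← bsDelta_smul]
    rfl
  have hzP : ∀ u ∈ P, z u = 0 := fun u hu => LinearMap.ext fun w => hP u hu w
  obtain ⟨f₀, hf₀⟩ := bs_average (bsRhoW τ χ) P hn z hz hzP
  refine bs_shapiro_inj x hx f₀ fun u w => ?_
  have := congrArg (fun F : Module.Dual k W => F w) (hf₀ u)
  exact this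

end Inj

/-! ## The components on `P` -/

section Comp

variable {k G : Type} [Field k] [Group G] {C : Subgroup G}
  {W : Type} [AddCommGroup W] [Module k W] {τ : Representation k ↥C W} {χ : G →* kˣ}

/-- elements of `C` on which `χ` and `τ` are trivial fix `F ↦ F (δ w)` -/
lemma bsRho_apply_bsDelta {u : G} (hu : u ∈ C) (hχ : χ u = 1)
    (hτ : ∀ w : W, τ ⟨u, hu⟩ w = w) (F : Module.Dual k (G ⧸ C → W)) (w : W) :
    bsRho τ χ u F (bsDelta C τ w) = F (bsDelta C τ w) := by
  have h1 : indRepn τ u⁻¹ (bsDelta C τ w) = bsDelta C τ w := by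
    have h := bsDelta_smul C τ (⟨u, hu⟩⁻¹ : ↥C) w
    have h2 : τ (⟨u, hu⟩⁻¹ : ↥C) w = w := by
      conv_lhs => rw [← hτ w]
      rw [← Module.End.mul_apply, ← map_mul, inv_mul_cancel, map_one, Module.End.one_apply]
    rw [h2] at h
    exact h
  rw [bsRho_apply, h1, hχ, Units.val_one, one_mul]

/-- additivity on `P` -/
theorem bs_add {x : G → Module.Dual k (G ⧸ C → W)}
    (hx : ∀ g h, x (g * h) = bsRho τ χ g (x h) + x g) {u v : G} (hu : u ∈ C) (hχ : χ u = 1)
    (hτ : ∀ w : W, τ ⟨u, hu⟩ w = w) (w : W) :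
    x (u * v) (bsDelta C τ w) = x u (bsDelta C τ w) + x v (bsDelta C τ w) := by
  rw [hx, LinearMap.add_apply, bsRho_apply_bsDelta hu hχ hτ, add_comm]

/-- conjugation by `c ∈ C` -/
theorem bs_conj {x : G → Module.Dual k (G ⧸ C → W)}
    (hx : ∀ g h, x (g * h) = bsRho τ χ g (x h) + x g) (c : ↥C) {u : G} (hu : u ∈ C)
    (hχ : χ u = 1) (hτ : ∀ w : W, τ ⟨u, hu⟩ w = w) (w : W) :
    x ((c : G)⁻¹ * u * (c : G)) (bsDelta C τ w) =
      ((χ (c : G))⁻¹ : kˣ) * x u (bsDelta C τ (τ c w)) := by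
  have hx1 : x 1 = 0 := bs_cocycle_one hx
  have hinv : x (c : G)⁻¹ = - bsRho τ χ (c : G)⁻¹ (x (c : G)) := by
    have h := hx (c : G)⁻¹ (c : G)
    rw [inv_mul_cancel, hx1] at h
    exact eq_neg_of_add_eq_zero_right h.symm
  have h1 : x ((c : G)⁻¹ * u * (c : G)) =
      bsRho τ χ (c : G)⁻¹ (x u) +
        bsRho τ χ (c : G)⁻¹ (bsRho τ χ u (x (c : G)) - x (c : G)) := by
    rw [mul_assoc, hx, hx, hinv, map_add, map_sub]
    abel
  have h2 : indRepn τ ((c : G)⁻¹)⁻¹ (bsDelta C τ w) = bsDelta C τ (τ c w) := by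
    rw [inv_inv, bsDelta_smul]
  rw [h1, LinearMap.add_apply, bsRho_apply, bsRho_apply, h2, LinearMap.sub_apply,
    bsRho_apply_bsDelta hu hχ hτ, sub_self, mul_zero, add_zero, map_inv]

/-- vanishing on the conjugates of the elements at which `x` is the coboundary of `a` -/
theorem bs_loc {x : G → Module.Dual k (G ⧸ C → W)}
    (hx : ∀ g h, x (g * h) = bsRho τ χ g (x h) + x g) (a : Module.Dual k (G ⧸ C → W))
    {r : G} (hr : x r = bsRho τ χ r a - a) (g : G) (hu : g * r * g⁻¹ ∈ C)
    (hχ : χ (g * r * g⁻¹) = 1) (hτ : ∀ w : W, τ ⟨g * r * g⁻¹, hu⟩ w = w) (w : W) :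
    x (g * r * g⁻¹) (bsDelta C τ w) = 0 := by
  have hx1 : x 1 = 0 := bs_cocycle_one hx
  have hinv : x g⁻¹ = - bsRho τ χ g⁻¹ (x g) := by
    have h := hx g⁻¹ g
    rw [inv_mul_cancel, hx1] at h
    exact eq_neg_of_add_eq_zero_right h.symm
  have h1 : x (g * r * g⁻¹) =
      bsRho τ χ (g * r * g⁻¹) (bsRho τ χ g a - x g) - (bsRho τ χ g a - x g) := by
    rw [mul_assoc, hx, hx, hr, hinv]
    simp only [map_sub, map_add, map_neg, map_mul, Module.End.mul_apply]
    rw [← Module.End.mul_apply (bsRho τ χ g⁻¹), ← map_mul, inv_mul_cancel, map_one,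
      Module.End.one_apply]
    abel
  rw [h1, LinearMap.sub_apply, bsRho_apply_bsDelta hu hχ hτ, sub_self]

end Comp

end Fermat.Agent.P1.helper46
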