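import Fermat.Agent.P1.helper7_BSProps
import Fermat.Agent.P1.helper46_BSShaAbs

/-!
# P1 / module EC / BASE-STAR, package BS-SHAIND (helper46)

`shaInd : helper7.ShaIndStatement p T`:

  `dim Ш¹((Ind_C^G Y)^*(1)) ≤ mult(y', 𝐒𝐡)`.

For a level cocycle `x : G → N'`, `N' = (Ind_C^G Y)^*(1)`, put
`φ_x(y)(u) = x(u)(δ y)` (`u ∈ P`, `δ = bsDelta` the summand of the unit coset).  Then

* `φ_x(y) ∈ 𝐇 = Hom(P, k)` (`bsPsi_mem_Hsp`), `cs ∘ φ_x = φ_x ∘ y'` (`bsPsi_comp`), and `φ_x(y)`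
  vanishes on the conjugates of the decomposition groups if `x` is locally trivial
  (`bsPsi_mem_Shsp`);
* `x ↦ φ_x` kills the coboundaries (`bsPsi_of_mem_B1`) and a cocycle with `φ_x = 0` is a
  coboundary (`mem_B1_of_bsPsi_eq_zero`: Shapiro's lemma and averaging over `C / P`, of order
  prime to `p`);
* `𝐇` is finite dimensional (`BaseInput.glob_fin` for the fixed field of `P`).
-/

set_option autoImplicit false

open groupCohomology ExtCitation

noncomputable section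

namespace Fermat.Agent.P1.helper46

open Fermat.Agent.S55 Fermat.Agent.P1.helper70 Fermat.Agent.P1.helper63 Fermat.Agent.P1.helper7

variable {p : ℕ} [Fact p.Prime] {T : Finset Nat.Primes}

/-! ## Finiteness of `Hom(U, k)` -/

/-- `Z¹(U, k)` is finite dimensional for `U` open with `χ_cyc|U = 1` (`BaseInput.glob_fin`) -/
theorem bs_z1_finite (hp2 : p ≠ 2) (hpT : pPrime p ∈ T) (hB : BaseInputStatement p T)
    (U : Subgroup GQ) (hU : ∃ N ∈ (galLevels T).mem, N ≤ U)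
    (hχ : ∀ g ∈ U, cycloChar p g = 1) :
    Module.Finite (ZMod p)
      ↥(Z1 (helper35.restrictLevels (galLevels T) U hU) (helper35.trivRep (ZMod p) ↥U)) := by
  obtain ⟨hfin, -⟩ := helper92.levelStatement p T hpT
  obtain ⟨F, hF, rfl⟩ := exists_field_of_open T U hU
  have : FiniteDimensional ℚ F := hF.1
  have : Finite (GQ ⧸ F.fixingSubgroup) := by
    obtain ⟨N', hN', hle⟩ := hU
    have := hfin N' hN'
    have : N'.FiniteIndex := Subgroup.finiteIndex_of_finite_quotient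
    have : F.fixingSubgroup.FiniteIndex := Subgroup.finiteIndex_of_le hle
    infer_instance
  obtain ⟨D⟩ := helper57.nonempty_shData (L := galLocal T) (U := F.fixingSubgroup)
  obtain ⟨I, -⟩ := hB hp2 hpT F hF (hasZeta_of_cycloChar_eq_one F p hχ) hU D
  exact I.glob_fin

/-! ## The subgroup `P` -/

section PSub

variable (D : BSData p T)

/-- the cyclotomic character is trivial on `P` -/
lemma bs_chi_pSub {g : GQ} (hg : g ∈ D.pSub) : cycloChar p g = 1 := by
  have hle : D.pSub ≤ (cycloChar p).ker := by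
    refine (Subgroup.closure_le _).2 ?_
    rintro u ⟨-, m, hm⟩
    have : CharP (ZMod p) p := ZMod.charP p
    have h1 : ((cycloChar p u : (ZMod p)ˣ) : ZMod p) ^ p ^ m = 1 := by
      have := D.hχ _ hm
      rw [map_pow] at this
      simpa using congrArg Units.val this
    have h2 : (((cycloChar p u : (ZMod p)ˣ) : ZMod p) - 1) ^ p ^ m = 0 := by
      rw [sub_pow_char_pow, h1, one_pow, sub_self]
    have h3 := pow_eq_zero_iff (pow_ne_zero m (Fact.out : p.Prime).ne_zero) |>.1 h2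
    exact MonoidHom.mem_ker.2 (Units.ext (by simpa using sub_eq_zero.1 h3))
  exact MonoidHom.mem_ker.1 (hle hg)

/-- `G / C` is finite -/
lemma bs_finite_quot_C : Finite (GQ ⧸ D.C) := by
  have := helper92.finite_quotient_of_mem_galLevels T D.N₀ D.hN₀
  have : D.N₀.FiniteIndex := Subgroup.finiteIndex_of_finite_quotient
  have : D.C.FiniteIndex := Subgroup.finiteIndex_of_le D.hle
  infer_instance

/-- `C / P` is finite -/
lemma bs_finite_quot_P : Finite (↥D.C ⧸ D.pSub.subgroupOf D.C) := by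
  have := helper92.finite_quotient_of_mem_galLevels T D.N₀ D.hN₀
  have : D.N₀.FiniteIndex := Subgroup.finiteIndex_of_finite_quotient
  have h1 : (D.N₀.subgroupOf D.C).FiniteIndex := inferInstance
  have hle : D.N₀.subgroupOf D.C ≤ D.pSub.subgroupOf D.C := fun g hg => D.le_pSub hg
  have : (D.pSub.subgroupOf D.C).FiniteIndex := Subgroup.finiteIndex_of_le hle
  infer_instance

/-- the index of `P` in `C` is prime to `p` -/
lemma bs_not_dvd_index : ¬ p ∣ (D.pSub.subgroupOf D.C).index := by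
  have := helper92.finite_quotient_of_mem_galLevels T D.N₀ D.hN₀
  have : D.N₀.FiniteIndex := Subgroup.finiteIndex_of_finite_quotient
  have hn := D.normal_N₀
  have : (D.N₀.subgroupOf D.C).Normal := inferInstance
  have : Finite (↥D.C ⧸ D.N₀.subgroupOf D.C) := inferInstance
  obtain ⟨U, -, hU, hpow⟩ := helper57.exists_sylow_preimage p (D.N₀.subgroupOf D.C)
  have hle : U ≤ D.pSub.subgroupOf D.C := by
    intro g hg
    obtain ⟨n, hn⟩ := hpow g hg
    rw [Subgroup.mem_subgroupOf]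
    refine Subgroup.subset_closure ⟨g.2, n, ?_⟩
    have h := Subgroup.mem_subgroupOf.1 hn
    simpa using h
  intro h
  exact hU (h.trans (Subgroup.index_dvd_of_le hle))

lemma bs_card_ne_zero :
    ((Nat.card (↥D.C ⧸ D.pSub.subgroupOf D.C) : ℕ) : ZMod p) ≠ 0 := by
  rw [Ne, ZMod.natCast_eq_zero_iff]
  exact bs_not_dvd_index D

variable {D} in
/-- `P` acts trivially on `Y` -/
lemma bs_triv_pSub {Y : Rep.{0} (ZMod p) ↥D.C} (hY : YOk D Y) {g : GQ} (hg : g ∈ D.pSub) :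
    ∀ (hC : g ∈ D.C) (y : Y), Y.ρ ⟨g, hC⟩ y = y := by
  induction hg using Subgroup.closure_induction with
  | mem x hx =>
    intro hC y
    exact hY.2 ⟨x, hC⟩ hx.2 y
  | one =>
    intro hC y
    have h : (⟨1, hC⟩ : ↥D.C) = 1 := rfl
    rw [h, map_one, Module.End.one_apply]
  | mul x y hx hy ihx ihy =>
    intro hC w
    have hxC : x ∈ D.C := D.pSub_le hx
    have hyC : y ∈ D.C := D.pSub_le hy
    have h : (⟨x * y, hC⟩ : ↥D.C) = ⟨x, hxC⟩ * ⟨y, hyC⟩ := rfl
    rw [h, map_mul, Module.End.mul_apply, ihy hyC, ihx hxC]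
  | inv x hx ih =>
    intro hC w
    have hxC : x ∈ D.C := D.pSub_le hx
    have h : (⟨x⁻¹, hC⟩ : ↥D.C) = (⟨x, hxC⟩ : ↥D.C)⁻¹ := rfl
    rw [h]
    conv_lhs => rw [← ih hxC w]
    rw [← Module.End.mul_apply, ← map_mul, inv_mul_cancel, map_one, Module.End.one_apply]

end PSub

/-! ## The map `x ↦ φ_x` -/

section Psi

variable (D : BSData p T) (Y : Rep.{0} (ZMod p) ↥D.C)

/-- a cochain with values in `N' = (Ind Y)^*(1)` as a function with values in the dual of
`G ⧸ C → Y` -/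
def bsFn (x : GQ → dualT p (indRep Y)) : GQ → Module.Dual (ZMod p) (GQ ⧸ D.C → Y) := x

/-- `φ_x(y)(u) = x(u)(δ y)` -/
def bsPsi : (GQ → dualT p (indRep Y)) →ₗ[ZMod p] (Y →ₗ[ZMod p] D.Fun) where
  toFun x :=
    { toFun := fun y u => bsFn D Y x (u : GQ) (bsDelta D.C Y.ρ y)
      map_add' := fun y y' => by
        funext u
        simp only [map_add]
        rfl
      map_smul' := fun r y => by
        funext u
        simp only [map_smul]
        rfl }
  map_add' _ _ := rfl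
  map_smul' _ _ := rfl

lemma bsPsi_apply (x : GQ → dualT p (indRep Y)) (y : Y) (u : ↥D.pSub) :
    bsPsi D Y x y u = bsFn D Y x (u : GQ) (bsDelta D.C Y.ρ y) := rfl

variable {D Y}

/-- the cocycle condition in the form used by the abstract part -/
lemma bsFn_cocycle {x : GQ → dualT p (indRep Y)}
    (hx : x ∈ LinearMap.ker (d₁₂ (dualT p (indRep Y))).hom) (g h : GQ) :
    bsFn D Y x (g * h) = bsRho Y.ρ (cycloChar p) g (bsFn D Y x h) + bsFn D Y x g := by
  have h1 := congrFun (LinearMap.mem_ker.1 hx) (g, h)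
  rw [d₁₂_hom_apply] at h1
  have h2 : (dualT p (indRep Y)).ρ g (x h) - x (g * h) + x g = 0 := h1
  have h3 : x (g * h) = (dualT p (indRep Y)).ρ g (x h) + x g := by
    rw [eq_comm, ← sub_eq_zero, ← h2]
    abel
  exact h3

/-- `φ_x(y)` is a level-constant homomorphism of `P` -/
lemma bsPsi_mem_Hsp (hY : YOk D Y) {x : GQ → dualT p (indRep Y)}
    (hx : x ∈ Z1 (galLevels T) (dualT p (indRep Y))) (y : Y) : bsPsi D Y x y ∈ D.Hsp := by
  obtain ⟨⟨N, hN, hlev⟩, hcoc⟩ := hx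
  refine ⟨?_, ?_⟩
  · obtain ⟨N', hN', hle⟩ := (galLevels T).directed N hN D.N₀ D.hN₀
    refine ⟨N'.subgroupOf D.pSub,
      ⟨N', hN', (hle.trans inf_le_right).trans D.le_pSub, rfl⟩, ?_⟩
    intro g s hs
    have h1 : x ((g : GQ) * (s : GQ)) = x (g : GQ) :=
      hlev g s (hle (Subgroup.mem_subgroupOf.1 hs)).1
    rw [bsPsi_apply, bsPsi_apply]
    change bsFn D Y x ((g : GQ) * (s : GQ)) _ = _
    unfold bsFn
    rw [h1]
  · rw [SetLike.mem_coe, LinearMap.mem_ker]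
    funext g
    rw [d₁₂_hom_apply]
    change bsPsi D Y x y g.2 - bsPsi D Y x y (g.1 * g.2) + bsPsi D Y x y g.1 = 0
    have h := bs_add (bsFn_cocycle (D := D) hcoc) (u := (g.1 : GQ)) (v := (g.2 : GQ))
      (D.pSub_le g.1.2) (bs_chi_pSub D g.1.2) (bs_triv_pSub hY g.1.2 _) y
    have h2 : bsPsi D Y x y (g.1 * g.2) = bsPsi D Y x y g.1 + bsPsi D Y x y g.2 := h
    rw [h2]
    abel

/-- `φ_x` intertwines `y'` and the conjugation by `c` -/
lemma bsPsi_comp (hY : YOk D Y) {x : GQ → dualT p (indRep Y)}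
    (hx : x ∈ Z1 (galLevels T) (dualT p (indRep Y))) :
    bsPsi D Y x ∘ₗ D.yTw Y = D.cs ∘ₗ bsPsi D Y x := by
  refine LinearMap.ext fun y => funext fun u => ?_
  change bsPsi D Y x (D.yTw Y y) u = D.cs (bsPsi D Y x y) u
  rw [BSData.cs_apply, bsPsi_apply, bsPsi_apply]
  have h := bs_conj (bsFn_cocycle (D := D) hx.2) D.cC (u := (u : GQ)) (D.pSub_le u.2)
    (bs_chi_pSub D u.2) (bs_triv_pSub hY u.2 _) y
  have h1 : D.yTw Y y = (((cycloChar p D.c)⁻¹ : (ZMod p)ˣ) : ZMod p) • Y.ρ D.cC y := rfl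
  rw [h1, map_smul, map_smul]
  exact h.symm

/-- if `x` is locally trivial, `φ_x(y)` vanishes on the conjugates of the decomposition groups -/
lemma bsPsi_vanish (hY : YOk D Y) {x : GQ → dualT p (indRep Y)}
    (hx : x ∈ Z1 (galLevels T) (dualT p (indRep Y)))
    (hloc : x ∈ LocTriv1 (galLocal T) (dualT p (indRep Y))) (y : Y) (v : ↥T) (g : GQ)
    (h : primeLocalGaloisGroup v.1) (hu : g * primeLocalToGlobal v.1 h * g⁻¹ ∈ D.pSub) :
    bsPsi D Y x y ⟨_, hu⟩ = 0 := by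
  have hv := (Submodule.mem_iInf _).1 hloc v
  rw [Submodule.mem_comap] at hv
  obtain ⟨a₀, ha⟩ := hv
  let a : Module.Dual (ZMod p) (GQ ⧸ D.C → Y) := a₀
  have hr : bsFn D Y x (primeLocalToGlobal v.1 h) =
      bsRho Y.ρ (cycloChar p) (primeLocalToGlobal v.1 h) a - a :=
    (congrFun ha h).symm
  exact bs_loc (bsFn_cocycle (D := D) hx.2) a hr g (D.pSub_le hu) (bs_chi_pSub D hu)
    (bs_triv_pSub hY hu _) y

/-- `x ↦ φ_x` kills the coboundaries -/
lemma bsPsi_of_mem_B1 (hY : YOk D Y) {x : GQ → dualT p (indRep Y)}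
    (hx : x ∈ B1 (dualT p (indRep Y))) : bsPsi D Y x = 0 := by
  obtain ⟨a₀, rfl⟩ := hx
  let a : Module.Dual (ZMod p) (GQ ⧸ D.C → Y) := a₀
  refine LinearMap.ext fun y => funext fun u => ?_
  rw [bsPsi_apply]
  change (bsRho Y.ρ (cycloChar p) (u : GQ) a - a) (bsDelta D.C Y.ρ y) = 0
  rw [LinearMap.sub_apply, bsRho_apply_bsDelta (D.pSub_le u.2) (bs_chi_pSub D u.2)
    (bs_triv_pSub hY u.2 _), sub_self]

/-- a cocycle with `φ_x = 0` is a coboundary -/
lemma mem_B1_of_bsPsi_eq_zero {x : GQ → dualT p (indRep Y)}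
    (hx : x ∈ Z1 (galLevels T) (dualT p (indRep Y))) (h0 : bsPsi D Y x = 0) :
    x ∈ B1 (dualT p (indRep Y)) := by
  have := bs_finite_quot_C D
  have := bs_finite_quot_P D
  have hP : ∀ u ∈ D.pSub.subgroupOf D.C, ∀ w : Y,
      bsFn D Y x (u : GQ) (bsDelta D.C Y.ρ w) = 0 := by
    intro u hu w
    exact congrFun (LinearMap.congr_fun h0 w) ⟨(u : GQ), Subgroup.mem_subgroupOf.1 hu⟩
  obtain ⟨a, ha⟩ := bs_inj (τ := Y.ρ) (χ := cycloChar p) (D.pSub.subgroupOf D.C)
    (bs_card_ne_zero D) (bsFn D Y x) (bsFn_cocycle (D := D) hx.2) hP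
  exact ⟨a, funext fun g => (ha g).symm⟩

end Psi

/-! ## Finiteness of the target -/

lemma bs_eqvIn_finite (hp2 : p ≠ 2) (hpT : pPrime p ∈ T) (hB : BaseInputStatement p T)
    (D : BSData p T) (Y : Rep.{0} (ZMod p) ↥D.C) (hY : YOk D Y) :
    Module.Finite (ZMod p) ↥(eqvIn (D.yTw Y) D.cs D.Shsp) := by
  have hH : Module.Finite (ZMod p) ↥D.Hsp :=
    bs_z1_finite hp2 hpT hB D.pSub D.exists_level_le_pSub (fun g hg => bs_chi_pSub D hg)
  have hle : D.Shsp ≤ D.Hsp := fun x hx => hx.1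
  have hS : Module.Finite (ZMod p) ↥D.Shsp := Submodule.finiteDimensional_of_le hle
  have hYf : Module.Finite (ZMod p) Y := hY.1
  let ι : ↥(eqvIn (D.yTw Y) D.cs D.Shsp) →ₗ[ZMod p] (Y →ₗ[ZMod p] ↥D.Shsp) :=
    { toFun := fun φ => LinearMap.codRestrict D.Shsp φ.1 φ.2.2
      map_add' := fun _ _ => rfl
      map_smul' := fun _ _ => rfl }
  refine Module.Finite.of_injective ι ?_
  intro φ φ' h
  apply Subtype.ext
  refine LinearMap.ext fun y => ?_
  exact congrArg (fun f : Y →ₗ[ZMod p] ↥D.Shsp => (f y : D.Fun)) h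

/-! ## The package -/

/-- **BS-SHAIND**: `dim Ш¹((Ind_C^G Y)^*(1)) ≤ mult(y', 𝐒𝐡)`. -/
theorem shaInd (p : ℕ) [Fact p.Prime] (T : Finset Nat.Primes) : ShaIndStatement p T := by
  intro hp2 hpT hB _ D Y hY
  have hfin := bs_eqvIn_finite hp2 hpT hB D Y hY
  let ΨZ : ↥(Z1 (galLevels T) (dualT p (indRep Y))) →ₗ[ZMod p] (Y →ₗ[ZMod p] D.Fun) :=
    (bsPsi D Y) ∘ₗ (Z1 (galLevels T) (dualT p (indRep Y))).subtype
  have hker : (B1 (dualT p (indRep Y))).comap
      (Z1 (galLevels T) (dualT p (indRep Y))).subtype ≤ LinearMap.ker ΨZ := by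
    intro z hz
    rw [LinearMap.mem_ker]
    exact bsPsi_of_mem_B1 hY (Submodule.mem_comap.1 hz)
  let ΨH : S55.H1 (galLevels T) (dualT p (indRep Y)) →ₗ[ZMod p] (Y →ₗ[ZMod p] D.Fun) :=
    Submodule.liftQ _ ΨZ hker
  have hinj : Function.Injective ΨH := by
    rw [← LinearMap.ker_eq_bot]
    refine Submodule.ker_liftQ_eq_bot _ _ _ ?_
    intro z hz
    rw [Submodule.mem_comap]
    exact mem_B1_of_bsPsi_eq_zero z.2 (LinearMap.mem_ker.1 hz)
  have hmem : ∀ c : ↥(Sha1 (galLocal T) (dualT p (indRep Y))),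
      ΨH c ∈ eqvIn (D.yTw Y) D.cs D.Shsp := by
    rintro ⟨c, hc⟩
    obtain ⟨z, hz, rfl⟩ := hc
    change ΨZ z ∈ _
    exact ⟨bsPsi_comp hY z.2, fun y =>
      ⟨bsPsi_mem_Hsp hY z.2 y, fun v g h hu => bsPsi_vanish hY z.2 hz y v g h hu⟩⟩
  let Φ : ↥(Sha1 (galLocal T) (dualT p (indRep Y))) →ₗ[ZMod p]
      ↥(eqvIn (D.yTw Y) D.cs D.Shsp) :=
    LinearMap.codRestrict _ (ΨH.domRestrict _) hmem
  have hΦ : Function.Injective Φ := by
    intro c c' h
    have h1 : ΨH c = ΨH c' := congrArg Subtype.val h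
    exact Subtype.ext (hinj h1)
  exact LinearMap.finrank_le_finrank_of_injective hΦ

end Fermat.Agent.P1.helper46
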