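import Mathlib
import Fermat.Agent.P1.helper70_FTDefs
import Fermat.Agent.P1.helper47_HopfConv

/-!
# P1 / FLAT-CNT (helper47): package FT-A

`ftA : FTAStatement p` (statement of `helper70_FTDefs`): if `σ` is in the inertia group and
`x` is a point killed by `p`, then `(σ ∘ x) * x ^ (p - 1)` reduces to the identity.
-/

set_option autoImplicit false

namespace Fermat.Agent.P1.helper47

open Fermat.Agent.S55.helper8 Fermat.Agent.S55.helper7 Fermat.Agent.P1.helper14
  Fermat.Agent.P1.helper70
open WithConv Coalgebra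

section

variable (p : ℕ) [Fact p.Prime] (F : Type) [Field F] [Algebra ℚ_[p] F]
  [FiniteDimensional ℚ_[p] F]

/-- a finite sum of elements of positive valuation has positive valuation -/
lemma ordT_sum_pos {ι : Type*} (s : Finset ι) (f : ι → F)
    (h : ∀ i ∈ s, 0 < ordT p F (f i)) : 0 < ordT p F (∑ i ∈ s, f i) := by
  classical
  induction s using Finset.induction_on with
  | empty =>
    rw [Finset.sum_empty, ordT_zero]
    exact WithTop.top_pos
  | insert a s ha ih =>
    rw [Finset.sum_insert ha]
    exact ordT_add_pos p F (h a (Finset.mem_insert_self a s))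
      (ih fun i hi => h i (Finset.mem_insert_of_mem hi))

end

/-- **FT-A**. -/
theorem ftA (p : ℕ) [Fact p.Prime] : FTAStatement p := by
  intro F _ _ _ O H _ _ _ _ _ hint x y σ hσ hxp hy h
  -- the three elements of the linear convolution algebra
  set X : WithConv (H →ₗ[O] F) := ptsToConv x with hX
  set Y : WithConv (H →ₗ[O] F) := ptsToConv y with hY
  set Z : WithConv (H →ₗ[O] F) := ptsToConv (x ^ (p - 1)) with hZ
  have hp : p.Prime := Fact.out
  have hXZ : X * Z = 1 := by
    rw [hX, hZ, ← map_mul, ← pow_succ', Nat.sub_add_cancel hp.one_le, hxp, map_one]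
  have h1 : (y * x ^ (p - 1)).ofConv h - algebraMap O F (Coalgebra.counit h) =
      ((Y - X) * Z).ofConv h := by
    rw [sub_mul, hXZ, hY, hZ, ← map_mul]
    rfl
  rw [h1, (ℛ O h).convMul_apply]
  apply ordT_sum_pos
  intro i _
  rw [ordT_mul]
  have h2 : 0 < ordT p F ((Y - X).ofConv ((ℛ O h).left i)) := by
    change 0 < ordT p F (y.ofConv ((ℛ O h).left i) - x.ofConv ((ℛ O h).left i))
    rw [← hy]
    exact (mem_inertia p F).mp hσ _ (hint x _)
  have h3 : 0 ≤ ordT p F (Z.ofConv ((ℛ O h).right i)) := hint (x ^ (p - 1)) _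
  exact lt_of_lt_of_le h2 (le_add_of_nonneg_right h3)

end Fermat.Agent.P1.helper47
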