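import Mathlib
import Fermat.Agent.P1.helper70_FTDefs
import Fermat.Agent.P1.helper47_HopfConv
import Fermat.Agent.P1.helper47_FTA
import Fermat.Agent.P1.helper12_Hopf2a
import Fermat.Agent.P1.helper78_KRInert
import Fermat.Agent.P1.helper87_DictO1
import Fermat.Agent.P1.helper86_KREis

/-!
# P1 / FLAT-CNT (helper47): package FT-C

`ftC : FTCStatement p` (statement of `helper70_FTDefs`): `p` odd; if `Y` is a finite
inertia-stable group of points killed by `p`, and `x` is a point killed by `p`, reducing to the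
identity, with `σ ∘ x ∈ x * Y` for all `σ` in the inertia group, then `x ∈ Y`.
-/

set_option autoImplicit false

namespace Fermat.Agent.P1.helper47

open Fermat.Agent.S55.helper8 Fermat.Agent.S55.helper7 Fermat.Agent.P1.helper14
  Fermat.Agent.P1.helper70
open WithConv Coalgebra

section abstractCore

/-- Abstract core of FT-C: if `X ^ p = 1` and `X - 1` maps the additive subgroup `𝔫` into
`p 𝔫`, where `p` is odd, a non-zero-divisor, and `𝔫` is `p`-adically separated, then `X` acts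
trivially on `𝔫`. -/
theorem fix_of_pow_eq_one (h2a : Hopf2aStatement) {C : Type} [CommRing C] (𝔫 : AddSubgroup C)
    (X : C) (p : ℕ) (hp : p.Prime) (hp2 : p ≠ 2)
    (hD : ∀ f ∈ 𝔫, ∃ g ∈ 𝔫, (p : C) * g = X * f - f)
    (hXp : X ^ p = 1)
    (htf : ∀ g : C, (p : C) * g = 0 → g = 0)
    (hsep : ∀ g : C, (∀ k : ℕ, ∃ g' ∈ 𝔫, g = (p : C) ^ k * g') → g = 0) :
    ∀ f ∈ 𝔫, X * f = f := by
  classical
  choose! D hDmem hDeq using hD
  have hcancel : ∀ a b : C, (p : C) * a = (p : C) * b → a = b := by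
    intro a b hab
    have : (p : C) * (a - b) = 0 := by rw [mul_sub, hab, sub_self]
    exact sub_eq_zero.mp (htf _ this)
  let Dadd : 𝔫 →+ 𝔫 := AddMonoidHom.mk' (fun f => ⟨D f, hDmem f f.2⟩) (by
    intro f g
    apply Subtype.ext
    apply hcancel
    change (p : C) * D ((f : C) + (g : C)) = (p : C) * (D f + D g)
    rw [hDeq _ (𝔫.add_mem f.2 g.2), mul_add (p : C) (D f) (D g), hDeq _ f.2, hDeq _ g.2]
    ring)
  let Dl : Module.End ℤ 𝔫 := Dadd.toIntLinearMap
  have hDl : ∀ f : 𝔫, ((Dl f : 𝔫) : C) = D f := fun f => rfl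
  let A : Subring (Module.End ℤ 𝔫) := Subring.closure ({Dl} : Set (Module.End ℤ 𝔫))
  letI instA : CommRing A := Subring.closureCommRingOfComm (by
    intro a ha b hb
    rw [Set.mem_singleton_iff] at ha hb
    rw [ha, hb])
  let Dc : A := ⟨Dl, Subring.subset_closure rfl⟩
  -- natural numbers act by multiplication
  have hnat : ∀ (n : ℕ) (z : Module.End ℤ 𝔫) (f : 𝔫),
      ((((n : Module.End ℤ 𝔫) * z) f : 𝔫) : C) = (n : C) * ((z f : 𝔫) : C) := by
    intro n z f
    rw [Module.End.mul_apply, Module.End.natCast_apply]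
    simp
  have hcoeNat : ∀ n : ℕ, (((n : A) : A) : Module.End ℤ 𝔫) = (n : Module.End ℤ 𝔫) := fun n => rfl
  have hcoeMul : ∀ a b : A, ((a * b : A) : Module.End ℤ 𝔫) = (a : Module.End ℤ 𝔫) * b :=
    fun a b => rfl
  have hcoeOne : (((1 : A) : A) : Module.End ℤ 𝔫) = 1 := rfl
  have hcoeAdd : ∀ a b : A, ((a + b : A) : Module.End ℤ 𝔫) = (a : Module.End ℤ 𝔫) + b :=
    fun a b => rfl
  let u : A := 1 + (p : A) * Dc
  have hu_apply : ∀ f : 𝔫, ((((u : A) : Module.End ℤ 𝔫) f : 𝔫) : C) = X * f := by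
    intro f
    have h1 : ((u : A) : Module.End ℤ 𝔫) = 1 + (p : Module.End ℤ 𝔫) * Dl := rfl
    rw [h1, LinearMap.add_apply, AddSubgroup.coe_add, hnat, hDl, hDeq _ f.2]
    simp
  have hact : ∀ (k : ℕ) (f : 𝔫), (((((u ^ k : A) : A) : Module.End ℤ 𝔫) f : 𝔫) : C) = X ^ k * f := by
    intro k
    induction k with
    | zero =>
      intro f
      rw [pow_zero, pow_zero, one_mul, hcoeOne]
      rfl
    | succ k ih =>
      intro f
      rw [pow_succ, hcoeMul, Module.End.mul_apply, ih, hu_apply, pow_succ, mul_assoc]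
  have hu1 : u = 1 := by
    refine h2a A p hp (p : A) 1 1 1 ?_ ?_ isUnit_one (by rw [pow_one, mul_one]) ?_ u ?_ ?_
    · intro y hy
      apply Subtype.ext
      apply LinearMap.ext
      intro f
      apply Subtype.ext
      have h1 : (((((p : A) * y : A) : Module.End ℤ 𝔫) f : 𝔫) : C) = 0 := by
        rw [hy]
        rfl
      rw [hcoeMul, hcoeNat, hnat] at h1
      exact htf _ h1
    · intro y hy
      apply Subtype.ext
      apply LinearMap.ext
      intro f
      apply Subtype.ext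
      change (((y : Module.End ℤ 𝔫) f : 𝔫) : C) = 0
      apply hsep
      intro k
      obtain ⟨z, hz⟩ := hy k
      refine ⟨(((z : Module.End ℤ 𝔫) f : 𝔫) : C), ((z : Module.End ℤ 𝔫) f).2, ?_⟩
      have h1 : (y : Module.End ℤ 𝔫) = ((p ^ k : ℕ) : Module.End ℤ 𝔫) * z := by
        rw [hz, hcoeMul, ← Nat.cast_pow]
        rfl
      rw [h1, hnat, Nat.cast_pow]
    · have := hp.two_le
      have : 3 ≤ p := by omega
      omega
    · refine ⟨Dc, ?_⟩
      rw [pow_one]
      change (1 + (p : A) * Dc) - 1 = (p : A) * Dc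
      ring
    · apply Subtype.ext
      apply LinearMap.ext
      intro f
      apply Subtype.ext
      rw [hact, hXp, one_mul]
      rfl
  intro f hf
  have := hu_apply ⟨f, hf⟩
  rw [hu1] at this
  exact this.symm


end abstractCore

section key

variable (p : ℕ) [Fact p.Prime] (F : Type) [Field F] [Algebra ℚ_[p] F]
  [FiniteDimensional ℚ_[p] F] [IsGalois ℚ_[p] F]

/-- An element fixed by the inertia group and of positive valuation is divisible by `p`. -/
lemma le_ordT_of_inertia_fixed (z : F) (hz : ∀ σ ∈ inertia p F, σ z = z)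
    (hpos : 0 < ordT p F z) : ((edeg p F : ℤ) : WithTop ℤ) ≤ ordT p F z := by
  obtain ⟨K0, he, -, -, hin⟩ := Fermat.Agent.P1.helper78.krInert p F
  have hmem : z ∈ IntermediateField.fixedField (IntermediateField.fixingSubgroup K0) := by
    rintro ⟨σ, hσ⟩
    exact hz σ ((hin σ).mpr fun x hx => hσ ⟨x, hx⟩)
  rw [IsGalois.fixedField_fixingSubgroup] at hmem
  by_cases hz0 : z = 0
  · rw [hz0, ordT_zero]
    exact le_top
  set z0 : K0 := ⟨z, hmem⟩ with hz0def
  have hz00 : z0 ≠ 0 := by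
    intro h
    apply hz0
    have := congrArg (fun t : K0 => (t : F)) h
    exact this
  have hzz : algebraMap K0 F z0 = z := rfl
  have hpos0 : 0 < ordT p K0 z0 := by
    rw [← ordT_algebraMap_pos_iff p K0 F, hzz]
    exact hpos
  rw [← hzz, ordT_algebraMap_of_ne_zero p K0 F hz00]
  rw [ordT_of_ne_zero p K0 hz00, WithTop.coe_pos] at hpos0
  rw [WithTop.coe_le_coe]
  have hrel : relE p K0 F = edeg p F := by
    rw [relE, he, Nat.div_one]
  rw [hrel]
  have h1 : (1 : ℤ) ≤ ord p K0 (Units.mk0 z0 hz00) := hpos0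
  have h2 : (0 : ℤ) ≤ (edeg p F : ℤ) := Int.natCast_nonneg _
  nlinarith

end key

section ftc

variable (p : ℕ) [Fact p.Prime] (F : Type) [Field F] [Algebra ℚ_[p] F]
  [FiniteDimensional ℚ_[p] F]
  (O H : Type) [CommRing O] [CommRing H] [Bialgebra O H] [Coalgebra.IsCocomm O H]
  [Algebra O ℚ_[p]] [Algebra O F] [IsScalarTower O ℚ_[p] F]

/-- an element of the Galois group as an `O`-algebra homomorphism -/
noncomputable def sigO (σ : F ≃ₐ[ℚ_[p]] F) : F →ₐ[O] F := (σ : F →ₐ[ℚ_[p]] F).restrictScalars O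

omit [FiniteDimensional ℚ_[p] F] in
@[simp] lemma sigO_apply (σ : F ≃ₐ[ℚ_[p]] F) (z : F) : sigO p F O σ z = σ z := rfl

variable {F O H}

omit [FiniteDimensional ℚ_[p] F] [Coalgebra.IsCocomm O H] in
lemma redConv_sigO_smul (σ : F ≃ₐ[ℚ_[p]] F) (c : F) (f : WithConv (H →ₗ[O] F)) :
    redConv (sigO p F O σ) (c • f) = σ c • redConv (sigO p F O σ) f := by
  apply WithConv.ext
  ext h
  change σ (c * f.ofConv h) = σ c * σ (f.ofConv h)
  rw [map_mul]

variable (F O H)

/-- The module `𝔫`: inertia-invariant, integral-valued, `Y`-invariant elements of the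
convolution algebra. -/
noncomputable def nnSub (Y : Submonoid (WithConv (H →ₐ[O] F))) : AddSubgroup (WithConv (H →ₗ[O] F)) where
  carrier := {f | (∀ σ ∈ inertia p F, redConv (sigO p F O σ) f = f) ∧
    (∀ h, 0 ≤ ordT p F (f.ofConv h)) ∧ ∀ y ∈ Y, f * ptsToConv y = f}
  zero_mem' := by
    refine ⟨fun σ _ => map_zero _, fun h => ?_, fun y _ => zero_mul _⟩
    change 0 ≤ ordT p F (0 : F)
    rw [ordT_zero]
    exact le_top
  add_mem' := by
    rintro f g ⟨hf1, hf2, hf3⟩ ⟨hg1, hg2, hg3⟩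
    refine ⟨fun σ hσ => by rw [map_add, hf1 σ hσ, hg1 σ hσ], fun h => ?_,
      fun y hy => by rw [add_mul, hf3 y hy, hg3 y hy]⟩
    exact ordT_add_nonneg p F (hf2 h) (hg2 h)
  neg_mem' := by
    rintro f ⟨hf1, hf2, hf3⟩
    refine ⟨fun σ hσ => by rw [map_neg, hf1 σ hσ], fun h => ?_,
      fun y hy => by rw [neg_mul, hf3 y hy]⟩
    change 0 ≤ ordT p F (-(f.ofConv h))
    rw [ordT_neg]
    exact hf2 h

variable {F O H}

lemma mem_nnSub {Y : Submonoid (WithConv (H →ₐ[O] F))} {f : WithConv (H →ₗ[O] F)} :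
    f ∈ nnSub p F O H Y ↔ (∀ σ ∈ inertia p F, redConv (sigO p F O σ) f = f) ∧
      (∀ h, 0 ≤ ordT p F (f.ofConv h)) ∧ ∀ y ∈ Y, f * ptsToConv y = f := Iff.rfl


omit [IsScalarTower O ℚ_[p] F] [Algebra O ℚ_[p]] [Coalgebra.IsCocomm O H] in
/-- values of `(x - 1) * f` have positive valuation when `x` reduces to the identity and `f` is
integral -/
lemma ordT_pos_sub_one_mul (x : WithConv (H →ₐ[O] F)) (hx1 : PointRedOne p x)
    (f : WithConv (H →ₗ[O] F)) (hf : ∀ h, 0 ≤ ordT p F (f.ofConv h)) (h : H) :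
    0 < ordT p F ((ptsToConv x * f - f).ofConv h) := by
  have h1 : ptsToConv x * f - f = (ptsToConv x - 1) * f := by rw [sub_mul, one_mul]
  rw [h1, (ℛ O h).convMul_apply]
  apply ordT_sum_pos
  intro i _
  rw [ordT_mul]
  have h2 : 0 < ordT p F ((ptsToConv x - 1 : WithConv (H →ₗ[O] F)).ofConv ((ℛ O h).left i)) :=
    hx1 _
  exact lt_of_lt_of_le h2 (le_add_of_nonneg_right (hf _))

omit [Coalgebra.IsCocomm O H] [IsScalarTower O ℚ_[p] F] [Algebra O ℚ_[p]] in
lemma ordT_inv_p_mul {v : F} (hv : ((edeg p F : ℤ) : WithTop ℤ) ≤ ordT p F v) :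
    0 ≤ ordT p F ((p : F)⁻¹ * v) := by
  by_cases hv0 : v = 0
  · rw [hv0, mul_zero, ordT_zero]
    exact le_top
  have hp0 : (p : F) ≠ 0 := by
    intro h
    have := ordT_q_pos p F
    rw [h, ordT_zero] at this
    have h2 := ordT_q p F
    rw [h, ordT_zero] at h2
    exact WithTop.coe_ne_top h2.symm
  have hne : (p : F)⁻¹ * v ≠ 0 := mul_ne_zero (inv_ne_zero hp0) hv0
  obtain ⟨m, hm⟩ := Fermat.Agent.P1.helper87.exists_ordT_eq p F hne
  have h1 : ordT p F v = ordT p F (p : F) + ordT p F ((p : F)⁻¹ * v) := by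
    rw [← ordT_mul, ← mul_assoc, mul_inv_cancel₀ hp0, one_mul]
  rw [h1, ordT_q, hm, ← WithTop.coe_add, WithTop.coe_le_coe] at hv
  rw [hm]
  have : (0 : ℤ) ≤ m := by omega
  exact_mod_cast this

/-- the operator `D = (M_x - 1) / p` preserves `𝔫` -/
lemma dfun_mem [IsGalois ℚ_[p] F] (Y : Submonoid (WithConv (H →ₐ[O] F)))
    (x : WithConv (H →ₐ[O] F)) (hx1 : PointRedOne p x)
    (hxY : ∀ σ ∈ inertia p F, ∃ y ∈ Y,
      redConv (sigO p F O σ) (ptsToConv x) = ptsToConv x * ptsToConv y)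
    (f : WithConv (H →ₗ[O] F)) (hf : f ∈ nnSub p F O H Y) :
    ((p : F)⁻¹ • (ptsToConv x * f - f)) ∈ nnSub p F O H Y := by
  obtain ⟨hf1, hf2, hf3⟩ := hf
  have hinv : ∀ σ ∈ inertia p F,
      redConv (sigO p F O σ) (ptsToConv x * f - f) = ptsToConv x * f - f := by
    intro σ hσ
    obtain ⟨y, hy, hxy⟩ := hxY σ hσ
    rw [map_sub, map_mul, hf1 σ hσ, hxy, mul_assoc, mul_comm (ptsToConv y) f, hf3 y hy]
  refine ⟨fun σ hσ => ?_, fun h => ?_, fun y hy => ?_⟩
  · rw [redConv_sigO_smul, hinv σ hσ, map_inv₀, map_natCast]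
  · change 0 ≤ ordT p F ((p : F)⁻¹ * (ptsToConv x * f - f).ofConv h)
    apply ordT_inv_p_mul
    apply le_ordT_of_inertia_fixed p F _ _ (ordT_pos_sub_one_mul p x hx1 f hf2 h)
    intro σ hσ
    have := congrArg (fun g : WithConv (H →ₗ[O] F) => g.ofConv h) (hinv σ hσ)
    exact this
  · rw [smul_mul_assoc, sub_mul, mul_assoc, hf3 y hy]


end ftc

section perm

/-- a sum over a finite set is invariant under an injective self-map of the set -/
lemma sum_comp_eq_of_injOn {ι M : Type*} [AddCommMonoid M] [DecidableEq ι] (s : Finset ι)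
    (g : ι → M) (φ : ι → ι) (hφ : ∀ a ∈ s, φ a ∈ s) (hinj : Set.InjOn φ s) :
    ∑ a ∈ s, g (φ a) = ∑ a ∈ s, g a := by
  have himg : s.image φ = s := by
    apply Finset.eq_of_subset_of_card_le
    · intro b hb
      obtain ⟨a, ha, rfl⟩ := Finset.mem_image.mp hb
      exact hφ a ha
    · rw [Finset.card_image_of_injOn hinj]
  conv_rhs => rw [← himg]
  rw [Finset.sum_image hinj]

end perm

section evalConv

variable {O M R : Type} [CommRing O] [AddCommGroup M] [Module O M] [CommRing R] [Algebra O R]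

/-- evaluation at `m`, as an additive homomorphism -/
def evalConv (m : M) : WithConv (M →ₗ[O] R) →+ R where
  toFun g := g.ofConv m
  map_zero' := rfl
  map_add' _ _ := rfl

@[simp] lemma evalConv_apply (m : M) (g : WithConv (M →ₗ[O] R)) :
    evalConv m g = g.ofConv m := rfl

end evalConv

section ftcMain

variable (p : ℕ) [Fact p.Prime]

/-- `p`-adic separatedness in a `p`-adic field: an element divisible by all powers of `p` with
integral quotients is zero -/
lemma eq_zero_of_forall_pow_mul (F : Type) [Field F] [Algebra ℚ_[p] F]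
    [FiniteDimensional ℚ_[p] F] (v : F)
    (h : ∀ k : ℕ, ∃ v' : F, 0 ≤ ordT p F v' ∧ v = (p : F) ^ k * v') : v = 0 := by
  by_contra hv
  obtain ⟨m, hm⟩ := Fermat.Agent.P1.helper87.exists_ordT_eq p F hv
  obtain ⟨v', hv', hvv'⟩ := h (m.toNat + 1)
  have he : 0 < edeg p F := Fermat.Agent.S55.helper97.edeg_pos p F
  have h1 : ordT p F v = (m.toNat + 1) • ordT p F ((p : ℕ) : F) + ordT p F v' := by
    rw [hvv', ordT_mul, ordT_pow]
  rw [ordT_q, hm] at h1
  have hv'0 : v' ≠ 0 := by
    rintro rfl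
    rw [mul_zero] at hvv'
    exact hv hvv'
  obtain ⟨m', hm'⟩ := Fermat.Agent.P1.helper87.exists_ordT_eq p F hv'0
  rw [hm'] at hv' h1
  have hm'0 : (0 : ℤ) ≤ m' := by exact_mod_cast hv'
  have hns : ∀ (n : ℕ) (a : ℤ), n • ((a : ℤ) : WithTop ℤ) = (((n : ℤ) * a : ℤ) : WithTop ℤ) := by
    intro n a
    induction n with
    | zero => simp
    | succ k ih =>
      rw [succ_nsmul, ih, ← WithTop.coe_add]
      congr 1
      push_cast
      ring
  have h2 : (m.toNat + 1) • (((edeg p F : ℤ) : ℤ) : WithTop ℤ) =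
      (((m.toNat + 1 : ℕ) * (edeg p F : ℤ) : ℤ) : WithTop ℤ) := hns _ _
  rw [h2, ← WithTop.coe_add, WithTop.coe_eq_coe] at h1
  have h3 : (m.toNat + 1 : ℤ) ≤ ((m.toNat + 1 : ℕ) : ℤ) * (edeg p F : ℤ) := by
    have : (1 : ℤ) ≤ (edeg p F : ℤ) := by exact_mod_cast he
    push_cast
    nlinarith [Int.natCast_nonneg (m.toNat)]
  have h4 : m ≤ (m.toNat : ℤ) := Int.self_le_toNat m
  omega


/-- **FT-C**. -/
theorem ftC : FTCStatement p := by
  intro F _ _ _ _ O H _ _ _ _ _ _ _ hp2 hint Y x hYfin hYp hYI hxp hx1 hxY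
  classical
  have hp : p.Prime := Fact.out
  set X : WithConv (H →ₗ[O] F) := ptsToConv x with hX
  have hp0 : (p : F) ≠ 0 := by
    intro h
    have h2 := ordT_q p F
    rw [h, ordT_zero] at h2
    exact WithTop.coe_ne_top h2.symm
  -- hypotheses in convolution form
  have hxY' : ∀ σ ∈ inertia p F, ∃ y ∈ Y,
      redConv (sigO p F O σ) X = X * ptsToConv y := by
    intro σ hσ
    obtain ⟨y, hy, hxy⟩ := hxY σ hσ
    refine ⟨y, hy, ?_⟩
    apply WithConv.ext
    ext h
    rw [hX, ← map_mul]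
    exact hxy h
  have hYI' : ∀ σ ∈ inertia p F, ∀ y ∈ Y, ∃ y' ∈ Y,
      redConv (sigO p F O σ) (ptsToConv y) = ptsToConv y' := by
    intro σ hσ y hy
    obtain ⟨y', hy', h⟩ := hYI σ hσ y hy
    refine ⟨y', hy', ?_⟩
    apply WithConv.ext
    ext h'
    exact h h'
  have hXp : X ^ p = 1 := by
    have h1 := map_pow (ptsToConv (O := O) (H := H) (R := F)) x p
    rw [hxp, map_one] at h1
    exact h1.symm
  have hYp' : ∀ y ∈ Y, ptsToConv y ^ p = (1 : WithConv (H →ₗ[O] F)) := by
    intro y hy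
    have h1 := map_pow (ptsToConv (O := O) (H := H) (R := F)) y p
    rw [hYp y hy, map_one] at h1
    exact h1.symm
  -- the finite set `Y` and the norm element
  set Yf : Finset (WithConv (H →ₐ[O] F)) := hYfin.toFinset with hYf
  have hmemYf : ∀ y, y ∈ Yf ↔ y ∈ Y := fun y => hYfin.mem_toFinset
  set N : WithConv (H →ₗ[O] F) := ∑ y ∈ Yf, ptsToConv y with hN
  have hmulinj : ∀ y' ∈ Y, ∀ a b : WithConv (H →ₐ[O] F), a * y' = b * y' → a = b := by
    intro y' hy' a b hab
    apply ptsToConv_injective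
    have h1 : ptsToConv a * ptsToConv y' = ptsToConv b * ptsToConv y' := by
      rw [← map_mul, ← map_mul, hab]
    have h2 : ptsToConv y' * ptsToConv y' ^ (p - 1) = (1 : WithConv (H →ₗ[O] F)) := by
      rw [← pow_succ', Nat.sub_add_cancel hp.one_le, hYp' y' hy']
    calc ptsToConv a = ptsToConv a * (ptsToConv y' * ptsToConv y' ^ (p - 1)) := by
          rw [h2, mul_one]
      _ = ptsToConv b * (ptsToConv y' * ptsToConv y' ^ (p - 1)) := by
          rw [← mul_assoc, h1, mul_assoc]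
      _ = ptsToConv b := by rw [h2, mul_one]
  have hN_mem : N ∈ nnSub p F O H Y := by
    refine ⟨?_, ?_, ?_⟩
    · intro σ hσ
      have hex : ∀ y : WithConv (H →ₐ[O] F), ∃ y', (y ∈ Y → y' ∈ Y ∧
          redConv (sigO p F O σ) (ptsToConv y) = ptsToConv y') := by
        intro y
        by_cases hy : y ∈ Y
        · obtain ⟨y', hy', h⟩ := hYI' σ hσ y hy
          exact ⟨y', fun _ => ⟨hy', h⟩⟩
        · exact ⟨y, fun h => absurd h hy⟩
      choose φ hφ using hex
      rw [hN, map_sum]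
      rw [← sum_comp_eq_of_injOn Yf (fun y => ptsToConv (O := O) (H := H) (R := F) y) φ ?_ ?_]
      · apply Finset.sum_congr rfl
        intro y hy
        exact (hφ y ((hmemYf y).mp hy)).2
      · intro a ha
        exact (hmemYf _).mpr (hφ a ((hmemYf a).mp ha)).1
      · intro a ha b hb hab
        have ha' := (hφ a ((hmemYf a).mp ha)).2
        have hb' := (hφ b ((hmemYf b).mp hb)).2
        have h1 : redConv (sigO p F O σ) (ptsToConv a) =
            redConv (sigO p F O σ) (ptsToConv b) := by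
          rw [ha', hb', hab]
        apply WithConv.ext
        ext h
        have h2 := congrArg (fun g : WithConv (H →ₗ[O] F) => g.ofConv h) h1
        exact σ.injective h2
    · intro h
      rw [hN, ← evalConv_apply, map_sum]
      apply Fermat.Agent.P1.helper86.le_ordT_sum
      intro y _
      exact hint y h
    · intro y' hy'
      rw [hN, Finset.sum_mul]
      have h1 : ∀ y ∈ Yf, ptsToConv y * ptsToConv y' =
          ptsToConv (O := O) (H := H) (R := F) (y * y') := fun y _ => (map_mul _ _ _).symm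
      rw [Finset.sum_congr rfl h1]
      refine sum_comp_eq_of_injOn Yf (fun y => ptsToConv (O := O) (H := H) (R := F) y)
        (fun y => y * y') ?_ ?_
      · intro a ha
        exact (hmemYf _).mpr (Y.mul_mem ((hmemYf a).mp ha) hy')
      · intro a _ b _ hab
        exact hmulinj y' hy' a b hab
  -- `X` fixes `𝔫`
  have hfix : X * N = N := by
    refine fix_of_pow_eq_one Fermat.Agent.P1.helper12.hopf2a (nnSub p F O H Y) X p hp hp2
      ?_ hXp ?_ ?_ N hN_mem
    · intro f hf
      refine ⟨_, dfun_mem p Y x hx1 hxY' f hf, ?_⟩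
      have h1 : ((p : ℕ) : WithConv (H →ₗ[O] F)) = algebraMap F _ ((p : ℕ) : F) :=
        (map_natCast _ p).symm
      rw [h1, Algebra.algebraMap_eq_smul_one, smul_mul_assoc, one_mul, smul_smul,
        mul_inv_cancel₀ hp0, one_smul]
    · intro g hg
      have h1 : ((p : ℕ) : WithConv (H →ₗ[O] F)) = algebraMap F _ ((p : ℕ) : F) :=
        (map_natCast _ p).symm
      rw [h1] at hg
      exact conv_nonZeroDivisor (fun y hy => (mul_eq_zero.mp hy).resolve_left hp0) g hg
    · intro g hg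
      apply WithConv.ext
      ext h
      apply eq_zero_of_forall_pow_mul p F
      intro k
      obtain ⟨g', hg', hgg'⟩ := hg k
      refine ⟨g'.ofConv h, hg'.2.1 h, ?_⟩
      have h1 : ((p : ℕ) : WithConv (H →ₗ[O] F)) ^ k = algebraMap F _ (((p : ℕ) : F) ^ k) := by
        rw [map_pow, map_natCast]
      rw [hgg', h1, algebraMap_mul_apply]
  -- linear independence of the points
  have hXN : X * N = ∑ y ∈ Yf, ptsToConv (O := O) (H := H) (R := F) (x * y) := by
    rw [hN, Finset.mul_sum]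
    apply Finset.sum_congr rfl
    intro y _
    rw [hX, ← map_mul]
  have hsum : ∑ y ∈ Yf, (x * y).ofConv.toLinearMap = ∑ y ∈ Yf, y.ofConv.toLinearMap := by
    have h1 := congrArg WithConv.ofConv (hXN.symm.trans hfix)
    rw [hN] at h1
    have h2 : ∀ (s : Finset (WithConv (H →ₐ[O] F))) (g : WithConv (H →ₐ[O] F) →
        WithConv (H →ₐ[O] F)),
        (∑ y ∈ s, ptsToConv (O := O) (H := H) (R := F) (g y)).ofConv =
          ∑ y ∈ s, (g y).ofConv.toLinearMap := by
      intro s g
      induction s using Finset.induction_on with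
      | empty => simp
      | insert a s ha ih =>
        rw [Finset.sum_insert ha, Finset.sum_insert ha, ← ih]
        rfl
    rw [h2 Yf (fun y => x * y), h2 Yf (fun y => y)] at h1
    exact h1
  have hli := linearIndependent_algHom_toLinearMap O H F
  set c₁ : (H →ₐ[O] F) →₀ F := ∑ y ∈ Yf, Finsupp.single (x * y).ofConv (1 : F) with hc₁
  set c₂ : (H →ₐ[O] F) →₀ F := ∑ y ∈ Yf, Finsupp.single y.ofConv (1 : F) with hc₂
  have hc : c₁ = c₂ := by
    apply hli
    rw [hc₁, hc₂, map_sum, map_sum]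
    simp only [Finsupp.linearCombination_single, one_smul]
    exact hsum
  have h1Y : (1 : WithConv (H →ₐ[O] F)) ∈ Yf := (hmemYf 1).mpr Y.one_mem
  have hc2 : c₂ (1 : WithConv (H →ₐ[O] F)).ofConv = 1 := by
    rw [hc₂, Finsupp.finset_sum_apply]
    rw [Finset.sum_eq_single_of_mem 1 h1Y]
    · simp
    · intro b _ hb
      rw [Finsupp.single_apply, if_neg]
      intro h
      exact hb (WithConv.ext h)
  have hex : ∃ y ∈ Yf, x * y = 1 := by
    by_contra hcon
    have hc1 : c₁ (1 : WithConv (H →ₐ[O] F)).ofConv = 0 := by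
      rw [hc₁, Finsupp.finset_sum_apply]
      apply Finset.sum_eq_zero
      intro y hy
      rw [Finsupp.single_apply, if_neg]
      intro h
      exact hcon ⟨y, hy, WithConv.ext h⟩
    rw [hc, hc2] at hc1
    exact one_ne_zero hc1
  obtain ⟨y, hy, hxy⟩ := hex
  have hyY : y ∈ Y := (hmemYf y).mp hy
  have hypow : y * y ^ (p - 1) = 1 := by
    rw [← pow_succ', Nat.sub_add_cancel hp.one_le]
    exact hYp y hyY
  have hx : x = y ^ (p - 1) := by
    calc x = x * (y * y ^ (p - 1)) := by rw [hypow, mul_one]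
      _ = (x * y) * y ^ (p - 1) := by rw [mul_assoc]
      _ = y ^ (p - 1) := by rw [hxy, one_mul]
  rw [hx]
  exact Y.pow_mem hyY _

end ftcMain

end Fermat.Agent.P1.helper47
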