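import Fermat.Agent.P1.helper94_LSOLin

/-!
# P1 / FLAT-CNT, package ORD (helper49, task 747): the abstract algebra

`A = k[ε]`, `V` free of rank 2 over `A` with basis `b`, `Vb` a plane over `k` with basis `bb`,
a group `G` acting on `V` through `r` and on `Vb` through `rb`, in matrix form
`r g = rb g + ε C g · rb g`; `I ≤ G` a normal subgroup (inertia).

* `ramV I r`  : the ramified part of `V` (generated by the `τ x - x`, `τ ∈ I`);
* `R1V I r`   : property (R1) on `V`;
* `ord_struct` : if `L = k u₀` is a `G`-stable line of `Vb` with trivial action of `I` on `Vb / L`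
  and nontrivial action of some `τ₀ ∈ I` on `L`, then (R1) gives `m ∈ V` lifting `u₀` with
  `A m` stable under `G` and `(τ - 1) V ⊆ A m` for `τ ∈ I`;
* `ord_line` : selection of the line;
* `ord_borel_core`, `ord_nil_core`, `ord_eq_zero_of_trace` : the translation into cocycles.
-/

set_option autoImplicit false
set_option linter.style.haveILetI false

open Fermat.Agent.P1.helper94

noncomputable section

namespace Fermat.Agent.P1.helper49

/-! ## Planes -/

section Plane

variable {k W : Type} [Field k] [AddCommGroup W] [Module k W]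

/-- a nonzero vector of a plane is the first vector of a basis -/
theorem ord_exists_basis (hW : Module.finrank k W = 2) {u₀ : W} (hu₀ : u₀ ≠ 0) :
    ∃ bw : Module.Basis (Fin 2) k W, bw 0 = u₀ := by
  have hfinW : Module.Finite k W := Module.finite_of_finrank_eq_succ hW
  have hex : ∃ w₂ : W, ∀ c : k, c • u₀ ≠ w₂ := by
    by_contra hcon
    push Not at hcon
    have h1 : Module.finrank k W = 1 := finrank_eq_one_iff'.mpr ⟨u₀, hu₀, hcon⟩
    rw [hW] at h1
    exact absurd h1 (by decide)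
  obtain ⟨w₂, hw₂⟩ := hex
  have hli : LinearIndependent k ![u₀, w₂] := (LinearIndependent.pair_iff' hu₀).mpr hw₂
  refine ⟨basisOfLinearIndependentOfCardEqFinrank hli (by simp [hW]), ?_⟩
  simp

/-- coordinates in a basis of a plane -/
theorem ord_repr_eq (bw : Module.Basis (Fin 2) k W) (w : W) :
    w = bw.repr w 0 • bw 0 + bw.repr w 1 • bw 1 := by
  conv_lhs => rw [← bw.sum_repr w]
  rw [Fin.sum_univ_two]

theorem ord_repr_zero (bw : Module.Basis (Fin 2) k W) (s t : k) :
    bw.repr (s • bw 0 + t • bw 1) 0 = s := by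
  simp

theorem ord_repr_one (bw : Module.Basis (Fin 2) k W) (s t : k) :
    bw.repr (s • bw 0 + t • bw 1) 1 = t := by
  simp

/-- determinant of an endomorphism which is triangular in a basis -/
theorem ord_det_eq (bw : Module.Basis (Fin 2) k W) (f : Module.End k W) (a z t : k)
    (h0 : f (bw 0) = a • bw 0) (h1 : f (bw 1) = t • bw 0 + z • bw 1) :
    LinearMap.det f = a * z := by
  rw [← LinearMap.det_toMatrix bw, Matrix.det_fin_two]
  simp only [LinearMap.toMatrix_apply, h0, h1]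
  have e1 : bw.repr (a • bw 0) 0 = a := by
    have := ord_repr_zero bw a 0
    rwa [zero_smul, add_zero] at this
  have e2 : bw.repr (a • bw 0) 1 = 0 := by
    have := ord_repr_one bw a 0
    rwa [zero_smul, add_zero] at this
  rw [e1, e2, ord_repr_zero, ord_repr_one, mul_zero, sub_zero]

/-- an endomorphism of trace zero with image in the line `k u₀` kills `u₀` -/
theorem ord_eq_zero_of_trace (hW : Module.finrank k W = 2) (D : Module.End k W) {u₀ : W}
    (hu₀ : u₀ ≠ 0) (hD : ∀ w, ∃ t : k, D w = t • u₀) (htr : LinearMap.trace k W D = 0) :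
    D u₀ = 0 := by
  obtain ⟨bw, hbw⟩ := ord_exists_basis hW hu₀
  obtain ⟨t₀, ht₀⟩ := hD (bw 0)
  obtain ⟨t₁, ht₁⟩ := hD (bw 1)
  rw [LinearMap.trace_eq_matrix_trace k bw D, Matrix.trace_fin_two] at htr
  simp only [LinearMap.toMatrix_apply, ht₀, ht₁, ← hbw] at htr
  have e1 : bw.repr (t₀ • bw 0) 0 = t₀ := by
    have := ord_repr_zero bw t₀ 0
    rwa [zero_smul, add_zero] at this
  have e2 : bw.repr (t₁ • bw 0) 1 = 0 := by
    have := ord_repr_one bw t₁ 0
    rwa [zero_smul, add_zero] at this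
  rw [e1, e2, add_zero] at htr
  rw [← hbw, ht₀, htr, zero_smul]

end Plane

/-! ## Coordinates -/

section Coord

variable {k : Type} [Field k] {V Vb : Type} [AddCommGroup V] [Module (DualNumber k) V]
  [AddCommGroup Vb] [Module k Vb]
  (b : Module.Basis (Fin 2) (DualNumber k) V) (bb : Module.Basis (Fin 2) k Vb)

theorem ord_ext {v v' : V} (h1 : fstV b bb v = fstV b bb v')
    (h2 : sndV b bb v = sndV b bb v') : v = v' := by
  rw [← sub_eq_zero]
  exact eq_zero_of_fstV_sndV b bb (by rw [fstV_sub, h1, sub_self])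
    (by rw [sndV_sub, h2, sub_self])

/-- the embedding `Vb ≅ ε V ⊆ V` -/
def epsV (w : Vb) : V := (DualNumber.eps : DualNumber k) • liftV b bb w

theorem fstV_epsV (w : Vb) : fstV b bb (epsV b bb w) = 0 := by
  rw [epsV, fstV_smul, DualNumber.fst_eps, zero_smul]

theorem sndV_epsV (w : Vb) : sndV b bb (epsV b bb w) = w := by
  rw [epsV, sndV_smul, DualNumber.fst_eps, zero_smul, zero_add, DualNumber.snd_eps, one_smul,
    fstV_liftV]

omit [AddCommGroup V] [Module (DualNumber k) V] in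
include bb in
theorem ord_finrank_eq : Module.finrank k Vb = 2 := by
  rw [Module.finrank_eq_card_basis bb, Fintype.card_fin]

theorem fstV_zero' : fstV b bb (0 : V) = 0 := by
  have := fstV_sub b bb (0 : V) 0
  rwa [sub_zero, sub_self] at this

theorem sndV_zero' : sndV b bb (0 : V) = 0 := by
  have := sndV_sub b bb (0 : V) 0
  rwa [sub_zero, sub_self] at this

/-- `fstV` as an additive map -/
def fstHom : V →+ Vb where
  toFun := fstV b bb
  map_zero' := fstV_zero' b bb
  map_add' := fstV_add b bb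

/-- `sndV` as an additive map -/
def sndHom : V →+ Vb where
  toFun := sndV b bb
  map_zero' := sndV_zero' b bb
  map_add' := sndV_add b bb

theorem fstHom_apply (v : V) : fstHom b bb v = fstV b bb v := rfl

theorem sndHom_apply (v : V) : sndHom b bb v = sndV b bb v := rfl

end Coord

/-! ## The ramified part -/

section Ram

variable {k : Type} [Field k] {V Vb : Type} [AddCommGroup V] [Module (DualNumber k) V]
  [AddCommGroup Vb] [Module k Vb]
  (b : Module.Basis (Fin 2) (DualNumber k) V) (bb : Module.Basis (Fin 2) k Vb)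
  {G : Type} [Group G] (I : Subgroup G)
  (r : G →* Module.End (DualNumber k) V) (rb : G →* Module.End k Vb)
  (C : G → Module.End k Vb)

/-- the ramified part of `V` -/
def ramV : AddSubgroup V := AddSubgroup.closure {y | ∃ τ ∈ I, ∃ x, y = r τ x - x}

/-- property (R1) on `V` -/
def R1V : Prop :=
  ∀ Y : AddSubgroup V, (∀ τ ∈ I, ∀ y ∈ Y, r τ y ∈ Y) →
    ∀ x ∈ ramV I r, (∀ τ ∈ I, r τ x - x ∈ Y) → x ∈ Y

variable {I r}

theorem sub_mem_ramV {τ : G} (hτ : τ ∈ I) (x : V) : r τ x - x ∈ ramV I r :=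
  AddSubgroup.subset_closure ⟨τ, hτ, x, rfl⟩

theorem smul_mem_ramV (a : DualNumber k) {x : V} (hx : x ∈ ramV I r) : a • x ∈ ramV I r := by
  induction hx using AddSubgroup.closure_induction with
  | mem y hy =>
    obtain ⟨τ, hτ, x, rfl⟩ := hy
    rw [smul_sub, ← map_smul]
    exact sub_mem_ramV hτ _
  | zero => rw [smul_zero]; exact zero_mem _
  | add y z _ _ hy hz => rw [smul_add]; exact add_mem hy hz
  | neg y _ hy => rw [smul_neg]; exact neg_mem hy

theorem apply_mem_ramV [hI : I.Normal] (g : G) {x : V} (hx : x ∈ ramV I r) :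
    r g x ∈ ramV I r := by
  induction hx using AddSubgroup.closure_induction with
  | mem y hy =>
    obtain ⟨τ, hτ, x, rfl⟩ := hy
    have e : r g (r τ x - x) = r (g * τ * g⁻¹) (r g x) - r g x := by
      rw [map_sub, ← Module.End.mul_apply, ← Module.End.mul_apply, ← map_mul, ← map_mul,
        inv_mul_cancel_right]
    rw [e]
    exact sub_mem_ramV (hI.conj_mem τ hτ g) _
  | zero => rw [map_zero]; exact zero_mem _
  | add y z _ _ hy hz => rw [map_add]; exact add_mem hy hz
  | neg y _ hy => rw [map_neg]; exact neg_mem hy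

variable (I r)

/-- **structure of the ramified part**. -/
theorem ord_struct [hI : I.Normal]
    (hM : ∀ g, LinearMap.toMatrix b b (r g) =
      (LinearMap.toMatrix bb bb (rb g)).map TrivSqZeroExt.inl +
        (LinearMap.toMatrix bb bb (C g * rb g)).map TrivSqZeroExt.inr)
    (hR1 : R1V I r) (u₀ : Vb) (hstab : ∀ g, rb g u₀ ∈ Submodule.span k {u₀})
    (hin : ∀ τ ∈ I, ∀ w, rb τ w - w ∈ Submodule.span k {u₀})
    (τ₀ : G) (hτ₀ : τ₀ ∈ I) (a₀ : k) (ha₀ : a₀ ≠ 1) (hτ₀u : rb τ₀ u₀ = a₀ • u₀) :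
    ∃ m : V, fstV b bb m = u₀ ∧ (∀ g, ∃ x : DualNumber k, r g m = x • m) ∧
      ∀ τ ∈ I, ∀ v, ∃ α : DualNumber k, r τ v - v = α • m := by
  have hf : ∀ g v, fstV b bb (r g v) = rb g (fstV b bb v) := fun g v =>
    fstV_apply b bb (r g) (rb g) (C g * rb g) (hM g) v
  have hs : ∀ g v, sndV b bb (r g v) = rb g (sndV b bb v) + (C g * rb g) (fstV b bb v) :=
    fun g v => sndV_apply b bb (r g) (rb g) (C g * rb g) (hM g) v
  have hstabI : ∀ τ ∈ I, ∀ y ∈ ramV I r, r τ y ∈ ramV I r := fun τ hτ y hy => by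
    have : r τ y = (r τ y - y) + y := by abel
    rw [this]
    exact add_mem (sub_mem_ramV hτ y) hy
  set L : Submodule k Vb := Submodule.span k {u₀} with hL
  have hLstab : ∀ g, ∀ w ∈ L, rb g w ∈ L := fun g w hw => by
    obtain ⟨t, rfl⟩ := Submodule.mem_span_singleton.mp hw
    rw [map_smul]
    exact L.smul_mem t (hstab g)
  -- step (a): the ramified part maps into `L`
  have stepA : ∀ x ∈ ramV I r, fstV b bb x ∈ L := by
    intro x hx
    have h := hR1 (ramV I r ⊓ L.toAddSubgroup.comap (fstHom b bb))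
      (fun τ hτ y hy => ⟨hstabI τ hτ y hy.1, by
        have h2 : fstV b bb y ∈ L := hy.2
        show fstV b bb (r τ y) ∈ L
        rw [hf]
        exact hLstab τ _ h2⟩) x hx
      (fun τ hτ => ⟨sub_mem_ramV hτ x, by
        show fstV b bb (r τ x - x) ∈ L
        rw [fstV_sub, hf]
        exact hin τ hτ _⟩)
    exact h.2
  -- step (b): the part of the ramified part in `ε V` lies in `ε L`
  have stepB : ∀ x ∈ ramV I r, fstV b bb x = 0 → sndV b bb x ∈ L := by
    intro x hx hx0
    have h := hR1 (ramV I r ⊓ ((fstHom b bb).ker ⊓ L.toAddSubgroup.comap (sndHom b bb)))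
      (fun τ hτ y hy => ⟨hstabI τ hτ y hy.1, by
        have h1 : fstV b bb y = 0 := hy.2.1
        have h2 : sndV b bb y ∈ L := hy.2.2
        refine ⟨?_, ?_⟩
        · show fstV b bb (r τ y) = 0
          rw [hf, h1, map_zero]
        · show sndV b bb (r τ y) ∈ L
          rw [hs, h1, map_zero, add_zero]
          exact hLstab τ _ h2⟩) x hx
      (fun τ hτ => ⟨sub_mem_ramV hτ x, by
        refine ⟨?_, ?_⟩
        · show fstV b bb (r τ x - x) = 0
          rw [fstV_sub, hf, hx0, map_zero, sub_zero]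
        · show sndV b bb (r τ x - x) ∈ L
          rw [sndV_sub, hs, hx0, map_zero, add_zero]
          exact hin τ hτ _⟩)
    exact h.2.2
  -- the generator
  have ha₀' : a₀ - 1 ≠ 0 := sub_ne_zero.mpr ha₀
  set m : V := (TrivSqZeroExt.inl (a₀ - 1)⁻¹ : DualNumber k) •
    (r τ₀ (liftV b bb u₀) - liftV b bb u₀) with hm
  have hmram : m ∈ ramV I r := smul_mem_ramV _ (sub_mem_ramV hτ₀ _)
  have hfm : fstV b bb m = u₀ := by
    have e : a₀ • u₀ - u₀ = (a₀ - 1) • u₀ := by rw [sub_smul, one_smul]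
    rw [hm, fstV_smul, TrivSqZeroExt.fst_inl, fstV_sub, hf, fstV_liftV, hτ₀u, e,
      smul_smul, inv_mul_cancel₀ ha₀', one_smul]
  -- every element of the ramified part is a multiple of `m`
  have key : ∀ x ∈ ramV I r, ∃ α : DualNumber k, x = α • m := by
    intro x hx
    obtain ⟨t, ht⟩ := Submodule.mem_span_singleton.mp (stepA x hx)
    have hx' : x - (TrivSqZeroExt.inl t : DualNumber k) • m ∈ ramV I r :=
      sub_mem hx (smul_mem_ramV _ hmram)
    have h0 : fstV b bb (x - (TrivSqZeroExt.inl t : DualNumber k) • m) = 0 := by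
      rw [fstV_sub, fstV_smul, TrivSqZeroExt.fst_inl, hfm, ht, sub_self]
    obtain ⟨s, hs'⟩ := Submodule.mem_span_singleton.mp (stepB _ hx' h0)
    rw [sndV_sub, sndV_smul, TrivSqZeroExt.fst_inl, TrivSqZeroExt.snd_inl, zero_smul,
      add_zero] at hs'
    refine ⟨TrivSqZeroExt.inl t + TrivSqZeroExt.inr s, ord_ext b bb ?_ ?_⟩
    · rw [fstV_smul, TrivSqZeroExt.fst_add, TrivSqZeroExt.fst_inl, TrivSqZeroExt.fst_inr,
        add_zero, hfm, ht]
    · rw [sndV_smul, TrivSqZeroExt.fst_add, TrivSqZeroExt.fst_inl, TrivSqZeroExt.fst_inr,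
        add_zero, TrivSqZeroExt.snd_add, TrivSqZeroExt.snd_inl, TrivSqZeroExt.snd_inr, zero_add,
        hfm, hs']
      abel
  refine ⟨m, hfm, fun g => ?_, fun τ hτ v => ?_⟩
  · obtain ⟨α, hα⟩ := key _ (apply_mem_ramV g hmram)
    exact ⟨α, hα⟩
  · obtain ⟨α, hα⟩ := key _ (sub_mem_ramV hτ v)
    exact ⟨α, hα⟩

/-! ### The embedding `ε` and (R1) for fixed vectors -/

variable {b bb}

theorem epsV_sub (w w' : Vb) : epsV b bb (w - w') = epsV b bb w - epsV b bb w' :=
  ord_ext b bb (by rw [fstV_sub, fstV_epsV, fstV_epsV, fstV_epsV, sub_zero])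
    (by rw [sndV_sub, sndV_epsV, sndV_epsV, sndV_epsV])

theorem epsV_add (w w' : Vb) : epsV b bb (w + w') = epsV b bb w + epsV b bb w' :=
  ord_ext b bb (by rw [fstV_add, fstV_epsV, fstV_epsV, fstV_epsV, add_zero])
    (by rw [sndV_add, sndV_epsV, sndV_epsV, sndV_epsV])

theorem epsV_zero : epsV b bb (0 : Vb) = 0 :=
  ord_ext b bb (by rw [fstV_epsV, fstV_zero']) (by rw [sndV_epsV, sndV_zero'])

theorem epsV_smul (t : k) (w : Vb) :
    epsV b bb (t • w) = (TrivSqZeroExt.inl t : DualNumber k) • epsV b bb w :=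
  ord_ext b bb (by rw [fstV_epsV, fstV_smul, fstV_epsV, smul_zero])
    (by rw [sndV_epsV, sndV_smul, sndV_epsV, fstV_epsV, smul_zero, add_zero,
      TrivSqZeroExt.fst_inl])

theorem epsV_natCast_smul (n : ℕ) (w : Vb) :
    epsV b bb ((n : k) • w) = n • epsV b bb w := by
  rw [epsV_smul, ← Nat.cast_smul_eq_nsmul (DualNumber k) n (epsV b bb w)]
  congr 1

theorem epsV_injective {w : Vb} (h : epsV b bb w = 0) : w = 0 := by
  have := congrArg (sndV b bb) h
  rwa [sndV_epsV, sndV_zero'] at this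

theorem apply_epsV
    (hM : ∀ g, LinearMap.toMatrix b b (r g) =
      (LinearMap.toMatrix bb bb (rb g)).map TrivSqZeroExt.inl +
        (LinearMap.toMatrix bb bb (C g * rb g)).map TrivSqZeroExt.inr)
    (g : G) (w : Vb) : r g (epsV b bb w) = epsV b bb (rb g w) := by
  refine ord_ext b bb ?_ ?_
  · rw [fstV_apply b bb (r g) (rb g) (C g * rb g) (hM g), fstV_epsV, fstV_epsV, map_zero]
  · rw [sndV_apply b bb (r g) (rb g) (C g * rb g) (hM g), fstV_epsV, sndV_epsV, sndV_epsV,
      map_zero, add_zero]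

/-- the ramified part of `Vb` -/
def ramVb : Submodule k Vb := Submodule.span k {y | ∃ τ ∈ I, ∃ w, y = rb τ w - w}

theorem sub_mem_ramVb {τ : G} (hτ : τ ∈ I) (w : Vb) : rb τ w - w ∈ ramVb I rb :=
  Submodule.subset_span ⟨τ, hτ, w, rfl⟩

theorem apply_mem_ramVb [hI : I.Normal] (g : G) {x : Vb} (hx : x ∈ ramVb I rb) :
    rb g x ∈ ramVb I rb := by
  induction hx using Submodule.span_induction with
  | mem y hy =>
    obtain ⟨τ, hτ, w, rfl⟩ := hy
    have e : rb g (rb τ w - w) = rb (g * τ * g⁻¹) (rb g w) - rb g w := by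
      rw [map_sub, ← Module.End.mul_apply, ← Module.End.mul_apply, ← map_mul, ← map_mul,
        inv_mul_cancel_right]
    rw [e]
    exact sub_mem_ramVb I rb (hI.conj_mem τ hτ g) _
  | zero => rw [map_zero]; exact zero_mem _
  | add y z _ _ hy hz => rw [map_add]; exact add_mem hy hz
  | smul a y _ hy => rw [map_smul]; exact Submodule.smul_mem _ a hy

theorem epsV_mem_ramV
    (hM : ∀ g, LinearMap.toMatrix b b (r g) =
      (LinearMap.toMatrix bb bb (rb g)).map TrivSqZeroExt.inl +
        (LinearMap.toMatrix bb bb (C g * rb g)).map TrivSqZeroExt.inr)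
    {w : Vb} (hw : w ∈ ramVb I rb) : epsV b bb w ∈ ramV I r := by
  induction hw using Submodule.span_induction with
  | mem y hy =>
    obtain ⟨τ, hτ, w, rfl⟩ := hy
    rw [epsV_sub, ← apply_epsV r rb C hM]
    exact sub_mem_ramV hτ _
  | zero => rw [epsV_zero]; exact zero_mem _
  | add y z _ _ hy hz => rw [epsV_add]; exact add_mem hy hz
  | smul a y _ hy => rw [epsV_smul]; exact smul_mem_ramV _ hy

/-- (R1): a nonzero vector of `Vb` fixed by `I` does not lie in the ramified part of `Vb`. -/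
theorem ord_not_mem_of_fixed
    (hM : ∀ g, LinearMap.toMatrix b b (r g) =
      (LinearMap.toMatrix bb bb (rb g)).map TrivSqZeroExt.inl +
        (LinearMap.toMatrix bb bb (C g * rb g)).map TrivSqZeroExt.inr)
    (hR1 : R1V I r) {w₀ : Vb} (hw₀ : w₀ ≠ 0) (hfix : ∀ τ ∈ I, rb τ w₀ = w₀) :
    w₀ ∉ ramVb I rb := by
  intro hmem
  have h := hR1 ⊥ (fun τ _ y hy => by
    rw [AddSubgroup.mem_bot] at hy ⊢
    rw [hy, map_zero]) (epsV b bb w₀) (epsV_mem_ramV I r rb C hM hmem) (fun τ hτ => by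
    rw [AddSubgroup.mem_bot, apply_epsV r rb C hM, hfix τ hτ, sub_self])
  rw [AddSubgroup.mem_bot] at h
  exact hw₀ (epsV_injective h)

/-! ### The translation into cocycles -/

variable (b bb)

omit [Group G] in
/-- the Borel part: for an element stabilising `A m`. -/
theorem ord_borel_core (m : V) (Xt : Module.End k Vb)
    (hXt : Xt (fstV b bb m) = sndV b bb m)
    (f : Module.End (DualNumber k) V) (fb fbinv Cg : Module.End k Vb) (hinv : fbinv * fb = 1)
    (hMg : LinearMap.toMatrix b b f =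
      (LinearMap.toMatrix bb bb fb).map TrivSqZeroExt.inl +
        (LinearMap.toMatrix bb bb (Cg * fb)).map TrivSqZeroExt.inr)
    (x : DualNumber k) (hx : f m = x • m) :
    fb (fstV b bb m) = x.fst • fstV b bb m ∧
      x.fst • (Cg + fb * Xt * fbinv - Xt) (fstV b bb m) = x.snd • fstV b bb m := by
  set u₀ := fstV b bb m with hu₀
  set u₁ := sndV b bb m with hu₁
  have hC1 : fb u₀ = x.fst • u₀ := by
    have h := congrArg (fstV b bb) hx
    rwa [fstV_apply b bb f fb (Cg * fb) hMg, fstV_smul] at h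
  have h2 : fb u₁ + Cg (fb u₀) = x.fst • u₁ + x.snd • u₀ := by
    have h := congrArg (sndV b bb) hx
    rw [sndV_apply b bb f fb (Cg * fb) hMg, sndV_smul, Module.End.mul_apply] at h
    exact h
  have hfbinv : x.fst • fbinv u₀ = u₀ := by
    have h := congrArg fbinv hC1
    rw [← Module.End.mul_apply, hinv, Module.End.one_apply, map_smul] at h
    exact h.symm
  refine ⟨hC1, ?_⟩
  rw [LinearMap.sub_apply, LinearMap.add_apply, Module.End.mul_apply, Module.End.mul_apply,
    smul_sub, smul_add, ← map_smul, ← map_smul, ← map_smul, hfbinv, hXt, ← hC1]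
  have h3 : Cg (fb u₀) = x.fst • u₁ + x.snd • u₀ - fb u₁ := by
    rw [← h2]; abel
  rw [h3]
  abel

omit [Group G] in
/-- the nilpotent part: for an element with `(f - 1) V ⊆ A m`. -/
theorem ord_nil_core (m : V) (Xt : Module.End k Vb)
    (hXt : Xt (fstV b bb m) = sndV b bb m)
    (f : Module.End (DualNumber k) V) (fb fbinv Cg : Module.End k Vb) (hinv' : fb * fbinv = 1)
    (hMg : LinearMap.toMatrix b b f =
      (LinearMap.toMatrix bb bb fb).map TrivSqZeroExt.inl +
        (LinearMap.toMatrix bb bb (Cg * fb)).map TrivSqZeroExt.inr)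
    (hα : ∀ v, ∃ α : DualNumber k, f v - v = α • m)
    (hfb : ∀ w, fb w - w ∈ Submodule.span k {fstV b bb m}) (w : Vb) :
    (Cg + fb * Xt * fbinv - Xt) w ∈ Submodule.span k {fstV b bb m} := by
  set u₀ := fstV b bb m with hu₀
  set u₁ := sndV b bb m with hu₁
  set w' := fbinv w with hw'
  have hw : fb w' = w := by
    rw [hw', ← Module.End.mul_apply, hinv', Module.End.one_apply]
  obtain ⟨α, hα⟩ := hα (liftV b bb w')
  have h1 := congrArg (fstV b bb) hα
  rw [fstV_smul, fstV_sub, fstV_apply b bb f fb (Cg * fb) hMg, fstV_liftV] at h1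
  have h3 := congrArg (sndV b bb) hα
  rw [sndV_smul, sndV_sub, sndV_apply b bb f fb (Cg * fb) hMg, fstV_liftV, sndV_liftV,
    map_zero, zero_add, sub_zero, Module.End.mul_apply] at h3
  change Cg (fb w') = α.fst • u₁ + α.snd • u₀ at h3
  change fb w' - w' = α.fst • u₀ at h1
  have h4 : fb w' = w' + α.fst • u₀ := by
    rw [← h1]; abel
  have h5 : Xt w = Xt w' + α.fst • u₁ := by
    rw [← hw, h4, map_add, map_smul, hXt]
  have h6 : (Cg + fb * Xt * fbinv - Xt) w =
      α.snd • u₀ + (fb (Xt w') - Xt w') := by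
    rw [LinearMap.sub_apply, LinearMap.add_apply, Module.End.mul_apply, Module.End.mul_apply,
      ← hw', h5]
    nth_rewrite 1 [← hw]
    rw [h3]
    abel
  rw [h6]
  exact Submodule.add_mem _ (Submodule.smul_mem _ _ (Submodule.mem_span_singleton_self _))
    (hfb (Xt w'))

end Ram

/-! ## Selection of the line -/

section Line

variable {k Vb : Type} [Field k] [AddCommGroup Vb] [Module k Vb]
  {G : Type} [Group G] (I : Subgroup G) (rb : G →* Module.End k Vb)

/-- **selection of the line**: if `I` acts with determinant `ω`, `ω ≠ 1` on `I`, and `k w₀` is a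
`G`-stable line whose character is `ω` on `I` as soon as it is nontrivial on `I` (R2), and if a
vector fixed by `I` never lies in the ramified part (R1), then the ramified part of `Vb` is a
line `k u₀`, stable under `G`, on which `I` acts nontrivially. -/
theorem ord_line [hI : I.Normal] (hW : Module.finrank k Vb = 2)
    (ω : G → k) (hdet : ∀ τ ∈ I, LinearMap.det (rb τ) = ω τ)
    (τ₀ : G) (hτ₀ : τ₀ ∈ I) (hω : ω τ₀ ≠ 1)
    (w₀ : Vb) (hw₀ : w₀ ≠ 0) (χ : G → k) (hχ : ∀ g, rb g w₀ = χ g • w₀)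
    (hA : (∃ τ₁ ∈ I, χ τ₁ ≠ 1) → ∀ τ ∈ I, χ τ = ω τ)
    (hB : (∀ τ ∈ I, rb τ w₀ = w₀) → w₀ ∉ ramVb I rb) :
    ∃ u₀ : Vb, u₀ ≠ 0 ∧ (∀ g, rb g u₀ ∈ Submodule.span k {u₀}) ∧
      (∀ τ ∈ I, ∀ w, rb τ w - w ∈ Submodule.span k {u₀}) ∧
      ∃ τ₁ ∈ I, ∃ a₁ : k, a₁ ≠ 1 ∧ rb τ₁ u₀ = a₁ • u₀ := by
  obtain ⟨bw, hbw⟩ := ord_exists_basis hW hw₀
  -- the matrix of `rb g`
  have h0 : ∀ g, rb g (bw 0) = χ g • bw 0 := fun g => by rw [hbw]; exact hχ g
  have h1 : ∀ g, rb g (bw 1) =
      bw.repr (rb g (bw 1)) 0 • bw 0 + bw.repr (rb g (bw 1)) 1 • bw 1 := fun g =>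
    ord_repr_eq bw _
  have hdet' : ∀ g, LinearMap.det (rb g) = χ g * bw.repr (rb g (bw 1)) 1 := fun g =>
    ord_det_eq bw (rb g) _ _ _ (h0 g) (h1 g)
  have hχ0 : ∀ g, χ g ≠ 0 := by
    intro g hg
    have h := congrArg (rb g⁻¹) (hχ g)
    rw [← Module.End.mul_apply, ← map_mul, inv_mul_cancel, map_one, Module.End.one_apply, hg,
      zero_smul, map_zero] at h
    exact hw₀ h
  by_cases hcase : ∃ τ₁ ∈ I, χ τ₁ ≠ 1
  · -- case A
    obtain ⟨τ₁, hτ₁, hχ₁⟩ := hcase
    have hχω := hA ⟨τ₁, hτ₁, hχ₁⟩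
    have hz : ∀ τ ∈ I, bw.repr (rb τ (bw 1)) 1 = 1 := by
      intro τ hτ
      have h := hdet' τ
      rw [hdet τ hτ, ← hχω τ hτ] at h
      exact (mul_eq_left₀ (hχ0 τ)).mp h.symm
    refine ⟨w₀, hw₀, fun g => ?_, fun τ hτ w => ?_, τ₁, hτ₁, χ τ₁, hχ₁, hχ τ₁⟩
    · rw [hχ g]
      exact Submodule.smul_mem _ _ (Submodule.mem_span_singleton_self _)
    · have hw := ord_repr_eq bw w
      have e : rb τ w - w =
          (bw.repr w 0 * (χ τ - 1) + bw.repr w 1 * bw.repr (rb τ (bw 1)) 0) • w₀ := by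
        have h1' := h1 τ
        rw [hz τ hτ, one_smul] at h1'
        conv_lhs => rw [hw, map_add, map_smul, map_smul, h0 τ, h1']
        rw [hbw]
        simp only [smul_add, smul_smul, add_smul, mul_sub, sub_smul, mul_one]
        abel
      rw [e]
      exact Submodule.smul_mem _ _ (Submodule.mem_span_singleton_self _)
  · -- case B
    push Not at hcase
    have hfix : ∀ τ ∈ I, rb τ w₀ = w₀ := fun τ hτ => by
      rw [hχ τ, hcase τ hτ, one_smul]
    have hnot := hB hfix
    have hz : ∀ τ ∈ I, bw.repr (rb τ (bw 1)) 1 = ω τ := by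
      intro τ hτ
      have h := hdet' τ
      rw [hdet τ hτ, hcase τ hτ, one_mul] at h
      exact h.symm
    have hω' : ω τ₀ - 1 ≠ 0 := sub_ne_zero.mpr hω
    set t₀ := bw.repr (rb τ₀ (bw 1)) 0 with ht₀
    set u₀ : Vb := rb τ₀ (bw 1) - bw 1 with hu₀
    have hu₀' : u₀ = t₀ • bw 0 + (ω τ₀ - 1) • bw 1 := by
      have h1' := h1 τ₀
      rw [hz τ₀ hτ₀] at h1'
      rw [hu₀, h1', sub_smul, one_smul]
      abel
    have hu₀R : u₀ ∈ ramVb I rb := sub_mem_ramVb I rb hτ₀ _
    have hu₀1 : bw.repr u₀ 1 = ω τ₀ - 1 := by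
      rw [hu₀', ord_repr_one]
    have hu₀ne : u₀ ≠ 0 := by
      intro h
      rw [h, map_zero, Finsupp.zero_apply] at hu₀1
      exact hω' hu₀1.symm
    have hRb : ∀ x ∈ ramVb I rb, x ∈ Submodule.span k {u₀} := by
      intro x hx
      set c := bw.repr x 1 / (ω τ₀ - 1) with hc
      have hy : x - c • u₀ ∈ ramVb I rb := sub_mem hx (Submodule.smul_mem _ _ hu₀R)
      have hy1 : bw.repr (x - c • u₀) 1 = 0 := by
        rw [map_sub, map_smul, Finsupp.sub_apply, Finsupp.smul_apply, hu₀1, smul_eq_mul, hc,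
          div_mul_cancel₀ _ hω', sub_self]
      obtain ⟨γ, hγ⟩ : ∃ γ : k, x - c • u₀ = γ • w₀ := by
        have := ord_repr_eq bw (x - c • u₀)
        rw [hy1, zero_smul, add_zero, hbw] at this
        exact ⟨_, this⟩
      have hγ0 : γ = 0 := by
        by_contra hne
        apply hnot
        have : w₀ = γ⁻¹ • (x - c • u₀) := by
          rw [hγ, smul_smul, inv_mul_cancel₀ hne, one_smul]
        rw [this]
        exact Submodule.smul_mem _ _ hy
      rw [hγ0, zero_smul, sub_eq_zero] at hγ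
      rw [hγ]
      exact Submodule.smul_mem _ _ (Submodule.mem_span_singleton_self _)
    have hstab : ∀ g, rb g u₀ ∈ Submodule.span k {u₀} := fun g =>
      hRb _ (apply_mem_ramVb I rb g hu₀R)
    refine ⟨u₀, hu₀ne, hstab, fun τ hτ w => hRb _ (sub_mem_ramVb I rb hτ w), τ₀, hτ₀, ?_⟩
    obtain ⟨a, ha⟩ := Submodule.mem_span_singleton.mp (hstab τ₀)
    refine ⟨a, ?_, ha.symm⟩
    intro ha1
    rw [ha1, one_smul] at ha
    -- compare the second coordinates
    have e1 : rb τ₀ u₀ = (t₀ + (ω τ₀ - 1) * t₀) • bw 0 + ((ω τ₀ - 1) * ω τ₀) • bw 1 := by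
      have h1' := h1 τ₀
      rw [hz τ₀ hτ₀, ← ht₀] at h1'
      conv_lhs => rw [hu₀', map_add, map_smul, map_smul, h0 τ₀, hcase τ₀ hτ₀, one_smul, h1']
      simp only [smul_add, smul_smul, add_smul]
      abel
    have e2 : bw.repr (rb τ₀ u₀) 1 = (ω τ₀ - 1) * ω τ₀ := by
      rw [e1, ord_repr_one]
    rw [← ha, hu₀1] at e2
    have e3 : (ω τ₀ - 1) * (ω τ₀ - 1) = 0 := by
      rw [mul_sub, mul_one, ← e2, sub_self]
    exact hω' (mul_self_eq_zero.mp e3)

end Line

end Fermat.Agent.P1.helper49
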