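import Fermat.Agent.P1.helper50_BSClassFinal
import Fermat.Agent.P1.helper7_BSKum

/-!
# P1 / module EC / BASE-STAR / package BS-CLASS (helper50, task 820): `klass`

`klass p T : helper7.ClassStatement p T` — VERBATIM and unconditional:
`mult(z, 𝐔) + mult(y', 𝐒𝐡) ≤ mult(z, 𝐇)`.
-/

set_option autoImplicit false

noncomputable section

namespace Fermat.Agent.P1.helper50

open Fermat.Agent.P1.helper7

/-- **BS-CLASS**: `mult(z, 𝐔) + mult(y', 𝐒𝐡) ≤ mult(z, 𝐇)`. -/
theorem klass (p : ℕ) [Fact p.Prime] (T : Finset Nat.Primes) : ClassStatement p T :=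
  klass_of_kum (Fermat.Agent.P1.helper7.kumBridge p T)

end Fermat.Agent.P1.helper50
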