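import Fermat.Agent.P1.helper24_BSAbs

/-!
# P1 / module EC / BASE-STAR / package BS-CLASS (helper50, task 820): the abstract core

Multiplicity calculus (`eqv`, `mlt`, `mltIn` of `helper7_BSDefs`) for the class group step:

* `bsc_eqv_smul`, `bsc_mlt_smul` : `Hom_{s a, s b} = Hom_{a, b}` for `s ≠ 0`;
* `bsc_mltIn_top`   : `mltIn a b ⊤ = mlt a b`;
* `bsc_mltIn_comap` : transport of `mltIn` along an injective intertwining map;
* `bsc_class_eq`    : **the abstract class group identity**.  For `U ≤ H` (finite dimensional,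
  stable under `b`), a finite abelian group `𝒜` with an automorphism `σ`, and an additive map
  `Γ : H → 𝒜` with kernel `U`, image `𝒜[p]` and `σ ∘ Γ = Γ ∘ (s b)`:
  `mult(z, H) = mult(z, U) + mult(s z, 𝒜 / p)`.
-/

set_option autoImplicit false
set_option linter.unusedSectionVars false
set_option linter.style.haveILetI false

noncomputable section

namespace Fermat.Agent.P1.helper50

open Fermat.Agent.P1.helper7 Module

section Abs

variable {k : Type} [Field k]
variable {A B : Type} [AddCommGroup A] [Module k A] [AddCommGroup B] [Module k B]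

/-- rescaling both operators does not change the intertwining maps -/
lemma bsc_eqv_smul (s : k) (hs : s ≠ 0) (a : A →ₗ[k] A) (b : B →ₗ[k] B) :
    eqv (s • a) (s • b) = eqv a b := by
  ext φ
  rw [mem_eqv, mem_eqv, LinearMap.comp_smul, LinearMap.smul_comp]
  constructor
  · intro h
    have h2 := congrArg (fun ψ => s⁻¹ • ψ) h
    simpa [smul_smul, inv_mul_cancel₀ hs] using h2
  · intro h
    rw [h]

lemma bsc_mlt_smul (s : k) (hs : s ≠ 0) (a : A →ₗ[k] A) (b : B →ₗ[k] B) :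
    mlt (s • a) (s • b) = mlt a b := by
  unfold mlt
  rw [bsc_eqv_smul s hs]

lemma bsc_eqvIn_top (a : A →ₗ[k] A) (b : B →ₗ[k] B) : eqvIn a b ⊤ = eqv a b := by
  ext φ
  rw [mem_eqvIn, mem_eqv]
  exact ⟨fun h => h.1, fun h => ⟨h, fun _ => Submodule.mem_top⟩⟩

lemma bsc_mltIn_top (a : A →ₗ[k] A) (b : B →ₗ[k] B) : mltIn a b ⊤ = mlt a b := by
  unfold mltIn mlt
  rw [bsc_eqvIn_top]

variable {V : Type} [AddCommGroup V] [Module k V]

/-- the map `ψ ↦ j ∘ ψ` from `eqvIn a v (W.comap j)` to `eqvIn a b W` -/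
def bscPush (a : A →ₗ[k] A) (b : B →ₗ[k] B) (v : V →ₗ[k] V) (j : V →ₗ[k] B)
    (hjv : ∀ x, j (v x) = b (j x)) (W : Submodule k B) :
    ↥(eqvIn a v (W.comap j)) →ₗ[k] ↥(eqvIn a b W) where
  toFun ψ := ⟨j ∘ₗ (ψ : A →ₗ[k] V), by
    obtain ⟨ψ, h1, h2⟩ := ψ
    refine ⟨?_, fun x => h2 x⟩
    ext x
    have h3 := LinearMap.congr_fun h1 x
    simp only [LinearMap.comp_apply] at h3 ⊢
    rw [h3, hjv]⟩
  map_add' ψ ψ' := by
    apply Subtype.ext
    exact LinearMap.comp_add _ _ _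
  map_smul' r ψ := by
    apply Subtype.ext
    exact LinearMap.comp_smul _ _ _

/-- transport of `mltIn` along an injective intertwining map -/
lemma bsc_mltIn_comap (a : A →ₗ[k] A) (b : B →ₗ[k] B) (v : V →ₗ[k] V) (j : V →ₗ[k] B)
    (hj : Function.Injective j) (hjv : ∀ x, j (v x) = b (j x)) (W : Submodule k B)
    (hW : W ≤ LinearMap.range j) :
    mltIn a b W = mltIn a v (W.comap j) := by
  unfold mltIn
  symm
  refine LinearEquiv.finrank_eq (LinearEquiv.ofBijective (bscPush a b v j hjv W) ⟨?_, ?_⟩)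
  · intro ψ ψ' h
    apply Subtype.ext
    ext x
    have h2 := congrArg (fun φ : ↥(eqvIn a b W) => (φ : A →ₗ[k] B) x) h
    exact hj h2
  · rintro ⟨φ, h1, h2⟩
    have hφ : ∀ x, φ x ∈ LinearMap.range j := fun x => hW (h2 x)
    let e := LinearEquiv.ofInjective j hj
    let ψ : A →ₗ[k] V := (e.symm : ↥(LinearMap.range j) →ₗ[k] V) ∘ₗ φ.codRestrict _ hφ
    have hjψ : ∀ x, j (ψ x) = φ x := by
      intro x
      have h3 : e (e.symm (φ.codRestrict _ hφ x)) = φ.codRestrict _ hφ x :=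
        e.apply_symm_apply _
      have h4 := congrArg Subtype.val h3
      exact h4
    refine ⟨⟨ψ, ?_, ?_⟩, ?_⟩
    · ext x
      apply hj
      have h3 := LinearMap.congr_fun h1 x
      simp only [LinearMap.comp_apply] at h3 ⊢
      rw [hjψ, hjv, hjψ, h3]
    · intro x
      change j (ψ x) ∈ W
      rw [hjψ]
      exact h2 x
    · apply Subtype.ext
      ext x
      exact hjψ x

end Abs

/-! ## The abstract class group identity -/

section Core

variable (p : ℕ) [Fact p.Prime]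

/-- **the abstract class group identity** -/
theorem bsc_class_eq (hCpq : AbsCpqStatement)
    (n : ℕ) (hn : ¬ p ∣ n)
    {A : Type} [AddCommGroup A] [Module (ZMod p) A] [Module.Finite (ZMod p) A]
    (z : A →ₗ[ZMod p] A) (hz : z ^ n = 1)
    {B : Type} [AddCommGroup B] [Module (ZMod p) B] (b : B →ₗ[ZMod p] B)
    (U H : Submodule (ZMod p) B) (hUH : U ≤ H) [Module.Finite (ZMod p) ↥H]
    (hbH : ∀ x ∈ H, b x ∈ H) (hbn : ∀ x ∈ H, (b ^ n) x = x)
    (s : ZMod p) (hs : s ^ n = 1)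
    {𝒜 : Type} [AddCommGroup 𝒜] [Finite 𝒜] (σ : 𝒜 →+ 𝒜) (hσ : ∀ x, σ^[n] x = x)
    (Γ : ↥H →+ 𝒜) (hΓker : ∀ x : ↥H, Γ x = 0 ↔ (x : B) ∈ U)
    (hΓrange : ∀ c : 𝒜, c ∈ Set.range Γ ↔ p • c = 0)
    (hΓeq : ∀ x : ↥H, σ (Γ x) = Γ ⟨s • b x, H.smul_mem s (hbH x x.2)⟩)
    {V₂ : Type} [AddCommGroup V₂] [Module (ZMod p) V₂] (v₂ : V₂ →ₗ[ZMod p] V₂) (q : 𝒜 →+ V₂)
    (hq : Function.Surjective q) (hqker : ∀ x, q x = 0 ↔ ∃ y, x = p • y)
    (hqσ : ∀ x, q (σ x) = v₂ (q x)) :
    mltIn z b H = mltIn z b U + mlt (s • z) v₂ := by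
  have hp : p.Prime := Fact.out
  have hn0 : n ≠ 0 := fun h => hn (h ▸ dvd_zero p)
  have hs0 : s ≠ 0 := by
    rintro rfl
    rw [zero_pow hn0] at hs
    exact zero_ne_one hs
  have hnk : (n : ZMod p) ≠ 0 := by
    intro h
    exact hn ((ZMod.natCast_eq_zero_iff n p).1 h)
  -- the restriction of `b` to `H`
  let bH : ↥H →ₗ[ZMod p] ↥H := b.restrict hbH
  let U' : Submodule (ZMod p) ↥H := U.comap H.subtype
  have hbH_apply : ∀ x : ↥H, ((bH x : ↥H) : B) = b x := fun x => rfl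
  -- step A
  have hA1 : mltIn z b H = mltIn z bH ⊤ := by
    rw [bsc_mltIn_comap z b bH H.subtype H.injective_subtype (fun x => rfl) H
      (by rw [Submodule.range_subtype]), Submodule.comap_subtype_self]
  have hA2 : mltIn z b U = mltIn z bH U' :=
    bsc_mltIn_comap z b bH H.subtype H.injective_subtype (fun x => rfl) U
      (by rw [Submodule.range_subtype]; exact hUH)
  -- stability of `U'`
  have hsm : ∀ x : ↥H, (⟨s • b x, H.smul_mem s (hbH x x.2)⟩ : ↥H) = s • bH x := fun x => rfl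
  have hU'stab : U' ≤ U'.comap bH := by
    intro x hx
    have h1 : Γ x = 0 := (hΓker x).2 hx
    have h2 : Γ (s • bH x) = 0 := by
      rw [← hsm, ← hΓeq, h1, map_zero]
    have h3 : s • bH x ∈ U' := (hΓker _).1 h2
    have h4 := U'.smul_mem s⁻¹ h3
    rwa [smul_smul, inv_mul_cancel₀ hs0, one_smul] at h4
  let b' : (↥H ⧸ U') →ₗ[ZMod p] (↥H ⧸ U') := U'.mapQ U' bH hU'stab
  -- step B : additivity
  have hfinTop : Module.Finite (ZMod p) ↥(⊤ : Submodule (ZMod p) ↥H) :=
    Module.Finite.equiv (Submodule.topEquiv (R := ZMod p) (M := ↥H)).symm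
  have hbHn : ∀ x : ↥H, (bH ^ n) x = x := by
    intro x
    apply Subtype.ext
    have h1 : ∀ (i : ℕ) (y : ↥H), (((bH ^ i) y : ↥H) : B) = (b ^ i) y := by
      intro i
      induction i with
      | zero => intro y; rfl
      | succ i ih =>
        intro y
        rw [pow_succ, pow_succ, Module.End.mul_apply, Module.End.mul_apply, ih]
        rfl
    rw [h1]
    exact hbn x x.2
  have hB := Fermat.Agent.P1.helper24.absAdd (ZMod p) n hnk A z hz ↥H bH U' ⊤ le_top hfinTop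
    (fun _ _ => Submodule.mem_top) (fun x _ => hbHn x) (↥H ⧸ U') b' U'.mkQ
    (fun x _ => rfl) (fun x _ => by
      rw [Submodule.mkQ_apply, Submodule.Quotient.mk_eq_zero])
  have hC : mltIn z b' ((⊤ : Submodule (ZMod p) ↥H).map U'.mkQ) = mlt z b' := by
    rw [Submodule.map_top, Submodule.range_mkQ, bsc_mltIn_top]
  -- step D : rescaling
  have hD : mlt z b' = mlt (s • z) (s • b') := (bsc_mlt_smul s hs0 z b').symm
  -- step E : `(C)`
  have hker' : U'.toAddSubgroup ≤ Γ.ker := by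
    intro x hx
    exact (hΓker x).2 hx
  let i : (↥H ⧸ U') →+ 𝒜 := QuotientAddGroup.lift U'.toAddSubgroup Γ hker'
  have hi_mk : ∀ x : ↥H, i (U'.mkQ x) = Γ x := fun x => rfl
  have hi_inj : Function.Injective i := by
    rw [injective_iff_map_eq_zero]
    intro y hy
    obtain ⟨x, rfl⟩ := U'.mkQ_surjective y
    rw [hi_mk] at hy
    rw [Submodule.mkQ_apply, Submodule.Quotient.mk_eq_zero]
    exact (hΓker x).1 hy
  have hi_range : ∀ c : 𝒜, c ∈ Set.range i ↔ p • c = 0 := by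
    intro c
    rw [← hΓrange]
    constructor
    · rintro ⟨y, rfl⟩
      obtain ⟨x, rfl⟩ := U'.mkQ_surjective y
      exact ⟨x, (hi_mk x).symm⟩
    · rintro ⟨x, rfl⟩
      exact ⟨U'.mkQ x, hi_mk x⟩
  have hi_eq : ∀ y, i ((s • b') y) = σ (i y) := by
    intro y
    obtain ⟨x, rfl⟩ := U'.mkQ_surjective y
    rw [hi_mk, hΓeq, hsm]
    exact hi_mk (s • bH x)
  have hzn : (s • z) ^ n = 1 := by
    rw [smul_pow, hs, hz, one_smul]
  have hE := hCpq p n hn 𝒜 σ hσ (↥H ⧸ U') (s • b') i hi_inj hi_range hi_eq V₂ v₂ q hq hqker hqσ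
    A (s • z) hzn
  rw [hA1, hB, hA2, hC, hD, hE]

end Core

end Fermat.Agent.P1.helper50
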