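import Fermat.Agent.P1.helper63_ECDefs2
import Fermat.Agent.S55.helper92_SmoothLevel

/-!
# P1 / module EC, package BASE-ASM (helper93, task 737)

`baseOut : BaseOut p T` from `AddOut`, `BaseGeOut`, `BaseNumOut` (statement VERBATIM from the
blueprint `helper63_ECInterface.lean`).

Proof.  Let `U₁ ≤ C` be the subgroup of the elements of `p`-power order modulo `N₀`
(`ecbPPart`; a subgroup because `C / N₀` is cyclic), normal in `C`, of index prime to `p`
(Cauchy).  `U₁` acts trivially on `Y`, so `Y` is a retract of `W₀ = Ind_{U₁}^C (Y|U₁)`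
(averaging, `helper57.toInd / ofInd`); with `Y' = ker (W₀ → Y)` additivity gives
`g (Ind_C^G W₀) = g (Ind_C^G Y') + g (Ind_C^G Y)` (`ecb_ind_retract`).  Induction in stages for
trivial modules (`ecb_stages`) identifies `Ind_C^G W₀` with `Ind_{U₁}^G Y_triv`, whose invariant
is `≤ 0` by induction on the dimension from `g (k[G/U₁]) ≤ 0` (`ecb_ind_triv_le`).  Both
summands are `≥ 0`, hence both vanish.
-/

set_option autoImplicit false

open groupCohomology ExtCitation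

noncomputable section

namespace Fermat.Agent.P1.helper93

open Fermat.Agent.S55 Fermat.Agent.S55.helper57 Fermat.Agent.P1.helper70
  Fermat.Agent.P1.helper63

/-! ## Group theory: the `p`-part of a subgroup which is cyclic modulo a normal subgroup -/

section PPart

variable {G : Type} [Group G] (p : ℕ)

/-- modulo `N₀` every element of `C` is a power of the generator -/
lemma ecb_mk_eq_pow {C N₀ : Subgroup G} [N₀.Normal] {c : G}
    (hc : ∀ x ∈ C, ∃ m : ℕ, x⁻¹ * c ^ m ∈ N₀) {x : G} (hx : x ∈ C) :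
    ∃ m : ℕ, (QuotientGroup.mk x : G ⧸ N₀) = (QuotientGroup.mk c : G ⧸ N₀) ^ m := by
  obtain ⟨m, hm⟩ := hc x hx
  refine ⟨m, ?_⟩
  rw [← QuotientGroup.mk_pow, QuotientGroup.eq]
  exact hm

/-- The elements of `C` of `p`-power order modulo `N₀`. -/
def ecbPPart (C N₀ : Subgroup G) [N₀.Normal] (hcyc : IsCyclicMod C N₀) : Subgroup G where
  carrier := {u | u ∈ C ∧ ∃ m : ℕ, u ^ p ^ m ∈ N₀}
  one_mem' := ⟨C.one_mem, 0, by rw [one_pow]; exact N₀.one_mem⟩
  inv_mem' := by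
    rintro u ⟨hu, m, hm⟩
    exact ⟨C.inv_mem hu, m, by rw [inv_pow]; exact N₀.inv_mem hm⟩
  mul_mem' := by
    rintro u v ⟨hu, a, ha⟩ ⟨hv, b, hb⟩
    refine ⟨C.mul_mem hu hv, a + b, ?_⟩
    obtain ⟨c, -, hc⟩ := hcyc
    obtain ⟨m, hm⟩ := ecb_mk_eq_pow hc hu
    obtain ⟨n, hn⟩ := ecb_mk_eq_pow hc hv
    have hcomm : Commute (QuotientGroup.mk u : G ⧸ N₀) (QuotientGroup.mk v : G ⧸ N₀) := by
      rw [hm, hn]
      exact (Commute.refl _).pow_pow m n
    have hu1 : (QuotientGroup.mk u : G ⧸ N₀) ^ p ^ a = 1 := by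
      rw [← QuotientGroup.mk_pow]
      exact (QuotientGroup.eq_one_iff _).2 ha
    have hv1 : (QuotientGroup.mk v : G ⧸ N₀) ^ p ^ b = 1 := by
      rw [← QuotientGroup.mk_pow]
      exact (QuotientGroup.eq_one_iff _).2 hb
    rw [← QuotientGroup.eq_one_iff, QuotientGroup.mk_pow, QuotientGroup.mk_mul, hcomm.mul_pow,
      pow_add, pow_mul, hu1, one_pow, one_mul, mul_comm (p ^ a) (p ^ b), pow_mul, hv1, one_pow]

variable {p}

lemma mem_ecbPPart {C N₀ : Subgroup G} [N₀.Normal] {hcyc : IsCyclicMod C N₀} {u : G} :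
    u ∈ ecbPPart p C N₀ hcyc ↔ u ∈ C ∧ ∃ m : ℕ, u ^ p ^ m ∈ N₀ := Iff.rfl

lemma ecbPPart_le {C N₀ : Subgroup G} [N₀.Normal] (hcyc : IsCyclicMod C N₀) :
    ecbPPart p C N₀ hcyc ≤ C := fun _ h => h.1

lemma le_ecbPPart {C N₀ : Subgroup G} [N₀.Normal] (hcyc : IsCyclicMod C N₀) (hle : N₀ ≤ C) :
    N₀ ≤ ecbPPart p C N₀ hcyc := fun u hu => ⟨hle hu, 0, by simpa using hu⟩

/-- the `p`-part is normal in `C` -/
lemma ecbPPart_normal {C N₀ : Subgroup G} [hN : N₀.Normal] (hcyc : IsCyclicMod C N₀) :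
    ((ecbPPart p C N₀ hcyc).subgroupOf C).Normal := by
  refine ⟨fun u hu c => ?_⟩
  rw [Subgroup.mem_subgroupOf] at hu ⊢
  obtain ⟨-, m, hm⟩ := hu
  refine ⟨(c * u * c⁻¹).2, m, ?_⟩
  have : ((c * u * c⁻¹ : ↥C) : G) ^ p ^ m = (c : G) * (u : G) ^ p ^ m * (c : G)⁻¹ := by
    push_cast
    rw [conj_pow]
  rw [this]
  exact hN.conj_mem _ hm _

/-- the index of the `p`-part in `C` is prime to `p` -/
lemma ecb_not_dvd_card [Fact p.Prime] {C N₀ : Subgroup G} [hN : N₀.Normal] [Finite (G ⧸ N₀)]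
    (hcyc : IsCyclicMod C N₀) (hle : N₀ ≤ C) :
    ¬ p ∣ Nat.card (↥C ⧸ (ecbPPart p C N₀ hcyc).subgroupOf C) := by
  have hnorm := ecbPPart_normal (p := p) hcyc
  have hfi : N₀.FiniteIndex := Subgroup.finiteIndex_of_finite_quotient
  have hfi1 : (N₀.subgroupOf C).FiniteIndex := inferInstance
  have hfi2 : ((ecbPPart p C N₀ hcyc).subgroupOf C).FiniteIndex :=
    Subgroup.finiteIndex_of_le (H := N₀.subgroupOf C)
      (Subgroup.subgroupOf_mono C (le_ecbPPart hcyc hle))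
  haveI : Finite (↥C ⧸ (ecbPPart p C N₀ hcyc).subgroupOf C) := inferInstance
  intro hdvd
  obtain ⟨x, hx⟩ := exists_prime_orderOf_dvd_card' p hdvd
  induction x using QuotientGroup.induction_on with
  | H u =>
    have h1 : (QuotientGroup.mk u : ↥C ⧸ (ecbPPart p C N₀ hcyc).subgroupOf C) ^ p = 1 := by
      have h := pow_orderOf_eq_one
        (QuotientGroup.mk u : ↥C ⧸ (ecbPPart p C N₀ hcyc).subgroupOf C)
      rwa [hx] at h
    rw [← QuotientGroup.mk_pow, QuotientGroup.eq_one_iff, Subgroup.mem_subgroupOf] at h1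
    obtain ⟨-, m, hm⟩ := h1
    have h2 : u ∈ (ecbPPart p C N₀ hcyc).subgroupOf C := by
      rw [Subgroup.mem_subgroupOf]
      refine ⟨u.2, m + 1, ?_⟩
      have : (u : G) ^ p ^ (m + 1) = (((u ^ p : ↥C) : G)) ^ p ^ m := by
        push_cast
        rw [← pow_mul, pow_succ, mul_comm]
      rw [this]
      exact hm
    have h3 : (QuotientGroup.mk u : ↥C ⧸ (ecbPPart p C N₀ hcyc).subgroupOf C) = 1 :=
      (QuotientGroup.eq_one_iff u).2 h2
    rw [h3, orderOf_one] at hx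
    exact (Fact.out : p.Prime).one_lt.ne hx

end PPart


section Abstract

variable {k G : Type} [Field k] [Group G] {𝒩 : Levels G} {g : Rep.{0} k G → ℤ}

/-- an additive invariant vanishes on the zero module -/
lemma ecb_zero_of_subsingleton (hg : IsAddInv 𝒩 g) (A : Rep.{0} k G) [Subsingleton A]
    (hfin : Module.Finite k A) (hsm : IsSmooth 𝒩 A) : g A = 0 := by
  have h := hg.add A A A LinearMap.id 0 (fun _ _ => rfl) (fun s a => by simp)
    (fun _ _ h => h) (fun a => ⟨a, Subsingleton.elim _ _⟩)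
    (by rw [LinearMap.range_id, LinearMap.ker_zero]) hfin hsm
  omega

/-- **Claim A**: the invariant of a module induced from a trivial module is `≤ 0` as soon as the
invariant of the permutation module is. -/
lemma ecb_ind_triv_le (hg : IsAddInv 𝒩 g) {N₀ U : Subgroup G} (hN₀ : N₀ ∈ 𝒩.mem)
    [N₀.Normal] [Finite (G ⧸ N₀)] (hle : N₀ ≤ U) (hPU : g (permRep k U) ≤ 0) :
    ∀ (n : ℕ) (W : Rep.{0} k U), Module.Finite k W → (∀ u w, W.ρ u w = w) →
      Module.finrank k W = n → g (Rep.of (indRepn W.ρ)) ≤ 0 := by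
  have hfi : N₀.FiniteIndex := Subgroup.finiteIndex_of_finite_quotient
  have hfiU : U.FiniteIndex := Subgroup.finiteIndex_of_le hle
  have hfinU : Finite (G ⧸ U) := inferInstance
  intro n
  induction n using Nat.strong_induction_on with
  | _ n ih =>
    intro W hWfin hW hn
    have hind_fin : Module.Finite k (Rep.of (indRepn W.ρ)) :=
      (inferInstance : Module.Finite k (G ⧸ U → W))
    have hind_sm : IsSmooth 𝒩 (Rep.of (indRepn W.ρ)) :=
      ⟨N₀, hN₀, fun s hs f => indRepn_trivial_of_mem hle W.ρ (fun u _ w => hW u w) hs f⟩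
    by_cases h0 : ∃ w₀ : W, w₀ ≠ 0
    · obtain ⟨w, hw⟩ := h0
      have hfix : ∀ u, W.ρ u w = w := fun u => hW u w
      set L : Submodule k W := Submodule.span k {w} with hL
      have hLst : ∀ u, L ≤ L.comap (W.ρ u) := span_fixed_le_comap W.ρ hfix
      let W' : Rep.{0} k U := Rep.of (W.ρ.quotient L hLst)
      have hW'fin : Module.Finite k W' := (inferInstance : Module.Finite k (W ⧸ L))
      have hW' : ∀ u w', W'.ρ u w' = w' := by
        intro u w'
        induction w' using Submodule.Quotient.induction_on with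
        | H v =>
          change L.mkQ (W.ρ u v) = L.mkQ v
          rw [hW u v]
      have hrank : Module.finrank k W' < n := by
        have h1 : Module.finrank k (W ⧸ L) + Module.finrank k L = Module.finrank k W :=
          Submodule.finrank_quotient_add_finrank L
        have h2 : Module.finrank k L = 1 := finrank_span_singleton hw
        change Module.finrank k (W ⧸ L) < n
        omega
      have hPW' : g (Rep.of (indRepn W'.ρ)) ≤ 0 := ih _ hrank W' hW'fin hW' rfl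
      have hadd := hg.add (permRep k U) (Rep.of (indRepn W.ρ)) (Rep.of (indRepn W'.ρ))
        (permToInd w) (indQuot L) (permToInd_equivariant W.ρ hfix)
        (indQuot_equivariant W.ρ L hLst) (permToInd_injective hw) (indQuot_surjective L) (by
          ext f
          rw [LinearMap.mem_ker]
          exact (mem_range_permToInd w f).trans (indQuot_eq_zero_iff L f).symm)
        hind_fin hind_sm
      omega
    · have hsub : Subsingleton (G ⧸ U → W) := by
        refine ⟨fun f f' => funext fun x => ?_⟩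
        by_contra hne
        exact h0 ⟨f x - f' x, sub_ne_zero.mpr hne⟩
      have : Subsingleton (Rep.of (indRepn W.ρ)) := hsub
      exact (ecb_zero_of_subsingleton hg _ hind_fin hind_sm).le


/-- **Additivity on a retract.** If the `C`-module `Y` is a retract of the `C`-module `W`, then
the invariant of `Ind W` is the sum of the invariants of `Ind Y` and of `Ind Y'`, where `Y'` is
a submodule of `W`. -/
lemma ecb_ind_retract (hg : IsAddInv 𝒩 g) {N₀ C : Subgroup G} (hN₀ : N₀ ∈ 𝒩.mem)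
    [N₀.Normal] [Finite (G ⧸ N₀)] (hle : N₀ ≤ C)
    (W Y : Rep.{0} k C) (hWfin : Module.Finite k W)
    (hW : ∀ u : C, (u : G) ∈ N₀ → ∀ w, W.ρ u w = w)
    (i : Y →ₗ[k] W) (r : W →ₗ[k] Y) (hr : ∀ c w, r (W.ρ c w) = Y.ρ c (r w))
    (hri : ∀ y, r (i y) = y) :
    ∃ Y' : Rep.{0} k C, Module.Finite k Y' ∧
      (∀ c : C, (∀ w, W.ρ c w = w) → ∀ y, Y'.ρ c y = y) ∧
      g (Rep.of (indRepn W.ρ)) = g (Rep.of (indRepn Y'.ρ)) + g (Rep.of (indRepn Y.ρ)) := by
  have hfi : N₀.FiniteIndex := Subgroup.finiteIndex_of_finite_quotient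
  have hfiC : C.FiniteIndex := Subgroup.finiteIndex_of_le hle
  have hfinC : Finite (G ⧸ C) := inferInstance
  have hK : ∀ c, LinearMap.ker r ≤ (LinearMap.ker r).comap (W.ρ c) := by
    intro c w hw
    rw [Submodule.mem_comap, LinearMap.mem_ker, hr, LinearMap.mem_ker.mp hw, map_zero]
  let Y' : Rep.{0} k C := Rep.of (W.ρ.subrepresentation (LinearMap.ker r) hK)
  have hY'fin : Module.Finite k Y' :=
    (inferInstance : Module.Finite k ↥(LinearMap.ker r))
  refine ⟨Y', hY'fin, fun c hc y => ?_, ?_⟩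
  · apply Subtype.ext
    exact hc y.1
  · have hind_fin : Module.Finite k (Rep.of (indRepn W.ρ)) :=
      (inferInstance : Module.Finite k (G ⧸ C → W))
    have hind_sm : IsSmooth 𝒩 (Rep.of (indRepn W.ρ)) :=
      ⟨N₀, hN₀, fun s hs f => indRepn_trivial_of_mem hle W.ρ hW hs f⟩
    refine hg.add (Rep.of (indRepn Y'.ρ)) (Rep.of (indRepn W.ρ)) (Rep.of (indRepn Y.ρ))
      ((LinearMap.ker r).subtype.compLeft (G ⧸ C)) (r.compLeft (G ⧸ C)) ?_ ?_ ?_ ?_ ?_
      hind_fin hind_sm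
    · intro s f
      funext x
      rfl
    · intro s f
      funext x
      exact hr _ _
    · intro f f' h
      funext x
      exact Subtype.ext (congrFun h x)
    · intro f
      refine ⟨fun x => i (f x), ?_⟩
      funext x
      exact hri (f x)
    · ext f
      rw [LinearMap.mem_ker]
      constructor
      · rintro ⟨f', rfl⟩
        funext x
        exact (f' x).2
      · intro hf
        refine ⟨fun x => ⟨f x, congrFun hf x⟩, ?_⟩
        funext x
        rfl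

/-- the bijection `G/U₁ ≃ G/C × C/U₁` attached to the chosen coset representatives -/
def ecbE {U₁ C : Subgroup G} (h : U₁ ≤ C) : G ⧸ U₁ ≃ (G ⧸ C) × (↥C ⧸ U₁.subgroupOf C) :=
  Subgroup.quotientEquivProdOfLE' h (cosetRep C) (mk_cosetRep C)

lemma ecbE_symm_mk {U₁ C : Subgroup G} (h : U₁ ≤ C) (x : G ⧸ C) (c : ↥C) :
    (ecbE h).symm (x, (QuotientGroup.mk c : ↥C ⧸ U₁.subgroupOf C)) =
      (QuotientGroup.mk (cosetRep C x * c) : G ⧸ U₁) := rfl

lemma ecbE_symm_smul {U₁ C : Subgroup G} (h : U₁ ≤ C) (s : G) (x : G ⧸ C)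
    (y : ↥C ⧸ U₁.subgroupOf C) :
    s⁻¹ • (ecbE h).symm (x, y) = (ecbE h).symm (s⁻¹ • x, (cocyc C s x)⁻¹ • y) := by
  induction y using QuotientGroup.induction_on with
  | H c =>
    rw [ecbE_symm_mk, MulAction.Quotient.smul_mk, MulAction.Quotient.smul_mk, ecbE_symm_mk]
    congr 1
    simp only [smul_eq_mul, Subgroup.coe_mul, Subgroup.coe_inv, coe_cocyc]
    group

/-- **Induction in stages** for trivial modules: `Ind_{U₁}^G V ≃ Ind_C^G Ind_{U₁}^C V`. -/
lemma ecb_stages {U₁ C : Subgroup G} (h : U₁ ≤ C) {V : Type} [AddCommGroup V] [Module k V]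
    (τ₁ : Representation k ↥U₁ V) (hτ₁ : ∀ u v, τ₁ u v = v)
    (τ' : Representation k ↥(U₁.subgroupOf C) V) (hτ' : ∀ u v, τ' u v = v) :
    ∃ e : (G ⧸ U₁ → V) →ₗ[k] (G ⧸ C → (↥C ⧸ U₁.subgroupOf C → V)),
      Function.Bijective e ∧
      ∀ s f, e (indRepn τ₁ s f) = indRepn (indRepn τ') s (e f) := by
  let e : (G ⧸ U₁ → V) →ₗ[k] (G ⧸ C → (↥C ⧸ U₁.subgroupOf C → V)) :=
    { toFun := fun f x y => f ((ecbE h).symm (x, y))
      map_add' := fun f f' => rfl
      map_smul' := fun c f => rfl }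
  refine ⟨e, ⟨?_, ?_⟩, ?_⟩
  · intro f f' hff
    funext z
    have := congrFun (congrFun hff (ecbE h z).1) (ecbE h z).2
    simpa [e] using this
  · intro F
    refine ⟨fun z => F (ecbE h z).1 (ecbE h z).2, ?_⟩
    funext x y
    simp [e]
  · intro s f
    funext x y
    change indRepn τ₁ s f ((ecbE h).symm (x, y)) = _
    rw [indRepn_apply, indRepn_apply, indRepn_apply, hτ₁, hτ', ecbE_symm_smul]
    rfl


/-- **EC-BASE-ASM, abstract form.** -/
theorem ecb_base_abstract (p : ℕ) [Fact p.Prime] [CharP k p] (hg : IsAddInv 𝒩 g)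
    {N₀ C : Subgroup G} (hN₀ : N₀ ∈ 𝒩.mem) [Finite (G ⧸ N₀)] (hle : N₀ ≤ C)
    (hcyc : IsCyclicMod C N₀)
    (hGe : ∀ Y : Rep.{0} k ↥C, Module.Finite k Y →
      (∀ u : ↥C, (∃ m : ℕ, (u : G) ^ p ^ m ∈ N₀) → ∀ y : Y, Y.ρ u y = y) → 0 ≤ g (indRep Y))
    (hNum : ∀ U : Subgroup G, N₀ ≤ U → (∀ u ∈ U, ∃ m : ℕ, u ^ p ^ m ∈ N₀) →
      g (permRep k U) ≤ 0)
    (Y : Rep.{0} k ↥C) (hYfin : Module.Finite k Y)
    (hY : ∀ u : ↥C, (∃ m : ℕ, (u : G) ^ p ^ m ∈ N₀) → ∀ y : Y, Y.ρ u y = y) :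
    g (indRep Y) = 0 := by
  have hN₀n : N₀.Normal := 𝒩.normal N₀ hN₀
  have hnorm : ((ecbPPart p C N₀ hcyc).subgroupOf C).Normal := ecbPPart_normal hcyc
  have hfi : N₀.FiniteIndex := Subgroup.finiteIndex_of_finite_quotient
  have hfi1 : (N₀.subgroupOf C).FiniteIndex := inferInstance
  have hfi2 : ((ecbPPart p C N₀ hcyc).subgroupOf C).FiniteIndex :=
    Subgroup.finiteIndex_of_le (H := N₀.subgroupOf C)
      (Subgroup.subgroupOf_mono C (le_ecbPPart hcyc hle))
  have hfinQ : Finite (↥C ⧸ (ecbPPart p C N₀ hcyc).subgroupOf C) := inferInstance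
  letI : Fintype (↥C ⧸ (ecbPPart p C N₀ hcyc).subgroupOf C) := Fintype.ofFinite _
  have hcard : (Fintype.card (↥C ⧸ (ecbPPart p C N₀ hcyc).subgroupOf C) : k) ≠ 0 := by
    rw [Ne, CharP.cast_eq_zero_iff k p, ← Nat.card_eq_fintype_card]
    exact ecb_not_dvd_card hcyc hle
  -- the restriction of `Y` to `U₁` is trivial
  have hτ' : ∀ (u : ↥((ecbPPart p C N₀ hcyc).subgroupOf C)) (v : Y),
      (Y.ρ.comp ((ecbPPart p C N₀ hcyc).subgroupOf C).subtype) u v = v := by
    intro u v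
    obtain ⟨-, m, hm⟩ := Subgroup.mem_subgroupOf.mp u.2
    exact hY u.1 ⟨m, hm⟩ v
  -- the module `W₀ = Ind_{U₁}^C (Y|U₁)`
  let W₀ : Rep.{0} k ↥C :=
    Rep.of (indRepn (Y.ρ.comp ((ecbPPart p C N₀ hcyc).subgroupOf C).subtype))
  have hW₀fin : Module.Finite k W₀ :=
    (inferInstance : Module.Finite k (↥C ⧸ (ecbPPart p C N₀ hcyc).subgroupOf C → Y))
  have hW₀triv : ∀ c : ↥C, (∃ m : ℕ, (c : G) ^ p ^ m ∈ N₀) → ∀ w, W₀.ρ c w = w := by
    rintro c ⟨m, hm⟩ w
    have hc : c ∈ (ecbPPart p C N₀ hcyc).subgroupOf C :=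
      Subgroup.mem_subgroupOf.mpr ⟨c.2, m, hm⟩
    exact indRepn_trivial_of_mem (N₀ := (ecbPPart p C N₀ hcyc).subgroupOf C) le_rfl _
      (fun u _ v => hτ' u v) hc w
  have hW₀N : ∀ u : ↥C, (u : G) ∈ N₀ → ∀ w, W₀.ρ u w = w :=
    fun u hu => hW₀triv u ⟨0, by simpa using hu⟩
  obtain ⟨Y', hY'fin, hY'triv, hadd⟩ := ecb_ind_retract hg hN₀ hle W₀ Y hW₀fin hW₀N
    (toInd _ Y.ρ) (ofInd _ Y.ρ) (ofInd_equivariant _ Y.ρ) (ofInd_toInd _ Y.ρ hcard)
  have h1 : 0 ≤ g (indRep Y') := hGe Y' hY'fin (fun u hu y => hY'triv u (hW₀triv u hu) y)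
  have h2 : 0 ≤ g (indRep Y) := hGe Y hYfin hY
  -- the invariant of `Ind_C^G W₀`
  let τ₁ : Representation k ↥(ecbPPart p C N₀ hcyc) Y := 1
  have hτ₁ : ∀ u v, τ₁ u v = v := fun _ _ => rfl
  obtain ⟨e, hbij, heq⟩ := ecb_stages (k := k) (ecbPPart_le hcyc) τ₁ hτ₁ _ hτ'
  have hfiU : (ecbPPart p C N₀ hcyc).FiniteIndex :=
    Subgroup.finiteIndex_of_le (le_ecbPPart hcyc hle)
  have hfinU : Finite (G ⧸ ecbPPart p C N₀ hcyc) := inferInstance
  have hsrc_fin : Module.Finite k (Rep.of (indRepn τ₁)) :=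
    (inferInstance : Module.Finite k (G ⧸ ecbPPart p C N₀ hcyc → Y))
  have hsrc_sm : IsSmooth 𝒩 (Rep.of (indRepn τ₁)) :=
    ⟨N₀, hN₀, fun s hs f =>
      indRepn_trivial_of_mem (le_ecbPPart hcyc hle) τ₁ (fun u _ v => hτ₁ u v) hs f⟩
  have h3 : g (Rep.of (indRepn τ₁)) = g (Rep.of (indRepn W₀.ρ)) :=
    hg.iso (Rep.of (indRepn τ₁)) (Rep.of (indRepn W₀.ρ)) e heq hbij hsrc_fin hsrc_sm
  have h4 : g (Rep.of (indRepn τ₁)) ≤ 0 :=
    ecb_ind_triv_le hg hN₀ (le_ecbPPart hcyc hle)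
      (hNum _ (le_ecbPPart hcyc hle) (fun u hu => hu.2)) _ (Rep.of τ₁) hYfin
      (fun u w => hτ₁ u w) rfl
  have h5 : g (indRep Y') = g (Rep.of (indRepn Y'.ρ)) := rfl
  have h6 : g (indRep Y) = g (Rep.of (indRepn Y.ρ)) := rfl
  omega

end Abstract

/-! ## The arithmetic instance -/

section Arith

variable (p : ℕ) [Fact p.Prime] (T : Finset Nat.Primes)

/-- **EC-BASE-ASM**: every `Y` is a direct summand of a free module over the cyclic
`p'`-group. -/
theorem baseOut (hpT : pPrime p ∈ T) (hA : AddOut p T) (hGe : BaseGeOut p T)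
    (hNum : BaseNumOut p T) : BaseOut p T := by
  intro N₀ hN₀ hχ C hle hcyc Y hYfin hY
  haveI : Finite (GQ ⧸ N₀) := helper92.finite_quotient_of_mem_galLevels T N₀ hN₀
  exact ecb_base_abstract p hA hN₀ hle hcyc
    (fun Y' h1 h2 => hGe N₀ hN₀ hχ C hle hcyc Y' h1 h2)
    (fun U hU hpU => hNum U ⟨N₀, hN₀, hU⟩ (char_trivial_of_pQuot (cycloChar p) hχ hpU))
    Y hYfin hY

end Arith

end Fermat.Agent.P1.helper93
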