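import Fermat.Agent.P1.helper7_BSProps
import Fermat.Agent.P1.helper93_ECBaseAsm
import Fermat.Agent.S55.helper30_BArKum

/-!
# P1 / module EC / BASE-STAR / package BS-CLASS (helper50, task 820): group theoretic facts

For `D : BSData p T` (`P = D.pSub`, `C = ⟨c⟩ N₀`):

* `bsc_exists_n`   : there is `n` prime to `p` with `c ^ n ∈ P`;
* `bsc_rho_pSub`   : `P` acts trivially on `Y` (`YOk`);
* `bsc_chi_pSub`   : the cyclotomic character is trivial on `P`;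
* `bsc_zY_pow`     : `z ^ n = 1`;
* `bsc_chi_pow`    : `χ(c) ^ n = 1`;
* `bsc_mem_Hsp_iff`: `x ∈ 𝐇 ↔ x` is a level-constant homomorphism;
* `bsc_cs_mem_Hsp` : `𝐇` is stable under `cs`;
* `bsc_cs_pow`     : `cs ^ n = 1` on `𝐇`.
-/

set_option autoImplicit false
set_option linter.unusedSectionVars false
set_option linter.style.haveILetI false

open groupCohomology ExtCitation

noncomputable section

namespace Fermat.Agent.P1.helper50

open Fermat.Agent.S55 Fermat.Agent.P1.helper70 Fermat.Agent.P1.helper63 Fermat.Agent.P1.helper7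

variable {p : ℕ} [Fact p.Prime] {T : Finset Nat.Primes} (D : BSData p T)

/-- the elements of `P` have `p`-power order modulo `N₀` -/
lemma bsc_pSub_le_pPart :
    haveI := D.normal_N₀
    D.pSub ≤ Fermat.Agent.P1.helper93.ecbPPart p D.C D.N₀ D.isCyclicMod := by
  haveI := D.normal_N₀
  exact (Subgroup.closure_le _).2 fun u hu => hu

lemma bsc_pPart_le_pSub :
    haveI := D.normal_N₀
    Fermat.Agent.P1.helper93.ecbPPart p D.C D.N₀ D.isCyclicMod ≤ D.pSub := by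
  haveI := D.normal_N₀
  intro u hu
  exact Subgroup.subset_closure hu

/-- there is `n` prime to `p` with `c ^ n ∈ P` -/
lemma bsc_exists_n : ∃ n : ℕ, ¬ p ∣ n ∧ D.c ^ n ∈ D.pSub := by
  haveI := D.normal_N₀
  haveI : Finite (GQ ⧸ D.N₀) := helper92.finite_quotient_of_mem_galLevels T D.N₀ D.hN₀
  have hnd := Fermat.Agent.P1.helper93.ecb_not_dvd_card (p := p) D.isCyclicMod D.hle
  have hnorm := Fermat.Agent.P1.helper93.ecbPPart_normal (p := p) D.isCyclicMod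
  refine ⟨_, hnd, ?_⟩
  apply bsc_pPart_le_pSub
  have h1 : ((QuotientGroup.mk (⟨D.c, D.hc⟩ : ↥D.C) :
      ↥D.C ⧸ (Fermat.Agent.P1.helper93.ecbPPart p D.C D.N₀ D.isCyclicMod).subgroupOf D.C)) ^
      Nat.card (↥D.C ⧸ (Fermat.Agent.P1.helper93.ecbPPart p D.C D.N₀
        D.isCyclicMod).subgroupOf D.C) = 1 := pow_card_eq_one'
  rw [← QuotientGroup.mk_pow, QuotientGroup.eq_one_iff, Subgroup.mem_subgroupOf] at h1
  exact h1

/-- `P` acts trivially on `Y` -/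
lemma bsc_rho_pSub {Y : Rep.{0} (ZMod p) ↥D.C} (hY : YOk D Y) (u : ↥D.C)
    (hu : (u : GQ) ∈ D.pSub) (y : Y) : Y.ρ u y = y :=
  hY.2 u (bsc_pSub_le_pPart D hu).2 y

/-- the cyclotomic character is trivial on `P` -/
lemma bsc_chi_pSub (u : GQ) (hu : u ∈ D.pSub) : cycloChar p u = 1 :=
  Fermat.Agent.S55.helper57.char_trivial_of_pQuot (cycloChar p) D.hχ
    (fun g hg => (bsc_pSub_le_pPart D hg).2) u hu

/-- `χ(c) ^ n = 1` -/
lemma bsc_chi_pow {n : ℕ} (hn : D.c ^ n ∈ D.pSub) :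
    (((cycloChar p D.c : (ZMod p)ˣ) : ZMod p)) ^ n = 1 := by
  have h := bsc_chi_pSub D _ hn
  rw [map_pow] at h
  have h2 := congrArg (fun u : (ZMod p)ˣ => (u : ZMod p)) h
  simpa using h2

variable (Y : Rep.{0} (ZMod p) ↥D.C)

lemma bsc_zY_pow_apply (i : ℕ) (f : Module.Dual (ZMod p) Y) :
    (D.zY Y ^ i) f = f ∘ₗ (Y.ρ (D.cC⁻¹ ^ i)) := by
  induction i generalizing f with
  | zero =>
    rw [pow_zero, pow_zero, map_one]
    rfl
  | succ i ih =>
    rw [pow_succ, Module.End.mul_apply, ih, pow_succ', map_mul]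
    rfl

/-- `z ^ n = 1` -/
lemma bsc_zY_pow {Y : Rep.{0} (ZMod p) ↥D.C} (hY : YOk D Y) {n : ℕ} (hn : D.c ^ n ∈ D.pSub) :
    D.zY Y ^ n = 1 := by
  ext f y
  rw [bsc_zY_pow_apply]
  change f (Y.ρ (D.cC⁻¹ ^ n) y) = f y
  congr 1
  apply bsc_rho_pSub D hY
  change ((D.cC⁻¹ ^ n : ↥D.C) : GQ) ∈ D.pSub
  have : ((D.cC⁻¹ ^ n : ↥D.C) : GQ) = (D.c ^ n)⁻¹ := by
    rw [inv_pow]
    rfl
  rw [this]
  exact D.pSub.inv_mem hn

/-! ## The space `𝐇` -/

/-- `x ∈ 𝐇` iff `x` is a level-constant homomorphism -/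
lemma bsc_mem_Hsp_iff (x : D.Fun) :
    x ∈ D.Hsp ↔ IsLev₁ D.levP x ∧ ∀ g h : ↥D.pSub, x (g * h) = x g + x h :=
  Fermat.Agent.S55.helper30.mem_Z1_triv_iff D.levP x

/-- conjugation by `c⁻¹` on `P` -/
def bscConj (u : ↥D.pSub) : ↥D.pSub := ⟨D.c⁻¹ * (u : GQ) * D.c, D.conj_mem_pSub' u.2⟩

lemma bscConj_mul (u v : ↥D.pSub) : bscConj D (u * v) = bscConj D u * bscConj D v := by
  apply Subtype.ext
  change D.c⁻¹ * ((u : GQ) * (v : GQ)) * D.c = (D.c⁻¹ * (u : GQ) * D.c) * (D.c⁻¹ * (v : GQ) * D.c)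
  group

lemma bsc_cs_apply (x : D.Fun) (u : ↥D.pSub) : D.cs x u = x (bscConj D u) := rfl

/-- `𝐇` is stable under `cs` -/
lemma bsc_cs_mem_Hsp {x : D.Fun} (hx : x ∈ D.Hsp) : D.cs x ∈ D.Hsp := by
  rw [bsc_mem_Hsp_iff] at hx ⊢
  obtain ⟨⟨N', ⟨N, hN, hNP, rfl⟩, hlev⟩, hadd⟩ := hx
  refine ⟨⟨N.subgroupOf D.pSub, ⟨N, hN, hNP, rfl⟩, fun g s hs => ?_⟩, fun g h => ?_⟩
  · rw [bsc_cs_apply, bsc_cs_apply, bscConj_mul]
    apply hlev
    rw [Subgroup.mem_subgroupOf] at hs ⊢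
    have hn := (galLevels T).normal N hN
    have := hn.conj_mem _ hs D.c⁻¹
    rwa [inv_inv] at this
  · rw [bsc_cs_apply, bsc_cs_apply, bsc_cs_apply, bscConj_mul, hadd]

lemma bsc_cs_pow_apply (i : ℕ) (x : D.Fun) (u : ↥D.pSub) :
    (D.cs ^ i) x u = x ⟨(D.c ^ i)⁻¹ * (u : GQ) * D.c ^ i, by
      have h : ∀ (j : ℕ) (v : GQ), v ∈ D.pSub → (D.c ^ j)⁻¹ * v * D.c ^ j ∈ D.pSub := by
        intro j
        induction j with
        | zero => intro v hv; simpa using hv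
        | succ j ih =>
          intro v hv
          have h1 := ih _ (D.conj_mem_pSub' hv)
          have h2 : (D.c ^ (j + 1))⁻¹ * v * D.c ^ (j + 1) =
              (D.c ^ j)⁻¹ * (D.c⁻¹ * v * D.c) * D.c ^ j := by
            rw [pow_succ']
            group
          rw [h2]
          exact h1
      exact h i _ u.2⟩ := by
  induction i generalizing x u with
  | zero =>
    rw [pow_zero]
    change x u = x _
    congr 1
  | succ i ih =>
    rw [pow_succ, Module.End.mul_apply, ih, bsc_cs_apply]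
    congr 1

/-- `cs ^ n = 1` on `𝐇` -/
lemma bsc_cs_pow {n : ℕ} (hn : D.c ^ n ∈ D.pSub) {x : D.Fun} (hx : x ∈ D.Hsp) :
    (D.cs ^ n) x = x := by
  rw [bsc_mem_Hsp_iff] at hx
  obtain ⟨-, hadd⟩ := hx
  funext u
  rw [bsc_cs_pow_apply]
  let w : ↥D.pSub := ⟨D.c ^ n, hn⟩
  have h1 : (⟨(D.c ^ n)⁻¹ * (u : GQ) * D.c ^ n, by
      have := D.pSub.mul_mem (D.pSub.mul_mem (D.pSub.inv_mem hn) u.2) hn
      exact this⟩ : ↥D.pSub) = w⁻¹ * u * w := rfl
  have h0 : x 1 = 0 := by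
    have := hadd 1 1
    rw [mul_one] at this
    exact left_eq_add.mp this
  have hinv : x w⁻¹ = - x w := by
    have := hadd w⁻¹ w
    rw [inv_mul_cancel, h0] at this
    exact eq_neg_of_add_eq_zero_left this.symm
  rw [h1, hadd, hadd, hinv]
  abel

end Fermat.Agent.P1.helper50
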