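import Fermat.Agent.P1.helper50_BSClassDefs
import Fermat.Agent.P1.helper50_BSClassGrp
import Fermat.Agent.S55.helper97_KumGFinal
import Fermat.Agent.S55.ShArith

/-!
# P1 / module EC / BASE-STAR / package BS-CLASS (helper50, task 820): arithmetic facts

For `D : BSData p T` (`P = D.pSub`, `K₁ = D.K1`):

* `bsc_K1_unram`, `bscNumberFieldK1` : `K₁` is a number field, unramified outside `T`;
* `bsc_fixingSubgroup_K1` : `Gal(ℚbar / K₁) = P`;
* `bsc_finite_Z1`, `bsc_finite_Hsp` : `𝐇 = Hom(P, 𝔽_p)` is finite dimensional;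
* `bsc_sigmaC_pow`, `bsc_clTOp_iterate` : `σ_c ^ n = 1` when `c ^ n ∈ P`;
* `bsc_clTToP_surjective`, `bsc_clTToP_eq_zero_iff`, `bsc_clTToP_op` : the projection
  `Cl_T → Cl_T / p`.
-/

set_option autoImplicit false
set_option linter.unusedSectionVars false
set_option linter.style.haveILetI false

open groupCohomology ExtCitation
open scoped NumberField nonZeroDivisors

noncomputable section

namespace Fermat.Agent.P1.helper50

open Fermat.Agent.S55 Fermat.Agent.P1.helper70 Fermat.Agent.P1.helper63 Fermat.Agent.P1.helper7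

/-! ## The field `K₁` -/

section K1

variable {p : ℕ} [Fact p.Prime] {T : Finset Nat.Primes} (D : BSData p T)

/-- `K₁` is unramified outside `T` (and finite over `ℚ`) -/
lemma bsc_K1_unram : D.K1.IsUnramifiedOutside T := by
  obtain ⟨-, E, hE, hEq⟩ := D.hN₀
  haveI hG : IsGalois ℚ (AlgebraicClosure ℚ) := Fermat.Agent.S54.helper91.isGalois_Qbar
  refine hE.of_le ?_
  rw [← InfiniteGalois.fixedField_fixingSubgroup E]
  refine IntermediateField.fixedField_antitone ?_
  rw [← hEq]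
  exact D.le_pSub

/-- `K₁` is a number field -/
lemma bscNumberFieldK1 : NumberField ↥D.K1 :=
  { to_charZero := inferInstance
    to_finiteDimensional := (bsc_K1_unram D).1 }

/-- `Gal(ℚbar / K₁) = P` -/
lemma bsc_fixingSubgroup_K1 : D.K1.fixingSubgroup = D.pSub := by
  obtain ⟨-, E, hE, hEq⟩ := D.hN₀
  haveI hG : IsGalois ℚ (AlgebraicClosure ℚ) := Fermat.Agent.S54.helper91.isGalois_Qbar
  have hfd : FiniteDimensional ℚ E := hE.1
  have hopenE : IsOpen (E.fixingSubgroup : Set GQ) := IntermediateField.fixingSubgroup_isOpen E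
  have hopen : IsOpen (D.pSub : Set GQ) := Subgroup.isOpen_mono (hEq ▸ D.le_pSub) hopenE
  have hclosed : IsClosed (D.pSub : Set GQ) := Subgroup.isClosed_of_isOpen D.pSub hopen
  exact InfiniteGalois.fixingSubgroup_fixedField ⟨D.pSub, hclosed⟩

end K1

/-! ## Finiteness of `Hom(U, 𝔽_p)` -/

section Fin

variable {p : ℕ} [Fact p.Prime] {T : Finset Nat.Primes}

/-- the level-constant homomorphisms `U → 𝔽_p` form a finite dimensional space, for every open
subgroup `U` on which the cyclotomic character is trivial -/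
lemma bsc_finite_Z1 (hp2 : p ≠ 2) (hpT : pPrime p ∈ T) (U : Subgroup GQ)
    (hU : ∃ N ∈ (galLevels T).mem, N ≤ U) (hχ : ∀ g ∈ U, cycloChar p g = 1) :
    Module.Finite (ZMod p)
      ↥(Z1 (helper35.restrictLevels (galLevels T) U hU) (helper35.trivRep (ZMod p) ↥U)) := by
  have hp : p.Prime := Fact.out
  obtain ⟨F, hF, hUF⟩ := exists_field_of_open T U hU
  subst hUF
  haveI : NumberField ↥F :=
    { to_charZero := inferInstance
      to_finiteDimensional := hF.1 }
  obtain ⟨ζ₀, hζ₀, hmem⟩ := hasZeta_of_cycloChar_eq_one F p hχ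
  have hζ₀ne : (⟨ζ₀, hmem⟩ : ↥F) ≠ 0 := by
    intro h
    have h2 : ζ₀ = 0 := congrArg Subtype.val h
    exact hζ₀.ne_zero hp.ne_zero h2
  let ζ : (↥F)ˣ := Units.mk0 ⟨ζ₀, hmem⟩ hζ₀ne
  have hζF : IsPrimitiveRoot (⟨ζ₀, hmem⟩ : ↥F) p :=
    IsPrimitiveRoot.of_map_of_injective (f := algebraMap ↥F (AlgebraicClosure ℚ))
      hζ₀ (FaithfulSMul.algebraMap_injective _ _)
  have hζ : IsPrimitiveRoot ζ p := by
    have : ((ζ : (↥F)ˣ) : ↥F) = ⟨ζ₀, hmem⟩ := rfl
    exact IsPrimitiveRoot.coe_units_iff.1 (this ▸ hζF)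
  have hcard := helper97.card_Z1_glob_primesOverS
    (𝒩 := helper35.restrictLevels (galLevels T) F.fixingSubgroup hU) hp2 hpT hF
    (restrictLevels_mem_eq_sLevels T F hU) ζ hζ
  have hpos : 0 < Nat.card (helper75.ClSModP (↥F) p T) := Nat.card_pos
  have hfin : Finite ↥(Z1 (helper35.restrictLevels (galLevels T) F.fixingSubgroup hU)
      (helper35.trivRep (ZMod p) ↥F.fixingSubgroup)) := by
    apply Nat.finite_of_card_ne_zero
    rw [hcard]
    exact (Nat.mul_pos (pow_pos hp.pos _) hpos).ne'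
  exact Module.Finite.of_finite

variable (D : BSData p T)

/-- `𝐇` is finite dimensional -/
lemma bsc_finite_Hsp (hp2 : p ≠ 2) (hpT : pPrime p ∈ T) : Module.Finite (ZMod p) ↥D.Hsp :=
  bsc_finite_Z1 hp2 hpT D.pSub D.exists_level_le_pSub (bsc_chi_pSub D)

end Fin

/-! ## The automorphism `σ_c` -/

section Sigma

variable {p : ℕ} [Fact p.Prime] {T : Finset Nat.Primes} (D : BSData p T)

lemma bsc_sigmaC_pow_apply (i : ℕ) (x : ↥D.K1) :
    (((D.sigmaC ^ i) x : ↥D.K1) : AlgebraicClosure ℚ) = (D.c ^ i) (x : AlgebraicClosure ℚ) := by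
  induction i generalizing x with
  | zero => rfl
  | succ i ih =>
    rw [pow_succ, AlgEquiv.mul_apply, ih, pow_succ, AlgEquiv.mul_apply]
    rfl

/-- `σ_c ^ n = 1` when `c ^ n ∈ P` -/
lemma bsc_sigmaC_pow {n : ℕ} (hn : D.c ^ n ∈ D.pSub) : D.sigmaC ^ n = 1 := by
  ext x
  rw [bsc_sigmaC_pow_apply]
  exact (D.mem_K1_iff _).1 x.2 _ hn

variable [NumberField ↥D.K1]

lemma bsc_clTOp_iterate_apply (σ : ↥D.K1 ≃ₐ[ℚ] ↥D.K1) (i : ℕ)
    (x : Additive (helper79.ClS ↥D.K1 T)) :
    (⇑(bscClTOp ↥D.K1 T σ))^[i] x =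
      Additive.ofMul (Fermat.Agent.P1.helper79.clSAut ℚ ↥D.K1 T (σ ^ i) (Additive.toMul x)) := by
  induction i with
  | zero =>
    rw [pow_zero, map_one]
    rfl
  | succ i ih =>
    rw [Function.iterate_succ_apply', ih, pow_succ', map_mul]
    rfl

/-- the operator induced by `σ_c` on `Cl_T(K₁)` has order dividing `n` -/
lemma bsc_clTOp_iterate {n : ℕ} (hn : D.c ^ n ∈ D.pSub) (x : Additive (helper79.ClS ↥D.K1 T)) :
    (⇑(bscClTOp ↥D.K1 T D.sigmaC))^[n] x = x := by
  rw [bsc_clTOp_iterate_apply, bsc_sigmaC_pow D hn, map_one]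
  rfl

end Sigma

/-! ## The projection `Cl_T → Cl_T / p` -/

section Proj

variable (L : Type) [Field L] [NumberField L] (T : Finset Nat.Primes) (p : ℕ) [Fact p.Prime]

lemma bsc_clTToP_surjective : Function.Surjective (bscClTToP L T p) := by
  intro x
  obtain ⟨c, hc⟩ := Fermat.Agent.P1.helper79.clSToModP_surjective L T p (Additive.toMul x)
  exact ⟨Additive.ofMul c, hc⟩

lemma bsc_clTToP_eq_zero_iff (x : Additive (helper79.ClS L T)) :
    bscClTToP L T p x = 0 ↔ ∃ y, x = p • y := by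
  have h := Fermat.Agent.P1.helper79.clSToModP_ker L T p
  have h2 : bscClTToP L T p x = 0 ↔
      Additive.toMul x ∈ (Fermat.Agent.P1.helper79.clSToModP L T p).ker := Iff.rfl
  rw [h2, h]
  constructor
  · rintro ⟨y, hy⟩
    exact ⟨Additive.ofMul y, hy.symm⟩
  · rintro ⟨y, hy⟩
    exact ⟨Additive.toMul y, hy.symm⟩

lemma bsc_clTToP_op (σ : L ≃ₐ[ℚ] L) (x : Additive (helper79.ClS L T)) :
    bscClTToP L T p (bscClTOp L T σ x) = bscClPOp L T p σ (bscClTToP L T p x) :=
  Fermat.Agent.P1.helper79.clSToModP_clSAut σ (Additive.toMul x)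

instance bscFiniteClT : Finite (Additive (helper79.ClS L T)) :=
  inferInstanceAs (Finite (helper79.ClS L T))

end Proj

end Fermat.Agent.P1.helper50
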