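import Fermat.Agent.P1.helper50_BSClassAbs
import Fermat.Agent.P1.helper50_BSClassAr

/-!
# P1 / module EC / BASE-STAR / package BS-CLASS (helper50, task 820): the assembly

`klass_of : AbsCpqStatement → KumBridgeStatement p T → ClassSelStatement →
  ClassRecStatement p T → helper7.ClassStatement p T`.

* `bsc_isSelmer_of_mem_sUnits` : `T`-units are Selmer elements;
* `bsc_class_identity` : `mult(z, 𝐇) = mult(z, 𝐔) + mult(χ(c) z, Cl_T(K₁)/p)` from the Kummer
  bridge `κ` and the class map `γ` (`Γ := γ ∘ κ⁻¹ : 𝐇 → Cl_T(K₁)` has kernel `𝐔`, image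
  `Cl_T(K₁)[p]` and `σ_c ∘ Γ = Γ ∘ (χ(c) cs)`), via `bsc_class_eq`.
-/

set_option autoImplicit false
set_option linter.unusedSectionVars false
set_option linter.style.haveILetI false

open groupCohomology ExtCitation IsDedekindDomain
open scoped NumberField nonZeroDivisors

noncomputable section

namespace Fermat.Agent.P1.helper50

open Fermat.Agent.S55 Fermat.Agent.P1.helper70 Fermat.Agent.P1.helper63 Fermat.Agent.P1.helper7

/-- `T`-units are Selmer elements -/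
lemma bsc_isSelmer_of_mem_sUnits (L : Type) [Field L] [NumberField L] (T : Finset Nat.Primes)
    (p : ℕ) {u : Lˣ} (hu : u ∈ helper79.sUnits L T) : helper97.IsSelmer L T p u := by
  intro v hv
  have h1 : v.valuation L (u : L) = 1 := hu v hv
  have h2 : v.valuationOfNeZero u = 1 := by
    rw [← WithZero.coe_inj, HeightOneSpectrum.valuationOfNeZero_eq, h1]
    rfl
  rw [h2]
  exact dvd_zero _

variable {p : ℕ} [Fact p.Prime] {T : Finset Nat.Primes}

/-- **the class group identity** `mult(z, 𝐇) = mult(z, 𝐔) + mult(χ(c) z, Cl_T(K₁)/p)` -/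
theorem bsc_class_identity (hCpq : AbsCpqStatement) (hKum : KumBridgeStatement p T)
    (hS : ClassSelStatement) (hp2 : p ≠ 2) (hpT : pPrime p ∈ T)
    (D : BSData p T) [NumberField ↥D.K1] (Y : Rep.{0} (ZMod p) ↥D.C) (hY : YOk D Y) :
    mltIn (D.zY Y) D.cs D.Hsp = mltIn (D.zY Y) D.cs D.Usp +
      mlt (((cycloChar p D.c : (ZMod p)ˣ) : ZMod p) • D.zY Y) (bscClPOp ↥D.K1 T p D.sigmaC) := by
  have hp : p.Prime := Fact.out
  obtain ⟨n, hnp, hn⟩ := bsc_exists_n D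
  obtain ⟨κ, hκker, hκH, hκsurj, hκcs, hκU, -⟩ := hKum hp2 hpT D
  obtain ⟨γ, hγmul, hγone, hγrange, hγσ⟩ := hS p T ↥D.K1
  haveI := bsc_finite_Hsp D hp2 hpT
  haveI : Module.Finite (ZMod p) Y := hY.1
  -- `κ` on products and `p`-th powers
  have hκmul : ∀ a b : (↥D.K1)ˣ, κ (Additive.ofMul (a * b)) =
      κ (Additive.ofMul a) + κ (Additive.ofMul b) := fun a b => map_add κ _ _
  have hκpow : ∀ b : (↥D.K1)ˣ, κ (Additive.ofMul (b ^ p)) = 0 :=
    fun b => (hκker _).2 ⟨b, rfl⟩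
  have hselpow : ∀ b : (↥D.K1)ˣ, helper97.IsSelmer ↥D.K1 T p (b ^ p) := by
    intro b
    rw [← hκH, hκpow]
    exact D.Hsp.zero_mem
  have hγpow : ∀ b : (↥D.K1)ˣ, γ (b ^ p) = 1 := by
    intro b
    rw [hγone _ (hselpow b)]
    exact ⟨1, one_mem _, b, (one_mul _).symm⟩
  -- `γ` depends only on `κ`
  have hwd : ∀ a a' : (↥D.K1)ˣ, helper97.IsSelmer ↥D.K1 T p a →
      helper97.IsSelmer ↥D.K1 T p a' → κ (Additive.ofMul a) = κ (Additive.ofMul a') →
      γ a = γ a' := by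
    intro a a' ha ha' h
    have h1 : κ (Additive.ofMul (a * a'⁻¹)) = 0 := by
      have h2 : Additive.ofMul (a * a'⁻¹) = Additive.ofMul a - Additive.ofMul a' := by
        rw [← div_eq_mul_inv]
        rfl
      rw [h2, map_sub, h, sub_self]
    obtain ⟨b, hb⟩ := (hκker _).1 h1
    have h3 : a = a' * b ^ p := by
      rw [← hb, mul_comm a, mul_inv_cancel_left]
    rw [h3, hγmul _ _ ha' (hselpow b), hγpow, mul_one]
  -- the section of `κ` over `𝐇`
  let sec : ↥D.Hsp → (↥D.K1)ˣ := fun x => (hκsurj x x.2).choose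
  have hsec : ∀ x : ↥D.Hsp, κ (Additive.ofMul (sec x)) = x := fun x => (hκsurj x x.2).choose_spec
  have hsecS : ∀ x : ↥D.Hsp, helper97.IsSelmer ↥D.K1 T p (sec x) := by
    intro x
    rw [← hκH, hsec]
    exact x.2
  -- the map `Γ`
  have hΓG : ∀ (a : (↥D.K1)ˣ) (ha : helper97.IsSelmer ↥D.K1 T p a) (x : ↥D.Hsp),
      κ (Additive.ofMul a) = x → γ (sec x) = γ a := by
    intro a ha x hx
    exact hwd _ _ (hsecS x) ha ((hsec x).trans hx.symm)
  let Γ : ↥D.Hsp →+ Additive (helper79.ClS ↥D.K1 T) :=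
    AddMonoidHom.mk' (fun x => Additive.ofMul (γ (sec x))) (by
      intro x y
      have h1 : helper97.IsSelmer ↥D.K1 T p (sec x * sec y) := by
        rw [← hκH, hκmul, hsec, hsec]
        exact D.Hsp.add_mem x.2 y.2
      have h2 : γ (sec (x + y)) = γ (sec x * sec y) := by
        apply hΓG _ h1
        rw [hκmul, hsec, hsec]
        rfl
      change Additive.ofMul (γ (sec (x + y))) = Additive.ofMul (γ (sec x) * γ (sec y))
      rw [h2, hγmul _ _ (hsecS x) (hsecS y)])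
  have hΓdef : ∀ x : ↥D.Hsp, Γ x = Additive.ofMul (γ (sec x)) := fun x => rfl
  have hΓκ : ∀ (a : (↥D.K1)ˣ) (ha : helper97.IsSelmer ↥D.K1 T p a),
      Γ ⟨κ (Additive.ofMul a), (hκH a).2 ha⟩ = Additive.ofMul (γ a) := by
    intro a ha
    rw [hΓdef, hΓG a ha _ rfl]
  -- `𝐔 ≤ 𝐇`
  have hUH : D.Usp ≤ D.Hsp := by
    intro x hx
    obtain ⟨a, ha, rfl⟩ := (hκU x).1 hx
    exact (hκH a).2 (bsc_isSelmer_of_mem_sUnits _ T p ha)
  -- kernel of `Γ`
  have hΓker : ∀ x : ↥D.Hsp, Γ x = 0 ↔ (x : D.Fun) ∈ D.Usp := by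
    intro x
    constructor
    · intro h
      have h1 : γ (sec x) = 1 := h
      obtain ⟨u, hu, b, hb⟩ := (hγone _ (hsecS x)).1 h1
      rw [hκU]
      refine ⟨u, hu, ?_⟩
      have h2 := hsec x
      rw [hb, hκmul, hκpow, add_zero] at h2
      exact h2
    · intro h
      obtain ⟨u, hu, hux⟩ := (hκU _).1 h
      have huS := bsc_isSelmer_of_mem_sUnits (↥D.K1) T p hu
      have h1 : γ (sec x) = γ u := hΓG u huS x hux
      have h2 : γ u = 1 := by
        rw [hγone _ huS]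
        exact ⟨u, hu, 1, by rw [one_pow, mul_one]⟩
      rw [hΓdef, h1, h2]
      rfl
  -- image of `Γ`
  have hΓrange : ∀ c : Additive (helper79.ClS ↥D.K1 T), c ∈ Set.range Γ ↔ p • c = 0 := by
    intro c
    have h0 : p • c = 0 ↔ (Additive.toMul c) ^ p = 1 := Iff.rfl
    rw [h0, hγrange]
    constructor
    · rintro ⟨x, rfl⟩
      exact ⟨sec x, hsecS x, rfl⟩
    · rintro ⟨a, ha, hac⟩
      refine ⟨⟨κ (Additive.ofMul a), (hκH a).2 ha⟩, ?_⟩
      rw [hΓκ a ha, hac]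
      rfl
  -- twisted equivariance
  set s : ZMod p := ((cycloChar p D.c : (ZMod p)ˣ) : ZMod p) with hs
  have hsinv : s * (((cycloChar p D.c)⁻¹ : (ZMod p)ˣ) : ZMod p) = 1 := by
    rw [hs, ← Units.val_mul, mul_inv_cancel, Units.val_one]
  have hκσ : ∀ a : (↥D.K1)ˣ,
      κ (Additive.ofMul (Units.map (D.sigmaC : ↥D.K1 →* ↥D.K1) a)) =
        s • D.cs (κ (Additive.ofMul a)) := by
    intro a
    rw [hκcs a, smul_smul, hsinv, one_smul]
  have hΓeq : ∀ x : ↥D.Hsp, bscClTOp ↥D.K1 T D.sigmaC (Γ x) =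
      Γ ⟨s • D.cs x, D.Hsp.smul_mem s (bsc_cs_mem_Hsp D x.2)⟩ := by
    intro x
    have h1 : helper97.IsSelmer ↥D.K1 T p (Units.map (D.sigmaC : ↥D.K1 →* ↥D.K1) (sec x)) := by
      rw [← hκH, hκσ, hsec]
      exact D.Hsp.smul_mem s (bsc_cs_mem_Hsp D x.2)
    have h2 : (⟨s • D.cs x, D.Hsp.smul_mem s (bsc_cs_mem_Hsp D x.2)⟩ : ↥D.Hsp) =
        ⟨κ (Additive.ofMul (Units.map (D.sigmaC : ↥D.K1 →* ↥D.K1) (sec x))), (hκH _).2 h1⟩ := by
      apply Subtype.ext
      change s • D.cs (x : D.Fun) = κ _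
      rw [hκσ, hsec]
    rw [h2, hΓκ _ h1, hγσ _ _ (hsecS x)]
    rfl
  exact bsc_class_eq p hCpq n hnp (D.zY Y) (bsc_zY_pow D hY hn) D.cs D.Usp D.Hsp hUH
    (fun x hx => bsc_cs_mem_Hsp D hx) (fun x hx => bsc_cs_pow D hn hx) s (bsc_chi_pow D hn)
    (bscClTOp ↥D.K1 T D.sigmaC) (bsc_clTOp_iterate D hn) Γ hΓker hΓrange hΓeq
    (bscClPOp ↥D.K1 T p D.sigmaC) (bscClTToP ↥D.K1 T p) (bsc_clTToP_surjective _ T p)
    (bsc_clTToP_eq_zero_iff _ T p) (bsc_clTToP_op _ T p D.sigmaC)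

/-- **BS-CLASS, conditional assembly**: `ClassStatement` from `(C)`, the Kummer bridge, `(S)`
and `(R)`. -/
theorem klass_of (hCpq : AbsCpqStatement) (hKum : KumBridgeStatement p T)
    (hS : ClassSelStatement) (hR : ClassRecStatement p T) : ClassStatement p T := by
  intro hp2 hpT hB hF D Y hY
  haveI := bscNumberFieldK1 D
  have h1 := bsc_class_identity hCpq hKum hS hp2 hpT D Y hY
  have h2 := hR hp2 hpT hB hF D Y hY
  rw [h1]
  exact Nat.add_le_add_left h2 _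

end Fermat.Agent.P1.helper50
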