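import Fermat.Agent.S55.helper79_Rec3H1E
import Fermat.Agent.S55.helper75_Rec4Defs

/-!
# P1 / EC / BASE-STAR (helper79): the Galois action on class groups

For number fields `L/K`, `G = Gal(L/K)`, a finite set `T` of rational primes and `p : ℕ`:

* `galRingEquiv σ` : the restriction of `σ` to `𝓞 L`; `mapNZ g`, `galNZ σ` : the maps on nonzero
  ideals;
* `mulEquiv_mk0` : Mathlib's `ClassGroup.mulEquiv g` on classes of integral ideals;
* `quotAut` : automorphisms induced on a quotient by a stable subgroup;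
* `clAut K L : G →* MulAut (ClassGroup (𝓞 L))` and its characterisation `clAut_mk0`;
* `clSAut K L T : G →* MulAut (ClS L T)`, `clSModPAut K L T p : G →* MulAut (ClSModP L p T)` with
  `clSAut_clS`, `clSAut_mk`, `clSModPAut_mk`;
* `clSToModP : ClS L T →* ClSModP L p T`, surjective, equivariant, kernel = `p`-th powers.
-/

set_option autoImplicit false
set_option linter.unusedSectionVars false
set_option linter.style.haveILetI false

open IsDedekindDomain NumberField
open scoped NumberField nonZeroDivisors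

noncomputable section

namespace Fermat.Agent.P1.helper79

open Fermat.Agent.S55 Fermat.Agent.S55.helper79

/-! ## Ring isomorphisms and class groups -/

section RingEquiv

variable {R R' : Type*} [CommRing R] [IsDedekindDomain R] [CommRing R'] [IsDedekindDomain R']

lemma map_ne_bot_of_equiv (g : R ≃+* R') {I : Ideal R} (hI : I ≠ ⊥) :
    I.map (g : R →+* R') ≠ ⊥ := by
  intro h
  apply hI
  rw [eq_bot_iff]
  intro x hx
  have h1 : g x ∈ I.map (g : R →+* R') := Ideal.mem_map_of_mem _ hx
  rw [h] at h1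
  have h2 : g x = 0 := h1
  have h3 : x = 0 := by
    have := congrArg g.symm h2
    simpa using this
  exact h3

/-- the map induced by a ring isomorphism on nonzero ideals -/
def mapNZ (g : R ≃+* R') : (Ideal R)⁰ →* (Ideal R')⁰ where
  toFun I := ⟨(I : Ideal R).map (g : R →+* R'),
    mem_nonZeroDivisors_iff_ne_zero.2 (map_ne_bot_of_equiv g (nonZeroDivisors.coe_ne_zero I))⟩
  map_one' := by
    apply Subtype.ext
    simp [Ideal.one_eq_top, Ideal.map_top]
  map_mul' I J := by
    apply Subtype.ext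
    simp [Ideal.map_mul]

@[simp] lemma coe_mapNZ (g : R ≃+* R') (I : (Ideal R)⁰) :
    ((mapNZ g I : (Ideal R')⁰) : Ideal R') = (I : Ideal R).map (g : R →+* R') := rfl

lemma ringEquivOfRingEquiv_coeIdeal (g : R ≃+* R') (I : Ideal R) :
    FractionalIdeal.ringEquivOfRingEquiv (FractionRing R) (FractionRing R') g
      (I : FractionalIdeal R⁰ (FractionRing R)) =
      ((I.map (g : R →+* R') : Ideal R') : FractionalIdeal R'⁰ (FractionRing R')) := by
  ext x
  rw [FractionalIdeal.mem_coeIdeal]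
  constructor
  · intro hx
    rw [FractionalIdeal.ringEquivOfRingEquiv_apply] at hx
    obtain ⟨y, hy, rfl⟩ := hx
    obtain ⟨i, hi, rfl⟩ := (FractionalIdeal.mem_coeIdeal _).1 hy
    refine ⟨g i, Ideal.mem_map_of_mem _ hi, ?_⟩
    simp
  · rintro ⟨j, hj, rfl⟩
    rw [FractionalIdeal.ringEquivOfRingEquiv_apply]
    have hj' : g.symm j ∈ I := by
      have := Ideal.mem_map_of_mem (g.symm : R' →+* R) hj
      rw [Ideal.map_map] at this
      simpa using this
    refine ⟨algebraMap R (FractionRing R) (g.symm j),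
      (FractionalIdeal.mem_coeIdeal _).2 ⟨_, hj', rfl⟩, ?_⟩
    simp

/-- Mathlib's `ClassGroup.mulEquiv` on the classes of integral ideals -/
theorem mulEquiv_mk0 (g : R ≃+* R') (I : (Ideal R)⁰) :
    ClassGroup.mulEquiv g (ClassGroup.mk0 I) = ClassGroup.mk0 (mapNZ g I) := by
  unfold ClassGroup.mulEquiv
  rw [MulEquiv.trans_apply, MulEquiv.trans_apply, ClassGroup.equiv_mk0, MulEquiv.symm_apply_eq,
    ClassGroup.equiv_mk0]
  rw [QuotientGroup.mk'_apply, QuotientGroup.congr_mk, QuotientGroup.mk'_apply]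
  congr 1
  apply Units.ext
  simp only [Units.coe_mapEquiv, FractionalIdeal.coe_mk0]
  exact ringEquivOfRingEquiv_coeIdeal g I

end RingEquiv

/-! ## Automorphisms of quotients -/

section Quot

variable {G A : Type*} [Group G] [CommGroup A]

/-- the automorphisms induced on the quotient by a stable subgroup -/
def quotAut (φ : G →* MulAut A) (N : Subgroup A) (h : ∀ σ : G, ∀ a ∈ N, φ σ a ∈ N) :
    G →* MulAut (A ⧸ N) where
  toFun σ :=
    { toFun := QuotientGroup.map N N (φ σ).toMonoidHom (fun a ha => h σ a ha)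
      invFun := QuotientGroup.map N N (φ σ⁻¹).toMonoidHom (fun a ha => h σ⁻¹ a ha)
      left_inv := by
        intro x
        induction x using QuotientGroup.induction_on with
        | H a =>
          change ((φ σ⁻¹ (φ σ a) : A) : A ⧸ N) = a
          rw [← MulAut.mul_apply, ← map_mul, inv_mul_cancel, map_one, MulAut.one_apply]
      right_inv := by
        intro x
        induction x using QuotientGroup.induction_on with
        | H a =>
          change ((φ σ (φ σ⁻¹ a) : A) : A ⧸ N) = a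
          rw [← MulAut.mul_apply, ← map_mul, mul_inv_cancel, map_one, MulAut.one_apply]
      map_mul' := map_mul _ }
  map_one' := by
    ext x
    induction x using QuotientGroup.induction_on with
    | H a =>
      change ((φ 1 a : A) : A ⧸ N) = a
      rw [map_one, MulAut.one_apply]
  map_mul' σ τ := by
    ext x
    induction x using QuotientGroup.induction_on with
    | H a =>
      change ((φ (σ * τ) a : A) : A ⧸ N) = ((φ σ (φ τ a) : A) : A ⧸ N)
      rw [map_mul, MulAut.mul_apply]

@[simp] lemma quotAut_mk (φ : G →* MulAut A) (N : Subgroup A)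
    (h : ∀ σ : G, ∀ a ∈ N, φ σ a ∈ N) (σ : G) (a : A) :
    quotAut φ N h σ (a : A ⧸ N) = ((φ σ a : A) : A ⧸ N) := rfl

end Quot

/-! ## The Galois action -/

section Galois

variable (K L : Type*) [Field K] [NumberField K] [Field L] [NumberField L] [Algebra K L]

/-- the restriction of an automorphism to the ring of integers -/
def galRingEquiv (σ : L ≃ₐ[K] L) : 𝓞 L ≃+* 𝓞 L :=
  MulSemiringAction.toRingEquiv (L ≃ₐ[K] L) (𝓞 L) σ

variable {K L} in
@[simp] lemma coe_galRingEquiv (σ : L ≃ₐ[K] L) (x : 𝓞 L) :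
    ((galRingEquiv K L σ x : 𝓞 L) : L) = σ (x : L) := rfl

variable {K L} in
lemma galRingEquiv_apply (σ : L ≃ₐ[K] L) (x : 𝓞 L) : galRingEquiv K L σ x = σ • x := rfl

/-- the action of `Gal(L/K)` on nonzero ideals of `𝓞 L` -/
def galNZ (σ : L ≃ₐ[K] L) : (Ideal (𝓞 L))⁰ →* (Ideal (𝓞 L))⁰ := mapNZ (galRingEquiv K L σ)

variable {K L} in
@[simp] lemma coe_galNZ (σ : L ≃ₐ[K] L) (I : (Ideal (𝓞 L))⁰) :
    ((galNZ K L σ I : (Ideal (𝓞 L))⁰) : Ideal (𝓞 L)) =
      (I : Ideal (𝓞 L)).map ((galRingEquiv K L σ : 𝓞 L ≃+* 𝓞 L) : 𝓞 L →+* 𝓞 L) := rfl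

variable {K L} in
lemma galNZ_one (I : (Ideal (𝓞 L))⁰) : galNZ K L 1 I = I := by
  apply Subtype.ext
  rw [coe_galNZ]
  have : ((galRingEquiv K L 1 : 𝓞 L ≃+* 𝓞 L) : 𝓞 L →+* 𝓞 L) = RingHom.id _ := by
    ext x
    simp
  rw [this, Ideal.map_id]

variable {K L} in
lemma galNZ_mul (σ τ : L ≃ₐ[K] L) (I : (Ideal (𝓞 L))⁰) :
    galNZ K L (σ * τ) I = galNZ K L σ (galNZ K L τ I) := by
  apply Subtype.ext
  rw [coe_galNZ, coe_galNZ, coe_galNZ, Ideal.map_map]
  congr 1

/-- **the Galois action on the class group** -/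
def clAut : (L ≃ₐ[K] L) →* MulAut (ClassGroup (𝓞 L)) where
  toFun σ := ClassGroup.mulEquiv (galRingEquiv K L σ)
  map_one' := by
    ext c
    obtain ⟨I, rfl⟩ := ClassGroup.mk0_surjective c
    rw [mulEquiv_mk0]
    change ClassGroup.mk0 (galNZ K L 1 I) = _
    rw [galNZ_one]
    rfl
  map_mul' σ τ := by
    ext c
    obtain ⟨I, rfl⟩ := ClassGroup.mk0_surjective c
    rw [MulAut.mul_apply, mulEquiv_mk0, mulEquiv_mk0, mulEquiv_mk0]
    change ClassGroup.mk0 (galNZ K L (σ * τ) I) = ClassGroup.mk0 (galNZ K L σ (galNZ K L τ I))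
    rw [galNZ_mul]

variable {K L} in
theorem clAut_mk0 (σ : L ≃ₐ[K] L) (I : (Ideal (𝓞 L))⁰) :
    clAut K L σ (ClassGroup.mk0 I) = ClassGroup.mk0 (galNZ K L σ I) :=
  mulEquiv_mk0 _ I

/-! ## The induced actions on `Cl_T` and `Cl_T / p` -/

variable (T : Finset Nat.Primes) (p : ℕ)

variable {K L T} in
lemma map_mem_primesOverS (σ : L ≃ₐ[K] L) {P : Ideal (𝓞 L)} (hP : P ∈ helper75.primesOverS L T) :
    P.map ((galRingEquiv K L σ : 𝓞 L ≃+* 𝓞 L) : 𝓞 L →+* 𝓞 L) ∈ helper75.primesOverS L T := by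
  obtain ⟨hprime, hne, q, hq, hqP⟩ := hP
  refine ⟨?_, map_ne_bot_of_equiv _ hne, q, hq, ?_⟩
  · haveI := hprime
    exact Ideal.map_isPrime_of_equiv (galRingEquiv K L σ)
  · have := Ideal.mem_map_of_mem ((galRingEquiv K L σ : 𝓞 L ≃+* 𝓞 L) : 𝓞 L →+* 𝓞 L) hqP
    rwa [map_natCast] at this

variable {K L T} in
lemma clAut_mem_classesOverS (σ : L ≃ₐ[K] L) {c : ClassGroup (𝓞 L)}
    (hc : c ∈ helper75.classesOverS L T) : clAut K L σ c ∈ helper75.classesOverS L T := by
  obtain ⟨𝔞, h𝔞, rfl⟩ := hc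
  exact ⟨galNZ K L σ 𝔞, map_mem_primesOverS σ h𝔞, clAut_mk0 σ 𝔞⟩

variable {K L T} in
lemma clAut_mem_closure (σ : L ≃ₐ[K] L) (c : ClassGroup (𝓞 L))
    (hc : c ∈ Subgroup.closure (helper75.classesOverS L T)) :
    clAut K L σ c ∈ Subgroup.closure (helper75.classesOverS L T) := by
  have h1 : clAut K L σ c ∈ (Subgroup.closure (helper75.classesOverS L T)).map
      (clAut K L σ).toMonoidHom := ⟨c, hc, rfl⟩
  rw [MonoidHom.map_closure] at h1
  refine Subgroup.closure_mono ?_ h1
  rintro _ ⟨d, hd, rfl⟩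
  exact clAut_mem_classesOverS σ hd

variable {K L T p} in
lemma clAut_mem_clSubgroup (σ : L ≃ₐ[K] L) (c : ClassGroup (𝓞 L))
    (hc : c ∈ helper75.clSubgroup L p T) : clAut K L σ c ∈ helper75.clSubgroup L p T := by
  have h1 : clAut K L σ c ∈ (helper75.clSubgroup L p T).map (clAut K L σ).toMonoidHom :=
    ⟨c, hc, rfl⟩
  unfold helper75.clSubgroup at h1 ⊢
  rw [MonoidHom.map_closure] at h1
  refine Subgroup.closure_mono ?_ h1
  rintro _ ⟨d, hd | ⟨e, rfl⟩, rfl⟩
  · exact Or.inl (clAut_mem_classesOverS σ hd)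
  · exact Or.inr ⟨clAut K L σ e, (map_pow (clAut K L σ) e p).symm⟩

/-- **the Galois action on the `T`-class group** -/
def clSAut : (L ≃ₐ[K] L) →* MulAut (ClS L T) :=
  quotAut (clAut K L) (Subgroup.closure (helper75.classesOverS L T)) clAut_mem_closure

/-- **the Galois action on `Cl_T / p`** -/
def clSModPAut : (L ≃ₐ[K] L) →* MulAut (helper75.ClSModP L p T) :=
  quotAut (clAut K L) (helper75.clSubgroup L p T) clAut_mem_clSubgroup

variable {K L T} in
@[simp] lemma clSAut_mk (σ : L ≃ₐ[K] L) (c : ClassGroup (𝓞 L)) :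
    clSAut K L T σ (QuotientGroup.mk c) = QuotientGroup.mk (clAut K L σ c) := rfl

variable {K L T p} in
@[simp] lemma clSModPAut_mk (σ : L ≃ₐ[K] L) (c : ClassGroup (𝓞 L)) :
    clSModPAut K L T p σ (QuotientGroup.mk c) = QuotientGroup.mk (clAut K L σ c) := rfl

variable {K L} in
lemma clAut_cl0 (σ : L ≃ₐ[K] L) (I : Ideal (𝓞 L)) :
    clAut K L σ (cl0 L I) =
      cl0 L (I.map ((galRingEquiv K L σ : 𝓞 L ≃+* 𝓞 L) : 𝓞 L →+* 𝓞 L)) := by
  by_cases hI : I = ⊥
  · subst hI
    rw [Ideal.map_bot]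
    unfold cl0
    rw [dif_pos rfl, map_one]
  · rw [cl0_of_ne_bot hI, cl0_of_ne_bot (map_ne_bot_of_equiv _ hI), clAut_mk0]
    rfl

variable {K L T} in
/-- the action on the class of an ideal -/
theorem clSAut_clS (σ : L ≃ₐ[K] L) (I : Ideal (𝓞 L)) :
    clSAut K L T σ (clS L T I) =
      clS L T (I.map ((galRingEquiv K L σ : 𝓞 L ≃+* 𝓞 L) : 𝓞 L →+* 𝓞 L)) := by
  unfold clS
  rw [QuotientGroup.mk'_apply, clSAut_mk, clAut_cl0]
  rfl

/-- the projection `Cl_T → Cl_T / p` -/
def clSToModP : ClS L T →* helper75.ClSModP L p T :=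
  QuotientGroup.map _ _ (MonoidHom.id _) (fun _ hc =>
    Subgroup.closure_mono Set.subset_union_left hc)

variable {L T p} in
@[simp] lemma clSToModP_mk (c : ClassGroup (𝓞 L)) :
    clSToModP L T p (QuotientGroup.mk c) = QuotientGroup.mk c := rfl

lemma clSToModP_surjective : Function.Surjective (clSToModP L T p) := by
  intro x
  induction x using QuotientGroup.induction_on with
  | H c => exact ⟨QuotientGroup.mk c, rfl⟩

/-- the kernel of `Cl_T → Cl_T / p` is the group of `p`-th powers -/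
theorem clSToModP_ker : (clSToModP L T p).ker = (powMonoidHom p : ClS L T →* ClS L T).range := by
  ext x
  induction x using QuotientGroup.induction_on with
  | H c =>
    rw [MonoidHom.mem_ker, clSToModP_mk, QuotientGroup.eq_one_iff]
    constructor
    · intro hc
      unfold helper75.clSubgroup at hc
      induction hc using Subgroup.closure_induction with
      | mem d hd =>
        rcases hd with hd | ⟨e, rfl⟩
        · refine ⟨1, ?_⟩
          rw [map_one]
          exact ((QuotientGroup.eq_one_iff d).2 (Subgroup.subset_closure hd)).symm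
        · exact ⟨QuotientGroup.mk e, rfl⟩
      | one => exact one_mem _
      | mul a b _ _ ha hb => exact mul_mem ha hb
      | inv a _ ha => exact inv_mem ha
    · rintro ⟨d, hd⟩
      induction d using QuotientGroup.induction_on with
      | H d =>
        have h1 : ((d ^ p : ClassGroup (𝓞 L)) : ClS L T) = (c : ClS L T) := hd
        have h2 : (d ^ p)⁻¹ * c ∈ Subgroup.closure (helper75.classesOverS L T) :=
          QuotientGroup.eq.1 h1
        have h3 : Subgroup.closure (helper75.classesOverS L T) ≤ helper75.clSubgroup L p T :=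
          Subgroup.closure_mono Set.subset_union_left
        have h4 : d ^ p ∈ helper75.clSubgroup L p T :=
          Subgroup.subset_closure (Set.mem_union_right _ ⟨d, rfl⟩)
        have h5 := mul_mem h4 (h3 h2)
        rwa [mul_inv_cancel_left] at h5

variable {K L T p} in
/-- `Cl_T → Cl_T / p` is equivariant -/
theorem clSToModP_clSAut (σ : L ≃ₐ[K] L) (x : ClS L T) :
    clSToModP L T p (clSAut K L T σ x) = clSModPAut K L T p σ (clSToModP L T p x) := by
  induction x using QuotientGroup.induction_on with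
  | H c => rfl

end Galois

end Fermat.Agent.P1.helper79
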