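import Fermat.Agent.P1.helper75_ECArtField
import Fermat.Agent.P1.helper79_BSClAct
import Fermat.Agent.S55.helper69_BArLev

/-!
# P1 / EC / BASE-STAR (R) (helper75), part 3: equivariant REC4 in count form
-/

set_option autoImplicit false
set_option linter.unusedVariables false
set_option linter.unusedSectionVars false
set_option linter.style.haveILetI false

open groupCohomology ExtCitation
open scoped NumberField Pointwise IsMulCommutative nonZeroDivisors
open IsDedekindDomain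

noncomputable section

namespace Fermat.Agent.P1.helper75

open Fermat.Agent.S55 Fermat.Agent.S55.helper59 Fermat.Agent.S14 Fermat.Agent.S14.helper91
open Fermat.Agent.S55.helper75

local notation "Qbar" => AlgebraicClosure ℚ

section Conj

variable {K : IntermediateField ℚ Qbar}

/-- `c` stabilises `K` when it restricts to an automorphism `σ` of `K` -/
lemma stab_of_restrict (c : helper59.GQ) (σ : ↥K ≃ₐ[ℚ] ↥K)
    (hσ : ∀ x : ↥K, ((σ x : ↥K) : Qbar) = c (x : Qbar)) (x : Qbar) : x ∈ K ↔ c x ∈ K := by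
  constructor
  · intro hx
    have h1 := hσ ⟨x, hx⟩
    rw [← h1]
    exact (σ ⟨x, hx⟩).2
  · intro hx
    have h1 : c ((σ.symm ⟨c x, hx⟩ : ↥K) : Qbar) = c x := by
      rw [← hσ, AlgEquiv.apply_symm_apply]
    have h2 := c.injective h1
    rw [← h2]
    exact (σ.symm ⟨c x, hx⟩).2

lemma stab_inv (c : helper59.GQ) (hc : ∀ x, x ∈ K ↔ c x ∈ K) (x : Qbar) :
    x ∈ K ↔ c⁻¹ x ∈ K := by
  rw [hc (c⁻¹ x)]
  have : c (c⁻¹ x) = x := by rw [← AlgEquiv.mul_apply, mul_inv_cancel]; rfl
  rw [this]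

lemma conjU_conjU_inv (c : helper59.GQ) (hc : ∀ x, x ∈ K ↔ c x ∈ K) (u : UF K) :
    conjU c hc (conjU c⁻¹ (stab_inv c hc) u) = u := by
  apply Subtype.ext
  simp only [coe_conjU]
  group

lemma conjU_one (c : helper59.GQ) (hc : ∀ x, x ∈ K ↔ c x ∈ K) : conjU c hc (1 : UF K) = 1 := by
  apply Subtype.ext
  simp only [coe_conjU]
  simp

/-- the restriction of `c` to the fixed field of a conjugation-stable subgroup -/
def tauOf (N : Subgroup (UF K)) (c : helper59.GQ) (hc : ∀ x, x ∈ K ↔ c x ∈ K)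
    (hN : ∀ n, n ∈ N ↔ conjU c hc n ∈ N) : ↥(fieldOf K N) ≃+* ↥(fieldOf K N) :=
  restrictRingEquiv (fieldOf K N) (c : Qbar ≃+* Qbar) (fieldOf_stable N c hc hN)

lemma tauOf_algebraMap (N : Subgroup (UF K)) (c : helper59.GQ) (hc : ∀ x, x ∈ K ↔ c x ∈ K)
    (hN : ∀ n, n ∈ N ↔ conjU c hc n ∈ N) (σ : ↥K ≃ₐ[ℚ] ↥K)
    (hσ : ∀ x : ↥K, ((σ x : ↥K) : Qbar) = c (x : Qbar)) (e : ↥K) :
    tauOf N c hc hN (algebraMap ↥K ↥(fieldOf K N) e) =
      algebraMap ↥K ↥(fieldOf K N) (σ.toRingEquiv e) := by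
  apply Subtype.ext
  show c (e : Qbar) = ((σ e : ↥K) : Qbar)
  exact (hσ e).symm

/-- restriction to the fixed field intertwines the two conjugations -/
lemma resFix_conjU (N : Subgroup (UF K)) [Normal ↥K ↥(fieldOf K N)] (c : helper59.GQ)
    (hc : ∀ x, x ∈ K ↔ c x ∈ K) (hN : ∀ n, n ∈ N ↔ conjU c hc n ∈ N) (σ : ↥K ≃ₐ[ℚ] ↥K)
    (hσ : ∀ x : ↥K, ((σ x : ↥K) : Qbar) = c (x : Qbar)) (u : UF K) :
    resFix K (fieldOf K N) (conjU c hc u) =
      conjGal σ.toRingEquiv (tauOf N c hc hN) (tauOf_algebraMap N c hc hN σ hσ)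
        (resFix K (fieldOf K N) u) := by
  apply AlgEquiv.ext
  intro x
  apply Subtype.ext
  rw [resFix_apply_coe, conjGal_apply]
  show c ((u : helper59.GQ) (c⁻¹ (x : Qbar))) =
    c ((resFix K (fieldOf K N) u ((tauOf N c hc hN).symm x) : ↥(fieldOf K N)) : Qbar)
  rw [resFix_apply_coe]
  rfl

end Conj

/-! ## The two sets of homomorphisms -/

section Main

variable (p : ℕ) [Fact p.Prime] (T : Finset Nat.Primes)
  (K : IntermediateField ℚ Qbar) [NumberField ↥K]
  {Y : Type*} [AddCommGroup Y] {ι : Type*}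

/-- `Sha`-homomorphisms: the homomorphisms `h : Gal(ℚbar/K) → Y` which are trivial on an
`T`-level, trivial on all decomposition groups above `T`, and equivariant:
`h (c_i u c_i⁻¹) = r_i (h u)`. -/
def shaHom (c : ι → helper59.GQ) (r : ι → Y → Y) : Set (UF K →* Multiplicative Y) :=
  {h | (∃ N ∈ sLevels T K, N ≤ h.ker) ∧
    (∀ q ∈ T, ∀ A : ValuationSubring Qbar, A.LiesOverPrime ((q : Nat.Primes) : ℕ) →
      ∀ u : UF K, ((u : UF K) : helper59.GQ) ∈ A.decompositionSubgroup ℚ → h u = 1) ∧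
    ∀ (i : ι) (u : UF K) (hu : c i * (u : helper59.GQ) * (c i)⁻¹ ∈ K.fixingSubgroup),
      h ⟨c i * (u : helper59.GQ) * (c i)⁻¹, hu⟩ =
        Multiplicative.ofAdd (r i (Multiplicative.toAdd (h u)))}

/-- class group homomorphisms: the equivariant homomorphisms `Cl_T(K)/p → Y`:
`f (σ_i x) = r_i (f x)`. -/
def clHom (σ : ι → (↥K ≃ₐ[ℚ] ↥K)) (r : ι → Y → Y) : Set (ClSModP ↥K p T →* Multiplicative Y) :=
  {f | ∀ (i : ι) (x : ClSModP ↥K p T),
    f (Fermat.Agent.P1.helper79.clSModPAut ℚ ↥K T p (σ i) x) =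
      Multiplicative.ofAdd (r i (Multiplicative.toAdd (f x)))}

variable {p T K}

lemma shaHom_conjU {c : ι → helper59.GQ} {r : ι → Y → Y} {h : UF K →* Multiplicative Y}
    (hh : h ∈ shaHom T K c r) (i : ι) (hc : ∀ x, x ∈ K ↔ c i x ∈ K) (u : UF K) :
    h (conjU (c i) hc u) = Multiplicative.ofAdd (r i (Multiplicative.toAdd (h u))) :=
  hh.2.2 i u (conjU (c i) hc u).2

/-- the kernel of a `Sha`-homomorphism is stable under the conjugations -/
lemma shaHom_conj_eq_one_iff [Finite Y] {c : ι → helper59.GQ} {r : ι → Y → Y}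
    {h : UF K →* Multiplicative Y}
    (hh : h ∈ shaHom T K c r) (i : ι) (hc : ∀ x, x ∈ K ↔ c i x ∈ K) (n : UF K) :
    h n = 1 ↔ h (conjU (c i) hc n) = 1 := by
  classical
  have h1 : h (conjU (c i) hc 1) = 1 := by rw [conjU_one, map_one]
  constructor
  · intro hn
    have a1 := shaHom_conjU hh i hc n
    have a2 := shaHom_conjU hh i hc 1
    rw [hn] at a1
    rw [map_one] at a2
    rw [a1, ← a2, h1]
  · intro hn
    -- `r i` permutes the (finite) image of `h`
    let V : Set Y := Set.range (fun u : UF K => Multiplicative.toAdd (h u))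
    have hV : ∀ v : ↥V, r i (v : Y) ∈ V := by
      rintro ⟨_, u, rfl⟩
      refine ⟨conjU (c i) hc u, ?_⟩
      show Multiplicative.toAdd (h (conjU (c i) hc u)) = _
      rw [shaHom_conjU hh i hc]
      rfl
    let g : ↥V → ↥V := fun v => ⟨r i (v : Y), hV v⟩
    have hg : Function.Surjective g := by
      rintro ⟨_, u, rfl⟩
      refine ⟨⟨_, conjU (c i)⁻¹ (stab_inv (c i) hc) u, rfl⟩, ?_⟩
      apply Subtype.ext
      show r i (Multiplicative.toAdd (h (conjU (c i)⁻¹ (stab_inv (c i) hc) u))) =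
        Multiplicative.toAdd (h u)
      have := shaHom_conjU hh i hc (conjU (c i)⁻¹ (stab_inv (c i) hc) u)
      rw [conjU_conjU_inv] at this
      rw [this]
      rfl
    have hinj : Function.Injective g := Finite.injective_iff_surjective.mpr hg
    have e1 : g ⟨_, n, rfl⟩ = g ⟨_, 1, rfl⟩ := by
      apply Subtype.ext
      show r i (Multiplicative.toAdd (h n)) = r i (Multiplicative.toAdd (h 1))
      have a1 := shaHom_conjU hh i hc n
      have a2 := shaHom_conjU hh i hc 1
      rw [hn] at a1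
      rw [h1] at a2
      have := a1.symm.trans a2
      exact Multiplicative.ofAdd.injective this
    have e2 := congrArg Subtype.val (hinj e1)
    have e3 : Multiplicative.toAdd (h n) = Multiplicative.toAdd (h 1) := e2
    rw [map_one] at e3
    exact Multiplicative.toAdd.injective e3

/-- the count for a finite family of `Sha`-homomorphisms: the injection `h ↦ h̄ ∘ Art`, where
`Art : Cl_T(K)/p ↠ Gal(M/K)` is the Artin map of the field `M` cut out by the common kernel. -/
theorem card_le_card_clHom (hp2 : p ≠ 2) [Module (ZMod p) Y] [Finite Y]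
    (c : ι → helper59.GQ) (σ : ι → (↥K ≃ₐ[ℚ] ↥K))
    (hσ : ∀ (i : ι) (x : ↥K), ((σ i x : ↥K) : Qbar) = c i (x : Qbar)) (r : ι → Y → Y)
    {α : Type*} [Finite α] (F : α → (UF K →* Multiplicative Y)) (hFinj : Function.Injective F)
    (hF : ∀ a, F a ∈ shaHom T K c r) :
    Nat.card α ≤ Nat.card ↥(clHom p T K σ r) := by
  classical
  by_cases hne : Nonempty α
  swap
  · rw [not_nonempty_iff] at hne
    rw [Nat.card_of_isEmpty]
    exact Nat.zero_le _
  obtain ⟨a₀⟩ := hne
  have hK : K.IsUnramifiedOutside T := by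
    obtain ⟨⟨N, ⟨E, hE, -, hle, -⟩, -⟩, -⟩ := hF a₀
    exact hE.of_le hle
  obtain ⟨N₁, hN₁, hN₁le⟩ := exists_level_le_of_finite (helper69.sLevelsStr T K hK)
    (fun a : α => (F a).ker) (fun a => (hF a).1)
  obtain ⟨E₀, hE₀, hE₀n, hKE, rfl⟩ := hN₁
  have hcs : ∀ i, ∀ x, x ∈ K ↔ c i x ∈ K := fun i => stab_of_restrict (c i) (σ i) (hσ i)
  let N : Subgroup (UF K) := ⨅ a : α, (F a).ker
  haveI hNn : N.Normal := Subgroup.normal_iInf_normal (fun a => inferInstance)
  have hmem : ∀ u, u ∈ N ↔ ∀ a : α, F a u = 1 := by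
    intro u
    simp only [N, Subgroup.mem_iInf, MonoidHom.mem_ker]
  have hle : E₀.fixingSubgroup.subgroupOf K.fixingSubgroup ≤ N := le_iInf hN₁le
  have hcomm : ∀ g h : UF K, g * h * g⁻¹ * h⁻¹ ∈ N := by
    intro g h
    rw [hmem]
    intro x
    rw [map_mul, map_mul, map_mul, map_inv, map_inv]
    rw [mul_comm (F x g) (F x h), mul_inv_cancel_right, mul_inv_cancel]
  have hpow : ∀ g : UF K, g ^ p ∈ N := by
    intro g
    rw [hmem]
    intro x
    rw [map_pow]
    apply Multiplicative.toAdd.injective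
    rw [toAdd_pow, toAdd_one]
    exact ZModModule.char_nsmul_eq_zero p _
  have hdec : ∀ q : Nat.Primes, q ∈ T → ∀ A : ValuationSubring Qbar, A.LiesOverPrime (q : ℕ) →
      ∀ s : UF K, ((s : UF K) : helper59.GQ) ∈ A.decompositionSubgroup ℚ → s ∈ N :=
    fun q hq A hA s hs => (hmem s).mpr (fun a => (hF a).2.1 q hq A hA s hs)
  obtain ⟨hMfin, hMgal, hNF, hAb, hker, hunr, φ, hφsurj, hφ⟩ :=
    exists_artin_of_subgroup hp2 N E₀ hE₀ hKE hle hcomm hpow hdec
  haveI : Normal ↥K ↥(fieldOf K N) := hMgal.to_normal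
  haveI : Normal ↥K Qbar := (isGalois_Qbar_over K).to_normal
  have hsurj : Function.Surjective (resFix K (fieldOf K N)) := resFix_surjective K (fieldOf K N)
  have hN : ∀ i, ∀ n, n ∈ N ↔ conjU (c i) (hcs i) n ∈ N := by
    intro i n
    rw [hmem, hmem]
    exact forall_congr' (fun a => shaHom_conj_eq_one_iff (hF a) i (hcs i) n)
  -- the induced homomorphisms on `Gal(M/K)`
  have hkerle : ∀ a : α, (resFix K (fieldOf K N)).ker ≤ (F a).ker := by
    intro a u hu
    exact MonoidHom.mem_ker.mpr ((hmem u).mp ((hker u).mp hu) a)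
  let bar : α → (Gal(↥(fieldOf K N)/↥K) →* Multiplicative Y) := fun a =>
    (resFix K (fieldOf K N)).liftOfSurjective hsurj ⟨F a, hkerle a⟩
  have hbar : ∀ (a : α) (u : UF K), bar a (resFix K (fieldOf K N) u) = F a u :=
    fun a u => MonoidHom.liftOfRightInverse_comp_apply _ _ _ ⟨F a, hkerle a⟩ u
  have hcl : ∀ a : α, (bar a).comp φ ∈ clHom p T K σ r := by
    intro a i x
    induction x using QuotientGroup.induction_on with
    | H b =>
      obtain ⟨𝔞, rfl⟩ := ClassGroup.mk0_surjective b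
      rw [Fermat.Agent.P1.helper79.clSModPAut_mk, Fermat.Agent.P1.helper79.clAut_mk0]
      simp only [MonoidHom.comp_apply]
      rw [hφ, hφ]
      obtain ⟨u, hu⟩ := hsurj (artinMap ↥K ↥(fieldOf K N) 𝔞)
      have e1 : artinMap ↥K ↥(fieldOf K N) (Fermat.Agent.P1.helper79.galNZ ℚ ↥K (σ i) 𝔞) =
          conjGal (σ i).toRingEquiv (tauOf N (c i) (hcs i) (hN i))
            (tauOf_algebraMap N (c i) (hcs i) (hN i) (σ i) (hσ i))
            (artinMap ↥K ↥(fieldOf K N) 𝔞) := by
        have := artinMap_map (σ i).toRingEquiv (tauOf N (c i) (hcs i) (hN i))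
          (tauOf_algebraMap N (c i) (hcs i) (hN i) (σ i) (hσ i)) hunr (𝔞 : Ideal (𝓞 ↥K))
          (nonZeroDivisors.coe_ne_zero 𝔞)
        rw [← this]
        congr 1
      rw [e1, ← hu, ← resFix_conjU N (c i) (hcs i) (hN i) (σ i) (hσ i) u, hbar, hbar,
        shaHom_conjU (hF a) i (hcs i)]
  haveI : Finite (ClSModP ↥K p T →* Multiplicative Y) :=
    Finite.of_injective (fun f : ClSModP ↥K p T →* Multiplicative Y => (f : ClSModP ↥K p T →
      Multiplicative Y)) DFunLike.coe_injective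
  refine Nat.card_le_card_of_injective (fun a => ⟨(bar a).comp φ, hcl a⟩) ?_
  intro a a' hh
  have e1 : (bar a).comp φ = (bar a').comp φ := congrArg Subtype.val hh
  have e2 : bar a = bar a' := by
    apply MonoidHom.ext
    intro x
    obtain ⟨b, rfl⟩ := hφsurj x
    exact DFunLike.congr_fun e1 b
  apply hFinj
  apply MonoidHom.ext
  intro u
  rw [← hbar a u, ← hbar a' u, e2]

/-- the equivariant homomorphisms `Cl_T(K)/p → Y` form a finite set -/
instance finite_clHom [Finite Y] (σ : ι → (↥K ≃ₐ[ℚ] ↥K)) (r : ι → Y → Y) :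
    Finite ↥(clHom p T K σ r) := by
  haveI : Finite (ClSModP ↥K p T →* Multiplicative Y) :=
    Finite.of_injective (fun f : ClSModP ↥K p T →* Multiplicative Y => (f : ClSModP ↥K p T →
      Multiplicative Y)) DFunLike.coe_injective
  infer_instance

/-- **the `Sha`-homomorphisms form a finite set** -/
theorem finite_shaHom (hp2 : p ≠ 2) [Module (ZMod p) Y] [Finite Y]
    (c : ι → helper59.GQ) (σ : ι → (↥K ≃ₐ[ℚ] ↥K))
    (hσ : ∀ (i : ι) (x : ↥K), ((σ i x : ↥K) : Qbar) = c i (x : Qbar)) (r : ι → Y → Y) :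
    Finite ↥(shaHom T K c r) := by
  classical
  by_contra hinf
  rw [not_finite_iff_infinite] at hinf
  obtain ⟨s, hs⟩ := Infinite.exists_subset_card_eq ↥(shaHom T K c r)
    (Nat.card ↥(clHom p T K σ r) + 1)
  have h1 := card_le_card_clHom hp2 c σ hσ r (α := ↥s)
    (fun a => ((a : ↥(shaHom T K c r)) : UF K →* Multiplicative Y))
    (fun a b hab => Subtype.ext (Subtype.ext hab)) (fun a => a.1.2)
  rw [Nat.card_eq_fintype_card, Fintype.card_coe, hs] at h1
  omega

/-- **(R), equivariant REC4 in count form**: there are at most as many equivariant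
`Sha`-homomorphisms `Gal(ℚbar/K) → Y` as equivariant homomorphisms `Cl_T(K)/p → Y`. -/
theorem card_shaHom_le (hp2 : p ≠ 2) [Module (ZMod p) Y] [Finite Y]
    (c : ι → helper59.GQ) (σ : ι → (↥K ≃ₐ[ℚ] ↥K))
    (hσ : ∀ (i : ι) (x : ↥K), ((σ i x : ↥K) : Qbar) = c i (x : Qbar)) (r : ι → Y → Y) :
    Nat.card ↥(shaHom T K c r) ≤ Nat.card ↥(clHom p T K σ r) := by
  haveI : Finite ↥(shaHom T K c r) := finite_shaHom hp2 c σ hσ r
  exact card_le_card_clHom hp2 c σ hσ r (fun h : ↥(shaHom T K c r) => h.1)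
    Subtype.val_injective (fun h => h.2)

end Main

end Fermat.Agent.P1.helper75
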