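import Fermat.Agent.P1.helper50_BSClassAr
import Fermat.Agent.P1.helper75_ECShaCl
import Fermat.Agent.P1.helper24_BSAbs

/-!
# P1 / module EC / BASE-STAR / package BS-CLASS (helper50, task 820): the count side of (R)

* `bsc_card_clHom` : `#ClHom = p ^ mult(σ on Cl_T/p, a)` for `helper75.clHom` with one operator;
* `bsc_card_eqvIn` : `#Hom_{a,b}(A, W) = p ^ mltIn a b W`;
* `classRec_of_card` : `ClassRecStatement p T` from `helper75.card_shaHom_le` and an injection
  of `eqvIn (yTw) cs 𝐒𝐡` into `helper75.shaHom` (count form).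
-/

set_option autoImplicit false
set_option linter.unusedSectionVars false
set_option linter.style.haveILetI false

open groupCohomology ExtCitation
open scoped NumberField nonZeroDivisors

noncomputable section

namespace Fermat.Agent.P1.helper50

open Fermat.Agent.S55 Fermat.Agent.P1.helper70 Fermat.Agent.P1.helper63 Fermat.Agent.P1.helper7

section Count

variable {p : ℕ} [Fact p.Prime]

/-- `#Hom_{a,b}(A, W) = p ^ mltIn a b W` -/
lemma bsc_card_eqvIn {A B : Type} [AddCommGroup A] [Module (ZMod p) A] [AddCommGroup B]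
    [Module (ZMod p) B] [Module.Finite (ZMod p) A] (a : A →ₗ[ZMod p] A) (b : B →ₗ[ZMod p] B)
    (W : Submodule (ZMod p) B) [Module.Finite (ZMod p) ↥W] :
    Nat.card ↥(eqvIn a b W) = p ^ mltIn a b W := by
  haveI := Fermat.Agent.P1.helper24.bs_finite_eqvIn a b W
  rw [Module.natCard_eq_pow_finrank (K := ZMod p), Nat.card_zmod]
  rfl

/-- `#Hom_{a,b}(A, B) = p ^ mlt a b` -/
lemma bsc_card_eqv {A B : Type} [AddCommGroup A] [Module (ZMod p) A] [AddCommGroup B]
    [Module (ZMod p) B] [Module.Finite (ZMod p) A] [Module.Finite (ZMod p) B]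
    (a : A →ₗ[ZMod p] A) (b : B →ₗ[ZMod p] B) :
    Nat.card ↥(eqv a b) = p ^ mlt a b := by
  rw [Module.natCard_eq_pow_finrank (K := ZMod p), Nat.card_zmod]
  rfl

variable (T : Finset Nat.Primes) (K : IntermediateField ℚ (AlgebraicClosure ℚ))
  [NumberField ↥K]

instance bscFiniteClP : Finite (BscClP ↥K T p) :=
  inferInstanceAs (Finite (Additive (helper75.ClSModP ↥K p T)))

instance bscModuleFiniteClP : Module.Finite (ZMod p) (BscClP ↥K T p) := Module.Finite.of_finite

/-- `#ClHom = p ^ mult(σ on Cl_T/p, a)` -/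
lemma bsc_card_clHom {Y' : Type} [AddCommGroup Y'] [Module (ZMod p) Y']
    [Module.Finite (ZMod p) Y'] (σ : ↥K ≃ₐ[ℚ] ↥K) (a : Y' →ₗ[ZMod p] Y') :
    Nat.card ↥(Fermat.Agent.P1.helper75.clHom p T K (fun _ : Unit => σ) (fun _ : Unit => ⇑a)) =
      p ^ mlt (bscClPOp ↥K T p σ) a := by
  rw [← bsc_card_eqv]
  symm
  refine Nat.card_congr (Equiv.ofBijective
    (fun φ : ↥(eqv (bscClPOp ↥K T p σ) a) =>
      (⟨AddMonoidHom.toMultiplicativeRight
        ((φ : BscClP ↥K T p →ₗ[ZMod p] Y').toAddMonoidHom :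
          Additive (helper75.ClSModP ↥K p T) →+ Y'), by
        intro _ x
        have h := LinearMap.congr_fun φ.2 (Additive.ofMul x)
        exact congrArg Multiplicative.ofAdd h⟩ :
        ↥(Fermat.Agent.P1.helper75.clHom p T K (fun _ : Unit => σ) (fun _ : Unit => ⇑a))))
    ⟨?_, ?_⟩)
  · intro φ ψ h
    apply Subtype.ext
    ext x
    have h2 := congrArg (fun f : ↥(Fermat.Agent.P1.helper75.clHom p T K (fun _ : Unit => σ)
      (fun _ : Unit => ⇑a)) => Multiplicative.toAdd (f.1 (Additive.toMul x))) h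
    exact h2
  · rintro ⟨f, hf⟩
    refine ⟨⟨AddMonoidHom.toZModLinearMap p
      (MonoidHom.toAdditiveLeft f : BscClP ↥K T p →+ Y'), ?_⟩, ?_⟩
    · ext x
      have h := hf () (Additive.toMul x)
      exact congrArg Multiplicative.toAdd h
    · apply Subtype.ext
      ext x
      rfl

end Count

section Final

variable {p : ℕ} [Fact p.Prime] {T : Finset Nat.Primes}

/-- **(R), consumer shape, from the count form**: it suffices to inject `eqvIn (yTw) cs 𝐒𝐡`
into `helper75.shaHom` for `Y' = Y^*`, `r = χ(c) z`. -/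
theorem classRec_of_card
    (hcard : p ≠ 2 → pPrime p ∈ T → ∀ (D : BSData p T) [NumberField ↥D.K1]
      (Y : Rep.{0} (ZMod p) ↥D.C), YOk D Y →
      Nat.card ↥(eqvIn (D.yTw Y) D.cs D.Shsp) ≤
        Nat.card ↥(Fermat.Agent.P1.helper75.shaHom T D.K1 (fun _ : Unit => D.c)
          (fun _ : Unit => ⇑(((cycloChar p D.c : (ZMod p)ˣ) : ZMod p) • D.zY Y)))) :
    ClassRecStatement p T := by
  intro hp2 hpT _ _ D _ Y hY
  have hp : p.Prime := Fact.out
  haveI : Module.Finite (ZMod p) Y := hY.1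
  haveI : Finite (Module.Dual (ZMod p) Y) := Module.finite_of_finite (ZMod p)
  haveI hH := bsc_finite_Hsp D hp2 hpT
  have hShH : D.Shsp ≤ D.Hsp := fun x hx => hx.1
  haveI : Module.Finite (ZMod p) ↥D.Shsp := Submodule.finiteDimensional_of_le hShH
  have h1 := hcard hp2 hpT D Y hY
  have h2 := Fermat.Agent.P1.helper75.card_shaHom_le (p := p) (T := T) (K := D.K1) hp2
    (fun _ : Unit => D.c) (fun _ : Unit => D.sigmaC) (fun _ x => D.coe_sigmaC x)
    (fun _ : Unit => ⇑(((cycloChar p D.c : (ZMod p)ˣ) : ZMod p) • D.zY Y))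
  rw [bsc_card_eqvIn] at h1
  rw [bsc_card_clHom] at h2
  have h3 := (Nat.pow_le_pow_iff_right hp.one_lt).1 (h1.trans h2)
  rw [Fermat.Agent.P1.helper24.absSymm] at h3
  exact h3

end Final

end Fermat.Agent.P1.helper50
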