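import Fermat.Agent.P1.helper7_BSDefs2
import Fermat.Agent.P1.helper79_BSClAct

/-!
# P1 / module EC / BASE-STAR / package BS-CLASS (helper50, task 820): definitions

Consumer side of the assembly `klass : helper7.ClassStatement p T`.

* `D.ClP`       : `Cl_T(K₁) / p` as an `𝔽_p`-vector space (additive notation);
* `D.clPOp`     : the operator on `Cl_T(K₁) / p` induced by `σ_c`;
* `D.clTOp`     : the additive endomorphism of `Cl_T(K₁)` induced by `σ_c`;
* `ClassSelStatement` (**(S)**, consumer shape) : the class map `γ` on Selmer elements of a number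
  field: multiplicative, `γ a = 1 ↔ a ∈ (T-units) · (p-th powers)`, image `= Cl_T[p]`, Galois
  equivariant;
* `ClassRecStatement p T` (**(R)**, consumer shape) :
  `mult(y', 𝐒𝐡) ≤ mult(χ(c) z, Cl_T(K₁)/p)`.

DEFINITIONS ONLY.
-/

set_option autoImplicit false
set_option linter.unusedSectionVars false
set_option linter.style.haveILetI false

open groupCohomology ExtCitation
open scoped NumberField nonZeroDivisors

noncomputable section

namespace Fermat.Agent.P1.helper50

open Fermat.Agent.S55 Fermat.Agent.P1.helper70 Fermat.Agent.P1.helper63 Fermat.Agent.P1.helper7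

/-! ## `Cl_T / p` as a vector space -/

section ClP

variable (L : Type) [Field L] [NumberField L] (T : Finset Nat.Primes) (p : ℕ) [Fact p.Prime]

/-- `Cl_T(L) / p` in additive notation -/
def BscClP : Type := Additive (helper75.ClSModP L p T)

instance bscClPAddCommGroup : AddCommGroup (BscClP L T p) :=
  inferInstanceAs (AddCommGroup (Additive (helper75.ClSModP L p T)))

/-- the class of `c ∈ Cl(L)` in `Cl_T(L) / p` -/
def bscClPMk : Additive (ClassGroup (𝓞 L)) →+ BscClP L T p :=
  MonoidHom.toAdditive (QuotientGroup.mk' (helper75.clSubgroup L p T))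

variable {L T p} in
lemma bscClPMk_surjective : Function.Surjective (bscClPMk L T p) := by
  intro x
  obtain ⟨c, hc⟩ := QuotientGroup.mk'_surjective (helper75.clSubgroup L p T) (Additive.toMul x)
  exact ⟨Additive.ofMul c, hc⟩

variable {L T p} in
lemma bscClP_nsmul (x : BscClP L T p) : p • x = 0 := by
  obtain ⟨c, rfl⟩ := bscClPMk_surjective x
  rw [← map_nsmul]
  change ((QuotientGroup.mk' (helper75.clSubgroup L p T)) ((Additive.toMul c) ^ p) :
    helper75.ClSModP L p T) = 1
  rw [QuotientGroup.mk'_apply, QuotientGroup.eq_one_iff]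
  exact Subgroup.subset_closure (Set.mem_union_right _ ⟨_, rfl⟩)

instance bscClPModule : Module (ZMod p) (BscClP L T p) :=
  AddCommGroup.zmodModule bscClP_nsmul

/-- the projection `Cl_T(L) → Cl_T(L) / p` in additive notation -/
def bscClTToP : Additive (helper79.ClS L T) →+ BscClP L T p :=
  MonoidHom.toAdditive (Fermat.Agent.P1.helper79.clSToModP L T p)

/-- the additive endomorphism of `Cl_T(L)` induced by an automorphism of `L` -/
def bscClTOp (σ : L ≃ₐ[ℚ] L) : Additive (helper79.ClS L T) →+ Additive (helper79.ClS L T) :=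
  MonoidHom.toAdditive (Fermat.Agent.P1.helper79.clSAut ℚ L T σ).toMonoidHom

/-- the operator on `Cl_T(L) / p` induced by an automorphism of `L` -/
def bscClPOp (σ : L ≃ₐ[ℚ] L) : BscClP L T p →ₗ[ZMod p] BscClP L T p :=
  AddMonoidHom.toZModLinearMap p
    (MonoidHom.toAdditive (Fermat.Agent.P1.helper79.clSModPAut ℚ L T p σ).toMonoidHom :
      BscClP L T p →+ BscClP L T p)

variable {L T p} in
lemma bscClPOp_mk (σ : L ≃ₐ[ℚ] L) (c : Additive (ClassGroup (𝓞 L))) :
    bscClPOp L T p σ (bscClPMk L T p c) =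
      bscClPMk L T p (Additive.ofMul (Fermat.Agent.P1.helper79.clAut ℚ L σ (Additive.toMul c))) :=
  rfl

end ClP

/-! ## The consumer shapes of (S) and (R) -/

/-- **(S)**, consumer shape: the class map on the Selmer elements of a number field. -/
def ClassSelStatement : Prop :=
  ∀ (p : ℕ) [Fact p.Prime] (T : Finset Nat.Primes) (L : Type) [Field L] [NumberField L],
    ∃ γ : Lˣ → helper79.ClS L T,
      (∀ a b : Lˣ, helper97.IsSelmer L T p a → helper97.IsSelmer L T p b →
        γ (a * b) = γ a * γ b) ∧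
      (∀ a : Lˣ, helper97.IsSelmer L T p a →
        (γ a = 1 ↔ ∃ u ∈ helper79.sUnits L T, ∃ b : Lˣ, a = u * b ^ p)) ∧
      (∀ c : helper79.ClS L T, c ^ p = 1 ↔ ∃ a : Lˣ, helper97.IsSelmer L T p a ∧ γ a = c) ∧
      (∀ (σ : L ≃ₐ[ℚ] L) (a : Lˣ), helper97.IsSelmer L T p a →
        γ (Units.map (σ : L →* L) a) = Fermat.Agent.P1.helper79.clSAut ℚ L T σ (γ a))

variable (p : ℕ) [Fact p.Prime] (T : Finset Nat.Primes)

/-- **(R)**, consumer shape: `mult(y', 𝐒𝐡) ≤ mult(χ(c) z, Cl_T(K₁)/p)`. -/
def ClassRecStatement : Prop :=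
  p ≠ 2 → pPrime p ∈ T → BaseInputStatement p T → FinOut p T →
  ∀ (D : BSData p T) [NumberField ↥D.K1] (Y : Rep.{0} (ZMod p) ↥D.C), YOk D Y →
    mltIn (D.yTw Y) D.cs D.Shsp ≤
      mlt (((cycloChar p D.c : (ZMod p)ˣ) : ZMod p) • D.zY Y) (bscClPOp ↥D.K1 T p D.sigmaC)

end Fermat.Agent.P1.helper50
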