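import Fermat.Agent.P1.helper50_BSClassCnt
import Fermat.Agent.S55.helper48_Rec4BrTr
import Fermat.Agent.S55.helper74_LocalLevels

/-!
# P1 / module EC / BASE-STAR / package BS-CLASS (helper50, task 820): `(R)` in consumer shape

`bsc_classRec : ClassRecStatement p T`, from `helper75.card_shaHom_le` (equivariant REC4 in count
form) through `classRec_of_card`: the transposition `φ ↦ h_φ`, `h_φ(u)(y) = φ(y)(u)`, injects
`Hom_{y', cs}(Y, 𝐒𝐡)` into `helper75.shaHom` for `Y' = Y^*` and `r = χ(c) z`.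

* `bsc_exists_conj_local` : every element of a decomposition group over `q` is a conjugate of an
  element of the image of the local Galois group at `q`;
* `bsc_exists_level`      : the values of `φ : A → 𝐇` vanish on a common level;
* `bscTr`, `bscTr_mem_shaHom`, `bscTr_injective`, `bsc_finite_shaHom`.
-/

set_option autoImplicit false
set_option linter.unusedSectionVars false
set_option linter.style.haveILetI false

open groupCohomology ExtCitation
open scoped NumberField nonZeroDivisors Pointwise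

noncomputable section

namespace Fermat.Agent.P1.helper50

open Fermat.Agent.S55 Fermat.Agent.P1.helper70 Fermat.Agent.P1.helper63 Fermat.Agent.P1.helper7

/-- every element of a decomposition group over `q` is a conjugate of an element of the image of
the local Galois group at `q` -/
lemma bsc_exists_conj_local (q : Nat.Primes) (A : ValuationSubring (AlgebraicClosure ℚ))
    (hA : A.LiesOverPrime (q : ℕ)) {u : GQ} (hu : u ∈ A.decompositionSubgroup ℚ) :
    ∃ (g : GQ) (h : primeLocalGaloisGroup q), u = g * primeLocalToGlobal q h * g⁻¹ := by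
  obtain ⟨γ, hγ⟩ := Fermat.Agent.S55.helper48.exists_smul_eq_of_liesOverPrime q.2 A
    (primeLocalPlace q) hA (Fermat.Agent.S55.helper74.primeLocalPlace_liesOverPrime q)
  have huA : u • A = A := hu
  have hdec : γ⁻¹ * u * γ ∈ (primeLocalPlace q).decompositionSubgroup ℚ := by
    change (γ⁻¹ * u * γ) • primeLocalPlace q = primeLocalPlace q
    rw [mul_smul, mul_smul, hγ, huA, ← hγ, inv_smul_smul]
  obtain ⟨t, ht⟩ := Fermat.Agent.S55.helper74.exists_primeLocalToGlobal_eq q hdec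
  refine ⟨γ, t, ?_⟩
  rw [ht]
  group

variable {p : ℕ} [Fact p.Prime] {T : Finset Nat.Primes} (D : BSData p T)

/-! ## Levels -/

lemma bsc_Hsp_zero_of_mem {x : D.Fun} (hx : x ∈ D.Hsp) :
    ∃ N ∈ (galLevels T).mem, N ≤ D.pSub ∧ ∀ u : ↥D.pSub, (u : GQ) ∈ N → x u = 0 := by
  rw [bsc_mem_Hsp_iff] at hx
  obtain ⟨⟨N', ⟨N, hN, hNP, rfl⟩, hlev⟩, hadd⟩ := hx
  refine ⟨N, hN, hNP, fun u hu => ?_⟩
  have h0 : x 1 = 0 := by
    have := hadd 1 1
    rw [mul_one] at this
    exact left_eq_add.mp this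
  have h1 := hlev 1 u (Subgroup.mem_subgroupOf.2 hu)
  rw [one_mul] at h1
  rw [h1, h0]

/-- the values of `φ : A → 𝐇` vanish on a common level -/
lemma bsc_exists_level {A : Type} [AddCommGroup A] [Module (ZMod p) A]
    [Module.Finite (ZMod p) A] (φ : A →ₗ[ZMod p] D.Fun) (hφ : ∀ y, φ y ∈ D.Hsp) :
    ∃ N ∈ (galLevels T).mem, N ≤ D.pSub ∧ ∀ (y : A) (u : ↥D.pSub), (u : GQ) ∈ N → φ y u = 0 := by
  classical
  obtain ⟨S, hS⟩ := (Module.Finite.fg_top : (⊤ : Submodule (ZMod p) A).FG)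
  have hfin : ∀ S' : Finset A, ∃ N ∈ (galLevels T).mem, N ≤ D.pSub ∧
      ∀ y ∈ S', ∀ u : ↥D.pSub, (u : GQ) ∈ N → φ y u = 0 := by
    intro S'
    induction S' using Finset.induction_on with
    | empty => exact ⟨D.N₀, D.hN₀, D.le_pSub, fun y hy => absurd hy (Finset.notMem_empty y)⟩
    | insert a S' _ ih =>
      obtain ⟨N₁, hN₁, hN₁P, h₁⟩ := ih
      obtain ⟨N₂, hN₂, hN₂P, h₂⟩ := bsc_Hsp_zero_of_mem D (hφ a)
      obtain ⟨N, hN, hle⟩ := (galLevels T).directed N₁ hN₁ N₂ hN₂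
      refine ⟨N, hN, (hle.trans inf_le_left).trans hN₁P, fun y hy u hu => ?_⟩
      rcases Finset.mem_insert.1 hy with rfl | hy
      · exact h₂ u (hle hu).2
      · exact h₁ y hy u (hle hu).1
  obtain ⟨N, hN, hNP, h⟩ := hfin S
  refine ⟨N, hN, hNP, fun y u hu => ?_⟩
  have hy : y ∈ Submodule.span (ZMod p) (S : Set A) := by
    rw [hS]
    exact Submodule.mem_top
  induction hy using Submodule.span_induction with
  | mem x hx => exact h x hx u hu
  | zero =>
    rw [map_zero]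
    rfl
  | add x y _ _ hx hy =>
    rw [map_add]
    change φ x u + φ y u = 0
    rw [hx, hy, add_zero]
  | smul a x _ hx =>
    rw [map_smul]
    change a • φ x u = 0
    rw [hx, smul_zero]

/-! ## The transposition -/

/-- transport `Gal(ℚbar/K₁) → P` -/
def bscToP (u : helper59.UF D.K1) : ↥D.pSub :=
  ⟨(u : GQ), (SetLike.ext_iff.1 (bsc_fixingSubgroup_K1 D) _).1 u.2⟩

/-- transport `P → Gal(ℚbar/K₁)` -/
def bscOfP (u : ↥D.pSub) : helper59.UF D.K1 :=
  ⟨(u : GQ), (SetLike.ext_iff.1 (bsc_fixingSubgroup_K1 D) _).2 u.2⟩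

@[simp] lemma bscToP_ofP (u : ↥D.pSub) : bscToP D (bscOfP D u) = u := rfl

@[simp] lemma bscOfP_toP (u : helper59.UF D.K1) : bscOfP D (bscToP D u) = u := rfl

lemma bscToP_mul (u v : helper59.UF D.K1) : bscToP D (u * v) = bscToP D u * bscToP D v := rfl

lemma bscOfP_mul (u v : ↥D.pSub) : bscOfP D (u * v) = bscOfP D u * bscOfP D v := rfl

variable (Y : Rep.{0} (ZMod p) ↥D.C)

/-- the value `h_φ(u) : y ↦ φ(y)(u)` -/
def bscTrVal (φ : Y →ₗ[ZMod p] D.Fun) (u : ↥D.pSub) : Module.Dual (ZMod p) Y where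
  toFun y := φ y u
  map_add' y y' := by
    rw [map_add]
    rfl
  map_smul' a y := by
    rw [map_smul]
    rfl

@[simp] lemma bscTrVal_apply (φ : Y →ₗ[ZMod p] D.Fun) (u : ↥D.pSub) (y : Y) :
    bscTrVal D Y φ u y = φ y u := rfl

/-- the transposed homomorphism `h_φ : Gal(ℚbar/K₁) → Y^*` -/
def bscTr (φ : Y →ₗ[ZMod p] D.Fun) (hφ : ∀ y, φ y ∈ D.Hsp) :
    helper59.UF D.K1 →* Multiplicative (Module.Dual (ZMod p) Y) where
  toFun u := Multiplicative.ofAdd (bscTrVal D Y φ (bscToP D u))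
  map_one' := by
    apply Multiplicative.toAdd.injective
    ext y
    change φ y 1 = 0
    have h := ((bsc_mem_Hsp_iff D _).1 (hφ y)).2 1 1
    rw [mul_one] at h
    exact left_eq_add.mp h
  map_mul' u v := by
    apply Multiplicative.toAdd.injective
    ext y
    change φ y (bscToP D u * bscToP D v) = φ y (bscToP D u) + φ y (bscToP D v)
    exact ((bsc_mem_Hsp_iff D _).1 (hφ y)).2 _ _

lemma bscTr_apply (φ : Y →ₗ[ZMod p] D.Fun) (hφ : ∀ y, φ y ∈ D.Hsp) (u : helper59.UF D.K1)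
    (y : Y) : Multiplicative.toAdd (bscTr D Y φ hφ u) y = φ y (bscToP D u) := rfl

variable {Y}

/-- `h_φ` is a `Sha`-homomorphism -/
theorem bscTr_mem_shaHom (hY : YOk D Y) [NumberField ↥D.K1] {φ : Y →ₗ[ZMod p] D.Fun}
    (hφ : φ ∈ eqvIn (D.yTw Y) D.cs D.Shsp) :
    bscTr D Y φ (fun y => (hφ.2 y).1) ∈
      Fermat.Agent.P1.helper75.shaHom T D.K1 (fun _ : Unit => D.c)
        (fun _ : Unit => ⇑(((cycloChar p D.c : (ZMod p)ˣ) : ZMod p) • D.zY Y)) := by
  haveI : Module.Finite (ZMod p) Y := hY.1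
  obtain ⟨hint, hSh⟩ := hφ
  refine ⟨?_, ?_, ?_⟩
  · -- level
    obtain ⟨N, hN, hNP, hvan⟩ := bsc_exists_level D φ (fun y => (hSh y).1)
    have hU : ∃ N ∈ (galLevels T).mem, N ≤ D.K1.fixingSubgroup :=
      ⟨N, hN, by rw [bsc_fixingSubgroup_K1 D]; exact hNP⟩
    refine ⟨N.subgroupOf D.K1.fixingSubgroup, ?_, ?_⟩
    · rw [← restrictLevels_mem_eq_sLevels T D.K1 hU]
      exact ⟨N, hN, by rw [bsc_fixingSubgroup_K1 D]; exact hNP, rfl⟩
    · intro u hu
      rw [MonoidHom.mem_ker]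
      apply Multiplicative.toAdd.injective
      ext y
      exact hvan y (bscToP D u) (Subgroup.mem_subgroupOf.1 hu)
  · -- local condition
    intro q hq A hA u hu
    obtain ⟨g, h, hgh⟩ := bsc_exists_conj_local q A hA hu
    apply Multiplicative.toAdd.injective
    ext y
    have hmem : g * primeLocalToGlobal q h * g⁻¹ ∈ D.pSub := by
      rw [← hgh]
      exact (bscToP D u).2
    have h1 := (hSh y).2 ⟨q, hq⟩ g h hmem
    have h2 : bscToP D u = ⟨g * primeLocalToGlobal q h * g⁻¹, hmem⟩ := Subtype.ext hgh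
    change φ y (bscToP D u) = 0
    rw [h2]
    exact h1
  · -- equivariance
    intro _ u hu
    apply Multiplicative.toAdd.injective
    ext y
    set s : ZMod p := ((cycloChar p D.c : (ZMod p)ˣ) : ZMod p) with hs
    have hsinv : (((cycloChar p D.c)⁻¹ : (ZMod p)ˣ) : ZMod p) * s = 1 := by
      rw [hs, ← Units.val_mul, inv_mul_cancel, Units.val_one]
    -- `y = yTw y'` with `y' = s ρ(c⁻¹) y`
    let y' : Y := s • Y.ρ D.cC⁻¹ y
    have hy' : D.yTw Y y' = y := by
      change (((cycloChar p D.c)⁻¹ : (ZMod p)ˣ) : ZMod p) • Y.ρ D.cC (s • Y.ρ D.cC⁻¹ y) = y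
      rw [map_smul, smul_smul, hsinv, one_smul]
      have h1 : Y.ρ D.cC (Y.ρ D.cC⁻¹ y) = (Y.ρ D.cC * Y.ρ D.cC⁻¹) y := rfl
      rw [h1, ← map_mul, mul_inv_cancel, map_one]
      rfl
    have h2 : φ y = D.cs (φ y') := by
      have := LinearMap.congr_fun hint y'
      simp only [LinearMap.comp_apply] at this
      rw [hy'] at this
      exact this
    change φ y (bscToP D ⟨D.c * (u : GQ) * D.c⁻¹, hu⟩) =
      (s • D.zY Y (bscTrVal D Y φ (bscToP D u))) y
    rw [h2, BSData.cs_apply, LinearMap.smul_apply]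
    change φ y' _ = s • φ (Y.ρ D.cC⁻¹ y) (bscToP D u)
    have h3 : (⟨D.c⁻¹ * ((bscToP D ⟨D.c * (u : GQ) * D.c⁻¹, hu⟩ : ↥D.pSub) : GQ) * D.c,
        D.conj_mem_pSub' (bscToP D ⟨D.c * (u : GQ) * D.c⁻¹, hu⟩).2⟩ : ↥D.pSub) = bscToP D u := by
      apply Subtype.ext
      change D.c⁻¹ * (D.c * (u : GQ) * D.c⁻¹) * D.c = (u : GQ)
      group
    rw [h3]
    change φ (s • Y.ρ D.cC⁻¹ y) (bscToP D u) = _
    rw [map_smul]
    rfl

/-- the transposition is injective -/
theorem bscTr_injective {φ ψ : Y →ₗ[ZMod p] D.Fun} (hφ : ∀ y, φ y ∈ D.Hsp)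
    (hψ : ∀ y, ψ y ∈ D.Hsp) (h : bscTr D Y φ hφ = bscTr D Y ψ hψ) : φ = ψ := by
  ext y u
  have h1 := congrArg (fun f : helper59.UF D.K1 →* Multiplicative (Module.Dual (ZMod p) Y) =>
    Multiplicative.toAdd (f (bscOfP D u)) y) h
  exact h1

/-- `shaHom` is finite -/
theorem bsc_finite_shaHom (hp2 : p ≠ 2) (hpT : pPrime p ∈ T) (hY : YOk D Y)
    [NumberField ↥D.K1] (c : Unit → GQ) (r : Unit → Module.Dual (ZMod p) Y →
      Module.Dual (ZMod p) Y) :
    Finite ↥(Fermat.Agent.P1.helper75.shaHom T D.K1 c r) := by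
  haveI : Module.Finite (ZMod p) Y := hY.1
  haveI : Finite Y := Module.finite_of_finite (ZMod p)
  haveI := bsc_finite_Hsp D hp2 hpT
  haveI : Finite ↥D.Hsp := Module.finite_of_finite (ZMod p)
  have hmem : ∀ (h : ↥(Fermat.Agent.P1.helper75.shaHom T D.K1 c r)) (y : Y),
      (fun v : ↥D.pSub => (Multiplicative.toAdd (h.1 (bscOfP D v)) y : ZMod p)) ∈ D.Hsp := by
    rintro ⟨h, ⟨N, hN, hker⟩, -, -⟩ y
    rw [bsc_mem_Hsp_iff]
    have hU : ∃ N ∈ (galLevels T).mem, N ≤ D.K1.fixingSubgroup :=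
      ⟨D.N₀, D.hN₀, by rw [bsc_fixingSubgroup_K1 D]; exact D.le_pSub⟩
    rw [← restrictLevels_mem_eq_sLevels T D.K1 hU] at hN
    obtain ⟨N₀, hN₀, hN₀K, rfl⟩ := hN
    have hN₀P : N₀ ≤ D.pSub := by
      rw [← bsc_fixingSubgroup_K1 D]
      exact hN₀K
    have hadd : ∀ g k : ↥D.pSub,
        (Multiplicative.toAdd (h (bscOfP D (g * k))) y : ZMod p) =
          Multiplicative.toAdd (h (bscOfP D g)) y + Multiplicative.toAdd (h (bscOfP D k)) y := by
      intro g k
      rw [bscOfP_mul, map_mul]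
      rfl
    refine ⟨⟨N₀.subgroupOf D.pSub, ⟨N₀, hN₀, hN₀P, rfl⟩, fun g s hs => ?_⟩, hadd⟩
    have h1 : h (bscOfP D s) = 1 :=
      MonoidHom.mem_ker.1 (hker (Subgroup.mem_subgroupOf.2 (Subgroup.mem_subgroupOf.1 hs)))
    change (Multiplicative.toAdd (h (bscOfP D (g * s))) y : ZMod p) =
      Multiplicative.toAdd (h (bscOfP D g)) y
    rw [hadd, h1]
    change _ + (0 : Module.Dual (ZMod p) Y) y = _
    rw [LinearMap.zero_apply, add_zero]
  refine Finite.of_injective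
    (fun (h : ↥(Fermat.Agent.P1.helper75.shaHom T D.K1 c r)) (y : Y) =>
      (⟨_, hmem h y⟩ : ↥D.Hsp)) ?_
  intro h h' hh
  apply Subtype.ext
  apply MonoidHom.ext
  intro u
  apply Multiplicative.toAdd.injective
  ext y
  have h1 := congrArg (fun f : Y → ↥D.Hsp => ((f y : ↥D.Hsp) : D.Fun) (bscToP D u)) hh
  exact h1

/-! ## `(R)` in consumer shape -/

variable (p T)

/-- **(R), consumer shape**: `mult(y', 𝐒𝐡) ≤ mult(χ(c) z, Cl_T(K₁)/p)`. -/
theorem bsc_classRec : ClassRecStatement p T := by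
  refine classRec_of_card ?_
  intro hp2 hpT D _ Y hY
  haveI := bsc_finite_shaHom D hp2 hpT hY (fun _ : Unit => D.c)
    (fun _ : Unit => ⇑(((cycloChar p D.c : (ZMod p)ˣ) : ZMod p) • D.zY Y))
  refine Nat.card_le_card_of_injective
    (fun φ : ↥(eqvIn (D.yTw Y) D.cs D.Shsp) =>
      (⟨bscTr D Y φ.1 (fun y => (φ.2.2 y).1), bscTr_mem_shaHom D hY φ.2⟩ :
        ↥(Fermat.Agent.P1.helper75.shaHom T D.K1 (fun _ : Unit => D.c)
          (fun _ : Unit => ⇑(((cycloChar p D.c : (ZMod p)ˣ) : ZMod p) • D.zY Y))))) ?_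
  intro φ ψ h
  apply Subtype.ext
  exact bscTr_injective D (fun y => (φ.2.2 y).1) (fun y => (ψ.2.2 y).1)
    (congrArg Subtype.val h)

end Fermat.Agent.P1.helper50
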