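import Fermat.Agent.P1.helper79_BSSel
import Fermat.Agent.P1.helper50_BSClassDefs

/-!
# P1 / EC / BASE-STAR (helper79): the Selmer sequence in the consumer shape of BS-CLASS

`classSel : helper50.ClassSelStatement` — the class map `γ : Lˣ → Cl_T(L)` on Selmer elements
(elementwise form of `selClass`, `ker_selClass`, `range_selClass`, `selClass_selAut`).
-/

set_option autoImplicit false
set_option linter.unusedSectionVars false
set_option linter.style.haveILetI false

open IsDedekindDomain NumberField FractionalIdeal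
open scoped NumberField nonZeroDivisors

noncomputable section

namespace Fermat.Agent.P1.helper79

open Fermat.Agent.S55 Fermat.Agent.S55.helper79

section ClassSel

variable (L : Type*) [Field L] [NumberField L] (T : Finset Nat.Primes) (p : ℕ)

variable {L T p} in
/-- `IsSelmer` is membership of the class in the Selmer group -/
lemma isSelmer_iff_mk_mem_Sel (a : Lˣ) :
    helper97.IsSelmer L T p a ↔
      (QuotientGroup.mk a : Lˣ ⧸ (powMonoidHom p : Lˣ →* Lˣ).range) ∈ Sel L T p :=
  (helper97.mk_mem_selmerGroup_iff (R := 𝓞 L) (K := L) (helper97.placesOver L T) p a).symm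

open Classical in
/-- **the class map on elements**: `γ a = [𝔟]` if `(a) = 𝔟ᵖ · (T-ideal)`, and `1` if `a` is not
a Selmer element -/
def selClassElt (hp : 0 < p) (a : Lˣ) : ClS L T :=
  if h : (QuotientGroup.mk a : Lˣ ⧸ (powMonoidHom p : Lˣ →* Lˣ).range) ∈ Sel L T p then
    selClass L T p hp ⟨_, h⟩ else 1

variable {L T p}

lemma selClassElt_of_mem (hp : 0 < p) {a : Lˣ}
    (h : (QuotientGroup.mk a : Lˣ ⧸ (powMonoidHom p : Lˣ →* Lˣ).range) ∈ Sel L T p) :
    selClassElt L T p hp a = selClass L T p hp ⟨_, h⟩ := by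
  rw [selClassElt, dif_pos h]

lemma selClassElt_of_isSelmer (hp : 0 < p) {a : Lˣ} (h : helper97.IsSelmer L T p a) :
    selClassElt L T p hp a = selClass L T p hp ⟨_, (isSelmer_iff_mk_mem_Sel a).1 h⟩ :=
  selClassElt_of_mem hp _

/-- multiplicativity on Selmer elements -/
theorem selClassElt_mul (hp : 0 < p) {a b : Lˣ} (ha : helper97.IsSelmer L T p a)
    (hb : helper97.IsSelmer L T p b) :
    selClassElt L T p hp (a * b) = selClassElt L T p hp a * selClassElt L T p hp b := by
  have ha' := (isSelmer_iff_mk_mem_Sel a).1 ha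
  have hb' := (isSelmer_iff_mk_mem_Sel b).1 hb
  have hab' : (QuotientGroup.mk (a * b) : Lˣ ⧸ (powMonoidHom p : Lˣ →* Lˣ).range) ∈ Sel L T p := by
    rw [QuotientGroup.mk_mul]; exact mul_mem ha' hb'
  rw [selClassElt_of_mem hp ha', selClassElt_of_mem hp hb', selClassElt_of_mem hp hab',
    ← map_mul]
  rfl

/-- the kernel on Selmer elements: `T`-units times `p`-th powers -/
theorem selClassElt_eq_one_iff (hp : 0 < p) {a : Lˣ} (ha : helper97.IsSelmer L T p a) :
    selClassElt L T p hp a = 1 ↔ ∃ u ∈ sUnits L T, ∃ b : Lˣ, a = u * b ^ p := by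
  have ha' := (isSelmer_iff_mk_mem_Sel a).1 ha
  rw [selClassElt_of_mem hp ha', ← MonoidHom.mem_ker, ker_selClass]
  constructor
  · rintro ⟨u, hu⟩
    have h1 : (QuotientGroup.mk (u : Lˣ) : Lˣ ⧸ (powMonoidHom p : Lˣ →* Lˣ).range) =
        QuotientGroup.mk a := congrArg Subtype.val hu
    obtain ⟨y, hy⟩ := QuotientGroup.eq.1 h1
    have hy' : y ^ p = (u : Lˣ)⁻¹ * a := hy
    exact ⟨u, u.2, y, by rw [hy', mul_inv_cancel_left]⟩
  · rintro ⟨u, hu, b, rfl⟩
    refine ⟨⟨u, hu⟩, Subtype.ext ?_⟩
    rw [coe_unitsToSel]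
    exact QuotientGroup.eq.2 ⟨b, by simp⟩

/-- the image on Selmer elements: the `p`-torsion of `Cl_T` -/
theorem pow_eq_one_iff_exists_selClassElt (hp : 0 < p) (c : ClS L T) :
    c ^ p = 1 ↔ ∃ a : Lˣ, helper97.IsSelmer L T p a ∧ selClassElt L T p hp a = c := by
  have h := range_selClass L T p hp
  have h2 : c ∈ (selClass L T p hp).range ↔ c ^ p = 1 := by
    rw [h, MonoidHom.mem_ker, powMonoidHom_apply]
  rw [← h2]
  constructor
  · rintro ⟨s, rfl⟩
    obtain ⟨s, hs⟩ := s
    induction s using QuotientGroup.induction_on with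
    | H a => exact ⟨a, (isSelmer_iff_mk_mem_Sel a).2 hs, selClassElt_of_mem hp hs⟩
  · rintro ⟨a, ha, rfl⟩
    rw [selClassElt_of_isSelmer hp ha]
    exact ⟨_, rfl⟩

end ClassSel

section Equiv

variable (K : Type*) {L : Type*} [Field K] [NumberField K] [Field L] [NumberField L] [Algebra K L]
  {T : Finset Nat.Primes} {p : ℕ}

lemma smul_eq_units_map (σ : L ≃ₐ[K] L) (a : Lˣ) :
    σ • a = Units.map ((σ : L ≃ₐ[K] L) : L →* L) a := by
  apply Units.ext
  rfl

/-- the automorphisms preserve Selmer elements -/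
theorem isSelmer_map (σ : L ≃ₐ[K] L) {a : Lˣ} (ha : helper97.IsSelmer L T p a) :
    helper97.IsSelmer L T p (Units.map ((σ : L ≃ₐ[K] L) : L →* L) a) := by
  have ha' := (isSelmer_iff_mk_mem_Sel a).1 ha
  rw [isSelmer_iff_mk_mem_Sel, ← smul_eq_units_map]
  exact (selAut K L T p σ ⟨_, ha'⟩).2

/-- equivariance on Selmer elements -/
theorem selClassElt_map (hp : 0 < p) (σ : L ≃ₐ[K] L) {a : Lˣ}
    (ha : helper97.IsSelmer L T p a) :
    selClassElt L T p hp (Units.map ((σ : L ≃ₐ[K] L) : L →* L) a) =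
      clSAut K L T σ (selClassElt L T p hp a) := by
  have ha' := (isSelmer_iff_mk_mem_Sel a).1 ha
  rw [selClassElt_of_isSelmer hp (isSelmer_map K σ ha), selClassElt_of_mem hp ha',
    ← selClass_selAut]
  congr 1

end Equiv

/-- **(S) in the consumer shape of BS-CLASS** (`helper50.ClassSelStatement`). -/
theorem classSel : helper50.ClassSelStatement := by
  intro p hp T L _ _
  have hp0 : 0 < p := hp.out.pos
  refine ⟨selClassElt L T p hp0, ?_, ?_, ?_, ?_⟩
  · intro a b ha hb
    exact selClassElt_mul hp0 ha hb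
  · intro a ha
    exact selClassElt_eq_one_iff hp0 ha
  · intro c
    exact pow_eq_one_iff_exists_selClassElt hp0 c
  · intro σ a ha
    exact selClassElt_map ℚ hp0 σ ha

end Fermat.Agent.P1.helper79
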