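import Fermat.Agent.P1.helper95_BSCpq
import Fermat.Agent.P1.helper24_BSAbs

/-!
# P1 / EC / BASE-STAR, package BS-ABS-CPQ (helper95): unconditional form

`absCpq : helper7.AbsCpqStatement`, from `absCpq_of` and `helper24.absAdd`.
-/

set_option autoImplicit false

namespace Fermat.Agent.P1.helper95

/-- **BS-ABS-CPQ**: `𝒜[p]` and `𝒜 / p𝒜` have the same multiplicities. -/
theorem absCpq : Fermat.Agent.P1.helper7.AbsCpqStatement :=
  absCpq_of Fermat.Agent.P1.helper24.absAdd

end Fermat.Agent.P1.helper95
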