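import Fermat.Agent.P1.helper50_BSClassAsm
import Fermat.Agent.P1.helper50_BSClassRec
import Fermat.Agent.P1.helper79_BSClassSel
import Fermat.Agent.P1.helper95_BSCpqFinal

/-!
# P1 / module EC / BASE-STAR / package BS-CLASS (helper50, task 820): final wiring

`klass_of_kum : KumBridgeStatement p T → helper7.ClassStatement p T` — the class group package
of BASE-STAR depends ONLY on the Kummer bridge (row 818):

* `(C)` = `helper95.absCpq`, `(S)` = `helper79.classSel`, `(R)` = `bsc_classRec`
  (from `helper75.card_shaHom_le`).
-/

set_option autoImplicit false

noncomputable section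

namespace Fermat.Agent.P1.helper50

open Fermat.Agent.P1.helper7

variable {p : ℕ} [Fact p.Prime] {T : Finset Nat.Primes}

/-- **BS-CLASS** from the Kummer bridge alone. -/
theorem klass_of_kum (hKum : KumBridgeStatement p T) : ClassStatement p T :=
  klass_of Fermat.Agent.P1.helper95.absCpq hKum Fermat.Agent.P1.helper79.classSel
    (bsc_classRec p T)

end Fermat.Agent.P1.helper50
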