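import Fermat.Agent.P1.helper83_BSUnitsAbs
import Fermat.Agent.P1.helper7_BSKum
import Fermat.Agent.P1.helper38_BSUnitsDc
import Fermat.Agent.P1.helper60_BSUnitsSigma
import Fermat.Agent.P1.helper94_BSUnitsTors
import Fermat.Agent.P1.helper50_BSClassAsm

/-!
# P1 / module EC / BASE-STAR / package BS-UNITS (helper83, second prover of row 819):
the concrete end of the assembly

For `D : BSData p T`, `Y` a `C`-module with `YOk D Y`, `χ = χ(c)`, `z = D.zY Y`:

* `units_fixY'`    : `mult(χ z, k) = dim (Y^*(1))^c`;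
* `units_fixY_le`  : `dim Y^c ≤ mult(z, 𝐌)`;
* `units_perm`     : `mult(χ z, k[X]) = ∑_v mult(y', k[D_v \ G / P])`;
* `units_of_arith` : `helper7.UnitsStatement p T` from the arithmetic identity
  `mult(z, 𝐔) + mult(χ z, k) = mult(z, 𝐌) + mult(χ z, k[X])`.
-/

set_option autoImplicit false
set_option linter.unusedSectionVars false
set_option linter.style.haveILetI false

open groupCohomology ExtCitation IsDedekindDomain

noncomputable section

namespace Fermat.Agent.P1.helper83u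

open Fermat.Agent.S55 Fermat.Agent.P1.helper70 Fermat.Agent.P1.helper63 Fermat.Agent.P1.helper7
  Fermat.Agent.P1.helper24 Fermat.Agent.P1.helper35 Fermat.Agent.P1.helper50 Module

/-- double cosets modulo a subgroup containing a subgroup of finite index are finite -/
lemma finite_dc {G : Type} [Group G] (H K N : Subgroup G) [Finite (G ⧸ N)] (hNK : N ≤ K) :
    Finite (DoubleCoset.Quotient (H : Set G) (K : Set G)) := by
  let f : G ⧸ N → DoubleCoset.Quotient (H : Set G) (K : Set G) :=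
    Quotient.lift (fun g => DoubleCoset.mk H K g) (by
      intro a b hab
      have h1 : a⁻¹ * b ∈ N := QuotientGroup.leftRel_apply.1 hab
      exact (DoubleCoset.eq H K a b).2 ⟨1, H.one_mem, a⁻¹ * b, hNK h1, by group⟩)
  refine Finite.of_surjective f ?_
  intro q
  induction q using Quotient.inductionOn' with
  | h g => exact ⟨QuotientGroup.mk g, rfl⟩

variable {p : ℕ} [Fact p.Prime] {T : Finset Nat.Primes} (D : BSData p T)

instance finite_Xv (v : Option ↥T) : Finite (BSU.Data.Xv D v) := by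
  haveI : Finite (GQ ⧸ D.N₀) := helper92.finite_quotient_of_mem_galLevels T D.N₀ D.hN₀
  exact finite_dc (D.dec v) D.pSub D.N₀ D.le_pSub

variable (Y : Rep.{0} (ZMod p) ↥D.C)

lemma rho_comp_inv : (Y.ρ D.cC : Y →ₗ[ZMod p] Y) ∘ₗ (Y.ρ D.cC⁻¹) = 1 := by
  rw [← Module.End.mul_eq_comp, ← map_mul, mul_inv_cancel, map_one]

lemma rho_inv_comp : (Y.ρ D.cC⁻¹ : Y →ₗ[ZMod p] Y) ∘ₗ (Y.ρ D.cC) = 1 := by
  rw [← Module.End.mul_eq_comp, ← map_mul, inv_mul_cancel, map_one]

lemma chi_mul_inv : (((cycloChar p D.c : (ZMod p)ˣ) : ZMod p)) *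
    ((((cycloChar p D.c)⁻¹ : (ZMod p)ˣ)) : ZMod p) = 1 := by
  rw [← Units.val_mul, mul_inv_cancel, Units.val_one]

/-- **(U1)** `mult(χ z, k) = dim (Y^*(1))^c` -/
theorem units_fixY' {Y : Rep.{0} (ZMod p) ↥D.C} (hY : YOk D Y) :
    mlt ((((cycloChar p D.c : (ZMod p)ˣ) : ZMod p)) • D.zY Y)
      (1 : ZMod p →ₗ[ZMod p] ZMod p) = D.fixY' Y := by
  haveI : Module.Finite (ZMod p) Y := hY.1
  exact mlt_one_right absSymm _

/-- roots of unity are Selmer elements -/
lemma isSelmer_of_torsion (L : Type) [Field L] [NumberField L] (T : Finset Nat.Primes)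
    (p : ℕ) {a : Lˣ} (ha : ∃ m : ℕ, 0 < m ∧ a ^ m = 1) : helper97.IsSelmer L T p a := by
  intro v _
  obtain ⟨m, hm, ham⟩ := ha
  have h1 : (v.valuationOfNeZero a) ^ m = 1 := by rw [← map_pow, ham, map_one]
  have h2 : m • Multiplicative.toAdd (v.valuationOfNeZero a) = 0 := by
    have := congrArg Multiplicative.toAdd h1
    simpa using this
  have h3 : Multiplicative.toAdd (v.valuationOfNeZero a) = 0 := by
    rcases smul_eq_zero.1 h2 with h | h
    · omega
    · exact h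
  rw [h3]
  exact dvd_zero _

/-- `𝐌 ≤ 𝐇` -/
theorem msp_le_hsp (hp2 : p ≠ 2) (hpT : pPrime p ∈ T) : D.Msp ≤ D.Hsp := by
  haveI := bscNumberFieldK1 D
  obtain ⟨κ, -, hκH, -, -, -, hκM⟩ := kumBridge p T hp2 hpT D
  intro x hx
  obtain ⟨a, ha, rfl⟩ := (hκM x).1 hx
  exact (hκH a).2 (isSelmer_of_torsion _ T p ha)

/-- **(TORS)** `dim Y^c ≤ mult(z, 𝐌)` -/
theorem units_fixY_le (hp2 : p ≠ 2) (hpT : pPrime p ∈ T) {Y : Rep.{0} (ZMod p) ↥D.C}
    (hY : YOk D Y) : D.fixY Y ≤ mltIn (D.zY Y) D.cs D.Msp := by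
  haveI : Module.Finite (ZMod p) Y := hY.1
  haveI := bsc_finite_Hsp D hp2 hpT
  haveI : Module.Finite (ZMod p) ↥D.Msp :=
    Module.Finite.of_injective (Submodule.inclusion (msp_le_hsp D hp2 hpT))
      (Submodule.inclusion_injective _)
  obtain ⟨x₀, hx₀, hx₀0, hx₀c⟩ := helper94.Tors.tors p T hp2 hpT D
  exact finrank_ker_le_mltIn absSymm (Y.ρ D.cC) (Y.ρ D.cC⁻¹) (rho_comp_inv D Y)
    (rho_inv_comp D Y) D.cs D.Msp x₀ hx₀ hx₀0 hx₀c

/-- **(PERM)** `mult(χ z, k[X]) = ∑_v mult(y', k[D_v \ G / P])` -/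
theorem units_perm {Y : Rep.{0} (ZMod p) ↥D.C} (hY : YOk D Y) :
    mlt ((((cycloChar p D.c : (ZMod p)ˣ) : ZMod p)) • D.zY Y)
        (permOp (ZMod p) (BSU.Data.piX D)) =
      ∑ v : Option ↥T, mltIn (D.yTw Y) (rtr D.c) (dcFun (D.dec v) D.pSub) := by
  haveI : Module.Finite (ZMod p) Y := hY.1
  letI : ∀ v : Option ↥T, Fintype (BSU.Data.Xv D v) := fun v => Fintype.ofFinite _
  have h1 := mlt_twist_perm absSymm absDual (Y.ρ D.cC) (Y.ρ D.cC⁻¹) (rho_comp_inv D Y)
    (rho_inv_comp D Y) (((cycloChar p D.c : (ZMod p)ˣ) : ZMod p))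
    ((((cycloChar p D.c)⁻¹ : (ZMod p)ˣ)) : ZMod p) (chi_mul_inv D) (BSU.Data.piX D)
  have h2 := (helper60.sigma (Option ↥T) (BSU.Data.Xv D) (BSU.Data.piv D)).2 (ZMod p) Y
    (D.yTw Y)
  have h3 : ∀ v : Option ↥T, mltIn (D.yTw Y) (rtr D.c) (dcFun (D.dec v) D.pSub) =
      mlt (D.yTw Y) (permOp (ZMod p) (BSU.Data.piv D v)) := by
    intro v
    obtain ⟨e, he⟩ := helper38.dcFunEquiv (ZMod p) GQ (D.dec v) D.pSub D.c
      (fun _ hu => D.conj_mem_pSub' hu) (fun _ hu => D.conj_mem_pSub D.hc hu)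
    exact mltIn_eq_mlt _ _ _ _ e he
  rw [Finset.sum_congr rfl (fun v _ => h3 v), ← h2]
  exact h1.symm

/-- **BS-UNITS from the arithmetic identity.** -/
theorem units_of_arith
    (h : p ≠ 2 → pPrime p ∈ T → ∀ (D : BSData p T) (Y : Rep.{0} (ZMod p) ↥D.C), YOk D Y →
      mltIn (D.zY Y) D.cs D.Usp +
          mlt ((((cycloChar p D.c : (ZMod p)ˣ) : ZMod p)) • D.zY Y)
            (1 : ZMod p →ₗ[ZMod p] ZMod p) =
        mltIn (D.zY Y) D.cs D.Msp +
          mlt ((((cycloChar p D.c : (ZMod p)ˣ) : ZMod p)) • D.zY Y)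
            (permOp (ZMod p) (BSU.Data.piX D))) :
    UnitsStatement p T := by
  intro hp2 hpT _ _ D Y hY
  have e0 := h hp2 hpT D Y hY
  have e1 := units_fixY' D hY
  have e2 := units_fixY_le D hp2 hpT hY
  have e3 := units_perm D hY
  omega

end Fermat.Agent.P1.helper83u
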