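import Fermat.Agent.P1.helper50_BSUnitsAr
import Fermat.Agent.P1.helper83_BSUnitsFin

/-!
# P1 / module EC / BASE-STAR / package BS-UNITS (row 819): the statement

`units p T : helper7.UnitsStatement p T`, VERBATIM and unconditional:

  `dim Y^c + ∑_v mult(y', k[D_v\G/P]) ≤ mult(z, 𝐔) + dim Y'^c`.

It is `helper83u.units_of_arith` (the concrete end: TORS, DcFun, Sigma, duality) applied to the
arithmetic identity `bsu_arith` (equivariant Dirichlet modulo `p`).
-/

set_option autoImplicit false

noncomputable section

namespace Fermat.Agent.P1.helper50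

/-- **BS-UNITS**, unconditional. -/
theorem units (p : ℕ) [Fact p.Prime] (T : Finset Nat.Primes) :
    Fermat.Agent.P1.helper7.UnitsStatement p T :=
  Fermat.Agent.P1.helper83u.units_of_arith
    (fun hp2 hpT D Y hY => bsu_arith hp2 hpT D Y hY)

end Fermat.Agent.P1.helper50
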