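import Fermat.Agent.P1.helper50_BSClassAbs
import Fermat.Agent.P1.helper24_BSLatFinal
import Fermat.Agent.P1.helper44_BSUnitsTFree

/-!
# P1 / module EC / BASE-STAR / package BS-UNITS (helper50): the abstract core of the
arithmetic half

* `bsu_abs_add` : for `M ≤ U` (finite dimensional, stable under `b`, `b ^ n = 1` on `U`) and a
  surjection `q : U → V` with kernel `M` intertwining `b` and `v`:
  `mult(z, U) = mult(z, M) + mult(z, v)`   (from `helper24.absAdd`);
* `bsu_abs_lat` : the lattice lemma `helper24.absLat` for a finitely generated abelian group `O`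
  (not necessarily torsion free): if `r₀ : O → V` is surjective with kernel `p O + O_tors`, then
  `mult(a, v) + mult(a, 1) = mult(a, k[X])`   (with `helper44.tfree`).
-/

set_option autoImplicit false
set_option linter.unusedSectionVars false
set_option linter.style.haveILetI false

noncomputable section

namespace Fermat.Agent.P1.helper50

open Fermat.Agent.P1.helper7 Module

section Add

variable {k : Type} [Field k]
variable {A B : Type} [AddCommGroup A] [Module k A] [AddCommGroup B] [Module k B]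

/-- additivity of the multiplicity for `M ≤ U` and a quotient `q : U → V` with kernel `M` -/
theorem bsu_abs_add (n : ℕ) (hn : (n : k) ≠ 0) [Module.Finite k A] (z : A →ₗ[k] A)
    (hz : z ^ n = 1) (b : B →ₗ[k] B) (M U : Submodule k B) (hMU : M ≤ U)
    [Module.Finite k ↥U] (hbU : ∀ x ∈ U, b x ∈ U) (hbn : ∀ x ∈ U, (b ^ n) x = x)
    {V : Type} [AddCommGroup V] [Module k V] (v : V →ₗ[k] V) (q : ↥U →ₗ[k] V)
    (hq : Function.Surjective q) (hqker : ∀ x : ↥U, q x = 0 ↔ (x : B) ∈ M)
    (hqb : ∀ x : ↥U, q ⟨b x, hbU x x.2⟩ = v (q x)) :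
    mltIn z b U = mltIn z b M + mlt z v := by
  let bU : ↥U →ₗ[k] ↥U := b.restrict hbU
  let M' : Submodule k ↥U := M.comap U.subtype
  have hA1 : mltIn z b U = mltIn z bU ⊤ := by
    rw [bsc_mltIn_comap z b bU U.subtype U.injective_subtype (fun x => rfl) U
      (by rw [Submodule.range_subtype]), Submodule.comap_subtype_self]
  have hA2 : mltIn z b M = mltIn z bU M' :=
    bsc_mltIn_comap z b bU U.subtype U.injective_subtype (fun x => rfl) M
      (by rw [Submodule.range_subtype]; exact hMU)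
  have hfinTop : Module.Finite k ↥(⊤ : Submodule k ↥U) :=
    Module.Finite.equiv (Submodule.topEquiv (R := k) (M := ↥U)).symm
  have hbUn : ∀ x : ↥U, (bU ^ n) x = x := by
    intro x
    apply Subtype.ext
    have h1 : ∀ (i : ℕ) (y : ↥U), (((bU ^ i) y : ↥U) : B) = (b ^ i) y := by
      intro i
      induction i with
      | zero => intro y; rfl
      | succ i ih =>
        intro y
        rw [pow_succ, pow_succ, Module.End.mul_apply, Module.End.mul_apply, ih]
        rfl
    rw [h1]
    exact hbn x x.2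
  have hB := Fermat.Agent.P1.helper24.absAdd k n hn A z hz ↥U bU M' ⊤ le_top hfinTop
    (fun _ _ => Submodule.mem_top) (fun x _ => hbUn x) V v q
    (fun x _ => hqb x) (fun x _ => hqker x)
  have hC : mltIn z v ((⊤ : Submodule k ↥U).map q) = mlt z v := by
    rw [Submodule.map_top, LinearMap.range_eq_top.2 hq, bsc_mltIn_top]
  rw [hA1, hB, hA2, hC]

end Add

section Lat

variable (p : ℕ) [Fact p.Prime]

/-- the lattice lemma for a finitely generated abelian group with torsion -/
theorem bsu_abs_lat (n : ℕ) (hn : ¬ p ∣ n)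
    (O : Type) [AddCommGroup O] [Module.Finite ℤ O] (σ : O →ₗ[ℤ] O) (hσ : σ ^ n = 1)
    (X : Type) [Fintype X] (π : Equiv.Perm X) (hπ : π ^ n = 1)
    (hrank : ∀ d : ℕ, Module.finrank ℤ ↥(LinearMap.ker (σ ^ d - 1)) + 1 =
      Nat.card (MulAction.orbitRel.Quotient ↥(Subgroup.zpowers (π ^ d)) X))
    (V : Type) [AddCommGroup V] [Module (ZMod p) V] (v : V →ₗ[ZMod p] V) (r₀ : O →+ V)
    (hr : Function.Surjective r₀)
    (hker : ∀ x, r₀ x = 0 ↔ ∃ y t, t ∈ Submodule.torsion ℤ O ∧ x = p • y + t)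
    (hrσ : ∀ x, r₀ (σ x) = v (r₀ x))
    (A : Type) [AddCommGroup A] [Module (ZMod p) A] [Module.Finite (ZMod p) A]
    (a : A →ₗ[ZMod p] A) (ha : a ^ n = 1) :
    mlt a v + mlt a (1 : ZMod p →ₗ[ZMod p] ZMod p) = mlt a (permOp (ZMod p) π) := by
  have hstab : Submodule.torsion ℤ O ≤ (Submodule.torsion ℤ O).comap σ := by
    intro x hx
    rw [Submodule.mem_comap]
    obtain ⟨m, hm⟩ := (Submodule.mem_torsion_iff x).1 hx
    have hm' : (m : ℤ) • x = 0 := hm
    refine (Submodule.mem_torsion_iff _).2 ⟨m, ?_⟩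
    change (m : ℤ) • σ x = 0
    rw [← map_smul, hm', map_zero]
  let σL : (O ⧸ Submodule.torsion ℤ O) →ₗ[ℤ] (O ⧸ Submodule.torsion ℤ O) :=
    (Submodule.torsion ℤ O).mapQ (Submodule.torsion ℤ O) σ hstab
  have hσL_mk : ∀ x : O, σL ((Submodule.torsion ℤ O).mkQ x) = (Submodule.torsion ℤ O).mkQ (σ x) :=
    fun x => rfl
  have hσL_pow : ∀ (d : ℕ) (x : O),
      (σL ^ d) ((Submodule.torsion ℤ O).mkQ x) = (Submodule.torsion ℤ O).mkQ ((σ ^ d) x) := by
    intro d
    induction d with
    | zero => intro x; rfl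
    | succ d ih =>
      intro x
      rw [pow_succ, pow_succ, Module.End.mul_apply, Module.End.mul_apply, hσL_mk, ih]
  have hσL : σL ^ n = 1 := by
    refine LinearMap.ext fun x => ?_
    obtain ⟨x, rfl⟩ := (Submodule.torsion ℤ O).mkQ_surjective x
    rw [hσL_pow, hσ]
    rfl
  have hrankL : ∀ d : ℕ, Module.finrank ℤ ↥(LinearMap.ker (σL ^ d - 1)) + 1 =
      Nat.card (MulAction.orbitRel.Quotient ↥(Subgroup.zpowers (π ^ d)) X) := by
    intro d
    rw [← hrank d]
    congr 1
    refine Fermat.Agent.P1.helper44.tfree O (σ ^ d - 1) (σL ^ d - 1) ?_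
    intro x
    rw [LinearMap.sub_apply, LinearMap.sub_apply, hσL_pow, map_sub]
    rfl
  -- the map `r`
  have hker' : (Submodule.torsion ℤ O).toAddSubgroup ≤ r₀.ker := by
    intro t ht
    rw [AddMonoidHom.mem_ker, hker]
    exact ⟨0, t, ht, by rw [smul_zero, zero_add]⟩
  let r : (O ⧸ Submodule.torsion ℤ O) →+ V :=
    QuotientAddGroup.lift (Submodule.torsion ℤ O).toAddSubgroup r₀ hker'
  have hr_mk : ∀ x : O, r ((Submodule.torsion ℤ O).mkQ x) = r₀ x := fun x => rfl
  have hrsurj : Function.Surjective r := by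
    intro y
    obtain ⟨x, rfl⟩ := hr y
    exact ⟨(Submodule.torsion ℤ O).mkQ x, hr_mk x⟩
  have hrker : ∀ x, r x = 0 ↔ ∃ y, x = p • y := by
    intro x
    obtain ⟨x, rfl⟩ := (Submodule.torsion ℤ O).mkQ_surjective x
    rw [hr_mk, hker]
    constructor
    · rintro ⟨y, t, ht, rfl⟩
      refine ⟨(Submodule.torsion ℤ O).mkQ y, ?_⟩
      rw [map_add, map_nsmul]
      have h0 : (Submodule.torsion ℤ O).mkQ t = 0 := by
        rw [Submodule.mkQ_apply, Submodule.Quotient.mk_eq_zero]
        exact ht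
      rw [h0, add_zero]
    · rintro ⟨y, hy⟩
      obtain ⟨y, rfl⟩ := (Submodule.torsion ℤ O).mkQ_surjective y
      refine ⟨y, x - p • y, ?_, by abel⟩
      rw [← Submodule.Quotient.mk_eq_zero, ← Submodule.mkQ_apply, map_sub, hy, map_nsmul,
        sub_self]
  have hrσL : ∀ x, r (σL x) = v (r x) := by
    intro x
    obtain ⟨x, rfl⟩ := (Submodule.torsion ℤ O).mkQ_surjective x
    rw [hσL_mk, hr_mk, hr_mk, hrσ]
  exact Fermat.Agent.P1.helper24.absLat p n hn (O ⧸ Submodule.torsion ℤ O) σL hσL X π hπ hrankL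
    V v r hrsurj hrker hrσL A a ha

end Lat

end Fermat.Agent.P1.helper50
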