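import Fermat.Agent.P1.helper50_BSUnitsAbs
import Fermat.Agent.P1.helper50_BSClassAsm
import Fermat.Agent.P1.helper7_BSKum
import Fermat.Agent.P1.helper83_BSUnitsRank
import Fermat.Agent.P1.helper60_BSUnitsSigma
import Fermat.Agent.P1.helper38_BSUnitsDc

/-!
# P1 / module EC / BASE-STAR / package BS-UNITS (helper50): the arithmetic half

`bsu_arith` : **equivariant Dirichlet modulo `p`** for the `T`-units of `K₁`:

  `mult(z, 𝐔) + mult(χ(c) z, 1) = mult(z, 𝐌) + mult(χ(c) z, k[X])`,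

`X = Σ_v D_v \ G / P` with the permutation induced by `c`, `z = D.zY Y`.

Proof: `𝐔 / 𝐌 ≅ O / (p O + O_tors)` for `O` the `T`-units of `K₁` (Kummer bridge, saturation of
the `T`-units), `helper24.absAdd` for `𝐌 ≤ 𝐔`, and the lattice lemma `helper24.absLat` for
`O / O_tors` with the rank formula `helper83.rank` (+ `helper44.tfree`, `helper38.dcOrbit`,
`helper60.sigma`).
-/

set_option autoImplicit false
set_option linter.unusedSectionVars false
set_option linter.style.haveILetI false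

open groupCohomology ExtCitation IsDedekindDomain
open scoped NumberField nonZeroDivisors

noncomputable section

namespace Fermat.Agent.P1.helper50

open Fermat.Agent.S55 Fermat.Agent.P1.helper70 Fermat.Agent.P1.helper63 Fermat.Agent.P1.helper7
open Fermat.Agent.P1.helper35.BSU

/-! ## Saturation of the `T`-units -/

/-- the `T`-units are saturated -/
lemma bsu_mem_sUnits_of_pow {L : Type} [Field L] [NumberField L] (T : Finset Nat.Primes)
    {b : Lˣ} {m : ℕ} (hm : m ≠ 0) (h : b ^ m ∈ Fermat.Agent.S55.helper79.sUnits L T) :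
    b ∈ Fermat.Agent.S55.helper79.sUnits L T := by
  intro v hv
  have h1 : v.valuation L ((b ^ m : Lˣ) : L) = 1 := h v hv
  rw [Units.val_pow_eq_pow_val, map_pow] at h1
  exact (pow_eq_one_iff.1 h1).resolve_right hm

/-! ## The `T`-units of `K₁` -/

section O

variable {p : ℕ} [Fact p.Prime] {T : Finset Nat.Primes} (D : BSData p T) [NumberField ↥D.K1]

/-- `σ_c` on the `T`-units -/
def bsuSigU : ↥(Fermat.Agent.S55.helper79.sUnits ↥D.K1 T) →*
    ↥(Fermat.Agent.S55.helper79.sUnits ↥D.K1 T) where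
  toFun a := ⟨Units.map (D.sigmaC : ↥D.K1 →* ↥D.K1) (a : (↥D.K1)ˣ),
    (Fermat.Agent.P1.helper79.map_mem_sUnits_iff T (D.sigmaC : ↥D.K1 →+* ↥D.K1) _).2 a.2⟩
  map_one' := by
    apply Subtype.ext
    exact map_one _
  map_mul' a b := by
    apply Subtype.ext
    exact map_mul _ _ _

/-- `σ_c` on the `T`-units, additively -/
def bsuSigO : Additive ↥(Fermat.Agent.S55.helper79.sUnits ↥D.K1 T) →ₗ[ℤ]
    Additive ↥(Fermat.Agent.S55.helper79.sUnits ↥D.K1 T) :=
  (MonoidHom.toAdditive (bsuSigU D)).toIntLinearMap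

lemma bsuSigO_pow_apply (d : ℕ) (x : Additive ↥(Fermat.Agent.S55.helper79.sUnits ↥D.K1 T)) :
    ((((Additive.toMul ((bsuSigO D ^ d) x) : ↥(Fermat.Agent.S55.helper79.sUnits ↥D.K1 T)) :
        (↥D.K1)ˣ) : ↥D.K1)) =
      (D.sigmaC ^ d) (((Additive.toMul x : ↥(Fermat.Agent.S55.helper79.sUnits ↥D.K1 T)) :
        (↥D.K1)ˣ) : ↥D.K1) := by
  induction d generalizing x with
  | zero => rfl
  | succ d ih =>
    rw [pow_succ, Module.End.mul_apply, ih, pow_succ, AlgEquiv.mul_apply]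
    rfl

lemma bsuSigO_pow {n : ℕ} (hn : D.c ^ n ∈ D.pSub) : bsuSigO D ^ n = 1 := by
  refine LinearMap.ext fun x => ?_
  have h := bsuSigO_pow_apply D n x
  rw [bsc_sigmaC_pow D hn] at h
  exact Subtype.ext (Units.ext h)

instance bsuFiniteO : Module.Finite ℤ (Additive ↥(Fermat.Agent.S55.helper79.sUnits ↥D.K1 T)) := by
  haveI : Finite ↥(helper97.placesOver ↥D.K1 T) := (helper97.finite_placesOver _ T).to_subtype
  exact Fermat.Agent.S55.helper79.numberField_module_finite_sunit _ _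

/-- the kernel of `σ_c^d - 1` on the `T`-units -/
theorem bsu_finrank_ker (d : ℕ) :
    Module.finrank ℤ ↥(LinearMap.ker (bsuSigO D ^ d - 1)) =
      Module.finrank ℤ (Additive ↥(Fermat.Agent.P1.helper79.fixedSUnits ℚ ↥D.K1 T
        (Subgroup.zpowers (D.sigmaC ^ d)))) := by
  have hle : Fermat.Agent.P1.helper79.fixedSUnits ℚ ↥D.K1 T (Subgroup.zpowers (D.sigmaC ^ d)) ≤
      Fermat.Agent.S55.helper79.sUnits ↥D.K1 T := fun u hu => hu.1
  let f : Additive ↥(Fermat.Agent.P1.helper79.fixedSUnits ℚ ↥D.K1 T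
      (Subgroup.zpowers (D.sigmaC ^ d))) →ₗ[ℤ]
      Additive ↥(Fermat.Agent.S55.helper79.sUnits ↥D.K1 T) :=
    (MonoidHom.toAdditive (Subgroup.inclusion hle)).toIntLinearMap
  have hf : Function.Injective f := Subgroup.inclusion_injective hle
  have hrange : LinearMap.range f = LinearMap.ker (bsuSigO D ^ d - 1) := by
    ext x
    rw [LinearMap.mem_range, LinearMap.mem_ker, LinearMap.sub_apply, sub_eq_zero]
    constructor
    · rintro ⟨y, rfl⟩
      have hy := (Additive.toMul y).2.2 (D.sigmaC ^ d) (Subgroup.mem_zpowers _)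
      have hy' := congrArg (fun u : (↥D.K1)ˣ => (u : ↥D.K1)) hy
      have h := bsuSigO_pow_apply D d (f y)
      exact Subtype.ext (Units.ext (h.trans hy'))
    · intro hx
      have h := bsuSigO_pow_apply D d x
      rw [hx] at h
      have hfix : ∀ τ ∈ Subgroup.zpowers (D.sigmaC ^ d),
          τ • ((Additive.toMul x : ↥(Fermat.Agent.S55.helper79.sUnits ↥D.K1 T)) : (↥D.K1)ˣ) =
            ((Additive.toMul x : ↥(Fermat.Agent.S55.helper79.sUnits ↥D.K1 T)) : (↥D.K1)ˣ) := by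
        intro τ hτ
        have h1 : (D.sigmaC ^ d) • ((Additive.toMul x :
            ↥(Fermat.Agent.S55.helper79.sUnits ↥D.K1 T)) : (↥D.K1)ˣ) =
            ((Additive.toMul x : ↥(Fermat.Agent.S55.helper79.sUnits ↥D.K1 T)) : (↥D.K1)ˣ) :=
          Units.ext h.symm
        have hle' : Subgroup.zpowers (D.sigmaC ^ d) ≤
            MulAction.stabilizer (↥D.K1 ≃ₐ[ℚ] ↥D.K1) ((Additive.toMul x :
              ↥(Fermat.Agent.S55.helper79.sUnits ↥D.K1 T)) : (↥D.K1)ˣ) :=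
          (Subgroup.zpowers_le).2 (MulAction.mem_stabilizer_iff.2 h1)
        exact MulAction.mem_stabilizer_iff.1 (hle' hτ)
      exact ⟨Additive.ofMul ⟨((Additive.toMul x :
        ↥(Fermat.Agent.S55.helper79.sUnits ↥D.K1 T)) : (↥D.K1)ˣ), (Additive.toMul x).2, hfix⟩,
        rfl⟩
  rw [← hrange]
  exact LinearMap.finrank_range_of_inj hf

end O

/-! ## The permutation set -/

section X

variable {p : ℕ} [Fact p.Prime] {T : Finset Nat.Primes} (D : BSData p T)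

/-- the double cosets `H \ G / P` are finite -/
lemma bsu_finite_dc (H : Subgroup GQ) :
    Finite (DoubleCoset.Quotient (H : Set GQ) ((D.pSub : Subgroup GQ) : Set GQ)) := by
  haveI : Finite (GQ ⧸ D.N₀) := helper92.finite_quotient_of_mem_galLevels T D.N₀ D.hN₀
  refine Finite.of_surjective (fun q : GQ ⧸ D.N₀ =>
    Quotient.liftOn' q (fun g => DoubleCoset.mk H D.pSub g) ?_) ?_
  · intro a b hab
    rw [QuotientGroup.leftRel_apply] at hab
    exact (DoubleCoset.eq H D.pSub a b).2 ⟨1, H.one_mem, a⁻¹ * b, D.le_pSub hab, by group⟩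
  · intro q
    induction q using Quotient.inductionOn' with
    | h g => exact ⟨QuotientGroup.mk g, rfl⟩

instance bsuFiniteXv (v : Option ↥T) : Finite (Data.Xv D v) := bsu_finite_dc D (D.dec v)

instance bsuFintypeXv (v : Option ↥T) : Fintype (Data.Xv D v) := Fintype.ofFinite _

lemma bsu_piv_pow {n : ℕ} (hn : D.c ^ n ∈ D.pSub) (v : Option ↥T) : Data.piv D v ^ n = 1 := by
  ext q
  induction q using Quotient.inductionOn' with
  | h g =>
    change (Data.piv D v ^ n) (DoubleCoset.mk (D.dec v) D.pSub g) =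
      DoubleCoset.mk (D.dec v) D.pSub g
    unfold Data.piv
    rw [Fermat.Agent.P1.helper38.dcPerm_pow_mk]
    exact ((DoubleCoset.eq (D.dec v) D.pSub g (g * D.c ^ n)).2
      ⟨1, (D.dec v).one_mem, D.c ^ n, hn, by group⟩).symm

lemma bsu_piX_pow {n : ℕ} (hn : D.c ^ n ∈ D.pSub) : Data.piX D ^ n = 1 := by
  refine Equiv.ext fun x => ?_
  unfold Data.piX
  rw [Fermat.Agent.P1.helper60.sigmaPerm_pow_apply, bsu_piv_pow D hn]
  rfl

variable [NumberField ↥D.K1]

/-- the rank hypothesis of the lattice lemma -/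
theorem bsu_rank (hp2 : p ≠ 2) (hpT : pPrime p ∈ T) (d : ℕ) :
    Module.finrank ℤ ↥(LinearMap.ker (bsuSigO D ^ d - 1)) + 1 =
      Nat.card (MulAction.orbitRel.Quotient ↥(Subgroup.zpowers (Data.piX D ^ d)) (Data.X D)) := by
  rw [bsu_finrank_ker, Fermat.Agent.P1.helper83.rank p T hp2 hpT D d]
  unfold Data.piX
  rw [(Fermat.Agent.P1.helper60.sigma (Option ↥T) (Data.Xv D) (Data.piv D)).1 d]
  refine Finset.sum_congr rfl fun v _ => ?_
  exact (Fermat.Agent.P1.helper38.dcOrbit GQ (D.dec v) D.pSub D.c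
    (fun _ hu => D.conj_mem_pSub' hu) (fun _ hu => D.conj_mem_pSub D.hc hu) d).symm

end X

/-! ## Equivariant Dirichlet modulo `p` -/

section Main

variable {p : ℕ} [Fact p.Prime] {T : Finset Nat.Primes}

/-- a torsion element of the additive group of `T`-units is a root of unity -/
lemma bsu_root_of_torsion {L : Type} [Field L] [NumberField L] (T : Finset Nat.Primes)
    {t : Additive ↥(Fermat.Agent.S55.helper79.sUnits L T)}
    (ht : t ∈ Submodule.torsion ℤ (Additive ↥(Fermat.Agent.S55.helper79.sUnits L T))) :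
    ∃ m : ℕ, 0 < m ∧ ((Additive.toMul t : ↥(Fermat.Agent.S55.helper79.sUnits L T)) : Lˣ) ^ m = 1 := by
  obtain ⟨m, hm⟩ := (Submodule.mem_torsion_iff t).1 ht
  have hm0 : (m : ℤ) ≠ 0 := nonZeroDivisors.coe_ne_zero m
  have hm' : (m : ℤ) • t = 0 := hm
  have h1 : (Additive.toMul t : ↥(Fermat.Agent.S55.helper79.sUnits L T)) ^ (m : ℤ) = 1 := hm'
  refine ⟨(m : ℤ).natAbs, Int.natAbs_pos.2 hm0, ?_⟩
  have h2 : (Additive.toMul t : ↥(Fermat.Agent.S55.helper79.sUnits L T)) ^ (m : ℤ).natAbs = 1 := by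
    rcases Int.natAbs_eq (m : ℤ) with h | h
    · rw [h, zpow_natCast] at h1
      exact h1
    · rw [h, zpow_neg, zpow_natCast, inv_eq_one] at h1
      exact h1
  have h3 := congrArg (fun u : ↥(Fermat.Agent.S55.helper79.sUnits L T) => (u : Lˣ)) h2
  exact h3

/-- a root of unity among the `T`-units is a torsion element -/
lemma bsu_torsion_of_root {L : Type} [Field L] [NumberField L] (T : Finset Nat.Primes)
    (t : ↥(Fermat.Agent.S55.helper79.sUnits L T)) {m : ℕ} (hm : 0 < m)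
    (ht : (t : Lˣ) ^ m = 1) :
    Additive.ofMul t ∈ Submodule.torsion ℤ (Additive ↥(Fermat.Agent.S55.helper79.sUnits L T)) := by
  refine (Submodule.mem_torsion_iff _).2
    ⟨⟨(m : ℤ), mem_nonZeroDivisors_of_ne_zero (by exact_mod_cast hm.ne')⟩, ?_⟩
  change ((m : ℤ)) • Additive.ofMul t = 0
  rw [natCast_zsmul]
  change Additive.ofMul (t ^ m) = 0
  have h1 : t ^ m = 1 := Subtype.ext ht
  rw [h1]
  rfl

/-- **equivariant Dirichlet modulo `p`** (the arithmetic half of BS-UNITS) -/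
theorem bsu_arith (hp2 : p ≠ 2) (hpT : pPrime p ∈ T) (D : BSData p T)
    (Y : Rep.{0} (ZMod p) ↥D.C) (hY : YOk D Y) :
    mltIn (D.zY Y) D.cs D.Usp +
        mlt ((((cycloChar p D.c : (ZMod p)ˣ) : ZMod p)) • D.zY Y)
          (1 : ZMod p →ₗ[ZMod p] ZMod p) =
      mltIn (D.zY Y) D.cs D.Msp +
        mlt ((((cycloChar p D.c : (ZMod p)ˣ) : ZMod p)) • D.zY Y)
          (permOp (ZMod p) (Data.piX D)) := by
  haveI : NumberField ↥D.K1 := bscNumberFieldK1 D
  have hp : p.Prime := Fact.out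
  obtain ⟨n, hnp, hn⟩ := bsc_exists_n D
  obtain ⟨κ, hκker, hκH, -, hκcs, hκU, hκM⟩ := Fermat.Agent.P1.helper7.kumBridge p T hp2 hpT D
  haveI := bsc_finite_Hsp D hp2 hpT
  haveI : Module.Finite (ZMod p) Y := hY.1
  have hnk : (n : ZMod p) ≠ 0 := by
    intro h
    exact hnp ((ZMod.natCast_eq_zero_iff n p).1 h)
  set s : ZMod p := ((cycloChar p D.c : (ZMod p)ˣ) : ZMod p) with hs
  have hs0 : s ≠ 0 := Units.ne_zero _
  have hsinv : s * (((cycloChar p D.c)⁻¹ : (ZMod p)ˣ) : ZMod p) = 1 := by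
    rw [hs, ← Units.val_mul, mul_inv_cancel, Units.val_one]
  have hκσ : ∀ a : (↥D.K1)ˣ,
      κ (Additive.ofMul (Units.map (D.sigmaC : ↥D.K1 →* ↥D.K1) a)) =
        s • D.cs (κ (Additive.ofMul a)) := by
    intro a
    rw [hκcs a, smul_smul, hsinv, one_smul]
  have hσU : ∀ a : (↥D.K1)ˣ, a ∈ Fermat.Agent.S55.helper79.sUnits ↥D.K1 T →
      Units.map (D.sigmaC : ↥D.K1 →* ↥D.K1) a ∈ Fermat.Agent.S55.helper79.sUnits ↥D.K1 T :=
    fun a ha =>
      (Fermat.Agent.P1.helper79.map_mem_sUnits_iff T (D.sigmaC : ↥D.K1 →+* ↥D.K1) _).2 ha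
  have hκmul : ∀ a b : (↥D.K1)ˣ, κ (Additive.ofMul (a * b)) =
      κ (Additive.ofMul a) + κ (Additive.ofMul b) := fun a b => map_add κ _ _
  have hκpow : ∀ b : (↥D.K1)ˣ, κ (Additive.ofMul (b ^ p)) = 0 :=
    fun b => (hκker _).2 ⟨b, rfl⟩
  -- `𝐔 ≤ 𝐇`, `𝐌 ≤ 𝐔`
  have hUH : D.Usp ≤ D.Hsp := by
    intro x hx
    obtain ⟨a, ha, rfl⟩ := (hκU x).1 hx
    exact (hκH a).2 (bsc_isSelmer_of_mem_sUnits _ T p ha)
  haveI : Module.Finite (ZMod p) ↥D.Usp :=
    Module.Finite.of_injective (Submodule.inclusion hUH) (Submodule.inclusion_injective hUH)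
  have hrootU : ∀ t : (↥D.K1)ˣ, (∃ m : ℕ, 0 < m ∧ t ^ m = 1) →
      t ∈ Fermat.Agent.S55.helper79.sUnits ↥D.K1 T := by
    rintro t ⟨m, hm, htm⟩
    exact bsu_mem_sUnits_of_pow T hm.ne' (by rw [htm]; exact one_mem _)
  have hMU : D.Msp ≤ D.Usp := by
    intro x hx
    obtain ⟨t, ht, rfl⟩ := (hκM x).1 hx
    exact (hκU _).2 ⟨t, hrootU t ht, rfl⟩
  -- stability
  have hcsU : ∀ x ∈ D.Usp, D.cs x ∈ D.Usp := by
    intro x hx
    obtain ⟨a, ha, rfl⟩ := (hκU x).1 hx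
    rw [hκcs]
    exact D.Usp.smul_mem _ ((hκU _).2 ⟨_, hσU a ha, rfl⟩)
  have hcsM : ∀ x ∈ D.Msp, D.cs x ∈ D.Msp := by
    intro x hx
    obtain ⟨t, ⟨m, hm, htm⟩, rfl⟩ := (hκM x).1 hx
    rw [hκcs]
    refine D.Msp.smul_mem _ ((hκM _).2 ⟨_, ⟨m, hm, ?_⟩, rfl⟩)
    rw [← map_pow, htm, map_one]
  have hcsn : ∀ x ∈ D.Usp, (D.cs ^ n) x = x := fun x hx => bsc_cs_pow D hn (hUH hx)
  -- the quotient `𝐔 / 𝐌`
  let csU : ↥D.Usp →ₗ[ZMod p] ↥D.Usp := D.cs.restrict hcsU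
  let M' : Submodule (ZMod p) ↥D.Usp := D.Msp.comap D.Usp.subtype
  have hM'stab : M' ≤ M'.comap csU := fun x hx => hcsM _ hx
  let v' : (↥D.Usp ⧸ M') →ₗ[ZMod p] (↥D.Usp ⧸ M') := M'.mapQ M' csU hM'stab
  have hadd : mltIn (D.zY Y) D.cs D.Usp = mltIn (D.zY Y) D.cs D.Msp + mlt (D.zY Y) v' :=
    bsu_abs_add n hnk (D.zY Y) (bsc_zY_pow D hY hn) D.cs D.Msp D.Usp hMU hcsU hcsn v' M'.mkQ
      M'.mkQ_surjective
      (fun x => by rw [Submodule.mkQ_apply, Submodule.Quotient.mk_eq_zero]; rfl)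
      (fun x => rfl)
  -- the lattice side
  let κO : Additive ↥(Fermat.Agent.S55.helper79.sUnits ↥D.K1 T) →+ ↥D.Usp :=
    AddMonoidHom.mk' (fun a => ⟨κ (Additive.ofMul
      ((Additive.toMul a : ↥(Fermat.Agent.S55.helper79.sUnits ↥D.K1 T)) : (↥D.K1)ˣ)),
      (hκU _).2 ⟨_, (Additive.toMul a).2, rfl⟩⟩) (fun a b => Subtype.ext (map_add κ _ _))
  have hκO : ∀ a : Additive ↥(Fermat.Agent.S55.helper79.sUnits ↥D.K1 T),
      ((κO a : ↥D.Usp) : D.Fun) = κ (Additive.ofMul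
        ((Additive.toMul a : ↥(Fermat.Agent.S55.helper79.sUnits ↥D.K1 T)) : (↥D.K1)ˣ)) :=
    fun a => rfl
  let r₀ : Additive ↥(Fermat.Agent.S55.helper79.sUnits ↥D.K1 T) →+ (↥D.Usp ⧸ M') :=
    (M'.mkQ : ↥D.Usp →+ (↥D.Usp ⧸ M')).comp κO
  have hr₀ : ∀ a, r₀ a = M'.mkQ (κO a) := fun a => rfl
  have hr₀zero : ∀ a, r₀ a = 0 ↔ ((κO a : ↥D.Usp) : D.Fun) ∈ D.Msp := by
    intro a
    rw [hr₀, Submodule.mkQ_apply, Submodule.Quotient.mk_eq_zero]
    rfl
  have hr₀surj : Function.Surjective r₀ := by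
    intro y
    obtain ⟨x, rfl⟩ := M'.mkQ_surjective y
    obtain ⟨a, ha, hax⟩ := (hκU _).1 x.2
    exact ⟨Additive.ofMul ⟨a, ha⟩, congrArg M'.mkQ (Subtype.ext hax)⟩
  have hpV : ∀ x : D.Fun, p • x = 0 := by
    intro x
    rw [← Nat.cast_smul_eq_nsmul (ZMod p), ZMod.natCast_self, zero_smul]
  have hr₀ker : ∀ x, r₀ x = 0 ↔ ∃ y t,
      t ∈ Submodule.torsion ℤ (Additive ↥(Fermat.Agent.S55.helper79.sUnits ↥D.K1 T)) ∧
        x = p • y + t := by
    intro x
    rw [hr₀zero, hκO]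
    constructor
    · intro h
      obtain ⟨t, ⟨m, hm, htm⟩, ht⟩ := (hκM _).1 h
      have htU := hrootU t ⟨m, hm, htm⟩
      set a : (↥D.K1)ˣ :=
        ((Additive.toMul x : ↥(Fermat.Agent.S55.helper79.sUnits ↥D.K1 T)) : (↥D.K1)ˣ) with ha
      have h1 : κ (Additive.ofMul (a * t⁻¹)) = 0 := by
        have h2 : Additive.ofMul (a * t⁻¹) = Additive.ofMul a - Additive.ofMul t := by
          rw [← div_eq_mul_inv]
          rfl
        rw [h2, map_sub, ht, sub_self]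
      obtain ⟨b, hb⟩ := (hκker _).1 h1
      have hbU : b ∈ Fermat.Agent.S55.helper79.sUnits ↥D.K1 T := by
        refine bsu_mem_sUnits_of_pow T hp.ne_zero ?_
        rw [← hb]
        exact mul_mem (Additive.toMul x).2 (inv_mem htU)
      refine ⟨Additive.ofMul ⟨b, hbU⟩, Additive.ofMul ⟨t, htU⟩,
        bsu_torsion_of_root T ⟨t, htU⟩ hm htm, ?_⟩
      change Additive.toMul x = (⟨b, hbU⟩ : ↥(Fermat.Agent.S55.helper79.sUnits ↥D.K1 T)) ^ p *
        ⟨t, htU⟩
      apply Subtype.ext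
      change a = b ^ p * t
      rw [← hb, inv_mul_cancel_right]
    · rintro ⟨y, t, ht, rfl⟩
      obtain ⟨m, hm, htm⟩ := bsu_root_of_torsion T ht
      have h1 : κ (Additive.ofMul ((Additive.toMul (p • y + t) :
          ↥(Fermat.Agent.S55.helper79.sUnits ↥D.K1 T)) : (↥D.K1)ˣ)) =
          p • κ (Additive.ofMul ((Additive.toMul y :
            ↥(Fermat.Agent.S55.helper79.sUnits ↥D.K1 T)) : (↥D.K1)ˣ)) +
          κ (Additive.ofMul ((Additive.toMul t :
            ↥(Fermat.Agent.S55.helper79.sUnits ↥D.K1 T)) : (↥D.K1)ˣ)) := by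
        rw [← map_nsmul, ← map_add]
        rfl
      rw [h1, hpV, zero_add]
      exact (hκM _).2 ⟨_, ⟨m, hm, htm⟩, rfl⟩
  have hr₀σ : ∀ x, r₀ (bsuSigO D x) = (s • v') (r₀ x) := by
    intro x
    rw [hr₀, hr₀]
    change M'.mkQ (κO (bsuSigO D x)) = M'.mkQ (s • csU (κO x))
    congr 1
    apply Subtype.ext
    exact hκσ _
  have hzn : (s • D.zY Y) ^ n = 1 := by
    rw [smul_pow, bsc_chi_pow D hn, bsc_zY_pow D hY hn, one_smul]
  have hlat := bsu_abs_lat p n hnp (Additive ↥(Fermat.Agent.S55.helper79.sUnits ↥D.K1 T))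
    (bsuSigO D) (bsuSigO_pow D hn) (Data.X D) (Data.piX D) (bsu_piX_pow D hn)
    (bsu_rank D hp2 hpT) (↥D.Usp ⧸ M') (s • v') r₀ hr₀surj hr₀ker hr₀σ
    (Module.Dual (ZMod p) Y) (s • D.zY Y) hzn
  rw [hadd, ← bsc_mlt_smul s hs0 (D.zY Y) v', add_assoc, hlat]

end Main

end Fermat.Agent.P1.helper50
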