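import Mathlib

/-!
# P1 / EC-PTEND-GE (helper50), linear algebra (Mathlib only)

* `exists_dual_extend` : a functional `ℓ` which vanishes on `P ⊓ B` agrees on `P` with a
  functional `ψ` vanishing on `B`;
* `finrank_quot_le_of_pairing` : if a pairing `β : V × W → k` kills `Z_V × (Z_W ∩ B_W)` and its
  left kernel on `Z_V` (with respect to `Z_W`) lies in `B_V`, then
  `dim Z_V / B_V ≤ dim Z_W / B_W`.
-/

set_option autoImplicit false
set_option linter.style.haveILetI false

namespace Fermat.Agent.P1.helper50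

open Module

section Extend

variable {k V : Type*} [Field k] [AddCommGroup V] [Module k V]

/-- A functional which vanishes on `P ⊓ B` agrees on `P` with a functional vanishing on `B`. -/
theorem exists_dual_extend (P B : Submodule k V) (ℓ : V →ₗ[k] k)
    (h : ∀ y ∈ P, y ∈ B → ℓ y = 0) :
    ∃ ψ : V →ₗ[k] k, (∀ y ∈ B, ψ y = 0) ∧ ∀ y ∈ P, ψ y = ℓ y := by
  -- `f : P → V / B`
  set f : ↥P →ₗ[k] V ⧸ B := B.mkQ ∘ₗ P.subtype with hf
  set ℓP : ↥P →ₗ[k] k := ℓ ∘ₗ P.subtype with hℓP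
  have hker : LinearMap.ker f ≤ LinearMap.ker ℓP := by
    intro y hy
    rw [LinearMap.mem_ker] at hy ⊢
    have hyB : (y : V) ∈ B := by
      have : B.mkQ (y : V) = 0 := hy
      rwa [Submodule.mkQ_apply, Submodule.Quotient.mk_eq_zero] at this
    exact h y y.2 hyB
  -- the induced injective map on `P / ker f`
  set fbar : (↥P ⧸ LinearMap.ker f) →ₗ[k] V ⧸ B := (LinearMap.ker f).liftQ f le_rfl with hfbar
  have hinj : LinearMap.ker fbar = ⊥ := Submodule.ker_liftQ_eq_bot' _ _ rfl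
  obtain ⟨r, hr⟩ := LinearMap.exists_leftInverse_of_injective fbar hinj
  set ℓbar : (↥P ⧸ LinearMap.ker f) →ₗ[k] k := (LinearMap.ker f).liftQ ℓP hker with hℓbar
  refine ⟨ℓbar ∘ₗ r ∘ₗ B.mkQ, ?_, ?_⟩
  · intro y hy
    have : B.mkQ y = 0 := by
      rw [Submodule.mkQ_apply, Submodule.Quotient.mk_eq_zero]
      exact hy
    simp only [LinearMap.comp_apply, this, map_zero]
  · intro y hy
    have h1 : B.mkQ y = fbar ((LinearMap.ker f).mkQ ⟨y, hy⟩) := rfl
    have h2 : r (fbar ((LinearMap.ker f).mkQ ⟨y, hy⟩)) = (LinearMap.ker f).mkQ ⟨y, hy⟩ := by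
      have := congrArg (fun g => g ((LinearMap.ker f).mkQ ⟨y, hy⟩)) hr
      simpa using this
    simp only [LinearMap.comp_apply]
    rw [h1, h2]
    rfl

end Extend

section Pairing

variable {k V W : Type*} [Field k] [AddCommGroup V] [Module k V] [AddCommGroup W] [Module k W]

/-- If the pairing `β` kills `Z_V × (Z_W ∩ B_W)` and every element of `Z_V` orthogonal to `Z_W`
lies in `B_V`, then `Z_V / B_V` is finite dimensional of dimension at most `dim Z_W / B_W`. -/
theorem finrank_quot_le_of_pairing (ZV BV : Submodule k V) (ZW BW : Submodule k W)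
    (β : V →ₗ[k] W →ₗ[k] k)
    (hB : ∀ v ∈ ZV, ∀ w ∈ ZW, w ∈ BW → β v w = 0)
    (hker : ∀ v ∈ ZV, (∀ w ∈ ZW, β v w = 0) → v ∈ BV)
    [Module.Finite k (↥ZW ⧸ BW.comap ZW.subtype)] :
    Module.Finite k (↥ZV ⧸ BV.comap ZV.subtype) ∧
      Module.finrank k (↥ZV ⧸ BV.comap ZV.subtype) ≤
        Module.finrank k (↥ZW ⧸ BW.comap ZW.subtype) := by
  set BW' := BW.comap ZW.subtype with hBW'
  set BV' := BV.comap ZV.subtype with hBV'
  -- the map `Γ : Z_V → (Z_W / B_W)^*`
  let Γ₀ : ↥ZV → Module.Dual k (↥ZW ⧸ BW') := fun v =>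
    BW'.liftQ ((β (v : V)).comp ZW.subtype) (by
      intro w hw
      rw [LinearMap.mem_ker]
      exact hB v v.2 w w.2 hw)
  have hΓ₀ : ∀ (v : ↥ZV) (w : ↥ZW), Γ₀ v (BW'.mkQ w) = β (v : V) (w : W) := fun v w => rfl
  let Γ : ↥ZV →ₗ[k] Module.Dual k (↥ZW ⧸ BW') :=
    { toFun := Γ₀
      map_add' := by
        intro v v'
        apply LinearMap.ext
        intro q
        obtain ⟨w, rfl⟩ := BW'.mkQ_surjective q
        rw [LinearMap.add_apply, hΓ₀, hΓ₀, hΓ₀, Submodule.coe_add, map_add, LinearMap.add_apply]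
      map_smul' := by
        intro c v
        apply LinearMap.ext
        intro q
        obtain ⟨w, rfl⟩ := BW'.mkQ_surjective q
        rw [LinearMap.smul_apply, hΓ₀, hΓ₀, Submodule.coe_smul, map_smul, LinearMap.smul_apply,
          RingHom.id_apply] }
  have hΓ : ∀ (v : ↥ZV) (w : ↥ZW), Γ v (BW'.mkQ w) = β (v : V) (w : W) := fun v w => rfl
  have hkerΓ : LinearMap.ker Γ ≤ BV' := by
    intro v hv
    rw [LinearMap.mem_ker] at hv
    refine hker v v.2 fun w hw => ?_
    have := hΓ v ⟨w, hw⟩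
    rw [hv, LinearMap.zero_apply] at this
    exact this.symm
  -- `Z_V / ker Γ` is finite dimensional of dimension `≤ dim (Z_W / B_W)`
  have e := Γ.quotKerEquivRange
  haveI : Module.Finite k ↥(LinearMap.range Γ) := inferInstance
  haveI : Module.Finite k (↥ZV ⧸ LinearMap.ker Γ) := Module.Finite.equiv e.symm
  have h1 : Module.finrank k (↥ZV ⧸ LinearMap.ker Γ) ≤ Module.finrank k (↥ZW ⧸ BW') := by
    rw [e.finrank_eq]
    exact (Submodule.finrank_le _).trans (le_of_eq Subspace.dual_finrank_eq)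
  -- `Z_V / B_V` is a quotient of `Z_V / ker Γ`
  let π : (↥ZV ⧸ LinearMap.ker Γ) →ₗ[k] (↥ZV ⧸ BV') := Submodule.factor hkerΓ
  have hπ : Function.Surjective π := Submodule.factor_surjective hkerΓ
  haveI : Module.Finite k (↥ZV ⧸ BV') := Module.Finite.of_surjective π hπ
  exact ⟨inferInstance, (LinearMap.finrank_le_finrank_of_surjective hπ).trans h1⟩

end Pairing

end Fermat.Agent.P1.helper50
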