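import Fermat.Agent.S55.ABasic
import Fermat.Agent.S55.helper53_Packages
import Fermat.Agent.P1.helper50_ECPtEndGeAbs

/-!
# P1 / EC-PTEND-GE (helper50), the abstract core (S55 vocabulary)

For a smooth module `M` with the evaluation pairing `M × M^*(χ) → k(χ)` and a trace functional
`tr` killing cone coboundaries:

* `locEv m` : the local evaluation `(y, (c_v)) ↦ (0, (m_v ∪ c_v))` on cone 3-cochains;
* `locEv_dc₂₃` : `locEv m (d_c (x, b)) = x ∪ (0, m) + d_c (0, (m_v ∪ b_v))` for a family `m` of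
  local invariants;
* `mem_Bc1_of_orth` : **the left kernel of `H_c¹(M) × H²(M^*(χ)) → k` is trivial**, from
  `Inj1`, `Surj0` of the CLAIM for `M`, graded commutativity (`helper53.adjStatement`) and local
  duality `H⁰(G_v, M) ↪ H²(G_v, M^*(χ))^*` in trace form;
* `finrank_Hc1_le` : `dim H_c¹(M) ≤ dim H²(M^*(χ))`.
-/

set_option autoImplicit false
set_option linter.style.haveILetI false
set_option linter.unusedSectionVars false
set_option linter.unusedVariables false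

universe u

open groupCohomology

noncomputable section

namespace Fermat.Agent.P1.helper50

open Fermat.Agent.S55

variable {k G : Type u} [Field k] [Group G] {𝒩 : Levels G} {ι : Type}
  (L : LocalData G 𝒩 ι) (χ : G →* kˣ) (M : Rep.{u} k G)

/-- the local evaluation `(y₁, (c_v)) ↦ (0, (m_v ∪ c_v))` -/
def locEv (m : ι → M) :
    CcAmb3 L (M.dualTwist χ) →ₗ[k] CcAmb3 L (groupCohomology.ofChar χ) where
  toFun y := (0, fun v s => (evPairing M χ).φ (m v) (y.2 v s))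
  map_add' y y' := by
    refine Prod.ext (by simp) ?_
    funext v s
    simp only [Prod.snd_add, Pi.add_apply, map_add]
  map_smul' c y := by
    refine Prod.ext (by simp) ?_
    funext v s
    simp only [Prod.smul_snd, Pi.smul_apply, map_smul, RingHom.id_apply]

@[simp] lemma locEv_fst (m : ι → M) (y : CcAmb3 L (M.dualTwist χ)) :
    (locEv L χ M m y).1 = 0 := rfl

@[simp] lemma locEv_snd (m : ι → M) (y : CcAmb3 L (M.dualTwist χ)) (v : ι)
    (s : L.Gv v × L.Gv v) :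
    (locEv L χ M m y).2 v s = (evPairing M χ).φ (m v) (y.2 v s) := rfl

/-- the family of local 1-cochains `m_v ∪ b_v` -/
def locCup (m : ι → M) (y : CcAmb2 L (M.dualTwist χ)) :
    CcAmb2 L (groupCohomology.ofChar χ) :=
  (0, fun v s => (evPairing M χ).φ (m v) (y.2 v s))

lemma locCup_mem (m : ι → M) {y : CcAmb2 L (M.dualTwist χ)}
    (hy : y ∈ Cc2 L (M.dualTwist χ)) : locCup L χ M m y ∈ Cc2 L (groupCohomology.ofChar χ) := by
  refine (mem_Cc2 L).2 ⟨(C2 𝒩 _).zero_mem, fun v => ?_⟩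
  exact map_mem_C1 (A := L.loc (M.dualTwist χ) v) (A' := L.loc (groupCohomology.ofChar χ) v)
    ((evPairing M χ).φ (m v)) (((mem_Cc2 L).1 hy).2 v)

/-- the key identity -/
theorem locEv_dc₂₃ (m : ι → M) (hm : ∀ v (s : L.Gv v), M.ρ (L.r v s) (m v) = m v)
    (y : CcAmb2 L (M.dualTwist χ)) :
    locEv L χ M m (dc₂₃ L (M.dualTwist χ) y) =
      cupc₂₁ L (evPairing' M χ) y.1 ((0, m) : CcAmb1 L M) +
        dc₂₃ L (groupCohomology.ofChar χ) (locCup L χ M m y) := by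
  refine Prod.ext ?_ ?_
  · funext ⟨g, h, j⟩
    have h1 : (dc₂₃ L (groupCohomology.ofChar χ) (locCup L χ M m y)).1 = 0 := by
      rw [dc₂₃_fst]
      exact map_zero _
    have h2 : (cupc₂₁ L (evPairing' M χ) y.1 ((0, m) : CcAmb1 L M)).1 (g, h, j) = 0 := by
      rw [cupc₂₁_fst]
      simp only [Pi.zero_apply, map_zero]
    rw [Prod.fst_add, Pi.add_apply, h1, h2, locEv_fst, zero_add]
  · funext v ⟨s, t⟩
    have e1 : M.ρ (L.r v s * L.r v t) (m v) = m v := by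
      rw [← map_mul]; exact hm v (s * t)
    have e2 : ∀ (f : M.dualTwist χ) (a : M), (evPairing' M χ).φ f a = (evPairing M χ).φ a f :=
      fun _ _ => rfl
    simp only [locEv_snd, Prod.snd_add, Pi.add_apply, cupc₂₁_snd, dc₂₃_snd, locCup,
      Pi.zero_apply, zero_sub, e1, e2]
    have e3 : ((Representation.trivial k G k).twist χ) (L.r v s)
        ((evPairing M χ).φ (m v) (y.2 v t)) =
          (evPairing M χ).φ (m v) ((M.ρ.dual.twist χ) (L.r v s) (y.2 v t)) := by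
      have := (evPairing M χ).equivariant (L.r v s) (m v) (y.2 v t)
      rw [hm v s] at this
      exact this.symm
    rw [e3, map_sub, map_add, map_sub]
    abel

/-- cone 3-cochains with vanishing global component -/
def fstZero (A : Rep.{u} k G) : Submodule k (CcAmb3 L A) where
  carrier := {y | y.1 = 0}
  add_mem' := by
    intro y y' hy hy'
    show (y + y').1 = 0
    rw [Prod.fst_add, show y.1 = 0 from hy, show y'.1 = 0 from hy', add_zero]
  zero_mem' := rfl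
  smul_mem' := by
    intro c y hy
    show (c • y).1 = 0
    rw [Prod.smul_fst, show y.1 = 0 from hy, smul_zero]

lemma mem_fstZero {A : Rep.{u} k G} {y : CcAmb3 L A} : y ∈ fstZero L A ↔ y.1 = 0 := Iff.rfl

section Single

variable [DecidableEq ι] {A : Rep.{u} k G}

/-- a local 2-cocycle at `v` as a cone 3-cocycle -/
lemma single_mem_Zc3 (v : ι) {c : L.Gv v × L.Gv v → L.loc A v}
    (hc : c ∈ Z2 (L.lev v) (L.loc A v)) :
    ((0, Pi.single v c) : CcAmb3 L A) ∈ Zc3 L A := by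
  refine (mem_Zc3 L).2 ⟨(mem_Cc3 L).2 ⟨(C3 𝒩 A).zero_mem, fun v' => ?_⟩, ?_⟩
  · show (Pi.single v c : ∀ v, L.Gv v × L.Gv v → L.loc A v) v' ∈ _
    by_cases h : v' = v
    · subst h
      rw [Pi.single_eq_same]
      exact hc.1
    · rw [Pi.single_eq_of_ne h]
      exact (C2 _ _).zero_mem
  · refine Prod.ext ?_ ?_
    · rw [dc₃₄_fst]
      exact map_zero _
    · funext v'
      have e : (dc₃₄ L A ((0, Pi.single v c) : CcAmb3 L A)).2 v' =
          res₃ L A v' (0 : G × G × G → A) - (d₂₃ (L.loc A v')).hom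
            ((Pi.single v c : ∀ v, L.Gv v × L.Gv v → L.loc A v) v') := rfl
      rw [e, map_zero, zero_sub]
      show _ = (0 : L.Gv v' × L.Gv v' × L.Gv v' → L.loc A v')
      rw [neg_eq_zero]
      by_cases h : v' = v
      · subst h
        rw [Pi.single_eq_same]
        exact hc.2
      · rw [Pi.single_eq_of_ne h]
        exact map_zero _

end Single

/-- **The left kernel of `H_c¹(M) × H²(M^*(χ)) → k` is trivial.** -/
theorem mem_Bc1_of_orth [DecidableEq ι]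
    (hχ : ∃ N ∈ 𝒩.mem, ∀ g ∈ N, χ g = 1) (hsm : IsSmooth 𝒩 M)
    (tr : CcAmb3 L (groupCohomology.ofChar χ) →ₗ[k] k)
    (htr : ∀ c ∈ Bc3 L (groupCohomology.ofChar χ), tr c = 0)
    (hinj1 : Inj1 L (evPairing M χ) tr) (hsurj0 : Surj0 L (evPairing M χ) tr)
    (hloc : ∀ (v : ι) (n : M), (∀ s : L.Gv v, M.ρ (L.r v s) n = n) → n ≠ 0 →
      ∃ c ∈ Z2 (L.lev v) (L.loc (M.dualTwist χ) v),
        tr (cupc₀₃ L (evPairing M χ) n
          ((0, Pi.single v c) : CcAmb3 L (M.dualTwist χ))) ≠ 0)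
    (w : CcAmb1 L M) (hw : w ∈ Zc1 L M)
    (h0 : ∀ x ∈ Z2 𝒩 (M.dualTwist χ), tr (cupc₂₁ L (evPairing' M χ) x w) = 0) :
    w ∈ Bc1 L M := by
  have hsm' : IsSmooth 𝒩 (M.dualTwist χ) := isSmooth_dualTwist hχ hsm
  have hsmμ : IsSmooth 𝒩 (groupCohomology.ofChar χ) := isSmooth_ofChar hχ
  obtain ⟨hwC, hwd⟩ := (mem_Zc1 L).1 hw
  -- Step 1: the global component is a coboundary
  have hy1 : w.1 ∈ Z1 𝒩 M := (mem_Z1).2 ⟨(mem_Cc1 L).1 hwC, congrArg Prod.fst hwd⟩
  have hstep1 : ∀ z ∈ Zc2 L (M.dualTwist χ), tr (cupc₁₂ L (evPairing M χ) w.1 z) = 0 := by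
    intro z hz
    have hadj := helper53.adjStatement (k := k) L (M.dualTwist χ) M _ (evPairing' M χ)
      hsm' hsm hsmμ z hz w hw
    have h1 := htr _ hadj
    rw [map_sub, map_smul, one_smul] at h1
    have hz2 : z.1 ∈ Z2 𝒩 (M.dualTwist χ) := by
      obtain ⟨hzC, hzd⟩ := (mem_Zc2 L).1 hz
      exact (mem_Z2).2 ⟨((mem_Cc2 L).1 hzC).1, congrArg Prod.fst hzd⟩
    rw [h0 z.1 hz2, zero_sub, neg_eq_zero] at h1
    exact h1
  obtain ⟨a, ha⟩ := (mem_B1).1 (hinj1 w.1 hy1 hstep1)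
  -- Step 2: reduction to `w' = (0, m)`
  set w' : CcAmb1 L M := w - dc₀₁ L M a with hw'
  have hw'1 : w'.1 = 0 := by rw [hw', Prod.fst_sub, dc₀₁_fst, ha, sub_self]
  set m : ι → M := fun v => w'.2 v with hm
  have hw'eq : w' = ((0, m) : CcAmb1 L M) := Prod.ext hw'1 rfl
  have hw'Z : w' ∈ Zc1 L M :=
    (Zc1 L M).sub_mem hw (Bc1_le_Zc1 L hsm ((mem_Bc1 L).2 ⟨a, rfl⟩))
  have hminv : ∀ v (s : L.Gv v), M.ρ (L.r v s) (m v) = m v := by
    intro v s
    have h1 := ((mem_Zc1 L).1 hw'Z).2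
    have h2 := congrFun (congrFun (congrArg Prod.snd h1) v) s
    rw [dc₁₂_snd, hw'1] at h2
    simp only [Pi.zero_apply, Prod.snd_zero, zero_sub, neg_eq_zero] at h2
    exact sub_eq_zero.mp h2
  have h0' : ∀ x ∈ Z2 𝒩 (M.dualTwist χ), tr (cupc₂₁ L (evPairing' M χ) x w') = 0 := by
    intro x hx
    have e : cupc₂₁ L (evPairing' M χ) x w' =
        cupc₂₁ L (evPairing' M χ) x w - cupc₂₁ L (evPairing' M χ) x (dc₀₁ L M a) := by
      rw [← cupL₂₁_apply, ← cupL₂₁_apply, ← cupL₂₁_apply, hw', map_sub]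
    rw [e, map_sub, h0 x hx, htr _ (cupc₂₁_dc₀₁_mem_Bc3 L (evPairing' M χ) hsm hx a), sub_zero]
  -- Step 3: the functional
  set ℓ : CcAmb3 L (M.dualTwist χ) →ₗ[k] k := tr ∘ₗ locEv L χ M m with hℓ
  have hK : ∀ y ∈ fstZero L (M.dualTwist χ), y ∈ Bc3 L (M.dualTwist χ) → ℓ y = 0 := by
    intro y hy1 hyB
    obtain ⟨z, hzC, rfl⟩ := (mem_Bc3 L).1 hyB
    have hz2 : z.1 ∈ Z2 𝒩 (M.dualTwist χ) := (mem_Z2).2 ⟨((mem_Cc2 L).1 hzC).1, hy1⟩
    rw [hℓ, LinearMap.comp_apply, locEv_dc₂₃ L χ M m hminv z, map_add, ← hw'eq, h0' z.1 hz2,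
      zero_add]
    exact htr _ ((mem_Bc3 L).2 ⟨_, locCup_mem L χ M m hzC, rfl⟩)
  obtain ⟨ψ, hψB, hψP⟩ := exists_dual_extend (fstZero L (M.dualTwist χ))
    (Bc3 L (M.dualTwist χ)) ℓ hK
  obtain ⟨a0, ha0, hψ⟩ := hsurj0 ψ hψB
  -- `m v = a0` for all `v`
  have hma0 : ∀ v, m v = a0 := by
    intro v
    by_contra hne
    have hn0 : m v - a0 ≠ 0 := sub_ne_zero.mpr hne
    have hninv : ∀ s : L.Gv v, M.ρ (L.r v s) (m v - a0) = m v - a0 := by
      intro s
      rw [map_sub, hminv v s, (mem_H0).1 ha0]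
    obtain ⟨c, hc, hne'⟩ := hloc v (m v - a0) hninv hn0
    apply hne'
    have e1 := hψ _ (single_mem_Zc3 L v hc)
    have e2 := hψP ((0, Pi.single v c) : CcAmb3 L (M.dualTwist χ)) rfl
    have e3 : locEv L χ M m ((0, Pi.single v c) : CcAmb3 L (M.dualTwist χ)) =
        cupc₀₃ L (evPairing M χ) (m v) ((0, Pi.single v c) : CcAmb3 L (M.dualTwist χ)) := by
      refine Prod.ext ?_ ?_
      · funext x
        simp only [locEv_fst, cupc₀₃_fst, Pi.zero_apply, map_zero]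
      · funext v' s
        rw [locEv_snd, cupc₀₃_snd]
        show (evPairing M χ).φ (m v')
            ((Pi.single v c : ∀ v, L.Gv v × L.Gv v → L.loc (M.dualTwist χ) v) v' s) =
          (evPairing M χ).φ (m v)
            ((Pi.single v c : ∀ v, L.Gv v × L.Gv v → L.loc (M.dualTwist χ) v) v' s)
        by_cases h : v' = v
        · subst h
          rfl
        · rw [Pi.single_eq_of_ne h]
          simp only [Pi.zero_apply, map_zero]
    rw [← cupL₀₃_apply, map_sub, LinearMap.sub_apply, map_sub, cupL₀₃_apply, cupL₀₃_apply, ← e3,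
      ← e1, e2]
    exact sub_self _
  -- conclusion
  refine (mem_Bc1 L).2 ⟨a0 + a, ?_⟩
  have hw'2 : w' = dc₀₁ L M a0 := by
    refine Prod.ext ?_ ?_
    · rw [hw'1, dc₀₁_fst]
      funext g
      rw [d₀₁_hom_apply, (mem_H0).1 ha0 g, sub_self]
      rfl
    · funext v
      exact hma0 v
  rw [map_add, ← hw'2, hw', sub_add_cancel]

/-- **`dim H_c¹(M) ≤ dim H²(M^*(χ))`** -/
theorem finrank_Hc1_le [DecidableEq ι]
    (hχ : ∃ N ∈ 𝒩.mem, ∀ g ∈ N, χ g = 1) (hsm : IsSmooth 𝒩 M)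
    (tr : CcAmb3 L (groupCohomology.ofChar χ) →ₗ[k] k)
    (htr : ∀ c ∈ Bc3 L (groupCohomology.ofChar χ), tr c = 0)
    (hinj1 : Inj1 L (evPairing M χ) tr) (hsurj0 : Surj0 L (evPairing M χ) tr)
    (hloc : ∀ (v : ι) (n : M), (∀ s : L.Gv v, M.ρ (L.r v s) n = n) → n ≠ 0 →
      ∃ c ∈ Z2 (L.lev v) (L.loc (M.dualTwist χ) v),
        tr (cupc₀₃ L (evPairing M χ) n
          ((0, Pi.single v c) : CcAmb3 L (M.dualTwist χ))) ≠ 0)
    [Module.Finite k (H2 𝒩 (M.dualTwist χ))] :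
    Module.Finite k (Hc1 L M) ∧
      Module.finrank k (Hc1 L M) ≤ Module.finrank k (H2 𝒩 (M.dualTwist χ)) := by
  let β : CcAmb1 L M →ₗ[k] (G × G → M.dualTwist χ) →ₗ[k] k :=
    ((cupL₂₁ L (evPairing' M χ)).compr₂ tr).flip
  refine finrank_quot_le_of_pairing (Zc1 L M) (Bc1 L M) (Z2 𝒩 (M.dualTwist χ))
    (B2 𝒩 (M.dualTwist χ)) β ?_ ?_
  · intro v hv w hw hwB
    obtain ⟨u, hu, rfl⟩ := (mem_B2).1 hwB
    exact htr _ (cupc₂₁_d₁₂_mem_Bc3 L (evPairing' M χ) hsm hu hv)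
  · intro v hv h
    exact mem_Bc1_of_orth L χ M hχ hsm tr htr hinj1 hsurj0 hloc v hv h

end Fermat.Agent.P1.helper50

end
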