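import Fermat.Agent.P1.helper63_ECDefs2
import Fermat.Agent.S55.helper92_SmoothLevel
import Fermat.Agent.P1.helper50_ECPtEndGeCore

/-!
# P1 / module EC, package [EC-PTEND-GE] (helper50, task 735)

* `ConeOut p T` : the statement of [EC-CONE] (interface `cone_h1`) for the arithmetic local
  data `galLocal T`;
* `ptEndGeOut_of_cone` : `PTEndGeOut p T` from `ConeOut p T` and the hypotheses of the interface
  statement `ptEndGeOut` (`FinOut`, the CLAIM for all finite smooth modules, `Loc2Out`).
-/

set_option autoImplicit false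
set_option linter.style.haveILetI false

open groupCohomology ExtCitation

noncomputable section

namespace Fermat.Agent.P1.helper50

open Fermat.Agent.S55 Fermat.Agent.P1.helper70 Fermat.Agent.P1.helper63

section Arith

variable (p : ℕ) [Fact p.Prime] (T : Finset Nat.Primes)

/-- [EC-CONE] for the arithmetic local data: the beginning of the long exact sequence of the
cone in dimension form. -/
def ConeOut : Prop :=
  ∀ M : Rep.{0} (ZMod p) GQ, Module.Finite (ZMod p) M → IsSmooth (galLevels T) M →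
    Module.Finite (ZMod p) (S55.H1 (galLevels T) M) →
    Module.Finite (ZMod p) (Hc1 (galLocal T) M) ∧
      Module.finrank (ZMod p) (Hc1 (galLocal T) M) + hd0 M =
        Module.finrank (ZMod p) ↥(Sha1 (galLocal T) M) +
          ∑ v : ↥T, Module.finrank (ZMod p) ↥(S55.H0 ((galLocal T).loc M v))

/-- `dim H_c¹(M) ≤ h²(M')` -/
theorem finrank_Hc1_le_hd2 (hpT : pPrime p ∈ T) (hF : FinOut p T)
    (tr : CcAmb3 (galLocal T) (mu p) →ₗ[ZMod p] ZMod p)
    (htr : ∀ c ∈ Bc3 (galLocal T) (mu p), tr c = 0)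
    (hC : ∀ N : Rep.{0} (ZMod p) GQ, Module.Finite (ZMod p) N → IsSmooth (galLevels T) N →
      Claim (galLocal T) (evPairing N (cycloChar p)) tr)
    (hL : Loc2Out p T tr) (M : Rep.{0} (ZMod p) GQ) (hM : Module.Finite (ZMod p) M)
    (hsm : IsSmooth (galLevels T) M) :
    Module.Finite (ZMod p) (Hc1 (galLocal T) M) ∧
      Module.finrank (ZMod p) (Hc1 (galLocal T) M) ≤ hd2 (galLevels T) (dualT p M) := by
  have hχ := (helper92.levelStatement p T hpT).2
  have hM' : Module.Finite (ZMod p) (dualT p M) := by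
    change Module.Finite (ZMod p) (Module.Dual (ZMod p) M)
    infer_instance
  have hsm' : IsSmooth (galLevels T) (dualT p M) := isSmooth_dualTwist hχ hsm
  haveI : Module.Finite (ZMod p) (S55.H2 (galLevels T) (M.dualTwist (cycloChar p))) :=
    (hF (dualT p M) hM' hsm').2
  exact finrank_Hc1_le (galLocal T) (cycloChar p) M hχ hsm tr htr (hC M hM hsm).inj1
    (hC M hM hsm).surj0 (hL M hM hsm)

/-- **EC-PTEND-GE** from [EC-CONE]. -/
theorem ptEndGeOut_of_cone (hcone : ConeOut p T) (hpT : pPrime p ∈ T) (hF : FinOut p T)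
    (tr : CcAmb3 (galLocal T) (mu p) →ₗ[ZMod p] ZMod p)
    (htr : ∀ c ∈ Bc3 (galLocal T) (mu p), tr c = 0)
    (hC : ∀ N : Rep.{0} (ZMod p) GQ, Module.Finite (ZMod p) N → IsSmooth (galLevels T) N →
      Claim (galLocal T) (evPairing N (cycloChar p)) tr)
    (hL : Loc2Out p T tr) : PTEndGeOut p T := by
  intro M hM hsm
  obtain ⟨-, hle⟩ := finrank_Hc1_le_hd2 p T hpT hF tr htr hC hL M hM hsm
  obtain ⟨-, heq⟩ := hcone M hM hsm (hF M hM hsm).1
  unfold sha1d locH0d
  omega

end Arith

end Fermat.Agent.P1.helper50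

end
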