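import Fermat.Agent.P1.helper63_ECDefs

/-!
# P1 / module EC, package CONE (helper97, task 727)

`cone_h1` : the beginning of the long exact sequence of the cone,
`0 → H⁰(A) → ∏_v H⁰(G_v, A) → H_c¹(A) → Ш¹(A) → 0`, in dimension form (statement VERBATIM from
the interface blueprint of helper63).

Reusable: `mem_Zc1_iff`, `toH1 : H_c¹ → H¹` with `range_toH1 = Sha1`, `ofLoc : ∏_v H⁰ → H_c¹` with
`ker_toH1 = range ofLoc`, `diagLoc` with `ker_ofLoc = range diagLoc`.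
-/

set_option autoImplicit false
set_option linter.style.haveILetI false
set_option linter.unusedSectionVars false

open groupCohomology

noncomputable section

namespace Fermat.Agent.P1.helper97

open Fermat.Agent.S55 Fermat.Agent.P1.helper63

section Cone

variable {G : Type} [Group G] {𝒩 : Levels G} {k : Type} [Field k]
variable {ι : Type} (L : LocalData G 𝒩 ι) (A : Rep.{0} k G)

/-- membership in `Zc1` unfolded -/
lemma mem_Zc1_iff (x : CcAmb1 L A) :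
    x ∈ Zc1 L A ↔ x.1 ∈ C1 𝒩 A ∧ (d₁₂ A).hom x.1 = 0 ∧
      ∀ v, res₁ L A v x.1 = (d₀₁ (L.loc A v)).hom (x.2 v) := by
  constructor
  · rintro ⟨h1, h2⟩
    replace h2 : dc₁₂ L A x = 0 := h2
    have h3 := congrArg Prod.fst h2
    have h4 := congrArg Prod.snd h2
    refine ⟨h1.1, h3, fun v => ?_⟩
    have h5 := congrFun h4 v
    exact sub_eq_zero.1 h5
  · rintro ⟨h1, h2, h3⟩
    refine ⟨⟨h1, Submodule.mem_top⟩, ?_⟩
    change dc₁₂ L A x = 0
    refine Prod.ext h2 ?_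
    funext v
    exact sub_eq_zero.2 (h3 v)

lemma fst_mem_Z1 {x : CcAmb1 L A} (hx : x ∈ Zc1 L A) : x.1 ∈ Z1 𝒩 A := by
  rw [mem_Zc1_iff] at hx
  exact ⟨hx.1, LinearMap.mem_ker.2 hx.2.1⟩

/-- `d₀₁ a = 0` iff `a` is invariant -/
lemma d₀₁_eq_zero_iff (B : Rep.{0} k G) (a : B) :
    (d₀₁ B).hom a = 0 ↔ a ∈ S55.H0 B := by
  rw [← LinearMap.mem_ker, d₀₁_ker_eq_invariants]

/-- the projection `Z_c¹ → Z¹` -/
def fstZ : ↥(Zc1 L A) →ₗ[k] ↥(Z1 𝒩 A) :=
  LinearMap.codRestrict (Z1 𝒩 A)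
    ((LinearMap.fst k (G → A) (∀ v : ι, L.loc A v)).comp (Zc1 L A).subtype)
    (fun x => fst_mem_Z1 L A x.2)

@[simp] lemma fstZ_coe (x : ↥(Zc1 L A)) : ((fstZ L A x : ↥(Z1 𝒩 A)) : G → A) = x.1.1 := rfl

/-- `Z_c¹ → H¹` -/
def toH1₀ : ↥(Zc1 L A) →ₗ[k] S55.H1 𝒩 A :=
  (Submodule.mkQ ((B1 A).comap (Z1 𝒩 A).subtype)).comp (fstZ L A)

lemma toH1₀_eq_zero_iff (x : ↥(Zc1 L A)) : toH1₀ L A x = 0 ↔ x.1.1 ∈ B1 A := by
  unfold toH1₀
  rw [LinearMap.comp_apply, Submodule.mkQ_apply, Submodule.Quotient.mk_eq_zero]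
  rfl

lemma comap_Bc1_le_ker : (Bc1 L A).comap (Zc1 L A).subtype ≤ LinearMap.ker (toH1₀ L A) := by
  rintro x ⟨a, ha⟩
  rw [LinearMap.mem_ker, toH1₀_eq_zero_iff]
  refine ⟨a, ?_⟩
  have := congrArg Prod.fst ha
  exact this

/-- `H_c¹ → H¹` -/
def toH1 : Hc1 L A →ₗ[k] S55.H1 𝒩 A :=
  Submodule.liftQ _ (toH1₀ L A) (comap_Bc1_le_ker L A)

@[simp] lemma toH1_mk (x : ↥(Zc1 L A)) :
    toH1 L A (Submodule.Quotient.mk x) = toH1₀ L A x := rfl

/-- the range of `H_c¹ → H¹` is `Ш¹` -/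
lemma range_toH1 : LinearMap.range (toH1 L A) = Sha1 L A := by
  apply le_antisymm
  · rintro _ ⟨y, rfl⟩
    obtain ⟨x, rfl⟩ := Submodule.Quotient.mk_surjective _ y
    rw [toH1_mk]
    refine ⟨fstZ L A x, ?_, rfl⟩
    change (fstZ L A x : G → A) ∈ LocTriv1 L A
    rw [fstZ_coe]
    unfold LocTriv1
    rw [Submodule.mem_iInf]
    intro v
    have hx := (mem_Zc1_iff L A x.1).1 x.2
    exact ⟨x.1.2 v, (hx.2.2 v).symm⟩
  · rintro _ ⟨z, hz, rfl⟩
    replace hz : (z : G → A) ∈ LocTriv1 L A := hz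
    unfold LocTriv1 at hz
    rw [Submodule.mem_iInf] at hz
    choose m hm using hz
    have hz1 : (z : G → A) ∈ C1 𝒩 A := z.2.1
    have hz2 : (d₁₂ A).hom (z : G → A) = 0 := z.2.2
    have hmem : ((z : G → A), m) ∈ Zc1 L A :=
      (mem_Zc1_iff L A _).2 ⟨hz1, hz2, fun v => (hm v).symm⟩
    refine ⟨Submodule.Quotient.mk ⟨_, hmem⟩, ?_⟩
    rw [toH1_mk]
    rfl

/-- `∏_v H⁰(G_v, A) → Z_c¹`, `m ↦ (0, m)` -/
def ofLoc₀ : (∀ v : ι, ↥(S55.H0 (L.loc A v))) →ₗ[k] ↥(Zc1 L A) where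
  toFun m := ⟨(0, fun v => ((m v : ↥(S55.H0 (L.loc A v))) : L.loc A v)), by
    rw [mem_Zc1_iff]
    refine ⟨(C1 𝒩 A).zero_mem, map_zero _, fun v => ?_⟩
    rw [map_zero]
    exact ((d₀₁_eq_zero_iff (L.loc A v) _).2 (m v).2).symm⟩
  map_add' m m' := by
    apply Subtype.ext
    refine Prod.ext ?_ rfl
    change (0 : G → A) = (0 : G → A) + (0 : G → A)
    rw [add_zero]
  map_smul' c m := by
    apply Subtype.ext
    refine Prod.ext ?_ rfl
    change (0 : G → A) = c • (0 : G → A)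
    rw [smul_zero]

@[simp] lemma ofLoc₀_fst (m : ∀ v : ι, ↥(S55.H0 (L.loc A v))) : (ofLoc₀ L A m).1.1 = 0 := rfl
@[simp] lemma ofLoc₀_snd (m : ∀ v : ι, ↥(S55.H0 (L.loc A v))) (v : ι) :
    (ofLoc₀ L A m).1.2 v = (m v : L.loc A v) := rfl

/-- `∏_v H⁰(G_v, A) → H_c¹` -/
def ofLoc : (∀ v : ι, ↥(S55.H0 (L.loc A v))) →ₗ[k] Hc1 L A :=
  (Submodule.mkQ _).comp (ofLoc₀ L A)

/-- the kernel of `H_c¹ → H¹` is the image of `∏_v H⁰(G_v, A)` -/
lemma ker_toH1 : LinearMap.ker (toH1 L A) = LinearMap.range (ofLoc L A) := by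
  apply le_antisymm
  · intro y hy
    obtain ⟨x, rfl⟩ := Submodule.Quotient.mk_surjective _ y
    rw [LinearMap.mem_ker, toH1_mk, toH1₀_eq_zero_iff] at hy
    obtain ⟨a, ha⟩ := hy
    have hx := (mem_Zc1_iff L A x.1).1 x.2
    -- `m v := x.2 v - a`
    have hm : ∀ v, (x.1.2 v - (a : L.loc A v)) ∈ S55.H0 (L.loc A v) := by
      intro v
      rw [← d₀₁_eq_zero_iff, map_sub, ← hx.2.2 v, ← ha]
      funext g
      simp only [Pi.sub_apply, res₁_apply, d₀₁_hom_apply]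
      exact sub_self _
    refine ⟨fun v => ⟨_, hm v⟩, ?_⟩
    unfold ofLoc
    rw [LinearMap.comp_apply, Submodule.mkQ_apply, eq_comm, Submodule.Quotient.eq]
    refine ⟨a, ?_⟩
    refine Prod.ext ?_ ?_
    · change (d₀₁ A).hom a = x.1.1 - 0
      rw [sub_zero, ha]
    · funext v
      change (a : L.loc A v) = x.1.2 v - (x.1.2 v - (a : L.loc A v))
      abel
  · rintro _ ⟨m, rfl⟩
    rw [LinearMap.mem_ker]
    unfold ofLoc
    rw [LinearMap.comp_apply, Submodule.mkQ_apply, toH1_mk, toH1₀_eq_zero_iff, ofLoc₀_fst]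
    exact (B1 A).zero_mem

/-- the diagonal `H⁰(A) → ∏_v H⁰(G_v, A)` -/
def diagLoc : ↥(S55.H0 A) →ₗ[k] (∀ v : ι, ↥(S55.H0 (L.loc A v))) where
  toFun a := fun v => ⟨(a : A), fun g => a.2 (L.r v g)⟩
  map_add' _ _ := rfl
  map_smul' _ _ := rfl

@[simp] lemma diagLoc_apply_coe (a : ↥(S55.H0 A)) (v : ι) :
    ((diagLoc L A a v : ↥(S55.H0 (L.loc A v))) : A) = (a : A) := rfl

lemma diagLoc_injective [Nonempty ι] : Function.Injective (diagLoc L A) := by
  intro a b h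
  obtain ⟨v⟩ := ‹Nonempty ι›
  have := congrArg (fun m => ((m v : ↥(S55.H0 (L.loc A v))) : A)) h
  exact Subtype.ext this

/-- the kernel of `∏_v H⁰(G_v, A) → H_c¹` is the diagonal image of `H⁰(A)` -/
lemma ker_ofLoc : LinearMap.ker (ofLoc L A) = LinearMap.range (diagLoc L A) := by
  apply le_antisymm
  · intro m hm
    rw [LinearMap.mem_ker] at hm
    unfold ofLoc at hm
    rw [LinearMap.comp_apply, Submodule.mkQ_apply, Submodule.Quotient.mk_eq_zero] at hm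
    obtain ⟨a, ha⟩ := hm
    have h1 : (d₀₁ A).hom a = 0 := congrArg Prod.fst ha
    have h2 : ∀ v, (a : L.loc A v) = (m v : L.loc A v) := fun v =>
      congrFun (congrArg Prod.snd ha) v
    refine ⟨⟨a, (d₀₁_eq_zero_iff A a).1 h1⟩, ?_⟩
    funext v
    exact Subtype.ext (h2 v)
  · rintro _ ⟨a, rfl⟩
    rw [LinearMap.mem_ker]
    unfold ofLoc
    rw [LinearMap.comp_apply, Submodule.mkQ_apply, Submodule.Quotient.mk_eq_zero]
    refine ⟨(a : A), ?_⟩
    refine Prod.ext ?_ rfl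
    exact (d₀₁_eq_zero_iff A a).2 a.2

end Cone

section Main

variable {G : Type} [Group G] (𝒩 : Levels G)

variable {k : Type} [Field k]

/-- **EC-CONE** (the beginning of the long exact sequence of the cone):
`0 → H⁰(A) → ⊕_v H⁰(G_v, A) → H_c¹(A) → Ш¹(A) → 0`. -/
theorem cone_h1 {ι : Type} [Fintype ι] [Nonempty ι] (L : LocalData G 𝒩 ι) (A : Rep.{0} k G)
    (hfin : Module.Finite k A) (_hsm : IsSmooth 𝒩 A) (h1 : Module.Finite k (S55.H1 𝒩 A)) :
    Module.Finite k (Hc1 L A) ∧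
    Module.finrank k (Hc1 L A) + hd0 A =
      Module.finrank k ↥(Sha1 L A) + ∑ v : ι, Module.finrank k ↥(S55.H0 (L.loc A v)) := by
  classical
  haveI := hfin
  haveI := h1
  haveI : ∀ v, Module.Finite k ↥(S55.H0 (L.loc A v)) := fun v =>
    inferInstanceAs (Module.Finite k ↥((L.loc A v).ρ.invariants))
  -- finiteness of `H_c¹`
  haveI hker : Module.Finite k ↥(LinearMap.ker (toH1 L A)) := by
    rw [ker_toH1]
    infer_instance
  haveI hquot : Module.Finite k (Hc1 L A ⧸ LinearMap.ker (toH1 L A)) :=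
    Module.Finite.equiv (toH1 L A).quotKerEquivRange.symm
  haveI hHc : Module.Finite k (Hc1 L A) :=
    Module.Finite.of_submodule_quotient (LinearMap.ker (toH1 L A))
  refine ⟨hHc, ?_⟩
  -- rank-nullity twice
  have e1 := LinearMap.finrank_range_add_finrank_ker (toH1 L A)
  have e2 := LinearMap.finrank_range_add_finrank_ker (ofLoc L A)
  have e3 : Module.finrank k ↥(LinearMap.range (diagLoc L A)) = hd0 A :=
    LinearMap.finrank_range_of_inj (diagLoc_injective L A)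
  have e4 : Module.finrank k (∀ v : ι, ↥(S55.H0 (L.loc A v))) =
      ∑ v : ι, Module.finrank k ↥(S55.H0 (L.loc A v)) := Module.finrank_pi_fintype k
  rw [range_toH1, ker_toH1] at e1
  rw [ker_ofLoc, e3, e4] at e2
  omega

end Main

end Fermat.Agent.P1.helper97
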