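import Fermat.Agent.P1.helper50_ECPtEndGe
import Fermat.Agent.P1.helper97_ECCone

/-!
# P1 / module EC, package [EC-PTEND-GE] (helper50, task 735): the interface statement

`ptEndGeOut` : `PTEndGeOut p T`, verbatim the statement of
`blueprints/P1/helper63_ECInterface.lean` ([EC-CONE] = `helper97.cone_h1` is imported).
-/

set_option autoImplicit false
set_option linter.style.haveILetI false

open groupCohomology ExtCitation

noncomputable section

namespace Fermat.Agent.P1.helper50

open Fermat.Agent.S55 Fermat.Agent.P1.helper70 Fermat.Agent.P1.helper63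

section Arith

variable (p : ℕ) [Fact p.Prime] (T : Finset Nat.Primes)

/-- [EC-CONE] for the arithmetic local data -/
theorem coneOut (hpT : pPrime p ∈ T) : ConeOut p T :=
  haveI : Nonempty ↥T := ⟨⟨pPrime p, hpT⟩⟩
  fun M hM hsm h1 => helper97.cone_h1 (galLevels T) (galLocal T) M hM hsm h1

/-- **EC-PTEND-GE**: `H_c¹(M) ↪ H²(M')^*` by the four lemma (`Claim.surj0`, `Claim.inj1`,
`helper53.adjStatement`, `Loc2Out`). -/
theorem ptEndGeOut (hpT : pPrime p ∈ T) (hF : FinOut p T)
    (tr : CcAmb3 (galLocal T) (mu p) →ₗ[ZMod p] ZMod p)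
    (htr : ∀ c ∈ Bc3 (galLocal T) (mu p), tr c = 0)
    (hC : ∀ N : Rep.{0} (ZMod p) GQ, Module.Finite (ZMod p) N → IsSmooth (galLevels T) N →
      Claim (galLocal T) (evPairing N (cycloChar p)) tr)
    (hL : Loc2Out p T tr) : PTEndGeOut p T :=
  ptEndGeOut_of_cone p T (coneOut p T hpT) hpT hF tr htr hC hL

end Arith

end Fermat.Agent.P1.helper50

end
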