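import Fermat.Agent.P1.helper50_ECPtEndGeFinal

/-!
# P1 / module EC, package [EC-PTEND-LE] (helper50, second prover): `finOut`, `ptEndLeOut`

The mirror of [EC-PTEND-GE]: `H²(N) ↪ H_c¹(N')^*` by `Claim.inj2`, and [EC-CONE] for `N'`.

* `finrank_H2_le` (abstract): `dim H²(A) ≤ dim H_c¹(B)` from `Inj2` for a pairing `A × B → C`;
* `finOut`, `ptEndLeOut` : the interface statements, verbatim.
-/

set_option autoImplicit false
set_option linter.style.haveILetI false
set_option linter.unusedSectionVars false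
set_option linter.unusedVariables false

universe u

open groupCohomology ExtCitation

noncomputable section

namespace Fermat.Agent.P1.helper50

open Fermat.Agent.S55 Fermat.Agent.P1.helper70 Fermat.Agent.P1.helper63

section Abstract

variable {k G : Type u} [Field k] [Group G] {𝒩 : Levels G} {ι : Type}
  (L : LocalData G 𝒩 ι) {A B C : Rep.{u} k G} (φ : EqPairing A B C)

/-- **`dim H²(A) ≤ dim H_c¹(B)`** from `Inj2`. -/
theorem finrank_H2_le (hB : IsSmooth 𝒩 B) (tr : CcAmb3 L C →ₗ[k] k)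
    (htr : ∀ c ∈ Bc3 L C, tr c = 0) (hinj2 : Inj2 L φ tr)
    [Module.Finite k (Hc1 L B)] :
    Module.Finite k (H2 𝒩 A) ∧ Module.finrank k (H2 𝒩 A) ≤ Module.finrank k (Hc1 L B) := by
  let β : (G × G → A) →ₗ[k] CcAmb1 L B →ₗ[k] k := (cupL₂₁ L φ).compr₂ tr
  refine finrank_quot_le_of_pairing (Z2 𝒩 A) (B2 𝒩 A) (Zc1 L B) (Bc1 L B) β ?_ ?_
  · intro x hx w hw hwB
    obtain ⟨b, rfl⟩ := (mem_Bc1 L).1 hwB
    exact htr _ (cupc₂₁_dc₀₁_mem_Bc3 L φ hB hx b)
  · intro x hx h
    exact hinj2 x hx h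

end Abstract

section Arith

variable (p : ℕ) [Fact p.Prime] (T : Finset Nat.Primes)

/-- the common core of `finOut` and `ptEndLeOut` -/
theorem hd2_add_le (hpT : pPrime p ∈ T)
    (tr : CcAmb3 (galLocal T) (mu p) →ₗ[ZMod p] ZMod p)
    (htr : ∀ c ∈ Bc3 (galLocal T) (mu p), tr c = 0)
    (N : Rep.{0} (ZMod p) GQ) (hN : Module.Finite (ZMod p) N)
    (hsm : IsSmooth (galLevels T) N)
    (hC : Claim (galLocal T) (evPairing N (cycloChar p)) tr)
    (h1 : Module.Finite (ZMod p) (S55.H1 (galLevels T) (dualT p N))) :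
    Module.Finite (ZMod p) (S55.H2 (galLevels T) N) ∧
      hd2 (galLevels T) N + hd0 (dualT p N) ≤ sha1d p T (dualT p N) + locH0d p T (dualT p N) := by
  have hχ := (helper92.levelStatement p T hpT).2
  have hN' : Module.Finite (ZMod p) (dualT p N) := by
    change Module.Finite (ZMod p) (Module.Dual (ZMod p) N)
    infer_instance
  have hsm' : IsSmooth (galLevels T) (dualT p N) := isSmooth_dualTwist hχ hsm
  obtain ⟨hfin, heq⟩ := coneOut p T hpT (dualT p N) hN' hsm' h1
  haveI := hfin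
  obtain ⟨hfin2, hle⟩ := finrank_H2_le (galLocal T) (evPairing N (cycloChar p)) hsm' tr htr
    hC.inj2
  refine ⟨hfin2, ?_⟩
  have hle' : Module.finrank (ZMod p) (S55.H2 (galLevels T) N) ≤
      Module.finrank (ZMod p) (Hc1 (galLocal T) (dualT p N)) := hle
  unfold sha1d locH0d hd2
  omega

/-- **EC-PTEND-LE**, first statement: finiteness of `H²` (from `Claim.inj2` and `cone_h1`). -/
theorem finOut (hpT : pPrime p ∈ T) (hC : S55Claim p T)
    (h1 : ∀ N : Rep.{0} (ZMod p) GQ, Module.Finite (ZMod p) N → IsSmooth (galLevels T) N →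
      Module.Finite (ZMod p) (S55.H1 (galLevels T) N)) : FinOut p T := by
  intro N hN hsm
  obtain ⟨tr, htr, hCl⟩ := hC
  have hχ := (helper92.levelStatement p T hpT).2
  have hN' : Module.Finite (ZMod p) (dualT p N) := by
    change Module.Finite (ZMod p) (Module.Dual (ZMod p) N)
    infer_instance
  have hsm' : IsSmooth (galLevels T) (dualT p N) := isSmooth_dualTwist hχ hsm
  exact ⟨h1 N hN hsm,
    (hd2_add_le p T hpT tr htr N hN hsm (hCl N hN hsm) (h1 _ hN' hsm')).1⟩

/-- **EC-PTEND-LE**, second statement. -/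
theorem ptEndLeOut (hpT : pPrime p ∈ T) (hC : S55Claim p T) (hF : FinOut p T) :
    PTEndLeOut p T := by
  intro N hN hsm
  obtain ⟨tr, htr, hCl⟩ := hC
  have hχ := (helper92.levelStatement p T hpT).2
  have hN' : Module.Finite (ZMod p) (dualT p N) := by
    change Module.Finite (ZMod p) (Module.Dual (ZMod p) N)
    infer_instance
  have hsm' : IsSmooth (galLevels T) (dualT p N) := isSmooth_dualTwist hχ hsm
  exact (hd2_add_le p T hpT tr htr N hN hsm (hCl N hN hsm) (hF _ hN' hsm').1).2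

end Arith

end Fermat.Agent.P1.helper50

end
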