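import Mathlib

/-!
# P1 [EC-ART-PERM], part (a): the Moebius count in a finite group
-/

set_option autoImplicit false

namespace Fermat.Agent.P1.helper54

open Subgroup ArithmeticFunction

section Moebius

lemma sum_divisors_moebius (n : ℕ) :
    ∑ d ∈ n.divisors, (moebius d : ℤ) = if n = 1 then 1 else 0 := by
  rw [← coe_mul_zeta_apply, moebius_mul_coe_zeta, one_apply]

lemma sum_divisors_moebius_dvd {m : ℕ} (hm : m ≠ 0) (j : ℕ) :
    ∑ d ∈ m.divisors, (if d ∣ j then (moebius d : ℤ) else 0) =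
      if Nat.gcd m j = 1 then 1 else 0 := by
  rw [← Finset.sum_filter]
  have : m.divisors.filter (· ∣ j) = (Nat.gcd m j).divisors := by
    ext d
    simp only [Finset.mem_filter, Nat.mem_divisors, Nat.dvd_gcd_iff, ne_eq, Nat.gcd_eq_zero_iff,
      hm, false_and, not_false_eq_true, and_true]
  rw [this, sum_divisors_moebius]

end Moebius

section Group

variable {Q : Type*} [Group Q]

lemma pow_mem_zpowers_pow_iff (t : Q) {d j : ℕ} (hd : d ∣ orderOf t) :
    t ^ j ∈ zpowers (t ^ d) ↔ d ∣ j := by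
  constructor
  · rintro ⟨z, hz⟩
    have h1 : t ^ ((d : ℤ) * z) = t ^ (j : ℤ) := by
      rw [zpow_mul, zpow_natCast, zpow_natCast]; exact hz
    rw [zpow_eq_zpow_iff_modEq] at h1
    have h2 : (d : ℤ) ∣ (orderOf t : ℤ) := by exact_mod_cast hd
    have h3 : (d : ℤ) ∣ (j : ℤ) - (d : ℤ) * z := h2.trans h1.dvd
    have h4 : (d : ℤ) ∣ (j : ℤ) := by
      have := Dvd.dvd.add h3 (dvd_mul_right (d : ℤ) z)
      simpa using this
    exact_mod_cast h4
  · rintro ⟨k, rfl⟩
    rw [pow_mul]
    exact Subgroup.pow_mem _ (mem_zpowers _) _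

lemma zpowers_pow_le (t : Q) (j : ℕ) : zpowers (t ^ j) ≤ zpowers t :=
  zpowers_le.mpr (Subgroup.pow_mem _ (mem_zpowers _) _)

lemma zpowers_eq_iff_orderOf_eq [Finite Q] {a t : Q} (h : a ∈ zpowers t) :
    zpowers a = zpowers t ↔ orderOf a = orderOf t := by
  constructor
  · intro h'
    rw [← Nat.card_zpowers, ← Nat.card_zpowers, h']
  · intro h'
    apply Subgroup.eq_of_le_of_card_ge (zpowers_le.mpr h)
    rw [Nat.card_zpowers, Nat.card_zpowers, h']

lemma zpowers_pow_eq_iff [Finite Q] (t : Q) (j : ℕ) :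
    zpowers (t ^ j) = zpowers t ↔ Nat.gcd (orderOf t) j = 1 := by
  rw [zpowers_eq_iff_orderOf_eq (Subgroup.pow_mem _ (mem_zpowers _) _), orderOf_pow]
  have hpos : 0 < orderOf t := orderOf_pos t
  rw [Nat.div_eq_self]
  simp [hpos.ne']

open Classical in
/-- the Moebius sum over the subgroups of a cyclic group detects the generators -/
lemma moebius_indicator [Finite Q] (t a : Q) :
    ∑ d ∈ (orderOf t).divisors, (if a ∈ zpowers (t ^ d) then (moebius d : ℤ) else 0) =
      if zpowers a = zpowers t then 1 else 0 := by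
  by_cases ha : a ∈ zpowers t
  · obtain ⟨j, hj⟩ : ∃ j : ℕ, t ^ j = a := by
      have := (isOfFinOrder_of_finite t).mem_powers_iff_mem_zpowers.mpr ha
      exact Submonoid.mem_powers_iff _ _ |>.mp this
    subst hj
    have h1 : ∀ d ∈ (orderOf t).divisors,
        (if t ^ j ∈ zpowers (t ^ d) then (moebius d : ℤ) else 0) =
          if d ∣ j then (moebius d : ℤ) else 0 := by
      intro d hd
      simp only [pow_mem_zpowers_pow_iff t (Nat.dvd_of_mem_divisors hd)]
    rw [Finset.sum_congr rfl h1, sum_divisors_moebius_dvd (orderOf_pos t).ne']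
    simp only [zpowers_pow_eq_iff]
  · have h1 : ∀ d ∈ (orderOf t).divisors,
        (if a ∈ zpowers (t ^ d) then (moebius d : ℤ) else 0) = 0 := by
      intro d _
      rw [if_neg]
      exact fun h => ha (zpowers_pow_le t d h)
    rw [Finset.sum_eq_zero h1, if_neg]
    intro h
    exact ha (h ▸ mem_zpowers a)

/-- divisors with Moebius value `+1` -/
def divPlus (m : ℕ) : Finset ℕ := m.divisors.filter fun d => moebius d = 1

/-- divisors with Moebius value `-1` -/
def divMinus (m : ℕ) : Finset ℕ := m.divisors.filter fun d => moebius d = -1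

lemma divPlus_subset (m : ℕ) : divPlus m ⊆ m.divisors := Finset.filter_subset _ _

lemma divMinus_subset (m : ℕ) : divMinus m ⊆ m.divisors := Finset.filter_subset _ _

lemma sum_moebius_split (m : ℕ) (c : ℕ → ℕ) :
    ∑ d ∈ m.divisors, (moebius d : ℤ) * (c d : ℤ) =
      ((∑ d ∈ divPlus m, c d : ℕ) : ℤ) - ((∑ d ∈ divMinus m, c d : ℕ) : ℤ) := by
  rw [divPlus, divMinus, Finset.sum_filter, Finset.sum_filter, Nat.cast_sum, Nat.cast_sum,
    ← Finset.sum_sub_distrib]
  refine Finset.sum_congr rfl fun d _ => ?_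
  rcases moebius_eq_or d with h | h | h <;> simp [h]

open Classical in
/-- the Moebius count, split into positive and negative part -/
lemma moebius_count [Finite Q] (t a : Q) :
    (∑ d ∈ divPlus (orderOf t), if a ∈ zpowers (t ^ d) then 1 else 0) =
      (∑ d ∈ divMinus (orderOf t), if a ∈ zpowers (t ^ d) then 1 else 0) +
        (if zpowers a = zpowers t then 1 else 0) := by
  have h1 := moebius_indicator t a
  have h2 := sum_moebius_split (orderOf t) (fun d => if a ∈ zpowers (t ^ d) then 1 else 0)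
  have h3 : ∑ d ∈ (orderOf t).divisors, (moebius d : ℤ) *
      ((if a ∈ zpowers (t ^ d) then 1 else 0 : ℕ) : ℤ) =
      ∑ d ∈ (orderOf t).divisors, (if a ∈ zpowers (t ^ d) then (moebius d : ℤ) else 0) := by
    refine Finset.sum_congr rfl fun d _ => ?_
    split_ifs <;> simp
  rw [h3, h1] at h2
  zify
  push_cast at h2
  linarith

/-- the number of fixed points of `y` on `Q ⧸ H` -/
lemma card_mul_card_fixed (H : Subgroup Q) (y : Q) :
    Nat.card H * Nat.card {q : Q ⧸ H // y • q = q} = Nat.card {g : Q // g⁻¹ * y * g ∈ H} := by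
  have e := QuotientGroup.preimageMkEquivSubgroupProdSet H {q : Q ⧸ H | y • q = q}
  have e2 : {g : Q // g⁻¹ * y * g ∈ H} ≃
      ↑((QuotientGroup.mk : Q → Q ⧸ H) ⁻¹' {q : Q ⧸ H | y • q = q}) :=
    Equiv.subtypeEquivRight fun g => by
      change g⁻¹ * y * g ∈ H ↔ (QuotientGroup.mk (y * g) : Q ⧸ H) = QuotientGroup.mk g
      rw [QuotientGroup.eq, ← inv_mem_iff (x := g⁻¹ * y * g)]
      have : (g⁻¹ * y * g)⁻¹ = (y * g)⁻¹ * g := by group
      rw [this]
  rw [Nat.card_congr (e2.trans e), Nat.card_prod]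
  rfl

open Classical in
/-- the number of generators of a cyclic subgroup -/
lemma card_generators [Fintype Q] (a : Q) :
    (Finset.univ.filter fun t : Q => zpowers a = zpowers t).card = Nat.totient (orderOf a) := by
  rw [Nat.totient_eq_card_coprime]
  symm
  refine Finset.card_bij (fun j _ => a ^ j) ?_ ?_ ?_
  · intro j hj
    rw [Finset.mem_filter] at hj ⊢
    exact ⟨Finset.mem_univ _, ((zpowers_pow_eq_iff a j).mpr hj.2).symm⟩
  · intro j₁ h₁ j₂ h₂ h
    rw [Finset.mem_filter, Finset.mem_range] at h₁ h₂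
    exact pow_injOn_Iio_orderOf h₁.1 h₂.1 h
  · intro t ht
    rw [Finset.mem_filter] at ht
    have h1 : t ∈ zpowers a := ht.2 ▸ mem_zpowers t
    have h2 := (isOfFinOrder_of_finite a).mem_zpowers_iff_mem_range_orderOf.mp h1
    obtain ⟨j, hj, rfl⟩ := Finset.mem_image.mp h2
    refine ⟨j, Finset.mem_filter.mpr ⟨hj, ?_⟩, rfl⟩
    exact (zpowers_pow_eq_iff a j).mp ht.2.symm

end Group

section Family

/-- fixed points on a disjoint union -/
lemma card_fixed_sigma {Q : Type*} [Group Q] {I : Type*} [Fintype I] {A : I → Type*}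
    [∀ i, MulAction Q (A i)] [∀ i, Finite (A i)] (y : Q) :
    Nat.card {ξ : Σ i, A i // y • ξ = ξ} = ∑ i, Nat.card {q : A i // y • q = q} := by
  have e : {ξ : Σ i, A i // y • ξ = ξ} ≃ Σ i, {q : A i // y • q = q} :=
    { toFun := fun ξ => ⟨ξ.1.1, ξ.1.2, by
        have h := ξ.2
        obtain ⟨⟨i, q⟩, h⟩ := ξ
        have h' : (⟨i, y • q⟩ : Σ i, A i) = ⟨i, q⟩ := h
        simpa using h'⟩
      invFun := fun p => ⟨⟨p.1, p.2.1⟩, by
        change (⟨p.1, y • p.2.1⟩ : Σ i, A i) = ⟨p.1, p.2.1⟩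
        rw [p.2.2]⟩
      left_inv := fun ξ => rfl
      right_inv := fun p => rfl }
  rw [Nat.card_congr e, Nat.card_sigma]

variable (Q : Type) [Group Q]

/-- the weight of an element in the Artin formula -/
noncomputable def artW (t : Q) : ℕ := Nat.totient (Nat.card Q) / Nat.totient (orderOf t)

/-- index type of the family attached to a choice `D m` of divisors of `m` -/
def FamIdx (D : ℕ → Finset ℕ) : Type :=
  Σ (t : Q), Σ (d : ↥(D (orderOf t))), Fin (artW Q t * (orderOf t / (d : ℕ)))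

noncomputable instance famIdxFintype [Fintype Q] (D : ℕ → Finset ℕ) : Fintype (FamIdx Q D) :=
  inferInstanceAs (Fintype (Σ (t : Q), Σ (d : ↥(D (orderOf t))),
    Fin (artW Q t * (orderOf t / (d : ℕ)))))

lemma sum_famIdx [Fintype Q] (D : ℕ → Finset ℕ) (F : Q → ℕ → ℕ) :
    ∑ i : FamIdx Q D, F i.1 (i.2.1 : ℕ) =
      ∑ t : Q, ∑ d ∈ D (orderOf t), artW Q t * (orderOf t / d) * F t d := by
  change ∑ i : (Σ (t : Q), Σ (d : ↥(D (orderOf t))), Fin (artW Q t * (orderOf t / (d : ℕ)))),
    F i.1 (i.2.1 : ℕ) = _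
  rw [Fintype.sum_sigma]
  refine Finset.sum_congr rfl fun t _ => ?_
  rw [Fintype.sum_sigma]
  rw [← Finset.sum_coe_sort (D (orderOf t))]
  refine Finset.sum_congr rfl fun d _ => ?_
  change ∑ _y : Fin (artW Q t * (orderOf t / (d : ℕ))), F t (d : ℕ) = _
  rw [Finset.sum_const, Finset.card_univ, Fintype.card_fin, smul_eq_mul]

/-- the generators of the subgroups of the family -/
def famGen (D : ℕ → Finset ℕ) (i : FamIdx Q D) : Q := i.1 ^ (i.2.1 : ℕ)

open Classical in
lemma card_fixed_family [Fintype Q] (D : ℕ → Finset ℕ) (hD : ∀ m, D m ⊆ m.divisors) (y : Q) :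
    Nat.card {ξ : Σ i : FamIdx Q D, Q ⧸ zpowers (famGen Q D i) // y • ξ = ξ} =
      ∑ t : Q, artW Q t *
        ∑ g : Q, ∑ d ∈ D (orderOf t), if g⁻¹ * y * g ∈ zpowers (t ^ d) then 1 else 0 := by
  rw [card_fixed_sigma]
  have h1 := sum_famIdx Q D (fun t d => Nat.card {q : Q ⧸ zpowers (t ^ d) // y • q = q})
  refine (h1.trans ?_)
  refine Finset.sum_congr rfl fun t _ => ?_
  rw [Finset.sum_comm, Finset.mul_sum]
  refine Finset.sum_congr rfl fun d hd => ?_
  have hd' : d ∣ orderOf t := Nat.dvd_of_mem_divisors (hD _ hd)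
  have hd0 : d ≠ 0 := fun h => by
    rw [h, zero_dvd_iff] at hd'
    exact (orderOf_pos t).ne' hd'
  rw [mul_assoc]
  congr 1
  have h2 := card_mul_card_fixed (zpowers (t ^ d)) y
  rw [Nat.card_zpowers, orderOf_pow_of_dvd hd0 hd'] at h2
  rw [h2, Nat.card_eq_fintype_card, Fintype.card_subtype, Finset.card_filter]

open Classical in
lemma sum_artW_generators [Fintype Q] (a : Q) :
    ∑ t : Q, artW Q t * (if zpowers a = zpowers t then 1 else 0) =
      Nat.totient (Nat.card Q) := by
  simp only [mul_ite, mul_one, mul_zero]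
  rw [← Finset.sum_filter]
  have h1 : ∀ t ∈ Finset.univ.filter (fun t : Q => zpowers a = zpowers t),
      artW Q t = artW Q a := by
    intro t ht
    rw [Finset.mem_filter] at ht
    unfold artW
    rw [← Nat.card_zpowers t, ← ht.2, Nat.card_zpowers]
  rw [Finset.sum_congr rfl h1, Finset.sum_const, card_generators, smul_eq_mul]
  unfold artW
  exact Nat.mul_div_cancel' (Nat.totient_dvd_of_dvd (orderOf_dvd_natCard a))

open Classical in
/-- **(a)** the fixed point counts of the two families differ by the constant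
`φ(#Q) * #Q`. -/
theorem card_fixed_plus_eq [Fintype Q] (y : Q) :
    Nat.card {ξ : Σ i : FamIdx Q divPlus, Q ⧸ zpowers (famGen Q divPlus i) // y • ξ = ξ} =
      Nat.card {ξ : Σ i : FamIdx Q divMinus, Q ⧸ zpowers (famGen Q divMinus i) // y • ξ = ξ} +
        Nat.totient (Nat.card Q) * Nat.card Q := by
  rw [card_fixed_family Q divPlus divPlus_subset, card_fixed_family Q divMinus divMinus_subset]
  have h1 : ∀ t : Q, artW Q t *
      ∑ g : Q, ∑ d ∈ divPlus (orderOf t), (if g⁻¹ * y * g ∈ zpowers (t ^ d) then 1 else 0) =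
      artW Q t * ∑ g : Q, ∑ d ∈ divMinus (orderOf t),
        (if g⁻¹ * y * g ∈ zpowers (t ^ d) then 1 else 0) +
      ∑ g : Q, artW Q t * (if zpowers (g⁻¹ * y * g) = zpowers t then 1 else 0) := by
    intro t
    rw [Finset.mul_sum, Finset.mul_sum, ← Finset.sum_add_distrib]
    refine Finset.sum_congr rfl fun g _ => ?_
    rw [moebius_count t (g⁻¹ * y * g), mul_add]
  rw [Finset.sum_congr rfl fun t _ => h1 t, Finset.sum_add_distrib, Finset.sum_comm]
  congr 1
  rw [Finset.sum_congr rfl fun g _ => sum_artW_generators Q (g⁻¹ * y * g), Finset.sum_const,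
    Finset.card_univ, smul_eq_mul, mul_comm, Nat.card_eq_fintype_card]

end Family

end Fermat.Agent.P1.helper54
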