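import Fermat.Agent.P1.helper54_ArtPermCycle
import Fermat.Agent.P1.helper54_ArtPermCount
import Fermat.Agent.P1.helper68_ArtDefs

/-!
# P1 [EC-ART-PERM]: Artin induction for the trivial character on the level of `G`-sets

`perm : helper68.PermStatement`.
-/

set_option autoImplicit false

namespace Fermat.Agent.P1.helper54

open Subgroup

section QLevel

variable (Q : Type) [Group Q] [Finite Q]

omit [Finite Q] in
lemma toPerm_pow_apply {X : Type*} [MulAction Q X] (x : Q) (m : ℕ) (ξ : X) :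
    (MulAction.toPerm x ^ m) ξ = x ^ m • ξ := by
  have h := map_pow (MulAction.toPermHom Q X) x m
  have h2 : MulAction.toPermHom Q X x = MulAction.toPerm x := rfl
  rw [h2] at h
  rw [← h]
  rfl

lemma sumCongr_pow {X : Type*} {n : ℕ} (σ : Equiv.Perm X) (m : ℕ) :
    (Equiv.sumCongr σ (Equiv.refl (Fin n))) ^ m = Equiv.sumCongr (σ ^ m) (Equiv.refl (Fin n)) := by
  induction m with
  | zero => ext p; cases p <;> simp
  | succ m ih =>
    rw [pow_succ, ih, pow_succ]
    ext p; cases p <;> simp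

lemma card_fixed_sumCongr {X : Type*} [Finite X] {n : ℕ} (σ : Equiv.Perm X) :
    Nat.card {p : X ⊕ Fin n // Equiv.sumCongr σ (Equiv.refl (Fin n)) p = p} =
      Nat.card {ξ : X // σ ξ = ξ} + n := by
  have e := Equiv.subtypeSum (p := fun p : X ⊕ Fin n => Equiv.sumCongr σ (Equiv.refl (Fin n)) p = p)
  rw [Nat.card_congr e, Nat.card_sum]
  congr 1
  · exact Nat.card_congr (Equiv.subtypeEquivRight fun ξ => by simp)
  · have : {b : Fin n // Equiv.sumCongr σ (Equiv.refl (Fin n)) (Sum.inr b) = Sum.inr b} ≃ Fin n :=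
      Equiv.subtypeUnivEquiv fun b => by simp
    rw [Nat.card_congr this, Nat.card_fin]

/-- Artin induction on the level of `Q`-sets for a finite group `Q`. -/
theorem perm_finite (x : Q) :
    ∃ β : (Σ i : FamIdx Q divPlus, Q ⧸ zpowers (famGen Q divPlus i)) ≃
        ((Σ i : FamIdx Q divMinus, Q ⧸ zpowers (famGen Q divMinus i)) ⊕
          Fin (Nat.totient (Nat.card Q) * Nat.card Q)),
      ∀ ξ, β (x • ξ) = Sum.map (x • ·) id (β ξ) := by
  classical
  have := Fintype.ofFinite Q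
  have hfin1 : Finite (Σ i : FamIdx Q divPlus, Q ⧸ zpowers (famGen Q divPlus i)) := inferInstance
  have hfin2 : Finite (Σ i : FamIdx Q divMinus, Q ⧸ zpowers (famGen Q divMinus i)) :=
    inferInstance
  obtain ⟨e, he⟩ := exists_equiv_of_card_fixed
    (MulAction.toPerm x : Equiv.Perm (Σ i : FamIdx Q divPlus, Q ⧸ zpowers (famGen Q divPlus i)))
    (Equiv.sumCongr (MulAction.toPerm x : Equiv.Perm
      (Σ i : FamIdx Q divMinus, Q ⧸ zpowers (famGen Q divMinus i)))
      (Equiv.refl (Fin (Nat.totient (Nat.card Q) * Nat.card Q)))) (by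
    intro m _
    rw [sumCongr_pow, card_fixed_sumCongr]
    simp only [toPerm_pow_apply]
    exact card_fixed_plus_eq Q (x ^ m))
  refine ⟨e, fun ξ => ?_⟩
  have := he ξ
  rw [MulAction.toPerm_apply] at this
  rw [this]
  cases e ξ <;> rfl

end QLevel

section Transfer

variable {G : Type} [Group G] (N₀ : Subgroup G) [N₀.Normal]

/-- the coset space of a pulled back subgroup -/
noncomputable def cosetEquiv (H : Subgroup (G ⧸ N₀)) :
    G ⧸ H.comap (QuotientGroup.mk' N₀) ≃ (G ⧸ N₀) ⧸ H :=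
  Equiv.ofBijective
    (Quotient.map' (QuotientGroup.mk' N₀) (fun a b h => by
      rw [QuotientGroup.leftRel_apply] at h ⊢
      simpa using h))
    ⟨by
      rintro ⟨a⟩ ⟨b⟩ h
      have h' : (QuotientGroup.mk (QuotientGroup.mk' N₀ a) : (G ⧸ N₀) ⧸ H) =
          QuotientGroup.mk (QuotientGroup.mk' N₀ b) := h
      rw [QuotientGroup.eq] at h'
      change (QuotientGroup.mk a : G ⧸ H.comap (QuotientGroup.mk' N₀)) = QuotientGroup.mk b
      rw [QuotientGroup.eq, Subgroup.mem_comap]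
      simpa using h',
     by
      rintro ⟨q⟩
      obtain ⟨g, rfl⟩ := QuotientGroup.mk'_surjective N₀ q
      exact ⟨QuotientGroup.mk g, rfl⟩⟩

lemma cosetEquiv_smul (H : Subgroup (G ⧸ N₀)) (x : G)
    (q : G ⧸ H.comap (QuotientGroup.mk' N₀)) :
    cosetEquiv N₀ H (x • q) = (QuotientGroup.mk' N₀ x) • cosetEquiv N₀ H q := by
  induction q using QuotientGroup.induction_on with
  | H g => rfl

lemma cycMod_comap_zpowers (c : G ⧸ N₀) :
    helper68.CycMod N₀ ((zpowers c).comap (QuotientGroup.mk' N₀)) := by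
  obtain ⟨g, rfl⟩ := QuotientGroup.mk'_surjective N₀ c
  refine ⟨g, ?_⟩
  rw [← MonoidHom.map_zpowers, comap_map_eq, QuotientGroup.ker_mk', sup_comm]

end Transfer

/-- **[ART-PERM]** Artin induction for the trivial character, on the level of `G`-sets. -/
theorem perm : helper68.PermStatement := by
  intro G _ N₀ _ _
  classical
  have := Fintype.ofFinite (G ⧸ N₀)
  let Q := G ⧸ N₀
  let π : G →* Q := QuotientGroup.mk' N₀
  let H₁ : FamIdx Q divPlus → Subgroup Q := fun i => zpowers (famGen Q divPlus i)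
  let H₂ : FamIdx Q divMinus → Subgroup Q := fun i => zpowers (famGen Q divMinus i)
  refine ⟨Nat.totient (Nat.card Q) * Nat.card Q, FamIdx Q divPlus, FamIdx Q divMinus,
    inferInstance, inferInstance, fun i => (H₁ i).comap π, fun i => (H₂ i).comap π, ?_,
    fun i => cycMod_comap_zpowers N₀ _, fun i => cycMod_comap_zpowers N₀ _, fun x => ?_⟩
  · exact Nat.mul_pos (Nat.totient_pos.mpr Nat.card_pos) Nat.card_pos
  · obtain ⟨β, hβ⟩ := perm_finite Q (π x)
    let E₁ : (Σ i, G ⧸ (H₁ i).comap π) ≃ (Σ i, Q ⧸ H₁ i) :=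
      Equiv.sigmaCongrRight fun i => cosetEquiv N₀ (H₁ i)
    let E₂ : (Σ i, G ⧸ (H₂ i).comap π) ≃ (Σ i, Q ⧸ H₂ i) :=
      Equiv.sigmaCongrRight fun i => cosetEquiv N₀ (H₂ i)
    have hE₁ : ∀ ξ, E₁ (helper68.sigAct (fun i => (H₁ i).comap π) x ξ) = π x • E₁ ξ := by
      rintro ⟨i, q⟩
      change (⟨i, cosetEquiv N₀ (H₁ i) (x • q)⟩ : Σ i, Q ⧸ H₁ i) =
        ⟨i, π x • cosetEquiv N₀ (H₁ i) q⟩
      rw [cosetEquiv_smul]
    have hE₂ : ∀ ξ, E₂ (helper68.sigAct (fun i => (H₂ i).comap π) x ξ) = π x • E₂ ξ := by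
      rintro ⟨i, q⟩
      change (⟨i, cosetEquiv N₀ (H₂ i) (x • q)⟩ : Σ i, Q ⧸ H₂ i) =
        ⟨i, π x • cosetEquiv N₀ (H₂ i) q⟩
      rw [cosetEquiv_smul]
    refine ⟨E₁.trans (β.trans (Equiv.sumCongr E₂.symm (Equiv.refl _))), fun ξ => ?_⟩
    simp only [Equiv.trans_apply]
    rw [hE₁, hβ]
    cases β (E₁ ξ) with
    | inl η =>
      simp only [Sum.map_inl, Equiv.sumCongr_apply]
      congr 1
      rw [Equiv.symm_apply_eq, hE₂, Equiv.apply_symm_apply]
    | inr k => rfl

end Fermat.Agent.P1.helper54
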