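import Mathlib

/-!
# P1 [EC-ART-PERM], part (b): permutations with the same fixed point counts are conjugate

Two permutations `σ` of a finite type `X` and `τ` of a finite type `Y` such that `σ ^ m` and
`τ ^ m` have the same number of fixed points for every `m ≥ 1` are conjugate by a bijection
`X ≃ Y`.
-/

set_option autoImplicit false

namespace Fermat.Agent.P1.helper54

open Function MulAction Subgroup

section Cycle

universe u v

variable {X : Type u} (σ : Equiv.Perm X)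

/-- the set of cycles of `σ` -/
abbrev CycOrb : Type u := orbitRel.Quotient (zpowers σ) X

/-- the length of a cycle -/
noncomputable def cycPer (q : CycOrb σ) : ℕ := minimalPeriod (σ • ·) q.out

/-- decomposition of `X` into the cycles of `σ` -/
noncomputable def cycEquiv : X ≃ Σ q : CycOrb σ, ZMod (cycPer σ q) :=
  (selfEquivSigmaOrbits (zpowers σ) X).trans
    (Equiv.sigmaCongrRight fun q => orbitZPowersEquiv σ q.out)

lemma cycEquiv_symm_apply (q : CycOrb σ) (k : ZMod (cycPer σ q)) :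
    (cycEquiv σ).symm ⟨q, k⟩ = σ ^ (ZMod.cast k : ℤ) • q.out := rfl

lemma cycEquiv_apply (q : CycOrb σ) (k : ℤ) :
    cycEquiv σ (σ ^ k • q.out) = ⟨q, (k : ZMod (cycPer σ q))⟩ := by
  rw [← Equiv.eq_symm_apply, cycEquiv_symm_apply, ZMod.coe_intCast]
  exact (zpow_smul_mod_minimalPeriod σ q.out k).symm

lemma cycEquiv_apply_perm (x : X) :
    cycEquiv σ (σ x) = ⟨(cycEquiv σ x).1, (cycEquiv σ x).2 + 1⟩ := by
  obtain ⟨⟨q, k⟩, rfl⟩ := (cycEquiv σ).symm.surjective x
  rw [Equiv.apply_symm_apply, cycEquiv_symm_apply]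
  have h : σ (σ ^ (ZMod.cast k : ℤ) • q.out) = σ ^ (1 + (ZMod.cast k : ℤ)) • q.out := by
    rw [zpow_one_add, mul_smul]; rfl
  rw [h, cycEquiv_apply]
  simp [add_comm]

lemma minimalPeriod_zpow_smul (z : ℤ) (b : X) :
    minimalPeriod (σ • ·) (σ ^ z • b) = minimalPeriod (σ • ·) b := by
  have key : ∀ n : ℕ, σ ^ n • (σ ^ z • b) = σ ^ z • b ↔ σ ^ n • b = b := by
    intro n
    rw [← mul_smul, ← zpow_natCast, ← zpow_add, add_comm, zpow_add, mul_smul, zpow_natCast]
    exact smul_left_cancel_iff _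
  apply Nat.dvd_antisymm
  · rw [← pow_smul_eq_iff_minimalPeriod_dvd, key, pow_smul_eq_iff_minimalPeriod_dvd]
  · rw [← pow_smul_eq_iff_minimalPeriod_dvd, ← key, pow_smul_eq_iff_minimalPeriod_dvd]

lemma minimalPeriod_cycEquiv_symm (p : Σ q : CycOrb σ, ZMod (cycPer σ q)) :
    minimalPeriod (σ • ·) ((cycEquiv σ).symm p) = cycPer σ p.1 := by
  obtain ⟨q, k⟩ := p
  rw [cycEquiv_symm_apply, minimalPeriod_zpow_smul]
  rfl

lemma pow_apply_eq_iff (m : ℕ) (p : Σ q : CycOrb σ, ZMod (cycPer σ q)) :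
    (σ ^ m) ((cycEquiv σ).symm p) = (cycEquiv σ).symm p ↔ cycPer σ p.1 ∣ m := by
  rw [← minimalPeriod_cycEquiv_symm, ← pow_smul_eq_iff_minimalPeriod_dvd]
  rfl

variable [Finite X]

instance cycPer_neZero (q : CycOrb σ) : NeZero (cycPer σ q) := by
  unfold cycPer
  infer_instance

lemma card_fixed_pow [Fintype (CycOrb σ)] (m : ℕ) :
    Nat.card {x // (σ ^ m) x = x} =
      ∑ q : CycOrb σ, if cycPer σ q ∣ m then cycPer σ q else 0 := by
  classical
  have e1 : {x // (σ ^ m) x = x} ≃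
      {p : Σ q : CycOrb σ, ZMod (cycPer σ q) // cycPer σ p.1 ∣ m} :=
    (cycEquiv σ).subtypeEquiv (fun x => by
      rw [← pow_apply_eq_iff σ m (cycEquiv σ x), Equiv.symm_apply_apply])
  have e2 := Equiv.subtypeSigmaEquiv (fun q : CycOrb σ => ZMod (cycPer σ q))
    (fun q => cycPer σ q ∣ m)
  rw [Nat.card_congr (e1.trans e2), Nat.card_sigma]
  simp only [Nat.card_zmod]
  rw [← Finset.sum_filter]
  exact (Finset.sum_subtype (Finset.univ.filter fun q => cycPer σ q ∣ m) (by simp)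
    (fun q => cycPer σ q)).symm

/-- number of cycles of length `j` -/
noncomputable def cycCnt (j : ℕ) : ℕ := Nat.card {q : CycOrb σ // cycPer σ q = j}

lemma cycCnt_zero : cycCnt σ 0 = 0 := by
  have : IsEmpty {q : CycOrb σ // cycPer σ q = 0} :=
    ⟨fun q => (cycPer_neZero σ q.1).out q.2⟩
  exact Nat.card_of_isEmpty

omit [Finite X] in
lemma sum_ite_dvd_eq [Fintype (CycOrb σ)] {m : ℕ} (hm : m ≠ 0) :
    (∑ q : CycOrb σ, if cycPer σ q ∣ m then cycPer σ q else 0) =
      ∑ j ∈ m.divisors, j * cycCnt σ j := by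
  classical
  have h1 : ∀ q : CycOrb σ, (if cycPer σ q ∣ m then cycPer σ q else 0) =
      ∑ j ∈ m.divisors, if cycPer σ q = j then j else 0 := by
    intro q
    rw [Finset.sum_ite_eq]
    simp [Nat.mem_divisors, hm]
  simp_rw [h1]
  rw [Finset.sum_comm]
  refine Finset.sum_congr rfl fun j _ => ?_
  rw [← Finset.sum_filter, Finset.sum_const, smul_eq_mul, mul_comm]
  congr 1
  rw [cycCnt, Nat.card_eq_fintype_card, Fintype.card_subtype]

theorem cycCnt_eq_of_card_fixed {Y : Type v} [Finite Y] (τ : Equiv.Perm Y)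
    (h : ∀ m : ℕ, 0 < m → Nat.card {x // (σ ^ m) x = x} = Nat.card {y // (τ ^ m) y = y})
    (j : ℕ) : cycCnt σ j = cycCnt τ j := by
  classical
  have := Fintype.ofFinite (CycOrb σ)
  have := Fintype.ofFinite (CycOrb τ)
  induction j using Nat.strong_induction_on with
  | _ j ih =>
    rcases Nat.eq_zero_or_pos j with rfl | hj
    · rw [cycCnt_zero, cycCnt_zero]
    · have h1 := h j hj
      rw [card_fixed_pow, card_fixed_pow, sum_ite_dvd_eq _ hj.ne', sum_ite_dvd_eq _ hj.ne',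
        ← Nat.insert_self_properDivisors hj.ne',
        Finset.sum_insert Nat.self_notMem_properDivisors,
        Finset.sum_insert Nat.self_notMem_properDivisors] at h1
      have h2 : ∑ i ∈ j.properDivisors, i * cycCnt σ i = ∑ i ∈ j.properDivisors, i * cycCnt τ i :=
        Finset.sum_congr rfl fun i hi => by rw [ih i (Nat.mem_properDivisors.mp hi).2]
      rw [h2] at h1
      exact Nat.eq_of_mul_eq_mul_left hj (Nat.add_right_cancel h1)

/-- **(b)** two permutations of finite types whose positive powers have the same numbers of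
fixed points are conjugate by a bijection. -/
theorem exists_equiv_of_card_fixed {Y : Type v} [Finite Y] (τ : Equiv.Perm Y)
    (h : ∀ m : ℕ, 0 < m → Nat.card {x // (σ ^ m) x = x} = Nat.card {y // (τ ^ m) y = y}) :
    ∃ e : X ≃ Y, ∀ x, e (σ x) = τ (e x) := by
  have hc := cycCnt_eq_of_card_fixed σ τ h
  have he : ∀ j, Nonempty ({q : CycOrb σ // cycPer σ q = j} ≃ {q : CycOrb τ // cycPer τ q = j}) :=
    fun j => Finite.card_eq.mp (hc j)
  let eΩ : CycOrb σ ≃ CycOrb τ := Equiv.ofFiberEquiv (fun j => (he j).some)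
  have hΩ : ∀ q, cycPer τ (eΩ q) = cycPer σ q := Equiv.ofFiberEquiv_map _
  let Φ : (Σ q : CycOrb σ, ZMod (cycPer σ q)) ≃ (Σ q : CycOrb τ, ZMod (cycPer τ q)) :=
    Equiv.sigmaCongr eΩ (fun q => (ZMod.ringEquivCongr (hΩ q).symm).toEquiv)
  have hΦ : ∀ (q : CycOrb σ) (k : ZMod (cycPer σ q)),
      Φ ⟨q, k + 1⟩ = ⟨(Φ ⟨q, k⟩).1, (Φ ⟨q, k⟩).2 + 1⟩ := by
    intro q k
    change (⟨eΩ q, ZMod.ringEquivCongr (hΩ q).symm (k + 1)⟩ :
      Σ q : CycOrb τ, ZMod (cycPer τ q)) = ⟨eΩ q, ZMod.ringEquivCongr (hΩ q).symm k + 1⟩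
    rw [map_add, map_one]
  refine ⟨(cycEquiv σ).trans (Φ.trans (cycEquiv τ).symm), fun x => ?_⟩
  simp only [Equiv.trans_apply]
  rw [Equiv.symm_apply_eq, cycEquiv_apply_perm τ, Equiv.apply_symm_apply, cycEquiv_apply_perm σ]
  exact hΦ _ _

end Cycle

end Fermat.Agent.P1.helper54
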