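/-
P1 / module EC, package ART-COMB in the form of helper24_ArtDefs (helper56, task 755):
Artin's identity for fixed point counts with signs and multiplicities resolved.
-/
import Mathlib
import Fermat.Agent.P1.helper24_ArtDefs
import Fermat.Agent.P1.helper56_ECArtComb

set_option autoImplicit false
set_option linter.unusedSectionVars false
set_option linter.unusedVariables false
set_option linter.style.haveILetI false

namespace Fermat.Agent.P1.helper56

open scoped Classical

variable (Γ : Type) [Group Γ] [Finite Γ]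

/-- The Artin coefficients `a C = α C * |C|`. -/
noncomputable def artinCoeff (C : Subgroup Γ) : ℤ := artinAlpha Γ C * (Nat.card C : ℤ)

theorem artinCoeff_of_not_isCyclic {C : Subgroup Γ} (hC : ¬ IsCyclic C) : artinCoeff Γ C = 0 := by
  rw [artinCoeff, artinAlpha_of_not_isCyclic Γ hC, zero_mul]

/-- Artin's identity with integer coefficients, as a sum over all subgroups. -/
theorem sum_artinCoeff_fixed [Fintype (Subgroup Γ)] (γ : Γ) :
    ∑ C : Subgroup Γ, artinCoeff Γ C * (Nat.card ↥(MulAction.fixedBy (Γ ⧸ C) γ) : ℤ) =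
      Nat.card Γ := by
  haveI : Fintype Γ := Fintype.ofFinite _
  have h1 : ∀ C : Subgroup Γ,
      artinCoeff Γ C * (Nat.card ↥(MulAction.fixedBy (Γ ⧸ C) γ) : ℤ) =
        ∑ x : Γ, if x⁻¹ * γ * x ∈ C then artinAlpha Γ C else 0 := by
    intro C
    have h2 := card_fixed_mul_card C γ
    have h3 : (Nat.card C : ℤ) * (Nat.card ↥(MulAction.fixedBy (Γ ⧸ C) γ) : ℤ) =
        ∑ x : Γ, if x⁻¹ * γ * x ∈ C then (1 : ℤ) else 0 := by
      rw [← natCast_card_setOf, ← h2]
      push_cast
      rw [mul_comm]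
      rfl
    rw [artinCoeff, mul_assoc, h3, Finset.mul_sum]
    refine Finset.sum_congr rfl fun x _ => ?_
    split_ifs <;> simp
  simp_rw [h1]
  rw [Finset.sum_comm]
  simp_rw [sum_artinAlpha_mem]
  simp [Nat.card_eq_fintype_card]

/-- Artin's identity with integer coefficients, as a sum over the cyclic subgroups. -/
theorem sum_artinCoeff_fixed_cyclic [Fintype {C : Subgroup Γ // IsCyclic C}] (γ : Γ) :
    ∑ C : {C : Subgroup Γ // IsCyclic C},
      artinCoeff Γ C.1 * (Nat.card ↥(MulAction.fixedBy (Γ ⧸ C.1) γ) : ℤ) = Nat.card Γ := by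
  haveI : Fintype (Subgroup Γ) := Fintype.ofFinite _
  rw [← sum_artinCoeff_fixed Γ γ]
  have hfilter : ∑ C : Subgroup Γ,
      artinCoeff Γ C * (Nat.card ↥(MulAction.fixedBy (Γ ⧸ C) γ) : ℤ) =
      ∑ C ∈ Finset.univ.filter (fun C : Subgroup Γ => IsCyclic C),
        artinCoeff Γ C * (Nat.card ↥(MulAction.fixedBy (Γ ⧸ C) γ) : ℤ) := by
    rw [Finset.sum_filter]
    refine Finset.sum_congr rfl fun C _ => ?_
    split_ifs with h
    · rfl
    · rw [artinCoeff_of_not_isCyclic Γ h, zero_mul]
  rw [hfilter]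
  exact (Finset.sum_subtype (Finset.univ.filter (fun C : Subgroup Γ => IsCyclic C))
    (p := fun C : Subgroup Γ => IsCyclic C)
    (fun C => by simp only [Finset.mem_filter, Finset.mem_univ, true_and])
    (fun C => artinCoeff Γ C * (Nat.card ↥(MulAction.fixedBy (Γ ⧸ C) γ) : ℤ))).symm

/-- A sum over a sigma type of `Fin`s. -/
theorem sum_sigma_fin {ι : Type} [Fintype ι] (n : ι → ℕ) (f : ι → ℕ) :
    ∑ j : (Σ i : ι, Fin (n i)), f j.1 = ∑ i : ι, n i * f i := by
  rw [Fintype.sum_sigma]
  refine Finset.sum_congr rfl fun i _ => ?_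
  simp only [Finset.sum_const, Finset.card_univ, Fintype.card_fin, smul_eq_mul]

/-- **[ART-COMB]** Artin's induction theorem for the trivial character, as an identity between
fixed point counts of finite `Γ`-sets, signs and multiplicities resolved. -/
theorem artComb : Fermat.Agent.P1.helper24.ArtCombStatement := by
  intro Γ _ _
  haveI : Fintype {C : Subgroup Γ // IsCyclic C} := Fintype.ofFinite _
  refine ⟨Σ C : {C : Subgroup Γ // IsCyclic C}, Fin (-artinCoeff Γ C.1).toNat,
    Σ C : {C : Subgroup Γ // IsCyclic C}, Fin (artinCoeff Γ C.1).toNat,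
    inferInstance, inferInstance, fun i => i.1.1, fun j => j.1.1, fun i => i.1.2, fun j => j.1.2,
    fun g => ?_⟩
  have hI := sum_sigma_fin (ι := {C : Subgroup Γ // IsCyclic C})
    (fun C => (-artinCoeff Γ C.1).toNat)
    (fun C => Nat.card ↥(MulAction.fixedBy (Γ ⧸ C.1) g))
  have hJ := sum_sigma_fin (ι := {C : Subgroup Γ // IsCyclic C})
    (fun C => (artinCoeff Γ C.1).toNat)
    (fun C => Nat.card ↥(MulAction.fixedBy (Γ ⧸ C.1) g))
  rw [hI, hJ]
  have key := sum_artinCoeff_fixed_cyclic Γ g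
  have hcast : ((Nat.card Γ + ∑ C : {C : Subgroup Γ // IsCyclic C},
      (-artinCoeff Γ C.1).toNat * Nat.card ↥(MulAction.fixedBy (Γ ⧸ C.1) g) : ℕ) : ℤ) =
      ((∑ C : {C : Subgroup Γ // IsCyclic C},
        (artinCoeff Γ C.1).toNat * Nat.card ↥(MulAction.fixedBy (Γ ⧸ C.1) g) : ℕ) : ℤ) := by
    push_cast
    rw [← key, ← Finset.sum_add_distrib]
    refine Finset.sum_congr rfl fun C _ => ?_
    have h := Int.toNat_sub_toNat_neg (artinCoeff Γ C.1)
    have h' : ((artinCoeff Γ C.1).toNat : ℤ) = artinCoeff Γ C.1 + ((-artinCoeff Γ C.1).toNat : ℤ) := by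
      linarith
    rw [h']
    ring
  exact_mod_cast hcast

end Fermat.Agent.P1.helper56
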