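import Fermat.Agent.P1.helper7_LSODefs

/-!
# P1 / module LSO, package LSO-LIN (helper94)

`linStatement : Fermat.Agent.P1.helper7.LinStatement`: a strictly ordinary lift
`ρ = (1 + ε c) ρbar` of `ρbar` to the dual numbers with cyclotomic determinant (`p` odd) has a
strictly ordinary residual line `L`, and on the decomposition group the cocycle `c` is a
`W(L)`-valued cochain plus the coboundary of some `X ∈ ad⁰`.

The proof is elementary linear algebra over the dual numbers `k[ε]`, organised around the two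
additive maps `fstV, sndV : V → Vbar` (the `ε⁰`- and `ε¹`-parts in the bases of `IsTanLift`).
-/

set_option autoImplicit false
set_option linter.unusedSectionVars false
set_option linter.style.haveILetI false
set_option linter.unusedVariables false
set_option linter.unusedSimpArgs false

open IsLocalRing ExtCitation

noncomputable section

namespace Fermat.Agent.P1.helper94

open Fermat.Agent.P1.helper70 Fermat.Agent.P1.helper7

/-! ## Coordinates over the dual numbers -/

section Coord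

variable {k : Type} [Field k] {V Vb : Type} [AddCommGroup V] [Module (DualNumber k) V]
  [AddCommGroup Vb] [Module k Vb]
  (b : Module.Basis (Fin 2) (DualNumber k) V) (bb : Module.Basis (Fin 2) k Vb)

/-- The `ε⁰`-part of a vector, in the bases `b`, `bb`. -/
def fstV (v : V) : Vb := bb.equivFun.symm fun i => (b.repr v i).fst

/-- The `ε¹`-part of a vector, in the bases `b`, `bb`. -/
def sndV (v : V) : Vb := bb.equivFun.symm fun i => (b.repr v i).snd

/-- The constant lift of a vector, in the bases `b`, `bb`. -/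
def liftV (w : Vb) : V := b.equivFun.symm fun i => TrivSqZeroExt.inl (bb.repr w i)

lemma repr_fstV (v : V) (i : Fin 2) : bb.repr (fstV b bb v) i = (b.repr v i).fst := by
  have h := bb.equivFun.apply_symm_apply fun i => (b.repr v i).fst
  exact congrFun h i

lemma repr_sndV (v : V) (i : Fin 2) : bb.repr (sndV b bb v) i = (b.repr v i).snd := by
  have h := bb.equivFun.apply_symm_apply fun i => (b.repr v i).snd
  exact congrFun h i

lemma repr_liftV (w : Vb) (i : Fin 2) :
    b.repr (liftV b bb w) i = TrivSqZeroExt.inl (bb.repr w i) := by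
  have h := b.equivFun.apply_symm_apply fun i => TrivSqZeroExt.inl (bb.repr w i)
  exact congrFun h i

lemma fstV_liftV (w : Vb) : fstV b bb (liftV b bb w) = w := by
  refine bb.ext_elem fun i => ?_
  rw [repr_fstV, repr_liftV, TrivSqZeroExt.fst_inl]

lemma sndV_liftV (w : Vb) : sndV b bb (liftV b bb w) = 0 := by
  refine bb.ext_elem fun i => ?_
  rw [repr_sndV, repr_liftV, TrivSqZeroExt.snd_inl, map_zero, Finsupp.zero_apply]

lemma fstV_add (v w : V) : fstV b bb (v + w) = fstV b bb v + fstV b bb w := by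
  refine bb.ext_elem fun i => ?_
  simp only [repr_fstV, map_add, Finsupp.add_apply, TrivSqZeroExt.fst_add]

lemma sndV_add (v w : V) : sndV b bb (v + w) = sndV b bb v + sndV b bb w := by
  refine bb.ext_elem fun i => ?_
  simp only [repr_sndV, map_add, Finsupp.add_apply, TrivSqZeroExt.snd_add]

lemma fstV_sub (v w : V) : fstV b bb (v - w) = fstV b bb v - fstV b bb w := by
  refine bb.ext_elem fun i => ?_
  simp only [repr_fstV, map_sub, Finsupp.sub_apply, TrivSqZeroExt.fst_sub]

lemma sndV_sub (v w : V) : sndV b bb (v - w) = sndV b bb v - sndV b bb w := by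
  refine bb.ext_elem fun i => ?_
  simp only [repr_sndV, map_sub, Finsupp.sub_apply, TrivSqZeroExt.snd_sub]

lemma fstV_smul (a : DualNumber k) (v : V) :
    fstV b bb (a • v) = a.fst • fstV b bb v := by
  refine bb.ext_elem fun i => ?_
  simp only [repr_fstV, map_smul, Finsupp.smul_apply, smul_eq_mul, TrivSqZeroExt.fst_mul]

lemma sndV_smul (a : DualNumber k) (v : V) :
    sndV b bb (a • v) = a.fst • sndV b bb v + a.snd • fstV b bb v := by
  refine bb.ext_elem fun i => ?_
  simp only [repr_fstV, repr_sndV, map_smul, map_add, Finsupp.smul_apply, Finsupp.add_apply,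
    smul_eq_mul, DualNumber.snd_mul]

lemma eq_zero_of_fstV_sndV {v : V} (h1 : fstV b bb v = 0) (h2 : sndV b bb v = 0) : v = 0 := by
  refine b.ext_elem fun i => ?_
  have e1 := repr_fstV b bb v i
  have e2 := repr_sndV b bb v i
  rw [h1, map_zero, Finsupp.zero_apply] at e1
  rw [h2, map_zero, Finsupp.zero_apply] at e2
  rw [map_zero, Finsupp.zero_apply]
  exact TrivSqZeroExt.ext e1.symm e2.symm

/-- The `ε⁰`-part of `f v` for an endomorphism `f` whose matrix is `Fb + ε G`. -/
lemma fstV_apply (f : Module.End (DualNumber k) V) (fb g : Module.End k Vb)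
    (h : LinearMap.toMatrix b b f =
      (LinearMap.toMatrix bb bb fb).map TrivSqZeroExt.inl +
        (LinearMap.toMatrix bb bb g).map TrivSqZeroExt.inr) (v : V) :
    fstV b bb (f v) = fb (fstV b bb v) := by
  refine bb.ext_elem fun i => ?_
  rw [repr_fstV, ← LinearMap.toMatrix_mulVec_repr b b f v,
    ← LinearMap.toMatrix_mulVec_repr bb bb fb (fstV b bb v), h]
  simp only [Matrix.mulVec, dotProduct, Matrix.add_apply, Matrix.map_apply, repr_fstV,
    TrivSqZeroExt.fst_sum, TrivSqZeroExt.fst_mul, TrivSqZeroExt.fst_add, TrivSqZeroExt.fst_inl,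
    TrivSqZeroExt.fst_inr, add_zero]

/-- The `ε¹`-part of `f v` for an endomorphism `f` whose matrix is `Fb + ε G`. -/
lemma sndV_apply (f : Module.End (DualNumber k) V) (fb g : Module.End k Vb)
    (h : LinearMap.toMatrix b b f =
      (LinearMap.toMatrix bb bb fb).map TrivSqZeroExt.inl +
        (LinearMap.toMatrix bb bb g).map TrivSqZeroExt.inr) (v : V) :
    sndV b bb (f v) = fb (sndV b bb v) + g (fstV b bb v) := by
  refine bb.ext_elem fun i => ?_
  rw [repr_sndV, ← LinearMap.toMatrix_mulVec_repr b b f v, map_add, Finsupp.add_apply,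
    ← LinearMap.toMatrix_mulVec_repr bb bb fb (sndV b bb v),
    ← LinearMap.toMatrix_mulVec_repr bb bb g (fstV b bb v), h]
  simp only [Matrix.mulVec, dotProduct, Matrix.add_apply, Matrix.map_apply, repr_fstV, repr_sndV,
    TrivSqZeroExt.snd_sum, DualNumber.snd_mul, TrivSqZeroExt.fst_add, TrivSqZeroExt.snd_add,
    TrivSqZeroExt.fst_inl, TrivSqZeroExt.snd_inl, TrivSqZeroExt.fst_inr, TrivSqZeroExt.snd_inr,
    add_zero, zero_add, add_mul, Finset.sum_add_distrib, zero_mul, Finset.sum_const_zero]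


/-- The `ε⁰`-part of a basis vector is nonzero. -/
lemma fstV_basis_ne_zero (b' : Module.Basis (Fin 2) (DualNumber k) V) (i : Fin 2) :
    fstV b bb (b' i) ≠ 0 := by
  intro h0
  have h1 : fstV b bb ((DualNumber.eps : DualNumber k) • b' i) = 0 := by
    rw [fstV_smul, h0, smul_zero]
  have h2 : sndV b bb ((DualNumber.eps : DualNumber k) • b' i) = 0 := by
    rw [sndV_smul, h0, smul_zero, add_zero, DualNumber.fst_eps, zero_smul]
  have h3 := eq_zero_of_fstV_sndV b bb h1 h2
  have h4 := congrArg (fun v => b'.repr v i) h3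
  simp only [map_smul, Module.Basis.repr_self, Finsupp.smul_apply, Finsupp.single_eq_same,
    smul_eq_mul, mul_one, map_zero, Finsupp.zero_apply] at h4
  have h5 := congrArg TrivSqZeroExt.snd h4
  rw [DualNumber.snd_eps, TrivSqZeroExt.snd_zero] at h5
  exact one_ne_zero h5

/-- An endomorphism which is upper triangular with diagonal `(x, z)` in a basis has
determinant `x z`. -/
lemma det_eq_mul_of_triangular (b' : Module.Basis (Fin 2) (DualNumber k) V)
    (f : Module.End (DualNumber k) V) (x z α : DualNumber k)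
    (hx : f (b' 0) = x • b' 0) (hz : f (b' 1) - z • b' 1 = α • b' 0) :
    LinearMap.det f = x * z := by
  have hz' : f (b' 1) = z • b' 1 + α • b' 0 := by
    rw [← hz]; abel
  rw [← LinearMap.det_toMatrix b', Matrix.det_fin_two]
  simp only [LinearMap.toMatrix_apply, hx, hz', map_add, map_smul, Module.Basis.repr_self,
    Finsupp.smul_apply, Finsupp.add_apply, smul_eq_mul]
  have h01 : (0 : Fin 2) ≠ 1 := by decide
  have h10 : (1 : Fin 2) ≠ 0 := by decide
  simp [Finsupp.single_apply, h01, h10]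

/-- A vector `u₀ ≠ 0` can be sent to any vector by an endomorphism. -/
lemma exists_end_apply_eq {k' W : Type} [Field k'] [AddCommGroup W] [Module k' W]
    (bw : Module.Basis (Fin 2) k' W) {u₀ : W} (h : u₀ ≠ 0) (u₁ : W) :
    ∃ X : Module.End k' W, X u₀ = u₁ := by
  have hi : ∃ i, bw.repr u₀ i ≠ 0 := by
    by_contra hcon
    exact h (bw.ext_elem fun i => by
      rw [not_not.mp (not_exists.mp hcon i), map_zero, Finsupp.zero_apply])
  obtain ⟨i, hi⟩ := hi
  refine ⟨((bw.repr u₀ i)⁻¹ • bw.coord i).smulRight u₁, ?_⟩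
  rw [LinearMap.smulRight_apply, LinearMap.smul_apply, Module.Basis.coord_apply, smul_eq_mul,
    inv_mul_cancel₀ hi, one_smul]

/-- The `ε⁰`-part of "`f - z` has image in the line `A e₀`". -/
lemma fst_mem_of_sub_smul_mem (f : Module.End (DualNumber k) V) (fb g : Module.End k Vb)
    (hM : LinearMap.toMatrix b b f =
      (LinearMap.toMatrix bb bb fb).map TrivSqZeroExt.inl +
        (LinearMap.toMatrix bb bb g).map TrivSqZeroExt.inr)
    (e₀ : V) (z : DualNumber k)
    (hz : ∀ v : V, f v - z • v ∈ Submodule.span (DualNumber k) {e₀}) (w : Vb) :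
    fb w - z.fst • w ∈ Submodule.span k {fstV b bb e₀} := by
  obtain ⟨α, hα⟩ := Submodule.mem_span_singleton.mp (hz (liftV b bb w))
  have h1 := congrArg (fstV b bb) hα
  rw [fstV_smul, fstV_sub, fstV_apply b bb f fb g hM, fstV_smul, fstV_liftV] at h1
  rw [← h1]
  exact Submodule.smul_mem _ _ (Submodule.mem_span_singleton_self _)

/-- **The linear algebra core of LSO-LIN**, for one element of the decomposition group. -/
theorem core_lin (h2 : (2 : k) ≠ 0) (b' : Module.Basis (Fin 2) (DualNumber k) V)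
    (f : Module.End (DualNumber k) V) (fb fbinv C Xt : Module.End k Vb)
    (hinv : fbinv * fb = 1) (hinv' : fb * fbinv = 1)
    (hM : LinearMap.toMatrix b b f =
      (LinearMap.toMatrix bb bb fb).map TrivSqZeroExt.inl +
        (LinearMap.toMatrix bb bb (C * fb)).map TrivSqZeroExt.inr)
    (x z : DualNumber k) (a : k) (ha : a ≠ 0)
    (hx : ∀ w ∈ Submodule.span (DualNumber k) {b' 0}, f w = x • w)
    (hz : ∀ v : V, f v - z • v ∈ Submodule.span (DualNumber k) {b' 0})
    (hxz : x = TrivSqZeroExt.inl a * z) (hdet : LinearMap.det f = TrivSqZeroExt.inl a)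
    (hXt : Xt (fstV b bb (b' 0)) = sndV b bb (b' 0)) :
    ∃ zb : k, zb ^ 2 = 1 ∧
      (∀ w : Vb, fb w - zb • w ∈ Submodule.span k {fstV b bb (b' 0)}) ∧
      fb (fstV b bb (b' 0)) = (a * zb) • fstV b bb (b' 0) ∧
      (∀ w : Vb, (C + fb * Xt * fbinv - Xt) w ∈ Submodule.span k {fstV b bb (b' 0)}) ∧
      (C + fb * Xt * fbinv - Xt) (fstV b bb (b' 0)) = 0 := by
  set e₀ := b' 0 with he₀
  set u₀ := fstV b bb e₀ with hu₀
  set u₁ := sndV b bb e₀ with hu₁
  have hxe : f e₀ = x • e₀ := hx e₀ (Submodule.mem_span_singleton_self _)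
  -- the determinant
  obtain ⟨α₁, hα₁⟩ := Submodule.mem_span_singleton.mp (hz (b' 1))
  have hdet' : LinearMap.det f = x * z := det_eq_mul_of_triangular b' f x z α₁ hxe hα₁.symm
  have hzz : TrivSqZeroExt.inl a * z * z = TrivSqZeroExt.inl a := by
    rw [← hxz, ← hdet', hdet]
  have hz1 : z.fst * z.fst = 1 := by
    have h := congrArg TrivSqZeroExt.fst hzz
    rw [TrivSqZeroExt.fst_mul, TrivSqZeroExt.fst_mul, TrivSqZeroExt.fst_inl, mul_assoc] at h
    exact mul_left_cancel₀ ha (by rw [h, mul_one])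
  have hz0 : z.fst ≠ 0 := by
    intro h
    rw [h, mul_zero] at hz1
    exact zero_ne_one hz1
  have hzs : z.snd = 0 := by
    have h := congrArg TrivSqZeroExt.snd hzz
    rw [DualNumber.snd_mul, DualNumber.snd_mul, TrivSqZeroExt.fst_mul, TrivSqZeroExt.fst_inl,
      TrivSqZeroExt.snd_inl, zero_mul, add_zero] at h
    have h' : a * z.fst * (2 * z.snd) = 0 := by
      rw [← h]; ring
    rcases mul_eq_zero.mp h' with h'' | h''
    · exact absurd h'' (mul_ne_zero ha hz0)
    · exact (mul_eq_zero.mp h'').resolve_left h2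
  have hxf : x.fst = a * z.fst := by
    rw [hxz, TrivSqZeroExt.fst_mul, TrivSqZeroExt.fst_inl]
  have hxs : x.snd = 0 := by
    rw [hxz, DualNumber.snd_mul, TrivSqZeroExt.fst_inl, TrivSqZeroExt.snd_inl, hzs, mul_zero,
      zero_mul, add_zero]
  have hx0 : x.fst ≠ 0 := by
    rw [hxf]; exact mul_ne_zero ha hz0
  -- `ε⁰`-parts
  have hC1 : fb u₀ = x.fst • u₀ := by
    have h := congrArg (fstV b bb) hxe
    rwa [fstV_apply b bb f fb (C * fb) hM, fstV_smul] at h
  have hC2 : ∀ w : Vb, fb w - z.fst • w ∈ Submodule.span k {u₀} :=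
    fst_mem_of_sub_smul_mem b bb f fb (C * fb) hM e₀ z hz
  -- `ε¹`-parts
  have hC3 : x.fst • C u₀ = x.fst • u₁ - fb u₁ := by
    have h := congrArg (sndV b bb) hxe
    rw [sndV_apply b bb f fb (C * fb) hM, sndV_smul, hxs, zero_smul, add_zero,
      Module.End.mul_apply] at h
    change fb u₁ + C (fb u₀) = x.fst • u₁ at h
    rw [hC1, map_smul] at h
    rw [← h]; abel
  have hfbinv : x.fst • fbinv u₀ = u₀ := by
    have h := congrArg fbinv hC1
    rw [← Module.End.mul_apply, hinv, Module.End.one_apply, map_smul] at h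
    exact h.symm
  refine ⟨z.fst, by rw [pow_two, hz1], hC2, by rw [hC1, hxf], fun w => ?_, ?_⟩
  · -- image in the line
    set w' := fbinv w with hw'
    have hw : fb w' = w := by
      rw [hw', ← Module.End.mul_apply, hinv', Module.End.one_apply]
    obtain ⟨α, hα⟩ := Submodule.mem_span_singleton.mp (hz (liftV b bb w'))
    have h1 := congrArg (fstV b bb) hα
    rw [fstV_smul, fstV_sub, fstV_apply b bb f fb (C * fb) hM, fstV_smul, fstV_liftV] at h1
    have h3 := congrArg (sndV b bb) hα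
    rw [sndV_smul, sndV_sub, sndV_apply b bb f fb (C * fb) hM, sndV_smul, fstV_liftV,
      sndV_liftV, hzs, zero_smul, smul_zero, map_zero, zero_add, add_zero, sub_zero,
      Module.End.mul_apply] at h3
    change α.fst • u₁ + α.snd • u₀ = C (fb w') at h3
    change α.fst • u₀ = fb w' - z.fst • w' at h1
    have h4 : fb w' = z.fst • w' + α.fst • u₀ := by
      rw [h1]; abel
    have h5 : Xt w = z.fst • Xt w' + α.fst • u₁ := by
      rw [← hw, h4, map_add, map_smul, map_smul, hXt]
    have h6 : (C + fb * Xt * fbinv - Xt) w =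
        α.snd • u₀ + (fb (Xt w') - z.fst • Xt w') := by
      rw [LinearMap.sub_apply, LinearMap.add_apply, Module.End.mul_apply, Module.End.mul_apply,
        ← hw', h5]
      nth_rewrite 1 [← hw]
      rw [← h3]
      abel
    rw [h6]
    exact Submodule.add_mem _ (Submodule.smul_mem _ _ (Submodule.mem_span_singleton_self _))
      (hC2 (Xt w'))
  · -- kills the line
    have h : x.fst • ((C + fb * Xt * fbinv - Xt) u₀) = 0 := by
      rw [LinearMap.sub_apply, LinearMap.add_apply, smul_sub, smul_add, hC3,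
        Module.End.mul_apply, Module.End.mul_apply, ← map_smul, ← map_smul, hfbinv, hXt]
      abel
    exact (smul_eq_zero.mp h).resolve_left hx0

end Coord

/-! ## The cyclotomic character -/

section Cyclo

variable (p : ℕ) [Fact p.Prime]

/-- `σ` acts on the `p`-th roots of unity by raising to the power `cycloExp p σ`. -/
lemma cyclo_apply_of_pow_eq_one (σ : AlgebraicClosure ℚ ≃ₐ[ℚ] AlgebraicClosure ℚ)
    {ζ : AlgebraicClosure ℚ} (hζ : ζ ^ p = 1) : σ ζ = ζ ^ cycloExp p σ := by
  haveI : NeZero p := ⟨(Fact.out : p.Prime).ne_zero⟩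
  have hζ0 : ζ ≠ 0 := by
    rintro rfl
    simp [(Fact.out : p.Prime).ne_zero] at hζ
  let t : (AlgebraicClosure ℚ)ˣ := Units.mk0 ζ hζ0
  have ht : t ∈ rootsOfUnity p (AlgebraicClosure ℚ) := by
    rw [mem_rootsOfUnity]
    exact Units.ext (by simpa [t] using hζ)
  have := modularCyclotomicCharacter.spec (AlgebraicClosure ℚ) (card_rootsOfUnity_eq_self p)
    (σ : AlgebraicClosure ℚ ≃+* AlgebraicClosure ℚ) ht
  simpa [t, cycloExp] using this

variable {k : Type} [Field k] [Algebra (ZMod p) k]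

lemma charP_of_zmodAlgebra : CharP k p := by
  haveI : CharP (ZMod p) p := ZMod.charP p
  exact charP_of_injective_algebraMap (algebraMap (ZMod p) k).injective p

lemma natCast_cycloExp (σ : AlgebraicClosure ℚ ≃ₐ[ℚ] AlgebraicClosure ℚ) :
    ((cycloExp p σ : ℕ) : k) = algebraMap (ZMod p) k (cycloChar p σ : ZMod p) := by
  rw [coe_cycloChar, map_natCast]

lemma natCast_cycloExp_ne_zero (σ : AlgebraicClosure ℚ ≃ₐ[ℚ] AlgebraicClosure ℚ) :
    ((cycloExp p σ : ℕ) : k) ≠ 0 := by
  rw [natCast_cycloExp]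
  intro h
  have h' := (algebraMap (ZMod p) k).injective (h.trans (map_zero _).symm)
  exact (cycloChar p σ).ne_zero h'

lemma two_ne_zero_of_ne_two (hp : p ≠ 2) : (2 : k) ≠ 0 := by
  haveI := charP_of_zmodAlgebra (k := k) p
  intro h
  have h' : ((2 : ℕ) : k) = 0 := by exact_mod_cast h
  have hdvd : p ∣ 2 := (CharP.cast_eq_zero_iff k p 2).mp h'
  exact hp ((Nat.prime_dvd_prime_iff_eq (Fact.out : p.Prime) Nat.prime_two).mp hdvd)

lemma dual_natCast (n : ℕ) : ((n : ℕ) : DualNumber k) = TrivSqZeroExt.inl ((n : ℕ) : k) := by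
  refine TrivSqZeroExt.ext ?_ ?_
  · rw [TrivSqZeroExt.fst_natCast, TrivSqZeroExt.fst_inl]
  · rw [TrivSqZeroExt.snd_natCast, TrivSqZeroExt.snd_inl]

lemma span_natCast_pow_one_eq_bot :
    Ideal.span {(((p ^ 1 : ℕ) : ℕ) : DualNumber k)} = ⊥ := by
  haveI := charP_of_zmodAlgebra (k := k) p
  rw [Ideal.span_singleton_eq_bot, pow_one, dual_natCast, CharP.cast_eq_zero k p,
    TrivSqZeroExt.inl_zero]

end Cyclo

/-! ## The statement -/

/-- **LSO-LIN**. -/
theorem linStatement : LinStatement := by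
  intro 𝒪 _ _ ρbar p _ _ hp2 ρ hdet hso c hc P hP
  obtain ⟨b, bb, hM⟩ := hc
  obtain ⟨Lρ, ⟨b', hL⟩, hstab, hin, hch⟩ := hso.2 P hP
  have h2 : (2 : ResidueField 𝒪) ≠ 0 := two_ne_zero_of_ne_two p hp2
  have hu₀ : fstV b bb (b' 0) ≠ 0 := fstV_basis_ne_zero b bb b' 0
  obtain ⟨Xt, hXt⟩ := exists_end_apply_eq bb hu₀ (sndV b bb (b' 0))
  -- the trace-zero endomorphism `X`
  set s : ResidueField 𝒪 := LinearMap.trace (ResidueField 𝒪) ρbar.V Xt / 2 with hs
  have hXtr : LinearMap.trace (ResidueField 𝒪) ρbar.V (-(Xt - s • (1 : Module.End (ResidueField 𝒪) ρbar.V)))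
      = 0 := by
    rw [map_neg, map_sub, map_smul, LinearMap.trace_one, ρbar.finrank_eq, hs, smul_eq_mul,
      Nat.cast_ofNat, div_mul_cancel₀ _ h2, sub_self, neg_zero]
  let X : Ad0 ρbar := ⟨-(Xt - s • (1 : Module.End (ResidueField 𝒪) ρbar.V)), hXtr⟩
  have hXend : Ad0.toEnd ρbar X = -(Xt - s • (1 : Module.End (ResidueField 𝒪) ρbar.V)) := rfl
  -- the analysis of one element of the decomposition group
  have key : ∀ σ ∈ P.decompositionSubgroup ℚ, ∃ zb : ResidueField 𝒪, zb ^ 2 = 1 ∧
      (∀ w : ρbar.V, ρbar.ρ σ w - zb • w ∈ Submodule.span (ResidueField 𝒪) {fstV b bb (b' 0)}) ∧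
      ρbar.ρ σ (fstV b bb (b' 0)) =
        (algebraMap (ZMod p) (ResidueField 𝒪) (cycloChar p σ : ZMod p) * zb) • fstV b bb (b' 0) ∧
      (∀ w : ρbar.V, (Ad0.toEnd ρbar (c σ) + ρbar.ρ σ * Xt * ρbar.ρ σ⁻¹ - Xt) w ∈
        Submodule.span (ResidueField 𝒪) {fstV b bb (b' 0)}) ∧
      (Ad0.toEnd ρbar (c σ) + ρbar.ρ σ * Xt * ρbar.ρ σ⁻¹ - Xt) (fstV b bb (b' 0)) = 0 := by
    intro σ hσ
    obtain ⟨x, z, hx, hz, hn⟩ := hch σ hσ
    have hspec : ∀ μ : AlgebraicClosure ℚ, μ ^ p ^ 1 = 1 → σ μ = μ ^ cycloExp p σ := by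
      intro μ hμ
      rw [pow_one] at hμ
      exact cyclo_apply_of_pow_eq_one p σ hμ
    have hxz := hn 1 (cycloExp p σ) hspec
    have hd := hdet.2 1 σ (cycloExp p σ) hspec
    rw [span_natCast_pow_one_eq_bot, Ideal.mem_bot, sub_eq_zero] at hxz hd
    rw [dual_natCast] at hxz hd
    rw [hL] at hx hz
    have := core_lin b bb h2 b' (ρ.ρ σ) (ρbar.ρ σ) (ρbar.ρ σ⁻¹) (Ad0.toEnd ρbar (c σ)) Xt
      (by rw [← map_mul, inv_mul_cancel, map_one]) (by rw [← map_mul, mul_inv_cancel, map_one])
      (hM σ) x z _ (natCast_cycloExp_ne_zero p σ) hx hz hxz hd hXt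
    rw [natCast_cycloExp] at this
    exact this
  refine ⟨Submodule.span (ResidueField 𝒪) {fstV b bb (b' 0)}, X,
    ⟨finrank_span_singleton hu₀, ?_, ?_, ?_⟩, ?_⟩
  · -- stable
    intro σ hσ w hw
    obtain ⟨zb, -, -, h3, -, -⟩ := key σ hσ
    obtain ⟨t, rfl⟩ := Submodule.mem_span_singleton.mp hw
    rw [map_smul, h3]
    exact Submodule.smul_mem _ _ (Submodule.smul_mem _ _ (Submodule.mem_span_singleton_self _))
  · -- inertia
    intro σ hσ w
    have h := fst_mem_of_sub_smul_mem b bb (ρ.ρ σ) (ρbar.ρ σ)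
      (Ad0.toEnd ρbar (c σ) * ρbar.ρ σ) (hM σ) (b' 0) 1
      (fun v => by rw [one_smul, ← hL]; exact hin σ hσ v) w
    rwa [TrivSqZeroExt.fst_one, one_smul] at h
  · -- characters
    intro σ hσ
    obtain ⟨zb, h1, h2', h3, -, -⟩ := key σ hσ
    refine ⟨zb, h1, h2', fun w hw => ?_⟩
    obtain ⟨t, rfl⟩ := Submodule.mem_span_singleton.mp hw
    rw [map_smul, h3, smul_comm]
  · -- the cocycle
    intro σ hσ
    obtain ⟨zb, -, -, -, h4, h5⟩ := key σ hσ
    have hend : Ad0.toEnd ρbar (c σ - (ad0Hom ρbar σ X - X)) =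
        Ad0.toEnd ρbar (c σ) + ρbar.ρ σ * Xt * ρbar.ρ σ⁻¹ - Xt := by
      rw [map_sub, map_sub, toEnd_ad0Hom, hXend]
      have e1 : ρbar.ρ σ * (s • (1 : Module.End (ResidueField 𝒪) ρbar.V)) * ρbar.ρ σ⁻¹ =
          s • (1 : Module.End (ResidueField 𝒪) ρbar.V) := by
        rw [mul_smul_comm, mul_one, smul_mul_assoc, ← map_mul, mul_inv_cancel, map_one]
      rw [neg_sub, mul_sub, sub_mul, e1]
      abel
    rw [mem_nilSub, hend]
    refine ⟨h4, fun w hw => ?_⟩
    obtain ⟨t, rfl⟩ := Submodule.mem_span_singleton.mp hw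
    rw [map_smul, h5, smul_zero]

end Fermat.Agent.P1.helper94
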