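import Fermat.Agent.P1.helper70_FlatDefs
import Fermat.Agent.P1.helper94_LSOLin
import Fermat.Agent.P1.helper82_DictLocC
import Fermat.Agent.P1.helper61_DictLocN

/-!
# P1 / FLAT-CNT, package ORD, PART B (helper57): from an ordinary residual line to the cocycle

`ord_of_line` : let `ρ = (1 + ε c) ρbar` be a lift to the dual numbers with cyclotomic
determinant satisfying (R1) (`helper70.FlatR1 p ρ ⊥`), `p` odd, the cyclotomic character ramified
at `p`, and let `L` be a line of `ρbar.V` which is stable under `G_p` and such that inertia acts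
trivially on `V / L`.  Then there is `X ∈ ad⁰` such that `c - ∂X` has values in
`B⁰(L) = borelSub ρbar L` on `G_p` and in `W(L) = nilSub ρbar L` on inertia
(steps (iii) + (iv) of the proof of `helper70.OrdStatement`).

The proof needs no dimension count: `M = ramPart` is the `k[ε]`-line spanned by
`m = (τ₀ - 1) (lift e₁)` by two applications of (R1).
-/

set_option autoImplicit false
set_option linter.unusedSectionVars false
set_option linter.style.haveILetI false
set_option linter.unusedVariables false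
set_option linter.unusedSimpArgs false

open IsLocalRing ExtCitation

noncomputable section

namespace Fermat.Agent.P1.helper57

open Fermat.Agent.S55 Fermat.Agent.P1.helper70 Fermat.Agent.P1.helper7 Fermat.Agent.P1.helper94
  Fermat.Agent.P1.helper92

/-! ## Determinants -/

section Det

/-- An endomorphism which is upper triangular with diagonal `(x, z)` in a basis has
determinant `x z`. -/
lemma ordB_det_tri {R M : Type*} [CommRing R] [AddCommGroup M] [Module R M]
    (b' : Module.Basis (Fin 2) R M) (f : Module.End R M) (x z α : R)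
    (hx : f (b' 0) = x • b' 0) (hz : f (b' 1) = z • b' 1 + α • b' 0) :
    LinearMap.det f = x * z := by
  rw [← LinearMap.det_toMatrix b', Matrix.det_fin_two]
  simp only [LinearMap.toMatrix_apply, hx, hz, map_add, map_smul, Module.Basis.repr_self,
    Finsupp.smul_apply, Finsupp.add_apply, smul_eq_mul]
  have h01 : (0 : Fin 2) ≠ 1 := by decide
  have h10 : (1 : Fin 2) ≠ 0 := by decide
  simp [Finsupp.single_apply, h01, h10]

variable {k : Type} [Field k] {V Vb : Type} [AddCommGroup V] [Module (DualNumber k) V]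
  [AddCommGroup Vb] [Module k Vb]
  (b : Module.Basis (Fin 2) (DualNumber k) V) (bb : Module.Basis (Fin 2) k Vb)

/-- The `ε⁰`-part of the determinant. -/
lemma ordB_fst_det (f : Module.End (DualNumber k) V) (fb g : Module.End k Vb)
    (h : LinearMap.toMatrix b b f =
      (LinearMap.toMatrix bb bb fb).map TrivSqZeroExt.inl +
        (LinearMap.toMatrix bb bb g).map TrivSqZeroExt.inr) :
    (LinearMap.det f).fst = LinearMap.det fb := by
  rw [← LinearMap.det_toMatrix b, ← LinearMap.det_toMatrix bb, h, Matrix.det_fin_two,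
    Matrix.det_fin_two]
  simp only [Matrix.add_apply, Matrix.map_apply, TrivSqZeroExt.fst_sub, TrivSqZeroExt.fst_mul,
    TrivSqZeroExt.fst_add, TrivSqZeroExt.fst_inl, TrivSqZeroExt.fst_inr, add_zero]

end Det

/-! ## A `k[ε]`-basis through a vector with nonzero reduction -/

section Basis

variable {k : Type} [Field k] {V Vb : Type} [AddCommGroup V] [Module (DualNumber k) V]
  [AddCommGroup Vb] [Module k Vb]
  (b : Module.Basis (Fin 2) (DualNumber k) V) (bb : Module.Basis (Fin 2) k Vb)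

/-- A vector with nonzero `ε⁰`-part is the first vector of a `k[ε]`-basis. -/
lemma ordB_exists_basis {m : V} (hm : fstV b bb m ≠ 0) :
    ∃ b' : Module.Basis (Fin 2) (DualNumber k) V, b' 0 = m := by
  have hi : ∃ i, bb.repr (fstV b bb m) i ≠ 0 := by
    by_contra hcon
    exact hm (bb.ext_elem fun i => by
      rw [not_not.mp (not_exists.mp hcon i), map_zero, Finsupp.zero_apply])
  have key : ∃ w : V, IsUnit (b.det ![m, w]) := by
    obtain ⟨i, hi⟩ := hi
    have hcases : i = 0 ∨ i = 1 := by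
      fin_cases i
      · exact Or.inl rfl
      · exact Or.inr rfl
    have h01 : (0 : Fin 2) ≠ 1 := by decide
    have h10 : (1 : Fin 2) ≠ 0 := by decide
    rcases hcases with rfl | rfl
    · refine ⟨b 1, ?_⟩
      rw [TrivSqZeroExt.isUnit_iff_isUnit_fst, Module.Basis.det_apply, Matrix.det_fin_two]
      simp only [Module.Basis.toMatrix_apply, Matrix.cons_val_zero, Matrix.cons_val_one,
        Module.Basis.repr_self, Finsupp.single_apply, h01, h10, if_true, if_false, mul_one,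
        mul_zero, zero_mul, one_mul, sub_zero]
      rw [← repr_fstV b bb]
      exact isUnit_iff_ne_zero.mpr hi
    · refine ⟨b 0, ?_⟩
      rw [TrivSqZeroExt.isUnit_iff_isUnit_fst, Module.Basis.det_apply, Matrix.det_fin_two]
      simp only [Module.Basis.toMatrix_apply, Matrix.cons_val_zero, Matrix.cons_val_one,
        Module.Basis.repr_self, Finsupp.single_apply, h01, h10, if_true, if_false, mul_one,
        mul_zero, zero_mul, one_mul, zero_sub, TrivSqZeroExt.fst_neg]
      rw [← repr_fstV b bb]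
      exact isUnit_iff_ne_zero.mpr (neg_ne_zero.mpr hi)
  obtain ⟨w, hw⟩ := key
  obtain ⟨hli, hsp⟩ := (Module.Basis.is_basis_iff_det b).mpr hw
  refine ⟨Module.Basis.mk hli hsp.ge, ?_⟩
  rw [Module.Basis.mk_apply]
  rfl

include bb in
/-- A nonzero vector of a plane is the first vector of a basis. -/
lemma ordB_exists_basis_field {e₁ : Vb} (he₁ : e₁ ≠ 0) :
    ∃ bb' : Module.Basis (Fin 2) k Vb, bb' 0 = e₁ := by
  have hi : ∃ i, bb.repr e₁ i ≠ 0 := by
    by_contra hcon
    exact he₁ (bb.ext_elem fun i => by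
      rw [not_not.mp (not_exists.mp hcon i), map_zero, Finsupp.zero_apply])
  have key : ∃ w : Vb, IsUnit (bb.det ![e₁, w]) := by
    obtain ⟨i, hi⟩ := hi
    have hcases : i = 0 ∨ i = 1 := by
      fin_cases i
      · exact Or.inl rfl
      · exact Or.inr rfl
    have h01 : (0 : Fin 2) ≠ 1 := by decide
    have h10 : (1 : Fin 2) ≠ 0 := by decide
    rcases hcases with rfl | rfl
    · refine ⟨bb 1, ?_⟩
      rw [Module.Basis.det_apply, Matrix.det_fin_two]
      simp only [Module.Basis.toMatrix_apply, Matrix.cons_val_zero, Matrix.cons_val_one,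
        Module.Basis.repr_self, Finsupp.single_apply, h01, h10, if_true, if_false, mul_one,
        mul_zero, zero_mul, one_mul, sub_zero]
      exact isUnit_iff_ne_zero.mpr hi
    · refine ⟨bb 0, ?_⟩
      rw [Module.Basis.det_apply, Matrix.det_fin_two]
      simp only [Module.Basis.toMatrix_apply, Matrix.cons_val_zero, Matrix.cons_val_one,
        Module.Basis.repr_self, Finsupp.single_apply, h01, h10, if_true, if_false, mul_one,
        mul_zero, zero_mul, one_mul, zero_sub]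
      exact isUnit_iff_ne_zero.mpr (neg_ne_zero.mpr hi)
  obtain ⟨w, hw⟩ := key
  obtain ⟨hli, hsp⟩ := (Module.Basis.is_basis_iff_det bb).mpr hw
  refine ⟨Module.Basis.mk hli hsp.ge, ?_⟩
  rw [Module.Basis.mk_apply]
  rfl

end Basis

/-! ## The abstract core -/

section Core

variable {k : Type} [Field k] {V Vb : Type} [AddCommGroup V] [Module (DualNumber k) V]
  [AddCommGroup Vb] [Module k Vb]
  (b : Module.Basis (Fin 2) (DualNumber k) V) (bb : Module.Basis (Fin 2) k Vb)

/-- The `ε`-multiple of a vector. -/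
lemma ordB_fstV_inr_smul (β : k) (v : V) :
    fstV b bb ((TrivSqZeroExt.inr β : DualNumber k) • v) = 0 := by
  rw [fstV_smul, TrivSqZeroExt.fst_inr, zero_smul]

lemma ordB_sndV_inr_smul (β : k) (v : V) :
    sndV b bb ((TrivSqZeroExt.inr β : DualNumber k) • v) = β • fstV b bb v := by
  rw [sndV_smul, TrivSqZeroExt.fst_inr, zero_smul, zero_add, TrivSqZeroExt.snd_inr]

lemma ordB_fstV_inl_smul (α : k) (v : V) :
    fstV b bb ((TrivSqZeroExt.inl α : DualNumber k) • v) = α • fstV b bb v := by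
  rw [fstV_smul, TrivSqZeroExt.fst_inl]

lemma ordB_sndV_inl_smul (α : k) (v : V) :
    sndV b bb ((TrivSqZeroExt.inl α : DualNumber k) • v) = α • sndV b bb v := by
  rw [sndV_smul, TrivSqZeroExt.fst_inl, TrivSqZeroExt.snd_inl, zero_smul, add_zero]

variable {T : Type} (I : Set T) (f : T → Module.End (DualNumber k) V)
  (fb C : T → Module.End k Vb)
  (hM : ∀ t, LinearMap.toMatrix b b (f t) =
      (LinearMap.toMatrix bb bb (fb t)).map TrivSqZeroExt.inl +
        (LinearMap.toMatrix bb bb (C t * fb t)).map TrivSqZeroExt.inr)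
  (M : AddSubgroup V)
  (hM1 : ∀ t ∈ I, ∀ v : V, f t v - v ∈ M)
  (hM3 : ∀ (a : DualNumber k), ∀ x ∈ M, a • x ∈ M)
  (hR1 : ∀ Y : AddSubgroup V, (∀ t ∈ I, ∀ y ∈ Y, f t y ∈ Y) →
      ∀ x ∈ M, (∀ t ∈ I, f t x - x ∈ Y) → x ∈ Y)
  (L : Submodule k Vb)
  (hst : ∀ t, ∀ w ∈ L, fb t w ∈ L)
  (hin : ∀ t ∈ I, ∀ w : Vb, fb t w - w ∈ L)

include hM hM1 hM3 hR1 hst hin in
/-- **(R1) twice**: the ramified part is contained in the `k[ε]`-line through any of its
elements `m` whose reduction spans `L`. -/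
theorem ordB_mem_span {m : V} (hm : m ∈ M) (hmL : L = Submodule.span k {fstV b bb m}) {x : V}
    (hx : x ∈ M) : ∃ y : DualNumber k, x = y • m := by
  -- first application: the reduction of `x` lies in `L`
  let Y4 : AddSubgroup V :=
    { carrier := {v | v ∈ M ∧ fstV b bb v ∈ L}
      zero_mem' := ⟨M.zero_mem, by
        have : fstV b bb (0 : V) = 0 := by
          have := fstV_sub b bb (0 : V) 0
          rwa [sub_zero, sub_self] at this
        rw [this]; exact L.zero_mem⟩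
      add_mem' := fun {v w} hv hw => ⟨M.add_mem hv.1 hw.1, by
        rw [fstV_add]; exact L.add_mem hv.2 hw.2⟩
      neg_mem' := fun {v} hv => ⟨M.neg_mem hv.1, by
        have : fstV b bb (-v) = -fstV b bb v := by
          have h := fstV_smul b bb (-1 : DualNumber k) v
          rw [neg_one_smul, TrivSqZeroExt.fst_neg, TrivSqZeroExt.fst_one, neg_one_smul] at h
          exact h
        rw [this]; exact L.neg_mem hv.2⟩ }
  have hY4 : x ∈ Y4 := by
    refine hR1 Y4 (fun t ht y hy => ⟨?_, ?_⟩) x hx (fun t ht => ⟨hM1 t ht x, ?_⟩)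
    · have := M.add_mem (hM1 t ht y) hy.1
      rwa [sub_add_cancel] at this
    · rw [fstV_apply b bb (f t) (fb t) (C t * fb t) (hM t)]
      exact hst t _ hy.2
    · rw [fstV_sub, fstV_apply b bb (f t) (fb t) (C t * fb t) (hM t)]
      exact hin t ht _
  have h1 : fstV b bb x ∈ Submodule.span k {fstV b bb m} := hmL ▸ hY4.2
  obtain ⟨α, hα⟩ := Submodule.mem_span_singleton.mp h1
  set x' : V := x - (TrivSqZeroExt.inl α : DualNumber k) • m with hx'
  -- second application: the `ε`-part of `x'` lies in `L`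
  let Y2 : AddSubgroup V :=
    { carrier := {v | v ∈ M ∧ fstV b bb v = 0 ∧ sndV b bb v ∈ L}
      zero_mem' := ⟨M.zero_mem, by
        have := fstV_sub b bb (0 : V) 0
        rwa [sub_zero, sub_self] at this, by
        have : sndV b bb (0 : V) = 0 := by
          have := sndV_sub b bb (0 : V) 0
          rwa [sub_zero, sub_self] at this
        rw [this]; exact L.zero_mem⟩
      add_mem' := fun {v w} hv hw => ⟨M.add_mem hv.1 hw.1, by
        rw [fstV_add, hv.2.1, hw.2.1, add_zero], by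
        rw [sndV_add]; exact L.add_mem hv.2.2 hw.2.2⟩
      neg_mem' := fun {v} hv => ⟨M.neg_mem hv.1, by
        have h := fstV_smul b bb (-1 : DualNumber k) v
        rw [neg_one_smul, hv.2.1, smul_zero] at h
        exact h, by
        have h := sndV_smul b bb (-1 : DualNumber k) v
        rw [neg_one_smul, TrivSqZeroExt.fst_neg, TrivSqZeroExt.fst_one, neg_one_smul,
          TrivSqZeroExt.snd_neg, TrivSqZeroExt.snd_one, neg_zero, zero_smul, add_zero] at h
        rw [h]; exact L.neg_mem hv.2.2⟩ }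
  have hx'M : x' ∈ M := M.sub_mem hx (hM3 _ m hm)
  have hx'0 : fstV b bb x' = 0 := by
    rw [hx', fstV_sub, ordB_fstV_inl_smul, hα, sub_self]
  have hY2 : x' ∈ Y2 := by
    refine hR1 Y2 (fun t ht y hy => ⟨?_, ?_, ?_⟩) x' hx'M
      (fun t ht => ⟨hM1 t ht x', ?_, ?_⟩)
    · have := M.add_mem (hM1 t ht y) hy.1
      rwa [sub_add_cancel] at this
    · rw [fstV_apply b bb (f t) (fb t) (C t * fb t) (hM t), hy.2.1, map_zero]
    · rw [sndV_apply b bb (f t) (fb t) (C t * fb t) (hM t), hy.2.1, map_zero, add_zero]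
      exact hst t _ hy.2.2
    · rw [fstV_sub, fstV_apply b bb (f t) (fb t) (C t * fb t) (hM t), hx'0, map_zero, sub_self]
    · rw [sndV_sub, sndV_apply b bb (f t) (fb t) (C t * fb t) (hM t), hx'0, map_zero, add_zero]
      exact hin t ht _
  have h2 : sndV b bb x' ∈ Submodule.span k {fstV b bb m} := hmL ▸ hY2.2.2
  obtain ⟨β, hβ⟩ := Submodule.mem_span_singleton.mp h2
  refine ⟨TrivSqZeroExt.inl α + TrivSqZeroExt.inr β, ?_⟩
  have h3 : x' - (TrivSqZeroExt.inr β : DualNumber k) • m = 0 := by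
    apply eq_zero_of_fstV_sndV b bb
    · rw [fstV_sub, hx'0, ordB_fstV_inr_smul, sub_self]
    · rw [sndV_sub, ordB_sndV_inr_smul, hβ, sub_self]
  rw [add_smul]
  rw [hx'] at h3
  rw [sub_sub, sub_eq_zero] at h3
  exact h3

variable (fbinv : T → Module.End k Vb)
  (hinv : ∀ t, fbinv t * fb t = 1) (hinv' : ∀ t, fb t * fbinv t = 1)
  (hM2 : ∀ t, ∀ x ∈ M, f t x ∈ M)
  (a : T → k) (hdet : ∀ t ∈ I, LinearMap.det (f t) = TrivSqZeroExt.inl (a t))

include hM hM1 hM3 hR1 hst hin hinv hinv' hM2 hdet in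
/-- **The abstract core of ORD, part B.** -/
theorem ordB_core (h2 : (2 : k) ≠ 0) (hL1 : Module.finrank k L = 1) {t₀ : T} (ht₀ : t₀ ∈ I)
    (ha₀ : a t₀ ≠ 1) :
    ∃ Xt : Module.End k Vb,
      (∀ t, ∀ w ∈ L, (C t + fb t * Xt * fbinv t - Xt) w ∈ L) ∧
      ∀ t ∈ I, (∀ w : Vb, (C t + fb t * Xt * fbinv t - Xt) w ∈ L) ∧
        ∀ w ∈ L, (C t + fb t * Xt * fbinv t - Xt) w = 0 := by
  -- a generator of `L`
  obtain ⟨⟨e₁, he₁L⟩, he₁0, he₁s⟩ := finrank_eq_one_iff'.mp hL1
  have he₁ : e₁ ≠ 0 := fun h => he₁0 (Subtype.ext h)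
  have hLe : L = Submodule.span k {e₁} := by
    apply le_antisymm
    · intro w hw
      obtain ⟨c, hc⟩ := he₁s ⟨w, hw⟩
      have hc' : c • e₁ = w := congrArg Subtype.val hc
      rw [← hc']
      exact Submodule.smul_mem _ _ (Submodule.mem_span_singleton_self _)
    · rw [Submodule.span_singleton_le_iff_mem]
      exact he₁L
  -- the eigenvalue of `t₀` on `L`
  obtain ⟨χ, hχ⟩ : ∃ χ : k, fb t₀ e₁ = χ • e₁ := by
    have := hst t₀ e₁ he₁L
    rw [hLe] at this
    obtain ⟨χ, hχ⟩ := Submodule.mem_span_singleton.mp this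
    exact ⟨χ, hχ.symm⟩
  have hχ1 : χ ≠ 1 := by
    obtain ⟨bb', hbb'⟩ := ordB_exists_basis_field bb he₁
    obtain ⟨α, hα⟩ : ∃ α : k, fb t₀ (bb' 1) - bb' 1 = α • e₁ := by
      have := hin t₀ ht₀ (bb' 1)
      rw [hLe] at this
      obtain ⟨α, hα⟩ := Submodule.mem_span_singleton.mp this
      exact ⟨α, hα.symm⟩
    have hd : LinearMap.det (fb t₀) = χ * 1 := by
      apply ordB_det_tri bb' (fb t₀) χ 1 α
      · rw [hbb', hχ]
      · rw [hbb', one_smul, ← hα]; abel
    have hd' := ordB_fst_det b bb (f t₀) (fb t₀) (C t₀ * fb t₀) (hM t₀)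
    rw [hdet t₀ ht₀, TrivSqZeroExt.fst_inl, hd, mul_one] at hd'
    rw [← hd']
    exact ha₀
  -- the generator of the ramified part
  set m : V := f t₀ (liftV b bb e₁) - liftV b bb e₁ with hm
  have hmM : m ∈ M := hM1 t₀ ht₀ _
  have hu : fstV b bb m = (χ - 1) • e₁ := by
    rw [hm, fstV_sub, fstV_apply b bb (f t₀) (fb t₀) (C t₀ * fb t₀) (hM t₀), fstV_liftV, hχ,
      sub_smul, one_smul]
  have hχ0 : χ - 1 ≠ 0 := sub_ne_zero.mpr hχ1
  have hu₀ : fstV b bb m ≠ 0 := by
    rw [hu]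
    exact smul_ne_zero hχ0 he₁
  have hLm : L = Submodule.span k {fstV b bb m} := by
    rw [hu, Submodule.span_singleton_smul_eq (isUnit_iff_ne_zero.mpr hχ0)]
    exact hLe
  have hspan : ∀ x ∈ M, ∃ y : DualNumber k, x = y • m := fun x hx =>
    ordB_mem_span b bb I f fb C hM M hM1 hM3 hR1 L hst hin hmM hLm hx
  obtain ⟨Xt, hXt⟩ := exists_end_apply_eq bb hu₀ (sndV b bb m)
  obtain ⟨b', hb'⟩ := ordB_exists_basis b bb hu₀
  set u₀ := fstV b bb m with hu₀def
  set u₁ := sndV b bb m with hu₁def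
  refine ⟨Xt, fun t w hw => ?_, fun t ht => ?_⟩
  · -- the Borel clause
    obtain ⟨x, hx⟩ := hspan _ (hM2 t m hmM)
    have hC1 : fb t u₀ = x.fst • u₀ := by
      have h := congrArg (fstV b bb) hx
      rwa [fstV_apply b bb (f t) (fb t) (C t * fb t) (hM t), fstV_smul] at h
    have hx0 : x.fst ≠ 0 := by
      intro h0
      rw [h0, zero_smul] at hC1
      have := congrArg (fbinv t) hC1
      rw [← Module.End.mul_apply, hinv t, Module.End.one_apply, map_zero] at this
      exact hu₀ this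
    have hC3 : x.fst • C t u₀ = x.fst • u₁ + x.snd • u₀ - fb t u₁ := by
      have h := congrArg (sndV b bb) hx
      rw [sndV_apply b bb (f t) (fb t) (C t * fb t) (hM t), sndV_smul,
        Module.End.mul_apply] at h
      change fb t u₁ + C t (fb t u₀) = x.fst • u₁ + x.snd • u₀ at h
      rw [hC1, map_smul] at h
      rw [← h]; abel
    have hfbinv : x.fst • fbinv t u₀ = u₀ := by
      have h := congrArg (fbinv t) hC1
      rw [← Module.End.mul_apply, hinv t, Module.End.one_apply, map_smul] at h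
      exact h.symm
    have key : x.fst • ((C t + fb t * Xt * fbinv t - Xt) u₀) = x.snd • u₀ := by
      rw [LinearMap.sub_apply, LinearMap.add_apply, smul_sub, smul_add, hC3,
        Module.End.mul_apply, Module.End.mul_apply, ← map_smul, ← map_smul, hfbinv, hXt]
      abel
    have key' : (C t + fb t * Xt * fbinv t - Xt) u₀ = (x.fst⁻¹ * x.snd) • u₀ := by
      rw [mul_smul, ← key, smul_smul, inv_mul_cancel₀ hx0, one_smul]
    rw [hLm] at hw ⊢
    obtain ⟨s, rfl⟩ := Submodule.mem_span_singleton.mp hw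
    rw [map_smul, key']
    exact Submodule.smul_mem _ _ (Submodule.smul_mem _ _ (Submodule.mem_span_singleton_self _))
  · -- the inertia clause
    obtain ⟨x, hx⟩ := hspan _ (hM2 t m hmM)
    have hxs : ∀ w ∈ Submodule.span (DualNumber k) {b' 0}, f t w = x • w := by
      intro w hw
      obtain ⟨s, rfl⟩ := Submodule.mem_span_singleton.mp hw
      rw [map_smul, hb', hx, smul_comm]
    have hzs : ∀ v : V, f t v - (1 : DualNumber k) • v ∈ Submodule.span (DualNumber k) {b' 0} := by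
      intro v
      obtain ⟨y, hy⟩ := hspan _ (hM1 t ht v)
      rw [one_smul, hy, hb']
      exact Submodule.smul_mem _ _ (Submodule.mem_span_singleton_self _)
    obtain ⟨α₁, hα₁⟩ := Submodule.mem_span_singleton.mp (hzs (b' 1))
    have hd : LinearMap.det (f t) = x * 1 := by
      apply ordB_det_tri b' (f t) x 1 α₁
      · rw [hb', hx]
      · rw [hα₁]; abel
    have hxa : x = TrivSqZeroExt.inl (a t) := by
      rw [← hdet t ht, hd, mul_one]
    have ha : a t ≠ 0 := by
      intro h0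
      have hC1 : fb t u₀ = x.fst • u₀ := by
        have h := congrArg (fstV b bb) hx
        rwa [fstV_apply b bb (f t) (fb t) (C t * fb t) (hM t), fstV_smul] at h
      rw [hxa, TrivSqZeroExt.fst_inl, h0, zero_smul] at hC1
      have := congrArg (fbinv t) hC1
      rw [← Module.End.mul_apply, hinv t, Module.End.one_apply, map_zero] at this
      exact hu₀ this
    obtain ⟨zb, -, -, -, h4, h5⟩ := core_lin b bb h2 b' (f t) (fb t) (fbinv t) (C t) Xt
      (hinv t) (hinv' t) (hM t) x 1 (a t) ha hxs hzs (by rw [hxa, mul_one]) (hdet t ht)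
      (by rw [hb']; exact hXt)
    rw [hb'] at h4 h5
    refine ⟨fun w => ?_, fun w hw => ?_⟩
    · rw [hLm]; exact h4 w
    · rw [hLm] at hw
      obtain ⟨s, rfl⟩ := Submodule.mem_span_singleton.mp hw
      rw [map_smul, h5, smul_zero]

end Core

/-! ## Transport of the ramified part to `V` -/

section Transport

variable (p : ℕ) [Fact p.Prime] {A : Type} [CommRing A] [IsLocalRing A] (ρ : GaloisRepAdic A)

/-- the quotient map `V → V / (0 · V)` -/
def ordBπ : ρ.V →ₗ[A] (ρ.V ⧸ ((⊥ : Ideal A) • (⊤ : Submodule A ρ.V))) :=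
  Submodule.mkQ _

lemma ordBπ_injective : Function.Injective (ordBπ ρ) := by
  rw [← LinearMap.ker_eq_bot, ordBπ, Submodule.ker_mkQ, Submodule.bot_smul]

lemma ordBπ_surjective : Function.Surjective (ordBπ ρ) := Submodule.mkQ_surjective _

lemma locAct_ordBπ (τ : PadicAlgCl p ≃ₐ[ℚ_[p]] PadicAlgCl p) (v : ρ.V) :
    locAct p ρ ⊥ τ (ordBπ ρ v) = ordBπ ρ (ρ.ρ (localGaloisToGlobal p τ) v) := rfl

/-- the ramified part, as a subgroup of `V` -/
def ordBM : AddSubgroup ρ.V := (ramPart p ρ ⊥).comap (ordBπ ρ).toAddMonoidHom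

lemma mem_ordBM (x : ρ.V) : x ∈ ordBM p ρ ↔ ordBπ ρ x ∈ ramPart p ρ ⊥ := Iff.rfl

lemma ordBM_sub_mem {τ : PadicAlgCl p ≃ₐ[ℚ_[p]] PadicAlgCl p} (hτ : τ ∈ locInertiaNat p)
    (v : ρ.V) : ρ.ρ (localGaloisToGlobal p τ) v - v ∈ ordBM p ρ := by
  rw [mem_ordBM, map_sub, ← locAct_ordBπ]
  exact AddSubgroup.subset_closure ⟨τ, hτ, ordBπ ρ v, rfl⟩

lemma ordBM_smul_mem (a : A) {x : ρ.V} (hx : x ∈ ordBM p ρ) : a • x ∈ ordBM p ρ := by
  rw [mem_ordBM] at hx ⊢
  rw [map_smul]
  generalize ordBπ ρ x = y at hx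
  induction hx using AddSubgroup.closure_induction with
  | mem y hy =>
    obtain ⟨τ, hτ, z, rfl⟩ := hy
    refine AddSubgroup.subset_closure ⟨τ, hτ, a • z, ?_⟩
    rw [smul_sub, map_smul]
  | zero => rw [smul_zero]; exact AddSubgroup.zero_mem _
  | add y z _ _ hy hz => rw [smul_add]; exact AddSubgroup.add_mem _ hy hz
  | neg y _ hy => rw [smul_neg]; exact AddSubgroup.neg_mem _ hy

lemma locAct_mul (σ τ : PadicAlgCl p ≃ₐ[ℚ_[p]] PadicAlgCl p)
    (y : ρ.V ⧸ ((⊥ : Ideal A) • (⊤ : Submodule A ρ.V))) :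
    locAct p ρ ⊥ (σ * τ) y = locAct p ρ ⊥ σ (locAct p ρ ⊥ τ y) := by
  obtain ⟨v, rfl⟩ := ordBπ_surjective ρ y
  rw [locAct_ordBπ, locAct_ordBπ, locAct_ordBπ, map_mul, map_mul]
  rfl

lemma ordBM_apply_mem (hN : (locInertiaNat p).Normal)
    (t : PadicAlgCl p ≃ₐ[ℚ_[p]] PadicAlgCl p) {x : ρ.V} (hx : x ∈ ordBM p ρ) :
    ρ.ρ (localGaloisToGlobal p t) x ∈ ordBM p ρ := by
  rw [mem_ordBM] at hx ⊢
  rw [← locAct_ordBπ]
  generalize ordBπ ρ x = y at hx
  induction hx using AddSubgroup.closure_induction with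
  | mem y hy =>
    obtain ⟨τ, hτ, z, rfl⟩ := hy
    refine AddSubgroup.subset_closure ⟨t * τ * t⁻¹, hN.conj_mem τ hτ t, locAct p ρ ⊥ t z, ?_⟩
    rw [map_sub, ← locAct_mul, ← locAct_mul, inv_mul_cancel_right]
  | zero => rw [map_zero]; exact AddSubgroup.zero_mem _
  | add y z _ _ hy hz => rw [map_add]; exact AddSubgroup.add_mem _ hy hz
  | neg y _ hy => rw [map_neg]; exact AddSubgroup.neg_mem _ hy

/-- (R1), transported to `V` -/
lemma ordBM_R1 (hR1 : FlatR1 p ρ ⊥) (Y : AddSubgroup ρ.V)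
    (hY : ∀ t ∈ locInertiaNat p, ∀ y ∈ Y, ρ.ρ (localGaloisToGlobal p t) y ∈ Y)
    {x : ρ.V} (hx : x ∈ ordBM p ρ)
    (hxY : ∀ t ∈ locInertiaNat p, ρ.ρ (localGaloisToGlobal p t) x - x ∈ Y) : x ∈ Y := by
  have h := hR1 (Y.map (ordBπ ρ).toAddMonoidHom) (fun τ hτ y hy => by
      obtain ⟨v, hv, rfl⟩ := hy
      exact ⟨ρ.ρ (localGaloisToGlobal p τ) v, hY τ hτ v hv, rfl⟩)
    (ordBπ ρ x) hx (fun τ hτ => ⟨ρ.ρ (localGaloisToGlobal p τ) x - x, hxY τ hτ, by
      rw [LinearMap.toAddMonoidHom_coe, map_sub, locAct_ordBπ]⟩)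
  obtain ⟨v, hv, hvx⟩ := h
  have : v = x := ordBπ_injective ρ hvx
  rw [← this]
  exact hv

end Transport

/-! ## The characteristic and the cyclotomic character -/

section Char

variable (p : ℕ) [Fact p.Prime] {k : Type} [Field k]

lemma ordB_dual_natCast (n : ℕ) :
    ((n : ℕ) : DualNumber k) = TrivSqZeroExt.inl ((n : ℕ) : k) := by
  refine TrivSqZeroExt.ext ?_ ?_
  · rw [TrivSqZeroExt.fst_natCast, TrivSqZeroExt.fst_inl]
  · rw [TrivSqZeroExt.snd_natCast, TrivSqZeroExt.snd_inl]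

/-- the residue characteristic is `p` if `p` lies in the maximal ideal of `k[ε]` -/
lemma ordB_charP (h : (p : DualNumber k) ∈ IsLocalRing.maximalIdeal (DualNumber k)) :
    CharP k p := by
  rw [CharP.charP_iff_prime_eq_zero (Fact.out : p.Prime)]
  by_contra h0
  have hu : IsUnit ((p : ℕ) : DualNumber k) := by
    rw [TrivSqZeroExt.isUnit_iff_isUnit_fst, TrivSqZeroExt.fst_natCast]
    exact isUnit_iff_ne_zero.mpr h0
  exact (IsLocalRing.mem_maximalIdeal _).mp h hu

lemma ordB_two_ne_zero [CharP k p] (hp : p ≠ 2) : (2 : k) ≠ 0 := by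
  intro h
  have h' : ((2 : ℕ) : k) = 0 := by exact_mod_cast h
  have hdvd : p ∣ 2 := (CharP.cast_eq_zero_iff k p 2).mp h'
  exact hp ((Nat.prime_dvd_prime_iff_eq (Fact.out : p.Prime) Nat.prime_two).mp hdvd)

lemma ordB_cycloExp_ne_one [CharP k p] {σ : AlgebraicClosure ℚ ≃ₐ[ℚ] AlgebraicClosure ℚ}
    (h : cycloChar p σ ≠ 1) : ((cycloExp p σ : ℕ) : k) ≠ 1 := by
  intro h1
  apply h
  have h2 : ((cycloExp p σ : ℕ) : k) = ((1 : ℕ) : k) := by rw [h1, Nat.cast_one]
  rw [CharP.natCast_eq_natCast k p] at h2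
  have h3 : ((cycloExp p σ : ℕ) : ZMod p) = ((1 : ℕ) : ZMod p) :=
    (ZMod.natCast_eq_natCast_iff _ _ _).mpr h2
  apply Units.ext
  rw [coe_cycloChar, h3, Nat.cast_one, Units.val_one]

lemma ordB_span_eq_bot [CharP k p] :
    Ideal.span {(((p ^ 1 : ℕ) : ℕ) : DualNumber k)} = ⊥ := by
  rw [Ideal.span_singleton_eq_bot, pow_one, ordB_dual_natCast, CharP.cast_eq_zero k p,
    TrivSqZeroExt.inl_zero]

end Char

/-! ## The statement -/

/-- **ORD, part B**: steps (iii) + (iv) of the proof of `helper70.OrdStatement`. -/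
theorem ord_of_line (p : ℕ) [Fact p.Prime] (𝒪 : Type) [CommRing 𝒪] [IsLocalRing 𝒪]
    (ρbar : ResidualGaloisRep (ResidueField 𝒪)) (hp2 : p ≠ 2)
    (hram : ∃ τ ∈ locInertiaNat p, cycloChar p (localGaloisToGlobal p τ) ≠ 1)
    (ρ : GaloisRepAdic (DualNumber (ResidueField 𝒪))) (hdet : ρ.DetIsCyclotomic p)
    (hR1 : FlatR1 p ρ ⊥) (c : GQ → Ad0 ρbar) (hc : IsTanLift ρbar ρ c)
    (L : Submodule (ResidueField 𝒪) ρbar.V) (hL1 : Module.finrank (ResidueField 𝒪) L = 1)
    (hst : ∀ τ : PadicAlgCl p ≃ₐ[ℚ_[p]] PadicAlgCl p, ∀ w ∈ L,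
      ρbar.ρ (localGaloisToGlobal p τ) w ∈ L)
    (hin : ∀ τ ∈ locInertiaNat p, ∀ w : ρbar.V, ρbar.ρ (localGaloisToGlobal p τ) w - w ∈ L) :
    ∃ X : Ad0 ρbar,
      (∀ τ : PadicAlgCl p ≃ₐ[ℚ_[p]] PadicAlgCl p,
        c (localGaloisToGlobal p τ) - (ad0Hom ρbar (localGaloisToGlobal p τ) X - X) ∈
          helper7.borelSub ρbar L) ∧
      (∀ τ ∈ locInertiaNat p,
        c (localGaloisToGlobal p τ) - (ad0Hom ρbar (localGaloisToGlobal p τ) X - X) ∈
          helper7.nilSub ρbar L) := by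
  obtain ⟨b, bb, hM⟩ := hc
  haveI hchar : CharP (ResidueField 𝒪) p := ordB_charP p hdet.1
  have h2 : (2 : ResidueField 𝒪) ≠ 0 := ordB_two_ne_zero p hp2
  obtain ⟨τ₀, hτ₀, hω⟩ := hram
  have hN : (locInertiaNat p).Normal :=
    (Fermat.Agent.P1.helper82.locCyclicStatement ⟨p, Fact.out⟩).1
  have hdetI : ∀ t ∈ (locInertiaNat p : Set (PadicAlgCl p ≃ₐ[ℚ_[p]] PadicAlgCl p)),
      LinearMap.det (ρ.ρ (localGaloisToGlobal p t)) =
        TrivSqZeroExt.inl (((cycloExp p (localGaloisToGlobal p t) : ℕ) : ResidueField 𝒪)) := by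
    intro t _
    have hspec : ∀ μ : AlgebraicClosure ℚ, μ ^ p ^ 1 = 1 →
        localGaloisToGlobal p t μ = μ ^ cycloExp p (localGaloisToGlobal p t) := by
      intro μ hμ
      rw [pow_one] at hμ
      exact cyclo_apply_of_pow_eq_one p _ hμ
    have hd := hdet.2 1 (localGaloisToGlobal p t) (cycloExp p (localGaloisToGlobal p t)) hspec
    rw [ordB_span_eq_bot, Ideal.mem_bot, sub_eq_zero] at hd
    rw [hd, ordB_dual_natCast]
  obtain ⟨Xt, hB, hI⟩ := ordB_core b bb
    (locInertiaNat p : Set (PadicAlgCl p ≃ₐ[ℚ_[p]] PadicAlgCl p))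
    (fun t => ρ.ρ (localGaloisToGlobal p t)) (fun t => ρbar.ρ (localGaloisToGlobal p t))
    (fun t => Ad0.toEnd ρbar (c (localGaloisToGlobal p t)))
    (fun t => hM (localGaloisToGlobal p t)) (ordBM p ρ)
    (fun t ht v => ordBM_sub_mem p ρ ht v) (fun a x hx => ordBM_smul_mem p ρ a hx)
    (fun Y hY x hx hxY => ordBM_R1 p ρ hR1 Y hY hx hxY) L hst hin
    (fun t => ρbar.ρ (localGaloisToGlobal p t)⁻¹)
    (fun t => by rw [← map_mul, inv_mul_cancel, map_one])
    (fun t => by rw [← map_mul, mul_inv_cancel, map_one])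
    (fun t x hx => ordBM_apply_mem p ρ hN t hx)
    (fun t => ((cycloExp p (localGaloisToGlobal p t) : ℕ) : ResidueField 𝒪)) hdetI h2 hL1
    (t₀ := τ₀) hτ₀ (ordB_cycloExp_ne_one p hω)
  -- the trace-zero endomorphism `X`
  set s : ResidueField 𝒪 := LinearMap.trace (ResidueField 𝒪) ρbar.V Xt / 2 with hs
  have hXtr : LinearMap.trace (ResidueField 𝒪) ρbar.V
      (-(Xt - s • (1 : Module.End (ResidueField 𝒪) ρbar.V))) = 0 := by
    rw [map_neg, map_sub, map_smul, LinearMap.trace_one, ρbar.finrank_eq, hs, smul_eq_mul,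
      Nat.cast_ofNat, div_mul_cancel₀ _ h2, sub_self, neg_zero]
  let X : Ad0 ρbar := ⟨-(Xt - s • (1 : Module.End (ResidueField 𝒪) ρbar.V)), hXtr⟩
  have hXend : Ad0.toEnd ρbar X = -(Xt - s • (1 : Module.End (ResidueField 𝒪) ρbar.V)) := rfl
  have hend : ∀ σ : GQ, Ad0.toEnd ρbar (c σ - (ad0Hom ρbar σ X - X)) =
      Ad0.toEnd ρbar (c σ) + ρbar.ρ σ * Xt * ρbar.ρ σ⁻¹ - Xt := by
    intro σ
    rw [map_sub, map_sub, toEnd_ad0Hom, hXend]
    have e1 : ρbar.ρ σ * (s • (1 : Module.End (ResidueField 𝒪) ρbar.V)) * ρbar.ρ σ⁻¹ =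
        s • (1 : Module.End (ResidueField 𝒪) ρbar.V) := by
      rw [mul_smul_comm, mul_one, smul_mul_assoc, ← map_mul, mul_inv_cancel, map_one]
    rw [neg_sub, mul_sub, sub_mul, e1]
    abel
  refine ⟨X, fun τ => ?_, fun τ hτ => ?_⟩
  · rw [mem_borelSub, hend]
    exact hB τ
  · rw [mem_nilSub, hend]
    exact hI τ hτ

end Fermat.Agent.P1.helper57
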