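import Fermat.Agent.P1.helper14_KumEqDefs2
import Fermat.Agent.P1.helper14_KumFinal
import Fermat.Agent.S55.helper30_LocKummer

/-!
# P1 / FLAT-CNT / KUMEQ, package [FC-BD] (helper60, task 780)

`fcBd : FCKumStatement p → FCBdStatement p` (the hypothesis is not used): `T ≤ L`, `L/ℚ_p` Galois
with Fontaine's embedding property, `T` tame containing `ζ_p`, `Gal(L/T)` a `p`-group.  Then
every homomorphism `f : G_T → 𝔽_p` which is trivial on `G_L` is bounded, i.e. it is the Kummer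
homomorphism of some `u ∈ T` with `ord_T (u - 1) ≥ e_T`.

Proof.  `f` factors through `Gal(L/T)`; Hilbert 90 (`helper30.exists_units_of_char`) gives
`β ∈ Lˣ` with `τ β = ζ ^ f(τ) β`; `a := β ^ p` is fixed by `Gal(L/T)`, hence lies in `T`;
`helper14.kummerBounded` gives `a = u b ^ p` with `ord_T (u - 1) ≥ e_T`; `α := β / b` is a
`p`-th root of `u` with the same Kummer homomorphism.
-/

set_option autoImplicit false

namespace Fermat.Agent.P1.helper60

open Fermat.Agent.S55.helper8 Fermat.Agent.S55.helper7 Fermat.Agent.P1.helper14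

section

variable {p : ℕ} [Fact p.Prime] {L T : IntermediateField ℚ_[p] (PadicAlgCl p)}

/-- A function which is additive on `G_T` and zero on `G_L` only depends on the restriction
to `L`. -/
lemma fcbd_congr (f : GalP p → ZMod p)
    (hadd : ∀ g ∈ T.fixingSubgroup, ∀ h ∈ T.fixingSubgroup, f (g * h) = f g + f h)
    (hzero : ∀ g ∈ L.fixingSubgroup, f g = 0)
    {g g' : GalP p} (hg : g ∈ T.fixingSubgroup) (hg' : g' ∈ T.fixingSubgroup)
    (h : ∀ x ∈ L, g x = g' x) : f g = f g' := by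
  have h1 : g⁻¹ * g' ∈ L.fixingSubgroup := by
    rw [IntermediateField.mem_fixingSubgroup_iff]
    intro x hx
    rw [AlgEquiv.mul_apply, ← h x hx]
    exact g.symm_apply_apply x
  have h2 : g⁻¹ * g' ∈ T.fixingSubgroup :=
    T.fixingSubgroup.mul_mem (T.fixingSubgroup.inv_mem hg) hg'
  have h3 : g' = g * (g⁻¹ * g') := by group
  rw [h3, hadd g hg _ h2, hzero _ h1, add_zero]

end

/-- **FC-BD**, unconditional. -/
theorem fcBd_uncond (p : ℕ) [Fact p.Prime] : FCBdStatement p := by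
  intro L T _ _ _ ζ hTL hEmb hedeg hζ hζT hpow f hadd hzero
  classical
  have hp : p.Prime := Fact.out
  haveI : NeZero p := ⟨hp.ne_zero⟩
  -- the algebra structure of `L` over `T`
  letI algTL : Algebra ↥T ↥L := (IntermediateField.inclusion hTL).toRingHom.toAlgebra
  haveI : IsScalarTower ℚ_[p] ↥T ↥L := IsScalarTower.of_algebraMap_eq (fun x => rfl)
  haveI : IsScalarTower ↥T ↥L (PadicAlgCl p) := IsScalarTower.of_algebraMap_eq (fun x => rfl)
  haveI : IsGalois ℚ_[p] ↥L := ⟨⟩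
  haveI : FiniteDimensional ↥T ↥L := FiniteDimensional.right ℚ_[p] ↥T ↥L
  haveI : IsGalois ↥T ↥L := IsGalois.tower_top_of_isGalois ℚ_[p] ↥T ↥L
  have hsurj : Function.Surjective
      (AlgEquiv.restrictNormalHom (F := ℚ_[p]) (K₁ := PadicAlgCl p) ↥L) :=
    AlgEquiv.restrictNormalHom_surjective (PadicAlgCl p)
  have hcoeTL : ∀ t : ↥T, ((algebraMap ↥T ↥L t : ↥L) : PadicAlgCl p) = (t : PadicAlgCl p) :=
    fun t => rfl
  -- lifts of the elements of `Gal(L/T)`
  have hlift : ∀ τ : ↥L ≃ₐ[↥T] ↥L, ∃ g : GalP p, g ∈ T.fixingSubgroup ∧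
      ∀ x : ↥L, g (x : PadicAlgCl p) = ((τ x : ↥L) : PadicAlgCl p) := by
    intro τ
    obtain ⟨g, hg⟩ := hsurj (τ.restrictScalars ℚ_[p])
    have hgx : ∀ x : ↥L, g (x : PadicAlgCl p) = ((τ x : ↥L) : PadicAlgCl p) := by
      intro x
      have h1 := AlgEquiv.restrictNormal_commutes g ↥L x
      have h2 : AlgEquiv.restrictNormal g ↥L x = τ x := by
        have := congrArg (fun σ : ↥L ≃ₐ[ℚ_[p]] ↥L => σ x) hg
        exact this
      rw [h2] at h1
      exact h1.symm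
    refine ⟨g, ?_, hgx⟩
    rw [IntermediateField.mem_fixingSubgroup_iff]
    intro t ht
    have h3 := hgx (algebraMap ↥T ↥L ⟨t, ht⟩)
    rw [τ.commutes] at h3
    exact h3
  choose G hGT hGx using hlift
  -- the induced homomorphism on `Gal(L/T)`
  have hy : ∀ τ τ' : ↥L ≃ₐ[↥T] ↥L, f (G (τ * τ')) = f (G τ) + f (G τ') := by
    intro τ τ'
    rw [← hadd _ (hGT τ) _ (hGT τ')]
    refine fcbd_congr f hadd hzero (hGT _) (T.fixingSubgroup.mul_mem (hGT τ) (hGT τ')) ?_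
    intro x hx
    rw [AlgEquiv.mul_apply, hGx (τ * τ') ⟨x, hx⟩, hGx τ' ⟨x, hx⟩, hGx τ (τ' ⟨x, hx⟩)]
    rfl
  -- every element of `G_T` induces an element of `Gal(L/T)`
  have hres : ∀ g ∈ T.fixingSubgroup, ∃ τ : ↥L ≃ₐ[↥T] ↥L,
      ∀ x : ↥L, ((τ x : ↥L) : PadicAlgCl p) = g (x : PadicAlgCl p) := by
    intro g hg
    let σ : ↥L ≃ₐ[ℚ_[p]] ↥L := AlgEquiv.restrictNormalHom ↥L g
    have hσ : ∀ x : ↥L, ((σ x : ↥L) : PadicAlgCl p) = g (x : PadicAlgCl p) := fun x =>
      AlgEquiv.restrictNormal_commutes g ↥L x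
    refine ⟨AlgEquiv.ofRingEquiv (f := σ.toRingEquiv) ?_, hσ⟩
    intro t
    apply Subtype.ext
    have h4 := hσ (algebraMap ↥T ↥L t)
    rw [hcoeTL] at h4
    have h5 : g (t : PadicAlgCl p) = t :=
      (IntermediateField.mem_fixingSubgroup_iff T g).1 hg _ t.2
    rw [h5] at h4
    exact h4
  -- the root of unity
  have hζT' : IsPrimitiveRoot (⟨ζ, hζT⟩ : ↥T) p :=
    IsPrimitiveRoot.of_map_of_injective (f := algebraMap ↥T (PadicAlgCl p)) hζ
      (algebraMap ↥T (PadicAlgCl p)).injective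
  have hζ0 : (⟨ζ, hζT⟩ : ↥T) ≠ 0 := hζT'.ne_zero hp.ne_zero
  let ζu : (↥T)ˣ := Units.mk0 ⟨ζ, hζT⟩ hζ0
  have hζup : ζu ^ p = 1 := by
    apply Units.ext
    simpa [ζu] using hζT'.pow_eq_one
  -- Hilbert 90
  obtain ⟨β, hβ⟩ := Fermat.Agent.S55.helper30.exists_units_of_char (K := ↥T) (L := ↥L) p ζu hζup
    (fun τ => f (G τ)) hy
  -- `β ^ p` lies in `T`
  have hfix : ∀ τ : ↥L ≃ₐ[↥T] ↥L, τ ((β : ↥L) ^ p) = (β : ↥L) ^ p := by
    intro τ
    have h1 : ((ζu : ↥T)) ^ p = 1 := by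
      have := congrArg Units.val hζup
      simpa using this
    have h2 : ((ζu : ↥T) ^ (f (G τ)).val) ^ p = 1 := by
      rw [← pow_mul, mul_comm, pow_mul, h1, one_pow]
    rw [map_pow, hβ τ, mul_pow, ← map_pow, h2, map_one, one_mul]
  obtain ⟨a, ha⟩ := (IsGalois.mem_range_algebraMap_iff_fixed (F := ↥T) (E := ↥L) _).2 hfix
  have ha0 : a ≠ 0 := by
    intro h0
    rw [h0, map_zero] at ha
    exact (pow_ne_zero p β.ne_zero) ha.symm
  -- `Gal(L/T)` is a `p`-group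
  have hpg : IsPGroup p (↥L ≃ₐ[↥T] ↥L) := by
    intro τ
    obtain ⟨n, hn⟩ := hpow (G τ) (hGT τ)
    refine ⟨n, ?_⟩
    have hk : ∀ (k : ℕ) (x : ↥L), (((τ ^ k) x : ↥L) : PadicAlgCl p) =
        (G τ ^ k) (x : PadicAlgCl p) := by
      intro k
      induction k with
      | zero => intro x; simp
      | succ k ih =>
        intro x
        rw [pow_succ, pow_succ, AlgEquiv.mul_apply, AlgEquiv.mul_apply, ih, hGx]
    ext x
    rw [hk, (IntermediateField.mem_fixingSubgroup_iff L _).1 hn _ x.2]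
    rfl
  -- boundedness
  obtain ⟨b, u, hab, hu⟩ := kummerBounded p ↥L hEmb ↥T hedeg ⟨_, hζT'⟩ hpg a (β : ↥L) ha0 ha.symm
  have hb0 : b ≠ 0 := by
    intro h0
    rw [h0, zero_pow hp.ne_zero, mul_zero] at hab
    exact ha0 hab
  have hu0 : u ≠ 0 := by
    intro h0
    rw [h0, zero_mul] at hab
    exact ha0 hab
  have hbΩ : (b : PadicAlgCl p) ≠ 0 := fun h => hb0 (Subtype.ext h)
  refine ⟨u, hu0, hu, ((β : ↥L) : PadicAlgCl p) / (b : PadicAlgCl p), ?_, ?_⟩
  · -- `α ^ p = u`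
    rw [div_pow, div_eq_iff (pow_ne_zero p hbΩ)]
    have h1 : (((β : ↥L) ^ p : ↥L) : PadicAlgCl p) = ((algebraMap ↥T ↥L a : ↥L) : PadicAlgCl p) := by
      rw [ha]
    rw [hcoeTL, hab] at h1
    simpa using h1
  · -- the Kummer property
    intro g hg
    obtain ⟨τ, hτ⟩ := hres g hg
    have hfg : f (G τ) = f g := by
      refine fcbd_congr f hadd hzero (hGT τ) hg ?_
      intro x hx
      rw [hGx τ ⟨x, hx⟩, hτ ⟨x, hx⟩]
    have h1 : g ((β : ↥L) : PadicAlgCl p) = ζ ^ (f g).val * ((β : ↥L) : PadicAlgCl p) := by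
      rw [← hτ (β : ↥L), hβ τ, hfg]
      rfl
    have h2 : g (b : PadicAlgCl p) = b :=
      (IntermediateField.mem_fixingSubgroup_iff T g).1 hg _ b.2
    rw [map_div₀, h1, h2, mul_div_assoc]

/-- **FC-BD** in the shape of the task row (the hypothesis is not used). -/
theorem fcBd (p : ℕ) [Fact p.Prime] : FCKumStatement p → FCBdStatement p :=
  fun _ => fcBd_uncond p

end Fermat.Agent.P1.helper60
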