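import Mathlib

/-!
# P1 / DEF (1), part b: the tangent space of a local `𝒪`-algebra

For a local `𝒪`-algebra `R` with the same residue field `k` we construct the `k`-vector space
`V = R / (𝒪·1 + 𝔪_R² + 𝔪_𝒪 R) ≅ 𝔪_R / (𝔪_R² + 𝔪_𝒪 R)` together with the universal derivation
`tanD : R → V`, and attach to every functional `ℓ : V → k` the `𝒪`-algebra homomorphism
`R → k[ε]`, `x ↦ x̄ + ℓ (tanD x) ε`.
-/

set_option autoImplicit false
set_option linter.style.haveILetI false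

namespace Fermat.Agent.P1.helper61

open IsLocalRing

section Pi

variable {𝒪 : Type} [CommRing 𝒪] [IsLocalRing 𝒪]
  {R : Type} [CommRing R] [IsLocalRing R] [Algebra 𝒪 R] [IsLocalHom (algebraMap 𝒪 R)]

theorem resMap_bijective (hres : Function.Surjective (residue R ∘ algebraMap 𝒪 R)) :
    Function.Bijective (ResidueField.map (algebraMap 𝒪 R)) := by
  refine ⟨(ResidueField.map (algebraMap 𝒪 R)).injective, fun y => ?_⟩
  obtain ⟨o, ho⟩ := hres y
  exact ⟨residue 𝒪 o, by rw [ResidueField.map_residue]; exact ho⟩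

/-- The reduction map `R → 𝒪 / 𝔪_𝒪` of a local `𝒪`-algebra with the same residue field. -/
noncomputable def resPi (hres : Function.Surjective (residue R ∘ algebraMap 𝒪 R)) :
    R →+* ResidueField 𝒪 :=
  ((RingEquiv.ofBijective (ResidueField.map (algebraMap 𝒪 R))
    (resMap_bijective hres)).symm : ResidueField R →+* ResidueField 𝒪).comp (residue R)

variable (hres : Function.Surjective (residue R ∘ algebraMap 𝒪 R))

theorem map_resPi (x : R) :
    ResidueField.map (algebraMap 𝒪 R) (resPi hres x) = residue R x :=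
  (RingEquiv.ofBijective (ResidueField.map (algebraMap 𝒪 R))
    (resMap_bijective hres)).apply_symm_apply (residue R x)

theorem resPi_algebraMap (o : 𝒪) : resPi hres (algebraMap 𝒪 R o) = residue 𝒪 o := by
  apply (ResidueField.map (algebraMap 𝒪 R)).injective
  rw [map_resPi, ResidueField.map_residue]

theorem resPi_eq_zero_iff (x : R) : resPi hres x = 0 ↔ x ∈ maximalIdeal R := by
  rw [← residue_eq_zero_iff, ← map_resPi hres x]
  exact (map_eq_zero_iff _ (ResidueField.map (algebraMap 𝒪 R)).injective).symm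

theorem sub_algebraMap_mem {x : R} {a : 𝒪} (h : residue 𝒪 a = resPi hres x) :
    x - algebraMap 𝒪 R a ∈ maximalIdeal R := by
  rw [← resPi_eq_zero_iff hres, map_sub, resPi_algebraMap, h, sub_self]

theorem exists_residue_eq (x : R) : ∃ a : 𝒪, residue 𝒪 a = resPi hres x :=
  residue_surjective _

omit [IsLocalHom (algebraMap 𝒪 R)] in
theorem algebraMap_mem_maximalIdeal [IsLocalHom (algebraMap 𝒪 R)] {a : 𝒪}
    (ha : a ∈ maximalIdeal 𝒪) : algebraMap 𝒪 R a ∈ maximalIdeal R := by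
  rw [mem_maximalIdeal, mem_nonunits_iff] at ha ⊢
  exact fun h => ha (isUnit_of_map_unit (algebraMap 𝒪 R) a h)

end Pi

section TanQuot

variable (𝒪 : Type) [CommRing 𝒪] [IsLocalRing 𝒪]
  (R : Type) [CommRing R] [IsLocalRing R] [Algebra 𝒪 R]

/-- The ideal `𝔪_R² + 𝔪_𝒪 R`. -/
def tanIdeal : Ideal R := maximalIdeal R ^ 2 ⊔ (maximalIdeal 𝒪).map (algebraMap 𝒪 R)

/-- The `𝒪`-submodule `𝒪·1 + 𝔪_R² + 𝔪_𝒪 R` of `R`. -/
def tanSub : Submodule 𝒪 R :=
  LinearMap.range (Algebra.linearMap 𝒪 R) ⊔ (tanIdeal 𝒪 R).restrictScalars 𝒪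

/-- The tangent quotient `R / (𝒪·1 + 𝔪_R² + 𝔪_𝒪 R)`. -/
def TanQuot : Type := R ⧸ tanSub 𝒪 R

instance : AddCommGroup (TanQuot 𝒪 R) := inferInstanceAs (AddCommGroup (R ⧸ tanSub 𝒪 R))

instance : Module 𝒪 (TanQuot 𝒪 R) := inferInstanceAs (Module 𝒪 (R ⧸ tanSub 𝒪 R))

/-- The universal derivation `R → V`. -/
def tanD : R →ₗ[𝒪] TanQuot 𝒪 R := (tanSub 𝒪 R).mkQ

variable {𝒪 R}

theorem tanD_surjective : Function.Surjective (tanD 𝒪 R) := Submodule.mkQ_surjective _

theorem tanD_eq_zero_iff (x : R) : tanD 𝒪 R x = 0 ↔ x ∈ tanSub 𝒪 R :=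
  Submodule.Quotient.mk_eq_zero _

theorem tanD_eq_iff (x y : R) : tanD 𝒪 R x = tanD 𝒪 R y ↔ x - y ∈ tanSub 𝒪 R :=
  Submodule.Quotient.eq _

theorem algebraMap_mem_tanSub (a : 𝒪) : algebraMap 𝒪 R a ∈ tanSub 𝒪 R :=
  Submodule.mem_sup_left ⟨a, rfl⟩

theorem mem_tanSub_of_mem_tanIdeal {x : R} (hx : x ∈ tanIdeal 𝒪 R) : x ∈ tanSub 𝒪 R :=
  Submodule.mem_sup_right hx

theorem tanD_algebraMap (a : 𝒪) : tanD 𝒪 R (algebraMap 𝒪 R a) = 0 :=
  (tanD_eq_zero_iff _).2 (algebraMap_mem_tanSub a)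

theorem tanD_one : tanD 𝒪 R 1 = 0 := by
  rw [← map_one (algebraMap 𝒪 R)]
  exact tanD_algebraMap 1

theorem tanIdeal_le [IsLocalHom (algebraMap 𝒪 R)] : tanIdeal 𝒪 R ≤ maximalIdeal R := by
  refine sup_le (Ideal.pow_le_self two_ne_zero) ?_
  rw [Ideal.map_le_iff_le_comap]
  intro a ha
  exact algebraMap_mem_maximalIdeal ha

/-- `(𝒪·1 + 𝔪_R² + 𝔪_𝒪 R) ∩ 𝔪_R = 𝔪_R² + 𝔪_𝒪 R`. -/
theorem mem_tanIdeal_of_mem_tanSub [IsLocalHom (algebraMap 𝒪 R)] {x : R}
    (hx : x ∈ tanSub 𝒪 R) (hm : x ∈ maximalIdeal R) : x ∈ tanIdeal 𝒪 R := by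
  obtain ⟨y, ⟨a, rfl⟩, z, hz, rfl⟩ := Submodule.mem_sup.1 hx
  have hz' : z ∈ tanIdeal 𝒪 R := hz
  have hzm : z ∈ maximalIdeal R := tanIdeal_le hz'
  have ham : algebraMap 𝒪 R a ∈ maximalIdeal R := by
    have := sub_mem hm hzm
    rwa [add_sub_cancel_right] at this
  have ha : a ∈ maximalIdeal 𝒪 := by
    rw [mem_maximalIdeal, mem_nonunits_iff] at ham ⊢
    exact fun h => ham (h.map (algebraMap 𝒪 R))
  refine add_mem ?_ hz'
  exact Ideal.mem_sup_right (Ideal.mem_map_of_mem _ ha)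

theorem tanTorsion :
    Module.IsTorsionBySet 𝒪 (TanQuot 𝒪 R) (maximalIdeal 𝒪 : Set 𝒪) := by
  intro v a
  obtain ⟨x, rfl⟩ := tanD_surjective v
  rw [← map_smul, tanD_eq_zero_iff]
  refine mem_tanSub_of_mem_tanIdeal (Ideal.mem_sup_right ?_)
  rw [Algebra.smul_def]
  exact Ideal.mul_mem_right _ _ (Ideal.mem_map_of_mem _ a.2)

noncomputable instance : Module (ResidueField 𝒪) (TanQuot 𝒪 R) :=
  Module.IsTorsionBySet.module tanTorsion

instance : IsScalarTower 𝒪 (ResidueField 𝒪) (TanQuot 𝒪 R) :=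
  Module.IsTorsionBySet.isScalarTower tanTorsion

theorem residue_smul (a : 𝒪) (v : TanQuot 𝒪 R) : residue 𝒪 a • v = a • v :=
  Module.IsTorsionBySet.mk_smul tanTorsion a v

variable [IsLocalHom (algebraMap 𝒪 R)]
  (hres : Function.Surjective (residue R ∘ algebraMap 𝒪 R))

/-- The derivation property of `tanD`, with scalars in `𝒪`. -/
theorem tanD_mul' {x y : R} {a b : 𝒪} (ha : residue 𝒪 a = resPi hres x)
    (hb : residue 𝒪 b = resPi hres y) :
    tanD 𝒪 R (x * y) = a • tanD 𝒪 R y + b • tanD 𝒪 R x := by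
  rw [← map_smul, ← map_smul, ← map_add, tanD_eq_iff]
  have hu := sub_algebraMap_mem hres ha
  have hv := sub_algebraMap_mem hres hb
  have e : x * y - (a • y + b • x) =
      (x - algebraMap 𝒪 R a) * (y - algebraMap 𝒪 R b) - algebraMap 𝒪 R (a * b) := by
    rw [Algebra.smul_def, Algebra.smul_def, map_mul]
    ring
  rw [e]
  refine sub_mem (mem_tanSub_of_mem_tanIdeal (Ideal.mem_sup_left ?_)) (algebraMap_mem_tanSub _)
  rw [pow_two]
  exact Ideal.mul_mem_mul hu hv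

/-- The derivation property of `tanD`. -/
theorem tanD_mul (x y : R) :
    tanD 𝒪 R (x * y) = resPi hres x • tanD 𝒪 R y + resPi hres y • tanD 𝒪 R x := by
  obtain ⟨a, ha⟩ := exists_residue_eq hres x
  obtain ⟨b, hb⟩ := exists_residue_eq hres y
  rw [tanD_mul' hres ha hb, ← ha, ← hb, residue_smul, residue_smul]

theorem tanD_mul_of_mem (x : R) {y : R} (hy : y ∈ maximalIdeal R) :
    tanD 𝒪 R (x * y) = resPi hres x • tanD 𝒪 R y := by
  rw [tanD_mul hres, (resPi_eq_zero_iff hres y).2 hy, zero_smul, add_zero]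

include hres in
/-- Every element of the tangent quotient comes from the maximal ideal. -/
theorem exists_mem_tanD_eq (v : TanQuot 𝒪 R) : ∃ u ∈ maximalIdeal R, tanD 𝒪 R u = v := by
  obtain ⟨x, rfl⟩ := tanD_surjective v
  obtain ⟨a, ha⟩ := exists_residue_eq hres x
  refine ⟨x - algebraMap 𝒪 R a, sub_algebraMap_mem hres ha, ?_⟩
  rw [map_sub, tanD_algebraMap, sub_zero]

end TanQuot

end Fermat.Agent.P1.helper61
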