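import Fermat.Agent.P1.helper61_Def1a
import Fermat.Agent.P1.helper61_Def1b

/-!
# P1 / DEF (1): a complete noetherian local `𝒪`-algebra with small tangent space is a quotient of
a power series ring in few variables

* `exists_surjective_mvPowerSeries` : if `#Hom_{𝒪-alg}(R, k[ε]) ≤ |k|^r` then there is a surjective
  `𝒪`-algebra homomorphism `𝒪⟦X₁, …, X_r⟧ → R`.
-/

set_option autoImplicit false
set_option linter.style.haveILetI false

namespace Fermat.Agent.P1.helper61

open IsLocalRing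

section Finite

variable {𝒪 : Type} [CommRing 𝒪] [IsLocalRing 𝒪]
  {R : Type} [CommRing R] [IsLocalRing R] [Algebra 𝒪 R] [IsLocalHom (algebraMap 𝒪 R)]
  (hres : Function.Surjective (residue R ∘ algebraMap 𝒪 R))

include hres in
/-- If `y` generates the maximal ideal then the `tanD (y i)` span the tangent quotient. -/
theorem span_tanD_eq_top {s : ℕ} (y : Fin s → R)
    (hy : Ideal.span (Set.range y) = maximalIdeal R) :
    Submodule.span (ResidueField 𝒪) (Set.range fun i => tanD 𝒪 R (y i)) = ⊤ := by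
  rw [eq_top_iff]
  rintro v -
  obtain ⟨u, hu, rfl⟩ := exists_mem_tanD_eq hres v
  rw [← hy] at hu
  obtain ⟨c, rfl⟩ := Ideal.mem_span_range_iff_exists_fun.1 hu
  rw [map_sum]
  refine Submodule.sum_mem _ fun i _ => ?_
  have hyi : y i ∈ maximalIdeal R := by
    rw [← hy]
    exact Ideal.subset_span ⟨i, rfl⟩
  rw [tanD_mul_of_mem hres _ hyi]
  exact Submodule.smul_mem _ _ (Submodule.subset_span ⟨i, rfl⟩)

include hres in
theorem tanQuot_finite [IsNoetherianRing R] :
    Module.Finite (ResidueField 𝒪) (TanQuot 𝒪 R) := by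
  obtain ⟨s, y, hy⟩ := Submodule.fg_iff_exists_fin_generating_family.1
    (IsNoetherian.noetherian (maximalIdeal R))
  refine ⟨?_⟩
  rw [← span_tanD_eq_top hres y hy]
  exact Submodule.fg_span (Set.finite_range _)

end Finite

section Hom

variable {𝒪 : Type} [CommRing 𝒪] [IsLocalRing 𝒪]
  {R : Type} [CommRing R] [IsLocalRing R] [Algebra 𝒪 R] [IsLocalHom (algebraMap 𝒪 R)]
  (hres : Function.Surjective (residue R ∘ algebraMap 𝒪 R))
  [inst : Algebra 𝒪 (DualNumber (ResidueField 𝒪))]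
  (hinst : ∀ a : 𝒪, algebraMap 𝒪 (DualNumber (ResidueField 𝒪)) a =
    TrivSqZeroExt.inl (residue 𝒪 a))

/-- The tangent vector `R → k[ε]`, `x ↦ x̄ + ℓ (tanD x) ε` attached to a functional `ℓ`. -/
noncomputable def tanHom (ℓ : Module.Dual (ResidueField 𝒪) (TanQuot 𝒪 R)) :
    R →ₐ[𝒪] DualNumber (ResidueField 𝒪) where
  toFun x := TrivSqZeroExt.inl (resPi hres x) + TrivSqZeroExt.inr (ℓ (tanD 𝒪 R x))
  map_one' := by
    rw [map_one, tanD_one, map_zero, TrivSqZeroExt.inr_zero, add_zero]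
    rfl
  map_mul' x y := by
    apply TrivSqZeroExt.ext
    · simp
    · simp only [TrivSqZeroExt.snd_add, TrivSqZeroExt.snd_inl, TrivSqZeroExt.snd_inr, zero_add,
        TrivSqZeroExt.snd_mul, TrivSqZeroExt.fst_add, TrivSqZeroExt.fst_inl,
        TrivSqZeroExt.fst_inr, add_zero, tanD_mul hres, map_add, map_smul, smul_eq_mul,
        MulOpposite.smul_eq_mul_unop, MulOpposite.unop_op]
      ring
  map_zero' := by
    rw [map_zero, map_zero, map_zero, TrivSqZeroExt.inl_zero, TrivSqZeroExt.inr_zero, add_zero]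
  map_add' x y := by
    rw [map_add, map_add, map_add, TrivSqZeroExt.inl_add, TrivSqZeroExt.inr_add]
    abel
  commutes' a := by
    rw [hinst, resPi_algebraMap, tanD_algebraMap, map_zero, TrivSqZeroExt.inr_zero, add_zero]

theorem tanHom_snd (ℓ : Module.Dual (ResidueField 𝒪) (TanQuot 𝒪 R)) (x : R) :
    (tanHom hres hinst ℓ x).snd = ℓ (tanD 𝒪 R x) := by
  simp [tanHom]

theorem tanHom_injective : Function.Injective (tanHom (R := R) hres hinst) := by
  intro ℓ ℓ' h
  apply LinearMap.ext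
  intro v
  obtain ⟨x, rfl⟩ := tanD_surjective v
  rw [← tanHom_snd hres hinst, ← tanHom_snd hres hinst, h]

include hres hinst in
/-- The first component of any `𝒪`-algebra homomorphism `R → k[ε]` is the residue map. -/
theorem fst_apply_eq (φ : R →ₐ[𝒪] DualNumber (ResidueField 𝒪)) (x : R) :
    (φ x).fst = resPi hres x := by
  have hm : ∀ u ∈ maximalIdeal R, (φ u).fst = 0 := by
    intro u hu
    by_contra hc
    obtain ⟨b, hb⟩ := residue_surjective (R := 𝒪) (φ u).fst
    have hunit : IsUnit (u - algebraMap 𝒪 R b) := by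
      rw [← not_not (a := IsUnit _), ← mem_nonunits_iff, ← mem_maximalIdeal,
        ← resPi_eq_zero_iff hres, map_sub, (resPi_eq_zero_iff hres u).2 hu, zero_sub,
        neg_eq_zero, resPi_algebraMap, hb]
      exact hc
    have h2 := (TrivSqZeroExt.isUnit_iff_isUnit_fst.1 (hunit.map φ)).ne_zero
    apply h2
    rw [map_sub, AlgHom.commutes, hinst, TrivSqZeroExt.fst_sub, TrivSqZeroExt.fst_inl, hb,
      sub_self]
  obtain ⟨a, ha⟩ := exists_residue_eq hres x
  have h1 := hm _ (sub_algebraMap_mem hres ha)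
  rw [map_sub, AlgHom.commutes, hinst, TrivSqZeroExt.fst_sub, TrivSqZeroExt.fst_inl,
    sub_eq_zero] at h1
  rw [h1, ha]

include hres hinst in
/-- An `𝒪`-algebra homomorphism `R → k[ε]` is determined by its values on generators of the
maximal ideal. -/
theorem algHom_dual_ext {s : ℕ} (y : Fin s → R)
    (hy : Ideal.span (Set.range y) = maximalIdeal R)
    (φ ψ : R →ₐ[𝒪] DualNumber (ResidueField 𝒪)) (h : ∀ i, φ (y i) = ψ (y i)) : φ = ψ := by
  have hmul : ∀ (c : R) (i : Fin s), φ (c * y i) = ψ (c * y i) := by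
    intro c i
    have hyi : y i ∈ maximalIdeal R := by
      rw [← hy]
      exact Ideal.subset_span ⟨i, rfl⟩
    have h0 : (φ (y i)).fst = 0 := by
      rw [fst_apply_eq hres hinst, (resPi_eq_zero_iff hres _).2 hyi]
    rw [map_mul, map_mul, ← h i]
    apply TrivSqZeroExt.ext
    · rw [TrivSqZeroExt.fst_mul, TrivSqZeroExt.fst_mul, h0, mul_zero, mul_zero]
    · rw [TrivSqZeroExt.snd_mul, TrivSqZeroExt.snd_mul, fst_apply_eq hres hinst φ,
        fst_apply_eq hres hinst ψ, h0]
      simp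
  apply AlgHom.ext
  intro x
  obtain ⟨a, ha⟩ := exists_residue_eq hres x
  have hu := sub_algebraMap_mem hres ha
  rw [← hy] at hu
  obtain ⟨c, hc⟩ := Ideal.mem_span_range_iff_exists_fun.1 hu
  have hx : x = algebraMap 𝒪 R a + ∑ i, c i * y i := by
    rw [hc]; ring
  rw [hx, map_add, map_add, AlgHom.commutes, AlgHom.commutes, map_sum, map_sum]
  congr 1
  exact Finset.sum_congr rfl fun i _ => hmul (c i) i

include hres hinst in
theorem finite_algHom_dual [IsNoetherianRing R] [Finite (ResidueField 𝒪)] :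
    Finite (R →ₐ[𝒪] DualNumber (ResidueField 𝒪)) := by
  obtain ⟨s, y, hy⟩ := Submodule.fg_iff_exists_fin_generating_family.1
    (IsNoetherian.noetherian (maximalIdeal R))
  haveI : Finite (DualNumber (ResidueField 𝒪)) :=
    Finite.of_injective (fun x : DualNumber (ResidueField 𝒪) => (x.fst, x.snd))
      fun x x' h => TrivSqZeroExt.ext (congrArg Prod.fst h) (congrArg Prod.snd h)
  refine Finite.of_injective
    (fun φ : R →ₐ[𝒪] DualNumber (ResidueField 𝒪) => fun i => φ (y i)) ?_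
  intro φ ψ h
  exact algHom_dual_ext hres hinst y hy φ ψ fun i => congrFun h i

include hres hinst in
/-- The dimension of the tangent quotient is bounded by the number of tangent vectors. -/
theorem finrank_tanQuot_le [IsNoetherianRing R] [Finite (ResidueField 𝒪)] (r : ℕ)
    (hcard : Nat.card (R →ₐ[𝒪] DualNumber (ResidueField 𝒪)) ≤ Nat.card (ResidueField 𝒪) ^ r) :
    Module.finrank (ResidueField 𝒪) (TanQuot 𝒪 R) ≤ r := by
  haveI := tanQuot_finite (R := R) hres
  haveI := finite_algHom_dual (R := R) hres hinst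
  have h1 : Nat.card (Module.Dual (ResidueField 𝒪) (TanQuot 𝒪 R)) =
      Nat.card (ResidueField 𝒪) ^ Module.finrank (ResidueField 𝒪) (TanQuot 𝒪 R) := by
    rw [Module.natCard_eq_pow_finrank (K := ResidueField 𝒪), Subspace.dual_finrank_eq]
  have h2 := Nat.card_le_card_of_injective _ (tanHom_injective (R := R) hres hinst)
  rw [h1] at h2
  exact (Nat.pow_le_pow_iff_right Finite.one_lt_card).1 (h2.trans hcard)

end Hom

section Final

variable {𝒪 : Type} [CommRing 𝒪] [IsLocalRing 𝒪] [IsNoetherianRing 𝒪]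
  [IsAdicComplete (maximalIdeal 𝒪) 𝒪] [Finite (ResidueField 𝒪)]
  {R : Type} [CommRing R] [IsLocalRing R] [IsNoetherianRing R]
  [IsAdicComplete (maximalIdeal R) R] [Algebra 𝒪 R] [IsLocalHom (algebraMap 𝒪 R)]

omit [Finite (ResidueField 𝒪)] in
/-- **DEF (1), dimension form.** If the tangent quotient `𝔪_R / (𝔪_R² + 𝔪_𝒪 R)` has dimension at
most `r` then `R` is a quotient of `𝒪⟦X₁, …, X_r⟧`. -/
theorem exists_surjective_of_finrank_le
    (hres : Function.Surjective (residue R ∘ algebraMap 𝒪 R)) (r : ℕ)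
    (hr : Module.finrank (ResidueField 𝒪) (TanQuot 𝒪 R) ≤ r) :
    ∃ γ : MvPowerSeries (Fin r) 𝒪 →ₐ[𝒪] R, Function.Surjective γ := by
  haveI := tanQuot_finite (R := R) hres
  set n := Module.finrank (ResidueField 𝒪) (TanQuot 𝒪 R) with hn
  let b := Module.finBasis (ResidueField 𝒪) (TanQuot 𝒪 R)
  choose z hzm hz using fun i => exists_mem_tanD_eq hres (b i)
  let x : Fin r → R := fun j => if h : (j : ℕ) < n then z ⟨j, h⟩ else 0
  have hx : ∀ j, x j ∈ maximalIdeal R := by
    intro j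
    simp only [x]
    split_ifs with h
    · exact hzm _
    · exact zero_mem _
  have hzx : ∀ i : Fin n, z i ∈ Ideal.span (Set.range x) := by
    intro i
    refine Ideal.subset_span ⟨⟨i, lt_of_lt_of_le i.2 hr⟩, ?_⟩
    simp only [x, dif_pos i.2, Fin.eta]
  suffices hspan : maximalIdeal R ≤ Ideal.span (Set.range x) ⊔
      (maximalIdeal 𝒪).map (algebraMap 𝒪 R) ⊔ maximalIdeal R ^ 2 by
    obtain ⟨γ, -, hγ⟩ := exists_surjective_of_span (𝒪 := 𝒪) hres x hx hspan
    exact ⟨γ, hγ⟩
  intro u hu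
  -- write `tanD u` in the basis
  have hrep := b.sum_repr (tanD 𝒪 R u)
  choose a ha using fun i => residue_surjective (R := 𝒪) (b.repr (tanD 𝒪 R u) i)
  have hsum : tanD 𝒪 R u = tanD 𝒪 R (∑ i, a i • z i) := by
    have e1 : ∀ i, b.repr (tanD 𝒪 R u) i • b i = tanD 𝒪 R (a i • z i) := by
      intro i
      rw [map_smul, hz, ← ha i, residue_smul]
    calc tanD 𝒪 R u = ∑ i, b.repr (tanD 𝒪 R u) i • b i := hrep.symm
      _ = ∑ i, tanD 𝒪 R (a i • z i) := Finset.sum_congr rfl fun i _ => e1 i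
      _ = tanD 𝒪 R (∑ i, a i • z i) := (map_sum _ _ _).symm
  have hmem : u - ∑ i, a i • z i ∈ tanIdeal 𝒪 R := by
    refine mem_tanIdeal_of_mem_tanSub ((tanD_eq_iff _ _).1 hsum) (sub_mem hu ?_)
    refine Ideal.sum_mem _ fun i _ => ?_
    rw [Algebra.smul_def]
    exact Ideal.mul_mem_left _ _ (hzm i)
  have hsplit : u = ∑ i, a i • z i + (u - ∑ i, a i • z i) := by ring
  rw [hsplit]
  have h1 : ∑ i, a i • z i ∈ Ideal.span (Set.range x) := by
    refine Ideal.sum_mem _ fun i _ => ?_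
    rw [Algebra.smul_def]
    exact Ideal.mul_mem_left _ _ (hzx i)
  have h2 : u - ∑ i, a i • z i ∈
      (maximalIdeal 𝒪).map (algebraMap 𝒪 R) ⊔ maximalIdeal R ^ 2 := by
    rw [sup_comm]
    exact hmem
  rw [sup_assoc]
  exact Ideal.add_mem _ (Ideal.mem_sup_left h1) (Ideal.mem_sup_right h2)

/-- **DEF (1).** A complete noetherian local `𝒪`-algebra `R` with residue field `k` and at most
`|k|^r` tangent vectors `R → k[ε]` is a quotient of `𝒪⟦X₁, …, X_r⟧`. Version for an arbitrary
`𝒪`-algebra structure on `k[ε]` with the standard structure map. -/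
theorem exists_surjective_mvPowerSeries_of_algebra
    (hres : Function.Surjective (residue R ∘ algebraMap 𝒪 R))
    [inst : Algebra 𝒪 (DualNumber (ResidueField 𝒪))]
    (hinst : ∀ a : 𝒪, algebraMap 𝒪 (DualNumber (ResidueField 𝒪)) a =
      TrivSqZeroExt.inl (residue 𝒪 a)) (r : ℕ)
    (hcard : Nat.card (R →ₐ[𝒪] DualNumber (ResidueField 𝒪)) ≤ Nat.card (ResidueField 𝒪) ^ r) :
    ∃ γ : MvPowerSeries (Fin r) 𝒪 →ₐ[𝒪] R, Function.Surjective γ :=
  exists_surjective_of_finrank_le hres r (finrank_tanQuot_le hres hinst r hcard)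

/-- **DEF (1)**, for the canonical `𝒪`-algebra structure on `k[ε]`. -/
theorem exists_surjective_mvPowerSeries'
    (hres : Function.Surjective (residue R ∘ algebraMap 𝒪 R)) (r : ℕ)
    (hcard : Nat.card (R →ₐ[𝒪] DualNumber (ResidueField 𝒪)) ≤ Nat.card (ResidueField 𝒪) ^ r) :
    ∃ γ : MvPowerSeries (Fin r) 𝒪 →ₐ[𝒪] R, Function.Surjective γ :=
  exists_surjective_mvPowerSeries_of_algebra hres (fun _ => rfl) r hcard

/-- **DEF (1)**, for the `𝒪`-algebra structure on `k[ε]` used in `GaloisRep.TangentFinite`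
(`𝒪 → k → k[ε]` as a `RingHom.toAlgebra`). -/
theorem exists_surjective_mvPowerSeries_toAlgebra
    (hres : Function.Surjective (residue R ∘ algebraMap 𝒪 R)) (r : ℕ)
    (hcard :
      letI : Algebra 𝒪 (DualNumber (ResidueField 𝒪)) :=
        ((algebraMap (ResidueField 𝒪) (DualNumber (ResidueField 𝒪))).comp
          (algebraMap 𝒪 (ResidueField 𝒪))).toAlgebra
      Nat.card (R →ₐ[𝒪] DualNumber (ResidueField 𝒪)) ≤ Nat.card (ResidueField 𝒪) ^ r) :
    ∃ γ : MvPowerSeries (Fin r) 𝒪 →ₐ[𝒪] R, Function.Surjective γ := by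
  letI : Algebra 𝒪 (DualNumber (ResidueField 𝒪)) :=
    ((algebraMap (ResidueField 𝒪) (DualNumber (ResidueField 𝒪))).comp
      (algebraMap 𝒪 (ResidueField 𝒪))).toAlgebra
  exact exists_surjective_mvPowerSeries_of_algebra hres (fun _ => rfl) r hcard

end Final

/-- **DEF (1)** in the shape announced on the task board (task 437): `𝒪` a complete discrete
valuation ring with finite residue field `k`, `R` a complete noetherian local `𝒪`-algebra with
residue field `k` and `#Hom_{𝒪-alg}(R, k[ε]) ≤ |k|^r`. Then `R` is a quotient of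
`𝒪⟦X₁, …, X_r⟧`. -/
theorem exists_surjective_mvPowerSeries {𝒪 : Type} [CommRing 𝒪] [IsDomain 𝒪]
    [IsDiscreteValuationRing 𝒪] [IsAdicComplete (maximalIdeal 𝒪) 𝒪] [Finite (ResidueField 𝒪)]
    (R : Type) [CommRing R] [IsLocalRing R] [IsNoetherianRing R]
    [IsAdicComplete (maximalIdeal R) R] [Algebra 𝒪 R] [IsLocalHom (algebraMap 𝒪 R)]
    (hres : Function.Surjective (residue R ∘ algebraMap 𝒪 R)) (r : ℕ)
    (hcard : Nat.card (R →ₐ[𝒪] DualNumber (ResidueField 𝒪)) ≤ Nat.card (ResidueField 𝒪) ^ r) :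
    ∃ γ : MvPowerSeries (Fin r) 𝒪 →ₐ[𝒪] R, Function.Surjective γ :=
  exists_surjective_mvPowerSeries' hres r hcard

end Fermat.Agent.P1.helper61
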