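import Mathlib
import Fermat.Agent.S53.helper33_WP1
import Fermat.Agent.S53.helper61_WP2

/-!
# P1 / DEF (1), part a: complete local `𝒪`-algebras are quotients of power series rings

Let `𝒪` be a complete noetherian local ring and `R` a complete noetherian local `𝒪`-algebra with
the same residue field. If `x₁, …, x_r ∈ 𝔪_R` generate `𝔪_R` modulo `𝔪_R² + 𝔪_𝒪 R`, then there is
a surjective `𝒪`-algebra homomorphism `𝒪⟦X₁, …, X_r⟧ → R` with `X_i ↦ x_i`.
-/

set_option autoImplicit false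
set_option linter.style.haveILetI false

namespace Fermat.Agent.P1.helper61

open IsLocalRing MvPowerSeries

section Eval

variable {σ : Type} [Finite σ] {𝒪 R : Type} [CommRing 𝒪] [CommRing R] [Algebra 𝒪 R]

/-- An algebra hom out of the power series ring which kills the variables is evaluation of the
constant coefficient. -/
theorem apply_eq_algebraMap_constantCoeff (φ : MvPowerSeries σ 𝒪 →ₐ[𝒪] R)
    (h : ∀ s, φ (X s) = 0) (f : MvPowerSeries σ 𝒪) :
    φ f = algebraMap 𝒪 R (constantCoeff f) := by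
  have hN : (Ideal.span (Set.range fun s => φ (X s))) ^ 1 = ⊥ := by
    rw [pow_one, Ideal.span_eq_bot]
    rintro _ ⟨s, rfl⟩
    exact h s
  rw [Fermat.Agent.S53.helper61.apply_eq_apply_truncTotal φ hN f,
    Fermat.Agent.S53.helper61.apply_coe_eq_aeval]
  have h0 : (fun s => φ (X s)) = 0 := funext h
  rw [h0, MvPolynomial.aeval_zero]
  congr 1
  rw [MvPolynomial.constantCoeff_eq,
    coeff_truncTotal f (by simp : Finsupp.degree (0 : σ →₀ ℕ) < 1)]
  rfl

end Eval

section Main

variable {𝒪 : Type} [CommRing 𝒪] [IsLocalRing 𝒪] [IsNoetherianRing 𝒪]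
  [IsAdicComplete (maximalIdeal 𝒪) 𝒪]
  {R : Type} [CommRing R] [IsLocalRing R] [IsNoetherianRing R]
  [IsAdicComplete (maximalIdeal R) R] [Algebra 𝒪 R] [IsLocalHom (algebraMap 𝒪 R)]

omit [IsLocalRing 𝒪] [IsLocalHom (algebraMap 𝒪 R)] [IsNoetherianRing 𝒪]
  [IsAdicComplete (maximalIdeal 𝒪) 𝒪] [IsNoetherianRing R] in
/-- Existence of the evaluation homomorphism at topologically nilpotent elements. -/
theorem exists_algHom_X_eq_of_mem {σ : Type} [Finite σ] (x : σ → R)
    (hx : ∀ i, x i ∈ maximalIdeal R) :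
    ∃ γ : MvPowerSeries σ 𝒪 →ₐ[𝒪] R, ∀ i, γ (X i) = x i := by
  have hnil : ∀ n : ℕ, ∀ i, IsNilpotent (Ideal.Quotient.mk (maximalIdeal R ^ n) (x i)) := by
    intro n i
    refine ⟨n, ?_⟩
    rw [← map_pow, Ideal.Quotient.eq_zero_iff_mem]
    exact Ideal.pow_mem_pow (hx i) n
  choose f hf using fun n : ℕ => Fermat.Agent.S53.helper61.exists_algHom_X_eq (O := 𝒪)
    (fun i => Ideal.Quotient.mk (maximalIdeal R ^ n) (x i)) (hnil n)
  have hcompat : ∀ {m n : ℕ} (hle : m ≤ n),
      (Ideal.Quotient.factorₐ 𝒪 (Ideal.pow_le_pow_right hle)).comp (f n) = f m := by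
    intro m n hle
    apply Fermat.Agent.S53.helper61.algHom_ext_of_isNilpotent
    · intro i
      rw [AlgHom.comp_apply, hf]
      exact (hnil n i).map _
    · intro i
      rw [AlgHom.comp_apply, hf, hf]
      rfl
  refine ⟨IsAdicComplete.liftAlgHom (maximalIdeal R) f hcompat, fun i => ?_⟩
  rw [← sub_eq_zero]
  refine IsHausdorff.haus (inferInstance : IsHausdorff (maximalIdeal R) R) _ fun n => ?_
  rw [SModEq.zero, smul_eq_mul, Ideal.mul_top, ← Ideal.Quotient.eq_zero_iff_mem, map_sub,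
    IsAdicComplete.mk_liftAlgHom, hf, sub_self]

omit [IsLocalRing 𝒪] [IsLocalHom (algebraMap 𝒪 R)] [IsNoetherianRing 𝒪]
  [IsAdicComplete (maximalIdeal 𝒪) 𝒪] [IsNoetherianRing R]
  [IsAdicComplete (maximalIdeal R) R] in
/-- A homomorphism from the power series ring sending the variables into the maximal ideal is
congruent to the constant coefficient modulo the maximal ideal. -/
theorem apply_sub_algebraMap_mem {σ : Type} [Finite σ] (γ : MvPowerSeries σ 𝒪 →ₐ[𝒪] R)
    (hγ : ∀ i, γ (X i) ∈ maximalIdeal R) (f : MvPowerSeries σ 𝒪) :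
    γ f - algebraMap 𝒪 R (constantCoeff f) ∈ maximalIdeal R := by
  have key := apply_eq_algebraMap_constantCoeff
    ((Ideal.Quotient.mkₐ 𝒪 (maximalIdeal R)).comp γ) (fun s => by
      rw [AlgHom.comp_apply, Ideal.Quotient.mkₐ_eq_mk, Ideal.Quotient.eq_zero_iff_mem]
      exact hγ s) f
  rw [AlgHom.comp_apply, Ideal.Quotient.mkₐ_eq_mk,
    IsScalarTower.algebraMap_apply 𝒪 R (R ⧸ maximalIdeal R), Ideal.Quotient.algebraMap_eq,
    ← sub_eq_zero, ← map_sub, Ideal.Quotient.eq_zero_iff_mem] at key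
  exact key

/-- **DEF (1), cotangent form.** If `x₁, …, x_r ∈ 𝔪_R` generate `𝔪_R` modulo
`𝔪_R² + 𝔪_𝒪 R`, then `𝒪⟦X₁, …, X_r⟧ → R`, `X_i ↦ x_i`, is surjective. -/
theorem exists_surjective_of_span {σ : Type} [Finite σ]
    (hres : Function.Surjective (residue R ∘ algebraMap 𝒪 R)) (x : σ → R)
    (hx : ∀ i, x i ∈ maximalIdeal R)
    (hspan : maximalIdeal R ≤ Ideal.span (Set.range x) ⊔
      (maximalIdeal 𝒪).map (algebraMap 𝒪 R) ⊔ maximalIdeal R ^ 2) :
    ∃ γ : MvPowerSeries σ 𝒪 →ₐ[𝒪] R, (∀ i, γ (X i) = x i) ∧ Function.Surjective γ := by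
  obtain ⟨γ, hγ⟩ := exists_algHom_X_eq_of_mem (𝒪 := 𝒪) x hx
  refine ⟨γ, hγ, ?_⟩
  set P := MvPowerSeries σ 𝒪
  set J : Ideal R := Ideal.span (Set.range x) ⊔ (maximalIdeal 𝒪).map (algebraMap 𝒪 R) with hJ
  -- Nakayama
  have hNak : maximalIdeal R ≤ J := by
    refine Submodule.le_of_le_smul_of_le_jacobson_bot (I := maximalIdeal R)
      (IsNoetherian.noetherian _) (maximalIdeal_le_jacobson _) ?_
    rw [smul_eq_mul, ← pow_two]
    exact hspan
  have hmem : ∀ f : P, f ∈ maximalIdeal P ↔ constantCoeff f ∈ maximalIdeal 𝒪 := by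
    intro f
    rw [mem_maximalIdeal, mem_maximalIdeal, mem_nonunits_iff, mem_nonunits_iff,
      MvPowerSeries.isUnit_iff_constantCoeff]
  have halg : ∀ a ∈ maximalIdeal 𝒪, algebraMap 𝒪 R a ∈ maximalIdeal R := by
    intro a ha
    rw [mem_maximalIdeal, mem_nonunits_iff] at ha ⊢
    exact fun h => ha (isUnit_of_map_unit (algebraMap 𝒪 R) a h)
  have hmap : Ideal.map (γ : P →+* R) (maximalIdeal P) = maximalIdeal R := by
    apply le_antisymm
    · rw [Ideal.map_le_iff_le_comap]
      intro f hf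
      rw [Ideal.mem_comap]
      have h1 := apply_sub_algebraMap_mem γ (fun i => by rw [hγ]; exact hx i) f
      have h2 := halg _ ((hmem f).1 hf)
      have h3 := add_mem h1 h2
      rwa [sub_add_cancel] at h3
    · refine hNak.trans (sup_le ?_ ?_)
      · rw [Ideal.span_le]
        rintro _ ⟨i, rfl⟩
        rw [← hγ i]
        refine Ideal.mem_map_of_mem _ ?_
        rw [hmem, MvPowerSeries.constantCoeff_X]
        exact zero_mem _
      · rw [Ideal.map_le_iff_le_comap]
        intro a ha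
        rw [Ideal.mem_comap]
        have : algebraMap 𝒪 R a = γ (C a) := by
          have hC : (C a : P) = algebraMap 𝒪 P a := rfl
          rw [hC]
          exact (γ.commutes a).symm
        rw [this]
        refine Ideal.mem_map_of_mem _ ?_
        rw [hmem, MvPowerSeries.constantCoeff_C]
        exact ha
  haveI : IsAdicComplete (maximalIdeal P) P := Fermat.Agent.S53.helper33.WP1 σ 𝒪
  haveI : IsHausdorff (Ideal.map (γ : P →+* R) (maximalIdeal P)) R := by
    rw [hmap]; infer_instance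
  refine surjective_of_mk_map_comp_surjective (I := maximalIdeal P) (γ : P →+* R) ?_
  intro y
  obtain ⟨z, rfl⟩ := Ideal.Quotient.mk_surjective y
  obtain ⟨a, ha⟩ := hres (residue R z)
  refine ⟨C a, ?_⟩
  rw [RingHom.comp_apply, Ideal.Quotient.eq, hmap]
  have h1 : (γ : P →+* R) (C a) = algebraMap 𝒪 R a := by
    have : (C a : P) = algebraMap 𝒪 P a := rfl
    rw [this]
    exact γ.commutes a
  rw [h1, ← residue_eq_zero_iff, map_sub, sub_eq_zero]
  exact ha

end Main

end Fermat.Agent.P1.helper61
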