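import Mathlib
import Fermat.Agent.P1.helper63_ECDefs

/-!
# P1 (S56), module EC, package ART-LAT, part A (helper61, task 721)

Subquotients `A / (A ∩ B)` of a `ℤ[G]`-module `M` (`B`, `A` stable subgroups with `p A ⊆ B`) as
representations over `ZMod p`, and the maps between them induced by equivariant additive maps.
-/

set_option autoImplicit false

noncomputable section

namespace Fermat.Agent.P1.helper61

open Fermat.Agent.S55 Fermat.Agent.P1.helper63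

section QPairDef

variable {G : Type} [Group G] (p : ℕ)

/-- A `G`-stable pair of subgroups `B`, `A` of a `ℤ[G]`-module with `p A ⊆ B`. -/
structure QPair {M : Type} [AddCommGroup M] (ρ : Representation ℤ G M) where
  /-- the numerator -/
  A : Submodule ℤ M
  /-- the denominator -/
  B : Submodule ℤ M
  stabA : ∀ γ : G, ∀ a ∈ A, ρ γ a ∈ A
  stabB : ∀ γ : G, ∀ b ∈ B, ρ γ b ∈ B
  pmul : ∀ a ∈ A, (p : ℤ) • a ∈ B

end QPairDef

namespace QPair

variable {G : Type} [Group G] {p : ℕ} {M : Type} [AddCommGroup M] {ρ : Representation ℤ G M}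
  (P : QPair p ρ)

/-- The subgroup of `A` of the elements lying in `B`. -/
abbrev K : Submodule ℤ ↥P.A := P.B.comap P.A.subtype

/-- The carrier `A / (A ∩ B)`. -/
abbrev Q : Type := ↥P.A ⧸ P.K

theorem nsmul_Q (v : P.Q) : p • v = 0 := by
  obtain ⟨a, rfl⟩ := Submodule.Quotient.mk_surjective _ v
  rw [← Submodule.Quotient.mk_smul, Submodule.Quotient.mk_eq_zero, Submodule.mem_comap]
  have := P.pmul a a.2
  simpa using this

/-- The `ZMod p`-module structure of `A / (A ∩ B)`. -/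
abbrev zmod : Module (ZMod p) P.Q := AddCommGroup.zmodModule P.nsmul_Q

/-- The action of `G` on `A / (A ∩ B)`, over `ℤ`. -/
abbrev rhoZ : Representation ℤ G P.Q :=
  (ρ.subrepresentation P.A (fun γ a ha => P.stabA γ a ha)).quotient P.K
    (fun γ a ha => P.stabB γ a ha)

/-- The action of `G` on `A / (A ∩ B)`, over `ZMod p`. -/
def rho : @Representation (ZMod p) G P.Q _ _ _ P.zmod :=
  letI := P.zmod
  { toFun := fun γ => (P.rhoZ γ).toAddMonoidHom.toZModLinearMap p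
    map_one' := by
      apply LinearMap.ext
      intro v
      change P.rhoZ 1 v = v
      rw [map_one]; rfl
    map_mul' := by
      intro γ δ
      apply LinearMap.ext
      intro v
      change P.rhoZ (γ * δ) v = P.rhoZ γ (P.rhoZ δ v)
      rw [map_mul]; rfl }

/-- The representation `A / (A ∩ B)` of `G` over `ZMod p`. -/
def rep : Rep.{0} (ZMod p) G :=
  letI := P.zmod
  Rep.of P.rho

/-- The projection `A → A / (A ∩ B)`. -/
def proj : ↥P.A →+ ↥P.rep := (Submodule.mkQ P.K).toAddMonoidHom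

theorem proj_surjective : Function.Surjective P.proj :=
  Submodule.mkQ_surjective P.K

theorem proj_eq_zero_iff (a : ↥P.A) : P.proj a = 0 ↔ (a : M) ∈ P.B :=
  Submodule.Quotient.mk_eq_zero P.K

theorem proj_eq_proj_iff (a b : ↥P.A) : P.proj a = P.proj b ↔ (a : M) - (b : M) ∈ P.B := by
  rw [← sub_eq_zero, ← map_sub, proj_eq_zero_iff]
  rfl

theorem rep_ρ_proj (γ : G) (a : ↥P.A) :
    P.rep.ρ γ (P.proj a) = P.proj ⟨ρ γ a, P.stabA γ a a.2⟩ := rfl

/-- An additive map on `A` which kills `A ∩ B` descends to `A / (A ∩ B)`. -/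
def lift {W : Type} [AddCommGroup W] [Module (ZMod p) W] (φ : ↥P.A →+ W)
    (hφ : ∀ a : ↥P.A, (a : M) ∈ P.B → φ a = 0) : ↥P.rep →ₗ[ZMod p] W :=
  AddMonoidHom.toZModLinearMap p
    ((P.K.liftQ φ.toIntLinearMap (fun a ha => hφ a ha)).toAddMonoidHom : ↥P.rep →+ W)

theorem lift_proj {W : Type} [AddCommGroup W] [Module (ZMod p) W] (φ : ↥P.A →+ W)
    (hφ : ∀ a : ↥P.A, (a : M) ∈ P.B → φ a = 0) (a : ↥P.A) : P.lift φ hφ (P.proj a) = φ a := rfl

theorem lift_injective {W : Type} [AddCommGroup W] [Module (ZMod p) W] (φ : ↥P.A →+ W)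
    (hφ : ∀ a : ↥P.A, (a : M) ∈ P.B → φ a = 0)
    (h : ∀ a : ↥P.A, φ a = 0 → (a : M) ∈ P.B) : Function.Injective (P.lift φ hφ) := by
  rw [injective_iff_map_eq_zero]
  intro v hv
  obtain ⟨a, rfl⟩ := P.proj_surjective v
  rw [lift_proj] at hv
  exact (P.proj_eq_zero_iff a).mpr (h a hv)

theorem lift_surjective {W : Type} [AddCommGroup W] [Module (ZMod p) W] (φ : ↥P.A →+ W)
    (hφ : ∀ a : ↥P.A, (a : M) ∈ P.B → φ a = 0)
    (h : Function.Surjective φ) : Function.Surjective (P.lift φ hφ) := by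
  intro w
  obtain ⟨a, rfl⟩ := h w
  exact ⟨P.proj a, P.lift_proj φ hφ a⟩

section Map

variable {M' : Type} [AddCommGroup M'] {ρ' : Representation ℤ G M'} (P' : QPair p ρ')

/-- The restriction of an additive map `f` with `f A ⊆ A'`. -/
def res (f : M →+ M') (hA : ∀ a ∈ P.A, f a ∈ P'.A) : ↥P.A →+ ↥P'.A where
  toFun a := ⟨f a, hA a a.2⟩
  map_zero' := by ext; simp
  map_add' a b := by ext; simp

@[simp] theorem coe_res (f : M →+ M') (hA : ∀ a ∈ P.A, f a ∈ P'.A) (a : ↥P.A) :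
    ((P.res P' f hA a : ↥P'.A) : M') = f a := rfl

/-- The map `A / (A ∩ B) → A' / (A' ∩ B')` induced by an additive map `f` with `f A ⊆ A'` and
`f B ⊆ B'`. -/
def map (f : M →+ M') (hA : ∀ a ∈ P.A, f a ∈ P'.A) (hB : ∀ b ∈ P.B, f b ∈ P'.B) :
    ↥P.rep →ₗ[ZMod p] ↥P'.rep :=
  P.lift (P'.proj.comp (P.res P' f hA)) (fun a ha => by
    rw [AddMonoidHom.comp_apply, proj_eq_zero_iff]
    exact hB a ha)

theorem map_proj (f : M →+ M') (hA : ∀ a ∈ P.A, f a ∈ P'.A) (hB : ∀ b ∈ P.B, f b ∈ P'.B)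
    (a : ↥P.A) : P.map P' f hA hB (P.proj a) = P'.proj ⟨f a, hA a a.2⟩ := rfl

theorem map_equivariant (f : M →+ M') (hA : ∀ a ∈ P.A, f a ∈ P'.A) (hB : ∀ b ∈ P.B, f b ∈ P'.B)
    (hf : ∀ (γ : G) (m : M), f (ρ γ m) = ρ' γ (f m)) (γ : G) (v : ↥P.rep) :
    P.map P' f hA hB (P.rep.ρ γ v) = P'.rep.ρ γ (P.map P' f hA hB v) := by
  obtain ⟨a, rfl⟩ := P.proj_surjective v
  rw [rep_ρ_proj, map_proj, map_proj, rep_ρ_proj]
  congr 1
  exact Subtype.ext (hf γ a)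

theorem map_injective (f : M →+ M') (hA : ∀ a ∈ P.A, f a ∈ P'.A) (hB : ∀ b ∈ P.B, f b ∈ P'.B)
    (h : ∀ a ∈ P.A, f a ∈ P'.B → a ∈ P.B) : Function.Injective (P.map P' f hA hB) := by
  refine P.lift_injective _ _ fun a ha => ?_
  rw [AddMonoidHom.comp_apply, proj_eq_zero_iff] at ha
  exact h a a.2 ha

theorem map_surjective (f : M →+ M') (hA : ∀ a ∈ P.A, f a ∈ P'.A) (hB : ∀ b ∈ P.B, f b ∈ P'.B)
    (h : ∀ a' ∈ P'.A, ∃ a ∈ P.A, a' - f a ∈ P'.B) : Function.Surjective (P.map P' f hA hB) := by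
  intro v
  obtain ⟨a', rfl⟩ := P'.proj_surjective v
  obtain ⟨a, ha, hab⟩ := h a' a'.2
  refine ⟨P.proj ⟨a, ha⟩, ?_⟩
  rw [map_proj, proj_eq_proj_iff]
  have : f a - (a' : M') = -((a' : M') - f a) := by abel
  rw [this]
  exact P'.B.neg_mem hab

theorem map_eq_zero_iff (f : M →+ M') (hA : ∀ a ∈ P.A, f a ∈ P'.A) (hB : ∀ b ∈ P.B, f b ∈ P'.B)
    (a : ↥P.A) : P.map P' f hA hB (P.proj a) = 0 ↔ f a ∈ P'.B := by
  rw [map_proj, proj_eq_zero_iff]

end Map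

section Exact

variable {M₁ M₂ : Type} [AddCommGroup M₁] [AddCommGroup M₂] {ρ₁ : Representation ℤ G M₁}
  {ρ₂ : Representation ℤ G M₂} (P₁ : QPair p ρ₁) (P₂ : QPair p ρ₂)

/-- Exactness criterion for two induced maps. -/
theorem range_map_eq_ker_map (f₁ : M₁ →+ M) (hA₁ : ∀ a ∈ P₁.A, f₁ a ∈ P.A)
    (hB₁ : ∀ b ∈ P₁.B, f₁ b ∈ P.B) (f₂ : M →+ M₂) (hA₂ : ∀ a ∈ P.A, f₂ a ∈ P₂.A)
    (hB₂ : ∀ b ∈ P.B, f₂ b ∈ P₂.B)
    (h0 : ∀ a ∈ P₁.A, f₂ (f₁ a) ∈ P₂.B)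
    (hex : ∀ a ∈ P.A, f₂ a ∈ P₂.B → ∃ a₁ ∈ P₁.A, a - f₁ a₁ ∈ P.B) :
    LinearMap.range (P₁.map P f₁ hA₁ hB₁) = LinearMap.ker (P.map P₂ f₂ hA₂ hB₂) := by
  ext v
  rw [LinearMap.mem_range, LinearMap.mem_ker]
  constructor
  · rintro ⟨w, rfl⟩
    obtain ⟨a, rfl⟩ := P₁.proj_surjective w
    rw [map_proj, map_proj, proj_eq_zero_iff]
    exact h0 a a.2
  · intro hv
    obtain ⟨a, rfl⟩ := P.proj_surjective v
    rw [map_eq_zero_iff] at hv
    obtain ⟨a₁, ha₁, h⟩ := hex a a.2 hv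
    refine ⟨P₁.proj ⟨a₁, ha₁⟩, ?_⟩
    rw [map_proj, proj_eq_proj_iff]
    have : f₁ a₁ - (a : M) = -((a : M) - f₁ a₁) := by abel
    rw [this]
    exact P.B.neg_mem h

end Exact

/-! ### Finiteness and smoothness -/

theorem finite_rep [Module.Finite ℤ M] : Module.Finite (ZMod p) ↥P.rep := by
  have h1 : IsNoetherian ℤ M := inferInstance
  have h2 : Module.Finite ℤ ↥P.A := inferInstance
  have h3 : Module.Finite ℤ P.Q := inferInstance
  exact @Module.Finite.of_restrictScalars_finite ℤ (ZMod p) P.Q _ _ _ _ P.zmod _ _ h3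

theorem isSmooth_rep (𝒩 : Levels G) (h : ∃ N ∈ 𝒩.mem, ∀ s ∈ N, ∀ m : M, ρ s m = m) :
    IsSmooth 𝒩 P.rep := by
  obtain ⟨N, hN, hs⟩ := h
  refine ⟨N, hN, fun s hsN v => ?_⟩
  obtain ⟨a, rfl⟩ := P.proj_surjective v
  rw [rep_ρ_proj]
  congr 1
  exact Subtype.ext (hs s hsN a)

end QPair

end Fermat.Agent.P1.helper61
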