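import Mathlib
import Fermat.Agent.P1.helper61_ECArtLatA

/-!
# P1 (S56), module EC, package ART-LAT, part B (helper61, task 721)

Brauer-Nesbitt for lattices: let `M` be a finitely generated torsion free `ℤ[G]`-module with
smooth action and let `L₁ ≤ L₂` be stable subgroups of `M` with `N L₂ ≤ L₁` for some `N > 0`.
Then every additive invariant `g` of finite smooth `𝔽_p[G]`-modules takes the same value on
`L₁ / p L₁` and `L₂ / p L₂` (`g_red_eq`).
-/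

set_option autoImplicit false

noncomputable section

namespace Fermat.Agent.P1.helper61

open Fermat.Agent.S55 Fermat.Agent.P1.helper63

section Lattice

variable {G : Type} [Group G] (p : ℕ) {M : Type} [AddCommGroup M] (ρ : Representation ℤ G M)

/-- The subgroup `p L`. -/
def pSub (L : Submodule ℤ M) : Submodule ℤ M := L.map (LinearMap.lsmul ℤ M (p : ℤ))

variable {p} in
theorem mem_pSub {L : Submodule ℤ M} {x : M} : x ∈ pSub p L ↔ ∃ y ∈ L, (p : ℤ) • y = x := by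
  rw [pSub, Submodule.mem_map]
  rfl

theorem smul_mem_pSub {L : Submodule ℤ M} {y : M} (hy : y ∈ L) : (p : ℤ) • y ∈ pSub p L :=
  mem_pSub.mpr ⟨y, hy, rfl⟩

theorem pSub_mono {L₁ L₂ : Submodule ℤ M} (h : L₁ ≤ L₂) : pSub p L₁ ≤ pSub p L₂ :=
  Submodule.map_mono h

theorem pSub_le_self (L : Submodule ℤ M) : pSub p L ≤ L := by
  intro x hx
  obtain ⟨y, hy, rfl⟩ := mem_pSub.mp hx
  exact L.smul_mem _ hy

/-- `G`-stable subgroups. -/
def IsStable (L : Submodule ℤ M) : Prop := ∀ γ : G, ∀ a ∈ L, ρ γ a ∈ L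

variable {ρ} in
theorem IsStable.pSub {L : Submodule ℤ M} (hL : IsStable ρ L) : IsStable ρ (pSub p L) := by
  intro γ a ha
  obtain ⟨y, hy, rfl⟩ := mem_pSub.mp ha
  rw [map_smul]
  exact smul_mem_pSub p (hL γ y hy)

variable {ρ} in
theorem IsStable.sup {L₁ L₂ : Submodule ℤ M} (h₁ : IsStable ρ L₁) (h₂ : IsStable ρ L₂) :
    IsStable ρ (L₁ ⊔ L₂) := by
  intro γ a ha
  obtain ⟨x, hx, y, hy, rfl⟩ := Submodule.mem_sup.mp ha
  rw [map_add]
  exact Submodule.add_mem_sup (h₁ γ x hx) (h₂ γ y hy)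

theorem isStable_top : IsStable ρ ⊤ := fun _ _ _ => Submodule.mem_top

variable {ρ} in
/-- The pair `(A, B)` for stable subgroups with `p A ≤ B`. -/
def pair (A B : Submodule ℤ M) (hA : IsStable ρ A) (hB : IsStable ρ B) (h : pSub p A ≤ B) :
    QPair p ρ :=
  ⟨A, B, hA, hB, fun _ ha => h (smul_mem_pSub p ha)⟩

variable {ρ} in
/-- The reduction modulo `p` of a stable subgroup: the pair `(L, p L)`. -/
def red (L : Submodule ℤ M) (hL : IsStable ρ L) : QPair p ρ :=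
  pair p L (pSub p L) hL (hL.pSub p) le_rfl

end Lattice

section Invariant

variable {G : Type} [Group G] {𝒩 : Levels G} {p : ℕ} [Fact p.Prime] {M : Type} [AddCommGroup M]
  {ρ : Representation ℤ G M} [Module.Finite ℤ M]
  (hsm : ∃ N ∈ 𝒩.mem, ∀ s ∈ N, ∀ m : M, ρ s m = m)
  {g : Rep.{0} (ZMod p) G → ℤ} (hg : IsAddInv 𝒩 g)

include hsm hg

/-- Additivity of `g` on `0 → B / C → A / C → A / B → 0`. -/
theorem g_pair_add {A B C : Submodule ℤ M} (hA : IsStable ρ A) (hB : IsStable ρ B)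
    (hC : IsStable ρ C) (hBA : B ≤ A) (hCB : C ≤ B) (hpA : pSub p A ≤ C) :
    g (pair p A C hA hC hpA).rep =
      g (pair p B C hB hC ((pSub_mono p hBA).trans hpA)).rep +
        g (pair p A B hA hB (hpA.trans hCB)).rep := by
  set P₁ := pair p B C hB hC ((pSub_mono p hBA).trans hpA)
  set P := pair p A C hA hC hpA
  set P₂ := pair p A B hA hB (hpA.trans hCB)
  have hA₁ : ∀ a ∈ P₁.A, (AddMonoidHom.id M) a ∈ P.A := fun a ha => hBA ha
  have hB₁ : ∀ b ∈ P₁.B, (AddMonoidHom.id M) b ∈ P.B := fun b hb => hb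
  have hA₂ : ∀ a ∈ P.A, (AddMonoidHom.id M) a ∈ P₂.A := fun a ha => ha
  have hB₂ : ∀ b ∈ P.B, (AddMonoidHom.id M) b ∈ P₂.B := fun b hb => hCB hb
  refine hg.add P₁.rep P.rep P₂.rep (P₁.map P (AddMonoidHom.id M) hA₁ hB₁)
    (P.map P₂ (AddMonoidHom.id M) hA₂ hB₂) ?_ ?_ ?_ ?_ ?_ P.finite_rep (P.isSmooth_rep 𝒩 hsm)
  · exact fun s a => P₁.map_equivariant P _ hA₁ hB₁ (fun _ _ => rfl) s a
  · exact fun s a => P.map_equivariant P₂ _ hA₂ hB₂ (fun _ _ => rfl) s a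
  · exact P₁.map_injective P _ hA₁ hB₁ (fun a _ ha => ha)
  · refine P.map_surjective P₂ _ hA₂ hB₂ (fun a' ha' => ⟨a', ha', ?_⟩)
    simp only [AddMonoidHom.id_apply, sub_self]
    exact P₂.B.zero_mem
  · refine P.range_map_eq_ker_map P₁ P₂ _ hA₁ hB₁ _ hA₂ hB₂ (fun a ha => ha)
      (fun a _ ha => ⟨a, ha, ?_⟩)
    simp only [AddMonoidHom.id_apply, sub_self]
    exact P.B.zero_mem

/-- Multiplication by `p` induces an isomorphism `A / B ≅ p A / p B`. -/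
theorem g_pair_pSub (htf : ∀ m : M, (p : ℤ) • m = 0 → m = 0) {A B : Submodule ℤ M}
    (hA : IsStable ρ A) (hB : IsStable ρ B) (h : pSub p A ≤ B) :
    g (pair p A B hA hB h).rep =
      g (pair p (pSub p A) (pSub p B) (hA.pSub p) (hB.pSub p) (pSub_mono p h)).rep := by
  set P := pair p A B hA hB h
  set P' := pair p (pSub p A) (pSub p B) (hA.pSub p) (hB.pSub p) (pSub_mono p h)
  let f : M →+ M := (LinearMap.lsmul ℤ M (p : ℤ)).toAddMonoidHom
  have hf : ∀ m, f m = (p : ℤ) • m := fun _ => rfl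
  have hA' : ∀ a ∈ P.A, f a ∈ P'.A := fun a ha => smul_mem_pSub p ha
  have hB' : ∀ b ∈ P.B, f b ∈ P'.B := fun b hb => smul_mem_pSub p hb
  refine hg.iso P.rep P'.rep (P.map P' f hA' hB') ?_ ⟨?_, ?_⟩ P.finite_rep
    (P.isSmooth_rep 𝒩 hsm)
  · refine fun s a => P.map_equivariant P' f hA' hB' (fun γ m => ?_) s a
    rw [hf, hf, map_smul]
  · refine P.map_injective P' f hA' hB' (fun a _ ha => ?_)
    obtain ⟨b, hb, hba⟩ := mem_pSub.mp ha
    have : b = a := by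
      have h0 : (p : ℤ) • (b - a) = 0 := by rw [smul_sub, hba, hf, sub_self]
      exact sub_eq_zero.mp (htf _ h0)
    rw [← this]
    exact hb
  · refine P.map_surjective P' f hA' hB' (fun a' ha' => ?_)
    obtain ⟨a, ha, rfl⟩ := mem_pSub.mp ha'
    refine ⟨a, ha, ?_⟩
    rw [hf, sub_self]
    exact P'.B.zero_mem

/-- The case `p L₂ ≤ L₁ ≤ L₂`. -/
theorem g_red_eq_of_pSub_le (htf : ∀ m : M, (p : ℤ) • m = 0 → m = 0) {L₁ L₂ : Submodule ℤ M}
    (h₁ : IsStable ρ L₁) (h₂ : IsStable ρ L₂) (h12 : L₁ ≤ L₂) (h : pSub p L₂ ≤ L₁) :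
    g (red p L₁ h₁).rep = g (red p L₂ h₂).rep := by
  have e1 := g_pair_add hsm hg h₂ h₁ (h₂.pSub p) h12 h le_rfl
  have e2 := g_pair_add hsm hg h₁ (h₂.pSub p) (h₁.pSub p) h (pSub_mono p h12) le_rfl
  have e3 := g_pair_pSub hsm hg htf h₂ h₁ h
  unfold red
  rw [e1, e2, e3]
  ring

/-- The case `m L₂ ≤ L₁ ≤ L₂` with `m` prime to `p`: the reductions are isomorphic. -/
theorem g_red_eq_of_coprime {L₁ L₂ : Submodule ℤ M}
    (h₁ : IsStable ρ L₁) (h₂ : IsStable ρ L₂) (h12 : L₁ ≤ L₂) {m : ℕ} (hm : Nat.Coprime m p)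
    (h : ∀ x ∈ L₂, (m : ℤ) • x ∈ L₁) :
    g (red p L₁ h₁).rep = g (red p L₂ h₂).rep := by
  set P := red p L₁ h₁
  set P' := red p L₂ h₂
  obtain ⟨u, v, huv⟩ : IsCoprime (m : ℤ) (p : ℤ) := Nat.isCoprime_iff_coprime.mpr hm
  have key : ∀ y : M, y = u • ((m : ℤ) • y) + v • ((p : ℤ) • y) := by
    intro y
    rw [smul_smul, smul_smul, ← add_smul, huv, one_smul]
  have hA' : ∀ a ∈ P.A, (AddMonoidHom.id M) a ∈ P'.A := fun a ha => h12 ha
  have hB' : ∀ b ∈ P.B, (AddMonoidHom.id M) b ∈ P'.B := fun b hb => pSub_mono p h12 hb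
  refine hg.iso P.rep P'.rep (P.map P' (AddMonoidHom.id M) hA' hB') ?_ ⟨?_, ?_⟩ P.finite_rep
    (P.isSmooth_rep 𝒩 hsm)
  · exact fun s a => P.map_equivariant P' _ hA' hB' (fun _ _ => rfl) s a
  · refine P.map_injective P' _ hA' hB' (fun a _ ha => ?_)
    obtain ⟨y, hy, rfl⟩ := mem_pSub.mp ha
    refine smul_mem_pSub p ?_
    rw [key y]
    exact L₁.add_mem (L₁.smul_mem _ (h y hy)) (L₁.smul_mem _ (by assumption))
  · refine P.map_surjective P' _ hA' hB' (fun a' ha' => ⟨u • ((m : ℤ) • a'), ?_, ?_⟩)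
    · exact L₁.smul_mem _ (h a' ha')
    · have : a' - (AddMonoidHom.id M) (u • ((m : ℤ) • a')) = (p : ℤ) • (v • a') := by
        rw [AddMonoidHom.id_apply, smul_comm (p : ℤ) v a']
        exact sub_eq_of_eq_add' (key a')
      rw [this]
      exact smul_mem_pSub p (L₂.smul_mem _ ha')

/-- **Brauer-Nesbitt for lattices**: if `L₁ ≤ L₂` are stable subgroups with `m p ^ n L₂ ≤ L₁`
(`m` prime to `p`), then `g (L₁ / p L₁) = g (L₂ / p L₂)`. -/
theorem g_red_eq_aux (htf : ∀ m : M, (p : ℤ) • m = 0 → m = 0) {m : ℕ} (hm : Nat.Coprime m p)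
    (n : ℕ) : ∀ {L₁ L₂ : Submodule ℤ M} (h₁ : IsStable ρ L₁) (h₂ : IsStable ρ L₂), L₁ ≤ L₂ →
      (∀ x ∈ L₂, ((m * p ^ n : ℕ) : ℤ) • x ∈ L₁) →
      g (red p L₁ h₁).rep = g (red p L₂ h₂).rep := by
  induction n with
  | zero =>
    intro L₁ L₂ h₁ h₂ h12 h
    refine g_red_eq_of_coprime hsm hg h₁ h₂ h12 hm (fun x hx => ?_)
    simpa using h x hx
  | succ n ih =>
    intro L₁ L₂ h₁ h₂ h12 h
    have h3 : IsStable ρ (L₁ ⊔ pSub p L₂) := h₁.sup (h₂.pSub p)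
    have h13 : L₁ ≤ L₁ ⊔ pSub p L₂ := le_sup_left
    have h32 : L₁ ⊔ pSub p L₂ ≤ L₂ := sup_le h12 (pSub_le_self p L₂)
    have hp3 : pSub p L₂ ≤ L₁ ⊔ pSub p L₂ := le_sup_right
    have e1 : g (red p L₁ h₁).rep = g (red p (L₁ ⊔ pSub p L₂) h3).rep := by
      refine ih h₁ h3 h13 (fun x hx => ?_)
      obtain ⟨a, ha, b, hb, rfl⟩ := Submodule.mem_sup.mp hx
      obtain ⟨y, hy, rfl⟩ := mem_pSub.mp hb
      rw [smul_add]
      refine L₁.add_mem (L₁.smul_mem _ ha) ?_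
      have := h y hy
      rw [smul_smul]
      have e : ((m * p ^ n : ℕ) : ℤ) * (p : ℤ) = ((m * p ^ (n + 1) : ℕ) : ℤ) := by
        push_cast; ring
      rw [e]
      exact this
    rw [e1]
    exact g_red_eq_of_pSub_le hsm hg htf h3 h₂ h32 hp3

/-- **Brauer-Nesbitt for lattices**: if `L₁ ≤ L₂` are stable subgroups with `N L₂ ≤ L₁` for some
`N > 0`, then `g (L₁ / p L₁) = g (L₂ / p L₂)`. -/
theorem g_red_eq (htf : ∀ m : M, (p : ℤ) • m = 0 → m = 0) {L₁ L₂ : Submodule ℤ M}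
    (h₁ : IsStable ρ L₁) (h₂ : IsStable ρ L₂) (h12 : L₁ ≤ L₂) {N : ℕ} (hN : N ≠ 0)
    (h : ∀ x ∈ L₂, (N : ℤ) • x ∈ L₁) :
    g (red p L₁ h₁).rep = g (red p L₂ h₂).rep := by
  have hp : p.Prime := Fact.out
  obtain ⟨n, m, hm, hNm⟩ := Nat.exists_eq_pow_mul_and_not_dvd hN p hp.ne_one
  have hcop : Nat.Coprime m p := ((Nat.Prime.coprime_iff_not_dvd hp).mpr hm).symm
  refine g_red_eq_aux hsm hg htf hcop n h₁ h₂ h12 (fun x hx => ?_)
  have := h x hx
  rw [hNm, mul_comm] at this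
  exact this

end Invariant

end Fermat.Agent.P1.helper61
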