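import Mathlib
import Fermat.Agent.P1.helper61_ECArtLatB

/-!
# P1 (S56), module EC, package ART-LAT (helper61, task 721)

`addInv_perm_eq_of_lattice_map` (Brauer-Nesbitt for permutation lattices): if there is an
injective equivariant map `ℤ[X] → ℤ[Y]` of permutation lattices of the same rank, then every
additive invariant of finite smooth `𝔽_p[G]`-modules takes the same value on `𝔽_p[X]` and
`𝔽_p[Y]`.

Proof: `𝔽_p[X] ≅ ℤ[X] / p ≅ L / p L` with `L = j ℤ[X] ≤ ℤ[Y]` of finite index, and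
`g (L / p L) = g (ℤ[Y] / p)` by `g_red_eq` (part B).
-/

set_option autoImplicit false

noncomputable section

namespace Fermat.Agent.P1.helper61

open Fermat.Agent.S55 Fermat.Agent.P1.helper63

section Perm

variable (G : Type) [Group G] (Y : Type) [MulAction G Y]

/-- The permutation lattice `ℤ[Y]`, realised on `Y →₀ ℤ`. -/
def permZ : Representation ℤ G (Y →₀ ℤ) where
  toFun γ := Finsupp.lmapDomain ℤ ℤ (γ • ·)
  map_one' := by
    apply LinearMap.ext
    intro f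
    change Finsupp.mapDomain (fun y : Y => (1 : G) • y) f = f
    simp only [one_smul]
    exact Finsupp.mapDomain_id
  map_mul' γ δ := by
    apply LinearMap.ext
    intro f
    simp only [Finsupp.lmapDomain_apply, Module.End.mul_apply]
    rw [← Finsupp.mapDomain_comp]
    congr 1
    funext y
    exact mul_smul γ δ y

variable {G Y}

theorem permZ_apply (γ : G) (f : Y →₀ ℤ) : permZ G Y γ f = Finsupp.mapDomain (γ • ·) f := rfl

theorem permZ_smooth (𝒩 : Levels G) (hY : ∃ N ∈ 𝒩.mem, ∀ s ∈ N, ∀ y : Y, s • y = y) :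
    ∃ N ∈ 𝒩.mem, ∀ s ∈ N, ∀ m : Y →₀ ℤ, permZ G Y s m = m := by
  obtain ⟨N, hN, h⟩ := hY
  refine ⟨N, hN, fun s hs m => ?_⟩
  rw [permZ_apply]
  have : (fun y : Y => s • y) = id := funext fun y => h s hs y
  rw [this, Finsupp.mapDomain_id]

variable (p : ℕ) [Fact p.Prime]

theorem permZ_torsionFree (m : Y →₀ ℤ) (h : (p : ℤ) • m = 0) : m = 0 := by
  have hp : (p : ℤ) ≠ 0 := by exact_mod_cast (Fact.out : p.Prime).ne_zero
  exact (smul_eq_zero.mp h).resolve_left hp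

variable (Y) in
/-- Reduction modulo `p`: `ℤ[Y] → 𝔽_p[Y]`. -/
def redMap : (Y →₀ ℤ) →+ MonoidAlgebra (ZMod p) Y :=
  (MonoidAlgebra.coeffAddEquiv (R := ZMod p) (M := Y)).symm.toAddMonoidHom.comp
    (Finsupp.mapRange.addMonoidHom (Int.castAddHom (ZMod p)))

theorem coeff_redMap (f : Y →₀ ℤ) (y : Y) : (redMap Y p f).coeff y = ((f y : ℤ) : ZMod p) := rfl

theorem redMap_eq_zero_iff (f : Y →₀ ℤ) : redMap Y p f = 0 ↔ f ∈ pSub p (⊤ : Submodule ℤ (Y →₀ ℤ)) := by
  rw [mem_pSub]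
  constructor
  · intro h
    have hd : ∀ y, (p : ℤ) ∣ f y := by
      intro y
      rw [← ZMod.intCast_zmod_eq_zero_iff_dvd, ← coeff_redMap, h]
      rfl
    refine ⟨Finsupp.mapRange (fun a : ℤ => a / (p : ℤ)) (by simp) f, Submodule.mem_top, ?_⟩
    ext y
    rw [Finsupp.smul_apply, Finsupp.mapRange_apply, smul_eq_mul]
    exact Int.mul_ediv_cancel' (hd y)
  · rintro ⟨f', -, rfl⟩
    apply MonoidAlgebra.ext
    ext y
    rw [coeff_redMap, Finsupp.smul_apply, smul_eq_mul]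
    simp

theorem redMap_surjective : Function.Surjective (redMap Y p) := by
  intro h
  refine ⟨Finsupp.mapRange (fun c : ZMod p => (c.val : ℤ)) (by simp) h.coeff, ?_⟩
  apply MonoidAlgebra.ext
  ext y
  rw [coeff_redMap, Finsupp.mapRange_apply]
  simp

theorem redMap_equivariant (γ : G) (f : Y →₀ ℤ) :
    redMap Y p (permZ G Y γ f) = Representation.ofMulAction (ZMod p) G Y γ (redMap Y p f) := by
  apply MonoidAlgebra.ext
  rw [Representation.ofMulAction_def]
  change Finsupp.mapRange (Int.castAddHom (ZMod p)) (map_zero _)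
      (Finsupp.mapDomain (fun y : Y => γ • y) f) =
    Finsupp.mapDomain (fun y : Y => γ • y)
      (Finsupp.mapRange (Int.castAddHom (ZMod p)) (map_zero _) f)
  rw [Finsupp.mapDomain_mapRange]
  intro x y
  exact map_add _ x y

end Perm

section Final

variable {G : Type} [Group G] (𝒩 : Levels G)

/-- `g (ℤ[Y] / p) = g (𝔽_p[Y])`. -/
theorem g_red_top_eq (p : ℕ) [Fact p.Prime] (Y : Type) [Finite Y] [MulAction G Y]
    (hY : ∃ N ∈ 𝒩.mem, ∀ s ∈ N, ∀ y : Y, s • y = y)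
    (g : Rep.{0} (ZMod p) G → ℤ) (hg : IsAddInv 𝒩 g) :
    g (red p (⊤ : Submodule ℤ (Y →₀ ℤ)) (isStable_top (permZ G Y))).rep =
      g (Rep.ofMulAction (ZMod p) G Y) := by
  set P := red p (⊤ : Submodule ℤ (Y →₀ ℤ)) (isStable_top (permZ G Y))
  let φ : ↥P.A →+ MonoidAlgebra (ZMod p) Y := (redMap Y p).comp P.A.subtype.toAddMonoidHom
  have hφ : ∀ a : ↥P.A, (a : Y →₀ ℤ) ∈ P.B → φ a = 0 :=
    fun a ha => (redMap_eq_zero_iff p (a : Y →₀ ℤ)).mpr ha
  refine hg.iso P.rep (Rep.ofMulAction (ZMod p) G Y) (P.lift φ hφ) ?_ ⟨?_, ?_⟩ P.finite_rep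
    (P.isSmooth_rep 𝒩 (permZ_smooth 𝒩 hY))
  · intro s v
    obtain ⟨a, rfl⟩ := P.proj_surjective v
    rw [QPair.rep_ρ_proj, QPair.lift_proj, QPair.lift_proj]
    exact redMap_equivariant p s (a : Y →₀ ℤ)
  · exact P.lift_injective φ hφ (fun a ha => (redMap_eq_zero_iff p (a : Y →₀ ℤ)).mp ha)
  · refine P.lift_surjective φ hφ (fun w => ?_)
    obtain ⟨f, rfl⟩ := redMap_surjective p w
    exact ⟨⟨f, Submodule.mem_top⟩, rfl⟩

/-- **EC-ART-LAT** (Brauer-Nesbitt for permutation lattices): if there is an injective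
equivariant map `ℤ[X] → ℤ[Y]` of permutation lattices of the same rank, then every additive
invariant of finite smooth `𝔽_p[G]`-modules takes the same value on `𝔽_p[X]` and `𝔽_p[Y]`. -/
theorem addInv_perm_eq_of_lattice_map (p : ℕ) [Fact p.Prime]
    (X Y : Type) [Finite X] [Finite Y] [MulAction G X] [MulAction G Y]
    (hX : ∃ N ∈ 𝒩.mem, ∀ s ∈ N, ∀ x : X, s • x = x)
    (hY : ∃ N ∈ 𝒩.mem, ∀ s ∈ N, ∀ y : Y, s • y = y)
    (j : (X →₀ ℤ) →ₗ[ℤ] (Y →₀ ℤ)) (hinj : Function.Injective j)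
    (hj : ∀ (γ : G) (f : X →₀ ℤ),
      j (Finsupp.mapDomain (γ • ·) f) = Finsupp.mapDomain (γ • ·) (j f))
    (hcard : Nat.card X = Nat.card Y)
    (g : Rep.{0} (ZMod p) G → ℤ) (hg : IsAddInv 𝒩 g) :
    g (Rep.ofMulAction (ZMod p) G X) = g (Rep.ofMulAction (ZMod p) G Y) := by
  have hst : IsStable (permZ G Y) (LinearMap.range j) := by
    rintro γ _ ⟨f, rfl⟩
    exact ⟨Finsupp.mapDomain (γ • ·) f, hj γ f⟩
  -- the image of `j` has finite index
  have hrank : Module.finrank ℤ ↥(LinearMap.range j) = Module.finrank ℤ (Y →₀ ℤ) := by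
    rw [LinearMap.finrank_range_of_inj hinj]
    let _ := Fintype.ofFinite X
    let _ := Fintype.ofFinite Y
    rw [Module.finrank_finsupp_self, Module.finrank_finsupp_self, ← Nat.card_eq_fintype_card,
      ← Nat.card_eq_fintype_card, hcard]
  have hfin : Finite ((Y →₀ ℤ) ⧸ LinearMap.range j) :=
    Submodule.finiteQuotientOfFreeOfRankEq _ hrank
  have hN : Nat.card ((Y →₀ ℤ) ⧸ LinearMap.range j) ≠ 0 := Nat.card_ne_zero.mpr ⟨⟨0⟩, hfin⟩
  have hNmem : ∀ x ∈ (⊤ : Submodule ℤ (Y →₀ ℤ)),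
      ((Nat.card ((Y →₀ ℤ) ⧸ LinearMap.range j) : ℕ) : ℤ) • x ∈ LinearMap.range j := by
    intro x _
    rw [natCast_zsmul]
    exact AddSubgroup.nsmul_index_mem (LinearMap.range j).toAddSubgroup x
  have e1 := g_red_top_eq 𝒩 p X hX g hg
  have e4 := g_red_top_eq 𝒩 p Y hY g hg
  have e3 := g_red_eq (permZ_smooth 𝒩 hY) hg (permZ_torsionFree p) hst
    (isStable_top (permZ G Y)) le_top hN hNmem
  have e2 : g (red p (⊤ : Submodule ℤ (X →₀ ℤ)) (isStable_top (permZ G X))).rep =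
      g (red p (LinearMap.range j) hst).rep := by
    set P := red p (⊤ : Submodule ℤ (X →₀ ℤ)) (isStable_top (permZ G X))
    set P' := red p (LinearMap.range j) hst
    have hA' : ∀ a ∈ P.A, j.toAddMonoidHom a ∈ P'.A := fun a _ => ⟨a, rfl⟩
    have hB' : ∀ b ∈ P.B, j.toAddMonoidHom b ∈ P'.B := by
      intro b hb
      obtain ⟨y, -, rfl⟩ := mem_pSub.mp hb
      exact mem_pSub.mpr ⟨j y, ⟨y, rfl⟩, (map_smul j _ y).symm⟩
    refine hg.iso P.rep P'.rep (P.map P' j.toAddMonoidHom hA' hB') ?_ ⟨?_, ?_⟩ P.finite_rep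
      (P.isSmooth_rep 𝒩 (permZ_smooth 𝒩 hX))
    · exact fun s a => P.map_equivariant P' _ hA' hB' (fun γ m => hj γ m) s a
    · refine P.map_injective P' _ hA' hB' (fun a _ ha => ?_)
      obtain ⟨_, ⟨y, rfl⟩, hy⟩ := mem_pSub.mp ha
      refine mem_pSub.mpr ⟨y, Submodule.mem_top, hinj ?_⟩
      rw [map_smul]
      exact hy
    · refine P.map_surjective P' _ hA' hB' (fun a' ha' => ?_)
      obtain ⟨a, rfl⟩ := ha'
      refine ⟨a, Submodule.mem_top, ?_⟩
      rw [LinearMap.toAddMonoidHom_coe, sub_self]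
      exact P'.B.zero_mem
  rw [← e1, e2, e3, e4]

end Final

end Fermat.Agent.P1.helper61
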