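import Fermat.Agent.P1.helper91_TWSelDefs

/-!
# P1 / TW-SEL-IND: `r` Taylor–Wiles primes by induction on the dimension

* `exists_family_iInf_le` : the abstract linear algebra: if for every vector `c` and every finite
  set `E` of indices there is a good index `q ∉ E` with `c ∉ B → c ∉ L q`, then there is an
  injective family of `finrank V` good indices with `⨅ i, L (qv i) ≤ B`;
* `twSel_of_selCore` : `SelCoreStatement` + finiteness of `Z¹` ⟹ `TWSelStatement`.
-/

set_option autoImplicit false

open Polynomial ExtCitation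

namespace Fermat.Agent.P1.helper61

open Fermat.Agent.S55 Fermat.Agent.P1.helper91

section Abstract

variable {F V Q : Type*} [Field F] [AddCommGroup V] [Module F V] [Module.Finite F V]

/-- The induction: `j` good indices cutting the dimension down by `j` (or into `B`). -/
theorem exists_finset_iInf (B : Submodule F V) (good : Q → Prop) (L : Q → Submodule F V)
    (hcore : ∀ c : V, ∀ E : Finset Q, ∃ q, q ∉ E ∧ good q ∧ (c ∉ B → c ∉ L q)) (j : ℕ) :
    ∃ s : Finset Q, s.card = j ∧ (∀ q ∈ s, good q) ∧
      ((⨅ q ∈ s, L q) ≤ B ∨ Module.finrank F ↥(⨅ q ∈ s, L q) + j ≤ Module.finrank F V) := by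
  classical
  induction j with
  | zero =>
    refine ⟨∅, rfl, fun q hq => absurd hq (Finset.notMem_empty q), Or.inr ?_⟩
    rw [add_zero]
    exact Submodule.finrank_le _
  | succ j ih =>
    obtain ⟨s, hcard, hgood, hK⟩ := ih
    by_cases hle : (⨅ q ∈ s, L q) ≤ B
    · obtain ⟨q, hq, hgq, -⟩ := hcore 0 s
      refine ⟨insert q s, ?_, ?_, Or.inl ?_⟩
      · rw [Finset.card_insert_of_notMem hq, hcard]
      · intro q' hq'
        rcases Finset.mem_insert.1 hq' with rfl | h
        · exact hgq
        · exact hgood q' h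
      · rw [Finset.iInf_insert]
        exact inf_le_right.trans hle
    · obtain ⟨c, hcK, hcB⟩ := SetLike.not_le_iff_exists.1 hle
      obtain ⟨q, hq, hgq, hcq⟩ := hcore c s
      have hK' : Module.finrank F ↥(⨅ q ∈ s, L q) + j ≤ Module.finrank F V := by
        rcases hK with h | h
        · exact absurd h hle
        · exact h
      refine ⟨insert q s, ?_, ?_, Or.inr ?_⟩
      · rw [Finset.card_insert_of_notMem hq, hcard]
      · intro q' hq'
        rcases Finset.mem_insert.1 hq' with rfl | h
        · exact hgq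
        · exact hgood q' h
      · rw [Finset.iInf_insert]
        have hlt : L q ⊓ (⨅ q ∈ s, L q) < ⨅ q ∈ s, L q := by
          refine lt_of_le_of_ne inf_le_right fun h => ?_
          have hc' : c ∈ L q ⊓ (⨅ q ∈ s, L q) := by
            rw [h]
            exact hcK
          exact hcq hcB hc'.1
        have := Submodule.finrank_lt_finrank_of_lt hlt
        omega

/-- The abstract selection lemma. -/
theorem exists_family_iInf_le (B : Submodule F V) (good : Q → Prop) (L : Q → Submodule F V)
    (hcore : ∀ c : V, ∀ E : Finset Q, ∃ q, q ∉ E ∧ good q ∧ (c ∉ B → c ∉ L q)) :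
    ∃ qv : Fin (Module.finrank F V) → Q, Function.Injective qv ∧ (∀ i, good (qv i)) ∧
      (⨅ i, L (qv i)) ≤ B := by
  classical
  obtain ⟨s, hcard, hgood, hK⟩ := exists_finset_iInf B good L hcore (Module.finrank F V)
  have hKB : (⨅ q ∈ s, L q) ≤ B := by
    rcases hK with h | h
    · exact h
    · have h0 : Module.finrank F ↥(⨅ q ∈ s, L q) = 0 := by omega
      rw [Submodule.finrank_eq_zero] at h0
      rw [h0]
      exact bot_le
  let e : Fin (Module.finrank F V) ≃ s := (Finset.equivFinOfCardEq hcard).symm
  refine ⟨fun i => (e i : Q), ?_, fun i => hgood _ (e i).2, ?_⟩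
  · intro i i' h
    exact e.injective (Subtype.ext h)
  · refine le_trans ?_ hKB
    refine le_iInf₂ fun q hq => ?_
    have := iInf_le (fun i => L (e i : Q)) (e.symm ⟨q, hq⟩)
    simpa using this

end Abstract

section TW

variable {k : Type} [Field k] (p : ℕ) [Fact p.Prime] (S : Finset ℕ) (ρbar : ResidualGaloisRep k)
  (Smin : Finset Nat.Primes) (M' : Rep (ZMod p) GQ)

/-- The level cocycles which are locally trivial at `q`, as a submodule of `Z¹`. -/
noncomputable def locTrivSub (q : Nat.Primes) :
    Submodule (ZMod p) ↥(Z1 (galLevels Smin) M') :=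
  (B1 (Rep.res (primeLocalToGlobal q) M')).comap
    ((LinearMap.funLeft (ZMod p) M' (primeLocalToGlobal q)).comp
      (Z1 (galLevels Smin) M').subtype)

theorem mem_locTrivSub (q : Nat.Primes) (c : ↥(Z1 (galLevels Smin) M')) :
    c ∈ locTrivSub p Smin M' q ↔ LocTrivAt M' c.1 q :=
  (locTrivAt_iff_mem_B1 M' c.1 q).symm

theorem twSel_of_selCore
    (hfin : Module.Finite (ZMod p) ↥(Z1 (galLevels Smin) M'))
    (hcore : SelCoreStatement p S ρbar Smin M') : TWSelStatement p S ρbar Smin M' := by
  classical
  refine ⟨Module.finrank (ZMod p) ↥(Z1 (galLevels Smin) M'), fun n => ?_⟩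
  obtain ⟨qv, hinj, hgood, hle⟩ := exists_family_iInf_le
    (B := (B1 M').comap (Z1 (galLevels Smin) M').subtype)
    (good := fun q : Nat.Primes => IsTWPrime p n S ρbar q)
    (L := fun q => locTrivSub p Smin M' q) (fun c E => by
      obtain ⟨q, hq, hgq, hcq⟩ := hcore n c.1 c.2 (E.image (fun q : Nat.Primes => (q : ℕ)))
      refine ⟨q, fun hqE => hq (Finset.mem_image_of_mem _ hqE), hgq, fun hcB hcL => ?_⟩
      exact hcq hcB ((mem_locTrivSub p Smin M' q c).1 hcL))
  refine ⟨fun i => (qv i : ℕ), fun i i' h => hinj (Subtype.ext h), hgood, fun c hc hloc => ?_⟩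
  have hmem : (⟨c, hc⟩ : ↥(Z1 (galLevels Smin) M')) ∈ ⨅ i, locTrivSub p Smin M' (qv i) := by
    rw [Submodule.mem_iInf]
    intro i
    rw [mem_locTrivSub]
    exact hloc i (qv i).2
  exact hle hmem

end TW

end Fermat.Agent.P1.helper61
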