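import Mathlib
import Fermat.Agent.S55.helper62_ShapiroA

/-!
# P1 / EC-SHAP (helper62): Shapiro's lemma for `k[G/U]` in degree `1`

Corollary of `Fermat.Agent.S55.helper62_ShapiroA` (`shA₁`, `shA₁_mem_Z1`, `shA_inj₁`,
`shA_surj₁`): for an open subgroup `U ≤ G` of finite index the Shapiro map induces a linear
equivalence `H¹(G, k[G/U]) ≃ H¹(U, k)` on level-constant cohomology.

* `shZ1 k U hU : Z1 𝒩 (permRep k U) →ₗ[k] Z1 (restrictLevels 𝒩 U hU) (trivRep k ↥U)`;
* `shH1Equiv` : the linear equivalence on `H¹`;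
* `shapiroPerm1` : the first component of the blueprint statement `shapiro_perm`
  (= `helper85.ShapiroPerm1 k 𝒩`, given that all levels have finite index).
-/

set_option autoImplicit false
set_option linter.unusedSectionVars false
set_option linter.unusedVariables false
set_option linter.style.longLine false

open groupCohomology

noncomputable section

namespace Fermat.Agent.P1.helper62

open Fermat.Agent.S55 Fermat.Agent.S55.helper35 Fermat.Agent.S55.helper62

variable (k : Type) [Field k] {G : Type} [Group G] (U : Subgroup G)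
  {𝒩 : Levels G} (hU : ∃ N ∈ 𝒩.mem, N ≤ U)

/-- the Shapiro map on level-constant `1`-cocycles -/
def shZ1 : ↥(Z1 𝒩 (permRep k U)) →ₗ[k] ↥(Z1 (restrictLevels 𝒩 U hU) (trivRep k ↥U)) :=
  ((shA₁ k U).comp (Z1 𝒩 (permRep k U)).subtype).codRestrict _
    (fun x => shA₁_mem_Z1 (k := k) (U := U) hU x.2)

@[simp] lemma shZ1_coe (x : ↥(Z1 𝒩 (permRep k U))) :
    ((shZ1 k U hU x : ↥(Z1 (restrictLevels 𝒩 U hU) (trivRep k ↥U))) : ↥U → trivRep k ↥U) =
      shA₁ k U (x : G → permRep k U) := rfl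

/-- the Shapiro map sends coboundaries to coboundaries (indeed to `0`) -/
lemma shA₁_d₀₁ (a : permRep k U) : shA₁ k U ((d₀₁ (permRep k U)).hom a) = 0 := by
  funext u
  rw [shA₁_apply, d₀₁_hom_apply, map_sub, piU_rho_of_mem u.2, sub_self]
  rfl

/-- the composite `Z¹(G, k[G/U]) → Z¹(U, k) → H¹(U, k)` -/
def shH1Aux : ↥(Z1 𝒩 (permRep k U)) →ₗ[k] S55.H1 (restrictLevels 𝒩 U hU) (trivRep k ↥U) :=
  (Submodule.mkQ _).comp (shZ1 k U hU)

lemma ker_shH1Aux [Finite (G ⧸ U)] :
    LinearMap.ker (shH1Aux k U hU) = (B1 (permRep k U)).comap (Z1 𝒩 (permRep k U)).subtype := by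
  ext x
  simp only [LinearMap.mem_ker, shH1Aux, LinearMap.comp_apply, Submodule.mkQ_apply,
    Submodule.Quotient.mk_eq_zero, Submodule.mem_comap, Submodule.subtype_apply, shZ1_coe]
  constructor
  · intro h
    exact shA_inj₁ (k := k) (U := U) x.2 h
  · rintro ⟨a, ha⟩
    rw [← ha, shA₁_d₀₁]
    exact Submodule.zero_mem _

lemma shH1Aux_surjective [Finite (G ⧸ U)] : Function.Surjective (shH1Aux k U hU) := by
  intro y
  obtain ⟨x', rfl⟩ := Submodule.mkQ_surjective _ y
  obtain ⟨x, hx, hxx'⟩ := shA_surj₁ (k := k) (U := U) hU x'.2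
  refine ⟨⟨x, hx⟩, ?_⟩
  simp only [shH1Aux, LinearMap.comp_apply]
  congr 1
  exact Subtype.ext hxx'

/-- **Shapiro's lemma in degree `1` for the permutation module `k[G/U]`.** -/
def shH1Equiv [Finite (G ⧸ U)] :
    S55.H1 𝒩 (permRep k U) ≃ₗ[k] S55.H1 (restrictLevels 𝒩 U hU) (trivRep k ↥U) :=
  (Submodule.quotEquivOfEq _ _ (ker_shH1Aux k U hU).symm).trans
    ((shH1Aux k U hU).quotKerEquivOfSurjective (shH1Aux_surjective k U hU))

lemma shH1Equiv_mk [Finite (G ⧸ U)] (x : ↥(Z1 𝒩 (permRep k U))) :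
    shH1Equiv k U hU (Submodule.Quotient.mk x) = Submodule.Quotient.mk (shZ1 k U hU x) := rfl

/-- finiteness of the index of an open subgroup -/
lemma finite_quot_of_levels (𝒩 : Levels G) (U : Subgroup G) (hU : ∃ N ∈ 𝒩.mem, N ≤ U)
    (hfin : ∀ N ∈ 𝒩.mem, Finite (G ⧸ N)) : Finite (G ⧸ U) := by
  obtain ⟨N, hN, hNU⟩ := hU
  have h1 : Finite (G ⧸ N) := hfin N hN
  have h2 : N.FiniteIndex := Subgroup.finiteIndex_of_finite_quotient
  have h3 : U.FiniteIndex := Subgroup.finiteIndex_of_le hNU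
  exact Subgroup.finite_quotient_of_finiteIndex

/-- **EC-SHAP, degree `1`, permutation modules** (first component of the blueprint statement
`shapiro_perm`; this is `helper85.ShapiroPerm1 k 𝒩`). -/
theorem shapiroPerm1 (𝒩 : Levels G) (hfin : ∀ N ∈ 𝒩.mem, Finite (G ⧸ N)) :
    ∀ (U : Subgroup G) (hU : ∃ N ∈ 𝒩.mem, N ≤ U),
      Nonempty (S55.H1 𝒩 (permRep k U) ≃ₗ[k]
        S55.H1 (restrictLevels 𝒩 U hU) (trivRep k ↥U)) := by
  intro U hU
  have := finite_quot_of_levels 𝒩 U hU hfin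
  exact ⟨shH1Equiv k U hU⟩

end Fermat.Agent.P1.helper62
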