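import Fermat.Agent.P1.helper63_ECDefs2
import Fermat.Agent.S55.ABasic
import Fermat.Agent.S55.AInterface
import Fermat.Agent.S55.helper92_SmoothLevel
import Fermat.Agent.P1.helper97_ECCone

/-!
# P1 / module EC, package PTEND-LE (helper82, task 730)

The end of the Poitou-Tate sequence, inequality `≤`:
`β² : H²(N) → H_c¹(N')^*`, `x ↦ (y ↦ tr (x ∪ y))`, is injective (`Claim.inj2`), hence `H²(N)` is
finite dimensional and `h²(N) ≤ dim H_c¹(N')`.

* `h2_finite_of_inj2` : the abstract statement (any pairing `φ : A × B → C`, `B` smooth, `tr`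
  killing cone coboundaries, `inj2`, `H_c¹(B)` finite dimensional);
* `ConeH1Out p T`     : the output of package EC-CONE (`cone_h1` of the blueprint) for the
  arithmetic local data, which is the only input from other packages;
* `finOut_of_cone`, `ptEndLeOut_of_cone` : `finOut`, `ptEndLeOut` of the blueprint
  `helper63_ECInterface` with the extra hypothesis `ConeH1Out p T`;
* `coneH1Out`         : `ConeH1Out p T` from `helper97.cone_h1`;
* `finOut`, `ptEndLeOut` : the statements of the blueprint, VERBATIM and unconditional.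
-/

set_option autoImplicit false

universe u

open groupCohomology ExtCitation

noncomputable section

namespace Fermat.Agent.P1.helper82

open Fermat.Agent.S55 Fermat.Agent.P1.helper70 Fermat.Agent.P1.helper63

section LinAlg

variable {k : Type*} [Field k] {Z Y : Type*} [AddCommGroup Z] [Module k Z] [AddCommGroup Y]
  [Module k Y]

/-- Linear algebra: a linear map `β : Z → V` into a finite dimensional space whose kernel is
contained in `P` bounds `Z / P` by `V`. -/
theorem finite_quot_of_map {V : Type*} [AddCommGroup V] [Module k V] (hV : Module.Finite k V)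
    (β : Z →ₗ[k] V) (P : Submodule k Z) (hker : LinearMap.ker β ≤ P) :
    Module.Finite k (Z ⧸ P) ∧ Module.finrank k (Z ⧸ P) ≤ Module.finrank k V := by
  have hfinR : Module.Finite k ↥(LinearMap.range β) := inferInstance
  have hfinQ : Module.Finite k (Z ⧸ LinearMap.ker β) :=
    Module.Finite.equiv (LinearMap.quotKerEquivRange β).symm
  have hdimQ : Module.finrank k (Z ⧸ LinearMap.ker β) ≤ Module.finrank k V := by
    rw [(LinearMap.quotKerEquivRange β).finrank_eq]
    exact Submodule.finrank_le _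
  have hsurj : Function.Surjective (Submodule.factor hker) := Submodule.factor_surjective hker
  have hfinH : Module.Finite k (Z ⧸ P) := Module.Finite.of_surjective _ hsurj
  exact ⟨hfinH, le_trans (LinearMap.finrank_le_finrank_of_surjective hsurj) hdimQ⟩

/-- the map induced by `β` into the dual of the quotient -/
def dualLift (β : Z →ₗ[k] Module.Dual k Y) (W : Submodule k Y)
    (hmem : ∀ x, ∀ y ∈ W, β x y = 0) : Z →ₗ[k] Module.Dual k (Y ⧸ W) where
  toFun x := W.liftQ (β x) (fun y hy => LinearMap.mem_ker.2 (hmem x y hy))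
  map_add' x x' := by
    apply Submodule.linearMap_qext
    ext y
    simp
  map_smul' c x := by
    apply Submodule.linearMap_qext
    ext y
    simp

lemma dualLift_apply_mk (β : Z →ₗ[k] Module.Dual k Y) (W : Submodule k Y)
    (hmem : ∀ x, ∀ y ∈ W, β x y = 0) (x : Z) (y : Y) :
    dualLift β W hmem x (Submodule.Quotient.mk y) = β x y := rfl

lemma ker_dualLift (β : Z →ₗ[k] Module.Dual k Y) (W : Submodule k Y)
    (hmem : ∀ x, ∀ y ∈ W, β x y = 0) : LinearMap.ker (dualLift β W hmem) = LinearMap.ker β := by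
  ext x
  rw [LinearMap.mem_ker, LinearMap.mem_ker]
  constructor
  · intro h
    ext y
    have := LinearMap.congr_fun h (Submodule.Quotient.mk y)
    rw [dualLift_apply_mk] at this
    simpa using this
  · intro h
    apply Submodule.linearMap_qext
    ext y
    change β x y = 0
    rw [h]
    rfl

/-- Linear algebra: a map `β : Z → Y^*` with values in the functionals vanishing on `W`, whose
kernel is contained in `P`, bounds `Z / P` by `Y / W`. -/
theorem finite_quot_of_dual (β : Z →ₗ[k] Module.Dual k Y) (W : Submodule k Y) (P : Submodule k Z)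
    (hmem : ∀ x, ∀ y ∈ W, β x y = 0) (hker : LinearMap.ker β ≤ P)
    (hfin : Module.Finite k (Y ⧸ W)) :
    Module.Finite k (Z ⧸ P) ∧ Module.finrank k (Z ⧸ P) ≤ Module.finrank k (Y ⧸ W) := by
  have hfinD : Module.Finite k (Module.Dual k (Y ⧸ W)) := inferInstance
  have h := finite_quot_of_map hfinD (dualLift β W hmem) P (by rw [ker_dualLift]; exact hker)
  rw [Subspace.dual_finrank_eq] at h
  exact h

end LinAlg

section Abstract

variable {k G : Type u} [Field k] [Group G] {𝒩 : Levels G} {ι : Type} (L : LocalData G 𝒩 ι)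
  {A B C : Rep.{u} k G} (φ : EqPairing A B C)

/-- the pairing `Z²(A) × Z_c¹(B) → k`, `(x, y) ↦ tr (x ∪ y)` -/
def ptBeta (tr : CcAmb3 L C →ₗ[k] k) : ↥(Z2 𝒩 A) →ₗ[k] Module.Dual k ↥(Zc1 L B) :=
  ((cupL₂₁ L φ).compr₂ tr).domRestrict₁₂ (Z2 𝒩 A) (Zc1 L B)

lemma ptBeta_apply (tr : CcAmb3 L C →ₗ[k] k) (x : ↥(Z2 𝒩 A)) (y : ↥(Zc1 L B)) :
    ptBeta L φ tr x y = tr (cupc₂₁ L φ (x : G × G → A) (y : CcAmb1 L B)) := rfl

/-- `β²` takes values in the functionals vanishing on cone coboundaries -/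
lemma ptBeta_apply_eq_zero (tr : CcAmb3 L C →ₗ[k] k) (htr : ∀ c ∈ Bc3 L C, tr c = 0)
    (hB : IsSmooth 𝒩 B) (x : ↥(Z2 𝒩 A)) (y : ↥(Zc1 L B))
    (hy : y ∈ (Bc1 L B).comap (Zc1 L B).subtype) : ptBeta L φ tr x y = 0 := by
  rw [Submodule.mem_comap, mem_Bc1] at hy
  obtain ⟨b, hb⟩ := hy
  rw [ptBeta_apply]
  change tr (cupc₂₁ L φ (x : G × G → A) ((Zc1 L B).subtype y)) = 0
  rw [← hb]
  exact htr _ (cupc₂₁_dc₀₁_mem_Bc3 L φ hB x.2 b)

/-- the kernel of `β²` consists of coboundaries -/
lemma ptBeta_ker_le (tr : CcAmb3 L C →ₗ[k] k)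
    (hinj2 : ∀ x ∈ Z2 𝒩 A, (∀ y ∈ Zc1 L B, tr (cupc₂₁ L φ x y) = 0) → x ∈ B2 𝒩 A) :
    LinearMap.ker (ptBeta L φ tr) ≤ (B2 𝒩 A).comap (Z2 𝒩 A).subtype := by
  intro x hx
  rw [LinearMap.mem_ker] at hx
  rw [Submodule.mem_comap]
  refine hinj2 _ x.2 fun y hy => ?_
  have h := LinearMap.congr_fun hx ⟨y, hy⟩
  rw [ptBeta_apply] at h
  exact h

/-- **PTEND-LE, abstract form**: if `tr` kills the cone coboundaries, `B` is smooth, `β²` is
injective on classes (`Claim.inj2`) and `H_c¹(B)` is finite dimensional, then `H²(A)` is finite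
dimensional and `dim H²(A) ≤ dim H_c¹(B)`. -/
theorem h2_finite_of_inj2 (tr : CcAmb3 L C →ₗ[k] k) (htr : ∀ c ∈ Bc3 L C, tr c = 0)
    (hB : IsSmooth 𝒩 B)
    (hinj2 : ∀ x ∈ Z2 𝒩 A, (∀ y ∈ Zc1 L B, tr (cupc₂₁ L φ x y) = 0) → x ∈ B2 𝒩 A)
    (hfin : Module.Finite k (Hc1 L B)) :
    Module.Finite k (H2 𝒩 A) ∧ Module.finrank k (H2 𝒩 A) ≤ Module.finrank k (Hc1 L B) :=
  finite_quot_of_dual (ptBeta (A := A) L φ tr) ((Bc1 L B).comap (Zc1 L B).subtype)
    ((B2 𝒩 A).comap (Z2 𝒩 A).subtype)
    (fun x y hy => ptBeta_apply_eq_zero L φ tr htr hB x y hy) (ptBeta_ker_le L φ tr hinj2) hfin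

end Abstract

section Arith

variable (p : ℕ) [Fact p.Prime] (T : Finset Nat.Primes)

/-- The output of package EC-CONE (`cone_h1` of the blueprint) for the arithmetic local data
`galLocal T`: `H_c¹(A)` is finite dimensional and
`dim H_c¹(A) + h⁰(A) = dim Ш¹(A) + ∑_v h⁰(G_v, A)`. -/
def ConeH1Out : Prop :=
  ∀ A : Rep.{0} (ZMod p) GQ, Module.Finite (ZMod p) A → IsSmooth (galLevels T) A →
    Module.Finite (ZMod p) (S55.H1 (galLevels T) A) →
    Module.Finite (ZMod p) (Hc1 (galLocal T) A) ∧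
    Module.finrank (ZMod p) (Hc1 (galLocal T) A) + hd0 A =
      Module.finrank (ZMod p) ↥(Sha1 (galLocal T) A) +
        ∑ v : ↥T, Module.finrank (ZMod p) ↥(S55.H0 ((galLocal T).loc A v))

variable {p T}

/-- `N' = N^*(1)` is smooth -/
lemma isSmooth_dualT (hpT : pPrime p ∈ T) {N : Rep.{0} (ZMod p) GQ}
    (hsm : IsSmooth (galLevels T) N) : IsSmooth (galLevels T) (dualT p N) :=
  isSmooth_dualTwist ((Fermat.Agent.S55.helper92.levelStatement p T hpT).2) hsm

/-- `N' = N^*(1)` is finite -/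
lemma finite_dualT {N : Rep.{0} (ZMod p) GQ} (hfin : Module.Finite (ZMod p) N) :
    Module.Finite (ZMod p) (dualT p N) := by
  change Module.Finite (ZMod p) (Module.Dual (ZMod p) N)
  infer_instance

/-- **PTEND-LE, core**: `H²(N)` is finite dimensional and `h²(N) ≤ dim H_c¹(N')` as soon as
`H_c¹(N')` is finite dimensional. -/
theorem h2_le_hc1 (hpT : pPrime p ∈ T) (hC : S55Claim p T) (N : Rep.{0} (ZMod p) GQ)
    (hfin : Module.Finite (ZMod p) N) (hsm : IsSmooth (galLevels T) N)
    (hc : Module.Finite (ZMod p) (Hc1 (galLocal T) (dualT p N))) :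
    Module.Finite (ZMod p) (S55.H2 (galLevels T) N) ∧
      hd2 (galLevels T) N ≤ Module.finrank (ZMod p) (Hc1 (galLocal T) (dualT p N)) := by
  obtain ⟨tr, htr, hcl⟩ := hC
  exact h2_finite_of_inj2 (galLocal T) (evPairing N (cycloChar p)) tr htr
    (isSmooth_dualT hpT hsm) (hcl N hfin hsm).inj2 hc

/-- **EC-PTEND-LE**, first statement, with the output of EC-CONE as a hypothesis. -/
theorem finOut_of_cone (hpT : pPrime p ∈ T) (hC : S55Claim p T)
    (h1 : ∀ N : Rep.{0} (ZMod p) GQ, Module.Finite (ZMod p) N → IsSmooth (galLevels T) N →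
      Module.Finite (ZMod p) (S55.H1 (galLevels T) N))
    (hcone : ConeH1Out p T) : FinOut p T := by
  intro N hfin hsm
  refine ⟨h1 N hfin hsm, ?_⟩
  have hfin' := finite_dualT hfin
  have hsm' := isSmooth_dualT hpT hsm
  exact (h2_le_hc1 hpT hC N hfin hsm (hcone _ hfin' hsm' (h1 _ hfin' hsm')).1).1

/-- **EC-PTEND-LE**, second statement, with the output of EC-CONE as a hypothesis. -/
theorem ptEndLeOut_of_cone (hpT : pPrime p ∈ T) (hC : S55Claim p T) (hF : FinOut p T)
    (hcone : ConeH1Out p T) : PTEndLeOut p T := by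
  intro N hfin hsm
  have hfin' := finite_dualT hfin
  have hsm' := isSmooth_dualT hpT hsm
  obtain ⟨hc, hceq⟩ := hcone _ hfin' hsm' (hF _ hfin' hsm').1
  have h2 := (h2_le_hc1 hpT hC N hfin hsm hc).2
  change hd2 (galLevels T) N + hd0 (dualT p N) ≤
    Module.finrank (ZMod p) ↥(Sha1 (galLocal T) (dualT p N)) +
      ∑ v : ↥T, Module.finrank (ZMod p) ↥(S55.H0 ((galLocal T).loc (dualT p N) v))
  rw [← hceq]
  exact Nat.add_le_add_right h2 _

/-- The output of EC-CONE (`helper97.cone_h1`) for the arithmetic local data. -/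
theorem coneH1Out (hpT : pPrime p ∈ T) : ConeH1Out p T := by
  intro A hfin hsm h1
  have : Nonempty ↥T := ⟨⟨pPrime p, hpT⟩⟩
  exact Fermat.Agent.P1.helper97.cone_h1 (galLevels T) (galLocal T) A hfin hsm h1

variable (p T)

/-- **EC-PTEND-LE**, first statement: finiteness of `H²` (from `Claim.inj2` and `cone_h1`). -/
theorem finOut (hpT : pPrime p ∈ T) (hC : S55Claim p T)
    (h1 : ∀ N : Rep.{0} (ZMod p) GQ, Module.Finite (ZMod p) N → IsSmooth (galLevels T) N →
      Module.Finite (ZMod p) (S55.H1 (galLevels T) N)) : FinOut p T :=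
  finOut_of_cone hpT hC h1 (coneH1Out hpT)

/-- **EC-PTEND-LE**, second statement. -/
theorem ptEndLeOut (hpT : pPrime p ∈ T) (hC : S55Claim p T) (hF : FinOut p T) :
    PTEndLeOut p T :=
  ptEndLeOut_of_cone hpT hC hF (coneH1Out hpT)

end Arith

end Fermat.Agent.P1.helper82
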