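import Fermat.Agent.S55.helper33_Rec3LocDiv2
import Fermat.Agent.S55.helper60_Rec3Tors
import Fermat.Agent.S55.helper90_Rec3PLoc
import Fermat.Agent.S55.helper90_Rec3Kummer
import Fermat.Agent.S55.helper35_SHDefs
import Fermat.Agent.P1.helper63_ECDefs2

/-!
# P1 / EC, package LOC-H3-BASE, abstract half (helper83, task 741)

Abstract setting: a group `U` with levels `𝒩` of finite index, a discrete `ℤ[U]`-module `E`
with a Kummer datum (`E[p] = ℤ/p`, `E` is `p`-divisible) and cofinal finite-level realisations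
`X` of `E` such that

* `H³(X.Q, X.M') = 0`, and
* `H²(X.Q, X.M')` is cyclic, generated by a class whose order is divisible by any prescribed
  power of `p`.

Then `H³(U, ℤ/p) = 0` in the level-constant cochain model.

* `hdiv2_of_cyclic`   : the level-constant `H²(U, E)` is `p`-divisible (FULL divisibility, not
  only on the `p`-primary part);
* `z3_le_b3_of_local` : `Z³(U, ℤ/p) ≤ B³(U, ℤ/p)`.
-/

set_option autoImplicit false

open groupCohomology

noncomputable section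

namespace Fermat.Agent.P1.helper83

open Fermat.Agent.S55 Fermat.Agent.S55.helper90 Fermat.Agent.S55.helper46

variable {U : Type} [Group U] {𝒩 : Levels U} {E : Rep.{0} ℤ U}

/-- **(d), abstract**: if the finite-level realisations of the discrete module `E` are cofinal
with `H²` cyclic, generated by a class whose order is divisible by any prescribed power of `p`,
then the level-constant `H²(U, E)` is `p`-divisible. -/
theorem hdiv2_of_cyclic (p : ℕ) [Fact p.Prime] (hfin : FinLevels 𝒩) (hd : IsDisc 𝒩 E)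
    (h : ∀ N ∈ 𝒩.mem, ∀ k : ℕ, ∃ X : FinReal 𝒩 E, X.π.ker ≤ N ∧
      ∃ u : groupCohomology.H2 X.M', p ^ k ∣ addOrderOf u ∧
        ∀ x : groupCohomology.H2 X.M', ∃ m : ℤ, x = m • u) :
    ∀ ξ ∈ Z2 𝒩 E, ∃ η ∈ Z2 𝒩 E, ξ - p • η ∈ B2 𝒩 E := by
  intro ξ hξ
  have hp : p.Prime := Fact.out
  obtain ⟨n, hn, hnξ⟩ := helper60.exists_nsmul_mem_B2' hfin E ξ hξ
  obtain ⟨a, n', hn', rfl⟩ := Nat.exists_eq_pow_mul_and_not_dvd hn.ne' p hp.ne_one
  have hc : n' • ξ ∈ Z2 𝒩 E := (Z2 𝒩 E).nsmul_mem hξ n'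
  have hpc : p ^ a • (n' • ξ) ∈ B2 𝒩 E := by
    rw [smul_smul]
    exact hnξ
  obtain ⟨c', hc', hcc⟩ := helper33.div2_of_cyclic p hp hfin hd h (n' • ξ) hc a hpc
  obtain ⟨s, t, hst⟩ := exists_mul_eq_one_add p hn'
  refine ⟨s • c' - t • ξ, (Z2 𝒩 E).sub_mem ((Z2 𝒩 E).nsmul_mem hc' s)
    ((Z2 𝒩 E).nsmul_mem hξ t), ?_⟩
  have e : ξ - p • (s • c' - t • ξ) = -(s • (p • c' - n' • ξ)) := by
    have h1 : (s * n') • ξ = (1 + t * p) • ξ := by rw [hst]
    rw [mul_smul, add_smul, one_smul, mul_smul] at h1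
    rw [smul_sub, smul_sub, smul_comm p s c', smul_comm p t ξ, h1]
    abel
  rw [e]
  exact (B2 𝒩 E).neg_mem ((B2 𝒩 E).nsmul_mem hcc s)

/-- **LOC-H3-BASE, abstract assembly**: `H³(U, ℤ/p) = 0` from a Kummer datum and cofinal
finite-level realisations with `H³ = 0` and cyclic `H²` of large `p`-order. -/
theorem z3_le_b3_of_local (p : ℕ) [Fact p.Prime] (K : KummerDatum E p) (hfin : FinLevels 𝒩)
    (hd : IsDisc 𝒩 E)
    (hc : ∀ N ∈ 𝒩.mem, ∃ X : FinReal 𝒩 E, X.π.ker ≤ N ∧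
      CategoryTheory.Limits.IsZero (groupCohomology X.M' 3))
    (h : ∀ N ∈ 𝒩.mem, ∀ k : ℕ, ∃ X : FinReal 𝒩 E, X.π.ker ≤ N ∧
      ∃ u : groupCohomology.H2 X.M', p ^ k ∣ addOrderOf u ∧
        ∀ x : groupCohomology.H2 X.M', ∃ m : ℤ, x = m • u) :
    Z3 𝒩 (helper35.trivRep (ZMod p) U) ≤ B3 𝒩 (helper35.trivRep (ZMod p) U) :=
  h3_of_kummer 𝒩 K hfin hd
    (fun _ hcZ _ => Z3_le_B3_of_isZero hfin hd hc hcZ)
    (hdiv2_of_cyclic p hfin hd h)

/-- the two families of finite-level realisations from ONE family: cofinal realisations with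
`H³ = 0` and `H²` cyclic, generated by a class of order divisible by any prescribed `d > 0`. -/
theorem z3_le_b3_of_family (p : ℕ) [Fact p.Prime] (K : KummerDatum E p) (hfin : FinLevels 𝒩)
    (hd : IsDisc 𝒩 E)
    (h : ∀ N ∈ 𝒩.mem, ∀ d : ℕ, 0 < d → ∃ X : FinReal 𝒩 E, X.π.ker ≤ N ∧
      CategoryTheory.Limits.IsZero (groupCohomology X.M' 3) ∧
      ∃ u : groupCohomology.H2 X.M', d ∣ addOrderOf u ∧
        ∀ x : groupCohomology.H2 X.M', ∃ m : ℤ, x = m • u) :
    Z3 𝒩 (helper35.trivRep (ZMod p) U) ≤ B3 𝒩 (helper35.trivRep (ZMod p) U) := by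
  refine z3_le_b3_of_local p K hfin hd (fun N hN => ?_) (fun N hN k => ?_)
  · obtain ⟨X, hX, hz, -⟩ := h N hN 1 one_pos
    exact ⟨X, hX, hz⟩
  · obtain ⟨X, hX, -, hu⟩ := h N hN (p ^ k) (pow_pos (Fact.out : p.Prime).pos k)
    exact ⟨X, hX, hu⟩

/-! ### The wrapper for `LocH3BaseOut` -/

section Wrapper

open ExtCitation Fermat.Agent.P1.helper63

variable (p : ℕ) [Fact p.Prime] (T : Finset Nat.Primes)

/-- The inputs of LOC-H3-BASE from the concrete (arithmetic) layer: for every open subgroup `U`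
of the local Galois group at `v ∈ T` with `χ_cyc|U = 1` there is a discrete `ℤ[U]`-module `E`
(the units of `PadicAlgCl v`) with a Kummer datum and a cofinal family of finite-level
realisations with `H³ = 0` and cyclic `H²` of arbitrarily divisible order. -/
def LocH3Inputs : Prop :=
  ∀ (v : ↥T) (U : Subgroup ((galLocal T).Gv v)) (hU : ∃ N ∈ ((galLocal T).lev v).mem, N ≤ U),
    (∀ g ∈ U, cycloChar p ((galLocal T).r v g) = 1) →
    ∃ E : Rep.{0} ℤ ↥U, Nonempty (KummerDatum E p) ∧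
      FinLevels (helper35.restrictLevels ((galLocal T).lev v) U hU) ∧
      IsDisc (helper35.restrictLevels ((galLocal T).lev v) U hU) E ∧
      ∀ N ∈ (helper35.restrictLevels ((galLocal T).lev v) U hU).mem, ∀ d : ℕ, 0 < d →
        ∃ X : FinReal (helper35.restrictLevels ((galLocal T).lev v) U hU) E, X.π.ker ≤ N ∧
          CategoryTheory.Limits.IsZero (groupCohomology X.M' 3) ∧
          ∃ u : groupCohomology.H2 X.M', d ∣ addOrderOf u ∧
            ∀ x : groupCohomology.H2 X.M', ∃ m : ℤ, x = m • u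

/-- **LOC-H3-BASE** from the inputs of the concrete layer. -/
theorem locH3BaseOut_of_inputs (h : LocH3Inputs p T) : LocH3BaseOut p T := by
  intro v U hU hχ
  obtain ⟨E, ⟨K⟩, hfin, hd, hfam⟩ := h v U hU hχ
  exact z3_le_b3_of_family p K hfin hd hfam

end Wrapper

end Fermat.Agent.P1.helper83
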