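import Fermat.Agent.P1.helper85_ECFin1
import Fermat.Agent.S55.helper62_ShapiroA

/-!
# P1 / module EC, package FIN1 (helper85): `fin1Out`, unconditional

The two hypotheses of `helper85.fin1Out_of` are proved here:

* `h1FiniteExt` : the middle exactness `H¹(A₁) → H¹(A) → H¹(A₂)` of the long exact sequence of a
  short exact sequence `0 → A₁ → A → A₂ → 0` with `A` smooth (`ker_h1Map_le_range`), hence
  finiteness of `H¹` passes to extensions;
* `h1Finite_perm_of_finite` : the Shapiro map `H¹(G, k[G/U]) → H¹(U, k)` of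
  `S55.helper62_ShapiroA` is injective, hence `H¹(G, k[G/U])` is finite dimensional if
  `Z¹(U, k)` is.

`fin1Out` is the statement of the blueprint, verbatim.
-/

set_option autoImplicit false

open groupCohomology ExtCitation

noncomputable section

namespace Fermat.Agent.P1.helper85

open Fermat.Agent.S55 Fermat.Agent.P1.helper70 Fermat.Agent.P1.helper63

section Abstract

variable {k G : Type} [Field k] [Group G] (𝒩 : Levels G)

/-- middle exactness in degree one: `ker (H¹(A) → H¹(A₂)) ≤ range (H¹(A₁) → H¹(A))` -/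
theorem ker_h1Map_le_range (A₁ A A₂ : Rep.{0} k G) (i : A₁ →ₗ[k] A) (q : A →ₗ[k] A₂)
    (hi : ∀ s a, i (A₁.ρ s a) = A.ρ s (i a)) (hq : ∀ s a, q (A.ρ s a) = A₂.ρ s (q a))
    (hinj : Function.Injective i) (hsurj : Function.Surjective q)
    (hex : LinearMap.range i = LinearMap.ker q) (hsm : IsSmooth 𝒩 A) :
    LinearMap.ker (h1Map 𝒩 q hq) ≤ LinearMap.range (h1Map 𝒩 i hi) := by
  intro ξ hξ
  induction ξ using Submodule.Quotient.induction_on with
  | H x =>
    rw [LinearMap.mem_ker, h1Map_mk, Submodule.Quotient.mk_eq_zero, Submodule.mem_comap] at hξ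
    obtain ⟨a₂, ha₂⟩ := hξ
    obtain ⟨a, rfl⟩ := hsurj a₂
    have hqx : ∀ g, q ((x : G → A) g) = A₂.ρ g (q a) - q a := by
      intro g
      have h := congrFun ha₂ g
      rw [d₀₁_hom_apply] at h
      exact h.symm
    -- `x - d a` has values in `ker q = range i`
    have hx' : ∀ g, (x : G → A) g - (A.ρ g a - a) ∈ LinearMap.range i := by
      intro g
      rw [hex, LinearMap.mem_ker, map_sub, map_sub, hq, hqx, sub_self]
    choose y hy using hx'
    obtain ⟨⟨N₁, hN₁, hlev⟩, hcoc⟩ := x.2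
    obtain ⟨N₂, hN₂, hA⟩ := hsm
    obtain ⟨N₀, hN₀, hle⟩ := 𝒩.directed N₁ hN₁ N₂ hN₂
    have hyZ : y ∈ Z1 𝒩 A₁ := by
      refine ⟨⟨N₀, hN₀, fun g s hs => ?_⟩, ?_⟩
      · apply hinj
        rw [hy, hy, hlev g s (hle hs).1, map_mul, Module.End.mul_apply, hA s (hle hs).2]
      · rw [SetLike.mem_coe, LinearMap.mem_ker] at hcoc ⊢
        funext g
        apply hinj
        have h := congrFun hcoc g
        rw [d₁₂_hom_apply] at h ⊢
        rw [Pi.zero_apply] at h ⊢
        rw [map_zero, map_add, map_sub, hi, hy, hy, hy, map_mul, Module.End.mul_apply, map_sub,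
          map_sub]
        rw [← h]
        abel
    refine ⟨Submodule.Quotient.mk ⟨y, hyZ⟩, ?_⟩
    rw [h1Map_mk, Submodule.Quotient.eq, Submodule.mem_comap]
    refine ⟨-a, ?_⟩
    funext g
    rw [d₀₁_hom_apply]
    change _ = i (y g) - (x : G → A) g
    rw [hy, map_neg]
    abel

/-- finiteness of `H¹` passes to extensions (the statement `h1_finite_ext` of the blueprint) -/
theorem h1FiniteExt (k : Type) [Field k] {G : Type} [Group G] (𝒩 : Levels G) :
    H1FiniteExt k 𝒩 := by
  intro A₁ A A₂ i q hi hq hinj hsurj hex _ hsm h1 h2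
  have hker := ker_h1Map_le_range 𝒩 A₁ A A₂ i q hi hq hinj hsurj hex hsm
  have hr1 : Module.Finite k ↥(LinearMap.range (h1Map 𝒩 i hi)) := Module.Finite.range _
  have hk : Module.Finite k ↥(LinearMap.ker (h1Map 𝒩 q hq)) :=
    Module.Finite.of_injective (Submodule.inclusion hker) (Submodule.inclusion_injective hker)
  have hr2 : Module.Finite k ↥(LinearMap.range (h1Map 𝒩 q hq)) :=
    Module.Finite.of_injective (LinearMap.range (h1Map 𝒩 q hq)).subtype
      (Submodule.subtype_injective _)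
  have hquot : Module.Finite k (S55.H1 𝒩 A ⧸ LinearMap.ker (h1Map 𝒩 q hq)) :=
    Module.Finite.equiv (h1Map 𝒩 q hq).quotKerEquivRange.symm
  exact Module.Finite.of_submodule_quotient (LinearMap.ker (h1Map 𝒩 q hq))

/-- the blueprint statement `h1_finite_ext`, verbatim -/
theorem h1_finite_ext' (A₁ A A₂ : Rep.{0} k G) (i : A₁ →ₗ[k] A) (q : A →ₗ[k] A₂)
    (hi : ∀ s a, i (A₁.ρ s a) = A.ρ s (i a)) (hq : ∀ s a, q (A.ρ s a) = A₂.ρ s (q a))
    (hinj : Function.Injective i) (hsurj : Function.Surjective q)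
    (hex : LinearMap.range i = LinearMap.ker q) (hfin : Module.Finite k A) (hsm : IsSmooth 𝒩 A)
    (h1 : Module.Finite k (S55.H1 𝒩 A₁)) (h2 : Module.Finite k (S55.H1 𝒩 A₂)) :
    Module.Finite k (S55.H1 𝒩 A) :=
  h1FiniteExt k 𝒩 A₁ A A₂ i q hi hq hinj hsurj hex hfin hsm h1 h2

/-- Shapiro, injectivity in degree one: `H¹(G, k[G/U])` is finite dimensional if `Z¹(U, k)`
is. -/
theorem h1Finite_perm_of_finite (U : Subgroup G) [Finite (G ⧸ U)]
    (hU : ∃ N ∈ 𝒩.mem, N ≤ U)
    (hfin : Module.Finite k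
      ↥(Z1 (helper35.restrictLevels 𝒩 U hU) (helper35.trivRep k ↥U))) :
    Module.Finite k (S55.H1 𝒩 (permRep k U)) := by
  let ψ : ↥(Z1 𝒩 (permRep k U)) →ₗ[k]
      ↥(Z1 (helper35.restrictLevels 𝒩 U hU) (helper35.trivRep k ↥U)) :=
    (helper62.shA₁ k U).restrict fun _ hx => helper62.shA₁_mem_Z1 hU hx
  have hker : LinearMap.ker ψ ≤ (B1 (permRep k U)).comap (Z1 𝒩 (permRep k U)).subtype := by
    intro x hx
    rw [Submodule.mem_comap]
    refine helper62.shA_inj₁ x.2 ?_
    have h0 : helper62.shA₁ k U (x : G → permRep k U) = 0 :=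
      congrArg Subtype.val (LinearMap.mem_ker.1 hx)
    change helper62.shA₁ k U (x : G → permRep k U) ∈ B1 (helper35.trivRep k ↥U)
    rw [h0]
    exact Submodule.zero_mem _
  have hr : Module.Finite k ↥(LinearMap.range ψ) :=
    Module.Finite.of_injective (LinearMap.range ψ).subtype (Submodule.subtype_injective _)
  have hq : Module.Finite k (↥(Z1 𝒩 (permRep k U)) ⧸ LinearMap.ker ψ) :=
    Module.Finite.equiv ψ.quotKerEquivRange.symm
  exact Module.Finite.of_surjective (Submodule.factor hker) (Submodule.factor_surjective hker)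

/-- the degree one part of `shapiro_perm`, for subgroups of finite index -/
theorem shapiroPerm1_of_finite (U : Subgroup G) [Finite (G ⧸ U)] (hU : ∃ N ∈ 𝒩.mem, N ≤ U) :
    Nonempty (S55.H1 𝒩 (permRep k U) ≃ₗ[k]
      S55.H1 (helper35.restrictLevels 𝒩 U hU) (helper35.trivRep k ↥U)) := by
  let ψ : ↥(Z1 𝒩 (permRep k U)) →ₗ[k]
      ↥(Z1 (helper35.restrictLevels 𝒩 U hU) (helper35.trivRep k ↥U)) :=
    (helper62.shA₁ k U).restrict fun _ hx => helper62.shA₁_mem_Z1 hU hx
  have hB : ∀ x : ↥(Z1 𝒩 (permRep k U)),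
      (x : G → permRep k U) ∈ B1 (permRep k U) →
        ((ψ x : ↥U → helper35.trivRep k ↥U)) ∈ B1 (helper35.trivRep k ↥U) := by
    rintro x ⟨a, ha⟩
    refine ⟨0, ?_⟩
    rw [map_zero]
    funext u
    change (0 : k) = helper62.piU k U ((x : G → permRep k U) (u : G))
    rw [← ha, d₀₁_hom_apply, map_sub, helper62.piU_rho_of_mem u.2, sub_self]
  let Ψ : S55.H1 𝒩 (permRep k U) →ₗ[k]
      S55.H1 (helper35.restrictLevels 𝒩 U hU) (helper35.trivRep k ↥U) :=
    Submodule.mapQ _ _ ψ fun x hx => by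
      rw [Submodule.mem_comap] at hx ⊢
      exact hB x hx
  refine ⟨LinearEquiv.ofBijective Ψ ⟨?_, ?_⟩⟩
  · rw [← LinearMap.ker_eq_bot, LinearMap.ker_eq_bot']
    intro ξ hξ
    induction ξ using Submodule.Quotient.induction_on with
    | H x =>
      change Submodule.Quotient.mk (ψ x) = 0 at hξ
      rw [Submodule.Quotient.mk_eq_zero, Submodule.mem_comap] at hξ ⊢
      exact helper62.shA_inj₁ x.2 hξ
  · intro η
    induction η using Submodule.Quotient.induction_on with
    | H x' =>
      obtain ⟨x, hx, hxx'⟩ := helper62.shA_surj₁ hU x'.2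
      refine ⟨Submodule.Quotient.mk ⟨x, hx⟩, ?_⟩
      change Submodule.Quotient.mk (ψ ⟨x, hx⟩) = _
      congr 1
      exact Subtype.ext hxx'

end Abstract

section Arith

variable (p : ℕ) [Fact p.Prime] (T : Finset Nat.Primes)

/-- the base case of the dévissage, unconditional in Shapiro -/
theorem h1Finite_perm_arith (hp2 : p ≠ 2)
    (hpT : pPrime p ∈ T) (hB : BaseInputStatement p T) (U : Subgroup GQ)
    (hU : ∃ N ∈ (galLevels T).mem, N ≤ U) (hχ : ∀ g ∈ U, cycloChar p g = 1) :
    Module.Finite (ZMod p) (S55.H1 (galLevels T) (permRep (ZMod p) U)) := by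
  obtain ⟨hfin, -⟩ := helper92.levelStatement p T hpT
  obtain ⟨F, hF, rfl⟩ := exists_field_of_open T U hU
  have : FiniteDimensional ℚ F := hF.1
  have : Finite (GQ ⧸ F.fixingSubgroup) := by
    obtain ⟨N', hN', hle⟩ := hU
    have := hfin N' hN'
    have : N'.FiniteIndex := Subgroup.finiteIndex_of_finite_quotient
    have : F.fixingSubgroup.FiniteIndex := Subgroup.finiteIndex_of_le hle
    infer_instance
  obtain ⟨D⟩ := helper57.nonempty_shData (L := galLocal T) (U := F.fixingSubgroup)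
  obtain ⟨I, -⟩ := hB hp2 hpT F hF (hasZeta_of_cycloChar_eq_one F p hχ) hU D
  exact h1Finite_perm_of_finite (galLevels T) F.fixingSubgroup hU I.glob_fin

/-- **EC-FIN1** (the statement `fin1Out` of the blueprint, verbatim). -/
theorem fin1Out (hp2 : p ≠ 2) (hpT : pPrime p ∈ T) (hB : BaseInputStatement p T) :
    ∀ N : Rep.{0} (ZMod p) GQ, Module.Finite (ZMod p) N → IsSmooth (galLevels T) N →
      Module.Finite (ZMod p) (S55.H1 (galLevels T) N) := by
  obtain ⟨hfin, hχ⟩ := helper92.levelStatement p T hpT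
  have : CharP (ZMod p) p := ZMod.charP p
  exact helper57.devissage p hfin (cycloChar p) hχ (retractClosed_h1Finite (galLevels T))
    (extClosed_h1Finite (galLevels T) (h1FiniteExt (ZMod p) (galLevels T)))
    (fun U hU hχU => h1Finite_perm_arith p T hp2 hpT hB U hU hχU)

end Arith

end Fermat.Agent.P1.helper85
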