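import Fermat.Agent.P1.helper63_ECAsm
import Fermat.Agent.P1.helper85_ECFin1Final
import Fermat.Agent.P1.helper82_ECPtEndLe
import Fermat.Agent.P1.helper10_ECH3
import Fermat.Agent.P1.helper5_ECLesB
import Fermat.Agent.P1.helper9_ECShap
import Fermat.Agent.P1.helper35_ECAdd
import Fermat.Agent.P1.helper17_ECLocH3
import Fermat.Agent.P1.helper11_ECLoc2
import Fermat.Agent.P1.helper50_ECPtEndGeFinal
import Fermat.Agent.P1.helper93_ECBaseAsm
import Fermat.Agent.P1.helper31_ECTateAsm
import Fermat.Agent.P1.helper60_ECDev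
import Fermat.Agent.P1.helper86_ECArtFinal
import Fermat.Agent.P1.helper83_ECLocH3Abs
import Fermat.Agent.S55.helper90_Rec3Done

/-!
# P1 / module EC (helper63): the packages of module EC, wired

Every field of `helper63.Packages` except `locH3Base`, `star`, `num` is proved here from the
landed packages; the base case of S55 (`BaseInputStatement`) is unconditional
(`helper90.baseInputStatement`).  Output:

  `ecOut_of_three : Setting → (∀ T', LocH3Inputs p T') → (∀ T', PkgStar p T') →
      (∀ T', PkgNum p T') → helper70.ECOut p ρbar Smin`.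
-/

set_option autoImplicit false

open IsLocalRing groupCohomology ExtCitation

noncomputable section

namespace Fermat.Agent.P1.helper63

open Fermat.Agent.S55 Fermat.Agent.P1.helper70

section Pkg

variable (p : ℕ) [Fact p.Prime] (T : Finset Nat.Primes)

theorem pkgFin1 : PkgFin1 p T := fun hp2 hpT hB => helper85.fin1Out p T hp2 hpT hB

theorem pkgFin : PkgFin p T := fun hpT hS h1 => helper82.finOut p T hpT hS h1

theorem pkgLe : PkgLe p T := fun hpT hS hF => helper82.ptEndLeOut p T hpT hS hF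

theorem pkgH3 : PkgH3 p T := fun hp2 hpT hB =>
  helper10.h3Out_of p T hp2 hpT hB
    (fun A₁ A A₂ i q hi hq hinj hsurj hex hsm h1 h2 =>
      helper5.h3_ext _ A₁ A A₂ i q hi hq hinj hsurj hex hsm h1 h2)
    (fun U hU =>
      (helper9.shapiro_perm (galLevels T) (helper92.levelStatement p T hpT).1 U hU).2.2)

theorem pkgAdd : PkgAdd p T := fun hp2 _ hF h3 => helper35.addOut p T hp2 hF h3

theorem pkgLocH3 : PkgLocH3 p T := fun hpT hbase =>
  helper17.locH3Out_of p T hpT hbase
    (fun _ A₁ A A₂ i q hi hq hinj hsurj hex hsm h1 h2 =>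
      helper5.h3_ext _ A₁ A A₂ i q hi hq hinj hsurj hex hsm h1 h2)
    (fun v U hU =>
      (helper9.shapiro_perm ((galLocal T).lev v) (helper17.finite_quotient_of_mem_lev T v)
        U hU).2.2)

theorem pkgLoc2 : PkgLoc2 p T := fun hpT hTR hH3 tr htr hC =>
  helper11.loc2Out p T hpT hTR hH3 tr htr hC

theorem pkgGe : PkgGe p T := fun hpT hF tr htr hC hL =>
  helper50.ptEndGeOut p T hpT hF tr htr hC hL

theorem pkgBaseAsm : PkgBaseAsm p T := fun hpT hA hGe hNum =>
  helper93.baseOut p T hpT hA hGe hNum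

theorem devOut : helper31.DevOut p T := by
  intro N₀ hN₀ _ g hg hbase
  exact helper60.devissage_cyclic_of_art (galLevels T) p N₀ hN₀
    (helper86.artin_induction (galLevels T) p N₀ hN₀) g hg hbase

theorem pkgTate : PkgTate p T := fun hpT hA hBase =>
  helper31.tateOut_of_dev hpT (devOut p T) hA hBase

theorem pkgLocH3Base_of_inputs (h : helper83.LocH3Inputs p T) : PkgLocH3Base p T :=
  fun _ _ => helper83.locH3BaseOut_of_inputs p T h

/-- The packages of module EC from the three open ones. -/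
theorem packages_of_three (hL : PkgLocH3Base p T) (hStar : PkgStar p T) (hNum : PkgNum p T) :
    Packages p T where
  fin1 := pkgFin1 p T
  fin := pkgFin p T
  le := pkgLe p T
  h3 := pkgH3 p T
  add := pkgAdd p T
  locH3Base := hL
  locH3 := pkgLocH3 p T
  loc2 := pkgLoc2 p T
  ge := pkgGe p T
  star := hStar
  num := hNum
  baseAsm := pkgBaseAsm p T
  tate := pkgTate p T

/-- Finiteness of `H¹`, `H²` for all finite smooth modules: unconditional. -/
theorem finOut (hp2 : p ≠ 2) (hpT : pPrime p ∈ T) : FinOut p T := by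
  have hB : BaseInputStatement p T := helper90.baseInputStatement
  obtain ⟨tr, htr, -, hC, -⟩ := exists_tr_claim_all_of_baseInput p T hB hp2 hpT
  exact pkgFin p T hpT ⟨tr, htr, hC⟩ (pkgFin1 p T hp2 hpT hB)

/-- `H³(G_T, N) = 0` for all finite smooth modules: unconditional. -/
theorem h3Out (hp2 : p ≠ 2) (hpT : pPrime p ∈ T) : H3Out p T :=
  pkgH3 p T hp2 hpT helper90.baseInputStatement

/-- Additivity of the Tate defect: unconditional. -/
theorem addOut (hp2 : p ≠ 2) (hpT : pPrime p ∈ T) : AddOut p T :=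
  pkgAdd p T hp2 hpT (finOut p T hp2 hpT) (h3Out p T hp2 hpT)

/-- The inequality `≤` of the Poitou–Tate end: unconditional. -/
theorem ptEndLeOut (hp2 : p ≠ 2) (hpT : pPrime p ∈ T) : PTEndLeOut p T := by
  have hB : BaseInputStatement p T := helper90.baseInputStatement
  obtain ⟨tr, htr, -, hC, -⟩ := exists_tr_claim_all_of_baseInput p T hB hp2 hpT
  exact pkgLe p T hpT ⟨tr, htr, hC⟩ (finOut p T hp2 hpT)

/-- The inequality `≥` of the Poitou–Tate end, from the local `H³(G_K, 𝔽_p) = 0`. -/
theorem ptEndGeOut_of_locH3Base (hp2 : p ≠ 2) (hpT : pPrime p ∈ T)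
    (hL : LocH3BaseOut p T) : PTEndGeOut p T := by
  have hB : BaseInputStatement p T := helper90.baseInputStatement
  obtain ⟨tr, htr, -, hC, -⟩ := exists_tr_claim_all_of_baseInput p T hB hp2 hpT
  have hL3 : LocH3Out p T := pkgLocH3 p T hpT hL
  have hL2 : Loc2Out p T tr := pkgLoc2 p T hpT (helper33.trStatement p T) hL3 tr htr hC
  exact pkgGe p T hpT (finOut p T hp2 hpT) tr htr hC hL2

/-- `BaseGeOut` from `BaseStarOut`. -/
theorem baseGeOut_of_star (hp2 : p ≠ 2) (hpT : pPrime p ∈ T) (hStar : BaseStarOut p T) :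
    BaseGeOut p T :=
  helper65.baseGeOut p T hpT (finOut p T hp2 hpT) (ptEndLeOut p T hp2 hpT)
    (helper24.archOut p hp2) hStar

/-- Tate's global Euler characteristic formula from `BaseStarOut` and `BaseNumOut`. -/
theorem tateOut_of_star_num (hp2 : p ≠ 2) (hpT : pPrime p ∈ T) (hStar : BaseStarOut p T)
    (hNum : BaseNumOut p T) : TateOut p T :=
  pkgTate p T hpT (addOut p T hp2 hpT)
    (pkgBaseAsm p T hpT (addOut p T hp2 hpT) (baseGeOut_of_star p T hp2 hpT hStar) hNum)

/-- The general Euler characteristic inequality from the three open outputs. -/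
theorem ecGenOut_of_three (hp2 : p ≠ 2) (hpT : pPrime p ∈ T) (hL : LocH3BaseOut p T)
    (hStar : BaseStarOut p T) (hNum : BaseNumOut p T) : ECGenOut p T :=
  ecGenOut_of p T hpT (finOut p T hp2 hpT)
    (tateGeOut_of_tateOut p T (tateOut_of_star_num p T hp2 hpT hStar hNum))
    (ptEndGeOut_of_locH3Base p T hp2 hpT hL) (helper24.archOut p hp2)

end Pkg

section Top

variable {𝒪 : Type} [CommRing 𝒪] [IsDomain 𝒪] [IsDiscreteValuationRing 𝒪]
  [IsAdicComplete (maximalIdeal 𝒪) 𝒪] [Finite (ResidueField 𝒪)]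
  (p : ℕ) [Fact p.Prime]
  (ρbar : ResidualGaloisRep (ResidueField 𝒪))
  (S Smin : Finset ℕ)
  [Algebra (ZMod p) (ResidueField 𝒪)]

/-- **The output of module EC** from the three open outputs
(`LocH3BaseOut`, `BaseStarOut`, `BaseNumOut`), each needed only for `p ≠ 2` and `T' ∋ p`. -/
theorem ecOut_of_three (hset : Setting 𝒪 p ρbar S Smin)
    (hL : ∀ T' : Finset Nat.Primes, p ≠ 2 → pPrime p ∈ T' → LocH3BaseOut p T')
    (hStar : ∀ T' : Finset Nat.Primes, p ≠ 2 → pPrime p ∈ T' → BaseStarOut p T')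
    (hNum : ∀ T' : Finset Nat.Primes, p ≠ 2 → pPrime p ∈ T' → BaseNumOut p T') :
    ECOut p ρbar Smin :=
  ecOut_of_gen p ρbar S Smin hset fun T' hpT =>
    ecGenOut_of_three p T' hset.hp2 hpT (hL T' hset.hp2 hpT) (hStar T' hset.hp2 hpT)
      (hNum T' hset.hp2 hpT)

end Top

end Fermat.Agent.P1.helper63
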