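import Fermat.Agent.P1.helper6_ECLocH3Abs
import Fermat.Agent.P1.helper63_ECDefs2
import Fermat.Agent.P1.helper40_KumB

/-!
# P1 / EC, package LOC-H3-BASE (helper6, task 741)

`locH3BaseOut : helper63.LocH3BaseOut p T`: for `v ∈ T` and an open subgroup `U` of the local
Galois group at `v` on which the cyclotomic character is trivial,
`H³(U, ℤ/p) = 0` (level-constant cochains for the levels `restrictLevels (locLevels v) U`).

The subgroup `U` is the absolute Galois group of `K = fixedField U`, a finite extension of `ℚ_q`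
containing `ζ_p`; the datum `locGroup q U hU : LocGroup q K U (restrictLevels (locLevels q) U hU)`
feeds the abstract theorem `LocGroup.h3` (Kummer sequence + local Tate theorem + divisibility of
the local Brauer group).
-/

set_option autoImplicit false
set_option linter.style.haveILetI false
set_option linter.unusedSectionVars false
set_option linter.unusedVariables false

open groupCohomology ExtCitation

noncomputable section

namespace Fermat.Agent.P1.helper6

open Fermat.Agent.S55 Fermat.Agent.S55.helper59 Fermat.Agent.S55.helper90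
  Fermat.Agent.S55.helper46

local instance factOfPrimesLH3 (q : Nat.Primes) : Fact (q : ℕ).Prime := ⟨q.2⟩

section Inst

variable (q : Nat.Primes)

/-- a subgroup of the Prelude's local Galois group as a subgroup of the automorphism group -/
def autSub (U : Subgroup (primeLocalGaloisGroup q)) :
    Subgroup (PadicAlgCl (q : ℕ) ≃ₐ[ℚ_[(q : ℕ)]] PadicAlgCl (q : ℕ)) := U

/-- the field fixed by `U` -/
def fieldOfSub (U : Subgroup (primeLocalGaloisGroup q)) :
    IntermediateField ℚ_[(q : ℕ)] (PadicAlgCl (q : ℕ)) :=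
  IntermediateField.fixedField (autSub q U)

variable (U : Subgroup (primeLocalGaloisGroup q)) (hU : ∃ N ∈ (locLevels q).mem, N ≤ U)

include hU in
theorem isOpen_autSub :
    IsOpen ((autSub q U : Subgroup (PadicAlgCl (q : ℕ) ≃ₐ[ℚ_[(q : ℕ)]] PadicAlgCl (q : ℕ))) :
      Set (PadicAlgCl (q : ℕ) ≃ₐ[ℚ_[(q : ℕ)]] PadicAlgCl (q : ℕ))) := by
  rw [helper51.isOpen_subgroup_iff_exists_comap_le]
  obtain ⟨N, ⟨F, hF, -, rfl⟩, hle⟩ := hU
  exact ⟨F, hF, hle⟩

theorem isGalois_padicAlgCl : IsGalois ℚ_[(q : ℕ)] (PadicAlgCl (q : ℕ)) := by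
  haveI : IsAlgClosure ℚ_[(q : ℕ)] (PadicAlgCl (q : ℕ)) :=
    ⟨inferInstance, PadicAlgCl.isAlgebraic (q : ℕ)⟩
  exact IsAlgClosure.isGalois _ _

include hU in
theorem fixingSubgroup_fieldOfSub : (fieldOfSub q U).fixingSubgroup = autSub q U := by
  haveI := isGalois_padicAlgCl q
  have hclosed : IsClosed ((autSub q U : Subgroup _) :
      Set (PadicAlgCl (q : ℕ) ≃ₐ[ℚ_[(q : ℕ)]] PadicAlgCl (q : ℕ))) :=
    (autSub q U).isClosed_of_isOpen (isOpen_autSub q U hU)
  exact InfiniteGalois.fixingSubgroup_fixedField ⟨autSub q U, hclosed⟩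

include hU in
theorem finiteDimensional_fieldOfSub : FiniteDimensional ℚ_[(q : ℕ)] (fieldOfSub q U) := by
  haveI := isGalois_padicAlgCl q
  rw [← InfiniteGalois.isOpen_iff_finite, fixingSubgroup_fieldOfSub q U hU]
  exact isOpen_autSub q U hU

/-- every finite extension of `ℚ_q` is fixed by a level contained in `U` -/
theorem exists_level_le (K₁ : IntermediateField ℚ_[(q : ℕ)] (PadicAlgCl (q : ℕ)))
    [FiniteDimensional ℚ_[(q : ℕ)] K₁] (N₀ : Subgroup (primeLocalGaloisGroup q))
    (hN₀ : N₀ ∈ (locLevels q).mem) :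
    ∃ N ∈ (locLevels q).mem, N ≤ N₀ ∧ autSub q N ≤ K₁.fixingSubgroup := by
  obtain ⟨F, hF, hle⟩ := helper51.exists_finiteDimensional_comap_fixingSubgroup_le (q : ℕ) K₁
  haveI := hF
  have hNQ : Normal ℚ (AlgebraicClosure ℚ) := helper69.normal_Qbar
  set E : IntermediateField ℚ (AlgebraicClosure ℚ) :=
    IntermediateField.normalClosure ℚ F (AlgebraicClosure ℚ) with hE
  have hEfin : FiniteDimensional ℚ E := normalClosure.is_finiteDimensional ℚ F _
  have hEn : E.fixingSubgroup.Normal :=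
    helper69.fixingSubgroup_normal_of_normal E (normalClosure.normal ℚ F _)
  have hEF : E.fixingSubgroup ≤ F.fixingSubgroup :=
    IntermediateField.fixingSubgroup_antitone (IntermediateField.le_normalClosure F)
  obtain ⟨N, hN, hNle⟩ := (locLevels q).directed N₀ hN₀
    (E.fixingSubgroup.comap (primeLocalToGlobal q)) ⟨E, hEfin, hEn, rfl⟩
  refine ⟨N, hN, hNle.trans inf_le_left, fun s hs => ?_⟩
  have h1 : s ∈ E.fixingSubgroup.comap (primeLocalToGlobal q) := (hNle hs).2
  exact hle (hEF h1)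

/-- **the datum**: `U` is the absolute Galois group of its fixed field -/
def locGroup : LocGroup (q : ℕ) (fieldOfSub q U) ↥U (helper35.restrictLevels (locLevels q) U hU)
    where
  jq := (autSub q U).subtype
  mem := by
    intro u
    rw [fixingSubgroup_fieldOfSub q U hU]
    exact u.2
  surj := by
    intro σ hσ
    rw [fixingSubgroup_fieldOfSub q U hU] at hσ
    exact ⟨⟨σ, hσ⟩, rfl⟩
  lev_le := by
    rintro N' ⟨N, ⟨F, hF, -, rfl⟩, hNU, rfl⟩
    haveI := hF
    obtain ⟨K₁, hK₁, hK₁F⟩ :=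
      helper51.exists_finiteDimensional_fixingSubgroup_eq_comap (q : ℕ) F
    refine ⟨K₁, hK₁, fun s hs => ?_⟩
    rw [hK₁F] at hs
    exact hs
  le_lev := by
    intro K₁ hK₁
    haveI := hK₁
    obtain ⟨N₀, hN₀, hN₀U⟩ := hU
    obtain ⟨N, hN, hNle, hNK⟩ := exists_level_le q K₁ N₀ hN₀
    exact ⟨N.subgroupOf U, ⟨N, hN, hNle.trans hN₀U, rfl⟩, fun s hs => hNK hs⟩
  fin := by
    rintro N' ⟨N, ⟨F, hF, -, rfl⟩, hNU, rfl⟩
    have h1 : F.fixingSubgroup.FiniteIndex := helper69.finiteIndex_fixingSubgroup F hF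
    have h2 : (F.fixingSubgroup.comap (primeLocalToGlobal q)).FiniteIndex :=
      helper30.finiteIndex_comap _ _
    have h3 : ((F.fixingSubgroup.comap (primeLocalToGlobal q)).subgroupOf U).FiniteIndex :=
      Subgroup.instFiniteIndex_subgroupOf _ _
    infer_instance

end Inst

section Main

variable (p : ℕ) [Fact p.Prime]

/-- **LOC-H3-BASE**, local form. -/
theorem locH3_base (q : Nat.Primes) (U : Subgroup (primeLocalGaloisGroup q))
    (hU : ∃ N ∈ (locLevels q).mem, N ≤ U)
    (hχ : ∀ g ∈ U, cycloChar p (primeLocalToGlobal q g) = 1) :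
    Z3 (helper35.restrictLevels (locLevels q) U hU) (helper35.trivRep (ZMod p) ↥U) ≤
      B3 (helper35.restrictLevels (locLevels q) U hU) (helper35.trivRep (ZMod p) ↥U) := by
  haveI : NeZero p := ⟨(Fact.out : p.Prime).ne_zero⟩
  haveI := finiteDimensional_fieldOfSub q U hU
  obtain ⟨ζ₀, hζ₀⟩ := Fermat.Agent.P1.helper40.exists_primitiveRoot_Qbar p
  have hζ : IsPrimitiveRoot (padicEmbedding (q : ℕ) ζ₀) p :=
    hζ₀.map_of_injective (padicEmbedding (q : ℕ)).toRingHom.injective
  refine (locGroup q U hU).h3 p (padicEmbedding (q : ℕ) ζ₀) hζ fun u => ?_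
  set σ : PadicAlgCl (q : ℕ) ≃ₐ[ℚ_[(q : ℕ)]] PadicAlgCl (q : ℕ) := (locGroup q U hU).jq u with hσ
  rw [← padicEmbedding_localGaloisToGlobal]
  congr 1
  have h1 := Fermat.Agent.P1.helper40.cycloChar_spec p (localGaloisToGlobal (q : ℕ) σ)
    hζ₀.pow_eq_one
  have h2 : cycloChar p (localGaloisToGlobal (q : ℕ) σ) = 1 := hχ u u.2
  rw [h2, Units.val_one, ZMod.val_one, pow_one] at h1
  exact h1

/-- **LOC-H3-BASE** (verbatim target `helper63.LocH3BaseOut`). -/
theorem locH3BaseOut (T : Finset Nat.Primes) (hp2 : p ≠ 2) (hpT : pPrime p ∈ T) :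
    Fermat.Agent.P1.helper63.LocH3BaseOut p T :=
  fun v U hU hχ => locH3_base p v.1 U hU hχ

end Main

end Fermat.Agent.P1.helper6
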