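import Fermat.Agent.P1.helper99_ECBaseNum
import Fermat.Agent.P1.helper9_ECShap

/-!
# P1 / module EC, package BASE-NUM (helper99, task 738): the blueprint statement, UNCONDITIONAL

`baseNumOut (hp2) (hpT) (hB : BaseInputStatement p T) : BaseNumOut p T`, verbatim from
`blueprints/P1/helper63_ECInterface.lean`: `baseNumOut_of` applied to Shapiro's lemma
`helper9.shapiro_perm`.
-/

set_option autoImplicit false

open groupCohomology ExtCitation

noncomputable section

namespace Fermat.Agent.P1.helper99

open Fermat.Agent.S55 Fermat.Agent.P1.helper70 Fermat.Agent.P1.helper63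

variable (p : ℕ) [Fact p.Prime] (T : Finset Nat.Primes)

/-- Shapiro's lemma in degrees 1 and 2 for the permutation modules (from `helper9`). -/
theorem shapiroPerm12 (hpT : pPrime p ∈ T) : ShapiroPerm12 p T := fun U hU =>
  ⟨(helper9.shapiro_perm (k := ZMod p) (galLevels T) (helper92.levelStatement p T hpT).1 U hU).1,
    (helper9.shapiro_perm (k := ZMod p) (galLevels T)
      (helper92.levelStatement p T hpT).1 U hU).2.1⟩

/-- **EC-BASE-NUM**: the numerical Euler characteristic of the fields containing `ζ_p`. -/
theorem baseNumOut (hp2 : p ≠ 2) (hpT : pPrime p ∈ T) (hB : BaseInputStatement p T) :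
    BaseNumOut p T :=
  baseNumOut_of p T (shapiroPerm12 p T hpT) hp2 hpT hB

end Fermat.Agent.P1.helper99
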