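import Fermat.Agent.P1.helper63_ECFinal
import Fermat.Agent.P1.helper6_ECLocH3Base
import Fermat.Agent.P1.helper99_ECBaseNumFinal

/-!
# P1 / module EC (helper63): everything except BASE-STAR, wired

With `helper6.locH3BaseOut` (local `H³(G_K, 𝔽_p) = 0`) and `helper99.baseNumOut` (the numerical
base case) the only remaining input of module EC is `BaseStarOut` (package BASE-STAR):

  `ecOut_of_star : Setting → (∀ T', p ≠ 2 → pPrime p ∈ T' → BaseInputStatement p T' →
      FinOut p T' → BaseStarOut p T') → helper70.ECOut p ρbar Smin`.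
-/

set_option autoImplicit false

open IsLocalRing groupCohomology ExtCitation

noncomputable section

namespace Fermat.Agent.P1.helper63

open Fermat.Agent.S55 Fermat.Agent.P1.helper70

section Pkg

variable (p : ℕ) [Fact p.Prime] (T : Finset Nat.Primes)

/-- local `H³(G_K, 𝔽_p) = 0`: unconditional -/
theorem locH3BaseOut : LocH3BaseOut p T := fun v U hU hχ =>
  helper6.locH3_base p v.1 U hU hχ

/-- local `H³(G_v, X) = 0` for all finite smooth modules: unconditional -/
theorem locH3Out (hpT : pPrime p ∈ T) : LocH3Out p T :=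
  pkgLocH3 p T hpT (locH3BaseOut p T)

/-- The inequality `≥` of the Poitou–Tate end: unconditional. -/
theorem ptEndGeOut (hp2 : p ≠ 2) (hpT : pPrime p ∈ T) : PTEndGeOut p T :=
  ptEndGeOut_of_locH3Base p T hp2 hpT (locH3BaseOut p T)

/-- The numerical base case: unconditional. -/
theorem baseNumOut (hp2 : p ≠ 2) (hpT : pPrime p ∈ T) : BaseNumOut p T :=
  helper99.baseNumOut p T hp2 hpT helper90.baseInputStatement

/-- Tate's global Euler characteristic formula from `BaseStarOut`. -/
theorem tateOut_of_star (hp2 : p ≠ 2) (hpT : pPrime p ∈ T) (hStar : BaseStarOut p T) :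
    TateOut p T :=
  tateOut_of_star_num p T hp2 hpT hStar (baseNumOut p T hp2 hpT)

/-- The general Euler characteristic inequality from `BaseStarOut`. -/
theorem ecGenOut_of_star (hp2 : p ≠ 2) (hpT : pPrime p ∈ T) (hStar : BaseStarOut p T) :
    ECGenOut p T :=
  ecGenOut_of_three p T hp2 hpT (locH3BaseOut p T) hStar (baseNumOut p T hp2 hpT)

end Pkg

section Top

variable {𝒪 : Type} [CommRing 𝒪] [IsDomain 𝒪] [IsDiscreteValuationRing 𝒪]
  [IsAdicComplete (maximalIdeal 𝒪) 𝒪] [Finite (ResidueField 𝒪)]
  (p : ℕ) [Fact p.Prime]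
  (ρbar : ResidualGaloisRep (ResidueField 𝒪))
  (S Smin : Finset ℕ)
  [Algebra (ZMod p) (ResidueField 𝒪)]

/-- **The output of module EC** from BASE-STAR alone. -/
theorem ecOut_of_star (hset : Setting 𝒪 p ρbar S Smin)
    (hStar : ∀ T' : Finset Nat.Primes, p ≠ 2 → pPrime p ∈ T' → BaseInputStatement p T' →
      FinOut p T' → BaseStarOut p T') :
    ECOut p ρbar Smin :=
  ecOut_of_gen p ρbar S Smin hset fun T' hpT =>
    ecGenOut_of_star p T' hset.hp2 hpT
      (hStar T' hset.hp2 hpT helper90.baseInputStatement (finOut p T' hset.hp2 hpT))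

end Top

end Fermat.Agent.P1.helper63
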