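import Mathlib
import Fermat.Agent.P1.helper70_Interface
import Fermat.Agent.P1.helper91_TWSelCheb
import Fermat.Agent.P1.helper61_TWSelInd
import Fermat.Agent.S55.helper92_SmoothLevel

/-!
# P1 (S56), module TW-SEL: final wiring (helper91)

* `finite_ad0Rep`, `finite_ad0Dual`     : `ad⁰ ρbar` and its twisted dual are finite `𝔽_p`-modules;
* `isSmooth_ad0Rep`, `isSmooth_ad0Dual` : they are smooth for the levels `galLevels (primesOf T)`,
                                          `Smin ⊆ T` (REUSABLE by the modules SEL / GW / EC);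
* `twOut_of_sigma` : `TWOut p ρbar S Smin` (helper70's interface, VERBATIM) from
                     `FinStatement p` (package TW-SEL-FIN) and `SigmaStatement` (module TW-GT).
-/

set_option autoImplicit false
set_option linter.unusedSectionVars false
set_option linter.unusedVariables false
set_option linter.style.haveILetI false

open IsLocalRing ExtCitation groupCohomology Polynomial

noncomputable section

namespace Fermat.Agent.P1.helper91

open Fermat.Agent.S55 Fermat.Agent.P1.helper70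

section Ad0

variable {k : Type} [Field k] [Finite k] (ρbar : ResidualGaloisRep k)
  (p : ℕ) [Fact p.Prime] [Algebra (ZMod p) k]

theorem finite_ad0Rep : Module.Finite (ZMod p) (ad0Rep ρbar p) := by
  haveI : Module.Finite (ZMod p) k := Module.Finite.of_finite
  exact Module.Finite.trans (R := ZMod p) k (Ad0 ρbar)

theorem finite_ad0Dual : Module.Finite (ZMod p) ((ad0Rep ρbar p).dualTwist (cycloChar p)) := by
  haveI := finite_ad0Rep ρbar p
  exact inferInstanceAs (Module.Finite (ZMod p) (Module.Dual (ZMod p) (ad0Rep ρbar p)))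

/-- `ad⁰ ρbar` is trivial on every `g` with `ρbar g = 1`. -/
theorem ad0Rep_ρ_eq_one_of {g : GQ} (hg : ρbar.ρ g = 1) : (ad0Rep ρbar p).ρ g = 1 := by
  refine LinearMap.ext fun x => ?_
  apply Ad0.toEnd_injective ρbar
  have hg' : ρbar.ρ g⁻¹ = 1 := by
    have := map_mul ρbar.ρ g g⁻¹
    rw [mul_inv_cancel, map_one, hg, one_mul] at this
    exact this.symm
  have h := ad0Rep_ρ_apply ρbar p g x
  rw [hg, hg', one_mul, mul_one] at h
  exact h

/-- `ad⁰ ρbar` is smooth for the levels unramified outside `T'` if `ρbar` is unramified outside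
`T'`. -/
theorem isSmooth_ad0Rep_of (T' : Finset Nat.Primes)
    (hunr : ∀ q : Nat.Primes, q ∉ T' → ρbar.IsUnramifiedAt (q : ℕ)) :
    IsSmooth (galLevels T') (ad0Rep ρbar p) := by
  refine Fermat.Agent.S55.helper92.smoothStatement p T' (ad0Rep ρbar p) (finite_ad0Rep ρbar p)
    ?_ ?_
  · intro m
    obtain ⟨L, hL, hρ⟩ := ρbar.factorsThroughFiniteLevel
    refine ⟨L, hL, fun s hs => ?_⟩
    have h1 : ρbar.ρ s = 1 :=
      hρ s ((IntermediateField.mem_fixingSubgroup_iff _ _).mp hs)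
    rw [ad0Rep_ρ_eq_one_of ρbar p h1]
    rfl
  · intro q hq A hA g hg
    exact ad0Rep_ρ_eq_one_of ρbar p (hunr q hq A hA g hg)

/-- The twisted dual of `ad⁰ ρbar` is smooth for the levels unramified outside `T' ∋ p`. -/
theorem isSmooth_ad0Dual_of (T' : Finset Nat.Primes) (hpT : pPrime p ∈ T')
    (hunr : ∀ q : Nat.Primes, q ∉ T' → ρbar.IsUnramifiedAt (q : ℕ)) :
    IsSmooth (galLevels T') ((ad0Rep ρbar p).dualTwist (cycloChar p)) := by
  obtain ⟨N₁, hN₁, h₁⟩ := isSmooth_ad0Rep_of ρbar p T' hunr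
  obtain ⟨-, N₂, hN₂, h₂⟩ := Fermat.Agent.S55.helper92.levelStatement p T' hpT
  obtain ⟨N, hN, hle⟩ := (galLevels T').directed N₁ hN₁ N₂ hN₂
  refine ⟨N, hN, fun s hs f => ?_⟩
  have hs1 : s ∈ N₁ := (hle hs).1
  have hs2 : s ∈ N₂ := (hle hs).2
  have hs1' : s⁻¹ ∈ N₁ := N₁.inv_mem hs1
  rw [Rep.dualTwist_ρ_apply, h₂ s hs2]
  refine LinearMap.ext fun x => ?_
  simp only [Units.val_one, one_smul, LinearMap.coe_comp, Function.comp_apply]
  rw [h₁ s⁻¹ hs1' x]

end Ad0

section Wire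

variable {𝒪 : Type} [CommRing 𝒪] [IsDomain 𝒪] [IsDiscreteValuationRing 𝒪]
  [IsAdicComplete (maximalIdeal 𝒪) 𝒪] [Finite (ResidueField 𝒪)]
  {p : ℕ} [Fact p.Prime]
  {ρbar : ResidualGaloisRep (ResidueField 𝒪)}
  {S Smin : Finset ℕ}

/-- `ρbar` is unramified outside `T ⊇ Smin`. -/
theorem isUnramifiedAt_of_setting (hset : Setting 𝒪 p ρbar S Smin) {T : Finset ℕ}
    (hT : Smin ⊆ T) (q : Nat.Primes) (hq : q ∉ primesOf T) : ρbar.IsUnramifiedAt (q : ℕ) := by
  have hqT : (q : ℕ) ∉ T := fun h => hq (mem_primesOf.mpr h)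
  have hqS : (q : ℕ) ∉ Smin := fun h => hqT (hT h)
  have hqp : (q : ℕ) ≠ p := fun h => hqS (h ▸ hset.hpSmin)
  by_contra hcon
  exact hqS ((hset.hmin q q.2 hqp).mpr hcon)

theorem pPrime_mem_primesOf (hset : Setting 𝒪 p ρbar S Smin) {T : Finset ℕ}
    (hT : Smin ⊆ T) : pPrime p ∈ primesOf T :=
  mem_primesOf.mpr (hT hset.hpSmin)

variable [Algebra (ZMod p) (ResidueField 𝒪)]

/-- `ad⁰ ρbar` is smooth for the levels `galLevels (primesOf T)`, `Smin ⊆ T`. -/
theorem isSmooth_ad0Rep (hset : Setting 𝒪 p ρbar S Smin) {T : Finset ℕ} (hT : Smin ⊆ T) :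
    IsSmooth (galLevels (primesOf T)) (ad0Rep ρbar p) :=
  isSmooth_ad0Rep_of ρbar p (primesOf T) (isUnramifiedAt_of_setting hset hT)

/-- `M' = ad⁰(ρbar)^*(1)` is smooth for the levels `galLevels (primesOf T)`, `Smin ⊆ T`. -/
theorem isSmooth_ad0Dual (hset : Setting 𝒪 p ρbar S Smin) {T : Finset ℕ} (hT : Smin ⊆ T) :
    IsSmooth (galLevels (primesOf T)) (ad0Dual p ρbar) :=
  isSmooth_ad0Dual_of ρbar p (primesOf T) (pPrime_mem_primesOf hset hT)
    (isUnramifiedAt_of_setting hset hT)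

/-- `TWOut` from the generic deliverable `TWSelStatement` of TW-SEL. -/
theorem twOut_of_twSel
    (h : TWSelStatement p S ρbar (primesOf Smin) (ad0Dual p ρbar)) : TWOut p ρbar S Smin := by
  obtain ⟨r, hr⟩ := h
  refine ⟨r, fun n => ?_⟩
  obtain ⟨qv, hinj, htw, hkill⟩ := hr n
  refine ⟨qv, ⟨hinj, fun i => (htw i).1, fun i => (htw i).2⟩, fun c hc hloc => ?_⟩
  refine hkill c hc fun i hq => ?_
  exact (locTrivAt_iff_mem_B1 (ad0Dual p ρbar) c ⟨qv i, hq⟩).mpr (hloc ⟨qv i, hq⟩ ⟨i, rfl⟩)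

/-- **Module TW-SEL, deliverable.**  `TWOut` (helper70's interface) from the finiteness of
`H¹(G_Smin, M')` (package TW-SEL-FIN) and the choice of `σ` (module TW-GT). -/
theorem twOut_of_sigma (hset : Setting 𝒪 p ρbar S Smin) (hfin : FinStatement p)
    (hσ : SigmaStatement p ρbar (primesOf Smin) (ad0Dual p ρbar)) : TWOut p ρbar S Smin := by
  have hsm := isSmooth_ad0Dual hset (Finset.Subset.refl Smin)
  have hfinM : Module.Finite (ZMod p) (ad0Dual p ρbar) := finite_ad0Dual ρbar p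
  have hZ := hfin hset.hp2 (primesOf Smin) (pPrime_mem_primesOf hset (Finset.Subset.refl Smin))
    (ad0Dual p ρbar) hfinM hsm
  have hcore : SelCoreStatement p S ρbar (primesOf Smin) (ad0Dual p ρbar) := by
    refine selCore p S ρbar (primesOf Smin) (ad0Dual p ρbar) (hset.hSmin hset.hpSmin) ?_ hsm hσ
    intro q hq hqS
    have hqSmin : q ∉ Smin := fun h => hqS (hset.hSmin h)
    have hqp : q ≠ p := fun h => hqSmin (h ▸ hset.hpSmin)
    by_contra hcon
    exact hqSmin ((hset.hmin q hq hqp).mpr hcon)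
  exact twOut_of_twSel (Fermat.Agent.P1.helper61.twSel_of_selCore p S ρbar (primesOf Smin)
    (ad0Dual p ρbar) hZ hcore)

end Wire

end Fermat.Agent.P1.helper91
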