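import Fermat.Agent.P1.helper63_ECDefs2
import Fermat.Agent.P1.helper91_TWSelWire
import Fermat.Agent.S55.AInterface

/-!
# P1 / module EC (helper63): the top of the module

* `ecGenOut_of`  : `ECGenOut p T` from finiteness, the lower bound of the Tate defect, the end of
                   the Poitou-Tate sequence (`PTEndGeOut`) and the archimedean count;
* `tateGeOut_of_tateOut`;
* `ecOut_of_gen` : `helper70.ECOut p ρbar Smin` from `ECGenOut p (primesOf T)` for all `T ⊇ Smin`.
-/

set_option autoImplicit false

open IsLocalRing groupCohomology ExtCitation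

noncomputable section

namespace Fermat.Agent.P1.helper63

open Fermat.Agent.S55 Fermat.Agent.P1.helper70

section Gen

variable (p : ℕ) [Fact p.Prime] (T : Finset Nat.Primes)

/-- Tate's formula gives the lower bound of the defect. -/
theorem tateGeOut_of_tateOut (h : TateOut p T) : TateGeOut p T :=
  fun N hN hsm => (h N hN hsm).ge

/-- the twisted dual has the same dimension -/
theorem finrank_dualT (N : Rep.{0} (ZMod p) GQ) [Module.Finite (ZMod p) N] :
    Module.finrank (ZMod p) (dualT p N) = Module.finrank (ZMod p) N :=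
  Subspace.dual_finrank_eq (K := ZMod p) (V := N)

/-- **EC-TOP-GEN**: the general Euler characteristic inequality. -/
theorem ecGenOut_of (hpT : pPrime p ∈ T) (hF : FinOut p T) (hTate : TateGeOut p T)
    (hGe : PTEndGeOut p T) (hArch : ArchOut p) : ECGenOut p T := by
  intro M hM hsm
  obtain ⟨-, hχ⟩ := Fermat.Agent.S55.helper92.levelStatement p T hpT
  have hsm' : IsSmooth (galLevels T) (dualT p M) := isSmooth_dualTwist hχ hsm
  have hM' : Module.Finite (ZMod p) (dualT p M) :=
    inferInstanceAs (Module.Finite (ZMod p) (Module.Dual (ZMod p) M))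
  refine ⟨(hF M hM hsm).1, (hF (dualT p M) hM' hsm').1, ?_⟩
  have h1 := hTate (dualT p M) hM' hsm'
  have h2 := hGe M hM hsm
  have h3 := hArch M hM
  have h4 := finrank_dualT p M
  unfold tateDefect at h1
  omega

end Gen

section Top

variable {𝒪 : Type} [CommRing 𝒪] [IsDomain 𝒪] [IsDiscreteValuationRing 𝒪]
  [IsAdicComplete (maximalIdeal 𝒪) 𝒪] [Finite (ResidueField 𝒪)]
  (p : ℕ) [Fact p.Prime]
  (ρbar : ResidualGaloisRep (ResidueField 𝒪))
  (S Smin : Finset ℕ)
  [Algebra (ZMod p) (ResidueField 𝒪)]

/-- **EC-TOP**: the output of module EC from the general inequality. -/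
theorem ecOut_of_gen (hset : Setting 𝒪 p ρbar S Smin)
    (hGen : ∀ T' : Finset Nat.Primes, pPrime p ∈ T' → ECGenOut p T') :
    ECOut p ρbar Smin := by
  intro T hT
  have hpT := helper91.pPrime_mem_primesOf hset hT
  have h := hGen (primesOf T) hpT (ad0Rep ρbar p) (helper91.finite_ad0Rep ρbar p)
    (helper91.isSmooth_ad0Rep hset hT)
  exact h

end Top

end Fermat.Agent.P1.helper63
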