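import Fermat.Agent.P1.helper7_BSDefs
import Fermat.Agent.S55.TopTr

/-!
# P1 / module EC / BASE-STAR (helper7, sub-coordinator): the packages and the assembly

`helper63.BaseStarOut p T` is the inequality (for `N = Ind_C^G Y`, `N' = N^*(1)`)

  `dim Ш¹(N') + ∑_v h⁰(G_v, N') + h⁰(ℝ, N') + h⁰(N) ≤ h¹(N) + h⁰(N')`.

With the notation of `helper7_BSDefs` (`𝐇 = D.Hsp ⊇ 𝐔 = D.Usp ⊇ 𝐌 = D.Msp`, `𝐒𝐡 = D.Shsp`,
`z = D.zY Y` on `Y^*`, `y' = D.yTw Y` on `Y`) it is the sum of the seven inequalities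

* `KExtStatement`    : `mult(z, 𝐇) ≤ h¹(N)`                      (extension of cocycles, Shapiro);
* `ClassStatement`   : `mult(z, 𝐔) + mult(y', 𝐒𝐡) ≤ mult(z, 𝐇)`   (Kummer, class groups, REC4);
* `UnitsStatement`   : `dim Y^c + ∑_v mult(y', k[D_v\G/P]) ≤ mult(z, 𝐔) + dim Y'^c`
                                                                 (Kummer, equivariant Dirichlet);
* `H0IndStatement`   : `h⁰(N) ≤ dim Y^c`;
* `H0IndStatement'`  : `dim Y'^c ≤ h⁰(N')`;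
* `PermIndStatement` : `∑_v h⁰(G_v, N') + h⁰(ℝ, N') ≤ ∑_v mult(y', k[D_v\G/P])`   (Mackey);
* `ShaIndStatement`  : `dim Ш¹(N') ≤ mult(y', 𝐒𝐡)`               (restriction to `P`).

Each statement carries the hypotheses `p ≠ 2`, `p ∈ T`, `BaseInputStatement p T` (module B of
S55) and `FinOut p T` (EC-FIN); `Y` is a finite dimensional `C`-module on which the elements of
`p`-power order modulo `N₀` act trivially.
-/

set_option autoImplicit false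

open groupCohomology ExtCitation

noncomputable section

namespace Fermat.Agent.P1.helper7

open Fermat.Agent.S55 Fermat.Agent.P1.helper70 Fermat.Agent.P1.helper63

variable (p : ℕ) [Fact p.Prime] (T : Finset Nat.Primes)

/-- the hypotheses on the `C`-module `Y` -/
def YOk {p : ℕ} [Fact p.Prime] {T : Finset Nat.Primes} (D : BSData p T)
    (Y : Rep.{0} (ZMod p) ↥D.C) : Prop :=
  Module.Finite (ZMod p) Y ∧
    ∀ u : ↥D.C, (∃ m : ℕ, (u : GQ) ^ p ^ m ∈ D.N₀) → ∀ y : Y, Y.ρ u y = y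

/-- **BS-KEXT**: `mult(z, 𝐇) ≤ h¹(G_T, Ind_C^G Y)`. -/
def KExtStatement : Prop :=
  p ≠ 2 → pPrime p ∈ T → BaseInputStatement p T → FinOut p T →
  ∀ (D : BSData p T) (Y : Rep.{0} (ZMod p) ↥D.C), YOk D Y →
    mltIn (D.zY Y) D.cs D.Hsp ≤ hd1 (galLevels T) (indRep Y)

/-- **BS-CLASS**: `mult(z, 𝐔) + mult(y', 𝐒𝐡) ≤ mult(z, 𝐇)`. -/
def ClassStatement : Prop :=
  p ≠ 2 → pPrime p ∈ T → BaseInputStatement p T → FinOut p T →
  ∀ (D : BSData p T) (Y : Rep.{0} (ZMod p) ↥D.C), YOk D Y →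
    mltIn (D.zY Y) D.cs D.Usp + mltIn (D.yTw Y) D.cs D.Shsp ≤ mltIn (D.zY Y) D.cs D.Hsp

/-- **BS-UNITS**: `dim Y^c + ∑_v mult(y', k[D_v\G/P]) ≤ mult(z, 𝐔) + dim Y'^c`. -/
def UnitsStatement : Prop :=
  p ≠ 2 → pPrime p ∈ T → BaseInputStatement p T → FinOut p T →
  ∀ (D : BSData p T) (Y : Rep.{0} (ZMod p) ↥D.C), YOk D Y →
    D.fixY Y + ∑ v : Option ↥T, mltIn (D.yTw Y) (rtr D.c) (dcFun (D.dec v) D.pSub) ≤
      mltIn (D.zY Y) D.cs D.Usp + D.fixY' Y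

/-- **BS-H0IND**: `h⁰(Ind_C^G Y) ≤ dim Y^c`. -/
def H0IndStatement : Prop :=
  p ≠ 2 → pPrime p ∈ T → BaseInputStatement p T → FinOut p T →
  ∀ (D : BSData p T) (Y : Rep.{0} (ZMod p) ↥D.C), YOk D Y →
    hd0 (indRep Y) ≤ D.fixY Y

/-- **BS-H0IND'**: `dim (Y^*(1))^c ≤ h⁰((Ind_C^G Y)^*(1))`. -/
def H0IndStatement' : Prop :=
  p ≠ 2 → pPrime p ∈ T → BaseInputStatement p T → FinOut p T →
  ∀ (D : BSData p T) (Y : Rep.{0} (ZMod p) ↥D.C), YOk D Y →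
    D.fixY' Y ≤ hd0 (dualT p (indRep Y))

/-- **BS-PERMIND**: `∑_{v ∈ T} h⁰(G_v, N') + h⁰(ℝ, N') ≤ ∑_v mult(y', k[D_v\G/P])`. -/
def PermIndStatement : Prop :=
  p ≠ 2 → pPrime p ∈ T → BaseInputStatement p T → FinOut p T →
  ∀ (D : BSData p T) (Y : Rep.{0} (ZMod p) ↥D.C), YOk D Y →
    locH0d p T (dualT p (indRep Y)) + realH0d p (dualT p (indRep Y)) ≤
      ∑ v : Option ↥T, mltIn (D.yTw Y) (rtr D.c) (dcFun (D.dec v) D.pSub)

/-- **BS-SHAIND**: `dim Ш¹((Ind_C^G Y)^*(1)) ≤ mult(y', 𝐒𝐡)`. -/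
def ShaIndStatement : Prop :=
  p ≠ 2 → pPrime p ∈ T → BaseInputStatement p T → FinOut p T →
  ∀ (D : BSData p T) (Y : Rep.{0} (ZMod p) ↥D.C), YOk D Y →
    sha1d p T (dualT p (indRep Y)) ≤ mltIn (D.yTw Y) D.cs D.Shsp

variable {p T}

/-- **ASSEMBLY**: `BaseStarOut` from the seven packages. -/
theorem baseStarOut_of_packages (hp2 : p ≠ 2) (hpT : pPrime p ∈ T)
    (hB : BaseInputStatement p T) (hF : FinOut p T)
    (hK : KExtStatement p T) (hC : ClassStatement p T) (hU : UnitsStatement p T)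
    (h0 : H0IndStatement p T) (h0' : H0IndStatement' p T) (hP : PermIndStatement p T)
    (hS : ShaIndStatement p T) : BaseStarOut p T := by
  intro N₀ hN₀ hχ C hle hcyc Y hfin htriv
  obtain ⟨c, hc, hgen⟩ := hcyc
  let D : BSData p T := ⟨N₀, C, c, hN₀, hχ, hle, hc, hgen⟩
  have hY : YOk D Y := ⟨hfin, htriv⟩
  have e1 := hK hp2 hpT hB hF D Y hY
  have e2 := hC hp2 hpT hB hF D Y hY
  have e3 := hU hp2 hpT hB hF D Y hY
  have e4 := h0 hp2 hpT hB hF D Y hY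
  have e5 := h0' hp2 hpT hB hF D Y hY
  have e6 := hP hp2 hpT hB hF D Y hY
  have e7 := hS hp2 hpT hB hF D Y hY
  change sha1d p T (dualT p (indRep Y)) + locH0d p T (dualT p (indRep Y)) +
      realH0d p (dualT p (indRep Y)) + hd0 (indRep Y) ≤
    hd1 (galLevels T) (indRep Y) + hd0 (dualT p (indRep Y))
  omega

end Fermat.Agent.P1.helper7
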