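import Fermat.Agent.P1.helper7_BSProps
import Fermat.Agent.S55.helper92_SmoothLevel

/-!
# P1 / module EC / BASE-STAR, package BS-H0IND (helper82, task 803)

`h⁰` of `Ind_C^G Y` and of its twisted dual, in the realisation `helper57.indRepn` of the induced
module on `G ⧸ C → Y`:

* `h0Ind  : helper7.H0IndStatement p T`  : `h⁰(Ind_C^G Y) ≤ dim Y^c`;
* `h0Ind' : helper7.H0IndStatement' p T` : `dim (Y^*(1))^c ≤ h⁰((Ind_C^G Y)^*(1))`.

Abstract forms (any field `k`, group `G`, subgroup `U`, representation `τ` of `U`, character `χ`):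
`finrank_invariants_indRepn_le`, `finrank_ker_le_invariants_dualTwist`.
(a) an invariant `f` of `Ind τ` is determined by `f (1 U)`, which is fixed by `U`;
(b) for `F ∈ Y^*` with `χ(c) F ∘ τ(c⁻¹) = F` (hence `F ∘ τ(u) = χ(u) F` for all `u ∈ U = ⟨c⟩ N₀`)
the functional `f ↦ ∑_x χ(σ_x) F(f(x))` is invariant, and `F ↦ Φ_F` is injective.
-/

set_option autoImplicit false
set_option linter.style.haveILetI false

universe u

open groupCohomology ExtCitation

noncomputable section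

namespace Fermat.Agent.P1.helper82

open Fermat.Agent.S55 Fermat.Agent.S55.helper57

section AbsInd

variable {k G : Type u} [Field k] [Group G] {U : Subgroup G} {W : Type u} [AddCommGroup W]
  [Module k W] (τ : Representation k U W)

/-- the base coset -/
def bsX0 (U : Subgroup G) : G ⧸ U := ((1 : G) : G ⧸ U)

lemma bs_cosetRep_mem (U : Subgroup G) : cosetRep U (bsX0 U) ∈ U := by
  have h := mk_cosetRep U (bsX0 U)
  have h' := QuotientGroup.eq.1 h.symm
  simpa [bsX0] using h'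

lemma bs_smul_x0 {g : G} (hg : g ∈ U) : g • bsX0 U = bsX0 U := by
  rw [bsX0, MulAction.Quotient.smul_mk, smul_eq_mul, mul_one, QuotientGroup.eq, mul_one]
  exact U.inv_mem hg

/-- the value at the base coset of an invariant of `Ind_U^G τ` is fixed by `U` -/
lemma bs_fix {f : G ⧸ U → W} (hf : f ∈ (indRepn τ).invariants) (u : U) :
    τ u (f (bsX0 U)) = f (bsX0 U) := by
  set σ₀ := cosetRep U (bsX0 U) with hσ₀
  have hσ : σ₀ ∈ U := bs_cosetRep_mem U
  have hg : σ₀ * (u : G) * σ₀⁻¹ ∈ U := U.mul_mem (U.mul_mem hσ u.2) (U.inv_mem hσ)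
  have hx : (σ₀ * (u : G) * σ₀⁻¹)⁻¹ • bsX0 U = bsX0 U := bs_smul_x0 (U.inv_mem hg)
  have hc : cocyc U (σ₀ * (u : G) * σ₀⁻¹) (bsX0 U) = u := by
    apply Subtype.ext
    rw [coe_cocyc, hx, ← hσ₀]
    group
  have h := congrFun (hf (σ₀ * (u : G) * σ₀⁻¹)) (bsX0 U)
  rw [indRepn_apply, hc, hx] at h
  exact h

/-- an invariant of `Ind_U^G τ` is determined by its value at the base coset -/
lemma bs_eq_zero {f : G ⧸ U → W} (hf : f ∈ (indRepn τ).invariants) (h0 : f (bsX0 U) = 0) :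
    f = 0 := by
  funext x
  set σ₀ := cosetRep U (bsX0 U) with hσ₀
  have hx : (cosetRep U x * σ₀⁻¹)⁻¹ • x = bsX0 U := by
    have h1 : (cosetRep U x * σ₀⁻¹)⁻¹ • (((cosetRep U x : G)) : G ⧸ U) = bsX0 U := by
      rw [MulAction.Quotient.smul_mk, smul_eq_mul, mul_inv_rev, inv_inv, mul_assoc,
        inv_mul_cancel, mul_one, hσ₀, mk_cosetRep]
    rwa [mk_cosetRep] at h1
  have h := congrFun (hf (cosetRep U x * σ₀⁻¹)) x
  rw [indRepn_apply, hx, h0, map_zero] at h
  rw [← h]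
  rfl

/-- evaluation at the base coset, from the invariants of `Ind_U^G τ` to the fixed space of `c` -/
def bsEv (c : U) : ↥(indRepn τ).invariants →ₗ[k] ↥(LinearMap.ker (τ c - 1)) :=
  LinearMap.codRestrict _ ((LinearMap.proj (bsX0 U)).comp (Submodule.subtype _)) (fun f => by
    rw [LinearMap.mem_ker, LinearMap.sub_apply, Module.End.one_apply, sub_eq_zero]
    exact bs_fix τ f.2 c)

lemma bsEv_injective (c : U) : Function.Injective (bsEv τ c) := by
  rw [← LinearMap.ker_eq_bot, LinearMap.ker_eq_bot']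
  intro f hf
  apply Subtype.ext
  have h0 : (f : G ⧸ U → W) (bsX0 U) = 0 := congrArg Subtype.val hf
  exact bs_eq_zero τ f.2 h0

/-- **H0IND, abstract form**: `dim (Ind_U^G τ)^G ≤ dim W^c`. -/
theorem finrank_invariants_indRepn_le [Module.Finite k W] (c : U) :
    Module.finrank k ↥(indRepn τ).invariants ≤ Module.finrank k ↥(LinearMap.ker (τ c - 1)) :=
  LinearMap.finrank_le_finrank_of_injective (bsEv_injective τ c)

end AbsInd

section AbsDual

variable {k G : Type u} [Field k] [Group G] {U : Subgroup G} {W : Type u} [AddCommGroup W]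
  [Module k W] (τ : Representation k U W) (χ : G →* kˣ)

/-- an eigenfunctional of the twisted contragredient of `c` -/
lemma bs_dual_c {c : U} {F : Module.Dual k W}
    (hF : F ∈ LinearMap.ker (((χ (c : G) : kˣ) : k) • (τ c⁻¹).dualMap - 1)) (w : W) :
    F (τ c w) = ((χ (c : G) : kˣ) : k) * F w := by
  rw [LinearMap.mem_ker, LinearMap.sub_apply, Module.End.one_apply, sub_eq_zero] at hF
  have h := LinearMap.congr_fun hF (τ c w)
  rw [LinearMap.smul_apply, LinearMap.smul_apply, LinearMap.dualMap_apply,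
    ← Module.End.mul_apply, ← map_mul, inv_mul_cancel, map_one, Module.End.one_apply,
    smul_eq_mul] at h
  exact h.symm

lemma bs_dual_pow {c : U} {F : Module.Dual k W}
    (hc : ∀ w, F (τ c w) = ((χ (c : G) : kˣ) : k) * F w) (m : ℕ) (w : W) :
    F (τ (c ^ m) w) = ((χ (c : G) : kˣ) : k) ^ m * F w := by
  induction m generalizing w with
  | zero => simp
  | succ m ih =>
    rw [pow_succ, map_mul, Module.End.mul_apply, ih, hc, pow_succ]
    ring

/-- an eigenfunctional of the twisted contragredient of `c` is an eigenfunctional of all of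
`U = ⟨c⟩ N₀` -/
lemma bs_dual_all (N₀ : Subgroup G) {c : U} (hgen : ∀ x ∈ U, ∃ m : ℕ, x⁻¹ * (c : G) ^ m ∈ N₀)
    (hχ : ∀ g ∈ N₀, χ g = 1) (hτ : ∀ u : U, (u : G) ∈ N₀ → ∀ w, τ u w = w)
    {F : Module.Dual k W} (hc : ∀ w, F (τ c w) = ((χ (c : G) : kˣ) : k) * F w) (u : U) (w : W) :
    F (τ u w) = ((χ (u : G) : kˣ) : k) * F w := by
  obtain ⟨m, hm⟩ := hgen u u.2
  have hnN : ((u⁻¹ * c ^ m : U) : G) ∈ N₀ := by
    simpa using hm
  have hcm : c ^ m = u * (u⁻¹ * c ^ m) := by group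
  have h1 : τ (c ^ m) w = τ u w := by
    conv_lhs => rw [hcm]
    rw [map_mul, Module.End.mul_apply, hτ _ hnN]
  have h2 : χ (u : G) = χ (c : G) ^ m := by
    have h3 : ((c : G)) ^ m = (u : G) * ((u : G)⁻¹ * (c : G) ^ m) := by group
    rw [← map_pow, h3, map_mul, hχ _ hm, mul_one]
  rw [← h1, bs_dual_pow τ χ hc, h2, Units.val_pow_eq_pow_val]

variable [Fintype (G ⧸ U)]

/-- `F ↦ (f ↦ ∑_x χ(σ_x) F(f(x)))` -/
def bsPhi (U : Subgroup G) (W : Type u) [AddCommGroup W] [Module k W] (χ : G →* kˣ)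
    [Fintype (G ⧸ U)] : Module.Dual k W →ₗ[k] Module.Dual k (G ⧸ U → W) :=
  ∑ x : G ⧸ U, ((χ (cosetRep U x) : kˣ) : k) •
    (LinearMap.proj x : (G ⧸ U → W) →ₗ[k] W).dualMap

lemma bsPhi_apply (F : Module.Dual k W) (f : G ⧸ U → W) :
    bsPhi U W χ F f = ∑ x : G ⧸ U, ((χ (cosetRep U x) : kˣ) : k) * F (f x) := by
  simp only [bsPhi, LinearMap.sum_apply, LinearMap.smul_apply, LinearMap.dualMap_apply,
    LinearMap.proj_apply, smul_eq_mul]

lemma bsPhi_invariant {F : Module.Dual k W}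
    (hF : ∀ (u : U) (w : W), F (τ u w) = ((χ (u : G) : kˣ) : k) * F w) (g : G) :
    ((χ g : kˣ) : k) • (bsPhi U W χ F) ∘ₗ (indRepn τ g⁻¹) = bsPhi U W χ F := by
  refine LinearMap.ext fun f => ?_
  rw [LinearMap.smul_apply, LinearMap.comp_apply, bsPhi_apply, bsPhi_apply, smul_eq_mul,
    Finset.mul_sum]
  rw [← Equiv.sum_comp (MulAction.toPerm g)
    (fun y => ((χ (cosetRep U y) : kˣ) : k) * F (f y))]
  refine Finset.sum_congr rfl fun x _ => ?_
  rw [indRepn_apply, inv_inv, hF, coe_cocyc, inv_inv]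
  simp only [map_mul, map_inv, Units.val_mul, MulAction.toPerm_apply, Units.val_inv_eq_inv_val]
  have h1 : ((χ (cosetRep U x) : kˣ) : k) ≠ 0 := Units.ne_zero _
  have h2 : ((χ g : kˣ) : k) ≠ 0 := Units.ne_zero _
  field_simp

lemma bsPhi_injective : Function.Injective (bsPhi U W χ) := by
  classical
  rw [← LinearMap.ker_eq_bot, LinearMap.ker_eq_bot']
  intro F hF
  refine LinearMap.ext fun w => ?_
  have h := LinearMap.congr_fun hF (Pi.single (bsX0 U) w)
  rw [bsPhi_apply, Finset.sum_eq_single (bsX0 U)] at h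
  · rw [Pi.single_eq_same, LinearMap.zero_apply] at h
    rcases mul_eq_zero.1 h with h | h
    · exact absurd h (Units.ne_zero _)
    · exact h
  · intro x _ hx
    rw [Pi.single_eq_of_ne hx, map_zero, mul_zero]
  · intro h'
    exact absurd (Finset.mem_univ _) h'

/-- the map `F ↦ Φ_F` from the fixed space of the twisted contragredient of `c` to the invariants
of the twisted dual of `Ind_U^G τ` -/
def bsPsi (N₀ : Subgroup G) (c : U) (hgen : ∀ x ∈ U, ∃ m : ℕ, x⁻¹ * (c : G) ^ m ∈ N₀)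
    (hχ : ∀ g ∈ N₀, χ g = 1) (hτ : ∀ u : U, (u : G) ∈ N₀ → ∀ w, τ u w = w) :
    ↥(LinearMap.ker (((χ (c : G) : kˣ) : k) • (τ c⁻¹).dualMap - 1)) →ₗ[k]
      ↥((indRepn τ).dual.twist χ).invariants :=
  LinearMap.codRestrict _ ((bsPhi U W χ).comp (Submodule.subtype _)) (fun F => by
    intro g
    rw [Representation.twist_apply_apply]
    exact bsPhi_invariant τ χ
      (bs_dual_all τ χ N₀ hgen hχ hτ (bs_dual_c τ χ F.2)) g)

lemma bsPsi_injective (N₀ : Subgroup G) (c : U)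
    (hgen : ∀ x ∈ U, ∃ m : ℕ, x⁻¹ * (c : G) ^ m ∈ N₀)
    (hχ : ∀ g ∈ N₀, χ g = 1) (hτ : ∀ u : U, (u : G) ∈ N₀ → ∀ w, τ u w = w) :
    Function.Injective (bsPsi τ χ N₀ c hgen hχ hτ) := by
  intro F F' h
  apply Subtype.ext
  have h' := congrArg Subtype.val h
  exact bsPhi_injective χ h'

/-- **H0IND', abstract form**: `dim (W^*(χ))^c ≤ dim ((Ind_U^G τ)^*(χ))^G`. -/
theorem finrank_ker_le_invariants_dualTwist [Module.Finite k W] (N₀ : Subgroup G) (c : U)
    (hgen : ∀ x ∈ U, ∃ m : ℕ, x⁻¹ * (c : G) ^ m ∈ N₀)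
    (hχ : ∀ g ∈ N₀, χ g = 1) (hτ : ∀ u : U, (u : G) ∈ N₀ → ∀ w, τ u w = w) :
    Module.finrank k ↥(LinearMap.ker (((χ (c : G) : kˣ) : k) • (τ c⁻¹).dualMap - 1)) ≤
      Module.finrank k ↥((indRepn τ).dual.twist χ).invariants :=
  LinearMap.finrank_le_finrank_of_injective (bsPsi_injective τ χ N₀ c hgen hχ hτ)

end AbsDual

section Arith

variable {p : ℕ} [Fact p.Prime] {T : Finset Nat.Primes}

open Fermat.Agent.P1.helper7 Fermat.Agent.P1.helper63 Fermat.Agent.P1.helper70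

/-- `G_ℚ / C` is finite -/
lemma bs_finite_quot (hpT : pPrime p ∈ T) (D : BSData p T) : Finite (GQ ⧸ D.C) := by
  haveI : Finite (GQ ⧸ D.N₀) := (Fermat.Agent.S55.helper92.levelStatement p T hpT).1 D.N₀ D.hN₀
  exact Finite.of_surjective (Subgroup.quotientMapOfLE D.hle) (fun x => by
    induction x using QuotientGroup.induction_on with
    | H g => exact ⟨(g : GQ ⧸ D.N₀), rfl⟩)

variable (p T)

/-- **BS-H0IND**: `h⁰(Ind_C^G Y) ≤ dim Y^c`. -/
theorem h0Ind : H0IndStatement p T := by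
  intro _ _ _ _ D Y hY
  haveI := hY.1
  exact finrank_invariants_indRepn_le Y.ρ D.cC

/-- **BS-H0IND'**: `dim (Y^*(1))^c ≤ h⁰((Ind_C^G Y)^*(1))`. -/
theorem h0Ind' : H0IndStatement' p T := by
  intro _ hpT _ _ D Y hY
  haveI := hY.1
  haveI : Finite (GQ ⧸ D.C) := bs_finite_quot hpT D
  letI := Fintype.ofFinite (GQ ⧸ D.C)
  exact finrank_ker_le_invariants_dualTwist Y.ρ (cycloChar p) D.N₀ D.cC D.hgen D.hχ
    (fun u hu w => hY.2 u ⟨0, by simpa using hu⟩ w)

end Arith

end Fermat.Agent.P1.helper82
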