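import Fermat.Agent.P1.helper7_BSProps
import Fermat.Agent.P1.helper93_ECBaseAsm

/-!
# P1 / module EC / BASE-STAR, package BS-PERMIND (helper93, task 804)

`permInd : helper7.PermIndStatement p T`:
`∑_{v ∈ T} h⁰(G_v, N') + h⁰(ℝ, N') ≤ ∑_v mult(y', k[D_v\G/P])` for `N = Ind_C^G Y`,
`N' = N^*(1)`.

Proof (Mackey/Frobenius reciprocity in matrix coefficient form).  Let `E(g, y) ∈ N` be the element
"`g ⊗ y`" of the induced module (`pidE`): `h E(g, y) = E(h g, y)`, `E(g c, y) = E(g, c y)` for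
`c ∈ C`, and the `E(g, y)` span `N`.  For a functional `F ∈ N'` put
`Φ_F(y)(g) = χ(g)⁻¹ F(E(g, y))`.  If `F` is invariant under `D_v` then `Φ_F(y)` is left
`D_v`-invariant; it is right `P`-invariant because `P` acts trivially on `Y` and `χ|P = 1`; and
`Φ_F(y)(g c) = Φ_F(χ(c)⁻¹ c y)(g)`.  `F ↦ Φ_F` is linear and injective, and the target
`eqvIn y' (rtr c) (dcFun D_v P)` is finite dimensional (`G/P` is finite).
-/

set_option autoImplicit false

open groupCohomology ExtCitation

noncomputable section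

namespace Fermat.Agent.P1.helper93

open Fermat.Agent.S55 Fermat.Agent.S55.helper57 Fermat.Agent.P1.helper70
  Fermat.Agent.P1.helper63 Fermat.Agent.P1.helper7

/-! ## The elements `g ⊗ y` of the induced module -/

section Abstract

variable {k G : Type} [Field k] [Group G] {C : Subgroup G}

/-- `σ(gC)⁻¹ g ∈ C` -/
def pidElt (C : Subgroup G) (g : G) : ↥C :=
  ⟨(cosetRep C (g : G ⧸ C))⁻¹ * g, by rw [← QuotientGroup.eq, mk_cosetRep]⟩

@[simp] lemma coe_pidElt (g : G) : ((pidElt C g : ↥C) : G) = (cosetRep C (g : G ⧸ C))⁻¹ * g :=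
  rfl

lemma pidElt_mul_mem (g : G) (c : ↥C) : pidElt C (g * c) = pidElt C g * c := by
  have hq : ((g * (c : G) : G) : G ⧸ C) = (g : G ⧸ C) := QuotientGroup.mk_mul_of_mem g c.2
  apply Subtype.ext
  rw [coe_pidElt, hq, Subgroup.coe_mul, coe_pidElt, mul_assoc]

lemma cocyc_mul_pidElt (h g : G) :
    cocyc C h ((h * g : G) : G ⧸ C) * pidElt C g = pidElt C (h * g) := by
  have hq : h⁻¹ • (((h * g : G) : G ⧸ C)) = (g : G ⧸ C) := by
    rw [MulAction.Quotient.smul_mk, smul_eq_mul, inv_mul_cancel_left]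
  apply Subtype.ext
  rw [Subgroup.coe_mul, coe_cocyc, hq, coe_pidElt, coe_pidElt]
  group

variable (Y : Rep.{0} k ↥C)

open Classical in
/-- the element `g ⊗ y` of the induced module `G ⧸ C → Y` -/
def pidE (g : G) : Y →ₗ[k] (G ⧸ C → Y) :=
  (LinearMap.single k (fun _ : G ⧸ C => Y) (g : G ⧸ C)) ∘ₗ (Y.ρ (pidElt C g))

open Classical in
lemma pidE_apply (g : G) (y : Y) :
    pidE Y g y = Pi.single (g : G ⧸ C) (Y.ρ (pidElt C g) y) := rfl

/-- `h (g ⊗ y) = h g ⊗ y` -/
lemma indRepn_pidE (h g : G) (y : Y) :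
    indRepn Y.ρ h (pidE Y g y) = pidE Y (h * g) y := by
  classical
  funext x
  rw [indRepn_apply, pidE_apply, pidE_apply]
  by_cases hx : x = ((h * g : G) : G ⧸ C)
  · subst hx
    have hq : h⁻¹ • (((h * g : G) : G ⧸ C)) = (g : G ⧸ C) := by
      rw [MulAction.Quotient.smul_mk, smul_eq_mul, inv_mul_cancel_left]
    rw [hq, Pi.single_eq_same, Pi.single_eq_same, ← Module.End.mul_apply, ← map_mul,
      cocyc_mul_pidElt]
  · have hx' : h⁻¹ • x ≠ (g : G ⧸ C) := by
      intro h1
      apply hx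
      rw [← smul_inv_smul h x, h1, MulAction.Quotient.smul_mk, smul_eq_mul]
    rw [Pi.single_eq_of_ne hx', map_zero, Pi.single_eq_of_ne hx]

/-- `g c ⊗ y = g ⊗ c y` -/
lemma pidE_mul_mem (g : G) (c : ↥C) (y : Y) :
    pidE Y (g * c) y = pidE Y g (Y.ρ c y) := by
  classical
  have hq : ((g * (c : G) : G) : G ⧸ C) = (g : G ⧸ C) := QuotientGroup.mk_mul_of_mem g c.2
  rw [pidE_apply, pidE_apply, hq, pidElt_mul_mem, map_mul, Module.End.mul_apply]

open Classical in
/-- `σ(x) ⊗ y = δ_x y` -/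
lemma pidE_cosetRep (x : G ⧸ C) (y : Y) :
    pidE Y (cosetRep C x) y = Pi.single x y := by
  classical
  have h1 : pidElt C (cosetRep C x) = 1 := by
    apply Subtype.ext
    rw [coe_pidElt, mk_cosetRep]
    simp
  rw [pidE_apply, h1, map_one, mk_cosetRep, Module.End.one_apply]

/-- a functional vanishing on all `g ⊗ y` vanishes -/
lemma pid_eq_zero_of_forall [Finite (G ⧸ C)] (F : Module.Dual k (G ⧸ C → Y))
    (h : ∀ (g : G) (y : Y), F (pidE Y g y) = 0) : F = 0 := by
  classical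
  haveI := Fintype.ofFinite (G ⧸ C)
  refine LinearMap.ext fun f => ?_
  have h1 : f = ∑ x : G ⧸ C, Pi.single x (f x) := by
    funext x
    simp [Finset.sum_apply, Pi.single_apply]
  rw [h1, map_sum]
  simp only [LinearMap.zero_apply]
  refine Finset.sum_eq_zero fun x _ => ?_
  rw [← pidE_cosetRep]
  exact h _ _

end Abstract

/-! ## The matrix coefficient map -/

section Phi

variable {k G : Type} [Field k] [Group G] {C : Subgroup G} (Y : Rep.{0} k ↥C) (χ : G →* kˣ)

/-- `Φ_F(y)(g) = χ(g)⁻¹ F(g ⊗ y)` -/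
def pidPhi : Module.Dual k (G ⧸ C → Y) →ₗ[k] (Y →ₗ[k] (G → k)) where
  toFun F :=
    { toFun := fun y g => (((χ g)⁻¹ : kˣ) : k) * F (pidE Y g y)
      map_add' := fun y y' => by
        funext g
        simp only [map_add, Pi.add_apply, mul_add]
      map_smul' := fun r y => by
        funext g
        simp only [map_smul, smul_eq_mul, Pi.smul_apply, RingHom.id_apply]
        ring }
  map_add' := fun F F' => by
    refine LinearMap.ext fun y => funext fun g => ?_
    simp only [LinearMap.add_apply, LinearMap.coe_mk, AddHom.coe_mk, Pi.add_apply, mul_add]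
  map_smul' := fun r F => by
    refine LinearMap.ext fun y => funext fun g => ?_
    simp only [LinearMap.smul_apply, LinearMap.coe_mk, AddHom.coe_mk, Pi.smul_apply,
      smul_eq_mul, RingHom.id_apply]
    ring

@[simp] lemma pidPhi_apply (F : Module.Dual k (G ⧸ C → Y)) (y : Y) (g : G) :
    pidPhi Y χ F y g = (((χ g)⁻¹ : kˣ) : k) * F (pidE Y g y) := rfl

lemma pidPhi_injective [Finite (G ⧸ C)] : Function.Injective (pidPhi Y χ) := by
  rw [← LinearMap.ker_eq_bot, LinearMap.ker_eq_bot']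
  intro F hF
  refine pid_eq_zero_of_forall Y F fun g y => ?_
  have h1 : pidPhi Y χ F y g = 0 := by rw [hF]; rfl
  rw [pidPhi_apply] at h1
  exact (mul_eq_zero.1 h1).resolve_left (Units.ne_zero _)

/-- the target is finite dimensional -/
lemma pid_finite_eqvIn (a : Y →ₗ[k] Y) (b : (G → k) →ₗ[k] (G → k)) (Dv P : Subgroup G)
    [Finite (G ⧸ P)] [Module.Finite k Y] :
    Module.Finite k ↥(eqvIn a b (dcFun (k := k) Dv P)) := by
  let R : ↥(eqvIn a b (dcFun (k := k) Dv P)) →ₗ[k] (Y →ₗ[k] (G ⧸ P → k)) :=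
    { toFun := fun φ => (LinearMap.funLeft k k (cosetRep P)) ∘ₗ φ.1
      map_add' := fun φ ψ => by
        rw [Submodule.coe_add, LinearMap.comp_add]
      map_smul' := fun r φ => by
        rw [Submodule.coe_smul, LinearMap.comp_smul, RingHom.id_apply] }
  have hR : Function.Injective R := by
    intro φ ψ hφψ
    apply Subtype.ext
    refine LinearMap.ext fun y => funext fun g => ?_
    have h1 : φ.1 y (cosetRep P ((g : G) : G ⧸ P)) = ψ.1 y (cosetRep P ((g : G) : G ⧸ P)) :=
      congrArg (fun ξ : Y →ₗ[k] (G ⧸ P → k) => ξ y ((g : G) : G ⧸ P)) hφψ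
    have h2 := (φ.2.2 y) 1 (Subgroup.one_mem _) (pidElt P g).1 (pidElt P g).2
      (cosetRep P ((g : G) : G ⧸ P))
    have h3 := (ψ.2.2 y) 1 (Subgroup.one_mem _) (pidElt P g).1 (pidElt P g).2
      (cosetRep P ((g : G) : G ⧸ P))
    rw [coe_pidElt, one_mul, mul_inv_cancel_left] at h2 h3
    rw [h2, h3, h1]
  exact Module.Finite.of_injective R hR

/-- semi-invariance of a functional in evaluated form -/
lemma pid_semiinv (F : Module.Dual k (G ⧸ C → Y)) (d : G)
    (hF : (χ d : k) • (F ∘ₗ indRepn Y.ρ d⁻¹) = F) (f : G ⧸ C → Y) :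
    F (indRepn Y.ρ d f) = (χ d : k) * F f := by
  have h1 := congrArg (fun F' : Module.Dual k (G ⧸ C → Y) => F' (indRepn Y.ρ d f)) hF
  simp only [LinearMap.smul_apply, LinearMap.comp_apply, smul_eq_mul] at h1
  rw [← h1, ← Module.End.mul_apply, ← map_mul, inv_mul_cancel, map_one, Module.End.one_apply]

/-- **The core inequality**: a space of functionals which are semi-invariant under `Dv` embeds
into the multiplicity space. -/
theorem pid_core (Dv P : Subgroup G) (c : ↥C) [Finite (G ⧸ C)] [Finite (G ⧸ P)]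
    [Module.Finite k Y] (hPC : P ≤ C)
    (hPY : ∀ u : ↥C, (u : G) ∈ P → ∀ y : Y, Y.ρ u y = y) (hPχ : ∀ u ∈ P, χ u = 1)
    {V : Type} [AddCommGroup V] [Module k V] (j : V →ₗ[k] Module.Dual k (G ⧸ C → Y))
    (hj : Function.Injective j)
    (hV : ∀ v : V, ∀ d ∈ Dv, ∀ f, j v (indRepn Y.ρ d f) = (χ d : k) * j v f) :
    Module.finrank k V ≤
      mltIn ((((χ c)⁻¹ : kˣ) : k) • Y.ρ c) (rtr (k := k) (c : G)) (dcFun Dv P) := by
  haveI := pid_finite_eqvIn Y ((((χ c)⁻¹ : kˣ) : k) • Y.ρ c) (rtr (k := k) (c : G)) Dv P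
  have hmem : ∀ v : V, (pidPhi Y χ ∘ₗ j) v ∈
      eqvIn ((((χ c)⁻¹ : kˣ) : k) • Y.ρ c) (rtr (k := k) (c : G)) (dcFun Dv P) := by
    intro v
    refine ⟨?_, fun y => ?_⟩
    · refine LinearMap.ext fun y => funext fun g => ?_
      simp only [LinearMap.comp_apply, LinearMap.smul_apply, rtr_apply, pidPhi_apply, map_smul,
        smul_eq_mul]
      rw [pidE_mul_mem, map_mul, mul_inv, Units.val_mul]
      ring
    · intro d hd u hu g
      simp only [LinearMap.comp_apply, pidPhi_apply]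
      have h1 : pidE Y (d * g * u) y = indRepn Y.ρ d (pidE Y g y) := by
        rw [indRepn_pidE, show d * g * u = (d * g) * ((⟨u, hPC hu⟩ : ↥C) : G) from rfl,
          pidE_mul_mem, hPY ⟨u, hPC hu⟩ hu]
      rw [h1, hV v d hd, map_mul, map_mul, hPχ u hu, mul_one, mul_inv, Units.val_mul]
      rw [mul_comm ((χ d)⁻¹ : kˣ).1, mul_assoc, ← mul_assoc ((χ d)⁻¹ : kˣ).1,
        ← Units.val_mul, inv_mul_cancel, Units.val_one, one_mul]
  let Ψ : V →ₗ[k] ↥(eqvIn ((((χ c)⁻¹ : kˣ) : k) • Y.ρ c) (rtr (k := k) (c : G)) (dcFun Dv P)) :=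
    LinearMap.codRestrict _ (pidPhi Y χ ∘ₗ j) hmem
  have hΨ : Function.Injective Ψ := by
    intro v w hvw
    have h1 := congrArg Subtype.val hvw
    exact hj (pidPhi_injective Y χ h1)
  exact LinearMap.finrank_le_finrank_of_injective hΨ

end Phi

/-! ## Stabilisers -/

section Stab

variable {k G : Type} [Field k] [Group G]

/-- the stabiliser of a vector -/
def pidStab (N : Rep.{0} k G) (F : N) : Subgroup G where
  carrier := {d | N.ρ d F = F}
  one_mem' := by
    change N.ρ 1 F = F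
    rw [map_one, Module.End.one_apply]
  mul_mem' := by
    intro a b ha hb
    change N.ρ (a * b) F = F
    rw [map_mul, Module.End.mul_apply, hb, ha]
  inv_mem' := by
    intro a ha
    change N.ρ a⁻¹ F = F
    conv_lhs => rw [← ha]
    rw [← Module.End.mul_apply, ← map_mul, inv_mul_cancel, map_one, Module.End.one_apply]

lemma mem_pidStab {N : Rep.{0} k G} {F : N} {d : G} : d ∈ pidStab N F ↔ N.ρ d F = F := Iff.rfl

end Stab

/-! ## The arithmetic instance -/

section Arith

variable (p : ℕ) [Fact p.Prime] (T : Finset Nat.Primes)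

/-- the inequality for one decomposition group -/
theorem pid_one (D : BSData p T) (Y : Rep.{0} (ZMod p) ↥D.C) (hY : YOk D Y)
    (Dv : Subgroup GQ) (W : Submodule (ZMod p) (dualT p (indRep Y)))
    (hW : ∀ F ∈ W, Dv ≤ pidStab (dualT p (indRep Y)) F) :
    Module.finrank (ZMod p) ↥W ≤ mltIn (D.yTw Y) (rtr D.c) (dcFun Dv D.pSub) := by
  haveI : Finite (GQ ⧸ D.N₀) := helper92.finite_quotient_of_mem_galLevels T D.N₀ D.hN₀
  have hfi : D.N₀.FiniteIndex := Subgroup.finiteIndex_of_finite_quotient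
  have hfiC : D.C.FiniteIndex := Subgroup.finiteIndex_of_le D.hle
  have hfiP : D.pSub.FiniteIndex := Subgroup.finiteIndex_of_le D.le_pSub
  haveI : Finite (GQ ⧸ D.C) := inferInstance
  haveI : Finite (GQ ⧸ D.pSub) := inferInstance
  haveI : Module.Finite (ZMod p) Y := hY.1
  haveI := D.normal_N₀
  have hPp : D.pSub ≤ ecbPPart p D.C D.N₀ D.isCyclicMod :=
    (Subgroup.closure_le _).2 fun u hu => hu
  have hPY : ∀ u : ↥D.C, (u : GQ) ∈ D.pSub → ∀ y : Y, Y.ρ u y = y :=
    fun u hu => hY.2 u (hPp hu).2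
  have hPχ : ∀ u ∈ D.pSub, cycloChar p u = 1 :=
    char_trivial_of_pQuot (cycloChar p) D.hχ (fun g hg => (hPp hg).2)
  let j : ↥W →ₗ[ZMod p] Module.Dual (ZMod p) (GQ ⧸ D.C → Y) := W.subtype
  have hj : Function.Injective j := Subtype.val_injective
  refine pid_core Y (cycloChar p) Dv D.pSub D.cC D.pSub_le hPY hPχ j hj ?_
  intro F d hd f
  refine pid_semiinv Y (cycloChar p) (j F) d ?_ f
  have h1 : (dualT p (indRep Y)).ρ d F.1 = F.1 := hW F.1 F.2 hd
  rw [Rep.dualTwist_ρ_apply] at h1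
  exact h1

/-- **BS-PERMIND** -/
theorem permInd : PermIndStatement p T := by
  intro _ _ _ _ D Y hY
  unfold locH0d realH0d
  rw [Fintype.sum_option, add_comm]
  refine add_le_add ?_ (Finset.sum_le_sum fun v _ => ?_)
  · refine pid_one p T D Y hY (D.dec none) (realH0 (dualT p (indRep Y))) fun F hF => ?_
    change Subgroup.zpowers complexConjugation ≤ _
    rw [Subgroup.zpowers_le, mem_pidStab]
    have h1 : ((dualT p (indRep Y)).ρ complexConjugation - 1) F = 0 := hF
    rw [LinearMap.sub_apply, Module.End.one_apply, sub_eq_zero] at h1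
    exact h1
  · refine pid_one p T D Y hY (D.dec (some v))
      (S55.H0 ((galLocal T).loc (dualT p (indRep Y)) v)) fun F hF => ?_
    rintro d ⟨h, rfl⟩
    exact hF h

end Arith

end Fermat.Agent.P1.helper93
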