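import Fermat.Agent.P1.helper7_BSProps
import Fermat.Agent.P1.helper9_ECShap
import Fermat.Agent.P1.helper93_ECBaseAsm

/-!
# P1 / module EC / BASE-STAR, package BS-KEXT (helper94)

`kExt : Fermat.Agent.P1.helper7.KExtStatement p T`:
`mult(z, 𝐇) ≤ h¹(G_T, Ind_C^G Y)`.

* `exists_cocycle_ext` : (abstract) a homomorphism `ξ : Pn → Y` on a normal subgroup `Pn` of finite
  index invertible in `k`, equivariant for the conjugation action of `Γ`, `Pn` acting trivially on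
  `Y`, extends to a `1`-cocycle of `Γ` (averaged corestriction);
* the map `H¹(C, Y) → Hom(Y^*, (P → k))`, `[z] ↦ (f ↦ f ∘ z|P)`, whose range contains
  `eqvIn (zY) cs 𝐇`;
* Shapiro (`helper9.shapiro_ind`) and `FinOut` give the inequality.
-/

set_option autoImplicit false
set_option linter.unusedSectionVars false
set_option linter.style.haveILetI false
set_option linter.unusedVariables false
set_option linter.unusedSimpArgs false

open groupCohomology ExtCitation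

noncomputable section

namespace Fermat.Agent.P1.helper94

open Fermat.Agent.S55 Fermat.Agent.S55.helper57 Fermat.Agent.P1.helper70
  Fermat.Agent.P1.helper63 Fermat.Agent.P1.helper7

/-! ## Extension of equivariant homomorphisms to cocycles -/

section Ext

variable {k Γ Y : Type} [Field k] [Group Γ] [AddCommGroup Y] [Module k Y]
  (Pn : Subgroup Γ) [hPn : Pn.Normal] [Fintype (Γ ⧸ Pn)]
  (ρ : Representation k Γ Y) (ξ : ↥Pn → Y)

/-- the corestriction of `ξ`: `g ↦ ∑ₓ ρ(σ x) ξ(c(g, x))` -/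
def corSum (g : Γ) : Y := ∑ x : Γ ⧸ Pn, ρ (cosetRep Pn x) (ξ (cocyc Pn g x))

variable {Pn ρ ξ}

lemma rho_cosetRep_smul (hρ : ∀ u ∈ Pn, ρ u = 1) (g : Γ) (x : Γ ⧸ Pn) :
    ρ g * ρ (cosetRep Pn (g⁻¹ • x)) = ρ (cosetRep Pn x) := by
  have h1 : g * cosetRep Pn (g⁻¹ • x) = cosetRep Pn x * (cocyc Pn g x : Γ) := by
    rw [coe_cocyc]; group
  rw [← map_mul, h1, map_mul, hρ _ (cocyc Pn g x).2, mul_one]

lemma corSum_mul (hρ : ∀ u ∈ Pn, ρ u = 1) (hadd : ∀ u v : ↥Pn, ξ (u * v) = ξ u + ξ v)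
    (g h : Γ) : corSum Pn ρ ξ (g * h) = corSum Pn ρ ξ g + ρ g (corSum Pn ρ ξ h) := by
  unfold corSum
  rw [map_sum, ← Finset.sum_add_distrib]
  have e : ∑ x : Γ ⧸ Pn, ρ g (ρ (cosetRep Pn x) (ξ (cocyc Pn h x))) =
      ∑ x : Γ ⧸ Pn, ρ (cosetRep Pn x) (ξ (cocyc Pn h (g⁻¹ • x))) := by
    rw [← Equiv.sum_comp (MulAction.toPerm g⁻¹ : Γ ⧸ Pn ≃ Γ ⧸ Pn)
      (fun x => ρ g (ρ (cosetRep Pn x) (ξ (cocyc Pn h x))))]
    refine Finset.sum_congr rfl fun x _ => ?_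
    rw [MulAction.toPerm_apply, ← Module.End.mul_apply, rho_cosetRep_smul hρ]
  rw [Finset.sum_add_distrib, e, ← Finset.sum_add_distrib]
  refine Finset.sum_congr rfl fun x _ => ?_
  rw [cocyc_mul, hadd, map_add]

lemma smul_eq_of_mem {u : Γ} (hu : u ∈ Pn) (x : Γ ⧸ Pn) : u⁻¹ • x = x := by
  induction x using QuotientGroup.induction_on with
  | H a =>
    rw [MulAction.Quotient.smul_mk, smul_eq_mul, QuotientGroup.eq]
    have : (u⁻¹ * a)⁻¹ * a = a⁻¹ * u * a := by group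
    rw [this]
    have := hPn.conj_mem u hu a⁻¹
    simpa using this

lemma corSum_of_mem (hconj : ∀ (g : Γ) (u : ↥Pn) (h : g⁻¹ * (u : Γ) * g ∈ Pn),
      ξ ⟨g⁻¹ * (u : Γ) * g, h⟩ = ρ g⁻¹ (ξ u)) (u : ↥Pn) :
    corSum Pn ρ ξ (u : Γ) = (Fintype.card (Γ ⧸ Pn) : k) • ξ u := by
  unfold corSum
  have e : ∀ x : Γ ⧸ Pn, ρ (cosetRep Pn x) (ξ (cocyc Pn (u : Γ) x)) = ξ u := by
    intro x
    have h1 : (cocyc Pn (u : Γ) x : Γ) = (cosetRep Pn x)⁻¹ * (u : Γ) * cosetRep Pn x := by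
      rw [coe_cocyc, smul_eq_of_mem u.2]
    have hmem : (cosetRep Pn x)⁻¹ * (u : Γ) * cosetRep Pn x ∈ Pn := by
      rw [← h1]; exact (cocyc Pn (u : Γ) x).2
    have h2 : cocyc Pn (u : Γ) x = ⟨(cosetRep Pn x)⁻¹ * (u : Γ) * cosetRep Pn x, hmem⟩ :=
      Subtype.ext h1
    rw [h2, hconj (cosetRep Pn x) u hmem, ← Module.End.mul_apply, ← map_mul, mul_inv_cancel,
      map_one, Module.End.one_apply]
  rw [Finset.sum_congr rfl fun x _ => e x, Finset.sum_const, Finset.card_univ,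
    Nat.cast_smul_eq_nsmul]

/-- **Extension.** A `Γ`-equivariant homomorphism `ξ : Pn → Y` (`Pn` normal of finite index
invertible in `k`, acting trivially on `Y`) is the restriction of a `1`-cocycle of `Γ`. -/
theorem exists_cocycle_ext (hcard : (Fintype.card (Γ ⧸ Pn) : k) ≠ 0)
    (hρ : ∀ u ∈ Pn, ρ u = 1) (hadd : ∀ u v : ↥Pn, ξ (u * v) = ξ u + ξ v)
    (hconj : ∀ (g : Γ) (u : ↥Pn) (h : g⁻¹ * (u : Γ) * g ∈ Pn),
      ξ ⟨g⁻¹ * (u : Γ) * g, h⟩ = ρ g⁻¹ (ξ u)) :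
    ∃ z : Γ → Y, (∀ g h, z (g * h) = z g + ρ g (z h)) ∧ ∀ u : ↥Pn, z (u : Γ) = ξ u := by
  refine ⟨fun g => (Fintype.card (Γ ⧸ Pn) : k)⁻¹ • corSum Pn ρ ξ g, fun g h => ?_, fun u => ?_⟩
  · simp only
    rw [corSum_mul hρ hadd, smul_add, map_smul]
  · simp only
    rw [corSum_of_mem hconj, smul_smul, inv_mul_cancel₀ hcard, one_smul]

end Ext

/-! ## The group theory of `P ≤ C` -/

section Groups

variable {p : ℕ} [Fact p.Prime] {T : Finset Nat.Primes} (D : BSData p T)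

lemma pSub_eq_ecbPPart :
    haveI := D.normal_N₀
    D.pSub = helper93.ecbPPart p D.C D.N₀ D.isCyclicMod := by
  haveI := D.normal_N₀
  exact Subgroup.closure_eq (helper93.ecbPPart p D.C D.N₀ D.isCyclicMod)

lemma mem_pSub_iff {u : GQ} : u ∈ D.pSub ↔ u ∈ D.C ∧ ∃ m : ℕ, u ^ p ^ m ∈ D.N₀ := by
  haveI := D.normal_N₀
  rw [pSub_eq_ecbPPart]
  exact helper93.mem_ecbPPart

/-- `P` as a subgroup of `C` -/
def pC : Subgroup ↥D.C := D.pSub.subgroupOf D.C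

lemma mem_pC {u : ↥D.C} : u ∈ pC D ↔ (u : GQ) ∈ D.pSub := Subgroup.mem_subgroupOf

lemma pC_normal : (pC D).Normal := by
  haveI := D.normal_N₀
  have h := helper93.ecbPPart_normal (p := p) D.isCyclicMod
  rw [← pSub_eq_ecbPPart] at h
  exact h

lemma pC_finite (hpT : pPrime p ∈ T) : Finite (↥D.C ⧸ pC D) := by
  haveI := D.normal_N₀
  obtain ⟨hfin, -⟩ := helper92.levelStatement p T hpT
  haveI : Finite (GQ ⧸ D.N₀) := hfin D.N₀ D.hN₀
  have hfi : D.N₀.FiniteIndex := Subgroup.finiteIndex_of_finite_quotient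
  have hfi1 : (D.N₀.subgroupOf D.C).FiniteIndex := inferInstance
  have hfi2 : (pC D).FiniteIndex :=
    Subgroup.finiteIndex_of_le (H := D.N₀.subgroupOf D.C)
      (Subgroup.subgroupOf_mono D.C D.le_pSub)
  infer_instance

lemma pC_not_dvd_card (hpT : pPrime p ∈ T) : ¬ p ∣ Nat.card (↥D.C ⧸ pC D) := by
  haveI := D.normal_N₀
  obtain ⟨hfin, -⟩ := helper92.levelStatement p T hpT
  haveI : Finite (GQ ⧸ D.N₀) := hfin D.N₀ D.hN₀
  have h := helper93.ecb_not_dvd_card (p := p) D.isCyclicMod D.hle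
  rw [← pSub_eq_ecbPPart] at h
  exact h

/-- every element of `C` is a power of `c` times an element of `P` -/
lemma exists_pow_mul (x : ↥D.C) : ∃ (m : ℕ) (u : ↥D.C), u ∈ pC D ∧ x = D.cC ^ m * u := by
  obtain ⟨m, hm⟩ := D.hgen x x.2
  have hmem : ((x : GQ)⁻¹ * D.c ^ m)⁻¹ ∈ D.C :=
    D.C.inv_mem (D.C.mul_mem (D.C.inv_mem x.2) (D.C.pow_mem D.hc m))
  refine ⟨m, ⟨((x : GQ)⁻¹ * D.c ^ m)⁻¹, hmem⟩, ?_, ?_⟩
  · rw [mem_pC]
    exact D.pSub.inv_mem (D.le_pSub hm)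
  · apply Subtype.ext
    simp only [BSData.cC, Subgroup.coe_mul, Subgroup.coe_pow]
    group

end Groups

/-! ## From intertwining maps to cocycles -/

section Main

variable {p : ℕ} [Fact p.Prime] {T : Finset Nat.Primes} (D : BSData p T)
  (Y : Rep.{0} (ZMod p) ↥D.C)

/-- the levels of `C` -/
abbrev levC : Levels ↥D.C :=
  helper35.restrictLevels (galLevels T) D.C D.exists_level_le_C

/-- `z ↦ (f ↦ f ∘ z|P)` -/
def resMap : (↥D.C → Y) →ₗ[ZMod p] (Module.Dual (ZMod p) Y →ₗ[ZMod p] D.Fun) where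
  toFun z :=
    { toFun := fun f u => f (z ⟨(u : GQ), D.pSub_le u.2⟩)
      map_add' := fun f f' => by
        funext u
        exact LinearMap.add_apply f f' _
      map_smul' := fun a f => by
        funext u
        exact LinearMap.smul_apply a f _ }
  map_add' z z' := by
    refine LinearMap.ext fun f => funext fun u => ?_
    exact map_add f _ _
  map_smul' a z := by
    refine LinearMap.ext fun f => funext fun u => ?_
    exact map_smul f a _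

lemma resMap_apply (z : ↥D.C → Y) (f : Module.Dual (ZMod p) Y) (u : ↥D.pSub) :
    resMap D Y z f u = f (z ⟨(u : GQ), D.pSub_le u.2⟩) := rfl

variable {D Y}

lemma rho_eq_one_of_mem_pC (hY : YOk D Y) {u : ↥D.C} (hu : u ∈ pC D) : Y.ρ u = 1 := by
  obtain ⟨-, m, hm⟩ := (mem_pSub_iff D).1 (mem_pC D |>.1 hu)
  exact LinearMap.ext fun y => hY.2 u ⟨m, hm⟩ y

/-- coboundaries restrict to `0` on `P` -/
lemma resMap_of_mem_B1 (hY : YOk D Y) {z : ↥D.C → Y} (hz : z ∈ B1 Y) : resMap D Y z = 0 := by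
  obtain ⟨y, rfl⟩ := hz
  refine LinearMap.ext fun f => funext fun u => ?_
  rw [resMap_apply, d₀₁_hom_apply,
    rho_eq_one_of_mem_pC hY (u := ⟨(u : GQ), D.pSub_le u.2⟩) ((mem_pC D).2 u.2),
    Module.End.one_apply, sub_self, map_zero]
  rfl

/-- the elements of `𝐇` are homomorphisms -/
lemma hsp_mul {x : D.Fun} (hx : x ∈ D.Hsp) (u v : ↥D.pSub) : x (u * v) = x u + x v := by
  have h : (d₁₂ (helper35.trivRep (ZMod p) ↥D.pSub)).hom x = 0 := hx.2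
  have h' := congrFun h (u, v)
  rw [d₁₂_hom_apply] at h'
  have h'' : x v - x (u * v) + x u = 0 := h'
  have e : x (u * v) = x (u * v) + (x v - x (u * v) + x u) := by rw [h'', add_zero]
  rw [e]; abel

lemma hsp_one {x : D.Fun} (hx : x ∈ D.Hsp) : x 1 = 0 := by
  have h := hsp_mul hx 1 1
  rw [mul_one] at h
  exact left_eq_add.1 h

/-- an element of `𝐇` vanishes on a level -/
lemma hsp_exists_level {x : D.Fun} (hx : x ∈ D.Hsp) :
    ∃ N ∈ (galLevels T).mem, N ≤ D.pSub ∧ ∀ u : ↥D.pSub, (u : GQ) ∈ N → x u = 0 := by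
  obtain ⟨N', ⟨N, hN, hNP, rfl⟩, h⟩ := hx.1
  refine ⟨N, hN, hNP, fun u hu => ?_⟩
  have := h 1 u (Subgroup.mem_subgroupOf.2 hu)
  rw [one_mul] at this
  rw [this, hsp_one hx]

/-- finitely many elements of `𝐇` vanish on a common level -/
lemma exists_level_finset (φ : Module.Dual (ZMod p) Y →ₗ[ZMod p] D.Fun)
    (hφ : ∀ f, φ f ∈ D.Hsp) (S : Finset (Module.Dual (ZMod p) Y)) :
    ∃ N ∈ (galLevels T).mem, N ≤ D.pSub ∧
      ∀ f ∈ S, ∀ u : ↥D.pSub, (u : GQ) ∈ N → φ f u = 0 := by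
  classical
  induction S using Finset.induction_on with
  | empty =>
    exact ⟨D.N₀, D.hN₀, D.le_pSub, fun f hf => absurd hf (Finset.notMem_empty f)⟩
  | insert a S ha ih =>
    obtain ⟨N₁, hN₁, hN₁P, h₁⟩ := ih
    obtain ⟨N₂, hN₂, hN₂P, h₂⟩ := hsp_exists_level (hφ a)
    obtain ⟨N, hN, hle⟩ := (galLevels T).directed N₁ hN₁ N₂ hN₂
    refine ⟨N, hN, fun u hu => hN₁P (hle hu).1, fun f hf u hu => ?_⟩
    rcases Finset.mem_insert.1 hf with rfl | hf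
    · exact h₂ u (hle hu).2
    · exact h₁ f hf u (hle hu).1

/-- all values of `φ` vanish on a common level -/
lemma exists_level_all (hY : YOk D Y) (φ : Module.Dual (ZMod p) Y →ₗ[ZMod p] D.Fun)
    (hφ : ∀ f, φ f ∈ D.Hsp) :
    ∃ N ∈ (galLevels T).mem, N ≤ D.pSub ∧
      ∀ f, ∀ u : ↥D.pSub, (u : GQ) ∈ N → φ f u = 0 := by
  haveI : Module.Finite (ZMod p) Y := hY.1
  obtain ⟨S, hS⟩ := (Module.Finite.fg_top : (⊤ : Submodule (ZMod p) (Module.Dual (ZMod p) Y)).FG)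
  obtain ⟨N, hN, hNP, h⟩ := exists_level_finset φ hφ S
  refine ⟨N, hN, hNP, fun f u hu => ?_⟩
  have hf : f ∈ Submodule.span (ZMod p) (S : Set (Module.Dual (ZMod p) Y)) := by
    rw [hS]; exact Submodule.mem_top
  induction hf using Submodule.span_induction with
  | mem x hx => exact h x hx u hu
  | zero => rw [map_zero]; rfl
  | add x y _ _ hx hy =>
    rw [map_add]
    change φ x u + φ y u = 0
    rw [hx, hy, add_zero]
  | smul a x _ hx =>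
    rw [map_smul]
    change a • φ x u = 0
    rw [hx, smul_zero]

lemma eq_of_forall_dual (hY : YOk D Y) {a b : Y}
    (h : ∀ f : Module.Dual (ZMod p) Y, f a = f b) : a = b := by
  haveI : Module.Finite (ZMod p) Y := hY.1
  rw [← sub_eq_zero, ← Module.forall_dual_apply_eq_zero_iff (ZMod p)]
  intro f
  rw [map_sub, h f, sub_self]

/-- **Key step**: every `φ ∈ Hom_{z, cs}(Y^*, 𝐇)` is `f ↦ f ∘ z|P` for a level cocycle `z` of
`C` with values in `Y`. -/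
theorem exists_cocycle_of_mem_eqvIn (hpT : pPrime p ∈ T) (hY : YOk D Y)
    (φ : Module.Dual (ZMod p) Y →ₗ[ZMod p] D.Fun)
    (hφ : φ ∈ eqvIn (D.zY Y) D.cs D.Hsp) :
    ∃ z ∈ Z1 (levC D) Y, resMap D Y z = φ := by
  haveI : Module.Finite (ZMod p) Y := hY.1
  haveI := pC_normal D
  haveI := pC_finite D hpT
  letI : Fintype (↥D.C ⧸ pC D) := Fintype.ofFinite _
  obtain ⟨hint, hH⟩ := hφ
  -- the homomorphism `ξ : P → Y`
  let ev : ↥D.pSub → Module.Dual (ZMod p) (Module.Dual (ZMod p) Y) := fun u =>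
    { toFun := fun f => φ f u
      map_add' := fun f f' => by rw [map_add]; rfl
      map_smul' := fun a f => by rw [map_smul]; rfl }
  let ξ : ↥(pC D) → Y := fun u =>
    (Module.evalEquiv (ZMod p) Y).symm (ev ⟨(u : GQ), (mem_pC D).1 u.2⟩)
  have hξ : ∀ (f : Module.Dual (ZMod p) Y) (u : ↥(pC D)),
      f (ξ u) = φ f ⟨(u : GQ), (mem_pC D).1 u.2⟩ := fun f u =>
    Module.apply_evalEquiv_symm_apply (ZMod p) Y f _
  have hadd : ∀ u v : ↥(pC D), ξ (u * v) = ξ u + ξ v := by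
    intro u v
    refine eq_of_forall_dual hY fun f => ?_
    rw [map_add, hξ, hξ, hξ]
    exact hsp_mul (hH f) ⟨(u : GQ), (mem_pC D).1 u.2⟩ ⟨(v : GQ), (mem_pC D).1 v.2⟩
  have hρ : ∀ u ∈ pC D, Y.ρ u = 1 := fun u hu => rho_eq_one_of_mem_pC hY hu
  -- equivariance
  have hconj_c : ∀ (u : ↥(pC D)) (h : D.cC⁻¹ * (u : ↥D.C) * D.cC ∈ pC D),
      ξ ⟨D.cC⁻¹ * (u : ↥D.C) * D.cC, h⟩ = Y.ρ D.cC⁻¹ (ξ u) := by
    intro u h
    refine eq_of_forall_dual hY fun f => ?_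
    rw [hξ]
    have h1 := congrFun (LinearMap.congr_fun hint f) ⟨(u : GQ), (mem_pC D).1 u.2⟩
    rw [LinearMap.comp_apply, LinearMap.comp_apply, BSData.cs_apply] at h1
    have h2 : φ (D.zY Y f) ⟨(u : GQ), (mem_pC D).1 u.2⟩ = f (Y.ρ D.cC⁻¹ (ξ u)) := by
      rw [← hξ (D.zY Y f) u]
      rfl
    rw [← h2, h1]
    rfl
  have hconj : ∀ (g : ↥D.C) (u : ↥(pC D)) (h : g⁻¹ * (u : ↥D.C) * g ∈ pC D),
      ξ ⟨g⁻¹ * (u : ↥D.C) * g, h⟩ = Y.ρ g⁻¹ (ξ u) := by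
    -- the set of good `g` is closed under products and contains `c` and `P`
    have hmul : ∀ g₁ g₂ : ↥D.C,
        (∀ (u : ↥(pC D)) (h : g₁⁻¹ * (u : ↥D.C) * g₁ ∈ pC D),
          ξ ⟨g₁⁻¹ * (u : ↥D.C) * g₁, h⟩ = Y.ρ g₁⁻¹ (ξ u)) →
        (∀ (u : ↥(pC D)) (h : g₂⁻¹ * (u : ↥D.C) * g₂ ∈ pC D),
          ξ ⟨g₂⁻¹ * (u : ↥D.C) * g₂, h⟩ = Y.ρ g₂⁻¹ (ξ u)) →
        ∀ (u : ↥(pC D)) (h : (g₁ * g₂)⁻¹ * (u : ↥D.C) * (g₁ * g₂) ∈ pC D),
          ξ ⟨(g₁ * g₂)⁻¹ * (u : ↥D.C) * (g₁ * g₂), h⟩ = Y.ρ (g₁ * g₂)⁻¹ (ξ u) := by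
      intro g₁ g₂ h₁ h₂ u h
      have hm1 : g₁⁻¹ * (u : ↥D.C) * g₁ ∈ pC D := by
        have := (pC_normal D).conj_mem (u : ↥D.C) u.2 g₁⁻¹
        simpa using this
      have e : (g₁ * g₂)⁻¹ * (u : ↥D.C) * (g₁ * g₂) =
          g₂⁻¹ * ((⟨g₁⁻¹ * (u : ↥D.C) * g₁, hm1⟩ : ↥(pC D)) : ↥D.C) * g₂ := by
        simp only [mul_inv_rev]
        group
      have e' : (⟨(g₁ * g₂)⁻¹ * (u : ↥D.C) * (g₁ * g₂), h⟩ : ↥(pC D)) =
          ⟨g₂⁻¹ * ((⟨g₁⁻¹ * (u : ↥D.C) * g₁, hm1⟩ : ↥(pC D)) : ↥D.C) * g₂, e ▸ h⟩ :=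
        Subtype.ext e
      rw [e', h₂, h₁, mul_inv_rev, map_mul, Module.End.mul_apply]
    have hpow : ∀ (m : ℕ) (u : ↥(pC D)) (h : (D.cC ^ m)⁻¹ * (u : ↥D.C) * D.cC ^ m ∈ pC D),
        ξ ⟨(D.cC ^ m)⁻¹ * (u : ↥D.C) * D.cC ^ m, h⟩ = Y.ρ (D.cC ^ m)⁻¹ (ξ u) := by
      intro m
      induction m with
      | zero =>
        intro u h
        have e : (⟨(D.cC ^ 0)⁻¹ * (u : ↥D.C) * D.cC ^ 0, h⟩ : ↥(pC D)) = u :=
          Subtype.ext (by simp)
        rw [e, pow_zero, inv_one, map_one, Module.End.one_apply]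
      | succ m ih =>
        intro u h
        have := hmul (D.cC ^ m) D.cC ih hconj_c u (by rwa [pow_succ] at h)
        simpa only [pow_succ] using this
    have hP : ∀ (v : ↥D.C), v ∈ pC D → ∀ (u : ↥(pC D)) (h : v⁻¹ * (u : ↥D.C) * v ∈ pC D),
        ξ ⟨v⁻¹ * (u : ↥D.C) * v, h⟩ = Y.ρ v⁻¹ (ξ u) := by
      intro v hv u h
      have e : (⟨v⁻¹ * (u : ↥D.C) * v, h⟩ : ↥(pC D)) = (⟨v, hv⟩ : ↥(pC D))⁻¹ * u * ⟨v, hv⟩ :=
        Subtype.ext rfl
      have hinv : ξ (⟨v, hv⟩ : ↥(pC D))⁻¹ + ξ ⟨v, hv⟩ = 0 := by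
        rw [← hadd, inv_mul_cancel]
        have h1 := hadd 1 1
        rw [mul_one] at h1
        exact left_eq_add.1 h1
      rw [e, hadd, hadd, hρ v⁻¹ ((pC D).inv_mem hv), Module.End.one_apply]
      have : ξ (⟨v, hv⟩ : ↥(pC D))⁻¹ + ξ u + ξ ⟨v, hv⟩ =
          ξ u + (ξ (⟨v, hv⟩ : ↥(pC D))⁻¹ + ξ ⟨v, hv⟩) := by abel
      rw [this, hinv, add_zero]
    intro g u h
    obtain ⟨m, v, hv, rfl⟩ := exists_pow_mul D g
    exact hmul (D.cC ^ m) v (hpow m) (hP v hv) u h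
  -- the extension
  have hcard : (Fintype.card (↥D.C ⧸ pC D) : ZMod p) ≠ 0 := by
    rw [Ne, ZMod.natCast_eq_zero_iff, ← Nat.card_eq_fintype_card]
    exact pC_not_dvd_card D hpT
  obtain ⟨z, hz, hzξ⟩ := exists_cocycle_ext (Pn := pC D) (ρ := Y.ρ) (ξ := ξ) hcard hρ hadd hconj
  -- the level
  obtain ⟨N, hN, hNP, hvan⟩ := exists_level_all hY φ hH
  have hξN : ∀ s : ↥D.C, (s : GQ) ∈ N → z s = 0 := by
    intro s hs
    have hsP : s ∈ pC D := (mem_pC D).2 (hNP hs)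
    have h1 := hzξ ⟨s, hsP⟩
    rw [h1]
    refine eq_of_forall_dual hY fun f => ?_
    rw [hξ, map_zero]
    exact hvan f _ hs
  refine ⟨z, ⟨?_, ?_⟩, ?_⟩
  · refine ⟨N.subgroupOf D.C, ⟨N, hN, hNP.trans D.pSub_le, rfl⟩, fun g s hs => ?_⟩
    rw [hz, hξN s (Subgroup.mem_subgroupOf.1 hs), map_zero, add_zero]
  · rw [SetLike.mem_coe, LinearMap.mem_ker]
    funext x
    rw [d₁₂_hom_apply, hz]
    change Y.ρ x.1 (z x.2) - (z x.1 + Y.ρ x.1 (z x.2)) + z x.1 = 0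
    abel
  · refine LinearMap.ext fun f => funext fun u => ?_
    rw [resMap_apply]
    have h1 := hzξ ⟨⟨(u : GQ), D.pSub_le u.2⟩, (mem_pC D).2 u.2⟩
    rw [h1, hξ]

end Main

/-! ## The statement -/

section Final

variable (p : ℕ) [Fact p.Prime] (T : Finset Nat.Primes)

/-- **BS-KEXT**: `mult(z, 𝐇) ≤ h¹(G_T, Ind_C^G Y)`. -/
theorem kExt : KExtStatement p T := by
  intro hp2 hpT hB hF D Y hY
  haveI : Module.Finite (ZMod p) Y := hY.1
  haveI hN₀n : D.N₀.Normal := D.normal_N₀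
  -- `Y` is smooth, `Ind Y` is finite and smooth
  have hYN : ∀ u : ↥D.C, (u : GQ) ∈ D.N₀ → ∀ y : Y, Y.ρ u y = y :=
    fun u hu y => hY.2 u ⟨0, by simpa using hu⟩ y
  have hsm : IsSmooth (levC D) Y :=
    ⟨D.N₀.subgroupOf D.C, ⟨D.N₀, D.hN₀, D.hle, rfl⟩,
      fun s hs y => hYN s (Subgroup.mem_subgroupOf.1 hs) y⟩
  have hfinInd : Module.Finite (ZMod p) (indRep Y) := by
    obtain ⟨hfin, -⟩ := helper92.levelStatement p T hpT
    have : Finite (GQ ⧸ D.N₀) := hfin D.N₀ D.hN₀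
    have hfi : D.N₀.FiniteIndex := Subgroup.finiteIndex_of_finite_quotient
    have hfiC : D.C.FiniteIndex := Subgroup.finiteIndex_of_le D.hle
    have hfinC : Finite (GQ ⧸ D.C) := inferInstance
    exact (inferInstance : Module.Finite (ZMod p) (GQ ⧸ D.C → Y))
  have hsmInd : IsSmooth (galLevels T) (indRep Y) :=
    ⟨D.N₀, D.hN₀, fun s hs f => helper57.indRepn_trivial_of_mem D.hle Y.ρ hYN hs f⟩
  obtain ⟨hH1, -⟩ := hF (indRep Y) hfinInd hsmInd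
  -- Shapiro
  obtain ⟨-, ⟨e₁⟩, -, -⟩ :=
    helper9.shapiro_ind_aux (galLevels T) D.C D.exists_level_le_C Y hsm
  haveI : Module.Finite (ZMod p) (S55.H1 (levC D) Y) := Module.Finite.equiv e₁
  -- the map `H¹(C, Y) → Hom(Y^*, (P → k))`
  have hker : (B1 Y).comap (Z1 (levC D) Y).subtype ≤
      LinearMap.ker ((resMap D Y).comp (Z1 (levC D) Y).subtype) := by
    intro z hz
    rw [LinearMap.mem_ker, LinearMap.comp_apply]
    exact resMap_of_mem_B1 hY hz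
  let Φ : S55.H1 (levC D) Y →ₗ[ZMod p] (Module.Dual (ZMod p) Y →ₗ[ZMod p] D.Fun) :=
    Submodule.liftQ _ ((resMap D Y).comp (Z1 (levC D) Y).subtype) hker
  have hle : eqvIn (D.zY Y) D.cs D.Hsp ≤ LinearMap.range Φ := by
    intro φ hφ
    obtain ⟨z, hz, rfl⟩ := exists_cocycle_of_mem_eqvIn hpT hY φ hφ
    exact ⟨Submodule.Quotient.mk ⟨z, hz⟩, rfl⟩
  calc mltIn (D.zY Y) D.cs D.Hsp
      ≤ Module.finrank (ZMod p) ↥(LinearMap.range Φ) := Submodule.finrank_mono hle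
    _ ≤ Module.finrank (ZMod p) (S55.H1 (levC D) Y) := LinearMap.finrank_range_le Φ
    _ = hd1 (galLevels T) (indRep Y) := e₁.finrank_eq.symm

end Final

end Fermat.Agent.P1.helper94
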