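import Fermat.Agent.P1.helper63_ECStar
import Fermat.Agent.P1.helper7_BSProps
import Fermat.Agent.P1.helper7_BSKum
import Fermat.Agent.P1.helper94_BSKExt
import Fermat.Agent.P1.helper50_BSClassFinal
import Fermat.Agent.P1.helper82_BSH0Ind
import Fermat.Agent.P1.helper93_BSPermInd
import Fermat.Agent.P1.helper46_BSShaInd

/-!
# P1 / module EC (helper63): module EC from BS-UNITS alone

Six of the seven inequalities of BASE-STAR are on main (`helper94.kExt`, `helper50.klass_of_kum`
with `helper7.kumBridge`, `helper82.h0Ind`, `helper82.h0Ind'`, `helper93.permInd`,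
`helper46.shaInd`); the only open input of module EC is `helper7.UnitsStatement`:

  `ecOut_of_units : Setting → (∀ T', helper7.UnitsStatement p T') → helper70.ECOut p ρbar Smin`.
-/

set_option autoImplicit false

open IsLocalRing groupCohomology ExtCitation

noncomputable section

namespace Fermat.Agent.P1.helper63

open Fermat.Agent.S55 Fermat.Agent.P1.helper70

section Pkg

variable (p : ℕ) [Fact p.Prime] (T : Finset Nat.Primes)

/-- `BaseStarOut` from BS-UNITS. -/
theorem baseStarOut_of_units (hp2 : p ≠ 2) (hpT : pPrime p ∈ T)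
    (hU : helper7.UnitsStatement p T) : BaseStarOut p T :=
  helper7.baseStarOut_of_packages hp2 hpT helper90.baseInputStatement (finOut p T hp2 hpT)
    (helper94.kExt p T) (helper50.klass_of_kum (helper7.kumBridge p T)) hU
    (helper82.h0Ind p T) (helper82.h0Ind' p T) (helper93.permInd p T) (helper46.shaInd p T)

/-- Tate's global Euler characteristic formula from BS-UNITS. -/
theorem tateOut_of_units (hp2 : p ≠ 2) (hpT : pPrime p ∈ T)
    (hU : helper7.UnitsStatement p T) : TateOut p T :=
  tateOut_of_star p T hp2 hpT (baseStarOut_of_units p T hp2 hpT hU)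

/-- The general Euler characteristic inequality from BS-UNITS. -/
theorem ecGenOut_of_units (hp2 : p ≠ 2) (hpT : pPrime p ∈ T)
    (hU : helper7.UnitsStatement p T) : ECGenOut p T :=
  ecGenOut_of_star p T hp2 hpT (baseStarOut_of_units p T hp2 hpT hU)

end Pkg

section Top

variable {𝒪 : Type} [CommRing 𝒪] [IsDomain 𝒪] [IsDiscreteValuationRing 𝒪]
  [IsAdicComplete (maximalIdeal 𝒪) 𝒪] [Finite (ResidueField 𝒪)]
  (p : ℕ) [Fact p.Prime]
  (ρbar : ResidualGaloisRep (ResidueField 𝒪))
  (S Smin : Finset ℕ)
  [Algebra (ZMod p) (ResidueField 𝒪)]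

/-- **The output of module EC** from BS-UNITS alone. -/
theorem ecOut_of_units (hset : Setting 𝒪 p ρbar S Smin)
    (hU : ∀ T' : Finset Nat.Primes, helper7.UnitsStatement p T') :
    ECOut p ρbar Smin :=
  ecOut_of_star p ρbar S Smin hset fun T' hp2 hpT _ _ =>
    baseStarOut_of_units p T' hp2 hpT (hU T')

end Top

end Fermat.Agent.P1.helper63
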