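import Mathlib
import Fermat.Agent.P1.helper24_ArtDefs

/-!
# P1 (S56), module EC, package ART-CHAR (helper67, task 756)

`artChar : helper24.ArtCharStatement` : two finite `Γ`-sets with the same fixed point counts have
an invertible `Γ`-equivariant rational matrix between them.

* `art_character_ofMulAction` : the character of a permutation representation counts fixed points;
* `art_exists_injective` : two finite dimensional rational representations of a finite group with
  the same character have an injective intertwining map (induction on the dimension: a nonzero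
  invariant subspace of minimal dimension, the scalar product formula for `Hom_G`, Maschke).
-/

set_option autoImplicit false
set_option linter.style.haveILetI false
set_option linter.unusedSectionVars false

namespace Fermat.Agent.P1.helper67

open Module

section Trace

/-- additivity of the trace on complementary invariant subspaces -/
theorem art_trace_eq_add {V : Type} [AddCommGroup V] [Module ℚ V] [FiniteDimensional ℚ V]
    {S T : Submodule ℚ V} (h : IsCompl S T) (f : V →ₗ[ℚ] V)
    (hS : ∀ v ∈ S, f v ∈ S) (hT : ∀ v ∈ T, f v ∈ T) :
    LinearMap.trace ℚ V f =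
      LinearMap.trace ℚ S (f.restrict hS) + LinearMap.trace ℚ T (f.restrict hT) := by
  have hI : DirectSum.IsInternal (fun b : Bool => cond b S T) :=
    (DirectSum.isInternal_submodule_iff_isCompl _ (i := true) (j := false) (by simp)
      (by ext b; cases b <;> simp)).2 h
  have hf : ∀ b : Bool, Set.MapsTo f (cond b S T : Submodule ℚ V) (cond b S T : Submodule ℚ V) := by
    intro b
    cases b
    · exact hT
    · exact hS
  rw [LinearMap.trace_eq_sum_trace_restrict hI hf, Fintype.sum_bool]
  rfl

end Trace

section CharIso

variable {G : Type} [Group G] [Fintype G]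

open Representation

/-- two complementary subrepresentations are complementary subspaces -/
theorem art_isCompl_toSubmodule {V : Type} [AddCommGroup V] [Module ℚ V]
    {ρ : Representation ℚ G V} {S T : Subrepresentation ρ} (h : IsCompl S T) :
    IsCompl S.toSubmodule T.toSubmodule := by
  constructor
  · rw [disjoint_iff]
    have := congrArg Subrepresentation.toSubmodule (disjoint_iff.mp h.disjoint)
    exact this
  · rw [codisjoint_iff]
    have := congrArg Subrepresentation.toSubmodule (codisjoint_iff.mp h.codisjoint)
    exact this

/-- **Representations with the same character**: two finite dimensional rational representations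
of a finite group with the same character have an injective intertwining map. -/
theorem art_exists_injective (n : ℕ) :
    ∀ (V W : Type) [AddCommGroup V] [Module ℚ V] [FiniteDimensional ℚ V]
      [AddCommGroup W] [Module ℚ W] [FiniteDimensional ℚ W]
      (ρ : Representation ℚ G V) (σ : Representation ℚ G W),
      finrank ℚ V = n → (∀ g, ρ.character g = σ.character g) →
      ∃ e : V →ₗ[ℚ] W, Function.Injective e ∧ ∀ g v, e (ρ g v) = σ g (e v) := by
  induction n using Nat.strong_induction_on with
  | _ n ih =>
  intro V W _ _ _ _ _ _ ρ σ hn hχ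
  have hcard : ((Nat.card G : ℕ) : ℚ) ≠ 0 := Nat.cast_ne_zero.mpr Nat.card_pos.ne'
  haveI : Invertible ((Nat.card G : ℕ) : ℚ) := invertibleOfNonzero hcard
  haveI : NeZero ((Nat.card G : ℕ) : ℚ) := ⟨hcard⟩
  rcases Nat.eq_zero_or_pos n with h0 | hpos
  · -- `V = 0`
    subst h0
    haveI : Subsingleton V := Module.finrank_zero_iff.mp hn
    exact ⟨0, Function.injective_of_subsingleton _, fun g v => by simp⟩
  · classical
    -- a nonzero subrepresentation of minimal dimension
    have hP : ∃ d, ∃ S : Subrepresentation ρ,
        S.toSubmodule ≠ ⊥ ∧ finrank ℚ S.toSubmodule = d := by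
      refine ⟨n, ⊤, ?_, ?_⟩
      · intro h
        have h1 : finrank ℚ (⊤ : Submodule ℚ V) = 0 := by
          have h2 : (⊤ : Subrepresentation ρ).toSubmodule = ⊤ := rfl
          rw [← h2, h, finrank_bot]
        rw [finrank_top, hn] at h1
        omega
      · have h2 : (⊤ : Subrepresentation ρ).toSubmodule = ⊤ := rfl
        rw [h2, finrank_top, hn]
    obtain ⟨S, hS0, hSd⟩ := Nat.find_spec hP
    have hmin : ∀ T : Subrepresentation ρ, T.toSubmodule ≠ ⊥ →
        finrank ℚ S.toSubmodule ≤ finrank ℚ T.toSubmodule := fun T hT =>
      hSd ▸ Nat.find_min' hP ⟨T, hT, rfl⟩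
    have hSpos : 0 < finrank ℚ S.toSubmodule := by
      rw [Nat.pos_iff_ne_zero]
      intro h
      exact hS0 (Submodule.finrank_eq_zero.mp h)
    -- a nonzero intertwining map `S → W`
    let ι : IntertwiningMap S.toRepresentation ρ :=
      ⟨S.toSubmodule.subtype, fun g => by ext v; rfl⟩
    have hι : ι ≠ 0 := by
      intro h
      apply hS0
      rw [Submodule.eq_bot_iff]
      intro s hs
      have := congrArg (fun f : IntertwiningMap S.toRepresentation ρ => f ⟨s, hs⟩) h
      exact this
    have hfin1 := card_inv_mul_sum_char_mul_char_eq_finrank S.toRepresentation ρ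
    have hfin2 := card_inv_mul_sum_char_mul_char_eq_finrank S.toRepresentation σ
    have heq : finrank ℚ (IntertwiningMap S.toRepresentation σ) =
        finrank ℚ (IntertwiningMap S.toRepresentation ρ) := by
      have : ((finrank ℚ (IntertwiningMap S.toRepresentation σ) : ℕ) : ℚ) =
          ((finrank ℚ (IntertwiningMap S.toRepresentation ρ) : ℕ) : ℚ) := by
        rw [← hfin1, ← hfin2]
        simp only [hχ]
      exact_mod_cast this
    have hpos1 : 0 < finrank ℚ (IntertwiningMap S.toRepresentation ρ) :=
      Module.finrank_pos_iff_exists_ne_zero.mpr ⟨ι, hι⟩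
    obtain ⟨j, hj⟩ := Module.finrank_pos_iff_exists_ne_zero.mp (heq ▸ hpos1)
    -- `j` is injective by minimality of `S`
    have hjker : LinearMap.ker j.toLinearMap = ⊥ := by
      by_contra hK
      let K' : Subrepresentation ρ :=
        ⟨(LinearMap.ker j.toLinearMap).map S.toSubmodule.subtype, by
          rintro g v ⟨s, hs, rfl⟩
          refine ⟨S.toRepresentation g s, ?_, rfl⟩
          rw [SetLike.mem_coe, LinearMap.mem_ker] at hs ⊢
          have := LinearMap.congr_fun (j.isIntertwining' g) s
          rw [LinearMap.comp_apply, LinearMap.comp_apply] at this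
          rw [this, hs, map_zero]⟩
      have h2 : finrank ℚ K'.toSubmodule = finrank ℚ (LinearMap.ker j.toLinearMap) :=
        Submodule.finrank_map_subtype_eq _ _
      have hK'0 : K'.toSubmodule ≠ ⊥ := by
        intro h
        apply hK
        apply Submodule.finrank_eq_zero.mp
        rw [← h2, h, finrank_bot]
      have h1 := hmin K' hK'0
      have h3 : finrank ℚ (LinearMap.ker j.toLinearMap) ≤ finrank ℚ S.toSubmodule :=
        Submodule.finrank_le _
      have h4 : LinearMap.ker j.toLinearMap = ⊤ :=
        Submodule.eq_top_of_finrank_eq (by omega)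
      apply hj
      ext s
      have : s ∈ LinearMap.ker j.toLinearMap := h4 ▸ Submodule.mem_top
      exact this
    have hjinj : Function.Injective j.toLinearMap := LinearMap.ker_eq_bot.mp hjker
    -- Maschke
    obtain ⟨V', hV'⟩ := exists_isCompl S
    obtain ⟨W', hW'⟩ := exists_isCompl j.range
    have hV'c := art_isCompl_toSubmodule hV'
    have hW'c := art_isCompl_toSubmodule hW'
    -- the characters of the complements agree
    have hχ' : ∀ g, V'.toRepresentation.character g = W'.toRepresentation.character g := by
      intro g
      have h1 := art_trace_eq_add hV'c (ρ g) (fun v hv => S.apply_mem_toSubmodule g hv)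
        (fun v hv => V'.apply_mem_toSubmodule g hv)
      have h2 := art_trace_eq_add hW'c (σ g) (fun v hv => j.range.apply_mem_toSubmodule g hv)
        (fun v hv => W'.apply_mem_toSubmodule g hv)
      have h3 : LinearMap.trace ℚ j.range.toSubmodule
          ((σ g).restrict (fun v hv => j.range.apply_mem_toSubmodule g hv)) =
          LinearMap.trace ℚ S.toSubmodule
            ((ρ g).restrict (fun v hv => S.apply_mem_toSubmodule g hv)) := by
        let eS : S.toSubmodule ≃ₗ[ℚ] j.range.toSubmodule :=
          LinearEquiv.ofInjective j.toLinearMap hjinj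
        have hconj : eS.conj ((ρ g).restrict (fun v hv => S.apply_mem_toSubmodule g hv)) =
            (σ g).restrict (fun v hv => j.range.apply_mem_toSubmodule g hv) := by
          apply LinearMap.ext
          intro w
          obtain ⟨s, rfl⟩ := eS.surjective w
          rw [LinearEquiv.conj_apply_apply, LinearEquiv.symm_apply_apply]
          apply Subtype.ext
          have := LinearMap.congr_fun (j.isIntertwining' g) s
          rw [LinearMap.comp_apply, LinearMap.comp_apply] at this
          exact this
        rw [← hconj, LinearMap.trace_conj']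
      have h4 := hχ g
      unfold Representation.character at h4 ⊢
      have e1 : V'.toRepresentation g =
          (ρ g).restrict (fun v hv => V'.apply_mem_toSubmodule g hv) := rfl
      have e2 : W'.toRepresentation g =
          (σ g).restrict (fun v hv => W'.apply_mem_toSubmodule g hv) := rfl
      rw [e1, e2]
      linarith
    -- induction
    have hdim : finrank ℚ S.toSubmodule + finrank ℚ V'.toSubmodule = finrank ℚ V :=
      Submodule.finrank_add_eq_of_isCompl hV'c
    obtain ⟨e', he'inj, he'int⟩ := ih (finrank ℚ V'.toSubmodule) (by omega) V'.toSubmodule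
      W'.toSubmodule V'.toRepresentation W'.toRepresentation rfl hχ'
    -- assembly
    let e : V →ₗ[ℚ] W :=
      LinearMap.ofIsCompl hV'c j.toLinearMap (W'.toSubmodule.subtype ∘ₗ e')
    have hdec : ∀ v : V, ∃ s : S.toSubmodule, ∃ v' : V'.toSubmodule, v = (s : V) + (v' : V) := by
      intro v
      have hv : v ∈ S.toSubmodule ⊔ V'.toSubmodule := by
        rw [hV'c.sup_eq_top]
        exact Submodule.mem_top
      obtain ⟨s, hs, v', hv', rfl⟩ := Submodule.mem_sup.mp hv
      exact ⟨⟨s, hs⟩, ⟨v', hv'⟩, rfl⟩
    have he : ∀ (s : S.toSubmodule) (v' : V'.toSubmodule),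
        e ((s : V) + (v' : V)) = j.toLinearMap s + ((e' v' : W'.toSubmodule) : W) := by
      intro s v'
      rw [map_add, LinearMap.ofIsCompl_apply_left, LinearMap.ofIsCompl_apply_right]
      rfl
    refine ⟨e, ?_, ?_⟩
    · rw [injective_iff_map_eq_zero]
      intro v hv
      obtain ⟨s, v', rfl⟩ := hdec v
      rw [he] at hv
      have hjs : j.toLinearMap s ∈ j.range.toSubmodule := ⟨s, rfl⟩
      have hjs' : j.toLinearMap s ∈ W'.toSubmodule := by
        have : j.toLinearMap s = -((e' v' : W'.toSubmodule) : W) := eq_neg_of_add_eq_zero_left hv
        rw [this]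
        exact W'.toSubmodule.neg_mem (e' v').2
      have hjs0 : j.toLinearMap s = 0 := (Submodule.disjoint_def.mp hW'c.disjoint) _ hjs hjs'
      have hs0 : s = 0 := hjinj (by rw [map_zero]; exact hjs0)
      have he'0 : ((e' v' : W'.toSubmodule) : W) = 0 := by
        rw [hjs0, zero_add] at hv
        exact hv
      have hv'0 : v' = 0 := he'inj (by rw [map_zero]; exact Subtype.ext he'0)
      rw [hs0, hv'0]
      simp
    · intro g v
      obtain ⟨s, v', rfl⟩ := hdec v
      have h1 : ρ g ((s : V) + (v' : V)) =
          ((S.toRepresentation g s : S.toSubmodule) : V) +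
            ((V'.toRepresentation g v' : V'.toSubmodule) : V) := by
        rw [map_add]
        rfl
      rw [h1, he, he, map_add]
      congr 1
      · have := LinearMap.congr_fun (j.isIntertwining' g) s
        rw [LinearMap.comp_apply, LinearMap.comp_apply] at this
        exact this
      · rw [he'int g v']
        rfl

/-- the character of a permutation representation counts fixed points -/
theorem art_character_ofMulAction (X : Type) [Fintype X] [DecidableEq X] [MulAction G X]
    (g : G) :
    (Representation.ofMulAction ℚ G X).character g =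
      ((Nat.card ↥(MulAction.fixedBy X g) : ℕ) : ℚ) := by
  unfold Representation.character
  rw [LinearMap.trace_eq_matrix_trace ℚ (MonoidAlgebra.basis X ℚ)]
  rw [Matrix.trace]
  have h : ∀ x : X, Matrix.diag (LinearMap.toMatrix (MonoidAlgebra.basis X ℚ)
      (MonoidAlgebra.basis X ℚ) (Representation.ofMulAction ℚ G X g)) x =
      if g • x = x then 1 else 0 := by
    intro x
    rw [Matrix.diag_apply, LinearMap.toMatrix_apply, MonoidAlgebra.basis_apply,
      Representation.ofMulAction_single]
    change (MonoidAlgebra.single (g • x) (1 : ℚ)).coeff x = _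
    rw [MonoidAlgebra.coeff_single, Finsupp.single_apply]
  simp only [h]
  rw [Finset.sum_boole, Nat.card_eq_fintype_card, Fintype.card_subtype]
  rfl

end CharIso

/-- **[ART-CHAR]** two finite `Γ`-sets with the same fixed point counts have an invertible
`Γ`-equivariant rational matrix between them. -/
theorem artChar : Fermat.Agent.P1.helper24.ArtCharStatement := by
  intro Γ _ _ X Y _ _ _ _ _ _ hfix
  haveI : Fintype Γ := Fintype.ofFinite Γ
  have hχ : ∀ g, (Representation.ofMulAction ℚ Γ X).character g =
      (Representation.ofMulAction ℚ Γ Y).character g := by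
    intro g
    rw [art_character_ofMulAction, art_character_ofMulAction, hfix g]
  obtain ⟨e, hinj, hint⟩ := art_exists_injective _ (MonoidAlgebra ℚ X) (MonoidAlgebra ℚ Y)
    (Representation.ofMulAction ℚ Γ X) (Representation.ofMulAction ℚ Γ Y) rfl hχ
  have hdim : finrank ℚ (MonoidAlgebra ℚ X) = finrank ℚ (MonoidAlgebra ℚ Y) := by
    have := hχ 1
    rw [Representation.char_one, Representation.char_one] at this
    exact_mod_cast this
  have hsurj : Function.Surjective e :=
    (LinearMap.injective_iff_surjective_of_finrank_eq_finrank hdim).mp hinj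
  let E : (MonoidAlgebra ℚ X) ≃ₗ[ℚ] (MonoidAlgebra ℚ Y) := LinearEquiv.ofBijective e ⟨hinj, hsurj⟩
  refine ⟨LinearMap.toMatrix (MonoidAlgebra.basis X ℚ) (MonoidAlgebra.basis Y ℚ) E.toLinearMap,
    LinearMap.toMatrix (MonoidAlgebra.basis Y ℚ) (MonoidAlgebra.basis X ℚ) E.symm.toLinearMap,
    ?_, ?_, ?_⟩
  · rw [← LinearMap.toMatrix_comp, LinearEquiv.comp_symm, LinearMap.toMatrix_id]
  · rw [← LinearMap.toMatrix_comp, LinearEquiv.symm_comp, LinearMap.toMatrix_id]
  · intro g y x
    rw [LinearMap.toMatrix_apply, LinearMap.toMatrix_apply, MonoidAlgebra.basis_apply,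
      MonoidAlgebra.basis_apply]
    have h1 := hint g (MonoidAlgebra.single x 1)
    rw [Representation.ofMulAction_single] at h1
    have h2 : E.toLinearMap (MonoidAlgebra.single (g • x) 1) =
        Representation.ofMulAction ℚ Γ Y g (E.toLinearMap (MonoidAlgebra.single x 1)) := h1
    rw [h2]
    change (Representation.ofMulAction ℚ Γ Y g (E.toLinearMap (MonoidAlgebra.single x 1))).coeff
      (g • y) = (E.toLinearMap (MonoidAlgebra.single x 1)).coeff y
    rw [Representation.coeff_ofMulAction, inv_smul_smul]

end Fermat.Agent.P1.helper67
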