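import Mathlib
import Fermat.Agent.P1.helper70_FTDefs
import Fermat.Agent.P1.helper47_HopfConv
import Fermat.Agent.P1.helper50_KumWild

/-!
# P1 / FLAT-CNT, package FT-OT, part (A): the convolution computation (helper67, task 708)

Setting of `helper70.FTOTStatement`: `x ≠ 1` a point with `x ^ p = 1` reducing to the identity.
With `y := x - 1` in the convolution ring `WithConv (H →ₗ[O] F)` and `n := min_h ord (y h)`:

* `n (p - 1) ≤ e` (from `(1 + y) ^ p = 1`);
* if `σ ∘ x = x ^ a` then `p ∤ a` and `ord (σ z - a z) > n` for `z = y h₀` of valuation `n`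
  (from `(1 + y) ^ a = 1 + a y + y² (…)`).
-/

set_option autoImplicit false
set_option linter.unusedSectionVars false

namespace Fermat.Agent.P1.helper67

open Fermat.Agent.S55.helper8 Fermat.Agent.S55.helper7 Fermat.Agent.P1.helper14
  Fermat.Agent.P1.helper70 Fermat.Agent.P1.helper47 Fermat.Agent.P1.helper50
open TensorProduct WithConv Coalgebra

/-! ## Binomial expansions -/

/-- `(1 + y) ^ a = 1 + a y + y² c` with `c` a polynomial in `y` with natural coefficients. -/
theorem one_add_pow_eq {C : Type*} [CommRing C] (y : C) (a : ℕ) :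
    ∃ t : ℕ → ℕ, (1 + y) ^ a =
      1 + (a : C) * y + y ^ 2 * ∑ m ∈ Finset.range (a - 1), y ^ m * (t m : C) := by
  rcases a with _ | _ | a
  · exact ⟨fun _ => 0, by simp⟩
  · exact ⟨fun _ => 0, by simp⟩
  · refine ⟨fun m => (a + 2).choose (m + 2), ?_⟩
    rw [add_comm (1 : C) y, add_pow]
    simp only [one_pow, mul_one]
    rw [Finset.sum_range_succ', Finset.sum_range_succ']
    simp only [pow_zero, Nat.choose_zero_right, Nat.cast_one, mul_one, zero_add, pow_one,
      Nat.choose_one_right]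
    have e : a + 2 - 1 = a + 1 := by omega
    rw [e, Finset.mul_sum]
    have : ∀ m ∈ Finset.range (a + 1),
        y ^ (m + 1 + 1) * (((a + 2).choose (m + 1 + 1) : ℕ) : C) =
          y ^ 2 * (y ^ m * (((a + 2).choose (m + 2) : ℕ) : C)) := by
      intro m _
      ring
    rw [Finset.sum_congr rfl this]
    ring

/-- `(1 + y) ^ p = 1 + p y + y ^ p + p y² c` with `c` a polynomial in `y` with natural
coefficients. -/
theorem one_add_pow_prime_eq {C : Type*} [CommRing C] {p : ℕ} (hp : p.Prime) (y : C) :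
    ∃ t : ℕ → ℕ, (1 + y) ^ p =
      1 + (p : C) * y + y ^ p + (p : C) * y ^ 2 * ∑ m ∈ Finset.range (p - 2), y ^ m * (t m : C) := by
  obtain ⟨q, rfl⟩ : ∃ q, p = q + 2 := ⟨p - 2, by have := hp.two_le; omega⟩
  have hdiv : ∀ m, m < q → (q + 2) ∣ (q + 2).choose (m + 2) := fun m hm =>
    hp.dvd_choose_self (by omega) (by omega)
  refine ⟨fun m => (q + 2).choose (m + 2) / (q + 2), ?_⟩
  rw [add_comm (1 : C) y, add_pow]
  simp only [one_pow, mul_one]
  rw [Finset.sum_range_succ, Finset.sum_range_succ', Finset.sum_range_succ']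
  simp only [Nat.choose_self, Nat.cast_one, mul_one, pow_zero, Nat.choose_zero_right, zero_add,
    pow_one, Nat.choose_one_right]
  have e : q + 2 - 2 = q := by omega
  rw [e, Finset.mul_sum]
  have : ∀ m ∈ Finset.range q,
      y ^ (m + 1 + 1) * (((q + 2).choose (m + 1 + 1) : ℕ) : C) =
        ((q + 2 : ℕ) : C) * y ^ 2 * (y ^ m * (((q + 2).choose (m + 2) / (q + 2) : ℕ) : C)) := by
    intro m hm
    have hm' : m < q := Finset.mem_range.mp hm
    have h1 : (q + 2).choose (m + 2) = (q + 2) * ((q + 2).choose (m + 2) / (q + 2)) :=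
      (Nat.mul_div_cancel' (hdiv m hm')).symm
    conv_lhs => rw [h1]
    push_cast
    ring
  rw [Finset.sum_congr rfl this]
  ring

/-! ## Valuation bounds in the convolution ring -/

theorem wt_nsmul_coe (j : ℕ) (k : ℕ) :
    j • (((k : ℤ)) : WithTop ℤ) = (((j * k : ℕ) : ℤ) : WithTop ℤ) := by
  induction j with
  | zero => simp
  | succ j ih =>
    rw [succ_nsmul, ih, ← WithTop.coe_add]
    congr 1
    push_cast
    ring

section Val

variable (p : ℕ) [Fact p.Prime]
variable {F : Type} [Field F] [Algebra ℚ_[p] F] [FiniteDimensional ℚ_[p] F]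
  {O H : Type} [CommRing O] [CommRing H] [Bialgebra O H] [Algebra O F]

/-- All values of `f` have valuation `≥ k`. -/
def ValGE (k : WithTop ℤ) (f : WithConv (H →ₗ[O] F)) : Prop :=
  ∀ h : H, k ≤ ordT p F (f.ofConv h)

variable {p}

theorem ValGE.mono {j k : WithTop ℤ} {f : WithConv (H →ₗ[O] F)} (hf : ValGE p k f)
    (hjk : j ≤ k) : ValGE p j f := fun h => le_trans hjk (hf h)

theorem valGE_zero (k : WithTop ℤ) : ValGE p k (0 : WithConv (H →ₗ[O] F)) := fun h => by
  change k ≤ ordT p F ((0 : H →ₗ[O] F) h)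
  rw [LinearMap.zero_apply, ordT_zero]
  exact le_top

theorem ValGE.add {k : WithTop ℤ} {f g : WithConv (H →ₗ[O] F)} (hf : ValGE p k f)
    (hg : ValGE p k g) : ValGE p k (f + g) := fun h =>
  le_ordT_add p F (hf h) (hg h)

theorem ValGE.mul {j k : WithTop ℤ} {f g : WithConv (H →ₗ[O] F)} (hf : ValGE p j f)
    (hg : ValGE p k g) : ValGE p (j + k) (f * g) := fun h => by
  change j + k ≤ ordT p F (LinearMap.mul' O F (TensorProduct.map f.ofConv g.ofConv (comul h)))
  induction (comul h : H ⊗[O] H) using TensorProduct.induction_on with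
  | zero =>
    rw [map_zero, map_zero, ordT_zero]
    exact le_top
  | tmul a b =>
    rw [TensorProduct.map_tmul, LinearMap.mul'_apply]
    exact le_ordT_mul p F (hf a) (hg b)
  | add u v hu hv =>
    rw [map_add, map_add]
    exact le_ordT_add p F hu hv

theorem ValGE.natCast_mul {k : WithTop ℤ} {f : WithConv (H →ₗ[O] F)} (hf : ValGE p k f)
    (c : ℕ) : ValGE p k ((c : WithConv (H →ₗ[O] F)) * f) := by
  induction c with
  | zero =>
    rw [Nat.cast_zero, zero_mul]
    exact valGE_zero k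
  | succ c ih =>
    rw [Nat.cast_succ, add_mul, one_mul]
    exact ih.add hf

theorem ValGE.mul_natCast {k : WithTop ℤ} {f : WithConv (H →ₗ[O] F)} (hf : ValGE p k f)
    (c : ℕ) : ValGE p k (f * (c : WithConv (H →ₗ[O] F))) := by
  induction c with
  | zero =>
    rw [Nat.cast_zero, mul_zero]
    exact valGE_zero k
  | succ c ih =>
    rw [Nat.cast_succ, mul_add, mul_one]
    exact ih.add hf

theorem ValGE.sum {ι : Type*} {k : WithTop ℤ} (s : Finset ι) (f : ι → WithConv (H →ₗ[O] F))
    (hf : ∀ i ∈ s, ValGE p k (f i)) : ValGE p k (∑ i ∈ s, f i) := by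
  classical
  induction s using Finset.induction_on with
  | empty =>
    rw [Finset.sum_empty]
    exact valGE_zero k
  | insert a s ha ih =>
    rw [Finset.sum_insert ha]
    exact (hf a (Finset.mem_insert_self a s)).add
      (ih fun i hi => hf i (Finset.mem_insert_of_mem hi))

/-- Powers: `ord ≥ k` for `f` gives `ord ≥ j k` for `f ^ j`, `j ≥ 1`. -/
theorem ValGE.pow_succ {k : WithTop ℤ} {f : WithConv (H →ₗ[O] F)} (hf : ValGE p k f) (j : ℕ) :
    ValGE p ((j + 1) • k) (f ^ (j + 1)) := by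
  induction j with
  | zero =>
    rw [zero_add, pow_one, one_smul]
    exact hf
  | succ j ih =>
    rw [_root_.pow_succ, succ_nsmul]
    exact ih.mul hf

/-- Nonnegative powers of an element with nonnegative values, given that `1` has nonnegative
values. -/
theorem ValGE.pow_nonneg {f : WithConv (H →ₗ[O] F)} (hf : ValGE p 0 f)
    (h1 : ValGE p 0 (1 : WithConv (H →ₗ[O] F))) (j : ℕ) : ValGE p 0 (f ^ j) := by
  induction j with
  | zero =>
    rw [pow_zero]
    exact h1
  | succ j ih =>
    rw [_root_.pow_succ]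
    have := ih.mul hf
    rwa [add_zero] at this

/-- The value of `(c : conv) * f` at `h` is `c * f h`. -/
theorem natCast_mul_apply (c : ℕ) (f : WithConv (H →ₗ[O] F)) (h : H) :
    ((c : WithConv (H →ₗ[O] F)) * f).ofConv h = (c : F) * f.ofConv h := by
  induction c with
  | zero =>
    rw [Nat.cast_zero, zero_mul, Nat.cast_zero, zero_mul]
    rfl
  | succ c ih =>
    rw [Nat.cast_succ, add_mul, one_mul, Nat.cast_succ, add_mul, one_mul, ← ih]
    rfl

end Val

/-! ## The convolution computation -/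

section Main

variable (p : ℕ) [Fact p.Prime]
variable {F : Type} [Field F] [Algebra ℚ_[p] F] [FiniteDimensional ℚ_[p] F]
  {O H : Type} [CommRing O] [CommRing H] [Bialgebra O H] [Coalgebra.IsCocomm O H]
  [Algebra O ℚ_[p]] [Algebra O F] [IsScalarTower O ℚ_[p] F]

/-- `y = x - 1` in the convolution ring. -/
noncomputable def ySub (x : WithConv (H →ₐ[O] F)) : WithConv (H →ₗ[O] F) := ptsToConv x - 1

theorem ySub_apply (x : WithConv (H →ₐ[O] F)) (h : H) :
    (ySub x).ofConv h = x.ofConv h - algebraMap O F (counit h) := rfl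

theorem one_add_ySub (x : WithConv (H →ₐ[O] F)) : 1 + ySub x = ptsToConv x := by
  unfold ySub
  abel

theorem one_ofConv_apply (h : H) :
    (1 : WithConv (H →ₗ[O] F)).ofConv h = algebraMap O F (counit h) := rfl

theorem pts_one_ofConv_apply (h : H) :
    (1 : WithConv (H →ₐ[O] F)).ofConv h = algebraMap O F (counit h) := by
  have := ptsToConv_apply (1 : WithConv (H →ₐ[O] F)) h
  rw [map_one] at this
  exact this.symm

variable {p}

theorem valGE_one (hint : PointsIntegral p F O H) :
    ValGE p 0 (1 : WithConv (H →ₗ[O] F)) := fun h => by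
  have := hint 1 h
  rwa [pts_one_ofConv_apply] at this

theorem aut_algebraMap (σ : F ≃ₐ[ℚ_[p]] F) (c : O) :
    σ (algebraMap O F c) = algebraMap O F c := by
  rw [IsScalarTower.algebraMap_apply O ℚ_[p] F, AlgEquiv.commutes]

/-- **FT-OT, part (A)**. -/
theorem ftOT_conv (hint : PointsIntegral p F O H) (x : WithConv (H →ₐ[O] F)) (hx1 : x ≠ 1)
    (hxp : x ^ p = 1) (hred : PointRedOne p x) :
    ∃ (z : F) (n : ℕ), 1 ≤ n ∧ ordT p F z = ((n : ℤ) : WithTop ℤ) ∧ n * (p - 1) ≤ edeg p F ∧
      ∀ (σ : F ≃ₐ[ℚ_[p]] F) (a : ℕ), (∀ h, σ (x.ofConv h) = (x ^ a).ofConv h) →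
        ¬ p ∣ a ∧ ((n : ℤ) : WithTop ℤ) < ordT p F (σ z - (a : F) * z) := by
  classical
  have hp : p.Prime := Fact.out
  set y : WithConv (H →ₗ[O] F) := ySub x with hy
  have hypos : ∀ h, 0 < ordT p F (y.ofConv h) := fun h => hred h
  -- `y ≠ 0`
  have hex : ∃ h₁, y.ofConv h₁ ≠ 0 := by
    by_contra hcon
    push Not at hcon
    apply hx1
    apply ptsToConv_injective
    rw [map_one, ← one_add_ySub x]
    have : ySub x = 0 := by
      apply WithConv.ext
      ext h
      exact hcon h
    rw [this, add_zero]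
  -- the minimum of the valuations
  have hval : ∀ h, y.ofConv h ≠ 0 →
      ∃ m : ℕ, 1 ≤ m ∧ ordT p F (y.ofConv h) = ((m : ℤ) : WithTop ℤ) := by
    intro h hne
    have h1 := hypos h
    rw [ordT_of_ne_zero p F hne] at h1 ⊢
    have h2 : (0 : ℤ) < ord p F (Units.mk0 (y.ofConv h) hne) := by exact_mod_cast h1
    refine ⟨(ord p F (Units.mk0 (y.ofConv h) hne)).toNat, by omega, ?_⟩
    rw [Int.toNat_of_nonneg h2.le]
  have hS : ∃ m : ℕ, ∃ h, ordT p F (y.ofConv h) = ((m : ℤ) : WithTop ℤ) := by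
    obtain ⟨h₁, hh₁⟩ := hex
    obtain ⟨m, -, hm⟩ := hval h₁ hh₁
    exact ⟨m, h₁, hm⟩
  obtain ⟨h₀, hh₀⟩ := Nat.find_spec hS
  set n := Nat.find hS with hn
  have hn1 : 1 ≤ n := by
    have h1 := hypos h₀
    rw [hh₀] at h1
    have h2 : (0 : ℤ) < (n : ℤ) := by exact_mod_cast h1
    omega
  have hmin : ValGE p ((n : ℤ) : WithTop ℤ) y := by
    intro h
    by_cases hne : y.ofConv h = 0
    · rw [hne, ordT_zero]
      exact le_top
    · obtain ⟨m, -, hm⟩ := hval h hne
      rw [hm]
      have : n ≤ m := Nat.find_min' hS ⟨h, hm⟩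
      exact_mod_cast this
  have h1' : ValGE p 0 (1 : WithConv (H →ₗ[O] F)) := valGE_one hint
  have hy0 : ValGE p 0 y := hmin.mono (by exact_mod_cast Nat.zero_le n)
  have hsq : ValGE p (((2 * n : ℕ) : ℤ) : WithTop ℤ) (y ^ 2) := by
    have := hmin.pow_succ 1
    rwa [wt_nsmul_coe] at this
  have hpoly : ∀ (N : ℕ) (t : ℕ → ℕ),
      ValGE p 0 (∑ m ∈ Finset.range N, y ^ m * (t m : WithConv (H →ₗ[O] F))) := by
    intro N t
    exact ValGE.sum _ _ fun m _ => (hy0.pow_nonneg h1' m).mul_natCast (t m)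
  have hsqc : ∀ (N : ℕ) (t : ℕ → ℕ), ValGE p (((2 * n : ℕ) : ℤ) : WithTop ℤ)
      (y ^ 2 * ∑ m ∈ Finset.range N, y ^ m * (t m : WithConv (H →ₗ[O] F))) := by
    intro N t
    have := hsq.mul (hpoly N t)
    rwa [add_zero] at this
  refine ⟨y.ofConv h₀, n, hn1, hh₀, ?_, ?_⟩
  · -- `n (p - 1) ≤ e`
    obtain ⟨t, ht⟩ := one_add_pow_prime_eq hp y
    have hX : (1 + y) ^ p = 1 := by
      rw [hy, one_add_ySub, ← map_pow, hxp, map_one]
    rw [hX] at ht
    set c := ∑ m ∈ Finset.range (p - 2), y ^ m * (t m : WithConv (H →ₗ[O] F)) with hc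
    have hrel : (p : WithConv (H →ₗ[O] F)) * y = -(y ^ p + (p : WithConv (H →ₗ[O] F)) * (y ^ 2 * c)) := by
      have e2 : (1 : WithConv (H →ₗ[O] F)) + (p : WithConv (H →ₗ[O] F)) * y + y ^ p +
          (p : WithConv (H →ₗ[O] F)) * y ^ 2 * c = 1 := ht.symm
      have e3 : (p : WithConv (H →ₗ[O] F)) * y +
          (y ^ p + (p : WithConv (H →ₗ[O] F)) * (y ^ 2 * c)) = 0 := by
        linear_combination e2
      exact eq_neg_of_add_eq_zero_left e3
    have hval1 : ordT p F (((p : WithConv (H →ₗ[O] F)) * y).ofConv h₀) =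
        (((edeg p F + n : ℕ) : ℤ) : WithTop ℤ) := by
      rw [natCast_mul_apply, ordT_mul, ordT_q, hh₀]
      push_cast
      rfl
    have hyp : ValGE p (((p * n : ℕ) : ℤ) : WithTop ℤ) (y ^ p) := by
      obtain ⟨q, hq⟩ : ∃ q, p = q + 1 := ⟨p - 1, by have := hp.two_le; omega⟩
      have := hmin.pow_succ q
      rw [← hq] at this
      rwa [wt_nsmul_coe] at this
    have hpsq : ValGE p (((edeg p F + 2 * n : ℕ) : ℤ) : WithTop ℤ)
        ((p : WithConv (H →ₗ[O] F)) * (y ^ 2 * c)) := by
      intro h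
      rw [natCast_mul_apply, ordT_mul, ordT_q]
      have := hsqc (p - 2) t h
      have e : (((edeg p F + 2 * n : ℕ) : ℤ) : WithTop ℤ) =
          ((edeg p F : ℤ) : WithTop ℤ) + (((2 * n : ℕ) : ℤ) : WithTop ℤ) := by
        push_cast
        rfl
      rw [e]
      exact add_le_add le_rfl this
    by_contra hcon
    push Not at hcon
    -- then `e + n < p n` and `e + n < e + 2 n`
    have hlt1 : edeg p F + n < p * n := by
      have hp2 := hp.two_le
      have : n * (p - 1) + n = p * n := by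
        have : p - 1 + 1 = p := by omega
        calc n * (p - 1) + n = n * (p - 1 + 1) := by ring
          _ = p * n := by rw [this, mul_comm]
      omega
    have hlt2 : edeg p F + n < edeg p F + 2 * n := by omega
    have hge : ValGE p (((edeg p F + n + 1 : ℕ) : ℤ) : WithTop ℤ)
        (y ^ p + (p : WithConv (H →ₗ[O] F)) * (y ^ 2 * c)) := by
      refine ValGE.add (hyp.mono ?_) (hpsq.mono ?_)
      · exact_mod_cast hlt1
      · exact_mod_cast hlt2
    have h3 := hge h₀
    have h4 : ordT p F ((y ^ p + (p : WithConv (H →ₗ[O] F)) * (y ^ 2 * c)).ofConv h₀) =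
        (((edeg p F + n : ℕ) : ℤ) : WithTop ℤ) := by
      rw [← hval1, hrel]
      change _ = ordT p F (-((y ^ p + (p : WithConv (H →ₗ[O] F)) * (y ^ 2 * c)).ofConv h₀))
      rw [ordT_neg]
    rw [h4] at h3
    have h5 : ((edeg p F + n + 1 : ℕ) : ℤ) ≤ ((edeg p F + n : ℕ) : ℤ) := by exact_mod_cast h3
    omega
  · -- the action of `σ`
    intro σ a hσ
    constructor
    · rintro ⟨b, rfl⟩
      apply hx1
      have hxa : x ^ (p * b) = 1 := by rw [pow_mul, hxp, one_pow]
      apply WithConv.ext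
      apply AlgHom.ext
      intro h
      have h1 := hσ h
      rw [hxa, pts_one_ofConv_apply] at h1
      have h2 : x.ofConv h = σ.symm (algebraMap O F (counit h)) := by
        rw [← h1, AlgEquiv.symm_apply_apply]
      rw [h2, aut_algebraMap]
      exact (pts_one_ofConv_apply h).symm
    · obtain ⟨t, ht⟩ := one_add_pow_eq y a
      have hX : (1 + y) ^ a = ptsToConv (x ^ a) := by
        rw [hy, one_add_ySub, ← map_pow]
      rw [hX] at ht
      have hv := congrArg (fun f : WithConv (H →ₗ[O] F) => f.ofConv h₀) ht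
      simp only [ptsToConv_apply] at hv
      have hv2 : (x ^ a).ofConv h₀ = algebraMap O F (counit h₀) + (a : F) * y.ofConv h₀ +
          (y ^ 2 * ∑ m ∈ Finset.range (a - 1), y ^ m * (t m : WithConv (H →ₗ[O] F))).ofConv h₀ := by
        rw [hv, ← natCast_mul_apply]
        rfl
      have hz : σ (y.ofConv h₀) - (a : F) * y.ofConv h₀ =
          (y ^ 2 * ∑ m ∈ Finset.range (a - 1), y ^ m * (t m : WithConv (H →ₗ[O] F))).ofConv h₀ := by
        rw [hy, ySub_apply, map_sub, aut_algebraMap, hσ h₀, hv2, ← hy]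
        rw [ySub_apply]
        ring
      rw [hz]
      refine lt_of_lt_of_le ?_ (hsqc (a - 1) t h₀)
      have : (n : ℤ) < ((2 * n : ℕ) : ℤ) := by
        push_cast
        omega
      exact_mod_cast this

end Main

end Fermat.Agent.P1.helper67
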