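import Mathlib
import Fermat.Agent.P1.helper67_FTOTConv

/-!
# P1 / FLAT-CNT, package FT-OT, part (B2): the cyclotomic side (helper67, task 708)

For a primitive `p`-th root of unity `ζ` in a `p`-adic field `F` and `λ = ζ - 1`:

* `ordT_zeta_sub_one` : `ord λ = m` with `m ≥ 1` and `m (p - 1) = e`;
* `ordT_aut_zeta_sub_one` : if `σ ζ = ζ ^ b` then `ord (σ λ - b λ) > m`.

Then the assembly `ftOT_of_tameCongr : TameCongrStatement p → helper70.FTOTStatement p`, where
`TameCongrStatement` is the arithmetic statement (T) on the tame character.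
-/

set_option autoImplicit false
set_option linter.unusedSectionVars false

namespace Fermat.Agent.P1.helper67

open Fermat.Agent.S55.helper8 Fermat.Agent.S55.helper7 Fermat.Agent.P1.helper14
  Fermat.Agent.P1.helper70 Fermat.Agent.P1.helper47 Fermat.Agent.P1.helper50

section Cyc

variable (p : ℕ) [Fact p.Prime]
variable (F : Type) [Field F] [Algebra ℚ_[p] F] [FiniteDimensional ℚ_[p] F]

theorem wt_nsmul_coe_int (j : ℕ) (k : ℤ) :
    j • (((k : ℤ)) : WithTop ℤ) = ((((j : ℤ) * k : ℤ)) : WithTop ℤ) := by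
  induction j with
  | zero => simp
  | succ j ih =>
    rw [succ_nsmul, ih, ← WithTop.coe_add]
    congr 1
    push_cast
    ring

/-- `ord (1 + w) = 0` if `ord w > 0`. -/
theorem ordT_one_add_of_pos {w : F} (hw : 0 < ordT p F w) : ordT p F (1 + w) = 0 := by
  apply le_antisymm
  · have h1 : (1 : F) = (1 + w) - w := by ring
    have h2 := ordT_sub_ge p F (1 + w) w
    rw [← h1, ordT_one] at h2
    rcases min_le_iff.mp h2 with h | h
    · exact h
    · exact absurd hw (not_lt.mpr h)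
  · exact le_ordT_add p F (by rw [ordT_one]) hw.le

/-- A polynomial with natural coefficients in an integral element is integral. -/
theorem ordT_natPoly_nonneg {w : F} (hw : 0 ≤ ordT p F w) (N : ℕ) (t : ℕ → ℕ) :
    0 ≤ ordT p F (∑ m ∈ Finset.range N, w ^ m * (t m : F)) := by
  have hO : ∀ m, w ^ m * (t m : F) ∈ Oq p F := fun m =>
    mul_mem (pow_mem (show w ∈ Oq p F from hw) m) (natCast_mem _ _)
  exact sum_mem (fun m _ => hO m)

variable {p F}

/-- **(B2), first half**: `ord (ζ - 1) = e / (p - 1)`. -/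
theorem ordT_zeta_sub_one {ζ : F} (hζ : IsPrimitiveRoot ζ p) :
    ∃ m : ℕ, 1 ≤ m ∧ ordT p F (ζ - 1) = ((m : ℤ) : WithTop ℤ) ∧ m * (p - 1) = edeg p F := by
  have hp : p.Prime := Fact.out
  have hp2 := hp.two_le
  set l : F := ζ - 1 with hl
  have hl0 : l ≠ 0 := sub_ne_zero.mpr (hζ.ne_one hp.one_lt)
  have hζ0 : ordT p F ζ = 0 := ordT_eq_zero_of_pow_eq_one p F hp.ne_zero hζ.pow_eq_one
  have hlint : 0 ≤ ordT p F l := le_ordT_sub p F hζ0.ge (by rw [ordT_one])
  obtain ⟨t, ht⟩ := one_add_pow_prime_eq hp l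
  have h1l : 1 + l = ζ := by rw [hl]; ring
  rw [h1l, hζ.pow_eq_one] at ht
  set c : F := ∑ m ∈ Finset.range (p - 2), l ^ m * (t m : F) with hc
  have hcint : 0 ≤ ordT p F c := ordT_natPoly_nonneg p F hlint _ t
  -- `l ^ (p - 1) = - p (1 + l c)`
  have hkey : l ^ (p - 1) = -((p : F) * (1 + l * c)) := by
    have e1 : l * (l ^ (p - 1) + (p : F) * (1 + l * c)) = 0 := by
      have e2 : l * l ^ (p - 1) = l ^ p := by
        rw [← pow_succ']
        congr 1
        omega
      have : l * (l ^ (p - 1) + (p : F) * (1 + l * c)) =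
          l * l ^ (p - 1) + ((p : F) * l + (p : F) * l ^ 2 * c) := by ring
      rw [this, e2]
      linear_combination -ht
    rcases mul_eq_zero.mp e1 with h | h
    · exact absurd h hl0
    · exact eq_neg_of_add_eq_zero_left h
  -- valuations as integers
  have hlc : 0 ≤ ordT p F (l * c) := by
    rw [ordT_mul]
    exact add_nonneg hlint hcint
  have hu0 : 0 ≤ ordT p F (1 + l * c) := le_ordT_add p F (by rw [ordT_one]) hlc
  have hune : (1 + l * c) ≠ 0 := by
    intro h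
    rw [h, mul_zero, neg_zero] at hkey
    exact hl0 (pow_eq_zero_iff (by omega) |>.mp hkey)
  obtain ⟨v, hv⟩ : ∃ v : ℤ, ordT p F l = ((v : ℤ) : WithTop ℤ) :=
    ⟨_, ordT_of_ne_zero p F hl0⟩
  obtain ⟨u, hu⟩ : ∃ u : ℤ, ordT p F (1 + l * c) = ((u : ℤ) : WithTop ℤ) :=
    ⟨_, ordT_of_ne_zero p F hune⟩
  have hv0 : 0 ≤ v := by
    rw [hv] at hlint
    exact_mod_cast hlint
  have hu0' : 0 ≤ u := by
    rw [hu] at hu0
    exact_mod_cast hu0
  have hval : ((p - 1 : ℕ) : ℤ) * v = (edeg p F : ℤ) + u := by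
    have h1 := congrArg (ordT p F) hkey
    rw [ordT_neg, ordT_mul, ordT_pow, ordT_q, hv, hu, wt_nsmul_coe_int] at h1
    exact_mod_cast h1
  have he : 0 < edeg p F := Fermat.Agent.S55.helper33.edeg_pos p F
  have hv1 : 1 ≤ v := by
    by_contra hcon
    have hv00 : v = 0 := by omega
    rw [hv00, mul_zero] at hval
    omega
  -- now `l c` has positive valuation, so `u = 0`
  have hlcpos : 0 < ordT p F (l * c) := by
    rw [ordT_mul, hv]
    have : (0 : WithTop ℤ) < ((v : ℤ) : WithTop ℤ) := by exact_mod_cast hv1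
    exact lt_of_lt_of_le this (le_add_of_nonneg_right hcint)
  have hu00 : u = 0 := by
    have := ordT_one_add_of_pos p F hlcpos
    rw [hu] at this
    exact_mod_cast this
  refine ⟨v.toNat, by omega, ?_, ?_⟩
  · rw [hv, Int.toNat_of_nonneg hv0]
  · have h3 : ((v.toNat * (p - 1) : ℕ) : ℤ) = (edeg p F : ℤ) := by
      push_cast
      rw [Int.toNat_of_nonneg hv0, mul_comm]
      rw [hu00, add_zero] at hval
      exact hval
    exact_mod_cast h3

/-- **(B2), second half**: `σ ζ = ζ ^ b` gives `σ λ ≡ b λ` modulo higher valuation. -/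
theorem ordT_aut_zeta_sub_one {ζ : F} (_hζ : IsPrimitiveRoot ζ p) {m : ℕ} (_hm1 : 1 ≤ m)
    (hm : ordT p F (ζ - 1) = ((m : ℤ) : WithTop ℤ)) (σ : F ≃ₐ[ℚ_[p]] F) (b : ℕ)
    (hb : σ ζ = ζ ^ b) :
    ((m : ℤ) : WithTop ℤ) < ordT p F (σ (ζ - 1) - (b : F) * (ζ - 1)) := by
  set l : F := ζ - 1 with hl
  have hlint : 0 ≤ ordT p F l := by
    rw [hm]
    exact_mod_cast Nat.zero_le m
  obtain ⟨t, ht⟩ := one_add_pow_eq l b
  have h1l : 1 + l = ζ := by rw [hl]; ring
  rw [h1l] at ht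
  have e : σ l - (b : F) * l = l ^ 2 * ∑ k ∈ Finset.range (b - 1), l ^ k * (t k : F) := by
    rw [hl, map_sub, map_one, hb, ht, ← hl]
    ring
  rw [e, ordT_mul, ordT_pow, hm, wt_nsmul_coe]
  have hc := ordT_natPoly_nonneg p F hlint (b - 1) t
  have h2 : ((m : ℤ) : WithTop ℤ) < (((2 * m : ℕ) : ℤ) : WithTop ℤ) := by
    have : (m : ℤ) < ((2 * m : ℕ) : ℤ) := by
      push_cast
      omega
    exact_mod_cast this
  exact lt_of_lt_of_le h2 (le_add_of_nonneg_right hc)

end Cyc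

/-! ## The arithmetic statement (T) and the assembly -/

/-- **(T)** the tame congruence: in a tame Galois extension `F/ℚ_p`, if `z` of valuation `n`
with `n (p - 1) ≤ e` is an eigenvector modulo higher valuation for all of inertia, with
eigenvalues prime to `p`, and `w` of valuation `m = e / (p - 1)` is an eigenvector of `σ` modulo
higher valuation, then the two eigenvalues of `σ` are congruent modulo `p`. -/
def TameCongrStatement (p : ℕ) [Fact p.Prime] : Prop :=
  ∀ (F : Type) [Field F] [Algebra ℚ_[p] F] [FiniteDimensional ℚ_[p] F] [IsGalois ℚ_[p] F],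
    ¬ p ∣ edeg p F →
    ∀ (z w : F) (n m : ℕ), 1 ≤ n → ordT p F z = ((n : ℤ) : WithTop ℤ) →
      ordT p F w = ((m : ℤ) : WithTop ℤ) → n * (p - 1) ≤ edeg p F → m * (p - 1) = edeg p F →
      (∀ σ ∈ inertia p F, ∃ a : ℕ, ¬ p ∣ a ∧
        ((n : ℤ) : WithTop ℤ) < ordT p F (σ z - (a : F) * z)) →
      ∀ σ ∈ inertia p F, ∀ a b : ℕ,
        ((n : ℤ) : WithTop ℤ) < ordT p F (σ z - (a : F) * z) →
        ((m : ℤ) : WithTop ℤ) < ordT p F (σ w - (b : F) * w) → a ≡ b [MOD p]

/-- **FT-OT** from the tame congruence (T). -/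
theorem ftOT_of_tameCongr (p : ℕ) [Fact p.Prime] (hT : TameCongrStatement p) :
    FTOTStatement p := by
  intro F _ _ _ _ O H _ _ _ _ _ _ _ hint htame ζ hζ x hx1 hxp hred hall σ hσ a ha
  have hp : p.Prime := Fact.out
  obtain ⟨z, n, hn1, hz, hle, hconv⟩ := ftOT_conv hint x hx1 hxp hred
  obtain ⟨m, hm1, hm, hme⟩ := ordT_zeta_sub_one hζ
  -- `σ ζ = ζ ^ b`
  have hσζ : (σ ζ) ^ p = 1 := by rw [← map_pow, hζ.pow_eq_one, map_one]
  obtain ⟨b, -, hb⟩ := hζ.eq_pow_of_pow_eq_one hσζ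
  have hb' := ordT_aut_zeta_sub_one hζ hm1 hm σ b hb.symm
  have hall' : ∀ τ ∈ inertia p F, ∃ a : ℕ, ¬ p ∣ a ∧
      ((n : ℤ) : WithTop ℤ) < ordT p F (τ z - (a : F) * z) := by
    intro τ hτ
    obtain ⟨a', ha'⟩ := hall τ hτ
    exact ⟨a', hconv τ a' ha'⟩
  have hab := hT F htame z (ζ - 1) n m hn1 hz hm hle hme hall' σ hσ a b (hconv σ a ha).2 hb'
  rw [← hb]
  have hord : orderOf ζ = p := hζ.eq_orderOf.symm
  rw [← pow_mod_orderOf ζ b, ← pow_mod_orderOf ζ a, hord]
  congr 1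
  exact hab.symm

end Fermat.Agent.P1.helper67
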