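import Mathlib
import Fermat.Agent.P1.helper67_FTOTCyc
import Fermat.Agent.P1.helper78_KRInert
import Fermat.Agent.P1.helper41_KumAux
import Fermat.Agent.P1.helper86_HopfVal

/-!
# P1 / FLAT-CNT, package FT-OT, part (T): the tame character (helper67, task 708)

For a finite Galois extension `F/ℚ_p` with uniformiser `π` the map
`θ : σ ↦ res (σ π / π)` is a character of the inertia group `I` with values in the residue
field; it is injective if `F` is tame, so `I` is cyclic of order `e`.  An element `z` of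
valuation `n` is an eigenvector of `σ ∈ I` modulo higher valuation, with eigenvalue `θ σ ^ n`.

* `tameCongr p : TameCongrStatement p`;
* `ftOT p : helper70.FTOTStatement p` (**FT-OT**, verbatim, unconditional).
-/

set_option autoImplicit false
set_option linter.unusedSectionVars false

namespace Fermat.Agent.P1.helper67

open Fermat.Agent.S55.helper8 Fermat.Agent.S55.helper7 Fermat.Agent.P1.helper14
  Fermat.Agent.P1.helper70 Fermat.Agent.P1.helper50

/-! ## `WithTop ℤ` arithmetic -/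

lemma wt_lt_iff_add_one_le (n : ℤ) (a : WithTop ℤ) :
    ((n : ℤ) : WithTop ℤ) < a ↔ ((n + 1 : ℤ) : WithTop ℤ) ≤ a := by
  induction a using WithTop.recTopCoe with
  | top => simp
  | coe k =>
    rw [WithTop.coe_lt_coe, WithTop.coe_le_coe]
    omega

lemma wt_one_le_of_add_le {x : WithTop ℤ} {n : ℤ}
    (h : ((n + 1 : ℤ) : WithTop ℤ) ≤ x + ((n : ℤ) : WithTop ℤ)) : (0 : WithTop ℤ) < x := by
  induction x using WithTop.recTopCoe with
  | top => simp
  | coe k =>
    rw [← WithTop.coe_add, WithTop.coe_le_coe] at h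
    rw [← WithTop.coe_zero, WithTop.coe_lt_coe]
    omega

section Tame

variable (p : ℕ) [Fact p.Prime]
variable (F : Type) [Field F] [Algebra ℚ_[p] F] [FiniteDimensional ℚ_[p] F]

/-! ## Residues of elements of `F` -/

/-- the residue of an element of `F` (junk value `0` for non-integral elements) -/
noncomputable def resT (x : F) : kq p F :=
  if h : 0 ≤ ordT p F x then res p F ⟨x, h⟩ else 0

lemma resT_of_nonneg {x : F} (h : 0 ≤ ordT p F x) : resT p F x = res p F ⟨x, h⟩ := dif_pos h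

lemma resT_mul {x y : F} (hx : 0 ≤ ordT p F x) (hy : 0 ≤ ordT p F y) :
    resT p F (x * y) = resT p F x * resT p F y := by
  have hxy : 0 ≤ ordT p F (x * y) := by
    rw [ordT_mul]
    exact add_nonneg hx hy
  rw [resT_of_nonneg p F hx, resT_of_nonneg p F hy, resT_of_nonneg p F hxy, ← map_mul]
  rfl

lemma resT_one : resT p F 1 = 1 := by
  have h : (0 : WithTop ℤ) ≤ ordT p F (1 : F) := by rw [ordT_one]
  rw [resT_of_nonneg p F h]
  exact map_one (res p F)

lemma resT_pow {x : F} (hx : 0 ≤ ordT p F x) (n : ℕ) :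
    resT p F (x ^ n) = resT p F x ^ n := by
  induction n with
  | zero => simp [resT_one]
  | succ n ih =>
    have hxn : 0 ≤ ordT p F (x ^ n) := by
      rw [ordT_pow]
      exact nsmul_nonneg hx n
    rw [pow_succ, resT_mul p F hxn hx, ih, pow_succ]

lemma resT_natCast (a : ℕ) : resT p F (a : F) = (a : kq p F) := by
  rw [resT_of_nonneg p F (ordT_natCast_nonneg p F a)]
  have : (⟨(a : F), ordT_natCast_nonneg p F a⟩ : Oq p F) = (a : Oq p F) := Subtype.ext (by simp)
  rw [this, map_natCast]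

lemma resT_eq_iff {x y : F} (hx : 0 ≤ ordT p F x) (hy : 0 ≤ ordT p F y) :
    resT p F x = resT p F y ↔ 0 < ordT p F (x - y) := by
  rw [resT_of_nonneg p F hx, resT_of_nonneg p F hy, res_eq_iff]

/-! ## The tame character `θ σ = res (σ π / π)` -/

variable {p F}

lemma unif_ne_zero {π : F} (hπ : ordT p F π = 1) : π ≠ 0 := by
  rintro rfl
  rw [ordT_zero] at hπ
  exact WithTop.top_ne_one hπ

/-- `σ π / π` is a unit -/
lemma ordT_aut_div_unif (σ : F ≃ₐ[ℚ_[p]] F) {π : F} (hπ : ordT p F π = 1) :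
    ordT p F (σ π / π) = 0 :=
  Fermat.Agent.P1.helper86.ordT_div_eq_zero p F (unif_ne_zero hπ) (ordT_aut p F σ π)

lemma ordT_unif_pow {π : F} (hπ : ordT p F π = 1) (n : ℕ) :
    ordT p F (π ^ n) = ((n : ℤ) : WithTop ℤ) := by
  rw [ordT_pow, hπ, ← WithTop.coe_one, wt_nsmul_coe_int, mul_one]

/-- an element of valuation `n` is an eigenvector of `σ ∈ I` modulo higher valuation, with
eigenvalue `(σ π / π) ^ n` -/
lemma le_ordT_aut_sub_pow_mul {π : F} (hπ : ordT p F π = 1) {σ : F ≃ₐ[ℚ_[p]] F}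
    (hσ : σ ∈ inertia p F) {z : F} {n : ℕ} (hz : ordT p F z = ((n : ℤ) : WithTop ℤ)) :
    ((((n : ℤ) + 1 : ℤ)) : WithTop ℤ) ≤ ordT p F (σ z - (σ π / π) ^ n * z) := by
  have hπ0 : π ≠ 0 := unif_ne_zero hπ
  have hπn0 : π ^ n ≠ 0 := pow_ne_zero n hπ0
  have hu : ordT p F (z / π ^ n) = 0 :=
    Fermat.Agent.P1.helper86.ordT_div_eq_zero p F hπn0 (by rw [hz, ordT_unif_pow hπ])
  have h1 : ((0 + 1 : ℤ) : WithTop ℤ) ≤ ordT p F (σ (z / π ^ n) - z / π ^ n) :=
    (wt_lt_iff_add_one_le 0 _).1 (by simpa using hσ _ hu.ge)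
  have e : σ z - (σ π / π) ^ n * z = (σ (z / π ^ n) - z / π ^ n) * (σ π) ^ n := by
    rw [map_div₀, map_pow, div_pow]
    have hσπ0 : σ π ≠ 0 := by simpa using hπ0
    have hσπn0 : (σ π) ^ n ≠ 0 := pow_ne_zero n hσπ0
    field_simp
  have h2 : ((n : ℤ) : WithTop ℤ) ≤ ordT p F ((σ π) ^ n) := by
    rw [← map_pow, ordT_aut, ordT_unif_pow hπ]
  rw [e]
  refine le_trans (le_of_eq ?_) (le_ordT_mul p F h1 h2)
  rw [← WithTop.coe_add]
  congr 1
  ring

/-- the eigenvalue of `σ ∈ I` on an element of valuation `n` is `θ σ ^ n` -/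
lemma natCast_eq_theta_pow {π : F} (hπ : ordT p F π = 1) {σ : F ≃ₐ[ℚ_[p]] F}
    (hσ : σ ∈ inertia p F) {z : F} {n : ℕ} (hz : ordT p F z = ((n : ℤ) : WithTop ℤ)) (a : ℕ)
    (ha : ((n : ℤ) : WithTop ℤ) < ordT p F (σ z - (a : F) * z)) :
    (a : kq p F) = resT p F (σ π / π) ^ n := by
  have hc : ordT p F (σ π / π) = 0 := ordT_aut_div_unif σ hπ
  have hcn : 0 ≤ ordT p F ((σ π / π) ^ n) := by
    rw [ordT_pow, hc]
    simp
  have hA := le_ordT_aut_sub_pow_mul hπ hσ hz
  have ha' := (wt_lt_iff_add_one_le _ _).1 ha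
  have e : ((a : F) - (σ π / π) ^ n) * z =
      (σ z - (σ π / π) ^ n * z) - (σ z - (a : F) * z) := by ring
  have h2 : ((((n : ℤ) + 1 : ℤ)) : WithTop ℤ) ≤ ordT p F (((a : F) - (σ π / π) ^ n) * z) := by
    rw [e]
    exact le_ordT_sub p F hA ha'
  rw [ordT_mul, hz] at h2
  have h3 := wt_one_le_of_add_le h2
  rw [← resT_natCast, ← resT_pow p F hc.ge]
  exact (resT_eq_iff p F (ordT_natCast_nonneg p F a) hcn).2 h3

/-- `θ` is multiplicative on the inertia group -/
lemma theta_mul {π : F} (hπ : ordT p F π = 1) {σ : F ≃ₐ[ℚ_[p]] F} (hσ : σ ∈ inertia p F)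
    (τ : F ≃ₐ[ℚ_[p]] F) :
    resT p F ((σ * τ) π / π) = resT p F (σ π / π) * resT p F (τ π / π) := by
  have hπ0 : π ≠ 0 := unif_ne_zero hπ
  have hcσ : ordT p F (σ π / π) = 0 := ordT_aut_div_unif σ hπ
  have hcτ : ordT p F (τ π / π) = 0 := ordT_aut_div_unif τ hπ
  have hσcτ : ordT p F (σ (τ π / π)) = 0 := by rw [ordT_aut, hcτ]
  have e : (σ * τ) π / π = σ (τ π / π) * (σ π / π) := by
    rw [AlgEquiv.mul_apply, map_div₀]
    have hσπ0 : σ π ≠ 0 := by simpa using hπ0
    field_simp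
  rw [e, resT_mul p F hσcτ.ge hcσ.ge, mul_comm]
  congr 1
  exact (resT_eq_iff p F hσcτ.ge hcτ.ge).2 (hσ _ hcτ.ge)

/-- the tame character -/
noncomputable def thetaHom {π : F} (hπ : ordT p F π = 1) : ↥(inertia p F) →* kq p F where
  toFun σ := resT p F ((σ : F ≃ₐ[ℚ_[p]] F) π / π)
  map_one' := by
    have hπ0 : π ≠ 0 := unif_ne_zero hπ
    show resT p F ((1 : F ≃ₐ[ℚ_[p]] F) π / π) = 1
    rw [AlgEquiv.one_apply, div_self hπ0, resT_one]
  map_mul' σ τ := theta_mul hπ σ.2 τ

lemma thetaHom_apply {π : F} (hπ : ordT p F π = 1) (σ : ↥(inertia p F)) :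
    thetaHom hπ σ = resT p F ((σ : F ≃ₐ[ℚ_[p]] F) π / π) := rfl

/-- the kernel of `θ` is the wild inertia group -/
lemma mem_ramGroup_one_of_theta {π : F} (hπ : ordT p F π = 1) {σ : F ≃ₐ[ℚ_[p]] F}
    (hσ : σ ∈ inertia p F) (h1 : resT p F (σ π / π) = 1) : σ ∈ ramGroup p F 1 := by
  have hπ0 : π ≠ 0 := unif_ne_zero hπ
  have hc : ordT p F (σ π / π) = 0 := ordT_aut_div_unif σ hπ
  have h01 : (0 : WithTop ℤ) ≤ ordT p F (1 : F) := by rw [ordT_one]
  have h2 : 0 < ordT p F (σ π / π - 1) :=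
    (resT_eq_iff p F hc.ge h01).1 (h1.trans (resT_one p F).symm)
  have h3 : ((0 + 1 : ℤ) : WithTop ℤ) ≤ ordT p F (σ π / π - 1) :=
    (wt_lt_iff_add_one_le 0 _).1 (by simpa using h2)
  refine mem_ramGroup_of_unif p F hπ hσ ?_
  have e : σ π - π = (σ π / π - 1) * π := by field_simp
  rw [e]
  have hπ1 : ((1 : ℤ) : WithTop ℤ) ≤ ordT p F π := by rw [hπ]; rfl
  refine le_trans (le_of_eq ?_) (le_ordT_mul p F h3 hπ1)
  rw [← WithTop.coe_add]
  congr 1

variable [IsGalois ℚ_[p] F]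

/-- the inertia group has order `e` -/
lemma card_inertia_eq : Nat.card (inertia p F) = edeg p F := by
  obtain ⟨K0, he, hf, -, hK0⟩ := Fermat.Agent.P1.helper78.krInert p F
  exact Fermat.Agent.P1.helper41.kum_card_inertia p F K0 he hf hK0

/-- in a tame extension the wild inertia group is trivial -/
lemma eq_one_of_mem_ramGroup_one (htame : ¬ p ∣ edeg p F) {σ : F ≃ₐ[ℚ_[p]] F}
    (hσ : σ ∈ ramGroup p F 1) : σ = 1 := by
  have hp : p.Prime := Fact.out
  obtain ⟨π, hπ⟩ := Fermat.Agent.P1.helper86.exists_ordT_eq_one p F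
  have hσI : σ ∈ inertia p F := ramGroup_le_inertia p F 1 hσ
  obtain ⟨k, hk⟩ := isPGroup_ramGroup_one p F hπ ⟨σ, hσ⟩
  have hk' : σ ^ p ^ k = 1 := by
    have := congrArg Subtype.val hk
    simpa using this
  have hord2 : orderOf σ ∣ p ^ k := orderOf_dvd_of_pow_eq_one hk'
  have hord : orderOf σ ∣ edeg p F := by
    have h := orderOf_dvd_natCard (⟨σ, hσI⟩ : ↥(inertia p F))
    rw [card_inertia_eq] at h
    rwa [← Subgroup.orderOf_coe] at h
  have hcop : Nat.Coprime (p ^ k) (edeg p F) :=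
    Nat.Coprime.pow_left k ((Nat.Prime.coprime_iff_not_dvd hp).2 htame)
  have h1 : orderOf σ = 1 := Nat.eq_one_of_dvd_one (hcop ▸ Nat.dvd_gcd hord2 hord)
  exact orderOf_eq_one_iff.mp h1

/-- in a tame extension the tame character is injective -/
lemma thetaHom_injective (htame : ¬ p ∣ edeg p F) {π : F} (hπ : ordT p F π = 1) :
    Function.Injective (thetaHom hπ) := by
  rw [injective_iff_map_eq_one]
  intro σ h
  exact Subtype.ext (eq_one_of_mem_ramGroup_one htame (mem_ramGroup_one_of_theta hπ σ.2 h))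

/-- the inertia group of a tame extension is cyclic -/
theorem isCyclic_inertia_of_tame (htame : ¬ p ∣ edeg p F) : IsCyclic ↥(inertia p F) := by
  obtain ⟨π, hπ⟩ := Fermat.Agent.P1.helper86.exists_ordT_eq_one p F
  exact isCyclic_of_injective_ringHom (thetaHom hπ) (thetaHom_injective htame hπ)

end Tame

/-- Fermat's little theorem in the residue field -/
lemma natCast_pow_sub_one_kq (p : ℕ) [Fact p.Prime] (F : Type) [Field F] [Algebra ℚ_[p] F]
    [FiniteDimensional ℚ_[p] F] {a : ℕ} (ha : ¬ p ∣ a) : (a : kq p F) ^ (p - 1) = 1 := by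
  have hp : p.Prime := Fact.out
  have hcop : Nat.Coprime a p := ((Nat.Prime.coprime_iff_not_dvd hp).2 ha).symm
  have h := Nat.ModEq.pow_totient hcop
  rw [Nat.totient_prime hp] at h
  have h2 := (CharP.natCast_eq_natCast (kq p F) p).mpr h
  push_cast at h2
  exact h2

/-- **(T)** the tame congruence. -/
theorem tameCongr (p : ℕ) [Fact p.Prime] : TameCongrStatement p := by
  intro F _ _ _ _ htame z w n m hn1 hz hw hle hme hall σ hσ a b ha hb
  have hp : p.Prime := Fact.out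
  obtain ⟨π, hπ⟩ := Fermat.Agent.P1.helper86.exists_ordT_eq_one p F
  have hcyc := isCyclic_inertia_of_tame htame
  obtain ⟨g, hg⟩ := IsCyclic.exists_generator (α := ↥(inertia p F))
  have hog : orderOf g = edeg p F := by
    rw [← card_inertia_eq (p := p) (F := F)]
    exact orderOf_eq_card_of_forall_mem_zpowers hg
  -- `g ^ (n (p - 1)) = 1`
  obtain ⟨a0, ha0p, ha0⟩ := hall g g.2
  have h1 := natCast_eq_theta_pow hπ g.2 hz a0 ha0
  have h2 := natCast_pow_sub_one_kq p F ha0p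
  have h3 : thetaHom hπ (g ^ (n * (p - 1))) = 1 := by
    rw [map_pow, pow_mul, thetaHom_apply, ← h1, h2]
  have h4 : g ^ (n * (p - 1)) = 1 :=
    thetaHom_injective htame hπ (h3.trans (map_one _).symm)
  have h5 : edeg p F ∣ n * (p - 1) := hog ▸ orderOf_dvd_of_pow_eq_one h4
  have hp1 : 0 < p - 1 := Nat.sub_pos_of_lt hp.one_lt
  have hpos : 0 < n * (p - 1) := Nat.mul_pos hn1 hp1
  have h6 : n * (p - 1) = edeg p F := le_antisymm hle (Nat.le_of_dvd hpos h5)
  have hnm : n = m := Nat.eq_of_mul_eq_mul_right hp1 (h6.trans hme.symm)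
  subst hnm
  have e1 := natCast_eq_theta_pow hπ hσ hz a ha
  have e2 := natCast_eq_theta_pow hπ hσ hw b hb
  exact (CharP.natCast_eq_natCast (kq p F) p).mp (e1.trans e2.symm)

/-- **FT-OT** (verbatim, unconditional): a line of points reducing to the identity in a tame
field carries the cyclotomic character on inertia. -/
theorem ftOT (p : ℕ) [Fact p.Prime] : FTOTStatement p :=
  ftOT_of_tameCongr p (tameCongr p)

end Fermat.Agent.P1.helper67
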