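/-
P1 (S56), module EC, package [ART-BN] (helper68, task 751), ABSTRACT PART (Mathlib only).

* `exists_commuting_trace_ne_zero` : a simple module `T` (finite dimensional over a FINITE field
  `k`) over a `k`-algebra `A` has a `k`-endomorphism of nonzero trace which commutes with
  `End_A T`;
* `exists_separating` : for finitely many pairwise non-isomorphic such modules there is an element
  of `A` which kills all of them but one, on which it has nonzero trace (Jacobson density);
* `finsupp_eq_of_prod_eq` : multiplicities are determined by products of monic polynomials, given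
  separating functionals on the next-to-leading coefficients (characteristic `p`);
* `charpoly_eq_mul_of_exact` : the characteristic polynomial is multiplicative on short exact
  sequences of finite dimensional vector spaces with compatible endomorphisms.
-/
import Mathlib

set_option autoImplicit false
set_option linter.style.haveILetI false

open Module

namespace Fermat.Agent.P1.helper68

section TraceForm

variable {k : Type*} [Field k] [Finite k] {A : Type*} [Ring A] [Algebra k A]

/-- A simple module over a `k`-algebra, finite dimensional over the finite field `k`, has a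
`k`-endomorphism of NONZERO TRACE which commutes with all `A`-endomorphisms. -/
theorem exists_commuting_trace_ne_zero (T : Type*) [AddCommGroup T] [Module k T] [Module A T]
    [IsScalarTower k A T] [Module.Finite k T] [IsSimpleModule A T] :
    ∃ φ : T →ₗ[k] T, (∀ (e : Module.End A T) (t : T), φ (e t) = e (φ t)) ∧
      LinearMap.trace k T φ ≠ 0 := by
  classical
  haveI : Finite T := Module.finite_of_finite k
  haveI : Finite (Module.End A T) := Finite.of_injective (fun e : Module.End A T => (e : T → T))
    DFunLike.coe_injective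
  letI : Field (Module.End A T) := littleWedderburn (Module.End A T)
  haveI : Nontrivial T := IsSimpleModule.nontrivial A T
  haveI : Module.Finite k (Module.End A T) := Module.Finite.of_finite
  haveI : Algebra.IsSeparable k (Module.End A T) := Algebra.IsAlgebraic.isSeparable_of_perfectField
  haveI : Module.Finite (Module.End A T) T := Module.Finite.of_restrictScalars_finite k _ T
  obtain ⟨c, hc⟩ : ∃ c : Module.End A T, Algebra.trace k (Module.End A T) c ≠ 0 := by
    by_contra h
    push Not at h
    exact Algebra.trace_ne_zero k (Module.End A T) (LinearMap.ext h)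
  let b := Module.finBasis (Module.End A T) T
  have hpos : 0 < Module.finrank (Module.End A T) T := Module.finrank_pos
  let i₀ : Fin (Module.finrank (Module.End A T) T) := ⟨0, hpos⟩
  let π : T →ₗ[Module.End A T] Module.End A T := b.coord i₀
  let ι : Module.End A T →ₗ[Module.End A T] T := LinearMap.toSpanSingleton _ T (b i₀)
  have hπι : ∀ d, π (ι d) = d := by
    intro d
    change b.coord i₀ (d • b i₀) = d
    rw [map_smul, Basis.coord_apply, Basis.repr_self, Finsupp.single_eq_same, smul_eq_mul,
      mul_one]
  let ψ : T →ₗ[Module.End A T] T := ι.comp (c • π)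
  refine ⟨ψ.restrictScalars k, fun e t => ?_, ?_⟩
  · change ψ (e • t) = e • ψ t
    exact map_smul ψ e t
  · have h1 : ψ.restrictScalars k =
        (ι.restrictScalars k).comp ((c • π).restrictScalars k) := rfl
    rw [h1, LinearMap.trace_comp_comm']
    have h2 : ((c • π).restrictScalars k).comp (ι.restrictScalars k) =
        Algebra.lmul k (Module.End A T) c := by
      refine LinearMap.ext fun d => ?_
      change c • π (ι d) = c * d
      rw [hπι, smul_eq_mul]
    rw [h2, ← Algebra.trace_apply]
    exact hc

/-- **Separating elements** (Jacobson density): for finitely many pairwise non-isomorphic simple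
modules, finite dimensional over the finite field `k`, there is an element of the algebra which
kills all of them but one, on which it has nonzero trace. -/
theorem exists_separating {ι : Type*} [Finite ι] (T : ι → Type*) [∀ i, AddCommGroup (T i)]
    [∀ i, Module k (T i)] [∀ i, Module A (T i)] [∀ i, IsScalarTower k A (T i)]
    [∀ i, Module.Finite k (T i)] [∀ i, IsSimpleModule A (T i)]
    (hT : ∀ i j, i ≠ j → IsEmpty (T i ≃ₗ[A] T j)) (j₀ : ι) :
    ∃ α : A, (∀ i, i ≠ j₀ → ∀ t : T i, α • t = 0) ∧
      LinearMap.trace k (T j₀) (Algebra.lsmul k k (T j₀) α) ≠ 0 := by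
  classical
  cases nonempty_fintype ι
  obtain ⟨φ, hφ, htr⟩ := exists_commuting_trace_ne_zero (k := k) (A := A) (T j₀)
  -- Schur: the off-diagonal components of an endomorphism of the product vanish
  have hschur : ∀ (e : Module.End A (Π i, T i)) (i j : ι), i ≠ j → ∀ t : T j,
      e (Pi.single j t) i = 0 := by
    intro e i j hij t
    let eij : T j →ₗ[A] T i := (LinearMap.proj i).comp (e.comp (LinearMap.single A T j))
    rcases LinearMap.bijective_or_eq_zero eij with h | h
    · exact ((hT j i (Ne.symm hij)).false (LinearEquiv.ofBijective eij h)).elim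
    · exact LinearMap.congr_fun h t
  have hcomp : ∀ (e : Module.End A (Π i, T i)) (m : Π i, T i),
      e m j₀ = e (Pi.single j₀ (m j₀)) j₀ := by
    intro e m
    conv_lhs => rw [← Finset.univ_sum_single m]
    rw [map_sum, Finset.sum_apply]
    refine Finset.sum_eq_single j₀ (fun i _ hi => ?_) (fun h => (h (Finset.mem_univ _)).elim)
    exact hschur e j₀ i (Ne.symm hi) (m i)
  let f₀ : (Π i, T i) → (Π i, T i) := fun m => Pi.single j₀ (φ (m j₀))
  have hf : ∀ (e : Module.End A (Π i, T i)) (m : Π i, T i), f₀ (e m) = e (f₀ m) := by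
    intro e m
    let e₀ : Module.End A (T j₀) :=
      (LinearMap.proj j₀).comp (e.comp (LinearMap.single A T j₀))
    have he₀ : ∀ t, e₀ t = e (Pi.single j₀ t) j₀ := fun _ => rfl
    funext i
    by_cases hi : i = j₀
    · subst hi
      change Pi.single i (φ (e m i)) i = e (Pi.single i (φ (m i))) i
      rw [Pi.single_eq_same, hcomp e m, ← he₀, hφ e₀, he₀]
    · change Pi.single j₀ (φ (e m j₀)) i = e (Pi.single j₀ (φ (m j₀))) i
      rw [Pi.single_eq_of_ne hi, hschur e i j₀ hi]
  let f : Module.End (Module.End A (Π i, T i)) (Π i, T i) :=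
    { toFun := f₀
      map_add' := fun m m' => by
        change Pi.single j₀ (φ ((m + m') j₀)) = Pi.single j₀ (φ (m j₀)) + Pi.single j₀ (φ (m' j₀))
        rw [Pi.add_apply, map_add, Pi.single_add]
      map_smul' := fun e m => hf e m }
  haveI : Module.Finite (Module.End A (Π i, T i)) (Π i, T i) :=
    Module.Finite.of_restrictScalars_finite k _ _
  obtain ⟨α, hα⟩ := Module.Finite.toModuleEnd_moduleEnd_surjective (R := A) (M := Π i, T i) f
  have hα' : ∀ m : Π i, T i, α • m = Pi.single j₀ (φ (m j₀)) := fun m =>
    LinearMap.congr_fun hα m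
  refine ⟨α, fun i hi t => ?_, ?_⟩
  · have h1 := congrFun (hα' (Pi.single i t)) i
    rw [Pi.smul_apply, Pi.single_eq_same, Pi.single_eq_of_ne hi] at h1
    exact h1
  · have h2 : Algebra.lsmul k k (T j₀) α = φ := by
      refine LinearMap.ext fun t => ?_
      have h1 := congrFun (hα' (Pi.single j₀ t)) j₀
      rw [Pi.smul_apply, Pi.single_eq_same, Pi.single_eq_same] at h1
      exact h1
    rw [h2]
    exact htr

end TraceForm

section Multiplicity

open Polynomial

variable {k : Type*} [Field k] {Q X : Type*} (P : Q → X → Polynomial k)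

lemma nextCoeff_finsupp_prod (hmonic : ∀ q x, (P q x).Monic) (a : Q →₀ ℕ) (x : X)
    (F : Finset Q) (hF : a.support ⊆ F) :
    (a.prod (fun q n => P q x ^ n)).nextCoeff = ∑ q ∈ F, (a q : k) * (P q x).nextCoeff := by
  rw [Finsupp.prod_of_support_subset a hF _ (fun q _ => pow_zero _),
    Polynomial.Monic.nextCoeff_prod F _ (fun q _ => (hmonic q x).pow _)]
  refine Finset.sum_congr rfl fun q _ => ?_
  rw [Polynomial.Monic.nextCoeff_pow (hmonic q x), nsmul_eq_mul]

lemma finsupp_prod_ne_zero (hmonic : ∀ q x, (P q x).Monic) (a : Q →₀ ℕ) (x : X) :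
    a.prod (fun q n => P q x ^ n) ≠ 0 := by
  rw [Finsupp.prod]
  exact Finset.prod_ne_zero_iff.2 fun q _ => pow_ne_zero _ (hmonic q x).ne_zero

/-- **Multiplicities are determined by the characteristic polynomials** (abstract form): if the
next-to-leading coefficients of the monic polynomials `P q x` have separating functionals, then
`∏ P q x ^ a q = ∏ P q x ^ b q` for all `x` implies `a = b`. -/
theorem finsupp_eq_of_prod_eq (p : ℕ) [Fact p.Prime] [CharP k p]
    (hmonic : ∀ q x, (P q x).Monic)
    (hsep : ∀ (F : Finset Q), ∀ q₀ ∈ F, ∃ α : X →₀ k,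
      (∀ q ∈ F, q ≠ q₀ → α.sum (fun x c => c * (P q x).nextCoeff) = 0) ∧
        α.sum (fun x c => c * (P q₀ x).nextCoeff) ≠ 0)
    (a b : Q →₀ ℕ)
    (h : ∀ x, a.prod (fun q n => P q x ^ n) = b.prod (fun q n => P q x ^ n)) : a = b := by
  classical
  have hp : p.Prime := Fact.out
  induction' hN : (a.degree + b.degree) using Nat.strong_induction_on with N ih generalizing a b
  by_cases hcommon : ∃ q, a q ≠ 0 ∧ b q ≠ 0
  · obtain ⟨q, haq, hbq⟩ := hcommon
    have hale : Finsupp.single q 1 ≤ a := by
      rw [Finsupp.single_le_iff]
      exact Nat.one_le_iff_ne_zero.2 haq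
    have hble : Finsupp.single q 1 ≤ b := by
      rw [Finsupp.single_le_iff]
      exact Nat.one_le_iff_ne_zero.2 hbq
    have ha : a = (a - Finsupp.single q 1) + Finsupp.single q 1 := (tsub_add_cancel_of_le hale).symm
    have hb : b = (b - Finsupp.single q 1) + Finsupp.single q 1 := (tsub_add_cancel_of_le hble).symm
    have hprod : ∀ (c : Q →₀ ℕ) (x : X), (c + Finsupp.single q 1).prod (fun q n => P q x ^ n) =
        c.prod (fun q n => P q x ^ n) * P q x := by
      intro c x
      rw [Finsupp.prod_add_index' (h := fun q n => P q x ^ n) (fun _ => pow_zero _)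
        (fun _ _ _ => pow_add _ _ _),
        Finsupp.prod_single_index (h := fun q n => P q x ^ n) (pow_zero _), pow_one]
    have h' : ∀ x, (a - Finsupp.single q 1).prod (fun q n => P q x ^ n) =
        (b - Finsupp.single q 1).prod (fun q n => P q x ^ n) := by
      intro x
      have hx := h x
      rw [ha, hb, hprod, hprod] at hx
      exact mul_right_cancel₀ (hmonic q x).ne_zero hx
    have hdeg : (a - Finsupp.single q 1).degree + (b - Finsupp.single q 1).degree < N := by
      have h1 : a.degree = (a - Finsupp.single q 1).degree + 1 := by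
        conv_lhs => rw [ha]
        rw [map_add, Finsupp.degree_single]
      have h2 : b.degree = (b - Finsupp.single q 1).degree + 1 := by
        conv_lhs => rw [hb]
        rw [map_add, Finsupp.degree_single]
      omega
    have := ih _ hdeg _ _ h' rfl
    rw [ha, hb, this]
  · push Not at hcommon
    -- the trace argument: all multiplicities are divisible by `p`
    have hcast : ∀ q, (a q : k) = (b q : k) := by
      intro q₀
      by_cases hq₀ : q₀ ∈ a.support ∪ b.support
      · obtain ⟨α, hα0, hα1⟩ := hsep (a.support ∪ b.support) q₀ hq₀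
        have hx : ∀ x, ∑ q ∈ a.support ∪ b.support, (a q : k) * (P q x).nextCoeff =
            ∑ q ∈ a.support ∪ b.support, (b q : k) * (P q x).nextCoeff := by
          intro x
          rw [← nextCoeff_finsupp_prod P hmonic a x _ Finset.subset_union_left,
            ← nextCoeff_finsupp_prod P hmonic b x _ Finset.subset_union_right, h x]
        have hsum : ∀ c : Q →₀ ℕ,
            α.sum (fun x r => r * ∑ q ∈ a.support ∪ b.support, (c q : k) * (P q x).nextCoeff) =
              (c q₀ : k) * α.sum (fun x r => r * (P q₀ x).nextCoeff) := by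
          intro c
          have h1 : α.sum (fun x r => r * ∑ q ∈ a.support ∪ b.support,
              (c q : k) * (P q x).nextCoeff) =
              ∑ q ∈ a.support ∪ b.support, (c q : k) *
                α.sum (fun x r => r * (P q x).nextCoeff) := by
            simp only [Finsupp.sum, Finset.mul_sum]
            rw [Finset.sum_comm]
            refine Finset.sum_congr rfl fun q _ => Finset.sum_congr rfl fun x _ => ?_
            ring
          rw [h1]
          refine Finset.sum_eq_single_of_mem q₀ hq₀ (fun q hq hne => ?_)
          rw [hα0 q hq hne, mul_zero]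
        have h2 : (a q₀ : k) * α.sum (fun x r => r * (P q₀ x).nextCoeff) =
            (b q₀ : k) * α.sum (fun x r => r * (P q₀ x).nextCoeff) := by
          rw [← hsum a, ← hsum b]
          refine Finsupp.sum_congr fun x _ => ?_
          rw [hx x]
        exact mul_right_cancel₀ hα1 h2
      · rw [Finset.mem_union, Finsupp.mem_support_iff, Finsupp.mem_support_iff] at hq₀
        push Not at hq₀
        rw [hq₀.1, hq₀.2]
    have hdiv : ∀ q, p ∣ a q ∧ p ∣ b q := by
      intro q
      have h1 := hcast q
      by_cases haq : a q = 0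
      · rw [haq, Nat.cast_zero] at h1
        exact ⟨haq ▸ dvd_zero p, (CharP.cast_eq_zero_iff k p _).1 h1.symm⟩
      · have hbq : b q = 0 := hcommon q haq
        rw [hbq, Nat.cast_zero] at h1
        exact ⟨(CharP.cast_eq_zero_iff k p _).1 h1, hbq ▸ dvd_zero p⟩
    by_cases h0 : N = 0
    · have h1 : a.degree = 0 := by omega
      have h2 : b.degree = 0 := by omega
      rw [Finsupp.degree_eq_zero_iff] at h1 h2
      rw [h1, h2]
    · set a' : Q →₀ ℕ := a.mapRange (· / p) (Nat.zero_div p) with ha'
      set b' : Q →₀ ℕ := b.mapRange (· / p) (Nat.zero_div p) with hb'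
      have ha : a = p • a' := by
        ext q
        rw [Finsupp.smul_apply, ha', Finsupp.mapRange_apply, smul_eq_mul,
          Nat.mul_div_cancel' (hdiv q).1]
      have hb : b = p • b' := by
        ext q
        rw [Finsupp.smul_apply, hb', Finsupp.mapRange_apply, smul_eq_mul,
          Nat.mul_div_cancel' (hdiv q).2]
      have hpow : ∀ (c : Q →₀ ℕ) (x : X), (p • c).prod (fun q n => P q x ^ n) =
          (c.prod (fun q n => P q x ^ n)) ^ p := by
        intro c x
        rw [Finsupp.prod_of_support_subset (p • c) (Finsupp.support_smul) _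
          (fun q _ => pow_zero _), Finsupp.prod, ← Finset.prod_pow]
        refine Finset.prod_congr rfl fun q _ => ?_
        rw [Finsupp.smul_apply, smul_eq_mul, mul_comm, pow_mul]
      have h' : ∀ x, a'.prod (fun q n => P q x ^ n) = b'.prod (fun q n => P q x ^ n) := by
        intro x
        have hx := h x
        rw [ha, hb, hpow, hpow] at hx
        haveI : CharP (Polynomial k) p := inferInstance
        have h3 : (a'.prod (fun q n => P q x ^ n) - b'.prod (fun q n => P q x ^ n)) ^ p = 0 := by
          rw [sub_pow_char, hx, sub_self]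
        exact sub_eq_zero.1 (pow_eq_zero_iff (hp.ne_zero) |>.1 h3)
      have hdeg : a'.degree + b'.degree < N := by
        have h1 : a.degree = p * a'.degree := by
          conv_lhs => rw [ha]
          rw [map_nsmul, smul_eq_mul]
        have h2 : b.degree = p * b'.degree := by
          conv_lhs => rw [hb]
          rw [map_nsmul, smul_eq_mul]
        have h3 : 2 ≤ p := hp.two_le
        have h4 : 0 < a'.degree + b'.degree := by
          by_contra h5
          have h6 : a'.degree = 0 := by omega
          have h7 : b'.degree = 0 := by omega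
          rw [h6, mul_zero] at h1
          rw [h7, mul_zero] at h2
          omega
        nlinarith
      have := ih _ hdeg _ _ h' rfl
      rw [ha, hb, this]

end Multiplicity

section Charpoly

variable {k : Type*} [Field k] {V₁ V V₂ : Type*} [AddCommGroup V₁] [Module k V₁]
  [AddCommGroup V] [Module k V] [AddCommGroup V₂] [Module k V₂]

/-- **The characteristic polynomial is multiplicative on short exact sequences.** -/
theorem charpoly_eq_mul_of_exact [Module.Finite k V₁] [Module.Finite k V] [Module.Finite k V₂]
    (i : V₁ →ₗ[k] V) (q : V →ₗ[k] V₂)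
    (hi : Function.Injective i) (hq : Function.Surjective q)
    (hex : LinearMap.range i = LinearMap.ker q)
    (f₁ : V₁ →ₗ[k] V₁) (f : V →ₗ[k] V) (f₂ : V₂ →ₗ[k] V₂)
    (h₁ : ∀ a, i (f₁ a) = f (i a)) (h₂ : ∀ a, q (f a) = f₂ (q a)) :
    f.charpoly = f₁.charpoly * f₂.charpoly := by
  classical
  obtain ⟨σ, hσ⟩ := LinearMap.exists_rightInverse_of_surjective q (LinearMap.range_eq_top.2 hq)
  have hσ' : ∀ b, q (σ b) = b := fun b => LinearMap.congr_fun hσ b
  have hqi : ∀ a, q (i a) = 0 := by
    intro a
    have : i a ∈ LinearMap.ker q := hex ▸ LinearMap.mem_range_self i a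
    exact this
  let e₀ : (V₁ × V₂) →ₗ[k] V := i.coprod σ
  have he₀ : ∀ a b, e₀ (a, b) = i a + σ b := fun a b => LinearMap.coprod_apply _ _ _
  have hinj : Function.Injective e₀ := by
    rw [← LinearMap.ker_eq_bot, LinearMap.ker_eq_bot']
    rintro ⟨a, b⟩ hab
    rw [he₀] at hab
    have hb : b = 0 := by
      have := congrArg q hab
      rw [map_add, hqi, hσ', zero_add, map_zero] at this
      exact this
    rw [hb, map_zero, add_zero] at hab
    have ha : a = 0 := hi (by rw [hab, map_zero])
    rw [ha, hb]
    rfl
  have hsurj : Function.Surjective e₀ := by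
    intro v
    have hv : v - σ (q v) ∈ LinearMap.range i := by
      rw [hex, LinearMap.mem_ker, map_sub, hσ', sub_self]
    obtain ⟨a, ha⟩ := hv
    refine ⟨(a, q v), ?_⟩
    rw [he₀, ha, sub_add_cancel]
  let E : (V₁ × V₂) ≃ₗ[k] V := LinearEquiv.ofBijective e₀ ⟨hinj, hsurj⟩
  have hE : ∀ a b, E (a, b) = i a + σ b := he₀
  let F : (V₁ × V₂) →ₗ[k] (V₁ × V₂) := E.symm.conj f
  have hF : F.charpoly = f.charpoly := LinearEquiv.charpoly_conj E.symm f
  have hFE : ∀ z, E (F z) = f (E z) := by
    intro z
    change E (E.symm.conj f z) = _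
    rw [LinearEquiv.conj_apply_apply, LinearEquiv.symm_symm, LinearEquiv.apply_symm_apply]
  have hqE : ∀ z : V₁ × V₂, q (E z) = z.2 := by
    rintro ⟨a, b⟩
    rw [hE, map_add, hqi, hσ', zero_add]
  have hF1 : ∀ a, F (a, 0) = (f₁ a, 0) := by
    intro a
    apply E.injective
    rw [hFE, hE, hE, map_zero, add_zero, add_zero, h₁]
  have hF2 : ∀ z, (F z).2 = f₂ z.2 := by
    intro z
    rw [← hqE (F z), hFE, h₂, hqE]
  let B : V₂ →ₗ[k] V₁ := (LinearMap.fst k V₁ V₂).comp (F.comp (LinearMap.inr k V₁ V₂))
  have hB : ∀ b, F (0, b) = (B b, f₂ b) := by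
    intro b
    refine Prod.ext rfl ?_
    exact hF2 (0, b)
  let b₁ := Module.Free.chooseBasis k V₁
  let b₂ := Module.Free.chooseBasis k V₂
  rw [← hF, ← LinearMap.charpoly_toMatrix f₁ b₁, ← LinearMap.charpoly_toMatrix f₂ b₂,
    ← LinearMap.charpoly_toMatrix F (b₁.prod b₂)]
  have hM : LinearMap.toMatrix (b₁.prod b₂) (b₁.prod b₂) F =
      Matrix.fromBlocks (LinearMap.toMatrix b₁ b₁ f₁) (LinearMap.toMatrix b₂ b₁ B) 0
        (LinearMap.toMatrix b₂ b₂ f₂) := by
    ext (r | r) (c | c)
    · simp [LinearMap.toMatrix_apply, hF1]
    · simp [LinearMap.toMatrix_apply, hB]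
    · simp [LinearMap.toMatrix_apply, hF1]
    · simp [LinearMap.toMatrix_apply, hB]
  rw [hM, Matrix.charpoly_fromBlocks_zero₂₁]

end Charpoly

end Fermat.Agent.P1.helper68
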