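/-
P1 (S56), module EC, package [ART-BN] (helper68, task 751): BRAUER-NESBITT in characteristic
polynomial form for additive invariants.

* `bn : BNStatement` : an additive invariant `g` of finite dimensional smooth representations
  over a FINITE field takes the same value on two representations on which every group element
  has the same characteristic polynomial.

Proof: every finite dimensional smooth representation `V` has composition data `a_V` (a finitely
supported multiplicity function on the isomorphism classes of simple finite smooth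
representations) with `g V = ∑ a_V(q) g(q)` and `charpoly (V.ρ x) = ∏ charpoly (q.ρ x) ^ a_V(q)`;
the multiplicities are determined by the characteristic polynomials (`finsupp_eq_of_prod_eq`,
separating elements from Jacobson density).
-/
import Fermat.Agent.P1.helper68_ArtDefs
import Fermat.Agent.P1.helper68_ArtBNAlg

set_option autoImplicit false
set_option linter.style.haveILetI false

open groupCohomology

noncomputable section

namespace Fermat.Agent.P1.helper68

open Fermat.Agent.S55 Fermat.Agent.P1.helper63

section RepIsoSec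

variable {k G : Type} [Field k] [Group G]

/-- There is an equivariant linear bijection `A → B`. -/
def RepIso (A B : Rep.{0} k G) : Prop :=
  ∃ e : A →ₗ[k] B, (∀ s a, e (A.ρ s a) = B.ρ s (e a)) ∧ Function.Bijective e

lemma RepIso.refl (A : Rep.{0} k G) : RepIso A A :=
  ⟨LinearMap.id, fun _ _ => rfl, Function.bijective_id⟩

lemma RepIso.symm {A B : Rep.{0} k G} (h : RepIso A B) : RepIso B A := by
  obtain ⟨e, he, hb⟩ := h
  let E := LinearEquiv.ofBijective e hb
  have hE : ∀ a, E a = e a := fun _ => rfl
  refine ⟨E.symm.toLinearMap, fun s b => ?_, E.symm.bijective⟩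
  apply E.injective
  change E (E.symm (B.ρ s b)) = E (A.ρ s (E.symm b))
  rw [E.apply_symm_apply, hE, he, ← hE, E.apply_symm_apply]

lemma RepIso.trans {A B C : Rep.{0} k G} (h : RepIso A B) (h' : RepIso B C) : RepIso A C := by
  obtain ⟨e, he, hb⟩ := h
  obtain ⟨e', he', hb'⟩ := h'
  refine ⟨e'.comp e, fun s a => ?_, hb'.comp hb⟩
  rw [LinearMap.comp_apply, he, he', LinearMap.comp_apply]

lemma RepIso.charpoly_eq {A B : Rep.{0} k G} [Module.Finite k A] [Module.Finite k B]
    (h : RepIso A B) (x : G) : LinearMap.charpoly (A.ρ x) = LinearMap.charpoly (B.ρ x) := by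
  obtain ⟨e, he, hb⟩ := h
  let E := LinearEquiv.ofBijective e hb
  have hE : ∀ a, E a = e a := fun _ => rfl
  have h1 : E.conj (A.ρ x) = B.ρ x := by
    refine LinearMap.ext fun b => ?_
    rw [LinearEquiv.conj_apply_apply, hE, he, ← hE, E.apply_symm_apply]
  rw [← h1, LinearEquiv.charpoly_conj]

/-- A representation is simple: nonzero, and every stable subspace is `⊥` or `⊤`. -/
def IsSimpleRep (V : Rep.{0} k G) : Prop :=
  Nontrivial V ∧ ∀ U : Submodule k V, (∀ x, U ≤ U.comap (V.ρ x)) → U = ⊥ ∨ U = ⊤

lemma isSimpleModule_of_isSimpleRep (V : Rep.{0} k G) (h : IsSimpleRep V) :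
    IsSimpleModule (MonoidAlgebra k G) V.ρ.asModule := by
  rw [← Representation.irreducible_iff_isSimpleModule_asModule]
  haveI := h.1
  refine { exists_pair_ne := ⟨⊥, ⊤, ?_⟩, eq_bot_or_eq_top := fun σ => ?_ }
  · intro hbt
    have h1 : (⊥ : Submodule k V) = ⊤ := congrArg Subrepresentation.toSubmodule hbt
    exact bot_ne_top h1
  · rcases h.2 σ.toSubmodule (fun x v hv => σ.apply_mem_toSubmodule x hv) with h0 | h1
    · exact Or.inl (Subrepresentation.toSubmodule_injective h0)
    · exact Or.inr (Subrepresentation.toSubmodule_injective h1)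

/-- A nonzero finite dimensional representation has a simple subrepresentation. -/
lemma exists_simple_sub (V : Rep.{0} k G) [Module.Finite k V] [Nontrivial V] :
    ∃ (U : Submodule k V) (hU : ∀ x, U ≤ U.comap (V.ρ x)), U ≠ ⊥ ∧
      IsSimpleRep (Rep.of (V.ρ.subrepresentation U hU)) := by
  classical
  have hex : ∃ n, ∃ U : Submodule k V, (∀ x, U ≤ U.comap (V.ρ x)) ∧ U ≠ ⊥ ∧
      Module.finrank k U = n :=
    ⟨_, ⊤, fun x => le_top.trans (by rw [Submodule.comap_top]), top_ne_bot, rfl⟩
  obtain ⟨U, hU, hne, hfr⟩ := Nat.find_spec hex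
  have hmin : ∀ U' : Submodule k V, (∀ x, U' ≤ U'.comap (V.ρ x)) → U' ≠ ⊥ →
      Module.finrank k U ≤ Module.finrank k U' := by
    intro U' h1 h2
    rw [hfr]
    exact Nat.find_min' hex ⟨U', h1, h2, rfl⟩
  refine ⟨U, hU, hne, ?_, ?_⟩
  · exact Submodule.nontrivial_iff_ne_bot.2 hne
  · intro U' hU'
    by_cases h0 : U' = ⊥
    · exact Or.inl h0
    · right
      have hst : ∀ x, (U'.map U.subtype) ≤ (U'.map U.subtype).comap (V.ρ x) := by
        rintro x _ ⟨u, hu, rfl⟩
        exact ⟨(V.ρ.subrepresentation U hU x) u, hU' x hu, rfl⟩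
      have hne' : U'.map U.subtype ≠ ⊥ := by
        intro h1
        refine h0 ((Submodule.eq_bot_iff _).2 fun u hu => ?_)
        have h2 : U.subtype u ∈ U'.map U.subtype := ⟨u, hu, rfl⟩
        rw [h1, Submodule.mem_bot] at h2
        exact U.subtype_injective (h2.trans (map_zero _).symm)
      have h1 := hmin _ hst hne'
      have h2 : Module.finrank k (U'.map U.subtype) = Module.finrank k U' :=
        (LinearEquiv.finrank_eq (Submodule.equivMapOfInjective U.subtype
          U.subtype_injective U')).symm
      exact Submodule.eq_top_of_finrank_eq (le_antisymm (Submodule.finrank_le U') (h2 ▸ h1))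

end RepIsoSec

section Classes

variable (k : Type) {G : Type} [Field k] [Group G] (𝒩 : Levels G)

/-- A simple finite dimensional smooth representation. -/
structure SimpleObj where
  /-- the representation -/
  S : Rep.{0} k G
  fin : Module.Finite k S
  smooth : IsSmooth 𝒩 S
  simple : IsSimpleRep S

/-- Isomorphism of simple objects. -/
def simpleSetoid : Setoid (SimpleObj k 𝒩) where
  r S S' := RepIso S.S S'.S
  iseqv := ⟨fun S => RepIso.refl S.S, fun h => h.symm, fun h h' => h.trans h'⟩

/-- The isomorphism classes of simple finite dimensional smooth representations. -/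
abbrev SimpleClass : Type 1 := Quotient (simpleSetoid k 𝒩)

variable {k 𝒩}

/-- The characteristic polynomials of a simple object. -/
def SimpleObj.cp (S : SimpleObj k 𝒩) (x : G) : Polynomial k :=
  haveI := S.fin
  LinearMap.charpoly (S.S.ρ x)

lemma SimpleObj.cp_monic (S : SimpleObj k 𝒩) (x : G) : (S.cp x).Monic := by
  haveI := S.fin
  exact LinearMap.charpoly_monic _

/-- The chosen representative of a class. -/
def clsRep (q : SimpleClass k 𝒩) : SimpleObj k 𝒩 := Quotient.out q

lemma clsRep_mk (S : SimpleObj k 𝒩) :
    RepIso (clsRep (Quotient.mk (simpleSetoid k 𝒩) S)).S S.S :=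
  Quotient.mk_out (s := simpleSetoid k 𝒩) S

lemma eq_of_repIso_clsRep {q q' : SimpleClass k 𝒩} (h : RepIso (clsRep q).S (clsRep q').S) :
    q = q' :=
  Quotient.out_equiv_out.1 h

/-- **Composition data**: multiplicities of the simple classes in a finite dimensional smooth
representation, computing every additive invariant and all characteristic polynomials. -/
theorem exists_compData (g : Rep.{0} k G → ℤ) (hg : IsAddInv 𝒩 g) :
    ∀ (n : ℕ) (V : Rep.{0} k G) [Module.Finite k V], IsSmooth 𝒩 V → Module.finrank k V = n →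
      ∃ a : SimpleClass k 𝒩 →₀ ℕ,
        g V = a.sum (fun q m => (m : ℤ) * g (clsRep q).S) ∧
        ∀ x, LinearMap.charpoly (V.ρ x) = a.prod (fun q m => (clsRep q).cp x ^ m) := by
  intro n
  induction n using Nat.strong_induction_on with
  | _ n ih =>
    intro V _ hs hn
    by_cases h0 : n = 0
    · subst h0
      haveI : Subsingleton V := (Module.finrank_zero_iff).1 hn
      refine ⟨0, ?_, fun x => ?_⟩
      · rw [Finsupp.sum_zero_index]
        have h1 := hg.add V V V LinearMap.id 0 (fun _ _ => rfl)
          (fun s a => Subsingleton.elim _ _) Function.injective_id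
          (fun b => ⟨0, Subsingleton.elim _ _⟩)
          (by rw [LinearMap.range_id, LinearMap.ker_zero]) inferInstance hs
        omega
      · rw [Finsupp.prod_zero_index]
        have h1 := LinearMap.charpoly_natDegree (V.ρ x)
        rw [hn] at h1
        exact (LinearMap.charpoly_monic _).natDegree_eq_zero.1 h1
    · haveI : Nontrivial V := Module.nontrivial_of_finrank_pos (R := k) (by omega)
      obtain ⟨U, hU, hne, hsimple⟩ := exists_simple_sub V
      set A₁ : Rep.{0} k G := Rep.of (V.ρ.subrepresentation U hU) with hA₁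
      set A₂ : Rep.{0} k G := Rep.of (V.ρ.quotient U hU) with hA₂
      have hs₁ : IsSmooth 𝒩 A₁ := by
        obtain ⟨N, hN, h⟩ := hs
        exact ⟨N, hN, fun s hs a => Subtype.ext (h s hs a.1)⟩
      have hs₂ : IsSmooth 𝒩 A₂ := by
        obtain ⟨N, hN, h⟩ := hs
        refine ⟨N, hN, fun s hs a => ?_⟩
        obtain ⟨v, rfl⟩ := Submodule.mkQ_surjective U a
        change U.mkQ (V.ρ s v) = _
        rw [h s hs v]
      have hfr : Module.finrank k A₂ < n := by
        have h1 := Submodule.finrank_quotient_add_finrank U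
        have h2 : 0 < Module.finrank k U :=
          Module.finrank_pos_iff.2 (Submodule.nontrivial_iff_ne_bot.2 hne)
        change Module.finrank k (V ⧸ U) < n
        omega
      obtain ⟨a₂, ha₂, hc₂⟩ := ih _ hfr A₂ hs₂ rfl
      let S₁ : SimpleObj k 𝒩 := ⟨A₁, inferInstance, hs₁, hsimple⟩
      let q₁ : SimpleClass k 𝒩 := Quotient.mk _ S₁
      have hiso : RepIso (clsRep q₁).S A₁ := clsRep_mk S₁
      have hexact : LinearMap.range U.subtype = LinearMap.ker U.mkQ := by
        rw [Submodule.range_subtype, Submodule.ker_mkQ]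
      refine ⟨a₂ + Finsupp.single q₁ 1, ?_, fun x => ?_⟩
      · have hadd : g V = g A₁ + g A₂ :=
          hg.add A₁ V A₂ U.subtype U.mkQ (fun _ _ => rfl) (fun _ _ => rfl)
            U.subtype_injective (Submodule.mkQ_surjective U) hexact inferInstance hs
        have hiso' : g (clsRep q₁).S = g A₁ := by
          obtain ⟨e, he, hb⟩ := hiso
          exact hg.iso _ _ e he hb (clsRep q₁).fin (clsRep q₁).smooth
        rw [Finsupp.sum_add_index' (fun _ => by simp) (fun _ _ _ => by push_cast; ring),
          Finsupp.sum_single_index (by simp), hadd, ha₂, hiso']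
        push_cast
        ring
      · have hmul : LinearMap.charpoly (V.ρ x) =
            LinearMap.charpoly (A₁.ρ x) * LinearMap.charpoly (A₂.ρ x) :=
          charpoly_eq_mul_of_exact U.subtype U.mkQ U.subtype_injective
            (Submodule.mkQ_surjective U) hexact (A₁.ρ x) (V.ρ x) (A₂.ρ x)
            (fun _ => rfl) (fun _ => rfl)
        have hcp : (clsRep q₁).cp x = LinearMap.charpoly (A₁.ρ x) := by
          haveI := (clsRep q₁).fin
          exact hiso.charpoly_eq x
        rw [Finsupp.prod_add_index' (h := fun q m => (clsRep q).cp x ^ m) (fun _ => pow_zero _)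
            (fun _ _ _ => pow_add _ _ _),
          Finsupp.prod_single_index (h := fun q m => (clsRep q).cp x ^ m) (pow_zero _), pow_one,
          hmul, hc₂ x, hcp, mul_comm]

end Classes

section Sep

variable {k : Type} {G : Type} [Field k] [Group G] {𝒩 : Levels G}

/-- The trace of an element of the group algebra, in terms of the characteristic polynomials of
the group elements. -/
lemma trace_lsmul_asModule (V : Rep.{0} k G) [Module.Finite k V] (α : MonoidAlgebra k G) :
    LinearMap.trace k V.ρ.asModule (Algebra.lsmul k k V.ρ.asModule α) =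
      - α.coeff.sum (fun x c => c * (LinearMap.charpoly (V.ρ x)).nextCoeff) := by
  classical
  have h1 : Algebra.lsmul k k V.ρ.asModule α =
      V.ρ.asModuleEquiv.symm.conj (V.ρ.asAlgebraHom α) := by
    refine LinearMap.ext fun t => ?_
    rw [LinearEquiv.conj_apply_apply, LinearEquiv.symm_symm]
    apply V.ρ.asModuleEquiv.injective
    rw [LinearEquiv.apply_symm_apply]
    exact V.ρ.asModuleEquiv_map_smul α t
  have h2 : ∀ x : G, LinearMap.trace k V (V.ρ x) = - (LinearMap.charpoly (V.ρ x)).nextCoeff := by
    intro x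
    rw [LinearMap.trace_eq_matrix_trace k (Module.Free.chooseBasis k V),
      Matrix.trace_eq_neg_charpoly_nextCoeff, LinearMap.charpoly_toMatrix]
  rw [h1, LinearMap.trace_conj', Representation.asAlgebraHom_def, MonoidAlgebra.lift_apply,
    Finsupp.sum, map_sum, Finsupp.sum, ← Finset.sum_neg_distrib]
  refine Finset.sum_congr rfl fun x _ => ?_
  rw [map_smul, smul_eq_mul, h2, mul_neg]

/-- A linear equivalence of the associated modules over the group algebra is an isomorphism of
representations. -/
lemma repIso_of_asModule_equiv (A B : Rep.{0} k G)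
    (e : A.ρ.asModule ≃ₗ[MonoidAlgebra k G] B.ρ.asModule) : RepIso A B := by
  let e' : A →ₗ[k] B := (B.ρ.asModuleEquiv.toLinearMap).comp
    (((e.restrictScalars k).toLinearMap).comp A.ρ.asModuleEquiv.symm.toLinearMap)
  have he' : ∀ a, e' a = B.ρ.asModuleEquiv (e (A.ρ.asModuleEquiv.symm a)) := fun _ => rfl
  refine ⟨e', fun s a => ?_, ?_⟩
  · rw [he', he', Representation.asModuleEquiv_symm_map_rho, map_smul,
      Representation.asModuleEquiv_map_smul, Representation.asAlgebraHom_of]
  · exact B.ρ.asModuleEquiv.bijective.comp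
      (e.bijective.comp A.ρ.asModuleEquiv.symm.bijective)

/-- **Separating elements** for finitely many classes of simple representations. -/
lemma exists_sep_cls [Finite k] (F : Finset (SimpleClass k 𝒩)) (q₀ : SimpleClass k 𝒩)
    (hq₀ : q₀ ∈ F) :
    ∃ α : G →₀ k,
      (∀ q ∈ F, q ≠ q₀ → α.sum (fun x c => c * ((clsRep q).cp x).nextCoeff) = 0) ∧
        α.sum (fun x c => c * ((clsRep q₀).cp x).nextCoeff) ≠ 0 := by
  classical
  let T : ↥F → Type := fun i => (clsRep i.1).S.ρ.asModule
  haveI : ∀ i : ↥F, Module.Finite k (T i) := fun i => by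
    haveI := (clsRep i.1).fin
    exact inferInstanceAs (Module.Finite k (clsRep i.1).S.ρ.asModule)
  haveI : ∀ i : ↥F, IsSimpleModule (MonoidAlgebra k G) (T i) := fun i =>
    isSimpleModule_of_isSimpleRep _ (clsRep i.1).simple
  have hT : ∀ i j : ↥F, i ≠ j → IsEmpty (T i ≃ₗ[MonoidAlgebra k G] T j) := by
    intro i j hij
    exact ⟨fun e => hij (Subtype.ext (eq_of_repIso_clsRep (repIso_of_asModule_equiv _ _ e)))⟩
  obtain ⟨α, hα0, hα1⟩ := exists_separating (k := k) (A := MonoidAlgebra k G) T hT ⟨q₀, hq₀⟩
  refine ⟨α.coeff, fun q hq hne => ?_, ?_⟩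
  · haveI := (clsRep q).fin
    have h1 : Algebra.lsmul k k (clsRep q).S.ρ.asModule α = 0 :=
      LinearMap.ext fun t => hα0 ⟨q, hq⟩ (fun h => hne (congrArg Subtype.val h)) t
    have h2 := trace_lsmul_asModule (clsRep q).S α
    rw [h1, map_zero] at h2
    exact neg_eq_zero.1 h2.symm
  · intro h0
    haveI := (clsRep q₀).fin
    apply hα1
    have h2 := trace_lsmul_asModule (clsRep q₀).S α
    rw [h2]
    exact neg_eq_zero.2 h0

end Sep

/-- **[ART-BN]** Brauer-Nesbitt, characteristic polynomial form, for additive invariants. -/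
theorem bn : BNStatement := by
  intro k G _ _ _ 𝒩 g hg V W _ _ hV hW hcp
  classical
  obtain ⟨a, ha, hca⟩ := exists_compData g hg _ V hV rfl
  obtain ⟨b, hb, hcb⟩ := exists_compData g hg _ W hW rfl
  haveI : Fact (ringChar k).Prime := ⟨CharP.char_is_prime k (ringChar k)⟩
  have hab : a = b :=
    finsupp_eq_of_prod_eq (fun (q : SimpleClass k 𝒩) (x : G) => (clsRep q).cp x) (ringChar k)
      (fun q x => (clsRep q).cp_monic x) (fun F q₀ hq₀ => exists_sep_cls F q₀ hq₀) a b
      (fun x => by rw [← hca x, ← hcb x, hcp x])
  rw [ha, hb, hab]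

end Fermat.Agent.P1.helper68

end
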