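/-
P1 (S56), module SEL, package [SEL-GW] (helper68, task 692):
the Greenberg–Wiles INEQUALITY on the S55 cone.

`gw : Fermat.Agent.P1.helper8.GWStatement`.

Pure linear algebra:
* `finrank_pairing_ineq` : for a pairing `P : V0 × X0 → k` which factors in the second variable
  through a surjection `qX : X0 → W`, a subspace `R0` of the right kernel and a subspace `K0`
  containing the left kernel: `dim qX(R0) + dim V ≤ dim W + dim qV(K0)`;
* `finrank_range_le_of_ker` : `dim (range f) ≤ dim Sha + dim (range g)` if `f (ker g) ⊆ Sha`.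
-/
import Fermat.Agent.P1.helper8_SelDefs

set_option autoImplicit false
set_option linter.style.haveILetI false

open groupCohomology

noncomputable section

namespace Fermat.Agent.P1.helper68

open Fermat.Agent.S55 Fermat.Agent.P1.helper70 Fermat.Agent.P1.helper8

section LinAlg

variable {k : Type*} [Field k]

/-- **Pairing inequality.** -/
theorem finrank_pairing_ineq {V0 X0 V W : Type*} [AddCommGroup V0] [Module k V0]
    [AddCommGroup X0] [Module k X0] [AddCommGroup V] [Module k V] [AddCommGroup W] [Module k W]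
    [Module.Finite k V] [Module.Finite k W]
    (qV : V0 →ₗ[k] V) (qX : X0 →ₗ[k] W) (hqV : Function.Surjective qV)
    (hqX : Function.Surjective qX) (P : V0 →ₗ[k] X0 →ₗ[k] k)
    (hb : ∀ x y, qX y = 0 → P x y = 0)
    (R0 : Submodule k X0) (hR : ∀ x, ∀ y ∈ R0, P x y = 0)
    (K0 : Submodule k V0) (hK : ∀ x, (∀ y, P x y = 0) → x ∈ K0) :
    Module.finrank k (R0.map qX) + Module.finrank k V ≤
      Module.finrank k W + Module.finrank k (K0.map qV) := by
  obtain ⟨sV, hsV⟩ := qV.exists_rightInverse_of_surjective (LinearMap.range_eq_top.2 hqV)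
  obtain ⟨sX, hsX⟩ := qX.exists_rightInverse_of_surjective (LinearMap.range_eq_top.2 hqX)
  have hsV' : ∀ w, qV (sV w) = w := fun w => LinearMap.congr_fun hsV w
  have hsX' : ∀ w, qX (sX w) = w := fun w => LinearMap.congr_fun hsX w
  have hsec : ∀ x y, P x (sX (qX y)) = P x y := by
    intro x y
    have h := hb x (sX (qX y) - y) (by rw [map_sub, hsX', sub_self])
    rw [map_sub, sub_eq_zero] at h
    exact h
  let Θ : V →ₗ[k] Module.Dual k W := P.compl₁₂ sV sX
  have hΘ : ∀ w' w, Θ w' w = P (sV w') (sX w) := fun _ _ => rfl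
  have hker : LinearMap.ker Θ ≤ K0.map qV := by
    intro w' hw'
    rw [LinearMap.mem_ker] at hw'
    refine Submodule.mem_map.2 ⟨sV w', hK _ (fun y => ?_), hsV' w'⟩
    rw [← hsec, ← hΘ, hw', LinearMap.zero_apply]
  have hrange : LinearMap.range Θ ≤ (R0.map qX).dualAnnihilator := by
    rintro _ ⟨w', rfl⟩
    rw [Submodule.mem_dualAnnihilator]
    rintro _ ⟨y, hy, rfl⟩
    rw [hΘ, hsec]
    exact hR _ y hy
  have h1 := LinearMap.finrank_range_add_finrank_ker Θ
  have h2 := Subspace.finrank_add_finrank_dualAnnihilator_eq (R0.map qX)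
  have h3 := Submodule.finrank_mono hker
  have h4 := Submodule.finrank_mono hrange
  omega

/-- If `f` maps the kernel of `g` into `Sha`, then `dim (range f) ≤ dim Sha + dim (range g)`. -/
theorem finrank_range_le_of_ker {S0 H W : Type*} [AddCommGroup S0] [Module k S0]
    [AddCommGroup H] [Module k H] [AddCommGroup W] [Module k W]
    [Module.Finite k H] [Module.Finite k W]
    (f : S0 →ₗ[k] H) (g : S0 →ₗ[k] W) (Sha : Submodule k H)
    (h : ∀ s, g s = 0 → f s ∈ Sha) :
    Module.finrank k (LinearMap.range f) ≤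
      Module.finrank k Sha + Module.finrank k (LinearMap.range g) := by
  obtain ⟨S1, hS1⟩ := Submodule.exists_isCompl (LinearMap.ker g)
  have hinj : Function.Injective (g.domRestrict S1) := by
    rw [← LinearMap.ker_eq_bot, LinearMap.ker_eq_bot']
    intro s hs
    have h1 : (s : S0) ∈ LinearMap.ker g ⊓ S1 := ⟨hs, s.2⟩
    rw [hS1.inf_eq_bot, Submodule.mem_bot] at h1
    exact Subtype.ext h1
  have hinj' : Function.Injective ((g.domRestrict S1).rangeRestrict) := by
    intro a b hab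
    apply hinj
    exact congrArg Subtype.val hab
  haveI : Module.Finite k S1 := Module.Finite.of_injective _ hinj'
  have hS1le : Module.finrank k S1 ≤ Module.finrank k (LinearMap.range g) := by
    refine (LinearMap.finrank_le_finrank_of_injective hinj').trans ?_
    apply Submodule.finrank_mono
    rintro _ ⟨s, rfl⟩
    exact ⟨s, rfl⟩
  have hrange : LinearMap.range f = (LinearMap.ker g).map f ⊔ S1.map f := by
    rw [← Submodule.map_sup, hS1.sup_eq_top, Submodule.map_top]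
  have hle1 : Module.finrank k ((LinearMap.ker g).map f) ≤ Module.finrank k Sha := by
    apply Submodule.finrank_mono
    rintro _ ⟨s, hs, rfl⟩
    exact h s hs
  have hle2 : Module.finrank k (S1.map f) ≤ Module.finrank k S1 := Submodule.finrank_map_le f S1
  have hsup := Submodule.finrank_add_le_finrank_add_finrank ((LinearMap.ker g).map f) (S1.map f)
  rw [hrange]
  omega

end LinAlg

section Main

variable {k G : Type} [Field k] [Group G] {𝒩 : Levels G} {ι : Type} (L : LocalData G 𝒩 ι)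

/-- the embedding of families of local cochains into the cone 2-cochains, `y ↦ (0, y)` -/
def embLoc (B : Rep k G) (Lv : ∀ v, Submodule k (L.Gv v → L.loc B v)) :
    (∀ v, ↥(Lv v)) →ₗ[k] CcAmb2 L B :=
  (LinearMap.inr k (G × G → B) (∀ v : ι, L.Gv v → L.loc B v)).comp
    (LinearMap.pi (fun v => (Lv v).subtype.comp (LinearMap.proj v)))

lemma embLoc_apply (B : Rep k G) (Lv : ∀ v, Submodule k (L.Gv v → L.loc B v))
    (y : ∀ v, ↥(Lv v)) :
    embLoc L B Lv y = ((0, fun v => (y v : L.Gv v → L.loc B v)) : CcAmb2 L B) := rfl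

/-- a family of local coboundaries is a cone coboundary: `(0, (d m_v)_v) = d_c (0, -m)` -/
lemma zero_d₀₁_eq_dc₁₂ (B : Rep k G) (m : ∀ v : ι, L.loc B v) :
    ((0, fun v => (d₀₁ (L.loc B v)).hom (m v)) : CcAmb2 L B) =
      dc₁₂ L B ((0, -m) : CcAmb1 L B) := by
  refine Prod.ext ?_ ?_
  · change (0 : G × G → B) = (d₁₂ B).hom 0
    rw [map_zero]
  · funext v
    change (d₀₁ (L.loc B v)).hom (m v) =
      res₁ L B v 0 - (d₀₁ (L.loc B v)).hom ((-m) v)
    rw [map_zero, Pi.neg_apply, map_neg, zero_sub, neg_neg]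

/-- the restrictions of a global cocycle form a cone coboundary: `(0, res Y) = d_c (Y, 0)` -/
lemma zero_res_eq_dc₁₂ (B : Rep k G) {Y : G → B} (hY : (d₁₂ B).hom Y = 0) :
    ((0, fun v => res₁ L B v Y) : CcAmb2 L B) = dc₁₂ L B ((Y, 0) : CcAmb1 L B) := by
  refine Prod.ext ?_ ?_
  · change (0 : G × G → B) = (d₁₂ B).hom Y
    rw [hY]
  · funext v
    change res₁ L B v Y = res₁ L B v Y - (d₀₁ (L.loc B v)).hom ((0 : ∀ v : ι, L.loc B v) v)
    rw [Pi.zero_apply, map_zero, sub_zero]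

end Main

/-- **[SEL-GW]** the Greenberg–Wiles inequality on the S55 cone. -/
theorem gw : GWStatement := by
  intro k G _ _ 𝒩 ι _ L A B C φ tr htr hA hB Lv hBL hLZ hfA hfB hfL
  classical
  -- the quotient maps
  let qV : ↥(Z1 𝒩 A) →ₗ[k] H1 𝒩 A := Submodule.mkQ _
  have hqV : Function.Surjective qV := Submodule.mkQ_surjective _
  let qv : ∀ v, ↥(Lv v) →ₗ[k] ↥(classes (L.lev v) (L.loc B v) (Lv v)) := fun v =>
    LinearMap.codRestrict _ ((Submodule.mkQ _).comp (Submodule.inclusion (hLZ v)))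
      (fun y => Submodule.mem_map.2 ⟨⟨y.1, hLZ v y.2⟩, y.2, rfl⟩)
  have hqv : ∀ v, Function.Surjective (qv v) := by
    rintro v ⟨_, z, hz, rfl⟩
    exact ⟨⟨z.1, hz⟩, rfl⟩
  have hqv0 : ∀ v (y : ↥(Lv v)), qv v y = 0 → (y : L.Gv v → L.loc B v) ∈ B1 (L.loc B v) := by
    intro v y hy
    have h1 : (Submodule.mkQ ((B1 (L.loc B v)).comap (Z1 (L.lev v) (L.loc B v)).subtype))
        (⟨y.1, hLZ v y.2⟩ : ↥(Z1 (L.lev v) (L.loc B v))) = 0 := congrArg Subtype.val hy
    rw [Submodule.mkQ_apply, Submodule.Quotient.mk_eq_zero] at h1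
    exact h1
  let qX : (∀ v, ↥(Lv v)) →ₗ[k] (∀ v, ↥(classes (L.lev v) (L.loc B v) (Lv v))) :=
    LinearMap.pi (fun v => (qv v).comp (LinearMap.proj v))
  have hqX : Function.Surjective qX := by
    intro w
    choose y hy using fun v => hqv v (w v)
    exact ⟨y, funext hy⟩
  -- the pairing
  let P : ↥(Z1 𝒩 A) →ₗ[k] (∀ v, ↥(Lv v)) →ₗ[k] k :=
    ((cupL₁₂ L φ).compr₂ tr).compl₁₂ (Z1 𝒩 A).subtype (embLoc L B Lv)
  have hP : ∀ (x : ↥(Z1 𝒩 A)) (y : ∀ v, ↥(Lv v)),
      P x y = tr (cupc₁₂ L φ x.1 ((0, fun v => (y v : L.Gv v → L.loc B v)) : CcAmb2 L B)) :=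
    fun _ _ => rfl
  -- the pairing factors through `qX`
  have hb : ∀ x y, qX y = 0 → P x y = 0 := by
    intro x y hy
    have h1 : ∀ v, ∃ m : L.loc B v, (d₀₁ (L.loc B v)).hom m = (y v : L.Gv v → L.loc B v) :=
      fun v => hqv0 v (y v) (congrFun hy v)
    choose m hm using h1
    rw [hP]
    have h2 : ((0, fun v => (y v : L.Gv v → L.loc B v)) : CcAmb2 L B) =
        dc₁₂ L B ((0, -m) : CcAmb1 L B) := by
      rw [← zero_d₀₁_eq_dc₁₂]
      exact Prod.ext rfl (funext fun v => (hm v).symm)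
    rw [h2]
    exact htr _ (cupc₁₂_dc₁₂_mem_Bc3 L φ hB x.2 ((mem_Cc1 L).2 (C1 𝒩 B).zero_mem))
  -- the restriction map on Selmer cocycles
  let resL : ↥(selZ L B Lv) →ₗ[k] (∀ v, ↥(Lv v)) :=
    LinearMap.pi (fun v => LinearMap.codRestrict (Lv v)
      ((res₁ L B v).comp (selZ L B Lv).subtype) (fun Y => ((mem_selZ L).1 Y.2).2 v))
  have hresL : ∀ (Y : ↥(selZ L B Lv)) v,
      ((resL Y v : ↥(Lv v)) : L.Gv v → L.loc B v) = res₁ L B v Y.1 := fun _ _ => rfl
  have hR : ∀ x, ∀ y ∈ LinearMap.range resL, P x y = 0 := by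
    rintro x _ ⟨Y, rfl⟩
    rw [hP]
    have hY := ((mem_selZ L).1 Y.2).1
    have h2 : ((0, fun v => ((resL Y v : ↥(Lv v)) : L.Gv v → L.loc B v)) : CcAmb2 L B) =
        dc₁₂ L B ((Y.1, 0) : CcAmb1 L B) := zero_res_eq_dc₁₂ L B ((mem_Z1).1 hY).2
    rw [h2]
    exact htr _ (cupc₁₂_dc₁₂_mem_Bc3 L φ hB x.2 ((mem_Cc1 L).2 ((mem_Z1).1 hY).1))
  -- the left kernel consists of dual Selmer cocycles
  have hK : ∀ x : ↥(Z1 𝒩 A), (∀ y, P x y = 0) →
      x ∈ (dualSelZ L φ tr Lv).comap (Z1 𝒩 A).subtype := by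
    intro x hx
    rw [Submodule.mem_comap, mem_dualSelZ]
    refine ⟨x.2, fun y hy => ?_⟩
    exact hx (fun v => ⟨y v, hy v⟩)
  letI iW : ∀ v, AddCommGroup ↥(classes (L.lev v) (L.loc B v) (Lv v)) := fun v => inferInstance
  haveI : Module.Finite k (∀ v, ↥(classes (L.lev v) (L.loc B v) (Lv v))) := Module.Finite.pi
  have hmain := finrank_pairing_ineq (V0 := ↥(Z1 𝒩 A)) (X0 := ∀ v, ↥(Lv v)) (V := H1 𝒩 A)
    (W := ∀ v, ↥(classes (L.lev v) (L.loc B v) (Lv v))) qV qX hqV hqX P hb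
    (LinearMap.range resL) hR ((dualSelZ L φ tr Lv).comap (Z1 𝒩 A).subtype) hK
  rw [Module.finrank_pi_fintype] at hmain
  -- the Selmer classes
  let f : ↥(selZ L B Lv) →ₗ[k] H1 𝒩 B :=
    (Submodule.mkQ _).comp (Submodule.inclusion (fun Y hY => ((mem_selZ L).1 hY).1))
  have hf : classes 𝒩 B (selZ L B Lv) ≤ LinearMap.range f := by
    rintro _ ⟨z, hz, rfl⟩
    exact ⟨⟨z.1, hz⟩, rfl⟩
  have hsha : ∀ Y, (qX.comp resL) Y = 0 → f Y ∈ Sha1 L B := by
    intro Y hY
    refine Submodule.mem_map.2 ⟨⟨Y.1, ((mem_selZ L).1 Y.2).1⟩, ?_, rfl⟩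
    rw [Submodule.mem_comap]
    change Y.1 ∈ LocTriv1 L B
    rw [LocTriv1, Submodule.mem_iInf]
    intro v
    rw [Submodule.mem_comap, ← hresL Y v]
    exact hqv0 v _ (congrFun hY v)
  have hsel := finrank_range_le_of_ker f (qX.comp resL) (Sha1 L B) hsha
  rw [LinearMap.range_comp resL qX] at hsel
  have hcl := Submodule.finrank_mono hf
  have hdual : Module.finrank k ↥(((dualSelZ L φ tr Lv).comap (Z1 𝒩 A).subtype).map qV) =
      Module.finrank k ↥(classes 𝒩 A (dualSelZ L φ tr Lv)) := rfl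
  omega

end Fermat.Agent.P1.helper68

end
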