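import Fermat.Agent.S55.helper33_Rec3LocDiv2
import Fermat.Agent.S55.helper8_LocFinal
import Fermat.Agent.S55.helper60_Rec3Tors

/-!
# P1 / EC, package LOC-H3-BASE, part 1 (helper6): `H³(G_K, 𝔽_p) = 0` for a `q`-adic field `K`
containing `ζ_p`, in the level-constant cochain model — abstract form

`LocGroup q K U 𝒩` : a group `U` with a level structure `𝒩` and a homomorphism
`jq : U → Gal(PadicAlgCl q / ℚ_q)` onto `Gal(PadicAlgCl q / K)`, such that the levels are cofinal
with the fixing subgroups of the finite extensions of `ℚ_q` (and have finite index).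

For such a datum `D` (with `K / ℚ_q` finite):

* `D.E`         : the module `(PadicAlgCl q)ˣ` of `U`;
* `D.isDisc`    : it is discrete;
* `D.finReal M` : its finite-level realisation at a finite Galois extension `M / K`;
* `D.Z3_le_B3`  : `H³(U, E) = 0` (local Tate theorem `helper8.subsingleton_H3`);
* `D.div2`      : `H²(U, E)` is `p`-divisible (`H²(Gal(M/K), Mˣ)` is cyclic of order `[M : K]`);
* `D.kummer`    : the Kummer datum of a primitive `p`-th root of unity fixed by `U`;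
* `D.h3`        : `H³(U, ℤ/p) = 0` (`helper90.h3_of_kummer`).
-/

set_option autoImplicit false
set_option linter.style.haveILetI false
set_option linter.unusedSectionVars false
set_option linter.unusedVariables false

open groupCohomology ExtCitation

noncomputable section

namespace Fermat.Agent.P1.helper6

open Fermat.Agent.S55 Fermat.Agent.S55.helper59 Fermat.Agent.S55.helper90
  Fermat.Agent.S55.helper46

/-- A group `U` with levels `𝒩` realising the absolute Galois group of the `q`-adic field `K`. -/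
structure LocGroup (q : ℕ) [Fact q.Prime] (K : IntermediateField ℚ_[q] (PadicAlgCl q))
    (U : Type) [Group U] (𝒩 : Levels U) where
  /-- the action on `PadicAlgCl q` -/
  jq : U →* (PadicAlgCl q ≃ₐ[ℚ_[q]] PadicAlgCl q)
  mem : ∀ u, jq u ∈ K.fixingSubgroup
  surj : ∀ σ ∈ K.fixingSubgroup, ∃ u, jq u = σ
  lev_le : ∀ N ∈ 𝒩.mem, ∃ K₁ : IntermediateField ℚ_[q] (PadicAlgCl q),
    FiniteDimensional ℚ_[q] K₁ ∧ ∀ s, jq s ∈ K₁.fixingSubgroup → s ∈ N
  le_lev : ∀ K₁ : IntermediateField ℚ_[q] (PadicAlgCl q), FiniteDimensional ℚ_[q] K₁ →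
    ∃ N ∈ 𝒩.mem, ∀ s ∈ N, jq s ∈ K₁.fixingSubgroup
  fin : FinLevels 𝒩

namespace LocGroup

variable {q : ℕ} [Fact q.Prime] {K : IntermediateField ℚ_[q] (PadicAlgCl q)}
  {U : Type} [Group U] {𝒩 : Levels U} (D : LocGroup q K U 𝒩)

/-- the action of `U` on the units of `PadicAlgCl q` -/
@[reducible] def act : MulDistribMulAction U (PadicAlgCl q)ˣ :=
  MulDistribMulAction.compHom _ D.jq

/-- the module `E = (PadicAlgCl q)ˣ` -/
def E : Rep.{0} ℤ U :=
  letI := D.act
  Rep.ofMulDistribMulAction U (PadicAlgCl q)ˣ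

lemma E_ρ (s : U) (x : (PadicAlgCl q)ˣ) :
    D.E.ρ s (Additive.ofMul x) =
      Additive.ofMul (Units.map (D.jq s : PadicAlgCl q →* PadicAlgCl q) x) :=
  rfl

/-- the restriction `U → Gal(Ω/K)` -/
def toFix : U →* ↥K.fixingSubgroup := D.jq.codRestrict K.fixingSubgroup D.mem

@[simp] lemma coe_toFix (u : U) : ((D.toFix u : ↥K.fixingSubgroup) :
    PadicAlgCl q ≃ₐ[ℚ_[q]] PadicAlgCl q) = D.jq u := rfl

lemma toFix_surjective : Function.Surjective D.toFix := by
  rintro ⟨σ, hσ⟩
  obtain ⟨u, hu⟩ := D.surj σ hσ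
  exact ⟨u, Subtype.ext hu⟩

/-- `E` is discrete -/
theorem isDisc : IsDisc 𝒩 D.E := by
  intro a
  obtain ⟨y, rfl⟩ : ∃ y : (PadicAlgCl q)ˣ, (show D.E from Additive.ofMul y) = a :=
    ⟨Additive.toMul (show Additive (PadicAlgCl q)ˣ from a), rfl⟩
  have hfd : FiniteDimensional ℚ_[q] (IntermediateField.adjoin ℚ_[q] {(y : PadicAlgCl q)}) :=
    IntermediateField.adjoin.finiteDimensional
      ((PadicAlgCl.isAlgebraic q).isAlgebraic (y : PadicAlgCl q)).isIntegral
  obtain ⟨N, hN, h⟩ := D.le_lev _ hfd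
  refine ⟨N, hN, fun s hs => ?_⟩
  have h2 := h s hs
  rw [IntermediateField.mem_fixingSubgroup_iff] at h2
  have h3 : D.jq s (y : PadicAlgCl q) = y :=
    h2 _ (IntermediateField.mem_adjoin_simple_self _ _)
  change D.E.ρ s (Additive.ofMul y) = Additive.ofMul y
  rw [E_ρ]
  congr 1
  apply Units.ext
  rw [Units.coe_map]
  exact h3

section Real

variable (M : IntermediateField K (PadicAlgCl q))

/-- the inclusion `Mˣ → Ωˣ`, additively -/
def incl : Additive (↥M)ˣ →+ Additive (PadicAlgCl q)ˣ :=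
  MonoidHom.toAdditive
    (Units.map (algebraMap ↥M (PadicAlgCl q) : ↥M →* PadicAlgCl q))

lemma incl_injective : Function.Injective (incl M) := by
  intro x y h
  have h1 : ((Additive.toMul x : (↥M)ˣ) : PadicAlgCl q) =
      ((Additive.toMul y : (↥M)ˣ) : PadicAlgCl q) :=
    congrArg (fun z : Additive (PadicAlgCl q)ˣ =>
      ((Additive.toMul z : (PadicAlgCl q)ˣ) : PadicAlgCl q)) h
  apply Additive.toMul.injective
  apply Units.ext
  exact Subtype.ext h1

variable [IsGalois K M]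

/-- the restriction `U → Gal(M/K)` -/
def res : U →* (↥M ≃ₐ[K] ↥M) :=
  haveI : Normal K M := IsGalois.to_normal
  (resFix K M).comp D.toFix

lemma res_apply_coe (s : U) (x : ↥M) :
    ((D.res M s x : ↥M) : PadicAlgCl q) = D.jq s (x : PadicAlgCl q) := by
  haveI : Normal K M := IsGalois.to_normal
  exact resFix_apply_coe K M (D.toFix s) x

lemma res_surjective : Function.Surjective (D.res M) := by
  haveI : Normal K M := IsGalois.to_normal
  haveI : IsAlgClosure K (PadicAlgCl q) := ⟨inferInstance, inferInstance⟩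
  haveI : Normal K (PadicAlgCl q) := IsAlgClosure.normal K (PadicAlgCl q)
  exact (resFix_surjective K M).comp D.toFix_surjective

lemma mem_ker_res_iff (s : U) :
    s ∈ (D.res M).ker ↔ ∀ x ∈ M, D.jq s x = x := by
  haveI : Normal K M := IsGalois.to_normal
  rw [MonoidHom.mem_ker]
  exact (mem_ker_resFix_iff K M (D.toFix s))

variable [FiniteDimensional ℚ_[q] K] [FiniteDimensional K M]

lemma finiteDimensional_restrictScalars :
    FiniteDimensional ℚ_[q] (M.restrictScalars ℚ_[q]) := by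
  have : FiniteDimensional ℚ_[q] ↥M := FiniteDimensional.trans ℚ_[q] K ↥M
  exact this

/-- **the finite-level realisation of `E` at a finite Galois extension `M / K`** -/
def finReal : FinReal 𝒩 D.E where
  Q := ↥M ≃ₐ[K] ↥M
  π := D.res M
  π_surj := D.res_surjective M
  ker_level := by
    obtain ⟨N, hN, h⟩ := D.le_lev (M.restrictScalars ℚ_[q]) (finiteDimensional_restrictScalars M)
    refine ⟨N, hN, fun s hs => (D.mem_ker_res_iff M s).2 fun x hx => ?_⟩
    have h2 := h s hs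
    rw [IntermediateField.mem_fixingSubgroup_iff] at h2
    exact h2 x hx
  M' := Rep.ofAlgebraAutOnUnits K ↥M
  j := (incl M).toIntLinearMap
  j_inj := incl_injective M
  j_ρ := fun s m => by
    apply Additive.toMul.injective
    apply Units.ext
    exact D.res_apply_coe M s _
  j_surj := fun m hm => by
    haveI : IsAlgClosure K (PadicAlgCl q) := ⟨inferInstance, inferInstance⟩
    haveI : IsGalois K (PadicAlgCl q) := IsAlgClosure.isGalois _ _
    have key : ∀ y : (PadicAlgCl q)ˣ,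
        (∀ s ∈ (D.res M).ker, Units.map (D.jq s : PadicAlgCl q →* PadicAlgCl q) y = y) →
          (y : PadicAlgCl q) ∈ M := by
      intro y hy
      rw [← InfiniteGalois.fixedField_fixingSubgroup M, IntermediateField.mem_fixedField_iff]
      intro σ hσ
      -- `σ : Ω ≃ₐ[K] Ω` fixing `M`; lift it to `U`
      have hσK : (σ.restrictScalars ℚ_[q] : PadicAlgCl q ≃ₐ[ℚ_[q]] PadicAlgCl q) ∈
          K.fixingSubgroup := by
        rw [IntermediateField.mem_fixingSubgroup_iff]
        intro x hx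
        exact σ.commutes ⟨x, hx⟩
      obtain ⟨s, hs⟩ := D.surj _ hσK
      have hsker : s ∈ (D.res M).ker := by
        rw [mem_ker_res_iff]
        intro x hx
        rw [hs]
        exact (IntermediateField.mem_fixingSubgroup_iff M σ).1 hσ x hx
      have h1 := hy s hsker
      have h2 := congrArg (fun z : (PadicAlgCl q)ˣ => (z : PadicAlgCl q)) h1
      simp only [Units.coe_map, MonoidHom.coe_coe] at h2
      rw [hs] at h2
      exact h2
    set y : (PadicAlgCl q)ˣ :=
      Additive.toMul (show Additive (PadicAlgCl q)ˣ from m) with hy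
    have hm' : ∀ s ∈ (D.res M).ker,
        Units.map (D.jq s : PadicAlgCl q →* PadicAlgCl q) y = y := by
      intro s hs
      exact congrArg (fun z : Additive (PadicAlgCl q)ˣ => Additive.toMul z) (hm s hs)
    have h1 := key y hm'
    have h2 := key y⁻¹ (fun s hs => by
      have := hm' s hs
      rw [map_inv, this])
    refine ⟨Additive.ofMul ⟨⟨_, h1⟩, ⟨_, h2⟩, ?_, ?_⟩, ?_⟩
    · apply Subtype.ext
      exact Units.mul_inv y
    · apply Subtype.ext
      exact Units.inv_mul y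
    · change Additive.ofMul _ = Additive.ofMul y
      apply congrArg Additive.ofMul
      apply Units.ext
      rfl

@[simp] lemma finReal_π : (D.finReal M).π = D.res M := rfl

@[simp] lemma finReal_M' : (D.finReal M).M' = Rep.ofAlgebraAutOnUnits K ↥M := rfl

end Real

section Cofinal

variable [FiniteDimensional ℚ_[q] K]

/-- **Cofinality of the finite-level realisations**: below every level there is a finite Galois
`M / K` whose degree is divisible by a prescribed `d > 0`. -/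
theorem exists_finReal_le (N : Subgroup U) (hN : N ∈ 𝒩.mem) (d : ℕ) (hd : 0 < d) :
    ∃ (M : IntermediateField K (PadicAlgCl q)) (_ : IsGalois K M) (_ : FiniteDimensional K M),
      (D.finReal M).π.ker ≤ N ∧ d ∣ Module.finrank K M := by
  haveI : IsAlgClosure K (PadicAlgCl q) := ⟨inferInstance, inferInstance⟩
  obtain ⟨K₁, hK₁, hK₁N⟩ := D.lev_le N hN
  haveI := hK₁
  have hle : K ≤ K ⊔ K₁ := le_sup_left
  set M₀ : IntermediateField K (PadicAlgCl q) := IntermediateField.extendScalars hle with hM₀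
  have hfin : FiniteDimensional ℚ_[q] ↥(K ⊔ K₁) := IntermediateField.finiteDimensional_sup K K₁
  have hfin' : FiniteDimensional ℚ_[q] ↥M₀ := hfin
  haveI hfinK : FiniteDimensional K ↥M₀ := FiniteDimensional.right ℚ_[q] K ↥M₀
  obtain ⟨E, hEfd, -, hEdeg, -⟩ := helper7.exists_unram q K (PadicAlgCl q) d hd
  haveI := hEfd
  haveI : FiniteDimensional K ↥(M₀ ⊔ E) := IntermediateField.finiteDimensional_sup M₀ E
  obtain ⟨M, hMfd, hMgal, hM⟩ := helper77.exists_finite_galois_ge K (PadicAlgCl q) (M₀ ⊔ E)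
  refine ⟨M, hMgal, hMfd, ?_, ?_⟩
  · intro s hs
    apply hK₁N
    rw [IntermediateField.mem_fixingSubgroup_iff]
    intro x hx
    have h1 := (D.mem_ker_res_iff M s).1 hs
    have hx' : x ∈ M₀ := (le_sup_right : K₁ ≤ K ⊔ K₁) hx
    exact h1 x (hM ((le_sup_left : M₀ ≤ M₀ ⊔ E) hx'))
  · rw [← hEdeg]
    exact IntermediateField.finrank_dvd_of_le_right (le_sup_right.trans hM)

/-- **`H³(U, E) = 0`** (local Tate theorem at the finite levels). -/
theorem Z3_le_B3 : Z3 𝒩 D.E ≤ B3 𝒩 D.E := by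
  refine Z3_le_B3_of_isZero D.fin D.isDisc fun N hN => ?_
  obtain ⟨M, hMgal, hMfd, hle, -⟩ := D.exists_finReal_le N hN 1 Nat.one_pos
  haveI := hMgal
  haveI := hMfd
  refine ⟨D.finReal M, hle, ?_⟩
  change CategoryTheory.Limits.IsZero (groupCohomology (Rep.ofAlgebraAutOnUnits K ↥M) 3)
  haveI := helper8.subsingleton_H3 q K M
  exact ModuleCat.isZero_of_subsingleton _

/-- the `p`-primary part of `H²(U, E)` is `p`-divisible -/
theorem div2_primary (p : ℕ) (hp : p.Prime) (c : U × U → D.E) (hc : c ∈ Z2 𝒩 D.E) (n : ℕ)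
    (hn : p ^ n • c ∈ B2 𝒩 D.E) : ∃ c' ∈ Z2 𝒩 D.E, p • c' - c ∈ B2 𝒩 D.E := by
  refine helper33.div2_of_cyclic p hp D.fin D.isDisc (fun N hN k => ?_) c hc n hn
  obtain ⟨M, hMgal, hMfd, hle, hdvd⟩ := D.exists_finReal_le N hN (p ^ k) (pow_pos hp.pos k)
  haveI := hMgal
  haveI := hMfd
  obtain ⟨u, hu, hgen⟩ := helper88.exists_generator_H2' q K M
  exact ⟨D.finReal M, hle, u, hu ▸ hdvd, hgen⟩

/-- **`H²(U, E)` is `p`-divisible.** -/
theorem div2 (p : ℕ) (hp : p.Prime) (ξ : U × U → D.E) (hξ : ξ ∈ Z2 𝒩 D.E) :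
    ∃ η ∈ Z2 𝒩 D.E, ξ - p • η ∈ B2 𝒩 D.E := by
  obtain ⟨m, hm0, hm⟩ := helper60.exists_nsmul_mem_B2 D.fin D.E D.isDisc ξ hξ
  -- `m = p ^ n * m'` with `m'` prime to `p`
  obtain ⟨n, m', hm', rfl⟩ := Nat.exists_eq_pow_mul_and_not_dvd hm0.ne' p hp.ne_one
  have hcop : IsCoprime (m' : ℤ) (p : ℤ) := by
    rw [Int.isCoprime_iff_gcd_eq_one, Int.gcd_natCast_natCast]
    exact (Nat.Coprime.symm ((Nat.Prime.coprime_iff_not_dvd hp).2 hm'))
  obtain ⟨a, b, hab⟩ := hcop
  -- the class of `m' • ξ` is `p`-primary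
  have h1 : p ^ n • (m' • ξ) ∈ B2 𝒩 D.E := by
    rw [← mul_smul]
    exact hm
  have hZ : m' • ξ ∈ Z2 𝒩 D.E := (Z2 𝒩 D.E).nsmul_mem hξ m'
  obtain ⟨c', hc', hc'B⟩ := D.div2_primary p hp (m' • ξ) hZ n h1
  refine ⟨a • c' + b • ξ, (Z2 𝒩 D.E).add_mem ((Z2 𝒩 D.E).smul_mem a hc')
    ((Z2 𝒩 D.E).smul_mem b hξ), ?_⟩
  have e : ξ - p • (a • c' + b • ξ) = -(a • (p • c' - m' • ξ)) := by
    have h2 : ξ = (a * (m' : ℤ) + b * (p : ℤ)) • ξ := by rw [hab, one_smul]
    have h3 : (a * (m' : ℤ) + b * (p : ℤ)) • ξ = a • (m' • ξ) + p • (b • ξ) := by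
      rw [add_smul, mul_smul, mul_comm b, mul_smul]
      simp only [natCast_zsmul]
    calc ξ - p • (a • c' + b • ξ)
        = (a • (m' • ξ) + p • (b • ξ)) - p • (a • c' + b • ξ) := by rw [← h3, ← h2]
      _ = -(a • (p • c' - m' • ξ)) := by
        rw [smul_add, smul_sub, smul_comm p a c']
        abel
  rw [e]
  exact (B2 𝒩 D.E).neg_mem ((B2 𝒩 D.E).smul_mem a hc'B)

end Cofinal

/-! ### The Kummer datum -/

section Kummer

variable (p : ℕ) [Fact p.Prime] (ζ : PadicAlgCl q) (hζ : IsPrimitiveRoot ζ p)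

/-- `ζ` as a unit -/
def zetaUnit (hζ : IsPrimitiveRoot ζ p) : (PadicAlgCl q)ˣ :=
  Units.mk0 ζ (hζ.ne_zero (Fact.out : p.Prime).ne_zero)

lemma zetaUnit_pow (hζ : IsPrimitiveRoot ζ p) : (zetaUnit p ζ hζ) ^ p = 1 := by
  apply Units.ext
  rw [Units.val_pow_eq_pow_val, zetaUnit, Units.val_mk0, hζ.pow_eq_one, Units.val_one]

/-- the Kummer map `a ↦ ζ ^ a` -/
def kappa (hζ : IsPrimitiveRoot ζ p) : ZMod p →+ D.E :=
  (ZMod.lift p ⟨zmultiplesHom (Additive (PadicAlgCl q)ˣ) (Additive.ofMul (zetaUnit p ζ hζ)), by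
    change (p : ℤ) • Additive.ofMul (zetaUnit p ζ hζ) = 0
    rw [natCast_zsmul]
    change Additive.ofMul ((zetaUnit p ζ hζ) ^ p) = 0
    rw [zetaUnit_pow]
    rfl⟩ : ZMod p →+ Additive (PadicAlgCl q)ˣ)

lemma kappa_val (hζ : IsPrimitiveRoot ζ p) (a : ZMod p) :
    ((Additive.toMul (show Additive (PadicAlgCl q)ˣ from D.kappa p ζ hζ a) : (PadicAlgCl q)ˣ) :
      PadicAlgCl q) = ζ ^ a.val := by
  haveI : NeZero p := ⟨(Fact.out : p.Prime).ne_zero⟩
  have h1 : D.kappa p ζ hζ a = D.kappa p ζ hζ ((a.val : ℤ) : ZMod p) := by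
    congr 1
    rw [Int.cast_natCast, ZMod.natCast_zmod_val]
  rw [h1]
  change ((Additive.toMul ((ZMod.lift p _) ((a.val : ℤ) : ZMod p)) : (PadicAlgCl q)ˣ) :
    PadicAlgCl q) = _
  rw [ZMod.lift_coe]
  change ((Additive.toMul ((a.val : ℤ) • Additive.ofMul (zetaUnit p ζ hζ)) : (PadicAlgCl q)ˣ) :
    PadicAlgCl q) = _
  rw [natCast_zsmul]
  change (((zetaUnit p ζ hζ) ^ a.val : (PadicAlgCl q)ˣ) : PadicAlgCl q) = _
  rw [Units.val_pow_eq_pow_val]
  rfl

/-- **the Kummer datum** of a primitive `p`-th root of unity fixed by `U` -/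
def kummer (hζ : IsPrimitiveRoot ζ p) (hfix : ∀ u, D.jq u ζ = ζ) : KummerDatum D.E p where
  κ := D.kappa p ζ hζ
  κ_inj := by
    haveI : NeZero p := ⟨(Fact.out : p.Prime).ne_zero⟩
    intro a b hab
    have ha := D.kappa_val p ζ hζ a
    have hb := D.kappa_val p ζ hζ b
    rw [hab, hb] at ha
    have := hζ.pow_inj (ZMod.val_lt b) (ZMod.val_lt a) ha
    exact (ZMod.val_injective p this).symm
  κ_fixed := by
    intro g a
    have h1 := D.kappa_val p ζ hζ a
    set y : (PadicAlgCl q)ˣ :=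
      Additive.toMul (show Additive (PadicAlgCl q)ˣ from D.kappa p ζ hζ a) with hy
    change D.E.ρ g (Additive.ofMul y) = Additive.ofMul y
    rw [E_ρ]
    congr 1
    apply Units.ext
    rw [Units.coe_map]
    change D.jq g (y : PadicAlgCl q) = y
    rw [h1, map_pow, hfix]
  torsion := by
    haveI : NeZero p := ⟨(Fact.out : p.Prime).ne_zero⟩
    intro x hx
    set u : (PadicAlgCl q)ˣ := Additive.toMul (show Additive (PadicAlgCl q)ˣ from x) with hu
    have hu1 : u ^ p = 1 := by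
      have h1 : Additive.ofMul (u ^ p) = (0 : Additive (PadicAlgCl q)ˣ) := hx
      exact h1
    have hu' : (u : PadicAlgCl q) ^ p = 1 := by
      rw [← Units.val_pow_eq_pow_val, hu1, Units.val_one]
    obtain ⟨i, hi, hiu⟩ := hζ.eq_pow_of_pow_eq_one hu'
    refine ⟨(i : ZMod p), ?_⟩
    have hval : ((i : ZMod p)).val = i := ZMod.val_cast_of_lt hi
    have h2 := D.kappa_val p ζ hζ (i : ZMod p)
    rw [hval, hiu] at h2
    have h3 : (Additive.toMul (show Additive (PadicAlgCl q)ˣ from D.kappa p ζ hζ (i : ZMod p)) :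
        (PadicAlgCl q)ˣ) = u := Units.ext h2
    exact congrArg Additive.ofMul h3
  div := by
    intro x
    have hp : 0 < p := (Fact.out : p.Prime).pos
    set u : (PadicAlgCl q)ˣ := Additive.toMul (show Additive (PadicAlgCl q)ˣ from x) with hu
    obtain ⟨z, hz⟩ := IsAlgClosed.exists_pow_nat_eq (u : PadicAlgCl q) hp
    have hz0 : z ≠ 0 := by
      intro h
      rw [h, zero_pow hp.ne'] at hz
      exact u.ne_zero hz.symm
    refine ⟨(show D.E from Additive.ofMul (Units.mk0 z hz0)), ?_⟩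
    change Additive.ofMul ((Units.mk0 z hz0) ^ p) = x
    have : (Units.mk0 z hz0) ^ p = u := by
      apply Units.ext
      rw [Units.val_pow_eq_pow_val, Units.val_mk0, hz]
    rw [this]
    rfl

/-- **`H³(U, ℤ/p) = 0`** for the absolute Galois group of a `q`-adic field containing the
`p`-th roots of unity. -/
theorem h3 [FiniteDimensional ℚ_[q] K] (hζ : IsPrimitiveRoot ζ p) (hfix : ∀ u, D.jq u ζ = ζ) :
    Z3 𝒩 (Tp U p) ≤ B3 𝒩 (Tp U p) :=
  h3_of_kummer 𝒩 (D.kummer p ζ hζ hfix) D.fin D.isDisc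
    (fun c hc _ => D.Z3_le_B3 hc) (fun ξ hξ => D.div2 p Fact.out ξ hξ)

end Kummer

end LocGroup

end Fermat.Agent.P1.helper6
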