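import Mathlib
import Fermat.Agent.P1.helper8_SelDefs
import Fermat.Agent.P1.helper15_TameFinGen
import Fermat.Agent.S13.helper92_Minkowski
import Fermat.Agent.S55.helper74_LocalLevels

/-!
# P1 (S56), module SEL, package SEL-PTP (helper6, task 695)

`primeToP : helper8.PrimeToPStatement p ρbar`: at a prime `q ≠ p` where `ρbar` is unramified and
the Frobenius elements have two distinct eigenvalues in the residue field, the local Galois group
at `q` acts on `ad⁰ ρbar` through a quotient (by a level) of order prime to `p`.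

Proof: `N₀ = ker ρbar` is open normal, `F₀` its fixed field (finite Galois over `ℚ`),
`H = N₀.comap (primeLocalToGlobal q)`.  Every element of the decomposition group of the place of
`q` is `φ ^ n * i * u` with `φ` a Frobenius element, `i` in the inertia group and `u ∈ N₀`
(finite level: `helper15.tameFinGen` + the dictionary of `S14/helper91`), so
`ρbar g = (ρbar φ) ^ n`; and `(ρbar φ) ^ (#k - 1) = 1` by Cayley–Hamilton since the
characteristic polynomial `(X - α)(X - β)`, `α ≠ β` nonzero, divides `X ^ (#k - 1) - 1`.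
Hence `G_q / H` has exponent dividing `#k - 1`, which is prime to `p`.
-/

set_option autoImplicit false
set_option linter.style.haveILetI false
set_option linter.unusedSectionVars false
set_option linter.unusedVariables false

open IsLocalRing ExtCitation Polynomial

open scoped Pointwise NumberField

noncomputable section

namespace Fermat.Agent.P1.helper6

open Fermat.Agent.S55 Fermat.Agent.P1.helper70

/-! ### Linear algebra -/

/-- An injective endomorphism of a finite-dimensional vector space over a finite field whose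
characteristic polynomial is `(X - α)(X - β)` with `α ≠ β` satisfies `f ^ (#k - 1) = 1`. -/
theorem selPTP_pow_card_sub_one_eq_one {k V : Type} [Field k] [Finite k] [AddCommGroup V]
    [Module k V] [Module.Finite k V] (f : Module.End k V) (hinj : Function.Injective f)
    {α β : k} (hαβ : α ≠ β) (hchar : LinearMap.charpoly f = (X - C α) * (X - C β)) :
    f ^ (Nat.card k - 1) = 1 := by
  classical
  letI : Fintype k := Fintype.ofFinite k
  have hroot_ne : ∀ μ : k, (LinearMap.charpoly f).IsRoot μ → μ ≠ 0 := by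
    rintro μ hμ rfl
    have h1 := (Module.End.hasEigenvalue_iff_isRoot_charpoly f 0).2 hμ
    obtain ⟨v, hv⟩ := h1.exists_hasEigenvector
    have h2 : f v = 0 := by
      have := hv.apply_eq_smul
      rwa [zero_smul] at this
    exact hv.2 (hinj (by rw [h2, map_zero]))
  have hα : α ≠ 0 := hroot_ne α (by rw [hchar]; simp [IsRoot])
  have hβ : β ≠ 0 := hroot_ne β (by rw [hchar]; simp [IsRoot])
  have hpow : ∀ μ : k, μ ≠ 0 → (X ^ (Nat.card k - 1) - 1 : k[X]).IsRoot μ := by
    intro μ hμ
    have := FiniteField.pow_card_sub_one_eq_one μ hμ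
    rw [← Nat.card_eq_fintype_card] at this
    rw [IsRoot.def, eval_sub, eval_pow, eval_X, eval_one, this, sub_self]
  have hdvd : LinearMap.charpoly f ∣ (X ^ (Nat.card k - 1) - 1 : k[X]) := by
    rw [hchar]
    exact (Polynomial.isCoprime_X_sub_C_of_isUnit_sub (sub_ne_zero.2 hαβ).isUnit).mul_dvd
      (Polynomial.dvd_iff_isRoot.2 (hpow α hα)) (Polynomial.dvd_iff_isRoot.2 (hpow β hβ))
  obtain ⟨Q, hQ⟩ := hdvd
  have h0 : Polynomial.aeval f (X ^ (Nat.card k - 1) - 1 : k[X]) = 0 := by
    rw [hQ, map_mul, LinearMap.aeval_self_charpoly, zero_mul]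
  rw [map_sub, map_pow, Polynomial.aeval_X, map_one, sub_eq_zero] at h0
  exact h0

/-! ### The kernel of a residual representation -/

section Ker

variable {k : Type} [Field k] (ρbar : ResidualGaloisRep k)

/-- the kernel of `ρbar` is open -/
theorem selPTP_isOpen_ker : IsOpen ((ρbar.ρ.ker : Subgroup GQ) : Set GQ) := by
  obtain ⟨L₀, hL₀, h⟩ := ρbar.factorsThroughFiniteLevel
  haveI := hL₀
  refine Subgroup.isOpen_mono (H₁ := L₀.fixingSubgroup) ?_ L₀.fixingSubgroup_isOpen
  intro σ hσ
  rw [MonoidHom.mem_ker]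
  exact h σ (fun x hx => hσ ⟨x, hx⟩)

end Ker

/-! ### Decomposition groups modulo an open normal subgroup -/

/-- the kernel of the restriction to a normal subfield is its fixing subgroup (for the default
`ℚ`-algebra structure on the subfield) -/
theorem selPTP_restrictNormalHom_ker (F : IntermediateField ℚ (AlgebraicClosure ℚ))
    [Normal ℚ F] :
    (AlgEquiv.restrictNormalHom (F := ℚ) (K₁ := AlgebraicClosure ℚ) F).ker =
      F.fixingSubgroup := by
  ext u
  rw [MonoidHom.mem_ker, IntermediateField.mem_fixingSubgroup_iff]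
  constructor
  · intro h x hx
    have h1 := AlgEquiv.restrictNormal_commutes u F ⟨x, hx⟩
    have h2 : u.restrictNormal F = 1 := h
    rw [h2] at h1
    exact h1.symm
  · intro h
    refine AlgEquiv.ext fun x => Subtype.ext ?_
    have h1 := AlgEquiv.restrictNormal_commutes u F x
    have h2 : u (algebraMap F (AlgebraicClosure ℚ) x) = algebraMap F (AlgebraicClosure ℚ) x :=
      h x x.2
    rw [h2] at h1
    exact h1

/-- Every element of the decomposition group of `A` is `φ ^ n * i * u` with `φ` a given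
Frobenius element, `i` in the inertia group and `u` in a given open normal subgroup. -/
theorem selPTP_exists_pow_mul (N : Subgroup GQ) [hn : N.Normal] (hN : IsOpen (N : Set GQ))
    (A : ValuationSubring (AlgebraicClosure ℚ)) {q : ℕ} (hq : q.Prime) (hA : A.LiesOverPrime q)
    {φ : GQ} (hφ : A.IsFrobeniusAt φ q) {g : GQ} (hg : g ∈ A.decompositionSubgroup ℚ) :
    ∃ (n : ℕ) (i u : GQ), i ∈ A.inertiaSubgroupIn ℚ ∧ u ∈ N ∧ g = φ ^ n * i * u := by
  classical
  haveI hfd := Fermat.Agent.S13.helper92.finiteDimensional_fixedField_of_isOpen N hN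
  haveI hnf := Fermat.Agent.S13.helper92.numberField_fixedField_of_isOpen N hN
  haveI hgal := Fermat.Agent.S13.helper92.isGalois_fixedField_of_isOpen N hN
  have hfix := Fermat.Agent.S13.helper92.fixingSubgroup_fixedField_of_isOpen N hN
  set F₀ : IntermediateField ℚ (AlgebraicClosure ℚ) := IntermediateField.fixedField N with hF₀
  have hmem : (q : 𝓞 F₀) ∈ Fermat.Agent.S14.helper91.primeOf F₀ A :=
    Fermat.Agent.S14.helper91.natCast_mem_primeOf F₀ A hA
  have hne : Fermat.Agent.S14.helper91.primeOf F₀ A ≠ ⊥ := by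
    intro h
    rw [h, Ideal.mem_bot] at hmem
    have : (q : 𝓞 F₀) ≠ 0 := by exact_mod_cast hq.ne_zero
    exact this hmem
  haveI hmax : (Fermat.Agent.S14.helper91.primeOf F₀ A).IsMaximal :=
    Ideal.IsPrime.isMaximal inferInstance hne
  haveI hfinq : Finite (𝓞 F₀ ⧸ Fermat.Agent.S14.helper91.primeOf F₀ A) :=
    Ideal.finiteQuotientOfFreeOfNeBot _ hne
  obtain ⟨hσ1, hσ2⟩ := Fermat.Agent.S14.helper91.restrict_frobenius F₀ A hφ
  have hτ := Fermat.Agent.S14.helper91.restrict_smul_primeOf F₀ A hg
  obtain ⟨n, hn⟩ := Fermat.Agent.P1.helper15.tameFinGen (𝓞 F₀) (F₀ ≃ₐ[ℚ] F₀)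
    (Fermat.Agent.S14.helper91.primeOf F₀ A) q hq hmem _ hσ1 hσ2 _ hτ
  obtain ⟨i, hi, hiτ⟩ := Fermat.Agent.S14.helper91.exists_mem_inertia_restrict_eq F₀ A hq hA _ hn
  refine ⟨n, i, (φ ^ n * i)⁻¹ * g, hi, ?_, by group⟩
  rw [← hfix, ← selPTP_restrictNormalHom_ker F₀, MonoidHom.mem_ker, map_mul, map_inv,
    map_mul, hiτ, map_pow]
  group

/-! ### The statement -/

section PTP

variable {𝒪 : Type} [CommRing 𝒪] [IsDomain 𝒪] [IsDiscreteValuationRing 𝒪]
  [IsAdicComplete (maximalIdeal 𝒪) 𝒪] [Finite (ResidueField 𝒪)]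
  (p : ℕ) [Fact p.Prime]
  (ρbar : ResidualGaloisRep (ResidueField 𝒪))
  [Algebra (ZMod p) (ResidueField 𝒪)]

/-- the order of the residue field is prime to `p` after subtracting one -/
theorem selPTP_not_dvd_card_sub_one : ¬ p ∣ Nat.card (ResidueField 𝒪) - 1 := by
  have hp : p.Prime := Fact.out
  have hcard := Module.natCard_eq_pow_finrank (K := ZMod p) (V := ResidueField 𝒪)
  rw [Nat.card_zmod] at hcard
  have h1 : 1 < Nat.card (ResidueField 𝒪) := Finite.one_lt_card
  have hd : Module.finrank (ZMod p) (ResidueField 𝒪) ≠ 0 := by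
    intro h0
    rw [h0, pow_zero] at hcard
    omega
  intro hdvd
  have h2 : p ∣ Nat.card (ResidueField 𝒪) := by
    rw [hcard]
    exact dvd_pow_self p hd
  have h3 : p ∣ 1 := by
    have := (Nat.dvd_sub_iff_right h1.le h2).1 hdvd
    exact this
  exact hp.one_lt.ne' (Nat.dvd_one.1 h3)

/-- **[SEL-PTP]** (verbatim `helper8.PrimeToPStatement`). -/
theorem primeToP : Fermat.Agent.P1.helper8.PrimeToPStatement p ρbar := by
  classical
  intro q hqp hur hfd
  have hq : (q : ℕ).Prime := q.2
  set N₀ : Subgroup GQ := ρbar.ρ.ker with hN₀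
  have hopen : IsOpen (N₀ : Set GQ) := selPTP_isOpen_ker ρbar
  haveI hnorm : N₀.Normal := MonoidHom.normal_ker _
  haveI hfin := Fermat.Agent.S13.helper92.finiteDimensional_fixedField_of_isOpen N₀ hopen
  haveI hgal := Fermat.Agent.S13.helper92.isGalois_fixedField_of_isOpen N₀ hopen
  have hfix := Fermat.Agent.S13.helper92.fixingSubgroup_fixedField_of_isOpen N₀ hopen
  -- the exponent bound
  have hA := Fermat.Agent.S55.helper74.primeLocalPlace_liesOverPrime q
  obtain ⟨φ, hφ⟩ := Fermat.Agent.S54.helper91.exists_isFrobeniusAt_of_liesOver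
    (primeLocalPlace q) hq hA
  obtain ⟨α, β, hαβ, hchar⟩ := hfd (primeLocalPlace q) hA φ hφ
  have hinj : Function.Injective (ρbar.ρ φ) := by
    intro x y hxy
    have h1 : ρbar.ρ φ⁻¹ * ρbar.ρ φ = 1 := by rw [← map_mul, inv_mul_cancel, map_one]
    have h2 := congrArg (ρbar.ρ φ⁻¹) hxy
    have h3 : ∀ z, ρbar.ρ φ⁻¹ (ρbar.ρ φ z) = z := fun z => by
      rw [← Module.End.mul_apply, h1, Module.End.one_apply]
    rwa [h3, h3] at h2
  have hΦ := selPTP_pow_card_sub_one_eq_one (ρbar.ρ φ) hinj hαβ hchar
  have hexp : ∀ s : primeLocalGaloisGroup q,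
      ρbar.ρ (primeLocalToGlobal q s) ^ (Nat.card (ResidueField 𝒪) - 1) = 1 := by
    intro s
    have hg : primeLocalToGlobal q s ∈ (primeLocalPlace q).decompositionSubgroup ℚ := by
      rw [← Fermat.Agent.S55.helper74.range_primeLocalToGlobal]
      exact ⟨s, rfl⟩
    obtain ⟨n, i, u, hi, hu, hgu⟩ := selPTP_exists_pow_mul N₀ hopen (primeLocalPlace q) hq hA hφ hg
    have hi1 : ρbar.ρ i = 1 := hur (primeLocalPlace q) hA i hi
    have hu1 : ρbar.ρ u = 1 := hu
    rw [hgu, map_mul, map_mul, hi1, hu1, mul_one, mul_one, map_pow, ← pow_mul, mul_comm, pow_mul,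
      hΦ, one_pow]
  refine ⟨N₀.comap (primeLocalToGlobal q),
    ⟨IntermediateField.fixedField N₀, hfin, ?_, ?_⟩, ?_, ?_⟩
  · rw [hfix]; exact hnorm
  · rw [hfix]
  · intro s hs a
    have h1 : ρbar.ρ (primeLocalToGlobal q s) = 1 := hs
    have h2 : ρbar.ρ (primeLocalToGlobal q s)⁻¹ = 1 := N₀.inv_mem hs
    apply Ad0.toEnd_injective ρbar
    have h3 := ad0Rep_ρ_apply ρbar p (primeLocalToGlobal q s) a
    rw [h1, h2, one_mul, mul_one] at h3
    exact h3
  · -- finiteness of the quotient
    haveI hfinQ : Finite (primeLocalGaloisGroup q ⧸ N₀.comap (primeLocalToGlobal q)) := by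
      have hker : N₀.comap (primeLocalToGlobal q) =
          ((AlgEquiv.restrictNormalHom (F := ℚ) (K₁ := AlgebraicClosure ℚ)
            (IntermediateField.fixedField N₀)).comp (primeLocalToGlobal q)).ker := by
        rw [← MonoidHom.comap_ker, selPTP_restrictNormalHom_ker, hfix]
      rw [hker]
      infer_instance
    intro hdvd
    obtain ⟨x, hx⟩ := exists_prime_orderOf_dvd_card' p hdvd
    obtain ⟨s, rfl⟩ := QuotientGroup.mk_surjective x
    have h1 : ((s : primeLocalGaloisGroup q ⧸ N₀.comap (primeLocalToGlobal q))) ^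
        (Nat.card (ResidueField 𝒪) - 1) = 1 := by
      rw [← QuotientGroup.mk_pow, QuotientGroup.eq_one_iff, Subgroup.mem_comap, hN₀,
        MonoidHom.mem_ker, map_pow, map_pow]
      exact hexp s
    have h2 := orderOf_dvd_of_pow_eq_one h1
    rw [hx] at h2
    exact selPTP_not_dvd_card_sub_one (𝒪 := 𝒪) p h2

end PTP

end Fermat.Agent.P1.helper6
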