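import Fermat.Agent.P1.helper70_Interface
import Fermat.Agent.P1.helper61_Def1

/-!
# P1 (S56): `DefOut` from helper61's DEF-1
-/

set_option autoImplicit false

open IsLocalRing

namespace Fermat.Agent.P1.helper70

/-- The output of module DEF-1. -/
theorem defOut (𝒪 : Type) [CommRing 𝒪] [IsDomain 𝒪] [IsDiscreteValuationRing 𝒪]
    [IsAdicComplete (maximalIdeal 𝒪) 𝒪] [Finite (ResidueField 𝒪)] : DefOut 𝒪 :=
  fun R _ _ _ _ _ _ hres r hcard =>
    Fermat.Agent.P1.helper61.exists_surjective_mvPowerSeries R hres r hcard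

end Fermat.Agent.P1.helper70
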