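import Fermat.Agent.P1.helper7_LSOWire
import Fermat.Agent.P1.helper94_LSOLin
import Fermat.Agent.P1.helper58_Ram

/-!
# P1 / module LSO (helper7): the deliverable, UNCONDITIONAL

`locPOut_condSO` : the local term at `p` for the strict-ordinary condition of S56,
`LocPOut p ρbar Smin (condSO 𝒪 p Smin)`: the local tangent classes at `p` span a space of
dimension `≤ h⁰(G_p, ad⁰ ρbar) + [k : 𝔽_p]`.

Packages: LIN (helper94), ACT (helper95), DIM (helper93), UNIQ (helper99), RAM (helper58),
KUMA (helper71), KUMB (helper40), CRD (helper31), CNT (helper78), assembly (helper7).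
-/

set_option autoImplicit false
set_option linter.unusedSectionVars false

open IsLocalRing ExtCitation groupCohomology

namespace Fermat.Agent.P1.helper7

open Fermat.Agent.S55 Fermat.Agent.P1.helper70

variable {𝒪 : Type} [CommRing 𝒪] [IsDomain 𝒪] [IsDiscreteValuationRing 𝒪]
  [IsAdicComplete (maximalIdeal 𝒪) 𝒪] [Finite (ResidueField 𝒪)]
  {p : ℕ} [Fact p.Prime]
  {ρbar : ResidualGaloisRep (ResidueField 𝒪)}
  {S Smin : Finset ℕ}
  [Algebra (ZMod p) (ResidueField 𝒪)]

/-- **DELIVERABLE of module LSO**: `LocPOut` for the strict-ordinary condition of S56. -/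
theorem locPOut_condSO (hset : Setting 𝒪 p ρbar S Smin) :
    LocPOut p ρbar Smin (condSO 𝒪 p Smin) :=
  locPOut_condSO_of_lin_ram helper94.linStatement helper58.ramStatement hset

/-- The same from `p ≠ 2` alone (the other hypotheses of `Setting` are not used). -/
theorem locPOut_condSO_of_ne_two (hp2 : p ≠ 2) : LocPOut p ρbar Smin (condSO 𝒪 p Smin) := by
  intro T _ v hv
  exact locTanH_bound ρbar p helper94.linStatement helper95.actStatement helper93.dimStatement
    helper99.uniqStatement helper58.ramStatement kumOut helper31.crd helper78.cntStatement hp2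
    (primesOf T) v hv (condSO 𝒪 p Smin T) (fun _ hρ => ⟨hρ.1.1, hρ.1.2.1⟩)

end Fermat.Agent.P1.helper7
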