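import Fermat.Agent.P1.helper8_SelDefs
import Fermat.Agent.S55.helper30_LocKummer
import Fermat.Agent.S55.helper27_LocPowFinal
import Fermat.Agent.S55.helper74_LocalLevels

/-!
# P1 / module SEL, package SEL-EXT (helper78)

`ext p : Fermat.Agent.P1.helper8.ExtStatement p`.

At a prime `q ≡ 1 mod p`, for a level `H` of the local Galois group `G_q` of index prime to `p`,
every level-constant function `y : G_q → ZMod p` which is additive on `H` satisfies
`y (g h g⁻¹) = y h` for `g ∈ G_q`, `h ∈ H`.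

Route (Kummer theory + counting, S55 LOC vocabulary):
* `selExt_exists_primitiveRoot` : `ζ_p ∈ ℚ_q` (Hensel);
* `selExt_pow_descent`, `selExt_units_eq` : `Kˣ = ℚ_qˣ · (Kˣ)^p` for `K/ℚ_q` finite of degree prime
  to `p` (norm argument + `helper27.card_units_mod_pow` for `ℚ_q` and for `K`);
* `selExt_finrank_eq` : `[K : ℚ_q] = [G_q : H]` for the fixed field `K` of `H`;
* `selExt_mem_Z1` : `y|_H` is a level character of `Gal(Ω/K)`;
* `selExt_core` : `y|_H` is the Kummer character of some `a₀ ∈ ℚ_qˣ` (`helper30`), and Kummer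
  characters of elements of `ℚ_q` are invariant under conjugation by `G_q`.
-/

set_option autoImplicit false

open Fermat.Agent.S55 groupCohomology ExtCitation

namespace Fermat.Agent.P1.helper78

/-- `ℚ_q` contains a primitive `p`-th root of unity when `p ∣ q - 1`. -/
theorem selExt_exists_primitiveRoot (p q : ℕ) [Fact p.Prime] [Fact q.Prime] (h : p ∣ q - 1) :
    ∃ ζ : ℚ_[q], IsPrimitiveRoot ζ p := by
  have hp : p.Prime := Fact.out
  have hq : q.Prime := Fact.out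
  have hpq : ¬ q ∣ p := by
    intro hd
    have h1 : p ≤ q - 1 := Nat.le_of_dvd (Nat.sub_pos_of_lt hq.one_lt) h
    have h2 : q ≤ p := Nat.le_of_dvd hp.pos hd
    have := hq.one_lt
    omega
  have hcard : Nat.card (ZMod q)ˣ = q - 1 := by
    rw [Nat.card_eq_fintype_card, ZMod.card_units]
  obtain ⟨u, hu⟩ := exists_prime_orderOf_dvd_card' (G := (ZMod q)ˣ) p (by rw [hcard]; exact h)
  have hup : (u : ZMod q) ^ p = 1 := by
    have := pow_orderOf_eq_one u
    rw [hu] at this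
    have h2 := congrArg (fun v : (ZMod q)ˣ => (v : ZMod q)) this
    simpa using h2
  have hu1 : (u : ZMod q) ≠ 1 := by
    intro h1
    have : u = 1 := Units.ext h1
    rw [this, orderOf_one] at hu
    exact hp.one_lt.ne hu
  set a : ℤ_[q] := (((u : ZMod q).val : ℕ) : ℤ_[q]) with ha
  have hta : PadicInt.toZMod a = (u : ZMod q) := by
    rw [ha, map_natCast, ZMod.natCast_zmod_val]
  set F : Polynomial ℤ_[q] := Polynomial.X ^ p - 1 with hF
  have hFa : Polynomial.aeval a F = a ^ p - 1 := by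
    simp [hF]
  have hF'a : Polynomial.aeval a (Polynomial.derivative F) = (p : ℤ_[q]) * a ^ (p - 1) := by
    simp [hF, Polynomial.derivative_X_pow]
  have h1 : ‖Polynomial.aeval a F‖ < 1 := by
    rw [hFa, ← PadicInt.mem_nonunits, ← IsLocalRing.mem_maximalIdeal, ← PadicInt.ker_toZMod,
      RingHom.mem_ker, map_sub, map_pow, hta, hup, map_one, sub_self]
  have h2 : ‖Polynomial.aeval a (Polynomial.derivative F)‖ = 1 := by
    rw [hF'a, ← PadicInt.isUnit_iff]
    by_contra hnu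
    have hmem : (p : ℤ_[q]) * a ^ (p - 1) ∈ IsLocalRing.maximalIdeal ℤ_[q] := hnu
    rw [← PadicInt.ker_toZMod, RingHom.mem_ker, map_mul, map_pow, hta, map_natCast] at hmem
    rcases mul_eq_zero.1 hmem with h3 | h3
    · rw [ZMod.natCast_eq_zero_iff] at h3
      exact hpq h3
    · exact (pow_ne_zero _ u.ne_zero) h3
  have hnorm : ‖Polynomial.aeval a F‖ < ‖Polynomial.aeval a (Polynomial.derivative F)‖ ^ 2 := by
    rw [h2, one_pow]
    exact h1
  obtain ⟨z, hz, hza, -, -⟩ := hensels_lemma hnorm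
  rw [h2] at hza
  have hzp : z ^ p = 1 := by
    have : Polynomial.aeval z F = z ^ p - 1 := by simp [hF]
    rw [this, sub_eq_zero] at hz
    exact hz
  have hz1 : z ≠ 1 := by
    intro h1'
    have hmem : z - a ∈ IsLocalRing.maximalIdeal ℤ_[q] := by
      rw [IsLocalRing.mem_maximalIdeal, PadicInt.mem_nonunits]
      exact hza
    rw [← PadicInt.ker_toZMod, RingHom.mem_ker, map_sub, hta, h1', map_one, sub_eq_zero] at hmem
    exact hu1 hmem.symm
  refine ⟨(z : ℚ_[q]), ?_⟩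
  have hzq : ((z : ℚ_[q])) ^ p = 1 := by
    rw [← PadicInt.coe_pow, hzp, PadicInt.coe_one]
  have hzq1 : (z : ℚ_[q]) ≠ 1 := by
    intro h1'
    exact hz1 (Subtype.ext h1')
  rw [IsPrimitiveRoot.iff_orderOf]
  exact orderOf_eq_prime hzq hzq1


section Count

variable (q : ℕ) [Fact q.Prime] (p : ℕ) [Fact p.Prime]
variable (K : Type) [Field K] [Algebra ℚ_[q] K] [FiniteDimensional ℚ_[q] K]

/-- norm argument: an element of `ℚ_qˣ` which is a `p`-th power in `K`, `[K : ℚ_q]` prime to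
`p`, is a `p`-th power in `ℚ_q`. -/
theorem selExt_pow_descent (hn : ¬ p ∣ Module.finrank ℚ_[q] K) (a₀ : ℚ_[q]ˣ) (b : Kˣ)
    (hb : b ^ p = Units.map (algebraMap ℚ_[q] K : ℚ_[q] →* K) a₀) :
    ∃ c : ℚ_[q]ˣ, c ^ p = a₀ := by
  have hp : p.Prime := Fact.out
  set n := Module.finrank ℚ_[q] K with hn'
  have hN0 : Algebra.norm ℚ_[q] (b : K) ≠ 0 := by
    rw [Ne, Algebra.norm_eq_zero_iff]
    exact b.ne_zero
  set Nu : ℚ_[q]ˣ := Units.mk0 _ hN0 with hNu
  have h1 : Nu ^ p = a₀ ^ n := by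
    ext
    rw [Units.val_pow_eq_pow_val, Units.val_pow_eq_pow_val, hNu, Units.val_mk0, ← map_pow]
    have h2 : ((b : K)) ^ p = algebraMap ℚ_[q] K (a₀ : ℚ_[q]) := by
      have := congrArg (fun u : Kˣ => (u : K)) hb
      simpa using this
    rw [h2, Algebra.norm_algebraMap]
  have hcop : IsCoprime (n : ℤ) (p : ℤ) := by
    rw [Nat.isCoprime_iff_coprime]
    exact ((Nat.Prime.coprime_iff_not_dvd hp).2 hn).symm
  obtain ⟨u, v, huv⟩ := hcop
  refine ⟨Nu ^ u * a₀ ^ v, ?_⟩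
  calc (Nu ^ u * a₀ ^ v) ^ p = (Nu ^ p) ^ u * (a₀ ^ v) ^ p := by
        rw [mul_pow, ← zpow_natCast (Nu ^ u), ← zpow_mul, mul_comm u, zpow_mul, zpow_natCast]
    _ = a₀ ^ (u * n + v * p) := by
        rw [h1, ← zpow_natCast (a₀ ^ v), ← zpow_mul, ← zpow_natCast a₀ n, ← zpow_mul,
          ← zpow_add, mul_comm (n : ℤ) u]
    _ = a₀ := by rw [huv, zpow_one]

/-- `Kˣ = ℚ_qˣ · (Kˣ)^p` when `ζ_p ∈ ℚ_q`, `q ≠ p` and `[K : ℚ_q]` is prime to `p`. -/
theorem selExt_units_eq (hpq : p ≠ q) (ζ : ℚ_[q]) (hζ : IsPrimitiveRoot ζ p)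
    (hn : ¬ p ∣ Module.finrank ℚ_[q] K) (a : Kˣ) :
    ∃ (a₀ : ℚ_[q]ˣ) (b : Kˣ), a = Units.map (algebraMap ℚ_[q] K : ℚ_[q] →* K) a₀ * b ^ p := by
  classical
  have hp : p.Prime := Fact.out
  set PQ : Subgroup ℚ_[q]ˣ := (powMonoidHom p : ℚ_[q]ˣ →* ℚ_[q]ˣ).range with hPQ
  set PK : Subgroup Kˣ := (powMonoidHom p : Kˣ →* Kˣ).range with hPK
  set f : ℚ_[q]ˣ →* Kˣ := Units.map (algebraMap ℚ_[q] K : ℚ_[q] →* K) with hf
  have hle : PQ ≤ PK.comap f := by
    rintro _ ⟨c, rfl⟩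
    exact ⟨f c, by simp [powMonoidHom_apply]⟩
  set φ : ℚ_[q]ˣ ⧸ PQ →* Kˣ ⧸ PK := QuotientGroup.map PQ PK f hle with hφ
  have hinj : Function.Injective φ := by
    rw [← MonoidHom.ker_eq_bot_iff, eq_bot_iff]
    intro x hx
    obtain ⟨a₀, rfl⟩ := QuotientGroup.mk_surjective x
    rw [MonoidHom.mem_ker, hφ, QuotientGroup.map_mk, QuotientGroup.eq_one_iff] at hx
    obtain ⟨b, hb⟩ := hx
    obtain ⟨c, hc⟩ := selExt_pow_descent q p K hn a₀ b hb
    rw [Subgroup.mem_bot, QuotientGroup.eq_one_iff]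
    exact ⟨c, hc⟩
  have hζK : IsPrimitiveRoot (algebraMap ℚ_[q] K ζ) p :=
    hζ.map_of_injective (algebraMap ℚ_[q] K).injective
  have hcQ : Nat.card (ℚ_[q]ˣ ⧸ PQ) = p ^ 2 := by
    have := Fermat.Agent.S55.helper27.card_units_mod_pow q ℚ_[q] p ζ hζ
    rw [if_neg hpq, add_zero] at this
    exact this
  have hcK : Nat.card (Kˣ ⧸ PK) = p ^ 2 := by
    have := Fermat.Agent.S55.helper27.card_units_mod_pow q K p _ hζK
    rw [if_neg hpq, add_zero] at this
    exact this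
  have hfinK : Finite (Kˣ ⧸ PK) := by
    apply Nat.finite_of_card_ne_zero
    rw [hcK]
    exact pow_ne_zero _ hp.ne_zero
  have hfinQ : Finite (ℚ_[q]ˣ ⧸ PQ) := Finite.of_injective φ hinj
  have hsurj : Function.Surjective φ := by
    have := (Nat.bijective_iff_injective_and_card φ).2 ⟨hinj, by rw [hcQ, hcK]⟩
    exact this.2
  obtain ⟨x, hx⟩ := hsurj (QuotientGroup.mk a)
  obtain ⟨a₀, rfl⟩ := QuotientGroup.mk_surjective x
  rw [hφ, QuotientGroup.map_mk, QuotientGroup.eq] at hx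
  obtain ⟨b, hb⟩ := hx
  refine ⟨a₀, b, ?_⟩
  have hb' : b ^ p = (f a₀)⁻¹ * a := hb
  rw [hb', mul_inv_cancel_left]

end Count


/-- an automorphism fixing a set pointwise fixes the field generated by it. -/
theorem selExt_mem_fixingSubgroup_adjoin {F E : Type*} [Field F] [Field E] [Algebra F E]
    (σ : E ≃ₐ[F] E) (S : Set E) (h : ∀ s ∈ S, σ s = s) :
    σ ∈ (IntermediateField.adjoin F S).fixingSubgroup := by
  rw [IntermediateField.mem_fixingSubgroup_iff]
  intro x hx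
  induction hx using IntermediateField.adjoin_induction with
  | mem x hx => exact h x hx
  | algebraMap x => exact σ.commutes x
  | add x y _ _ hx hy => rw [map_add, hx, hy]
  | inv x _ hx => rw [map_inv₀, hx]
  | mul x y _ _ hx hy => rw [map_mul, hx, hy]

section Core

variable (q : ℕ) [Fact q.Prime] (p : ℕ) [Fact p.Prime]

local notation "Ω" => PadicAlgCl q

/-- a finite subextension is generated by one element, seen in `Ω`. -/
theorem selExt_exists_gen (M : IntermediateField ℚ_[q] Ω) [FiniteDimensional ℚ_[q] M] :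
    ∃ β : Ω, β ∈ M ∧ ∀ τ : Ω ≃ₐ[ℚ_[q]] Ω, τ β = β → τ ∈ M.fixingSubgroup := by
  obtain ⟨β, hβ⟩ := Field.exists_primitive_element ℚ_[q] M
  refine ⟨(β : Ω), β.2, fun τ hτ => ?_⟩
  have h1 : τ ∈ (IntermediateField.adjoin ℚ_[q] ({(β : Ω)} : Set Ω)).fixingSubgroup :=
    selExt_mem_fixingSubgroup_adjoin τ _ (fun s hs => by rw [Set.mem_singleton_iff.1 hs]; exact hτ)
  have h2 : M ≤ IntermediateField.adjoin ℚ_[q] ({(β : Ω)} : Set Ω) := by
    intro m hm
    have h3 : (⟨m, hm⟩ : M) ∈ IntermediateField.adjoin ℚ_[q] ({β} : Set M) := by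
      rw [hβ]
      exact IntermediateField.mem_top
    have h4 : M.val ⟨m, hm⟩ ∈ (IntermediateField.adjoin ℚ_[q] ({β} : Set M)).map M.val :=
      ⟨_, h3, rfl⟩
    rw [IntermediateField.adjoin_map, Set.image_singleton] at h4
    exact h4
  rw [IntermediateField.mem_fixingSubgroup_iff] at h1 ⊢
  exact fun x hx => h1 x (h2 hx)

/-- **dictionary**: a level-constant function on `G_q` which is additive on the fixing subgroup
of `K` restricts to a level character of `Gal(Ω/K)`. -/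
theorem selExt_mem_Z1 (K M : IntermediateField ℚ_[q] Ω) [FiniteDimensional ℚ_[q] M]
    (hM : M.fixingSubgroup.Normal) (y : (Ω ≃ₐ[ℚ_[q]] Ω) → ZMod p)
    (hy : ∀ g, ∀ s ∈ M.fixingSubgroup, y (g * s) = y g)
    (hadd : ∀ h ∈ K.fixingSubgroup, ∀ h' ∈ K.fixingSubgroup, y (h * h') = y h + y h') :
    (fun σ : Ω ≃ₐ[K] Ω => y (σ.restrictScalars ℚ_[q])) ∈
      Z1 (helper8.galLevels K Ω) (Rep.trivial (ZMod p) (Ω ≃ₐ[K] Ω) (ZMod p)) := by
  rw [helper30.mem_Z1_trivial_iff]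
  have hK : ∀ σ : Ω ≃ₐ[K] Ω, σ.restrictScalars ℚ_[q] ∈ K.fixingSubgroup := by
    intro σ
    rw [IntermediateField.mem_fixingSubgroup_iff]
    intro x hx
    exact σ.commutes ⟨x, hx⟩
  obtain ⟨β, hβM, hβ⟩ := selExt_exists_gen q M
  have hint : IsIntegral K β := by
    have : Algebra.IsAlgebraic K Ω := Algebra.IsAlgebraic.tower_top (K := ℚ_[q]) K
    exact (Algebra.IsAlgebraic.isAlgebraic β).isIntegral
  have hmem : ∀ σ : Ω ≃ₐ[K] Ω, σ ∈ (IntermediateField.adjoin K ({β} : Set Ω)).fixingSubgroup ↔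
      σ.restrictScalars ℚ_[q] ∈ M.fixingSubgroup := by
    intro σ
    constructor
    · intro h
      apply hβ
      rw [IntermediateField.mem_fixingSubgroup_iff] at h
      exact h β (IntermediateField.mem_adjoin_simple_self K β)
    · intro h
      refine selExt_mem_fixingSubgroup_adjoin σ _ (fun s hs => ?_)
      rw [Set.mem_singleton_iff.1 hs]
      rw [IntermediateField.mem_fixingSubgroup_iff] at h
      exact h β hβM
  refine ⟨⟨IntermediateField.adjoin K ({β} : Set Ω),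
    IntermediateField.adjoin.finiteDimensional hint, ?_, ?_⟩, ?_⟩
  · constructor
    intro n hn g
    rw [hmem] at hn ⊢
    exact hM.conj_mem _ hn (g.restrictScalars ℚ_[q])
  · intro g s hs
    rw [hmem] at hs
    exact hy (g.restrictScalars ℚ_[q]) (s.restrictScalars ℚ_[q]) hs
  · intro g h
    exact hadd (g.restrictScalars ℚ_[q]) (hK g) (h.restrictScalars ℚ_[q]) (hK h)


/-- the degree of a finite normal subextension is the index of its fixing subgroup. -/
theorem selExt_finrank_eq (K : IntermediateField ℚ_[q] Ω) [FiniteDimensional ℚ_[q] K]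
    (hK : K.fixingSubgroup.Normal) :
    Module.finrank ℚ_[q] K = Nat.card ((Ω ≃ₐ[ℚ_[q]] Ω) ⧸ K.fixingSubgroup) := by
  have hgal : IsGalois ℚ_[q] K := (InfiniteGalois.normal_iff_isGalois K).1 hK
  rw [← IsGalois.card_aut_eq_finrank]
  have hker : (AlgEquiv.restrictNormalHom (F := ℚ_[q]) (K₁ := Ω) K).ker = K.fixingSubgroup :=
    K.restrictNormalHom_ker
  have e : (Ω ≃ₐ[ℚ_[q]] Ω) ⧸ (AlgEquiv.restrictNormalHom (F := ℚ_[q]) (K₁ := Ω) K).ker ≃*
      (K ≃ₐ[ℚ_[q]] K) :=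
    QuotientGroup.quotientKerEquivOfSurjective _ (AlgEquiv.restrictNormalHom_surjective Ω)
  rw [← Nat.card_congr e.toEquiv]
  exact Nat.card_congr (QuotientGroup.quotientMulEquivOfEq hker).toEquiv


/-- **core**: Kummer characters of the fixed field of `H` come from `ℚ_q`, hence are invariant
under conjugation. -/
theorem selExt_core (hpq : p ∣ q - 1)
    (K M : IntermediateField ℚ_[q] Ω) [FiniteDimensional ℚ_[q] K] [FiniteDimensional ℚ_[q] M]
    (hK : K.fixingSubgroup.Normal) (hM : M.fixingSubgroup.Normal)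
    (hn : ¬ p ∣ Nat.card ((Ω ≃ₐ[ℚ_[q]] Ω) ⧸ K.fixingSubgroup))
    (y : (Ω ≃ₐ[ℚ_[q]] Ω) → ZMod p)
    (hy : ∀ g, ∀ s ∈ M.fixingSubgroup, y (g * s) = y g)
    (hadd : ∀ h ∈ K.fixingSubgroup, ∀ h' ∈ K.fixingSubgroup, y (h * h') = y h + y h')
    (g h : Ω ≃ₐ[ℚ_[q]] Ω) (hh : h ∈ K.fixingSubgroup) :
    y (g * h * g⁻¹) = y h := by
  classical
  have hp : p.Prime := Fact.out
  have hq : q.Prime := Fact.out
  have : NeZero p := ⟨hp.ne_zero⟩
  have hpq' : p ≠ q := by
    intro h1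
    have h2 : p ≤ q - 1 := Nat.le_of_dvd (Nat.sub_pos_of_lt hq.one_lt) hpq
    have := hq.one_lt
    omega
  obtain ⟨ζ, hζ⟩ := selExt_exists_primitiveRoot p q hpq
  have hζ0 : ζ ≠ 0 := hζ.ne_zero hp.ne_zero
  -- the root of unity in `K` and in `Ω`
  set ζK : Kˣ := Units.map (algebraMap ℚ_[q] K : ℚ_[q] →* K) (Units.mk0 ζ hζ0) with hζKdef
  have hζK : IsPrimitiveRoot ζK p := by
    rw [← IsPrimitiveRoot.coe_units_iff]
    exact hζ.map_of_injective (algebraMap ℚ_[q] K).injective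
  set z : Ω := algebraMap ℚ_[q] Ω ζ with hzdef
  have hz : IsPrimitiveRoot z p := hζ.map_of_injective (algebraMap ℚ_[q] Ω).injective
  have hzK : ∀ n : ℕ, algebraMap K Ω ((ζK : K) ^ n) = z ^ n := by
    intro n
    rw [map_pow]
    rfl
  have hzfix : ∀ τ : Ω ≃ₐ[ℚ_[q]] Ω, τ z = z := fun τ => τ.commutes ζ
  -- `K` is an algebraic closure situation
  have halg : Algebra.IsAlgebraic K Ω := Algebra.IsAlgebraic.tower_top (K := ℚ_[q]) K
  have hcl : IsAlgClosure K Ω := ⟨inferInstance, halg⟩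
  -- Kummer theory over `K`
  have hx := selExt_mem_Z1 q p K M hM y hy hadd
  obtain ⟨a, α, hα, hσ⟩ := helper30.exists_kummer_of_mem_Z1 p K Ω ζK hζK _ hx
  -- `a = a₀ b ^ p` with `a₀ ∈ ℚ_q`
  have hn' : ¬ p ∣ Module.finrank ℚ_[q] K := by
    rw [selExt_finrank_eq q K hK]
    exact hn
  obtain ⟨a₀, b, hab⟩ := selExt_units_eq q p K hpq' ζ hζ hn' a
  have hb0 : algebraMap K Ω (b : K) ≠ 0 := (map_ne_zero (algebraMap K Ω)).mpr b.ne_zero
  have ha0 : algebraMap ℚ_[q] Ω (a₀ : ℚ_[q]) ≠ 0 :=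
    (map_ne_zero (algebraMap ℚ_[q] Ω)).mpr a₀.ne_zero
  set β₀ : Ω := α / algebraMap K Ω (b : K) with hβ₀def
  have hβ₀p : β₀ ^ p = algebraMap ℚ_[q] Ω (a₀ : ℚ_[q]) := by
    have h1 : algebraMap K Ω (a : K) =
        algebraMap ℚ_[q] Ω (a₀ : ℚ_[q]) * algebraMap K Ω (b : K) ^ p := by
      rw [hab, Units.val_mul, Units.val_pow_eq_pow_val, map_mul, map_pow]
      rfl
    rw [hβ₀def, div_pow, hα, h1, mul_div_assoc, div_self (pow_ne_zero _ hb0), mul_one]
  have hβ₀0 : β₀ ≠ 0 := by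
    intro h0
    rw [h0, zero_pow hp.ne_zero] at hβ₀p
    exact ha0 hβ₀p.symm
  -- the action of `H` on `β₀`
  have key1 : ∀ s : Ω ≃ₐ[ℚ_[q]] Ω, s ∈ K.fixingSubgroup → s β₀ = z ^ (y s).val * β₀ := by
    intro s hs
    set σ : Ω ≃ₐ[K] Ω := IntermediateField.fixingSubgroupEquiv K ⟨s, hs⟩ with hσdef
    have h1 : σ.restrictScalars ℚ_[q] = s := by
      ext w
      rfl
    have h2 : ∀ w : Ω, s w = σ w := fun w => rfl
    have h3 := hσ σ
    simp only [h1] at h3
    rw [h2, hβ₀def, map_div₀, h3, AlgEquiv.commutes, hzK, mul_div_assoc]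
  -- the action of `G_q` on `β₀`
  have key2 : ∀ τ : Ω ≃ₐ[ℚ_[q]] Ω, ∃ j : ℕ, τ β₀ = z ^ j * β₀ := by
    intro τ
    have h1 : (τ β₀ / β₀) ^ p = 1 := by
      rw [div_pow, ← map_pow, hβ₀p, AlgEquiv.commutes, div_self ha0]
    obtain ⟨j, -, hj⟩ := hz.eq_pow_of_pow_eq_one h1
    exact ⟨j, by rw [hj, div_mul_cancel₀ _ hβ₀0]⟩
  have hconj : g * h * g⁻¹ ∈ K.fixingSubgroup := hK.conj_mem h hh g
  obtain ⟨j, hj⟩ := key2 g⁻¹
  have hzj : z ^ j ≠ 0 := pow_ne_zero _ (hz.ne_zero hp.ne_zero)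
  have e3 : g β₀ = (z ^ j)⁻¹ * β₀ := by
    have e4 : g (g⁻¹ β₀) = β₀ := by
      have : (g * g⁻¹) β₀ = β₀ := by rw [mul_inv_cancel]; rfl
      exact this
    rw [hj, map_mul, map_pow, hzfix g] at e4
    apply mul_left_cancel₀ hzj
    rw [e4, ← mul_assoc, mul_inv_cancel₀ hzj, one_mul]
  have e1 : (g * h * g⁻¹) β₀ = z ^ (y h).val * β₀ := by
    calc (g * h * g⁻¹) β₀ = g (h (g⁻¹ β₀)) := rfl
      _ = g (h (z ^ j * β₀)) := by rw [hj]
      _ = g (z ^ j * (z ^ (y h).val * β₀)) := by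
          rw [map_mul h, map_pow h, hzfix h, key1 h hh]
      _ = z ^ j * (z ^ (y h).val * ((z ^ j)⁻¹ * β₀)) := by
          rw [map_mul g, map_pow g, hzfix g, map_mul g, map_pow g, hzfix g, e3]
      _ = z ^ (y h).val * β₀ := by
          field_simp
  have e5 := key1 _ hconj
  rw [e1] at e5
  exact (helper30.zmod_eq_of_pow_eq hz (mul_right_cancel₀ hβ₀0 e5)).symm

end Core

/-- **[SEL-EXT]** (verbatim `helper8.ExtStatement`). -/
theorem ext (p : ℕ) [Fact p.Prime] : Fermat.Agent.P1.helper8.ExtStatement p := by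
  intro q hpq H hH hn y hy hadd g h hh
  have hqF : Fact (q : ℕ).Prime := ⟨q.2⟩
  have hHn : H.Normal := (locLevels q).normal H hH
  obtain ⟨F, hF, -, rfl⟩ := hH
  obtain ⟨N, ⟨F', hF', hN', rfl⟩, hyN⟩ := hy
  have hK : FiniteDimensional ℚ_[(q : ℕ)] (helper74.localField (q : ℕ) F) :=
    helper74.finiteDimensional_localField (q : ℕ) F
  have hM : FiniteDimensional ℚ_[(q : ℕ)] (helper74.localField (q : ℕ) F') :=
    helper74.finiteDimensional_localField (q : ℕ) F'
  have eK : F.fixingSubgroup.comap (primeLocalToGlobal q) =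
      (helper74.localField (q : ℕ) F).fixingSubgroup := helper74.comap_fixingSubgroup (q : ℕ) F
  have eM : F'.fixingSubgroup.comap (primeLocalToGlobal q) =
      (helper74.localField (q : ℕ) F').fixingSubgroup := helper74.comap_fixingSubgroup (q : ℕ) F'
  have hMn : (helper74.localField (q : ℕ) F').fixingSubgroup.Normal := by
    rw [← eM]
    exact Subgroup.normal_comap _
  have hKn : (helper74.localField (q : ℕ) F).fixingSubgroup.Normal := by
    rw [← eK]
    exact hHn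
  refine selExt_core (q : ℕ) p hpq (helper74.localField (q : ℕ) F)
    (helper74.localField (q : ℕ) F') hKn hMn ?_ y ?_ ?_ g h ?_
  · rw [← eK]
    exact hn
  · intro g s hs
    rw [← eM] at hs
    exact hyN g s hs
  · intro h hh h' hh'
    rw [← eK] at hh hh'
    exact hadd h hh h' hh'
  · rw [← eK]
    exact hh

end Fermat.Agent.P1.helper78
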