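import Mathlib
import Fermat.Agent.P1.helper91_GTSig
import Fermat.Agent.P1.helper3_GTFinal

/-!
# P1 (S56), TW-GT: GT-A (fixed vectors), GT-RED and GT-C for an abstract group (helper91, task 700)

* `gtAFixed` : the twisted action on the trace zero matrices has no nonzero fixed vector;
* `gtRed`    : a cocycle which is constant on the cosets of a normal subgroup `H ≤ ker rho`
               containing `[G, ker rho]` vanishes on `ker rho`;
* `gtC_abs`  : such a cocycle is a coboundary (`helper3.gtC` for `Γ = rho.range`).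
-/

set_option autoImplicit false

open Polynomial Matrix

noncomputable section

namespace Fermat.Agent.P1.helper91

open Fermat.Agent.P1.helper3

variable {k : Type*} [Field k] {G : Type*} [Group G]

/-- **GT-A (fixed vectors).** -/
theorem gtAFixed (h2 : (2 : k) ≠ 0) (rho : G →* GL (Fin 2) k) (K : Type*) [Field K]
    [Algebra k K] (hK : ∀ d : k, ∃ δ : K, δ ^ 2 = algebraMap k K d)
    (h1 : NoEigen rho ⊤ K) (hidx : ∀ G' : Subgroup G, G'.index = 2 → NoEigen rho G' K)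
    (X : Matrix (Fin 2) (Fin 2) k) (hX : X.trace = 0) (hfix : ∀ g : G, tw (rho g) X = X) :
    X = 0 := by
  apply gtA_line h2 rho K hK h1 hidx X hX
  intro g
  have hd := gt_det_ne_zero (rho g)
  refine ⟨((rho g : Matrix (Fin 2) (Fin 2) k).det)⁻¹, ?_⟩
  have h3 := hfix g
  rw [gt_tw_eq] at h3
  have h4 := congrArg (fun Y => ((rho g : Matrix (Fin 2) (Fin 2) k).det)⁻¹ • Y) h3
  simp only [smul_smul, inv_mul_cancel₀ hd, one_smul] at h4
  have h5 := congrArg (fun Y => Y * (rho g : Matrix (Fin 2) (Fin 2) k)) h4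
  simp only [Matrix.mul_assoc, gt_coe_inv_mul, Matrix.mul_one, Matrix.smul_mul] at h5
  exact h5

/-- **GT-RED.** -/
theorem gtRed (h2 : (2 : k) ≠ 0) (rho : G →* GL (Fin 2) k) (K : Type*) [Field K]
    [Algebra k K] (hK : ∀ d : k, ∃ δ : K, δ ^ 2 = algebraMap k K d)
    (h1 : NoEigen rho ⊤ K) (hidx : ∀ G' : Subgroup G, G'.index = 2 → NoEigen rho G' K)
    (H : Subgroup G) (hHn : H.Normal)
    (hcomm : ∀ g n : G, rho n = 1 → g * n * g⁻¹ * n⁻¹ ∈ H)
    (c : G → Matrix (Fin 2) (Fin 2) k) (hctr : ∀ g, (c g).trace = 0)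
    (hc : ∀ g h, c (g * h) = c g + tw (rho g) (c h))
    (hconst : ∀ g, ∀ h ∈ H, c (g * h) = c g) (n : G) (hn : rho n = 1) : c n = 0 := by
  apply gtAFixed h2 rho K hK h1 hidx (c n) (hctr n)
  intro g
  rw [← gt_cocycle_conj hc hn g]
  have hmem : n⁻¹ * (g * n * g⁻¹ * n⁻¹) * n⁻¹⁻¹ ∈ H := hHn.conj_mem _ (hcomm g n hn) n⁻¹
  have e : g * n * g⁻¹ = n * (n⁻¹ * (g * n * g⁻¹ * n⁻¹) * n⁻¹⁻¹) := by group
  rw [e, hconst n _ hmem]

/-- **GT-C** for an abstract group. -/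
theorem gtC_abs [Finite k] (p : ℕ) [Fact p.Prime] [CharP k p] (hp2 : p ≠ 2)
    (rho : G →* GL (Fin 2) k) (K : Type*) [Field K]
    [Algebra k K] (hK : ∀ d : k, ∃ δ : K, δ ^ 2 = algebraMap k K d)
    (h1K : NoEigen rho ⊤ K) (hidx : ∀ G' : Subgroup G, G'.index = 2 → NoEigen rho G' K)
    (h1 : NoEigen rho ⊤ k)
    (hsplit : ∀ g : G, ∃ α β : k,
      (rho g : Matrix (Fin 2) (Fin 2) k).charpoly = (X - C α) * (X - C β))
    (hdet : ∀ n : ℕ, ¬ p ∣ n → ∃ g : G, (rho g : Matrix (Fin 2) (Fin 2) k).det = (n : k))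
    (H : Subgroup G) (hHn : H.Normal)
    (hcomm : ∀ g n : G, rho n = 1 → g * n * g⁻¹ * n⁻¹ ∈ H)
    (c : G → Matrix (Fin 2) (Fin 2) k) (hctr : ∀ g, (c g).trace = 0)
    (hc : ∀ g h, c (g * h) = c g + tw (rho g) (c h))
    (hconst : ∀ g, ∀ h ∈ H, c (g * h) = c g) :
    ∃ X : Matrix (Fin 2) (Fin 2) k, X.trace = 0 ∧ ∀ g, c g = tw (rho g) X - X := by
  classical
  have h2 : (2 : k) ≠ 0 := by
    intro h
    have h1' : ((2 : ℕ) : k) = 0 := by exact_mod_cast h
    rw [CharP.cast_eq_zero_iff k p] at h1'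
    exact hp2 ((Nat.prime_dvd_prime_iff_eq (Fact.out : p.Prime) Nat.prime_two).mp h1')
  have hker : ∀ n : G, rho n = 1 → c n = 0 :=
    gtRed h2 rho K hK h1K hidx H hHn hcomm c hctr hc hconst
  -- `c` only depends on `rho g`
  have hwd : ∀ g g' : G, rho g' = rho g → c g' = c g := by
    intro g g' h
    have h3 : rho (g⁻¹ * g') = 1 := by rw [map_mul, map_inv, h, inv_mul_cancel]
    have h4 := hc g (g⁻¹ * g')
    rw [mul_inv_cancel_left, hker _ h3, tw_zero, add_zero] at h4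
    exact h4
  let cΓ : GL (Fin 2) k → Matrix (Fin 2) (Fin 2) k := fun γ =>
    if h : ∃ g : G, rho g = γ then c (Classical.choose h) else 0
  have hcΓ : ∀ g : G, cΓ (rho g) = c g := by
    intro g
    have h : ∃ g' : G, rho g' = rho g := ⟨g, rfl⟩
    show (if h : ∃ g' : G, rho g' = rho g then c (Classical.choose h) else 0) = c g
    rw [dif_pos h]
    exact hwd g _ (Classical.choose_spec h)
  have hcoc : IsCocycle rho.range cΓ := by
    constructor
    · rintro _ ⟨g, rfl⟩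
      rw [hcΓ]
      exact hctr g
    · rintro _ ⟨g, rfl⟩ _ ⟨h, rfl⟩
      rw [← map_mul, hcΓ, hcΓ, hcΓ]
      exact hc g h
  have hirr : IsIrr rho.range := by
    intro v hv
    obtain ⟨g, -, hg⟩ := h1 v hv
    refine ⟨rho g, ⟨g, rfl⟩, fun a => ?_⟩
    have := hg a
    rw [gt_map_id] at this
    exact this
  obtain ⟨X, hX, hcob⟩ := gtC p hp2 rho.range
    (by rintro _ ⟨g, rfl⟩; exact hsplit g) hirr
    (fun n hn => by
      obtain ⟨g, hg⟩ := hdet n hn
      exact ⟨rho g, ⟨g, rfl⟩, hg⟩) cΓ hcoc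
  refine ⟨X, hX, fun g => ?_⟩
  rw [← hcΓ g]
  exact hcob (rho g) ⟨g, rfl⟩

end Fermat.Agent.P1.helper91
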