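import Mathlib
import Fermat.Agent.P1.helper91_GTC
import Fermat.Agent.P1.helper91_GTInst

/-!
# P1 (S56), module TW: `TWOut` under the hypotheses of S56 (helper91, task 700)

* `gtCIn_of_hyp`, `gtCIn_of_setting` : the input GT-C of module TW;
* `twOut_of_setting : Setting 𝒪 p ρbar S Smin → TWOut p ρbar S Smin` : the existence of
  Taylor-Wiles primes (the hypothesis `hTW` of `helper70.s56_of_outputs`), unconditionally.
-/

set_option autoImplicit false
set_option linter.unusedSectionVars false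
set_option linter.unusedVariables false
set_option linter.style.haveILetI false

open IsLocalRing ExtCitation Polynomial

noncomputable section

namespace Fermat.Agent.P1.helper91

open Fermat.Agent.S55 Fermat.Agent.P1.helper70 Fermat.Agent.P1.helper3

section Generic

variable {k : Type} [Field k] [Finite k] (ρbar : ResidualGaloisRep k)
  (b : Module.Basis (Fin 2) k ρbar.V)

/-- The determinants of `ρbar` contain `𝔽_p^×`. -/
theorem exists_det_rhoGL (p : ℕ) [Fact p.Prime] [Algebra (ZMod p) k]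
    (hdet : (GaloisRepAdic.ofResidualGaloisRep ρbar).DetIsCyclotomic p) (n : ℕ)
    (hn : ¬ p ∣ n) :
    ∃ g : GQ, ((rhoGL ρbar b g : GL (Fin 2) k) : Matrix (Fin 2) (Fin 2) k).det = (n : k) := by
  have hn0 : (n : ZMod p) ≠ 0 := by
    intro h
    exact hn ((ZMod.natCast_eq_zero_iff n p).mp h)
  obtain ⟨g, hg⟩ := cycloChar_surjective p (Units.mk0 (n : ZMod p) hn0)
  refine ⟨g, ?_⟩
  rw [← Matrix.GeneralLinearGroup.val_det_apply, det_rhoGL ρbar p b hdet, coe_chiK, hg,
    Units.val_mk0, map_natCast]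

/-- **GT-C** for `ρbar`. -/
theorem gtCIn_of_hyp (p : ℕ) [Fact p.Prime] [Algebra (ZMod p) k] (hp2 : p ≠ 2)
    (hdet : (GaloisRepAdic.ofResidualGaloisRep ρbar).DetIsCyclotomic p)
    (hsplit : ∀ σ : GQ, ∃ α β : k, LinearMap.charpoly (ρbar.ρ σ) = (X - C α) * (X - C β))
    (hTW : ∀ (K : Type) [Field K] [Algebra k K] (G : Subgroup GQ), G.index = 2 →
      ∀ V : Submodule K (ρbar.baseChange K).V,
        (∀ σ ∈ G, ∀ x ∈ V, (ρbar.baseChange K).ρ σ x ∈ V) → V = ⊥ ∨ V = ⊤) :
    GtCIn ρbar b := by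
  intro H hHn hH hcomm c hc hconst
  haveI : CharP k p := charP_of_algebra p
  exact gtC_abs p hp2 (rhoGL ρbar b) (AlgebraicClosure k) exists_sq_algebraicClosure
    (noEigen_of_noEigenOn ρbar b (noEigenOn_top ρbar b hTW) _)
    (fun G' hG' => noEigen_of_noEigenOn ρbar b (noEigenOn_of_hTW ρbar b hTW G' hG') _)
    (noEigen_of_noEigenOn ρbar b (noEigenOn_top ρbar b hTW) k)
    (splits_rhoGL ρbar b hsplit) (exists_det_rhoGL ρbar b p hdet) H hHn
    (fun g n hn => hcomm g n ((rhoGL_eq_one_iff ρbar b n).mp hn)) c hc.1 hc.2 hconst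

end Generic

section Setting

variable {𝒪 : Type} [CommRing 𝒪] [IsDomain 𝒪] [IsDiscreteValuationRing 𝒪]
  [IsAdicComplete (maximalIdeal 𝒪) 𝒪] [Finite (ResidueField 𝒪)]
  {p : ℕ} [Fact p.Prime]
  {ρbar : ResidualGaloisRep (ResidueField 𝒪)}
  {S Smin : Finset ℕ} [Algebra (ZMod p) (ResidueField 𝒪)]

theorem gtCIn_of_setting (hset : Setting 𝒪 p ρbar S Smin)
    (b : Module.Basis (Fin 2) (ResidueField 𝒪) ρbar.V) : GtCIn ρbar b :=
  gtCIn_of_hyp ρbar b p hset.hp2 hset.hdet hset.hsplit hset.hTW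

/-- **Module TW of P1 (S56), unconditional.**  Existence of Taylor-Wiles primes: `TWOut`
(the hypothesis `hTW` of `helper70.s56_of_outputs`) holds under `Setting`. -/
theorem twOut_of_setting (hset : Setting 𝒪 p ρbar S Smin) : TWOut p ρbar S Smin :=
  twOut_of_gtC hset (Module.finBasisOfFinrankEq _ ρbar.V ρbar.finrank_eq)
    (gtCIn_of_setting hset _)

end Setting

end Fermat.Agent.P1.helper91
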