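import Mathlib
import Fermat.Agent.P1.helper91_TWOut
import Fermat.Agent.P1.helper70_Interface2
import Fermat.Agent.P1.helper24_ECArch

/-!
# P1 (S56): the inputs `NoInvOut` and `OddOut` of module SEL (helper91)

* `noInvOut_of_setting : Setting → NoInvOut p ρbar` : `H⁰(ad⁰) = 0` and `H⁰(ad⁰(1)^*) = 0`
  (GT-A in the line form);
* `oddOut_of_setting : Setting → OddOut p ρbar` : `dim_{𝔽_p} k ≤ h⁰(ℝ, ad⁰)` (the line spanned by
  `ρbar(c)`, `c` = complex conjugation).
-/

set_option autoImplicit false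
set_option linter.unusedSectionVars false
set_option linter.unusedVariables false
set_option linter.style.haveILetI false

open IsLocalRing ExtCitation Polynomial

noncomputable section

namespace Fermat.Agent.P1.helper91

open Fermat.Agent.S55 Fermat.Agent.P1.helper70 Fermat.Agent.P1.helper3

section Generic

variable {k : Type} [Field k] [Finite k] (ρbar : ResidualGaloisRep k)
  (b : Module.Basis (Fin 2) k ρbar.V) (p : ℕ) [Fact p.Prime] [Algebra (ZMod p) k]

/-- A conjugation-invariant element of `ad⁰ ρbar` vanishes. -/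
theorem ad0_eq_zero_of_fixed (h2 : (2 : k) ≠ 0)
    (hTW : ∀ (K : Type) [Field K] [Algebra k K] (G : Subgroup GQ), G.index = 2 →
      ∀ V : Submodule K (ρbar.baseChange K).V,
        (∀ σ ∈ G, ∀ x ∈ V, (ρbar.baseChange K).ρ σ x ∈ V) → V = ⊥ ∨ V = ⊤)
    (x : Ad0 ρbar) (hx : ∀ g : GQ, ad0Hom ρbar g x = x) : x = 0 := by
  let b : Module.Basis (Fin 2) k ρbar.V := Module.finBasisOfFinrankEq k ρbar.V ρbar.finrank_eq
  apply matAd0_injective ρbar b
  rw [map_zero]
  apply gtA_line h2 (rhoGL ρbar b) (AlgebraicClosure k) exists_sq_algebraicClosure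
    (noEigen_of_noEigenOn ρbar b (noEigenOn_top ρbar b hTW) _)
    (fun G' hG' => noEigen_of_noEigenOn ρbar b (noEigenOn_of_hTW ρbar b hTW G' hG') _)
    _ (trace_matAd0 ρbar b x)
  intro g
  refine ⟨1, ?_⟩
  rw [one_smul]
  have h3 : matAd0 ρbar b (ad0Hom ρbar g x) = matAd0 ρbar b x := by rw [hx g]
  rw [matAd0_ad0Hom] at h3
  have h5 := congrArg (fun Y => Y * ((rhoGL ρbar b g : GL (Fin 2) k) :
    Matrix (Fin 2) (Fin 2) k)) h3
  simp only [Matrix.mul_assoc, gt_coe_inv_mul, Matrix.mul_one] at h5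
  exact h5

/-- `H⁰(G_ℚ, ad⁰ ρbar) = 0`. -/
theorem h0_ad0Rep_eq_bot (h2 : (2 : k) ≠ 0)
    (hTW : ∀ (K : Type) [Field K] [Algebra k K] (G : Subgroup GQ), G.index = 2 →
      ∀ V : Submodule K (ρbar.baseChange K).V,
        (∀ σ ∈ G, ∀ x ∈ V, (ρbar.baseChange K).ρ σ x ∈ V) → V = ⊥ ∨ V = ⊤) :
    S55.H0 (ad0Rep ρbar p) = ⊥ := by
  rw [eq_bot_iff]
  intro x hx
  rw [Submodule.mem_bot]
  exact ad0_eq_zero_of_fixed ρbar h2 hTW x (fun g => hx g)

/-- `H⁰(G_ℚ, ad⁰ ρbar ^* (1)) = 0`. -/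
theorem h0_ad0Dual_eq_bot (h2 : (2 : k) ≠ 0)
    (hdet : (GaloisRepAdic.ofResidualGaloisRep ρbar).DetIsCyclotomic p)
    (hTW : ∀ (K : Type) [Field K] [Algebra k K] (G : Subgroup GQ), G.index = 2 →
      ∀ V : Submodule K (ρbar.baseChange K).V,
        (∀ σ ∈ G, ∀ x ∈ V, (ρbar.baseChange K).ρ σ x ∈ V) → V = ⊥ ∨ V = ⊤) :
    S55.H0 ((ad0Rep ρbar p).dualTwist (cycloChar p)) = ⊥ := by
  let b : Module.Basis (Fin 2) k ρbar.V := Module.finBasisOfFinrankEq k ρbar.V ρbar.finrank_eq
  rw [eq_bot_iff]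
  intro f hf
  rw [Submodule.mem_bot]
  have hf' : ∀ g : GQ, ((ad0Rep ρbar p).dualTwist (cycloChar p)).ρ g f = f := fun g => hf g
  apply toMat_injective ρbar p b h2
  rw [map_zero]
  apply gtAFixed h2 (rhoGL ρbar b) (AlgebraicClosure k) exists_sq_algebraicClosure
    (noEigen_of_noEigenOn ρbar b (noEigenOn_top ρbar b hTW) _)
    (fun G' hG' => noEigen_of_noEigenOn ρbar b (noEigenOn_of_hTW ρbar b hTW G' hG') _)
    _ (trace_toMat ρbar p b h2 f)
  intro g
  rw [← toMat_ρ_tw ρbar p b h2 hdet, hf' g]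

/-! ## Complex conjugation -/

/-- Cayley-Hamilton for `2 × 2` matrices. -/
theorem gt_cayley (M : Matrix (Fin 2) (Fin 2) k) :
    M * M = M.trace • M - M.det • (1 : Matrix (Fin 2) (Fin 2) k) := by
  ext i j
  fin_cases i <;> fin_cases j <;>
    simp [Matrix.mul_apply, Fin.sum_univ_two, Matrix.det_fin_two, Matrix.trace_fin_two] <;> ring

/-- The trace of `ρbar(c)` vanishes. -/
theorem trace_complexConjugation (h2 : (2 : k) ≠ 0)
    (hdet : (GaloisRepAdic.ofResidualGaloisRep ρbar).DetIsCyclotomic p) :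
    LinearMap.trace k ρbar.V (ρbar.ρ complexConjugation) = 0 := by
  let b : Module.Basis (Fin 2) k ρbar.V := Module.finBasisOfFinrankEq k ρbar.V ρbar.finrank_eq
  rw [LinearMap.trace_eq_matrix_trace k b, ← coe_rhoGL]
  set M : Matrix (Fin 2) (Fin 2) k :=
    ((rhoGL ρbar b complexConjugation : GL (Fin 2) k) : Matrix (Fin 2) (Fin 2) k) with hM
  have hMM : M * M = 1 := by
    rw [hM, ← Units.val_mul, ← map_mul, complexConjugation_mul_self, map_one, Units.val_one]
  have hd : M.det = -1 := by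
    rw [hM, ← Matrix.GeneralLinearGroup.val_det_apply, det_rhoGL ρbar p b hdet, coe_chiK,
      Fermat.Agent.P1.helper24.cycloChar_complexConjugation, map_neg, map_one]
  have h3 := gt_cayley M
  rw [hMM, hd, neg_smul, one_smul, sub_neg_eq_add] at h3
  have h4 : M.trace • M = 0 := by
    have := h3
    rw [right_eq_add] at this
    exact this
  rcases smul_eq_zero.mp h4 with h | h
  · exact h
  · exfalso
    rw [h, Matrix.zero_mul] at hMM
    exact zero_ne_one hMM

/-- The archimedean term: `dim_{𝔽_p} k ≤ h⁰(ℝ, ad⁰ ρbar)`. -/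
theorem finrank_le_realH0 (h2 : (2 : k) ≠ 0)
    (hdet : (GaloisRepAdic.ofResidualGaloisRep ρbar).DetIsCyclotomic p) :
    Module.finrank (ZMod p) k ≤ Module.finrank (ZMod p) ↥(realH0 (ad0Rep ρbar p)) := by
  obtain ⟨X₀, hX₀⟩ := exists_toEnd_eq ρbar (trace_complexConjugation ρbar p h2 hdet)
  have hcc : ρbar.ρ complexConjugation * ρbar.ρ complexConjugation = 1 := by
    rw [← map_mul, complexConjugation_mul_self, map_one]
  have hX₀0 : X₀ ≠ 0 := by
    intro h
    rw [h, map_zero] at hX₀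
    rw [← hX₀, zero_mul] at hcc
    have hV : Nontrivial (Module.End k ρbar.V) := by
      haveI : Nontrivial ρbar.V := Module.nontrivial_of_finrank_pos (R := k)
        (by rw [ρbar.finrank_eq]; norm_num)
      infer_instance
    exact zero_ne_one hcc
  have hfix : ∀ a : k, ad0Hom ρbar complexConjugation (a • X₀) = a • X₀ := by
    intro a
    apply Ad0.toEnd_injective ρbar
    rw [toEnd_ad0Hom, complexConjugation_inv, toEnd_smul, hX₀, mul_smul_comm, smul_mul_assoc,
      hcc, one_mul]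
  let ψ : k →ₗ[ZMod p] Ad0 ρbar :=
    { toFun := fun a => a • X₀
      map_add' := fun a a' => add_smul a a' X₀
      map_smul' := fun c a => by
        show (c • a) • X₀ = c • (a • X₀)
        rw [zmod_smul_ad0, Algebra.smul_def, mul_smul] }
  let ψ' : k →ₗ[ZMod p] ↑(ad0Rep ρbar p) := ψ
  have hmem : ∀ a : k, ψ' a ∈ realH0 (ad0Rep ρbar p) := by
    intro a
    show ψ' a ∈ LinearMap.ker ((ad0Rep ρbar p).ρ complexConjugation - 1)
    rw [LinearMap.mem_ker, LinearMap.sub_apply, sub_eq_zero]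
    exact hfix a
  have hψ : Function.Injective ψ := by
    intro a a' h
    have h3 : a • X₀ = a' • X₀ := h
    have h4 : (a - a') • X₀ = 0 := by rw [sub_smul, h3, sub_self]
    rcases smul_eq_zero.mp h4 with h | h
    · exact sub_eq_zero.mp h
    · exact absurd h hX₀0
  have hφ : Function.Injective (LinearMap.codRestrict (realH0 (ad0Rep ρbar p)) ψ' hmem) := by
    intro a a' h
    exact hψ (congrArg Subtype.val h)
  haveI := finite_ad0Rep ρbar p
  haveI : Module.Finite (ZMod p) ↥(realH0 (ad0Rep ρbar p)) := inferInstance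
  exact LinearMap.finrank_le_finrank_of_injective hφ

end Generic

section Setting

variable {𝒪 : Type} [CommRing 𝒪] [IsDomain 𝒪] [IsDiscreteValuationRing 𝒪]
  [IsAdicComplete (maximalIdeal 𝒪) 𝒪] [Finite (ResidueField 𝒪)]
  {p : ℕ} [Fact p.Prime]
  {ρbar : ResidualGaloisRep (ResidueField 𝒪)}
  {S Smin : Finset ℕ} [Algebra (ZMod p) (ResidueField 𝒪)]

/-- **NoInvOut** under the hypotheses of S56. -/
theorem noInvOut_of_setting (hset : Setting 𝒪 p ρbar S Smin) : NoInvOut p ρbar :=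
  ⟨h0_ad0Rep_eq_bot ρbar p (two_ne_zero_of_algebra p hset.hp2) hset.hTW,
    h0_ad0Dual_eq_bot ρbar p (two_ne_zero_of_algebra p hset.hp2) hset.hdet hset.hTW⟩

/-- **OddOut** under the hypotheses of S56. -/
theorem oddOut_of_setting (hset : Setting 𝒪 p ρbar S Smin) : OddOut p ρbar :=
  finrank_le_realH0 ρbar p (two_ne_zero_of_algebra p hset.hp2) hset.hdet

end Setting

end Fermat.Agent.P1.helper91
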