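import Fermat.Agent.P1.helper8_SelFinal
import Fermat.Agent.P1.helper78_SelExt
import Fermat.Agent.P1.helper24_LQFinal
import Fermat.Agent.P1.helper91_NoInv

/-!
# P1 (S56), module SEL: the deliverable (helper8, sub-coordinator, task 494)

MODULE SEL IS CLOSED: all its packages are on main
([SEL-GW] helper68, [SEL-TR] helper33, [SEL-EXT] helper78, [SEL-PTP] helper6,
[SEL-INFL] helper34, [SEL-LDLOC] + [SEL-LD] + [SEL-COUNT] helper8).

* `selOut`          : `SelOut` for any family, from the S55 claim, `ECOut` (module EC),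
                      `LocPOut` (modules LSO / FLAT-CNT) and `LocSminOut` (module LQ);
* `selOut_condSO`   : `SelOut` for the strict-ordinary family from the S55 claim, `ECOut` and
                      `LocPOut` (LSO);
* `selOut_condFlat` : `SelOut` for the flat family from the S55 claim, `ECOut` and `LocPOut`
                      (FLAT-CNT).

The inputs `LocQOut`, `LocSminOut` (module LQ, helper24), `OddOut`, `NoInvOut` (helper91) are
plugged in.
-/

set_option autoImplicit false
set_option linter.unusedSectionVars false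

open IsLocalRing ExtCitation groupCohomology Polynomial

noncomputable section

namespace Fermat.Agent.P1.helper8

open Fermat.Agent.S55 Fermat.Agent.P1.helper70

variable {𝒪 : Type} [CommRing 𝒪] [IsDomain 𝒪] [IsDiscreteValuationRing 𝒪]
  [IsAdicComplete (maximalIdeal 𝒪) 𝒪] [Finite (ResidueField 𝒪)]
  {p : ℕ} [Fact p.Prime]
  {ρbar : ResidualGaloisRep (ResidueField 𝒪)}
  {S Smin : Finset ℕ}
  [Algebra (ZMod p) (ResidueField 𝒪)]

/-- **[SEL-LDLOC]**, unconditional. -/
theorem ldLoc : LDLocStatement p := ldLoc_of_ext p (Fermat.Agent.P1.helper78.ext p)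

/-- **[SEL-LD]**: the deliverable `LDOut` from the S55 claim. -/
theorem ldOut (hset : Setting 𝒪 p ρbar S Smin)
    (hS55 : ∀ T : Finset ℕ, Smin ⊆ T → S55Claim p (primesOf T)) : LDOut p ρbar Smin :=
  ldOut_of_ext hset hS55 (Fermat.Agent.P1.helper78.ext p)

/-- **MODULE SEL**: `SelOut` for any family of conditions. -/
theorem selOut
    (𝒟fam : Finset ℕ →
      ∀ ⦃A : Type⦄ [CommRing A] [IsLocalRing A] [Algebra 𝒪 A], GaloisRepAdic A → Prop)
    (hset : Setting 𝒪 p ρbar S Smin)
    (hS55 : ∀ T : Finset ℕ, Smin ⊆ T → S55Claim p (primesOf T))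
    (hEC : ECOut p ρbar Smin) (hP : LocPOut p ρbar Smin 𝒟fam)
    (hSm : LocSminOut p ρbar Smin 𝒟fam) :
    SelOut p ρbar S Smin 𝒟fam :=
  selOut_of_ext 𝒟fam hset hS55 (Fermat.Agent.P1.helper78.ext p) hEC hP hSm
    (Fermat.Agent.P1.helper24.locQOut p ρbar S Smin hset)
    (Fermat.Agent.P1.helper91.oddOut_of_setting hset)
    (Fermat.Agent.P1.helper91.noInvOut_of_setting hset)

/-- **MODULE SEL**, strict-ordinary family. -/
theorem selOut_condSO (hset : Setting 𝒪 p ρbar S Smin)
    (hS55 : ∀ T : Finset ℕ, Smin ⊆ T → S55Claim p (primesOf T))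
    (hEC : ECOut p ρbar Smin) (hP : LocPOut p ρbar Smin (condSO 𝒪 p Smin)) :
    SelOut p ρbar S Smin (condSO 𝒪 p Smin) :=
  selOut _ hset hS55 hEC hP (Fermat.Agent.P1.helper24.locSminOut_condSO p ρbar S Smin hset)

/-- **MODULE SEL**, flat family. -/
theorem selOut_condFlat (hset : Setting 𝒪 p ρbar S Smin)
    (hS55 : ∀ T : Finset ℕ, Smin ⊆ T → S55Claim p (primesOf T))
    (hEC : ECOut p ρbar Smin) (hP : LocPOut p ρbar Smin (condFlat 𝒪 p Smin)) :
    SelOut p ρbar S Smin (condFlat 𝒪 p Smin) :=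
  selOut _ hset hS55 hEC hP (Fermat.Agent.P1.helper24.locSminOut_condFlat p ρbar S Smin hset)

end Fermat.Agent.P1.helper8
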