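import Fermat.Agent.P1.helper70_Top
import Fermat.Agent.P1.helper70_DefWire
import Fermat.Agent.P1.helper91_TWOut
import Fermat.Agent.P1.helper56_CocOut
import Fermat.Agent.P1.helper7_LSOFinal
import Fermat.Agent.P1.helper8_SelFinal2
import Fermat.Agent.P1.helper63_ECTop
import Fermat.Agent.P1.helper30_FlatCntAsm0
import Fermat.Agent.S55.AExport3

/-!
# P1 (S56): the final wiring (helper70)

All modules of BLUEPRINT P1 which are closed on main are plugged into `s56_of_outputs`:
DEF (`defOut`), TW (`helper91.twOut_of_setting`), COC (`helper56.cocOut_so`, `cocOut_flat`),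
LSO (`helper7.locPOut_condSO`), SEL (`helper8.selOut_condSO`, `selOut_condFlat`, which contain
LQ, GW, TR, EXT, PTP, INFL, LD, NoInv, Odd).

* `s56_of_three` : S56 from the three inputs which are still open:
  the S55 claim, `ECOut` (module EC) and `LocPOut` for the flat condition (module FLAT-CNT);
* `s55Claim`     : the S55 claim (S55 is closed on main: `S55.exists_tr_claim`);
* `s56_of_two`   : S56 from `ECOut` and `LocPOut` for the flat condition;
* `s56_of_gen`   : the same with `ECOut` replaced by `ECGenOut` (helper63) and `LocPOut` by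
  `LocMain` (helper30).
-/

set_option autoImplicit false
set_option linter.unusedSectionVars false

open IsLocalRing ExtCitation groupCohomology Polynomial

noncomputable section

namespace Fermat.Agent.P1.helper70

open Fermat.Agent.S55

variable {𝒪 : Type} [CommRing 𝒪] [IsDomain 𝒪] [IsDiscreteValuationRing 𝒪]
  [IsAdicComplete (maximalIdeal 𝒪) 𝒪] [Finite (ResidueField 𝒪)]
  {p : ℕ} [Fact p.Prime]
  {ρbar : ResidualGaloisRep (ResidueField 𝒪)}
  {S Smin : Finset ℕ}

/-- **S56 from the three open inputs**: the S55 claim, `ECOut` and `LocPOut` for the flat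
condition. -/
theorem s56_of_three (hset : Setting 𝒪 p ρbar S Smin)
    (hS55 : ∀ T : Finset ℕ, Smin ⊆ T → S55Claim p (primesOf T))
    (hEC : ∀ [Algebra (ZMod p) (ResidueField 𝒪)], ECOut p ρbar Smin)
    (hFlat : ∀ [Algebra (ZMod p) (ResidueField 𝒪)],
      LocPOut p ρbar Smin (condFlat 𝒪 p Smin)) :
    TWConclusion p ρbar S Smin (condSO 𝒪 p Smin) ∧
      TWConclusion p ρbar S Smin (condFlat 𝒪 p Smin) :=
  s56_of_outputs hset (defOut 𝒪)
    (Fermat.Agent.P1.helper91.twOut_of_setting hset)
    (Fermat.Agent.P1.helper8.selOut_condSO hset hS55 hEC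
      (Fermat.Agent.P1.helper7.locPOut_condSO hset))
    (Fermat.Agent.P1.helper56.cocOut_so hset)
    (Fermat.Agent.P1.helper8.selOut_condFlat hset hS55 hEC hFlat)
    (Fermat.Agent.P1.helper56.cocOut_flat hset)

/-- **The S55 claim** (output of S55, modules A + B + SH + TOP-LOC, all closed on main). -/
theorem s55Claim (p : ℕ) [Fact p.Prime] (hp2 : p ≠ 2) (T' : Finset Nat.Primes)
    (hpT : pPrime p ∈ T') : S55Claim p T' := by
  obtain ⟨tr, htr, -, hC, -⟩ := exists_tr_claim p T' hp2 hpT
  exact ⟨tr, htr, hC⟩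

/-- The S55 claim in the form used by module SEL. -/
theorem s55Claim_of_setting (hset : Setting 𝒪 p ρbar S Smin) (T : Finset ℕ) (hT : Smin ⊆ T) :
    S55Claim p (primesOf T) :=
  s55Claim p hset.hp2 (primesOf T) (mem_primesOf.2 (hT hset.hpSmin))

/-- **S56 from the two open inputs**: `ECOut` and `LocPOut` for the flat condition. -/
theorem s56_of_two (hset : Setting 𝒪 p ρbar S Smin)
    (hEC : ∀ [Algebra (ZMod p) (ResidueField 𝒪)], ECOut p ρbar Smin)
    (hFlat : ∀ [Algebra (ZMod p) (ResidueField 𝒪)],
      LocPOut p ρbar Smin (condFlat 𝒪 p Smin)) :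
    TWConclusion p ρbar S Smin (condSO 𝒪 p Smin) ∧
      TWConclusion p ρbar S Smin (condFlat 𝒪 p Smin) :=
  s56_of_three hset (s55Claim_of_setting hset) hEC hFlat

/-- **S56 from the two open inputs**, in the forms delivered by the sub-coordinators:
`ECGenOut` (helper63) and `LocMain` (helper30). -/
theorem s56_of_gen (hset : Setting 𝒪 p ρbar S Smin)
    (hGen : ∀ T' : Finset Nat.Primes, pPrime p ∈ T' → Fermat.Agent.P1.helper63.ECGenOut p T')
    (hMain : ∀ [Algebra (ZMod p) (ResidueField 𝒪)], Fermat.Agent.P1.helper30.LocMain ρbar p) :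
    TWConclusion p ρbar S Smin (condSO 𝒪 p Smin) ∧
      TWConclusion p ρbar S Smin (condFlat 𝒪 p Smin) :=
  s56_of_two hset
    (Fermat.Agent.P1.helper63.ecOut_of_gen p ρbar S Smin hset hGen)
    (Fermat.Agent.P1.helper30.locPOut_of_locMain p ρbar Smin hMain)

end Fermat.Agent.P1.helper70
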