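import Fermat.Agent.P1.helper70_Final
import Fermat.Agent.P1.helper30_FlatCntFinal
import Fermat.Agent.P1.helper63_ECUnits

/-!
# P1 (S56): the final wiring, second step (helper70)

Module FLAT-CNT is closed (`helper30.locPOut_flat`), module EC is closed except for the package
BS-UNITS of BASE-STAR (`helper63.ecOut_of_units`).

* `s56_of_units` : S56 from `helper7.UnitsStatement` (the last open package of BLUEPRINT P1).
-/

set_option autoImplicit false
set_option linter.unusedSectionVars false

open IsLocalRing ExtCitation groupCohomology Polynomial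

noncomputable section

namespace Fermat.Agent.P1.helper70

open Fermat.Agent.S55

variable {𝒪 : Type} [CommRing 𝒪] [IsDomain 𝒪] [IsDiscreteValuationRing 𝒪]
  [IsAdicComplete (maximalIdeal 𝒪) 𝒪] [Finite (ResidueField 𝒪)]
  {p : ℕ} [Fact p.Prime]
  {ρbar : ResidualGaloisRep (ResidueField 𝒪)}
  {S Smin : Finset ℕ}

/-- **S56 from the package BS-UNITS** (the last open package of BLUEPRINT P1). -/
theorem s56_of_units (hset : Setting 𝒪 p ρbar S Smin)
    (hU : ∀ T' : Finset Nat.Primes, Fermat.Agent.P1.helper7.UnitsStatement p T') :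
    TWConclusion p ρbar S Smin (condSO 𝒪 p Smin) ∧
      TWConclusion p ρbar S Smin (condFlat 𝒪 p Smin) :=
  s56_of_two hset (Fermat.Agent.P1.helper63.ecOut_of_units p ρbar S Smin hset hU)
    (Fermat.Agent.P1.helper30.locPOut_flat p ρbar S Smin hset)

end Fermat.Agent.P1.helper70
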