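import Fermat.Agent.P1.helper71_ECShap3Lev
import Fermat.Agent.P1.helper63_ECDefs2

/-!
# P1 / module EC, package SHAP, degree 3 (helper71)

Shapiro's lemma in degree 3 for level-constant cochains, in the shape of the blueprint
(`shapiro_ind`, fourth component; `shapiro_perm`, third component):

* `shapiro_ind_H3`  : `H³(G, Ind_U^G W) ≃ H³(U, W)` for `U` open, `W` smooth (no finiteness);
* `shapiro_perm_H3` : `H³(G, k[G/U]) ≃ H³(U, k)` for `U` open (levels of finite index);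
* `h3_equiv_of_iso` : `H³` is invariant under equivariant isomorphisms;
* `sh3_inj`, `sh3_surj` : the two halves on the level of cochains.
-/

set_option autoImplicit false
set_option linter.unusedSectionVars false
set_option linter.style.haveILetI false
set_option linter.unusedVariables false

open groupCohomology

noncomputable section

namespace Fermat.Agent.P1.helper71

open Fermat.Agent.S55 Fermat.Agent.P1.helper63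

section Assembly

variable {k : Type} [Field k] {G : Type} [Group G] (𝒩 : Levels G) {U : Subgroup G}
  (hU : ∃ N ∈ 𝒩.mem, N ≤ U) (W : Rep.{0} k ↥U)

include hU in
/-- a common refinement of three levels inside `U` -/
lemma sh3_exists_level (N₁ N₂ N₃ : Subgroup G) (h₁ : N₁ ∈ 𝒩.mem) (h₂ : N₂ ∈ 𝒩.mem)
    (h₃ : N₃ ∈ 𝒩.mem) : ∃ N ∈ 𝒩.mem, N ≤ U ∧ N ≤ N₁ ∧ N ≤ N₂ ∧ N ≤ N₃ := by
  obtain ⟨N₀, hN₀, hle₀⟩ := hU
  obtain ⟨Na, hNa, hlea⟩ := 𝒩.directed N₀ hN₀ N₁ h₁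
  obtain ⟨Nb, hNb, hleb⟩ := 𝒩.directed N₂ h₂ N₃ h₃
  obtain ⟨N, hN, hle⟩ := 𝒩.directed Na hNa Nb hNb
  exact ⟨N, hN, ((hle.trans inf_le_left).trans (hlea.trans inf_le_left)).trans hle₀,
    (hle.trans inf_le_left).trans (hlea.trans inf_le_right),
    (hle.trans inf_le_right).trans (hleb.trans inf_le_left),
    (hle.trans inf_le_right).trans (hleb.trans inf_le_right)⟩

lemma sh3_smooth_level (hW : IsSmooth (helper35.restrictLevels 𝒩 U hU) W) :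
    ∃ N ∈ 𝒩.mem, ∀ u : ↥U, (u : G) ∈ N → ∀ w : W, W.ρ u w = w := by
  obtain ⟨N', ⟨N, hN, -, rfl⟩, h⟩ := hW
  exact ⟨N, hN, fun u hu w => h u (Subgroup.mem_subgroupOf.mpr hu) w⟩

lemma sh3_lev₂_level (β : ↥U × ↥U → W) (hβ : β ∈ C2 (helper35.restrictLevels 𝒩 U hU) W) :
    ∃ N ∈ 𝒩.mem, ∀ u₁ u₂ s₁ s₂ : ↥U, (s₁ : G) ∈ N → (s₂ : G) ∈ N →
      β (u₁ * s₁, u₂ * s₂) = β (u₁, u₂) := by
  obtain ⟨N', ⟨N, hN, -, rfl⟩, h⟩ := hβ
  exact ⟨N, hN, fun u₁ u₂ s₁ s₂ h₁ h₂ =>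
    h u₁ u₂ s₁ (Subgroup.mem_subgroupOf.mpr h₁) s₂ (Subgroup.mem_subgroupOf.mpr h₂)⟩

lemma sh3_lev₃_level (f : ↥U × ↥U × ↥U → W) (hf : f ∈ C3 (helper35.restrictLevels 𝒩 U hU) W) :
    ∃ N ∈ 𝒩.mem, ∀ u₁ u₂ u₃ s₁ s₂ s₃ : ↥U, (s₁ : G) ∈ N → (s₂ : G) ∈ N → (s₃ : G) ∈ N →
      f (u₁ * s₁, u₂ * s₂, u₃ * s₃) = f (u₁, u₂, u₃) := by
  obtain ⟨N', ⟨N, hN, -, rfl⟩, h⟩ := hf
  exact ⟨N, hN, fun u₁ u₂ u₃ s₁ s₂ s₃ h₁ h₂ h₃ =>
    h u₁ u₂ u₃ s₁ (Subgroup.mem_subgroupOf.mpr h₁) s₂ (Subgroup.mem_subgroupOf.mpr h₂)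
      s₃ (Subgroup.mem_subgroupOf.mpr h₃)⟩

theorem sh3Res_mem_C3 (F : G × G × G → sh3Ind W) (hF : F ∈ C3 𝒩 (sh3Ind W)) :
    sh3Res W F ∈ C3 (helper35.restrictLevels 𝒩 U hU) W := by
  obtain ⟨N₁, hN₁, h⟩ := hF
  obtain ⟨N, hN, hNU, hle, -, -⟩ := sh3_exists_level 𝒩 hU N₁ N₁ N₁ hN₁ hN₁ hN₁
  refine ⟨N.subgroupOf U, ⟨N, hN, hNU, rfl⟩, ?_⟩
  intro u₁ u₂ u₃ s₁ hs₁ s₂ hs₂ s₃ hs₃
  rw [sh3Res_apply, sh3Res_apply]
  simp only [Subgroup.coe_mul]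
  rw [h _ _ _ _ (hle (Subgroup.mem_subgroupOf.mp hs₁)) _ (hle (Subgroup.mem_subgroupOf.mp hs₂))
    _ (hle (Subgroup.mem_subgroupOf.mp hs₃))]

theorem sh3Res2_mem_C2 (b : G × G → sh3Ind W) (hb : b ∈ C2 𝒩 (sh3Ind W)) :
    sh3Res2 W b ∈ C2 (helper35.restrictLevels 𝒩 U hU) W := by
  obtain ⟨N₁, hN₁, h⟩ := hb
  obtain ⟨N, hN, hNU, hle, -, -⟩ := sh3_exists_level 𝒩 hU N₁ N₁ N₁ hN₁ hN₁ hN₁
  refine ⟨N.subgroupOf U, ⟨N, hN, hNU, rfl⟩, ?_⟩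
  intro u₁ u₂ s₁ hs₁ s₂ hs₂
  rw [sh3Res2_apply, sh3Res2_apply]
  simp only [Subgroup.coe_mul]
  rw [h _ _ _ (hle (Subgroup.mem_subgroupOf.mp hs₁)) _ (hle (Subgroup.mem_subgroupOf.mp hs₂))]

/-- **Shapiro, degree 3, injectivity**: a level 3-cocycle of `G` in `Ind W` whose restriction
to `U` is a level coboundary is a level coboundary. -/
theorem sh3_inj (hW : IsSmooth (helper35.restrictLevels 𝒩 U hU) W) (F : G × G × G → sh3Ind W)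
    (hF : F ∈ Z3 𝒩 (sh3Ind W))
    (h : sh3Res W F ∈ B3 (helper35.restrictLevels 𝒩 U hU) W) : F ∈ B3 𝒩 (sh3Ind W) := by
  obtain ⟨⟨N₁, hN₁, hF₁⟩, hF₂⟩ := hF
  obtain ⟨β, hβC, hβ⟩ := h
  obtain ⟨N₂, hN₂, hW₂⟩ := sh3_smooth_level 𝒩 hU W hW
  obtain ⟨N₃, hN₃, hβ₃⟩ := sh3_lev₂_level 𝒩 hU W β hβC
  obtain ⟨N, hN, hNU, hle₁, hle₂, hle₃⟩ := sh3_exists_level 𝒩 hU N₁ N₂ N₃ hN₁ hN₂ hN₃
  obtain ⟨r, hr, -⟩ := exists_sh3Retr U
  haveI : N.Normal := 𝒩.normal N hN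
  have hinv : sh3Inv3 N (sh3Prim W F β r) :=
    sh3Prim_inv W N hNU (fun u hu w => hW₂ u (hle₂ hu) w) r hr F
      (fun g₁ g₂ g₃ s₁ hs₁ s₂ hs₂ s₃ hs₃ => hF₁ g₁ g₂ g₃ s₁ (hle₁ hs₁) s₂ (hle₁ hs₂) s₃ (hle₁ hs₃))
      β (fun u₁ u₂ s₁ s₂ hs₁ hs₂ => hβ₃ u₁ u₂ s₁ s₂ (hle₃ hs₁) (hle₃ hs₂))
  refine ⟨sh3OfHom2 W (sh3Prim W F β r), ⟨N, hN, ?_⟩,
    sh3_inj_core W F (LinearMap.mem_ker.mp hF₂) β hβ r hr⟩
  intro g₁ g₂ s₁ hs₁ s₂ hs₂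
  exact sh3OfHom2_lev W N _ hinv g₁ g₂ s₁ s₂ hs₁ hs₂

/-- **Shapiro, degree 3, surjectivity**: every level 3-cocycle of `U` in `W` is the restriction
of a level 3-cocycle of `G` in `Ind W`. -/
theorem sh3_surj (hW : IsSmooth (helper35.restrictLevels 𝒩 U hU) W) (f : ↥U × ↥U × ↥U → W)
    (hf : f ∈ Z3 (helper35.restrictLevels 𝒩 U hU) W) :
    ∃ F ∈ Z3 𝒩 (sh3Ind W), sh3Res W F = f := by
  obtain ⟨hfC, hf₂⟩ := hf
  obtain ⟨N₁, hN₁, hf₁⟩ := sh3_lev₃_level 𝒩 hU W f hfC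
  obtain ⟨N₂, hN₂, hW₂⟩ := sh3_smooth_level 𝒩 hU W hW
  obtain ⟨N, hN, hNU, hle₁, hle₂, -⟩ := sh3_exists_level 𝒩 hU N₁ N₂ N₂ hN₁ hN₂ hN₂
  obtain ⟨r, hr, hr1⟩ := exists_sh3Retr U
  haveI : N.Normal := 𝒩.normal N hN
  have hinv : sh3Inv4 N (sh3Pull3 W r f) :=
    sh3Pull3_inv W N hNU (fun u hu w => hW₂ u (hle₂ hu) w) r hr f
      (fun u₁ u₂ u₃ s₁ s₂ s₃ hs₁ hs₂ hs₃ => hf₁ u₁ u₂ u₃ s₁ s₂ s₃ (hle₁ hs₁) (hle₁ hs₂) (hle₁ hs₃))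
  obtain ⟨h1, h2⟩ := sh3_surj_core W f (LinearMap.mem_ker.mp hf₂) r hr hr1
  refine ⟨sh3OfHom W (sh3Pull3 W r f), ⟨⟨N, hN, ?_⟩, LinearMap.mem_ker.mpr h1⟩, h2⟩
  intro g₁ g₂ g₃ s₁ hs₁ s₂ hs₂ s₃ hs₃
  exact sh3OfHom_lev W N _ hinv g₁ g₂ g₃ s₁ s₂ s₃ hs₁ hs₂ hs₃

/-- restriction on cocycles -/
def sh3ResZ : ↥(Z3 𝒩 (sh3Ind W)) →ₗ[k] ↥(Z3 (helper35.restrictLevels 𝒩 U hU) W) :=
  (sh3Res W).restrict (fun F hF => ⟨sh3Res_mem_C3 𝒩 hU W F hF.1,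
    LinearMap.mem_ker.mpr (sh3Res_d₃₄ W F (LinearMap.mem_ker.mp hF.2))⟩)

/-- restriction on `H³` -/
def sh3ResH : S55.H3 𝒩 (sh3Ind W) →ₗ[k] S55.H3 (helper35.restrictLevels 𝒩 U hU) W :=
  Submodule.mapQ _ _ (sh3ResZ 𝒩 hU W) (by
    rintro F ⟨b, hb, e⟩
    refine ⟨sh3Res2 W b, sh3Res2_mem_C2 𝒩 hU W b hb, ?_⟩
    rw [← sh3Res_d₂₃, e]
    rfl)

theorem sh3ResH_bijective (hW : IsSmooth (helper35.restrictLevels 𝒩 U hU) W) :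
    Function.Bijective (sh3ResH 𝒩 hU W) := by
  constructor
  · rw [injective_iff_map_eq_zero]
    intro x hx
    obtain ⟨F, rfl⟩ := Submodule.Quotient.mk_surjective _ x
    have h1 : sh3ResH 𝒩 hU W (Submodule.Quotient.mk F)
        = Submodule.Quotient.mk (sh3ResZ 𝒩 hU W F) := Submodule.mapQ_apply _ _ _ _
    rw [h1, Submodule.Quotient.mk_eq_zero] at hx
    rw [Submodule.Quotient.mk_eq_zero]
    exact sh3_inj 𝒩 hU W hW F.1 F.2 hx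
  · intro y
    obtain ⟨f, rfl⟩ := Submodule.Quotient.mk_surjective _ y
    obtain ⟨F, hF, e⟩ := sh3_surj 𝒩 hU W hW f.1 f.2
    refine ⟨Submodule.Quotient.mk ⟨F, hF⟩, ?_⟩
    have h1 : sh3ResH 𝒩 hU W (Submodule.Quotient.mk ⟨F, hF⟩)
        = Submodule.Quotient.mk (sh3ResZ 𝒩 hU W ⟨F, hF⟩) := Submodule.mapQ_apply _ _ _ _
    rw [h1]
    congr 1
    exact Subtype.ext e

/-- **EC-SHAP, degree 3** (`shapiro_ind` of the blueprint, fourth component; no finiteness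
hypothesis is needed). -/
theorem shapiro_ind_H3 (hW : IsSmooth (helper35.restrictLevels 𝒩 U hU) W) :
    Nonempty (S55.H3 𝒩 (indRep W) ≃ₗ[k] S55.H3 (helper35.restrictLevels 𝒩 U hU) W) :=
  ⟨LinearEquiv.ofBijective (sh3ResH 𝒩 hU W) (sh3ResH_bijective 𝒩 hU W hW)⟩

end Assembly

/-! ## Invariance of `H³` under equivariant isomorphisms -/

section Iso

variable {k : Type} [Field k] {G : Type} [Group G] (𝒩 : Levels G)

theorem sh3_push_mem_C3 {A B : Rep.{0} k G} (e : A →ₗ[k] B) (F : G × G × G → A)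
    (hF : F ∈ C3 𝒩 A) : (fun g => e (F g)) ∈ C3 𝒩 B := by
  obtain ⟨N, hN, h⟩ := hF
  exact ⟨N, hN, fun g₁ g₂ g₃ s₁ hs₁ s₂ hs₂ s₃ hs₃ => by
    show e (F _) = e (F _)
    rw [h g₁ g₂ g₃ s₁ hs₁ s₂ hs₂ s₃ hs₃]⟩

theorem sh3_push_mem_C2 {A B : Rep.{0} k G} (e : A →ₗ[k] B) (b : G × G → A)
    (hb : b ∈ C2 𝒩 A) : (fun g => e (b g)) ∈ C2 𝒩 B := by
  obtain ⟨N, hN, h⟩ := hb
  exact ⟨N, hN, fun g₁ g₂ s₁ hs₁ s₂ hs₂ => by
    show e (b _) = e (b _)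
    rw [h g₁ g₂ s₁ hs₁ s₂ hs₂]⟩

theorem sh3_push_d₂₃ {A B : Rep.{0} k G} (e : A →ₗ[k] B)
    (he : ∀ s a, e (A.ρ s a) = B.ρ s (e a)) (b : G × G → A) :
    (d₂₃ B).hom (fun g => e (b g)) = fun g => e ((d₂₃ A).hom b g) := by
  funext ⟨g₁, g₂, g₃⟩
  rw [d₂₃_hom_apply, d₂₃_hom_apply]
  simp only [map_add, map_sub, he]

theorem sh3_push_d₃₄ {A B : Rep.{0} k G} (e : A →ₗ[k] B)
    (he : ∀ s a, e (A.ρ s a) = B.ρ s (e a)) (F : G × G × G → A) :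
    d₃₄ B (fun g => e (F g)) = fun g => e (d₃₄ A F g) := by
  funext ⟨g₁, g₂, g₃, g₄⟩
  rw [d₃₄_apply, d₃₄_apply]
  simp only [map_add, map_sub, he]

theorem sh3_push_mem_Z3 {A B : Rep.{0} k G} (e : A →ₗ[k] B)
    (he : ∀ s a, e (A.ρ s a) = B.ρ s (e a)) (F : G × G × G → A) (hF : F ∈ Z3 𝒩 A) :
    (fun g => e (F g)) ∈ Z3 𝒩 B := by
  refine ⟨sh3_push_mem_C3 𝒩 e F hF.1, LinearMap.mem_ker.mpr ?_⟩
  rw [sh3_push_d₃₄ e he, LinearMap.mem_ker.mp hF.2]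
  funext g
  exact map_zero e

theorem sh3_push_mem_B3 {A B : Rep.{0} k G} (e : A →ₗ[k] B)
    (he : ∀ s a, e (A.ρ s a) = B.ρ s (e a)) (F : G × G × G → A) (hF : F ∈ B3 𝒩 A) :
    (fun g => e (F g)) ∈ B3 𝒩 B := by
  obtain ⟨b, hb, rfl⟩ := hF
  exact ⟨fun g => e (b g), sh3_push_mem_C2 𝒩 e b hb, sh3_push_d₂₃ e he b⟩

/-- push-forward of cocycles along an equivariant map -/
def sh3PushZ {A B : Rep.{0} k G} (e : A →ₗ[k] B) (he : ∀ s a, e (A.ρ s a) = B.ρ s (e a)) :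
    ↥(Z3 𝒩 A) →ₗ[k] ↥(Z3 𝒩 B) where
  toFun F := ⟨fun g => e (F.1 g), sh3_push_mem_Z3 𝒩 e he F.1 F.2⟩
  map_add' F F' := by
    apply Subtype.ext
    funext g
    exact map_add e _ _
  map_smul' c F := by
    apply Subtype.ext
    funext g
    exact map_smul e c _

/-- push-forward on `H³` -/
def sh3PushH {A B : Rep.{0} k G} (e : A →ₗ[k] B) (he : ∀ s a, e (A.ρ s a) = B.ρ s (e a)) :
    S55.H3 𝒩 A →ₗ[k] S55.H3 𝒩 B :=
  Submodule.mapQ _ _ (sh3PushZ 𝒩 e he) (fun F hF => sh3_push_mem_B3 𝒩 e he F.1 hF)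

/-- **`H³` is invariant under equivariant isomorphisms.** -/
theorem h3_equiv_of_iso {A B : Rep.{0} k G} (e : A →ₗ[k] B)
    (he : ∀ s a, e (A.ρ s a) = B.ρ s (e a)) (hbij : Function.Bijective e) :
    Nonempty (S55.H3 𝒩 A ≃ₗ[k] S55.H3 𝒩 B) := by
  let E : A ≃ₗ[k] B := LinearEquiv.ofBijective e hbij
  have hE : ∀ a, E a = e a := fun a => rfl
  have hEs : ∀ s b, E.symm.toLinearMap (B.ρ s b) = A.ρ s (E.symm.toLinearMap b) := by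
    intro s b
    apply E.injective
    show E (E.symm (B.ρ s b)) = E (A.ρ s (E.symm b))
    rw [E.apply_symm_apply, hE, he, ← hE, E.apply_symm_apply]
  refine ⟨LinearEquiv.ofBijective (sh3PushH 𝒩 e he) ⟨?_, ?_⟩⟩
  · rw [injective_iff_map_eq_zero]
    intro x hx
    obtain ⟨F, rfl⟩ := Submodule.Quotient.mk_surjective _ x
    have h1 : sh3PushH 𝒩 e he (Submodule.Quotient.mk F)
        = Submodule.Quotient.mk (sh3PushZ 𝒩 e he F) := Submodule.mapQ_apply _ _ _ _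
    rw [h1, Submodule.Quotient.mk_eq_zero] at hx
    rw [Submodule.Quotient.mk_eq_zero]
    have h2 := sh3_push_mem_B3 𝒩 E.symm.toLinearMap hEs _ hx
    have h3 : (fun g => E.symm.toLinearMap ((Z3 𝒩 B).subtype (sh3PushZ 𝒩 e he F) g)) = F.1 := by
      funext g
      show E.symm (e (F.1 g)) = F.1 g
      rw [← hE, E.symm_apply_apply]
    rw [h3] at h2
    exact h2
  · intro y
    obtain ⟨f, rfl⟩ := Submodule.Quotient.mk_surjective _ y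
    refine ⟨Submodule.Quotient.mk ⟨fun g => E.symm.toLinearMap (f.1 g),
      sh3_push_mem_Z3 𝒩 E.symm.toLinearMap hEs f.1 f.2⟩, ?_⟩
    have h1 : sh3PushH 𝒩 e he (Submodule.Quotient.mk ⟨fun g => E.symm.toLinearMap (f.1 g),
        sh3_push_mem_Z3 𝒩 E.symm.toLinearMap hEs f.1 f.2⟩)
        = Submodule.Quotient.mk (sh3PushZ 𝒩 e he ⟨fun g => E.symm.toLinearMap (f.1 g),
          sh3_push_mem_Z3 𝒩 E.symm.toLinearMap hEs f.1 f.2⟩) := Submodule.mapQ_apply _ _ _ _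
    rw [h1]
    congr 1
    apply Subtype.ext
    funext g
    show e (E.symm (f.1 g)) = f.1 g
    rw [← hE, E.apply_symm_apply]

end Iso

/-! ## The permutation module -/

section Perm

variable {k : Type} [Field k] {G : Type} [Group G] (𝒩 : Levels G)

/-- `k[G/U] ≅ Ind_U^G k` -/
theorem sh3_perm_iso (U : Subgroup G) [Finite (G ⧸ U)] :
    ∃ e : permRep k U →ₗ[k] indRep (helper35.trivRep k ↥U),
      (∀ s a, e ((permRep k U).ρ s a) = (indRep (helper35.trivRep k ↥U)).ρ s (e a)) ∧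
        Function.Bijective e := by
  refine ⟨helper57.permToInd (k := k) (U := U) (W := k) (1 : k), ?_, ?_, ?_⟩
  · intro s a
    exact helper57.permToInd_equivariant (helper35.trivRep k ↥U).ρ (w := (1 : k))
      (fun u => rfl) s a
  · exact helper57.permToInd_injective one_ne_zero
  · intro f
    have h := (helper57.mem_range_permToInd (k := k) (U := U) (1 : k) f).mpr (fun x =>
      Submodule.mem_span_singleton.mpr ⟨f x, by simp⟩)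
    exact h

/-- **EC-SHAP, degree 3** (`shapiro_perm` of the blueprint, third component), for `G ⧸ U`
finite. -/
theorem shapiro_perm_H3_of_finite (U : Subgroup G) [Finite (G ⧸ U)]
    (hU : ∃ N ∈ 𝒩.mem, N ≤ U) :
    Nonempty (S55.H3 𝒩 (permRep k U) ≃ₗ[k]
      S55.H3 (helper35.restrictLevels 𝒩 U hU) (helper35.trivRep k ↥U)) := by
  obtain ⟨e, he, hbij⟩ := sh3_perm_iso (k := k) U
  obtain ⟨E₁⟩ := h3_equiv_of_iso 𝒩 e he hbij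
  have hW : IsSmooth (helper35.restrictLevels 𝒩 U hU) (helper35.trivRep k ↥U) := by
    obtain ⟨N', hN'⟩ := (helper35.restrictLevels 𝒩 U hU).nonempty
    exact ⟨N', hN', fun s _ a => rfl⟩
  obtain ⟨E₂⟩ := shapiro_ind_H3 𝒩 hU (helper35.trivRep k ↥U) hW
  exact ⟨E₁.trans E₂⟩

/-- **EC-SHAP, degree 3** (`shapiro_perm` of the blueprint, third component). -/
theorem shapiro_perm_H3 (hfin : ∀ N ∈ 𝒩.mem, Finite (G ⧸ N)) (U : Subgroup G)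
    (hU : ∃ N ∈ 𝒩.mem, N ≤ U) :
    Nonempty (S55.H3 𝒩 (permRep k U) ≃ₗ[k]
      S55.H3 (helper35.restrictLevels 𝒩 U hU) (helper35.trivRep k ↥U)) := by
  haveI : Finite (G ⧸ U) := by
    obtain ⟨N, hN, hle⟩ := hU
    haveI := hfin N hN
    haveI : N.FiniteIndex := Subgroup.finiteIndex_of_finite_quotient
    haveI : U.FiniteIndex := Subgroup.finiteIndex_of_le hle
    infer_instance
  exact shapiro_perm_H3_of_finite 𝒩 U hU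

end Perm

end Fermat.Agent.P1.helper71
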