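import Fermat.Agent.S55.helper57_Devissage
import Fermat.Agent.S55.helper35_SHDefs

/-!
# P1 / module EC, package SHAP, degree 3 (helper71): the dictionary

`U ≤ G`, `W` a representation of `U`, `Ind W = (G ⧸ U → W)` with `helper57.indRepn`.

* homogeneous calculus: `hbd3`, `hbd4` (homogeneous boundaries), `hprism` (prism operator of a
  map `r`), `hprism_spec`;
* the dictionary between inhomogeneous cochains `F : G³ → Ind W` and `U`-equivariant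
  homogeneous `W`-valued cochains on `G`: `sh3ToHom`, `sh3OfHom`, `sh3OfHom2`;
* the restriction map `sh3Res` (`F ↦ ρ(u₀) F(u₁, u₂, u₃)(e)`), the retraction `exists_sh3Retr`;
* `sh3_inj_core`  : a 3-cocycle of `G` in `Ind W` whose restriction is the coboundary of `β` is
  the coboundary of an explicit 2-cochain;
* `sh3_surj_core` : an explicit 3-cocycle of `G` in `Ind W` restricting to a given 3-cocycle
  of `U` in `W`.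
-/

set_option autoImplicit false
set_option linter.unusedSectionVars false
set_option linter.style.haveILetI false
set_option linter.unusedVariables false

open groupCohomology

noncomputable section

namespace Fermat.Agent.P1.helper71

open Fermat.Agent.S55

/-! ## Homogeneous calculus -/

section Hom

variable {X A : Type*} [AddCommGroup A]

/-- homogeneous boundary of a homogeneous 2-cochain -/
def hbd3 (ψ : X → X → X → A) (x₀ x₁ x₂ x₃ : X) : A :=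
  ψ x₁ x₂ x₃ - ψ x₀ x₂ x₃ + ψ x₀ x₁ x₃ - ψ x₀ x₁ x₂

/-- homogeneous boundary of a homogeneous 3-cochain -/
def hbd4 (φ : X → X → X → X → A) (x₀ x₁ x₂ x₃ x₄ : X) : A :=
  φ x₁ x₂ x₃ x₄ - φ x₀ x₂ x₃ x₄ + φ x₀ x₁ x₃ x₄ - φ x₀ x₁ x₂ x₄ + φ x₀ x₁ x₂ x₃

/-- the prism operator attached to `r : X → X` -/
def hprism (φ : X → X → X → X → A) (r : X → X) (x₀ x₁ x₂ : X) : A :=
  φ x₀ (r x₀) (r x₁) (r x₂) - φ x₀ x₁ (r x₁) (r x₂) + φ x₀ x₁ x₂ (r x₂)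

/-- the prism identity on cocycles -/
theorem hprism_spec (φ : X → X → X → X → A)
    (hφ : ∀ x₀ x₁ x₂ x₃ x₄, hbd4 φ x₀ x₁ x₂ x₃ x₄ = 0) (r : X → X) (x₀ x₁ x₂ x₃ : X) :
    hbd3 (hprism φ r) x₀ x₁ x₂ x₃ = φ (r x₀) (r x₁) (r x₂) (r x₃) - φ x₀ x₁ x₂ x₃ := by
  have e1 := hφ x₀ (r x₀) (r x₁) (r x₂) (r x₃)
  have e2 := hφ x₀ x₁ (r x₁) (r x₂) (r x₃)
  have e3 := hφ x₀ x₁ x₂ (r x₂) (r x₃)
  have e4 := hφ x₀ x₁ x₂ x₃ (r x₃)
  have key : hbd3 (hprism φ r) x₀ x₁ x₂ x₃ - (φ (r x₀) (r x₁) (r x₂) (r x₃) - φ x₀ x₁ x₂ x₃)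
      = - hbd4 φ x₀ (r x₀) (r x₁) (r x₂) (r x₃) + hbd4 φ x₀ x₁ (r x₁) (r x₂) (r x₃)
        - hbd4 φ x₀ x₁ x₂ (r x₂) (r x₃) + hbd4 φ x₀ x₁ x₂ x₃ (r x₃) := by
    unfold hbd3 hprism hbd4
    abel
  rw [e1, e2, e3, e4] at key
  simp only [neg_zero, add_zero, sub_zero] at key
  exact sub_eq_zero.mp key

end Hom

/-! ## The retraction -/

section Retr

variable {G : Type} [Group G]

/-- a `U`-equivariant retraction `G → U` -/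
theorem exists_sh3Retr (U : Subgroup G) :
    ∃ r : G → ↥U, (∀ (u : ↥U) (x : G), r (↑u * x) = u * r x) ∧ ∀ u : ↥U, r ↑u = u := by
  classical
  let t : G → G := fun g => Quotient.out (Quotient.mk (QuotientGroup.rightRel U) g)
  have ht : ∀ g, g * (t g)⁻¹ ∈ U := by
    intro g
    have h : (QuotientGroup.rightRel U) (t g) g := Quotient.exact (Quotient.out_eq _)
    exact QuotientGroup.rightRel_apply.mp h
  have ht' : ∀ η g, η ∈ U → t (η * g) = t g := by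
    intro η g hη
    show Quotient.out _ = Quotient.out _
    congr 1
    apply Quotient.sound
    show (QuotientGroup.rightRel U) (η * g) g
    rw [QuotientGroup.rightRel_apply]
    have : g * (η * g)⁻¹ = η⁻¹ := by group
    rw [this]
    exact U.inv_mem hη
  let r₀ : G → ↥U := fun g => ⟨g * (t g)⁻¹, ht g⟩
  have hr₀ : ∀ (u : ↥U) (x : G), r₀ (↑u * x) = u * r₀ x := by
    intro u x
    apply Subtype.ext
    show ↑u * x * (t (↑u * x))⁻¹ = ↑u * (x * (t x)⁻¹)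
    rw [ht' _ x u.2, mul_assoc]
  refine ⟨fun g => r₀ g * (r₀ 1)⁻¹, fun u x => ?_, fun u => ?_⟩
  · show r₀ (↑u * x) * (r₀ 1)⁻¹ = u * (r₀ x * (r₀ 1)⁻¹)
    rw [hr₀, mul_assoc]
  · show r₀ ↑u * (r₀ 1)⁻¹ = u
    have := hr₀ u 1
    rw [mul_one] at this
    rw [this, mul_inv_cancel_right]

/-- an equivariant retraction is compatible with normal subgroups of `U` -/
theorem sh3Retr_level {U : Subgroup G} (r : G → ↥U)
    (hr : ∀ (u : ↥U) (x : G), r (↑u * x) = u * r x) (N : Subgroup G) [hN : N.Normal]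
    (hle : N ≤ U) (x : G) (n : G) (hn : n ∈ N) :
    ∃ n' : ↥U, (n' : G) ∈ N ∧ r (x * n) = r x * n' := by
  have h1 : x * n * x⁻¹ ∈ N := hN.conj_mem n hn x
  obtain ⟨v, hv⟩ : ∃ v : ↥U, (v : G) = x * n * x⁻¹ := ⟨⟨_, hle h1⟩, rfl⟩
  have h2 : x * n = (v : G) * x := by
    rw [hv]
    group
  refine ⟨(r x)⁻¹ * v * r x, ?_, ?_⟩
  · have := hN.conj_mem _ h1 ((r x : G))⁻¹
    rw [← hv] at this
    simpa [mul_assoc] using this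
  · rw [h2, hr]
    group

end Retr

/-! ## The dictionary -/

section Dict

variable {k : Type} [Field k] {G : Type} [Group G] {U : Subgroup G}

/-- the induced module (`= helper63.indRep W`) -/
abbrev sh3Ind (W : Rep.{0} k ↥U) : Rep.{0} k G := Rep.of (helper57.indRepn W.ρ)

variable (U) in
/-- the base point of `G ⧸ U` -/
def sh3Base : G ⧸ U := ((1 : G) : G ⧸ U)

lemma sh3_smul_base (x : G) : x • sh3Base U = ((x : G) : G ⧸ U) := by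
  unfold sh3Base
  rw [MulAction.Quotient.smul_mk, smul_eq_mul, mul_one]

lemma sh3_smul_base_of_mem (u : ↥U) : (u : G) • sh3Base U = sh3Base U := by
  rw [sh3_smul_base]
  unfold sh3Base
  rw [QuotientGroup.eq]
  simp

lemma sh3_inv_smul_base_of_mem (u : ↥U) : (u : G)⁻¹ • sh3Base U = sh3Base U := by
  have := sh3_smul_base_of_mem (u⁻¹)
  simpa using this

lemma sh3_cosetRep_smul_base (y : G ⧸ U) : helper57.cosetRep U y • sh3Base U = y := by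
  rw [sh3_smul_base, helper57.mk_cosetRep]

lemma sh3_mem_tw (x : G) : x * helper57.cosetRep U (x⁻¹ • sh3Base U) ∈ U := by
  have h : ((helper57.cosetRep U (x⁻¹ • sh3Base U) : G) : G ⧸ U) = ((x⁻¹ : G) : G ⧸ U) :=
    (helper57.mk_cosetRep U _).trans (sh3_smul_base _)
  have := QuotientGroup.eq.mp h.symm
  simpa using this

lemma sh3_mem_u0 : helper57.cosetRep U (sh3Base U) ∈ U := by
  have := sh3_mem_tw (U := U) 1
  simpa using this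

variable (U) in
/-- `x * σ(x⁻¹ e) ∈ U` -/
def sh3Tw (x : G) : ↥U := ⟨x * helper57.cosetRep U (x⁻¹ • sh3Base U), sh3_mem_tw x⟩

variable (U) in
/-- `u₀ = σ(e) ∈ U` -/
def sh3U0 : ↥U := ⟨helper57.cosetRep U (sh3Base U), sh3_mem_u0⟩

lemma sh3Tw_mul (u : ↥U) (x : G) : sh3Tw U (↑u * x) = u * sh3Tw U x := by
  apply Subtype.ext
  show ↑u * x * helper57.cosetRep U ((↑u * x)⁻¹ • sh3Base U)
    = ↑u * (x * helper57.cosetRep U (x⁻¹ • sh3Base U))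
  have : ((u : G) * x)⁻¹ • sh3Base U = x⁻¹ • sh3Base U := by
    rw [mul_inv_rev, mul_smul, sh3_inv_smul_base_of_mem]
  rw [this, mul_assoc]

lemma sh3Tw_coe (u : ↥U) : sh3Tw U ↑u = u * sh3U0 U := by
  apply Subtype.ext
  show ↑u * helper57.cosetRep U ((↑u : G)⁻¹ • sh3Base U) = ↑u * helper57.cosetRep U (sh3Base U)
  rw [sh3_inv_smul_base_of_mem]

lemma sh3Tw_inv_cosetRep (y : G ⧸ U) : sh3Tw U (helper57.cosetRep U y)⁻¹ = 1 := by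
  apply Subtype.ext
  show (helper57.cosetRep U y)⁻¹ * helper57.cosetRep U (((helper57.cosetRep U y)⁻¹)⁻¹ • sh3Base U)
    = 1
  rw [inv_inv, sh3_cosetRep_smul_base, inv_mul_cancel]

lemma sh3Tw_cocyc (x g : G) :
    sh3Tw U x * helper57.cocyc U g (x⁻¹ • sh3Base U) = sh3Tw U (x * g) := by
  apply Subtype.ext
  show x * helper57.cosetRep U (x⁻¹ • sh3Base U)
      * ((helper57.cosetRep U (x⁻¹ • sh3Base U))⁻¹ * g
        * helper57.cosetRep U (g⁻¹ • x⁻¹ • sh3Base U))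
    = x * g * helper57.cosetRep U ((x * g)⁻¹ • sh3Base U)
  rw [mul_inv_rev, mul_smul]
  group

lemma sh3_cocyc_cosetRep (g : G) (y : G ⧸ U) :
    (↑(helper57.cocyc U g y) : G) * (helper57.cosetRep U (g⁻¹ • y))⁻¹
      = (helper57.cosetRep U y)⁻¹ * g := by
  rw [helper57.coe_cocyc]
  group

lemma sh3_cocyc_coe (u : ↥U) :
    sh3U0 U * helper57.cocyc U (↑u) (sh3Base U) = u * sh3U0 U := by
  apply Subtype.ext
  show helper57.cosetRep U (sh3Base U)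
      * ((helper57.cosetRep U (sh3Base U))⁻¹ * ↑u
        * helper57.cosetRep U ((↑u : G)⁻¹ • sh3Base U))
    = ↑u * helper57.cosetRep U (sh3Base U)
  rw [sh3_inv_smul_base_of_mem]
  group

variable (W : Rep.{0} k ↥U)

/-- from inhomogeneous `Ind W`-valued 3-cochains to homogeneous `W`-valued cochains -/
def sh3ToHom (F : G × G × G → sh3Ind W) (x₀ x₁ x₂ x₃ : G) : W :=
  W.ρ (sh3Tw U x₀) (F (x₀⁻¹ * x₁, x₁⁻¹ * x₂, x₂⁻¹ * x₃) (x₀⁻¹ • sh3Base U))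

/-- from homogeneous `W`-valued 3-cochains to inhomogeneous `Ind W`-valued cochains -/
def sh3OfHom (φ : G → G → G → G → W) : G × G × G → sh3Ind W := fun g y =>
  φ (helper57.cosetRep U y)⁻¹ ((helper57.cosetRep U y)⁻¹ * g.1)
    ((helper57.cosetRep U y)⁻¹ * g.1 * g.2.1) ((helper57.cosetRep U y)⁻¹ * g.1 * g.2.1 * g.2.2)

/-- the same in degree 2 -/
def sh3OfHom2 (ψ : G → G → G → W) : G × G → sh3Ind W := fun g y =>
  ψ (helper57.cosetRep U y)⁻¹ ((helper57.cosetRep U y)⁻¹ * g.1)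
    ((helper57.cosetRep U y)⁻¹ * g.1 * g.2)

lemma sh3OfHom_apply (φ : G → G → G → G → W) (g₁ g₂ g₃ : G) (y : G ⧸ U) :
    sh3OfHom W φ (g₁, g₂, g₃) y = φ (helper57.cosetRep U y)⁻¹ ((helper57.cosetRep U y)⁻¹ * g₁)
      ((helper57.cosetRep U y)⁻¹ * g₁ * g₂) ((helper57.cosetRep U y)⁻¹ * g₁ * g₂ * g₃) := rfl

lemma sh3OfHom2_apply (ψ : G → G → G → W) (g₁ g₂ : G) (y : G ⧸ U) :
    sh3OfHom2 W ψ (g₁, g₂) y = ψ (helper57.cosetRep U y)⁻¹ ((helper57.cosetRep U y)⁻¹ * g₁)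
      ((helper57.cosetRep U y)⁻¹ * g₁ * g₂) := rfl

lemma sh3Ind_ρ_apply (g : G) (f : sh3Ind W) (y : G ⧸ U) :
    (sh3Ind W).ρ g f y = W.ρ (helper57.cocyc U g y) (f (g⁻¹ • y)) := rfl

theorem sh3OfHom_toHom (F : G × G × G → sh3Ind W) : sh3OfHom W (sh3ToHom W F) = F := by
  funext ⟨g₁, g₂, g₃⟩
  funext y
  rw [sh3OfHom_apply]
  unfold sh3ToHom
  rw [sh3Tw_inv_cosetRep, map_one, Module.End.one_apply]
  have e1 : ((helper57.cosetRep U y)⁻¹)⁻¹ * ((helper57.cosetRep U y)⁻¹ * g₁) = g₁ := by group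
  have e2 : ((helper57.cosetRep U y)⁻¹ * g₁)⁻¹ * ((helper57.cosetRep U y)⁻¹ * g₁ * g₂) = g₂ := by
    group
  have e3 : ((helper57.cosetRep U y)⁻¹ * g₁ * g₂)⁻¹
      * ((helper57.cosetRep U y)⁻¹ * g₁ * g₂ * g₃) = g₃ := by group
  have e4 : ((helper57.cosetRep U y)⁻¹)⁻¹ • sh3Base U = y := by
    rw [inv_inv, sh3_cosetRep_smul_base]
  rw [e1, e2, e3, e4]

theorem sh3ToHom_equivariant (F : G × G × G → sh3Ind W) (u : ↥U) (x₀ x₁ x₂ x₃ : G) :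
    sh3ToHom W F (↑u * x₀) (↑u * x₁) (↑u * x₂) (↑u * x₃)
      = W.ρ u (sh3ToHom W F x₀ x₁ x₂ x₃) := by
  unfold sh3ToHom
  rw [sh3Tw_mul, map_mul, Module.End.mul_apply]
  have e1 : ((u : G) * x₀)⁻¹ * (↑u * x₁) = x₀⁻¹ * x₁ := by group
  have e2 : ((u : G) * x₁)⁻¹ * (↑u * x₂) = x₁⁻¹ * x₂ := by group
  have e3 : ((u : G) * x₂)⁻¹ * (↑u * x₃) = x₂⁻¹ * x₃ := by group
  have e4 : ((u : G) * x₀)⁻¹ • sh3Base U = x₀⁻¹ • sh3Base U := by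
    rw [mul_inv_rev, mul_smul, sh3_inv_smul_base_of_mem]
  rw [e1, e2, e3, e4]

theorem sh3ToHom_cocycle (F : G × G × G → sh3Ind W) (hF : d₃₄ (sh3Ind W) F = 0)
    (x₀ x₁ x₂ x₃ x₄ : G) : hbd4 (sh3ToHom W F) x₀ x₁ x₂ x₃ x₄ = 0 := by
  have h := congrFun (congrFun hF (x₀⁻¹ * x₁, x₁⁻¹ * x₂, x₂⁻¹ * x₃, x₃⁻¹ * x₄))
    (x₀⁻¹ • sh3Base U)
  rw [d₃₄_apply] at h
  have h1 : x₀⁻¹ * x₁ * (x₁⁻¹ * x₂) = x₀⁻¹ * x₂ := by group
  have h2 : x₁⁻¹ * x₂ * (x₂⁻¹ * x₃) = x₁⁻¹ * x₃ := by group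
  have h3 : x₂⁻¹ * x₃ * (x₃⁻¹ * x₄) = x₂⁻¹ * x₄ := by group
  rw [h1, h2, h3] at h
  have h4 := congrArg (fun w : W => W.ρ (sh3Tw U x₀) w) h
  simp only [Pi.add_apply, Pi.sub_apply, map_add, map_sub] at h4
  rw [sh3Ind_ρ_apply, ← Module.End.mul_apply, ← map_mul, sh3Tw_cocyc] at h4
  have e5 : x₀ * (x₀⁻¹ * x₁) = x₁ := by group
  have e6 : (x₀⁻¹ * x₁)⁻¹ • x₀⁻¹ • sh3Base U = x₁⁻¹ • sh3Base U := by
    rw [← mul_smul]
    congr 1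
    group
  rw [e5, e6] at h4
  unfold hbd4 sh3ToHom
  exact h4.trans (map_zero (W.ρ (sh3Tw U x₀)))

/-- restriction of 3-cochains: `F ↦ ρ(u₀) F(u₁, u₂, u₃)(e)` -/
def sh3Res : (G × G × G → sh3Ind W) →ₗ[k] (↥U × ↥U × ↥U → W) where
  toFun F := fun u => W.ρ (sh3U0 U) (F (↑u.1, ↑u.2.1, ↑u.2.2) (sh3Base U))
  map_add' F F' := by
    funext u
    exact map_add (W.ρ (sh3U0 U)) _ _
  map_smul' c F := by
    funext u
    exact map_smul (W.ρ (sh3U0 U)) c _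

/-- restriction of 2-cochains -/
def sh3Res2 : (G × G → sh3Ind W) →ₗ[k] (↥U × ↥U → W) where
  toFun b := fun u => W.ρ (sh3U0 U) (b (↑u.1, ↑u.2) (sh3Base U))
  map_add' b b' := by
    funext u
    exact map_add (W.ρ (sh3U0 U)) _ _
  map_smul' c b := by
    funext u
    exact map_smul (W.ρ (sh3U0 U)) c _

lemma sh3Res_apply (F : G × G × G → sh3Ind W) (u₁ u₂ u₃ : ↥U) :
    sh3Res W F (u₁, u₂, u₃) = W.ρ (sh3U0 U) (F (↑u₁, ↑u₂, ↑u₃) (sh3Base U)) := rfl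

lemma sh3Res2_apply (b : G × G → sh3Ind W) (u₁ u₂ : ↥U) :
    sh3Res2 W b (u₁, u₂) = W.ρ (sh3U0 U) (b (↑u₁, ↑u₂) (sh3Base U)) := rfl

/-- evaluation at the base point is `U`-equivariant -/
lemma sh3_ev_equivariant (u : ↥U) (f : sh3Ind W) :
    W.ρ (sh3U0 U) ((sh3Ind W).ρ (↑u) f (sh3Base U)) = W.ρ u (W.ρ (sh3U0 U) (f (sh3Base U))) := by
  rw [sh3Ind_ρ_apply, sh3_inv_smul_base_of_mem, ← Module.End.mul_apply, ← map_mul,
    sh3_cocyc_coe, map_mul, Module.End.mul_apply]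

/-- restriction commutes with the differentials -/
theorem sh3Res_d₂₃ (b : G × G → sh3Ind W) :
    sh3Res W ((d₂₃ (sh3Ind W)).hom b) = (d₂₃ W).hom (sh3Res2 W b) := by
  funext ⟨u₁, u₂, u₃⟩
  rw [sh3Res_apply, d₂₃_hom_apply, d₂₃_hom_apply]
  show W.ρ (sh3U0 U) (((sh3Ind W).ρ (↑u₁) (b (↑u₂, ↑u₃)) - b (↑u₁ * ↑u₂, ↑u₃)
      + b (↑u₁, ↑u₂ * ↑u₃) - b (↑u₁, ↑u₂)) (sh3Base U))
    = W.ρ u₁ (sh3Res2 W b (u₂, u₃)) - sh3Res2 W b (u₁ * u₂, u₃)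
      + sh3Res2 W b (u₁, u₂ * u₃) - sh3Res2 W b (u₁, u₂)
  simp only [sh3Res2_apply, Subgroup.coe_mul]
  rw [← sh3_ev_equivariant]
  exact (map_sub _ _ _).trans (congrArg₂ _ ((map_add _ _ _).trans
    (congrArg₂ _ (map_sub _ _ _) rfl)) rfl)

theorem sh3Res_d₃₄ (F : G × G × G → sh3Ind W) (hF : d₃₄ (sh3Ind W) F = 0) :
    d₃₄ W (sh3Res W F) = 0 := by
  funext ⟨u₁, u₂, u₃, u₄⟩
  have h := congrFun (congrFun hF (↑u₁, ↑u₂, ↑u₃, ↑u₄)) (sh3Base U)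
  rw [d₃₄_apply] at h
  have h4 := congrArg (fun w : W => W.ρ (sh3U0 U) w) h
  simp only [Pi.add_apply, Pi.sub_apply, map_add, map_sub] at h4
  rw [sh3_ev_equivariant] at h4
  rw [d₃₄_apply]
  simp only [sh3Res_apply, Subgroup.coe_mul]
  exact h4.trans (map_zero (W.ρ (sh3U0 U)))

/-- the homogeneous form restricted to `U` -/
theorem sh3ToHom_coe (F : G × G × G → sh3Ind W) (u₀ u₁ u₂ u₃ : ↥U) :
    sh3ToHom W F ↑u₀ ↑u₁ ↑u₂ ↑u₃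
      = W.ρ u₀ (sh3Res W F (u₀⁻¹ * u₁, u₁⁻¹ * u₂, u₂⁻¹ * u₃)) := by
  unfold sh3ToHom
  rw [sh3Tw_coe, map_mul, Module.End.mul_apply, sh3_inv_smul_base_of_mem, sh3Res_apply]
  simp only [Subgroup.coe_mul, Subgroup.coe_inv]

/-- `d₂₃` in homogeneous terms -/
theorem d₂₃_sh3OfHom2 (ψ : G → G → G → W)
    (hψ : ∀ (u : ↥U) (x₀ x₁ x₂ : G), ψ (↑u * x₀) (↑u * x₁) (↑u * x₂) = W.ρ u (ψ x₀ x₁ x₂)) :
    (d₂₃ (sh3Ind W)).hom (sh3OfHom2 W ψ) = sh3OfHom W (hbd3 ψ) := by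
  funext ⟨g₁, g₂, g₃⟩
  funext y
  rw [d₂₃_hom_apply, sh3OfHom_apply]
  show (sh3Ind W).ρ g₁ (sh3OfHom2 W ψ (g₂, g₃)) y - sh3OfHom2 W ψ (g₁ * g₂, g₃) y
      + sh3OfHom2 W ψ (g₁, g₂ * g₃) y - sh3OfHom2 W ψ (g₁, g₂) y = _
  rw [sh3Ind_ρ_apply]
  simp only [sh3OfHom2_apply]
  rw [← hψ, sh3_cocyc_cosetRep]
  unfold hbd3
  have e1 : (↑(helper57.cocyc U g₁ y) : G) * ((helper57.cosetRep U (g₁⁻¹ • y))⁻¹ * g₂)
      = (helper57.cosetRep U y)⁻¹ * g₁ * g₂ := by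
    rw [← mul_assoc, sh3_cocyc_cosetRep]
  have e2 : (↑(helper57.cocyc U g₁ y) : G) * ((helper57.cosetRep U (g₁⁻¹ • y))⁻¹ * g₂ * g₃)
      = (helper57.cosetRep U y)⁻¹ * g₁ * g₂ * g₃ := by
    rw [← mul_assoc, ← mul_assoc, sh3_cocyc_cosetRep]
  rw [e1, e2]
  simp only [mul_assoc]

/-- `d₃₄` in homogeneous terms -/
theorem d₃₄_sh3OfHom (φ : G → G → G → G → W)
    (hφ : ∀ (u : ↥U) (x₀ x₁ x₂ x₃ : G),
      φ (↑u * x₀) (↑u * x₁) (↑u * x₂) (↑u * x₃) = W.ρ u (φ x₀ x₁ x₂ x₃))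
    (g₁ g₂ g₃ g₄ : G) (y : G ⧸ U) :
    d₃₄ (sh3Ind W) (sh3OfHom W φ) (g₁, g₂, g₃, g₄) y
      = hbd4 φ (helper57.cosetRep U y)⁻¹ ((helper57.cosetRep U y)⁻¹ * g₁)
        ((helper57.cosetRep U y)⁻¹ * g₁ * g₂) ((helper57.cosetRep U y)⁻¹ * g₁ * g₂ * g₃)
        ((helper57.cosetRep U y)⁻¹ * g₁ * g₂ * g₃ * g₄) := by
  rw [d₃₄_apply]
  show (sh3Ind W).ρ g₁ (sh3OfHom W φ (g₂, g₃, g₄)) y - sh3OfHom W φ (g₁ * g₂, g₃, g₄) y
      + sh3OfHom W φ (g₁, g₂ * g₃, g₄) y - sh3OfHom W φ (g₁, g₂, g₃ * g₄) y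
      + sh3OfHom W φ (g₁, g₂, g₃) y = _
  rw [sh3Ind_ρ_apply]
  simp only [sh3OfHom_apply]
  rw [← hφ, sh3_cocyc_cosetRep]
  unfold hbd4
  have e1 : (↑(helper57.cocyc U g₁ y) : G) * ((helper57.cosetRep U (g₁⁻¹ • y))⁻¹ * g₂)
      = (helper57.cosetRep U y)⁻¹ * g₁ * g₂ := by
    rw [← mul_assoc, sh3_cocyc_cosetRep]
  have e2 : (↑(helper57.cocyc U g₁ y) : G) * ((helper57.cosetRep U (g₁⁻¹ • y))⁻¹ * g₂ * g₃)
      = (helper57.cosetRep U y)⁻¹ * g₁ * g₂ * g₃ := by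
    rw [← mul_assoc, ← mul_assoc, sh3_cocyc_cosetRep]
  have e3 : (↑(helper57.cocyc U g₁ y) : G)
      * ((helper57.cosetRep U (g₁⁻¹ • y))⁻¹ * g₂ * g₃ * g₄)
      = (helper57.cosetRep U y)⁻¹ * g₁ * g₂ * g₃ * g₄ := by
    rw [← mul_assoc, ← mul_assoc, ← mul_assoc, sh3_cocyc_cosetRep]
  rw [e1, e2, e3]
  simp only [mul_assoc]

/-! ## Pull-back along the retraction -/

/-- pull-back of (the homogeneous form of) a 2-cochain of `U` -/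
def sh3Pull2 (r : G → ↥U) (β : ↥U × ↥U → W) (x₀ x₁ x₂ : G) : W :=
  W.ρ (r x₀) (β ((r x₀)⁻¹ * r x₁, (r x₁)⁻¹ * r x₂))

/-- pull-back of (the homogeneous form of) a 3-cochain of `U` -/
def sh3Pull3 (r : G → ↥U) (f : ↥U × ↥U × ↥U → W) (x₀ x₁ x₂ x₃ : G) : W :=
  W.ρ (r x₀) (f ((r x₀)⁻¹ * r x₁, (r x₁)⁻¹ * r x₂, (r x₂)⁻¹ * r x₃))

theorem hbd3_sh3Pull2 (r : G → ↥U) (β : ↥U × ↥U → W) (x₀ x₁ x₂ x₃ : G) :
    hbd3 (sh3Pull2 W r β) x₀ x₁ x₂ x₃ = sh3Pull3 W r ((d₂₃ W).hom β) x₀ x₁ x₂ x₃ := by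
  unfold hbd3 sh3Pull2 sh3Pull3
  rw [d₂₃_hom_apply]
  have h1 : (r x₀)⁻¹ * r x₁ * ((r x₁)⁻¹ * r x₂) = (r x₀)⁻¹ * r x₂ := by group
  have h2 : (r x₁)⁻¹ * r x₂ * ((r x₂)⁻¹ * r x₃) = (r x₁)⁻¹ * r x₃ := by group
  simp only [h1, h2, map_add, map_sub]
  rw [← Module.End.mul_apply, ← map_mul, mul_inv_cancel_left]

theorem hbd4_sh3Pull3 (r : G → ↥U) (f : ↥U × ↥U × ↥U → W) (x₀ x₁ x₂ x₃ x₄ : G) :
    hbd4 (sh3Pull3 W r f) x₀ x₁ x₂ x₃ x₄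
      = W.ρ (r x₀) (d₃₄ W f ((r x₀)⁻¹ * r x₁, (r x₁)⁻¹ * r x₂, (r x₂)⁻¹ * r x₃,
          (r x₃)⁻¹ * r x₄)) := by
  unfold hbd4 sh3Pull3
  rw [d₃₄_apply]
  have h1 : (r x₀)⁻¹ * r x₁ * ((r x₁)⁻¹ * r x₂) = (r x₀)⁻¹ * r x₂ := by group
  have h2 : (r x₁)⁻¹ * r x₂ * ((r x₂)⁻¹ * r x₃) = (r x₁)⁻¹ * r x₃ := by group
  have h3 : (r x₂)⁻¹ * r x₃ * ((r x₃)⁻¹ * r x₄) = (r x₂)⁻¹ * r x₄ := by group
  simp only [h1, h2, h3, map_add, map_sub]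
  rw [← Module.End.mul_apply, ← map_mul, mul_inv_cancel_left]

theorem sh3Pull2_equivariant (r : G → ↥U) (hr : ∀ (u : ↥U) (x : G), r (↑u * x) = u * r x)
    (β : ↥U × ↥U → W) (u : ↥U) (x₀ x₁ x₂ : G) :
    sh3Pull2 W r β (↑u * x₀) (↑u * x₁) (↑u * x₂) = W.ρ u (sh3Pull2 W r β x₀ x₁ x₂) := by
  unfold sh3Pull2
  rw [hr, hr, hr, map_mul, Module.End.mul_apply]
  have e1 : (u * r x₀)⁻¹ * (u * r x₁) = (r x₀)⁻¹ * r x₁ := by group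
  have e2 : (u * r x₁)⁻¹ * (u * r x₂) = (r x₁)⁻¹ * r x₂ := by group
  rw [e1, e2]

theorem sh3Pull3_equivariant (r : G → ↥U) (hr : ∀ (u : ↥U) (x : G), r (↑u * x) = u * r x)
    (f : ↥U × ↥U × ↥U → W) (u : ↥U) (x₀ x₁ x₂ x₃ : G) :
    sh3Pull3 W r f (↑u * x₀) (↑u * x₁) (↑u * x₂) (↑u * x₃)
      = W.ρ u (sh3Pull3 W r f x₀ x₁ x₂ x₃) := by
  unfold sh3Pull3
  rw [hr, hr, hr, hr, map_mul, Module.End.mul_apply]
  have e1 : (u * r x₀)⁻¹ * (u * r x₁) = (r x₀)⁻¹ * r x₁ := by group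
  have e2 : (u * r x₁)⁻¹ * (u * r x₂) = (r x₁)⁻¹ * r x₂ := by group
  have e3 : (u * r x₂)⁻¹ * (u * r x₃) = (r x₂)⁻¹ * r x₃ := by group
  rw [e1, e2, e3]

theorem hprism_equivariant (φ : G → G → G → G → W)
    (hφ : ∀ (u : ↥U) (x₀ x₁ x₂ x₃ : G),
      φ (↑u * x₀) (↑u * x₁) (↑u * x₂) (↑u * x₃) = W.ρ u (φ x₀ x₁ x₂ x₃))
    (r : G → ↥U) (hr : ∀ (u : ↥U) (x : G), r (↑u * x) = u * r x) (u : ↥U) (x₀ x₁ x₂ : G) :
    hprism φ (fun x => (r x : G)) (↑u * x₀) (↑u * x₁) (↑u * x₂)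
      = W.ρ u (hprism φ (fun x => (r x : G)) x₀ x₁ x₂) := by
  unfold hprism
  simp only [hr, Subgroup.coe_mul, hφ, map_add, map_sub]

/-- the primitive of the injectivity statement, in homogeneous form -/
def sh3Prim (F : G × G × G → sh3Ind W) (β : ↥U × ↥U → W) (r : G → ↥U) (x₀ x₁ x₂ : G) : W :=
  sh3Pull2 W r β x₀ x₁ x₂ - hprism (sh3ToHom W F) (fun x => (r x : G)) x₀ x₁ x₂

theorem sh3Prim_equivariant (F : G × G × G → sh3Ind W) (β : ↥U × ↥U → W) (r : G → ↥U)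
    (hr : ∀ (u : ↥U) (x : G), r (↑u * x) = u * r x) (u : ↥U) (x₀ x₁ x₂ : G) :
    sh3Prim W F β r (↑u * x₀) (↑u * x₁) (↑u * x₂) = W.ρ u (sh3Prim W F β r x₀ x₁ x₂) := by
  unfold sh3Prim
  rw [sh3Pull2_equivariant W r hr, hprism_equivariant W _ (sh3ToHom_equivariant W F) r hr,
    map_sub]

theorem hbd3_sh3Prim (F : G × G × G → sh3Ind W) (hF : d₃₄ (sh3Ind W) F = 0)
    (β : ↥U × ↥U → W) (hβ : (d₂₃ W).hom β = sh3Res W F) (r : G → ↥U) :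
    hbd3 (sh3Prim W F β r) = sh3ToHom W F := by
  funext x₀ x₁ x₂ x₃
  have h1 := hprism_spec (sh3ToHom W F) (sh3ToHom_cocycle W F hF) (fun x => (r x : G))
    x₀ x₁ x₂ x₃
  have h2 := hbd3_sh3Pull2 W r β x₀ x₁ x₂ x₃
  rw [hβ] at h2
  have h3 : sh3ToHom W F ↑(r x₀) ↑(r x₁) ↑(r x₂) ↑(r x₃)
      = sh3Pull3 W r (sh3Res W F) x₀ x₁ x₂ x₃ := sh3ToHom_coe W F _ _ _ _
  have h4 : hbd3 (sh3Prim W F β r) x₀ x₁ x₂ x₃
      = hbd3 (sh3Pull2 W r β) x₀ x₁ x₂ x₃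
        - hbd3 (hprism (sh3ToHom W F) (fun x => (r x : G))) x₀ x₁ x₂ x₃ := by
    unfold hbd3 sh3Prim
    abel
  rw [h4, h1, h2, h3]
  abel

/-- **Injectivity, cochain level.** -/
theorem sh3_inj_core (F : G × G × G → sh3Ind W) (hF : d₃₄ (sh3Ind W) F = 0)
    (β : ↥U × ↥U → W) (hβ : (d₂₃ W).hom β = sh3Res W F) (r : G → ↥U)
    (hr : ∀ (u : ↥U) (x : G), r (↑u * x) = u * r x) :
    (d₂₃ (sh3Ind W)).hom (sh3OfHom2 W (sh3Prim W F β r)) = F := by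
  rw [d₂₃_sh3OfHom2 W _ (sh3Prim_equivariant W F β r hr), hbd3_sh3Prim W F hF β hβ r,
    sh3OfHom_toHom]

/-- **Surjectivity, cochain level.** -/
theorem sh3_surj_core (f : ↥U × ↥U × ↥U → W) (hf : d₃₄ W f = 0) (r : G → ↥U)
    (hr : ∀ (u : ↥U) (x : G), r (↑u * x) = u * r x) (hr1 : ∀ u : ↥U, r ↑u = u) :
    d₃₄ (sh3Ind W) (sh3OfHom W (sh3Pull3 W r f)) = 0 ∧
      sh3Res W (sh3OfHom W (sh3Pull3 W r f)) = f := by
  constructor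
  · funext ⟨g₁, g₂, g₃, g₄⟩
    funext y
    rw [d₃₄_sh3OfHom W _ (sh3Pull3_equivariant W r hr f), hbd4_sh3Pull3, hf]
    exact map_zero _
  · funext ⟨u₁, u₂, u₃⟩
    rw [sh3Res_apply, sh3OfHom_apply, ← sh3Pull3_equivariant W r hr f]
    have e0 : ((sh3U0 U : ↥U) : G) = helper57.cosetRep U (sh3Base U) := rfl
    have e1 : ((sh3U0 U : ↥U) : G) * (helper57.cosetRep U (sh3Base U))⁻¹ = ((1 : ↥U) : G) := by
      rw [e0, mul_inv_cancel]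
      rfl
    have e2 : ((sh3U0 U : ↥U) : G) * ((helper57.cosetRep U (sh3Base U))⁻¹ * ↑u₁) = (u₁ : G) := by
      rw [e0, mul_inv_cancel_left]
    have e3 : ((sh3U0 U : ↥U) : G) * ((helper57.cosetRep U (sh3Base U))⁻¹ * ↑u₁ * ↑u₂)
        = ((u₁ * u₂ : ↥U) : G) := by
      rw [e0, mul_assoc, mul_inv_cancel_left]
      rfl
    have e4 : ((sh3U0 U : ↥U) : G) * ((helper57.cosetRep U (sh3Base U))⁻¹ * ↑u₁ * ↑u₂ * ↑u₃)
        = ((u₁ * u₂ * u₃ : ↥U) : G) := by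
      rw [e0, mul_assoc, mul_assoc, mul_inv_cancel_left, ← mul_assoc]
      rfl
    rw [e1, e2, e3, e4]
    unfold sh3Pull3
    rw [hr1, hr1, hr1, hr1, map_one, Module.End.one_apply]
    have f1 : (1 : ↥U)⁻¹ * u₁ = u₁ := by group
    have f2 : u₁⁻¹ * (u₁ * u₂) = u₂ := by group
    have f3 : (u₁ * u₂)⁻¹ * (u₁ * u₂ * u₃) = u₃ := by group
    rw [f1, f2, f3]

end Dict

end Fermat.Agent.P1.helper71
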