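import Fermat.Agent.P1.helper71_ECShap3Core

/-!
# P1 / module EC, package SHAP, degree 3 (helper71): level control and the isomorphism

`sh3Equiv : H³(G, Ind W) ≃ₗ H³(U, W)` for level-constant cochains (`W` smooth), from the
cochain-level statements `sh3_inj_core`, `sh3_surj_core` and the fact that all constructions
preserve invariance under a normal subgroup `N ≤ U` acting trivially on `W`.
-/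

set_option autoImplicit false
set_option linter.unusedSectionVars false
set_option linter.style.haveILetI false
set_option linter.unusedVariables false

open groupCohomology

noncomputable section

namespace Fermat.Agent.P1.helper71

open Fermat.Agent.S55

section Inv

variable {G : Type} [Group G] {A : Type*}

/-- invariance under right translations by `N` in every variable -/
def sh3Inv3 (N : Subgroup G) (ψ : G → G → G → A) : Prop :=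
  ∀ x₀ x₁ x₂ : G, ∀ n₀ ∈ N, ∀ n₁ ∈ N, ∀ n₂ ∈ N, ψ (x₀ * n₀) (x₁ * n₁) (x₂ * n₂) = ψ x₀ x₁ x₂

/-- invariance under right translations by `N` in every variable -/
def sh3Inv4 (N : Subgroup G) (φ : G → G → G → G → A) : Prop :=
  ∀ x₀ x₁ x₂ x₃ : G, ∀ n₀ ∈ N, ∀ n₁ ∈ N, ∀ n₂ ∈ N, ∀ n₃ ∈ N,
    φ (x₀ * n₀) (x₁ * n₁) (x₂ * n₂) (x₃ * n₃) = φ x₀ x₁ x₂ x₃

/-- quotients of translates -/
lemma sh3_inv_mul_level (N : Subgroup G) [hN : N.Normal] (a b n m : G) (hn : n ∈ N)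
    (hm : m ∈ N) : ∃ s ∈ N, (a * n)⁻¹ * (b * m) = a⁻¹ * b * s := by
  refine ⟨(a⁻¹ * b)⁻¹ * n⁻¹ * (a⁻¹ * b) * m, ?_, by group⟩
  refine N.mul_mem ?_ hm
  have := hN.conj_mem n⁻¹ (N.inv_mem hn) (a⁻¹ * b)⁻¹
  simpa using this

/-- products of translates -/
lemma sh3_mul_level (N : Subgroup G) [hN : N.Normal] (a b n m : G) (hn : n ∈ N)
    (hm : m ∈ N) : ∃ s ∈ N, a * n * (b * m) = a * b * s := by
  refine ⟨b⁻¹ * n * b * m, ?_, by group⟩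
  refine N.mul_mem ?_ hm
  have := hN.conj_mem n hn b⁻¹
  simpa using this

theorem hprism_inv (N : Subgroup G) {B : Type*} [AddCommGroup B] (φ : G → G → G → G → B)
    (hφ : sh3Inv4 N φ) (r : G → G) (hr : ∀ x : G, ∀ n ∈ N, ∃ n' ∈ N, r (x * n) = r x * n') :
    sh3Inv3 N (hprism φ r) := by
  intro x₀ x₁ x₂ n₀ hn₀ n₁ hn₁ n₂ hn₂
  obtain ⟨m₀, hm₀, e₀⟩ := hr x₀ n₀ hn₀
  obtain ⟨m₁, hm₁, e₁⟩ := hr x₁ n₁ hn₁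
  obtain ⟨m₂, hm₂, e₂⟩ := hr x₂ n₂ hn₂
  unfold hprism
  rw [e₀, e₁, e₂, hφ _ _ _ _ n₀ hn₀ m₀ hm₀ m₁ hm₁ m₂ hm₂,
    hφ _ _ _ _ n₀ hn₀ n₁ hn₁ m₁ hm₁ m₂ hm₂, hφ _ _ _ _ n₀ hn₀ n₁ hn₁ n₂ hn₂ m₂ hm₂]

end Inv

section Lev

variable {k : Type} [Field k] {G : Type} [Group G] {U : Subgroup G} (W : Rep.{0} k ↥U)

lemma sh3Tw_level (N : Subgroup G) [hN : N.Normal] (hle : N ≤ U) (x n : G) (hn : n ∈ N) :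
    ∃ n' : ↥U, (n' : G) ∈ N ∧ sh3Tw U (x * n) = sh3Tw U x * n' := by
  have h1 : (x * n)⁻¹ • sh3Base U = x⁻¹ • sh3Base U := by
    rw [mul_inv_rev, mul_smul, helper57.smul_coset_eq_of_mem hle (N.inv_mem hn)]
  have h2 : (helper57.cosetRep U (x⁻¹ • sh3Base U))⁻¹ * n
      * helper57.cosetRep U (x⁻¹ • sh3Base U) ∈ N := by
    have := hN.conj_mem n hn (helper57.cosetRep U (x⁻¹ • sh3Base U))⁻¹
    simpa using this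
  obtain ⟨v, hv⟩ : ∃ v : ↥U, (v : G) = (helper57.cosetRep U (x⁻¹ • sh3Base U))⁻¹ * n
      * helper57.cosetRep U (x⁻¹ • sh3Base U) := ⟨⟨_, hle h2⟩, rfl⟩
  refine ⟨v, by rw [hv]; exact h2, ?_⟩
  apply Subtype.ext
  show x * n * helper57.cosetRep U ((x * n)⁻¹ • sh3Base U)
    = x * helper57.cosetRep U (x⁻¹ • sh3Base U) * ↑v
  rw [h1, hv]
  group

theorem sh3ToHom_inv (N : Subgroup G) [hN : N.Normal] (hle : N ≤ U)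
    (hW : ∀ u : ↥U, (u : G) ∈ N → ∀ w : W, W.ρ u w = w) (F : G × G × G → sh3Ind W)
    (hF : ∀ g₁ g₂ g₃ : G, ∀ s₁ ∈ N, ∀ s₂ ∈ N, ∀ s₃ ∈ N,
      F (g₁ * s₁, g₂ * s₂, g₃ * s₃) = F (g₁, g₂, g₃)) :
    sh3Inv4 N (sh3ToHom W F) := by
  intro x₀ x₁ x₂ x₃ n₀ hn₀ n₁ hn₁ n₂ hn₂ n₃ hn₃
  obtain ⟨v, hv, ev⟩ := sh3Tw_level N hle x₀ n₀ hn₀
  obtain ⟨s₁, hs₁, e₁⟩ := sh3_inv_mul_level N x₀ x₁ n₀ n₁ hn₀ hn₁
  obtain ⟨s₂, hs₂, e₂⟩ := sh3_inv_mul_level N x₁ x₂ n₁ n₂ hn₁ hn₂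
  obtain ⟨s₃, hs₃, e₃⟩ := sh3_inv_mul_level N x₂ x₃ n₂ n₃ hn₂ hn₃
  have h1 : (x₀ * n₀)⁻¹ • sh3Base U = x₀⁻¹ • sh3Base U := by
    rw [mul_inv_rev, mul_smul, helper57.smul_coset_eq_of_mem hle (N.inv_mem hn₀)]
  unfold sh3ToHom
  rw [ev, e₁, e₂, e₃, h1, hF _ _ _ s₁ hs₁ s₂ hs₂ s₃ hs₃, map_mul, Module.End.mul_apply,
    hW v hv]

/-- the retraction in the subgroup `U`, with levels -/
lemma sh3_retr_inv_mul (N : Subgroup G) [hN : N.Normal] (hle : N ≤ U) (r : G → ↥U)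
    (hr : ∀ (u : ↥U) (x : G), r (↑u * x) = u * r x) (x y n m : G) (hn : n ∈ N) (hm : m ∈ N) :
    ∃ s : ↥U, (s : G) ∈ N ∧ (r (x * n))⁻¹ * r (y * m) = (r x)⁻¹ * r y * s := by
  obtain ⟨a, ha, ea⟩ := sh3Retr_level r hr N hle x n hn
  obtain ⟨b, hb, eb⟩ := sh3Retr_level r hr N hle y m hm
  obtain ⟨s, hs, es⟩ := sh3_inv_mul_level N (r x : G) (r y : G) a b ha hb
  have hsU : s ∈ U := hle hs
  refine ⟨⟨s, hsU⟩, hs, ?_⟩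
  apply Subtype.ext
  rw [ea, eb]
  simpa using es

theorem sh3Pull2_inv (N : Subgroup G) [hN : N.Normal] (hle : N ≤ U)
    (hW : ∀ u : ↥U, (u : G) ∈ N → ∀ w : W, W.ρ u w = w) (r : G → ↥U)
    (hr : ∀ (u : ↥U) (x : G), r (↑u * x) = u * r x) (β : ↥U × ↥U → W)
    (hβ : ∀ u₁ u₂ s₁ s₂ : ↥U, (s₁ : G) ∈ N → (s₂ : G) ∈ N → β (u₁ * s₁, u₂ * s₂) = β (u₁, u₂)) :
    sh3Inv3 N (sh3Pull2 W r β) := by
  intro x₀ x₁ x₂ n₀ hn₀ n₁ hn₁ n₂ hn₂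
  obtain ⟨v, hv, ev⟩ := sh3Retr_level r hr N hle x₀ n₀ hn₀
  obtain ⟨s₁, hs₁, e₁⟩ := sh3_retr_inv_mul N hle r hr x₀ x₁ n₀ n₁ hn₀ hn₁
  obtain ⟨s₂, hs₂, e₂⟩ := sh3_retr_inv_mul N hle r hr x₁ x₂ n₁ n₂ hn₁ hn₂
  unfold sh3Pull2
  rw [e₁, e₂, hβ _ _ s₁ s₂ hs₁ hs₂, ev, map_mul, Module.End.mul_apply, hW v hv]

theorem sh3Pull3_inv (N : Subgroup G) [hN : N.Normal] (hle : N ≤ U)
    (hW : ∀ u : ↥U, (u : G) ∈ N → ∀ w : W, W.ρ u w = w) (r : G → ↥U)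
    (hr : ∀ (u : ↥U) (x : G), r (↑u * x) = u * r x) (f : ↥U × ↥U × ↥U → W)
    (hf : ∀ u₁ u₂ u₃ s₁ s₂ s₃ : ↥U, (s₁ : G) ∈ N → (s₂ : G) ∈ N → (s₃ : G) ∈ N →
      f (u₁ * s₁, u₂ * s₂, u₃ * s₃) = f (u₁, u₂, u₃)) :
    sh3Inv4 N (sh3Pull3 W r f) := by
  intro x₀ x₁ x₂ x₃ n₀ hn₀ n₁ hn₁ n₂ hn₂ n₃ hn₃
  obtain ⟨v, hv, ev⟩ := sh3Retr_level r hr N hle x₀ n₀ hn₀
  obtain ⟨s₁, hs₁, e₁⟩ := sh3_retr_inv_mul N hle r hr x₀ x₁ n₀ n₁ hn₀ hn₁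
  obtain ⟨s₂, hs₂, e₂⟩ := sh3_retr_inv_mul N hle r hr x₁ x₂ n₁ n₂ hn₁ hn₂
  obtain ⟨s₃, hs₃, e₃⟩ := sh3_retr_inv_mul N hle r hr x₂ x₃ n₂ n₃ hn₂ hn₃
  unfold sh3Pull3
  rw [e₁, e₂, e₃, hf _ _ _ s₁ s₂ s₃ hs₁ hs₂ hs₃, ev, map_mul, Module.End.mul_apply, hW v hv]

theorem sh3Prim_inv (N : Subgroup G) [hN : N.Normal] (hle : N ≤ U)
    (hW : ∀ u : ↥U, (u : G) ∈ N → ∀ w : W, W.ρ u w = w) (r : G → ↥U)
    (hr : ∀ (u : ↥U) (x : G), r (↑u * x) = u * r x) (F : G × G × G → sh3Ind W)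
    (hF : ∀ g₁ g₂ g₃ : G, ∀ s₁ ∈ N, ∀ s₂ ∈ N, ∀ s₃ ∈ N,
      F (g₁ * s₁, g₂ * s₂, g₃ * s₃) = F (g₁, g₂, g₃)) (β : ↥U × ↥U → W)
    (hβ : ∀ u₁ u₂ s₁ s₂ : ↥U, (s₁ : G) ∈ N → (s₂ : G) ∈ N → β (u₁ * s₁, u₂ * s₂) = β (u₁, u₂)) :
    sh3Inv3 N (sh3Prim W F β r) := by
  have h1 := sh3Pull2_inv W N hle hW r hr β hβ
  have h2 : sh3Inv3 N (hprism (sh3ToHom W F) (fun x => (r x : G))) := by
    refine hprism_inv N _ (sh3ToHom_inv W N hle hW F hF) _ ?_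
    intro x n hn
    obtain ⟨v, hv, ev⟩ := sh3Retr_level r hr N hle x n hn
    exact ⟨v, hv, by show ((r (x * n) : ↥U) : G) = ↑(r x) * ↑v; rw [ev]; rfl⟩
  intro x₀ x₁ x₂ n₀ hn₀ n₁ hn₁ n₂ hn₂
  unfold sh3Prim
  rw [h1 _ _ _ n₀ hn₀ n₁ hn₁ n₂ hn₂, h2 _ _ _ n₀ hn₀ n₁ hn₁ n₂ hn₂]

theorem sh3OfHom2_lev (N : Subgroup G) [hN : N.Normal] (ψ : G → G → G → W)
    (hψ : sh3Inv3 N ψ) (g₁ g₂ s₁ s₂ : G) (hs₁ : s₁ ∈ N) (hs₂ : s₂ ∈ N) :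
    sh3OfHom2 W ψ (g₁ * s₁, g₂ * s₂) = sh3OfHom2 W ψ (g₁, g₂) := by
  funext y
  rw [sh3OfHom2_apply, sh3OfHom2_apply]
  obtain ⟨t, ht, et⟩ := sh3_mul_level N ((helper57.cosetRep U y)⁻¹ * g₁) g₂ s₁ s₂ hs₁ hs₂
  have e1 : (helper57.cosetRep U y)⁻¹ * (g₁ * s₁) = (helper57.cosetRep U y)⁻¹ * g₁ * s₁ := by
    group
  have e0 : (helper57.cosetRep U y)⁻¹ = (helper57.cosetRep U y)⁻¹ * 1 := by group
  rw [e1, et]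
  conv_lhs => arg 1; rw [e0]
  exact hψ _ _ _ 1 N.one_mem s₁ hs₁ t ht

theorem sh3OfHom_lev (N : Subgroup G) [hN : N.Normal] (φ : G → G → G → G → W)
    (hφ : sh3Inv4 N φ) (g₁ g₂ g₃ s₁ s₂ s₃ : G) (hs₁ : s₁ ∈ N) (hs₂ : s₂ ∈ N) (hs₃ : s₃ ∈ N) :
    sh3OfHom W φ (g₁ * s₁, g₂ * s₂, g₃ * s₃) = sh3OfHom W φ (g₁, g₂, g₃) := by
  funext y
  rw [sh3OfHom_apply, sh3OfHom_apply]
  obtain ⟨t, ht, et⟩ := sh3_mul_level N ((helper57.cosetRep U y)⁻¹ * g₁) g₂ s₁ s₂ hs₁ hs₂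
  obtain ⟨t', ht', et'⟩ := sh3_mul_level N ((helper57.cosetRep U y)⁻¹ * g₁ * g₂) g₃ t s₃ ht hs₃
  have e1 : (helper57.cosetRep U y)⁻¹ * (g₁ * s₁) = (helper57.cosetRep U y)⁻¹ * g₁ * s₁ := by
    group
  have e0 : (helper57.cosetRep U y)⁻¹ = (helper57.cosetRep U y)⁻¹ * 1 := by group
  rw [e1, et, et']
  conv_lhs => arg 1; rw [e0]
  exact hφ _ _ _ _ 1 N.one_mem s₁ hs₁ t ht t' ht'

end Lev

end Fermat.Agent.P1.helper71
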