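import Mathlib

/-!
# P1 / LSO-KUMA (helper71): `ℚ_pˣ / (ℚ_pˣ)^p` has order at most `p²` for odd `p`
-/

set_option autoImplicit false
set_option linter.unusedSectionVars false
set_option linter.style.haveILetI false
set_option linter.unusedVariables false

open Polynomial

namespace Fermat.Agent.P1.helper71

section Algebra

variable {R : Type*} [CommRing R]

/-- `(1 + π)^j ≡ 1 + j π mod π²` -/
theorem kumA_one_add_pow (π : R) (j : ℕ) : π ^ 2 ∣ (1 + π) ^ j - (1 + (j : R) * π) := by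
  induction j with
  | zero => simp
  | succ j ih =>
    have h : (1 + π) ^ (j + 1) - (1 + ((j + 1 : ℕ) : R) * π)
        = (1 + π) * ((1 + π) ^ j - (1 + (j : R) * π)) + π ^ 2 * (j : R) := by
      push_cast
      ring
    rw [h]
    exact dvd_add (Dvd.dvd.mul_left ih _) (dvd_mul_right _ _)

/-- `(1 + π b)^n ≡ 1 + π² b mod π³` if `n = π` in `R`, `n ≥ 3` and `π ∣ binom n 2` -/
theorem kumA_pow_congr (n : ℕ) (π b : R) (h3 : 3 ≤ n) (hn : (n : R) = π)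
    (hc : π ∣ ((n.choose 2 : ℕ) : R)) :
    π ^ 3 ∣ (1 + π * b) ^ n - (1 + π ^ 2 * b) := by
  obtain ⟨k, rfl⟩ := Nat.exists_eq_add_of_le h3
  have hsum : (1 + π * b) ^ (3 + k) = ∑ m ∈ Finset.range (k + 2),
      (π * b) ^ (m + 2) * (((3 + k).choose (m + 2) : ℕ) : R) + (1 + π ^ 2 * b) := by
    rw [add_comm (1 : R) (π * b), add_pow]
    have hk : 3 + k + 1 = k + 2 + 1 + 1 := by omega
    rw [hk, Finset.sum_range_succ', Finset.sum_range_succ']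
    simp only [one_pow, mul_one, pow_zero, Nat.choose_zero_right, Nat.cast_one, zero_add, pow_one,
      Nat.choose_one_right]
    rw [hn]
    ring
  rw [hsum, add_sub_cancel_right]
  refine Finset.dvd_sum fun m _ => ?_
  rcases Nat.eq_zero_or_pos m with rfl | hm
  · obtain ⟨c, hc⟩ := hc
    rw [zero_add, hc]
    exact ⟨b ^ 2 * c, by ring⟩
  · obtain ⟨m', rfl⟩ : ∃ m', m = m' + 1 := ⟨m - 1, by omega⟩
    refine Dvd.dvd.mul_right ?_ _
    rw [mul_pow]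
    refine Dvd.dvd.mul_right ?_ _
    exact pow_dvd_pow π (by omega)

end Algebra

section Padic

variable (p : ℕ) [hp : Fact p.Prime]

/-- the `(p - 1)`-st power of a unit of `ℤ_p` is `≡ 1 mod p` -/
theorem kumA_dvd_pow_sub_one (u : ℤ_[p]) (hu : IsUnit u) : (p : ℤ_[p]) ∣ u ^ (p - 1) - 1 := by
  have hker : u ^ (p - 1) - 1 ∈ RingHom.ker (PadicInt.toZMod (p := p)) := by
    rw [RingHom.mem_ker, map_sub, map_pow, map_one]
    have hne : PadicInt.toZMod u ≠ 0 := by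
      intro h0
      have hmem : u ∈ RingHom.ker (PadicInt.toZMod (p := p)) := h0
      rw [PadicInt.ker_toZMod] at hmem
      exact (IsLocalRing.mem_maximalIdeal _).mp hmem hu
    rw [ZMod.pow_card_sub_one_eq_one hne, sub_self]
  rw [PadicInt.ker_toZMod, PadicInt.maximalIdeal_eq_span_p, Ideal.mem_span_singleton] at hker
  exact hker

/-- an element `≡ 1 mod p` is `≡ (1 + p)^j mod p²` for some `j` -/
theorem kumA_exists_pow (v : ℤ_[p]) (hv : (p : ℤ_[p]) ∣ v - 1) :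
    ∃ j : ℕ, (p : ℤ_[p]) ^ 2 ∣ v - (1 + (p : ℤ_[p])) ^ j := by
  obtain ⟨a, ha⟩ := hv
  refine ⟨(PadicInt.toZMod a).val, ?_⟩
  have h1 : (p : ℤ_[p]) ∣ a - (((PadicInt.toZMod a).val : ℕ) : ℤ_[p]) := by
    have hker : a - (((PadicInt.toZMod a).val : ℕ) : ℤ_[p]) ∈
        RingHom.ker (PadicInt.toZMod (p := p)) := by
      rw [RingHom.mem_ker, map_sub, map_natCast, ZMod.natCast_val, ZMod.cast_id', id, sub_self]
    rw [PadicInt.ker_toZMod, PadicInt.maximalIdeal_eq_span_p, Ideal.mem_span_singleton] at hker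
    exact hker
  obtain ⟨c, hc⟩ := h1
  obtain ⟨e, he⟩ := kumA_one_add_pow (p : ℤ_[p]) (PadicInt.toZMod a).val
  refine ⟨c - e, ?_⟩
  linear_combination ha + (p : ℤ_[p]) * hc - he

theorem kumA_norm_one_add (b : ℤ_[p]) : ‖1 + (p : ℤ_[p]) * b‖ = 1 := by
  have hp1 : ‖(p : ℤ_[p])‖ < 1 := by
    rw [PadicInt.norm_p]
    exact inv_lt_one_of_one_lt₀ (by exact_mod_cast hp.out.one_lt)
  have h1 : ‖(p : ℤ_[p]) * b‖ < 1 := by
    rw [mul_comm]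
    exact PadicInt.norm_lt_one_mul hp1
  have h2 : ‖(1 : ℤ_[p])‖ ≠ ‖(p : ℤ_[p]) * b‖ := by
    rw [norm_one]
    exact h1.ne'
  rw [PadicInt.norm_add_eq_max_of_ne h2, norm_one]
  exact max_eq_left h1.le

/-- an element `≡ 1 mod p²` is a `p`-th power, for odd `p` (Hensel) -/
theorem kumA_exists_root (hp2 : p ≠ 2) (w : ℤ_[p]) (hw : (p : ℤ_[p]) ^ 2 ∣ w - 1) :
    ∃ z : ℤ_[p], z ^ p = w := by
  obtain ⟨b, hb⟩ := hw
  have hp3 : 3 ≤ p := by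
    have := hp.out.two_le
    omega
  have hw' : w = 1 + (p : ℤ_[p]) ^ 2 * b := by linear_combination hb
  have hcong : (p : ℤ_[p]) ^ 3 ∣ (1 + (p : ℤ_[p]) * b) ^ p - w := by
    rw [hw']
    refine kumA_pow_congr p (p : ℤ_[p]) b hp3 rfl ?_
    have h : p ∣ p.choose 2 := hp.out.dvd_choose_self (by norm_num) (by omega)
    exact Nat.cast_dvd_cast h
  have hna : ‖1 + (p : ℤ_[p]) * b‖ = 1 := kumA_norm_one_add p b
  have hFa : aeval (1 + (p : ℤ_[p]) * b) (X ^ p - C w : ℤ_[p][X])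
      = (1 + (p : ℤ_[p]) * b) ^ p - w := by
    simp
  have hF'a : aeval (1 + (p : ℤ_[p]) * b) (derivative (X ^ p - C w : ℤ_[p][X]))
      = (p : ℤ_[p]) * (1 + (p : ℤ_[p]) * b) ^ (p - 1) := by
    simp [derivative_X_pow]
  have hnorm : ‖aeval (1 + (p : ℤ_[p]) * b) (X ^ p - C w : ℤ_[p][X])‖
      < ‖aeval (1 + (p : ℤ_[p]) * b) (derivative (X ^ p - C w : ℤ_[p][X]))‖ ^ 2 := by
    rw [hFa, hF'a, norm_mul, norm_pow, hna, one_pow, mul_one, PadicInt.norm_p]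
    have h3 : ‖(1 + (p : ℤ_[p]) * b) ^ p - w‖ ≤ (p : ℝ) ^ (-((3 : ℕ) : ℤ)) := by
      rw [PadicInt.norm_le_pow_iff_mem_span_pow, Ideal.mem_span_singleton]
      exact hcong
    refine lt_of_le_of_lt h3 ?_
    have hp0 : (0 : ℝ) < (p : ℝ)⁻¹ := inv_pos.mpr (by exact_mod_cast hp.out.pos)
    have hp1 : (p : ℝ)⁻¹ < 1 := inv_lt_one_of_one_lt₀ (by exact_mod_cast hp.out.one_lt)
    rw [zpow_neg, zpow_natCast, ← inv_pow]
    exact pow_lt_pow_right_of_lt_one₀ hp0 hp1 (by norm_num)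
  obtain ⟨z, hz, -⟩ := hensels_lemma hnorm
  refine ⟨z, ?_⟩
  have hzF : aeval z (X ^ p - C w : ℤ_[p][X]) = z ^ p - w := by simp
  rw [hzF] at hz
  exact sub_eq_zero.mp hz

/-- every nonzero `p`-adic number is `p^n (1 + p)^m y^p` -/
theorem kumA_decomp (hp2 : p ≠ 2) (x : ℚ_[p]) (hx : x ≠ 0) :
    ∃ n m : ℤ, ∃ y : ℚ_[p], y ≠ 0 ∧ x = (p : ℚ_[p]) ^ n * (1 + (p : ℚ_[p])) ^ m * y ^ p := by
  have hp0 : (p : ℚ_[p]) ≠ 0 := by exact_mod_cast hp.out.ne_zero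
  have hpR : (p : ℝ) ≠ 0 := by exact_mod_cast hp.out.ne_zero
  have hp1 : 1 ≤ p := hp.out.one_le
  -- the unit part
  have hu' : ‖x * (p : ℚ_[p]) ^ (-x.valuation)‖ = 1 := by
    rw [norm_mul, norm_zpow, Padic.norm_p, Padic.norm_eq_zpow_neg_valuation hx, inv_zpow,
      zpow_neg, inv_inv]
    exact inv_mul_cancel₀ (zpow_ne_zero _ hpR)
  have hu0 : x * (p : ℚ_[p]) ^ (-x.valuation) ≠ 0 := mul_ne_zero hx (zpow_ne_zero _ hp0)
  -- work in `ℤ_p`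
  obtain ⟨j, hj⟩ := kumA_exists_pow p ((PadicInt.mkUnits hu' : ℤ_[p]) ^ (p - 1))
    (kumA_dvd_pow_sub_one p _ (PadicInt.mkUnits hu').isUnit)
  have hqu : IsUnit ((1 + (p : ℤ_[p])) ^ j) := by
    refine IsUnit.pow j ?_
    rw [PadicInt.isUnit_iff]
    have := kumA_norm_one_add p 1
    rwa [mul_one] at this
  obtain ⟨qi, hqi⟩ := isUnit_iff_exists_inv.mp hqu
  have hw : (p : ℤ_[p]) ^ 2 ∣ (PadicInt.mkUnits hu' : ℤ_[p]) ^ (p - 1) * qi - 1 := by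
    obtain ⟨c, hc⟩ := hj
    exact ⟨c * qi, by linear_combination qi * hc + hqi⟩
  obtain ⟨z, hz⟩ := kumA_exists_root p hp2 _ hw
  -- back to `ℚ_p`
  have hkey : ((PadicInt.mkUnits hu' : ℤ_[p]) : ℚ_[p]) ^ (p - 1)
      = (1 + (p : ℚ_[p])) ^ j * (z : ℚ_[p]) ^ p := by
    have h1 : (PadicInt.mkUnits hu' : ℤ_[p]) ^ (p - 1) = (1 + (p : ℤ_[p])) ^ j * z ^ p := by
      rw [hz]
      linear_combination (-(PadicInt.mkUnits hu' : ℤ_[p]) ^ (p - 1)) * hqi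
    have h2 : (((PadicInt.mkUnits hu' : ℤ_[p]) ^ (p - 1) : ℤ_[p]) : ℚ_[p])
        = (((1 + (p : ℤ_[p])) ^ j * z ^ p : ℤ_[p]) : ℚ_[p]) := by rw [h1]
    rw [PadicInt.coe_pow, PadicInt.coe_mul, PadicInt.coe_pow, PadicInt.coe_pow,
      PadicInt.coe_add, PadicInt.coe_one, PadicInt.coe_natCast] at h2
    exact h2
  rw [PadicInt.mkUnits_eq] at hkey
  have hq0 : (1 + (p : ℚ_[p])) ≠ 0 := by
    have h : ((1 + p : ℕ) : ℚ_[p]) ≠ 0 := Nat.cast_ne_zero.mpr (by omega)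
    push_cast at h
    exact h
  have hz0 : (z : ℚ_[p]) ≠ 0 := by
    intro h0
    rw [h0, zero_pow hp.out.ne_zero, mul_zero] at hkey
    exact hu0 (pow_eq_zero_iff (n := p - 1) (by
      intro h
      have := hp.out.two_le
      omega) |>.mp hkey)
  refine ⟨x.valuation, -(j : ℤ), x * (p : ℚ_[p]) ^ (-x.valuation) / (z : ℚ_[p]),
    div_ne_zero hu0 hz0, ?_⟩
  have hsplit : (x * (p : ℚ_[p]) ^ (-x.valuation)) ^ p
      = (x * (p : ℚ_[p]) ^ (-x.valuation)) ^ (p - 1) * (x * (p : ℚ_[p]) ^ (-x.valuation)) := by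
    rw [← pow_succ, Nat.sub_add_cancel hp1]
  rw [div_pow, hsplit, hkey, zpow_neg, zpow_natCast]
  have hqj : (1 + (p : ℚ_[p])) ^ j ≠ 0 := pow_ne_zero _ hq0
  have hzp : (z : ℚ_[p]) ^ p ≠ 0 := pow_ne_zero _ hz0
  have hpn : (p : ℚ_[p]) ^ x.valuation ≠ 0 := zpow_ne_zero _ hp0
  rw [zpow_neg]
  field_simp

/-- **LSO-KUMA**: `ℚ_pˣ / (ℚ_pˣ)^p` is finite of order at most `p²` for odd `p`. -/
theorem kumA_card (hp2 : p ≠ 2) :
    Finite (ℚ_[p]ˣ ⧸ (powMonoidHom p : ℚ_[p]ˣ →* ℚ_[p]ˣ).range) ∧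
      Nat.card (ℚ_[p]ˣ ⧸ (powMonoidHom p : ℚ_[p]ˣ →* ℚ_[p]ˣ).range) ≤ p ^ 2 := by
  have hp0 : (p : ℚ_[p]) ≠ 0 := by exact_mod_cast hp.out.ne_zero
  have hq0 : (1 + (p : ℚ_[p])) ≠ 0 := by
    have h : ((1 + p : ℕ) : ℚ_[p]) ≠ 0 := Nat.cast_ne_zero.mpr (by omega)
    push_cast at h
    exact h
  have hpow : ∀ g : ℚ_[p]ˣ ⧸ (powMonoidHom p : ℚ_[p]ˣ →* ℚ_[p]ˣ).range, g ^ p = 1 := by
    intro g
    induction g using QuotientGroup.induction_on with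
    | H g =>
      rw [← QuotientGroup.mk_pow, QuotientGroup.eq_one_iff]
      exact ⟨g, rfl⟩
  have hred : ∀ (g : ℚ_[p]ˣ ⧸ (powMonoidHom p : ℚ_[p]ˣ →* ℚ_[p]ˣ).range) (n : ℤ),
      g ^ n = g ^ ((n % (p : ℤ)).toNat) := by
    intro g n
    have h1 : g ^ (p : ℤ) = 1 := by rw [zpow_natCast]; exact hpow g
    rw [zpow_eq_zpow_emod n h1, ← zpow_natCast,
      Int.toNat_of_nonneg (Int.emod_nonneg _ (by exact_mod_cast hp.out.ne_zero))]
  have hlt : ∀ n : ℤ, (n % (p : ℤ)).toNat < p := by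
    intro n
    have h1 := Int.emod_lt_of_pos n (by exact_mod_cast hp.out.pos : (0 : ℤ) < p)
    have h2 := Int.emod_nonneg n (by exact_mod_cast hp.out.ne_zero : (p : ℤ) ≠ 0)
    omega
  have hf : Function.Surjective
      (fun ij : Fin p × Fin p =>
        ((QuotientGroup.mk (Units.mk0 _ hp0) :
          ℚ_[p]ˣ ⧸ (powMonoidHom p : ℚ_[p]ˣ →* ℚ_[p]ˣ).range) ^ (ij.1 : ℕ)
        * (QuotientGroup.mk (Units.mk0 _ hq0) :
          ℚ_[p]ˣ ⧸ (powMonoidHom p : ℚ_[p]ˣ →* ℚ_[p]ˣ).range) ^ (ij.2 : ℕ))) := by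
    intro g
    induction g using QuotientGroup.induction_on with
    | H x =>
      obtain ⟨n, m, y, hy, hxy⟩ := kumA_decomp p hp2 (x : ℚ_[p]) x.ne_zero
      have hx : x = Units.mk0 _ hp0 ^ n * Units.mk0 _ hq0 ^ m * (Units.mk0 y hy) ^ p := by
        apply Units.ext
        rw [Units.val_mul, Units.val_mul, Units.val_zpow_eq_zpow_val, Units.val_zpow_eq_zpow_val,
          Units.val_pow_eq_pow_val, Units.val_mk0, Units.val_mk0, Units.val_mk0]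
        exact hxy
      refine ⟨(⟨(n % (p : ℤ)).toNat, hlt n⟩, ⟨(m % (p : ℤ)).toNat, hlt m⟩), ?_⟩
      show (QuotientGroup.mk (Units.mk0 _ hp0) :
          ℚ_[p]ˣ ⧸ (powMonoidHom p : ℚ_[p]ˣ →* ℚ_[p]ˣ).range) ^ ((n % (p : ℤ)).toNat)
        * (QuotientGroup.mk (Units.mk0 _ hq0) :
          ℚ_[p]ˣ ⧸ (powMonoidHom p : ℚ_[p]ˣ →* ℚ_[p]ˣ).range) ^ ((m % (p : ℤ)).toNat)
        = QuotientGroup.mk x
      rw [← hred, ← hred]
      conv_rhs => rw [hx]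
      rw [QuotientGroup.mk_mul, QuotientGroup.mk_mul, QuotientGroup.mk_zpow,
        QuotientGroup.mk_zpow, QuotientGroup.mk_pow, hpow]
      exact (mul_one (M := ℚ_[p]ˣ ⧸ (powMonoidHom p : ℚ_[p]ˣ →* ℚ_[p]ˣ).range) _).symm
  haveI : Finite (ℚ_[p]ˣ ⧸ (powMonoidHom p : ℚ_[p]ˣ →* ℚ_[p]ˣ).range) :=
    Finite.of_surjective _ hf
  refine ⟨inferInstance, ?_⟩
  calc Nat.card (ℚ_[p]ˣ ⧸ (powMonoidHom p : ℚ_[p]ˣ →* ℚ_[p]ˣ).range)
      ≤ Nat.card (Fin p × Fin p) := Nat.card_le_card_of_surjective _ hf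
    _ = p ^ 2 := by rw [Nat.card_prod, Nat.card_fin, sq]

end Padic

end Fermat.Agent.P1.helper71
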