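import Fermat.Agent.P1.helper7_LSODefs
import Fermat.Agent.P1.helper71_KumACore

/-!
# P1 / LSO-KUMA (helper71, task 676): `KumAStatement`

`ℚ_pˣ / (ℚ_pˣ)^p` is finite of order at most `p²` for odd `p` (verbatim `helper7.KumAStatement`);
the proof is in `helper71_KumACore` (Mathlib only).
-/

set_option autoImplicit false

namespace Fermat.Agent.P1.helper71

/-- **LSO-KUMA** -/
theorem kumA : Fermat.Agent.P1.helper7.KumAStatement :=
  fun p _ hp2 => kumA_card p hp2

end Fermat.Agent.P1.helper71
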