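import Mathlib
import Fermat.Agent.S14.helper12_Artin

/-!
# P1 / EC / BASE-STAR (R) (helper75): naturality of the Artin map

`M/E` an abelian extension of number fields, unramified everywhere; `τ` a ring automorphism of `M`
which restricts to the ring automorphism `δ` of `E`.  Then
`frobAt E M (δ 𝔭) = τ (frobAt E M 𝔭) τ⁻¹` and `artinMap E M (δ 𝔞) = τ (artinMap E M 𝔞) τ⁻¹`.
-/

set_option autoImplicit false
set_option linter.unusedSectionVars false
set_option linter.unusedVariables false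
set_option linter.style.haveILetI false

open scoped NumberField nonZeroDivisors

namespace Fermat.Agent.P1.helper75

open Fermat.Agent.S14 NumberField

section Conj

variable {E M : Type*} [Field E] [Field M] [Algebra E M]

/-- conjugation of `Gal(M/E)` by a ring automorphism `τ` of `M` which restricts to the ring
automorphism `δ` of `E` -/
def conjGal (δ : E ≃+* E) (τ : M ≃+* M)
    (h : ∀ e : E, τ (algebraMap E M e) = algebraMap E M (δ e)) : Gal(M/E) →* Gal(M/E) where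
  toFun σ := AlgEquiv.ofRingEquiv (f := (τ.symm.trans σ.toRingEquiv).trans τ) (fun e => by
    have h1 : τ.symm (algebraMap E M e) = algebraMap E M (δ.symm e) := by
      rw [RingEquiv.symm_apply_eq, h, RingEquiv.apply_symm_apply]
    simp only [RingEquiv.trans_apply, h1, AlgEquiv.coe_ringEquiv, AlgEquiv.commutes, h,
      RingEquiv.apply_symm_apply])
  map_one' := by
    ext x
    simp
  map_mul' σ σ' := by
    ext x
    simp

@[simp] lemma conjGal_apply (δ : E ≃+* E) (τ : M ≃+* M)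
    (h : ∀ e : E, τ (algebraMap E M e) = algebraMap E M (δ e)) (σ : Gal(M/E)) (x : M) :
    conjGal δ τ h σ x = τ (σ (τ.symm x)) := rfl

end Conj

section Frob

variable {E M : Type*} [Field E] [NumberField E] [Field M] [NumberField M] [Algebra E M]
  (δ : E ≃+* E) (τ : M ≃+* M) (h : ∀ e : E, τ (algebraMap E M e) = algebraMap E M (δ e))

include h in
/-- compatibility on rings of integers -/
lemma mapRingEquiv_algebraMap (x : 𝓞 E) :
    RingOfIntegers.mapRingEquiv τ (algebraMap (𝓞 E) (𝓞 M) x) =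
      algebraMap (𝓞 E) (𝓞 M) (RingOfIntegers.mapRingEquiv δ x) := by
  apply Subtype.ext
  exact h (x : E)

include h in
lemma mapRingEquiv_symm_algebraMap (x : 𝓞 E) :
    (RingOfIntegers.mapRingEquiv τ).symm (algebraMap (𝓞 E) (𝓞 M) x) =
      algebraMap (𝓞 E) (𝓞 M) ((RingOfIntegers.mapRingEquiv δ).symm x) := by
  rw [RingEquiv.symm_apply_eq, mapRingEquiv_algebraMap δ τ h, RingEquiv.apply_symm_apply]

include h in
/-- the image of a prime over `𝔭` lies over the image of `𝔭` -/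
lemma under_map_mapRingEquiv (P : Ideal (𝓞 M)) :
    (P.map (RingOfIntegers.mapRingEquiv τ)).under (𝓞 E) =
      (P.under (𝓞 E)).map (RingOfIntegers.mapRingEquiv δ) := by
  ext x
  rw [Ideal.under_def, Ideal.mem_comap, ← Ideal.comap_symm, ← Ideal.comap_symm,
    Ideal.mem_comap, Ideal.mem_comap, Ideal.under_def, Ideal.mem_comap]
  change (RingOfIntegers.mapRingEquiv τ).symm (algebraMap (𝓞 E) (𝓞 M) x) ∈ P ↔
    algebraMap (𝓞 E) (𝓞 M) ((RingOfIntegers.mapRingEquiv δ).symm x) ∈ P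
  rw [mapRingEquiv_symm_algebraMap δ τ h]

/-- residue fields of conjugate primes have the same cardinality -/
lemma card_quotient_map_mapRingEquiv (𝔭 : Ideal (𝓞 E)) :
    Nat.card (𝓞 E ⧸ 𝔭.map (RingOfIntegers.mapRingEquiv δ)) = Nat.card (𝓞 E ⧸ 𝔭) :=
  (Nat.card_congr (Ideal.quotientEquiv 𝔭 (𝔭.map (RingOfIntegers.mapRingEquiv δ))
    (RingOfIntegers.mapRingEquiv δ) rfl).toEquiv).symm

variable [IsGalois E M]

/-- conjugates of Frobenius elements are Frobenius elements at the conjugate prime -/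
theorem isArithFrobAt_conjGal {σ : Gal(M/E)} {P : Ideal (𝓞 M)}
    (hσ : IsArithFrobAt (𝓞 E) σ P) :
    IsArithFrobAt (𝓞 E) (conjGal δ τ h σ) (P.map (RingOfIntegers.mapRingEquiv τ)) := by
  intro y
  have h1 := hσ ((RingOfIntegers.mapRingEquiv τ).symm y)
  have h2 := Ideal.mem_map_of_mem (RingOfIntegers.mapRingEquiv τ : 𝓞 M →+* 𝓞 M) h1
  rw [under_map_mapRingEquiv δ τ h, card_quotient_map_mapRingEquiv]
  have h3 : (RingOfIntegers.mapRingEquiv τ : 𝓞 M →+* 𝓞 M)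
      ((MulSemiringAction.toAlgHom (𝓞 E) (𝓞 M) σ) ((RingOfIntegers.mapRingEquiv τ).symm y) -
        (RingOfIntegers.mapRingEquiv τ).symm y ^ Nat.card (𝓞 E ⧸ P.under (𝓞 E))) =
      (MulSemiringAction.toAlgHom (𝓞 E) (𝓞 M) (conjGal δ τ h σ)) y -
        y ^ Nat.card (𝓞 E ⧸ P.under (𝓞 E)) := by
    have e1 : (RingOfIntegers.mapRingEquiv τ : 𝓞 M →+* 𝓞 M)
        ((MulSemiringAction.toAlgHom (𝓞 E) (𝓞 M) σ) ((RingOfIntegers.mapRingEquiv τ).symm y)) =
        (MulSemiringAction.toAlgHom (𝓞 E) (𝓞 M) (conjGal δ τ h σ)) y := by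
      apply Subtype.ext
      rfl
    have e2 : (RingOfIntegers.mapRingEquiv τ : 𝓞 M →+* 𝓞 M)
        ((RingOfIntegers.mapRingEquiv τ).symm y) = y :=
      (RingOfIntegers.mapRingEquiv τ).apply_symm_apply y
    rw [map_sub, map_pow, e1, e2]
  rw [← h3]
  exact h2

end Frob

section Artin

variable {E M : Type*} [Field E] [NumberField E] [Field M] [NumberField M] [Algebra E M]
  [IsAbelianGalois E M]
  (δ : E ≃+* E) (τ : M ≃+* M) (h : ∀ e : E, τ (algebraMap E M e) = algebraMap E M (δ e))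

lemma map_mapRingEquiv_ne_bot {𝔞 : Ideal (𝓞 E)} (h𝔞 : 𝔞 ≠ ⊥) :
    𝔞.map (RingOfIntegers.mapRingEquiv δ) ≠ ⊥ := by
  intro h0
  apply h𝔞
  rw [← Ideal.map_eq_bot_iff_of_injective (RingOfIntegers.mapRingEquiv δ).injective]
  exact h0

/-- **naturality of the Frobenius**: `Frob(δ 𝔭) = τ Frob(𝔭) τ⁻¹`. -/
theorem frobAt_map (hunr : IsUnramifiedEverywhere E M) (𝔭 : Ideal (𝓞 E)) [𝔭.IsPrime]
    (h𝔭 : 𝔭 ≠ ⊥) :
    frobAt E M (𝔭.map (RingOfIntegers.mapRingEquiv δ)) = conjGal δ τ h (frobAt E M 𝔭) := by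
  obtain ⟨P, hP, hP0, hP𝔭, hfrob⟩ := helper12.exists_isArithFrobAt_frobAt E M 𝔭 h𝔭
  haveI := hP
  haveI hP' : (P.map (RingOfIntegers.mapRingEquiv τ)).IsPrime :=
    Ideal.map_isPrime_of_equiv (RingOfIntegers.mapRingEquiv τ)
  have hP'0 : P.map (RingOfIntegers.mapRingEquiv τ) ≠ ⊥ := by
    intro h0
    apply hP0
    rw [← Ideal.map_eq_bot_iff_of_injective (RingOfIntegers.mapRingEquiv τ).injective]
    exact h0
  have h1 := helper12.eq_frobAt_of_isArithFrobAt E M (P.map (RingOfIntegers.mapRingEquiv τ)) hP'0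
    (hunr _ hP' hP'0) (conjGal δ τ h (frobAt E M 𝔭)) (isArithFrobAt_conjGal δ τ h hfrob)
  rw [h1, under_map_mapRingEquiv δ τ h, hP𝔭]

/-- **naturality of the Artin map**: `Art(δ 𝔞) = τ Art(𝔞) τ⁻¹`. -/
theorem artinMap_map (hunr : IsUnramifiedEverywhere E M) (𝔞 : Ideal (𝓞 E)) (h𝔞 : 𝔞 ≠ ⊥) :
    artinMap E M ⟨𝔞.map (RingOfIntegers.mapRingEquiv δ),
        mem_nonZeroDivisors_of_ne_zero (map_mapRingEquiv_ne_bot δ h𝔞)⟩ =
      conjGal δ τ h (artinMap E M ⟨𝔞, mem_nonZeroDivisors_of_ne_zero h𝔞⟩) := by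
  revert h𝔞
  induction 𝔞 using UniqueFactorizationMonoid.induction_on_prime with
  | h₁ => intro h0; exact absurd rfl h0
  | h₂ I hI =>
    intro h0
    have hI1 : I = ⊤ := Ideal.isUnit_iff.mp hI
    subst hI1
    have e1 : (⟨(⊤ : Ideal (𝓞 E)), mem_nonZeroDivisors_of_ne_zero h0⟩ : (Ideal (𝓞 E))⁰) = 1 :=
      Subtype.ext Ideal.one_eq_top.symm
    have e2 : (⟨(⊤ : Ideal (𝓞 E)).map (RingOfIntegers.mapRingEquiv δ),
        mem_nonZeroDivisors_of_ne_zero (map_mapRingEquiv_ne_bot δ h0)⟩ : (Ideal (𝓞 E))⁰) = 1 := by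
      apply Subtype.ext
      show (⊤ : Ideal (𝓞 E)).map (RingOfIntegers.mapRingEquiv δ) = 1
      rw [Ideal.one_eq_top]
      exact Ideal.map_top _
    rw [e1, e2, map_one, map_one]
  | h₃ I 𝔭 hI h𝔭 ih =>
    intro h0
    have h𝔭0 : 𝔭 ≠ ⊥ := h𝔭.ne_zero
    have hI0 : I ≠ ⊥ := hI
    haveI : 𝔭.IsPrime := Ideal.isPrime_of_prime h𝔭
    haveI : (𝔭.map (RingOfIntegers.mapRingEquiv δ)).IsPrime :=
      Ideal.map_isPrime_of_equiv (RingOfIntegers.mapRingEquiv δ)
    have e1 : (⟨(𝔭 * I).map (RingOfIntegers.mapRingEquiv δ),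
        mem_nonZeroDivisors_of_ne_zero (map_mapRingEquiv_ne_bot δ h0)⟩ : (Ideal (𝓞 E))⁰) =
        ⟨𝔭.map (RingOfIntegers.mapRingEquiv δ) * I.map (RingOfIntegers.mapRingEquiv δ),
          mem_nonZeroDivisors_of_ne_zero (mul_ne_zero (map_mapRingEquiv_ne_bot δ h𝔭0)
            (map_mapRingEquiv_ne_bot δ hI0))⟩ :=
      Subtype.ext (Ideal.map_mul _ _ _)
    rw [e1, helper12.artinMap_mk_mul E M _ _ (map_mapRingEquiv_ne_bot δ h𝔭0)
      (map_mapRingEquiv_ne_bot δ hI0), helper12.artinMap_mk_mul E M _ _ h𝔭0 hI0, map_mul,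
      ih hI0, helper12.artinMap_prime E M _ (map_mapRingEquiv_ne_bot δ h𝔭0),
      helper12.artinMap_prime E M 𝔭 h𝔭0, frobAt_map δ τ h hunr 𝔭 h𝔭0]

end Artin

end Fermat.Agent.P1.helper75
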