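import Fermat.Agent.S55.helper75_Rec4Wire
import Fermat.Agent.S55.helper11_RecUncond
import Fermat.Agent.S55.helper85_Rec4BrDict
import Fermat.Agent.P1.helper75_ECArtNat

/-!
# P1 / EC / BASE-STAR (R) (helper75), part 2: the Artin map of the field cut out by a subgroup

`K ⊆ ℚbar` a number field, `U = Gal(ℚbar/K)`, `N ≤ U` a normal subgroup containing an `S`-level,
the commutators, the `p`-th powers and the decomposition groups at the primes above `S`.  Then the
fixed field `M` of `N` is abelian of exponent `p`, unramified everywhere and split above `S`, and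
the Artin map is a surjection `Cl_S(K)/p → Gal(M/K)` (`exists_artin_of_subgroup`).
-/

set_option autoImplicit false
set_option linter.unusedVariables false
set_option linter.unusedSectionVars false
set_option linter.style.haveILetI false

open groupCohomology ExtCitation
open scoped NumberField Pointwise IsMulCommutative nonZeroDivisors
open IsDedekindDomain

noncomputable section

namespace Fermat.Agent.P1.helper75

open Fermat.Agent.S55 Fermat.Agent.S55.helper59 Fermat.Agent.S14 Fermat.Agent.S14.helper91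
open Fermat.Agent.S55.helper75

local notation "Qbar" => AlgebraicClosure ℚ

section Field

variable {p : ℕ} [Fact p.Prime] {S : Finset Nat.Primes}
  {F : IntermediateField ℚ Qbar} [NumberField ↥F]

/-- the field cut out by a subgroup `N` of `U = Gal(ℚbar/F)` containing an `S`-level, the
commutators, the `p`-th powers and the decomposition groups above `S`, and its Artin map. -/
theorem exists_artin_of_subgroup (hp2 : p ≠ 2) (N : Subgroup (UF F)) [hNn : N.Normal]
    (E₀ : IntermediateField ℚ Qbar) (hE₀ : E₀.IsUnramifiedOutside S) (hFE : F ≤ E₀)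
    (hle : E₀.fixingSubgroup.subgroupOf F.fixingSubgroup ≤ N)
    (hcomm : ∀ g h : UF F, g * h * g⁻¹ * h⁻¹ ∈ N) (hpow : ∀ g : UF F, g ^ p ∈ N)
    (hdec : ∀ q : Nat.Primes, q ∈ S → ∀ A : ValuationSubring Qbar, A.LiesOverPrime (q : ℕ) →
      ∀ σ : UF F, ((σ : UF F) : helper59.GQ) ∈ A.decompositionSubgroup ℚ → σ ∈ N) :
    ∃ (_ : FiniteDimensional ↥F ↥(fieldOf F N)) (_ : IsGalois ↥F ↥(fieldOf F N))
      (_ : NumberField ↥(fieldOf F N)) (_ : IsAbelianGalois ↥F ↥(fieldOf F N)),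
      (∀ σ : UF F, σ ∈ (resFix F (fieldOf F N)).ker ↔ σ ∈ N) ∧
      IsUnramifiedEverywhere ↥F ↥(fieldOf F N) ∧
      ∃ φ : ClSModP (↥F) p S →* Gal(↥(fieldOf F N)/↥F), Function.Surjective φ ∧
        ∀ 𝔞 : (Ideal (𝓞 ↥F))⁰,
          φ (QuotientGroup.mk (ClassGroup.mk0 𝔞)) = artinMap ↥F ↥(fieldOf F N) 𝔞 := by
  classical
  haveI : FiniteDimensional ℚ E₀ := hE₀.1
  set M : IntermediateField ↥F Qbar := fieldOf F N with hM
  haveI hMfin : FiniteDimensional ↥F ↥M := finiteDimensional_fieldOf F N E₀ hFE hle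
  haveI hMgal : IsGalois ↥F ↥M := isGalois_fieldOf F N E₀ hFE hle
  haveI : Normal ↥F ↥M := hMgal.to_normal
  have hker : ∀ σ : UF F, σ ∈ (resFix F M).ker ↔ σ ∈ N :=
    mem_ker_resFix_fieldOf F N E₀ hFE hle
  have hMunr : (M.restrictScalars ℚ).IsUnramifiedOutside S :=
    hE₀.of_le (fieldOf_restrictScalars_le F N E₀ hFE hle)
  haveI : Normal ↥F Qbar := (isGalois_Qbar_over F).to_normal
  have hsurj : Function.Surjective (resFix F M) := resFix_surjective F M
  have hone : ∀ σ : UF F, σ ∈ N → resFix F M σ = 1 := fun σ hσ =>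
    MonoidHom.mem_ker.mp ((hker σ).mpr hσ)
  haveI hNF : NumberField ↥M :=
    { to_charZero := inferInstance
      to_finiteDimensional := Module.Finite.trans ↥F ↥M }
  have hcomm' : ∀ a b : ↥M ≃ₐ[↥F] ↥M, a * b = b * a := by
    intro a b
    obtain ⟨g, rfl⟩ := hsurj a
    obtain ⟨h, rfl⟩ := hsurj b
    have h1 := hone _ (hcomm g h)
    rw [map_mul, map_mul, map_mul, map_inv, map_inv] at h1
    calc resFix F M g * resFix F M h
        = (resFix F M g * resFix F M h * (resFix F M g)⁻¹ * (resFix F M h)⁻¹) *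
            (resFix F M h * resFix F M g) := by group
      _ = resFix F M h * resFix F M g := by rw [h1, one_mul]
  haveI hAb : IsAbelianGalois ↥F ↥M := { toIsGalois := hMgal, is_comm := ⟨hcomm'⟩ }
  have hexp : ∀ σ : Gal(↥M/↥F), σ ^ p = 1 := by
    intro a
    obtain ⟨g, rfl⟩ := hsurj a
    rw [← map_pow]
    exact hone _ (hpow g)
  have hunr : IsUnramifiedEverywhere ↥F ↥M := by
    intro P hP hP0 σ hσ
    haveI := hP
    haveI : P.IsMaximal := Ring.DimensionLEOne.maximalOfPrime hP0 hP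
    obtain ⟨A, hA⟩ := exists_primeOf_eq ↥M P
    obtain ⟨ℓ, hℓ, hℓP⟩ := exists_prime_natCast_mem P hP0
    have hAℓ : A.LiesOverPrime ℓ := liesOverPrime_of_natCast_mem ↥M A (by rw [hA]; exact hℓP)
    obtain ⟨σ', hσ'I, hσ'⟩ := helper85.exists_inertia_lift F M A hℓ hAℓ σ
      (fun x => by rw [hA]; exact hσ x)
    rw [← hσ']
    by_cases hS : (⟨ℓ, hℓ⟩ : Nat.Primes) ∈ S
    · apply hone
      exact hdec ⟨ℓ, hℓ⟩ hS A hAℓ σ' ((mem_inertiaSubgroupIn_iff_valuation A _).mp hσ'I).1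
    · have h1 := hMunr.2 ⟨ℓ, hℓ⟩ hS A hAℓ hσ'I
      rw [← MonoidHom.mem_ker, mem_ker_resFix_iff]
      intro x hx
      exact (IntermediateField.mem_fixingSubgroup_iff _ _).mp h1 x hx
  have hsplit : IsSplitOverS ↥F ↥M S := by
    rintro 𝔭 ⟨h𝔭prime, h𝔭0, q, hqS, hq𝔭⟩
    haveI := h𝔭prime
    obtain ⟨P', hP', hP'0, hP'𝔭, hfrob⟩ := helper12.exists_isArithFrobAt_frobAt ↥F ↥M 𝔭 h𝔭0
    haveI := hP'
    haveI : P'.IsMaximal := Ring.DimensionLEOne.maximalOfPrime hP'0 hP'
    obtain ⟨A, hA⟩ := exists_primeOf_eq ↥M P'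
    have hqP' : (((q : ℕ) : 𝓞 ↥M)) ∈ P' := by
      have h1 : algebraMap (𝓞 ↥F) (𝓞 ↥M) (((q : ℕ) : 𝓞 ↥F)) ∈ P' := by
        rw [← Ideal.mem_comap, ← Ideal.under_def, hP'𝔭]
        exact hq𝔭
      simpa using h1
    have hAq : A.LiesOverPrime (q : ℕ) :=
      liesOverPrime_of_natCast_mem ↥M A (by rw [hA]; exact hqP')
    have hstab : ∀ x : 𝓞 ↥M, x ∈ primeOf ↥M A → frobAt ↥F ↥M 𝔭 • x ∈ primeOf ↥M A := by
      rw [hA]
      intro x hx
      have h1 := hfrob x
      have hpos : 0 < Nat.card (𝓞 ↥F ⧸ P'.under (𝓞 ↥F)) := by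
        rw [hP'𝔭]
        haveI : Finite (𝓞 ↥F ⧸ 𝔭) := Ideal.finiteQuotientOfFreeOfNeBot 𝔭 h𝔭0
        exact Nat.card_pos
      have h2 : x ^ Nat.card (𝓞 ↥F ⧸ P'.under (𝓞 ↥F)) ∈ P' :=
        Ideal.pow_mem_of_mem P' hx _ hpos
      have h3 := P'.add_mem h1 h2
      simpa using h3
    obtain ⟨σ', hσ'D, hσ'⟩ := helper85.exists_dec_lift F M A q.2 hAq (frobAt ↥F ↥M 𝔭) hstab
    rw [← hσ']
    exact hone _ (hdec q hqS A hAq σ' hσ'D)
  obtain ⟨I⟩ := helper8.nonempty_locInv
  have hrec : HasReciprocity ↥F ↥M :=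
    hasReciprocity_of_exp I p (helper11.hypRecP I p hp2) (recTame I) recExist ↥F ↥M hunr hexp
  exact ⟨hMfin, hMgal, hNF, hAb, hker, hunr, exists_artinCl ↥F ↥M p S hunr hrec hexp hsplit⟩

end Field

/-! ## Restriction of automorphisms of `ℚbar` -/

section Restrict

variable {k Ω : Type*} [Field k] [Field Ω] [Algebra k Ω]

/-- the restriction to an intermediate field `E` of a ring automorphism of `Ω` stabilising `E` -/
def restrictRingEquiv (E : IntermediateField k Ω) (c : Ω ≃+* Ω) (hc : ∀ x, x ∈ E ↔ c x ∈ E) :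
    ↥E ≃+* ↥E where
  toFun x := ⟨c x, (hc x).mp x.2⟩
  invFun x := ⟨c.symm x, (hc _).mpr (by rw [RingEquiv.apply_symm_apply]; exact x.2)⟩
  left_inv x := Subtype.ext (c.symm_apply_apply x)
  right_inv x := Subtype.ext (c.apply_symm_apply x)
  map_mul' x y := Subtype.ext (map_mul c (x : Ω) y)
  map_add' x y := Subtype.ext (map_add c (x : Ω) y)

@[simp] lemma coe_restrictRingEquiv (E : IntermediateField k Ω) (c : Ω ≃+* Ω)
    (hc : ∀ x, x ∈ E ↔ c x ∈ E) (x : E) : ((restrictRingEquiv E c hc x : E) : Ω) = c x := rfl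

@[simp] lemma coe_restrictRingEquiv_symm (E : IntermediateField k Ω) (c : Ω ≃+* Ω)
    (hc : ∀ x, x ∈ E ↔ c x ∈ E) (x : E) :
    (((restrictRingEquiv E c hc).symm x : E) : Ω) = c.symm x := rfl

end Restrict

section Stable

variable {F : IntermediateField ℚ Qbar}

lemma mem_fieldOf_iff (N : Subgroup (UF F)) (x : Qbar) :
    x ∈ fieldOf F N ↔ ∀ n ∈ N, ((n : UF F) : helper59.GQ) x = x := by
  unfold fieldOf
  rw [IntermediateField.mem_fixedField_iff]
  constructor
  · intro h n hn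
    exact h _ ((mem_toGalOver_iff F N n).mpr hn)
  · intro h f hf
    obtain ⟨n, rfl⟩ := (IntermediateField.fixingSubgroupEquiv F).surjective f
    exact h n ((mem_toGalOver_iff F N n).mp hf)

/-- conjugation on `U = Gal(ℚbar/F)` by an automorphism stabilising `F` -/
def conjU (c : helper59.GQ) (hc : ∀ x, x ∈ F ↔ c x ∈ F) (u : UF F) : UF F :=
  ⟨c * (u : helper59.GQ) * c⁻¹, by
    rw [IntermediateField.mem_fixingSubgroup_iff]
    intro x hx
    have h1 : c⁻¹ x ∈ F := (hc _).mpr (by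
      show c (c⁻¹ x) ∈ F
      rw [← AlgEquiv.mul_apply, mul_inv_cancel]
      exact hx)
    have h2 := (IntermediateField.mem_fixingSubgroup_iff _ _).mp u.2 _ h1
    show c ((u : helper59.GQ) (c⁻¹ x)) = x
    rw [h2, ← AlgEquiv.mul_apply, mul_inv_cancel]
    rfl⟩

@[simp] lemma coe_conjU (c : helper59.GQ) (hc : ∀ x, x ∈ F ↔ c x ∈ F) (u : UF F) :
    ((conjU c hc u : UF F) : helper59.GQ) = c * (u : helper59.GQ) * c⁻¹ := rfl

/-- the fixed field of a conjugation-stable subgroup is stable -/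
lemma fieldOf_stable (N : Subgroup (UF F)) (c : helper59.GQ) (hc : ∀ x, x ∈ F ↔ c x ∈ F)
    (hN : ∀ n, n ∈ N ↔ conjU c hc n ∈ N) (x : Qbar) :
    x ∈ fieldOf F N ↔ (c : Qbar ≃+* Qbar) x ∈ fieldOf F N := by
  rw [mem_fieldOf_iff, mem_fieldOf_iff]
  constructor
  · intro h n hn
    -- `n = c m c⁻¹` with `m = c⁻¹ n c ∈ N`
    have hc' : ∀ x, x ∈ F ↔ c⁻¹ x ∈ F := fun x => by
      rw [hc (c⁻¹ x)]
      have : c (c⁻¹ x) = x := by rw [← AlgEquiv.mul_apply, mul_inv_cancel]; rfl
      rw [this]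
    have hm : conjU c⁻¹ hc' n ∈ N := by
      rw [hN]
      have : conjU c hc (conjU c⁻¹ hc' n) = n := by
        apply Subtype.ext
        simp only [coe_conjU]
        group
      rw [this]
      exact hn
    have h1 := h _ hm
    simp only [coe_conjU, AlgEquiv.mul_apply, inv_inv] at h1
    have h2 := congrArg c h1
    have h3 : c (c⁻¹ (((n : UF F) : helper59.GQ) (c x))) = ((n : UF F) : helper59.GQ) (c x) := by
      rw [← AlgEquiv.mul_apply, mul_inv_cancel]; rfl
    rw [h3] at h2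
    exact h2
  · intro h n hn
    have h1 := h _ ((hN n).mp hn)
    simp only [coe_conjU, AlgEquiv.mul_apply] at h1
    have h2 : c⁻¹ (c x) = x := by rw [← AlgEquiv.mul_apply, inv_mul_cancel]; rfl
    have h1' : c (((n : UF F) : helper59.GQ) (c⁻¹ (c x))) = c x := h1
    rw [h2] at h1'
    exact c.injective h1'

end Stable

end Fermat.Agent.P1.helper75
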