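import Fermat.Agent.P1.helper75_ECShaCl
import Fermat.Agent.P1.helper50_BSClassDefs
import Fermat.Agent.P1.helper94_BSKExt
import Fermat.Agent.P1.helper24_BSAbs
import Fermat.Agent.S55.helper48_Rec4BrTr
import Fermat.Agent.S55.helper74_LocalLevels

/-!
# P1 / EC / BASE-STAR (R) (helper75), part 4: the consumer shape `helper50.ClassRecStatement`
-/

set_option autoImplicit false
set_option linter.unusedVariables false
set_option linter.unusedSectionVars false
set_option linter.style.haveILetI false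

open groupCohomology ExtCitation
open scoped NumberField nonZeroDivisors Pointwise

noncomputable section

namespace Fermat.Agent.P1.helper75

open Fermat.Agent.S55 Fermat.Agent.P1.helper70 Fermat.Agent.P1.helper63 Fermat.Agent.P1.helper7
open Fermat.Agent.S55.helper75

local notation "Qbar" => AlgebraicClosure ℚ

section AbsCard

variable {k : Type} [Field k] [Finite k]
variable {A B : Type} [AddCommGroup A] [Module k A] [AddCommGroup B] [Module k B]

lemma card_eqvIn (a : A →ₗ[k] A) (b : B →ₗ[k] B) (W : Submodule k B) [Finite ↥(eqvIn a b W)] :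
    Nat.card ↥(eqvIn a b W) = Nat.card k ^ mltIn a b W := by
  unfold mltIn
  exact Module.natCard_eq_pow_finrank (K := k)

lemma card_eqv (a : A →ₗ[k] A) (b : B →ₗ[k] B) [Finite ↥(eqv a b)] :
    Nat.card ↥(eqv a b) = Nat.card k ^ mlt a b := by
  unfold mlt
  exact Module.natCard_eq_pow_finrank (K := k)

end AbsCard

section ClassRec

variable {p : ℕ} [Fact p.Prime] {T : Finset Nat.Primes} (D : BSData p T)

/-- `P` is open -/
lemma isOpen_pSub : IsOpen (D.pSub : Set (Qbar ≃ₐ[ℚ] Qbar)) := by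
  obtain ⟨hn, E, hE, hEq⟩ := D.hN₀
  haveI : FiniteDimensional ℚ E := hE.1
  have hopen : IsOpen (D.N₀ : Set (Qbar ≃ₐ[ℚ] Qbar)) := by
    rw [hEq]
    exact IntermediateField.fixingSubgroup_isOpen E
  exact Subgroup.isOpen_mono D.le_pSub hopen

/-- `P` is the Galois group of `ℚbar / K₁` -/
lemma fixingSubgroup_K1 : D.K1.fixingSubgroup = D.pSub :=
  Fermat.Agent.S14.helper91.fixingSubgroup_fixedField_of_isOpen D.pSub (isOpen_pSub D)

/-- `Gal(ℚbar/K₁) ≃ P` -/
def toP : helper59.UF D.K1 ≃* ↥D.pSub := MulEquiv.subgroupCongr (fixingSubgroup_K1 D)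

@[simp] lemma coe_toP (u : helper59.UF D.K1) : ((toP D u : ↥D.pSub) : helper59.GQ) = (u : helper59.GQ) := rfl

@[simp] lemma coe_toP_symm (u : ↥D.pSub) :
    (((toP D).symm u : helper59.UF D.K1) : helper59.GQ) = (u : helper59.GQ) := rfl

variable (Y : Rep.{0} (ZMod p) ↥D.C)

/-- evaluation at `u ∈ P` of a map `φ : Y → (P → k)` -/
def evalAt (φ : Y →ₗ[ZMod p] D.Fun) (u : ↥D.pSub) : Module.Dual (ZMod p) Y where
  toFun y := φ y u
  map_add' y y' := by rw [map_add]; rfl
  map_smul' a y := by rw [map_smul]; rfl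

@[simp] lemma evalAt_apply (φ : Y →ₗ[ZMod p] D.Fun) (u : ↥D.pSub) (y : Y) :
    evalAt D Y φ u y = φ y u := rfl

variable {D Y}

/-- the values of `φ` vanish on a common level -/
lemma exists_level_all' (hY : YOk D Y) (φ : Y →ₗ[ZMod p] D.Fun) (hφ : ∀ y, φ y ∈ D.Hsp) :
    ∃ N ∈ (galLevels T).mem, N ≤ D.pSub ∧
      ∀ y, ∀ u : ↥D.pSub, (u : helper59.GQ) ∈ N → φ y u = 0 := by
  classical
  haveI : Module.Finite (ZMod p) Y := hY.1
  obtain ⟨S, hS⟩ := (Module.Finite.fg_top : (⊤ : Submodule (ZMod p) Y).FG)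
  have key : ∀ S : Finset Y, ∃ N ∈ (galLevels T).mem, N ≤ D.pSub ∧
      ∀ y ∈ S, ∀ u : ↥D.pSub, (u : helper59.GQ) ∈ N → φ y u = 0 := by
    intro S
    induction S using Finset.induction_on with
    | empty => exact ⟨D.N₀, D.hN₀, D.le_pSub, fun f hf => absurd hf (Finset.notMem_empty f)⟩
    | insert a S ha ih =>
      obtain ⟨N₁, hN₁, hN₁P, h₁⟩ := ih
      obtain ⟨N₂, hN₂, hN₂P, h₂⟩ := helper94.hsp_exists_level (hφ a)
      obtain ⟨N, hN, hle⟩ := (galLevels T).directed N₁ hN₁ N₂ hN₂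
      refine ⟨N, hN, fun u hu => hN₁P (hle hu).1, fun f hf u hu => ?_⟩
      rcases Finset.mem_insert.1 hf with rfl | hf
      · exact h₂ u (hle hu).2
      · exact h₁ f hf u (hle hu).1
  obtain ⟨N, hN, hNP, h⟩ := key S
  refine ⟨N, hN, hNP, fun y u hu => ?_⟩
  have hy : y ∈ Submodule.span (ZMod p) (S : Set Y) := by rw [hS]; exact Submodule.mem_top
  induction hy using Submodule.span_induction with
  | mem x hx => exact h x hx u hu
  | zero => rw [map_zero]; rfl
  | add x y _ _ hx hy =>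
    rw [map_add]
    change φ x u + φ y u = 0
    rw [hx, hy, add_zero]
  | smul a x _ hx =>
    rw [map_smul]
    change a • φ x u = 0
    rw [hx, smul_zero]

/-- the transposed homomorphism `Gal(ℚbar/K₁) → Y^*`, `u ↦ (y ↦ φ y u)` -/
def transp (φ : Y →ₗ[ZMod p] D.Fun) (hφ : ∀ y, φ y ∈ D.Hsp) :
    helper59.UF D.K1 →* Multiplicative (Module.Dual (ZMod p) Y) where
  toFun u := Multiplicative.ofAdd (evalAt D Y φ (toP D u))
  map_one' := by
    rw [map_one]
    apply Multiplicative.toAdd.injective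
    apply LinearMap.ext
    intro y
    exact helper94.hsp_one (hφ y)
  map_mul' u v := by
    rw [map_mul]
    apply Multiplicative.toAdd.injective
    apply LinearMap.ext
    intro y
    exact helper94.hsp_mul (hφ y) _ _

lemma transp_apply (φ : Y →ₗ[ZMod p] D.Fun) (hφ : ∀ y, φ y ∈ D.Hsp) (u : helper59.UF D.K1)
    (y : Y) : Multiplicative.toAdd (transp φ hφ u) y = φ y (toP D u) := rfl

lemma transp_eq_one_iff (φ : Y →ₗ[ZMod p] D.Fun) (hφ : ∀ y, φ y ∈ D.Hsp)
    (u : helper59.UF D.K1) : transp φ hφ u = 1 ↔ ∀ y, φ y (toP D u) = 0 := by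
  constructor
  · intro h y
    rw [← transp_apply φ hφ u y, h]
    rfl
  · intro h
    apply Multiplicative.toAdd.injective
    apply LinearMap.ext
    intro y
    exact h y

/-- the operator `χ(c) z` on `Y^*` -/
abbrev rOp (D : BSData p T) (Y : Rep.{0} (ZMod p) ↥D.C) :
    Module.Dual (ZMod p) Y →ₗ[ZMod p] Module.Dual (ZMod p) Y :=
  (((cycloChar p D.c : (ZMod p)ˣ) : ZMod p)) • D.zY Y

theorem transp_mem_shaHom (hY : YOk D Y) (φ : Y →ₗ[ZMod p] D.Fun)
    (hφ : φ ∈ eqvIn (D.yTw Y) D.cs D.Shsp) :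
    transp φ (fun y => (hφ.2 y).1) ∈
      shaHom T D.K1 (fun _ : Unit => D.c) (fun _ => ⇑(rOp D Y)) := by
  have hH : ∀ y, φ y ∈ D.Hsp := fun y => (hφ.2 y).1
  refine ⟨?_, ?_, ?_⟩
  · -- level
    obtain ⟨N, hN, hNP, h⟩ := exists_level_all' hY φ hH
    have hle : N ≤ D.K1.fixingSubgroup := by rw [fixingSubgroup_K1]; exact hNP
    refine ⟨N.subgroupOf D.K1.fixingSubgroup,
      (helper69.mem_sLevels_iff T D.K1 _).mpr ⟨N, hN, hle, rfl⟩, ?_⟩
    intro u hu
    rw [MonoidHom.mem_ker, transp_eq_one_iff]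
    intro y
    exact h y (toP D u) (Subgroup.mem_subgroupOf.mp hu)
  · -- decomposition groups
    intro q hq A hA u hu
    rw [transp_eq_one_iff]
    intro y
    obtain ⟨γ, hγ⟩ := Fermat.Agent.S55.helper48.exists_smul_eq_of_liesOverPrime q.2 A
      (primeLocalPlace q) hA (Fermat.Agent.S55.helper74.primeLocalPlace_liesOverPrime q)
    have hσA : ((u : helper59.UF D.K1) : helper59.GQ) • A = A := hu
    have hdec : γ⁻¹ * ((u : helper59.UF D.K1) : helper59.GQ) * γ ∈
        (primeLocalPlace q).decompositionSubgroup ℚ := by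
      change (γ⁻¹ * ((u : helper59.UF D.K1) : helper59.GQ) * γ) • primeLocalPlace q =
        primeLocalPlace q
      rw [mul_smul, mul_smul, hγ, hσA, ← hγ, inv_smul_smul]
    obtain ⟨t, ht⟩ := Fermat.Agent.S55.helper74.exists_primeLocalToGlobal_eq q hdec
    have e1 : γ * primeLocalToGlobal q t * γ⁻¹ = ((u : helper59.UF D.K1) : helper59.GQ) := by
      rw [ht]; group
    have hmem : γ * primeLocalToGlobal q t * γ⁻¹ ∈ D.pSub := by
      rw [e1]; exact (toP D u).2
    have h0 := (hφ.2 y).2 ⟨q, hq⟩ γ t hmem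
    have e2 : (⟨γ * primeLocalToGlobal q t * γ⁻¹, hmem⟩ : ↥D.pSub) = toP D u :=
      Subtype.ext e1
    rw [← e2]
    exact h0
  · -- equivariance
    intro _ u hu
    apply Multiplicative.toAdd.injective
    apply LinearMap.ext
    intro y
    show φ y (toP D ⟨D.c * (u : helper59.GQ) * D.c⁻¹, hu⟩) =
      ((cycloChar p D.c : (ZMod p)ˣ) : ZMod p) • φ (Y.ρ D.cC⁻¹ y) (toP D u)
    set χ : (ZMod p)ˣ := cycloChar p D.c with hχ
    set y₀ : Y := (χ : ZMod p) • Y.ρ D.cC⁻¹ y with hy₀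
    have h1 : D.yTw Y y₀ = y := by
      show ((χ⁻¹ : (ZMod p)ˣ) : ZMod p) • Y.ρ D.cC ((χ : ZMod p) • Y.ρ D.cC⁻¹ y) = y
      rw [map_smul, smul_smul, Units.inv_mul, one_smul, ← Module.End.mul_apply, ← map_mul,
        mul_inv_cancel, map_one, Module.End.one_apply]
    have h2 := LinearMap.congr_fun hφ.1 y₀
    have h3 := congrFun h2 (toP D ⟨D.c * (u : helper59.GQ) * D.c⁻¹, hu⟩)
    simp only [LinearMap.comp_apply] at h3
    rw [h1, BSData.cs_apply] at h3
    rw [h3]
    have e3 : (⟨D.c⁻¹ * ((toP D ⟨D.c * (u : helper59.GQ) * D.c⁻¹, hu⟩ : ↥D.pSub) :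
        helper59.GQ) * D.c, D.conj_mem_pSub' (toP D ⟨D.c * (u : helper59.GQ) * D.c⁻¹, hu⟩).2⟩ :
        ↥D.pSub) = toP D u := by
      apply Subtype.ext
      simp only [coe_toP]
      group
    rw [e3, hy₀, map_smul]
    rfl

theorem transp_injective (φ ψ : Y →ₗ[ZMod p] D.Fun) (hφ : ∀ y, φ y ∈ D.Hsp)
    (hψ : ∀ y, ψ y ∈ D.Hsp) (h : transp φ hφ = transp ψ hψ) : φ = ψ := by
  apply LinearMap.ext
  intro y
  funext u
  have h1 := transp_apply φ hφ ((toP D).symm u) y
  have h2 := transp_apply ψ hψ ((toP D).symm u) y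
  rw [MulEquiv.apply_symm_apply] at h1 h2
  rw [← h1, ← h2, h]

/-! ## The class group side -/

/-- the linear map attached to a homomorphism `Cl_T(K₁)/p → Y^*` -/
def clLin [NumberField ↥D.K1]
    (f : ClSModP ↥D.K1 p T →* Multiplicative (Module.Dual (ZMod p) Y)) :
    helper50.BscClP ↥D.K1 T p →ₗ[ZMod p] Module.Dual (ZMod p) Y :=
  AddMonoidHom.toZModLinearMap p
    (MonoidHom.toAdditiveLeft f : helper50.BscClP ↥D.K1 T p →+ Module.Dual (ZMod p) Y)

lemma clLin_apply [NumberField ↥D.K1]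
    (f : ClSModP ↥D.K1 p T →* Multiplicative (Module.Dual (ZMod p) Y))
    (x : helper50.BscClP ↥D.K1 T p) :
    clLin f x = Multiplicative.toAdd (f (Additive.toMul x)) := rfl

lemma clLin_mem [NumberField ↥D.K1]
    {f : ClSModP ↥D.K1 p T →* Multiplicative (Module.Dual (ZMod p) Y)}
    (hf : f ∈ clHom p T D.K1 (fun _ : Unit => D.sigmaC) (fun _ => ⇑(rOp D Y))) :
    clLin f ∈ eqv (helper50.bscClPOp ↥D.K1 T p D.sigmaC) (rOp D Y) := by
  rw [mem_eqv]
  apply LinearMap.ext
  intro x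
  have h1 := hf () (Additive.toMul x)
  show Multiplicative.toAdd (f (Fermat.Agent.P1.helper79.clSModPAut ℚ ↥D.K1 T p D.sigmaC
    (Additive.toMul x))) = rOp D Y (Multiplicative.toAdd (f (Additive.toMul x)))
  rw [h1]
  rfl

lemma clLin_injective [NumberField ↥D.K1]
    (f g : ClSModP ↥D.K1 p T →* Multiplicative (Module.Dual (ZMod p) Y))
    (h : clLin f = clLin g) : f = g := by
  apply MonoidHom.ext
  intro x
  have h1 := LinearMap.congr_fun h (Additive.ofMul x)
  rw [clLin_apply, clLin_apply] at h1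
  exact Multiplicative.toAdd.injective h1

/-! ## The statement -/

/-- **(R) in the consumer shape**: `mult(y', 𝐒𝐡) ≤ mult(χ(c) z, Cl_T(K₁)/p)`. -/
theorem classRec (p : ℕ) [Fact p.Prime] (T : Finset Nat.Primes) :
    helper50.ClassRecStatement p T := by
  intro hp2 hpT hB hF D _ Y hY
  classical
  haveI : Module.Finite (ZMod p) Y := hY.1
  haveI : Finite Y := Module.finite_of_finite (ZMod p)
  haveI : Finite (Module.Dual (ZMod p) Y) := Module.finite_of_finite (ZMod p)
  haveI hSHfin : Finite ↥(shaHom T D.K1 (fun _ : Unit => D.c) (fun _ => ⇑(rOp D Y))) :=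
    finite_shaHom hp2 (fun _ : Unit => D.c) (fun _ => D.sigmaC) (fun _ x => rfl) _
  have h1 : Nat.card ↥(shaHom T D.K1 (fun _ : Unit => D.c) (fun _ => ⇑(rOp D Y))) ≤
      Nat.card ↥(clHom p T D.K1 (fun _ : Unit => D.sigmaC) (fun _ => ⇑(rOp D Y))) :=
    card_shaHom_le hp2 (fun _ : Unit => D.c) (fun _ => D.sigmaC) (fun _ x => rfl) _
  -- the injection on the `Sha` side
  have hΨ : Function.Injective (fun φ : ↥(eqvIn (D.yTw Y) D.cs D.Shsp) =>
      (⟨transp φ.1 (fun y => (φ.2.2 y).1), transp_mem_shaHom hY φ.1 φ.2⟩ :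
        ↥(shaHom T D.K1 (fun _ : Unit => D.c) (fun _ => ⇑(rOp D Y))))) := by
    intro φ ψ h
    apply Subtype.ext
    exact transp_injective φ.1 ψ.1 (fun y => (φ.2.2 y).1) (fun y => (ψ.2.2 y).1)
      (congrArg Subtype.val h)
  haveI : Finite ↥(eqvIn (D.yTw Y) D.cs D.Shsp) := Finite.of_injective _ hΨ
  have h2 := Nat.card_le_card_of_injective _ hΨ
  -- the injection on the class group side
  haveI : Finite (helper50.BscClP ↥D.K1 T p) :=
    (inferInstance : Finite (Additive (ClSModP ↥D.K1 p T)))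
  haveI : Finite (helper50.BscClP ↥D.K1 T p →ₗ[ZMod p] Module.Dual (ZMod p) Y) :=
    Finite.of_injective (fun f => (f : helper50.BscClP ↥D.K1 T p → Module.Dual (ZMod p) Y))
      DFunLike.coe_injective
  have hΞ : Function.Injective
      (fun f : ↥(clHom p T D.K1 (fun _ : Unit => D.sigmaC) (fun _ => ⇑(rOp D Y))) =>
      (⟨clLin f.1, clLin_mem f.2⟩ :
        ↥(eqv (helper50.bscClPOp ↥D.K1 T p D.sigmaC) (rOp D Y)))) := by
    intro f g h
    apply Subtype.ext
    exact clLin_injective _ _ (congrArg Subtype.val h)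
  have h3 := Nat.card_le_card_of_injective _ hΞ
  -- cardinalities
  haveI : Finite ↥(eqv (helper50.bscClPOp ↥D.K1 T p D.sigmaC) (rOp D Y)) :=
    Finite.of_injective (fun f : ↥(eqv (helper50.bscClPOp ↥D.K1 T p D.sigmaC) (rOp D Y)) =>
      (f : helper50.BscClP ↥D.K1 T p →ₗ[ZMod p] Module.Dual (ZMod p) Y)) Subtype.val_injective
  have cA := card_eqvIn (D.yTw Y) D.cs D.Shsp
  have cB := card_eqv (helper50.bscClPOp ↥D.K1 T p D.sigmaC) (rOp D Y)
  rw [Nat.card_zmod] at cA cB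
  have h4 := (h2.trans h1).trans h3
  rw [cA, cB] at h4
  have h5 := (Nat.pow_le_pow_iff_right (Fact.out : p.Prime).one_lt).mp h4
  -- symmetry
  haveI : Module.Finite (ZMod p) (helper50.BscClP ↥D.K1 T p) := Module.Finite.of_finite
  have h6 : mlt (rOp D Y) (helper50.bscClPOp ↥D.K1 T p D.sigmaC) =
      mlt (helper50.bscClPOp ↥D.K1 T p D.sigmaC) (rOp D Y) :=
    Fermat.Agent.P1.helper24.absSymm _ _ _ _ _
  show mltIn (D.yTw Y) D.cs D.Shsp ≤ mlt (rOp D Y) (helper50.bscClPOp ↥D.K1 T p D.sigmaC)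
  rw [h6]
  exact h5

end ClassRec

end Fermat.Agent.P1.helper75
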