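import Fermat.Agent.P1.helper7_LSODefs

/-!
# P1 / module LSO, package LSO-CNT (helper78)

`cntStatement : Fermat.Agent.P1.helper7.CntStatement`.

Let `W, B ≤ N` be subspaces of a finite-dimensional smooth `𝔽_p[G]`-module such that
`g b - b ∈ W` for all `g ∈ G`, `b ∈ B`, and assume that the space `Z¹(G, W)` of level cocycles
with values in `W` is finite-dimensional.  Then the classes in `H¹(G, N)` of these cocycles form
a space of dimension `≤ dim Z¹(G, W) - dim B + dim H⁰(G, N)`.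

Proof: `δ : B → Z¹(G, W)`, `b ↦ (g ↦ g b - b)`, has kernel inside `H⁰(G, N)` and image inside the
kernel of `π : Z¹(G, W) → H¹(G, N)`, whose range is the space of classes; two applications of
rank-nullity.
-/

set_option autoImplicit false

open groupCohomology

noncomputable section

namespace Fermat.Agent.P1.helper78

open Fermat.Agent.S55 Fermat.Agent.P1.helper70 Fermat.Agent.P1.helper7

section Cnt

variable {p : ℕ} [Fact p.Prime] {G : Type} [Group G] (𝒩 : Levels G) (N : Rep (ZMod p) G)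

/-- a coboundary of a smooth module is a level cocycle. -/
theorem cnt_d₀₁_mem_Z1 (hN : IsSmooth 𝒩 N) (a : N) : (d₀₁ N).hom a ∈ Z1 𝒩 N := by
  refine ⟨?_, d₀₁_comp_d₁₂_apply N a⟩
  obtain ⟨N₀, hN₀, h⟩ := hN
  refine ⟨N₀, hN₀, fun g s hs => ?_⟩
  simp only [d₀₁_hom_apply, map_mul, Module.End.mul_apply, h s hs]

variable (W B : Submodule (ZMod p) N)

/-- `Z¹(G, W) ≤ Z¹(G, N)`. -/
theorem cnt_Z1In_le : Z1In 𝒩 N W ≤ Z1 𝒩 N := fun _ hc => (mem_Z1In.1 hc).1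

/-- the map `δ : B → Z¹(G, W)`, `b ↦ (g ↦ g b - b)`. -/
def cntDelta (hN : IsSmooth 𝒩 N) (hWB : ∀ g : G, ∀ b ∈ B, N.ρ g b - b ∈ W) :
    ↥B →ₗ[ZMod p] ↥(Z1In 𝒩 N W) :=
  LinearMap.codRestrict (Z1In 𝒩 N W) ((d₀₁ N).hom ∘ₗ B.subtype) fun b =>
    mem_Z1In.2 ⟨cnt_d₀₁_mem_Z1 𝒩 N hN b, fun g => by
      have := hWB g b b.2
      simpa only [LinearMap.comp_apply, Submodule.subtype_apply, d₀₁_hom_apply] using this⟩

theorem cntDelta_apply (hN : IsSmooth 𝒩 N) (hWB : ∀ g : G, ∀ b ∈ B, N.ρ g b - b ∈ W)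
    (b : ↥B) : ((cntDelta 𝒩 N W B hN hWB b : ↥(Z1In 𝒩 N W)) : G → N) = (d₀₁ N).hom (b : N) :=
  rfl

/-- the map `π : Z¹(G, W) → H¹(G, N)`. -/
def cntPi : ↥(Z1In 𝒩 N W) →ₗ[ZMod p] H1 𝒩 N :=
  (Submodule.mkQ ((B1 N).comap (Z1 𝒩 N).subtype)) ∘ₗ Submodule.inclusion (cnt_Z1In_le 𝒩 N W)

/-- the range of `π` is the space of classes of `Z¹(G, W) + B¹`. -/
theorem range_cntPi (hN : IsSmooth 𝒩 N) :
    LinearMap.range (cntPi 𝒩 N W) = classes 𝒩 N (Z1In 𝒩 N W ⊔ B1 N) := by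
  apply le_antisymm
  · rintro _ ⟨c, rfl⟩
    refine ⟨Submodule.inclusion (cnt_Z1In_le 𝒩 N W) c, ?_, rfl⟩
    exact Submodule.mem_sup_left c.2
  · rintro _ ⟨z, hz, rfl⟩
    obtain ⟨a, ha, b, hb, hab⟩ := Submodule.mem_sup.1 hz
    obtain ⟨b₀, rfl⟩ := hb
    refine ⟨⟨a, ha⟩, ?_⟩
    have hb' : (d₀₁ N).hom b₀ ∈ Z1 𝒩 N := cnt_d₀₁_mem_Z1 𝒩 N hN b₀
    have hz' : z = Submodule.inclusion (cnt_Z1In_le 𝒩 N W) ⟨a, ha⟩ + ⟨(d₀₁ N).hom b₀, hb'⟩ :=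
      Subtype.ext hab.symm
    rw [hz', map_add]
    have h0 : Submodule.mkQ ((B1 N).comap (Z1 𝒩 N).subtype)
        (⟨(d₀₁ N).hom b₀, hb'⟩ : ↥(Z1 𝒩 N)) = 0 := by
      rw [Submodule.mkQ_apply, Submodule.Quotient.mk_eq_zero]
      exact ⟨b₀, rfl⟩
    rw [h0, add_zero]
    rfl

/-- `range δ ≤ ker π`. -/
theorem range_cntDelta_le (hN : IsSmooth 𝒩 N) (hWB : ∀ g : G, ∀ b ∈ B, N.ρ g b - b ∈ W) :
    LinearMap.range (cntDelta 𝒩 N W B hN hWB) ≤ LinearMap.ker (cntPi 𝒩 N W) := by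
  rintro _ ⟨b, rfl⟩
  rw [LinearMap.mem_ker, cntPi, LinearMap.comp_apply, Submodule.mkQ_apply,
    Submodule.Quotient.mk_eq_zero]
  exact ⟨(b : N), rfl⟩

/-- `ker δ` embeds into `H⁰(G, N)`. -/
theorem finrank_ker_cntDelta_le [Module.Finite (ZMod p) N] (hN : IsSmooth 𝒩 N)
    (hWB : ∀ g : G, ∀ b ∈ B, N.ρ g b - b ∈ W) :
    Module.finrank (ZMod p) ↥(LinearMap.ker (cntDelta 𝒩 N W B hN hWB)) ≤
      Module.finrank (ZMod p) ↥(S55.H0 N) := by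
  have hmem : ∀ x : ↥(LinearMap.ker (cntDelta 𝒩 N W B hN hWB)),
      ((x : ↥B) : N) ∈ S55.H0 N := by
    rintro ⟨b, hb⟩ g
    have h1 : ((cntDelta 𝒩 N W B hN hWB b : ↥(Z1In 𝒩 N W)) : G → N) g = 0 := by
      rw [LinearMap.mem_ker.1 hb]
      rfl
    rw [cntDelta_apply, d₀₁_hom_apply, sub_eq_zero] at h1
    exact h1
  let f : ↥(LinearMap.ker (cntDelta 𝒩 N W B hN hWB)) →ₗ[ZMod p] ↥(S55.H0 N) :=
    LinearMap.codRestrict (S55.H0 N)
      (B.subtype ∘ₗ (LinearMap.ker (cntDelta 𝒩 N W B hN hWB)).subtype) hmem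
  refine LinearMap.finrank_le_finrank_of_injective (f := f) ?_
  intro x y hxy
  have h2 : ((f x : ↥(S55.H0 N)) : N) = ((f y : ↥(S55.H0 N)) : N) := congrArg Subtype.val hxy
  exact Subtype.ext (Subtype.ext h2)

end Cnt

/-- **LSO-CNT** (verbatim `helper7.CntStatement`). -/
theorem cntStatement : CntStatement := by
  intro p _ G _ 𝒩 N hfin hN W B hWB hZfin
  have hr := range_cntPi 𝒩 N W hN
  have hfinR : Module.Finite (ZMod p) ↥(LinearMap.range (cntPi 𝒩 N W)) :=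
    Module.Finite.range (cntPi 𝒩 N W)
  have e1 := LinearMap.finrank_range_add_finrank_ker (cntPi 𝒩 N W)
  have e2 := LinearMap.finrank_range_add_finrank_ker (cntDelta 𝒩 N W B hN hWB)
  have e3 := finrank_ker_cntDelta_le 𝒩 N W B hN hWB
  have e4 : Module.finrank (ZMod p) ↥(LinearMap.range (cntDelta 𝒩 N W B hN hWB)) ≤
      Module.finrank (ZMod p) ↥(LinearMap.ker (cntPi 𝒩 N W)) :=
    Submodule.finrank_mono (range_cntDelta_le 𝒩 N W B hN hWB)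
  rw [← hr]
  refine ⟨hfinR, ?_⟩
  omega

end Fermat.Agent.P1.helper78
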