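import Fermat.Agent.S55.helper79_Rec3H1E
import Fermat.Agent.S55.helper79_SUnit

/-!
# P1 / EC / BASE-STAR (helper79): Galois action on `T`-units, fixed points, ranks

For number fields and a finite set `T` of rational primes, `sUnits L T` (= `S55.helper79.sUnits`,
the `T`-units of `L`):

* `mem_sUnits_iff_isIntegral` : `u` is a `T`-unit iff `N ^ k u` and `N ^ k u⁻¹` are integral;
* `map_mem_sUnits_iff` : a ring homomorphism of number fields preserves and reflects `T`-units;
* `smul_mem_sUnits` : `T`-units are stable under automorphisms;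
* `fixedSUnits K L T H` : the `T`-units of `L` fixed by a subgroup `H ≤ Gal(L/K)`;
* `fixedSUnitsEquiv` : they are the `T`-units of the fixed field of `H`;
* `finrank_fixedSUnits` : their rank is `r₁ + r₂ - 1 + #T_E` for the fixed field `E` of `H`.
-/

set_option autoImplicit false
set_option linter.unusedSectionVars false
set_option linter.style.haveILetI false

open IsDedekindDomain NumberField
open scoped NumberField nonZeroDivisors

noncomputable section

namespace Fermat.Agent.P1.helper79

open Fermat.Agent.S55 Fermat.Agent.S55.helper79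

section Integral

variable {K : Type*} [Field K] [NumberField K] (T : Finset Nat.Primes)

/-- `u` is a `T`-unit iff `N ^ k u` and `N ^ k u⁻¹` are integral for some `k` -/
theorem mem_sUnits_iff_isIntegral (u : Kˣ) :
    u ∈ sUnits K T ↔ ∃ k : ℕ, IsIntegral ℤ (((sProd T : ℕ) : K) ^ k * (u : K)) ∧
      IsIntegral ℤ (((sProd T : ℕ) : K) ^ k * ((u⁻¹ : Kˣ) : K)) := by
  rw [sUnits, mem_sunit_iff]
  constructor
  · rintro ⟨k, x, y, hx, hy⟩
    exact ⟨k, hx ▸ RingOfIntegers.isIntegral_coe x, hy ▸ RingOfIntegers.isIntegral_coe y⟩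
  · rintro ⟨k, hx, hy⟩
    exact ⟨k, ⟨_, hx⟩, ⟨_, hy⟩, rfl, rfl⟩

variable {L : Type*} [Field L] [NumberField L]

/-- ring homomorphisms of number fields preserve and reflect `T`-units -/
theorem map_mem_sUnits_iff (f : K →+* L) (u : Kˣ) :
    Units.map (f : K →* L) u ∈ sUnits L T ↔ u ∈ sUnits K T := by
  rw [mem_sUnits_iff_isIntegral, mem_sUnits_iff_isIntegral]
  have key : ∀ (k : ℕ) (a : K), IsIntegral ℤ (((sProd T : ℕ) : L) ^ k * f a) ↔
      IsIntegral ℤ (((sProd T : ℕ) : K) ^ k * a) := by
    intro k a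
    have h1 : ((sProd T : ℕ) : L) ^ k * f a = f.toIntAlgHom (((sProd T : ℕ) : K) ^ k * a) := by
      simp
    rw [h1]
    exact isIntegral_algHom_iff f.toIntAlgHom f.injective
  have e1 : ((Units.map (f : K →* L) u : Lˣ) : L) = f (u : K) := rfl
  have e2 : (((Units.map (f : K →* L) u)⁻¹ : Lˣ) : L) = f ((u⁻¹ : Kˣ) : K) := by
    rw [← map_inv]; rfl
  rw [e1, e2]
  exact exists_congr fun k => and_congr (key k _) (key k _)

end Integral

section Galois

variable (K L : Type*) [Field K] [NumberField K] [Field L] [NumberField L] [Algebra K L]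
  (T : Finset Nat.Primes)

variable {K L T} in
/-- `T`-units are stable under automorphisms -/
theorem smul_mem_sUnits (σ : L ≃ₐ[K] L) {u : Lˣ} (hu : u ∈ sUnits L T) :
    σ • u ∈ sUnits L T := by
  have h : σ • u = Units.map ((σ : L →+* L) : L →* L) u := Units.ext rfl
  rw [h, map_mem_sUnits_iff]
  exact hu

variable {K L T} in
theorem smul_mem_sUnits_iff (σ : L ≃ₐ[K] L) {u : Lˣ} :
    σ • u ∈ sUnits L T ↔ u ∈ sUnits L T := by
  have h : σ • u = Units.map ((σ : L →+* L) : L →* L) u := Units.ext rfl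
  rw [h, map_mem_sUnits_iff]

/-- the `T`-units of `L` fixed by the subgroup `H` of `Gal(L/K)` -/
def fixedSUnits (H : Subgroup (L ≃ₐ[K] L)) : Subgroup Lˣ where
  carrier := {u | u ∈ sUnits L T ∧ ∀ σ ∈ H, σ • u = u}
  one_mem' := ⟨one_mem _, fun σ _ => smul_one σ⟩
  mul_mem' := by
    rintro a b ⟨ha, ha'⟩ ⟨hb, hb'⟩
    exact ⟨mul_mem ha hb, fun σ hσ => by rw [smul_mul', ha' σ hσ, hb' σ hσ]⟩
  inv_mem' := by
    rintro a ⟨ha, ha'⟩
    exact ⟨inv_mem ha, fun σ hσ => by rw [smul_inv', ha' σ hσ]⟩

variable {K L T} in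
lemma mem_fixedSUnits {H : Subgroup (L ≃ₐ[K] L)} {u : Lˣ} :
    u ∈ fixedSUnits K L T H ↔ u ∈ sUnits L T ∧ ∀ σ ∈ H, σ • u = u := Iff.rfl

/-- the inclusion of the `T`-units of the fixed field -/
def fixedSUnitsHom (H : Subgroup (L ≃ₐ[K] L)) :
    ↥(sUnits ↥(IntermediateField.fixedField H) T) →* ↥(fixedSUnits K L T H) where
  toFun u := ⟨Units.map ((algebraMap ↥(IntermediateField.fixedField H) L : _ →+* L) : _ →* L)
      (u : (↥(IntermediateField.fixedField H))ˣ), by
    refine ⟨(map_mem_sUnits_iff T _ _).2 u.2, fun σ hσ => ?_⟩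
    apply Units.ext
    exact ((u : (↥(IntermediateField.fixedField H))ˣ) : ↥(IntermediateField.fixedField H)).2
      ⟨σ, hσ⟩⟩
  map_one' := by
    apply Subtype.ext
    simp
  map_mul' a b := by
    apply Subtype.ext
    simp

lemma coe_fixedSUnitsHom (H : Subgroup (L ≃ₐ[K] L))
    (u : ↥(sUnits ↥(IntermediateField.fixedField H) T)) :
    (((fixedSUnitsHom K L T H u : ↥(fixedSUnits K L T H)) : Lˣ) : L) =
      (((u : (↥(IntermediateField.fixedField H))ˣ) : ↥(IntermediateField.fixedField H)) : L) :=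
  rfl

theorem fixedSUnitsHom_bijective (H : Subgroup (L ≃ₐ[K] L)) :
    Function.Bijective (fixedSUnitsHom K L T H) := by
  constructor
  · intro a b hab
    have h1 := congrArg (fun x : ↥(fixedSUnits K L T H) => ((x : Lˣ) : L)) hab
    simp only [coe_fixedSUnitsHom] at h1
    exact Subtype.ext (Units.ext (Subtype.ext h1))
  · rintro ⟨u, hu, hfix⟩
    have hmem : (u : L) ∈ IntermediateField.fixedField H := by
      intro σ
      have := congrArg (fun x : Lˣ => (x : L)) (hfix σ.1 σ.2)
      exact this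
    set u' : (↥(IntermediateField.fixedField H))ˣ :=
      Units.mk0 ⟨(u : L), hmem⟩ (fun h0 => u.ne_zero (congrArg Subtype.val h0)) with hu'
    have hmap : Units.map
        ((algebraMap ↥(IntermediateField.fixedField H) L : _ →+* L) : _ →* L) u' = u :=
      Units.ext rfl
    have hu'' : u' ∈ sUnits ↥(IntermediateField.fixedField H) T := by
      rw [← map_mem_sUnits_iff T (algebraMap ↥(IntermediateField.fixedField H) L), hmap]
      exact hu
    exact ⟨⟨u', hu''⟩, Subtype.ext hmap⟩

/-- the `H`-fixed `T`-units of `L` are the `T`-units of the fixed field of `H` -/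
def fixedSUnitsEquiv (H : Subgroup (L ≃ₐ[K] L)) :
    ↥(sUnits ↥(IntermediateField.fixedField H) T) ≃* ↥(fixedSUnits K L T H) :=
  MulEquiv.ofBijective (fixedSUnitsHom K L T H) (fixedSUnitsHom_bijective K L T H)

/-- **rank of the fixed `T`-units**: `r₁(E) + r₂(E) - 1 + #{places of E above T}` for the fixed
field `E` of `H`. -/
theorem finrank_fixedSUnits (H : Subgroup (L ≃ₐ[K] L)) :
    Module.finrank ℤ (Additive ↥(fixedSUnits K L T H)) =
      NumberField.Units.rank ↥(IntermediateField.fixedField H) +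
        Nat.card ↥(helper97.placesOver ↥(IntermediateField.fixedField H) T) := by
  haveI : Finite ↥(helper97.placesOver ↥(IntermediateField.fixedField H) T) :=
    (finite_placesOver _ T).to_subtype
  rw [← numberField_finrank_sunit]
  exact (LinearEquiv.finrank_eq
    ((MulEquiv.toAdditive (fixedSUnitsEquiv K L T H)).toIntLinearEquiv)).symm

end Galois

end Fermat.Agent.P1.helper79
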