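import Fermat.Agent.P1.helper79_BSSelAbs
import Fermat.Agent.P1.helper79_BSClAct
import Fermat.Agent.P1.helper79_BSUnits
import Fermat.Agent.S55.helper58_KumG3
import Fermat.Agent.S55.helper97_KumGAsm
import Fermat.Agent.S55.helper79_SUnitRelIndex

/-!
# P1 / EC / BASE-STAR (helper79): the Selmer sequence `1 → O_T^×/p → Sel_T → Cl_T[p] → 1`,
natural and Galois-equivariant

`L/K` number fields, `G = Gal(L/K)` (no Galois hypothesis; `K = ℚ` gives all automorphisms),
`T` a finite set of rational primes, `p : ℕ`.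

* `fracMap`, `fracAut K L σ` : the action on invertible fractional ideals
  (`fracAut_toPrincipalIdeal`, `fracAut_mk0`, `fracAut_mem_suppT`);
* `suppT L T` (ideals supported above `T`), `piT L T : 𝔉 →* ClS L T` (`piT_ker`, `piT_fracAut`);
* `Sel L T p` : Mathlib's `selmerGroup` for the places above `T`; `mk_mem_Sel_iff`;
* `SelRel L T p s c` : the class `c ∈ Cl_T` of the Selmer class `s` (`(a) = 𝔟ᵖ · (T-ideal)`,
  `c = [𝔟]`), with `SelRel.unique`, `SelRel.mul`, `selRel_one_iff`, `SelRel.pow_eq_one`,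
  `exists_selRel_of_pow_eq_one`, `SelRel.smul`;
* `selClass L T p hp : ↥(Sel L T p) →* ClS L T`, `unitsToSel L T p : ↥(sUnits L T) →* ↥(Sel L T p)`;
* **exactness** : `ker_unitsToSel` (`= p`-th powers), `ker_selClass` (`= range unitsToSel`),
  `range_selClass` (`= Cl_T[p]`);
* **actions** : `unitsAut`, `modPAut`, `selAut`, `sUnitsAut` (all `G →* MulAut _`), `subAut`;
* **equivariance** : `selClass_selAut`, `unitsToSel_sUnitsAut`.
-/

set_option autoImplicit false
set_option linter.unusedSectionVars false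
set_option linter.style.haveILetI false

open IsDedekindDomain NumberField FractionalIdeal
open scoped NumberField nonZeroDivisors

noncomputable section

namespace Fermat.Agent.P1.helper79

open Fermat.Agent.S55 Fermat.Agent.S55.helper79

/-! ## The action on fractional ideals -/

section Frac

variable {R : Type*} [CommRing R] [IsDedekindDomain R] (F : Type*) [Field F] [Algebra R F]
  [IsFractionRing R F]

/-- the action of a ring automorphism on invertible fractional ideals -/
def fracMap (g : R ≃+* R) : (FractionalIdeal R⁰ F)ˣ →* (FractionalIdeal R⁰ F)ˣ :=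
  Units.map (FractionalIdeal.ringEquivOfRingEquiv F F g : FractionalIdeal R⁰ F →* _)

lemma coe_fracMap (g : R ≃+* R) (I : (FractionalIdeal R⁰ F)ˣ) :
    ((fracMap F g I : (FractionalIdeal R⁰ F)ˣ) : FractionalIdeal R⁰ F) =
      FractionalIdeal.ringEquivOfRingEquiv F F g (I : FractionalIdeal R⁰ F) := rfl

lemma ringEquivOfRingEquiv_coeIdeal' (g : R ≃+* R) (I : Ideal R) :
    FractionalIdeal.ringEquivOfRingEquiv F F g (I : FractionalIdeal R⁰ F) =
      ((I.map (g : R →+* R) : Ideal R) : FractionalIdeal R⁰ F) := by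
  ext x
  rw [FractionalIdeal.mem_coeIdeal]
  constructor
  · intro hx
    rw [FractionalIdeal.ringEquivOfRingEquiv_apply] at hx
    obtain ⟨y, hy, rfl⟩ := hx
    obtain ⟨i, hi, rfl⟩ := (FractionalIdeal.mem_coeIdeal _).1 hy
    refine ⟨g i, Ideal.mem_map_of_mem _ hi, ?_⟩
    simp
  · rintro ⟨j, hj, rfl⟩
    rw [FractionalIdeal.ringEquivOfRingEquiv_apply]
    have hj' : g.symm j ∈ I := by
      have := Ideal.mem_map_of_mem (g.symm : R →+* R) hj
      rw [Ideal.map_map] at this
      simpa using this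
    refine ⟨algebraMap R F (g.symm j),
      (FractionalIdeal.mem_coeIdeal _).2 ⟨_, hj', rfl⟩, ?_⟩
    simp

theorem fracMap_mk0 (g : R ≃+* R) (I : (Ideal R)⁰) :
    fracMap F g (FractionalIdeal.mk0 F I) = FractionalIdeal.mk0 F (mapNZ g I) := by
  apply Units.ext
  rw [coe_fracMap, FractionalIdeal.coe_mk0, FractionalIdeal.coe_mk0, ringEquivOfRingEquiv_coeIdeal']
  rfl

theorem fracMap_toPrincipalIdeal (g : R ≃+* R) (a : Fˣ) :
    fracMap F g (toPrincipalIdeal R F a) =
      toPrincipalIdeal R F (Units.map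
        ((IsFractionRing.ringEquivOfRingEquiv (K := F) (L := F) g : F ≃+* F) : F →* F) a) := by
  apply Units.ext
  rw [coe_fracMap, coe_toPrincipalIdeal, coe_toPrincipalIdeal,
    FractionalIdeal.ringEquivOfRingEquiv_spanSingleton]
  rfl

end Frac

/-! ## The Galois action on fractional ideals of a number field -/

section Gal

variable (K L : Type*) [Field K] [NumberField K] [Field L] [NumberField L] [Algebra K L]
  (T : Finset Nat.Primes)

local notation "𝔉" => (FractionalIdeal (𝓞 L)⁰ L)ˣ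

/-- the action of `Gal(L/K)` on invertible fractional ideals -/
def fracAut (σ : L ≃ₐ[K] L) : 𝔉 →* 𝔉 := fracMap L (galRingEquiv K L σ)

variable {K L} in
lemma ringEquivOfRingEquiv_galRingEquiv (σ : L ≃ₐ[K] L) (x : L) :
    IsFractionRing.ringEquivOfRingEquiv (K := L) (L := L) (galRingEquiv K L σ) x = σ x := by
  have h : ((IsFractionRing.ringEquivOfRingEquiv (K := L) (L := L) (galRingEquiv K L σ) :
      L ≃+* L) : L →+* L) = ((σ : L ≃+* L) : L →+* L) := by
    apply IsLocalization.ringHom_ext (𝓞 L)⁰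
    ext y
    simp only [RingHom.comp_apply, RingHom.coe_coe]
    rw [IsFractionRing.ringEquivOfRingEquiv_algebraMap]
    rfl
  exact congrFun (congrArg DFunLike.coe h) x

variable {K L} in
theorem fracAut_toPrincipalIdeal (σ : L ≃ₐ[K] L) (a : Lˣ) :
    fracAut K L σ (toPrincipalIdeal (𝓞 L) L a) = toPrincipalIdeal (𝓞 L) L (σ • a) := by
  unfold fracAut
  rw [fracMap_toPrincipalIdeal]
  congr 1
  apply Units.ext
  exact ringEquivOfRingEquiv_galRingEquiv σ (a : L)

variable {K L} in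
theorem fracAut_mk0 (σ : L ≃ₐ[K] L) (I : (Ideal (𝓞 L))⁰) :
    fracAut K L σ (FractionalIdeal.mk0 L I) = FractionalIdeal.mk0 L (galNZ K L σ I) :=
  fracMap_mk0 L _ I

/-- the invertible fractional ideals supported above `T` -/
abbrev suppT : Subgroup 𝔉 := helper58.kg3Supp L (helper97.placesOver L T)

/-- the projection from invertible fractional ideals to `Cl_T` -/
def piT : 𝔉 →* ClS L T :=
  (QuotientGroup.mk' (Subgroup.closure (helper75.classesOverS L T))).comp (ClassGroup.mk L)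

variable {L T} in
lemma piT_mk0 (I : (Ideal (𝓞 L))⁰) :
    piT L T (FractionalIdeal.mk0 L I) = QuotientGroup.mk (ClassGroup.mk0 I) := by
  unfold piT
  rw [MonoidHom.comp_apply, ClassGroup.mk_mk0]
  rfl

lemma piT_surjective : Function.Surjective (piT L T) :=
  (QuotientGroup.mk'_surjective _).comp (helper58.kg3_mk_surjective L)

theorem piT_ker : (piT L T).ker = (toPrincipalIdeal (𝓞 L) L).range ⊔ suppT L T := by
  unfold piT
  rw [← MonoidHom.comap_ker, QuotientGroup.ker_mk', ← helper97.primeClasses_placesOver,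
    ← helper58.map_mk_kg3Supp L, Subgroup.comap_map_eq, helper58.kg3_ker_mk, sup_comm]

/-- two homomorphisms on invertible fractional ideals which agree on the primes are equal -/
theorem hom_ext_primes {H : Type*} [CommGroup H] (f g : 𝔉 →* H)
    (h : ∀ v : HeightOneSpectrum (𝓞 L), f (helper58.kg3Prime L v) = g (helper58.kg3Prime L v)) :
    f = g := by
  ext I
  obtain ⟨s, -, hI⟩ := helper58.kg3_factorization L I
  rw [hI, map_prod, map_prod]
  refine Finset.prod_congr rfl fun v _ => ?_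
  rw [map_zpow, map_zpow, h]

variable {L T} in
/-- the class of a prime above `T` is supported above `T` -/
lemma mk0_mem_suppT {I : (Ideal (𝓞 L))⁰} (hI : (I : Ideal (𝓞 L)) ∈ helper75.primesOverS L T) :
    FractionalIdeal.mk0 L I ∈ suppT L T := by
  obtain ⟨hprime, hne, hq⟩ := hI
  set w : HeightOneSpectrum (𝓞 L) := ⟨(I : Ideal (𝓞 L)), hprime, hne⟩ with hw
  have hwT : w ∈ helper97.placesOver L T := ⟨hprime, hne, hq⟩
  intro u hu
  have hne' : u ≠ w := by
    rintro rfl
    exact hu hwT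
  have h1 : ((FractionalIdeal.mk0 L I : 𝔉) : FractionalIdeal (𝓞 L)⁰ L) =
      ((w.asIdeal : Ideal (𝓞 L)) : FractionalIdeal (𝓞 L)⁰ L) := rfl
  rw [h1]
  exact FractionalIdeal.count_maximal_coprime L u hne'.symm

variable {K L T} in
theorem fracAut_mem_suppT (σ : L ≃ₐ[K] L) {g : 𝔉} (hg : g ∈ suppT L T) :
    fracAut K L σ g ∈ suppT L T := by
  obtain ⟨s, hs, hI⟩ := helper58.kg3_factorization L g
  rw [hI, map_prod]
  refine Subgroup.prod_mem _ fun v hv => ?_
  rw [map_zpow]
  refine Subgroup.zpow_mem _ ?_ _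
  have hvT : v ∈ helper97.placesOver L T := by
    by_contra hvT
    exact hs v hv (hg v hvT)
  have h1 : helper58.kg3Prime L v =
      FractionalIdeal.mk0 L ⟨v.asIdeal, mem_nonZeroDivisors_of_ne_zero v.ne_bot⟩ := rfl
  rw [h1, fracAut_mk0]
  apply mk0_mem_suppT
  exact map_mem_primesOverS σ hvT

variable {K L T} in
theorem piT_fracAut (σ : L ≃ₐ[K] L) (g : 𝔉) :
    piT L T (fracAut K L σ g) = clSAut K L T σ (piT L T g) := by
  have h := hom_ext_primes L ((piT L T).comp (fracAut K L σ))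
    ((clSAut K L T σ).toMonoidHom.comp (piT L T)) (fun v => by
      have h1 : helper58.kg3Prime L v =
          FractionalIdeal.mk0 L ⟨v.asIdeal, mem_nonZeroDivisors_of_ne_zero v.ne_bot⟩ := rfl
      rw [h1, MonoidHom.comp_apply, MonoidHom.comp_apply, fracAut_mk0, piT_mk0, piT_mk0]
      change _ = clSAut K L T σ _
      rw [clSAut_mk, clAut_mk0])
  exact congrFun (congrArg DFunLike.coe h) g

end Gal

/-! ## The Selmer group and the class map -/

section Sel

variable (K L : Type*) [Field K] [NumberField K] [Field L] [NumberField L] [Algebra K L]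
  (T : Finset Nat.Primes) (p : ℕ)

/-- the Selmer group `L(T, p) ≤ Lˣ / (Lˣ)ᵖ` (Mathlib's `selmerGroup` for the places above `T`) -/
abbrev Sel : Subgroup (Lˣ ⧸ (powMonoidHom p : Lˣ →* Lˣ).range) :=
  selmerGroup (R := 𝓞 L) (K := L) (S := helper97.placesOver L T) (n := p)

variable {L T p} in
lemma mk_mem_Sel_iff (a : Lˣ) :
    (QuotientGroup.mk a : Lˣ ⧸ (powMonoidHom p : Lˣ →* Lˣ).range) ∈ Sel L T p ↔
      toPrincipalIdeal (𝓞 L) L a ∈
        (powMonoidHom p : (FractionalIdeal (𝓞 L)⁰ L)ˣ →* _).range ⊔ suppT L T := by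
  have h := helper58.comap_root_eq (R := 𝓞 L) L (helper97.placesOver L T) p
  have h2 := congrArg (fun H : Subgroup Lˣ => a ∈ H) h
  simp only [Subgroup.mem_comap, QuotientGroup.mk'_apply] at h2
  exact (iff_of_eq h2).symm

/-- the relation between a Selmer class and its ideal class in `Cl_T` -/
def SelRel (s : Lˣ ⧸ (powMonoidHom p : Lˣ →* Lˣ).range) (c : ClS L T) : Prop :=
  ∃ a : Lˣ, (QuotientGroup.mk a : Lˣ ⧸ (powMonoidHom p : Lˣ →* Lˣ).range) = s ∧
    IsRoot (toPrincipalIdeal (𝓞 L) L) (suppT L T) p (piT L T) a c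

variable {L T p}

lemma range_le_ker_piT : (toPrincipalIdeal (𝓞 L) L).range ≤ (piT L T).ker := by
  rw [piT_ker]; exact le_sup_left

lemma suppT_le_ker_piT : suppT L T ≤ (piT L T).ker := by
  rw [piT_ker]; exact le_sup_right

lemma exists_selRel {s : Lˣ ⧸ (powMonoidHom p : Lˣ →* Lˣ).range} (hs : s ∈ Sel L T p) :
    ∃ c : ClS L T, SelRel L T p s c := by
  induction s using QuotientGroup.induction_on with
  | H a =>
    obtain ⟨c, hc⟩ := exists_isRoot (π := piT L T) ((mk_mem_Sel_iff a).1 hs)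
    exact ⟨c, a, rfl, hc⟩

lemma SelRel.mem {s : Lˣ ⧸ (powMonoidHom p : Lˣ →* Lˣ).range} {c : ClS L T}
    (h : SelRel L T p s c) : s ∈ Sel L T p := by
  obtain ⟨a, rfl, ha⟩ := h
  exact (mk_mem_Sel_iff a).2 ha.mem

/-- the class does not depend on the representative -/
lemma isRoot_of_mk_eq {a b : Lˣ}
    (hab : (QuotientGroup.mk a : Lˣ ⧸ (powMonoidHom p : Lˣ →* Lˣ).range) = QuotientGroup.mk b)
    {c : ClS L T} (h : IsRoot (toPrincipalIdeal (𝓞 L) L) (suppT L T) p (piT L T) a c) :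
    IsRoot (toPrincipalIdeal (𝓞 L) L) (suppT L T) p (piT L T) b c := by
  obtain ⟨y, hy⟩ := QuotientGroup.eq.1 hab
  have hb : b = a * y ^ p := by
    have : y ^ p = a⁻¹ * b := hy
    rw [this, mul_inv_cancel_left]
  rw [hb]
  exact IsRoot.mul_npow (P := toPrincipalIdeal (𝓞 L) L) (N := suppT L T) (n := p)
    (π := piT L T) (range_le_ker_piT (L := L) (T := T)) h y

theorem SelRel.unique (hp : 0 < p) {s : Lˣ ⧸ (powMonoidHom p : Lˣ →* Lˣ).range}
    {c c' : ClS L T} (h : SelRel L T p s c) (h' : SelRel L T p s c') : c = c' := by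
  obtain ⟨a, rfl, ha⟩ := h
  obtain ⟨b, hb, hb'⟩ := h'
  have hb'' := isRoot_of_mk_eq hb hb'
  exact IsRoot.unique (helper58.kg3Supp_root L _ p hp) suppT_le_ker_piT ha hb''

theorem SelRel.mul {s s' : Lˣ ⧸ (powMonoidHom p : Lˣ →* Lˣ).range} {c c' : ClS L T}
    (h : SelRel L T p s c) (h' : SelRel L T p s' c') : SelRel L T p (s * s') (c * c') := by
  obtain ⟨a, rfl, ha⟩ := h
  obtain ⟨b, rfl, hb⟩ := h'
  exact ⟨a * b, rfl, ha.mul hb⟩

theorem SelRel.pow_eq_one {s : Lˣ ⧸ (powMonoidHom p : Lˣ →* Lˣ).range} {c : ClS L T}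
    (h : SelRel L T p s c) : c ^ p = 1 := by
  obtain ⟨a, rfl, ha⟩ := h
  exact IsRoot.pow_eq_one (P := toPrincipalIdeal (𝓞 L) L) (N := suppT L T) (n := p)
    (π := piT L T) (range_le_ker_piT (L := L) (T := T)) (suppT_le_ker_piT (L := L) (T := T)) ha

theorem exists_selRel_of_pow_eq_one {c : ClS L T} (hc : c ^ p = 1) :
    ∃ s : Lˣ ⧸ (powMonoidHom p : Lˣ →* Lˣ).range, SelRel L T p s c := by
  obtain ⟨a, ha⟩ := exists_isRoot_of_pow_eq_one (P := toPrincipalIdeal (𝓞 L) L)
    (N := suppT L T) (piT_surjective L T) (piT_ker L T).le hc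
  exact ⟨QuotientGroup.mk a, a, rfl, ha⟩

/-- the kernel of the class map: the classes of the `T`-units -/
theorem selRel_one_iff (hp : 0 < p) {s : Lˣ ⧸ (powMonoidHom p : Lˣ →* Lˣ).range} :
    SelRel L T p s 1 ↔ ∃ u ∈ sUnits L T, (QuotientGroup.mk u : Lˣ ⧸ _) = s := by
  have hU : ∀ u : Lˣ, toPrincipalIdeal (𝓞 L) L u ∈ suppT L T ↔ u ∈ sUnits L T := by
    intro u
    have h := helper58.comap_kg3Supp (R := 𝓞 L) L (helper97.placesOver L T)
    have h2 := congrArg (fun H : Subgroup Lˣ => u ∈ H) h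
    simp only [Subgroup.mem_comap] at h2
    exact iff_of_eq h2
  constructor
  · rintro ⟨a, rfl, ha⟩
    obtain ⟨u, y, hu, rfl⟩ := (isRoot_one_iff (helper58.kg3Supp_root L _ p hp) suppT_le_ker_piT
      range_le_ker_piT (piT_ker L T).le).1 ha
    refine ⟨u, (hU u).1 hu, ?_⟩
    rw [QuotientGroup.eq]
    exact ⟨y, by simp⟩
  · rintro ⟨u, hu, rfl⟩
    refine ⟨u, rfl, ?_⟩
    exact (isRoot_one_iff (helper58.kg3Supp_root L _ p hp) suppT_le_ker_piT
      range_le_ker_piT (piT_ker L T).le).2 ⟨u, 1, (hU u).2 hu, by simp⟩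

end Sel

/-! ## Automorphisms of stable subgroups -/

section SubAut

variable {G A : Type*} [Group G] [Group A]

/-- the automorphisms induced on a stable subgroup -/
def subAut (φ : G →* MulAut A) (H : Subgroup A) (h : ∀ σ : G, ∀ a ∈ H, φ σ a ∈ H) :
    G →* MulAut ↥H where
  toFun σ :=
    { toFun := fun a => ⟨φ σ a, h σ a a.2⟩
      invFun := fun a => ⟨φ σ⁻¹ a, h σ⁻¹ a a.2⟩
      left_inv := by
        intro a
        apply Subtype.ext
        change φ σ⁻¹ (φ σ a) = a
        rw [← MulAut.mul_apply, ← map_mul, inv_mul_cancel, map_one, MulAut.one_apply]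
      right_inv := by
        intro a
        apply Subtype.ext
        change φ σ (φ σ⁻¹ a) = a
        rw [← MulAut.mul_apply, ← map_mul, mul_inv_cancel, map_one, MulAut.one_apply]
      map_mul' := by
        intro a b
        apply Subtype.ext
        exact map_mul (φ σ) _ _ }
  map_one' := by
    ext a
    change φ 1 a = a
    rw [map_one, MulAut.one_apply]
  map_mul' σ τ := by
    ext a
    change φ (σ * τ) a = φ σ (φ τ a)
    rw [map_mul, MulAut.mul_apply]

@[simp] lemma coe_subAut (φ : G →* MulAut A) (H : Subgroup A)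
    (h : ∀ σ : G, ∀ a ∈ H, φ σ a ∈ H) (σ : G) (a : ↥H) :
    ((subAut φ H h σ a : ↥H) : A) = φ σ a := rfl

end SubAut

/-! ## The homomorphisms of the Selmer sequence and their equivariance -/

section Hom

variable (K L : Type*) [Field K] [NumberField K] [Field L] [NumberField L] [Algebra K L]
  (T : Finset Nat.Primes) (p : ℕ)

/-- **the class map** `Sel_T(L) → Cl_T(L)` -/
def selClass (hp : 0 < p) : ↥(Sel L T p) →* ClS L T :=
  MonoidHom.mk' (fun s => (exists_selRel s.2).choose) (fun s s' =>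
    SelRel.unique hp (exists_selRel (s * s').2).choose_spec
      ((exists_selRel s.2).choose_spec.mul (exists_selRel s'.2).choose_spec))

variable {L T p} in
lemma selClass_spec (hp : 0 < p) (s : ↥(Sel L T p)) :
    SelRel L T p (s : Lˣ ⧸ (powMonoidHom p : Lˣ →* Lˣ).range) (selClass L T p hp s) :=
  (exists_selRel s.2).choose_spec

variable {L T p} in
lemma selClass_eq_iff (hp : 0 < p) (s : ↥(Sel L T p)) (c : ClS L T) :
    selClass L T p hp s = c ↔ SelRel L T p (s : Lˣ ⧸ (powMonoidHom p : Lˣ →* Lˣ).range) c :=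
  ⟨fun h => h ▸ selClass_spec hp s, fun h => SelRel.unique hp (selClass_spec hp s) h⟩

variable {L T} in
lemma toPrincipalIdeal_mem_suppT_iff (u : Lˣ) :
    toPrincipalIdeal (𝓞 L) L u ∈ suppT L T ↔ u ∈ sUnits L T := by
  have h := helper58.comap_kg3Supp (R := 𝓞 L) L (helper97.placesOver L T)
  have h2 := congrArg (fun H : Subgroup Lˣ => u ∈ H) h
  simp only [Subgroup.mem_comap] at h2
  exact iff_of_eq h2

/-- the map from the `T`-units to the Selmer group -/
def unitsToSel : ↥(sUnits L T) →* ↥(Sel L T p) where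
  toFun u := ⟨QuotientGroup.mk (u : Lˣ), (mk_mem_Sel_iff (u : Lˣ)).2
    ((le_sup_right : suppT L T ≤ _) ((toPrincipalIdeal_mem_suppT_iff (u : Lˣ)).2 u.2))⟩
  map_one' := rfl
  map_mul' _ _ := rfl

variable {L T p} in
@[simp] lemma coe_unitsToSel (u : ↥(sUnits L T)) :
    ((unitsToSel L T p u : ↥(Sel L T p)) : Lˣ ⧸ (powMonoidHom p : Lˣ →* Lˣ).range) =
      QuotientGroup.mk (u : Lˣ) := rfl

/-- exactness at the Selmer group -/
theorem ker_selClass (hp : 0 < p) : (selClass L T p hp).ker = (unitsToSel L T p).range := by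
  ext s
  rw [MonoidHom.mem_ker, selClass_eq_iff, selRel_one_iff hp]
  constructor
  · rintro ⟨u, hu, h⟩
    exact ⟨⟨u, hu⟩, Subtype.ext h⟩
  · rintro ⟨u, rfl⟩
    exact ⟨u, u.2, rfl⟩

/-- the image of the class map is the `p`-torsion of `Cl_T` -/
theorem range_selClass (hp : 0 < p) :
    (selClass L T p hp).range = (powMonoidHom p : ClS L T →* ClS L T).ker := by
  ext c
  rw [MonoidHom.mem_ker, powMonoidHom_apply]
  constructor
  · rintro ⟨s, rfl⟩
    exact (selClass_spec hp s).pow_eq_one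
  · intro hc
    obtain ⟨s, hs⟩ := exists_selRel_of_pow_eq_one hc
    exact ⟨⟨s, hs.mem⟩, (selClass_eq_iff hp _ _).2 hs⟩

/-- exactness at the units: the kernel of `O_T^× → Sel` is the group of `p`-th powers -/
theorem ker_unitsToSel (hp : p ≠ 0) :
    (unitsToSel L T p).ker = (powMonoidHom p : ↥(sUnits L T) →* ↥(sUnits L T)).range := by
  ext u
  rw [MonoidHom.mem_ker]
  constructor
  · intro h
    have h1 : (QuotientGroup.mk (u : Lˣ) : Lˣ ⧸ (powMonoidHom p : Lˣ →* Lˣ).range) = 1 :=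
      congrArg Subtype.val h
    rw [QuotientGroup.eq_one_iff] at h1
    obtain ⟨y, hy⟩ := h1
    have hy' : y ^ p = (u : Lˣ) := hy
    have hyS : y ∈ sUnits L T :=
      S55.helper79.mem_sunit_of_pow_mem L (helper97.placesOver L T) hp (hy'.symm ▸ u.2)
    exact ⟨⟨y, hyS⟩, Subtype.ext hy'⟩
  · rintro ⟨y, rfl⟩
    apply Subtype.ext
    rw [coe_unitsToSel]
    exact (QuotientGroup.eq_one_iff _).2 ⟨(y : Lˣ), rfl⟩

/-! ### The Galois actions -/

/-- the action of `Gal(L/K)` on `Lˣ` -/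
def unitsAut : (L ≃ₐ[K] L) →* MulAut Lˣ := MulDistribMulAction.toMulAut (L ≃ₐ[K] L) Lˣ

variable {K L} in
@[simp] lemma unitsAut_apply (σ : L ≃ₐ[K] L) (a : Lˣ) : unitsAut K L σ a = σ • a := rfl

/-- the action of `Gal(L/K)` on `Lˣ / (Lˣ)ᵖ` -/
def modPAut : (L ≃ₐ[K] L) →* MulAut (Lˣ ⧸ (powMonoidHom p : Lˣ →* Lˣ).range) :=
  quotAut (unitsAut K L) _ (fun σ a ha => by
    obtain ⟨y, rfl⟩ := ha
    exact ⟨σ • y, by simp [smul_pow']⟩)

variable {K L p} in
@[simp] lemma modPAut_mk (σ : L ≃ₐ[K] L) (a : Lˣ) :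
    modPAut K L p σ (QuotientGroup.mk a) = QuotientGroup.mk (σ • a) := rfl

variable {K L T p} in
/-- **equivariance** of the class relation -/
theorem SelRel.smul (σ : L ≃ₐ[K] L) {s : Lˣ ⧸ (powMonoidHom p : Lˣ →* Lˣ).range}
    {c : ClS L T} (h : SelRel L T p s c) :
    SelRel L T p (modPAut K L p σ s) (clSAut K L T σ c) := by
  obtain ⟨a, rfl, ha⟩ := h
  refine ⟨σ • a, rfl, ?_⟩
  exact IsRoot.map (P := toPrincipalIdeal (𝓞 L) L) (N := suppT L T) (n := p) (π := piT L T)
    (unitsAut K L σ).toMonoidHom (fracAut K L σ) (clSAut K L T σ).toMonoidHom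
    (fun b => (fracAut_toPrincipalIdeal σ b).symm) (fun z hz => fracAut_mem_suppT σ hz)
    (fun g => piT_fracAut σ g) ha

/-- the action of `Gal(L/K)` on the Selmer group -/
def selAut : (L ≃ₐ[K] L) →* MulAut ↥(Sel L T p) :=
  subAut (modPAut K L p) (Sel L T p) (fun σ _ hs =>
    ((exists_selRel hs).choose_spec.smul σ).mem)

variable {K L T p} in
@[simp] lemma coe_selAut (σ : L ≃ₐ[K] L) (s : ↥(Sel L T p)) :
    ((selAut K L T p σ s : ↥(Sel L T p)) : Lˣ ⧸ (powMonoidHom p : Lˣ →* Lˣ).range) =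
      modPAut K L p σ (s : Lˣ ⧸ (powMonoidHom p : Lˣ →* Lˣ).range) := rfl

/-- the action of `Gal(L/K)` on the `T`-units -/
def sUnitsAut : (L ≃ₐ[K] L) →* MulAut ↥(sUnits L T) :=
  subAut (unitsAut K L) (sUnits L T) (fun σ _ hu => smul_mem_sUnits σ hu)

variable {K L T} in
@[simp] lemma coe_sUnitsAut (σ : L ≃ₐ[K] L) (u : ↥(sUnits L T)) :
    ((sUnitsAut K L T σ u : ↥(sUnits L T)) : Lˣ) = σ • (u : Lˣ) := rfl

variable {K L T p} in
/-- the class map is equivariant -/
theorem selClass_selAut (hp : 0 < p) (σ : L ≃ₐ[K] L) (s : ↥(Sel L T p)) :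
    selClass L T p hp (selAut K L T p σ s) = clSAut K L T σ (selClass L T p hp s) :=
  (selClass_eq_iff hp _ _).2 ((selClass_spec hp s).smul σ)

variable {K L T p} in
/-- the map from the units is equivariant -/
theorem unitsToSel_sUnitsAut (σ : L ≃ₐ[K] L) (u : ↥(sUnits L T)) :
    unitsToSel L T p (sUnitsAut K L T σ u) = selAut K L T p σ (unitsToSel L T p u) := rfl

end Hom

end Fermat.Agent.P1.helper79
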