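import Mathlib

/-!
# P1 / EC / BASE-STAR (helper79): the abstract Selmer sequence, natural form

`P : A →* G` a homomorphism of commutative groups (`A = Kˣ`, `G` = invertible fractional ideals),
`N ≤ G` a subgroup with `g ^ n ∈ N → g ∈ N` (ideals supported in `T`), `π : G →* Q` a surjection
with kernel `P(A) N` (`Q = Cl_T`).  For `x ∈ A` with `P x ∈ G ^ n N` the class `π g` of an `n`-th
root `g` of `P x` modulo `N` is well defined:

* `IsRoot P N n π x q` : the relation; `IsRoot.unique`, `IsRoot.mul`, `exists_isRoot`;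
* `isRoot_one_iff` : kernel `= P⁻¹(N) · A ^ n`;
* `IsRoot.pow_eq_one`, `exists_isRoot_of_pow_eq_one` : image `= Q[n]`;
* `IsRoot.map` : naturality.
-/

set_option autoImplicit false
set_option linter.unusedSectionVars false

noncomputable section

namespace Fermat.Agent.P1.helper79

section SelAbs

variable {A G Q : Type*} [CommGroup A] [CommGroup G] [CommGroup Q]
  (P : A →* G) (N : Subgroup G) (n : ℕ) (π : G →* Q)

/-- `q` is the class of an `n`-th root of `P x` modulo `N` -/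
def IsRoot (x : A) (q : Q) : Prop := ∃ g z : G, z ∈ N ∧ g ^ n * z = P x ∧ π g = q

variable {P N n π}

lemma exists_isRoot {x : A}
    (hx : P x ∈ (powMonoidHom n : G →* G).range ⊔ N) : ∃ q : Q, IsRoot P N n π x q := by
  obtain ⟨_, ⟨g, rfl⟩, z, hz, h⟩ := Subgroup.mem_sup.mp hx
  exact ⟨π g, g, z, hz, h, rfl⟩

lemma IsRoot.mem {x : A} {q : Q} (h : IsRoot P N n π x q) :
    P x ∈ (powMonoidHom n : G →* G).range ⊔ N := by
  obtain ⟨g, z, hz, hg, -⟩ := h
  rw [← hg]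
  exact Subgroup.mul_mem_sup ⟨g, rfl⟩ hz

lemma isRoot_one : IsRoot P N n π (1 : A) (1 : Q) :=
  ⟨1, 1, one_mem _, by simp, map_one _⟩

lemma IsRoot.mul {x y : A} {q q' : Q} (h : IsRoot P N n π x q) (h' : IsRoot P N n π y q') :
    IsRoot P N n π (x * y) (q * q') := by
  obtain ⟨g, z, hz, hg, rfl⟩ := h
  obtain ⟨g', z', hz', hg', rfl⟩ := h'
  refine ⟨g * g', z * z', mul_mem hz hz', ?_, map_mul _ _ _⟩
  rw [map_mul, ← hg, ← hg', mul_pow]
  exact mul_mul_mul_comm _ _ _ _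

lemma IsRoot.inv {x : A} {q : Q} (h : IsRoot P N n π x q) : IsRoot P N n π x⁻¹ q⁻¹ := by
  obtain ⟨g, z, hz, hg, rfl⟩ := h
  refine ⟨g⁻¹, z⁻¹, inv_mem hz, ?_, map_inv _ _⟩
  rw [map_inv, ← hg, inv_pow, mul_inv]

/-- multiplying by an `n`-th power does not change the class -/
lemma IsRoot.mul_npow (hπ : P.range ≤ π.ker) {x : A} {q : Q} (h : IsRoot P N n π x q) (y : A) :
    IsRoot P N n π (x * y ^ n) q := by
  obtain ⟨g, z, hz, hg, rfl⟩ := h
  refine ⟨g * P y, z, hz, ?_, ?_⟩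
  · rw [map_mul, map_pow, ← hg, mul_pow]
    exact mul_right_comm _ _ _
  · rw [map_mul, (hπ ⟨y, rfl⟩ : π (P y) = 1), mul_one]

variable (hN : ∀ g : G, g ^ n ∈ N → g ∈ N) (hNπ : N ≤ π.ker)
include hN hNπ

/-- the class is unique -/
theorem IsRoot.unique {x : A} {q q' : Q} (h : IsRoot P N n π x q) (h' : IsRoot P N n π x q') :
    q = q' := by
  obtain ⟨g, z, hz, hg, rfl⟩ := h
  obtain ⟨g', z', hz', hg', rfl⟩ := h'
  have h1 : (g / g') ^ n ∈ N := by
    have : (g / g') ^ n = z' / z := by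
      rw [div_pow, div_eq_div_iff_mul_eq_mul, hg, mul_comm, hg']
    rw [this]
    exact N.div_mem hz' hz
  have h2 : π (g / g') = 1 := hNπ (hN _ h1)
  rw [map_div, div_eq_one] at h2
  exact h2

omit hN hNπ in
/-- the image consists of classes killed by `n` -/
theorem IsRoot.pow_eq_one (hπ : P.range ≤ π.ker) (hNπ : N ≤ π.ker) {x : A} {q : Q}
    (h : IsRoot P N n π x q) : q ^ n = 1 := by
  obtain ⟨g, z, hz, hg, rfl⟩ := h
  rw [← map_pow]
  have h1 : g ^ n = P x * z⁻¹ := by rw [← hg, mul_inv_cancel_right]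
  rw [h1, map_mul, map_inv, (hπ ⟨x, rfl⟩ : π (P x) = 1), (hNπ hz : π z = 1), inv_one, mul_one]

omit hN hNπ in
/-- every class killed by `n` is in the image -/
theorem exists_isRoot_of_pow_eq_one (hsurj : Function.Surjective π)
    (hker : π.ker ≤ P.range ⊔ N) {q : Q} (hq : q ^ n = 1) : ∃ x : A, IsRoot P N n π x q := by
  obtain ⟨g, rfl⟩ := hsurj q
  rw [← map_pow] at hq
  obtain ⟨_, ⟨x, rfl⟩, m, hm, h2⟩ := Subgroup.mem_sup.mp (hker hq)
  refine ⟨x, g, m⁻¹, inv_mem hm, ?_, rfl⟩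
  rw [← h2, mul_inv_cancel_right]

/-- the kernel: `P⁻¹(N) · A ^ n` -/
theorem isRoot_one_iff (hπ : P.range ≤ π.ker) (hker : π.ker ≤ P.range ⊔ N) {x : A} :
    IsRoot P N n π x 1 ↔ ∃ u y : A, P u ∈ N ∧ x = u * y ^ n := by
  constructor
  · rintro ⟨g, z, hz, hg, hg1⟩
    obtain ⟨_, ⟨y, rfl⟩, m, hm, h2⟩ := Subgroup.mem_sup.mp (hker hg1)
    refine ⟨x / y ^ n, y, ?_, by rw [div_mul_cancel]⟩
    rw [map_div, map_pow, ← hg, ← h2, mul_pow]
    have : (P y) ^ n * m ^ n * z / (P y) ^ n = m ^ n * z := by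
      rw [mul_assoc, mul_div_cancel_left]
    rw [this]
    exact N.mul_mem (N.pow_mem hm n) hz
  · rintro ⟨u, y, hu, rfl⟩
    have h1 : IsRoot P N n π u 1 := ⟨1, P u, hu, by simp, map_one _⟩
    exact h1.mul_npow hπ y

omit hN hNπ in
/-- naturality -/
theorem IsRoot.map (α : A →* A) (β : G →* G) (γ : Q →* Q) (hαβ : ∀ a, P (α a) = β (P a))
    (hβN : ∀ z ∈ N, β z ∈ N) (hβγ : ∀ g, π (β g) = γ (π g)) {x : A} {q : Q}
    (h : IsRoot P N n π x q) : IsRoot P N n π (α x) (γ q) := by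
  obtain ⟨g, z, hz, hg, rfl⟩ := h
  refine ⟨β g, β z, hβN z hz, ?_, hβγ g⟩
  rw [hαβ, ← hg, map_mul, map_pow]

end SelAbs

end Fermat.Agent.P1.helper79
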