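import Fermat.Agent.P1.helper63_ECDefs2

/-!
# P1 / module EC / BASE-STAR (helper7, sub-coordinator): shared definitions

BASE-STAR = the equivariant arithmetic core of Tate's global Euler characteristic formula:
`helper63.BaseStarOut p T`, the lower bound for `h¹(G_T, Ind_C^G Y)`.

Standing notation (`D : BSData p T`): `G = G_ℚ`, `𝒩 = galLevels T`, `N₀ ∈ 𝒩` a level on which the
cyclotomic character `χ` is trivial, `N₀ ≤ C ≤ G` with `C = ⟨c⟩ N₀`, `P = D.pSub` the subgroup of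
`C` generated by the elements of `p`-power order modulo `N₀` (`N₀ ≤ P`, `P` normal in `C`,
`C / P` cyclic of order prime to `p`, generated by `c`; `χ` is trivial on `P`), `K₁` the fixed
field of `P` (it contains `ζ_p`), `k = ZMod p`.

* `eqv a b`, `eqvIn a b W`, `mlt`, `mltIn` : the space of linear maps intertwining two operators
  (with values in a subspace `W`), and its dimension ("multiplicity");
* `BSData p T`  : the datum `(N₀, C, c)`;
* `D.pSub`      : `P`;
* `D.levP`      : the levels of `P`;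
* `D.Hsp`       : `𝐇 = Hom(P, k)` (level-constant homomorphisms = `Z¹(P, k)`), a subspace of
                  `D.Fun = (P → k)`;
* `D.cs`        : the conjugation operator `(cs x)(u) = x(c⁻¹ u c)` on `P → k`;
* `D.Usp`, `D.Msp` : the Kummer characters of the `T`-units of `K₁`, of the roots of unity;
* `D.Shsp`      : the elements of `𝐇` which vanish on all conjugates of all decomposition groups
                  at the primes of `T`;
* `rtr c`, `dcFun Dv P` : right translation by `c` on functions `G → k`, and the space of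
                  functions on the double cosets `Dv \ G / P`;
* `D.dec v`     : the decomposition groups (`v : Option T`, `none` = complex conjugation);
* `D.zY Y`, `D.yTw Y`, `D.fixY Y`, `D.fixY' Y` : the operators attached to a `C`-module `Y`.

DEFINITIONS ONLY (plus the three closure lemmas needed to state them).
-/

set_option autoImplicit false

open groupCohomology ExtCitation

noncomputable section

namespace Fermat.Agent.P1.helper7

open Fermat.Agent.S55 Fermat.Agent.P1.helper70 Fermat.Agent.P1.helper63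

/-! ## Multiplicities -/

section Abstract

variable {k : Type} [Field k]
variable {A B : Type} [AddCommGroup A] [Module k A] [AddCommGroup B] [Module k B]

/-- The space of maps `φ : A → B` intertwining the operators `a` and `b`: `φ ∘ a = b ∘ φ`. -/
def eqv (a : A →ₗ[k] A) (b : B →ₗ[k] B) : Submodule k (A →ₗ[k] B) where
  carrier := {φ | φ ∘ₗ a = b ∘ₗ φ}
  add_mem' := by
    intro φ ψ hφ hψ
    change φ ∘ₗ a = b ∘ₗ φ at hφ
    change ψ ∘ₗ a = b ∘ₗ ψ at hψ
    change (φ + ψ) ∘ₗ a = b ∘ₗ (φ + ψ)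
    rw [LinearMap.add_comp, LinearMap.comp_add, hφ, hψ]
  zero_mem' := by
    change (0 : A →ₗ[k] B) ∘ₗ a = b ∘ₗ 0
    simp
  smul_mem' := by
    intro r φ hφ
    change φ ∘ₗ a = b ∘ₗ φ at hφ
    change (r • φ) ∘ₗ a = b ∘ₗ (r • φ)
    rw [LinearMap.smul_comp, LinearMap.comp_smul, hφ]

@[simp] lemma mem_eqv {a : A →ₗ[k] A} {b : B →ₗ[k] B} {φ : A →ₗ[k] B} :
    φ ∈ eqv a b ↔ φ ∘ₗ a = b ∘ₗ φ := Iff.rfl

/-- The intertwining maps with values in the subspace `W`. -/
def eqvIn (a : A →ₗ[k] A) (b : B →ₗ[k] B) (W : Submodule k B) : Submodule k (A →ₗ[k] B) where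
  carrier := {φ | φ ∘ₗ a = b ∘ₗ φ ∧ ∀ x, φ x ∈ W}
  add_mem' := by
    rintro φ ψ ⟨hφ, hφ'⟩ ⟨hψ, hψ'⟩
    refine ⟨?_, fun x => W.add_mem (hφ' x) (hψ' x)⟩
    rw [LinearMap.add_comp, LinearMap.comp_add, hφ, hψ]
  zero_mem' := ⟨by simp, fun _ => W.zero_mem⟩
  smul_mem' := by
    rintro r φ ⟨hφ, hφ'⟩
    refine ⟨?_, fun x => W.smul_mem r (hφ' x)⟩
    rw [LinearMap.smul_comp, LinearMap.comp_smul, hφ]

@[simp] lemma mem_eqvIn {a : A →ₗ[k] A} {b : B →ₗ[k] B} {W : Submodule k B} {φ : A →ₗ[k] B} :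
    φ ∈ eqvIn a b W ↔ φ ∘ₗ a = b ∘ₗ φ ∧ ∀ x, φ x ∈ W := Iff.rfl

/-- multiplicity: `dim Hom_{a,b}(A, B)` -/
def mlt (a : A →ₗ[k] A) (b : B →ₗ[k] B) : ℕ := Module.finrank k ↥(eqv a b)

/-- multiplicity in a subspace: `dim Hom_{a,b}(A, W)` -/
def mltIn (a : A →ₗ[k] A) (b : B →ₗ[k] B) (W : Submodule k B) : ℕ :=
  Module.finrank k ↥(eqvIn a b W)

/-- right translation by `c` on functions `G → k`: `(rtr c F)(g) = F (g * c)` -/
def rtr {G : Type} [Group G] (c : G) : (G → k) →ₗ[k] (G → k) where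
  toFun F := fun g => F (g * c)
  map_add' _ _ := rfl
  map_smul' _ _ := rfl

@[simp] lemma rtr_apply {G : Type} [Group G] (c : G) (F : G → k) (g : G) :
    rtr c F g = F (g * c) := rfl

/-- functions on the double cosets `Dv \ G / P` -/
def dcFun {G : Type} [Group G] (Dv P : Subgroup G) : Submodule k (G → k) where
  carrier := {F | ∀ d ∈ Dv, ∀ u ∈ P, ∀ g : G, F (d * g * u) = F g}
  add_mem' := by
    intro F F' hF hF' d hd u hu g
    simp only [Pi.add_apply, hF d hd u hu g, hF' d hd u hu g]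
  zero_mem' := fun _ _ _ _ _ => rfl
  smul_mem' := by
    intro r F hF d hd u hu g
    simp only [Pi.smul_apply, hF d hd u hu g]

@[simp] lemma mem_dcFun {G : Type} [Group G] {Dv P : Subgroup G} {F : G → k} :
    F ∈ dcFun (k := k) Dv P ↔ ∀ d ∈ Dv, ∀ u ∈ P, ∀ g : G, F (d * g * u) = F g := Iff.rfl

end Abstract

/-! ## The datum -/

/-- The datum of BASE-STAR: a level `N₀` on which the cyclotomic character is trivial and a
subgroup `C = ⟨c⟩ N₀`. -/
structure BSData (p : ℕ) [Fact p.Prime] (T : Finset Nat.Primes) where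
  /-- the level -/
  N₀ : Subgroup GQ
  /-- the subgroup -/
  C : Subgroup GQ
  /-- the generator of `C` modulo `N₀` -/
  c : GQ
  hN₀ : N₀ ∈ (galLevels T).mem
  hχ : ∀ g ∈ N₀, cycloChar p g = 1
  hle : N₀ ≤ C
  hc : c ∈ C
  hgen : ∀ x ∈ C, ∃ m : ℕ, x⁻¹ * c ^ m ∈ N₀

namespace BSData

variable {p : ℕ} [Fact p.Prime] {T : Finset Nat.Primes} (D : BSData p T)

/-- `N₀` is normal in `G_ℚ`. -/
lemma normal_N₀ : D.N₀.Normal := (galLevels T).normal D.N₀ D.hN₀

/-- `C = ⟨c⟩ N₀` in the form of `helper63.IsCyclicMod`. -/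
lemma isCyclicMod : IsCyclicMod D.C D.N₀ := ⟨D.c, D.hc, D.hgen⟩

/-- `P`: the subgroup of `C` generated by the elements of `p`-power order modulo `N₀`. -/
def pSub : Subgroup GQ := Subgroup.closure {u | u ∈ D.C ∧ ∃ m : ℕ, u ^ p ^ m ∈ D.N₀}

lemma le_pSub : D.N₀ ≤ D.pSub := fun g hg =>
  Subgroup.subset_closure ⟨D.hle hg, 0, by simpa using hg⟩

lemma pSub_le : D.pSub ≤ D.C :=
  (Subgroup.closure_le D.C).2 fun _ hu => hu.1

/-- `P` is normalised by `C`. -/
lemma conj_mem_pSub {g u : GQ} (hg : g ∈ D.C) (hu : u ∈ D.pSub) : g * u * g⁻¹ ∈ D.pSub := by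
  have hn := D.normal_N₀
  induction hu using Subgroup.closure_induction with
  | mem x hx =>
    obtain ⟨hxC, m, hm⟩ := hx
    refine Subgroup.subset_closure ⟨D.C.mul_mem (D.C.mul_mem hg hxC) (D.C.inv_mem hg), m, ?_⟩
    rw [conj_pow]
    exact hn.conj_mem _ hm g
  | one => simp
  | mul x y _ _ hx hy =>
    have : g * (x * y) * g⁻¹ = (g * x * g⁻¹) * (g * y * g⁻¹) := by group
    rw [this]
    exact D.pSub.mul_mem hx hy
  | inv x _ hx =>
    have : g * x⁻¹ * g⁻¹ = (g * x * g⁻¹)⁻¹ := by group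
    rw [this]
    exact D.pSub.inv_mem hx

lemma conj_mem_pSub' {u : GQ} (hu : u ∈ D.pSub) : D.c⁻¹ * u * D.c ∈ D.pSub := by
  have := D.conj_mem_pSub (D.C.inv_mem D.hc) hu
  rwa [inv_inv] at this

/-- `P` contains a level. -/
lemma exists_level_le_pSub : ∃ N ∈ (galLevels T).mem, N ≤ D.pSub := ⟨D.N₀, D.hN₀, D.le_pSub⟩

/-- `C` contains a level. -/
lemma exists_level_le_C : ∃ N ∈ (galLevels T).mem, N ≤ D.C := ⟨D.N₀, D.hN₀, D.hle⟩

/-- the levels of `P` -/
def levP : Levels ↥D.pSub := helper35.restrictLevels (galLevels T) D.pSub D.exists_level_le_pSub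

/-- the ambient function space `P → k` -/
abbrev Fun : Type := ↥D.pSub → helper35.trivRep (ZMod p) ↥D.pSub

/-- `𝐇 = Z¹(P, k) = Hom(P, k)` (level-constant) -/
def Hsp : Submodule (ZMod p) D.Fun := Z1 D.levP (helper35.trivRep (ZMod p) ↥D.pSub)

/-- conjugation by `c`: `(cs x)(u) = x (c⁻¹ u c)` -/
def cs : D.Fun →ₗ[ZMod p] D.Fun where
  toFun x := fun u => x ⟨D.c⁻¹ * (u : GQ) * D.c, D.conj_mem_pSub' u.2⟩
  map_add' _ _ := rfl
  map_smul' _ _ := rfl

@[simp] lemma cs_apply (x : D.Fun) (u : ↥D.pSub) :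
    D.cs x u = x ⟨D.c⁻¹ * (u : GQ) * D.c, D.conj_mem_pSub' u.2⟩ := rfl

/-- `α` is a `T`-unit of `ℚbar`: nonzero, of valuation `1` at all places outside `T`. -/
def IsTUnitBar (T : Finset Nat.Primes) (α : AlgebraicClosure ℚ) : Prop :=
  α ≠ 0 ∧ ∀ q : Nat.Primes, q ∉ T → ∀ A : ValuationSubring (AlgebraicClosure ℚ),
    A.LiesOverPrime (q : ℕ) → A.valuation α = 1

/-- `x` is the Kummer character of `α ^ p ∈ K₁` with respect to `ζ`:
`u α = ζ ^ x(u) α` for all `u ∈ P`. -/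
def IsKum (ζ α : AlgebraicClosure ℚ) (x : D.Fun) : Prop :=
  IsPrimitiveRoot ζ p ∧ ∀ u : ↥D.pSub, (u : GQ) α = ζ ^ (x u : ZMod p).val * α

/-- `𝐔`: the span of the Kummer characters of the `T`-units of `K₁`. -/
def Usp : Submodule (ZMod p) D.Fun :=
  Submodule.span (ZMod p) {x | ∃ ζ α : AlgebraicClosure ℚ, D.IsKum ζ α x ∧ IsTUnitBar T α}

/-- `𝐌`: the span of the Kummer characters of the roots of unity of `K₁`. -/
def Msp : Submodule (ZMod p) D.Fun :=
  Submodule.span (ZMod p)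
    {x | ∃ ζ α : AlgebraicClosure ℚ, D.IsKum ζ α x ∧ ∃ m : ℕ, 0 < m ∧ α ^ m = 1}

/-- the decomposition groups: `none` = complex conjugation, `some v` = the image of the local
Galois group at `v ∈ T` -/
def dec (_D : BSData p T) : Option ↥T → Subgroup GQ
  | none => Subgroup.zpowers complexConjugation
  | some v => (primeLocalToGlobal v.1).range

/-- `𝐒𝐡`: the elements of `𝐇` which vanish on all conjugates of the decomposition groups at the
primes of `T`. -/
def Shsp : Submodule (ZMod p) D.Fun where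
  carrier := {x | x ∈ D.Hsp ∧ ∀ (v : ↥T) (g : GQ) (h : primeLocalGaloisGroup v.1)
    (hu : g * primeLocalToGlobal v.1 h * g⁻¹ ∈ D.pSub), x ⟨_, hu⟩ = 0}
  add_mem' := by
    rintro x y ⟨hx, hx'⟩ ⟨hy, hy'⟩
    refine ⟨D.Hsp.add_mem hx hy, fun v g h hu => ?_⟩
    rw [Pi.add_apply, hx' v g h hu, hy' v g h hu, add_zero]
  zero_mem' := ⟨D.Hsp.zero_mem, fun _ _ _ _ => rfl⟩
  smul_mem' := by
    rintro r x ⟨hx, hx'⟩
    refine ⟨D.Hsp.smul_mem r hx, fun v g h hu => ?_⟩
    rw [Pi.smul_apply, hx' v g h hu, smul_zero]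

/-! ## The operators attached to a `C`-module -/

variable (Y : Rep.{0} (ZMod p) ↥D.C)

/-- `c` as an element of `C` -/
def cC : ↥D.C := ⟨D.c, D.hc⟩

/-- the contragredient operator of `c` on `Y^*`: `f ↦ f ∘ ρ(c⁻¹)` -/
def zY : Module.Dual (ZMod p) Y →ₗ[ZMod p] Module.Dual (ZMod p) Y :=
  (Y.ρ D.cC⁻¹).dualMap

/-- the operator `χ(c)⁻¹ ρ(c)` on `Y` (the contragredient of `c` on `(Y^*(1))^*`) -/
def yTw : Y →ₗ[ZMod p] Y :=
  (((cycloChar p D.c)⁻¹ : (ZMod p)ˣ) : ZMod p) • Y.ρ D.cC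

/-- `dim Y^c` -/
def fixY : ℕ := Module.finrank (ZMod p) ↥(LinearMap.ker (Y.ρ D.cC - 1))

/-- `dim (Y^*(1))^c` -/
def fixY' : ℕ :=
  Module.finrank (ZMod p)
    ↥(LinearMap.ker ((((cycloChar p D.c : (ZMod p)ˣ) : ZMod p)) • D.zY Y - 1))

end BSData

end Fermat.Agent.P1.helper7
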