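import Fermat.Agent.P1.helper7_BSProps
import Fermat.Agent.P1.helper79_BSUnits
import Fermat.Agent.S55.helper97_KumGDefs

/-!
# P1 / module EC / BASE-STAR (helper7): the field `K₁` and the Kummer bridge

* `D.K1`       : the fixed field of `P = D.pSub` (an `IntermediateField ℚ ℚbar`);
* `D.sigmaC`   : the automorphism of `K₁` induced by `c` (`c` normalises `P`);
* `KumBridgeStatement` (**BS-KUM**) : the junction between the function spaces
  `𝐇 = D.Hsp ⊇ 𝐔 = D.Usp ⊇ 𝐌 = D.Msp` of `helper7_BSDefs` and the arithmetic of `K₁`: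
  the Kummer map `κ : K₁ˣ → (P → 𝔽_p)`, `a ↦ (u ↦ x with u α = ζ^x α, α^p = a)`, is a
  homomorphism with kernel the `p`-th powers, `κ a ∈ 𝐇 ↔ a` is a Selmer element
  (`p ∣ ord_v a` outside `T`), every element of `𝐇` is a `κ a`, `𝐔 = κ(T-units)`,
  `𝐌 = κ(roots of unity)`, and `cs (κ a) = χ(c)⁻¹ κ (σ_c a)`.

DEFINITIONS ONLY.
-/

set_option autoImplicit false

open groupCohomology ExtCitation

noncomputable section

namespace Fermat.Agent.P1.helper7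

open Fermat.Agent.S55 Fermat.Agent.P1.helper70 Fermat.Agent.P1.helper63

namespace BSData

variable {p : ℕ} [Fact p.Prime] {T : Finset Nat.Primes} (D : BSData p T)

/-- `K₁`: the fixed field of `P`. -/
def K1 : IntermediateField ℚ (AlgebraicClosure ℚ) := IntermediateField.fixedField D.pSub

lemma mem_K1_iff (x : AlgebraicClosure ℚ) : x ∈ D.K1 ↔ ∀ u ∈ D.pSub, u x = x := by
  rw [K1, IntermediateField.mem_fixedField_iff]

/-- `c` maps `K₁` into itself. -/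
lemma c_apply_mem_K1 {x : AlgebraicClosure ℚ} (hx : x ∈ D.K1) : D.c x ∈ D.K1 := by
  rw [mem_K1_iff] at hx ⊢
  intro u hu
  have h := hx _ (D.conj_mem_pSub' hu)
  have h2 : u (D.c x) = D.c ((D.c⁻¹ * u * D.c) x) := by
    simp [AlgEquiv.mul_apply]
  rw [h2, h]

/-- `c⁻¹` maps `K₁` into itself. -/
lemma c_inv_apply_mem_K1 {x : AlgebraicClosure ℚ} (hx : x ∈ D.K1) : D.c⁻¹ x ∈ D.K1 := by
  rw [mem_K1_iff] at hx ⊢
  intro u hu
  have h := hx _ (D.conj_mem_pSub D.hc hu)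
  have h2 : u (D.c⁻¹ x) = D.c⁻¹ ((D.c * u * D.c⁻¹) x) := by
    simp [AlgEquiv.mul_apply]
  rw [h2, h]

/-- `σ_c`: the automorphism of `K₁` induced by `c`. -/
def sigmaC : ↥D.K1 ≃ₐ[ℚ] ↥D.K1 where
  toFun x := ⟨D.c (x : AlgebraicClosure ℚ), D.c_apply_mem_K1 x.2⟩
  invFun x := ⟨D.c⁻¹ (x : AlgebraicClosure ℚ), D.c_inv_apply_mem_K1 x.2⟩
  left_inv x := by
    apply Subtype.ext
    change D.c⁻¹ (D.c (x : AlgebraicClosure ℚ)) = x
    rw [← AlgEquiv.mul_apply, inv_mul_cancel, AlgEquiv.one_apply]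
  right_inv x := by
    apply Subtype.ext
    change D.c (D.c⁻¹ (x : AlgebraicClosure ℚ)) = x
    rw [← AlgEquiv.mul_apply, mul_inv_cancel, AlgEquiv.one_apply]
  map_mul' x y := by
    apply Subtype.ext
    change D.c ((x : AlgebraicClosure ℚ) * y) = D.c x * D.c y
    exact map_mul _ _ _
  map_add' x y := by
    apply Subtype.ext
    change D.c ((x : AlgebraicClosure ℚ) + y) = D.c x + D.c y
    exact map_add _ _ _
  commutes' r := by
    apply Subtype.ext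
    change D.c (algebraMap ℚ (AlgebraicClosure ℚ) r) = algebraMap ℚ (AlgebraicClosure ℚ) r
    exact D.c.commutes r

@[simp] lemma coe_sigmaC (x : ↥D.K1) :
    ((D.sigmaC x : ↥D.K1) : AlgebraicClosure ℚ) = D.c (x : AlgebraicClosure ℚ) := rfl

end BSData

variable (p : ℕ) [Fact p.Prime] (T : Finset Nat.Primes)

/-- **BS-KUM**: the Kummer bridge. -/
def KumBridgeStatement : Prop :=
  p ≠ 2 → pPrime p ∈ T →
  ∀ (D : BSData p T) [NumberField ↥D.K1],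
    ∃ κ : Additive (↥D.K1)ˣ →+ D.Fun,
      (∀ a : (↥D.K1)ˣ, κ (Additive.ofMul a) = 0 ↔ ∃ b : (↥D.K1)ˣ, a = b ^ p) ∧
      (∀ a : (↥D.K1)ˣ, κ (Additive.ofMul a) ∈ D.Hsp ↔ helper97.IsSelmer ↥D.K1 T p a) ∧
      (∀ x ∈ D.Hsp, ∃ a : (↥D.K1)ˣ, κ (Additive.ofMul a) = x) ∧
      (∀ a : (↥D.K1)ˣ, D.cs (κ (Additive.ofMul a)) =
        (((cycloChar p D.c)⁻¹ : (ZMod p)ˣ) : ZMod p) •
          κ (Additive.ofMul (Units.map (D.sigmaC : ↥D.K1 →* ↥D.K1) a))) ∧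
      (∀ x : D.Fun, x ∈ D.Usp ↔
        ∃ a ∈ Fermat.Agent.S55.helper79.sUnits ↥D.K1 T, κ (Additive.ofMul a) = x) ∧
      (∀ x : D.Fun, x ∈ D.Msp ↔
        ∃ a : (↥D.K1)ˣ, (∃ m : ℕ, 0 < m ∧ a ^ m = 1) ∧ κ (Additive.ofMul a) = x)

end Fermat.Agent.P1.helper7
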