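import Mathlib

/-!
# P1 / EC / BASE-STAR dictionary (helper92): inflation-restriction for a quotient of invertible
order (HS-P'), in explicit cochain form

`Γ` a group, `V ≤ Γ` a normal subgroup of finite index `n`, `W` a representation of `Γ` over a
field `k` in which `n` is invertible.

* `hsTr V W η` : the transfer `c ↦ n⁻¹ ∑_τ η (c s(τ) s(c τ)⁻¹)` of a function `η` on `Γ` which is
  additive and `Γ`-equivariant on `V`;
* `hsTr_mul`   : it is a `1`-cocycle;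
* `hsTr_of_mem`: it extends `η|V`;
* `hsTr_mul_of_mem` : it is constant modulo every normal subgroup `N ≤ V` on which `η` vanishes;
* `hs_coboundary` : a `1`-cocycle vanishing on `V` is a coboundary.
-/

set_option autoImplicit false
set_option linter.unusedSectionVars false

noncomputable section

namespace Fermat.Agent.P1.helper92

variable {k Γ : Type} [Field k] [Group Γ] (V : Subgroup Γ) [V.Normal] [Fintype (Γ ⧸ V)]
  (W : Rep.{0} k Γ)

/-- the element `c s(τ) s(c τ)⁻¹` -/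
def hsElt (c : Γ) (τ : Γ ⧸ V) : Γ := c * τ.out * (((c : Γ ⧸ V) * τ).out)⁻¹

lemma hsElt_mem (c : Γ) (τ : Γ ⧸ V) : hsElt V c τ ∈ V := by
  have h1 : ((c * τ.out : Γ) : Γ ⧸ V) = (((((c : Γ ⧸ V) * τ).out : Γ)) : Γ ⧸ V) := by
    rw [QuotientGroup.mk_mul, QuotientGroup.out_eq', QuotientGroup.out_eq']
  have h2 := QuotientGroup.eq.1 h1
  -- `(c τ.out)⁻¹ * out ∈ V`
  have h3 : (c * τ.out) * ((c * τ.out)⁻¹ * (((c : Γ ⧸ V) * τ).out)) * (c * τ.out)⁻¹ ∈ V :=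
    (inferInstance : V.Normal).conj_mem _ h2 _
  have h4 := inv_mem h3
  have e : ((c * τ.out) * ((c * τ.out)⁻¹ * (((c : Γ ⧸ V) * τ).out)) * (c * τ.out)⁻¹)⁻¹
      = hsElt V c τ := by
    unfold hsElt
    group
  rwa [e] at h4

/-- the transfer of `η` -/
def hsTr (η : Γ → W) (c : Γ) : W :=
  ((Fintype.card (Γ ⧸ V) : k)⁻¹) • ∑ τ : Γ ⧸ V, η (hsElt V c τ)

lemma hsElt_mul (c c' : Γ) (τ : Γ ⧸ V) :
    hsElt V (c * c') τ = (c * hsElt V c' τ * c⁻¹) * hsElt V c ((c' : Γ ⧸ V) * τ) := by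
  unfold hsElt
  rw [QuotientGroup.mk_mul, mul_assoc (c : Γ ⧸ V)]
  group

variable {V W}

/-- the transfer is a `1`-cocycle -/
theorem hsTr_mul {η : Γ → W} (hadd : ∀ u ∈ V, ∀ u' ∈ V, η (u * u') = η u + η u')
    (heqv : ∀ c : Γ, ∀ u ∈ V, η (c * u * c⁻¹) = W.ρ c (η u)) (c c' : Γ) :
    hsTr V W η (c * c') = hsTr V W η c + W.ρ c (hsTr V W η c') := by
  unfold hsTr
  have h1 : ∀ τ : Γ ⧸ V, η (hsElt V (c * c') τ) =
      W.ρ c (η (hsElt V c' τ)) + η (hsElt V c ((c' : Γ ⧸ V) * τ)) := by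
    intro τ
    rw [hsElt_mul, hadd _ ((inferInstance : V.Normal).conj_mem _ (hsElt_mem V c' τ) c) _
      (hsElt_mem V c _), heqv c _ (hsElt_mem V c' τ)]
  have h2 : ∑ τ : Γ ⧸ V, η (hsElt V c ((c' : Γ ⧸ V) * τ)) = ∑ τ : Γ ⧸ V, η (hsElt V c τ) :=
    Fintype.sum_equiv (Equiv.mulLeft (c' : Γ ⧸ V)) _ _ (fun _ => rfl)
  rw [Finset.sum_congr rfl (fun τ _ => h1 τ), Finset.sum_add_distrib, h2, smul_add, map_smul,
    map_sum, add_comm]

/-- the transfer extends `η|V` -/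
theorem hsTr_of_mem (hn : (Fintype.card (Γ ⧸ V) : k) ≠ 0) (η : Γ → W) {u : Γ} (hu : u ∈ V) :
    hsTr V W η u = η u := by
  unfold hsTr
  have h1 : ∀ τ : Γ ⧸ V, hsElt V u τ = u := by
    intro τ
    unfold hsElt
    rw [(QuotientGroup.eq_one_iff u).2 hu, one_mul]
    group
  rw [Finset.sum_congr rfl (fun τ _ => congrArg η (h1 τ)), Finset.sum_const, Finset.card_univ,
    ← Nat.cast_smul_eq_nsmul k, smul_smul, inv_mul_cancel₀ hn, one_smul]

/-- the transfer is constant modulo a normal subgroup `N ≤ V` on which `η` vanishes -/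
theorem hsTr_mul_of_mem {η : Γ → W} (hadd : ∀ u ∈ V, ∀ u' ∈ V, η (u * u') = η u + η u')
    {N : Subgroup Γ} [N.Normal] (hNV : N ≤ V) (hη : ∀ s ∈ N, η s = 0) (c : Γ) {s : Γ}
    (hs : s ∈ N) : hsTr V W η (c * s) = hsTr V W η c := by
  unfold hsTr
  congr 1
  refine Finset.sum_congr rfl (fun τ _ => ?_)
  have hcs : ((c * s : Γ) : Γ ⧸ V) = (c : Γ ⧸ V) := by
    rw [QuotientGroup.mk_mul, (QuotientGroup.eq_one_iff s).2 (hNV hs), mul_one]
  have hconj : (((c : Γ ⧸ V) * τ).out * (τ.out)⁻¹) * s * (((c : Γ ⧸ V) * τ).out * (τ.out)⁻¹)⁻¹ ∈ N :=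
    (inferInstance : N.Normal).conj_mem _ hs _
  have e : hsElt V (c * s) τ = hsElt V c τ *
      ((((c : Γ ⧸ V) * τ).out * (τ.out)⁻¹) * s * (((c : Γ ⧸ V) * τ).out * (τ.out)⁻¹)⁻¹) := by
    unfold hsElt
    rw [hcs]
    group
  rw [e, hadd _ (hsElt_mem V c τ) _ (hNV hconj), hη _ hconj, add_zero]

/-- a `1`-cocycle vanishing on `V` is a coboundary (averaging) -/
theorem hs_coboundary (hn : (Fintype.card (Γ ⧸ V) : k) ≠ 0) {z : Γ → W}
    (hz : ∀ c c' : Γ, z (c * c') = z c + W.ρ c (z c')) (hV : ∀ u ∈ V, z u = 0) :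
    ∃ y : W, ∀ c : Γ, z c = W.ρ c y - y := by
  set S : W := ∑ τ : Γ ⧸ V, z τ.out with hS
  have hcoset : ∀ a b : Γ, ((a : Γ ⧸ V) = (b : Γ ⧸ V)) → z a = z b := by
    intro a b hab
    have h1 : a⁻¹ * b ∈ V := QuotientGroup.eq.1 hab
    have h2 : b = a * (a⁻¹ * b) := by group
    rw [h2, hz, hV _ h1, map_zero, add_zero]
  have key : ∀ c : Γ, S = (Fintype.card (Γ ⧸ V) : k) • z c + W.ρ c S := by
    intro c
    have h1 : ∀ τ : Γ ⧸ V, z (((c : Γ ⧸ V) * τ).out) = z c + W.ρ c (z τ.out) := by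
      intro τ
      rw [← hz]
      apply hcoset
      rw [QuotientGroup.out_eq', QuotientGroup.mk_mul, QuotientGroup.out_eq']
    have h2 : ∑ τ : Γ ⧸ V, z (((c : Γ ⧸ V) * τ).out) = S :=
      Fintype.sum_equiv (Equiv.mulLeft (c : Γ ⧸ V)) _ _ (fun _ => rfl)
    calc S = ∑ τ : Γ ⧸ V, z (((c : Γ ⧸ V) * τ).out) := h2.symm
      _ = ∑ τ : Γ ⧸ V, (z c + W.ρ c (z τ.out)) := Finset.sum_congr rfl (fun τ _ => h1 τ)
      _ = (Fintype.card (Γ ⧸ V) : k) • z c + W.ρ c S := by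
        rw [Finset.sum_add_distrib, Finset.sum_const, Finset.card_univ,
          ← Nat.cast_smul_eq_nsmul k, hS, map_sum]
  refine ⟨-((Fintype.card (Γ ⧸ V) : k)⁻¹ • S), fun c => ?_⟩
  have h3 : (Fintype.card (Γ ⧸ V) : k) • z c = S - W.ρ c S := eq_sub_of_add_eq (key c).symm
  have h4 : z c = (Fintype.card (Γ ⧸ V) : k)⁻¹ • (S - W.ρ c S) := by
    rw [← h3, smul_smul, inv_mul_cancel₀ hn, one_smul]
  rw [h4, map_neg, map_smul, smul_sub]
  abel

end Fermat.Agent.P1.helper92
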