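import Fermat.Agent.P1.helper92_DictPlaces
import Fermat.Agent.S55.helper92_SmoothLevel

/-!
# P1 / DICT-LEV (helper92): levels of cocycles, inflation step

* `cocycle_apply_mul`, `cocycle_apply_one`, `cocycle_apply_conj` : elementary cocycle identities;
* `mem_Z1_galLevels_of_unramified` : a cocycle on a `T`-smooth module which vanishes on an open
  subgroup and on the inertia groups outside `T` is a `T`-level cocycle;
* `vanishing_of_mem_Z1_galLevels` : the converse;
* `isSmooth_erase`, `mem_Z1_galLevels_erase` : the inflation step;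
* `levStatement : LevStatement`.
-/

set_option autoImplicit false
set_option linter.style.haveILetI false

open scoped Pointwise

noncomputable section

namespace Fermat.Agent.P1.helper92

open ExtCitation Fermat.Agent.S55 groupCohomology

local notation "Qbar" => AlgebraicClosure ℚ

section cocycle

variable {k G : Type} [CommRing k] [Group G] {M : Rep k G}

/-- the cocycle identity -/
theorem cocycle_apply_mul {c : G → M} (hc : c ∈ LinearMap.ker (d₁₂ M).hom) (g h : G) :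
    c (g * h) = c g + M.ρ g (c h) := by
  have h1 := congrFun (LinearMap.mem_ker.mp hc) (g, h)
  simp only [d₁₂_hom_apply, Pi.zero_apply] at h1
  rw [sub_add_eq_add_sub, sub_eq_zero] at h1
  rw [← h1, add_comm]

theorem cocycle_apply_one {c : G → M} (hc : c ∈ LinearMap.ker (d₁₂ M).hom) : c 1 = 0 := by
  have h := cocycle_apply_mul hc 1 1
  simpa using h

/-- conjugation formula for an element `s` acting trivially with `c s = 0` -/
theorem cocycle_apply_conj {c : G → M} (hc : c ∈ LinearMap.ker (d₁₂ M).hom) (g s : G)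
    (hs : ∀ m : M, M.ρ s m = m) (hcs : c s = 0) : c (g * s * g⁻¹) = 0 := by
  have h1 : c (g * s * g⁻¹) = c g + M.ρ g (c (s * g⁻¹)) := by
    rw [mul_assoc, cocycle_apply_mul hc]
  have h2 : c (s * g⁻¹) = c g⁻¹ := by
    rw [cocycle_apply_mul hc, hcs, hs, zero_add]
  have h3 : c (g * g⁻¹) = c g + M.ρ g (c g⁻¹) := cocycle_apply_mul hc g g⁻¹
  rw [h1, h2, ← h3, mul_inv_cancel, cocycle_apply_one hc]

/-- the subgroup of the elements of `N` killed by the cocycle `c`, for `N` acting trivially -/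
def killSubgroup (c : G → M) (hc : c ∈ LinearMap.ker (d₁₂ M).hom) (N : Subgroup G)
    (hN : ∀ s ∈ N, ∀ m : M, M.ρ s m = m) : Subgroup G where
  carrier := {s | s ∈ N ∧ c s = 0}
  one_mem' := ⟨N.one_mem, cocycle_apply_one hc⟩
  mul_mem' := by
    rintro s t ⟨hs, hcs⟩ ⟨ht, hct⟩
    refine ⟨N.mul_mem hs ht, ?_⟩
    rw [cocycle_apply_mul hc, hcs, hct, map_zero, add_zero]
  inv_mem' := by
    rintro s ⟨hs, hcs⟩
    refine ⟨N.inv_mem hs, ?_⟩
    have h := cocycle_apply_mul hc s s⁻¹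
    rw [mul_inv_cancel, cocycle_apply_one hc, hcs, zero_add, hN s hs] at h
    exact h.symm

theorem mem_killSubgroup {c : G → M} {hc : c ∈ LinearMap.ker (d₁₂ M).hom} {N : Subgroup G}
    {hN : ∀ s ∈ N, ∀ m : M, M.ρ s m = m} {s : G} :
    s ∈ killSubgroup c hc N hN ↔ s ∈ N ∧ c s = 0 := Iff.rfl

theorem killSubgroup_normal (c : G → M) (hc : c ∈ LinearMap.ker (d₁₂ M).hom) (N : Subgroup G)
    [hNn : N.Normal] (hN : ∀ s ∈ N, ∀ m : M, M.ρ s m = m) :
    (killSubgroup c hc N hN).Normal := by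
  constructor
  rintro s ⟨hs, hcs⟩ g
  exact ⟨hNn.conj_mem s hs g, cocycle_apply_conj hc g s (hN s hs) hcs⟩

theorem apply_mul_of_mem_killSubgroup {c : G → M} {hc : c ∈ LinearMap.ker (d₁₂ M).hom}
    {N : Subgroup G} {hN : ∀ s ∈ N, ∀ m : M, M.ρ s m = m} (g : G) {s : G}
    (hs : s ∈ killSubgroup c hc N hN) : c (g * s) = c g := by
  rw [cocycle_apply_mul hc, hs.2, map_zero, add_zero]

end cocycle

variable {k : Type} [CommRing k] {T : Finset Nat.Primes} {M : Rep k GQ}

/-- **[DICT-LEV] (1)** -/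
theorem mem_Z1_galLevels_of_unramified (hM : IsSmooth (galLevels T) M) {c : GQ → M}
    (hc : c ∈ LinearMap.ker (d₁₂ M).hom)
    (hopen : ∃ F : IntermediateField ℚ Qbar, FiniteDimensional ℚ F ∧
      ∀ s ∈ F.fixingSubgroup, c s = 0)
    (hur : ∀ q : Nat.Primes, q ∉ T → ∀ A : ValuationSubring Qbar, A.LiesOverPrime (q : ℕ) →
      ∀ σ ∈ A.inertiaSubgroupIn ℚ, c σ = 0) :
    c ∈ Z1 (galLevels T) M := by
  obtain ⟨N, hNmem, hN⟩ := hM
  obtain ⟨F, hFfd, hF⟩ := hopen
  obtain ⟨hNn, F₀, hF₀, rfl⟩ := hNmem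
  haveI := hNn
  haveI := hF₀.1
  haveI := hFfd
  haveI : FiniteDimensional ℚ ↥(F ⊔ F₀) := IntermediateField.finiteDimensional_sup F F₀
  haveI := killSubgroup_normal c hc F₀.fixingSubgroup hN
  have hmem : killSubgroup c hc F₀.fixingSubgroup hN ∈ (galLevels T).mem := by
    refine Fermat.Agent.S55.helper92.mem_galLevels_of_le T _ (F ⊔ F₀) ?_ ?_
    · intro s hs
      rw [IntermediateField.fixingSubgroup_sup] at hs
      exact ⟨hs.2, hF s hs.1⟩
    · intro q hq A hA σ hσ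
      exact ⟨hF₀.2 q hq A hA hσ, hur q hq A hA σ hσ⟩
  exact ⟨⟨_, hmem, fun g s hs => apply_mul_of_mem_killSubgroup g hs⟩, hc⟩

/-- **[DICT-LEV] (2)** -/
theorem vanishing_of_mem_Z1_galLevels (hM : IsSmooth (galLevels T) M) {c : GQ → M}
    (hc : c ∈ Z1 (galLevels T) M) :
    (∃ F : IntermediateField ℚ Qbar, FiniteDimensional ℚ F ∧
        ∀ s ∈ F.fixingSubgroup, c s = 0) ∧
      (∀ q : Nat.Primes, q ∉ T → ∀ A : ValuationSubring Qbar, A.LiesOverPrime (q : ℕ) →
        ∀ σ ∈ A.inertiaSubgroupIn ℚ, c σ = 0 ∧ ∀ m : M, M.ρ σ m = m) := by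
  obtain ⟨⟨N, ⟨-, F, hF, rfl⟩, hlev⟩, hcoc⟩ := hc
  obtain ⟨N', ⟨-, F', hF', rfl⟩, hN'⟩ := hM
  have h0 : ∀ s ∈ F.fixingSubgroup, c s = 0 := by
    intro s hs
    have := hlev 1 s hs
    rwa [one_mul, cocycle_apply_one hcoc] at this
  refine ⟨⟨F, hF.1, h0⟩, fun q hq A hA σ hσ => ⟨h0 σ (hF.2 q hq A hA hσ), ?_⟩⟩
  exact hN' σ (hF'.2 q hq A hA hσ)

/-- a `T`-smooth module unramified at `q` is smooth for `T.erase q` -/
theorem isSmooth_erase (hM : IsSmooth (galLevels T) M) (q : Nat.Primes)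
    (hq : ∀ A : ValuationSubring Qbar, A.LiesOverPrime (q : ℕ) →
      ∀ σ ∈ A.inertiaSubgroupIn ℚ, ∀ m : M, M.ρ σ m = m) :
    IsSmooth (galLevels (T.erase q)) M := by
  obtain ⟨N, ⟨hNn, F₀, hF₀, rfl⟩, hN⟩ := hM
  haveI := hF₀.1
  have hker : ∀ s : GQ, s ∈ M.ρ.ker ↔ ∀ a : M, M.ρ s a = a := by
    intro s
    rw [MonoidHom.mem_ker]
    constructor
    · intro h a
      rw [h]
      rfl
    · intro h
      ext a
      exact h a
  have hmem : M.ρ.ker ∈ (galLevels (T.erase q)).mem := by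
    refine Fermat.Agent.S55.helper92.mem_galLevels_of_le (T.erase q) _ F₀ ?_ ?_
    · intro s hs
      exact (hker s).mpr (hN s hs)
    · intro q' hq' A hA σ hσ
      rw [hker]
      by_cases h : q' = q
      · subst h
        exact hq A hA σ hσ
      · have hq'T : q' ∉ T := fun hmem => hq' (Finset.mem_erase.mpr ⟨h, hmem⟩)
        exact hN σ (hF₀.2 q' hq'T A hA hσ)
  exact ⟨_, hmem, fun s hs => (hker s).mp hs⟩

/-- **[DICT-LEV] (3)**, inflation step -/
theorem mem_Z1_galLevels_erase (hM : IsSmooth (galLevels T) M) (q : Nat.Primes)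
    (hq : ∀ A : ValuationSubring Qbar, A.LiesOverPrime (q : ℕ) →
      ∀ σ ∈ A.inertiaSubgroupIn ℚ, ∀ m : M, M.ρ σ m = m)
    {c : GQ → M} (hc : c ∈ Z1 (galLevels T) M)
    (hloc : ∃ m : M, ∀ τ : primeLocalGaloisGroup q,
      c (primeLocalToGlobal q τ) = M.ρ (primeLocalToGlobal q τ) m - m) :
    c ∈ Z1 (galLevels (T.erase q)) M := by
  obtain ⟨hopen, hur⟩ := vanishing_of_mem_Z1_galLevels hM hc
  have hcoc : c ∈ LinearMap.ker (d₁₂ M).hom := hc.2
  refine mem_Z1_galLevels_of_unramified (isSmooth_erase hM q hq) hcoc hopen ?_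
  intro q' hq' A hA σ hσ
  by_cases h : q' = q
  · subst h
    obtain ⟨m, hm⟩ := hloc
    -- the property `c σ = 0 ∧ σ acts trivially` is conjugation invariant
    have key := (forall_inertia_iff_locInertia q'
      (fun σ => c σ = 0 ∧ ∀ m : M, M.ρ σ m = m) ?_).mpr ?_ A hA σ hσ
    · exact key.1
    · rintro g s ⟨hcs, hs⟩
      refine ⟨cocycle_apply_conj hcoc g s hs hcs, fun a => ?_⟩
      rw [map_mul, map_mul, Module.End.mul_apply, Module.End.mul_apply, hs]
      rw [← Module.End.mul_apply, ← map_mul, mul_inv_cancel, map_one]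
      rfl
    · intro τ hτ
      have htriv : ∀ a : M, M.ρ (primeLocalToGlobal q' τ) a = a :=
        hq _ (helper74.primeLocalPlace_liesOverPrime q') _ hτ
      refine ⟨?_, htriv⟩
      rw [hm τ, htriv, sub_self]
  · have hq'T : q' ∉ T := fun hmem => hq' (Finset.mem_erase.mpr ⟨h, hmem⟩)
    exact (hur q' hq'T A hA σ hσ).1

/-- **[DICT-LEV]** -/
theorem levStatement : LevStatement := by
  intro k _ T M
  refine ⟨fun hM c hc hopen hur => mem_Z1_galLevels_of_unramified hM hc hopen hur,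
    fun hM c hc => vanishing_of_mem_Z1_galLevels hM hc,
    fun hM q hq c hc hloc => ⟨mem_Z1_galLevels_erase hM q hq hc hloc, isSmooth_erase hM q hq⟩⟩

end Fermat.Agent.P1.helper92
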