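import Fermat.Agent.P1.helper9_ECShapCore

/-!
# P1 / EC-SHAP (helper9, task 726), part 3: Shapiro's lemma on cocycles, degrees `0 .. 3`

For `U ≤ G` containing a level and a smooth `U`-module `W`:

* `shRes_n` maps level cocycles / coboundaries of `Ind W` to level cocycles / coboundaries of
  `W` (`shRes*_mem_Z*`, `shRes*_mem_B*`);
* `exists_shRes*_eq` : every level cocycle of `W` is `shRes_n z` for a level cocycle `z` of
  `Ind W` (surjectivity, on the nose);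
* `mem_B*_of_shRes*` : a level cocycle `z` of `Ind W` with `shRes_n z` a level coboundary is a
  level coboundary (injectivity);
* `nonempty_quotEquiv` : the formal passage to the quotients.
-/

set_option autoImplicit false
set_option linter.unusedSectionVars false

open groupCohomology

noncomputable section

namespace Fermat.Agent.P1.helper9

open Fermat.Agent.S55 Fermat.Agent.S55.helper35 Fermat.Agent.P1.helper63

/-! ### The formal passage to the quotients -/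

theorem nonempty_quotEquiv {k V V' : Type} [Field k] [AddCommGroup V] [Module k V]
    [AddCommGroup V'] [Module k V'] (Z B : Submodule k V) (Z' B' : Submodule k V')
    (φ : V →ₗ[k] V') (hZ : ∀ z ∈ Z, φ z ∈ Z') (hB : ∀ z ∈ Z, z ∈ B → φ z ∈ B')
    (hinj : ∀ z ∈ Z, φ z ∈ B' → z ∈ B) (hsurj : ∀ y ∈ Z', ∃ z ∈ Z, φ z - y ∈ B') :
    Nonempty ((↥Z ⧸ B.comap Z.subtype) ≃ₗ[k] (↥Z' ⧸ B'.comap Z'.subtype)) := by
  have hle : B.comap Z.subtype ≤ (B'.comap Z'.subtype).comap (φ.restrict hZ) := by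
    intro z hz
    exact hB z.1 z.2 hz
  refine ⟨LinearEquiv.ofBijective
    (Submodule.mapQ (B.comap Z.subtype) (B'.comap Z'.subtype) (φ.restrict hZ) hle) ⟨?_, ?_⟩⟩
  · rw [injective_iff_map_eq_zero]
    intro x hx
    induction x using Submodule.Quotient.induction_on with
    | H z =>
      rw [Submodule.mapQ_apply, Submodule.Quotient.mk_eq_zero] at hx
      rw [Submodule.Quotient.mk_eq_zero]
      exact hinj z.1 z.2 hx
  · intro y
    induction y using Submodule.Quotient.induction_on with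
    | H y =>
      obtain ⟨z, hz, h⟩ := hsurj y.1 y.2
      refine ⟨Submodule.Quotient.mk ⟨z, hz⟩, ?_⟩
      rw [Submodule.mapQ_apply, Submodule.Quotient.eq]
      exact h

variable {k G : Type} [Field k] [Group G] {𝒩 : Levels G} {U : Subgroup G} {W : Rep.{0} k ↥U}

/-! ### Auxiliary identities -/

lemma eRetr_eq_comp : eRetr U = (Subtype.val : ↥U → G) ∘ retr U := rfl

lemma retr_comp_val : retr U ∘ (Subtype.val : ↥U → G) = id := by
  funext u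
  exact retr_coe U u

lemma homog1_zero : homog1 W (0 : ↥U → W) = 0 := by
  funext x₀ x₁
  simp
lemma homog2_zero : homog2 W (0 : ↥U × ↥U → W) = 0 := by
  funext x₀ x₁ x₂
  simp
lemma homog3_zero : homog3 W (0 : ↥U × ↥U × ↥U → W) = 0 := by
  funext x₀ x₁ x₂ x₃
  simp
lemma homog4_zero : homog4 W (0 : ↥U × ↥U × ↥U × ↥U → W) = 0 := by
  funext x₀ x₁ x₂ x₃ x₄
  simp

lemma shPsi2_zero : shPsi2 W (0 : G × G → indRep W) = 0 := by
  funext x₀ x₁ x₂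
  simp [shPsi2]
lemma shPsi3_zero : shPsi3 W (0 : G × G × G → indRep W) = 0 := by
  funext x₀ x₁ x₂ x₃
  simp [shPsi3]
lemma shPsi4_zero : shPsi4 W (0 : G × G × G × G → indRep W) = 0 := by
  funext x₀ x₁ x₂ x₃ x₄
  simp [shPsi4]

lemma shRes4_zero : shRes4 W (0 : G × G × G × G → indRep W) = 0 := by
  funext u
  exact map_zero (shEv W)

lemma shLam2_zero : shLam2 W (0 : G → G → G → W) = 0 := rfl
lemma shLam3_zero : shLam3 W (0 : G → G → G → G → W) = 0 := rfl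
lemma shLam4_zero : shLam4 W (0 : G → G → G → G → G → W) = 0 := rfl

lemma pull2_zero' {X Y N : Type} [AddCommGroup N] (ρ : X → Y) :
    pull2 ρ (0 : Y → Y → Y → N) = 0 := rfl
lemma pull3_zero' {X Y N : Type} [AddCommGroup N] (ρ : X → Y) :
    pull3 ρ (0 : Y → Y → Y → Y → N) = 0 := rfl
lemma pull4_zero' {X Y N : Type} [AddCommGroup N] (ρ : X → Y) :
    pull4 ρ (0 : Y → Y → Y → Y → Y → N) = 0 := rfl

/-! ### Degree `0` -/

theorem shEv_mem_H0 {f : indRep W} (hf : f ∈ S55.H0 (indRep W)) : shEv W f ∈ S55.H0 W := by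
  rw [Representation.mem_invariants] at hf ⊢
  intro u
  rw [← shEv_rho_coe, hf]

theorem eq_zero_of_shEv {f : indRep W} (hf : f ∈ S55.H0 (indRep W)) (h : shEv W f = 0) : f = 0 := by
  rw [Representation.mem_invariants] at hf
  funext c
  rw [← shEv_rho_cosetRep_inv W c f, hf, h]
  rfl

theorem exists_shEv_eq {w : W} (hw : w ∈ S55.H0 W) : ∃ f ∈ S55.H0 (indRep W), shEv W f = w := by
  rw [Representation.mem_invariants] at hw
  refine ⟨(fun _ => w : G ⧸ U → W), ?_, ?_⟩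
  · rw [Representation.mem_invariants]
    intro g
    funext c
    exact hw _
  · exact hw _

theorem nonempty_H0_equiv (W : Rep.{0} k ↥U) :
    Nonempty (↥(S55.H0 (indRep W)) ≃ₗ[k] ↥(S55.H0 W)) := by
  refine ⟨LinearEquiv.ofBijective ((shEv W).restrict (fun f hf => shEv_mem_H0 hf)) ⟨?_, ?_⟩⟩
  · rw [injective_iff_map_eq_zero]
    intro f hf
    apply Subtype.ext
    exact eq_zero_of_shEv f.2 (congrArg Subtype.val hf)
  · intro w
    obtain ⟨f, hf, h⟩ := exists_shEv_eq w.2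
    exact ⟨⟨f, hf⟩, Subtype.ext h⟩

/-! ### Degree `1` -/

section Deg1

variable (hU : ∃ N ∈ 𝒩.mem, N ≤ U)

theorem shRes1_mem_Z1 {z : G → indRep W} (hz : z ∈ Z1 𝒩 (indRep W)) :
    shRes1 W z ∈ Z1 (restrictLevels 𝒩 U hU) W := by
  refine ⟨shRes1_mem_C1 hU hz.1, ?_⟩
  have h : (d₁₂ (indRep W)).hom z = 0 := hz.2
  rw [SetLike.mem_coe, LinearMap.mem_ker, d₁₂_shRes1, h, map_zero]

theorem shRes1_mem_B1 {z : G → indRep W} (hz : z ∈ B1 (indRep W)) : shRes1 W z ∈ B1 W := by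
  obtain ⟨f, rfl⟩ := hz
  exact ⟨shEv W f, d₀₁_shEv W f⟩

theorem exists_shRes1_eq (hW : IsSmooth (restrictLevels 𝒩 U hU) W) {y : ↥U → W}
    (hy : y ∈ Z1 (restrictLevels 𝒩 U hU) W) :
    ∃ z ∈ Z1 𝒩 (indRep W), shRes1 W z = y := by
  have hy2 : (d₁₂ W).hom y = 0 := hy.2
  have hΦ : IsUEqv1 W (pull1 (retr U) (homog1 W y)) := isUEqv1_pull1 (isEqv1_homog1 W y)
  have hlev : IsLevH1 𝒩 (pull1 (retr U) (homog1 W y)) :=
    IsLevH1.pull1 (levMap_retr hU) (isLevH1_homog1 hW hy.1)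
  refine ⟨shLam1 W (pull1 (retr U) (homog1 W y)), ⟨shLam1_mem_C1 hlev, ?_⟩, ?_⟩
  · rw [SetLike.mem_coe, LinearMap.mem_ker, d₁₂_shLam1 hΦ, hd1_pull1, hd1_homog1, hy2,
      homog2_zero, pull2_zero', shLam2_zero]
  · apply homog1_injective W
    rw [← pull1_shPsi1, shPsi1_shLam1 hΦ, pull1_comp, retr_comp_val, pull1_id]

theorem mem_B1_of_shRes1 {z : G → indRep W} (hz : z ∈ Z1 𝒩 (indRep W))
    (h : shRes1 W z ∈ B1 W) : z ∈ B1 (indRep W) := by
  obtain ⟨w, hw⟩ := h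
  have hz2 : (d₁₂ (indRep W)).hom z = 0 := hz.2
  have hcoc : hd1 (shPsi1 W z) = 0 := by rw [hd1_shPsi1, hz2, shPsi2_zero]
  have h1 : pull1 (eRetr U) (shPsi1 W z) = hd0 (pull0 (retr U) (homog0 W w)) := by
    rw [eRetr_eq_comp, ← pull1_comp, pull1_shPsi1, ← hw, ← hd0_homog0, hd0_pull0]
  have h2 := pull1_sub_pull1_of_cocycle (eRetr U) id (shPsi1 W z) hcoc
  rw [pull1_id] at h2
  have hΘ : IsUEqv0 W (prism1 (eRetr U) id (shPsi1 W z) + pull0 (retr U) (homog0 W w)) :=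
    (IsUEqv1.prism1 (isUEqv1_shPsi1 W z)).add (isUEqv0_pull0 (isEqv0_homog0 W w))
  refine ⟨shLam0 W (prism1 (eRetr U) id (shPsi1 W z) + pull0 (retr U) (homog0 W w)), ?_⟩
  rw [d₀₁_shLam0 hΘ, hd0_add, ← h2, ← h1, sub_add_cancel, shLam1_shPsi1]

end Deg1

/-! ### Degree `2` -/

section Deg2

variable (hU : ∃ N ∈ 𝒩.mem, N ≤ U)

theorem shRes2_mem_Z2 {z : G × G → indRep W} (hz : z ∈ Z2 𝒩 (indRep W)) :
    shRes2 W z ∈ Z2 (restrictLevels 𝒩 U hU) W := by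
  refine ⟨shRes2_mem_C2 hU hz.1, ?_⟩
  have h : (d₂₃ (indRep W)).hom z = 0 := hz.2
  rw [SetLike.mem_coe, LinearMap.mem_ker, d₂₃_shRes2, h, map_zero]

theorem shRes2_mem_B2 {z : G × G → indRep W} (hz : z ∈ B2 𝒩 (indRep W)) :
    shRes2 W z ∈ B2 (restrictLevels 𝒩 U hU) W := by
  obtain ⟨b, hb, rfl⟩ := hz
  exact ⟨shRes1 W b, shRes1_mem_C1 hU hb, d₁₂_shRes1 W b⟩

theorem exists_shRes2_eq (hW : IsSmooth (restrictLevels 𝒩 U hU) W) {y : ↥U × ↥U → W}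
    (hy : y ∈ Z2 (restrictLevels 𝒩 U hU) W) :
    ∃ z ∈ Z2 𝒩 (indRep W), shRes2 W z = y := by
  have hy2 : (d₂₃ W).hom y = 0 := hy.2
  have hΦ : IsUEqv2 W (pull2 (retr U) (homog2 W y)) := isUEqv2_pull2 (isEqv2_homog2 W y)
  have hlev : IsLevH2 𝒩 (pull2 (retr U) (homog2 W y)) :=
    IsLevH2.pull2 (levMap_retr hU) (isLevH2_homog2 hW hy.1)
  refine ⟨shLam2 W (pull2 (retr U) (homog2 W y)), ⟨shLam2_mem_C2 hlev, ?_⟩, ?_⟩
  · rw [SetLike.mem_coe, LinearMap.mem_ker, d₂₃_shLam2 hΦ, hd2_pull2, hd2_homog2, hy2,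
      homog3_zero, pull3_zero', shLam3_zero]
  · apply homog2_injective W
    rw [← pull2_shPsi2, shPsi2_shLam2 hΦ, pull2_comp, retr_comp_val, pull2_id]

theorem mem_B2_of_shRes2 (hW : IsSmooth (restrictLevels 𝒩 U hU) W) {z : G × G → indRep W}
    (hz : z ∈ Z2 𝒩 (indRep W)) (h : shRes2 W z ∈ B2 (restrictLevels 𝒩 U hU) W) :
    z ∈ B2 𝒩 (indRep W) := by
  obtain ⟨c, hc, hw⟩ := h
  have hz2 : (d₂₃ (indRep W)).hom z = 0 := hz.2
  have hcoc : hd2 (shPsi2 W z) = 0 := by rw [hd2_shPsi2, hz2, shPsi3_zero]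
  have h1 : pull2 (eRetr U) (shPsi2 W z) = hd1 (pull1 (retr U) (homog1 W c)) := by
    rw [eRetr_eq_comp, ← pull2_comp, pull2_shPsi2, ← hw, ← hd1_homog1, hd1_pull1]
  have h2 := pull2_sub_pull2_of_cocycle (eRetr U) id (shPsi2 W z) hcoc
  rw [pull2_id] at h2
  have hΘ : IsUEqv1 W (prism2 (eRetr U) id (shPsi2 W z) + pull1 (retr U) (homog1 W c)) :=
    (IsUEqv2.prism2 (isUEqv2_shPsi2 W z)).add (isUEqv1_pull1 (isEqv1_homog1 W c))
  have hlev : IsLevH1 𝒩 (prism2 (eRetr U) id (shPsi2 W z) + pull1 (retr U) (homog1 W c)) :=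
    (IsLevH2.prism2 (levMap_eRetr U 𝒩 hU) (levMap_id 𝒩)
      (isLevH2_shPsi2 (isSmooth_indRep hU hW) hz.1)).add
      (IsLevH1.pull1 (levMap_retr hU) (isLevH1_homog1 hW hc))
  refine ⟨shLam1 W (prism2 (eRetr U) id (shPsi2 W z) + pull1 (retr U) (homog1 W c)),
    shLam1_mem_C1 hlev, ?_⟩
  rw [d₁₂_shLam1 hΘ, hd1_add, ← h2, ← h1, sub_add_cancel, shLam2_shPsi2]

end Deg2

/-! ### Degree `3` -/

section Deg3

variable (hU : ∃ N ∈ 𝒩.mem, N ≤ U)

theorem shRes3_mem_Z3 {z : G × G × G → indRep W} (hz : z ∈ Z3 𝒩 (indRep W)) :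
    shRes3 W z ∈ Z3 (restrictLevels 𝒩 U hU) W := by
  refine ⟨shRes3_mem_C3 hU hz.1, ?_⟩
  have h : d₃₄ (indRep W) z = 0 := hz.2
  rw [SetLike.mem_coe, LinearMap.mem_ker, d₃₄_shRes3, h, shRes4_zero]

theorem shRes3_mem_B3 {z : G × G × G → indRep W} (hz : z ∈ B3 𝒩 (indRep W)) :
    shRes3 W z ∈ B3 (restrictLevels 𝒩 U hU) W := by
  obtain ⟨b, hb, rfl⟩ := hz
  exact ⟨shRes2 W b, shRes2_mem_C2 hU hb, d₂₃_shRes2 W b⟩

theorem exists_shRes3_eq (hW : IsSmooth (restrictLevels 𝒩 U hU) W) {y : ↥U × ↥U × ↥U → W}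
    (hy : y ∈ Z3 (restrictLevels 𝒩 U hU) W) :
    ∃ z ∈ Z3 𝒩 (indRep W), shRes3 W z = y := by
  have hy2 : d₃₄ W y = 0 := hy.2
  have hΦ : IsUEqv3 W (pull3 (retr U) (homog3 W y)) := isUEqv3_pull3 (isEqv3_homog3 W y)
  have hlev : IsLevH3 𝒩 (pull3 (retr U) (homog3 W y)) :=
    IsLevH3.pull3 (levMap_retr hU) (isLevH3_homog3 hW hy.1)
  refine ⟨shLam3 W (pull3 (retr U) (homog3 W y)), ⟨shLam3_mem_C3 hlev, ?_⟩, ?_⟩
  · rw [SetLike.mem_coe, LinearMap.mem_ker, d₃₄_shLam3 hΦ, hd3_pull3, hd3_homog3, hy2,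
      homog4_zero, pull4_zero', shLam4_zero]
  · apply homog3_injective W
    rw [← pull3_shPsi3, shPsi3_shLam3 hΦ, pull3_comp, retr_comp_val, pull3_id]

theorem mem_B3_of_shRes3 (hW : IsSmooth (restrictLevels 𝒩 U hU) W)
    {z : G × G × G → indRep W} (hz : z ∈ Z3 𝒩 (indRep W))
    (h : shRes3 W z ∈ B3 (restrictLevels 𝒩 U hU) W) : z ∈ B3 𝒩 (indRep W) := by
  obtain ⟨c, hc, hw⟩ := h
  have hz2 : d₃₄ (indRep W) z = 0 := hz.2
  have hcoc : hd3 (shPsi3 W z) = 0 := by rw [hd3_shPsi3, hz2, shPsi4_zero]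
  have h1 : pull3 (eRetr U) (shPsi3 W z) = hd2 (pull2 (retr U) (homog2 W c)) := by
    rw [eRetr_eq_comp, ← pull3_comp, pull3_shPsi3, ← hw, ← hd2_homog2, hd2_pull2]
  have h2 := pull3_sub_pull3_of_cocycle (eRetr U) id (shPsi3 W z) hcoc
  rw [pull3_id] at h2
  have hΘ : IsUEqv2 W (prism3 (eRetr U) id (shPsi3 W z) + pull2 (retr U) (homog2 W c)) :=
    (IsUEqv3.prism3 (isUEqv3_shPsi3 W z)).add (isUEqv2_pull2 (isEqv2_homog2 W c))
  have hlev : IsLevH2 𝒩 (prism3 (eRetr U) id (shPsi3 W z) + pull2 (retr U) (homog2 W c)) :=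
    (IsLevH3.prism3 (levMap_eRetr U 𝒩 hU) (levMap_id 𝒩)
      (isLevH3_shPsi3 (isSmooth_indRep hU hW) hz.1)).add
      (IsLevH2.pull2 (levMap_retr hU) (isLevH2_homog2 hW hc))
  refine ⟨shLam2 W (prism3 (eRetr U) id (shPsi3 W z) + pull2 (retr U) (homog2 W c)),
    shLam2_mem_C2 hlev, ?_⟩
  rw [d₂₃_shLam2 hΘ, hd2_add, ← h2, ← h1, sub_add_cancel, shLam3_shPsi3]

end Deg3

end Fermat.Agent.P1.helper9
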