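import Fermat.Agent.P1.helper92_BSDictDefs
import Fermat.Agent.P1.helper92_BSDictHS
import Fermat.Agent.P1.helper9_ECShapMain
import Fermat.Agent.P1.helper92_DictLev

/-!
# P1 / EC / BASE-STAR dictionary (helper92): `H¹(G, Ind_C^G W) ≃ Hom_C(U₁, W)`

`C ≤ G` contains a level, `U₁ ≤ C` contains a level and is normalised by `C`, the index of `U₁`
in `C` is invertible in `k`, and `U₁` acts trivially on `W`.  Then (Shapiro + inflation-restriction
for the quotient `C / U₁` of invertible order)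

* `dictMap W : (G → Ind W) →ₗ (U₁ → W)`, `z ↦ (u ↦ ev (z u))`, induces
  `dictH1Equiv : H¹(G, Ind W) ≃ₗ H1Hom 𝒩 C U₁ hnorm W`;
* `dictH1Equiv_mem_shaHomS` : it maps `Ш¹` into `ShaHomS`.
-/

set_option autoImplicit false
set_option linter.unusedSectionVars false
set_option linter.style.haveILetI false

open groupCohomology

noncomputable section

namespace Fermat.Agent.P1.helper92

open Fermat.Agent.S55 Fermat.Agent.S55.helper35 Fermat.Agent.P1.helper63 Fermat.Agent.P1.helper9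

variable {k G : Type} [Field k] [Group G] {𝒩 : Levels G} {ι : Type} (L : LocalData G 𝒩 ι)
  {C U₁ : Subgroup G} (hC : ∃ N ∈ 𝒩.mem, N ≤ C) (hU : ∃ N ∈ 𝒩.mem, N ≤ U₁) (hUC : U₁ ≤ C)
  (hnorm : ∀ c ∈ C, ∀ u ∈ U₁, c * u * c⁻¹ ∈ U₁) (W : Rep.{0} k ↥C)
  (hW : ∀ u : ↥C, (u : G) ∈ U₁ → ∀ w : W, W.ρ u w = w)

/-- the dictionary map on cochains: `z ↦ (u ↦ ev (z u))` -/
def dictMap (U₁ : Subgroup G) : (G → indRep W) →ₗ[k] (↥U₁ → W) where
  toFun z := fun u => shEv W (z (u : G))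
  map_add' z z' := by
    funext u
    exact map_add (shEv W) (z (u : G)) (z' (u : G))
  map_smul' c z := by
    funext u
    exact map_smul (shEv W) c (z (u : G))

@[simp] lemma dictMap_apply (z : G → indRep W) (u : ↥U₁) :
    dictMap W U₁ z u = shEv W (z (u : G)) := rfl

lemma dictMap_eq_shRes1 (z : G → indRep W) (u : ↥U₁) :
    dictMap W U₁ z u = shRes1 W z ⟨u, hUC u.2⟩ := rfl

include hW hU hUC in
/-- `W` is smooth for the restricted levels -/
lemma isSmooth_of_trivial_on : IsSmooth (restrictLevels 𝒩 C hC) W := by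
  obtain ⟨N, hN, hNU⟩ := hU
  exact ⟨N.subgroupOf C, ⟨N, hN, hNU.trans hUC, rfl⟩, fun s hs w =>
    hW s (hNU (Subgroup.mem_subgroupOf.1 hs)) w⟩

include hnorm in
lemma normal_subgroupOf : (U₁.subgroupOf C).Normal :=
  ⟨fun n hn g => by
    rw [Subgroup.mem_subgroupOf] at hn ⊢
    exact hnorm g g.2 n hn⟩

include hW hUC hC in
/-- (i) cocycles go to equivariant homomorphisms -/
theorem dictMap_mem_H1Hom {z : G → indRep W} (hz : z ∈ Z1 𝒩 (indRep W)) :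
    dictMap W U₁ z ∈ H1Hom 𝒩 C U₁ hnorm W := by
  have hy : shRes1 W z ∈ Z1 (restrictLevels 𝒩 C hC) W := shRes1_mem_Z1 hC hz
  have hy2 : shRes1 W z ∈ LinearMap.ker (d₁₂ W).hom := hy.2
  refine ⟨fun u u' => ?_, ?_, fun c u => ?_⟩
  · have h := cocycle_apply_mul hy2 ⟨u, hUC u.2⟩ ⟨u', hUC u'.2⟩
    rw [hW ⟨u, hUC u.2⟩ u.2] at h
    exact h
  · obtain ⟨N', ⟨N, hN, hNC, rfl⟩, hl⟩ := hy.1
    refine ⟨N, hN, fun s hs => ?_⟩
    have h := hl 1 ⟨s, hUC s.2⟩ (Subgroup.mem_subgroupOf.2 hs)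
    rw [one_mul, cocycle_apply_one hy2] at h
    exact h
  · have h1 := cocycle_apply_mul hy2 (c * ⟨u, hUC u.2⟩) c⁻¹
    have h2 := cocycle_apply_mul hy2 c ⟨u, hUC u.2⟩
    have h3 := cocycle_apply_mul hy2 c c⁻¹
    rw [mul_inv_cancel, cocycle_apply_one hy2] at h3
    have h4 : (W.ρ (c * ⟨u, hUC u.2⟩)) (shRes1 W z c⁻¹) = W.ρ c (shRes1 W z c⁻¹) := by
      rw [map_mul, Module.End.mul_apply, hW ⟨u, hUC u.2⟩ u.2]
    rw [h2, h4] at h1
    have h5 : dictMap W U₁ z ⟨c * u * (c : G)⁻¹, hnorm c c.2 u u.2⟩ =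
        shRes1 W z (c * ⟨u, hUC u.2⟩ * c⁻¹) := rfl
    have h6 : dictMap W U₁ z u = shRes1 W z ⟨u, hUC u.2⟩ := rfl
    rw [h5, h6, h1, add_assoc, add_comm (W.ρ c _), ← add_assoc, ← h3, zero_add]

include hW hUC in
/-- (ii) coboundaries go to `0` -/
theorem dictMap_eq_zero_of_mem_B1 {z : G → indRep W} (hz : z ∈ B1 (indRep W)) :
    dictMap W U₁ z = 0 := by
  obtain ⟨w, hw⟩ := shRes1_mem_B1 hz
  funext u
  have h : dictMap W U₁ z u = shRes1 W z ⟨u, hUC u.2⟩ := rfl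
  rw [h, ← hw, d₀₁_hom_apply, hW ⟨u, hUC u.2⟩ u.2, sub_self]
  rfl

include hW hUC hnorm hC in
/-- (iii) a cocycle going to `0` is a coboundary -/
theorem mem_B1_of_dictMap_eq_zero (hn : ((U₁.relIndex C : ℕ) : k) ≠ 0) {z : G → indRep W}
    (hz : z ∈ Z1 𝒩 (indRep W)) (h0 : dictMap W U₁ z = 0) : z ∈ B1 (indRep W) := by
  have hy : shRes1 W z ∈ Z1 (restrictLevels 𝒩 C hC) W := shRes1_mem_Z1 hC hz
  have hy2 : shRes1 W z ∈ LinearMap.ker (d₁₂ W).hom := hy.2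
  haveI : (U₁.subgroupOf C).Normal := normal_subgroupOf hnorm
  have hidx : (U₁.subgroupOf C).index ≠ 0 := by
    intro h
    apply hn
    rw [Subgroup.relIndex, h, Nat.cast_zero]
  haveI : (U₁.subgroupOf C).FiniteIndex := ⟨hidx⟩
  haveI : Finite (↥C ⧸ U₁.subgroupOf C) := Subgroup.finite_quotient_of_finiteIndex
  letI : Fintype (↥C ⧸ U₁.subgroupOf C) := Fintype.ofFinite _
  have hcard : (Fintype.card (↥C ⧸ U₁.subgroupOf C) : k) ≠ 0 := by
    rw [← Nat.card_eq_fintype_card, ← Subgroup.index_eq_card]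
    exact hn
  obtain ⟨y, hy'⟩ := hs_coboundary (V := U₁.subgroupOf C) (W := W) hcard
    (z := shRes1 W z) (fun c c' => cocycle_apply_mul hy2 c c') (fun u hu => by
      have := congrFun h0 ⟨u, Subgroup.mem_subgroupOf.1 hu⟩
      exact this)
  refine mem_B1_of_shRes1 hz ⟨y, ?_⟩
  funext c
  rw [d₀₁_hom_apply, hy' c]

include hW hUC hnorm hU hC in
/-- (iv) every equivariant homomorphism comes from a cocycle -/
theorem exists_dictMap_eq (hn : ((U₁.relIndex C : ℕ) : k) ≠ 0) {h : ↥U₁ → W}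
    (hh : h ∈ H1Hom 𝒩 C U₁ hnorm W) : ∃ z ∈ Z1 𝒩 (indRep W), dictMap W U₁ z = h := by
  classical
  have hsm : IsSmooth (restrictLevels 𝒩 C hC) W := isSmooth_of_trivial_on hC hU hUC W hW
  obtain ⟨hadd, ⟨N₁, hN₁, hlev⟩, heqv⟩ := hh
  haveI : (U₁.subgroupOf C).Normal := normal_subgroupOf hnorm
  have hidx : (U₁.subgroupOf C).index ≠ 0 := by
    intro h
    apply hn
    rw [Subgroup.relIndex, h, Nat.cast_zero]
  haveI : (U₁.subgroupOf C).FiniteIndex := ⟨hidx⟩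
  haveI : Finite (↥C ⧸ U₁.subgroupOf C) := Subgroup.finite_quotient_of_finiteIndex
  letI : Fintype (↥C ⧸ U₁.subgroupOf C) := Fintype.ofFinite _
  have hcard : (Fintype.card (↥C ⧸ U₁.subgroupOf C) : k) ≠ 0 := by
    rw [← Nat.card_eq_fintype_card, ← Subgroup.index_eq_card]
    exact hn
  -- the extension by zero of `h`
  set η : ↥C → W := fun c => if hc : (c : G) ∈ U₁ then h ⟨c, hc⟩ else 0 with hη
  have hη1 : ∀ (c : ↥C) (hc : (c : G) ∈ U₁), η c = h ⟨c, hc⟩ := fun c hc => dif_pos hc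
  have hηadd : ∀ u ∈ U₁.subgroupOf C, ∀ u' ∈ U₁.subgroupOf C, η (u * u') = η u + η u' := by
    intro u hu u' hu'
    rw [Subgroup.mem_subgroupOf] at hu hu'
    rw [hη1 u hu, hη1 u' hu', hη1 (u * u') (mul_mem hu hu'), ← hadd]
    rfl
  have hηeqv : ∀ c : ↥C, ∀ u ∈ U₁.subgroupOf C, η (c * u * c⁻¹) = W.ρ c (η u) := by
    intro c u hu
    rw [Subgroup.mem_subgroupOf] at hu
    rw [hη1 u hu, hη1 (c * u * c⁻¹) (hnorm c c.2 u hu)]
    exact heqv c ⟨u, hu⟩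
  -- a level below `N₁` and `U₁`
  obtain ⟨N₂, hN₂, hN₂U⟩ := hU
  obtain ⟨N, hN, hNle⟩ := 𝒩.directed N₁ hN₁ N₂ hN₂
  have hNU : N ≤ U₁ := fun x hx => hN₂U (hNle hx).2
  haveI : N.Normal := 𝒩.normal N hN
  haveI : (N.subgroupOf C).Normal := inferInstance
  have hηN : ∀ s ∈ N.subgroupOf C, η s = 0 := by
    intro s hs
    rw [Subgroup.mem_subgroupOf] at hs
    rw [hη1 s (hNU hs)]
    exact hlev ⟨s, hNU hs⟩ (hNle hs).1
  have hNV : N.subgroupOf C ≤ U₁.subgroupOf C := fun x hx =>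
    Subgroup.mem_subgroupOf.2 (hNU (Subgroup.mem_subgroupOf.1 hx))
  -- the transfer
  set y : ↥C → W := hsTr (U₁.subgroupOf C) W η with hy
  have hyZ : y ∈ Z1 (restrictLevels 𝒩 C hC) W := by
    refine ⟨⟨N.subgroupOf C, ⟨N, hN, hNU.trans hUC, rfl⟩, fun g s hs =>
      hsTr_mul_of_mem hηadd hNV hηN g hs⟩, ?_⟩
    rw [SetLike.mem_coe, LinearMap.mem_ker]
    funext x
    obtain ⟨c, c'⟩ := x
    show (d₁₂ W).hom y (c, c') = 0
    rw [d₁₂_hom_apply, hy, hsTr_mul hηadd hηeqv c c']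
    abel
  obtain ⟨z, hz, hzy⟩ := exists_shRes1_eq hC hsm hyZ
  refine ⟨z, hz, ?_⟩
  funext u
  have e1 : dictMap W U₁ z u = shRes1 W z ⟨u, hUC u.2⟩ := rfl
  rw [e1, hzy, hy, hsTr_of_mem hcard η (Subgroup.mem_subgroupOf.2 u.2), hη1 _ u.2]

/-- the dictionary map on cocycles -/
def dictZ : ↥(Z1 𝒩 (indRep W)) →ₗ[k] ↥(H1Hom 𝒩 C U₁ hnorm W) :=
  (dictMap W U₁).restrict (fun _ hz => dictMap_mem_H1Hom hC hUC hnorm W hW hz)

/-- the dictionary map on `H¹` -/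
def dictH1Map : S55.H1 𝒩 (indRep W) →ₗ[k] ↥(H1Hom 𝒩 C U₁ hnorm W) :=
  Submodule.liftQ _ (dictZ hC hUC hnorm W hW) (fun z hz => by
    rw [LinearMap.mem_ker]
    apply Subtype.ext
    exact dictMap_eq_zero_of_mem_B1 hUC W hW hz)

@[simp] lemma dictH1Map_mk (z : ↥(Z1 𝒩 (indRep W))) :
    ((dictH1Map hC hUC hnorm W hW (Submodule.Quotient.mk z) : ↥(H1Hom 𝒩 C U₁ hnorm W)) :
      ↥U₁ → W) = dictMap W U₁ z.1 := rfl

theorem dictH1Map_injective (hn : ((U₁.relIndex C : ℕ) : k) ≠ 0) :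
    Function.Injective (dictH1Map hC hUC hnorm W hW) := by
  rw [injective_iff_map_eq_zero]
  intro x hx
  induction x using Submodule.Quotient.induction_on with
  | H z =>
    rw [Submodule.Quotient.mk_eq_zero]
    have h0 : dictMap W U₁ z.1 = 0 := congrArg Subtype.val hx
    exact mem_B1_of_dictMap_eq_zero hC hUC hnorm W hW hn z.2 h0

include hU in
theorem dictH1Map_surjective (hn : ((U₁.relIndex C : ℕ) : k) ≠ 0) :
    Function.Surjective (dictH1Map hC hUC hnorm W hW) := by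
  intro h
  obtain ⟨z, hz, hzh⟩ := exists_dictMap_eq hC hU hUC hnorm W hW hn h.2
  exact ⟨Submodule.Quotient.mk ⟨z, hz⟩, Subtype.ext hzh⟩

/-- **(D1)** `H¹(G, Ind_C^G W) ≃ Hom_C(U₁, W)`. -/
def dictH1Equiv (hn : ((U₁.relIndex C : ℕ) : k) ≠ 0) :
    S55.H1 𝒩 (indRep W) ≃ₗ[k] ↥(H1Hom 𝒩 C U₁ hnorm W) :=
  LinearEquiv.ofBijective (dictH1Map hC hUC hnorm W hW)
    ⟨dictH1Map_injective hC hUC hnorm W hW hn, dictH1Map_surjective hC hU hUC hnorm W hW hn⟩

@[simp] lemma dictH1Equiv_mk (hn : ((U₁.relIndex C : ℕ) : k) ≠ 0) (z : ↥(Z1 𝒩 (indRep W))) :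
    ((dictH1Equiv hC hU hUC hnorm W hW hn (Submodule.Quotient.mk z) :
      ↥(H1Hom 𝒩 C U₁ hnorm W)) : ↥U₁ → W) = dictMap W U₁ z.1 := rfl

include hW hUC in
/-- locally trivial cocycles go to locally vanishing homomorphisms -/
theorem dictMap_mem_locVanish {z : G → indRep W} (hz : z ∈ Z1 𝒩 (indRep W))
    (hloc : z ∈ LocTriv1 L (indRep W)) : dictMap W U₁ z ∈ LocVanish L C U₁ W := by
  intro v g s u hu
  have hz2 : z ∈ LinearMap.ker (d₁₂ (indRep W)).hom := hz.2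
  have hv : res₁ L (indRep W) v z ∈ B1 (L.loc (indRep W) v) := by
    have := (Submodule.mem_iInf _).1 hloc v
    exact this
  obtain ⟨f, hf⟩ := hv
  have hfs : z (L.r v s) = (indRep W).ρ (L.r v s) f - f := by
    have := congrFun hf s
    rw [d₀₁_hom_apply] at this
    exact this.symm
  -- `z (g d g⁻¹) = u f' - f'`, `f' = g f - z g`
  have h1 : z (g * L.r v s * g⁻¹) = z g + (indRep W).ρ g (z (L.r v s * g⁻¹)) := by
    rw [mul_assoc, cocycle_apply_mul hz2]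
  have h2 : z (L.r v s * g⁻¹) = z (L.r v s) + (indRep W).ρ (L.r v s) (z g⁻¹) :=
    cocycle_apply_mul hz2 _ _
  have h3 : z (g * g⁻¹) = z g + (indRep W).ρ g (z g⁻¹) := cocycle_apply_mul hz2 g g⁻¹
  rw [mul_inv_cancel, cocycle_apply_one hz2] at h3
  have h4 : (indRep W).ρ g (z g⁻¹) = - z g := by
    rw [eq_neg_iff_add_eq_zero, add_comm]
    exact h3.symm
  have h5 : z g⁻¹ = - (indRep W).ρ g⁻¹ (z g) := by
    have := congrArg ((indRep W).ρ g⁻¹) h4
    rw [← Module.End.mul_apply, ← map_mul, inv_mul_cancel, map_one, Module.End.one_apply,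
      map_neg] at this
    exact this
  have key : z (u : G) = (indRep W).ρ (u : G) ((indRep W).ρ g f - z g) -
      ((indRep W).ρ g f - z g) := by
    rw [hu, h1, h2, hfs, h5]
    simp only [map_sub, map_add, map_neg, ← Module.End.mul_apply, ← map_mul]
    have e1 : g * L.r v s * g⁻¹ * g = g * L.r v s := by group
    have e2 : g * (L.r v s * g⁻¹) = g * L.r v s * g⁻¹ := by group
    rw [e1, e2]
    abel
  have e : dictMap W U₁ z u = shEv W (z (u : G)) := rfl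
  have e2 := shEv_rho_coe W ⟨(u : G), hUC u.2⟩ ((indRep W).ρ g f - z g)
  rw [e, key, map_sub, e2, hW ⟨(u : G), hUC u.2⟩ u.2, sub_self]

/-- **(D1), Ш-part**: the dictionary isomorphism maps `Ш¹` into `ShaHomS`. -/
theorem dictH1Equiv_mem_shaHomS (hn : ((U₁.relIndex C : ℕ) : k) ≠ 0)
    {x : S55.H1 𝒩 (indRep W)} (hx : x ∈ Sha1 L (indRep W)) :
    ((dictH1Equiv hC hU hUC hnorm W hW hn x : ↥(H1Hom 𝒩 C U₁ hnorm W)) : ↥U₁ → W) ∈
      ShaHomS L C U₁ hnorm W := by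
  obtain ⟨z, hz, rfl⟩ := hx
  exact ⟨(dictH1Equiv hC hU hUC hnorm W hW hn (Submodule.Quotient.mk z)).2,
    dictMap_mem_locVanish L hUC W hW z.2 hz⟩

/-- the restriction of the dictionary isomorphism to `Ш¹` -/
def dictSha : ↥(Sha1 L (indRep W)) →ₗ[k] ↥(ShaHomS L C U₁ hnorm W) where
  toFun x := ⟨(dictH1Map hC hUC hnorm W hW x.1 : ↥(H1Hom 𝒩 C U₁ hnorm W)).1, by
    obtain ⟨z, hz, hzx⟩ := x.2
    rw [← hzx]
    exact ⟨(dictH1Map hC hUC hnorm W hW (Submodule.Quotient.mk z)).2,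
      dictMap_mem_locVanish L hUC W hW z.2 hz⟩⟩
  map_add' x y := by
    apply Subtype.ext
    simp only [Submodule.coe_add, map_add]
  map_smul' a x := by
    apply Subtype.ext
    simp only [Submodule.coe_smul, map_smul, RingHom.id_apply]

/-- **(D1), Ш-part**: `Ш¹(G, Ind W) ↪ ShaHomS`. -/
theorem dictSha_injective (hn : ((U₁.relIndex C : ℕ) : k) ≠ 0) :
    Function.Injective (dictSha L hC hUC hnorm W hW) := by
  intro x y hxy
  apply Subtype.ext
  apply dictH1Map_injective hC hUC hnorm W hW hn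
  apply Subtype.ext
  have h := congrArg Subtype.val hxy
  exact h

end Fermat.Agent.P1.helper92
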