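import Fermat.Agent.P1.helper92_BSIndDual
import Fermat.Agent.P1.helper92_BSDictH1
import Fermat.Agent.P1.helper94_BSKExt
import Fermat.Agent.P1.helper82_BSH0Ind
import Fermat.Agent.P1.helper24_BSAbs
import Fermat.Agent.P1.helper50_BSClassAr

/-!
# P1 / EC / BASE-STAR / package BS-SHAIND (helper92, second prover of row 805)

`shaInd : helper7.ShaIndStatement p T`, i.e. `dim Ш¹((Ind_C^G Y)^*(1)) ≤ mult(y', 𝐒𝐡)`.

* `(Ind_C^G Y)^*(1) ≅ Ind_C^G (Y^*(1))` (`indDualIso`), so `Ш¹` may be computed for the induced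
  module of `W = Y^*(1)`;
* `Ш¹(G, Ind W) ↪ ShaHomS` (`dictSha_injective`: Shapiro + restriction to `P`, injective because
  the index of `P` in `C` is prime to `p`);
* `ShaHomS ↪ eqvIn (D.yTw Y) D.cs D.Shsp` by transposition `h ↦ (y ↦ (u ↦ h u y))`;
* the target is finite dimensional (`helper50.bsc_finite_Hsp`).
-/

set_option autoImplicit false
set_option linter.unusedSectionVars false
set_option linter.style.haveILetI false

open groupCohomology ExtCitation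

noncomputable section

namespace Fermat.Agent.P1.helper92

open Fermat.Agent.S55 Fermat.Agent.P1.helper70 Fermat.Agent.P1.helper63 Fermat.Agent.P1.helper7

variable {p : ℕ} [Fact p.Prime] {T : Finset Nat.Primes} (D : BSData p T)
  (Y : Rep.{0} (ZMod p) ↥D.C)

/-- `P` is normalised by `C` -/
lemma bsd_hnorm : ∀ c ∈ D.C, ∀ u ∈ D.pSub, c * u * c⁻¹ ∈ D.pSub :=
  fun _ hc _ hu => D.conj_mem_pSub hc hu

/-- `Y^*(1)` is trivial on `P` -/
lemma bsd_twC_trivial (hY : YOk D Y) (u : ↥D.C) (hu : (u : GQ) ∈ D.pSub)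
    (w : twC D.C Y (cycloChar p)) : (twC D.C Y (cycloChar p)).ρ u w = w := by
  apply LinearMap.ext
  intro y
  have h1 : ((twC D.C Y (cycloChar p)).ρ u w) y =
      ((cycloChar p (u : GQ) : (ZMod p)ˣ) : ZMod p) * w (Y.ρ u⁻¹ y) := rfl
  have h2 : Y.ρ u⁻¹ = 1 :=
    helper94.rho_eq_one_of_mem_pC hY ((helper94.mem_pC D).2 (D.pSub.inv_mem hu))
  rw [h1, helper50.bsc_chi_pSub D _ hu, h2, Units.val_one, one_mul, Module.End.one_apply]

/-- the index of `P` in `C` is invertible in `ZMod p` -/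
lemma bsd_relIndex_ne_zero (hpT : pPrime p ∈ T) :
    ((D.pSub.relIndex D.C : ℕ) : ZMod p) ≠ 0 := by
  intro h
  rw [ZMod.natCast_eq_zero_iff] at h
  exact helper94.pC_not_dvd_card D hpT h

/-- the transposition `h ↦ (y ↦ (u ↦ h u y))` -/
def shaTr (h : ↥D.pSub → twC D.C Y (cycloChar p)) : Y →ₗ[ZMod p] D.Fun where
  toFun y := fun u => (h u : Module.Dual (ZMod p) Y) y
  map_add' y y' := by
    funext u
    exact map_add (h u : Module.Dual (ZMod p) Y) y y'
  map_smul' a y := by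
    funext u
    exact map_smul (h u : Module.Dual (ZMod p) Y) a y

lemma shaTr_apply (h : ↥D.pSub → twC D.C Y (cycloChar p)) (y : Y) (u : ↥D.pSub) :
    shaTr D Y h y u = (h u : Module.Dual (ZMod p) Y) y := rfl

/-- the transposition of an element of `H1Hom` has values in `𝐇` -/
lemma shaTr_mem_Hsp {h : ↥D.pSub → twC D.C Y (cycloChar p)}
    (hh : h ∈ H1Hom (galLevels T) D.C D.pSub (bsd_hnorm D) (twC D.C Y (cycloChar p))) (y : Y) :
    shaTr D Y h y ∈ D.Hsp := by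
  obtain ⟨hadd, ⟨N, hN, hlev⟩, -⟩ := hh
  obtain ⟨N', hN', hle⟩ := (galLevels T).directed N hN D.N₀ D.hN₀
  have hN'P : N' ≤ D.pSub := fun x hx => D.le_pSub (hle hx).2
  refine ⟨⟨N'.subgroupOf D.pSub, ⟨N', hN', hN'P, rfl⟩, fun g s hs => ?_⟩, ?_⟩
  · rw [shaTr_apply, shaTr_apply, hadd, hlev s (hle (Subgroup.mem_subgroupOf.1 hs)).1, add_zero]
  · rw [SetLike.mem_coe, LinearMap.mem_ker]
    funext x
    obtain ⟨u, v⟩ := x
    show (d₁₂ (helper35.trivRep (ZMod p) ↥D.pSub)).hom (shaTr D Y h y) (u, v) = 0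
    rw [d₁₂_hom_apply]
    have e : (helper35.trivRep (ZMod p) ↥D.pSub).ρ u (shaTr D Y h y v) = shaTr D Y h y v := rfl
    rw [e, shaTr_apply, shaTr_apply, shaTr_apply, hadd]
    show (h v) y - ((h u) y + (h v) y) + (h u) y = 0
    ring

/-- the transposition of an element of `ShaHomS` lies in `eqvIn (D.yTw Y) D.cs D.Shsp` -/
lemma shaTr_mem_eqvIn {h : ↥D.pSub → twC D.C Y (cycloChar p)}
    (hh : h ∈ ShaHomS (galLocal T) D.C D.pSub (bsd_hnorm D) (twC D.C Y (cycloChar p))) :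
    shaTr D Y h ∈ eqvIn (D.yTw Y) D.cs D.Shsp := by
  obtain ⟨hH, hL⟩ := hh
  refine ⟨?_, fun y => ⟨shaTr_mem_Hsp D Y hH y, fun v g s hu => ?_⟩⟩
  · apply LinearMap.ext
    intro y
    funext u
    have heqv := hH.2.2 (D.cC⁻¹) u
    have e1 : (D.cs ∘ₗ shaTr D Y h) y u = (h ⟨D.c⁻¹ * (u : GQ) * D.c, D.conj_mem_pSub' u.2⟩ :
        Module.Dual (ZMod p) Y) y := rfl
    have e2 : (⟨((D.cC⁻¹ : ↥D.C) : GQ) * (u : GQ) * ((D.cC⁻¹ : ↥D.C) : GQ)⁻¹,
        bsd_hnorm D _ (D.cC⁻¹).2 _ u.2⟩ : ↥D.pSub) =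
        ⟨D.c⁻¹ * (u : GQ) * D.c, D.conj_mem_pSub' u.2⟩ := by
      apply Subtype.ext
      simp [BSData.cC]
    rw [e2] at heqv
    have e3 : ((twC D.C Y (cycloChar p)).ρ (D.cC⁻¹) (h u) : Module.Dual (ZMod p) Y) y =
        ((cycloChar p ((D.cC⁻¹ : ↥D.C) : GQ) : (ZMod p)ˣ) : ZMod p) *
          (h u : Module.Dual (ZMod p) Y) (Y.ρ (D.cC⁻¹)⁻¹ y) := rfl
    have e4 : (shaTr D Y h ∘ₗ D.yTw Y) y u =
        (h u : Module.Dual (ZMod p) Y)
          ((((cycloChar p D.c)⁻¹ : (ZMod p)ˣ) : ZMod p) • Y.ρ D.cC y) := rfl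
    rw [e1, heqv, e3, e4, map_smul, smul_eq_mul, inv_inv]
    congr 2
  · have := hL v g s ⟨_, hu⟩ rfl
    rw [shaTr_apply, this]
    rfl

/-- the transposition as a linear map `ShaHomS → eqvIn (D.yTw Y) D.cs D.Shsp` -/
def shaTrMap : ↥(ShaHomS (galLocal T) D.C D.pSub (bsd_hnorm D) (twC D.C Y (cycloChar p)))
    →ₗ[ZMod p] ↥(eqvIn (D.yTw Y) D.cs D.Shsp) where
  toFun h := ⟨shaTr D Y h.1, shaTr_mem_eqvIn D Y h.2⟩
  map_add' h h' := by
    apply Subtype.ext
    apply LinearMap.ext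
    intro y
    funext u
    rfl
  map_smul' a h := by
    apply Subtype.ext
    apply LinearMap.ext
    intro y
    funext u
    rfl

lemma shaTrMap_injective : Function.Injective (shaTrMap D Y) := by
  intro h h' hhh
  apply Subtype.ext
  funext u
  apply LinearMap.ext
  intro y
  have h1 := congrArg (fun φ : ↥(eqvIn (D.yTw Y) D.cs D.Shsp) => φ.1 y u) hhh
  exact h1

variable (p T)

/-- **BS-SHAIND**: `dim Ш¹((Ind_C^G Y)^*(1)) ≤ mult(y', 𝐒𝐡)`. -/
theorem shaInd : ShaIndStatement p T := by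
  intro hp2 hpT _ _ D Y hY
  haveI : Module.Finite (ZMod p) Y := hY.1
  haveI : Finite (GQ ⧸ D.C) := helper82.bs_finite_quot hpT D
  letI : Fintype (GQ ⧸ D.C) := Fintype.ofFinite _
  haveI : Module.Finite (ZMod p) ↥D.Hsp := helper50.bsc_finite_Hsp D hp2 hpT
  haveI : Module.Finite (ZMod p) ↥D.Shsp :=
    Module.Finite.of_injective (Submodule.inclusion (fun x hx => hx.1 : D.Shsp ≤ D.Hsp))
      (Submodule.inclusion_injective _)
  haveI : Module.Finite (ZMod p) ↥(eqvIn (D.yTw Y) D.cs D.Shsp) :=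
    helper24.bs_finite_eqvIn (D.yTw Y) D.cs D.Shsp
  have h1 : sha1d p T (dualT p (indRep Y)) =
      Module.finrank (ZMod p) ↥(Sha1 (galLocal T) (indRep (twC D.C Y (cycloChar p)))) :=
    (finrank_Sha1_eq (galLocal T) (indDualIso Y (cycloChar p))).symm
  rw [h1]
  have hinj := dictSha_injective (galLocal T) D.exists_level_le_C
    D.pSub_le (bsd_hnorm D) (twC D.C Y (cycloChar p)) (bsd_twC_trivial D Y hY)
    (bsd_relIndex_ne_zero D hpT)
  exact LinearMap.finrank_le_finrank_of_injective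
    (f := (shaTrMap D Y).comp (dictSha (galLocal T) D.exists_level_le_C D.pSub_le (bsd_hnorm D)
      (twC D.C Y (cycloChar p)) (bsd_twC_trivial D Y hY)))
    ((shaTrMap_injective D Y).comp hinj)

end Fermat.Agent.P1.helper92
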