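import Fermat.Agent.P1.helper7_BSProps
import Fermat.Agent.P1.helper94_BSKExt
import Fermat.Agent.P1.helper82_BSH0Ind
import Fermat.Agent.P1.helper93_BSPermInd
import Fermat.Agent.P1.helper92_BSShaInd

/-!
# P1 / module EC / BASE-STAR (helper7): wiring of the landed packages

`baseStarOut_of_class_units` : `BaseStarOut p T` from the two arithmetic packages still open
(BS-CLASS `ClassStatement`, BS-UNITS `UnitsStatement`); the other five inputs of
`baseStarOut_of_packages` are on main:
KEXT (`helper94.kExt`), H0IND (`helper82.h0Ind`, `helper82.h0Ind'`), PERMIND (`helper93.permInd`),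
SHAIND (`helper92.shaInd`).
-/

set_option autoImplicit false

open groupCohomology ExtCitation

namespace Fermat.Agent.P1.helper7

open Fermat.Agent.S55 Fermat.Agent.P1.helper70 Fermat.Agent.P1.helper63

variable {p : ℕ} [Fact p.Prime] {T : Finset Nat.Primes}

/-- BASE-STAR from BS-CLASS and BS-UNITS. -/
theorem baseStarOut_of_class_units (hp2 : p ≠ 2) (hpT : pPrime p ∈ T)
    (hB : BaseInputStatement p T) (hF : FinOut p T)
    (hC : ClassStatement p T) (hU : UnitsStatement p T) : BaseStarOut p T :=
  baseStarOut_of_packages hp2 hpT hB hF (helper94.kExt p T) hC hU (helper82.h0Ind p T)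
    (helper82.h0Ind' p T) (helper93.permInd p T) (helper92.shaInd p T)

end Fermat.Agent.P1.helper7
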