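import Fermat.Agent.P1.helper7_LSODefs
import Fermat.Agent.S55.helper74_LocalLevels
import Fermat.Agent.S55.ABasic

/-!
# P1 / module LSO (helper7): the assembly

`locPOut_condSO_of` : the deliverable `LocPOut` for the strict-ordinary condition from the
package statements of `helper7_LSODefs`.
-/

set_option autoImplicit false
set_option linter.style.haveILetI false
set_option linter.unusedSectionVars false

open IsLocalRing ExtCitation groupCohomology

noncomputable section

namespace Fermat.Agent.P1.helper7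

open Fermat.Agent.S55 Fermat.Agent.P1.helper70

section Smooth

variable {k : Type} [Field k] (ρbar : ResidualGaloisRep k) (p : ℕ) [Fact p.Prime]
  [Algebra (ZMod p) k]

/-- `ad⁰ ρbar` restricted to a local Galois group is smooth for the local levels. -/
theorem isSmooth_loc_ad0Rep (q : Nat.Primes) :
    IsSmooth (locLevels q) (Rep.res (primeLocalToGlobal q) (ad0Rep ρbar p)) := by
  obtain ⟨L, hL, h1⟩ := ρbar.factorsThroughFiniteLevel
  haveI := hL
  haveI : Algebra.IsAlgebraic ℚ (AlgebraicClosure ℚ) := AlgebraicClosure.isAlgebraic ℚ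
  haveI : IsAlgClosure ℚ (AlgebraicClosure ℚ) := ⟨inferInstance, inferInstance⟩
  haveI : Normal ℚ (AlgebraicClosure ℚ) := IsAlgClosure.normal ℚ (AlgebraicClosure ℚ)
  let F : IntermediateField ℚ (AlgebraicClosure ℚ) :=
    IntermediateField.normalClosure ℚ L (AlgebraicClosure ℚ)
  haveI hFfin : FiniteDimensional ℚ F := normalClosure.is_finiteDimensional ℚ L _
  haveI hFn : Normal ℚ F := normalClosure.normal ℚ L _
  have hLF : L ≤ F := IntermediateField.le_normalClosure L
  refine ⟨F.fixingSubgroup.comap (primeLocalToGlobal q), ⟨F, hFfin, ?_, rfl⟩, ?_⟩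
  · rw [← IntermediateField.restrictNormalHom_ker]
    exact MonoidHom.normal_ker _
  · intro s hs a
    have hs' : primeLocalToGlobal q s ∈ F.fixingSubgroup := hs
    have hs'' : (primeLocalToGlobal q s)⁻¹ ∈ F.fixingSubgroup := inv_mem hs'
    have h2 : ρbar.ρ (primeLocalToGlobal q s) = 1 := by
      apply h1
      intro x hx
      exact (IntermediateField.mem_fixingSubgroup_iff F _).1 hs' x (hLF hx)
    have h3 : ρbar.ρ (primeLocalToGlobal q s)⁻¹ = 1 := by
      apply h1
      intro x hx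
      exact (IntermediateField.mem_fixingSubgroup_iff F _).1 hs'' x (hLF hx)
    have key : ∀ a' : Ad0 ρbar, ad0Hom ρbar (primeLocalToGlobal q s) a' = a' := by
      intro a'
      apply Ad0.toEnd_injective ρbar
      rw [toEnd_ad0Hom, h2, h3, one_mul, mul_one]
    exact key a

end Smooth

section Core

variable {k : Type} [Field k] (ρbar : ResidualGaloisRep k) (p : ℕ) [Fact p.Prime]
  [Algebra (ZMod p) k]

/-- the local module at `q` -/
abbrev locAd (q : Nat.Primes) : Rep (ZMod p) (primeLocalGaloisGroup q) :=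
  Rep.res (primeLocalToGlobal q) (ad0Rep ρbar p)

/-- `W(L)` as a `ZMod p`-subspace of the local module -/
def nilZ (q : Nat.Primes) (L : Submodule k ρbar.V) : Submodule (ZMod p) (locAd ρbar p q) :=
  (nilSub ρbar L).restrictScalars (ZMod p)

/-- `B⁰(L)` as a `ZMod p`-subspace of the local module -/
def borelZ (q : Nat.Primes) (L : Submodule k ρbar.V) : Submodule (ZMod p) (locAd ρbar p q) :=
  (borelSub ρbar L).restrictScalars (ZMod p)

lemma mem_nilZ {q : Nat.Primes} {L : Submodule k ρbar.V} {x : Ad0 ρbar} :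
    x ∈ nilZ ρbar p q L ↔ x ∈ nilSub ρbar L := Iff.rfl

lemma mem_borelZ {q : Nat.Primes} {L : Submodule k ρbar.V} {x : Ad0 ρbar} :
    x ∈ borelZ ρbar p q L ↔ x ∈ borelSub ρbar L := Iff.rfl

lemma locAd_ρ_apply (q : Nat.Primes) (g : primeLocalGaloisGroup q) (x : Ad0 ρbar) :
    (locAd ρbar p q).ρ g x = ad0Hom ρbar (primeLocalToGlobal q g) x := rfl

end Core


section Single

variable {k : Type} [Field k] (ρbar : ResidualGaloisRep k) (p : ℕ) [Fact p.Prime]
  [Algebra (ZMod p) k]

/-- restriction of level cocycles to the local group: level cocycles -/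
lemma res₁_mem_Z1 (T' : Finset Nat.Primes) (v : ↥T') (A : Rep (ZMod p) GQ) {c : GQ → A}
    (hc : c ∈ Z1 (galLevels T') A) :
    res₁ (galLocal T') A v c ∈ Z1 ((galLocal T').lev v) ((galLocal T').loc A v) := by
  refine ⟨res₁_mem_C1 (galLocal T') hc.1 v, ?_⟩
  have h2 : (d₁₂ A).hom c = 0 := hc.2
  show (d₁₂ ((galLocal T').loc A v)).hom (res₁ (galLocal T') A v c) = 0
  funext ⟨g, h⟩
  have h3 := congrFun h2 ((galLocal T').r v g, (galLocal T').r v h)
  simp only [d₁₂_hom_apply] at h3 ⊢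
  simp only [res₁_apply, map_mul]
  exact h3

/-- the image of the local Galois group lies in the decomposition group of `primeLocalPlace` -/
lemma primeLocalToGlobal_mem_dec (q : Nat.Primes) (g : primeLocalGaloisGroup q) :
    primeLocalToGlobal q g ∈ (primeLocalPlace q).decompositionSubgroup ℚ := by
  haveI : Fact (q : ℕ).Prime := ⟨q.2⟩
  exact localGaloisToGlobal_mem_decompositionSubgroup (q : ℕ) g

end Single

section Tan

variable {𝒪 : Type} [CommRing 𝒪] [IsLocalRing 𝒪]
  (ρbar : ResidualGaloisRep (ResidueField 𝒪))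
  (p : ℕ) [Fact p.Prime] [Algebra (ZMod p) (ResidueField 𝒪)]

/-- **Step 1 of the assembly**: the restriction to the local group at `p` of a tangent cocycle of
a strictly ordinary lift is the sum of a cocycle with values in `W(L)` and a coboundary. -/
theorem res₁_mem_of_isTanLift (hLin : LinStatement) (hp2 : p ≠ 2)
    (T' : Finset Nat.Primes) (v : ↥T') (hv : ((v : Nat.Primes) : ℕ) = p)
    (ρ : GaloisRepAdic (DualNumber (ResidueField 𝒪))) (hdet : ρ.DetIsCyclotomic p)
    (hso : ρ.IsStrictOrdinaryAt p) (c : GQ → ad0Rep ρbar p)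
    (hc : c ∈ Z1 (galLevels T') (ad0Rep ρbar p)) (hlift : IsTanLift ρbar ρ c) :
    ∃ L : Submodule (ResidueField 𝒪) ρbar.V, IsSOLine ρbar p (primeLocalPlace v.1) L ∧
      res₁ (galLocal T') (ad0Rep ρbar p) v c ∈
        Z1In (locLevels v.1) (locAd ρbar p v.1) (nilZ ρbar p v.1 L) ⊔
          B1 (locAd ρbar p v.1) := by
  have hP : (primeLocalPlace v.1).LiesOverPrime p := by
    have := helper74.primeLocalPlace_liesOverPrime v.1
    rwa [hv] at this
  obtain ⟨L, X, hL, hX⟩ := hLin 𝒪 ρbar p hp2 ρ hdet hso c hlift (primeLocalPlace v.1) hP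
  refine ⟨L, hL, ?_⟩
  have hsm := isSmooth_loc_ad0Rep ρbar p v.1
  let r1 : primeLocalGaloisGroup v.1 → locAd ρbar p v.1 :=
    res₁ (galLocal T') (ad0Rep ρbar p) v c
  let dX : primeLocalGaloisGroup v.1 → locAd ρbar p v.1 := (d₀₁ (locAd ρbar p v.1)).hom X
  have hres : r1 ∈ Z1 (locLevels v.1) (locAd ρbar p v.1) :=
    res₁_mem_Z1 p T' v (ad0Rep ρbar p) hc
  have hdX : dX ∈ Z1 (locLevels v.1) (locAd ρbar p v.1) := B1_le_Z1 hsm ⟨X, rfl⟩
  have hdXB : dX ∈ B1 (locAd ρbar p v.1) := ⟨X, rfl⟩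
  have hsplit : r1 = (r1 - dX) + dX := (sub_add_cancel _ _).symm
  change r1 ∈ _
  rw [hsplit]
  refine Submodule.add_mem_sup ?_ hdXB
  rw [mem_Z1In]
  refine ⟨Submodule.sub_mem _ hres hdX, fun g => ?_⟩
  exact hX (primeLocalToGlobal v.1 g) (primeLocalToGlobal_mem_dec v.1 g)

/-- restrictions of global coboundaries are local coboundaries -/
lemma map_res₁_B1_le (T' : Finset Nat.Primes) (v : ↥T') (A : Rep (ZMod p) GQ) :
    (B1 A).map (res₁ (galLocal T') A v) ≤ B1 ((galLocal T').loc A v) := by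
  rintro _ ⟨_, ⟨a, rfl⟩, rfl⟩
  exact ⟨a, rfl⟩

/-- **Step 2 of the assembly**: the local tangent cocycles at `p` of a condition implying
"cyclotomic determinant + strictly ordinary" are coboundaries, or sums of cocycles with values
in `W(L)` and coboundaries for ONE strictly ordinary line `L`. -/
theorem locTanZ_le (hLin : LinStatement) (hUniq : UniqStatement) (hRam : RamStatement)
    (hp2 : p ≠ 2) (T' : Finset Nat.Primes) (v : ↥T') (hv : ((v : Nat.Primes) : ℕ) = p)
    (𝒟 : ∀ ⦃A : Type⦄ [CommRing A] [IsLocalRing A] [Algebra 𝒪 A], GaloisRepAdic A → Prop)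
    (h𝒟 : ∀ ρ : GaloisRepAdic (DualNumber (ResidueField 𝒪)), 𝒟 ρ →
      ρ.DetIsCyclotomic p ∧ ρ.IsStrictOrdinaryAt p) :
    locTanZ ρbar p 𝒟 T' v ≤ B1 (locAd ρbar p v.1) ∨
      ∃ L : Submodule (ResidueField 𝒪) ρbar.V, IsSOLine ρbar p (primeLocalPlace v.1) L ∧
        locTanZ ρbar p 𝒟 T' v ≤
          Z1In (locLevels v.1) (locAd ρbar p v.1) (nilZ ρbar p v.1 L) ⊔
            B1 (locAd ρbar p v.1) := by
  have hP : (primeLocalPlace v.1).LiesOverPrime p := by
    have := helper74.primeLocalPlace_liesOverPrime v.1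
    rwa [hv] at this
  by_cases hne : (tanCocycles ρbar p 𝒟 T').Nonempty
  · right
    obtain ⟨c₀, hc₀, ρ₀, hρ₀, hl₀⟩ := hne
    obtain ⟨L₀, hL₀, -⟩ := res₁_mem_of_isTanLift ρbar p hLin hp2 T' v hv ρ₀ (h𝒟 ρ₀ hρ₀).1
      (h𝒟 ρ₀ hρ₀).2 c₀ hc₀ hl₀
    refine ⟨L₀, hL₀, ?_⟩
    rw [locTanZ, tanZ, Submodule.map_sup]
    refine sup_le (sup_le ?_ ?_) le_sup_right
    · refine Submodule.map_le_iff_le_comap.2 (Submodule.span_le.2 ?_)
      rintro c ⟨hc, ρ, hρ, hl⟩
      obtain ⟨L, hL, hmem⟩ := res₁_mem_of_isTanLift ρbar p hLin hp2 T' v hv ρ (h𝒟 ρ hρ).1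
        (h𝒟 ρ hρ).2 c hc hl
      have hLL : L = L₀ :=
        hUniq _ ρbar p (primeLocalPlace v.1) (hRam p hp2 _ hP) L L₀ hL hL₀
      rw [hLL] at hmem
      exact hmem
    · exact (map_res₁_B1_le p T' v (ad0Rep ρbar p)).trans le_sup_right
  · left
    rw [Set.not_nonempty_iff_eq_empty] at hne
    rw [locTanZ, tanZ, hne, Submodule.span_empty, bot_sup_eq]
    exact sup_le (map_res₁_B1_le p T' v (ad0Rep ρbar p)) le_rfl

end Tan

section Dim

variable {k : Type} [Field k] (ρbar : ResidualGaloisRep k) (p : ℕ) [Fact p.Prime]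
  [Algebra (ZMod p) k]

/-- a `k`-subspace of `ad⁰`, viewed as a `ZMod p`-subspace, has `d` times the dimension -/
theorem finrank_restrictScalars_ad0 [Module.Finite (ZMod p) k] (U : Submodule k (Ad0 ρbar)) :
    Module.finrank (ZMod p) ↥(U.restrictScalars (ZMod p)) =
      Module.finrank (ZMod p) k * Module.finrank k ↥U := by
  let e : ↥(U.restrictScalars (ZMod p)) ≃ₗ[ZMod p] ↥U :=
    { toFun := fun x => ⟨x.1, x.2⟩
      invFun := fun x => ⟨x.1, x.2⟩
      map_add' := fun _ _ => rfl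
      map_smul' := fun _ _ => rfl
      left_inv := fun _ => rfl
      right_inv := fun _ => rfl }
  rw [e.finrank_eq]
  exact (Module.finrank_mul_finrank (ZMod p) k ↥U).symm

end Dim

section Final

variable {𝒪 : Type} [CommRing 𝒪] [IsLocalRing 𝒪]
  (ρbar : ResidualGaloisRep (ResidueField 𝒪))
  (p : ℕ) [Fact p.Prime] [Algebra (ZMod p) (ResidueField 𝒪)]

/-- the classes of coboundaries vanish -/
lemma classes_B1_eq_bot {G : Type} [Group G] (𝒩 : Levels G) (A : Rep (ZMod p) G) :
    classes 𝒩 A (B1 A) = ⊥ := by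
  rw [classes, eq_bot_iff]
  rintro _ ⟨x, hx, rfl⟩
  rw [Submodule.mem_bot, Submodule.mkQ_apply, Submodule.Quotient.mk_eq_zero]
  exact hx

lemma classes_mono {G : Type} [Group G] (𝒩 : Levels G) (A : Rep (ZMod p) G)
    {L L' : Submodule (ZMod p) (G → A)} (h : L ≤ L') : classes 𝒩 A L ≤ classes 𝒩 A L' :=
  Submodule.map_mono (Submodule.comap_mono h)

lemma count_aux (t cl b z h0 d w c3 : ℕ) (h1 : t ≤ cl) (h2 : cl + b ≤ z + h0)
    (h3 : z ≤ w * c3) (h4 : c3 ≤ 3) (h5 : w = d * 1) (h6 : b = d * 2) : t ≤ h0 + d := by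
  subst h5 h6
  have h7 : d * 1 * c3 ≤ d * 3 := by
    rw [mul_one]
    exact Nat.mul_le_mul_left _ h4
  omega

/-- **Step 3 of the assembly**: the count at one place. -/
theorem locTanH_bound [Finite (ResidueField 𝒪)]
    (hLin : LinStatement) (hAct : ActStatement) (hDim : DimStatement)
    (hUniq : UniqStatement) (hRam : RamStatement) (hKum : KumOut) (hCrd : CrdStatement)
    (hCnt : CntStatement) (hp2 : p ≠ 2)
    (T' : Finset Nat.Primes) (v : ↥T') (hv : ((v : Nat.Primes) : ℕ) = p)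
    (𝒟 : ∀ ⦃A : Type⦄ [CommRing A] [IsLocalRing A] [Algebra 𝒪 A], GaloisRepAdic A → Prop)
    (h𝒟 : ∀ ρ : GaloisRepAdic (DualNumber (ResidueField 𝒪)), 𝒟 ρ →
      ρ.DetIsCyclotomic p ∧ ρ.IsStrictOrdinaryAt p) :
    Module.Finite (ZMod p) ↥(locTanH ρbar p 𝒟 T' v) ∧
      Module.finrank (ZMod p) ↥(locTanH ρbar p 𝒟 T' v) ≤
        Module.finrank (ZMod p) ↥(S55.H0 ((galLocal T').loc (ad0Rep ρbar p) v)) +
          Module.finrank (ZMod p) (ResidueField 𝒪) := by
  haveI hfk : Module.Finite (ZMod p) (ResidueField 𝒪) := Module.Finite.of_finite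
  haveI hfA : Module.Finite (ZMod p) (Ad0 ρbar) := Module.Finite.trans (ResidueField 𝒪) _
  have hfN : Module.Finite (ZMod p) (locAd ρbar p v.1) := hfA
  have hsm := isSmooth_loc_ad0Rep ρbar p v.1
  rcases locTanZ_le ρbar p hLin hUniq hRam hp2 T' v hv 𝒟 h𝒟 with h0 | ⟨L, hL, hle⟩
  · -- no tangent cocycles: the classes vanish
    have hbot : locTanH ρbar p 𝒟 T' v = ⊥ := by
      rw [eq_bot_iff]
      refine (classes_mono p _ _ h0).trans ?_
      exact (classes_B1_eq_bot p (locLevels v.1) (locAd ρbar p v.1)).le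
    rw [hbot]
    refine ⟨inferInstance, ?_⟩
    rw [finrank_bot]
    exact Nat.zero_le _
  · -- the count
    obtain ⟨-, hact1, hact2⟩ := hAct _ ρbar p (primeLocalPlace v.1) L hL
    obtain ⟨hdimW, hdimB⟩ := hDim _ ρbar L hL.finrank_eq
    have hq : v.1 = pPrime p := Subtype.ext hv
    obtain ⟨hKfin, hKle⟩ : Module.Finite (ZMod p) ↥(cycloZ1 p v.1) ∧
        Module.finrank (ZMod p) ↥(cycloZ1 p v.1) ≤ 3 := by
      rw [hq]
      exact hKum p hp2
    have hWfin : Module.Finite (ZMod p) ↥(nilZ ρbar p v.1 L) :=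
      Module.Finite.of_injective (nilZ ρbar p v.1 L).subtype Subtype.val_injective
    have hWact : ∀ g : primeLocalGaloisGroup v.1, ∀ w ∈ nilZ ρbar p v.1 L,
        (locAd ρbar p v.1).ρ g w =
          (cycloChar p (primeLocalToGlobal v.1 g) : ZMod p) • w := by
      intro g w hw
      exact hact1 (primeLocalToGlobal v.1 g) (primeLocalToGlobal_mem_dec v.1 g) w hw
    obtain ⟨hZfin, hZle⟩ := hCrd p v.1 (locAd ρbar p v.1) (nilZ ρbar p v.1 L) hWfin hWact hKfin
    have hBact : ∀ g : primeLocalGaloisGroup v.1, ∀ b ∈ borelZ ρbar p v.1 L,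
        (locAd ρbar p v.1).ρ g b - b ∈ nilZ ρbar p v.1 L := by
      intro g b hb
      exact hact2 (primeLocalToGlobal v.1 g) (primeLocalToGlobal_mem_dec v.1 g) b hb
    obtain ⟨hCfin, hCle⟩ := hCnt p (primeLocalGaloisGroup v.1) (locLevels v.1)
      (locAd ρbar p v.1) hfN hsm (nilZ ρbar p v.1 L) (borelZ ρbar p v.1 L) hBact hZfin
    have hW : Module.finrank (ZMod p) ↥(nilZ ρbar p v.1 L) =
        Module.finrank (ZMod p) (ResidueField 𝒪) * 1 := by
      rw [← hdimW]
      exact finrank_restrictScalars_ad0 ρbar p (nilSub ρbar L)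
    have hB : Module.finrank (ZMod p) ↥(borelZ ρbar p v.1 L) =
        Module.finrank (ZMod p) (ResidueField 𝒪) * 2 := by
      rw [← hdimB]
      exact finrank_restrictScalars_ad0 ρbar p (borelSub ρbar L)
    let Cl : Submodule (ZMod p)
        (H1 ((galLocal T').lev v) ((galLocal T').loc (ad0Rep ρbar p) v)) :=
      classes (locLevels v.1) (locAd ρbar p v.1)
        (Z1In (locLevels v.1) (locAd ρbar p v.1) (nilZ ρbar p v.1 L) ⊔ B1 (locAd ρbar p v.1))
    have hCfin' : Module.Finite (ZMod p) ↥Cl := hCfin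
    have hCle' : Module.finrank (ZMod p) ↥Cl +
        Module.finrank (ZMod p) ↥(borelZ ρbar p v.1 L) ≤
        Module.finrank (ZMod p)
            ↥(Z1In (locLevels v.1) (locAd ρbar p v.1) (nilZ ρbar p v.1 L)) +
          Module.finrank (ZMod p) ↥(S55.H0 ((galLocal T').loc (ad0Rep ρbar p) v)) := hCle
    have hsub : locTanH ρbar p 𝒟 T' v ≤ Cl := classes_mono p _ _ hle
    refine ⟨Module.Finite.of_injective (Submodule.inclusion hsub)
      (Submodule.inclusion_injective hsub), ?_⟩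
    have h1 : Module.finrank (ZMod p) ↥(locTanH ρbar p 𝒟 T' v) ≤ Module.finrank (ZMod p) ↥Cl :=
      Submodule.finrank_mono hsub
    exact count_aux _ _ _ _ _ _ _ _ h1 hCle' hZle hKle hW hB

end Final

section Deliverable

variable {𝒪 : Type} [CommRing 𝒪] [IsDomain 𝒪] [IsDiscreteValuationRing 𝒪]
  [IsAdicComplete (maximalIdeal 𝒪) 𝒪] [Finite (ResidueField 𝒪)]
  {p : ℕ} [Fact p.Prime]
  {ρbar : ResidualGaloisRep (ResidueField 𝒪)}
  {S Smin : Finset ℕ}
  [Algebra (ZMod p) (ResidueField 𝒪)]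

/-- **DELIVERABLE of module LSO** (conditional on the package statements): the local term at
`p` for the strict-ordinary condition, `LocPOut` for `condSO`. -/
theorem locPOut_condSO_of (hLin : LinStatement) (hAct : ActStatement) (hDim : DimStatement)
    (hUniq : UniqStatement) (hRam : RamStatement) (hKum : KumOut) (hCrd : CrdStatement)
    (hCnt : CntStatement) (hset : Setting 𝒪 p ρbar S Smin) :
    LocPOut p ρbar Smin (condSO 𝒪 p Smin) := by
  intro T _ v hv
  exact locTanH_bound ρbar p hLin hAct hDim hUniq hRam hKum hCrd hCnt hset.hp2 (primesOf T) v hv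
    (condSO 𝒪 p Smin T) (fun _ hρ => ⟨hρ.1.1, hρ.1.2.1⟩)

/-- the same with LSO-KUMA and LSO-KUMB separately -/
theorem locPOut_condSO_of' (hLin : LinStatement) (hAct : ActStatement) (hDim : DimStatement)
    (hUniq : UniqStatement) (hRam : RamStatement) (hKumA : KumAStatement)
    (hKumB : KumBStatement) (hCrd : CrdStatement) (hCnt : CntStatement)
    (hset : Setting 𝒪 p ρbar S Smin) :
    LocPOut p ρbar Smin (condSO 𝒪 p Smin) :=
  locPOut_condSO_of hLin hAct hDim hUniq hRam (hKumB hKumA) hCrd hCnt hset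

end Deliverable

end Fermat.Agent.P1.helper7
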