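import Fermat.Agent.P1.helper7_LSODefs

/-!
# P1 / module LSO, package LSO-UNIQ (helper99, task 674)

`uniqStatement : helper7.UniqStatement` : if the mod `p` cyclotomic character is ramified at `P`,
there is at most one strictly ordinary line of `ρbar` at `P`.
-/

set_option autoImplicit false

open ExtCitation

namespace Fermat.Agent.P1.helper99

open Fermat.Agent.P1.helper7

/-- The inertia group (as a subgroup of `G_ℚ`) lies in the decomposition group. -/
theorem mem_decomposition_of_mem_inertiaIn {P : ValuationSubring (AlgebraicClosure ℚ)}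
    {s : AlgebraicClosure ℚ ≃ₐ[ℚ] AlgebraicClosure ℚ} (hs : s ∈ P.inertiaSubgroupIn ℚ) :
    s ∈ P.decompositionSubgroup ℚ := by
  obtain ⟨t, -, rfl⟩ := Subgroup.mem_map.mp hs
  exact t.2

/-- One inclusion between two strictly ordinary lines. -/
theorem soLine_le {k : Type} [Field k] (ρbar : ResidualGaloisRep k) (p : ℕ) [Fact p.Prime]
    [Algebra (ZMod p) k] (P : ValuationSubring (AlgebraicClosure ℚ))
    (s : AlgebraicClosure ℚ ≃ₐ[ℚ] AlgebraicClosure ℚ) (hsI : s ∈ P.inertiaSubgroupIn ℚ)
    (hs1 : cycloChar p s ≠ 1) (L L' : Submodule k ρbar.V) (hL : IsSOLine ρbar p P L)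
    (hL' : IsSOLine ρbar p P L') : L ≤ L' := by
  have hsD : s ∈ P.decompositionSubgroup ℚ := mem_decomposition_of_mem_inertiaIn hsI
  obtain ⟨z, -, hz1, hzL⟩ := hL.char s hsD
  -- `z = 1`, because `L` is not the whole space
  have hz : z = 1 := by
    by_contra hne
    have hall : ∀ w : ρbar.V, w ∈ L := by
      intro w
      have h1 := hL.inertia s hsI w
      have h2 := hz1 w
      have h3 : (z - 1) • w ∈ L := by
        have e : (z - 1) • w = (ρbar.ρ s w - w) - (ρbar.ρ s w - z • w) := by
          rw [sub_smul, one_smul]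
          abel
        rw [e]
        exact L.sub_mem h1 h2
      have h4 := L.smul_mem (z - 1)⁻¹ h3
      rwa [smul_smul, inv_mul_cancel₀ (sub_ne_zero.mpr hne), one_smul] at h4
    have htop : L = ⊤ := Submodule.eq_top_iff'.mpr hall
    have hfin := hL.finrank_eq
    rw [htop, finrank_top, ρbar.finrank_eq] at hfin
    omega
  rw [hz] at hzL
  intro l hl
  have h1 := hzL l hl
  have h2 := hL'.inertia s hsI l
  rw [h1, mul_one] at h2
  have hω : algebraMap (ZMod p) k (cycloChar p s : ZMod p) - 1 ≠ 0 := by
    intro h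
    apply hs1
    have e : algebraMap (ZMod p) k (cycloChar p s : ZMod p) = algebraMap (ZMod p) k 1 := by
      rw [map_one]
      exact sub_eq_zero.mp h
    exact Units.ext ((algebraMap (ZMod p) k).injective e)
  have h3 : (algebraMap (ZMod p) k (cycloChar p s : ZMod p) - 1) • l ∈ L' := by
    rw [sub_smul, one_smul]
    exact h2
  have h4 := L'.smul_mem (algebraMap (ZMod p) k (cycloChar p s : ZMod p) - 1)⁻¹ h3
  rwa [smul_smul, inv_mul_cancel₀ hω, one_smul] at h4

/-- **LSO-UNIQ**. -/
theorem uniqStatement : UniqStatement := by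
  intro k _ ρbar p _ _ P hram L L' hL hL'
  obtain ⟨s, hsI, hs1⟩ := hram
  exact le_antisymm (soLine_le ρbar p P s hsI hs1 L L' hL hL')
    (soLine_le ρbar p P s hsI hs1 L' L hL' hL)

end Fermat.Agent.P1.helper99
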