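import Fermat.Agent.P1.helper7_LSOAsm
import Fermat.Agent.P1.helper95_LSOAct
import Fermat.Agent.P1.helper93_LSODim
import Fermat.Agent.P1.helper99_LSOUniq
import Fermat.Agent.P1.helper71_KumA
import Fermat.Agent.P1.helper40_KumB
import Fermat.Agent.P1.helper31_LSOCrd
import Fermat.Agent.P1.helper78_LSOCnt

/-!
# P1 / module LSO (helper7): wiring of the landed packages

`locPOut_condSO_of_lin_ram` : `LocPOut` for the strict-ordinary condition, conditional ONLY on
LSO-LIN (`LinStatement`) and LSO-RAM (`RamStatement`); the packages ACT (helper95), DIM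
(helper93), UNIQ (helper99), KUMA (helper71), KUMB (helper40), CRD (helper31), CNT (helper78)
are discharged.
-/

set_option autoImplicit false
set_option linter.unusedSectionVars false

open IsLocalRing ExtCitation groupCohomology

namespace Fermat.Agent.P1.helper7

open Fermat.Agent.S55 Fermat.Agent.P1.helper70

/-- `dim Z¹(G_p, 𝔽_p(ω)) ≤ 3`, unconditional. -/
theorem kumOut : KumOut := helper40.kumB helper71.kumA

variable {𝒪 : Type} [CommRing 𝒪] [IsDomain 𝒪] [IsDiscreteValuationRing 𝒪]
  [IsAdicComplete (maximalIdeal 𝒪) 𝒪] [Finite (ResidueField 𝒪)]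
  {p : ℕ} [Fact p.Prime]
  {ρbar : ResidualGaloisRep (ResidueField 𝒪)}
  {S Smin : Finset ℕ}
  [Algebra (ZMod p) (ResidueField 𝒪)]

/-- `LocPOut` for the strict-ordinary condition, conditional only on LSO-LIN and LSO-RAM. -/
theorem locPOut_condSO_of_lin_ram (hLin : LinStatement) (hRam : RamStatement)
    (hset : Setting 𝒪 p ρbar S Smin) : LocPOut p ρbar Smin (condSO 𝒪 p Smin) :=
  locPOut_condSO_of hLin helper95.actStatement helper93.dimStatement helper99.uniqStatement
    hRam kumOut helper31.crd helper78.cntStatement hset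

end Fermat.Agent.P1.helper7
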