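import Fermat.Agent.P1.helper70_FCDefs
import Fermat.Agent.P1.helper21_FCArith

/-!
# P1 / S56, FLAT-CNT, package FC-ARITH (helper82): `FCArithStatement` verbatim

`fcArith : helper70.FCArithStatement`, obtained from the `Int.ModEq` forms
`helper21.fc_arith_top` and `helper21.fc_arith_unique` (the hypothesis `e' ∣ p + 1` is only
used for `0 < e'`).
-/

set_option autoImplicit false

namespace Fermat.Agent.P1.helper82

/-- the cast of `e = (p - 1) * e'` to `ℤ` -/
theorem fcArith_cast (p e' e : ℕ) (hp : p.Prime) (he : e = (p - 1) * e') :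
    (e : ℤ) = ((p : ℤ) - 1) * e' := by
  have h1 : 1 ≤ p := hp.one_lt.le
  subst he
  push_cast [Nat.cast_sub h1]
  ring

/-- **FC-ARITH**, verbatim. -/
theorem fcArith : helper70.FCArithStatement := by
  intro p e' e hp hp2 hdvd he α β hα hβ
  have he'pos : 0 < e' := Nat.pos_of_dvd_of_pos hdvd (Nat.succ_pos p)
  have hcast : (e : ℤ) = ((p : ℤ) - 1) * e' := fcArith_cast p e' e hp he
  rw [hcast] at hα hβ
  refine ⟨?_, ?_⟩
  · intro m hm1 hm2 hmod
    rw [hcast] at hmod
    refine helper21.fc_arith_top p e' hp hp2 he'pos (m : ℤ) ?_ ?_ hmod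
    · rw [← hcast]; exact_mod_cast hm1
    · rw [← hcast]; exact_mod_cast hm2
  · intro m₁ m₂ s₁ s₂ hs₁ hs₂ h₁ h₁' h₂ h₂' hm₁ hm₂
    rw [hcast] at hm₁ hm₂
    have h := helper21.fc_arith_unique p e' hp hp2 he'pos α β hα hβ (m₁ : ℤ) (m₂ : ℤ) s₁ s₂
      hs₁ hs₂ (by rw [← hcast]; exact_mod_cast h₁) (by rw [← hcast]; exact_mod_cast h₁')
      (by rw [← hcast]; exact_mod_cast h₂) (by rw [← hcast]; exact_mod_cast h₂') hm₁ hm₂
    exact ⟨by exact_mod_cast h.1, h.2⟩

end Fermat.Agent.P1.helper82
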