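import Fermat.Agent.S55.helper97_BArDegIdx
import Fermat.Agent.S55.helper97_KumGAsm
import Fermat.Agent.P1.helper7_BSDefs

/-!
# P1 / module EC / BASE-STAR, package BS-DCPL (helper83, task 821): double cosets = places

For a number field `E ⊆ ℚbar` with `U = Gal(ℚbar/E)`:

* `card_placesOver_eq_sum` : `#{places of E above T} = ∑_{v ∈ T} #(D_v \ G / U)`,
  `D_v` the image of the local Galois group at `v`;
* `card_infinitePlace_eq`  : `#{infinite places of E} = #(⟨c⟩ \ G / U)`, `c` the complex
  conjugation;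
* `card_places_eq_sum_dec` : both together, in the vocabulary of `helper7.BSData.dec`.

The bijections: `D_v g U ↦ 𝔭(g⁻¹ • A_v) ∩ 𝓞_E` (`A_v` the valuation subring of `ℚbar` cut out
by `ℚbar → ℚbar_v`) and `⟨c⟩ g U ↦` the place of `x ↦ ι(g⁻¹ x)`, `ι : ℚbar → ℂ`.
-/

set_option autoImplicit false
set_option linter.unusedSectionVars false
set_option linter.style.haveILetI false

open scoped NumberField Pointwise
open ExtCitation

noncomputable section

namespace Fermat.Agent.P1.helper83

open Fermat.Agent.S55 Fermat.Agent.S55.helper59 Fermat.Agent.S54.helper91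
  Fermat.Agent.S14.helper91

local notation "Qbar" => AlgebraicClosure ℚ

local notation "Gal" => Fermat.Agent.S55.GQ

/-! ## (a) finite places -/

section Finite

variable (E : IntermediateField ℚ Qbar) [NumberField ↥E]

/-- the decomposition group at `v` stabilises the valuation subring `A_v` -/
theorem smul_primeLocalPlace_of_mem_range (v : Nat.Primes) {d : Gal}
    (hd : d ∈ (primeLocalToGlobal v).range) : d • primeLocalPlace v = primeLocalPlace v := by
  rw [helper74.range_primeLocalToGlobal, ValuationSubring.decompositionSubgroup,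
    MulAction.mem_stabilizer_iff] at hd
  exact hd

/-- the prime of `E` attached to `g`: the prime below `g⁻¹ • A_v` -/
def dcPrime (T : Finset Nat.Primes) (v : ↥T) (g : Gal) : ↥(helper75.primesOverS (↥E) T) :=
  ⟨primeOf ↥E (g⁻¹ • primeLocalPlace v.1), inferInstance, by
      intro h0
      have h1 := natCast_mem_primeOf ↥E (g⁻¹ • primeLocalPlace v.1)
        (helper69.liesOverPrime_smul (helper74.primeLocalPlace_liesOverPrime v.1) g⁻¹)
      rw [h0, Ideal.mem_bot] at h1
      exact v.1.2.ne_zero (by exact_mod_cast h1),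
    v.1, v.2, natCast_mem_primeOf ↥E (g⁻¹ • primeLocalPlace v.1)
      (helper69.liesOverPrime_smul (helper74.primeLocalPlace_liesOverPrime v.1) g⁻¹)⟩

theorem dcPrime_val (T : Finset Nat.Primes) (v : ↥T) (g : Gal) :
    (dcPrime E T v g : Ideal (𝓞 ↥E)) = primeOf ↥E (g⁻¹ • primeLocalPlace v.1) := rfl

theorem natCast_mem_dcPrime (T : Finset Nat.Primes) (v : ↥T) (g : Gal) :
    (((v.1 : Nat.Primes) : ℕ) : 𝓞 ↥E) ∈ (dcPrime E T v g : Ideal (𝓞 ↥E)) :=
  natCast_mem_primeOf ↥E (g⁻¹ • primeLocalPlace v.1)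
    (helper69.liesOverPrime_smul (helper74.primeLocalPlace_liesOverPrime v.1) g⁻¹)

/-- the prime only depends on the double coset -/
theorem dcPrime_eq_of_rel (T : Finset Nat.Primes) (v : ↥T) {g g' : Gal}
    (h : ∃ d ∈ (primeLocalToGlobal v.1).range, ∃ u ∈ E.fixingSubgroup, g' = d * g * u) :
    dcPrime E T v g = dcPrime E T v g' := by
  obtain ⟨d, hd, u, hu, rfl⟩ := h
  apply Subtype.ext
  rw [dcPrime_val, dcPrime_val]
  have e : (d * g * u)⁻¹ • primeLocalPlace v.1 = u⁻¹ • (g⁻¹ • primeLocalPlace v.1) := by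
    rw [mul_inv_rev, mul_inv_rev, mul_smul, mul_smul,
      smul_primeLocalPlace_of_mem_range v.1 (inv_mem hd)]
  rw [e, helper97.primeOf_smul_of_mem_fixingSubgroup E _ (inv_mem hu)]

/-- equal primes come from the same double coset -/
theorem rel_of_dcPrime_eq (T : Finset Nat.Primes) (v : ↥T) {g g' : Gal}
    (h : dcPrime E T v g = dcPrime E T v g') :
    ∃ d ∈ (primeLocalToGlobal v.1).range, ∃ u ∈ E.fixingSubgroup, g' = d * g * u := by
  have hP : primeOf ↥E (g⁻¹ • primeLocalPlace v.1) = primeOf ↥E (g'⁻¹ • primeLocalPlace v.1) :=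
    congrArg Subtype.val h
  obtain ⟨u, hu, huB⟩ := helper97.exists_smul_eq_of_primeOf_eq E v.1.2
    (g⁻¹ • primeLocalPlace v.1) (g'⁻¹ • primeLocalPlace v.1)
    (helper69.liesOverPrime_smul (helper74.primeLocalPlace_liesOverPrime v.1) g⁻¹)
    (helper69.liesOverPrime_smul (helper74.primeLocalPlace_liesOverPrime v.1) g'⁻¹) hP
  -- `g' u g⁻¹` stabilises `A_v`
  have hstab : g' * u * g⁻¹ ∈ (primeLocalToGlobal v.1).range := by
    rw [helper74.range_primeLocalToGlobal, ValuationSubring.decompositionSubgroup,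
      MulAction.mem_stabilizer_iff, mul_smul, mul_smul, huB, smul_inv_smul]
  refine ⟨g' * u * g⁻¹, hstab, u⁻¹, inv_mem hu, ?_⟩
  group

/-- the map from the double cosets to the primes above `T` -/
def dcPrimeQ (T : Finset Nat.Primes) :
    (Σ v : ↥T, DoubleCoset.Quotient (((primeLocalToGlobal v.1).range : Subgroup Gal) : Set Gal)
      ((E.fixingSubgroup : Subgroup Gal) : Set Gal)) → ↥(helper75.primesOverS (↥E) T) :=
  fun x => Quotient.lift (dcPrime E T x.1)
    (fun _ _ hab => dcPrime_eq_of_rel E T x.1 (DoubleCoset.rel_iff.1 hab)) x.2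

theorem dcPrimeQ_mk (T : Finset Nat.Primes) (v : ↥T) (g : Gal) :
    dcPrimeQ E T ⟨v, DoubleCoset.mk _ _ g⟩ = dcPrime E T v g := rfl

theorem dcPrimeQ_injective (T : Finset Nat.Primes) : Function.Injective (dcPrimeQ E T) := by
  rintro ⟨v, a⟩ ⟨v', a'⟩ h
  induction a using Quotient.inductionOn with
  | _ g =>
  induction a' using Quotient.inductionOn with
  | _ g' =>
  have h' : dcPrime E T v g = dcPrime E T v' g' := h
  have hv : v = v' := by
    apply Subtype.ext
    apply helper97.prime_unique_of_mem (F := E) (P := (dcPrime E T v g : Ideal (𝓞 ↥E)))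
      (dcPrime E T v g).2.1 (natCast_mem_dcPrime E T v g)
    rw [h']
    exact natCast_mem_dcPrime E T v' g'
  subst hv
  have hrel := rel_of_dcPrime_eq E T v h'
  have : (Quotient.mk _ g : DoubleCoset.Quotient
      (((primeLocalToGlobal v.1).range : Subgroup Gal) : Set Gal)
      ((E.fixingSubgroup : Subgroup Gal) : Set Gal)) = Quotient.mk _ g' :=
    Quotient.sound (DoubleCoset.rel_iff.2 hrel)
  rw [this]

theorem dcPrimeQ_surjective (T : Finset Nat.Primes) : Function.Surjective (dcPrimeQ E T) := by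
  rintro ⟨P, hPprime, hP0, q, hqT, hqP⟩
  haveI := hPprime
  haveI : P.IsMaximal := Ring.DimensionLEOne.maximalOfPrime hP0 hPprime
  obtain ⟨B, hB⟩ := exists_primeOf_eq ↥E P
  have hBq : B.LiesOverPrime (q : ℕ) :=
    liesOverPrime_of_natCast_mem ↥E B (by rw [hB]; exact hqP)
  obtain ⟨γ, hγ⟩ := helper48.exists_smul_eq_of_liesOverPrime q.2 B (primeLocalPlace q) hBq
    (helper74.primeLocalPlace_liesOverPrime q)
  refine ⟨⟨⟨q, hqT⟩, DoubleCoset.mk _ _ γ⁻¹⟩, Subtype.ext ?_⟩
  show primeOf ↥E ((γ⁻¹)⁻¹ • primeLocalPlace q) = P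
  rw [inv_inv, hγ, hB]

/-- the primes above `T` are finite in number -/
instance finite_primesOverS (T : Finset Nat.Primes) : Finite ↥(helper75.primesOverS (↥E) T) := by
  haveI := helper97.finite_placesOver' (↥E) T
  refine Finite.of_injective
    (fun P : ↥(helper75.primesOverS (↥E) T) =>
      (⟨⟨P.1, P.2.1, P.2.2.1⟩, P.2⟩ : ↥(helper97.placesOver (↥E) T))) ?_
  intro P Q h
  have h1 : P.1 = Q.1 :=
    congrArg (fun w : ↥(helper97.placesOver (↥E) T) => w.1.asIdeal) h
  exact Subtype.ext h1

/-- the double cosets `D_v \ G / U` are finite -/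
instance finite_dcQuotient (T : Finset Nat.Primes) (v : ↥T) :
    Finite (DoubleCoset.Quotient (((primeLocalToGlobal v.1).range : Subgroup Gal) : Set Gal)
      ((E.fixingSubgroup : Subgroup Gal) : Set Gal)) := by
  refine Finite.of_injective (fun a => dcPrimeQ E T ⟨v, a⟩) ?_
  intro a b h
  have := dcPrimeQ_injective E T h
  exact eq_of_heq (Sigma.mk.inj this).2

/-- **(a)** the places of `E` above `T` are counted by the double cosets `D_v \ G / U_E`. -/
theorem card_placesOver_eq_sum (T : Finset Nat.Primes) :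
    Nat.card ↥(helper97.placesOver ↥E T) =
      ∑ v : ↥T, Nat.card (DoubleCoset.Quotient
        (((primeLocalToGlobal v.1).range : Subgroup Gal) : Set Gal)
        ((E.fixingSubgroup : Subgroup Gal) : Set Gal)) := by
  rw [helper97.card_placesOver, ← Nat.card_sigma]
  exact (Nat.card_congr (Equiv.ofBijective _
    ⟨dcPrimeQ_injective E T, dcPrimeQ_surjective E T⟩)).symm

end Finite

/-! ## (b) infinite places -/

section Infinite

variable (E : IntermediateField ℚ Qbar) [NumberField ↥E]

/-- the complex embedding of `E` attached to `g`: `x ↦ ι (g x)` -/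
def dcEmb (g : Gal) : ↥E →+* ℂ :=
  (complexEmbedding : Qbar →+* ℂ).comp (((g : Qbar ≃ₐ[ℚ] Qbar) : Qbar →+* Qbar).comp
    (algebraMap ↥E Qbar))

theorem dcEmb_apply (g : Gal) (x : ↥E) :
    dcEmb E g x = complexEmbedding (g (x : Qbar)) := rfl

/-- the infinite place of `E` attached to `g` -/
def dcPlace (g : Gal) : NumberField.InfinitePlace ↥E :=
  NumberField.InfinitePlace.mk (dcEmb E g)

/-- the elements of the archimedean decomposition group -/
theorem eq_one_or_eq_of_mem_zpowers {d : Gal}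
    (hd : d ∈ Subgroup.zpowers complexConjugation) : d = 1 ∨ d = complexConjugation := by
  obtain ⟨n, rfl⟩ := Subgroup.mem_zpowers_iff.1 hd
  rcases Int.even_or_odd' n with ⟨k, rfl | rfl⟩
  · left
    rw [zpow_mul, zpow_two, complexConjugation_mul_self, one_zpow]
  · right
    rw [zpow_add, zpow_mul, zpow_two, complexConjugation_mul_self, one_zpow, one_mul, zpow_one]

theorem dcEmb_mul_of_mem (g : Gal) {u : Gal} (hu : u ∈ E.fixingSubgroup) :
    dcEmb E (g * u) = dcEmb E g := by
  ext x
  rw [dcEmb_apply, dcEmb_apply, AlgEquiv.mul_apply,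
    (IntermediateField.mem_fixingSubgroup_iff E u).1 hu _ x.2]

theorem dcEmb_conj_mul (g : Gal) :
    dcEmb E (complexConjugation * g) =
      NumberField.ComplexEmbedding.conjugate (dcEmb E g) := by
  ext x
  rw [dcEmb_apply, AlgEquiv.mul_apply, complexEmbedding_complexConjugation,
    NumberField.ComplexEmbedding.conjugate_coe_eq, dcEmb_apply]

/-- the place only depends on the double coset -/
theorem dcPlace_eq_of_rel {g g' : Gal}
    (h : ∃ d ∈ Subgroup.zpowers complexConjugation, ∃ u ∈ E.fixingSubgroup, g' = d * g * u) :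
    dcPlace E g = dcPlace E g' := by
  obtain ⟨d, hd, u, hu, rfl⟩ := h
  unfold dcPlace
  rw [dcEmb_mul_of_mem E _ hu]
  rcases eq_one_or_eq_of_mem_zpowers hd with rfl | rfl
  · rw [one_mul]
  · rw [dcEmb_conj_mul, NumberField.InfinitePlace.mk_conjugate_eq]

theorem complexEmbedding_injective : Function.Injective complexEmbedding :=
  (complexEmbedding : Qbar →+* ℂ).injective

/-- equal embeddings come from the same coset -/
theorem mem_fixingSubgroup_of_dcEmb_eq {g g' : Gal} (h : dcEmb E g = dcEmb E g') :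
    g⁻¹ * g' ∈ E.fixingSubgroup := by
  rw [IntermediateField.mem_fixingSubgroup_iff]
  intro x hx
  have h1 := DFunLike.congr_fun h (⟨x, hx⟩ : ↥E)
  rw [dcEmb_apply, dcEmb_apply] at h1
  have h2 : g x = g' x := complexEmbedding_injective h1
  rw [AlgEquiv.mul_apply, ← h2, ← AlgEquiv.mul_apply, inv_mul_cancel, AlgEquiv.one_apply]

/-- equal places come from the same double coset -/
theorem rel_of_dcPlace_eq {g g' : Gal} (h : dcPlace E g = dcPlace E g') :
    ∃ d ∈ Subgroup.zpowers complexConjugation, ∃ u ∈ E.fixingSubgroup, g' = d * g * u := by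
  rcases NumberField.InfinitePlace.mk_eq_iff.1 h with h1 | h1
  · refine ⟨1, one_mem _, g⁻¹ * g', mem_fixingSubgroup_of_dcEmb_eq E h1, ?_⟩
    group
  · rw [← dcEmb_conj_mul] at h1
    refine ⟨complexConjugation, Subgroup.mem_zpowers _, (complexConjugation * g)⁻¹ * g',
      mem_fixingSubgroup_of_dcEmb_eq E h1, ?_⟩
    group

/-- every `ℚ`-embedding of `ℚbar` into `ℂ` factors through `ι` -/
theorem exists_complexEmbedding_eq (Φ : Qbar →ₐ[ℚ] ℂ) (a : Qbar) :
    ∃ b : Qbar, complexEmbedding b = Φ a := by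
  have hint : IsIntegral ℚ a :=
    ((AlgebraicClosure.isAlgebraic ℚ).isAlgebraic a).isIntegral
  have hmem : Φ a ∈ (minpoly ℚ a).rootSet ℂ := by
    rw [Polynomial.mem_rootSet]
    refine ⟨minpoly.ne_zero hint, ?_⟩
    rw [Polynomial.aeval_algHom_apply, minpoly.aeval, map_zero]
  have hsplit : ((minpoly ℚ a).map (algebraMap ℚ Qbar)).Splits := IsAlgClosed.splits _
  rw [← hsplit.image_rootSet complexEmbedding] at hmem
  obtain ⟨b, -, hb⟩ := hmem
  exact ⟨b, hb⟩

/-- every complex embedding of `E` is of the form `x ↦ ι (g x)` -/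
theorem exists_dcEmb_eq (φ : ↥E →+* ℂ) : ∃ g : Gal, dcEmb E g = φ := by
  have hK' : ∀ s : Qbar, IsIntegral ℚ s ∧ ((minpoly ℚ s).map (algebraMap ℚ ℂ)).Splits :=
    fun s => ⟨((AlgebraicClosure.isAlgebraic ℚ).isAlgebraic s).isIntegral, IsAlgClosed.splits _⟩
  obtain ⟨Φ, hΦ⟩ := IntermediateField.exists_algHom_of_splits hK' (φ.toRatAlgHom)
  have hrange : ∀ a : Qbar, Φ a ∈ (complexEmbedding : Qbar →ₐ[ℚ] ℂ).range := fun a => by
    obtain ⟨b, hb⟩ := exists_complexEmbedding_eq Φ a
    exact ⟨b, hb⟩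
  let e : Qbar ≃ₐ[ℚ] (complexEmbedding : Qbar →ₐ[ℚ] ℂ).range :=
    AlgEquiv.ofInjective complexEmbedding complexEmbedding_injective
  let g₁ : Qbar →ₐ[ℚ] Qbar :=
    (e.symm : (complexEmbedding : Qbar →ₐ[ℚ] ℂ).range →ₐ[ℚ] Qbar).comp
      (Φ.codRestrict (complexEmbedding : Qbar →ₐ[ℚ] ℂ).range hrange)
  have hg₁ : ∀ a : Qbar, complexEmbedding (g₁ a) = Φ a := by
    intro a
    have h1 : e (g₁ a) = Φ.codRestrict (complexEmbedding : Qbar →ₐ[ℚ] ℂ).range hrange a :=
      e.apply_symm_apply _
    exact congrArg Subtype.val h1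
  haveI : Algebra.IsAlgebraic ℚ Qbar := AlgebraicClosure.isAlgebraic ℚ
  let g : Gal := AlgEquiv.ofBijective g₁ (Algebra.IsAlgebraic.algHom_bijective g₁)
  refine ⟨g, ?_⟩
  ext x
  rw [dcEmb_apply]
  have h2 : g (x : Qbar) = g₁ (x : Qbar) := rfl
  rw [h2, hg₁]
  have h3 := DFunLike.congr_fun hΦ x
  exact h3

/-- the map from the double cosets to the infinite places -/
def dcPlaceQ :
    DoubleCoset.Quotient ((Subgroup.zpowers complexConjugation : Subgroup Gal) : Set Gal)
      ((E.fixingSubgroup : Subgroup Gal) : Set Gal) → NumberField.InfinitePlace ↥E :=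
  Quotient.lift (dcPlace E) (fun _ _ hab => dcPlace_eq_of_rel E (DoubleCoset.rel_iff.1 hab))

theorem dcPlaceQ_bijective : Function.Bijective (dcPlaceQ E) := by
  constructor
  · intro a b h
    induction a using Quotient.inductionOn with
    | _ g =>
    induction b using Quotient.inductionOn with
    | _ g' =>
    exact Quotient.sound (DoubleCoset.rel_iff.2 (rel_of_dcPlace_eq E h))
  · intro w
    obtain ⟨g, hg⟩ := exists_dcEmb_eq E w.embedding
    refine ⟨Quotient.mk _ g, ?_⟩
    show dcPlace E g = w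
    unfold dcPlace
    rw [hg, NumberField.InfinitePlace.mk_embedding]

/-- **(b)** the infinite places of `E` are counted by the double cosets `⟨c⟩ \ G / U_E`. -/
theorem card_infinitePlace_eq :
    Nat.card (NumberField.InfinitePlace ↥E) =
      Nat.card (DoubleCoset.Quotient
        ((Subgroup.zpowers complexConjugation : Subgroup Gal) : Set Gal)
        ((E.fixingSubgroup : Subgroup Gal) : Set Gal)) :=
  (Nat.card_congr (Equiv.ofBijective _ (dcPlaceQ_bijective E))).symm

end Infinite

/-! ## (a) + (b) -/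

/-- **(a) + (b)** in the vocabulary of `helper7.BSData.dec`. -/
theorem card_places_eq_sum_dec {p : ℕ} [Fact p.Prime] {T : Finset Nat.Primes}
    (D : helper7.BSData p T) (E : IntermediateField ℚ Qbar) [NumberField ↥E] :
    Nat.card ↥(helper97.placesOver ↥E T) + Nat.card (NumberField.InfinitePlace ↥E) =
      ∑ v : Option ↥T, Nat.card (DoubleCoset.Quotient
        ((D.dec v : Subgroup Gal) : Set Gal) ((E.fixingSubgroup : Subgroup Gal) : Set Gal)) := by
  rw [Fintype.sum_option, card_placesOver_eq_sum E T, card_infinitePlace_eq E, add_comm]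
  rfl

end Fermat.Agent.P1.helper83
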