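import Fermat.Agent.P1.helper83_BSDcpl
import Fermat.Agent.P1.helper35_BSUnitsDefs

/-!
# P1 / module EC / BASE-STAR, package BS-DCPL (helper83, task 821): the interface statement

`dcpl T : helper35.BSU.DcplStatement T` — the places of a number field `E ⊆ ℚbar` above `T`
and above `∞` are counted by double cosets (VERBATIM the `Prop` of `helper35_BSUnitsDefs`).
-/

set_option autoImplicit false

noncomputable section

namespace Fermat.Agent.P1.helper83

/-- **BS-DCPL**, interface form. -/
theorem dcpl (T : Finset Nat.Primes) : Fermat.Agent.P1.helper35.BSU.DcplStatement T :=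
  fun E _ => ⟨card_placesOver_eq_sum E T, card_infinitePlace_eq E⟩

end Fermat.Agent.P1.helper83
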