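import Fermat.Agent.P1.helper24_BSAbs

/-!
# P1 / module EC / BASE-STAR / package BS-UNITS (helper83, second prover of row 819):
the abstract half of the assembly

Multiplicity calculus (`mlt a b = dim Hom_{a,b}(A, B)`) and the final inequality of BS-UNITS in
abstract form:

* `mlt_congr_right`, `mltIn_eq_mlt` : transport along equivalences;
* `mlt_inv`, `mlt_smul`            : `mlt a b = mlt a⁻¹ b⁻¹ = mlt (c a) (c b)`;
* `mlt_one_left`                   : `mlt 1_k a = dim ker (a - 1)`;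
* `mlt_permOp_dual`                : permutation modules are self-dual;
* `le_mltIn_of_fixed`              : a fixed nonzero vector of `W` gives `mlt a 1_k ≤ mltIn a b W`;
* `units_abstract`                 : the inequality
  `dim Y^y + mult(χ⁻¹ y, k[X]) ≤ mult(z, 𝐔) + dim (Y^*)^{χ z}` from the lattice identity
  `mult(χ z, 𝐔/𝐌) + mult(χ z, k) = mult(χ z, k[X])`.
-/

set_option autoImplicit false
set_option linter.unusedSectionVars false
set_option linter.style.haveILetI false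

noncomputable section

namespace Fermat.Agent.P1.helper83u

open Fermat.Agent.P1.helper7 Fermat.Agent.P1.helper24 Module

section Calc

variable {k : Type} [Field k]
variable {A B B' : Type} [AddCommGroup A] [Module k A] [AddCommGroup B] [Module k B]
  [AddCommGroup B'] [Module k B']

/-- the intertwiners of `(a, b)` and `(a, b')` correspond when `b` and `b'` are conjugate -/
def eqvCongrRight (a : A →ₗ[k] A) (b : B →ₗ[k] B) (b' : B' →ₗ[k] B') (e : B ≃ₗ[k] B')
    (h : ∀ x, e (b x) = b' (e x)) : ↥(eqv a b) ≃ₗ[k] ↥(eqv a b') where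
  toFun φ := ⟨e.toLinearMap ∘ₗ φ.1, by
    have hφ : φ.1 ∘ₗ a = b ∘ₗ φ.1 := φ.2
    change (e.toLinearMap ∘ₗ φ.1) ∘ₗ a = b' ∘ₗ (e.toLinearMap ∘ₗ φ.1)
    ext x
    have := LinearMap.congr_fun hφ x
    simp only [LinearMap.comp_apply, LinearEquiv.coe_coe] at this ⊢
    rw [this, h]⟩
  invFun ψ := ⟨e.symm.toLinearMap ∘ₗ ψ.1, by
    have hψ : ψ.1 ∘ₗ a = b' ∘ₗ ψ.1 := ψ.2
    change (e.symm.toLinearMap ∘ₗ ψ.1) ∘ₗ a = b ∘ₗ (e.symm.toLinearMap ∘ₗ ψ.1)
    ext x
    have := LinearMap.congr_fun hψ x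
    simp only [LinearMap.comp_apply, LinearEquiv.coe_coe] at this ⊢
    rw [this]
    apply e.injective
    rw [h, e.apply_symm_apply, e.apply_symm_apply]⟩
  map_add' φ ψ := by
    apply Subtype.ext
    ext x
    simp
  map_smul' r φ := by
    apply Subtype.ext
    ext x
    simp
  left_inv φ := by
    apply Subtype.ext
    ext x
    simp
  right_inv ψ := by
    apply Subtype.ext
    ext x
    simp

lemma mlt_congr_right (a : A →ₗ[k] A) (b : B →ₗ[k] B) (b' : B' →ₗ[k] B') (e : B ≃ₗ[k] B')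
    (h : ∀ x, e (b x) = b' (e x)) : mlt a b = mlt a b' :=
  (eqvCongrRight a b b' e h).finrank_eq

/-- `mltIn a b W = mlt a b'` when `(W, b)` is a copy of `(B', b')` -/
def eqvInEquiv (a : A →ₗ[k] A) (b : B →ₗ[k] B) (W : Submodule k B) (b' : B' →ₗ[k] B')
    (e : B' ≃ₗ[k] ↥W) (h : ∀ x, b ((e x : ↥W) : B) = ((e (b' x) : ↥W) : B)) :
    ↥(eqv a b') ≃ₗ[k] ↥(eqvIn a b W) where
  toFun ψ := ⟨W.subtype ∘ₗ e.toLinearMap ∘ₗ ψ.1, by
    have hψ : ψ.1 ∘ₗ a = b' ∘ₗ ψ.1 := ψ.2
    refine ⟨?_, fun x => (e (ψ.1 x)).2⟩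
    ext x
    have := LinearMap.congr_fun hψ x
    simp only [LinearMap.comp_apply, LinearEquiv.coe_coe, Submodule.subtype_apply] at this ⊢
    rw [this, h]⟩
  invFun φ := ⟨e.symm.toLinearMap ∘ₗ LinearMap.codRestrict W φ.1 (fun x => φ.2.2 x), by
    have hφ : φ.1 ∘ₗ a = b ∘ₗ φ.1 := φ.2.1
    change (e.symm.toLinearMap ∘ₗ LinearMap.codRestrict W φ.1 (fun x => φ.2.2 x)) ∘ₗ a =
      b' ∘ₗ (e.symm.toLinearMap ∘ₗ LinearMap.codRestrict W φ.1 (fun x => φ.2.2 x))
    ext x
    have := LinearMap.congr_fun hφ x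
    simp only [LinearMap.comp_apply, LinearEquiv.coe_coe] at this ⊢
    apply e.injective
    apply Subtype.ext
    rw [e.apply_symm_apply, ← h, e.apply_symm_apply]
    exact this⟩
  map_add' φ ψ := by
    apply Subtype.ext
    ext x
    simp
  map_smul' r φ := by
    apply Subtype.ext
    ext x
    simp
  left_inv ψ := by
    apply Subtype.ext
    ext x
    simp only [LinearMap.comp_apply, LinearEquiv.coe_coe]
    apply e.injective
    apply Subtype.ext
    rw [e.apply_symm_apply]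
    rfl
  right_inv φ := by
    apply Subtype.ext
    ext x
    simp only [LinearMap.comp_apply, LinearEquiv.coe_coe, Submodule.subtype_apply]
    rw [e.apply_symm_apply]
    rfl

lemma mltIn_eq_mlt (a : A →ₗ[k] A) (b : B →ₗ[k] B) (W : Submodule k B) (b' : B' →ₗ[k] B')
    (e : B' ≃ₗ[k] ↥W) (h : ∀ x, b ((e x : ↥W) : B) = ((e (b' x) : ↥W) : B)) :
    mltIn a b W = mlt a b' :=
  (eqvInEquiv a b W b' e h).finrank_eq.symm

/-- `mlt a b = mlt a⁻¹ b⁻¹` -/
lemma mlt_inv (a a' : A →ₗ[k] A) (b b' : B →ₗ[k] B) (ha : a ∘ₗ a' = 1)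
    (hb' : b' ∘ₗ b = 1) (ha' : a' ∘ₗ a = 1) (hb : b ∘ₗ b' = 1) : mlt a b = mlt a' b' := by
  have key : ∀ (a a' : A →ₗ[k] A) (b b' : B →ₗ[k] B), a ∘ₗ a' = 1 → b' ∘ₗ b = 1 →
      eqv a b ≤ eqv a' b' := by
    intro a a' b b' ha hb' φ hφ
    have hφ' : φ ∘ₗ a = b ∘ₗ φ := hφ
    change φ ∘ₗ a' = b' ∘ₗ φ
    ext x
    have h1 : b' (b (φ (a' x))) = φ (a' x) := by
      have := LinearMap.congr_fun hb' (φ (a' x))
      simpa using this
    have h2 : b (φ (a' x)) = φ (a (a' x)) := by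
      have := LinearMap.congr_fun hφ' (a' x)
      simpa using this.symm
    have h3 : a (a' x) = x := by
      have := LinearMap.congr_fun ha x
      simpa using this
    simp only [LinearMap.comp_apply]
    rw [← h1, h2, h3]
  have : eqv a b = eqv a' b' := le_antisymm (key a a' b b' ha hb') (key a' a b' b ha' hb)
  rw [mlt, mlt, this]

/-- `mlt (c a) (c b) = mlt a b` -/
lemma mlt_smul (c : k) (hc : c ≠ 0) (a : A →ₗ[k] A) (b : B →ₗ[k] B) :
    mlt (c • a) (c • b) = mlt a b := by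
  have : eqv (c • a) (c • b) = eqv a b := by
    ext φ
    simp only [mem_eqv, LinearMap.comp_smul, LinearMap.smul_comp]
    constructor
    · intro h
      have := congrArg (fun f => c⁻¹ • f) h
      simpa [smul_smul, inv_mul_cancel₀ hc] using this
    · intro h
      rw [h]
  rw [mlt, mlt, this]

/-- `mlt 1_k a = dim ker (a - 1)` -/
def eqvOneEquiv (a : A →ₗ[k] A) :
    ↥(eqv (1 : k →ₗ[k] k) a) ≃ₗ[k] ↥(LinearMap.ker (a - 1)) where
  toFun ψ := ⟨ψ.1 1, by
    have hψ : ψ.1 ∘ₗ (1 : k →ₗ[k] k) = a ∘ₗ ψ.1 := ψ.2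
    have := LinearMap.congr_fun hψ 1
    simp only [LinearMap.comp_apply, Module.End.one_apply] at this
    rw [LinearMap.mem_ker, LinearMap.sub_apply, Module.End.one_apply, ← this, sub_self]⟩
  invFun x := ⟨LinearMap.toSpanSingleton k A x.1, by
    have hx : a x.1 = x.1 := by
      have := x.2
      rw [LinearMap.mem_ker, LinearMap.sub_apply, Module.End.one_apply, sub_eq_zero] at this
      exact this
    change LinearMap.toSpanSingleton k A x.1 ∘ₗ (1 : k →ₗ[k] k) =
      a ∘ₗ LinearMap.toSpanSingleton k A x.1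
    ext
    simp [hx]⟩
  map_add' φ ψ := rfl
  map_smul' r φ := rfl
  left_inv ψ := by
    apply Subtype.ext
    ext
    simp
  right_inv x := by
    apply Subtype.ext
    simp

lemma mlt_one_left (a : A →ₗ[k] A) :
    mlt (1 : k →ₗ[k] k) a = finrank k ↥(LinearMap.ker (a - 1)) :=
  (eqvOneEquiv a).finrank_eq

/-- the standard pairing `(X → k) ≃ (X → k)^*` -/
def permDual (k : Type) [Field k] (X : Type) [Fintype X] :
    (X → k) ≃ₗ[k] Module.Dual k (X → k) :=
  letI : DecidableEq X := Classical.decEq X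
  (Pi.basisFun k X).toDualEquiv

lemma permDual_apply (X : Type) [Fintype X] (f g : X → k) :
    permDual k X f g = ∑ x, f x * g x := by
  classical
  have h : permDual k X f g = (Pi.basisFun k X).toDual f g := by
    unfold permDual
    rw [Module.Basis.toDualEquiv_apply]
  rw [h]
  have hg : g = ∑ x, g x • Pi.basisFun k X x := by
    ext y
    simp [Finset.sum_apply, Pi.basisFun_apply, Pi.single_apply]
  conv_lhs => rw [hg]
  rw [map_sum]
  refine Finset.sum_congr rfl fun x _ => ?_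
  rw [map_smul, Module.Basis.toDual_apply_left, Pi.basisFun_repr, smul_eq_mul, mul_comm]

/-- permutation modules are self-dual -/
lemma mlt_permOp_dual {X : Type} [Fintype X] (a : A →ₗ[k] A) (π : Equiv.Perm X) :
    mlt a (permOp k π).dualMap = mlt a (permOp k π⁻¹) := by
  symm
  refine mlt_congr_right a (permOp k π⁻¹) (permOp k π).dualMap (permDual k X) ?_
  intro f
  apply LinearMap.ext
  intro g
  rw [LinearMap.dualMap_apply, permDual_apply, permDual_apply]
  simp only [permOp_apply]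
  exact Fintype.sum_equiv π⁻¹ _ _ (fun x => by simp)

/-- a nonzero `b`-fixed vector of `W` gives `mlt a 1_k ≤ mltIn a b W` -/
lemma le_mltIn_of_fixed [Module.Finite k A] (a : A →ₗ[k] A) (b : B →ₗ[k] B)
    (W : Submodule k B) [Module.Finite k ↥W] (x₀ : B) (hx₀ : x₀ ∈ W) (h0 : x₀ ≠ 0)
    (hb : b x₀ = x₀) : mlt a (1 : k →ₗ[k] k) ≤ mltIn a b W := by
  haveI := bs_finite_eqvIn a b W
  let c : ↥(eqv a (1 : k →ₗ[k] k)) →ₗ[k] ↥(eqvIn a b W) :=
    { toFun := fun f => ⟨(LinearMap.toSpanSingleton k B x₀) ∘ₗ f.1, by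
        have hf : f.1 ∘ₗ a = (1 : k →ₗ[k] k) ∘ₗ f.1 := f.2
        refine ⟨?_, fun x => ?_⟩
        · ext x
          have := LinearMap.congr_fun hf x
          simp only [LinearMap.comp_apply, Module.End.one_apply,
            LinearMap.toSpanSingleton_apply] at this ⊢
          rw [this, map_smul, hb]
        · simp only [LinearMap.comp_apply, LinearMap.toSpanSingleton_apply]
          exact W.smul_mem _ hx₀⟩
      map_add' := fun f g => by
        apply Subtype.ext
        ext x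
        simp [add_smul]
      map_smul' := fun r f => by
        apply Subtype.ext
        ext x
        simp [mul_smul] }
  have hc : Function.Injective c := by
    intro f g h
    apply Subtype.ext
    ext x
    have h1 := congrArg (fun φ : ↥(eqvIn a b W) => (φ.1 x : B)) h
    simp only [c, LinearMap.coe_mk, AddHom.coe_mk, LinearMap.comp_apply,
      LinearMap.toSpanSingleton_apply] at h1
    by_contra hne
    have h2 : (f.1 x - g.1 x) • x₀ = 0 := by rw [sub_smul, h1, sub_self]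
    rcases smul_eq_zero.1 h2 with h3 | h3
    · exact hne (sub_eq_zero.1 h3)
    · exact h0 h3
  exact LinearMap.finrank_le_finrank_of_injective hc

end Calc

section Main

variable {k : Type} [Field k]
variable {B : Type} [AddCommGroup B] [Module k B]

/-- the operator induced by `cs` on `B ⧸ M` -/
def quotOp (cs : B →ₗ[k] B) (M : Submodule k B) (hM : ∀ x ∈ M, cs x ∈ M) :
    (B ⧸ M) →ₗ[k] (B ⧸ M) :=
  M.mapQ M cs (fun x hx => hM x hx)

@[simp] lemma quotOp_mkQ (cs : B →ₗ[k] B) (M : Submodule k B) (hM : ∀ x ∈ M, cs x ∈ M) (x : B) :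
    quotOp cs M hM (M.mkQ x) = M.mkQ (cs x) := rfl

/-- the image of `U` in `B ⧸ M` -/
def quotSp (U M : Submodule k B) : Submodule k (B ⧸ M) := U.map M.mkQ

lemma quotOp_mem (cs : B →ₗ[k] B) (U M : Submodule k B) (hU : ∀ x ∈ U, cs x ∈ U)
    (hM : ∀ x ∈ M, cs x ∈ M) : ∀ x ∈ quotSp U M, quotOp cs M hM x ∈ quotSp U M := by
  rintro _ ⟨u, hu, rfl⟩
  exact ⟨cs u, hU u hu, rfl⟩

/-- the operator `χ • cs` on the image of `U` in `B ⧸ M` -/
def quotV (χ : k) (cs : B →ₗ[k] B) (U M : Submodule k B) (hU : ∀ x ∈ U, cs x ∈ U)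
    (hM : ∀ x ∈ M, cs x ∈ M) : ↥(quotSp U M) →ₗ[k] ↥(quotSp U M) :=
  χ • (quotOp cs M hM).restrict (quotOp_mem cs U M hU hM)

lemma quotV_apply (χ : k) (cs : B →ₗ[k] B) (U M : Submodule k B) (hU : ∀ x ∈ U, cs x ∈ U)
    (hM : ∀ x ∈ M, cs x ∈ M) (u : B) (hu : u ∈ U) :
    quotV χ cs U M hU hM ⟨M.mkQ u, ⟨u, hu, rfl⟩⟩ =
      ⟨M.mkQ (χ • cs u), ⟨χ • cs u, U.smul_mem χ (hU u hu), rfl⟩⟩ := by
  apply Subtype.ext
  simp only [quotV, LinearMap.smul_apply, LinearMap.restrict_apply, Submodule.coe_smul, map_smul]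
  rfl

/-- **(U2)+(U3)**: the permutation side: `mult(χ⁻¹ y, k[X]) = mult(χ (y⁻¹)ᵀ, k[X])` -/
theorem mlt_twist_perm (hSymm : AbsSymmStatement) (hDual : AbsDualStatement)
    {Y : Type} [AddCommGroup Y] [Module k Y] [Module.Finite k Y]
    (y y' : Y →ₗ[k] Y) (hyy' : y ∘ₗ y' = 1) (hy'y : y' ∘ₗ y = 1)
    (χ χ' : k) (hχ : χ * χ' = 1) {X : Type} [Fintype X] (π : Equiv.Perm X) :
    mlt (χ' • y) (permOp k π) = mlt (χ • y'.dualMap) (permOp k π) := by
  rw [hDual k Y (X → k) (χ' • y) (permOp k π), hSymm k _ _ (permOp k π).dualMap (χ' • y).dualMap,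
    mlt_permOp_dual]
  refine mlt_inv _ _ _ _ ?_ ?_ ?_ ?_
  · ext f v
    have := LinearMap.congr_fun hy'y v
    simp only [LinearMap.comp_apply, Module.End.one_apply] at this
    simp only [LinearMap.comp_apply, LinearMap.smul_apply, LinearMap.dualMap_apply, map_smul,
      smul_eq_mul, this, Module.End.one_apply]
    rw [← mul_assoc, hχ, one_mul]
  · ext f x
    simp [permOp_apply]
  · ext f v
    have := LinearMap.congr_fun hyy' v
    simp only [LinearMap.comp_apply, Module.End.one_apply] at this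
    simp only [LinearMap.comp_apply, LinearMap.smul_apply, LinearMap.dualMap_apply, map_smul,
      smul_eq_mul, this, Module.End.one_apply]
    rw [← mul_assoc, hχ, one_mul]
  · ext f x
    simp [permOp_apply]

/-- **(U1)**: `mult(a, k) = dim ker (a - 1)` -/
theorem mlt_one_right (hSymm : AbsSymmStatement)
    {A : Type} [AddCommGroup A] [Module k A] [Module.Finite k A] (a : A →ₗ[k] A) :
    mlt a (1 : k →ₗ[k] k) = finrank k ↥(LinearMap.ker (a - 1)) := by
  rw [hSymm k _ _ a (1 : k →ₗ[k] k), mlt_one_left]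

/-- a `cs`-fixed nonzero vector of `M` gives `dim Y^y ≤ mult((y⁻¹)ᵀ, M)` -/
theorem finrank_ker_le_mltIn (hSymm : AbsSymmStatement)
    {Y : Type} [AddCommGroup Y] [Module k Y] [Module.Finite k Y]
    (y y' : Y →ₗ[k] Y) (hyy' : y ∘ₗ y' = 1) (hy'y : y' ∘ₗ y = 1)
    (cs : B →ₗ[k] B) (M : Submodule k B) [Module.Finite k ↥M]
    (x₀ : B) (hx₀ : x₀ ∈ M) (hx₀0 : x₀ ≠ 0) (hx₀c : cs x₀ = x₀) :
    finrank k ↥(LinearMap.ker (y - 1)) ≤ mltIn y'.dualMap cs M := by
  refine le_trans (le_of_eq ?_) (le_mltIn_of_fixed y'.dualMap cs M x₀ hx₀ hx₀0 hx₀c)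
  rw [mlt_one_right hSymm]
  have e1 : y'.dualMap - 1 = (y' - 1).dualMap := by
    ext f v
    simp [LinearMap.dualMap_apply]
  rw [e1, bs_finrank_ker_dualMap]
  have e2 : LinearMap.ker (y' - 1) = LinearMap.ker (y - 1) := by
    ext v
    simp only [LinearMap.mem_ker, LinearMap.sub_apply, Module.End.one_apply, sub_eq_zero]
    constructor
    · intro h
      have := LinearMap.congr_fun hyy' v
      simp only [LinearMap.comp_apply, Module.End.one_apply] at this
      rw [h] at this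
      exact this
    · intro h
      have := LinearMap.congr_fun hy'y v
      simp only [LinearMap.comp_apply, Module.End.one_apply] at this
      rw [h] at this
      exact this
  rw [e2]

/-- `(y'ᵀ)^n = 1` from `y'^n = 1` -/
lemma dualMap_pow_eq_one {Y : Type} [AddCommGroup Y] [Module k Y] (y' : Y →ₗ[k] Y) (n : ℕ)
    (hyn : y' ^ n = 1) : (y'.dualMap) ^ n = 1 := by
  have : ∀ i : ℕ, (y'.dualMap) ^ i = (y' ^ i).dualMap := by
    intro i
    induction i with
    | zero => ext f v; simp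
    | succ i ih =>
      rw [pow_succ, ih, pow_succ']
      ext f v
      simp [LinearMap.dualMap_apply]
  rw [this, hyn]
  ext f v
  simp

/-- **BS-UNITS, abstract form.** -/
theorem units_abstract (hSymm : AbsSymmStatement) (hDual : AbsDualStatement)
    (hAdd : AbsAddStatement) (n : ℕ) (hn : (n : k) ≠ 0)
    {Y : Type} [AddCommGroup Y] [Module k Y] [Module.Finite k Y]
    (y y' : Y →ₗ[k] Y) (hyy' : y ∘ₗ y' = 1) (hy'y : y' ∘ₗ y = 1) (hyn : y' ^ n = 1)
    (χ χ' : k) (hχ : χ * χ' = 1)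
    (cs : B →ₗ[k] B) (U M : Submodule k B) (hMU : M ≤ U) [Module.Finite k ↥U]
    (hU : ∀ x ∈ U, cs x ∈ U) (hM : ∀ x ∈ M, cs x ∈ M) (hUn : ∀ x ∈ U, (cs ^ n) x = x)
    (x₀ : B) (hx₀ : x₀ ∈ M) (hx₀0 : x₀ ≠ 0) (hx₀c : cs x₀ = x₀)
    {X : Type} [Fintype X] (π : Equiv.Perm X)
    (hLat : mlt (χ • y'.dualMap) (quotV χ cs U M hU hM) +
        mlt (χ • y'.dualMap) (1 : k →ₗ[k] k) = mlt (χ • y'.dualMap) (permOp k π)) :
    finrank k ↥(LinearMap.ker (y - 1)) + mlt (χ' • y) (permOp k π) ≤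
      mltIn y'.dualMap cs U + finrank k ↥(LinearMap.ker (χ • y'.dualMap - 1)) := by
  have hχ0 : χ ≠ 0 := left_ne_zero_of_mul_eq_one hχ
  haveI : Module.Finite k ↥M := Module.Finite.of_injective (Submodule.inclusion hMU)
    (Submodule.inclusion_injective hMU)
  have h1 := mlt_twist_perm hSymm hDual y y' hyy' hy'y χ χ' hχ π
  have h3 := mlt_one_right hSymm (χ • y'.dualMap)
  have hzn := dualMap_pow_eq_one y' n hyn
  have h4 := hAdd k n hn (Module.Dual k Y) y'.dualMap hzn B cs M U hMU inferInstance hU hUn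
    (B ⧸ M) (quotOp cs M hM) M.mkQ (fun x _ => rfl)
    (fun x _ => by rw [Submodule.mkQ_apply, Submodule.Quotient.mk_eq_zero])
  have h5 : mltIn y'.dualMap (quotOp cs M hM) (U.map M.mkQ) =
      mlt (χ • y'.dualMap) (quotV χ cs U M hU hM) := by
    rw [quotV, mlt_smul χ hχ0]
    exact mltIn_eq_mlt _ _ _ _ (LinearEquiv.refl k _) (fun x => rfl)
  have h6 := finrank_ker_le_mltIn hSymm y y' hyy' hy'y cs M x₀ hx₀ hx₀0 hx₀c
  rw [h1, ← hLat, h4, h5, h3]
  omega

end Main

end Fermat.Agent.P1.helper83u
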