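import Fermat.Agent.P1.helper30_FlatCntPkgs

/-!
# P1 / FLAT-CNT (helper84, task 798): COUNT-I

`countI : KQIStatement p → ResInjStatement p → TameIStatement p → LFEdegStatement p →
  LFZetaStatement p → CountIStatement p`.

* `countI_abstract` : abstract linear algebra.  If `S ≤ Z¹` is a space of level cocycles and `r` a
  linear map on cochains such that every element of `S` killed by `r` is a coboundary, then the
  classes of `S ⊔ B¹` form a quotient of `S.map r`.
* `countI` : CASE I of the local count.  `S` = span of the bounded cocycles, `r` = restriction to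
  `G_T`, `T` the field cut out by `ρbar` on `G_p`: `G_T` is normal of index `[T : ℚ_p]` prime to
  `p` (TAME-I + LF-EDEG) and acts trivially on `ad⁰`, so RES-INJ applies.
-/

set_option autoImplicit false
set_option linter.style.haveILetI false

open IsLocalRing ExtCitation groupCohomology Polynomial

noncomputable section

namespace Fermat.Agent.P1.helper84

open Fermat.Agent.S55 Fermat.Agent.P1.helper70 Fermat.Agent.P1.helper30
open Fermat.Agent.S55.helper8 Fermat.Agent.S55.helper7

/-! ## Abstract linear algebra -/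

section Abstract

variable {k G : Type} [Field k] [Group G] (𝒩 : Levels G) (A : Rep k G)

/-- The classes of `S ⊔ B¹`, for `S ≤ Z¹`, are the classes of the elements of `S`. -/
lemma countI_classes_eq_range (S : Submodule k (G → A)) (hS : S ≤ Z1 𝒩 A) :
    classes 𝒩 A (S ⊔ B1 A) =
      LinearMap.range ((Submodule.mkQ ((B1 A).comap (Z1 𝒩 A).subtype)).comp
        (Submodule.inclusion hS)) := by
  apply le_antisymm
  · rintro _ ⟨z, hz, rfl⟩
    have hz' : (z : G → A) ∈ S ⊔ B1 A := hz
    rw [Submodule.mem_sup] at hz'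
    obtain ⟨s, hs, b, hb, hsum⟩ := hz'
    have hbZ : b ∈ Z1 𝒩 A := by
      have : b = (z : G → A) - s := by rw [← hsum]; abel
      rw [this]
      exact Submodule.sub_mem _ z.2 (hS hs)
    have hz2 : z = Submodule.inclusion hS ⟨s, hs⟩ + ⟨b, hbZ⟩ := Subtype.ext hsum.symm
    refine ⟨⟨s, hs⟩, ?_⟩
    rw [hz2, map_add, LinearMap.comp_apply]
    have : Submodule.mkQ ((B1 A).comap (Z1 𝒩 A).subtype) ⟨b, hbZ⟩ = 0 := by
      rw [Submodule.mkQ_apply, Submodule.Quotient.mk_eq_zero]
      exact hb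
    rw [this, add_zero]
  · rintro _ ⟨s, rfl⟩
    refine ⟨Submodule.inclusion hS s, ?_, rfl⟩
    change ((Submodule.inclusion hS s : ↥(Z1 𝒩 A)) : G → A) ∈ S ⊔ B1 A
    exact (le_sup_left : S ≤ S ⊔ B1 A) s.2

/-- **Abstract COUNT-I.** If every element of `S ≤ Z¹` killed by `r` is a coboundary, the classes
of `S ⊔ B¹` form a quotient of `S.map r`. -/
theorem countI_abstract {X : Type} [AddCommGroup X] [Module k X]
    (S : Submodule k (G → A)) (hS : S ≤ Z1 𝒩 A)
    (r : (G → A) →ₗ[k] X) (hker : ∀ s ∈ S, r s = 0 → s ∈ B1 A)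
    (hfin : Module.Finite k ↥(S.map r)) :
    Module.Finite k ↥(classes 𝒩 A (S ⊔ B1 A)) ∧
      Module.finrank k ↥(classes 𝒩 A (S ⊔ B1 A)) ≤ Module.finrank k ↥(S.map r) := by
  haveI := hfin
  set φ : ↥S →ₗ[k] H1 𝒩 A :=
    (Submodule.mkQ ((B1 A).comap (Z1 𝒩 A).subtype)).comp (Submodule.inclusion hS) with hφ
  -- the restriction of `r` to `S`, onto `S.map r`
  let g : ↥S →ₗ[k] ↥(S.map r) :=
    (r.domRestrict S).codRestrict (S.map r) (fun s => ⟨s.1, s.2, rfl⟩)
  have hg : Function.Surjective g := by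
    rintro ⟨y, s, hs, rfl⟩
    exact ⟨⟨s, hs⟩, rfl⟩
  have hkerle : ∀ s : ↥S, g s = 0 → φ s = 0 := by
    intro s hs
    have h0 : r s.1 = 0 := congrArg Subtype.val hs
    have hb : (s : G → A) ∈ B1 A := hker s.1 s.2 h0
    rw [hφ, LinearMap.comp_apply, Submodule.mkQ_apply, Submodule.Quotient.mk_eq_zero]
    exact hb
  obtain ⟨h, hh⟩ := LinearMap.exists_rightInverse_of_surjective g (LinearMap.range_eq_top.2 hg)
  have hrange : LinearMap.range (φ.comp h) = LinearMap.range φ := by
    apply le_antisymm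
    · rintro _ ⟨y, rfl⟩
      exact ⟨h y, rfl⟩
    · rintro _ ⟨s, rfl⟩
      refine ⟨g s, ?_⟩
      have h1 : g (h (g s) - s) = 0 := by
        rw [map_sub]
        have := LinearMap.congr_fun hh (g s)
        rw [LinearMap.comp_apply, LinearMap.id_apply] at this
        rw [this, sub_self]
      have h2 := hkerle _ h1
      rw [map_sub, sub_eq_zero] at h2
      rw [LinearMap.comp_apply]
      exact h2
  rw [countI_classes_eq_range 𝒩 A S hS, ← hrange]
  exact ⟨inferInstance, LinearMap.finrank_range_le _⟩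

end Abstract

/-! ## CASE I -/

section CaseI

variable (p : ℕ) [Fact p.Prime]

/-- The bounded cocycles are level cocycles. -/
lemma countI_span_le_Z1 {𝒪 : Type} [CommRing 𝒪] [IsLocalRing 𝒪]
    (ρbar : ResidualGaloisRep (ResidueField 𝒪)) [Algebra (ZMod p) (ResidueField 𝒪)]
    (T : IntermediateField ℚ_[p] (PadicAlgCl p)) [FiniteDimensional ℚ_[p] T]
    (B W : Submodule (ResidueField 𝒪) (Ad0 ρbar)) :
    Submodule.span (ZMod p) (bddCocycles p ρbar T B W) ≤
      Z1 (locLevels (pPrime p)) (locM ρbar p) :=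
  Submodule.span_le.2 (fun _ hc => hc.1)

/-- An element of `G_p` on which `ρbar` is trivial acts trivially on `ad⁰`. -/
lemma countI_locM_ρ_eq {𝒪 : Type} [CommRing 𝒪] [IsLocalRing 𝒪]
    (ρbar : ResidualGaloisRep (ResidueField 𝒪)) [Algebra (ZMod p) (ResidueField 𝒪)]
    (u : Gp p) (hu : ρbar.ρ (localGaloisToGlobal p u) = 1) (m : locM ρbar p) :
    (locM ρbar p).ρ u m = m := by
  have hinv : ρbar.ρ (localGaloisToGlobal p u)⁻¹ = 1 := by
    have h1 := map_mul ρbar.ρ (localGaloisToGlobal p u)⁻¹ (localGaloisToGlobal p u)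
    rw [inv_mul_cancel, map_one, hu, mul_one] at h1
    exact h1.symm
  have key : ∀ x : Ad0 ρbar, (ad0Rep ρbar p).ρ (localGaloisToGlobal p u) x = x := by
    intro x
    apply Ad0.toEnd_injective ρbar
    rw [ad0Rep_ρ_apply, hu, hinv, one_mul, mul_one]
  exact key m

/-- The kernel of `ρbar` on `G_p` is a normal subgroup. -/
lemma countI_normal {k : Type} [Field k] (ρbar : ResidualGaloisRep k)
    (U : Subgroup (Gp p))
    (hU : ∀ g : Gp p, g ∈ U ↔ ρbar.ρ (localGaloisToGlobal p g) = 1) : U.Normal := by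
  refine ⟨fun n hn g => ?_⟩
  rw [hU] at hn ⊢
  rw [map_mul, map_mul, map_mul, map_mul, hn, mul_one, ← map_mul, ← map_mul, mul_inv_cancel,
    map_one, map_one]

/-- **COUNT-I.** -/
theorem countI (hKQ : KQIStatement p) (hRI : ResInjStatement p) (hTame : TameIStatement p)
    (hE : LFEdegStatement p) (hZ : LFZetaStatement p) : CountIStatement p := by
  intro 𝒪 _ _ _ ρbar _ hset hirr T _ hT
  obtain ⟨hfin, hrank⟩ := hKQ 𝒪 ρbar hset hirr T hT
  obtain ⟨-, hpfin, -⟩ := hTame hE hZ (ResidueField 𝒪) ρbar hset hirr T hT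
  obtain ⟨-, hidx⟩ := hE T
  have hnorm : (T.fixingSubgroup).Normal := countI_normal p ρbar T.fixingSubgroup hT
  have hpidx : ¬ p ∣ (T.fixingSubgroup).index := by rw [← hidx]; exact hpfin
  have hker : ∀ s ∈ Submodule.span (ZMod p) (bddCocycles p ρbar T ⊤ ⊤),
      (LinearMap.funLeft (ZMod p) (locM ρbar p)
        (Subtype.val : ↥T.fixingSubgroup → Gp p)) s = 0 → s ∈ B1 (locM ρbar p) := by
    intro s hs h0
    refine hRI (primeLocalGaloisGroup (pPrime p)) (locLevels (pPrime p)) (locM ρbar p)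
      T.fixingSubgroup hnorm hpidx ?_ s (countI_span_le_Z1 p ρbar T ⊤ ⊤ hs) ?_
    · intro u hu m
      exact countI_locM_ρ_eq p ρbar u ((hT u).1 hu) m
    · intro u hu
      exact congrFun h0 ⟨u, hu⟩
  obtain ⟨h1, h2⟩ := countI_abstract (locLevels (pPrime p)) (locM ρbar p)
    (Submodule.span (ZMod p) (bddCocycles p ρbar T ⊤ ⊤)) (countI_span_le_Z1 p ρbar T ⊤ ⊤)
    (LinearMap.funLeft (ZMod p) (locM ρbar p) (Subtype.val : ↥T.fixingSubgroup → Gp p))
    hker hfin
  exact ⟨h1, h2.trans hrank⟩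

end CaseI

end Fermat.Agent.P1.helper84
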