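import Fermat.Agent.P1.helper63_ECDefs2
import Fermat.Agent.S55.TopTr

/-!
# P1 / module EC, package FIN1 (helper85): finiteness of `H¹`

`fin1Out_of`: for an odd prime `p` and a finite set `T` of primes containing `p`, the
level-constant `H¹(G_T, N)` of every finite dimensional smooth `𝔽_p[G_ℚ]`-module `N` is finite
dimensional.  Proof: the dévissage `helper57.devissage` for the property
`P(N) := Module.Finite (H¹(N))`:

* `P` is inherited by retracts (`retractClosed_h1Finite`, functoriality of `H¹`);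
* `P` is closed under extensions (`extClosed_h1Finite`; the middle exactness of the long exact
  sequence enters as the hypothesis `hext`, the statement `h1_finite_ext` of package LES-B);
* `P` holds for the permutation modules `k[G/U]`, `χ_cyc|U = 1` (`h1Finite_perm`): by Shapiro's
  lemma (hypothesis `hshap`, the degree one part of `shapiro_perm` of package SHAP)
  `H¹(G, k[G/U]) = H¹(U, k)`, `U = Gal(ℚbar/F)` with `ζ_p ∈ F`, and `H¹(U, k)` is a quotient of
  `Z¹(U, k)`, which is finite dimensional by `BaseInput.glob_fin`.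
-/

set_option autoImplicit false

open groupCohomology ExtCitation

noncomputable section

namespace Fermat.Agent.P1.helper85

open Fermat.Agent.S55 Fermat.Agent.P1.helper70 Fermat.Agent.P1.helper63

/-! ## Functoriality of `H¹` -/

section Abstract

variable {k G : Type} [Field k] [Group G] (𝒩 : Levels G)

/-- the statement of `h1_finite_ext` (package LES-B) for the level structure `𝒩` -/
def H1FiniteExt (k : Type) [Field k] {G : Type} [Group G] (𝒩 : Levels G) : Prop :=
  ∀ (A₁ A A₂ : Rep.{0} k G) (i : A₁ →ₗ[k] A) (q : A →ₗ[k] A₂),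
    (∀ s a, i (A₁.ρ s a) = A.ρ s (i a)) → (∀ s a, q (A.ρ s a) = A₂.ρ s (q a)) →
    Function.Injective i → Function.Surjective q → LinearMap.range i = LinearMap.ker q →
    Module.Finite k A → IsSmooth 𝒩 A →
    Module.Finite k (S55.H1 𝒩 A₁) → Module.Finite k (S55.H1 𝒩 A₂) →
    Module.Finite k (S55.H1 𝒩 A)

/-- the degree one part of the statement of `shapiro_perm` (package SHAP) for the level
structure `𝒩` -/
def ShapiroPerm1 (k : Type) [Field k] {G : Type} [Group G] (𝒩 : Levels G) : Prop :=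
  ∀ (U : Subgroup G) (hU : ∃ N ∈ 𝒩.mem, N ≤ U),
    Nonempty (S55.H1 𝒩 (permRep k U) ≃ₗ[k]
      S55.H1 (helper35.restrictLevels 𝒩 U hU) (helper35.trivRep k ↥U))

variable {A B : Rep.{0} k G}

lemma comp_mem_Z1 (f : A →ₗ[k] B) (hf : ∀ s a, f (A.ρ s a) = B.ρ s (f a)) {x : G → A}
    (hx : x ∈ Z1 𝒩 A) : f.compLeft G x ∈ Z1 𝒩 B := by
  obtain ⟨⟨N, hN, hlev⟩, hcoc⟩ := hx
  refine ⟨⟨N, hN, fun g s hs => ?_⟩, ?_⟩
  · change f (x (g * s)) = f (x g)
    rw [hlev g s hs]
  · rw [SetLike.mem_coe, LinearMap.mem_ker] at hcoc ⊢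
    funext g
    have h := congrFun hcoc g
    rw [d₁₂_hom_apply] at h ⊢
    change B.ρ g.1 (f (x g.2)) - f (x (g.1 * g.2)) + f (x g.1) = 0
    rw [← hf, ← map_sub, ← map_add, h, Pi.zero_apply, map_zero]

lemma comp_mem_B1 (f : A →ₗ[k] B) (hf : ∀ s a, f (A.ρ s a) = B.ρ s (f a)) {x : G → A}
    (hx : x ∈ B1 A) : f.compLeft G x ∈ B1 B := by
  obtain ⟨a, rfl⟩ := hx
  refine ⟨f a, ?_⟩
  funext g
  rw [d₀₁_hom_apply]
  change _ = f ((d₀₁ A).hom a g)
  rw [d₀₁_hom_apply, map_sub, hf]

/-- the map induced on cocycles -/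
def z1Map (f : A →ₗ[k] B) (hf : ∀ s a, f (A.ρ s a) = B.ρ s (f a)) :
    ↥(Z1 𝒩 A) →ₗ[k] ↥(Z1 𝒩 B) :=
  (f.compLeft G).restrict fun _ hx => comp_mem_Z1 𝒩 f hf hx

@[simp] lemma z1Map_apply (f : A →ₗ[k] B) (hf : ∀ s a, f (A.ρ s a) = B.ρ s (f a))
    (x : ↥(Z1 𝒩 A)) (g : G) : (z1Map 𝒩 f hf x : G → B) g = f ((x : G → A) g) := rfl

/-- the map induced on `H¹` -/
def h1Map (f : A →ₗ[k] B) (hf : ∀ s a, f (A.ρ s a) = B.ρ s (f a)) :
    S55.H1 𝒩 A →ₗ[k] S55.H1 𝒩 B :=
  Submodule.mapQ _ _ (z1Map 𝒩 f hf) fun x hx => by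
    rw [Submodule.mem_comap] at hx ⊢
    exact comp_mem_B1 f hf hx

lemma h1Map_mk (f : A →ₗ[k] B) (hf : ∀ s a, f (A.ρ s a) = B.ρ s (f a)) (x : ↥(Z1 𝒩 A)) :
    h1Map 𝒩 f hf (Submodule.Quotient.mk x) = Submodule.Quotient.mk (z1Map 𝒩 f hf x) := rfl

/-- finiteness of `H¹` is inherited by retracts -/
theorem retractClosed_h1Finite :
    helper57.RetractClosed 𝒩 (fun N : Rep.{0} k G => Module.Finite k (S55.H1 𝒩 N)) := by
  intro A B i r hi hr hri _ _ _ _ hB
  have : Module.Finite k (S55.H1 𝒩 B) := hB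
  refine Module.Finite.of_surjective (h1Map 𝒩 r hr) fun y => ?_
  refine ⟨h1Map 𝒩 i hi y, ?_⟩
  induction y using Submodule.Quotient.induction_on with
  | H x =>
    rw [h1Map_mk, h1Map_mk]
    congr 1
    apply Subtype.ext
    funext g
    exact hri _

/-- finiteness of `H¹` is closed under extensions (given the middle exactness `hext`) -/
theorem extClosed_h1Finite (hext : H1FiniteExt k 𝒩) :
    helper57.ExtClosed 𝒩 (fun N : Rep.{0} k G => Module.Finite k (S55.H1 𝒩 N)) := by
  intro A₁ A A₂ i q hi hq hinj hsurj hex _ hfin _ _ hsm _ h1 h2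
  exact hext A₁ A A₂ i q hi hq hinj hsurj hex hfin hsm h1 h2

end Abstract

/-! ## The base case and the dévissage -/

section Arith

variable (p : ℕ) [Fact p.Prime] (T : Finset Nat.Primes)

/-- the base case: `H¹(G_T, k[G/U])` is finite dimensional for `U` open with `χ_cyc|U = 1` -/
theorem h1Finite_perm (hshap : ShapiroPerm1 (ZMod p) (galLevels T)) (hp2 : p ≠ 2)
    (hpT : pPrime p ∈ T) (hB : BaseInputStatement p T) (U : Subgroup GQ)
    (hU : ∃ N ∈ (galLevels T).mem, N ≤ U) (hχ : ∀ g ∈ U, cycloChar p g = 1) :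
    Module.Finite (ZMod p) (S55.H1 (galLevels T) (permRep (ZMod p) U)) := by
  obtain ⟨e⟩ := hshap U hU
  obtain ⟨hfin, -⟩ := helper92.levelStatement p T hpT
  obtain ⟨F, hF, rfl⟩ := exists_field_of_open T U hU
  have : FiniteDimensional ℚ F := hF.1
  have : Finite (GQ ⧸ F.fixingSubgroup) := by
    obtain ⟨N', hN', hle⟩ := hU
    have := hfin N' hN'
    have : N'.FiniteIndex := Subgroup.finiteIndex_of_finite_quotient
    have : F.fixingSubgroup.FiniteIndex := Subgroup.finiteIndex_of_le hle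
    infer_instance
  obtain ⟨D⟩ := helper57.nonempty_shData (L := galLocal T) (U := F.fixingSubgroup)
  obtain ⟨I, -⟩ := hB hp2 hpT F hF (hasZeta_of_cycloChar_eq_one F p hχ) hU D
  have : Module.Finite (ZMod p)
      ↥(Z1 (helper35.restrictLevels (galLevels T) F.fixingSubgroup hU)
        (helper35.trivRep (ZMod p) ↥F.fixingSubgroup)) := I.glob_fin
  have : Module.Finite (ZMod p)
      (S55.H1 (helper35.restrictLevels (galLevels T) F.fixingSubgroup hU)
        (helper35.trivRep (ZMod p) ↥F.fixingSubgroup)) := inferInstance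
  exact Module.Finite.equiv e.symm

/-- **EC-FIN1**, with the outputs of the packages LES-B (`hext`, the statement of
`h1_finite_ext`) and SHAP (`hshap`, the degree one part of `shapiro_perm`) as hypotheses. -/
theorem fin1Out_of (hext : H1FiniteExt (ZMod p) (galLevels T))
    (hshap : ShapiroPerm1 (ZMod p) (galLevels T))
    (hp2 : p ≠ 2) (hpT : pPrime p ∈ T) (hB : BaseInputStatement p T) :
    ∀ N : Rep.{0} (ZMod p) GQ, Module.Finite (ZMod p) N → IsSmooth (galLevels T) N →
      Module.Finite (ZMod p) (S55.H1 (galLevels T) N) := by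
  obtain ⟨hfin, hχ⟩ := helper92.levelStatement p T hpT
  have : CharP (ZMod p) p := ZMod.charP p
  exact helper57.devissage p hfin (cycloChar p) hχ (retractClosed_h1Finite (galLevels T))
    (extClosed_h1Finite (galLevels T) hext)
    (fun U hU hχU => h1Finite_perm p T hshap hp2 hpT hB U hU hχU)

end Arith

end Fermat.Agent.P1.helper85
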