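/-
P1 / FLAT-CNT, package FC-EIG-QUOT (helper86, task 711).

`fcEigQuot : helper70.FCEigQuotStatement` : eigenspaces do not grow in quotients.
-/
import Mathlib
import Fermat.Agent.P1.helper70_FCDefs

set_option autoImplicit false

namespace Fermat.Agent.P1.helper86

/-- the kernel of an induced endomorphism of a quotient is not bigger than the kernel of the
endomorphism -/
theorem finrank_ker_mapQ_le {k M : Type*} [Field k] [AddCommGroup M] [Module k M]
    [Module.Finite k M] (A : Module.End k M) (S : Submodule k M) (hS : S ≤ S.comap A) :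
    Module.finrank k (LinearMap.ker (S.mapQ S A hS)) ≤ Module.finrank k (LinearMap.ker A) := by
  set B : Module.End k (M ⧸ S) := S.mapQ S A hS with hB
  have h1 := LinearMap.finrank_range_add_finrank_ker A
  have h2 := LinearMap.finrank_range_add_finrank_ker B
  have h3 := Submodule.finrank_quotient_add_finrank S
  -- the map `range A → M ⧸ S`
  set g : LinearMap.range A →ₗ[k] (M ⧸ S) := S.mkQ.comp (LinearMap.range A).subtype with hg
  have h4 := LinearMap.finrank_range_add_finrank_ker g
  have h5 : LinearMap.range g ≤ LinearMap.range B := by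
    rintro _ ⟨⟨x, m, rfl⟩, rfl⟩
    refine ⟨S.mkQ m, ?_⟩
    simp [hB, hg]
  have h6 : Module.finrank k (LinearMap.range g) ≤ Module.finrank k (LinearMap.range B) :=
    Submodule.finrank_mono h5
  -- the kernel of `g` embeds into `S`
  have h7 : Module.finrank k (LinearMap.ker g) ≤ Module.finrank k S := by
    let j : LinearMap.ker g →ₗ[k] S :=
      { toFun := fun x => ⟨(x.1 : M), by
          have hx : g x.1 = 0 := LinearMap.mem_ker.1 x.2
          have hx' : S.mkQ (x.1 : M) = 0 := hx
          exact (Submodule.Quotient.mk_eq_zero S).1 hx'⟩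
        map_add' := fun _ _ => rfl
        map_smul' := fun _ _ => rfl }
    have hj : Function.Injective j := by
      intro x y hxy
      have : ((x.1 : M)) = (y.1 : M) := congrArg (fun s : S => (s : M)) hxy
      exact Subtype.ext (Subtype.ext this)
    exact LinearMap.finrank_le_finrank_of_injective hj
  omega

/-- **[FC-EIG-QUOT]** eigenspaces do not grow in quotients. -/
theorem fcEigQuot : helper70.FCEigQuotStatement := by
  intro k M _ _ _ _ Φ S hS ℓ
  have hS' : S ≤ S.comap (Φ - ℓ • LinearMap.id) := by
    intro x hx
    rw [Submodule.mem_comap]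
    simp only [LinearMap.sub_apply, LinearMap.smul_apply, LinearMap.id_coe, id_eq]
    exact S.sub_mem (hS hx) (S.smul_mem ℓ hx)
  have key : S.mapQ S Φ hS - ℓ • LinearMap.id = S.mapQ S (Φ - ℓ • LinearMap.id) hS' := by
    apply LinearMap.ext
    intro x
    induction x using Submodule.Quotient.induction_on with
    | _ m => simp [Submodule.mapQ_apply]
  rw [key]
  exact finrank_ker_mapQ_le _ S hS'

end Fermat.Agent.P1.helper86
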