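import Fermat.Agent.P1.helper88_CountIIa

/-!
# P1 / FLAT-CNT, COUNT-II (helper88, task 799)

`countII p : helper30.CountII2Statement p` (VERBATIM).

Let `L = ramLine`, `B⁰ = borelSub L`, `W = nilSub L`, `S = span (bddCocycles T B⁰ W)`.
* by BDD-SUB, `S` consists of `0` and of bounded cocycles (`cii_mem_span`);
* for `c ∈ S`, `u_c = dg ∘ c` (`dg` = the scalar by which an element of `B⁰` acts on `L`) is a
  homomorphism `G_p → k`, trivial on inertia and on a level, hence determined by `u_c σ` for the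
  Frobenius lift `σ` of the tame structure (`ciiU_eq_zero`);
* the kernel of `c ↦ u_c σ` on `S` consists of bounded cocycles with values in `W`, of dimension
  `≤ 2 d` by KQ-II; hence `dim S ≤ 3 d`;
* `S` contains the coboundaries of `B⁰` (`dim B⁰ = 2 d`), so
  `dim classes (S + B¹) ≤ 3 d - 2 d + h⁰` (`cii_classes_count`).
-/

set_option autoImplicit false
set_option linter.style.haveILetI false

open IsLocalRing ExtCitation groupCohomology Polynomial

noncomputable section

namespace Fermat.Agent.P1.helper88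

open Fermat.Agent.S55 Fermat.Agent.P1.helper70 Fermat.Agent.P1.helper30

section Coc

open Fermat.Agent.P1.helper93 Fermat.Agent.P1.helper7

variable (p : ℕ) [Fact p.Prime] {𝒪 : Type} [CommRing 𝒪] [IsLocalRing 𝒪]
  (ρbar : ResidualGaloisRep (ResidueField 𝒪)) [Algebra (ZMod p) (ResidueField 𝒪)]
  (b : Module.Basis (Fin 2) (ResidueField 𝒪) ρbar.V)

/-- the function `u_c = dg ∘ c`. -/
def ciiU (c : primeLocalGaloisGroup (pPrime p) → locM ρbar p) :
    primeLocalGaloisGroup (pPrime p) → ResidueField 𝒪 :=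
  fun g => ciiDg b (c g : Ad0 ρbar)

lemma ciiU_apply (c : primeLocalGaloisGroup (pPrime p) → locM ρbar p)
    (g : primeLocalGaloisGroup (pPrime p)) :
    ciiU p ρbar b c g = ciiDg b (c g : Ad0 ρbar) := rfl

lemma cii_toGQ_eq (g : primeLocalGaloisGroup (pPrime p)) :
    primeLocalToGlobal (pPrime p) g = localGaloisToGlobal p g := rfl

lemma cii_locM_ρ (g : primeLocalGaloisGroup (pPrime p)) (x : locM ρbar p) :
    ((locM ρbar p).ρ g x : Ad0 ρbar) = ad0Hom ρbar (primeLocalToGlobal (pPrime p) g) x := rfl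

variable {p ρbar b}
variable (hb : ∀ u : ρbar.V, u ∈ ramLine p ρbar ↔ b.repr u 1 = 0)
  (hstab : ∀ g : Gp p, ∀ x ∈ ramLine p ρbar,
    ρbar.ρ (localGaloisToGlobal p g) x ∈ ramLine p ρbar)
  {c : primeLocalGaloisGroup (pPrime p) → locM ρbar p}
  (hc : c ∈ Z1 (locLevels (pPrime p)) (locM ρbar p))
  (hB : ∀ g : Gp p, (c g : Ad0 ρbar) ∈ borelSub ρbar (ramLine p ρbar))

include hc in
lemma cii_cocycle (g h : primeLocalGaloisGroup (pPrime p)) :
    c (g * h) = (locM ρbar p).ρ g (c h) + c g := by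
  have h2 := congrFun (LinearMap.mem_ker.1 hc.2) (g, h)
  rw [d₁₂_hom_apply] at h2
  have h4 : (locM ρbar p).ρ g (c h) - c (g * h) + c g = 0 := h2
  have h5 : c (g * h) - ((locM ρbar p).ρ g (c h) + c g) = 0 := by
    rw [← neg_eq_zero, ← h4]; abel
  exact sub_eq_zero.1 h5

include hb hstab hc hB in
lemma ciiU_mul (g h : primeLocalGaloisGroup (pPrime p)) :
    ciiU p ρbar b c (g * h) = ciiU p ρbar b c g + ciiU p ρbar b c h := by
  rw [ciiU_apply, ciiU_apply, ciiU_apply, cii_cocycle hc g h]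
  have h1 : ciiDg b (((locM ρbar p).ρ g (c h) + c g : locM ρbar p) : Ad0 ρbar) =
      ciiDg b ((locM ρbar p).ρ g (c h) : Ad0 ρbar) + ciiDg b (c g : Ad0 ρbar) :=
    map_add (ciiDg b) _ _
  rw [h1, cii_locM_ρ]
  have hg : ∀ w ∈ ramLine p ρbar,
      ρbar.ρ (primeLocalToGlobal (pPrime p) g)⁻¹ w ∈ ramLine p ρbar := by
    intro w hw
    have := hstab g⁻¹ w hw
    rw [map_inv] at this
    exact this
  rw [cii_dg_conj b (ramLine p ρbar) hb (primeLocalToGlobal (pPrime p) g) hg (hB h), add_comm]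

include hb hstab hc hB in
lemma ciiU_one : ciiU p ρbar b c 1 = 0 := by
  have h := ciiU_mul hb hstab hc hB 1 1
  rw [mul_one] at h
  exact left_eq_add.mp h

include hb hstab hc hB in
lemma ciiU_pow (g : primeLocalGaloisGroup (pPrime p)) (n : ℕ) :
    ciiU p ρbar b c (g ^ n) = n • ciiU p ρbar b c g := by
  induction n with
  | zero => rw [pow_zero, zero_smul]; exact ciiU_one hb hstab hc hB
  | succ n ih => rw [pow_succ, ciiU_mul hb hstab hc hB, ih, succ_nsmul]

include hb hstab hc hB in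
/-- `u_c` is determined by its value at a Frobenius lift. -/
lemma ciiU_eq_zero (hW : ∀ g ∈ inertiaΩ p, (c g : Ad0 ρbar) ∈ nilSub ρbar (ramLine p ρbar))
    {σ : Gp p} (hσ : helper24.TameStructure (locLevels (pPrime p)) (inertiaΩ p) σ p)
    (h0 : ciiU p ρbar b c σ = 0) (g : primeLocalGaloisGroup (pPrime p)) :
    ciiU p ρbar b c g = 0 := by
  obtain ⟨N, hN, hlev⟩ := hc.1
  obtain ⟨n, i, hi, s, hs, rfl⟩ := hσ.gen N hN g
  have hs0 : ciiU p ρbar b c s = 0 := by
    have h1 : c (1 * s) = c 1 := hlev 1 s hs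
    rw [one_mul] at h1
    rw [ciiU_apply, h1, ← ciiU_apply, ciiU_one hb hstab hc hB]
  have hi0 : ciiU p ρbar b c i = 0 :=
    cii_dg_of_mem_nilSub b (ramLine p ρbar) hb (hW i hi)
  rw [ciiU_mul hb hstab hc hB, ciiU_mul hb hstab hc hB, ciiU_pow hb hstab hc hB, hs0, hi0,
    h0, smul_zero, add_zero, add_zero]

end Coc


/-! ## E. Closure of the bounded cocycles under linear combinations -/

section Span

open Fermat.Agent.P1.helper93 Fermat.Agent.P1.helper7

variable {p : ℕ} [Fact p.Prime] {𝒪 : Type} [CommRing 𝒪] [IsLocalRing 𝒪]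
  {ρbar : ResidualGaloisRep (ResidueField 𝒪)} [Algebra (ZMod p) (ResidueField 𝒪)]

/-- by BDD-SUB, the span of the bounded cocycles consists of `0` and the bounded cocycles. -/
lemma cii_mem_span (hbs : BddSubStatement p)
    (T : IntermediateField ℚ_[p] (PadicAlgCl p)) [FiniteDimensional ℚ_[p] T]
    (B W : Submodule (ResidueField 𝒪) (Ad0 ρbar))
    (c : primeLocalGaloisGroup (pPrime p) → locM ρbar p)
    (hc : c ∈ Submodule.span (ZMod p) (bddCocycles p ρbar T B W)) :
    c = 0 ∨ c ∈ bddCocycles p ρbar T B W := by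
  induction hc using Submodule.span_induction with
  | mem x hx => exact Or.inr hx
  | zero => exact Or.inl rfl
  | add x y _ _ hx hy =>
    rcases hx with rfl | hx
    · rw [zero_add]; exact hy
    rcases hy with rfl | hy
    · rw [add_zero]; exact Or.inr hx
    refine Or.inr ⟨Submodule.add_mem _ hx.1 hy.1, fun g => B.add_mem (hx.2.1 g) (hy.2.1 g),
      fun g hg => W.add_mem (hx.2.2.1 g hg) (hy.2.2.1 g hg), fun ℓ => ?_⟩
    have h := (hbs T _ _ 0 (hx.2.2.2 ℓ) (hy.2.2.2 ℓ)).1
    have e : (fun g : Gp p => ℓ ((x + y) g : Ad0 ρbar)) =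
        fun g => ℓ (x g : Ad0 ρbar) + ℓ (y g : Ad0 ρbar) := by
      funext g
      exact map_add ℓ _ _
    rw [e]
    exact h
  | smul a x _ hx =>
    rcases hx with rfl | hx
    · rw [smul_zero]; exact Or.inl rfl
    refine Or.inr ⟨Submodule.smul_mem _ a hx.1, fun g => ?_, fun g hg => ?_, fun ℓ => ?_⟩
    · exact B.smul_mem (algebraMap (ZMod p) (ResidueField 𝒪) a) (hx.2.1 g)
    · exact W.smul_mem (algebraMap (ZMod p) (ResidueField 𝒪) a) (hx.2.2.1 g hg)
    · have h := (hbs T _ _ a (hx.2.2.2 ℓ) (hx.2.2.2 ℓ)).2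
      have e : (fun g : Gp p => ℓ ((a • x) g : Ad0 ρbar)) =
          fun g => a * ℓ (x g : Ad0 ρbar) := by
        funext g
        have := map_smul ℓ a (x g : Ad0 ρbar)
        rw [smul_eq_mul] at this
        exact this
      rw [e]
      exact h

end Span

/-! ## F. COUNT-II -/

section Main

open Fermat.Agent.P1.helper93 Fermat.Agent.P1.helper7

/-- **COUNT-II** (verbatim `helper30.CountII2Statement`). -/
theorem countII (p : ℕ) [Fact p.Prime] : Fermat.Agent.P1.helper30.CountII2Statement p := by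
  intro hKQ hbs 𝒪 _ _ _ ρbar _ hset hL hstab T _ hT hB
  obtain ⟨σ, hσ⟩ := hset.htame
  obtain ⟨b, hb⟩ := lso_exists_adapted_basis ρbar (ramLine p ρbar) hL
  obtain ⟨hKfin, hKrank⟩ := hKQ 𝒪 ρbar hset hL hstab T hT
  haveI hfk : Module.Finite (ZMod p) (ResidueField 𝒪) := Module.Finite.of_finite
  haveI hfA : Module.Finite (ZMod p) (Ad0 ρbar) :=
    Module.Finite.trans (ResidueField 𝒪) (Ad0 ρbar)
  haveI hfM : Module.Finite (ZMod p) (locM ρbar p) := hfA
  -- the kernel of `c ↦ u_c σ`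
  let φ : ↥(Submodule.span (ZMod p) (bddCocycles p ρbar T
      (borelSub ρbar (ramLine p ρbar)) (nilSub ρbar (ramLine p ρbar)))) →ₗ[ZMod p]
      ResidueField 𝒪 :=
    { toFun := fun c => ciiU p ρbar b c.1 σ
      map_add' := fun x y => map_add (ciiDg b) _ _
      map_smul' := fun a x => by
        have h1 : ciiU p ρbar b (a • x).1 σ =
            ciiDg b (algebraMap (ZMod p) (ResidueField 𝒪) a •
              (show Ad0 ρbar from x.1 σ)) := rfl
        rw [h1, map_smul, smul_eq_mul, RingHom.id_apply, Algebra.smul_def]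
        rfl }
  have hφ : ∀ c, φ c = ciiU p ρbar b c.1 σ := fun _ => rfl
  have hker : ∀ c, φ c = 0 → (c : primeLocalGaloisGroup (pPrime p) → locM ρbar p) ∈
      Submodule.span (ZMod p) (bddCocycles p ρbar T
        (nilSub ρbar (ramLine p ρbar)) (nilSub ρbar (ramLine p ρbar))) := by
    intro c h0
    rw [hφ] at h0
    rcases cii_mem_span hbs T _ _ c.1 c.2 with h | h
    · rw [h]; exact Submodule.zero_mem _
    · refine Submodule.subset_span ⟨h.1, fun g => ?_, fun g hg => h.2.2.1 g hg, h.2.2.2⟩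
      exact cii_mem_nilSub_of_dg b _ hb (h.2.1 g)
        (ciiU_eq_zero hb hstab h.1 h.2.1 h.2.2.1 hσ h0 g)
  obtain ⟨hSfin, hSrank⟩ := cii_finrank_le_of_ker _ _ φ hker
  -- the count of classes
  have hSZ : Submodule.span (ZMod p) (bddCocycles p ρbar T
      (borelSub ρbar (ramLine p ρbar)) (nilSub ρbar (ramLine p ρbar))) ≤
      Z1 (locLevels (pPrime p)) (locM ρbar p) :=
    Submodule.span_le.2 fun c hc => hc.1
  let Bz : Submodule (ZMod p) (locM ρbar p) :=
    (borelSub ρbar (ramLine p ρbar)).restrictScalars (ZMod p)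
  have hBS : ∀ x ∈ Bz, (d₀₁ (locM ρbar p)).hom x ∈ Submodule.span (ZMod p)
      (bddCocycles p ρbar T
        (borelSub ρbar (ramLine p ρbar)) (nilSub ρbar (ramLine p ρbar))) :=
    fun x hx => Submodule.subset_span (hB x hx)
  obtain ⟨hfin, hcount⟩ := cii_classes_count (locLevels (pPrime p)) (locM ρbar p) _ Bz hSZ hBS
    hSfin
  have hBz : Module.finrank (ZMod p) ↥Bz = Module.finrank (ZMod p) (ResidueField 𝒪) * 2 := by
    let e : ↥Bz ≃ₗ[ZMod p] ↥(borelSub ρbar (ramLine p ρbar)) :=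
      { toFun := fun x => ⟨x.1, x.2⟩
        invFun := fun x => ⟨x.1, x.2⟩
        map_add' := fun _ _ => rfl
        map_smul' := fun _ _ => rfl
        left_inv := fun _ => rfl
        right_inv := fun _ => rfl }
    rw [e.finrank_eq, ← Module.finrank_mul_finrank (ZMod p) (ResidueField 𝒪)
      ↥(borelSub ρbar (ramLine p ρbar)), finrank_borelSub _ hL]
  refine ⟨hfin, ?_⟩
  have hgoal : Module.finrank (ZMod p) ↥(bbOf p ρbar T
      (borelSub ρbar (ramLine p ρbar)) (nilSub ρbar (ramLine p ρbar))) =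
      Module.finrank (ZMod p) ↥(classes (locLevels (pPrime p)) (locM ρbar p)
        (Submodule.span (ZMod p) (bddCocycles p ρbar T
          (borelSub ρbar (ramLine p ρbar)) (nilSub ρbar (ramLine p ρbar))) ⊔
          B1 (locM ρbar p))) := rfl
  rw [hgoal]
  omega

end Main

end Fermat.Agent.P1.helper88
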