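import Fermat.Agent.P1.helper30_FlatCntL3
import Fermat.Agent.P1.helper93_LSODim

/-!
# P1 / FLAT-CNT, COUNT-II (helper88, task 799): abstract part

* `cii_finrank_le_of_ker` : `dim S ≤ dim K + dim Q` if `φ : S → Q` has kernel inside `K`;
* `cii_classes_count`     : `dim classes (S + B¹) + dim B ≤ dim S + h⁰` if `S ≤ Z¹` contains the
                            coboundaries of the elements of `B`;
* `ciiDg`                 : the diagonal functional on the Borel of a line (in an adapted basis),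
                            conjugation-invariant, with kernel `W(L)`.
-/

set_option autoImplicit false
set_option linter.style.haveILetI false

open IsLocalRing ExtCitation groupCohomology Polynomial

noncomputable section

namespace Fermat.Agent.P1.helper88

open Fermat.Agent.S55 Fermat.Agent.P1.helper70 Fermat.Agent.P1.helper30

/-! ## A. Abstract linear algebra -/

section AbstractA

variable {F E Q : Type*} [Field F] [AddCommGroup E] [Module F E] [AddCommGroup Q] [Module F Q]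

/-- If `φ : S → Q` has kernel inside a finite-dimensional `K` and `Q` is finite-dimensional, then
`S` is finite-dimensional of dimension `≤ dim K + dim Q`. -/
theorem cii_finrank_le_of_ker [Module.Finite F Q] (S K : Submodule F E) [Module.Finite F ↥K]
    (φ : ↥S →ₗ[F] Q) (hker : ∀ c : ↥S, φ c = 0 → (c : E) ∈ K) :
    Module.Finite F ↥S ∧ Module.finrank F ↥S ≤ Module.finrank F ↥K + Module.finrank F Q := by
  let j : ↥(LinearMap.ker φ) →ₗ[F] ↥K :=
    LinearMap.codRestrict K (S.subtype ∘ₗ (LinearMap.ker φ).subtype)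
      (fun x => hker x.1 (LinearMap.mem_ker.1 x.2))
  have hj : Function.Injective j := by
    intro x y hxy
    have h2 : ((j x : ↥K) : E) = ((j y : ↥K) : E) := congrArg Subtype.val hxy
    exact Subtype.ext (Subtype.ext h2)
  haveI hkfin : Module.Finite F ↥(LinearMap.ker φ) := Module.Finite.of_injective j hj
  haveI hqfin : Module.Finite F (↥S ⧸ LinearMap.ker φ) :=
    Module.Finite.equiv φ.quotKerEquivRange.symm
  haveI hSfin : Module.Finite F ↥S := Module.Finite.of_submodule_quotient (LinearMap.ker φ)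
  refine ⟨hSfin, ?_⟩
  have e1 := LinearMap.finrank_range_add_finrank_ker φ
  have e2 : Module.finrank F ↥(LinearMap.ker φ) ≤ Module.finrank F ↥K :=
    LinearMap.finrank_le_finrank_of_injective hj
  have e3 : Module.finrank F ↥(LinearMap.range φ) ≤ Module.finrank F Q :=
    Submodule.finrank_le _
  omega

end AbstractA

/-! ## B. Abstract count of classes -/

section AbstractB

variable {p : ℕ} [Fact p.Prime] {G : Type} [Group G] (𝒩 : Levels G) (N : Rep (ZMod p) G)
  (S : Submodule (ZMod p) (G → N)) (B : Submodule (ZMod p) N)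

/-- the map `δ : B → S`, `b ↦ (g ↦ g b - b)`. -/
def ciiDelta (hBS : ∀ b ∈ B, (d₀₁ N).hom b ∈ S) : ↥B →ₗ[ZMod p] ↥S :=
  LinearMap.codRestrict S ((d₀₁ N).hom ∘ₗ B.subtype) fun b => hBS b b.2

theorem ciiDelta_apply (hBS : ∀ b ∈ B, (d₀₁ N).hom b ∈ S) (b : ↥B) :
    ((ciiDelta N S B hBS b : ↥S) : G → N) = (d₀₁ N).hom (b : N) := rfl

/-- the map `π : S → H¹(G, N)`. -/
def ciiPi (hS : S ≤ Z1 𝒩 N) : ↥S →ₗ[ZMod p] H1 𝒩 N :=
  (Submodule.mkQ ((B1 N).comap (Z1 𝒩 N).subtype)) ∘ₗ Submodule.inclusion hS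

/-- the range of `π` is the space of classes of `S + B¹`. -/
theorem range_ciiPi (hS : S ≤ Z1 𝒩 N) :
    LinearMap.range (ciiPi 𝒩 N S hS) = classes 𝒩 N (S ⊔ B1 N) := by
  apply le_antisymm
  · rintro _ ⟨c, rfl⟩
    refine ⟨Submodule.inclusion hS c, ?_, rfl⟩
    exact Submodule.mem_sup_left c.2
  · rintro _ ⟨z, hz, rfl⟩
    obtain ⟨a, ha, b, hb, hab⟩ := Submodule.mem_sup.1 hz
    refine ⟨⟨a, ha⟩, ?_⟩
    have hb' : b ∈ Z1 𝒩 N := by
      have hab' : a + b = (z : G → N) := hab
      have : b = (z : G → N) - a := by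
        rw [← hab']; abel
      rw [this]
      exact Submodule.sub_mem _ z.2 (hS ha)
    have hz' : z = Submodule.inclusion hS ⟨a, ha⟩ + ⟨b, hb'⟩ :=
      Subtype.ext hab.symm
    rw [hz', map_add]
    have h0 : Submodule.mkQ ((B1 N).comap (Z1 𝒩 N).subtype) (⟨b, hb'⟩ : ↥(Z1 𝒩 N)) = 0 := by
      rw [Submodule.mkQ_apply, Submodule.Quotient.mk_eq_zero]
      exact hb
    rw [h0, add_zero]
    rfl

/-- `range δ ≤ ker π`. -/
theorem range_ciiDelta_le (hS : S ≤ Z1 𝒩 N) (hBS : ∀ b ∈ B, (d₀₁ N).hom b ∈ S) :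
    LinearMap.range (ciiDelta N S B hBS) ≤ LinearMap.ker (ciiPi 𝒩 N S hS) := by
  rintro _ ⟨b, rfl⟩
  rw [LinearMap.mem_ker, ciiPi, LinearMap.comp_apply, Submodule.mkQ_apply,
    Submodule.Quotient.mk_eq_zero]
  exact ⟨(b : N), rfl⟩

/-- `ker δ` embeds into `H⁰(G, N)`. -/
theorem finrank_ker_ciiDelta_le [Module.Finite (ZMod p) N]
    (hBS : ∀ b ∈ B, (d₀₁ N).hom b ∈ S) :
    Module.finrank (ZMod p) ↥(LinearMap.ker (ciiDelta N S B hBS)) ≤
      Module.finrank (ZMod p) ↥(S55.H0 N) := by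
  have hmem : ∀ x : ↥(LinearMap.ker (ciiDelta N S B hBS)),
      ((x : ↥B) : N) ∈ S55.H0 N := by
    rintro ⟨b, hb⟩ g
    have h1 : ((ciiDelta N S B hBS b : ↥S) : G → N) g = 0 := by
      rw [LinearMap.mem_ker.1 hb]
      rfl
    rw [ciiDelta_apply, d₀₁_hom_apply, sub_eq_zero] at h1
    exact h1
  let f : ↥(LinearMap.ker (ciiDelta N S B hBS)) →ₗ[ZMod p] ↥(S55.H0 N) :=
    LinearMap.codRestrict (S55.H0 N)
      (B.subtype ∘ₗ (LinearMap.ker (ciiDelta N S B hBS)).subtype) hmem
  refine LinearMap.finrank_le_finrank_of_injective (f := f) ?_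
  intro x y hxy
  have h2 : ((f x : ↥(S55.H0 N)) : N) = ((f y : ↥(S55.H0 N)) : N) := congrArg Subtype.val hxy
  exact Subtype.ext (Subtype.ext h2)

/-- **Abstract count**: if `S ≤ Z¹` is finite-dimensional and contains the coboundaries of the
elements of `B`, then `dim classes (S + B¹) + dim B ≤ dim S + h⁰`. -/
theorem cii_classes_count [Module.Finite (ZMod p) N] (hS : S ≤ Z1 𝒩 N)
    (hBS : ∀ b ∈ B, (d₀₁ N).hom b ∈ S) (hfin : Module.Finite (ZMod p) ↥S) :
    Module.Finite (ZMod p) ↥(classes 𝒩 N (S ⊔ B1 N)) ∧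
      Module.finrank (ZMod p) ↥(classes 𝒩 N (S ⊔ B1 N)) + Module.finrank (ZMod p) ↥B ≤
        Module.finrank (ZMod p) ↥S + Module.finrank (ZMod p) ↥(S55.H0 N) := by
  have hr := range_ciiPi 𝒩 N S hS
  have hfinR : Module.Finite (ZMod p) ↥(LinearMap.range (ciiPi 𝒩 N S hS)) :=
    Module.Finite.range (ciiPi 𝒩 N S hS)
  have e1 := LinearMap.finrank_range_add_finrank_ker (ciiPi 𝒩 N S hS)
  have e2 := LinearMap.finrank_range_add_finrank_ker (ciiDelta N S B hBS)
  have e3 := finrank_ker_ciiDelta_le N S B hBS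
  have e4 : Module.finrank (ZMod p) ↥(LinearMap.range (ciiDelta N S B hBS)) ≤
      Module.finrank (ZMod p) ↥(LinearMap.ker (ciiPi 𝒩 N S hS)) :=
    Submodule.finrank_mono (range_ciiDelta_le 𝒩 N S B hS hBS)
  rw [← hr]
  refine ⟨hfinR, ?_⟩
  omega

end AbstractB

/-! ## C. The diagonal functional on the Borel -/

section Diag

open Fermat.Agent.P1.helper93 Fermat.Agent.P1.helper7

variable {k : Type} [Field k] {ρbar : ResidualGaloisRep k}

/-- the diagonal functional: the scalar by which an element of the Borel acts on the line. -/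
def ciiDg (b : Module.Basis (Fin 2) k ρbar.V) : Ad0 ρbar →ₗ[k] k where
  toFun x := lsoMat b x 0 0
  map_add' x y := by simp
  map_smul' c x := by simp

lemma ciiDg_apply (b : Module.Basis (Fin 2) k ρbar.V) (x : Ad0 ρbar) :
    ciiDg b x = lsoMat b x 0 0 := rfl

variable (b : Module.Basis (Fin 2) k ρbar.V) (L : Submodule k ρbar.V)
  (hb : ∀ u : ρbar.V, u ∈ L ↔ b.repr u 1 = 0)

include hb in
lemma cii_b0_mem : b 0 ∈ L := by
  rw [hb, b.repr_self]
  simp

include hb in
/-- an element of the Borel acts on the line through `ciiDg`. -/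
lemma cii_toEnd_eq_smul {x : Ad0 ρbar} (hx : x ∈ borelSub ρbar L) {w : ρbar.V} (hw : w ∈ L) :
    Ad0.toEnd ρbar x w = ciiDg b x • w := by
  have h10 : lsoMat b x 1 0 = 0 := (mem_borelSub_iff_lsoMat b L hb x).mp hx
  have hw1 : b.repr w 1 = 0 := (hb w).mp hw
  apply b.repr.injective
  ext i
  rw [lsoMat_repr, hw1, mul_zero, add_zero, map_smul, Finsupp.smul_apply, smul_eq_mul,
    ciiDg_apply]
  fin_cases i
  · rfl
  · change lsoMat b x 1 0 * b.repr w 0 = lsoMat b x 0 0 * b.repr w 1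
    rw [h10, hw1, zero_mul, mul_zero]

include hb in
/-- `ciiDg` is invariant under conjugation by elements stabilising the line. -/
lemma cii_dg_conj (g : GQ) (hg : ∀ w ∈ L, ρbar.ρ g⁻¹ w ∈ L) {x : Ad0 ρbar}
    (hx : x ∈ borelSub ρbar L) : ciiDg b (ad0Hom ρbar g x) = ciiDg b x := by
  have h0 : b 0 ∈ L := cii_b0_mem b L hb
  have h1 : Ad0.toEnd ρbar (ad0Hom ρbar g x) (b 0) = ciiDg b x • b 0 := by
    rw [toEnd_ad0Hom, Module.End.mul_apply, Module.End.mul_apply,
      cii_toEnd_eq_smul b L hb hx (hg _ h0), map_smul, ← Module.End.mul_apply, ← map_mul,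
      mul_inv_cancel, map_one, Module.End.one_apply]
  have h2 := lsoMat_repr b (ad0Hom ρbar g x) (b 0) 0
  rw [h1, b.repr_self] at h2
  simp only [map_smul, b.repr_self, Finsupp.smul_apply, Finsupp.single_eq_same, smul_eq_mul,
    mul_one, ne_eq, one_ne_zero, not_false_eq_true, Finsupp.single_eq_of_ne, mul_zero,
    add_zero] at h2
  rw [ciiDg_apply (x := ad0Hom ρbar g x), ← h2]

include hb in
lemma cii_mem_nilSub_of_dg {x : Ad0 ρbar} (hx : x ∈ borelSub ρbar L) (h0 : ciiDg b x = 0) :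
    x ∈ nilSub ρbar L := by
  have h10 : lsoMat b x 1 0 = 0 := (mem_borelSub_iff_lsoMat b L hb x).mp hx
  rw [ciiDg_apply] at h0
  refine (mem_nilSub_iff_lsoMat b L hb x).mpr ⟨h0, h10, ?_⟩
  have := lsoMat_trace b x
  rw [h0, zero_add] at this
  exact this

include hb in
lemma cii_dg_of_mem_nilSub {x : Ad0 ρbar} (hx : x ∈ nilSub ρbar L) : ciiDg b x = 0 :=
  ((mem_nilSub_iff_lsoMat b L hb x).mp hx).1

end Diag

end Fermat.Agent.P1.helper88
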