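import Mathlib
import Fermat.Agent.P1.helper67_FTOTCyc
import Fermat.Agent.P1.helper88_FTOT

/-!
# P1 / FLAT-CNT, package FT-OT (helper88): the tame congruence (T) in helper67's shape

`tameCongr p : helper67.TameCongrStatement p`, from the tame character toolkit
`helper88_FTTame` (`ftChi_pow_eq`, `exists_ftChi_gen`).  (The unconditional
`helper88.ftOT` does not need this file; it is provided for `helper67.ftOT_of_tameCongr`.)
-/

set_option autoImplicit false

namespace Fermat.Agent.P1.helper88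

open Fermat.Agent.S55.helper8 Fermat.Agent.S55.helper7 Fermat.Agent.P1.helper14

/-- **(T)**: the tame congruence. -/
theorem tameCongr (p : ℕ) [Fact p.Prime] : Fermat.Agent.P1.helper67.TameCongrStatement p := by
  intro F _ _ _ _ htame z w n m hn1 hz hw hle hme hall σ hσ a b ha hb
  have hp : p.Prime := Fact.out
  have hp2 := hp.two_le
  obtain ⟨ϖ, hϖ⟩ := Fermat.Agent.P1.helper41.kum_exists_unif p F
  obtain ⟨σ₀, hσ₀, hgen⟩ := exists_ftChi_gen p F htame hϖ
  obtain ⟨a₀, -, ha₀⟩ := hall σ₀ hσ₀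
  have h1 := ftChi_pow_eq p F hϖ hσ₀ hz ha₀
  have ha₀ne : (a₀ : kq p F) ≠ 0 := by
    rw [← h1]
    exact pow_ne_zero _ (ftChi_ne_zero p F hϖ σ₀)
  have h2 : ftChi p F hϖ σ₀ ^ (n * (p - 1)) = 1 := by
    rw [pow_mul, h1]
    exact ft_natCast_pow_sub_one p F ha₀ne
  have hdvd := hgen _ h2
  have hpos : 0 < n * (p - 1) := Nat.mul_pos hn1 (by omega)
  have heq : n * (p - 1) = m * (p - 1) := by
    rw [hme]
    exact le_antisymm hle (Nat.le_of_dvd hpos hdvd)
  have hnm : n = m := Nat.eq_of_mul_eq_mul_right (by omega) heq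
  subst hnm
  have h3 := ftChi_pow_eq p F hϖ hσ hz ha
  have h4 := ftChi_pow_eq p F hϖ hσ hw hb
  have hab : (a : kq p F) = (b : kq p F) := by rw [← h3, ← h4]
  exact (CharP.natCast_eq_natCast (kq p F) p).1 hab

/-- **FT-OT** once more, through helper67's assembly. -/
theorem ftOT' (p : ℕ) [Fact p.Prime] : Fermat.Agent.P1.helper70.FTOTStatement p :=
  Fermat.Agent.P1.helper67.ftOT_of_tameCongr p (tameCongr p)

end Fermat.Agent.P1.helper88
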