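import Fermat.Agent.P1.helper63_ECDefs
import Fermat.Agent.S55.ABasic

/-!
# P1 / module EC, package LES-A (helper89, task 724): the long exact sequence, dimension form

Main result: `Fermat.Agent.P1.helper89.eulerChar_les`, verbatim the statement `eulerChar_les` of
the blueprint `helper63_ECInterface` (interface v1): for a short exact sequence
`0 → A₁ → A → A₂ → 0` of representations with `A` finite dimensional and smooth, and
`H¹, H²` of `A₁`, `A₂` finite dimensional (level-constant cochain cohomology of `S55.Defs`):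

* `H¹(A)`, `H²(A)` are finite dimensional;
* `χ(A) ≤ χ(A₁) + χ(A₂)` for `χ = h⁰ - h¹ + h²`;
* equality holds if `H³(A₁) = 0` (in the form `Z3 ≤ B3`).

No extra hypotheses were needed.

Method: choose a `k`-linear splitting `(r, s)` of `(i, q)`; the connecting maps are
`δ z = r ∘ d (s ∘ z)` on cochains (linear, level preserving since `A` is smooth).  The maps on
cohomology are induced by `ECLes.qmap`; exactness is proved elementwise (`SplitSES.x0 … x8`) and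
transported to the quotients by `ECLes.qmap_exact`; the dimension count is `ECLes.les_count`.
-/

set_option autoImplicit false

open groupCohomology

noncomputable section

namespace Fermat.Agent.P1.helper89.ECLes

open Fermat.Agent.S55 Fermat.Agent.P1.helper63

/-! ## Generic linear algebra -/

section Generic

variable {k : Type} [Field k]
variable {M₁ M₂ M₃ : Type} [AddCommGroup M₁] [Module k M₁] [AddCommGroup M₂] [Module k M₂]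
  [AddCommGroup M₃] [Module k M₃]

/-- the map induced by `f` on subquotients `Z / B` -/
def qmap {Z₁ B₁ : Submodule k M₁} {Z₂ B₂ : Submodule k M₂} (f : M₁ →ₗ[k] M₂)
    (hZ : ∀ x ∈ Z₁, f x ∈ Z₂) (hB : ∀ x ∈ B₁, f x ∈ B₂) :
    (↥Z₁ ⧸ B₁.comap Z₁.subtype) →ₗ[k] (↥Z₂ ⧸ B₂.comap Z₂.subtype) :=
  Submodule.mapQ _ _ (f.restrict hZ) (fun _ hx => hB _ hx)

lemma qmap_mk {Z₁ B₁ : Submodule k M₁} {Z₂ B₂ : Submodule k M₂} (f : M₁ →ₗ[k] M₂)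
    (hZ : ∀ x ∈ Z₁, f x ∈ Z₂) (hB : ∀ x ∈ B₁, f x ∈ B₂) (x : ↥Z₁) :
    qmap f hZ hB (Submodule.Quotient.mk x) = Submodule.Quotient.mk ⟨f x, hZ x x.2⟩ := rfl

lemma mk_eq_zero_iff {M : Type} [AddCommGroup M] [Module k M] {Z B : Submodule k M} (x : ↥Z) :
    (Submodule.Quotient.mk x : ↥Z ⧸ B.comap Z.subtype) = 0 ↔ (x : M) ∈ B := by
  rw [Submodule.Quotient.mk_eq_zero]
  rfl

lemma qmap_exact {Z₁ B₁ : Submodule k M₁} {Z₂ B₂ : Submodule k M₂} {Z₃ B₃ : Submodule k M₃}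
    (f : M₁ →ₗ[k] M₂) (g : M₂ →ₗ[k] M₃)
    (hZf : ∀ x ∈ Z₁, f x ∈ Z₂) (hBf : ∀ x ∈ B₁, f x ∈ B₂)
    (hZg : ∀ x ∈ Z₂, g x ∈ Z₃) (hBg : ∀ x ∈ B₂, g x ∈ B₃)
    (h1 : ∀ x ∈ Z₁, g (f x) ∈ B₃)
    (h2 : ∀ y ∈ Z₂, g y ∈ B₃ → ∃ x ∈ Z₁, y - f x ∈ B₂) :
    LinearMap.range (qmap (B₁ := B₁) (B₂ := B₂) f hZf hBf) =
      LinearMap.ker (qmap (B₁ := B₂) (B₂ := B₃) g hZg hBg) := by
  ext y
  constructor
  · rintro ⟨x, rfl⟩
    obtain ⟨x, rfl⟩ := Submodule.Quotient.mk_surjective _ x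
    rw [LinearMap.mem_ker, qmap_mk, qmap_mk, mk_eq_zero_iff]
    exact h1 x x.2
  · intro hy
    obtain ⟨y, rfl⟩ := Submodule.Quotient.mk_surjective _ y
    rw [LinearMap.mem_ker, qmap_mk, mk_eq_zero_iff] at hy
    obtain ⟨x, hx, hxy⟩ := h2 y y.2 hy
    refine ⟨Submodule.Quotient.mk ⟨x, hx⟩, ?_⟩
    rw [qmap_mk]
    symm
    rw [Submodule.Quotient.eq]
    exact hxy

lemma qmap_injective {Z₁ B₁ : Submodule k M₁} {Z₂ B₂ : Submodule k M₂} (f : M₁ →ₗ[k] M₂)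
    (hZ : ∀ x ∈ Z₁, f x ∈ Z₂) (hB : ∀ x ∈ B₁, f x ∈ B₂)
    (h : ∀ x ∈ Z₁, f x ∈ B₂ → x ∈ B₁) :
    Function.Injective (qmap (B₁ := B₁) (B₂ := B₂) f hZ hB) := by
  rw [← LinearMap.ker_eq_bot, LinearMap.ker_eq_bot']
  intro x hx
  obtain ⟨x, rfl⟩ := Submodule.Quotient.mk_surjective _ x
  rw [qmap_mk, mk_eq_zero_iff] at hx
  rw [mk_eq_zero_iff]
  exact h x x.2 hx

lemma qmap_surjective {Z₁ B₁ : Submodule k M₁} {Z₂ B₂ : Submodule k M₂} (f : M₁ →ₗ[k] M₂)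
    (hZ : ∀ x ∈ Z₁, f x ∈ Z₂) (hB : ∀ x ∈ B₁, f x ∈ B₂)
    (h : ∀ y ∈ Z₂, ∃ x ∈ Z₁, y - f x ∈ B₂) :
    Function.Surjective (qmap (B₁ := B₁) (B₂ := B₂) f hZ hB) := by
  intro y
  obtain ⟨y, rfl⟩ := Submodule.Quotient.mk_surjective _ y
  obtain ⟨x, hx, hxy⟩ := h y y.2
  refine ⟨Submodule.Quotient.mk ⟨x, hx⟩, ?_⟩
  rw [qmap_mk]
  symm
  rw [Submodule.Quotient.eq]
  exact hxy

/-- `Z / 0` has the dimension of `Z` -/
lemma finrank_quot_bot {M : Type} [AddCommGroup M] [Module k M] (Z : Submodule k M) :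
    Module.finrank k (↥Z ⧸ (⊥ : Submodule k M).comap Z.subtype) = Module.finrank k ↥Z := by
  have h : (⊥ : Submodule k M).comap Z.subtype = ⊥ := by
    rw [Submodule.comap_bot, Submodule.ker_subtype]
  exact (Submodule.quotEquivOfEqBot _ h).finrank_eq

/-- the middle term of an exact sequence of vector spaces with finite dimensional ends is finite
dimensional -/
lemma finite_of_exact {V₁ V₂ V₃ : Type} [AddCommGroup V₁] [Module k V₁] [AddCommGroup V₂]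
    [Module k V₂] [AddCommGroup V₃] [Module k V₃] (f : V₁ →ₗ[k] V₂) (g : V₂ →ₗ[k] V₃)
    (h : LinearMap.range f = LinearMap.ker g) [Module.Finite k V₁] [Module.Finite k V₃] :
    Module.Finite k V₂ := by
  have : Module.Finite k ↥(LinearMap.ker g) := by
    rw [← h]
    infer_instance
  have : Module.Finite k (V₂ ⧸ LinearMap.ker g) :=
    Module.Finite.equiv (LinearMap.quotKerEquivRange g).symm
  exact Module.Finite.of_submodule_quotient (LinearMap.ker g)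

/-- splitting of a short exact sequence of vector spaces -/
lemma exists_splitting {V₁ V V₂ : Type} [AddCommGroup V₁] [Module k V₁] [AddCommGroup V]
    [Module k V] [AddCommGroup V₂] [Module k V₂] (i : V₁ →ₗ[k] V) (q : V →ₗ[k] V₂)
    (hinj : Function.Injective i) (hsurj : Function.Surjective q)
    (hex : LinearMap.range i = LinearMap.ker q) :
    ∃ (r : V →ₗ[k] V₁) (s : V₂ →ₗ[k] V), (∀ a, r (i a) = a) ∧ (∀ b, q (s b) = b) ∧
      (∀ a, i (r a) + s (q a) = a) ∧ (∀ a, q (i a) = 0) := by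
  obtain ⟨s, hs⟩ := q.exists_rightInverse_of_surjective (LinearMap.range_eq_top.2 hsurj)
  obtain ⟨r₀, hr₀⟩ := i.exists_leftInverse_of_injective (LinearMap.ker_eq_bot.2 hinj)
  have hqs : ∀ b, q (s b) = b := fun b => LinearMap.congr_fun hs b
  have hri : ∀ a, r₀ (i a) = a := fun a => LinearMap.congr_fun hr₀ a
  have hqi : ∀ a, q (i a) = 0 := fun a => by
    have : i a ∈ LinearMap.ker q := hex ▸ LinearMap.mem_range_self i a
    exact this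
  refine ⟨r₀ ∘ₗ (LinearMap.id - s ∘ₗ q), s, fun a => ?_, hqs, fun a => ?_, hqi⟩
  · simp only [LinearMap.comp_apply, LinearMap.sub_apply, LinearMap.id_apply, hqi, map_zero,
      sub_zero, hri]
  · have hmem : a - s (q a) ∈ LinearMap.range i := by
      rw [hex, LinearMap.mem_ker, map_sub, hqs, sub_self]
    obtain ⟨a₁, ha₁⟩ := hmem
    simp only [LinearMap.comp_apply, LinearMap.sub_apply, LinearMap.id_apply]
    rw [← ha₁, hri, ha₁]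
    abel

/-- the dimension count in a nine term exact sequence -/
lemma les_count {V0 V1 V2 V3 V4 V5 V6 V7 V8 : Type}
    [AddCommGroup V0] [Module k V0] [AddCommGroup V1] [Module k V1]
    [AddCommGroup V2] [Module k V2] [AddCommGroup V3] [Module k V3]
    [AddCommGroup V4] [Module k V4] [AddCommGroup V5] [Module k V5]
    [AddCommGroup V6] [Module k V6] [AddCommGroup V7] [Module k V7]
    [AddCommGroup V8] [Module k V8]
    (f0 : V0 →ₗ[k] V1) (f1 : V1 →ₗ[k] V2) (f2 : V2 →ₗ[k] V3) (f3 : V3 →ₗ[k] V4)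
    (f4 : V4 →ₗ[k] V5) (f5 : V5 →ₗ[k] V6) (f6 : V6 →ₗ[k] V7) (f7 : V7 →ₗ[k] V8)
    [Module.Finite k V0] [Module.Finite k V1] [Module.Finite k V2] [Module.Finite k V3]
    [Module.Finite k V5] [Module.Finite k V6] [Module.Finite k V8]
    (h0 : Function.Injective f0)
    (e1 : LinearMap.range f0 = LinearMap.ker f1) (e2 : LinearMap.range f1 = LinearMap.ker f2)
    (e3 : LinearMap.range f2 = LinearMap.ker f3) (e4 : LinearMap.range f3 = LinearMap.ker f4)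
    (e5 : LinearMap.range f4 = LinearMap.ker f5) (e6 : LinearMap.range f5 = LinearMap.ker f6)
    (e7 : LinearMap.range f6 = LinearMap.ker f7) :
    Module.Finite k V4 ∧ Module.Finite k V7 ∧
      ((Module.finrank k V0 : ℤ) - Module.finrank k V1 + Module.finrank k V2
        - Module.finrank k V3 + Module.finrank k V4 - Module.finrank k V5
        + Module.finrank k V6 - Module.finrank k V7
        + Module.finrank k ↥(LinearMap.range f7) = 0) := by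
  have i4 : Module.Finite k V4 := finite_of_exact f3 f4 e4
  have i7 : Module.Finite k V7 := finite_of_exact f6 f7 e7
  refine ⟨i4, i7, ?_⟩
  have r0 := LinearMap.finrank_range_add_finrank_ker f0
  have r1 := LinearMap.finrank_range_add_finrank_ker f1
  have r2 := LinearMap.finrank_range_add_finrank_ker f2
  have r3 := LinearMap.finrank_range_add_finrank_ker f3
  have r4 := LinearMap.finrank_range_add_finrank_ker f4
  have r5 := LinearMap.finrank_range_add_finrank_ker f5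
  have r6 := LinearMap.finrank_range_add_finrank_ker f6
  have r7 := LinearMap.finrank_range_add_finrank_ker f7
  have k0 : Module.finrank k ↥(LinearMap.ker f0) = 0 := by
    rw [LinearMap.ker_eq_bot.2 h0]
    exact finrank_bot k V0
  rw [e1] at r0
  rw [e2] at r1
  rw [e3] at r2
  rw [e4] at r3
  rw [e5] at r4
  rw [e6] at r5
  rw [e7] at r6
  omega

end Generic


/-! ## Split short exact sequences of representations -/

section Concrete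

variable {G : Type} [Group G] {𝒩 : Levels G} {k : Type} [Field k]

/-- a short exact sequence of representations together with a `k`-linear splitting -/
structure SplitSES (A₁ A A₂ : Rep.{0} k G) where
  /-- the injection -/
  i : A₁ →ₗ[k] A
  /-- the surjection -/
  q : A →ₗ[k] A₂
  /-- the retraction -/
  r : A →ₗ[k] A₁
  /-- the section -/
  s : A₂ →ₗ[k] A
  hi : ∀ g a, i (A₁.ρ g a) = A.ρ g (i a)
  hq : ∀ g a, q (A.ρ g a) = A₂.ρ g (q a)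
  ri : ∀ a, r (i a) = a
  qs : ∀ b, q (s b) = b
  ir : ∀ a, i (r a) + s (q a) = a
  qi : ∀ a, q (i a) = 0

variable {A₁ A A₂ : Rep.{0} k G} (E : SplitSES A₁ A A₂)

namespace SplitSES

lemma i_inj : Function.Injective E.i := fun a b h => by
  rw [← E.ri a, ← E.ri b, h]

lemma sq (a : A) : E.s (E.q a) = a - E.i (E.r a) := by
  rw [eq_sub_iff_add_eq, add_comm]
  exact E.ir a

include E in
lemma smooth₁ (hA : IsSmooth 𝒩 A) : IsSmooth 𝒩 A₁ := by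
  obtain ⟨N, hN, h⟩ := hA
  refine ⟨N, hN, fun s hs a => E.i_inj ?_⟩
  rw [E.hi, h s hs]

include E in
lemma smooth₂ (hA : IsSmooth 𝒩 A) : IsSmooth 𝒩 A₂ := by
  obtain ⟨N, hN, h⟩ := hA
  refine ⟨N, hN, fun s hs b => ?_⟩
  rw [← E.qs b, ← E.hq, h s hs]

/-! ### relations on cochains -/

variable (I : Type)

lemma c_ri (x : I → A₁) : E.r.compLeft I (E.i.compLeft I x) = x := by
  funext j
  simp only [LinearMap.compLeft_apply, Function.comp_apply, E.ri]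

lemma c_qs (x : I → A₂) : E.q.compLeft I (E.s.compLeft I x) = x := by
  funext j
  simp only [LinearMap.compLeft_apply, Function.comp_apply, E.qs]

lemma c_qi (x : I → A₁) : E.q.compLeft I (E.i.compLeft I x) = 0 := by
  funext j
  simp only [LinearMap.compLeft_apply, Function.comp_apply, E.qi, Pi.zero_apply]

lemma c_sq (x : I → A) :
    E.s.compLeft I (E.q.compLeft I x) = x - E.i.compLeft I (E.r.compLeft I x) := by
  funext j
  simp only [LinearMap.compLeft_apply, Function.comp_apply, E.sq, Pi.sub_apply]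

lemma c_ir (x : I → A) :
    E.i.compLeft I (E.r.compLeft I x) = x - E.s.compLeft I (E.q.compLeft I x) := by
  rw [E.c_sq, sub_sub_cancel]

lemma c_ir_of_q (x : I → A) (hx : E.q.compLeft I x = 0) :
    E.i.compLeft I (E.r.compLeft I x) = x := by
  rw [E.c_ir, hx, map_zero, sub_zero]

lemma c_inj (x : I → A₁) (hx : E.i.compLeft I x = 0) : x = 0 := by
  rw [← E.c_ri I x, hx, map_zero]

end SplitSES

/-! ### equivariant maps are chain maps -/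

section Chain

variable {X Y : Rep.{0} k G} (f : X →ₗ[k] Y) (hf : ∀ g a, f (X.ρ g a) = Y.ρ g (f a))

include hf

lemma d01_comp (a : X) : (d₀₁ Y).hom (f a) = f.compLeft G ((d₀₁ X).hom a) := by
  funext g
  simp only [d₀₁_hom_apply, LinearMap.compLeft_apply, Function.comp_apply, map_sub, hf]

lemma d12_comp (x : G → X) :
    (d₁₂ Y).hom (f.compLeft G x) = f.compLeft (G × G) ((d₁₂ X).hom x) := by
  funext g
  simp only [d₁₂_hom_apply, LinearMap.compLeft_apply, Function.comp_apply, map_sub, map_add, hf]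

lemma d23_comp (x : G × G → X) :
    (d₂₃ Y).hom (f.compLeft (G × G) x) = f.compLeft (G × G × G) ((d₂₃ X).hom x) := by
  funext g
  simp only [d₂₃_hom_apply, LinearMap.compLeft_apply, Function.comp_apply, map_sub, map_add, hf]

lemma d34_comp (x : G × G × G → X) :
    d₃₄ Y (f.compLeft (G × G × G) x) = f.compLeft (G × G × G × G) (d₃₄ X x) := by
  funext ⟨g₁, g₂, g₃, g₄⟩
  simp only [d₃₄_apply, LinearMap.compLeft_apply, Function.comp_apply, map_sub, map_add, hf]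

end Chain

/-! ### level preservation -/

section Level

variable {X Y : Rep.{0} k G} (f : X →ₗ[k] Y)

lemma comp_mem_C1 {x : G → X} (hx : x ∈ C1 𝒩 X) : f.compLeft G x ∈ C1 𝒩 Y :=
  map_mem_C1 f hx

lemma comp_mem_C2 {x : G × G → X} (hx : x ∈ C2 𝒩 X) : f.compLeft (G × G) x ∈ C2 𝒩 Y :=
  map_mem_C2 f hx

lemma comp_mem_C3 {x : G × G × G → X} (hx : x ∈ C3 𝒩 X) :
    f.compLeft (G × G × G) x ∈ C3 𝒩 Y :=
  map_mem_C3 f hx

end Level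


/-! ### the connecting maps on cochains -/

namespace SplitSES

/-- the connecting map `C⁰(A₂) → C¹(A₁)`, `b ↦ r ∘ d (s b)` -/
def δ₀ : A₂ →ₗ[k] (G → A₁) := (E.r.compLeft G) ∘ₗ (d₀₁ A).hom ∘ₗ E.s

/-- the connecting map `C¹(A₂) → C²(A₁)`, `z ↦ r ∘ d (s ∘ z)` -/
def δ₁ : (G → A₂) →ₗ[k] (G × G → A₁) :=
  (E.r.compLeft (G × G)) ∘ₗ (d₁₂ A).hom ∘ₗ (E.s.compLeft G)

/-- the connecting map `C²(A₂) → C³(A₁)`, `z ↦ r ∘ d (s ∘ z)` -/
def δ₂ : (G × G → A₂) →ₗ[k] (G × G × G → A₁) :=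
  (E.r.compLeft (G × G × G)) ∘ₗ (d₂₃ A).hom ∘ₗ (E.s.compLeft (G × G))

lemma δ₀_apply (b : A₂) : E.δ₀ b = E.r.compLeft G ((d₀₁ A).hom (E.s b)) := rfl

lemma δ₁_apply (z : G → A₂) :
    E.δ₁ z = E.r.compLeft (G × G) ((d₁₂ A).hom (E.s.compLeft G z)) := rfl

lemma δ₂_apply (z : G × G → A₂) :
    E.δ₂ z = E.r.compLeft (G × G × G) ((d₂₃ A).hom (E.s.compLeft (G × G) z)) := rfl

/-- `i ∘ δ b = d (s b)` for invariant `b` -/
lemma i_δ₀ (b : A₂) (hb : (d₀₁ A₂).hom b = 0) :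
    E.i.compLeft G (E.δ₀ b) = (d₀₁ A).hom (E.s b) := by
  rw [δ₀_apply, E.c_ir, ← d01_comp E.q E.hq, E.qs, hb, map_zero, sub_zero]

/-- `i ∘ δ z = d (s ∘ z)` for cocycles `z` -/
lemma i_δ₁ (z : G → A₂) (hz : (d₁₂ A₂).hom z = 0) :
    E.i.compLeft (G × G) (E.δ₁ z) = (d₁₂ A).hom (E.s.compLeft G z) := by
  rw [δ₁_apply, E.c_ir, ← d12_comp E.q E.hq, E.c_qs, hz, map_zero, sub_zero]

/-- `i ∘ δ z = d (s ∘ z)` for cocycles `z` -/
lemma i_δ₂ (z : G × G → A₂) (hz : (d₂₃ A₂).hom z = 0) :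
    E.i.compLeft (G × G × G) (E.δ₂ z) = (d₂₃ A).hom (E.s.compLeft (G × G) z) := by
  rw [δ₂_apply, E.c_ir, ← d23_comp E.q E.hq, E.c_qs, hz, map_zero, sub_zero]

/-- `δ (q a) = r ∘ d a - d (r a)` -/
lemma δ₀_q (a : A) :
    E.δ₀ (E.q a) = E.r.compLeft G ((d₀₁ A).hom a) - (d₀₁ A₁).hom (E.r a) := by
  rw [δ₀_apply, E.sq, map_sub, map_sub, d01_comp E.i E.hi, E.c_ri]

/-- `δ (q ∘ x) = r ∘ d x - d (r ∘ x)` -/
lemma δ₁_q (x : G → A) :
    E.δ₁ (E.q.compLeft G x) =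
      E.r.compLeft (G × G) ((d₁₂ A).hom x) - (d₁₂ A₁).hom (E.r.compLeft G x) := by
  rw [δ₁_apply, E.c_sq, map_sub, map_sub, d12_comp E.i E.hi, E.c_ri]

end SplitSES

/-! ### cocycles and coboundaries under equivariant maps -/

lemma mem_H0_iff_d01 (X : Rep.{0} k G) (a : X) : a ∈ S55.H0 X ↔ (d₀₁ X).hom a = 0 := by
  rw [← LinearMap.mem_ker, d₀₁_ker_eq_invariants]

section EqMaps

variable {X Y : Rep.{0} k G} (f : X →ₗ[k] Y) (hf : ∀ g a, f (X.ρ g a) = Y.ρ g (f a))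

include hf

lemma eq_mem_H0 {a : X} (ha : a ∈ S55.H0 X) : f a ∈ S55.H0 Y := fun g => by
  rw [← hf, ha g]

lemma eq_mem_Z1 {x : G → X} (hx : x ∈ Z1 𝒩 X) : f.compLeft G x ∈ Z1 𝒩 Y :=
  ⟨comp_mem_C1 f hx.1, by
    rw [SetLike.mem_coe, LinearMap.mem_ker, d12_comp f hf,
      (show (d₁₂ X).hom x = 0 from hx.2), map_zero]⟩

lemma eq_mem_Z2 {x : G × G → X} (hx : x ∈ Z2 𝒩 X) : f.compLeft (G × G) x ∈ Z2 𝒩 Y :=
  ⟨comp_mem_C2 f hx.1, by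
    rw [SetLike.mem_coe, LinearMap.mem_ker, d23_comp f hf,
      (show (d₂₃ X).hom x = 0 from hx.2), map_zero]⟩

lemma eq_mem_B1 {x : G → X} (hx : x ∈ B1 X) : f.compLeft G x ∈ B1 Y := by
  obtain ⟨a, rfl⟩ := hx
  exact ⟨f a, d01_comp f hf a⟩

lemma eq_mem_B2 {x : G × G → X} (hx : x ∈ B2 𝒩 X) : f.compLeft (G × G) x ∈ B2 𝒩 Y := by
  obtain ⟨y, hy, rfl⟩ := hx
  exact ⟨f.compLeft G y, comp_mem_C1 f hy, d12_comp f hf y⟩

end EqMaps

lemma mem_bot_of_mem_bot {M N : Type} [AddCommGroup M] [Module k M] [AddCommGroup N]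
    [Module k N] (f : M →ₗ[k] N) (B : Submodule k N) :
    ∀ x ∈ (⊥ : Submodule k M), f x ∈ B := fun x hx => by
  rw [(Submodule.mem_bot k).1 hx, map_zero]
  exact B.zero_mem

namespace SplitSES

variable (hA : IsSmooth 𝒩 A)

include hA

lemma δ₀_mem_C1 (b : A₂) : E.δ₀ b ∈ C1 𝒩 A₁ :=
  comp_mem_C1 E.r (d₀₁_mem_C1 hA (E.s b))

lemma δ₀_mem_Z1 {b : A₂} (hb : b ∈ S55.H0 A₂) : E.δ₀ b ∈ Z1 𝒩 A₁ := by
  refine ⟨E.δ₀_mem_C1 hA b, ?_⟩
  rw [SetLike.mem_coe, LinearMap.mem_ker]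
  refine E.c_inj _ _ ?_
  rw [← d12_comp E.i E.hi, E.i_δ₀ b ((mem_H0_iff_d01 A₂ b).1 hb), d₀₁_comp_d₁₂_apply]

lemma δ₁_mem_Z2 {z : G → A₂} (hz : z ∈ Z1 𝒩 A₂) : E.δ₁ z ∈ Z2 𝒩 A₁ := by
  refine ⟨comp_mem_C2 E.r (d₁₂_mem_C2 hA (comp_mem_C1 E.s hz.1)), ?_⟩
  rw [SetLike.mem_coe, LinearMap.mem_ker]
  refine E.c_inj _ _ ?_
  rw [← d23_comp E.i E.hi, E.i_δ₁ z hz.2, d₁₂_comp_d₂₃_apply]

lemma δ₂_mem_Z3 {z : G × G → A₂} (hz : z ∈ Z2 𝒩 A₂) : E.δ₂ z ∈ Z3 𝒩 A₁ := by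
  refine ⟨comp_mem_C3 E.r (d₂₃_mem_C3 hA (comp_mem_C2 E.s hz.1)), ?_⟩
  rw [SetLike.mem_coe, LinearMap.mem_ker]
  refine E.c_inj _ _ ?_
  rw [← d34_comp E.i E.hi, E.i_δ₂ z hz.2, d₃₄_d₂₃]

lemma δ₁_mem_B2 {z : G → A₂} (hz : z ∈ B1 A₂) : E.δ₁ z ∈ B2 𝒩 A₁ := by
  obtain ⟨b, rfl⟩ := hz
  refine ⟨-E.δ₀ b, neg_mem (E.δ₀_mem_C1 hA b), ?_⟩
  have h := E.δ₁_q ((d₀₁ A).hom (E.s b))
  rw [← d01_comp E.q E.hq, E.qs, d₀₁_comp_d₁₂_apply, map_zero, zero_sub] at h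
  rw [map_neg, h]
  rfl

/-! ### exactness, elementwise -/

omit hA in
/-- injectivity at `H⁰(A₁)` -/
lemma x0 : ∀ x ∈ S55.H0 A₁, E.i x ∈ (⊥ : Submodule k A) → x ∈ (⊥ : Submodule k A₁) := by
  intro x _ hx
  rw [Submodule.mem_bot] at hx ⊢
  exact E.i_inj (hx.trans (map_zero _).symm)

omit hA in
lemma x1a : ∀ x ∈ S55.H0 A₁, E.q (E.i x) ∈ (⊥ : Submodule k A₂) := by
  intro x _
  rw [E.qi]
  exact Submodule.zero_mem _

omit hA in
lemma x1b : ∀ y ∈ S55.H0 A, E.q y ∈ (⊥ : Submodule k A₂) →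
    ∃ x ∈ S55.H0 A₁, y - E.i x ∈ (⊥ : Submodule k A) := by
  intro y hy hqy
  rw [Submodule.mem_bot] at hqy
  have hiy : E.i (E.r y) = y := by
    have := E.ir y
    rw [hqy, map_zero, add_zero] at this
    exact this
  refine ⟨E.r y, ?_, ?_⟩
  · rw [mem_H0_iff_d01]
    refine E.c_inj _ _ ?_
    rw [← d01_comp E.i E.hi, hiy]
    exact (mem_H0_iff_d01 A y).1 hy
  · rw [hiy, sub_self]
    exact Submodule.zero_mem _

omit hA in
lemma x2a : ∀ y ∈ S55.H0 A, E.δ₀ (E.q y) ∈ B1 A₁ := by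
  intro y hy
  refine ⟨-E.r y, ?_⟩
  rw [E.δ₀_q, (mem_H0_iff_d01 A y).1 hy, map_zero, zero_sub, map_neg]

omit hA in
lemma x2b : ∀ b ∈ S55.H0 A₂, E.δ₀ b ∈ B1 A₁ →
    ∃ y ∈ S55.H0 A, b - E.q y ∈ (⊥ : Submodule k A₂) := by
  rintro b hb ⟨a₁, ha₁⟩
  refine ⟨E.s b - E.i a₁, ?_, ?_⟩
  · rw [mem_H0_iff_d01, map_sub, d01_comp E.i E.hi, ha₁,
      E.i_δ₀ b ((mem_H0_iff_d01 A₂ b).1 hb), sub_self]
  · rw [map_sub, E.qs, E.qi, sub_zero, sub_self]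
    exact Submodule.zero_mem _

omit hA in
lemma x3a : ∀ b ∈ S55.H0 A₂, E.i.compLeft G (E.δ₀ b) ∈ B1 A := by
  intro b hb
  exact ⟨E.s b, (E.i_δ₀ b ((mem_H0_iff_d01 A₂ b).1 hb)).symm⟩

omit hA in
lemma x3b : ∀ z ∈ Z1 𝒩 A₁, E.i.compLeft G z ∈ B1 A →
    ∃ b ∈ S55.H0 A₂, z - E.δ₀ b ∈ B1 A₁ := by
  rintro z _ ⟨a, ha⟩
  refine ⟨E.q a, ?_, E.r a, ?_⟩
  · rw [mem_H0_iff_d01, d01_comp E.q E.hq, ha, E.c_qi]
  · rw [E.δ₀_q, ha, E.c_ri, sub_sub_cancel]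

omit hA in
lemma x4a : ∀ z ∈ Z1 𝒩 A₁, E.q.compLeft G (E.i.compLeft G z) ∈ B1 A₂ := by
  intro z _
  rw [E.c_qi]
  exact Submodule.zero_mem _

lemma x4b : ∀ x ∈ Z1 𝒩 A, E.q.compLeft G x ∈ B1 A₂ →
    ∃ z ∈ Z1 𝒩 A₁, x - E.i.compLeft G z ∈ B1 A := by
  rintro x hx ⟨b, hb⟩
  have hq0 : E.q.compLeft G (x - (d₀₁ A).hom (E.s b)) = 0 := by
    rw [map_sub, ← d01_comp E.q E.hq, E.qs, hb, sub_self]
  have hi := E.c_ir_of_q _ _ hq0
  refine ⟨E.r.compLeft G (x - (d₀₁ A).hom (E.s b)), ⟨?_, ?_⟩, E.s b, ?_⟩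
  · exact comp_mem_C1 E.r (sub_mem hx.1 (d₀₁_mem_C1 hA (E.s b)))
  · rw [SetLike.mem_coe, LinearMap.mem_ker]
    refine E.c_inj _ _ ?_
    rw [← d12_comp E.i E.hi, hi, map_sub, d₀₁_comp_d₁₂_apply,
      (show (d₁₂ A).hom x = 0 from hx.2), sub_zero]
  · rw [hi, sub_sub_cancel]

omit hA in
lemma x5a : ∀ x ∈ Z1 𝒩 A, E.δ₁ (E.q.compLeft G x) ∈ B2 𝒩 A₁ := by
  intro x hx
  refine ⟨-E.r.compLeft G x, neg_mem (comp_mem_C1 E.r hx.1), ?_⟩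
  rw [E.δ₁_q, (show (d₁₂ A).hom x = 0 from hx.2), map_zero, zero_sub, map_neg]

omit hA in
lemma x5b : ∀ z ∈ Z1 𝒩 A₂, E.δ₁ z ∈ B2 𝒩 A₁ →
    ∃ x ∈ Z1 𝒩 A, z - E.q.compLeft G x ∈ B1 A₂ := by
  rintro z hz ⟨w, hw, hwz⟩
  refine ⟨E.s.compLeft G z - E.i.compLeft G w, ⟨?_, ?_⟩, ?_⟩
  · exact sub_mem (comp_mem_C1 E.s hz.1) (comp_mem_C1 E.i hw)
  · rw [SetLike.mem_coe, LinearMap.mem_ker, map_sub, d12_comp E.i E.hi, hwz,
      E.i_δ₁ z hz.2, sub_self]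
  · rw [map_sub, E.c_qs, E.c_qi, sub_zero, sub_self]
    exact Submodule.zero_mem _

omit hA in
lemma x6a : ∀ z ∈ Z1 𝒩 A₂, E.i.compLeft (G × G) (E.δ₁ z) ∈ B2 𝒩 A := by
  intro z hz
  exact ⟨E.s.compLeft G z, comp_mem_C1 E.s hz.1, (E.i_δ₁ z hz.2).symm⟩

omit hA in
lemma x6b : ∀ y ∈ Z2 𝒩 A₁, E.i.compLeft (G × G) y ∈ B2 𝒩 A →
    ∃ z ∈ Z1 𝒩 A₂, y - E.δ₁ z ∈ B2 𝒩 A₁ := by
  rintro y _ ⟨x, hx, hxy⟩
  refine ⟨E.q.compLeft G x, ⟨comp_mem_C1 E.q hx, ?_⟩, E.r.compLeft G x,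
    comp_mem_C1 E.r hx, ?_⟩
  · rw [SetLike.mem_coe, LinearMap.mem_ker, d12_comp E.q E.hq, hxy, E.c_qi]
  · rw [E.δ₁_q, hxy, E.c_ri, sub_sub_cancel]

omit hA in
lemma x7a : ∀ y ∈ Z2 𝒩 A₁, E.q.compLeft (G × G) (E.i.compLeft (G × G) y) ∈ B2 𝒩 A₂ := by
  intro y _
  rw [E.c_qi]
  exact Submodule.zero_mem _

lemma x7b : ∀ x ∈ Z2 𝒩 A, E.q.compLeft (G × G) x ∈ B2 𝒩 A₂ →
    ∃ y ∈ Z2 𝒩 A₁, x - E.i.compLeft (G × G) y ∈ B2 𝒩 A := by
  rintro x hx ⟨w, hw, hwx⟩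
  have hq0 : E.q.compLeft (G × G) (x - (d₁₂ A).hom (E.s.compLeft G w)) = 0 := by
    rw [map_sub, ← d12_comp E.q E.hq, E.c_qs, hwx, sub_self]
  have hi := E.c_ir_of_q _ _ hq0
  have hsw : E.s.compLeft G w ∈ C1 𝒩 A := comp_mem_C1 E.s hw
  refine ⟨E.r.compLeft (G × G) (x - (d₁₂ A).hom (E.s.compLeft G w)), ⟨?_, ?_⟩,
    E.s.compLeft G w, hsw, ?_⟩
  · exact comp_mem_C2 E.r (sub_mem hx.1 (d₁₂_mem_C2 hA hsw))
  · rw [SetLike.mem_coe, LinearMap.mem_ker]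
    refine E.c_inj _ _ ?_
    rw [← d23_comp E.i E.hi, hi, map_sub, d₁₂_comp_d₂₃_apply,
      (show (d₂₃ A).hom x = 0 from hx.2), sub_zero]
  · rw [hi, sub_sub_cancel]

/-- surjectivity at `H²(A₂)` if `H³(A₁) = 0` -/
lemma x8 (h3 : Z3 𝒩 A₁ ≤ B3 𝒩 A₁) : ∀ z ∈ Z2 𝒩 A₂,
    ∃ x ∈ Z2 𝒩 A, z - E.q.compLeft (G × G) x ∈ B2 𝒩 A₂ := by
  intro z hz
  obtain ⟨w, hw, hwz⟩ := h3 (E.δ₂_mem_Z3 hA hz)
  refine ⟨E.s.compLeft (G × G) z - E.i.compLeft (G × G) w, ⟨?_, ?_⟩, ?_⟩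
  · exact sub_mem (comp_mem_C2 E.s hz.1) (comp_mem_C2 E.i hw)
  · rw [SetLike.mem_coe, LinearMap.mem_ker, map_sub, d23_comp E.i E.hi, hwz,
      E.i_δ₂ z hz.2, sub_self]
  · rw [map_sub, E.c_qs, E.c_qi, sub_zero, sub_self]
    exact Submodule.zero_mem _

end SplitSES

end Concrete

end Fermat.Agent.P1.helper89.ECLes

namespace Fermat.Agent.P1.helper89

open Fermat.Agent.S55 Fermat.Agent.P1.helper70 Fermat.Agent.P1.helper63

variable {G : Type} [Group G] (𝒩 : Levels G)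

variable {k : Type} [Field k]

/-- **EC-LES** (long exact sequence, dimension form): for a short exact sequence of smooth
modules with finite dimensional `H¹, H²` at the ends, the middle term has finite dimensional
`H¹, H²`, the Euler characteristic `h⁰ - h¹ + h²` is subadditive, and additive if
`H³(A₁) = 0`. -/
theorem eulerChar_les (A₁ A A₂ : Rep.{0} k G) (i : A₁ →ₗ[k] A) (q : A →ₗ[k] A₂)
    (hi : ∀ s a, i (A₁.ρ s a) = A.ρ s (i a)) (hq : ∀ s a, q (A.ρ s a) = A₂.ρ s (q a))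
    (hinj : Function.Injective i) (hsurj : Function.Surjective q)
    (hex : LinearMap.range i = LinearMap.ker q)
    (hfin : Module.Finite k A) (hsm : IsSmooth 𝒩 A)
    (h1 : Module.Finite k (S55.H1 𝒩 A₁) ∧ Module.Finite k (S55.H2 𝒩 A₁))
    (h2 : Module.Finite k (S55.H1 𝒩 A₂) ∧ Module.Finite k (S55.H2 𝒩 A₂)) :
    Module.Finite k (S55.H1 𝒩 A) ∧ Module.Finite k (S55.H2 𝒩 A) ∧
    ((hd0 A : ℤ) - hd1 𝒩 A + hd2 𝒩 A ≤
      ((hd0 A₁ : ℤ) - hd1 𝒩 A₁ + hd2 𝒩 A₁) + ((hd0 A₂ : ℤ) - hd1 𝒩 A₂ + hd2 𝒩 A₂)) ∧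
    (Z3 𝒩 A₁ ≤ B3 𝒩 A₁ →
      (hd0 A : ℤ) - hd1 𝒩 A + hd2 𝒩 A =
        ((hd0 A₁ : ℤ) - hd1 𝒩 A₁ + hd2 𝒩 A₁) + ((hd0 A₂ : ℤ) - hd1 𝒩 A₂ + hd2 𝒩 A₂)) := by
  obtain ⟨r, s, hri, hqs, hir, hqi⟩ := ECLes.exists_splitting i q hinj hsurj hex
  let E : ECLes.SplitSES A₁ A A₂ := ⟨i, q, r, s, hi, hq, hri, hqs, hir, hqi⟩
  have := hfin
  have : Module.Finite k A₁ := Module.Finite.of_injective i hinj
  have : Module.Finite k A₂ := Module.Finite.of_surjective q hsurj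
  have := h1.1
  have := h1.2
  have := h2.1
  have := h2.2
  have hA₁ : IsSmooth 𝒩 A₁ := E.smooth₁ hsm
  have hA₂ : IsSmooth 𝒩 A₂ := E.smooth₂ hsm
  -- the eight maps
  let f0 := ECLes.qmap (Z₁ := S55.H0 A₁) (B₁ := ⊥) (Z₂ := S55.H0 A) (B₂ := ⊥) E.i
    (fun _ hx => ECLes.eq_mem_H0 E.i E.hi hx) (ECLes.mem_bot_of_mem_bot _ _)
  let f1 := ECLes.qmap (Z₁ := S55.H0 A) (B₁ := ⊥) (Z₂ := S55.H0 A₂) (B₂ := ⊥) E.q
    (fun _ hx => ECLes.eq_mem_H0 E.q E.hq hx) (ECLes.mem_bot_of_mem_bot _ _)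
  let f2 := ECLes.qmap (Z₁ := S55.H0 A₂) (B₁ := ⊥) (Z₂ := Z1 𝒩 A₁) (B₂ := B1 A₁) E.δ₀
    (fun _ hx => E.δ₀_mem_Z1 hsm hx) (ECLes.mem_bot_of_mem_bot _ _)
  let f3 := ECLes.qmap (Z₁ := Z1 𝒩 A₁) (B₁ := B1 A₁) (Z₂ := Z1 𝒩 A) (B₂ := B1 A)
    (E.i.compLeft G) (fun _ hx => ECLes.eq_mem_Z1 E.i E.hi hx)
    (fun _ hx => ECLes.eq_mem_B1 E.i E.hi hx)
  let f4 := ECLes.qmap (Z₁ := Z1 𝒩 A) (B₁ := B1 A) (Z₂ := Z1 𝒩 A₂) (B₂ := B1 A₂)
    (E.q.compLeft G) (fun _ hx => ECLes.eq_mem_Z1 E.q E.hq hx)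
    (fun _ hx => ECLes.eq_mem_B1 E.q E.hq hx)
  let f5 := ECLes.qmap (Z₁ := Z1 𝒩 A₂) (B₁ := B1 A₂) (Z₂ := Z2 𝒩 A₁) (B₂ := B2 𝒩 A₁) E.δ₁
    (fun _ hx => E.δ₁_mem_Z2 hsm hx) (fun _ hx => E.δ₁_mem_B2 hsm hx)
  let f6 := ECLes.qmap (Z₁ := Z2 𝒩 A₁) (B₁ := B2 𝒩 A₁) (Z₂ := Z2 𝒩 A) (B₂ := B2 𝒩 A)
    (E.i.compLeft (G × G)) (fun _ hx => ECLes.eq_mem_Z2 E.i E.hi hx)
    (fun _ hx => ECLes.eq_mem_B2 E.i E.hi hx)
  let f7 := ECLes.qmap (Z₁ := Z2 𝒩 A) (B₁ := B2 𝒩 A) (Z₂ := Z2 𝒩 A₂) (B₂ := B2 𝒩 A₂)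
    (E.q.compLeft (G × G)) (fun _ hx => ECLes.eq_mem_Z2 E.q E.hq hx)
    (fun _ hx => ECLes.eq_mem_B2 E.q E.hq hx)
  have h0 : Function.Injective f0 := ECLes.qmap_injective _ _ _ E.x0
  have e1 : LinearMap.range f0 = LinearMap.ker f1 :=
    ECLes.qmap_exact _ _ _ _ _ _ E.x1a E.x1b
  have e2 : LinearMap.range f1 = LinearMap.ker f2 :=
    ECLes.qmap_exact _ _ _ _ _ _ E.x2a E.x2b
  have e3 : LinearMap.range f2 = LinearMap.ker f3 :=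
    ECLes.qmap_exact _ _ _ _ _ _ E.x3a E.x3b
  have e4 : LinearMap.range f3 = LinearMap.ker f4 :=
    ECLes.qmap_exact _ _ _ _ _ _ E.x4a (E.x4b hsm)
  have e5 : LinearMap.range f4 = LinearMap.ker f5 :=
    ECLes.qmap_exact _ _ _ _ _ _ E.x5a E.x5b
  have e6 : LinearMap.range f5 = LinearMap.ker f6 :=
    ECLes.qmap_exact _ _ _ _ _ _ E.x6a E.x6b
  have e7 : LinearMap.range f6 = LinearMap.ker f7 :=
    ECLes.qmap_exact _ _ _ _ _ _ E.x7a (E.x7b hsm)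
  obtain ⟨i4, i7, hcount⟩ := ECLes.les_count f0 f1 f2 f3 f4 f5 f6 f7 h0 e1 e2 e3 e4 e5 e6 e7
  have hle : Module.finrank k ↥(LinearMap.range f7) ≤ hd2 𝒩 A₂ :=
    Submodule.finrank_le _
  rw [ECLes.finrank_quot_bot, ECLes.finrank_quot_bot, ECLes.finrank_quot_bot] at hcount
  have hcount' : (hd0 A₁ : ℤ) - hd0 A + hd0 A₂ - hd1 𝒩 A₁ + hd1 𝒩 A - hd1 𝒩 A₂
      + hd2 𝒩 A₁ - hd2 𝒩 A + Module.finrank k ↥(LinearMap.range f7) = 0 := hcount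
  refine ⟨i4, i7, ?_, ?_⟩
  · omega
  · intro h3
    have hs : Function.Surjective f7 := ECLes.qmap_surjective _ _ _ (E.x8 hsm h3)
    have hr : Module.finrank k ↥(LinearMap.range f7) = hd2 𝒩 A₂ := by
      rw [LinearMap.range_eq_top.2 hs, finrank_top]
      rfl
    omega

end Fermat.Agent.P1.helper89
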