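import Fermat.Agent.P1.helper8_SelDefs
import Fermat.Agent.S55.helper92_SmoothLevel

/-!
# P1 (S56), module SEL: the final count (helper8)

* `smoothOut`        : `ad⁰ ρbar` is smooth for the levels of `Smin` (`SmoothOut`);
* `selOut_of_inputs` : **SEL-COUNT**, the deliverable `SelOut` of module SEL from
  `GWStatement` (SEL-GW), `ECOut` (EC), `LocPOut` (LSO / FLAT), `LocSminOut`, `LocQOut` (LQ),
  `OddOut`, `NoInvOut` (TW-GT), `LDOut` (SEL-LD) and `InflStatement` (SEL-INFL).

Proof: the tangent cocycles lie in the Selmer group with local conditions `locCond`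
(`locTanZ` at the primes of `Smin`, everything at the Taylor-Wiles primes); its dual Selmer group
vanishes (LD + INFL + `KillsDual`); Greenberg-Wiles + Euler characteristic + local bounds give
`dim ≤ d r`.
-/

set_option autoImplicit false
set_option linter.unusedSectionVars false

open IsLocalRing ExtCitation groupCohomology Polynomial

noncomputable section

namespace Fermat.Agent.P1.helper8

open Fermat.Agent.S55 Fermat.Agent.P1.helper70

/-! ## Generalities -/

section Gen

variable {k G : Type} [Field k] [Group G] {𝒩 : Levels G} {ι : Type} (L : LocalData G 𝒩 ι)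
  (A : Rep k G)

lemma res₁_mem_Z1 {x : G → A} (hx : x ∈ Z1 𝒩 A) (v : ι) :
    res₁ L A v x ∈ Z1 (L.lev v) (L.loc A v) := by
  rw [mem_Z1] at hx ⊢
  refine ⟨res₁_mem_C1 L hx.1 v, ?_⟩
  funext s
  have h := congrFun hx.2 (L.r v s.1, L.r v s.2)
  rw [d₁₂_hom_apply] at h ⊢
  change A.ρ (L.r v s.1) (x (L.r v s.2)) - x (L.r v (s.1 * s.2)) + x (L.r v s.1) = 0
  rw [map_mul]
  exact h

lemma res₁_mem_B1 {x : G → A} (hx : x ∈ B1 A) (v : ι) :
    res₁ L A v x ∈ B1 (L.loc A v) := by
  obtain ⟨a, rfl⟩ := hx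
  exact ⟨a, rfl⟩

variable (𝒩)

lemma classes_mono {P Q : Submodule k (G → A)} (h : P ≤ Q) : classes 𝒩 A P ≤ classes 𝒩 A Q :=
  Submodule.map_mono (Submodule.comap_mono h)

lemma classes_eq_bot_of_le {P : Submodule k (G → A)} (h : P ≤ B1 A) : classes 𝒩 A P = ⊥ := by
  rw [eq_bot_iff]
  rintro _ ⟨x, hx, rfl⟩
  rw [Submodule.mem_bot, Submodule.mkQ_apply, Submodule.Quotient.mk_eq_zero]
  exact h hx

lemma classes_eq_top_of_le {P : Submodule k (G → A)} (h : Z1 𝒩 A ≤ P) : classes 𝒩 A P = ⊤ := by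
  rw [eq_top_iff]
  rintro c -
  obtain ⟨x, rfl⟩ := Submodule.mkQ_surjective _ c
  exact ⟨x, h x.2, rfl⟩

end Gen

/-! ## Levels are monotone in the set of primes -/

lemma galLevels_mono {S₀ T' : Finset Nat.Primes} (h : S₀ ⊆ T') :
    (galLevels S₀).mem ⊆ (galLevels T').mem := by
  rintro N ⟨hn, F, hF, rfl⟩
  exact ⟨hn, F, hF.mono h, rfl⟩

lemma isSmooth_mono {S₀ T' : Finset Nat.Primes} (h : S₀ ⊆ T') {p : ℕ} {N : Rep (ZMod p) GQ}
    (hN : IsSmooth (galLevels S₀) N) : IsSmooth (galLevels T') N := by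
  obtain ⟨N₀, hN₀, h0⟩ := hN
  exact ⟨N₀, galLevels_mono h hN₀, h0⟩

lemma primesOf_mono {S₀ T : Finset ℕ} (h : S₀ ⊆ T) : primesOf S₀ ⊆ primesOf T := by
  intro q hq
  rw [mem_primesOf] at hq ⊢
  exact h hq

/-! ## Smoothness of `ad⁰` -/

section Smooth

variable {𝒪 : Type} [CommRing 𝒪] [IsDomain 𝒪] [IsDiscreteValuationRing 𝒪]
  [IsAdicComplete (maximalIdeal 𝒪) 𝒪] [Finite (ResidueField 𝒪)]
  {p : ℕ} [Fact p.Prime]
  {ρbar : ResidualGaloisRep (ResidueField 𝒪)}
  {S Smin : Finset ℕ}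
  [Algebra (ZMod p) (ResidueField 𝒪)]

lemma ad0Rep_ρ_eq_self_of_eq_one {g : GQ} (hg : ρbar.ρ g = 1) (x : ad0Rep ρbar p) :
    (ad0Rep ρbar p).ρ g x = x := by
  have hg' : ρbar.ρ g⁻¹ = 1 := by
    have h := map_mul ρbar.ρ g g⁻¹
    rw [mul_inv_cancel, map_one, hg, one_mul] at h
    exact h.symm
  apply Ad0.toEnd_injective ρbar
  rw [ad0Rep_ρ_apply, hg, hg', one_mul, mul_one]

instance finite_ad0Rep : Module.Finite (ZMod p) (ad0Rep ρbar p) := by
  have h1 : Module.Finite (ZMod p) (ResidueField 𝒪) := Module.Finite.of_finite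
  exact Module.Finite.trans (R := ZMod p) (ResidueField 𝒪) (Ad0 ρbar)

/-- `ad⁰ ρbar` is smooth for the levels of `Smin`. -/
theorem smoothOut (hset : Setting 𝒪 p ρbar S Smin) : SmoothOut p ρbar Smin := by
  refine helper92.smoothStatement p (primesOf Smin) (ad0Rep ρbar p) inferInstance ?_ ?_
  · intro m
    obtain ⟨F, hF, h⟩ := ρbar.factorsThroughFiniteLevel
    refine ⟨F, hF, fun s hs => ad0Rep_ρ_eq_self_of_eq_one (h s fun x hx => ?_) m⟩
    exact (IntermediateField.mem_fixingSubgroup_iff F s).1 hs x hx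
  · intro q hq A hA g hg
    have hqS : (q : ℕ) ∉ Smin := fun h => hq (mem_primesOf.2 h)
    have hqp : (q : ℕ) ≠ p := fun h => hqS (h ▸ hset.hpSmin)
    have hur : ρbar.IsUnramifiedAt (q : ℕ) := by
      by_contra hcon
      exact hqS ((hset.hmin q q.2 hqp).2 hcon)
    have h1 : ρbar.ρ g = 1 := hur A hA g hg
    ext x
    exact ad0Rep_ρ_eq_self_of_eq_one h1 x

end Smooth

/-! ## The final count -/

section Count

variable {𝒪 : Type} [CommRing 𝒪] [IsDomain 𝒪] [IsDiscreteValuationRing 𝒪]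
  [IsAdicComplete (maximalIdeal 𝒪) 𝒪] [Finite (ResidueField 𝒪)]
  {p : ℕ} [Fact p.Prime]
  {ρbar : ResidualGaloisRep (ResidueField 𝒪)}
  {S Smin : Finset ℕ}
  [Algebra (ZMod p) (ResidueField 𝒪)]

open Classical in
/-- The local conditions of the Selmer group containing the tangent cocycles: the local tangent
cocycles at the primes of `Smin`, everything at the other primes of `T`. -/
def locCond (Smin : Finset ℕ)
    (𝒟 : ∀ ⦃A : Type⦄ [CommRing A] [IsLocalRing A] [Algebra 𝒪 A], GaloisRepAdic A → Prop)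
    (T' : Finset Nat.Primes) (v : ↥T') :
    Submodule (ZMod p) ((galLocal T').Gv v → (galLocal T').loc (ad0Rep ρbar p) v) :=
  if ((v : Nat.Primes) : ℕ) ∈ Smin then locTanZ ρbar p 𝒟 T' v
  else Z1 ((galLocal T').lev v) ((galLocal T').loc (ad0Rep ρbar p) v)

variable (𝒟 : ∀ ⦃A : Type⦄ [CommRing A] [IsLocalRing A] [Algebra 𝒪 A], GaloisRepAdic A → Prop)
  (T' : Finset Nat.Primes)

lemma tanZ_le_Z1 (hsm : IsSmooth (galLevels T') (ad0Rep ρbar p)) :
    tanZ ρbar p 𝒟 T' ≤ Z1 (galLevels T') (ad0Rep ρbar p) := by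
  refine sup_le (Submodule.span_le.2 fun c hc => hc.1) (B1_le_Z1 hsm)

lemma B1_le_locTanZ (v : ↥T') :
    B1 ((galLocal T').loc (ad0Rep ρbar p) v) ≤ locTanZ ρbar p 𝒟 T' v :=
  le_sup_right

lemma locTanZ_le_Z1 (hsm : IsSmooth (galLevels T') (ad0Rep ρbar p)) (v : ↥T') :
    locTanZ ρbar p 𝒟 T' v ≤ Z1 ((galLocal T').lev v) ((galLocal T').loc (ad0Rep ρbar p) v) := by
  refine sup_le ?_ (B1_le_Z1 (isSmooth_loc (galLocal T') hsm v))
  rintro _ ⟨x, hx, rfl⟩
  exact res₁_mem_Z1 (galLocal T') _ (tanZ_le_Z1 𝒟 T' hsm hx) v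

lemma B1_le_locCond (hsm : IsSmooth (galLevels T') (ad0Rep ρbar p)) (v : ↥T') :
    B1 ((galLocal T').loc (ad0Rep ρbar p) v) ≤ locCond (ρbar := ρbar) Smin 𝒟 T' v := by
  unfold locCond
  split_ifs
  · exact B1_le_locTanZ 𝒟 T' v
  · exact B1_le_Z1 (isSmooth_loc (galLocal T') hsm v)

lemma locCond_le_Z1 (hsm : IsSmooth (galLevels T') (ad0Rep ρbar p)) (v : ↥T') :
    locCond (ρbar := ρbar) Smin 𝒟 T' v ≤
      Z1 ((galLocal T').lev v) ((galLocal T').loc (ad0Rep ρbar p) v) := by
  unfold locCond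
  split_ifs
  · exact locTanZ_le_Z1 𝒟 T' hsm v
  · exact le_rfl

lemma tanZ_le_selZ (hsm : IsSmooth (galLevels T') (ad0Rep ρbar p)) :
    tanZ ρbar p 𝒟 T' ≤ selZ (galLocal T') (ad0Rep ρbar p) (locCond (ρbar := ρbar) Smin 𝒟 T') := by
  intro x hx
  rw [mem_selZ]
  refine ⟨tanZ_le_Z1 𝒟 T' hsm hx, fun v => ?_⟩
  unfold locCond
  split_ifs
  · exact Submodule.mem_sup_left ⟨x, hx, rfl⟩
  · exact res₁_mem_Z1 (galLocal T') _ (tanZ_le_Z1 𝒟 T' hsm hx) v

lemma card_filter_eq_le_one (T' : Finset Nat.Primes) (p : ℕ) :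
    (Finset.univ.filter (fun v : ↥T' => ((v : Nat.Primes) : ℕ) = p)).card ≤ 1 := by
  rw [Finset.card_le_one]
  intro a ha b hb
  rw [Finset.mem_filter] at ha hb
  exact Subtype.ext (Subtype.ext (ha.2.trans hb.2.symm))

lemma card_filter_notMem_le {r : ℕ} (qv : Fin r → ℕ) (Smin : Finset ℕ) :
    (Finset.univ.filter (fun v : ↥(primesOf (twSet Smin qv)) =>
      ((v : Nat.Primes) : ℕ) ∉ Smin)).card ≤ r := by
  classical
  have h1 : (Finset.univ.filter (fun v : ↥(primesOf (twSet Smin qv)) =>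
      ((v : Nat.Primes) : ℕ) ∉ Smin)).card ≤ (Finset.univ.image qv).card := by
    refine Finset.card_le_card_of_injOn (fun v => ((v : Nat.Primes) : ℕ)) ?_ ?_
    · intro v hv
      have hv' := (Finset.mem_filter.1 (Finset.mem_coe.1 hv)).2
      have hvT : ((v : Nat.Primes) : ℕ) ∈ twSet Smin qv := mem_primesOf.1 v.2
      rcases Finset.mem_union.1 hvT with h | h
      · exact absurd h hv'
      · exact Finset.mem_coe.2 h
    · intro a _ b _ hab
      exact Subtype.ext (Subtype.ext hab)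
  exact h1.trans (Finset.card_image_le.trans (by simp))

/-- **SEL-COUNT**: the output `SelOut` of module SEL from the outputs of the other modules and
the packages of SEL. -/
theorem selOut_of_inputs
    (𝒟fam : Finset ℕ →
      ∀ ⦃A : Type⦄ [CommRing A] [IsLocalRing A] [Algebra 𝒪 A], GaloisRepAdic A → Prop)
    (hset : Setting 𝒪 p ρbar S Smin)
    (hGW : GWStatement) (hEC : ECOut p ρbar Smin) (hP : LocPOut p ρbar Smin 𝒟fam)
    (hSm : LocSminOut p ρbar Smin 𝒟fam) (hQ : LocQOut p ρbar Smin) (hOdd : OddOut p ρbar)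
    (hNoInv : NoInvOut p ρbar) (hLD : LDOut p ρbar Smin) (hInfl : InflStatement p) :
    SelOut p ρbar S Smin 𝒟fam := by
  classical
  have hSmooth : SmoothOut p ρbar Smin := smoothOut hset
  intro n r qv hfam hkill
  have hST : Smin ⊆ twSet Smin qv := Finset.subset_union_left
  -- notation
  set T' : Finset Nat.Primes := primesOf (twSet Smin qv) with hT'
  set M : Rep (ZMod p) GQ := ad0Rep ρbar p with hM
  set M' : Rep (ZMod p) GQ := ad0Dual p ρbar with hM'
  set d : ℕ := Module.finrank (ZMod p) (ResidueField 𝒪) with hd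
  obtain ⟨hfinM, hfinM', hec⟩ := hEC (twSet Smin qv) hST
  obtain ⟨tr, htr, hld⟩ := hLD (twSet Smin qv) hST
  -- smoothness
  have hsub : primesOf Smin ⊆ T' := primesOf_mono hST
  have hsmM : IsSmooth (galLevels T') M := isSmooth_mono hsub hSmooth
  have hχ := (helper92.levelStatement p (primesOf Smin) (mem_primesOf.2 hset.hpSmin)).2
  have hsmM'0 : IsSmooth (galLevels (primesOf Smin)) M' := isSmooth_dualTwist hχ hSmooth
  have hsmM' : IsSmooth (galLevels T') M' := isSmooth_mono hsub hsmM'0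
  -- the Taylor-Wiles primes of `T'`
  have htw : ∀ v : ↥T', ((v : Nat.Primes) : ℕ) ∉ Smin →
      p ∣ ((v : Nat.Primes) : ℕ) - 1 ∧ FrobDistinct ρbar ((v : Nat.Primes) : ℕ) := by
    intro v hv
    have hvT : ((v : Nat.Primes) : ℕ) ∈ twSet Smin qv := mem_primesOf.1 v.2
    rcases Finset.mem_union.1 hvT with h | h
    · exact absurd h hv
    · obtain ⟨i, -, hi⟩ := Finset.mem_image.1 h
      rw [← hi]
      exact ⟨(dvd_pow_self p (Nat.succ_ne_zero n)).trans (hfam.2.1 i).2.2, hfam.2.2 i⟩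
  -- finiteness and bounds of the local terms
  have hloc : ∀ v : ↥T',
      Module.Finite (ZMod p) ↥(classes ((galLocal T').lev v) ((galLocal T').loc M v)
        (locCond (ρbar := ρbar) Smin (𝒟fam (twSet Smin qv)) T' v)) ∧
      Module.finrank (ZMod p) ↥(classes ((galLocal T').lev v) ((galLocal T').loc M v)
        (locCond (ρbar := ρbar) Smin (𝒟fam (twSet Smin qv)) T' v)) ≤
        Module.finrank (ZMod p) ↥(S55.H0 ((galLocal T').loc M v)) +
          ((if ((v : Nat.Primes) : ℕ) = p then d else 0) +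
            (if ((v : Nat.Primes) : ℕ) ∉ Smin then d else 0)) := by
    intro v
    by_cases hv : ((v : Nat.Primes) : ℕ) ∈ Smin
    · have e : locCond (ρbar := ρbar) Smin (𝒟fam (twSet Smin qv)) T' v =
          locTanZ ρbar p (𝒟fam (twSet Smin qv)) T' v := by
        unfold locCond
        rw [if_pos hv]
      rw [e]
      by_cases hvp : ((v : Nat.Primes) : ℕ) = p
      · obtain ⟨h1, h2⟩ := hP (twSet Smin qv) hST v hvp
        refine ⟨h1, ?_⟩
        rw [if_pos hvp, if_neg (not_not.2 hv), add_zero]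
        exact h2
      · obtain ⟨h1, h2⟩ := hSm (twSet Smin qv) hST v hv hvp
        refine ⟨h1, ?_⟩
        rw [if_neg hvp, if_neg (not_not.2 hv), add_zero, add_zero]
        exact h2
    · have e : locCond (ρbar := ρbar) Smin (𝒟fam (twSet Smin qv)) T' v =
          Z1 ((galLocal T').lev v) ((galLocal T').loc M v) := by
        unfold locCond
        rw [if_neg hv]
      rw [e, classes_eq_top_of_le _ _ le_rfl]
      obtain ⟨h1, h2⟩ := hQ v.1 hv (htw v hv).1 (htw v hv).2
      have h1' : Module.Finite (ZMod p) (H1 ((galLocal T').lev v) ((galLocal T').loc M v)) := h1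
      refine ⟨inferInstance, ?_⟩
      rw [finrank_top, if_pos hv]
      have h2' : Module.finrank (ZMod p) (H1 ((galLocal T').lev v) ((galLocal T').loc M v)) ≤
          Module.finrank (ZMod p) ↥(S55.H0 ((galLocal T').loc M v)) + d := h2
      omega
  -- the Greenberg-Wiles inequality
  have hgw := hGW (ZMod p) GQ (galLevels T') ↥T' (galLocal T') M' M
    (groupCohomology.ofChar (k := ZMod p) (cycloChar p))
    (evPairing' (ad0Rep ρbar p) (cycloChar p)) tr htr hsmM' hsmM
    (locCond (ρbar := ρbar) Smin (𝒟fam (twSet Smin qv)) T')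
    (B1_le_locCond (𝒟fam (twSet Smin qv)) T' hsmM)
    (locCond_le_Z1 (𝒟fam (twSet Smin qv)) T' hsmM) hfinM' hfinM (fun v => (hloc v).1)
  -- the dual Selmer group vanishes
  have hdual : dualSelZ (galLocal T') (evPairing' (ad0Rep ρbar p) (cycloChar p)) tr
      (locCond (ρbar := ρbar) Smin (𝒟fam (twSet Smin qv)) T') ≤ B1 M' := by
    intro x hx
    obtain ⟨hxZ, hxo⟩ := (mem_dualSelZ _ _).1 hx
    have hxloc : ∀ v : ↥T', ((v : Nat.Primes) : ℕ) ∉ Smin →
        res₁ (galLocal T') M' v x ∈ B1 ((galLocal T').loc M' v) := by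
      intro v hv
      refine hld v hv (htw v hv).1 (htw v hv).2 x hxZ (fun y hy => hxo (Pi.single v y) ?_)
      intro w
      by_cases hw : w = v
      · subst hw
        rw [Pi.single_eq_same]
        unfold locCond
        rw [if_neg hv]
        exact hy
      · rw [Pi.single_eq_of_ne hw]
        exact Submodule.zero_mem _
    have hx0 : x ∈ Z1 (galLevels (primesOf Smin)) M' :=
      hInfl (primesOf Smin) T' hsub M' hsmM'0 x hxZ
        (fun v hv => hxloc v (fun h => hv (mem_primesOf.2 h)))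
    refine hkill x hx0 (fun q hq => ?_)
    obtain ⟨i, hi⟩ := hq
    have hqT : q ∈ T' := by
      rw [hT', mem_primesOf]
      exact Finset.mem_union_right _ (Finset.mem_image.2 ⟨i, Finset.mem_univ _, hi⟩)
    have hqS : (q : ℕ) ∉ Smin := fun h => (hfam.2.1 i).2.1 (hset.hSmin (hi ▸ h))
    exact hxloc ⟨q, hqT⟩ hqS
  have hdual0 : Module.finrank (ZMod p) ↥(classes (galLevels T') M'
      (dualSelZ (galLocal T') (evPairing' (ad0Rep ρbar p) (cycloChar p)) tr
        (locCond (ρbar := ρbar) Smin (𝒟fam (twSet Smin qv)) T'))) = 0 := by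
    rw [classes_eq_bot_of_le _ _ hdual]
    exact finrank_bot _ _
  -- sum of the local terms
  have hsum : ∑ v : ↥T', Module.finrank (ZMod p) ↥(classes ((galLocal T').lev v)
      ((galLocal T').loc M v) (locCond (ρbar := ρbar) Smin (𝒟fam (twSet Smin qv)) T' v)) ≤
      ∑ v : ↥T', Module.finrank (ZMod p) ↥(S55.H0 ((galLocal T').loc M v)) + (d + d * r) := by
    refine (Finset.sum_le_sum fun v _ => (hloc v).2).trans ?_
    rw [Finset.sum_add_distrib, Finset.sum_add_distrib]
    have e1 : ∑ v : ↥T', (if ((v : Nat.Primes) : ℕ) = p then d else 0) ≤ d := by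
      rw [← Finset.sum_filter, Finset.sum_const, smul_eq_mul]
      calc _ ≤ 1 * d := Nat.mul_le_mul_right d (card_filter_eq_le_one T' p)
        _ = d := one_mul d
    have e2 : ∑ v : ↥T', (if ((v : Nat.Primes) : ℕ) ∉ Smin then d else 0) ≤ d * r := by
      rw [← Finset.sum_filter, Finset.sum_const, smul_eq_mul, mul_comm]
      exact Nat.mul_le_mul_left d (card_filter_notMem_le qv Smin)
    omega
  -- invariants and the archimedean term
  have hH0 : Module.finrank (ZMod p) ↥(S55.H0 M) = 0 := by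
    rw [hNoInv.1]
    exact finrank_bot _ _
  have hodd : d ≤ Module.finrank (ZMod p) ↥(realH0 M) := hOdd
  -- conclusion
  have hsel : Module.finrank (ZMod p) ↥(classes (galLevels T') M
      (selZ (galLocal T') M (locCond (ρbar := ρbar) Smin (𝒟fam (twSet Smin qv)) T'))) ≤ d * r := by
    have hec' : Module.finrank (ZMod p) ↥(Sha1 (galLocal T') M) +
        ∑ v : ↥T', Module.finrank (ZMod p) ↥(S55.H0 ((galLocal T').loc M v)) +
        Module.finrank (ZMod p) ↥(realH0 M) +
        Module.finrank (ZMod p) ↥(S55.H0 M') ≤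
      Module.finrank (ZMod p) (H1 (galLevels T') M') + Module.finrank (ZMod p) ↥(S55.H0 M) := hec
    omega
  have hle : tanH ρbar p (𝒟fam (twSet Smin qv)) T' ≤ classes (galLevels T') M
      (selZ (galLocal T') M (locCond (ρbar := ρbar) Smin (𝒟fam (twSet Smin qv)) T')) :=
    classes_mono _ _ (tanZ_le_selZ (𝒟fam (twSet Smin qv)) T' hsmM)
  have hfr : Module.finrank (ZMod p) ↥(tanH ρbar p (𝒟fam (twSet Smin qv)) T') ≤ d * r :=
    (Submodule.finrank_mono hle).trans hsel
  have : Module.Finite (ZMod p) (H1 (galLevels T') M) := hfinM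
  have : Finite (H1 (galLevels T') M) := Module.finite_of_finite (ZMod p)
  refine ⟨inferInstance, ?_⟩
  rw [Module.natCard_eq_pow_finrank (K := ZMod p)
    (V := ↥(tanH ρbar p (𝒟fam (twSet Smin qv)) T')),
    Module.natCard_eq_pow_finrank (K := ZMod p) (V := ResidueField 𝒪), Nat.card_zmod, ← pow_mul]
  exact Nat.pow_le_pow_right (Fact.out : p.Prime).pos hfr

end Count

end Fermat.Agent.P1.helper8
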