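import Fermat.Agent.P1.helper8_SelLDAbs
import Fermat.Agent.P1.helper8_SelDefs
import Fermat.Agent.S55.helper8_LocDualityFinal
import Fermat.Agent.S55.helper4_BridgeLevels
import Fermat.Agent.S55.helper51_LocalLevels
import Fermat.Agent.S55.helper15_TopLocB

/-!
# P1 (S56), module SEL, package [SEL-LDLOC] (helper8)

`ldLoc_of_ext : ExtStatement p → LDLocStatement p` : local duality at the primes `q ≡ 1 mod p`
for modules on which the local Galois group acts through a quotient of order prime to `p`.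

Inputs:
* `ld_abstract` (`helper8_SelLDAbs`): the abstract reduction to trivial coefficients;
* `Fermat.Agent.S55.helper8.nonempty_localDuality` (S55, module LOC): local duality with trivial
  coefficients for `ℚ_q ∋ ζ_p`;
* `exists_primitiveRoot_padic` : `ζ_p ∈ ℚ_q` for `p ∣ q - 1` (Teichmüller lift);
* `cycloChar_primeLocalToGlobal_eq_one` : the cyclotomic character mod `p` is trivial on the
  local Galois group at `q ≡ 1 mod p`;
* `isLev₁_locLevels_iff_gal`, `isLev₂_locLevels_iff_gal` : the level dictionary between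
  `locLevels q` and the Galois levels of `Gal(Ω_q/ℚ_q)`.
-/

set_option autoImplicit false

open IsLocalRing ExtCitation groupCohomology Polynomial

noncomputable section

namespace Fermat.Agent.P1.helper8

open Fermat.Agent.S55 Fermat.Agent.P1.helper70

section Roots

/-- `ℚ_q` contains a primitive `p`-th root of unity if `p ∣ q - 1` (Teichmüller lift). -/
theorem exists_primitiveRoot_padic (p q : ℕ) [Fact p.Prime] [Fact q.Prime] (h : p ∣ q - 1) :
    ∃ ζ : ℚ_[q]ˣ, IsPrimitiveRoot ζ p := by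
  have hp : p.Prime := Fact.out
  have hq : q.Prime := Fact.out
  obtain ⟨g, hg⟩ := IsCyclic.exists_generator (α := (ZMod q)ˣ)
  have hord : orderOf g = q - 1 := by
    rw [orderOf_eq_card_of_forall_mem_zpowers hg, Nat.card_eq_fintype_card, ZMod.card_units]
  have hq1 : q - 1 ≠ 0 := by
    have := hq.two_le
    omega
  have hdiv : (q - 1) / p ∣ orderOf g := by
    rw [hord]
    exact Nat.div_dvd_of_dvd h
  have hne : (q - 1) / p ≠ 0 := by
    intro h0
    have := Nat.div_mul_cancel h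
    rw [h0, zero_mul] at this
    exact hq1 this.symm
  have hu : orderOf (g ^ ((q - 1) / p)) = p := by
    rw [orderOf_pow_of_dvd hne hdiv, hord, Nat.div_div_self h hq1]
  have hprim : IsPrimitiveRoot (g ^ ((q - 1) / p)) p := by
    have := IsPrimitiveRoot.orderOf (g ^ ((q - 1) / p))
    rwa [hu] at this
  -- the Teichmüller map
  let f₁ : ZMod q →* WittVector q (ZMod q) := WittVector.teichmuller q
  have hf₁ : Function.Injective f₁ := by
    intro a b hab
    have := congrArg (fun w => WittVector.coeff w 0) hab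
    simpa [f₁, WittVector.teichmuller_coeff_zero] using this
  let f₂ : WittVector q (ZMod q) →* ℤ_[q] := (WittVector.equiv q).toRingHom.toMonoidHom
  have hf₂ : Function.Injective f₂ := (WittVector.equiv q).injective
  let f₃ : ℤ_[q] →* ℚ_[q] := (PadicInt.Coe.ringHom (p := q)).toMonoidHom
  have hf₃ : Function.Injective f₃ := fun a b hab => Subtype.ext hab
  let f : (ZMod q)ˣ →* ℚ_[q]ˣ := Units.map (f₃.comp (f₂.comp f₁))
  have hf : Function.Injective f :=
    Units.map_injective (hf₃.comp (hf₂.comp hf₁))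
  exact ⟨f (g ^ ((q - 1) / p)), hprim.map_of_injective hf⟩

/-- the cyclotomic character mod `p` is trivial on the local Galois group at `q ≡ 1 mod p` -/
theorem cycloChar_primeLocalToGlobal_eq_one (p : ℕ) [Fact p.Prime] (q : Nat.Primes)
    (h : p ∣ (q : ℕ) - 1) (s : primeLocalGaloisGroup q) :
    cycloChar p (primeLocalToGlobal q s) = 1 := by
  have : Fact (q : ℕ).Prime := ⟨q.2⟩
  have hp : p.Prime := Fact.out
  have : NeZero p := ⟨hp.ne_zero⟩
  obtain ⟨ζ, hζ⟩ := exists_primitiveRoot_padic p (q : ℕ) h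
  obtain ⟨z, hz⟩ := HasEnoughRootsOfUnity.exists_primitiveRoot (AlgebraicClosure ℚ) p
  -- the image of `ζ` in the algebraic closure
  have hζ' : IsPrimitiveRoot (algebraMap ℚ_[(q : ℕ)] (PadicAlgCl (q : ℕ)) (ζ : ℚ_[(q : ℕ)])) p := by
    have h1 : IsPrimitiveRoot (ζ : ℚ_[(q : ℕ)]) p := IsPrimitiveRoot.coe_units_iff.2 hζ
    exact h1.map_of_injective (algebraMap ℚ_[(q : ℕ)] (PadicAlgCl (q : ℕ))).injective
  have hw : (padicEmbedding (q : ℕ) z) ^ p = 1 := by
    rw [← map_pow, hz.pow_eq_one, map_one]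
  obtain ⟨i, -, hi⟩ := hζ'.eq_pow_of_pow_eq_one hw
  set σ : AlgebraicClosure ℚ ≃ₐ[ℚ] AlgebraicClosure ℚ := localGaloisToGlobal (q : ℕ) s with hσ
  have hfix : σ z = z := by
    apply (padicEmbedding (q : ℕ)).toRingHom.injective
    change padicEmbedding (q : ℕ) (localGaloisToGlobal (q : ℕ) s z) = padicEmbedding (q : ℕ) z
    rw [padicEmbedding_localGaloisToGlobal, ← hi, ← map_pow]
    exact AlgEquiv.commutes s _
  have h1 := Fermat.Agent.S55.helper15.globApply_of_pow_eq_one p σ hz.pow_eq_one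
  rw [hfix] at h1
  have h2 : z ^ 1 = z ^ ((cycloChar p σ : (ZMod p)ˣ) : ZMod p).val := by
    rw [pow_one]
    exact h1
  have h3 := hz.pow_inj hp.one_lt (ZMod.val_lt _) h2
  change cycloChar p σ = 1
  apply Units.ext
  apply ZMod.val_injective p
  rw [← h3, Units.val_one, ZMod.val_one'']
  exact hp.ne_one

end Roots

section Dict

variable (q : Nat.Primes)

/-- level dictionary, degree 1: the local levels at `q` and the Galois levels of
`Gal(Ω_q/ℚ_q)` define the same level functions -/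
theorem isLev₁_locLevels_iff_gal {X : Type*} (f : primeLocalGaloisGroup q → X) :
    haveI : Fact (q : ℕ).Prime := ⟨q.2⟩
    IsLev₁ (locLevels q) f ↔
      IsLev₁ (Fermat.Agent.S55.helper8.galLevels ℚ_[(q : ℕ)] (PadicAlgCl (q : ℕ))) f := by
  have : Fact (q : ℕ).Prime := ⟨q.2⟩
  have hAC : IsAlgClosure ℚ_[(q : ℕ)] (PadicAlgCl (q : ℕ)) :=
    ⟨inferInstance, PadicAlgCl.isAlgebraic (q : ℕ)⟩
  have hN : Normal ℚ_[(q : ℕ)] (PadicAlgCl (q : ℕ)) := IsAlgClosure.normal _ _
  rw [Fermat.Agent.S55.helper4.isLev₁_locLevels_iff,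
    Fermat.Agent.S55.helper51.isLevelConstant₁_primeLocalToGlobal_iff]
  constructor
  · rintro ⟨K, hK, hf⟩
    have h1 : FiniteDimensional ℚ_[(q : ℕ)]
        ↥(IntermediateField.normalClosure ℚ_[(q : ℕ)] K (PadicAlgCl (q : ℕ))) :=
      normalClosure.is_finiteDimensional _ _ _
    have h2 : Normal ℚ_[(q : ℕ)]
        ↥(IntermediateField.normalClosure ℚ_[(q : ℕ)] K (PadicAlgCl (q : ℕ))) :=
      normalClosure.normal _ _ _
    exact ⟨_, Fermat.Agent.S55.helper77.fixingSubgroup_mem_galLevels _ _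
        (IntermediateField.normalClosure ℚ_[(q : ℕ)] K (PadicAlgCl (q : ℕ))),
      fun g s hs => hf g s
        (IntermediateField.fixingSubgroup_antitone (IntermediateField.le_normalClosure K) hs)⟩
  · rintro ⟨N, ⟨-, L, hL, rfl⟩, hf⟩
    exact ⟨L, hL, fun g s hs => hf g s hs⟩

/-- level dictionary, degree 2 -/
theorem isLev₂_locLevels_iff_gal {X : Type*}
    (f : primeLocalGaloisGroup q × primeLocalGaloisGroup q → X) :
    haveI : Fact (q : ℕ).Prime := ⟨q.2⟩
    IsLev₂ (locLevels q) f ↔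
      IsLev₂ (Fermat.Agent.S55.helper8.galLevels ℚ_[(q : ℕ)] (PadicAlgCl (q : ℕ))) f := by
  have : Fact (q : ℕ).Prime := ⟨q.2⟩
  have hAC : IsAlgClosure ℚ_[(q : ℕ)] (PadicAlgCl (q : ℕ)) :=
    ⟨inferInstance, PadicAlgCl.isAlgebraic (q : ℕ)⟩
  have hN : Normal ℚ_[(q : ℕ)] (PadicAlgCl (q : ℕ)) := IsAlgClosure.normal _ _
  rw [Fermat.Agent.S55.helper4.isLev₂_locLevels_iff,
    Fermat.Agent.S55.helper51.isLevelConstant₂_primeLocalToGlobal_iff]
  constructor
  · rintro ⟨K, hK, hf⟩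
    have h1 : FiniteDimensional ℚ_[(q : ℕ)]
        ↥(IntermediateField.normalClosure ℚ_[(q : ℕ)] K (PadicAlgCl (q : ℕ))) :=
      normalClosure.is_finiteDimensional _ _ _
    have h2 : Normal ℚ_[(q : ℕ)]
        ↥(IntermediateField.normalClosure ℚ_[(q : ℕ)] K (PadicAlgCl (q : ℕ))) :=
      normalClosure.normal _ _ _
    exact ⟨_, Fermat.Agent.S55.helper77.fixingSubgroup_mem_galLevels _ _
        (IntermediateField.normalClosure ℚ_[(q : ℕ)] K (PadicAlgCl (q : ℕ))),
      fun g g' s hs s' hs' => hf g g' s s'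
        (IntermediateField.fixingSubgroup_antitone (IntermediateField.le_normalClosure K) hs)
        (IntermediateField.fixingSubgroup_antitone (IntermediateField.le_normalClosure K) hs')⟩
  · rintro ⟨N, ⟨-, L, hL, rfl⟩, hf⟩
    exact ⟨L, hL, fun g g' s s' hs hs' => hf g g' s hs s' hs'⟩

end Dict

section TrivDuality

variable (p : ℕ) [Fact p.Prime] (q : Nat.Primes)

/-- local duality with trivial coefficients at `q ≡ 1 mod p`, in the vocabulary of the local
levels: a functional which is injective on `H²` and for which the cup product on `Z¹` is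
non-degenerate. -/
theorem exists_inv_loc (hq : p ∣ (q : ℕ) - 1) :
    ∃ inv : (primeLocalGaloisGroup q × primeLocalGaloisGroup q → ZMod p) →ₗ[ZMod p] ZMod p,
      (∀ c ∈ Z2 (locLevels q) (Rep.trivial (ZMod p) (primeLocalGaloisGroup q) (ZMod p)),
        inv c = 0 ↔
          c ∈ B2 (locLevels q) (Rep.trivial (ZMod p) (primeLocalGaloisGroup q) (ZMod p))) ∧
      (∀ x ∈ Z1 (locLevels q) (Rep.trivial (ZMod p) (primeLocalGaloisGroup q) (ZMod p)),
        (∀ y ∈ Z1 (locLevels q) (Rep.trivial (ZMod p) (primeLocalGaloisGroup q) (ZMod p)),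
          inv (fun g => x g.1 * y g.2) = 0) → x = 0) := by
  have : Fact (q : ℕ).Prime := ⟨q.2⟩
  have hAC : IsAlgClosure ℚ_[(q : ℕ)] (PadicAlgCl (q : ℕ)) :=
    ⟨inferInstance, PadicAlgCl.isAlgebraic (q : ℕ)⟩
  obtain ⟨Inv⟩ := Fermat.Agent.S55.helper8.nonempty_locInv
  obtain ⟨ζ, hζ⟩ := exists_primitiveRoot_padic p (q : ℕ) hq
  obtain ⟨D⟩ := Fermat.Agent.S55.helper8.nonempty_localDuality (q : ℕ) Inv p ℚ_[(q : ℕ)]
    (PadicAlgCl (q : ℕ)) ζ hζ
  have hZ1 : ∀ x : primeLocalGaloisGroup q → ZMod p,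
      x ∈ Z1 (locLevels q) (Rep.trivial (ZMod p) (primeLocalGaloisGroup q) (ZMod p)) ↔
      x ∈ Z1 (Fermat.Agent.S55.helper8.galLevels ℚ_[(q : ℕ)] (PadicAlgCl (q : ℕ)))
        (Rep.trivial (ZMod p) (PadicAlgCl (q : ℕ) ≃ₐ[ℚ_[(q : ℕ)]] PadicAlgCl (q : ℕ)) (ZMod p)) :=
    fun x => and_congr (isLev₁_locLevels_iff_gal q x) Iff.rfl
  have hZ2 : ∀ c : primeLocalGaloisGroup q × primeLocalGaloisGroup q → ZMod p,
      c ∈ Z2 (locLevels q) (Rep.trivial (ZMod p) (primeLocalGaloisGroup q) (ZMod p)) ↔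
      c ∈ Z2 (Fermat.Agent.S55.helper8.galLevels ℚ_[(q : ℕ)] (PadicAlgCl (q : ℕ)))
        (Rep.trivial (ZMod p) (PadicAlgCl (q : ℕ) ≃ₐ[ℚ_[(q : ℕ)]] PadicAlgCl (q : ℕ)) (ZMod p)) :=
    fun c => and_congr (isLev₂_locLevels_iff_gal q c) Iff.rfl
  have hB2 : ∀ c : primeLocalGaloisGroup q × primeLocalGaloisGroup q → ZMod p,
      c ∈ B2 (locLevels q) (Rep.trivial (ZMod p) (primeLocalGaloisGroup q) (ZMod p)) ↔
      c ∈ B2 (Fermat.Agent.S55.helper8.galLevels ℚ_[(q : ℕ)] (PadicAlgCl (q : ℕ)))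
        (Rep.trivial (ZMod p) (PadicAlgCl (q : ℕ) ≃ₐ[ℚ_[(q : ℕ)]] PadicAlgCl (q : ℕ)) (ZMod p)) := by
    intro c
    constructor
    · rintro ⟨b, hb, rfl⟩
      exact ⟨b, (isLev₁_locLevels_iff_gal q b).1 hb, rfl⟩
    · rintro ⟨b, hb, rfl⟩
      exact ⟨b, (isLev₁_locLevels_iff_gal q b).2 hb, rfl⟩
  refine ⟨D.inv, fun c hc => ?_, fun x hx hxy => ?_⟩
  · rw [hB2]
    exact D.inv_eq_zero_iff c ((hZ2 c).1 hc)
  · exact D.nondeg x ((hZ1 x).1 hx) (fun y hy => hxy y ((hZ1 y).2 hy))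

end TrivDuality

section Final

variable (p : ℕ) [Fact p.Prime]

/-- the cup product of two level homomorphisms is a level 2-cocycle -/
lemma ld_cup_mem_Z2 {G : Type} [Group G] {𝒩 : Levels G} {k : Type} [Field k]
    {x₀ y₀ : G → k} (hx : x₀ ∈ Z1 𝒩 (Rep.trivial k G k)) (hy : y₀ ∈ Z1 𝒩 (Rep.trivial k G k)) :
    (fun g : G × G => x₀ g.1 * y₀ g.2) ∈ Z2 𝒩 (Rep.trivial k G k) := by
  have hxm : ∀ g₁ g₂ : G, x₀ (g₁ * g₂) = x₀ g₁ + x₀ g₂ :=
    ld_coc_mul (A := Rep.trivial k G k) hx.2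
  have hym : ∀ g₁ g₂ : G, y₀ (g₁ * g₂) = y₀ g₁ + y₀ g₂ :=
    ld_coc_mul (A := Rep.trivial k G k) hy.2
  refine mem_Z2.2 ⟨?_, ?_⟩
  · obtain ⟨N₁, hN₁, h₁⟩ := hx.1
    obtain ⟨N₂, hN₂, h₂⟩ := hy.1
    obtain ⟨N, hN, hle⟩ := 𝒩.directed N₁ hN₁ N₂ hN₂
    exact ⟨N, hN, fun g₁ g₂ s₁ hs₁ s₂ hs₂ => by
      simp only [h₁ g₁ s₁ (hle hs₁).1, h₂ g₂ s₂ (hle hs₂).2]⟩
  · funext g
    rw [d₂₃_hom_apply]
    change x₀ g.2.1 * y₀ g.2.2 - x₀ (g.1 * g.2.1) * y₀ g.2.2 + x₀ g.1 * y₀ (g.2.1 * g.2.2)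
      - x₀ g.1 * y₀ g.2.1 = 0
    rw [hxm, hym]
    ring

/-- **[SEL-LDLOC]** local duality at the primes `q ≡ 1 mod p` from [SEL-EXT]. -/
theorem ldLoc_of_ext (hExt : ExtStatement p) : LDLocStatement p := by
  intro q hq N _ hact τ hτB hτne x hx hxy
  obtain ⟨H, hH, hHN, hHcard⟩ := hact
  have hχ : ∀ s : primeLocalGaloisGroup q, cycloChar p (primeLocalToGlobal q s) = 1 :=
    cycloChar_primeLocalToGlobal_eq_one p q hq
  obtain ⟨inv, hinvB, hinvnd⟩ := exists_inv_loc p q hq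
  -- the action on the coefficients `μ_p` is trivial
  have hρ : ∀ (s : primeLocalGaloisGroup q) (a : ZMod p),
      (Rep.res (primeLocalToGlobal q) (groupCohomology.ofChar (k := ZMod p) (cycloChar p))).ρ s a
        = a := by
    intro s a
    change ((cycloChar p (primeLocalToGlobal q s) : (ZMod p)ˣ) : ZMod p) • a = a
    rw [hχ s, Units.val_one, one_smul]
  have hd12 : ∀ b : primeLocalGaloisGroup q → ZMod p,
      (d₁₂ (Rep.res (primeLocalToGlobal q)
        (groupCohomology.ofChar (k := ZMod p) (cycloChar p)))).hom b =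
      (d₁₂ (Rep.trivial (ZMod p) (primeLocalGaloisGroup q) (ZMod p))).hom b := by
    intro b
    funext g
    rw [d₁₂_hom_apply, d₁₂_hom_apply, hρ]
    rfl
  have hd23 : ∀ c : primeLocalGaloisGroup q × primeLocalGaloisGroup q → ZMod p,
      (d₂₃ (Rep.res (primeLocalToGlobal q)
        (groupCohomology.ofChar (k := ZMod p) (cycloChar p)))).hom c =
      (d₂₃ (Rep.trivial (ZMod p) (primeLocalGaloisGroup q) (ZMod p))).hom c := by
    intro c
    funext g
    rw [d₂₃_hom_apply, d₂₃_hom_apply, hρ]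
    rfl
  have hB2 : ∀ c : primeLocalGaloisGroup q × primeLocalGaloisGroup q → ZMod p,
      c ∈ B2 (locLevels q) (Rep.trivial (ZMod p) (primeLocalGaloisGroup q) (ZMod p)) →
      c ∈ B2 (locLevels q) (Rep.res (primeLocalToGlobal q)
        (groupCohomology.ofChar (k := ZMod p) (cycloChar p))) := by
    rintro c ⟨b, hb, rfl⟩
    exact ⟨b, hb, hd12 b⟩
  have hZ2 : ∀ c : primeLocalGaloisGroup q × primeLocalGaloisGroup q → ZMod p,
      c ∈ Z2 (locLevels q) (Rep.res (primeLocalToGlobal q)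
        (groupCohomology.ofChar (k := ZMod p) (cycloChar p))) →
      c ∈ Z2 (locLevels q) (Rep.trivial (ZMod p) (primeLocalGaloisGroup q) (ZMod p)) := by
    rintro c ⟨hc1, hc2⟩
    refine mem_Z2.2 ⟨hc1, ?_⟩
    rw [← hd23 c]
    exact hc2
  -- `τ` is injective on `H²`
  obtain ⟨c₀, hc₀, hτc₀⟩ := hτne
  have hτinj : ∀ c ∈ Z2 (locLevels q) (Rep.trivial (ZMod p) (primeLocalGaloisGroup q) (ZMod p)),
      τ c = 0 → inv c = 0 := by
    intro c hc hτc
    have hc₀' := hZ2 c₀ hc₀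
    have hmem : inv c • c₀ - inv c₀ • c ∈
        Z2 (locLevels q) (Rep.trivial (ZMod p) (primeLocalGaloisGroup q) (ZMod p)) :=
      Submodule.sub_mem _ (Submodule.smul_mem _ _ hc₀') (Submodule.smul_mem _ _ hc)
    have h0 : inv (inv c • c₀ - inv c₀ • c) = 0 := by
      rw [map_sub, map_smul, map_smul, smul_eq_mul, smul_eq_mul, mul_comm, sub_self]
    have h1 := hτB _ (hB2 _ ((hinvB _ hmem).1 h0))
    rw [map_sub, map_smul, map_smul, hτc, smul_zero, sub_zero, smul_eq_mul] at h1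
    exact (mul_eq_zero.1 h1).resolve_right hτc₀
  -- the index of `H`
  have hfin : Finite (primeLocalGaloisGroup q ⧸ H) :=
    Nat.finite_of_card_ne_zero (fun h0 => hHcard (h0 ▸ dvd_zero p))
  have hn : ((Nat.card (primeLocalGaloisGroup q ⧸ H) : ℕ) : ZMod p) ≠ 0 := by
    rw [Ne, ZMod.natCast_eq_zero_iff]
    exact hHcard
  have hHn : H.Normal := (locLevels q).normal H hH
  refine ld_abstract (𝒩 := locLevels q)
    (Rep.res (primeLocalToGlobal q) (N.dualTwist (cycloChar p)))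
    (Rep.res (primeLocalToGlobal q) N)
    (LinearMap.id : Module.Dual (ZMod p) N →ₗ[ZMod p] Module.Dual (ZMod p) N)
    ?_ ?_ H hH ?_ ?_ hfin hn (hExt q hq H hH hHcard) τ ?_ ?_ x hx hxy
  · -- invariance of the pairing
    intro g f a
    have h1 := (evPairing' N (cycloChar p)).equivariant (primeLocalToGlobal q g) f a
    have h2 := hρ g ((evPairing' N (cycloChar p)).φ f a)
    exact h1.trans h2
  · -- non-degeneracy on the left
    intro f hf
    exact LinearMap.ext hf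
  · -- `H` acts trivially on the dual
    intro s hs f
    change (N.dualTwist (cycloChar p)).ρ (primeLocalToGlobal q s) f = f
    rw [Rep.dualTwist_ρ_apply, hχ s, Units.val_one, one_smul]
    refine LinearMap.ext (fun a => ?_)
    rw [LinearMap.comp_apply, ← map_inv]
    exact congrArg f (hHN s⁻¹ (H.inv_mem hs) a)
  · exact hHN
  · -- `τ` kills the coboundaries
    intro c hc
    exact hτB c (hB2 c hc)
  · -- non-degeneracy
    intro x₀ hx₀ h
    exact hinvnd x₀ hx₀ (fun y₀ hy₀ => hτinj _ (ld_cup_mem_Z2 hx₀ hy₀) (h y₀ hy₀))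

end Final

end Fermat.Agent.P1.helper8
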