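import Fermat.Agent.P1.helper8_SelLD
import Fermat.Agent.P1.helper8_SelLDLoc
import Fermat.Agent.P1.helper68_SelGW
import Fermat.Agent.P1.helper33_SelTR
import Fermat.Agent.P1.helper6_SelPTP
import Fermat.Agent.P1.helper34_SelInfl

/-!
# P1 (S56), module SEL: final wiring (helper8, sub-coordinator, task 494)

`selOut_of_ext` : the deliverable `SelOut` of module SEL from

* the S55 claim `S55Claim p (primesOf T)` for all `T ⊇ Smin` (S55, module A + base case);
* `ExtStatement p` ([SEL-EXT], the only package of SEL still open);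
* the outputs `ECOut`, `LocPOut`, `LocSminOut`, `LocQOut`, `OddOut`, `NoInvOut` of the modules
  EC, LSO / FLAT-CNT, LQ, TW-GT.

All other packages of SEL are plugged in: [SEL-GW] (helper68), [SEL-TR] (helper33),
[SEL-PTP] (helper6), [SEL-INFL] (helper34), [SEL-LDLOC], [SEL-LD], [SEL-COUNT] (helper8).
-/

set_option autoImplicit false
set_option linter.unusedSectionVars false

open IsLocalRing ExtCitation groupCohomology Polynomial

noncomputable section

namespace Fermat.Agent.P1.helper8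

open Fermat.Agent.S55 Fermat.Agent.P1.helper70

variable {𝒪 : Type} [CommRing 𝒪] [IsDomain 𝒪] [IsDiscreteValuationRing 𝒪]
  [IsAdicComplete (maximalIdeal 𝒪) 𝒪] [Finite (ResidueField 𝒪)]
  {p : ℕ} [Fact p.Prime]
  {ρbar : ResidualGaloisRep (ResidueField 𝒪)}
  {S Smin : Finset ℕ}
  [Algebra (ZMod p) (ResidueField 𝒪)]

/-- the deliverable `LDOut` from the S55 claim and [SEL-EXT] -/
theorem ldOut_of_ext (hset : Setting 𝒪 p ρbar S Smin)
    (hS55 : ∀ T : Finset ℕ, Smin ⊆ T → S55Claim p (primesOf T))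
    (hExt : ExtStatement p) : LDOut p ρbar Smin :=
  ldOut_of_inputs hset hS55 (fun T' => Fermat.Agent.P1.helper33.trStatement p T')
    (ldLoc_of_ext p hExt) (Fermat.Agent.P1.helper6.primeToP p ρbar)

/-- **MODULE SEL**: the deliverable `SelOut` from the S55 claim, [SEL-EXT] and the outputs of the
other modules. -/
theorem selOut_of_ext
    (𝒟fam : Finset ℕ →
      ∀ ⦃A : Type⦄ [CommRing A] [IsLocalRing A] [Algebra 𝒪 A], GaloisRepAdic A → Prop)
    (hset : Setting 𝒪 p ρbar S Smin)
    (hS55 : ∀ T : Finset ℕ, Smin ⊆ T → S55Claim p (primesOf T))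
    (hExt : ExtStatement p)
    (hEC : ECOut p ρbar Smin) (hP : LocPOut p ρbar Smin 𝒟fam)
    (hSm : LocSminOut p ρbar Smin 𝒟fam) (hQ : LocQOut p ρbar Smin) (hOdd : OddOut p ρbar)
    (hNoInv : NoInvOut p ρbar) :
    SelOut p ρbar S Smin 𝒟fam :=
  selOut_of_inputs 𝒟fam hset Fermat.Agent.P1.helper68.gw hEC hP hSm hQ hOdd hNoInv
    (ldOut_of_ext hset hS55 hExt) (Fermat.Agent.P1.helper34.infl p)

end Fermat.Agent.P1.helper8
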