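import Fermat.Agent.P1.helper8_SelCount

/-!
# P1 (S56), module SEL: the local duality output `LDOut` (helper8)

`ldOut_of_inputs` : **SEL-LD**, the deliverable `LDOut` from

* `S55Claim p (primesOf T)` (S55, module A + base case): a trace functional with `Claim`;
* `TRStatement` (SEL-TR)   : the trace functional is nonzero on the local 2-cocycles at every
  prime of `T`;
* `LDLocStatement` (SEL-LDLOC) : local duality at the primes `q ≡ 1 mod p`;
* `PrimeToPStatement` (SEL-PTP): the local Galois group at a Taylor-Wiles prime acts on `ad⁰`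
  through a quotient of order prime to `p`.
-/

set_option autoImplicit false
set_option linter.unusedSectionVars false

open IsLocalRing ExtCitation groupCohomology Polynomial

noncomputable section

namespace Fermat.Agent.P1.helper8

open Fermat.Agent.S55 Fermat.Agent.P1.helper70

section Abstract

variable {k G : Type} [Field k] [Group G] {𝒩 : Levels G} {ι : Type} [DecidableEq ι]
  (L : LocalData G 𝒩 ι) {A B C : Rep k G} (φ : EqPairing A B C)

/-- the family of local 2-cochains supported at `v` -/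
def sgl₂ (v : ι) : (L.Gv v × L.Gv v → L.loc C v) →ₗ[k] (∀ w, L.Gv w × L.Gv w → L.loc C w) :=
  LinearMap.single k (fun w => L.Gv w × L.Gv w → L.loc C w) v

lemma sgl₂_apply (v : ι) (c : L.Gv v × L.Gv v → L.loc C v) :
    sgl₂ L v c = (Pi.single v c : ∀ w, L.Gv w × L.Gv w → L.loc C w) := rfl

/-- the cone 3-cochain supported at `v` -/
def single₃ (v : ι) : (L.Gv v × L.Gv v → L.loc C v) →ₗ[k] CcAmb3 L C :=
  (LinearMap.inr k (G × G × G → C) (∀ w, L.Gv w × L.Gv w → L.loc C w)).comp (sgl₂ L v)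

@[simp] lemma single₃_apply (v : ι) (c : L.Gv v × L.Gv v → L.loc C v) :
    single₃ L v c = ((0, Pi.single v c) : CcAmb3 L C) := rfl

/-- a cone 3-cochain supported at `v` by a level coboundary is a cone coboundary -/
lemma single₃_mem_Bc3 (v : ι) {c : L.Gv v × L.Gv v → L.loc C v}
    (hc : c ∈ B2 (L.lev v) (L.loc C v)) :
    ((0, Pi.single v c) : CcAmb3 L C) ∈ Bc3 L C := by
  obtain ⟨b, hb, rfl⟩ := (mem_B2 (𝒩 := L.lev v)).1 hc
  refine (mem_Bc3 L).2 ⟨((0, - (Pi.single v b : ∀ w, L.Gv w → L.loc C w)) : CcAmb2 L C),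
    (mem_Cc2 L).2 ⟨(C2 𝒩 C).zero_mem, fun w => ?_⟩, ?_⟩
  · by_cases hw : w = v
    · subst hw
      change - (Pi.single w b : ∀ w, L.Gv w → L.loc C w) w ∈ C1 (L.lev w) (L.loc C w)
      rw [Pi.single_eq_same]
      exact (C1 (L.lev w) (L.loc C w)).neg_mem hb
    · change - (Pi.single v b : ∀ w, L.Gv w → L.loc C w) w ∈ C1 (L.lev w) (L.loc C w)
      rw [Pi.single_eq_of_ne hw, neg_zero]
      exact (C1 (L.lev w) (L.loc C w)).zero_mem
  · refine Prod.ext (map_zero _) ?_
    funext w
    change res₂ L C w 0 - (d₁₂ (L.loc C w)).hom (- (Pi.single v b : ∀ w, L.Gv w → L.loc C w) w) =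
      (Pi.single v ((d₁₂ (L.loc C v)).hom b) : ∀ w, L.Gv w × L.Gv w → L.loc C w) w
    rw [map_zero, zero_sub, map_neg, neg_neg]
    by_cases hw : w = v
    · subst hw
      rw [Pi.single_eq_same, Pi.single_eq_same]
    · rw [Pi.single_eq_of_ne hw, Pi.single_eq_of_ne hw, map_zero]

/-- the cup product of a global 1-cochain with a cone 2-cochain supported at `v` -/
lemma cupc₁₂_single (x : G → A) (v : ι) (y : L.Gv v → L.loc B v) :
    cupc₁₂ L φ x ((0, Pi.single v y) : CcAmb2 L B) =
      ((0, Pi.single v (- locCup L φ v (res₁ L A v x) y)) : CcAmb3 L C) := by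
  refine Prod.ext ?_ ?_
  · funext g
    change φ.φ (x g.1) (B.ρ g.1 0) = 0
    rw [map_zero, map_zero]
  · funext w s
    change - φ.φ (x (L.r w s.1)) (B.ρ (L.r w s.1) ((Pi.single v y : ∀ w, L.Gv w → L.loc B w) w s.2))
      = (Pi.single v (- locCup L φ v (res₁ L A v x) y) : ∀ w, L.Gv w × L.Gv w → L.loc C w) w s
    by_cases hw : w = v
    · subst hw
      rw [Pi.single_eq_same, Pi.single_eq_same]
      rfl
    · rw [Pi.single_eq_of_ne hw, Pi.single_eq_of_ne hw]
      change - φ.φ (x (L.r w s.1)) (B.ρ (L.r w s.1) 0) = 0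
      rw [map_zero, map_zero, neg_zero]

end Abstract

section LD

variable {𝒪 : Type} [CommRing 𝒪] [IsDomain 𝒪] [IsDiscreteValuationRing 𝒪]
  [IsAdicComplete (maximalIdeal 𝒪) 𝒪] [Finite (ResidueField 𝒪)]
  {p : ℕ} [Fact p.Prime]
  {ρbar : ResidualGaloisRep (ResidueField 𝒪)}
  {S Smin : Finset ℕ}
  [Algebra (ZMod p) (ResidueField 𝒪)]

/-- **SEL-LD**: the deliverable `LDOut` from the S55 claim and the packages SEL-TR, SEL-LDLOC,
SEL-PTP. -/
theorem ldOut_of_inputs (hset : Setting 𝒪 p ρbar S Smin)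
    (hS55 : ∀ T : Finset ℕ, Smin ⊆ T → S55Claim p (primesOf T))
    (hTR : ∀ T' : Finset Nat.Primes, TRStatement p T')
    (hLDLoc : LDLocStatement p) (hPTP : PrimeToPStatement p ρbar) :
    LDOut p ρbar Smin := by
  classical
  intro T hST
  obtain ⟨tr, htr, hclaim⟩ := hS55 T hST
  refine ⟨tr, htr, fun v hv hp1 hfd x hxZ hxo => ?_⟩
  have hpT : pPrime p ∈ primesOf T := mem_primesOf.2 (hST hset.hpSmin)
  -- the local functional
  obtain ⟨c₀, hc₀, hne⟩ := hTR (primesOf T) hpT tr htr hclaim v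
  have hvp : ((v : Nat.Primes) : ℕ) ≠ p := fun h => hv (h ▸ hset.hpSmin)
  have hur : ρbar.IsUnramifiedAt ((v : Nat.Primes) : ℕ) := by
    by_contra hcon
    exact hv ((hset.hmin _ (v : Nat.Primes).2 hvp).2 hcon)
  have hact := hPTP (v : Nat.Primes) hvp hur hfd
  have hloc := hLDLoc (v : Nat.Primes) hp1 (ad0Rep ρbar p) inferInstance hact
    (tr ∘ₗ single₃ (galLocal (primesOf T)) v)
    (fun c hc => htr _ (single₃_mem_Bc3 (galLocal (primesOf T)) v hc))
    ⟨c₀, hc₀, hne⟩
    (res₁ (galLocal (primesOf T)) (ad0Dual p ρbar) v x)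
    (res₁_mem_Z1 (galLocal (primesOf T)) _ hxZ v)
  refine hloc (fun y hy => ?_)
  have h1 := hxo y hy
  rw [cupc₁₂_single] at h1
  have h2 : tr ((0, Pi.single v (locCup (galLocal (primesOf T))
      (evPairing' (ad0Rep ρbar p) (cycloChar p)) v
      (res₁ (galLocal (primesOf T)) (ad0Dual p ρbar) v x) y)) :
      CcAmb3 (galLocal (primesOf T)) (groupCohomology.ofChar (k := ZMod p) (cycloChar p))) = 0 := by
    have e := (single₃ (C := groupCohomology.ofChar (k := ZMod p) (cycloChar p))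
      (galLocal (primesOf T)) v).map_neg (locCup (galLocal (primesOf T))
        (evPairing' (ad0Rep ρbar p) (cycloChar p)) v
        (res₁ (galLocal (primesOf T)) (ad0Dual p ρbar) v x) y)
    rw [single₃_apply, single₃_apply] at e
    rw [e, map_neg, neg_eq_zero] at h1
    exact h1
  exact h2

end LD

end Fermat.Agent.P1.helper8
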