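import Fermat.Agent.S55.ABasic

/-!
# P1 (S56), module SEL, package [SEL-LDLOC], abstract part (helper8)

`ld_abstract` : let `G` be a group with levels `𝒩`, `H ∈ 𝒩` a level of finite index invertible
in `k`, `X`, `Y` representations of `G` on which `H` acts trivially, `φ : X × Y → k` a
`G`-invariant pairing which is non-degenerate on the left. Assume

* (EXT) every level function `G → k` which is additive on `H` is invariant under conjugation by
  `G` on `H`;
* `τ` is a functional on 2-cochains with trivial coefficients which kills the level coboundaries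
  and for which the cup product pairing on `Z¹(G, k)` is non-degenerate on the left.

Then every level cocycle `x` of `X` with `τ (x ∪ y) = 0` for all level cocycles `y` of `Y` is a
coboundary.

Proof. By (EXT) the values of `x` on `H` are `G`-invariant; averaging over `G/H` gives `m₀` such
that `x' = x + d m₀` has values in `X^G`. For `m ∈ Y^G` the function `s ↦ φ (x' s) m` is a level
homomorphism which is `τ`-orthogonal to all level homomorphisms (`(d m₀) ∪ y` is a level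
coboundary), hence zero; by averaging, `φ (x' s) y = 0` for all `y`, hence `x' = 0`.
-/

set_option autoImplicit false

open groupCohomology

noncomputable section

namespace Fermat.Agent.P1.helper8

open Fermat.Agent.S55

section AbsLD

variable {k G : Type} [Field k] [Group G]

/-- the cocycle identity -/
lemma ld_coc_mul {A : Rep k G} {x : G → A} (hx : (d₁₂ A).hom x = 0) (g h : G) :
    x (g * h) = x g + A.ρ g (x h) := by
  have h0 : (d₁₂ A).hom x (g, h) = 0 := by
    rw [hx]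
    rfl
  rw [d₁₂_hom_apply] at h0
  simp only at h0
  rw [sub_add_eq_add_sub, sub_eq_zero] at h0
  rw [← h0, add_comm]

lemma ld_coc_one {A : Rep k G} {x : G → A} (hx : (d₁₂ A).hom x = 0) : x 1 = 0 := by
  have := ld_coc_mul hx 1 1
  simpa using this

/-- conjugation: `x (g s g⁻¹) = g • x s` if `s` acts trivially. -/
lemma ld_coc_conj {A : Rep k G} {x : G → A} (hx : (d₁₂ A).hom x = 0) (g s : G)
    (hs : ∀ a : A, A.ρ s a = a) : x (g * s * g⁻¹) = A.ρ g (x s) := by
  have h1 : x g + A.ρ g (x g⁻¹) = 0 := by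
    rw [← ld_coc_mul hx g g⁻¹, mul_inv_cancel, ld_coc_one hx]
  rw [ld_coc_mul hx (g * s) g⁻¹, ld_coc_mul hx g s, map_mul, Module.End.mul_apply, hs]
  rw [add_assoc, add_comm (A.ρ g (x s)), ← add_assoc, h1, zero_add]

/-- shifting a sum over coset representatives -/
lemma ld_sum_shift (H : Subgroup G) [H.Normal] [Fintype (G ⧸ H)]
    {W : Type*} [AddCommGroup W] (P : AddSubgroup W) (F : G → W)
    (hF : ∀ a b : G, a⁻¹ * b ∈ H → F a - F b ∈ P) (g : G) :
    (∑ c : G ⧸ H, F (g * c.out)) - ∑ c : G ⧸ H, F c.out ∈ P := by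
  have e : ∑ c : G ⧸ H, F c.out = ∑ c : G ⧸ H, F (((g : G ⧸ H) * c).out) :=
    (Equiv.sum_comp (Equiv.mulLeft (g : G ⧸ H)) (fun c => F c.out)).symm
  rw [e, ← Finset.sum_sub_distrib]
  refine AddSubgroup.sum_mem _ (fun c _ => hF _ _ ?_)
  rw [← QuotientGroup.eq, QuotientGroup.mk_mul, QuotientGroup.out_eq', QuotientGroup.out_eq']

variable {𝒩 : Levels G}

/-- **[SEL-LDLOC], abstract form.** -/
theorem ld_abstract
    (X Y : Rep k G) (φ : X →ₗ[k] Y →ₗ[k] k)
    (hφ : ∀ (g : G) (x : X) (y : Y), φ (X.ρ g x) (Y.ρ g y) = φ x y)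
    (hφnd : ∀ x : X, (∀ y : Y, φ x y = 0) → x = 0)
    (H : Subgroup G) (hH : H ∈ 𝒩.mem)
    (hHX : ∀ s ∈ H, ∀ x : X, X.ρ s x = x) (hHY : ∀ s ∈ H, ∀ y : Y, Y.ρ s y = y)
    (hfin : Finite (G ⧸ H)) (hn : (Nat.card (G ⧸ H) : k) ≠ 0)
    (hExt : ∀ y : G → k, IsLev₁ 𝒩 y → (∀ h ∈ H, ∀ h' ∈ H, y (h * h') = y h + y h') →
      ∀ g : G, ∀ h ∈ H, y (g * h * g⁻¹) = y h)
    (τ : (G × G → k) →ₗ[k] k)
    (hτB : ∀ c ∈ B2 𝒩 (Rep.trivial k G k), τ c = 0)
    (hτnd : ∀ x₀ ∈ Z1 𝒩 (Rep.trivial k G k),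
      (∀ y₀ ∈ Z1 𝒩 (Rep.trivial k G k), τ (fun g => x₀ g.1 * y₀ g.2) = 0) → x₀ = 0)
    (x : G → X) (hx : x ∈ Z1 𝒩 X)
    (hxy : ∀ y ∈ Z1 𝒩 Y, τ (fun s => φ (x s.1) (Y.ρ s.1 (y s.2))) = 0) :
    x ∈ B1 X := by
  classical
  have hHn : H.Normal := 𝒩.normal H hH
  let _ : Fintype (G ⧸ H) := Fintype.ofFinite _
  have hcard : Nat.card (G ⧸ H) = Fintype.card (G ⧸ H) := Nat.card_eq_fintype_card
  set n : k := (Nat.card (G ⧸ H) : k) with hn_def
  have hxl : IsLev₁ 𝒩 x := hx.1
  have hxc : (d₁₂ X).hom x = 0 := hx.2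
  have hXsm : IsSmooth 𝒩 X := ⟨H, hH, hHX⟩
  -- Step A: the values of `x` on `H` are invariant
  have hA : ∀ h ∈ H, ∀ g : G, X.ρ g (x h) = x h := by
    intro h hh g
    rw [← ld_coc_conj hxc g h (hHX h hh)]
    rw [← sub_eq_zero]
    refine hφnd _ (fun y => ?_)
    rw [map_sub, LinearMap.sub_apply, sub_eq_zero]
    refine hExt (fun g => φ (x g) y) ?_ ?_ g h hh
    · obtain ⟨N, hN, hNx⟩ := hxl
      exact ⟨N, hN, fun g s hs => by simp only [hNx g s hs]⟩
    · intro h₁ hh₁ h₂ _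
      rw [ld_coc_mul hxc h₁ h₂, hHX h₁ hh₁, map_add, LinearMap.add_apply]
  -- the invariants as an additive subgroup
  set P : AddSubgroup X := (Fermat.Agent.S55.H0 X).toAddSubgroup with hP
  have hPmem : ∀ a : X, a ∈ P ↔ ∀ g : G, X.ρ g a = a := fun a => Iff.rfl
  -- Step B
  set S : X := ∑ c : G ⧸ H, x c.out with hS
  have hB : ∀ g : G, n • x g + X.ρ g S - S ∈ P := by
    intro g
    have h1 := ld_sum_shift H P x (fun a b hab => by
      have e : x b = x a + x (a⁻¹ * b) := by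
        have := ld_coc_mul hxc a (a⁻¹ * b)
        rw [mul_inv_cancel_left] at this
        rw [this, hA _ hab a]
      rw [e, sub_add_cancel_left]
      exact P.neg_mem ((hPmem _).2 (hA _ hab))) g
    have h2 : ∑ c : G ⧸ H, x (g * c.out) = n • x g + X.ρ g S := by
      simp only [ld_coc_mul hxc g]
      rw [Finset.sum_add_distrib, Finset.sum_const, Finset.card_univ, ← hcard, hS, map_sum,
        hn_def, Nat.cast_smul_eq_nsmul]
    rw [h2] at h1
    exact h1
  -- Step C
  set m₀ : X := n⁻¹ • S with hm₀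
  set x' : G → X := x + (d₀₁ X).hom m₀ with hx'
  have hx'Z : x' ∈ Z1 𝒩 X := (Z1 𝒩 X).add_mem hx (B1_le_Z1 hXsm ⟨m₀, rfl⟩)
  have hx'l : IsLev₁ 𝒩 x' := hx'Z.1
  have hx'c : (d₁₂ X).hom x' = 0 := hx'Z.2
  have hx'apply : ∀ g, x' g = x g + (X.ρ g m₀ - m₀) := fun g => by
    rw [hx', Pi.add_apply, d₀₁_hom_apply]
  have hx'inv : ∀ g g' : G, X.ρ g' (x' g) = x' g := by
    intro g g'
    have h1 : x' g = n⁻¹ • (n • x g + X.ρ g S - S) := by
      rw [hx'apply, hm₀, map_smul, smul_sub, smul_add, smul_smul, inv_mul_cancel₀ hn, one_smul]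
      abel
    rw [h1, map_smul, (hPmem _).1 (hB g) g']
  have hx'mul : ∀ g₁ g₂ : G, x' (g₁ * g₂) = x' g₁ + x' g₂ := fun g₁ g₂ => by
    rw [ld_coc_mul hx'c, hx'inv]
  -- Step D1
  have hD1 : ∀ m : Y, (∀ g : G, Y.ρ g m = m) → ∀ g : G, φ (x' g) m = 0 := by
    intro m hm
    have hxm : (fun g => φ (x' g) m) ∈ Z1 𝒩 (Rep.trivial k G k) := by
      refine mem_Z1.2 ⟨?_, ?_⟩
      · obtain ⟨N, hN, hNx⟩ := hx'l
        exact ⟨N, hN, fun g s hs => by simp only [hNx g s hs]⟩
      · funext g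
        rw [d₁₂_hom_apply]
        change φ (x' g.2) m - φ (x' (g.1 * g.2)) m + φ (x' g.1) m = 0
        rw [hx'mul, map_add, LinearMap.add_apply]
        abel
    have h0 := hτnd _ hxm (fun y₀ hy₀ => ?_)
    · intro g
      exact congrFun h0 g
    · -- the cocycle `y = y₀ • m`
      have hy₀mul : ∀ g₁ g₂ : G, y₀ (g₁ * g₂) = y₀ g₁ + y₀ g₂ := fun g₁ g₂ => by
        have := ld_coc_mul (A := Rep.trivial k G k) hy₀.2 g₁ g₂
        exact this
      set y : G → Y := fun g => y₀ g • m with hy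
      have hyZ : y ∈ Z1 𝒩 Y := by
        refine mem_Z1.2 ⟨?_, ?_⟩
        · obtain ⟨N, hN, hNy⟩ := hy₀.1
          exact ⟨N, hN, fun g s hs => by simp only [hy, hNy g s hs]⟩
        · funext g
          rw [d₁₂_hom_apply]
          simp only [hy, map_smul, hm, hy₀mul, add_smul]
          rw [Pi.zero_apply]
          abel
      have hymul : ∀ g₁ g₂ : G, y (g₁ * g₂) = y g₁ + Y.ρ g₁ (y g₂) := ld_coc_mul hyZ.2
      have h1 := hxy y hyZ
      -- the coboundary part
      have h2 : (fun s : G × G => φ ((d₀₁ X).hom m₀ s.1) (Y.ρ s.1 (y s.2))) ∈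
          B2 𝒩 (Rep.trivial k G k) := by
        refine ⟨fun t => φ m₀ (y t), ?_, ?_⟩
        · obtain ⟨N, hN, hNy⟩ := hyZ.1
          exact ⟨N, hN, fun g s hs => by simp only [hNy g s hs]⟩
        · funext s
          rw [d₁₂_hom_apply, d₀₁_hom_apply]
          change φ m₀ (y s.2) - φ m₀ (y (s.1 * s.2)) + φ m₀ (y s.1) =
            φ (X.ρ s.1 m₀ - m₀) (Y.ρ s.1 (y s.2))
          rw [hymul, map_add, map_sub, LinearMap.sub_apply, hφ]
          abel
      have h3 := hτB _ h2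
      have h4 : (fun g : G × G => (fun g => φ (x' g) m) g.1 * y₀ g.2) =
          (fun s : G × G => φ (x s.1) (Y.ρ s.1 (y s.2))) +
            (fun s : G × G => φ ((d₀₁ X).hom m₀ s.1) (Y.ρ s.1 (y s.2))) := by
        funext s
        simp only [Pi.add_apply]
        rw [← LinearMap.add_apply, ← map_add]
        change _ = φ (x' s.1) (Y.ρ s.1 (y s.2))
        simp only [hy, map_smul, hm, smul_eq_mul]
        rw [mul_comm]
      rw [h4, map_add, h1, h3, add_zero]
  -- Step D2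
  have hD2 : ∀ g : G, x' g = 0 := by
    intro g
    refine hφnd _ (fun y => ?_)
    set Nm : Y := ∑ c : G ⧸ H, Y.ρ c.out y with hNm
    have hNminv : ∀ g' : G, Y.ρ g' Nm = Nm := by
      intro g'
      have h1 := ld_sum_shift H (⊥ : AddSubgroup Y) (fun a => Y.ρ a y) (fun a b hab => by
        rw [AddSubgroup.mem_bot, sub_eq_zero]
        have : b = a * (a⁻¹ * b) := by rw [mul_inv_cancel_left]
        conv_rhs => rw [this, map_mul, Module.End.mul_apply, hHY _ hab]) g'
      rw [AddSubgroup.mem_bot, sub_eq_zero] at h1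
      rw [hNm, map_sum, ← h1]
      refine Finset.sum_congr rfl (fun c _ => ?_)
      rw [map_mul, Module.End.mul_apply]
    have h1 := hD1 Nm hNminv g
    have h2 : φ (x' g) Nm = n • φ (x' g) y := by
      rw [hNm, map_sum]
      have : ∀ c : G ⧸ H, φ (x' g) (Y.ρ c.out y) = φ (x' g) y := fun c => by
        conv_lhs => rw [← hx'inv g c.out, hφ]
      simp only [this]
      rw [Finset.sum_const, Finset.card_univ, ← hcard, hn_def, Nat.cast_smul_eq_nsmul]
    rw [h2, smul_eq_mul] at h1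
    exact (mul_eq_zero.1 h1).resolve_left hn
  -- conclusion
  refine ⟨-m₀, ?_⟩
  funext g
  have := hD2 g
  rw [hx'apply] at this
  rw [d₀₁_hom_apply, map_neg]
  have e : x g = -(X.ρ g m₀ - m₀) := eq_neg_of_add_eq_zero_left this
  rw [e]
  abel

end AbsLD

end Fermat.Agent.P1.helper8
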