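import Mathlib
import Fermat.Agent.P1.helper91_GTC
import Fermat.Agent.P1.helper91_GTB
import Fermat.Agent.P1.helper2_GTAbs

/-!
# P1 (S56), TW-GT: the abstract package statements of `helper2_GTAbs` (helper91)

`gtAFixed_statement`, `gtRed_statement`, `gtB_statement`, `gtSig_statement`, `gtC_statement` :
the statements `GtAFixedStatement`, `GtRedStatement`, `GtBStatement`, `GtSigStatement`,
`GtCStatement` of helper2's interface, verbatim, from `gtAFixed`, `gtRed`, `gtB`, `gtSig`,
`gtC_abs`.
-/

set_option autoImplicit false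

open Polynomial Matrix

noncomputable section

namespace Fermat.Agent.P1.helper91

open Fermat.Agent.P1.helper3 Fermat.Agent.P1.helper2

theorem gt_exists_sq_algClosure {k : Type*} [Field k] (d : k) :
    ∃ δ : AlgebraicClosure k, δ ^ 2 = algebraMap k (AlgebraicClosure k) d :=
  IsAlgClosed.exists_pow_nat_eq _ (by norm_num)

/-- `NoStableLine` over the algebraic closure implies `NoEigen` over `k`. -/
theorem noEigen_of_noStableLine {k : Type} [Field k] {G : Type} [Group G]
    {ρ : G →* GL (Fin 2) k} {H : Subgroup G} (h : NoStableLine ρ H) : NoEigen ρ H k := by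
  intro v hv
  have hinj : Function.Injective (algebraMap k (AlgebraicClosure k)) :=
    (algebraMap k (AlgebraicClosure k)).injective
  have hv' : (fun i => algebraMap k (AlgebraicClosure k) (v i)) ≠ 0 := by
    intro h0
    apply hv
    ext i
    have := congrFun h0 i
    simp only [Pi.zero_apply] at this ⊢
    exact (map_eq_zero (algebraMap k (AlgebraicClosure k))).mp this
  obtain ⟨g, hg, hga⟩ := h _ hv'
  refine ⟨g, hg, fun a ha => hga (algebraMap k (AlgebraicClosure k) a) ?_⟩
  rw [gt_map_id] at ha
  ext i
  have h3 := congrArg (algebraMap k (AlgebraicClosure k)) (congrFun ha i)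
  simp only [Matrix.mulVec, dotProduct, Matrix.map_apply, Pi.smul_apply, smul_eq_mul, map_sum,
    map_mul] at h3 ⊢
  exact h3

theorem gtAFixed_statement : GtAFixedStatement := by
  intro k _ G _ h2 ρ h1 hidx X hX hfix
  exact gtAFixed h2 ρ (AlgebraicClosure k) gt_exists_sq_algClosure h1 hidx X hX hfix

theorem gtRed_statement : GtRedStatement := by
  intro k _ G _ h2 ρ h1 hidx H hHn _ hcomm c hc hconst n hn
  exact gtRed h2 ρ (AlgebraicClosure k) gt_exists_sq_algClosure h1 hidx H hHn hcomm c hc.1 hc.2
    hconst n hn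

theorem gtB_statement : GtBStatement := by
  intro k _ G _ h2 ρ hyp N hNn hN
  exact gtB h2 ρ hyp.split (noEigen_of_noStableLine hyp.irr)
    (fun G' hG' => noEigen_of_noStableLine (hyp.irr₂ G' hG')) N hNn hN

theorem gtC_statement : GtCStatement := by
  intro k _ _ p _ _ hp2 G _ ρ hyp hdet H hHn _ hcomm c hc hconst
  exact gtC_abs p hp2 ρ (AlgebraicClosure k) gt_exists_sq_algClosure hyp.irr hyp.irr₂
    (noEigen_of_noStableLine hyp.irr) hyp.split hdet H hHn hcomm c hc.1 hc.2 hconst

end Fermat.Agent.P1.helper91
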