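import Fermat.Agent.P1.helper91_TWSelWire
import Fermat.Agent.P1.helper30_TWSelFin

/-!
# P1 (S56), module TW-SEL: the deliverable `TWOut` from `SigmaStatement` alone (helper91)

`twOut : Setting → SigmaStatement p ρbar (primesOf Smin) (ad0Dual p ρbar) → TWOut p ρbar S Smin`
(finiteness of `H¹(G_Smin, M')` = `helper30.finStatement` is unconditional).
-/

set_option autoImplicit false

open IsLocalRing ExtCitation

noncomputable section

namespace Fermat.Agent.P1.helper91

open Fermat.Agent.S55 Fermat.Agent.P1.helper70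

variable {𝒪 : Type} [CommRing 𝒪] [IsDomain 𝒪] [IsDiscreteValuationRing 𝒪]
  [IsAdicComplete (maximalIdeal 𝒪) 𝒪] [Finite (ResidueField 𝒪)]
  {p : ℕ} [Fact p.Prime]
  {ρbar : ResidualGaloisRep (ResidueField 𝒪)}
  {S Smin : Finset ℕ} [Algebra (ZMod p) (ResidueField 𝒪)]

/-- **Module TW-SEL.**  `TWOut` from the choice of `σ` (module TW-GT). -/
theorem twOut (hset : Setting 𝒪 p ρbar S Smin)
    (hσ : SigmaStatement p ρbar (primesOf Smin) (ad0Dual p ρbar)) : TWOut p ρbar S Smin :=
  twOut_of_sigma hset (Fermat.Agent.P1.helper30.finStatement p) hσ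

end Fermat.Agent.P1.helper91
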