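import Fermat.Agent.P1.helper63_ECDefs2

/-!
# P1 / EC / BASE-STAR dictionary (helper92): definitions

Abstract setting: `G` a group with levels `𝒩` and local data `L`, `C ≤ G` a subgroup, `U₁ ≤ C` a
subgroup normalised by `C`, `W` a representation of `C`.

* `H1Hom 𝒩 C U₁ hnorm W`   : the `C`-equivariant homomorphisms `U₁ → W` vanishing on a level;
* `ShaHomS L C U₁ hnorm W` : those which vanish on `U₁ ∩ g D_v g⁻¹` for all local indices `v` and
                              all `g : G` (`D_v` the image of the local group);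
* `EqMaps C W D`           : the `C`-equivariant maps `G / D → W`, i.e. the functions
                              `Φ : G → W` with `Φ (c x d) = c Φ (x)`;
* `twC χ W`                : `W^*(χ)` as a representation of `C`;
* `bsU1 p C N₀`            : the subgroup generated by the elements of `C` of `p`-power order
                              modulo `N₀`.

DEFINITIONS ONLY.
-/

set_option autoImplicit false

open groupCohomology

noncomputable section

namespace Fermat.Agent.P1.helper92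

open Fermat.Agent.S55

section Abstract

variable {k G : Type} [Field k] [Group G] (𝒩 : Levels G) {ι : Type} (L : LocalData G 𝒩 ι)
  (C U₁ : Subgroup G) (hnorm : ∀ c ∈ C, ∀ u ∈ U₁, c * u * c⁻¹ ∈ U₁) (W : Rep.{0} k ↥C)

/-- The `C`-equivariant homomorphisms `U₁ → W` which vanish on (the part in `U₁` of) a level. -/
def H1Hom : Submodule k (↥U₁ → W) where
  carrier := {h | (∀ u u' : ↥U₁, h (u * u') = h u + h u') ∧
    (∃ N ∈ 𝒩.mem, ∀ s : ↥U₁, (s : G) ∈ N → h s = 0) ∧
    ∀ (c : ↥C) (u : ↥U₁), h ⟨c * u * (c : G)⁻¹, hnorm c c.2 u u.2⟩ = W.ρ c (h u)}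
  add_mem' := by
    rintro h h' ⟨ha, ⟨N, hN, hl⟩, he⟩ ⟨ha', ⟨N', hN', hl'⟩, he'⟩
    refine ⟨fun u u' => ?_, ?_, fun c u => ?_⟩
    · simp only [Pi.add_apply, ha, ha']
      abel
    · obtain ⟨N'', hN'', hle⟩ := 𝒩.directed N hN N' hN'
      exact ⟨N'', hN'', fun s hs => by
        simp only [Pi.add_apply, hl s (hle hs).1, hl' s (hle hs).2, add_zero]⟩
    · simp only [Pi.add_apply, he, he', map_add]
  zero_mem' := by
    refine ⟨fun u u' => by simp, ?_, fun c u => by simp⟩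
    obtain ⟨N, hN⟩ := 𝒩.nonempty
    exact ⟨N, hN, fun _ _ => rfl⟩
  smul_mem' := by
    rintro a h ⟨ha, ⟨N, hN, hl⟩, he⟩
    refine ⟨fun u u' => ?_, ⟨N, hN, fun s hs => ?_⟩, fun c u => ?_⟩
    · simp only [Pi.smul_apply, ha, smul_add]
    · simp only [Pi.smul_apply, hl s hs, smul_zero]
    · simp only [Pi.smul_apply, he, map_smul]

variable {𝒩 C U₁ hnorm W} in
lemma mem_H1Hom {h : ↥U₁ → W} : h ∈ H1Hom 𝒩 C U₁ hnorm W ↔
    (∀ u u' : ↥U₁, h (u * u') = h u + h u') ∧
    (∃ N ∈ 𝒩.mem, ∀ s : ↥U₁, (s : G) ∈ N → h s = 0) ∧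
    ∀ (c : ↥C) (u : ↥U₁), h ⟨c * u * (c : G)⁻¹, hnorm c c.2 u u.2⟩ = W.ρ c (h u) := Iff.rfl

variable {𝒩} in
/-- The functions on `U₁` which vanish on `U₁ ∩ g D_v g⁻¹` for all `v` and `g`. -/
def LocVanish : Submodule k (↥U₁ → W) where
  carrier := {h | ∀ (v : ι) (g : G) (s : L.Gv v) (u : ↥U₁), (u : G) = g * L.r v s * g⁻¹ → h u = 0}
  add_mem' := by
    intro h h' hh hh' v g s u hu
    simp only [Pi.add_apply, hh v g s u hu, hh' v g s u hu, add_zero]
  zero_mem' := fun _ _ _ _ _ => rfl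
  smul_mem' := by
    intro a h hh v g s u hu
    simp only [Pi.smul_apply, hh v g s u hu, smul_zero]

variable {𝒩} in
/-- The locally trivial `C`-equivariant homomorphisms `U₁ → W`. -/
def ShaHomS : Submodule k (↥U₁ → W) := H1Hom 𝒩 C U₁ hnorm W ⊓ LocVanish L C U₁ W

/-- The `C`-equivariant maps `G / D → W`, as functions on `G`. -/
def EqMaps (D : Subgroup G) : Submodule k (G → W) where
  carrier := {Φ | (∀ (c : ↥C) (x : G), Φ (c * x) = W.ρ c (Φ x)) ∧ ∀ x : G, ∀ d ∈ D, Φ (x * d) = Φ x}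
  add_mem' := by
    rintro Φ Φ' ⟨h1, h2⟩ ⟨h1', h2'⟩
    exact ⟨fun c x => by simp only [Pi.add_apply, h1, h1', map_add],
      fun x d hd => by simp only [Pi.add_apply, h2 x d hd, h2' x d hd]⟩
  zero_mem' := ⟨fun c x => by simp, fun _ _ _ => rfl⟩
  smul_mem' := by
    rintro a Φ ⟨h1, h2⟩
    exact ⟨fun c x => by simp only [Pi.smul_apply, h1, map_smul],
      fun x d hd => by simp only [Pi.smul_apply, h2 x d hd]⟩

variable {C W} in
lemma mem_EqMaps {D : Subgroup G} {Φ : G → W} : Φ ∈ EqMaps C W D ↔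
    (∀ (c : ↥C) (x : G), Φ (c * x) = W.ρ c (Φ x)) ∧ ∀ x : G, ∀ d ∈ D, Φ (x * d) = Φ x := Iff.rfl

/-- `W^*(χ)` as a representation of `C`. -/
abbrev twC (χ : G →* kˣ) : Rep.{0} k ↥C := W.dualTwist (χ.comp C.subtype)

end Abstract

/-- The subgroup generated by the elements of `C` of `p`-power order modulo `N₀`. -/
def bsU1 {G : Type} [Group G] (p : ℕ) (C N₀ : Subgroup G) : Subgroup G :=
  Subgroup.closure {u | u ∈ C ∧ ∃ m : ℕ, u ^ p ^ m ∈ N₀}

end Fermat.Agent.P1.helper92
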