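import Fermat.Agent.P1.helper92_DictPlaces
import Fermat.Agent.P1.helper7_BSDefs
import Fermat.Agent.S55.helper69_BArLev

/-!
# P1 / EC / BASE-STAR dictionary (helper92): decomposition groups and `𝐇`, `𝐒𝐡`

* `exists_conj_of_mem_decompositionSubgroup` : an element of the decomposition subgroup of a
  place of `ℚbar` over `q` is `g * primeLocalToGlobal q h * g⁻¹`;
* `conj_primeLocalToGlobal_mem` : conversely `g * primeLocalToGlobal q h * g⁻¹` lies in the
  decomposition subgroup of `g • primeLocalPlace q`, a place over `q`;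
* `mem_decomposition_iff_conj` : the two sets coincide;
* `mem_Hsp_iff` : `x ∈ 𝐇` iff `x` is additive and vanishes on a level contained in `P`;
* `mem_Shsp_iff` : `x ∈ 𝐒𝐡` iff `x ∈ 𝐇` and `x` vanishes on `P ∩ D_A` for every place `A` of
  `ℚbar` over a prime of `T`.
-/

set_option autoImplicit false
set_option linter.unusedSectionVars false

open groupCohomology ExtCitation
open scoped Pointwise

noncomputable section

namespace Fermat.Agent.P1.helper92

open Fermat.Agent.S55 Fermat.Agent.P1.helper63 Fermat.Agent.P1.helper7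

local notation "Qbar" => AlgebraicClosure ℚ

/-- an element of a decomposition subgroup over `q` is a conjugate of an element of the image of
the local Galois group -/
theorem exists_conj_of_mem_decompositionSubgroup (q : Nat.Primes) (A : ValuationSubring Qbar)
    (hA : A.LiesOverPrime (q : ℕ)) {u : GQ} (hu : u ∈ A.decompositionSubgroup ℚ) :
    ∃ (g : GQ) (h : primeLocalGaloisGroup q), u = g * primeLocalToGlobal q h * g⁻¹ := by
  obtain ⟨σ, rfl⟩ := exists_smul_primeLocalPlace q A hA
  rw [decompositionSubgroup_smul, Subgroup.mem_map] at hu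
  obtain ⟨τ, hτ, rfl⟩ := hu
  rw [← helper74.range_primeLocalToGlobal] at hτ
  obtain ⟨h, rfl⟩ := hτ
  exact ⟨σ, h, rfl⟩

/-- `g • primeLocalPlace q` lies over `q` -/
theorem smul_primeLocalPlace_liesOverPrime (q : Nat.Primes) (g : GQ) :
    (g • primeLocalPlace q).LiesOverPrime (q : ℕ) :=
  helper69.liesOverPrime_smul (helper74.primeLocalPlace_liesOverPrime q) g

/-- a conjugate of an element of the image of the local Galois group lies in a decomposition
subgroup over `q` -/
theorem conj_primeLocalToGlobal_mem (q : Nat.Primes) (g : GQ) (h : primeLocalGaloisGroup q) :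
    g * primeLocalToGlobal q h * g⁻¹ ∈ (g • primeLocalPlace q).decompositionSubgroup ℚ :=
  (conj_mem_decompositionSubgroup_iff (primeLocalPlace q) g (primeLocalToGlobal q h)).2
    (primeLocalToGlobal_mem_decompositionSubgroup q h)

/-- the decomposition subgroups over `q` are the conjugates of the image of the local Galois
group -/
theorem mem_decomposition_iff_conj (q : Nat.Primes) (u : GQ) :
    (∃ A : ValuationSubring Qbar, A.LiesOverPrime (q : ℕ) ∧ u ∈ A.decompositionSubgroup ℚ) ↔
      ∃ (g : GQ) (h : primeLocalGaloisGroup q), u = g * primeLocalToGlobal q h * g⁻¹ := by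
  constructor
  · rintro ⟨A, hA, hu⟩
    exact exists_conj_of_mem_decompositionSubgroup q A hA hu
  · rintro ⟨g, h, rfl⟩
    exact ⟨g • primeLocalPlace q, smul_primeLocalPlace_liesOverPrime q g,
      conj_primeLocalToGlobal_mem q g h⟩

section BS

variable {p : ℕ} [Fact p.Prime] {T : Finset Nat.Primes} (D : BSData p T)

/-- `x ∈ 𝐇` iff `x` is additive and vanishes on a level contained in `P` -/
theorem mem_Hsp_iff {x : D.Fun} : x ∈ D.Hsp ↔
    (∀ u v : ↥D.pSub, x (u * v) = x u + x v) ∧
      ∃ N ∈ (galLevels T).mem, N ≤ D.pSub ∧ ∀ s : ↥D.pSub, (s : GQ) ∈ N → x s = 0 := by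
  have hd : ∀ (y : D.Fun) (u v : ↥D.pSub),
      (d₁₂ (helper35.trivRep (ZMod p) ↥D.pSub)).hom y (u, v) = y v - y (u * v) + y u :=
    fun y u v => rfl
  constructor
  · rintro ⟨⟨N', ⟨N, hN, hNP, rfl⟩, hl⟩, hk⟩
    have hk' : (d₁₂ (helper35.trivRep (ZMod p) ↥D.pSub)).hom x = 0 := hk
    have hadd : ∀ u v : ↥D.pSub, x (u * v) = x u + x v := by
      intro u v
      have h := congrFun hk' (u, v)
      rw [hd] at h
      have h' : x v - x (u * v) + x u = 0 := h
      rw [sub_add_eq_add_sub, sub_eq_zero] at h'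
      rw [← h', add_comm]
    refine ⟨hadd, N, hN, hNP, fun s hs => ?_⟩
    have h1 := hl 1 s (Subgroup.mem_subgroupOf.2 hs)
    have h2 := hadd 1 1
    rw [one_mul] at h1 h2
    have h3 : x 1 = 0 := by
      have := h2
      exact left_eq_add.mp this
    rw [h1, h3]
  · rintro ⟨hadd, N, hN, hNP, hl⟩
    refine ⟨⟨N.subgroupOf D.pSub, ⟨N, hN, hNP, rfl⟩, fun g s hs => ?_⟩, ?_⟩
    · rw [hadd, hl s (Subgroup.mem_subgroupOf.1 hs), add_zero]
    · rw [SetLike.mem_coe, LinearMap.mem_ker]
      funext y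
      obtain ⟨u, v⟩ := y
      rw [hd, hadd]
      show x v - (x u + x v) + x u = 0
      ring

/-- `x ∈ 𝐒𝐡` iff `x ∈ 𝐇` and `x` vanishes on the decomposition subgroups of all places of
`ℚbar` over the primes of `T` -/
theorem mem_Shsp_iff {x : D.Fun} : x ∈ D.Shsp ↔
    x ∈ D.Hsp ∧ ∀ q : Nat.Primes, q ∈ T → ∀ A : ValuationSubring Qbar, A.LiesOverPrime (q : ℕ) →
      ∀ u : ↥D.pSub, (u : GQ) ∈ A.decompositionSubgroup ℚ → x u = 0 := by
  constructor
  · rintro ⟨hx, hv⟩
    refine ⟨hx, fun q hq A hA u hu => ?_⟩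
    obtain ⟨g, h, hgh⟩ := exists_conj_of_mem_decompositionSubgroup q A hA hu
    have hmem : g * primeLocalToGlobal q h * g⁻¹ ∈ D.pSub := hgh ▸ u.2
    have := hv ⟨q, hq⟩ g h hmem
    have e : (⟨g * primeLocalToGlobal q h * g⁻¹, hmem⟩ : ↥D.pSub) = u := Subtype.ext hgh.symm
    rw [e] at this
    exact this
  · rintro ⟨hx, hv⟩
    refine ⟨hx, fun v g h hu => ?_⟩
    exact hv v.1 v.2 (g • primeLocalPlace v.1) (smul_primeLocalPlace_liesOverPrime v.1 g)
      ⟨_, hu⟩ (conj_primeLocalToGlobal_mem v.1 g h)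

end BS

end Fermat.Agent.P1.helper92
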