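import Fermat.Agent.P1.helper92_ECAsm
import Fermat.Agent.P1.helper92_BSDictDefs

/-!
# P1 / EC / BASE-STAR dictionary (helper92): `(Ind_C^G Y)^*(χ) ≅ Ind_C^G (Y^*(χ|C))`

For a subgroup `C ≤ G` of finite index, a representation `Y` of `C` and a character `χ` of `G`:

* `indDualEquiv Y χ : (G ⧸ C → Y^*) ≃ₗ (G ⧸ C → Y)^*`, `φ ↦ (f ↦ ∑ₓ χ(σ(x)) φ(x)(f(x)))`
  (`σ` = `helper57.cosetRep`; the twist by `χ(σ(x))` makes it equivariant);
* `indDualIso Y χ : EqIso (indRep (twC C Y χ)) ((indRep Y).dualTwist χ)`;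
* `eqIsoOfBijective` : an equivariant bijective linear map is an `EqIso`.
-/

set_option autoImplicit false
set_option linter.unusedSectionVars false
set_option linter.style.haveILetI false

open groupCohomology

noncomputable section

namespace Fermat.Agent.P1.helper92

open Fermat.Agent.S55 Fermat.Agent.P1.helper63

section General

variable {k G : Type} [Field k] [Group G] {A A' : Rep.{0} k G}

/-- an equivariant linear equivalence is an `EqIso` -/
def eqIsoOfEquiv (e : A ≃ₗ[k] A') (he : ∀ (g : G) (a : A), e (A.ρ g a) = A'.ρ g (e a)) :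
    EqIso A A' where
  e := ⟨e.toLinearMap, he⟩
  e' := ⟨e.symm.toLinearMap, fun g a => by
    apply e.injective
    have h1 : e (e.symm.toLinearMap (A'.ρ g a)) = A'.ρ g a := e.apply_symm_apply _
    have h2 : e (A.ρ g (e.symm.toLinearMap a)) = A'.ρ g a := by
      rw [he]
      congr 1
      exact e.apply_symm_apply a
    rw [h1, h2]⟩
  left_inv a := e.symm_apply_apply a
  right_inv a := e.apply_symm_apply a

end General

section IndDual

variable {k G : Type} [Field k] [Group G] {C : Subgroup G} [Fintype (G ⧸ C)]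
  (Y : Rep.{0} k ↥C) (χ : G →* kˣ)

/-- the underlying linear equivalence `(G ⧸ C → Y^*) ≃ (G ⧸ C → Y)^*` -/
def indDualEquiv : (G ⧸ C → Module.Dual k Y) ≃ₗ[k] Module.Dual k (G ⧸ C → Y) := by
  classical
  exact (LinearEquiv.piCongrRight (fun x : G ⧸ C =>
      LinearEquiv.smulOfUnit (M := Module.Dual k Y) (χ (helper57.cosetRep C x)))).trans
    (LinearMap.lsum k (fun _ : G ⧸ C => (Y : Type)) k)

lemma indDualEquiv_apply (φ : G ⧸ C → Module.Dual k Y) (f : G ⧸ C → Y) :
    indDualEquiv Y χ φ f = ∑ x : G ⧸ C, (χ (helper57.cosetRep C x) : k) * φ x (f x) := by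
  classical
  unfold indDualEquiv
  simp only [LinearEquiv.trans_apply, LinearMap.lsum_apply, LinearMap.coe_sum, Finset.sum_apply,
    LinearMap.comp_apply, LinearMap.proj_apply, LinearEquiv.piCongrRight_apply]
  rfl

/-- equivariance of `indDualEquiv`, in terms of the raw representations -/
theorem indDualEquiv_indRepn (g : G) (φ : G ⧸ C → Module.Dual k Y) (f : G ⧸ C → Y) :
    indDualEquiv Y χ (helper57.indRepn (Y.ρ.dual.twist (χ.comp C.subtype)) g φ) f =
      (χ g : k) * indDualEquiv Y χ φ (helper57.indRepn Y.ρ g⁻¹ f) := by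
  rw [indDualEquiv_apply, indDualEquiv_apply, Finset.mul_sum]
  -- reindex the left hand side by `x = g • x'`
  rw [← Equiv.sum_comp (MulAction.toPerm g : Equiv.Perm (G ⧸ C))]
  refine Finset.sum_congr rfl (fun x _ => ?_)
  have hL2 : ∀ (u : ↥C) (ψ : Module.Dual k Y) (y : Y),
      ((Y.ρ.dual.twist (χ.comp C.subtype)) u ψ) y = (χ (u : G) : k) * ψ (Y.ρ u⁻¹ y) :=
    fun _ _ _ => rfl
  have hc : (helper57.cocyc C g (g • x))⁻¹ = helper57.cocyc C g⁻¹ x := by
    apply Subtype.ext
    simp only [Subgroup.coe_inv, helper57.coe_cocyc, inv_smul_smul, inv_inv]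
    group
  have hχ : (χ (helper57.cosetRep C (g • x)) : k) *
      (χ ((helper57.cocyc C g (g • x) : ↥C) : G) : k) =
      (χ g : k) * (χ (helper57.cosetRep C x) : k) := by
    rw [← Units.val_mul, ← Units.val_mul, ← map_mul, ← map_mul]
    congr 2
    simp only [helper57.coe_cocyc, inv_smul_smul]
    group
  simp only [MulAction.toPerm_apply, helper57.indRepn_apply]
  rw [hL2, hc, inv_smul_smul, inv_inv, ← mul_assoc, hχ, mul_assoc]

/-- equivariance of `indDualEquiv` -/
theorem indDualEquiv_equivariant (g : G) (φ : G ⧸ C → Module.Dual k Y) :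
    indDualEquiv Y χ ((indRep (twC C Y χ)).ρ g φ) =
      ((indRep Y).dualTwist χ).ρ g (indDualEquiv Y χ φ) :=
  LinearMap.ext fun f => indDualEquiv_indRepn Y χ g φ f

/-- **(D2)** `Ind_C^G (Y^*(χ|C)) ≅ (Ind_C^G Y)^*(χ)`. -/
def indDualIso : EqIso (indRep (twC C Y χ)) ((indRep Y).dualTwist χ) :=
  eqIsoOfEquiv (A := indRep (twC C Y χ)) (A' := (indRep Y).dualTwist χ) (indDualEquiv Y χ)
    (indDualEquiv_equivariant Y χ)

end IndDual

end Fermat.Agent.P1.helper92
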