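import Fermat.Agent.P1.helper92_DictPlaces
import Fermat.Agent.P1.helper92_DictLev
import Fermat.Agent.P1.helper61_DictLocN
import Fermat.Agent.P1.helper82_DictLocC
import Fermat.Agent.P1.helper15_DictCyc
import Fermat.Agent.P1.helper21_DictUnr

/-!
# P1 / S56, module DICT (helper92, sub-coordinator): final assembly

All six package statements of `helper92_DictDefs.lean`, unconditionally, in one import:

* `dict_places    : PlacesStatement`     (helper92)
* `dict_locNorm   : LocNormStatement`    (helper61)
* `dict_locCyclic : LocCyclicStatement`  (helper82)
* `dict_roots     : RootsStatement`      (helper15)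
* `dict_unr       : UnrStatement`        (helper21 + helper82)
* `dict_lev       : LevStatement`        (helper92)
-/

set_option autoImplicit false

namespace Fermat.Agent.P1.helper92

theorem dict_places : PlacesStatement := placesStatement

theorem dict_locNorm : LocNormStatement := Fermat.Agent.P1.helper61.locNormStatement

theorem dict_locCyclic : LocCyclicStatement := Fermat.Agent.P1.helper82.locCyclicStatement

theorem dict_roots : RootsStatement := Fermat.Agent.P1.helper15.rootsStatement

theorem dict_unr : UnrStatement :=
  Fermat.Agent.P1.helper21.unr_of_locCyclic Fermat.Agent.P1.helper82.locCyclicStatement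

theorem dict_lev : LevStatement := levStatement

/-- the whole module DICT -/
theorem dict_all : PlacesStatement ∧ LocNormStatement ∧ LocCyclicStatement ∧ RootsStatement ∧
    UnrStatement ∧ LevStatement :=
  ⟨dict_places, dict_locNorm, dict_locCyclic, dict_roots, dict_unr, dict_lev⟩

end Fermat.Agent.P1.helper92
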