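import Fermat.Agent.P1.helper92_DictLev
import Fermat.Agent.P1.helper8_SelDefs

/-!
# P1 / DICT (helper92): the inflation statement of module SEL

* `isSmooth_galLevels_mono` : smoothness for `S₀` implies smoothness for `T' ⊇ S₀`;
* `mem_Z1_galLevels_of_loc_coboundary` : a level-`T'` cocycle of a module smooth for `S₀ ⊆ T'`
  which is locally a coboundary at the primes of `T' \ S₀` is a level-`S₀` cocycle;
* `inflStatement p : helper8.InflStatement p`.
-/

set_option autoImplicit false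
set_option linter.style.haveILetI false

open scoped Pointwise

noncomputable section

namespace Fermat.Agent.P1.helper92

open ExtCitation Fermat.Agent.S55 groupCohomology

local notation "Qbar" => AlgebraicClosure ℚ

variable {k : Type} [CommRing k] {M : Rep k GQ}

/-- the levels of `S₀` are levels of every larger `T'` -/
theorem galLevels_mem_mono {S₀ T' : Finset Nat.Primes} (h : S₀ ⊆ T') {N : Subgroup GQ}
    (hN : N ∈ (galLevels S₀).mem) : N ∈ (galLevels T').mem := by
  obtain ⟨hn, F, hF, rfl⟩ := hN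
  exact ⟨hn, F, ⟨hF.1, fun q hq A hA => hF.2 q (fun hmem => hq (h hmem)) A hA⟩, rfl⟩

theorem isSmooth_galLevels_mono {S₀ T' : Finset Nat.Primes} (h : S₀ ⊆ T')
    (hM : IsSmooth (galLevels S₀) M) : IsSmooth (galLevels T') M := by
  obtain ⟨N, hN, hact⟩ := hM
  exact ⟨N, galLevels_mem_mono h hN, hact⟩

theorem mem_Z1_galLevels_mono {S₀ T' : Finset Nat.Primes} (h : S₀ ⊆ T') {c : GQ → M}
    (hc : c ∈ Z1 (galLevels S₀) M) : c ∈ Z1 (galLevels T') M := by
  obtain ⟨⟨N, hN, hlev⟩, hcoc⟩ := hc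
  exact ⟨⟨N, galLevels_mem_mono h hN, hlev⟩, hcoc⟩

/-- a module smooth for `S₀` is unramified outside `S₀` -/
theorem unramified_of_isSmooth {S₀ : Finset Nat.Primes} (hM : IsSmooth (galLevels S₀) M)
    {q : Nat.Primes} (hq : q ∉ S₀) (A : ValuationSubring Qbar) (hA : A.LiesOverPrime (q : ℕ))
    {σ : GQ} (hσ : σ ∈ A.inertiaSubgroupIn ℚ) (m : M) : M.ρ σ m = m := by
  obtain ⟨N, ⟨-, F, hF, rfl⟩, hact⟩ := hM
  exact hact σ (hF.2 q hq A hA hσ) m

/-- **inflation**: a level-`T'` cocycle of a module smooth for `S₀ ⊆ T'` which is locally a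
coboundary at the primes of `T' \ S₀` is a level-`S₀` cocycle. -/
theorem mem_Z1_galLevels_of_loc_coboundary {S₀ T' : Finset Nat.Primes} (h : S₀ ⊆ T')
    (hM : IsSmooth (galLevels S₀) M) {c : GQ → M} (hc : c ∈ Z1 (galLevels T') M)
    (hloc : ∀ q ∈ T', q ∉ S₀ → ∃ m : M, ∀ τ : primeLocalGaloisGroup q,
      c (primeLocalToGlobal q τ) = M.ρ (primeLocalToGlobal q τ) m - m) :
    c ∈ Z1 (galLevels S₀) M := by
  obtain ⟨hopen, hur⟩ := vanishing_of_mem_Z1_galLevels (isSmooth_galLevels_mono h hM) hc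
  have hcoc : c ∈ LinearMap.ker (d₁₂ M).hom := hc.2
  refine mem_Z1_galLevels_of_unramified hM hcoc hopen ?_
  intro q hq A hA σ hσ
  by_cases hqT : q ∈ T'
  · obtain ⟨m, hm⟩ := hloc q hqT hq
    have key := (forall_inertia_iff_locInertia q
      (fun σ => c σ = 0 ∧ ∀ m : M, M.ρ σ m = m) ?_).mpr ?_ A hA σ hσ
    · exact key.1
    · rintro g s ⟨hcs, hs⟩
      refine ⟨cocycle_apply_conj hcoc g s hs hcs, fun a => ?_⟩
      rw [map_mul, map_mul, Module.End.mul_apply, Module.End.mul_apply, hs]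
      rw [← Module.End.mul_apply, ← map_mul, mul_inv_cancel, map_one]
      rfl
    · intro τ hτ
      have htriv : ∀ a : M, M.ρ (primeLocalToGlobal q τ) a = a := fun a =>
        unramified_of_isSmooth hM hq _ (helper74.primeLocalPlace_liesOverPrime q) hτ a
      refine ⟨?_, htriv⟩
      rw [hm τ, htriv, sub_self]
  · exact (hur q hqT A hA σ hσ).1

/-- **[SEL-INFL]** the inflation statement of module SEL (helper8), VERBATIM. -/
theorem inflStatement (p : ℕ) : Fermat.Agent.P1.helper8.InflStatement p := by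
  intro S₀ T' h N hN x hx hloc
  refine mem_Z1_galLevels_of_loc_coboundary h hN hx ?_
  intro q hqT hq
  obtain ⟨m, hm⟩ := hloc ⟨q, hqT⟩ hq
  refine ⟨m, fun τ => ?_⟩
  exact (congrFun hm τ).symm

end Fermat.Agent.P1.helper92
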