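import Fermat.Agent.P1.helper92_DictDefs
import Fermat.Agent.S55.helper69_BArLev
import Fermat.Agent.S55.helper74_LocalLevels
import Fermat.Agent.S55.helper96_BArDeg

/-!
# P1 / DICT-PL (helper92): places over `q` are conjugate

* `isFrobeniusAt_iff_nonunits` : elementary form of `ValuationSubring.IsFrobeniusAt`;
* `conj_mem_decompositionSubgroup_iff`, `conj_mem_inertiaSubgroupIn_iff`,
  `conj_isFrobeniusAt_iff` : conjugation;
* `exists_smul_primeLocalPlace` : every place over `q` is a translate of `primeLocalPlace q`;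
* `placesStatement : PlacesStatement`.
-/

set_option autoImplicit false

open scoped Pointwise

noncomputable section

namespace Fermat.Agent.P1.helper92

open ExtCitation Fermat.Agent.S55

local notation "Qbar" => AlgebraicClosure ℚ

section general

universe v w

variable {K : Type v} {L : Type w} [Field K] [Field L] [Algebra K L]

/-- membership in the Prelude's Frobenius predicate, in elementary terms -/
theorem isFrobeniusAt_iff_nonunits (A : ValuationSubring L) (σ : L ≃ₐ[K] L) (q : ℕ) :
    A.IsFrobeniusAt σ q ↔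
      σ ∈ A.decompositionSubgroup K ∧ ∀ a ∈ A, σ a - a ^ q ∈ A.nonunits := by
  constructor
  · rintro ⟨hσ, h⟩
    refine ⟨hσ, fun a ha => ?_⟩
    have h1 := h (IsLocalRing.residue A ⟨a, ha⟩)
    rw [← IsLocalRing.ResidueField.residue_smul, ← map_pow, ← sub_eq_zero, ← map_sub,
      IsLocalRing.residue_eq_zero_iff, A.valuation_lt_one_iff] at h1
    rw [ValuationSubring.mem_nonunits_iff]
    exact h1
  · rintro ⟨hσ, h⟩
    refine ⟨hσ, fun xbar => ?_⟩
    obtain ⟨a, rfl⟩ := IsLocalRing.residue_surjective xbar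
    rw [← IsLocalRing.ResidueField.residue_smul, ← map_pow, ← sub_eq_zero, ← map_sub,
      IsLocalRing.residue_eq_zero_iff, A.valuation_lt_one_iff]
    have := h a.1 a.2
    rw [ValuationSubring.mem_nonunits_iff] at this
    exact this

theorem conj_mem_decompositionSubgroup_iff (A : ValuationSubring L) (σ τ : L ≃ₐ[K] L) :
    σ * τ * σ⁻¹ ∈ (σ • A).decompositionSubgroup K ↔ τ ∈ A.decompositionSubgroup K := by
  unfold ValuationSubring.decompositionSubgroup
  rw [MulAction.mem_stabilizer_iff, MulAction.mem_stabilizer_iff, mul_smul, mul_smul,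
    inv_smul_smul]
  constructor
  · intro h
    exact smul_left_cancel σ h
  · intro h
    rw [h]

theorem conj_mem_inertiaSubgroupIn_iff (A : ValuationSubring L) (σ τ : L ≃ₐ[K] L) :
    σ * τ * σ⁻¹ ∈ (σ • A).inertiaSubgroupIn K ↔ τ ∈ A.inertiaSubgroupIn K := by
  constructor
  · intro h
    have h1 := helper69.conj_mem_inertiaSubgroupIn h σ⁻¹
    rw [inv_smul_smul] at h1
    have h2 : σ⁻¹ * (σ * τ * σ⁻¹) * σ⁻¹⁻¹ = τ := by group
    rwa [h2] at h1
  · intro h
    exact helper69.conj_mem_inertiaSubgroupIn h σ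

theorem conj_isFrobeniusAt_iff (A : ValuationSubring L) (σ τ : L ≃ₐ[K] L) (q : ℕ) :
    (σ • A).IsFrobeniusAt (σ * τ * σ⁻¹) q ↔ A.IsFrobeniusAt τ q := by
  rw [isFrobeniusAt_iff_nonunits, isFrobeniusAt_iff_nonunits,
    conj_mem_decompositionSubgroup_iff]
  refine and_congr_right fun _ => ?_
  have key : ∀ b : L, (σ * τ * σ⁻¹) (σ b) - (σ b) ^ q = σ (τ b - b ^ q) := by
    intro b
    simp [AlgEquiv.mul_apply]
  constructor
  · intro h b hb
    have h1 := h (σ b) ((helper69.apply_mem_smul_iff A σ b).mpr hb)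
    rwa [key, helper69.apply_mem_nonunits_smul_iff] at h1
  · intro h a ha
    obtain ⟨b, rfl⟩ : ∃ b, a = σ b := ⟨σ⁻¹ a, by simp⟩
    rw [helper69.apply_mem_smul_iff] at ha
    rw [key, helper69.apply_mem_nonunits_smul_iff]
    exact h b ha

/-- the decomposition group of a translate -/
theorem decompositionSubgroup_smul (A : ValuationSubring L) (σ : L ≃ₐ[K] L) :
    (σ • A).decompositionSubgroup K =
      (A.decompositionSubgroup K).map (MulAut.conj σ).toMonoidHom := by
  ext τ
  rw [Subgroup.mem_map]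
  constructor
  · intro h
    refine ⟨σ⁻¹ * τ * σ, ?_, ?_⟩
    · have h1 : σ * (σ⁻¹ * τ * σ) * σ⁻¹ = τ := by group
      rw [← conj_mem_decompositionSubgroup_iff A σ, h1]
      exact h
    · simp [MulAut.conj_apply, mul_assoc]
  · rintro ⟨ρ, hρ, rfl⟩
    exact (conj_mem_decompositionSubgroup_iff A σ ρ).mpr hρ

end general

/-- **transitivity**: every place of `ℚbar` over `q` is a translate of `primeLocalPlace q`. -/
theorem exists_smul_primeLocalPlace (q : Nat.Primes) (A : ValuationSubring Qbar)
    (hA : A.LiesOverPrime (q : ℕ)) : ∃ σ : GQ, A = σ • primeLocalPlace q :=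
  helper96.exists_smul_eq_of_liesOverPrime q.2 (helper74.primeLocalPlace_liesOverPrime q) hA

/-- **[DICT-PL]** -/
theorem placesStatement : PlacesStatement :=
  ⟨exists_smul_primeLocalPlace, fun A σ τ => conj_mem_decompositionSubgroup_iff A σ τ,
    fun A σ τ => conj_mem_inertiaSubgroupIn_iff A σ τ,
    fun A σ τ q => conj_isFrobeniusAt_iff A σ τ q⟩

/-! ## Reduction of properties of places to `primeLocalPlace q` -/

/-- A conjugation-invariant family of subsets: to check a property of all elements of all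
inertia groups over `q` it suffices to check it on the inertia group of `primeLocalPlace q`. -/
theorem forall_inertia_iff (q : Nat.Primes) (P : GQ → Prop)
    (hP : ∀ σ τ : GQ, P τ → P (σ * τ * σ⁻¹)) :
    (∀ A : ValuationSubring Qbar, A.LiesOverPrime (q : ℕ) →
        ∀ τ ∈ A.inertiaSubgroupIn ℚ, P τ) ↔
      ∀ τ ∈ (primeLocalPlace q).inertiaSubgroupIn ℚ, P τ := by
  constructor
  · intro h τ hτ
    exact h _ (helper74.primeLocalPlace_liesOverPrime q) τ hτ
  · intro h A hA τ hτ
    obtain ⟨σ, rfl⟩ := exists_smul_primeLocalPlace q A hA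
    have h1 : σ * (σ⁻¹ * τ * σ) * σ⁻¹ = τ := by group
    have h2 : σ⁻¹ * τ * σ ∈ (primeLocalPlace q).inertiaSubgroupIn ℚ := by
      rw [← conj_mem_inertiaSubgroupIn_iff _ σ, h1]
      exact hτ
    have := hP σ _ (h _ h2)
    rwa [h1] at this

/-- the same for Frobenius elements -/
theorem forall_frobenius_iff (q : Nat.Primes) (P : GQ → Prop)
    (hP : ∀ σ τ : GQ, P τ → P (σ * τ * σ⁻¹)) :
    (∀ A : ValuationSubring Qbar, A.LiesOverPrime (q : ℕ) →
        ∀ φ : GQ, A.IsFrobeniusAt φ (q : ℕ) → P φ) ↔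
      ∀ φ : GQ, (primeLocalPlace q).IsFrobeniusAt φ (q : ℕ) → P φ := by
  constructor
  · intro h τ hτ
    exact h _ (helper74.primeLocalPlace_liesOverPrime q) τ hτ
  · intro h A hA τ hτ
    obtain ⟨σ, rfl⟩ := exists_smul_primeLocalPlace q A hA
    have h1 : σ * (σ⁻¹ * τ * σ) * σ⁻¹ = τ := by group
    have h2 : (primeLocalPlace q).IsFrobeniusAt (σ⁻¹ * τ * σ) (q : ℕ) := by
      rw [← conj_isFrobeniusAt_iff _ σ, h1]
      exact hτ
    have := hP σ _ (h _ h2)
    rwa [h1] at this

/-- elements of the inertia group of `primeLocalPlace q` come from `locInertia q` -/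
theorem exists_locInertia_eq (q : Nat.Primes) {σ : GQ}
    (hσ : σ ∈ (primeLocalPlace q).inertiaSubgroupIn ℚ) :
    ∃ τ ∈ locInertia q, primeLocalToGlobal q τ = σ := by
  have hd : σ ∈ (primeLocalPlace q).decompositionSubgroup ℚ :=
    ((helper69.mem_inertiaSubgroupIn_iff_nonunits _ σ).mp hσ).1
  obtain ⟨τ, rfl⟩ := helper74.exists_primeLocalToGlobal_eq q hd
  exact ⟨τ, hσ, rfl⟩

/-- Frobenius elements at `primeLocalPlace q` come from local Frobenius elements -/
theorem exists_isLocFrob_eq (q : Nat.Primes) {φ : GQ}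
    (hφ : (primeLocalPlace q).IsFrobeniusAt φ (q : ℕ)) :
    ∃ τ : primeLocalGaloisGroup q, IsLocFrob q τ ∧ primeLocalToGlobal q τ = φ := by
  obtain ⟨τ, rfl⟩ := helper74.exists_primeLocalToGlobal_eq q hφ.mem_decompositionSubgroup
  exact ⟨τ, hφ, rfl⟩

/-- the image of the local Galois group is the decomposition group (membership form) -/
theorem primeLocalToGlobal_mem_decompositionSubgroup (q : Nat.Primes)
    (τ : primeLocalGaloisGroup q) :
    primeLocalToGlobal q τ ∈ (primeLocalPlace q).decompositionSubgroup ℚ := by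
  rw [← helper74.range_primeLocalToGlobal]
  exact ⟨τ, rfl⟩

/-- **reduction, inertia**: a conjugation-invariant property of the elements of all inertia
groups over `q`, checked on `locInertia q`. -/
theorem forall_inertia_iff_locInertia (q : Nat.Primes) (P : GQ → Prop)
    (hP : ∀ σ τ : GQ, P τ → P (σ * τ * σ⁻¹)) :
    (∀ A : ValuationSubring Qbar, A.LiesOverPrime (q : ℕ) →
        ∀ τ ∈ A.inertiaSubgroupIn ℚ, P τ) ↔
      ∀ τ ∈ locInertia q, P (primeLocalToGlobal q τ) := by
  rw [forall_inertia_iff q P hP]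
  constructor
  · intro h τ hτ
    exact h _ hτ
  · intro h σ hσ
    obtain ⟨τ, hτ, rfl⟩ := exists_locInertia_eq q hσ
    exact h τ hτ

/-- **reduction, Frobenius**: a conjugation-invariant property of all Frobenius elements over
`q`, checked on the local Frobenius elements. -/
theorem forall_frobenius_iff_isLocFrob (q : Nat.Primes) (P : GQ → Prop)
    (hP : ∀ σ τ : GQ, P τ → P (σ * τ * σ⁻¹)) :
    (∀ A : ValuationSubring Qbar, A.LiesOverPrime (q : ℕ) →
        ∀ φ : GQ, A.IsFrobeniusAt φ (q : ℕ) → P φ) ↔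
      ∀ τ : primeLocalGaloisGroup q, IsLocFrob q τ → P (primeLocalToGlobal q τ) := by
  rw [forall_frobenius_iff q P hP]
  constructor
  · intro h τ hτ
    exact h _ hτ
  · intro h φ hφ
    obtain ⟨τ, hτ, rfl⟩ := exists_isLocFrob_eq q hφ
    exact h τ hτ

end Fermat.Agent.P1.helper92
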