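import Fermat.Agent.P1.helper63_ECDefs
import Fermat.Agent.S55.helper45_DD
import Fermat.Agent.S55.ABasic
import Fermat.Agent.S55.helper92_SmoothLevel

/-!
# P1 / module EC (helper92): conditional assembly of the Euler characteristic inequality

* `EqIso A A'` : an equivariant isomorphism (two mutually inverse `EqHom`s);
* `finrank_H0_eq`, `finrank_locH0_eq`, `finrank_Sha1_eq` : invariance of `h⁰`, of the local `h⁰`
  and of `dim Ш¹` under equivariant isomorphisms;
* `ddIso` : the double duality isomorphism `N ≅ (N^*(χ))^*(χ)`;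
* `ecGenOut_of_outputs` : `ECGenOut p T` from `FinOut`, `TateOut`, `PTEndOut` (for `T ∋ p`) and
  `ArchOut`;
* `ecOut_of_outputs` : `helper70.ECOut` from the outputs for all `T' ∋ p` and the smoothness of
  `ad⁰ ρbar`.
-/

set_option autoImplicit false
set_option linter.style.haveILetI false
set_option linter.unusedSectionVars false

open groupCohomology ExtCitation

noncomputable section

namespace Fermat.Agent.P1.helper92

open Fermat.Agent.S55 Fermat.Agent.P1.helper70 Fermat.Agent.P1.helper63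

/-! ## Equivariant isomorphisms -/

section Abstract

variable {k G : Type} [Field k] [Group G] {𝒩 : Levels G} {ι : Type} (L : LocalData G 𝒩 ι)

/-- an equivariant isomorphism: two mutually inverse equivariant maps -/
structure EqIso (A A' : Rep.{0} k G) where
  /-- the map -/
  e : EqHom A A'
  /-- its inverse -/
  e' : EqHom A' A
  left_inv : ∀ a : A, e'.f (e.f a) = a
  right_inv : ∀ a : A', e.f (e'.f a) = a

variable {A A' : Rep.{0} k G}

/-- the inverse isomorphism -/
def EqIso.symm (E : EqIso A A') : EqIso A' A := ⟨E.e', E.e, E.right_inv, E.left_inv⟩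

/-- restriction of an equivariant map along a group homomorphism -/
def eqHomRes {H : Type} [Group H] (r : H →* G) (f : EqHom A A') :
    EqHom (Rep.res r A) (Rep.res r A') :=
  ⟨f.f, fun h a => f.comm (r h) a⟩

/-- restriction of an equivariant isomorphism along a group homomorphism -/
def EqIso.res {H : Type} [Group H] (r : H →* G) (E : EqIso A A') :
    EqIso (Rep.res r A) (Rep.res r A') :=
  ⟨eqHomRes r E.e, eqHomRes r E.e', E.left_inv, E.right_inv⟩

/-- `H⁰` of isomorphic modules -/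
def h0Equiv (E : EqIso A A') : ↥(S55.H0 A) ≃ₗ[k] ↥(S55.H0 A') where
  toFun a := ⟨E.e.f a, map_mem_H0 E.e a.2⟩
  invFun a := ⟨E.e'.f a, map_mem_H0 E.e' a.2⟩
  map_add' a b := Subtype.ext (map_add E.e.f a.1 b.1)
  map_smul' c a := Subtype.ext (map_smul E.e.f c a.1)
  left_inv a := Subtype.ext (E.left_inv a.1)
  right_inv a := Subtype.ext (E.right_inv a.1)

theorem finrank_H0_eq (E : EqIso A A') :
    Module.finrank k ↥(S55.H0 A) = Module.finrank k ↥(S55.H0 A') :=
  (h0Equiv E).finrank_eq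

theorem finrank_locH0_eq (E : EqIso A A') (v : ι) :
    Module.finrank k ↥(S55.H0 (L.loc A v)) = Module.finrank k ↥(S55.H0 (L.loc A' v)) :=
  finrank_H0_eq (E.res (L.r v))

/-- post-composition with an equivariant map, on level cocycles modulo coboundaries -/
def h1Map (f : EqHom A A') : S55.H1 𝒩 A →ₗ[k] S55.H1 𝒩 A' :=
  Submodule.mapQ _ _
    ({ toFun := fun x => ⟨fun g => f.f (x.1 g), map_mem_Z1 f x.2⟩
       map_add' := fun x y => Subtype.ext (funext fun g => map_add f.f (x.1 g) (y.1 g))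
       map_smul' := fun c x => Subtype.ext (funext fun g => map_smul f.f c (x.1 g)) } :
      ↥(Z1 𝒩 A) →ₗ[k] ↥(Z1 𝒩 A'))
    (fun x hx => map_mem_B1 f (x := x.1) hx)

theorem h1Map_mk (f : EqHom A A') (x : ↥(Z1 𝒩 A)) :
    h1Map (𝒩 := 𝒩) f (Submodule.Quotient.mk x) =
      Submodule.Quotient.mk ⟨fun g => f.f (x.1 g), map_mem_Z1 f x.2⟩ := rfl

/-- `H¹` of isomorphic modules -/
def h1Equiv (E : EqIso A A') : S55.H1 𝒩 A ≃ₗ[k] S55.H1 𝒩 A' :=
  LinearEquiv.ofLinearMap (h1Map E.e) (h1Map E.e')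
    (by
      apply LinearMap.ext
      intro y
      obtain ⟨x, rfl⟩ := Submodule.Quotient.mk_surjective _ y
      rw [LinearMap.comp_apply, h1Map_mk, h1Map_mk, LinearMap.id_apply]
      congr 1
      exact Subtype.ext (funext fun g => E.right_inv (x.1 g)))
    (by
      apply LinearMap.ext
      intro y
      obtain ⟨x, rfl⟩ := Submodule.Quotient.mk_surjective _ y
      rw [LinearMap.comp_apply, h1Map_mk, h1Map_mk, LinearMap.id_apply]
      congr 1
      exact Subtype.ext (funext fun g => E.left_inv (x.1 g)))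

theorem map_mem_LocTriv1 (f : EqHom A A') {x : G → A} (hx : x ∈ LocTriv1 L A) :
    (fun g => f.f (x g)) ∈ LocTriv1 L A' := by
  rw [LocTriv1, Submodule.mem_iInf] at hx ⊢
  intro v
  exact map_mem_B1 (eqHomRes (L.r v) f) (hx v)

theorem h1Map_mem_Sha1 (f : EqHom A A') {y : S55.H1 𝒩 A} (hy : y ∈ Sha1 L A) :
    h1Map f y ∈ Sha1 L A' := by
  obtain ⟨x, hx, rfl⟩ := hy
  exact ⟨⟨fun g => f.f (x.1 g), map_mem_Z1 f x.2⟩, map_mem_LocTriv1 L f hx, rfl⟩

/-- `Ш¹` of isomorphic modules -/
def sha1Equiv (E : EqIso A A') : ↥(Sha1 L A) ≃ₗ[k] ↥(Sha1 L A') where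
  toFun y := ⟨h1Equiv E y.1, h1Map_mem_Sha1 L E.e y.2⟩
  invFun y := ⟨(h1Equiv E).symm y.1, h1Map_mem_Sha1 L E.e' y.2⟩
  map_add' a b := Subtype.ext (map_add (h1Equiv E) a.1 b.1)
  map_smul' c a := Subtype.ext (map_smul (h1Equiv E) c a.1)
  left_inv a := Subtype.ext ((h1Equiv E).symm_apply_apply a.1)
  right_inv a := Subtype.ext ((h1Equiv E).apply_symm_apply a.1)

theorem finrank_Sha1_eq (E : EqIso A A') :
    Module.finrank k ↥(Sha1 L A) = Module.finrank k ↥(Sha1 L A') :=
  (sha1Equiv L E).finrank_eq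

theorem finrank_H1_eq (E : EqIso A A') :
    Module.finrank k (S55.H1 𝒩 A) = Module.finrank k (S55.H1 𝒩 A') :=
  (h1Equiv E).finrank_eq

/-- the double duality isomorphism -/
def ddIso (M : Rep.{0} k G) (χ : G →* kˣ) [Module.Finite k M] :
    EqIso M ((M.dualTwist χ).dualTwist χ) where
  e := helper45.evalEqHom M χ
  e' := helper45.evalInvEqHom M χ
  left_inv m := (Module.evalEquiv k M).symm_apply_apply m
  right_inv Ξ := (Module.evalEquiv k M).apply_symm_apply Ξ

end Abstract

/-! ## The assembly -/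

section Arith

variable (p : ℕ) [Fact p.Prime] (T : Finset Nat.Primes)

theorem finite_dualT (N : Rep.{0} (ZMod p) GQ) [Module.Finite (ZMod p) N] :
    Module.Finite (ZMod p) (dualT p N) := by
  change Module.Finite (ZMod p) (Module.Dual (ZMod p) N)
  infer_instance

theorem isSmooth_dualT (hpT : pPrime p ∈ T) {N : Rep.{0} (ZMod p) GQ}
    (hN : IsSmooth (galLevels T) N) : IsSmooth (galLevels T) (dualT p N) :=
  isSmooth_dualTwist ((Fermat.Agent.S55.helper92.levelStatement p T hpT).2) hN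

/-- the end of the Poitou-Tate sequence, with the roles of `N` and `N'` exchanged:
`h²(N') = dim Ш¹(N) + ∑_v h⁰(G_v, N) - h⁰(N)`. -/
theorem ptEnd_dual (hpT : pPrime p ∈ T) (hPT : PTEndOut p T) (N : Rep.{0} (ZMod p) GQ)
    (hfin : Module.Finite (ZMod p) N) (hsm : IsSmooth (galLevels T) N) :
    (hd2 (galLevels T) (dualT p N) : ℤ) =
      (sha1d p T N : ℤ) + locH0d p T N - hd0 N := by
  haveI := hfin
  have h := hPT (dualT p N) (finite_dualT p N) (isSmooth_dualT p T hpT hsm)
  have E := ddIso N (cycloChar p)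
  have h1 : sha1d p T (dualT p (dualT p N)) = sha1d p T N :=
    (finrank_Sha1_eq (galLocal T) E).symm
  have h2 : locH0d p T (dualT p (dualT p N)) = locH0d p T N := by
    unfold locH0d
    exact Finset.sum_congr rfl fun v _ => (finrank_locH0_eq (galLocal T) E v).symm
  have h3 : hd0 (dualT p (dualT p N)) = hd0 N := (finrank_H0_eq E).symm
  rw [h, h1, h2, h3]

/-- **EC-ASM**: the general Euler characteristic (in)equality from the module outputs. -/
theorem ecGenOut_of_outputs (hpT : pPrime p ∈ T) (hFin : FinOut p T) (hTate : TateOut p T)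
    (hPT : PTEndOut p T) (hArch : ArchOut p) : ECGenOut p T := by
  intro N hfin hsm
  haveI := hfin
  have hfin' : Module.Finite (ZMod p) (dualT p N) := finite_dualT p N
  have hsm' : IsSmooth (galLevels T) (dualT p N) := isSmooth_dualT p T hpT hsm
  refine ⟨(hFin N hfin hsm).1, (hFin _ hfin' hsm').1, ?_⟩
  have hT := hTate (dualT p N) hfin' hsm'
  have hP := ptEnd_dual p T hpT hPT N hfin hsm
  have hA := hArch N hfin
  have hdim : Module.finrank (ZMod p) (dualT p N) = Module.finrank (ZMod p) N :=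
    Rep.finrank_dualTwist (ZMod p) N (cycloChar p)
  unfold tateDefect at hT
  rw [hdim] at hT
  have hA' : (realH0d p (dualT p N) : ℤ) + realH0d p N = Module.finrank (ZMod p) N := by
    exact_mod_cast hA
  have key : (sha1d p T N : ℤ) + locH0d p T N + realH0d p N + hd0 (dualT p N) ≤
      hd1 (galLevels T) (dualT p N) + hd0 N := by
    linarith
  exact_mod_cast key

/-- the inequality form of `TateOut`: `0 ≤ tateDefect` -/
def TateIneq : Prop :=
  ∀ N : Rep.{0} (ZMod p) GQ, Module.Finite (ZMod p) N → IsSmooth (galLevels T) N →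
    0 ≤ tateDefect p T N

/-- the inequality form of `PTEndOut`: `dim Ш¹(N') + ∑_v h⁰(G_v, N') - h⁰(N') ≤ h²(N)` -/
def PTEndIneq : Prop :=
  ∀ N : Rep.{0} (ZMod p) GQ, Module.Finite (ZMod p) N → IsSmooth (galLevels T) N →
    (sha1d p T (dualT p N) : ℤ) + locH0d p T (dualT p N) - hd0 (dualT p N) ≤
      (hd2 (galLevels T) N : ℤ)

theorem tateIneq_of_tateOut (h : TateOut p T) : TateIneq p T :=
  fun N hfin hsm => (h N hfin hsm).ge

theorem ptEndIneq_of_ptEndOut (h : PTEndOut p T) : PTEndIneq p T :=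
  fun N hfin hsm => (h N hfin hsm).ge

/-- **EC-ASM**, inequality form: only the two inequalities `0 ≤ tateDefect` and
`dim Ш¹(N') + ∑_v h⁰(G_v, N') - h⁰(N') ≤ h²(N)` are needed. -/
theorem ecGenOut_of_ineq (hpT : pPrime p ∈ T) (hFin : FinOut p T) (hTate : TateIneq p T)
    (hPT : PTEndIneq p T) (hArch : ArchOut p) : ECGenOut p T := by
  intro N hfin hsm
  haveI := hfin
  have hfin' : Module.Finite (ZMod p) (dualT p N) := finite_dualT p N
  have hsm' : IsSmooth (galLevels T) (dualT p N) := isSmooth_dualT p T hpT hsm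
  refine ⟨(hFin N hfin hsm).1, (hFin _ hfin' hsm').1, ?_⟩
  have hT := hTate (dualT p N) hfin' hsm'
  have hP := hPT (dualT p N) hfin' hsm'
  have E := ddIso N (cycloChar p)
  have h1 : sha1d p T (dualT p (dualT p N)) = sha1d p T N :=
    (finrank_Sha1_eq (galLocal T) E).symm
  have h2 : locH0d p T (dualT p (dualT p N)) = locH0d p T N := by
    unfold locH0d
    exact Finset.sum_congr rfl fun v _ => (finrank_locH0_eq (galLocal T) E v).symm
  have h3 : hd0 (dualT p (dualT p N)) = hd0 N := (finrank_H0_eq E).symm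
  rw [h1, h2, h3] at hP
  have hA := hArch N hfin
  have hdim : Module.finrank (ZMod p) (dualT p N) = Module.finrank (ZMod p) N :=
    Rep.finrank_dualTwist (ZMod p) N (cycloChar p)
  unfold tateDefect at hT
  rw [hdim] at hT
  have hA' : (realH0d p (dualT p N) : ℤ) + realH0d p N = Module.finrank (ZMod p) N := by
    exact_mod_cast hA
  have key : (sha1d p T N : ℤ) + locH0d p T N + realH0d p N + hd0 (dualT p N) ≤
      hd1 (galLevels T) (dualT p N) + hd0 N := by
    linarith
  exact_mod_cast key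

end Arith

/-! ## `ECOut` for `ad⁰ ρbar` -/

section ECOut

variable {𝒪 : Type} [CommRing 𝒪] [IsDomain 𝒪] [IsDiscreteValuationRing 𝒪]
  [IsAdicComplete (IsLocalRing.maximalIdeal 𝒪) 𝒪] [Finite (IsLocalRing.ResidueField 𝒪)]
  (p : ℕ) [Fact p.Prime]
  (ρbar : ResidualGaloisRep (IsLocalRing.ResidueField 𝒪))
  (S Smin : Finset ℕ)
  [Algebra (ZMod p) (IsLocalRing.ResidueField 𝒪)]

/-- the levels of `T` are levels of every larger `T'` -/
theorem isSmooth_galLevels_of_subset {T T' : Finset Nat.Primes} (h : T ⊆ T')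
    {N : Rep.{0} (ZMod p) GQ} (hN : IsSmooth (galLevels T) N) : IsSmooth (galLevels T') N := by
  obtain ⟨U, ⟨hn, F, hF, rfl⟩, hact⟩ := hN
  exact ⟨_, ⟨hn, F, ⟨hF.1, fun q hq A hA => hF.2 q (fun hmem => hq (h hmem)) A hA⟩, rfl⟩, hact⟩

/-- **`ECOut`** from the general statement `ECGenOut` at all `T' ∋ p`. -/
theorem ecOut_of_ecGen (hpSmin : p ∈ Smin)
    (hfin : Module.Finite (ZMod p) (ad0Rep ρbar p))
    (hsm : IsSmooth (galLevels (primesOf Smin)) (ad0Rep ρbar p))
    (hEC : ∀ T' : Finset Nat.Primes, pPrime p ∈ T' → ECGenOut p T') :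
    ECOut p ρbar Smin := by
  intro T hT
  have hpT : pPrime p ∈ primesOf T := mem_primesOf.mpr (hT hpSmin)
  have hsub : primesOf Smin ⊆ primesOf T := fun q hq =>
    mem_primesOf.mpr (hT (mem_primesOf.mp hq))
  obtain ⟨h1, h2, h3⟩ := hEC (primesOf T) hpT (ad0Rep ρbar p) hfin
    (isSmooth_galLevels_of_subset p hsub hsm)
  exact ⟨h1, h2, h3⟩

/-- **`ECOut`** from the module outputs of EC at all `T' ∋ p`. -/
theorem ecOut_of_outputs (hpSmin : p ∈ Smin)
    (hfin : Module.Finite (ZMod p) (ad0Rep ρbar p))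
    (hsm : IsSmooth (galLevels (primesOf Smin)) (ad0Rep ρbar p))
    (hFin : ∀ T' : Finset Nat.Primes, pPrime p ∈ T' → FinOut p T')
    (hTate : ∀ T' : Finset Nat.Primes, pPrime p ∈ T' → TateOut p T')
    (hPT : ∀ T' : Finset Nat.Primes, pPrime p ∈ T' → PTEndOut p T')
    (hArch : ArchOut p) :
    ECOut p ρbar Smin :=
  ecOut_of_ecGen p ρbar Smin hpSmin hfin hsm fun T' hT' =>
    ecGenOut_of_outputs p T' hT' (hFin T' hT') (hTate T' hT') (hPT T' hT') hArch

/-- **`ECOut`** from the inequality forms of the module outputs of EC at all `T' ∋ p`. -/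
theorem ecOut_of_ineq (hpSmin : p ∈ Smin)
    (hfin : Module.Finite (ZMod p) (ad0Rep ρbar p))
    (hsm : IsSmooth (galLevels (primesOf Smin)) (ad0Rep ρbar p))
    (hFin : ∀ T' : Finset Nat.Primes, pPrime p ∈ T' → FinOut p T')
    (hTate : ∀ T' : Finset Nat.Primes, pPrime p ∈ T' → TateIneq p T')
    (hPT : ∀ T' : Finset Nat.Primes, pPrime p ∈ T' → PTEndIneq p T')
    (hArch : ArchOut p) :
    ECOut p ρbar Smin :=
  ecOut_of_ecGen p ρbar Smin hpSmin hfin hsm fun T' hT' =>
    ecGenOut_of_ineq p T' hT' (hFin T' hT') (hTate T' hT') (hPT T' hT') hArch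

end ECOut

end Fermat.Agent.P1.helper92
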