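import Fermat.Agent.P1.helper14_KumEqDefs2
import Fermat.Agent.P1.helper78_KRInert
import Fermat.Agent.P1.helper50_KumWild
import Fermat.Agent.P1.helper5_KumVal

/-!
# P1 / FLAT-CNT / KUMEQ, package FC-THETA (helper93, task 777)

`fcTheta p : helper14.FCThetaStatement p`: for a finite Galois extension `T/ℚ_p` with
uniformiser `ϖ`, the fundamental character `θ(s) = res (s ϖ / ϖ)` is multiplicative on the
inertia group, nowhere zero, injective when `T` is tame; `#I = e`; and `θ ^ (e/(p-1))` is the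
cyclotomic character on inertia.

Inputs: `helper78.krInert` (inertia field), `helper50.kumWild` (wild inertia),
`helper5.ordT_primitiveRoot_sub_one`.
-/

set_option autoImplicit false

namespace Fermat.Agent.P1.helper93

open Fermat.Agent.S55.helper8 Fermat.Agent.S55.helper7
open Fermat.Agent.P1.helper14

variable (p : ℕ) [Fact p.Prime]

/-! ## `WithTop ℤ` arithmetic -/

lemma fct_wt_pos_add_one_ne {a : WithTop ℤ} (h : 0 < a) : (1 : WithTop ℤ) + a ≠ 1 := by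
  induction a using WithTop.recTopCoe with
  | top => simp
  | coe n =>
    have hn : (0 : ℤ) < n := by exact_mod_cast h
    intro h1
    have h2 : ((1 + n : ℤ) : WithTop ℤ) = ((1 : ℤ) : WithTop ℤ) := by
      push_cast
      exact h1
    have h3 : 1 + n = 1 := by exact_mod_cast h2
    omega

/-! ## The calculus of `resT` -/

section resT

variable (T : Type) [Field T] [Algebra ℚ_[p] T] [FiniteDimensional ℚ_[p] T]

lemma fct_resT_eq {x : T} (h : 0 ≤ ordT p T x) : resT p T x = res p T ⟨x, h⟩ := by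
  unfold resT
  rw [dif_pos h]

lemma fct_ordT_mul_nonneg {x y : T} (hx : 0 ≤ ordT p T x) (hy : 0 ≤ ordT p T y) :
    0 ≤ ordT p T (x * y) := by
  rw [Fermat.Agent.S55.helper7.ordT_mul]
  exact add_nonneg hx hy

lemma fct_resT_mul {x y : T} (hx : 0 ≤ ordT p T x) (hy : 0 ≤ ordT p T y) :
    resT p T (x * y) = resT p T x * resT p T y := by
  rw [fct_resT_eq p T hx, fct_resT_eq p T hy, fct_resT_eq p T (fct_ordT_mul_nonneg p T hx hy),
    ← map_mul]
  rfl

lemma fct_resT_add {x y : T} (hx : 0 ≤ ordT p T x) (hy : 0 ≤ ordT p T y) :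
    resT p T (x + y) = resT p T x + resT p T y := by
  rw [fct_resT_eq p T hx, fct_resT_eq p T hy,
    fct_resT_eq p T (Fermat.Agent.S55.helper7.ordT_add_nonneg p T hx hy), ← map_add]
  rfl

lemma fct_resT_one : resT p T 1 = 1 := by
  have h : 0 ≤ ordT p T (1 : T) := (Fermat.Agent.S55.helper7.ordT_one p T).ge
  rw [fct_resT_eq p T h, ← map_one (res p T)]
  rfl

lemma fct_resT_zero : resT p T 0 = 0 := by
  have h : 0 ≤ ordT p T (0 : T) := by
    rw [Fermat.Agent.S55.helper7.ordT_zero]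
    exact le_top
  rw [fct_resT_eq p T h, ← map_zero (res p T)]
  rfl

lemma fct_resT_eq_iff {x y : T} (hx : 0 ≤ ordT p T x) (hy : 0 ≤ ordT p T y) :
    resT p T x = resT p T y ↔ 0 < ordT p T (x - y) := by
  rw [fct_resT_eq p T hx, fct_resT_eq p T hy, res_eq_iff]

lemma fct_resT_ne_zero {x : T} (hx : ordT p T x = 0) : resT p T x ≠ 0 := by
  rw [fct_resT_eq p T hx.ge]
  intro h
  rw [res_eq_zero_iff] at h
  rw [show ((⟨x, hx.ge⟩ : Oq p T) : T) = x from rfl, hx] at h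
  exact lt_irrefl _ h

lemma fct_resT_pow {x : T} (hx : 0 ≤ ordT p T x) (n : ℕ) :
    resT p T (x ^ n) = resT p T x ^ n := by
  induction n with
  | zero => simp [fct_resT_one]
  | succ n ih =>
    rw [pow_succ, pow_succ, fct_resT_mul p T (Fermat.Agent.P1.helper5.ordT_pow_nonneg p hx n) hx,
      ih]

lemma fct_resT_sum {ι : Type} (s : Finset ι) (f : ι → T) (h : ∀ i ∈ s, 0 ≤ ordT p T (f i)) :
    resT p T (∑ i ∈ s, f i) = ∑ i ∈ s, resT p T (f i) := by
  classical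
  induction s using Finset.induction_on with
  | empty => simp [fct_resT_zero]
  | insert a s ha ih =>
    rw [Finset.sum_insert ha, Finset.sum_insert ha,
      fct_resT_add p T (h a (Finset.mem_insert_self a s))
        (Fermat.Agent.P1.helper5.ordT_sum_nonneg p s f
          (fun i hi => h i (Finset.mem_insert_of_mem hi))),
      ih (fun i hi => h i (Finset.mem_insert_of_mem hi))]

/-- `ordT (x / y) = 0` when `ordT x = ordT y`, `y ≠ 0`. -/
lemma fct_ordT_div_eq_zero {x y : T} (hy : y ≠ 0) (h : ordT p T x = ordT p T y) :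
    ordT p T (x / y) = 0 := by
  rw [div_eq_mul_inv, Fermat.Agent.S55.helper7.ordT_mul, h]
  exact Fermat.Agent.S55.helper7.ordT_inv p T hy

omit [FiniteDimensional ℚ_[p] T] in
lemma fct_ne_zero_of_ordT_eq_one {ϖ : T} (hϖ : ordT p T ϖ = 1) : ϖ ≠ 0 := by
  intro h
  rw [h, Fermat.Agent.S55.helper7.ordT_zero] at hϖ
  exact absurd hϖ (by simp)

/-- the inertia group acts trivially on residues -/
lemma fct_resT_inertia {s : T ≃ₐ[ℚ_[p]] T} (hs : s ∈ inertia p T) {x : T}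
    (hx : 0 ≤ ordT p T x) : resT p T (s x) = resT p T x := by
  have hsx : 0 ≤ ordT p T (s x) := by
    rw [Fermat.Agent.P1.helper14.ordT_algEquiv]; exact hx
  rw [fct_resT_eq_iff p T hsx hx]
  exact hs x hx

end resT

/-! ## The fundamental character -/

section theta

variable (T : Type) [Field T] [Algebra ℚ_[p] T] [FiniteDimensional ℚ_[p] T]

/-- `s ϖ / ϖ` is a unit -/
lemma fct_ordT_quot {ϖ : T} (hϖ : ordT p T ϖ = 1) (s : T ≃ₐ[ℚ_[p]] T) :
    ordT p T (s ϖ / ϖ) = 0 :=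
  fct_ordT_div_eq_zero p T (fct_ne_zero_of_ordT_eq_one p T hϖ)
    (Fermat.Agent.P1.helper14.ordT_algEquiv p T s ϖ)

/-- (b) `θ s ≠ 0` -/
theorem fct_theta_ne_zero {ϖ : T} (hϖ : ordT p T ϖ = 1) (s : T ≃ₐ[ℚ_[p]] T) :
    thetaRes p T ϖ s ≠ 0 :=
  fct_resT_ne_zero p T (fct_ordT_quot p T hϖ s)

/-- (a) `θ` is multiplicative on inertia (it suffices that the first factor is inertial) -/
theorem fct_theta_mul {ϖ : T} (hϖ : ordT p T ϖ = 1) {s : T ≃ₐ[ℚ_[p]] T}
    (hs : s ∈ inertia p T) (s' : T ≃ₐ[ℚ_[p]] T) :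
    thetaRes p T ϖ (s * s') = thetaRes p T ϖ s * thetaRes p T ϖ s' := by
  have hϖ0 : ϖ ≠ 0 := fct_ne_zero_of_ordT_eq_one p T hϖ
  have hsϖ0 : s ϖ ≠ 0 := by simpa using hϖ0
  have hu' : 0 ≤ ordT p T (s' ϖ / ϖ) := (fct_ordT_quot p T hϖ s').ge
  have hsu' : 0 ≤ ordT p T (s (s' ϖ / ϖ)) := by
    rw [Fermat.Agent.P1.helper14.ordT_algEquiv]; exact hu'
  have hu : 0 ≤ ordT p T (s ϖ / ϖ) := (fct_ordT_quot p T hϖ s).ge
  have e : (s * s') ϖ / ϖ = s (s' ϖ / ϖ) * (s ϖ / ϖ) := by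
    rw [AlgEquiv.mul_apply, map_div₀]
    field_simp
  unfold thetaRes
  rw [e, fct_resT_mul p T hsu' hu, fct_resT_inertia p T hs hu', mul_comm]

/-- `θ s = 1` iff `s` moves the uniformiser by valuation `> 1` -/
lemma fct_theta_eq_one_iff {ϖ : T} (hϖ : ordT p T ϖ = 1) (s : T ≃ₐ[ℚ_[p]] T) :
    thetaRes p T ϖ s = 1 ↔ 0 < ordT p T (s ϖ / ϖ - 1) := by
  unfold thetaRes
  rw [← fct_resT_one p T,
    fct_resT_eq_iff p T (fct_ordT_quot p T hϖ s).ge (Fermat.Agent.S55.helper7.ordT_one p T).ge]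

variable [IsGalois ℚ_[p] T]

/-- (d) `#I = e` -/
theorem fct_card_inertia : Nat.card (inertia p T) = edeg p T := by
  obtain ⟨K0, he, hf, hgal, hin⟩ := Fermat.Agent.P1.helper78.krInert p T
  have hI : inertia p T = K0.fixingSubgroup := by
    ext s
    rw [hin s, IntermediateField.mem_fixingSubgroup_iff]
  rw [hI, IsGalois.card_fixingSubgroup_eq_finrank]
  have h1 := Fermat.Agent.S55.helper33.edeg_mul_fdeg p T
  have h2 := Fermat.Agent.S55.helper33.edeg_mul_fdeg p K0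
  have h3 := Module.finrank_mul_finrank ℚ_[p] K0 T
  have hfpos : 0 < fdeg p T := Fermat.Agent.S55.helper33.fdeg_pos p T
  rw [he, one_mul, ← hf] at h2
  rw [← h2, ← h1] at h3
  -- `f * [T : K0] = e * f`
  have h4 : fdeg p T * Module.finrank K0 T = fdeg p T * edeg p T := by
    rw [h3, mul_comm]
  exact Nat.eq_of_mul_eq_mul_left hfpos h4

/-- (c) `θ` is injective on inertia for tame `T` -/
theorem fct_theta_inj {ϖ : T} (hϖ : ordT p T ϖ = 1) (hp : ¬ p ∣ edeg p T)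
    {s : T ≃ₐ[ℚ_[p]] T} (hs : s ∈ inertia p T) (h1 : thetaRes p T ϖ s = 1) : s = 1 := by
  have hpp : p.Prime := Fact.out
  have hϖ0 : ϖ ≠ 0 := fct_ne_zero_of_ordT_eq_one p T hϖ
  obtain ⟨G1, hG1, -, hpG, hout⟩ := Fermat.Agent.P1.helper50.kumWild p T ϖ hϖ
  have hsG : s ∈ G1 := by
    by_contra hns
    have h2 := hout s hs hns
    have h3 := (fct_theta_eq_one_iff p T hϖ s).1 h1
    have e : s ϖ - ϖ = ϖ * (s ϖ / ϖ - 1) := by
      field_simp
    rw [e, Fermat.Agent.S55.helper7.ordT_mul, hϖ] at h2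
    exact fct_wt_pos_add_one_ne h3 h2
  -- `s` has `p`-power order and order dividing `e`
  obtain ⟨k, hk⟩ := hpG ⟨s, hsG⟩
  have hk' : s ^ p ^ k = 1 := by
    have := congrArg Subtype.val hk
    simpa using this
  have he : s ^ edeg p T = 1 := by
    have h := pow_card_eq_one' (G := inertia p T) (x := ⟨s, hs⟩)
    rw [fct_card_inertia p T] at h
    have := congrArg Subtype.val h
    simpa using this
  have hd1 : orderOf s ∣ p ^ k := orderOf_dvd_of_pow_eq_one hk'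
  have hd2 : orderOf s ∣ edeg p T := orderOf_dvd_of_pow_eq_one he
  have hcop : Nat.Coprime (p ^ k) (edeg p T) :=
    Nat.Coprime.pow_left k ((Nat.Prime.coprime_iff_not_dvd hpp).2 hp)
  have h1' : orderOf s = 1 := Nat.eq_one_of_dvd_coprimes hcop hd1 hd2
  exact orderOf_eq_one_iff.1 h1'

omit [IsGalois ℚ_[p] T] in
/-- `ordT (ϖ ^ m) = m` -/
lemma fct_ordT_unif_pow {ϖ : T} (hϖ : ordT p T ϖ = 1) (m : ℕ) :
    ordT p T (ϖ ^ m) = ((m : ℤ) : WithTop ℤ) := by
  rw [Fermat.Agent.S55.helper7.ordT_pow, hϖ, nsmul_one]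
  rfl

omit [IsGalois ℚ_[p] T] in
/-- (e) `θ ^ (e/(p-1))` is the cyclotomic character on inertia -/
theorem fct_theta_pow {ϖ : T} (hϖ : ordT p T ϖ = 1) {ζ : T} (hζ : IsPrimitiveRoot ζ p)
    (n : ℕ) {s : T ≃ₐ[ℚ_[p]] T} (hs : s ∈ inertia p T) (hsζ : s ζ = ζ ^ n) :
    thetaRes p T ϖ s ^ (edeg p T / (p - 1)) = (n : kq p T) := by
  have hpp : p.Prime := Fact.out
  have hϖ0 : ϖ ≠ 0 := fct_ne_zero_of_ordT_eq_one p T hϖ
  obtain ⟨c, hc, hce⟩ := Fermat.Agent.P1.helper5.ordT_primitiveRoot_sub_one p hζ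
  have hepos : 0 < edeg p T := Fermat.Agent.S55.helper33.edeg_pos p T
  have hp1 : 0 < p - 1 := Nat.sub_pos_of_lt hpp.one_lt
  have hcpos : 0 < c := by
    by_contra hc0
    have hc0' : c ≤ 0 := not_lt.1 hc0
    have h1 : ((p - 1 : ℕ) : ℤ) * c ≤ 0 :=
      mul_nonpos_of_nonneg_of_nonpos (by positivity) hc0'
    rw [hce] at h1
    have : (0 : ℤ) < (edeg p T : ℤ) := by exact_mod_cast hepos
    omega
  -- `e / (p - 1) = c`
  obtain ⟨m, rfl⟩ : ∃ m : ℕ, c = (m : ℤ) := ⟨c.toNat, (Int.toNat_of_nonneg hcpos.le).symm⟩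
  have hm : edeg p T / (p - 1) = m := by
    have h1 : (p - 1) * m = edeg p T := by exact_mod_cast hce
    rw [← h1]
    exact Nat.mul_div_cancel_left m hp1
  rw [hm]
  have hmpos : 0 < m := by exact_mod_cast hcpos
  -- notation
  have hlam0 : ζ - 1 ≠ 0 := sub_ne_zero.2 (hζ.ne_one hpp.one_lt)
  have hζ0 : ordT p T ζ = 0 :=
    Fermat.Agent.S55.helper7.ordT_eq_zero_of_pow_eq_one p T hpp.ne_zero hζ.pow_eq_one
  have hζ1 : resT p T ζ = 1 := by
    rw [← fct_resT_one p T,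
      fct_resT_eq_iff p T hζ0.ge (Fermat.Agent.S55.helper7.ordT_one p T).ge, hc]
    exact_mod_cast hcpos
  -- `v = λ / ϖ ^ m` is a unit
  have hpow0 : ϖ ^ m ≠ 0 := pow_ne_zero m hϖ0
  have hv : ordT p T ((ζ - 1) / ϖ ^ m) = 0 :=
    fct_ordT_div_eq_zero p T hpow0 (by rw [hc, fct_ordT_unif_pow p T hϖ m])
  have hsv : 0 ≤ ordT p T (s ((ζ - 1) / ϖ ^ m)) := by
    rw [Fermat.Agent.P1.helper14.ordT_algEquiv]; exact hv.ge
  have hu : 0 ≤ ordT p T (s ϖ / ϖ) := (fct_ordT_quot p T hϖ s).ge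
  -- the geometric sum
  have hg : ∀ i ∈ Finset.range n, 0 ≤ ordT p T (ζ ^ i) := fun i _ =>
    Fermat.Agent.P1.helper5.ordT_pow_nonneg p hζ0.ge i
  have hgsum : 0 ≤ ordT p T (∑ i ∈ Finset.range n, ζ ^ i) :=
    Fermat.Agent.P1.helper5.ordT_sum_nonneg p _ _ hg
  have hresg : resT p T (∑ i ∈ Finset.range n, ζ ^ i) = (n : kq p T) := by
    rw [fct_resT_sum p T _ _ hg]
    have : ∀ i ∈ Finset.range n, resT p T (ζ ^ i) = 1 := fun i _ => by
      rw [fct_resT_pow p T hζ0.ge, hζ1, one_pow]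
    rw [Finset.sum_congr rfl this]
    simp
  have hsl : s (ζ - 1) = (ζ - 1) * ∑ i ∈ Finset.range n, ζ ^ i := by
    rw [map_sub, map_one, hsζ, mul_geom_sum]
  -- the key identity `v * g = s v * u ^ m`
  have key : (ζ - 1) / ϖ ^ m * (∑ i ∈ Finset.range n, ζ ^ i) =
      s ((ζ - 1) / ϖ ^ m) * (s ϖ / ϖ) ^ m := by
    rw [map_div₀, map_pow, hsl, div_pow]
    have hsϖ0 : s ϖ ≠ 0 := by simpa using hϖ0
    have hspow0 : s ϖ ^ m ≠ 0 := pow_ne_zero m hsϖ0
    field_simp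
  have h1 := congrArg (resT p T) key
  rw [fct_resT_mul p T hv.ge hgsum,
    fct_resT_mul p T hsv (Fermat.Agent.P1.helper5.ordT_pow_nonneg p hu m),
    fct_resT_inertia p T hs hv.ge, fct_resT_pow p T hu, hresg] at h1
  have h2 := mul_left_cancel₀ (fct_resT_ne_zero p T hv) h1
  exact h2.symm

end theta

/-- **FC-THETA** -/
theorem fcTheta (p : ℕ) [Fact p.Prime] : FCThetaStatement p := by
  intro T _ _ _ _ ϖ hϖ
  refine ⟨fun s hs s' _ => fct_theta_mul p T hϖ hs s', fun s _ => fct_theta_ne_zero p T hϖ s,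
    fun hp s hs h1 => fct_theta_inj p T hϖ hp hs h1, fct_card_inertia p T,
    fun ζ n hζ s hs hsζ => fct_theta_pow p T hϖ hζ n hs hsζ⟩

end Fermat.Agent.P1.helper93
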