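import Fermat.Agent.P1.helper7_BSAbs

/-!
# P1 / EC / BASE-STAR, package BS-ABS-CPQ (helper95)

`absCpq_of : AbsAddStatement → AbsCpqStatement`: for a finite abelian group `𝒜` with an
automorphism `σ` of order prime to `p`, the `k[σ]`-modules `𝒜[p]` and `𝒜 / p𝒜` (`k = ZMod p`)
have the same multiplicities.

Proof: strong induction on `|𝒜|` with the exact sequence
`0 → (p𝒜)[p] → 𝒜[p] → 𝒜/p𝒜 → p𝒜/p²𝒜 → 0` (the last map is induced by multiplication by `p`)
and additivity of the multiplicities (Maschke, `AbsAddStatement`, used with `W₂ = ⊤` only).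
-/

set_option autoImplicit false
set_option linter.unusedSectionVars false
set_option linter.unusedVariables false

noncomputable section

namespace Fermat.Agent.P1.helper95

open Fermat.Agent.P1.helper7

section Basic

variable {k : Type} [Field k]
variable {A B : Type} [AddCommGroup A] [Module k A] [AddCommGroup B] [Module k B]

theorem eqvIn_top (a : A →ₗ[k] A) (b : B →ₗ[k] B) : eqvIn a b ⊤ = eqv a b := by
  ext φ
  simp

theorem mltIn_top (a : A →ₗ[k] A) (b : B →ₗ[k] B) : mltIn a b ⊤ = mlt a b := by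
  unfold mltIn mlt
  rw [eqvIn_top]

/-- the intertwining maps with values in a stable subspace are the intertwining maps to the
subspace with the restricted operator -/
def eqvInEquiv (a : A →ₗ[k] A) (b : B →ₗ[k] B) (W : Submodule k B) (hW : ∀ x ∈ W, b x ∈ W) :
    ↥(eqvIn a b W) ≃ₗ[k] ↥(eqv a (b.restrict hW)) where
  toFun φ := ⟨φ.1.codRestrict W φ.2.2, by
    rw [mem_eqv]
    ext x
    have h := congrArg (fun f : A →ₗ[k] B => f x) φ.2.1
    simpa using h⟩
  invFun ψ := ⟨W.subtype ∘ₗ ψ.1, by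
    refine ⟨?_, fun x => (ψ.1 x).2⟩
    ext x
    have h := congrArg (fun f : A →ₗ[k] ↥W => ((f x : ↥W) : B)) (mem_eqv.mp ψ.2)
    simpa using h⟩
  map_add' _ _ := rfl
  map_smul' _ _ := rfl
  left_inv _ := rfl
  right_inv _ := rfl

theorem mltIn_eq_mlt_restrict (a : A →ₗ[k] A) (b : B →ₗ[k] B) (W : Submodule k B)
    (hW : ∀ x ∈ W, b x ∈ W) : mltIn a b W = mlt a (b.restrict hW) :=
  (eqvInEquiv a b W hW).finrank_eq

theorem mlt_eq_zero_of_subsingleton (a : A →ₗ[k] A) (b : B →ₗ[k] B) [Subsingleton B] :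
    mlt a b = 0 := by
  unfold mlt
  haveI : Subsingleton (A →ₗ[k] B) := ⟨fun f g => by ext x; exact Subsingleton.elim _ _⟩
  exact Module.finrank_zero_of_subsingleton

end Basic

section Main

/-- the main induction -/
theorem absCpq_aux (hAdd : AbsAddStatement) (p : ℕ) [Fact p.Prime] (n : ℕ) (hn : ¬ p ∣ n) :
    ∀ (N : ℕ) (𝒜 : Type) [AddCommGroup 𝒜] [Finite 𝒜], Nat.card 𝒜 = N →
    ∀ (σ : 𝒜 →+ 𝒜), (∀ x, σ^[n] x = x) →
    ∀ (V₁ : Type) [AddCommGroup V₁] [Module (ZMod p) V₁] (v₁ : V₁ →ₗ[ZMod p] V₁) (i : V₁ →+ 𝒜),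
      Function.Injective i → (∀ x, x ∈ Set.range i ↔ p • x = 0) → (∀ y, i (v₁ y) = σ (i y)) →
    ∀ (V₂ : Type) [AddCommGroup V₂] [Module (ZMod p) V₂] (v₂ : V₂ →ₗ[ZMod p] V₂) (q : 𝒜 →+ V₂),
      Function.Surjective q → (∀ x, q x = 0 ↔ ∃ y, x = p • y) → (∀ x, q (σ x) = v₂ (q x)) →
    ∀ (A : Type) [AddCommGroup A] [Module (ZMod p) A] [Module.Finite (ZMod p) A]
      (a : A →ₗ[ZMod p] A), a ^ n = 1 →
      mlt a v₁ = mlt a v₂ := by
  intro N
  induction N using Nat.strong_induction_on with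
  | _ N ih =>
  intro 𝒜 _ _ hcard σ hσ V₁ _ _ v₁ i hi_inj hi_range hi_σ V₂ _ _ v₂ q hq_surj hq_ker hq_σ
    A _ _ _ a ha
  have hn' : ((n : ℕ) : ZMod p) ≠ 0 := by
    rw [Ne, ZMod.natCast_eq_zero_iff]
    exact hn
  haveI : Finite V₁ := Finite.of_injective i hi_inj
  haveI : Finite V₂ := Finite.of_surjective q hq_surj
  -- `p`-torsion of the image of `i`
  have hi_tors : ∀ y, p • i y = 0 := fun y => (hi_range (i y)).mp ⟨y, rfl⟩
  -- the operators have order dividing `n`
  have hv₁n : ∀ y, (v₁ ^ n) y = y := by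
    intro y
    apply hi_inj
    rw [Module.End.pow_apply]
    have h : Function.Semiconj i v₁ σ := fun y => hi_σ y
    rw [(h.iterate_right n).eq, hσ]
  have hv₂n : ∀ z, (v₂ ^ n) z = z := by
    intro z
    obtain ⟨x, rfl⟩ := hq_surj z
    rw [Module.End.pow_apply]
    have h : Function.Semiconj q σ v₂ := fun x => hq_σ x
    rw [← (h.iterate_right n).eq, hσ]
  -- the map `𝒜[p] → 𝒜/p𝒜`
  let φ : V₁ →ₗ[ZMod p] V₂ := (q.comp i).toZModLinearMap p
  have hφ : ∀ y, φ y = q (i y) := fun _ => rfl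
  have hcomm : ∀ y, φ (v₁ y) = v₂ (φ y) := by
    intro y
    rw [hφ, hφ, hi_σ, hq_σ]
  have hker : ∀ y, y ∈ LinearMap.ker φ ↔ ∃ x, i y = p • x := by
    intro y
    rw [LinearMap.mem_ker, hφ, hq_ker]
  -- first application of additivity
  have h1 : mlt a v₁ = mltIn a v₁ (LinearMap.ker φ) + mltIn a v₂ (LinearMap.range φ) := by
    have h := hAdd (ZMod p) n hn' A a ha V₁ v₁ (LinearMap.ker φ) ⊤ le_top inferInstance
      (fun _ _ => Submodule.mem_top) (fun x _ => hv₁n x) V₂ v₂ φ (fun x _ => hcomm x)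
      (fun x _ => (LinearMap.mem_ker).symm)
    rw [mltIn_top, Submodule.map_top] at h
    exact h
  -- the operator on the cokernel
  have hstab₂ : LinearMap.range φ ≤ (LinearMap.range φ).comap v₂ := by
    rintro _ ⟨y, rfl⟩
    exact ⟨v₁ y, hcomm y⟩
  let v₂' : (V₂ ⧸ LinearMap.range φ) →ₗ[ZMod p] (V₂ ⧸ LinearMap.range φ) :=
    (LinearMap.range φ).mapQ (LinearMap.range φ) v₂ hstab₂
  have h2 : mlt a v₂ = mltIn a v₂ (LinearMap.range φ) + mlt a v₂' := by
    have h := hAdd (ZMod p) n hn' A a ha V₂ v₂ (LinearMap.range φ) ⊤ le_top inferInstance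
      (fun _ _ => Submodule.mem_top) (fun x _ => hv₂n x) (V₂ ⧸ LinearMap.range φ) v₂'
      (LinearMap.range φ).mkQ (fun x _ => rfl)
      (fun x _ => by rw [Submodule.mkQ_apply, Submodule.Quotient.mk_eq_zero])
    rw [mltIn_top, Submodule.map_top, Submodule.range_mkQ, mltIn_top] at h
    exact h
  -- the operator on the kernel
  have hstab₁ : ∀ y ∈ LinearMap.ker φ, v₁ y ∈ LinearMap.ker φ := by
    intro y hy
    rw [LinearMap.mem_ker] at hy ⊢
    rw [hcomm, hy, map_zero]
  have h3 : mltIn a v₁ (LinearMap.ker φ) = mlt a (v₁.restrict hstab₁) :=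
    mltIn_eq_mlt_restrict a v₁ _ hstab₁
  -- it remains to compare kernel and cokernel
  suffices hkey : mlt a (v₁.restrict hstab₁) = mlt a v₂' by
    rw [h1, h2, h3, hkey, add_comm]
  let pM : 𝒜 →+ 𝒜 := nsmulAddMonoidHom p
  have hpM : ∀ x, pM x = p • x := fun _ => rfl
  by_cases hsurj : Function.Surjective pM
  · -- degenerate case: both sides vanish
    have hinj : Function.Injective pM := Finite.injective_iff_surjective.mpr hsurj
    haveI : Subsingleton V₁ := ⟨fun y y' => by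
      apply hi_inj
      apply hinj
      rw [hpM, hpM, hi_tors, hi_tors]⟩
    haveI : Subsingleton V₂ := ⟨fun z z' => by
      obtain ⟨x, rfl⟩ := hq_surj z
      obtain ⟨x', rfl⟩ := hq_surj z'
      obtain ⟨w, hw⟩ := hsurj x
      obtain ⟨w', hw'⟩ := hsurj x'
      rw [(hq_ker x).mpr ⟨w, hw.symm⟩, (hq_ker x').mpr ⟨w', hw'.symm⟩]⟩
    rw [mlt_eq_zero_of_subsingleton, mlt_eq_zero_of_subsingleton]
  · -- induction: apply the statement to `p𝒜`
    have hlt : Nat.card ↥pM.range < N := by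
      rw [← hcard]
      have hne : pM.range ≠ ⊤ := fun h => hsurj (AddMonoidHom.range_eq_top.mp h)
      exact lt_of_le_of_ne (Nat.card_le_card_of_injective _ Subtype.coe_injective)
        (fun h => hne ((AddSubgroup.card_eq_iff_eq_top _).mp h))
    -- `σ` on `p𝒜`
    have hσmem : ∀ z : ↥pM.range, σ (z : 𝒜) ∈ pM.range := by
      rintro ⟨_, x, rfl⟩
      refine ⟨σ x, ?_⟩
      show p • σ x = σ (p • x)
      rw [map_nsmul]
    let σ' : ↥pM.range →+ ↥pM.range :=
      (σ.comp pM.range.subtype).codRestrict pM.range hσmem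
    have hσ'coe : ∀ z : ↥pM.range, ((σ' z : ↥pM.range) : 𝒜) = σ (z : 𝒜) := fun _ => rfl
    have hσ' : ∀ z, σ'^[n] z = z := by
      intro z
      apply Subtype.ext
      have h : Function.Semiconj (fun z : ↥pM.range => (z : 𝒜)) σ' σ := fun z => hσ'coe z
      have h2 : ((σ'^[n] z : ↥pM.range) : 𝒜) = σ^[n] (z : 𝒜) := (h.iterate_right n).eq z
      rw [h2, hσ]
    -- the inclusion `(p𝒜)[p] → p𝒜`
    let i' : ↥(LinearMap.ker φ) →+ ↥pM.range :=
      (i.comp (LinearMap.ker φ).subtype.toAddMonoidHom).codRestrict pM.range (fun y => by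
        obtain ⟨x, hx⟩ := (hker y.1).mp y.2
        exact ⟨x, by rw [hpM]; exact hx.symm⟩)
    have hi'coe : ∀ y : ↥(LinearMap.ker φ), ((i' y : ↥pM.range) : 𝒜) = i (y : V₁) :=
      fun _ => rfl
    have hi'inj : Function.Injective i' := by
      intro y y' h
      apply Subtype.ext
      apply hi_inj
      rw [← hi'coe, ← hi'coe, h]
    have hi'range : ∀ z : ↥pM.range, z ∈ Set.range i' ↔ p • z = 0 := by
      intro z
      constructor
      · rintro ⟨y, rfl⟩
        apply Subtype.ext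
        rw [AddSubgroup.coe_nsmul, hi'coe, hi_tors]
        rfl
      · intro hz
        have hz' : p • (z : 𝒜) = 0 := by
          have := congrArg (fun w : ↥pM.range => (w : 𝒜)) hz
          simpa using this
        obtain ⟨y, hy⟩ := (hi_range (z : 𝒜)).mpr hz'
        have hyker : y ∈ LinearMap.ker φ := by
          rw [hker]
          obtain ⟨x, hx⟩ := z.2
          exact ⟨x, by rw [hy, ← hx, hpM]⟩
        exact ⟨⟨y, hyker⟩, Subtype.ext (by rw [hi'coe]; exact hy)⟩
    have hi'σ : ∀ y, i' ((v₁.restrict hstab₁) y) = σ' (i' y) := by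
      intro y
      apply Subtype.ext
      rw [hi'coe, hσ'coe, hi'coe, LinearMap.coe_restrict_apply, hi_σ]
    -- the projection `p𝒜 → 𝒜/(𝒜[p] + p𝒜)`
    let g : 𝒜 →+ (V₂ ⧸ LinearMap.range φ) :=
      ((LinearMap.range φ).mkQ.toAddMonoidHom).comp q
    have hg : ∀ x, g x = (LinearMap.range φ).mkQ (q x) := fun _ => rfl
    have hgker : pM.ker ≤ g.ker := by
      intro x hx
      rw [AddMonoidHom.mem_ker, hpM] at hx
      obtain ⟨y, hy⟩ := (hi_range x).mpr hx
      rw [AddMonoidHom.mem_ker, hg, Submodule.mkQ_apply, Submodule.Quotient.mk_eq_zero]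
      exact ⟨y, by rw [hφ, hy]⟩
    let q' : ↥pM.range →+ (V₂ ⧸ LinearMap.range φ) :=
      (QuotientAddGroup.lift pM.ker g hgker).comp
        (QuotientAddGroup.quotientKerEquivRange pM).symm.toAddMonoidHom
    have hq' : ∀ x : 𝒜, q' (pM.rangeRestrict x) = (LinearMap.range φ).mkQ (q x) := by
      intro x
      have h : (QuotientAddGroup.quotientKerEquivRange pM).symm (pM.rangeRestrict x)
          = (QuotientAddGroup.mk x : 𝒜 ⧸ pM.ker) := by
        rw [AddEquiv.symm_apply_eq]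
        rfl
      show (QuotientAddGroup.lift pM.ker g hgker)
        ((QuotientAddGroup.quotientKerEquivRange pM).symm (pM.rangeRestrict x)) = _
      rw [h]
      rfl
    have hrr : ∀ z : ↥pM.range, ∃ x, pM.rangeRestrict x = z := by
      rintro ⟨_, x, rfl⟩
      exact ⟨x, rfl⟩
    have hq'surj : Function.Surjective q' := by
      intro w
      obtain ⟨z, rfl⟩ := (LinearMap.range φ).mkQ_surjective w
      obtain ⟨x, rfl⟩ := hq_surj z
      exact ⟨pM.rangeRestrict x, hq' x⟩
    have hq'ker : ∀ z : ↥pM.range, q' z = 0 ↔ ∃ w : ↥pM.range, z = p • w := by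
      intro z
      obtain ⟨x, rfl⟩ := hrr z
      rw [hq', Submodule.mkQ_apply, Submodule.Quotient.mk_eq_zero]
      constructor
      · rintro ⟨y, hy⟩
        rw [hφ] at hy
        -- `q (x - i y) = 0`
        have h0 : q (x - i y) = 0 := by rw [map_sub, hy, sub_self]
        obtain ⟨x'', hx''⟩ := (hq_ker _).mp h0
        refine ⟨pM.rangeRestrict x'', ?_⟩
        apply Subtype.ext
        rw [AddSubgroup.coe_nsmul]
        show p • x = p • (p • x'')
        rw [← hx'', smul_sub, hi_tors, sub_zero]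
      · rintro ⟨w, hw⟩
        obtain ⟨x'', rfl⟩ := hrr w
        have hw' : p • x = p • (p • x'') :=
          congrArg (fun w : ↥pM.range => (w : 𝒜)) hw
        have h0 : p • (x - p • x'') = 0 := by rw [smul_sub, hw', sub_self]
        obtain ⟨y, hy⟩ := (hi_range _).mpr h0
        refine ⟨y, ?_⟩
        rw [hφ, hy, map_sub, (hq_ker (p • x'')).mpr ⟨x'', rfl⟩, sub_zero]
    have hq'σ : ∀ z : ↥pM.range, q' (σ' z) = v₂' (q' z) := by
      intro z
      obtain ⟨x, rfl⟩ := hrr z
      have h : σ' (pM.rangeRestrict x) = pM.rangeRestrict (σ x) := by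
        apply Subtype.ext
        rw [hσ'coe]
        show σ (p • x) = p • σ x
        rw [map_nsmul]
      rw [h, hq', hq', hq_σ]
      rfl
    exact ih (Nat.card ↥pM.range) hlt ↥pM.range rfl σ' hσ' ↥(LinearMap.ker φ)
      (v₁.restrict hstab₁) i' hi'inj hi'range hi'σ (V₂ ⧸ LinearMap.range φ) v₂' q' hq'surj
      hq'ker hq'σ A a ha

/-- **BS-ABS-CPQ**, conditional on additivity of the multiplicities. -/
theorem absCpq_of (hAdd : AbsAddStatement) : AbsCpqStatement := by
  intro p _ n hn 𝒜 _ _ σ hσ V₁ _ _ v₁ i hi_inj hi_range hi_σ V₂ _ _ v₂ q hq_surj hq_ker hq_σ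
    A _ _ _ a ha
  exact absCpq_aux hAdd p n hn (Nat.card 𝒜) 𝒜 rfl σ hσ V₁ v₁ i hi_inj hi_range hi_σ V₂ v₂ q
    hq_surj hq_ker hq_σ A a ha

end Main

end Fermat.Agent.P1.helper95
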