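import Fermat.Agent.P1.helper99_ECBaseNumAbs
import Fermat.Agent.P1.helper63_ECDefs2
import Fermat.Agent.P1.helper24_ECArch
import Fermat.Agent.S55.TopTr

/-!
# P1 / module EC, package BASE-NUM (helper99, task 738)

`baseNumOut_of : BaseNumOut p T` (interface `helper63_ECDefs2`): the Tate defect of the
permutation modules `k[G/U]`, `U` open with `χ_cyc|U = 1`, is `≤ 0`.

Inputs: `BaseInputStatement p T` (module B of S55) and Shapiro's lemma in degrees 1 and 2
(EC-SHAP, the statement `shapiro_perm` of the blueprint), which enters as the hypothesis `hshap`.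

Proof.  `U = Gal(ℚbar/F)`, `n = [F:ℚ] = |G/U|`, `ι` = the places of `F` above `T`.
* `h⁰(G, k[G/U]) = 1`, `dim k[G/U] = n`, `h⁰(ℝ, k[G/U]) = n/2` (complex conjugation `c` acts on
  `G/U` and `ε(gU) = χ_cyc(g)` satisfies `ε(c x) = -ε(x)`);
* `hⁱ(G, k[G/U]) = hⁱ(U, k)` for `i = 1, 2` (Shapiro);
* `2 h¹(U,k) + 2 #ι ≤ 2 h²(U,k) + 2 + ∑_w h¹(U_w,k)` (`ecbn_eulerChar_le`, from `BaseInput`);
* `∑_w h¹(U_w,k) = 2 #ι + n` (`helper59.prod_card_Z1_loc`).
-/

set_option autoImplicit false
set_option linter.unusedSectionVars false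
set_option linter.unusedVariables false
set_option linter.style.haveILetI false

open groupCohomology ExtCitation Module

noncomputable section

namespace Fermat.Agent.P1.helper99

open Fermat.Agent.S55 Fermat.Agent.P1.helper70 Fermat.Agent.P1.helper63

section Arith

variable (p : ℕ) [Fact p.Prime] (T : Finset Nat.Primes)

/-- the statement of EC-SHAP (`shapiro_perm` of the blueprint) in degrees 1 and 2 for the level
structure `galLevels T` and the coefficients `ZMod p` -/
def ShapiroPerm12 : Prop :=
  ∀ (U : Subgroup GQ) (hU : ∃ N ∈ (galLevels T).mem, N ≤ U),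
    Nonempty (S55.H1 (galLevels T) (permRep (ZMod p) U) ≃ₗ[ZMod p]
      S55.H1 (helper35.restrictLevels (galLevels T) U hU) (helper35.trivRep (ZMod p) ↥U)) ∧
    Nonempty (S55.H2 (galLevels T) (permRep (ZMod p) U) ≃ₗ[ZMod p]
      S55.H2 (helper35.restrictLevels (galLevels T) U hU) (helper35.trivRep (ZMod p) ↥U))

/-- `h⁰(ℝ, k[G/U]) = |G/U| / 2` if `χ_cyc|U = 1` (`p` odd) -/
theorem two_mul_realH0d_perm (hp2 : p ≠ 2) (U : Subgroup GQ) [Finite (GQ ⧸ U)]
    (hχ : ∀ g ∈ U, cycloChar p g = 1) :
    2 * realH0d p (permRep (ZMod p) U) = Nat.card (GQ ⧸ U) := by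
  have hp : p.Prime := Fact.out
  have h2 : (2 : ZMod p) ≠ 0 := by
    intro h
    have h' : ((2 : ℕ) : ZMod p) = 0 := by exact_mod_cast h
    rw [ZMod.natCast_eq_zero_iff] at h'
    have := (Nat.prime_dvd_prime_iff_eq hp Nat.prime_two).1 h'
    exact hp2 this
  let ε : GQ ⧸ U → ZMod p :=
    Quotient.lift (fun g : GQ => ((cycloChar p g : (ZMod p)ˣ) : ZMod p)) (by
      intro a b hab
      have h1 : a⁻¹ * b ∈ U := QuotientGroup.leftRel_apply.1 hab
      have h3 := hχ _ h1
      have h4 : cycloChar p b = cycloChar p a := by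
        have : b = a * (a⁻¹ * b) := by group
        rw [this, map_mul, h3, mul_one]
      show ((cycloChar p a : (ZMod p)ˣ) : ZMod p) = ((cycloChar p b : (ZMod p)ˣ) : ZMod p)
      rw [h4])
  have hεmk : ∀ g : GQ, ε (QuotientGroup.mk g) = ((cycloChar p g : (ZMod p)ˣ) : ZMod p) :=
    fun g => rfl
  have hε0 : ∀ x, ε x ≠ 0 := by
    intro x
    induction x using QuotientGroup.induction_on with
    | H g =>
      rw [hεmk]
      exact Units.ne_zero _
  have hε : ∀ x, ε (complexConjugation • x) = - ε x := by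
    intro x
    induction x using QuotientGroup.induction_on with
    | H g =>
      rw [MulAction.Quotient.smul_mk, hεmk, hεmk, smul_eq_mul, map_mul, Units.val_mul,
        helper24.cycloChar_complexConjugation, neg_one_mul]
  exact ecbn_two_mul_finrank_fixed h2 complexConjugation complexConjugation_mul_self ε hε0 hε

/-- **EC-BASE-NUM**, with the output of the package SHAP (`hshap`, the statement of
`shapiro_perm` in degrees 1 and 2) as hypothesis. -/
theorem baseNumOut_of (hshap : ShapiroPerm12 p T) (hp2 : p ≠ 2) (hpT : pPrime p ∈ T)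
    (hB : BaseInputStatement p T) : BaseNumOut p T := by
  classical
  intro U hU hχ
  have hp : p.Prime := Fact.out
  obtain ⟨⟨e1⟩, ⟨e2⟩⟩ := hshap U hU
  obtain ⟨hfin, -⟩ := helper92.levelStatement p T hpT
  obtain ⟨F, hF, rfl⟩ := exists_field_of_open T U hU
  have : FiniteDimensional ℚ F := hF.1
  have : NumberField ↥F := ⟨⟩
  have : Finite (GQ ⧸ F.fixingSubgroup) := by
    obtain ⟨N', hN', hle⟩ := hU
    have := hfin N' hN'
    have : N'.FiniteIndex := Subgroup.finiteIndex_of_finite_quotient
    have : F.fixingSubgroup.FiniteIndex := Subgroup.finiteIndex_of_le hle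
    infer_instance
  obtain ⟨D⟩ := helper57.nonempty_shData (L := galLocal T) (U := F.fixingSubgroup)
  obtain ⟨I, Inv, ζ, hζ, -⟩ := hB hp2 hpT F hF (hasZeta_of_cycloChar_eq_one F p hχ) hU D
  -- the abstract inequality
  obtain ⟨hfin2, hA⟩ := ecbn_eulerChar_le I
  -- the local count
  have hloc := helper59.prod_card_Z1_loc (p := p) hpT (shIsArith T F hU D) ζ hζ
  have hlf := I.loc_fin
  have hcard : ∀ w, Nat.card ↥(Z1 ((D.localData hU).lev w)
      (helper59.T (ZMod p) ((D.localData hU).Gv w))) =
      p ^ finrank (ZMod p) ↥(Z1 ((D.localData hU).lev w)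
        (helper59.T (ZMod p) ((D.localData hU).Gv w))) := by
    intro w
    have := hlf w
    rw [Module.natCard_eq_pow_finrank (K := ZMod p), Nat.card_zmod]
  have hsum : ∑ w, finrank (ZMod p) ↥(Z1 ((D.localData hU).lev w)
      (helper59.T (ZMod p) ((D.localData hU).Gv w))) =
      2 * Fintype.card (Σ v, D.J v) + finrank ℚ F := by
    rw [Finset.prod_congr rfl (fun w _ => hcard w), Finset.prod_pow_eq_pow_sum,
      Nat.card_eq_fintype_card] at hloc
    exact Nat.pow_right_injective hp.two_le hloc
  rw [hsum] at hA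
  -- the numerics of the permutation module
  have hn : finrank (ZMod p) (permRep (ZMod p) F.fixingSubgroup) = finrank ℚ F := by
    rw [ecbn_finrank_perm, finrank_eq_index_fixingSubgroup, Subgroup.index]
  have h0 : hd0 (permRep (ZMod p) F.fixingSubgroup) = 1 :=
    ecbn_finrank_invariants_perm
  have hr : 2 * realH0d p (permRep (ZMod p) F.fixingSubgroup) = finrank ℚ F := by
    rw [two_mul_realH0d_perm p hp2 F.fixingSubgroup hχ, finrank_eq_index_fixingSubgroup,
      Subgroup.index]
  have h1 : hd1 (galLevels T) (permRep (ZMod p) F.fixingSubgroup) =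
      finrank (ZMod p) (S55.H1 (helper35.restrictLevels (galLevels T) F.fixingSubgroup hU)
        (helper35.trivRep (ZMod p) ↥F.fixingSubgroup)) := e1.finrank_eq
  have h2 : hd2 (galLevels T) (permRep (ZMod p) F.fixingSubgroup) =
      finrank (ZMod p) (S55.H2 (helper35.restrictLevels (galLevels T) F.fixingSubgroup hU)
        (helper35.trivRep (ZMod p) ↥F.fixingSubgroup)) := e2.finrank_eq
  have hA' : 2 * hd1 (galLevels T) (permRep (ZMod p) F.fixingSubgroup) ≤
      2 * hd2 (galLevels T) (permRep (ZMod p) F.fixingSubgroup) + 2 + finrank ℚ F := by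
    rw [h1, h2]
    have hA2 : 2 * finrank (ZMod p)
          (S55.H1 (helper35.restrictLevels (galLevels T) F.fixingSubgroup hU)
            (helper35.trivRep (ZMod p) ↥F.fixingSubgroup)) +
        2 * Fintype.card (Σ v, D.J v) ≤
        2 * finrank (ZMod p)
          (S55.H2 (helper35.restrictLevels (galLevels T) F.fixingSubgroup hU)
            (helper35.trivRep (ZMod p) ↥F.fixingSubgroup)) + 2 +
          (2 * Fintype.card (Σ v, D.J v) + finrank ℚ F) := hA
    omega
  unfold tateDefect
  rw [h0, hn]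
  omega

end Arith

end Fermat.Agent.P1.helper99
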