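import Fermat.Agent.S55.helper59_BArAsm
import Fermat.Agent.S55.helper36_BAbs2

/-!
# P1 / module EC, package BASE-NUM (helper99, task 738): the abstract part

* `ecbn_eulerChar_le` : for a `BaseInput I` of a local datum `L` (trivial coefficients)
  `H²` is finite dimensional and `2 h¹ + 2 #ι ≤ 2 h² + 2 + ∑_w h¹_w`, where `h¹ = dim Z¹(U, k)`,
  `h² = dim H²(U, k)`, `h¹_w = dim Z¹(U_w, k)`.  Ingredients:
  - (A1) `ecbn_two_mul_finrank_Z1_le` : the image of `Z¹(U) → ∏_w Z¹(U_w)` is isotropic for the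
    non-degenerate sum of the local pairings (reciprocity), so `2 h¹ ≤ 2 dim Ш¹ + ∑_w h¹_w`;
  - (A2) `ecbn_finrank_sha1_le` : the Sha-pairing has trivial kernels, so `Ш²` is finite
    dimensional and `dim Ш¹ ≤ dim Ш²`;
  - (A3) `ecbn_finrank_sha2_add_le` : the localisation map `H²(U) → k^ι` has kernel `Ш²` and its
    range contains the kernel of the sum, so `dim Ш² + #ι ≤ h² + 1`.
* permutation modules `k[X]`: `ecbn_finrank_perm` (`dim = #X`), `ecbn_finrank_invariants_perm`
  (`dim k[X]^G = 1` for a transitive action), `ecbn_two_mul_finrank_fixed` (the fixed space of an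
  involution `c` has dimension `#X / 2` if there is a nowhere vanishing `ε` with `ε(c x) = -ε(x)`).
-/

set_option autoImplicit false
set_option linter.unusedSectionVars false
set_option linter.unusedVariables false
set_option linter.style.haveILetI false

universe u

open groupCohomology Module

noncomputable section

namespace Fermat.Agent.P1.helper99

open Fermat.Agent.S55 Fermat.Agent.S55.helper59

/-! ## Linear algebra -/

section LinAlg

variable {k : Type*} [Field k] {P Z : Type*} [AddCommGroup P] [Module k P] [Module.Finite k P]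
  [AddCommGroup Z] [Module k Z] [Module.Finite k Z]

/-- A skew, left non-degenerate form on a finite dimensional space `P` and an isotropic linear map
`r : Z → P`: then `2 dim Z ≤ 2 dim ker r + dim P`. -/
theorem ecbn_isotropy_le (B : LinearMap.BilinForm k P)
    (hleft : ∀ x, (∀ y, B x y = 0) → x = 0)
    (hskew : ∀ x y, B x y = - B y x) (r : Z →ₗ[k] P) (hiso : ∀ a b, B (r a) (r b) = 0) :
    2 * finrank k Z ≤ 2 * finrank k (LinearMap.ker r) + finrank k P := by
  have hB : B.Nondegenerate :=
    ⟨fun x hx => hleft x hx, fun y hy => hleft y (fun x => by rw [hskew, hy x, neg_zero])⟩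
  set W := LinearMap.range r with hWdef
  have hWle : W ≤ B.orthogonal W := by
    rintro _ ⟨b, rfl⟩ _ ⟨a, rfl⟩
    exact hiso a b
  have h1 := LinearMap.BilinForm.finrank_orthogonal hB W
  have h2 : finrank k W ≤ finrank k (B.orthogonal W) := Submodule.finrank_mono hWle
  have h3 : finrank k W + finrank k (LinearMap.ker r) = finrank k Z :=
    LinearMap.finrank_range_add_finrank_ker r
  have hW : finrank k W ≤ finrank k P := Submodule.finrank_le W
  omega

end LinAlg

/-! ## The Euler characteristic inequality of a `BaseInput` -/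

section Abs

variable {k : Type u} [Field k] {G : Type u} [Group G] {𝒩 : Levels G} {ι : Type} [Fintype ι]
  (L : LocalData G 𝒩 ι)

/-- local coboundaries are local cocycles (trivial coefficients) -/
lemma ecbn_B2_le_Z2 (w : ι) :
    B2 (L.lev w) (T k (L.Gv w)) ≤ Z2 (L.lev w) (T k (L.Gv w)) := by
  refine B2_le_Z2 ?_
  obtain ⟨N', hN'⟩ := (L.lev w).nonempty
  exact ⟨N', hN', fun _ _ _ => rfl⟩

/-- the restriction of a level coboundary is a local level coboundary -/
lemma ecbn_res_mem_B2 {z : G × G → k} (hz : z ∈ B2 𝒩 (T k G)) (w : ι) :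
    (fun s : L.Gv w × L.Gv w => z (L.r w s.1, L.r w s.2)) ∈ B2 (L.lev w) (T k (L.Gv w)) := by
  obtain ⟨a, ha, rfl⟩ := hz
  exact ⟨fun s => a (L.r w s), helper25.isLev₁_res L ha w, helper25.d₁₂_res L a w⟩

/-- the family of the local invariants of a global 2-cochain -/
def ecbnLocInv (inv : ∀ w : ι, (L.Gv w × L.Gv w → k) →ₗ[k] k) : (G × G → k) →ₗ[k] (ι → k) where
  toFun z := fun w => inv w (fun s => z (L.r w s.1, L.r w s.2))
  map_add' z z' := by
    funext w
    rw [Pi.add_apply, ← map_add]
    rfl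
  map_smul' c z := by
    funext w
    rw [Pi.smul_apply, RingHom.id_apply, ← map_smul]
    rfl

lemma ecbnLocInv_apply (inv : ∀ w : ι, (L.Gv w × L.Gv w → k) →ₗ[k] k) (z : G × G → k) (w : ι) :
    ecbnLocInv L inv z w = inv w (fun s => z (L.r w s.1, L.r w s.2)) := rfl

/-- the sum of the coordinates -/
def ecbnSum (k : Type u) [Field k] (ι : Type) [Fintype ι] : (ι → k) →ₗ[k] k where
  toFun a := ∑ w, a w
  map_add' a b := by simp [Finset.sum_add_distrib]
  map_smul' c a := by simp [Finset.mul_sum]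

lemma ecbn_card_le_finrank_ker_sum (k : Type u) [Field k] (ι : Type) [Fintype ι] :
    Fintype.card ι ≤ finrank k ↥(LinearMap.ker (ecbnSum k ι)) + 1 := by
  have h1 := LinearMap.finrank_range_add_finrank_ker (ecbnSum k ι)
  rw [Module.finrank_fintype_fun_eq_card] at h1
  have h2 : finrank k ↥(LinearMap.range (ecbnSum k ι)) ≤ 1 := by
    have := Submodule.finrank_le (LinearMap.range (ecbnSum k ι))
    rwa [Module.finrank_self] at this
  omega

variable {L}

/-- (A1) `2 h¹ ≤ 2 dim Ш¹ + ∑_w h¹_w`: the image of the localisation map is isotropic. -/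
theorem ecbn_two_mul_finrank_Z1_le (I : BaseInput (k := k) L) :
    2 * finrank k ↥(Z1 𝒩 (T k G)) ≤
      2 * finrank k ↥(sha1Z (k := k) L) + ∑ w, finrank k ↥(Z1 (L.lev w) (T k (L.Gv w))) := by
  classical
  have hlf : ∀ w, Module.Finite k ↥(Z1 (L.lev w) (T k (L.Gv w))) := I.loc_fin
  have hgf : Module.Finite k ↥(Z1 𝒩 (T k G)) := I.glob_fin
  have hI1 : ∀ w, ∀ c ∈ B2 (L.lev w) (T k (L.Gv w)), I.inv w c = 0 :=
    fun w c hc => (I.inv_eq_zero_iff w c (ecbn_B2_le_Z2 L w hc)).2 hc
  have hleft : ∀ x : helper83.BArIso.PP (k := k) L,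
      (∀ y, helper83.BArIso.βform L I.inv x y = 0) → x = 0 := by
    intro x hx
    funext w
    apply Subtype.ext
    refine I.loc_nondeg w (x w) (x w).2 (fun y hy => ?_)
    have h := hx (Pi.single w ⟨y, hy⟩)
    rw [helper83.BArIso.βform_apply, Finset.sum_eq_single w] at h
    · simpa using h
    · intro w' _ hw'
      rw [Pi.single_eq_of_ne hw']
      show I.inv w' (cup₁₁ _ (0 : L.Gv w' → k)) = 0
      rw [helper83.BArIso.cup₁₁_zero_right', map_zero]
    · intro hw
      exact absurd (Finset.mem_univ w) hw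
  have hskew : ∀ x y : helper83.BArIso.PP (k := k) L,
      helper83.BArIso.βform L I.inv x y = - helper83.BArIso.βform L I.inv y x := by
    intro x y
    rw [helper83.BArIso.βform_apply, helper83.BArIso.βform_apply, ← Finset.sum_neg_distrib]
    refine Finset.sum_congr rfl (fun w _ => ?_)
    have hx := Submodule.mem_inf.1 (x w).2
    have hy := Submodule.mem_inf.1 (y w).2
    have h := helper25.cup₁₁_add_swap (LinearMap.mem_ker.1 hx.2) (LinearMap.mem_ker.1 hy.2)
    have hB : (d₁₂ (T k (L.Gv w))).hom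
        (fun g => (x w : L.Gv w → k) g * (y w : L.Gv w → k) g) ∈
        B2 (L.lev w) (T k (L.Gv w)) :=
      ⟨_, helper25.isLev₁_mul (L.lev w) hx.1 hy.1, rfl⟩
    have h0 := hI1 w _ hB
    have h1 : I.inv w (cup₁₁ (x w : L.Gv w → k) (y w : L.Gv w → k))
        + I.inv w (cup₁₁ (y w : L.Gv w → k) (x w : L.Gv w → k)) = 0 := by
      rw [← map_add, h, map_neg, h0, neg_zero]
    exact eq_neg_of_add_eq_zero_left h1
  have hiso : ∀ a b, helper83.BArIso.βform L I.inv (helper83.BArIso.resP L a)
      (helper83.BArIso.resP L b) = 0 := by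
    intro a b
    have ha := Submodule.mem_inf.1 a.2
    have hb := Submodule.mem_inf.1 b.2
    have hz : cup₁₁ (a : G → k) (b : G → k) ∈ Z2 𝒩 (T k G) := by
      rw [Z2, Submodule.mem_inf]
      exact ⟨helper25.isLev₂_cup₁₁ 𝒩 ha.1 hb.1,
        LinearMap.mem_ker.2 (helper25.d₂₃_cup₁₁_eq_zero (LinearMap.mem_ker.1 ha.2)
          (LinearMap.mem_ker.1 hb.2))⟩
    have := I.reciprocity _ hz
    rw [helper83.BArIso.βform_apply]
    exact this
  have hmain := ecbn_isotropy_le (helper83.BArIso.βform L I.inv) hleft hskew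
    (helper83.BArIso.resP L) hiso
  have hP : finrank k (helper83.BArIso.PP (k := k) L) =
      ∑ w, finrank k ↥(Z1 (L.lev w) (T k (L.Gv w))) := Module.finrank_pi_fintype k
  -- the kernel is `Sha¹`
  have hle : sha1Z (k := k) L ≤ Z1 𝒩 (T k G) := inf_le_left
  have hker : LinearMap.ker (helper83.BArIso.resP (k := k) L) =
      (sha1Z (k := k) L).comap (Z1 𝒩 (T k G)).subtype := by
    ext y
    rw [LinearMap.mem_ker, Submodule.mem_comap, mem_sha1Z_iff]
    constructor
    · intro h
      refine ⟨y.2, fun w s => ?_⟩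
      have h2 := congrArg (fun p : helper83.BArIso.PP (k := k) L => (p w : L.Gv w → k) s) h
      exact h2
    · rintro ⟨-, h⟩
      funext w
      apply Subtype.ext
      funext s
      exact h w s
  have hK : finrank k ↥(LinearMap.ker (helper83.BArIso.resP (k := k) L)) =
      finrank k ↥(sha1Z (k := k) L) := by
    rw [hker]
    exact (Submodule.comapSubtypeEquivOfLe hle).finrank_eq
  rw [hP, hK] at hmain
  exact hmain

/-- (A2) `Ш²` is finite dimensional and `dim Ш¹ ≤ dim Ш²`: the Sha-pairing has trivial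
kernels. -/
theorem ecbn_finrank_sha1_le (I : BaseInput (k := k) L) :
    Module.Finite k (↥(sha2Z (k := k) L) ⧸
      (B2 𝒩 (T k G)).comap (sha2Z (k := k) L).subtype) ∧
    finrank k ↥(sha1Z (k := k) L) ≤
      finrank k (↥(sha2Z (k := k) L) ⧸ (B2 𝒩 (T k G)).comap (sha2Z (k := k) L).subtype) := by
  classical
  obtain ⟨Φ, hΦ⟩ := helper38.exists_shaPairing L I.inv I.reciprocity I.h3
  set P : Submodule k ↥(sha2Z (k := k) L) :=
    (B2 𝒩 (T k G)).comap (sha2Z (k := k) L).subtype with hP
  have hker : P ≤ LinearMap.ker Φ.flip := by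
    intro z hz
    rw [LinearMap.mem_ker]
    ext x
    obtain ⟨α, hα, hd, h0⟩ :=
      helper38.sumInv_eq_zero_of_mem_B2 L I.inv x.2 (z := (z : G × G → k)) hz
    rw [LinearMap.flip_apply, hΦ x z α hα hd, h0]
    rfl
  let Ψ' : (↥(sha2Z (k := k) L) ⧸ P) →ₗ[k] Module.Dual k ↥(sha1Z (k := k) L) :=
    P.liftQ Φ.flip hker
  let Ψ : ↥(sha1Z (k := k) L) →ₗ[k] Module.Dual k (↥(sha2Z (k := k) L) ⧸ P) := Ψ'.flip
  have hΨ : ∀ x z, Ψ x (Submodule.Quotient.mk z) = Φ x z := fun x z => rfl
  have hΨ' : ∀ x z, Ψ' (Submodule.Quotient.mk z) x = Φ x z := fun x z => rfl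
  have hgf : Module.Finite k ↥(Z1 𝒩 (T k G)) := I.glob_fin
  have hle : sha1Z (k := k) L ≤ Z1 𝒩 (T k G) := inf_le_left
  have hs1 : Module.Finite k ↥(sha1Z (k := k) L) :=
    Module.Finite.of_injective (Submodule.inclusion hle) (Submodule.inclusion_injective hle)
  -- injectivity of `Ψ` from `sha_left`
  have hinj : Function.Injective Ψ := by
    rw [← LinearMap.ker_eq_bot, LinearMap.ker_eq_bot']
    intro x hx
    by_contra hne
    obtain ⟨hxZ, hxloc⟩ := (mem_sha1Z_iff L _).1 x.2
    have hne' : (x : G → k) ≠ 0 := fun h => hne (Subtype.ext h)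
    obtain ⟨z, hz, hzloc, α, hα, hd, hsum⟩ := I.sha_left x hxZ hxloc hne'
    have hz' : z ∈ sha2Z (k := k) L := (mem_sha2Z_iff L z).2 ⟨hz, hzloc⟩
    have h1 : Ψ x (Submodule.Quotient.mk ⟨z, hz'⟩) = helper38.sumInv L I.inv α := by
      rw [hΨ]
      exact hΦ x ⟨z, hz'⟩ α hα hd
    rw [hx, LinearMap.zero_apply] at h1
    exact hsum h1.symm
  -- injectivity of `Ψ'` from `sha_right`
  have hinj' : Function.Injective Ψ' := by
    rw [← LinearMap.ker_eq_bot, LinearMap.ker_eq_bot']
    intro q hq
    induction q using Submodule.Quotient.induction_on with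
    | H z =>
      by_contra hne
      rw [Submodule.Quotient.mk_eq_zero] at hne
      have hzB : (z : G × G → k) ∉ B2 𝒩 (T k G) := hne
      obtain ⟨hzZ, hzloc⟩ := (mem_sha2Z_iff L _).1 z.2
      obtain ⟨x, hx, hxloc, α, hα, hd, hsum⟩ := I.sha_right z hzZ hzloc hzB
      have hx' : x ∈ sha1Z (k := k) L := (mem_sha1Z_iff L x).2 ⟨hx, hxloc⟩
      have h1 : Ψ' (Submodule.Quotient.mk z) ⟨x, hx'⟩ = helper38.sumInv L I.inv α := by
        rw [hΨ']
        exact hΦ ⟨x, hx'⟩ z α hα hd
      rw [hq, LinearMap.zero_apply] at h1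
      exact hsum h1.symm
  have hs2 : Module.Finite k (↥(sha2Z (k := k) L) ⧸ P) :=
    Module.Finite.of_injective Ψ' hinj'
  refine ⟨hs2, ?_⟩
  have h1 := LinearMap.finrank_le_finrank_of_injective hinj
  rw [Subspace.dual_finrank_eq] at h1
  exact h1

/-- (A3) `H²` is finite dimensional and `dim Ш² + #ι ≤ h² + 1`. -/
theorem ecbn_finrank_sha2_add_le (I : BaseInput (k := k) L)
    (hs2 : Module.Finite k (↥(sha2Z (k := k) L) ⧸
      (B2 𝒩 (T k G)).comap (sha2Z (k := k) L).subtype)) :
    Module.Finite k (H2 𝒩 (T k G)) ∧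
    finrank k (↥(sha2Z (k := k) L) ⧸ (B2 𝒩 (T k G)).comap (sha2Z (k := k) L).subtype) +
      Fintype.card ι ≤ finrank k (H2 𝒩 (T k G)) + 1 := by
  classical
  set P : Submodule k ↥(sha2Z (k := k) L) :=
    (B2 𝒩 (T k G)).comap (sha2Z (k := k) L).subtype with hP
  set Q : Submodule k ↥(Z2 𝒩 (T k G)) := (B2 𝒩 (T k G)).comap (Z2 𝒩 (T k G)).subtype with hQ
  have hI1 : ∀ w, ∀ c ∈ B2 (L.lev w) (T k (L.Gv w)), I.inv w c = 0 :=
    fun w c hc => (I.inv_eq_zero_iff w c (ecbn_B2_le_Z2 L w hc)).2 hc
  -- the localisation map on `H²`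
  have hQker : Q ≤ LinearMap.ker ((ecbnLocInv L I.inv).comp (Z2 𝒩 (T k G)).subtype) := by
    intro z hz
    rw [LinearMap.mem_ker]
    funext w
    exact hI1 w _ (ecbn_res_mem_B2 L hz w)
  let Λ : H2 𝒩 (T k G) →ₗ[k] (ι → k) := Q.liftQ _ hQker
  have hΛ : ∀ (z : ↥(Z2 𝒩 (T k G))) (w : ι), Λ (Submodule.Quotient.mk z) w =
      I.inv w (fun s => (z : G × G → k) (L.r w s.1, L.r w s.2)) := fun z w => rfl
  -- the inclusion of `Sha²`
  have hle : sha2Z (k := k) L ≤ Z2 𝒩 (T k G) := inf_le_left
  let j : (↥(sha2Z (k := k) L) ⧸ P) →ₗ[k] H2 𝒩 (T k G) :=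
    P.mapQ Q (Submodule.inclusion hle) (fun z hz => hz)
  have hj : ∀ z, j (Submodule.Quotient.mk z) = Submodule.Quotient.mk (Submodule.inclusion hle z) :=
    fun z => rfl
  have hjinj : Function.Injective j := by
    rw [← LinearMap.ker_eq_bot, LinearMap.ker_eq_bot']
    intro q hq
    induction q using Submodule.Quotient.induction_on with
    | H z =>
      rw [hj, Submodule.Quotient.mk_eq_zero] at hq
      rw [Submodule.Quotient.mk_eq_zero]
      exact hq
  have hrange : LinearMap.range j = LinearMap.ker Λ := by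
    apply le_antisymm
    · rintro _ ⟨q, rfl⟩
      induction q using Submodule.Quotient.induction_on with
      | H z =>
        rw [LinearMap.mem_ker, hj]
        funext w
        rw [hΛ]
        exact hI1 w _ (((mem_sha2Z_iff L _).1 z.2).2 w)
    · intro q hq
      induction q using Submodule.Quotient.induction_on with
      | H z =>
        rw [LinearMap.mem_ker] at hq
        have hz : (z : G × G → k) ∈ sha2Z (k := k) L := by
          rw [mem_sha2Z_iff]
          refine ⟨z.2, fun w => ?_⟩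
          have h1 := congrFun hq w
          rw [hΛ] at h1
          exact (I.inv_eq_zero_iff w _ (helper36.res_mem_Z2 L z.2 w)).1 h1
        exact ⟨Submodule.Quotient.mk ⟨z, hz⟩, rfl⟩
  -- the range of the localisation map
  have hsum : LinearMap.ker (ecbnSum k ι) ≤ LinearMap.range Λ := by
    intro a ha
    rw [LinearMap.mem_ker] at ha
    have hc : ∀ w, ∃ c ∈ Z2 (L.lev w) (T k (L.Gv w)), I.inv w c = a w := by
      intro w
      obtain ⟨c, hc, hne⟩ := I.inv_ne_zero w
      refine ⟨(a w * (I.inv w c)⁻¹) • c, Submodule.smul_mem _ _ hc, ?_⟩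
      rw [map_smul, smul_eq_mul, mul_assoc, inv_mul_cancel₀ hne, mul_one]
    choose c hcZ hca using hc
    have h0 : ∑ w, I.inv w (c w) = 0 := by
      rw [← ha]
      exact Finset.sum_congr rfl fun w _ => hca w
    obtain ⟨z, hz, hzc⟩ := I.exists_global₂ c hcZ h0
    refine ⟨Submodule.Quotient.mk ⟨z, hz⟩, ?_⟩
    funext w
    rw [hΛ]
    have h1 := hI1 w _ (hzc w)
    rw [map_sub, sub_eq_zero] at h1
    rw [← hca w, h1]
  -- finiteness
  have hfinker : Module.Finite k ↥(LinearMap.ker Λ) := by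
    rw [← hrange]
    exact Module.Finite.range j
  have hfinrange : Module.Finite k ↥(LinearMap.range Λ) := inferInstance
  have hfin : Module.Finite k (H2 𝒩 (T k G)) := by
    have : Module.Finite k (H2 𝒩 (T k G) ⧸ LinearMap.ker Λ) :=
      Module.Finite.equiv Λ.quotKerEquivRange.symm
    exact Module.Finite.of_submodule_quotient (LinearMap.ker Λ)
  refine ⟨hfin, ?_⟩
  have h1 := LinearMap.finrank_range_add_finrank_ker Λ
  have h2 : finrank k ↥(LinearMap.ker Λ) = finrank k (↥(sha2Z (k := k) L) ⧸ P) := by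
    rw [← hrange]
    exact LinearMap.finrank_range_of_inj hjinj
  have h3 : finrank k ↥(LinearMap.ker (ecbnSum k ι)) ≤ finrank k ↥(LinearMap.range Λ) :=
    Submodule.finrank_mono hsum
  have h4 := ecbn_card_le_finrank_ker_sum k ι
  omega

/-- `H¹ = Z¹` for trivial coefficients -/
lemma ecbn_finrank_H1_triv : finrank k (H1 𝒩 (T k G)) = finrank k ↥(Z1 𝒩 (T k G)) := by
  have h : (B1 (T k G)).comap (Z1 𝒩 (T k G)).subtype = ⊥ := by
    rw [eq_bot_iff]
    rintro x ⟨a, ha⟩
    rw [Submodule.mem_bot]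
    apply Subtype.ext
    have h2 : ((Z1 𝒩 (T k G)).subtype x : G → k) = 0 := by
      rw [← ha]
      exact helper25.d₀₁_T a
    exact h2
  exact (Submodule.quotEquivOfEqBot _ h).finrank_eq

/-- **The Euler characteristic inequality of a `BaseInput`**: `H²` is finite dimensional and
`2 h¹ + 2 #ι ≤ 2 h² + 2 + ∑_w h¹_w`. -/
theorem ecbn_eulerChar_le (I : BaseInput (k := k) L) :
    Module.Finite k (H2 𝒩 (T k G)) ∧
    2 * finrank k (H1 𝒩 (T k G)) + 2 * Fintype.card ι ≤
      2 * finrank k (H2 𝒩 (T k G)) + 2 + ∑ w, finrank k ↥(Z1 (L.lev w) (T k (L.Gv w))) := by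
  have h1 := ecbn_two_mul_finrank_Z1_le I
  obtain ⟨hs2, h2⟩ := ecbn_finrank_sha1_le I
  obtain ⟨hfin, h3⟩ := ecbn_finrank_sha2_add_le I hs2
  refine ⟨hfin, ?_⟩
  rw [ecbn_finrank_H1_triv]
  omega

end Abs

/-! ## Permutation modules -/

section Perm

variable {k : Type} [Field k] {G : Type} [Group G] {X : Type} [MulAction G X] [Finite X]

/-- coordinates on the permutation module `k[X]` -/
def ecbnCoord (k : Type) [Field k] (G : Type) [Group G] (X : Type) [MulAction G X] [Finite X] :
    (Rep.ofMulAction k G X) ≃ₗ[k] (X → k) :=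
  (MonoidAlgebra.coeffLinearEquiv k).trans (Finsupp.linearEquivFunOnFinite k k X)

lemma ecbnCoord_apply (v : Rep.ofMulAction k G X) (x : X) :
    ecbnCoord k G X v x = (v : MonoidAlgebra k X).coeff x := rfl

lemma ecbnCoord_ρ (g : G) (v : Rep.ofMulAction k G X) (x : X) :
    ecbnCoord k G X ((Rep.ofMulAction k G X).ρ g v) x = ecbnCoord k G X v (g⁻¹ • x) := by
  rw [ecbnCoord_apply, ecbnCoord_apply]
  exact Representation.coeff_ofMulAction g v x

/-- `dim k[X] = #X` -/
lemma ecbn_finrank_perm : finrank k (Rep.ofMulAction k G X) = Nat.card X := by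
  have := Fintype.ofFinite X
  rw [(ecbnCoord k G X).finrank_eq, Module.finrank_fintype_fun_eq_card, Nat.card_eq_fintype_card]

/-- `dim k[X]^G = 1` for a transitive action on a nonempty finite set -/
lemma ecbn_finrank_invariants_perm [Nonempty X] [MulAction.IsPretransitive G X] :
    finrank k ↥(S55.H0 (Rep.ofMulAction k G X)) = 1 := by
  classical
  let φ : k →ₗ[k] (Rep.ofMulAction k G X) :=
    (ecbnCoord k G X).symm.toLinearMap ∘ₗ (LinearMap.pi fun _ => LinearMap.id)
  have hφ : ∀ (a : k) (x : X), ecbnCoord k G X (φ a) x = a := by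
    intro a x
    simp only [φ, LinearMap.coe_comp, LinearEquiv.coe_coe, Function.comp_apply,
      LinearEquiv.apply_symm_apply]
    rfl
  have hinj : Function.Injective φ := by
    intro a b hab
    obtain ⟨x⟩ := ‹Nonempty X›
    rw [← hφ a x, ← hφ b x, hab]
  have hrange : LinearMap.range φ = S55.H0 (Rep.ofMulAction k G X) := by
    ext v
    constructor
    · rintro ⟨a, rfl⟩ g
      apply (ecbnCoord k G X).injective
      funext x
      rw [ecbnCoord_ρ, hφ, hφ]
    · intro hv
      obtain ⟨x₀⟩ := ‹Nonempty X›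
      refine ⟨ecbnCoord k G X v x₀, ?_⟩
      apply (ecbnCoord k G X).injective
      funext x
      rw [hφ]
      obtain ⟨g, rfl⟩ := MulAction.exists_smul_eq G x x₀
      have h1 : (Rep.ofMulAction k G X).ρ g v = v := hv g
      have h2 : ecbnCoord k G X ((Rep.ofMulAction k G X).ρ g v) (g • x) =
          ecbnCoord k G X v (g • x) := by rw [h1]
      rw [ecbnCoord_ρ, inv_smul_smul] at h2
      exact h2.symm
  rw [← hrange, LinearMap.finrank_range_of_inj hinj, Module.finrank_self]

/-- the fixed space of an involution without fixed points "up to a sign character" has half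
the dimension -/
lemma ecbn_two_mul_finrank_fixed (h2 : (2 : k) ≠ 0) (c : G) (hc : c * c = 1) (ε : X → k)
    (hε0 : ∀ x, ε x ≠ 0) (hε : ∀ x, ε (c • x) = - ε x) :
    2 * finrank k ↥(LinearMap.ker ((Rep.ofMulAction k G X).ρ c - 1)) = Nat.card X := by
  classical
  have := Fintype.ofFinite X
  have hcinv : c⁻¹ = c := inv_eq_of_mul_eq_one_right hc
  have hcc : ∀ x : X, c • c • x = x := fun x => by rw [← mul_smul, hc, one_smul]
  -- the two eigenspaces in coordinates
  let Wp : Submodule k (X → k) :=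
    { carrier := {f | ∀ x, f (c • x) = f x}
      add_mem' := fun {f g} hf hg x => by simp only [Pi.add_apply, hf x, hg x]
      zero_mem' := fun x => rfl
      smul_mem' := fun a f hf x => by simp only [Pi.smul_apply, hf x] }
  let Wm : Submodule k (X → k) :=
    { carrier := {f | ∀ x, f (c • x) = - f x}
      add_mem' := fun {f g} hf hg x => by simp only [Pi.add_apply, hf x, hg x, neg_add]
      zero_mem' := fun x => by simp
      smul_mem' := fun a f hf x => by simp only [Pi.smul_apply, hf x, smul_neg] }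
  have hWp : ∀ f, f ∈ Wp ↔ ∀ x, f (c • x) = f x := fun f => Iff.rfl
  have hWm : ∀ f, f ∈ Wm ↔ ∀ x, f (c • x) = - f x := fun f => Iff.rfl
  -- multiplication by `ε`
  let J : (X → k) ≃ₗ[k] (X → k) :=
    LinearEquiv.piCongrRight fun x => LinearEquiv.smulOfNeZero k k (ε x) (hε0 x)
  have hJ : ∀ f x, J f x = ε x * f x := fun f x => rfl
  have hmap : Wp.map J.toLinearMap = Wm := by
    ext f
    rw [Submodule.mem_map, hWm]
    constructor
    · rintro ⟨g, hg, rfl⟩ x
      change J g (c • x) = - J g x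
      rw [hJ, hJ, hε, (hWp g).1 hg x, neg_mul]
    · intro hf
      refine ⟨J.symm f, ?_, J.apply_symm_apply f⟩
      rw [hWp]
      intro x
      have h1 : ∀ y, ε y * J.symm f y = f y := fun y => by
        rw [← hJ, J.apply_symm_apply]
      have h3 := h1 (c • x)
      rw [hε, hf x] at h3
      have h4 := h1 x
      have h5 : ε x * J.symm f (c • x) = ε x * J.symm f x := by
        rw [h4]
        linear_combination -h3
      exact mul_left_cancel₀ (hε0 x) h5
  have hfin : finrank k ↥Wm = finrank k ↥Wp := by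
    rw [← hmap]
    exact LinearEquiv.finrank_map_eq J Wp
  have hinf : Wp ⊓ Wm = ⊥ := by
    rw [eq_bot_iff]
    intro f hf
    rw [Submodule.mem_bot]
    funext x
    have h1 := (hWp f).1 hf.1 x
    have h3 := (hWm f).1 hf.2 x
    have h4 : (2 : k) * f x = 0 := by
      rw [h1] at h3
      linear_combination h3
    rcases mul_eq_zero.1 h4 with h | h
    · exact absurd h h2
    · exact h
  have hsup : Wp ⊔ Wm = ⊤ := by
    rw [eq_top_iff]
    intro f _
    rw [Submodule.mem_sup]
    refine ⟨fun x => (2 : k)⁻¹ * (f x + f (c • x)), ?_, fun x => (2 : k)⁻¹ * (f x - f (c • x)),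
      ?_, ?_⟩
    · rw [hWp]
      intro x
      simp only [hcc]
      ring
    · rw [hWm]
      intro x
      simp only [hcc]
      ring
    · funext x
      simp only [Pi.add_apply]
      field_simp
      ring
  have hdim := Submodule.finrank_sup_add_finrank_inf_eq Wp Wm
  rw [hsup, hinf, finrank_top, finrank_bot, Module.finrank_fintype_fun_eq_card, add_zero,
    hfin] at hdim
  -- transport to `k[X]`
  have hker : (LinearMap.ker ((Rep.ofMulAction k G X).ρ c - 1)).map
      (ecbnCoord k G X).toLinearMap = Wp := by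
    ext f
    rw [Submodule.mem_map, hWp]
    constructor
    · rintro ⟨v, hv, rfl⟩ x
      rw [LinearMap.mem_ker, LinearMap.sub_apply, sub_eq_zero] at hv
      have h1 : (Rep.ofMulAction k G X).ρ c v = v := hv
      change ecbnCoord k G X v (c • x) = ecbnCoord k G X v x
      conv_rhs => rw [← h1]
      rw [ecbnCoord_ρ, hcinv]
    · intro hf
      refine ⟨(ecbnCoord k G X).symm f, ?_, (ecbnCoord k G X).apply_symm_apply f⟩
      rw [LinearMap.mem_ker, LinearMap.sub_apply, sub_eq_zero]
      change (Rep.ofMulAction k G X).ρ c ((ecbnCoord k G X).symm f) = (ecbnCoord k G X).symm f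
      apply (ecbnCoord k G X).injective
      funext x
      rw [ecbnCoord_ρ, LinearEquiv.apply_symm_apply, hcinv, hf x]
  have hfin2 : finrank k ↥(LinearMap.ker ((Rep.ofMulAction k G X).ρ c - 1)) = finrank k ↥Wp := by
    rw [← hker]
    exact (LinearEquiv.finrank_map_eq (ecbnCoord k G X) _).symm
  rw [hfin2, Nat.card_eq_fintype_card]
  omega

end Perm

end Fermat.Agent.P1.helper99
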