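import Fermat.Agent.S55.helper35_Maps
import Fermat.Agent.S55.helper35_Homog

/-!
# P1 / EC-SHAP (helper9, task 726), part 1: level-constancy of homogeneous cochains with
# coefficients in a smooth module

For a group `Γ` with levels `𝒩` and a smooth module `A`:

* `isLevH*_homog*` : the homogeneous form of a level-constant inhomogeneous cochain is
  level-constant (`helper35.IsLevH*`);
* `isLev*_chain` : for a level-constant homogeneous cochain `F` and any `a : Γ`, the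
  inhomogeneous cochain `(g₁, …, gₙ) ↦ F a (a g₁) ⋯ (a g₁ ⋯ gₙ)` is level-constant, with a level
  which does not depend on `a`.
-/

set_option autoImplicit false
set_option linter.unusedSectionVars false

open groupCohomology

namespace Fermat.Agent.P1.helper9

open Fermat.Agent.S55 Fermat.Agent.S55.helper35

section Normal

variable {Γ : Type} [Group Γ]

lemma exists_inv_mul_eq {M : Subgroup Γ} (hM : M.Normal) {s s' : Γ} (hs : s ∈ M)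
    (hs' : s' ∈ M) (x y : Γ) : ∃ t ∈ M, (x * s)⁻¹ * (y * s') = x⁻¹ * y * t := by
  refine ⟨(x⁻¹ * y)⁻¹ * s⁻¹ * (x⁻¹ * y) * s', ?_, by group⟩
  exact M.mul_mem (hM.conj_mem' _ (M.inv_mem hs) _) hs'

lemma exists_mul_mul_eq {M : Subgroup Γ} (hM : M.Normal) {t s : Γ} (ht : t ∈ M) (hs : s ∈ M)
    (p g : Γ) : ∃ t' ∈ M, p * t * (g * s) = p * g * t' := by
  refine ⟨g⁻¹ * t * g * s, ?_, by group⟩
  exact M.mul_mem (hM.conj_mem' _ ht _) hs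

end Normal

section Homog

variable {k Γ : Type} [CommRing k] [Group Γ] {𝒩 : Levels Γ} {A : Rep.{0} k Γ}

/-- a common level for a smooth module and a level-constant datum -/
lemma exists_common_level (hA : IsSmooth 𝒩 A) {N : Subgroup Γ} (hN : N ∈ 𝒩.mem) :
    ∃ M ∈ 𝒩.mem, M.Normal ∧ M ≤ N ∧ ∀ s ∈ M, ∀ a : A, A.ρ s a = a := by
  obtain ⟨N₀, hN₀, h₀⟩ := hA
  obtain ⟨M, hM, hle⟩ := 𝒩.directed N hN N₀ hN₀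
  exact ⟨M, hM, 𝒩.normal M hM, fun s hs => (hle hs).1, fun s hs a => h₀ s (hle hs).2 a⟩

theorem isLevH0_homog0 (hA : IsSmooth 𝒩 A) (a : A) : IsLevH0 𝒩 (homog0 A a) := by
  obtain ⟨N₀, hN₀, h₀⟩ := hA
  refine ⟨N₀, hN₀, fun x₀ s₀ hs₀ => ?_⟩
  simp only [homog0_apply, map_mul, Module.End.mul_apply, h₀ s₀ hs₀]

theorem isLevH1_homog1 (hA : IsSmooth 𝒩 A) {z : Γ → A} (hz : IsLev₁ 𝒩 z) :
    IsLevH1 𝒩 (homog1 A z) := by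
  obtain ⟨N, hN, hz⟩ := hz
  obtain ⟨M, hM, hMn, hMN, hMA⟩ := exists_common_level hA hN
  refine ⟨M, hM, fun x₀ x₁ s₀ hs₀ s₁ hs₁ => ?_⟩
  obtain ⟨t₁, ht₁, e₁⟩ := exists_inv_mul_eq hMn hs₀ hs₁ x₀ x₁
  simp only [homog1_apply, e₁, hz _ t₁ (hMN ht₁), map_mul, Module.End.mul_apply, hMA s₀ hs₀]

theorem isLevH2_homog2 (hA : IsSmooth 𝒩 A) {z : Γ × Γ → A} (hz : IsLev₂ 𝒩 z) :
    IsLevH2 𝒩 (homog2 A z) := by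
  obtain ⟨N, hN, hz⟩ := hz
  obtain ⟨M, hM, hMn, hMN, hMA⟩ := exists_common_level hA hN
  refine ⟨M, hM, fun x₀ x₁ x₂ s₀ hs₀ s₁ hs₁ s₂ hs₂ => ?_⟩
  obtain ⟨t₁, ht₁, e₁⟩ := exists_inv_mul_eq hMn hs₀ hs₁ x₀ x₁
  obtain ⟨t₂, ht₂, e₂⟩ := exists_inv_mul_eq hMn hs₁ hs₂ x₁ x₂
  simp only [homog2_apply, e₁, e₂, hz _ _ t₁ (hMN ht₁) t₂ (hMN ht₂), map_mul,
    Module.End.mul_apply, hMA s₀ hs₀]

theorem isLevH3_homog3 (hA : IsSmooth 𝒩 A) {z : Γ × Γ × Γ → A} (hz : IsLev₃ 𝒩 z) :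
    IsLevH3 𝒩 (homog3 A z) := by
  obtain ⟨N, hN, hz⟩ := hz
  obtain ⟨M, hM, hMn, hMN, hMA⟩ := exists_common_level hA hN
  refine ⟨M, hM, fun x₀ x₁ x₂ x₃ s₀ hs₀ s₁ hs₁ s₂ hs₂ s₃ hs₃ => ?_⟩
  obtain ⟨t₁, ht₁, e₁⟩ := exists_inv_mul_eq hMn hs₀ hs₁ x₀ x₁
  obtain ⟨t₂, ht₂, e₂⟩ := exists_inv_mul_eq hMn hs₁ hs₂ x₁ x₂
  obtain ⟨t₃, ht₃, e₃⟩ := exists_inv_mul_eq hMn hs₂ hs₃ x₂ x₃
  simp only [homog3_apply, e₁, e₂, e₃, hz _ _ _ t₁ (hMN ht₁) t₂ (hMN ht₂) t₃ (hMN ht₃), map_mul,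
    Module.End.mul_apply, hMA s₀ hs₀]

end Homog

section Chain

variable {Γ : Type} [Group Γ] {𝒩 : Levels Γ} {X : Type}

/-- level-constancy of the chains `g ↦ F a (a g)`, uniformly in `a` -/
theorem isLev₁_chain {F : Γ → Γ → X} (hF : IsLevH1 𝒩 F) :
    ∃ M ∈ 𝒩.mem, ∀ a g₁ : Γ, ∀ s₁ ∈ M, F a (a * (g₁ * s₁)) = F a (a * g₁) := by
  obtain ⟨M, hM, h⟩ := hF
  refine ⟨M, hM, fun a g₁ s₁ hs₁ => ?_⟩
  have := h a (a * g₁) 1 M.one_mem s₁ hs₁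
  rw [mul_one, mul_assoc] at this
  exact this

theorem isLev₂_chain {F : Γ → Γ → Γ → X} (hF : IsLevH2 𝒩 F) :
    ∃ M ∈ 𝒩.mem, ∀ a g₁ g₂ : Γ, ∀ s₁ ∈ M, ∀ s₂ ∈ M,
      F a (a * (g₁ * s₁)) (a * (g₁ * s₁) * (g₂ * s₂)) = F a (a * g₁) (a * g₁ * g₂) := by
  obtain ⟨M, hM, h⟩ := hF
  have hMn := 𝒩.normal M hM
  refine ⟨M, hM, fun a g₁ g₂ s₁ hs₁ s₂ hs₂ => ?_⟩
  obtain ⟨t₂, ht₂, e₂⟩ := exists_mul_mul_eq hMn hs₁ hs₂ (a * g₁) g₂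
  have := h a (a * g₁) (a * g₁ * g₂) 1 M.one_mem s₁ hs₁ t₂ ht₂
  rw [mul_one] at this
  rw [← mul_assoc a g₁ s₁, e₂]
  exact this

theorem isLev₃_chain {F : Γ → Γ → Γ → Γ → X} (hF : IsLevH3 𝒩 F) :
    ∃ M ∈ 𝒩.mem, ∀ a g₁ g₂ g₃ : Γ, ∀ s₁ ∈ M, ∀ s₂ ∈ M, ∀ s₃ ∈ M,
      F a (a * (g₁ * s₁)) (a * (g₁ * s₁) * (g₂ * s₂))
          (a * (g₁ * s₁) * (g₂ * s₂) * (g₃ * s₃)) =
        F a (a * g₁) (a * g₁ * g₂) (a * g₁ * g₂ * g₃) := by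
  obtain ⟨M, hM, h⟩ := hF
  have hMn := 𝒩.normal M hM
  refine ⟨M, hM, fun a g₁ g₂ g₃ s₁ hs₁ s₂ hs₂ s₃ hs₃ => ?_⟩
  obtain ⟨t₂, ht₂, e₂⟩ := exists_mul_mul_eq hMn hs₁ hs₂ (a * g₁) g₂
  obtain ⟨t₃, ht₃, e₃⟩ := exists_mul_mul_eq hMn ht₂ hs₃ (a * g₁ * g₂) g₃
  have := h a (a * g₁) (a * g₁ * g₂) (a * g₁ * g₂ * g₃) 1 M.one_mem s₁ hs₁ t₂ ht₂ t₃ ht₃
  rw [mul_one] at this
  rw [← mul_assoc a g₁ s₁, e₂, e₃]
  exact this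

end Chain

end Fermat.Agent.P1.helper9
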