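import Fermat.Agent.P1.helper63_ECDefs
import Fermat.Agent.P1.helper9_ECShapLev

/-!
# P1 / EC-SHAP (helper9, task 726), part 2: the Shapiro maps on cochains

`U ≤ G`, `W` a `k[U]`-module, `Ind W = helper63.indRep W` (functions `G ⧸ U → W`).

* `shEv W : Ind W → W` : the `U`-equivariant evaluation `f ↦ u₀ • f (U)`;
* `shPsi_n W z = shEv ∘ homog_n z : G^(n+1) → W` (`U`-equivariant, compatible with `d`);
* `shLam_n W Φ (g₁..gₙ) = fun c => Φ (σ c)⁻¹ ((σ c)⁻¹ g₁) ⋯` with `shLam ∘ shPsi = id`,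
  `shPsi ∘ shLam = id` on `U`-equivariant cochains and `d ∘ shLam = shLam ∘ hd`;
* `shRes_n W z = shEv ∘ z ∘ (U → G)` : the Shapiro map on inhomogeneous cochains.
-/

set_option autoImplicit false
set_option linter.unusedSectionVars false

open groupCohomology

noncomputable section

namespace Fermat.Agent.P1.helper9

open Fermat.Agent.S55 Fermat.Agent.S55.helper35 Fermat.Agent.P1.helper63

variable {k G : Type} [Field k] [Group G] {U : Subgroup G} (W : Rep.{0} k ↥U)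

/-! ### The evaluation -/

/-- `g * σ(g⁻¹ U) ∈ U` -/
def shRet (U : Subgroup G) (g : G) : ↥U :=
  ⟨g * helper57.cosetRep U ((g⁻¹ : G) : G ⧸ U), by
    have h := QuotientGroup.eq.1 (helper57.mk_cosetRep U ((g⁻¹ : G) : G ⧸ U)).symm
    rwa [inv_inv] at h⟩

@[simp] lemma coe_shRet (g : G) :
    ((shRet U g : ↥U) : G) = g * helper57.cosetRep U ((g⁻¹ : G) : G ⧸ U) := rfl

lemma mk_inv_mul (u : ↥U) (x : G) :
    ((((u : G) * x)⁻¹ : G) : G ⧸ U) = ((x⁻¹ : G) : G ⧸ U) := by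
  rw [QuotientGroup.eq]
  have : (((u : G) * x)⁻¹)⁻¹ * x⁻¹ = (u : G) := by group
  rw [this]
  exact u.2

lemma shRet_mul (u : ↥U) (x : G) : shRet U ((u : G) * x) = u * shRet U x := by
  apply Subtype.ext
  simp only [coe_shRet, mk_inv_mul, Subgroup.coe_mul, mul_assoc]

lemma shRet_cosetRep_inv (c : G ⧸ U) : shRet U (helper57.cosetRep U c)⁻¹ = 1 := by
  apply Subtype.ext
  simp only [coe_shRet, inv_inv, helper57.mk_cosetRep, inv_mul_cancel, Subgroup.coe_one]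

lemma mk_cosetRep_inv_inv (c : G ⧸ U) :
    ((((helper57.cosetRep U c)⁻¹)⁻¹ : G) : G ⧸ U) = c := by
  rw [inv_inv, helper57.mk_cosetRep]

/-- the representative of the trivial coset -/
def shU0 (U : Subgroup G) : ↥U := shRet U 1

/-- The `U`-equivariant evaluation `Ind W → W`, `f ↦ u₀ • f (U)`. -/
def shEv : (indRep W) →ₗ[k] W where
  toFun f := W.ρ (shU0 U) (f (((1 : G)⁻¹ : G) : G ⧸ U))
  map_add' f f' := (W.ρ (shU0 U)).map_add (f _) (f' _)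
  map_smul' c f := (W.ρ (shU0 U)).map_smul c (f _)

lemma shEv_apply (f : indRep W) :
    shEv W f = W.ρ (shU0 U) (f (((1 : G)⁻¹ : G) : G ⧸ U)) := rfl

/-- the general formula `ev (g • f) = (g σ(g⁻¹U)) • f (g⁻¹ U)` -/
lemma shEv_rho (g : G) (f : indRep W) :
    shEv W ((indRep W).ρ g f) = W.ρ (shRet U g) (f ((g⁻¹ : G) : G ⧸ U)) := by
  have hx : g⁻¹ • (((1 : G)⁻¹ : G) : G ⧸ U) = ((g⁻¹ : G) : G ⧸ U) := by
    rw [MulAction.Quotient.smul_mk, smul_eq_mul, inv_one, mul_one]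
  have h1 : (indRep W).ρ g f (((1 : G)⁻¹ : G) : G ⧸ U) =
      W.ρ (helper57.cocyc U g (((1 : G)⁻¹ : G) : G ⧸ U)) (f (g⁻¹ • (((1 : G)⁻¹ : G) : G ⧸ U))) :=
    rfl
  rw [shEv_apply, h1, hx, ← Module.End.mul_apply, ← map_mul]
  congr 2
  apply Subtype.ext
  simp only [shU0, Subgroup.coe_mul, coe_shRet, helper57.coe_cocyc, hx, one_mul]
  group

lemma shEv_rho_coe (u : ↥U) (f : indRep W) :
    shEv W ((indRep W).ρ (u : G) f) = W.ρ u (shEv W f) := by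
  have h := shEv_rho W (u : G) f
  have h1 : (((u : G)⁻¹ : G) : G ⧸ U) = (((1 : G)⁻¹ : G) : G ⧸ U) := by
    have := mk_inv_mul u (1 : G)
    rwa [mul_one] at this
  have h2 : shRet U (u : G) = u * shU0 U := by
    have := shRet_mul u (1 : G)
    rwa [mul_one] at this
  rw [h, h1, h2, map_mul, Module.End.mul_apply, shEv_apply]

lemma shEv_rho_cosetRep_inv (c : G ⧸ U) (f : indRep W) :
    shEv W ((indRep W).ρ (helper57.cosetRep U c)⁻¹ f) = f c := by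
  rw [shEv_rho, shRet_cosetRep_inv, mk_cosetRep_inv_inv, map_one, Module.End.one_apply]

/-! ### Equivariance of `W`-valued homogeneous cochains on `G` -/

/-- `U`-equivariance of a `W`-valued homogeneous `0`-cochain on `G` -/
def IsUEqv0 (Φ : G → W) : Prop := ∀ (u : ↥U) (x₀ : G), Φ (u * x₀) = W.ρ u (Φ x₀)
/-- `U`-equivariance of a `W`-valued homogeneous `1`-cochain on `G` -/
def IsUEqv1 (Φ : G → G → W) : Prop :=
  ∀ (u : ↥U) (x₀ x₁ : G), Φ (u * x₀) (u * x₁) = W.ρ u (Φ x₀ x₁)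
/-- `U`-equivariance of a `W`-valued homogeneous `2`-cochain on `G` -/
def IsUEqv2 (Φ : G → G → G → W) : Prop :=
  ∀ (u : ↥U) (x₀ x₁ x₂ : G), Φ (u * x₀) (u * x₁) (u * x₂) = W.ρ u (Φ x₀ x₁ x₂)
/-- `U`-equivariance of a `W`-valued homogeneous `3`-cochain on `G` -/
def IsUEqv3 (Φ : G → G → G → G → W) : Prop :=
  ∀ (u : ↥U) (x₀ x₁ x₂ x₃ : G),
    Φ (u * x₀) (u * x₁) (u * x₂) (u * x₃) = W.ρ u (Φ x₀ x₁ x₂ x₃)

variable {W}

lemma IsUEqv0.add {Φ Φ' : G → W} (h : IsUEqv0 W Φ) (h' : IsUEqv0 W Φ') :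
    IsUEqv0 W (Φ + Φ') := fun u x₀ => by
  simp only [Pi.add_apply, h u, h' u, map_add]
lemma IsUEqv1.add {Φ Φ' : G → G → W} (h : IsUEqv1 W Φ) (h' : IsUEqv1 W Φ') :
    IsUEqv1 W (Φ + Φ') := fun u x₀ x₁ => by
  simp only [Pi.add_apply, h u, h' u, map_add]
lemma IsUEqv2.add {Φ Φ' : G → G → G → W} (h : IsUEqv2 W Φ) (h' : IsUEqv2 W Φ') :
    IsUEqv2 W (Φ + Φ') := fun u x₀ x₁ x₂ => by
  simp only [Pi.add_apply, h u, h' u, map_add]

/-- pull-back along the retraction `G → U` -/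
lemma isUEqv0_pull0 {Y : ↥U → W} (hY : IsEqv0 W Y) : IsUEqv0 W (pull0 (retr U) Y) :=
  fun u x₀ => by simp only [pull0_apply, retr_mul, hY u]
lemma isUEqv1_pull1 {Y : ↥U → ↥U → W} (hY : IsEqv1 W Y) : IsUEqv1 W (pull1 (retr U) Y) :=
  fun u x₀ x₁ => by simp only [pull1_apply, retr_mul, hY u]
lemma isUEqv2_pull2 {Y : ↥U → ↥U → ↥U → W} (hY : IsEqv2 W Y) :
    IsUEqv2 W (pull2 (retr U) Y) :=
  fun u x₀ x₁ x₂ => by simp only [pull2_apply, retr_mul, hY u]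
lemma isUEqv3_pull3 {Y : ↥U → ↥U → ↥U → ↥U → W} (hY : IsEqv3 W Y) :
    IsUEqv3 W (pull3 (retr U) Y) :=
  fun u x₀ x₁ x₂ x₃ => by simp only [pull3_apply, retr_mul, hY u]

/-- prisms between the retraction and the identity -/
lemma IsUEqv1.prism1 {Φ : G → G → W} (h : IsUEqv1 W Φ) :
    IsUEqv0 W (prism1 (eRetr U) id Φ) := fun u x₀ => by
  simp only [prism1_apply, id, eRetr_mul U u.2, h u]
lemma IsUEqv2.prism2 {Φ : G → G → G → W} (h : IsUEqv2 W Φ) :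
    IsUEqv1 W (prism2 (eRetr U) id Φ) := fun u x₀ x₁ => by
  simp only [prism2_apply, id, eRetr_mul U u.2, h u, map_sub]
lemma IsUEqv3.prism3 {Φ : G → G → G → G → W} (h : IsUEqv3 W Φ) :
    IsUEqv2 W (prism3 (eRetr U) id Φ) := fun u x₀ x₁ x₂ => by
  simp only [prism3_apply, id, eRetr_mul U u.2, h u, map_sub, map_add]

variable (W)

/-! ### The maps `Ψ` -/

/-- `Ψ₀` -/
def shPsi0 (z : indRep W) : G → W := fun x₀ => shEv W (homog0 (indRep W) z x₀)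
/-- `Ψ₁` -/
def shPsi1 (z : G → indRep W) : G → G → W := fun x₀ x₁ => shEv W (homog1 (indRep W) z x₀ x₁)
/-- `Ψ₂` -/
def shPsi2 (z : G × G → indRep W) : G → G → G → W :=
  fun x₀ x₁ x₂ => shEv W (homog2 (indRep W) z x₀ x₁ x₂)
/-- `Ψ₃` -/
def shPsi3 (z : G × G × G → indRep W) : G → G → G → G → W :=
  fun x₀ x₁ x₂ x₃ => shEv W (homog3 (indRep W) z x₀ x₁ x₂ x₃)
/-- `Ψ₄` -/
def shPsi4 (z : G × G × G × G → indRep W) : G → G → G → G → G → W :=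
  fun x₀ x₁ x₂ x₃ x₄ => shEv W (homog4 (indRep W) z x₀ x₁ x₂ x₃ x₄)

lemma isUEqv0_shPsi0 (z : indRep W) : IsUEqv0 W (shPsi0 W z) := fun u x₀ => by
  simp only [shPsi0, isEqv0_homog0 (indRep W) z (u : G), shEv_rho_coe]
lemma isUEqv1_shPsi1 (z : G → indRep W) : IsUEqv1 W (shPsi1 W z) := fun u x₀ x₁ => by
  simp only [shPsi1, isEqv1_homog1 (indRep W) z (u : G), shEv_rho_coe]
lemma isUEqv2_shPsi2 (z : G × G → indRep W) : IsUEqv2 W (shPsi2 W z) := fun u x₀ x₁ x₂ => by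
  simp only [shPsi2, isEqv2_homog2 (indRep W) z (u : G), shEv_rho_coe]
lemma isUEqv3_shPsi3 (z : G × G × G → indRep W) : IsUEqv3 W (shPsi3 W z) :=
  fun u x₀ x₁ x₂ x₃ => by
    simp only [shPsi3, isEqv3_homog3 (indRep W) z (u : G), shEv_rho_coe]

lemma hd0_shPsi0 (z : indRep W) : hd0 (shPsi0 W z) = shPsi1 W ((d₀₁ (indRep W)).hom z) := by
  funext x₀ x₁
  have h := congrFun (congrFun (hd0_homog0 (indRep W) z) x₀) x₁
  simp only [shPsi1, ← h, hd0_apply, shPsi0, map_sub]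

lemma hd1_shPsi1 (z : G → indRep W) :
    hd1 (shPsi1 W z) = shPsi2 W ((d₁₂ (indRep W)).hom z) := by
  funext x₀ x₁ x₂
  have h := congrFun (congrFun (congrFun (hd1_homog1 (indRep W) z) x₀) x₁) x₂
  simp only [shPsi2, ← h, hd1_apply, shPsi1, map_sub, map_add]

lemma hd2_shPsi2 (z : G × G → indRep W) :
    hd2 (shPsi2 W z) = shPsi3 W ((d₂₃ (indRep W)).hom z) := by
  funext x₀ x₁ x₂ x₃
  have h := congrFun (congrFun (congrFun (congrFun (hd2_homog2 (indRep W) z) x₀) x₁) x₂) x₃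
  simp only [shPsi3, ← h, hd2_apply, shPsi2, map_sub, map_add]

lemma hd3_shPsi3 (z : G × G × G → indRep W) :
    hd3 (shPsi3 W z) = shPsi4 W (d₃₄ (indRep W) z) := by
  funext x₀ x₁ x₂ x₃ x₄
  have h := congrFun (congrFun (congrFun (congrFun (congrFun
    (hd3_homog3 (indRep W) z) x₀) x₁) x₂) x₃) x₄
  simp only [shPsi4, ← h, hd3_apply, shPsi3, map_sub, map_add]

/-! ### The maps `Λ` -/

/-- `Λ₀` -/
def shLam0 (Φ : G → W) : indRep W := fun c => Φ (helper57.cosetRep U c)⁻¹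
/-- `Λ₁` -/
def shLam1 (Φ : G → G → W) : G → indRep W :=
  fun g c => Φ (helper57.cosetRep U c)⁻¹ ((helper57.cosetRep U c)⁻¹ * g)
/-- `Λ₂` -/
def shLam2 (Φ : G → G → G → W) : G × G → indRep W :=
  fun g c => Φ (helper57.cosetRep U c)⁻¹ ((helper57.cosetRep U c)⁻¹ * g.1)
    ((helper57.cosetRep U c)⁻¹ * g.1 * g.2)
/-- `Λ₃` -/
def shLam3 (Φ : G → G → G → G → W) : G × G × G → indRep W :=
  fun g c => Φ (helper57.cosetRep U c)⁻¹ ((helper57.cosetRep U c)⁻¹ * g.1)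
    ((helper57.cosetRep U c)⁻¹ * g.1 * g.2.1) ((helper57.cosetRep U c)⁻¹ * g.1 * g.2.1 * g.2.2)
/-- `Λ₄` -/
def shLam4 (Φ : G → G → G → G → G → W) : G × G × G × G → indRep W :=
  fun g c => Φ (helper57.cosetRep U c)⁻¹ ((helper57.cosetRep U c)⁻¹ * g.1)
    ((helper57.cosetRep U c)⁻¹ * g.1 * g.2.1) ((helper57.cosetRep U c)⁻¹ * g.1 * g.2.1 * g.2.2.1)
    ((helper57.cosetRep U c)⁻¹ * g.1 * g.2.1 * g.2.2.1 * g.2.2.2)

/-! ### `Λ` and the action of `G` -/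

lemma cocyc_mul_cosetRep_inv (g : G) (c : G ⧸ U) :
    ((helper57.cocyc U g c : ↥U) : G) * (helper57.cosetRep U (g⁻¹ • c))⁻¹ =
      (helper57.cosetRep U c)⁻¹ * g := by
  rw [helper57.coe_cocyc]
  group

variable {W}

lemma rho_shLam0 {Φ : G → W} (hΦ : IsUEqv0 W Φ) (g : G) (c : G ⧸ U) :
    (indRep W).ρ g (shLam0 W Φ) c = Φ ((helper57.cosetRep U c)⁻¹ * g) := by
  show W.ρ (helper57.cocyc U g c) (Φ (helper57.cosetRep U (g⁻¹ • c))⁻¹) = _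
  rw [← hΦ, cocyc_mul_cosetRep_inv]

lemma rho_shLam1 {Φ : G → G → W} (hΦ : IsUEqv1 W Φ) (g g₂ : G) (c : G ⧸ U) :
    (indRep W).ρ g (shLam1 W Φ g₂) c =
      Φ ((helper57.cosetRep U c)⁻¹ * g) ((helper57.cosetRep U c)⁻¹ * g * g₂) := by
  show W.ρ (helper57.cocyc U g c) (Φ (helper57.cosetRep U (g⁻¹ • c))⁻¹
    ((helper57.cosetRep U (g⁻¹ • c))⁻¹ * g₂)) = _
  rw [← hΦ, ← mul_assoc, cocyc_mul_cosetRep_inv]

lemma rho_shLam2 {Φ : G → G → G → W} (hΦ : IsUEqv2 W Φ) (g g₂ g₃ : G) (c : G ⧸ U) :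
    (indRep W).ρ g (shLam2 W Φ (g₂, g₃)) c =
      Φ ((helper57.cosetRep U c)⁻¹ * g) ((helper57.cosetRep U c)⁻¹ * g * g₂)
        ((helper57.cosetRep U c)⁻¹ * g * g₂ * g₃) := by
  show W.ρ (helper57.cocyc U g c) (Φ (helper57.cosetRep U (g⁻¹ • c))⁻¹
    ((helper57.cosetRep U (g⁻¹ • c))⁻¹ * g₂) ((helper57.cosetRep U (g⁻¹ • c))⁻¹ * g₂ * g₃)) = _
  rw [← hΦ, ← mul_assoc, ← mul_assoc, ← mul_assoc, cocyc_mul_cosetRep_inv]

lemma rho_shLam3 {Φ : G → G → G → G → W} (hΦ : IsUEqv3 W Φ) (g g₂ g₃ g₄ : G) (c : G ⧸ U) :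
    (indRep W).ρ g (shLam3 W Φ (g₂, g₃, g₄)) c =
      Φ ((helper57.cosetRep U c)⁻¹ * g) ((helper57.cosetRep U c)⁻¹ * g * g₂)
        ((helper57.cosetRep U c)⁻¹ * g * g₂ * g₃)
        ((helper57.cosetRep U c)⁻¹ * g * g₂ * g₃ * g₄) := by
  show W.ρ (helper57.cocyc U g c) (Φ (helper57.cosetRep U (g⁻¹ • c))⁻¹
    ((helper57.cosetRep U (g⁻¹ • c))⁻¹ * g₂) ((helper57.cosetRep U (g⁻¹ • c))⁻¹ * g₂ * g₃)
    ((helper57.cosetRep U (g⁻¹ • c))⁻¹ * g₂ * g₃ * g₄)) = _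
  rw [← hΦ, ← mul_assoc, ← mul_assoc, ← mul_assoc, ← mul_assoc, ← mul_assoc, ← mul_assoc,
    cocyc_mul_cosetRep_inv]

/-! ### `d ∘ Λ = Λ ∘ hd` -/

theorem d₀₁_shLam0 {Φ : G → W} (hΦ : IsUEqv0 W Φ) :
    (d₀₁ (indRep W)).hom (shLam0 W Φ) = shLam1 W (hd0 Φ) := by
  funext g
  funext c
  rw [d₀₁_hom_apply]
  show (indRep W).ρ g (shLam0 W Φ) c - shLam0 W Φ c = _
  rw [rho_shLam0 hΦ]
  rfl

theorem d₁₂_shLam1 {Φ : G → G → W} (hΦ : IsUEqv1 W Φ) :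
    (d₁₂ (indRep W)).hom (shLam1 W Φ) = shLam2 W (hd1 Φ) := by
  funext ⟨g₁, g₂⟩
  funext c
  rw [d₁₂_hom_apply]
  show (indRep W).ρ g₁ (shLam1 W Φ g₂) c - shLam1 W Φ (g₁ * g₂) c + shLam1 W Φ g₁ c = _
  rw [rho_shLam1 hΦ]
  simp only [shLam1, shLam2, hd1_apply, mul_assoc]

theorem d₂₃_shLam2 {Φ : G → G → G → W} (hΦ : IsUEqv2 W Φ) :
    (d₂₃ (indRep W)).hom (shLam2 W Φ) = shLam3 W (hd2 Φ) := by
  funext ⟨g₁, g₂, g₃⟩
  funext c
  rw [d₂₃_hom_apply]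
  show (indRep W).ρ g₁ (shLam2 W Φ (g₂, g₃)) c - shLam2 W Φ (g₁ * g₂, g₃) c
    + shLam2 W Φ (g₁, g₂ * g₃) c - shLam2 W Φ (g₁, g₂) c = _
  rw [rho_shLam2 hΦ]
  simp only [shLam2, shLam3, hd2_apply, mul_assoc]

theorem d₃₄_shLam3 {Φ : G → G → G → G → W} (hΦ : IsUEqv3 W Φ) :
    d₃₄ (indRep W) (shLam3 W Φ) = shLam4 W (hd3 Φ) := by
  funext ⟨g₁, g₂, g₃, g₄⟩
  funext c
  rw [d₃₄_apply]
  show (indRep W).ρ g₁ (shLam3 W Φ (g₂, g₃, g₄)) c - shLam3 W Φ (g₁ * g₂, g₃, g₄) c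
    + shLam3 W Φ (g₁, g₂ * g₃, g₄) c - shLam3 W Φ (g₁, g₂, g₃ * g₄) c
    + shLam3 W Φ (g₁, g₂, g₃) c = _
  rw [rho_shLam3 hΦ]
  simp only [shLam3, shLam4, hd3_apply, mul_assoc]

/-! ### `Λ ∘ Ψ = id` and `Ψ ∘ Λ = id` -/

variable (W)

theorem shLam0_shPsi0 (z : indRep W) : shLam0 W (shPsi0 W z) = z := by
  funext c
  simp only [shLam0, shPsi0, homog0_apply, shEv_rho_cosetRep_inv]

theorem shLam1_shPsi1 (z : G → indRep W) : shLam1 W (shPsi1 W z) = z := by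
  funext g
  funext c
  simp only [shLam1, shPsi1, homog1_apply, shEv_rho_cosetRep_inv, inv_mul_cancel_left]

theorem shLam2_shPsi2 (z : G × G → indRep W) : shLam2 W (shPsi2 W z) = z := by
  funext ⟨g₁, g₂⟩
  funext c
  simp only [shLam2, shPsi2, homog2_apply, shEv_rho_cosetRep_inv, inv_mul_cancel_left]

theorem shLam3_shPsi3 (z : G × G × G → indRep W) : shLam3 W (shPsi3 W z) = z := by
  funext ⟨g₁, g₂, g₃⟩
  funext c
  simp only [shLam3, shPsi3, homog3_apply, shEv_rho_cosetRep_inv, inv_mul_cancel_left]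

variable {W}

lemma shRet_mul_cosetRep_inv (x : G) :
    ((shRet U x : ↥U) : G) * (helper57.cosetRep U ((x⁻¹ : G) : G ⧸ U))⁻¹ = x := by
  rw [coe_shRet]
  group

lemma shRet_mul_cosetRep_inv_mul (x y : G) :
    ((shRet U x : ↥U) : G) * ((helper57.cosetRep U ((x⁻¹ : G) : G ⧸ U))⁻¹ * y) = x * y := by
  rw [← mul_assoc, shRet_mul_cosetRep_inv]

theorem shPsi0_shLam0 {Φ : G → W} (hΦ : IsUEqv0 W Φ) : shPsi0 W (shLam0 W Φ) = Φ := by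
  funext x₀
  simp only [shPsi0, homog0_apply, shEv_rho, shLam0]
  rw [← hΦ, shRet_mul_cosetRep_inv]

theorem shPsi1_shLam1 {Φ : G → G → W} (hΦ : IsUEqv1 W Φ) : shPsi1 W (shLam1 W Φ) = Φ := by
  funext x₀ x₁
  simp only [shPsi1, homog1_apply, shEv_rho, shLam1]
  rw [← hΦ]
  simp only [shRet_mul_cosetRep_inv_mul, shRet_mul_cosetRep_inv, mul_inv_cancel_left]

theorem shPsi2_shLam2 {Φ : G → G → G → W} (hΦ : IsUEqv2 W Φ) :
    shPsi2 W (shLam2 W Φ) = Φ := by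
  funext x₀ x₁ x₂
  simp only [shPsi2, homog2_apply, shEv_rho, shLam2]
  rw [← hΦ]
  simp only [mul_assoc, shRet_mul_cosetRep_inv_mul, shRet_mul_cosetRep_inv, mul_inv_cancel_left]

theorem shPsi3_shLam3 {Φ : G → G → G → G → W} (hΦ : IsUEqv3 W Φ) :
    shPsi3 W (shLam3 W Φ) = Φ := by
  funext x₀ x₁ x₂ x₃
  simp only [shPsi3, homog3_apply, shEv_rho, shLam3]
  rw [← hΦ]
  simp only [mul_assoc, shRet_mul_cosetRep_inv_mul, shRet_mul_cosetRep_inv, mul_inv_cancel_left]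

/-! ### The Shapiro map on inhomogeneous cochains -/

variable (W)

/-- the Shapiro map on `1`-cochains: restriction to `U` followed by the evaluation -/
def shRes1 : (G → indRep W) →ₗ[k] (↥U → W) where
  toFun z := fun u => shEv W (z (u : G))
  map_add' z z' := by
    funext u
    exact map_add (shEv W) (z (u : G)) (z' (u : G))
  map_smul' c z := by
    funext u
    exact map_smul (shEv W) c (z (u : G))

/-- the Shapiro map on `2`-cochains -/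
def shRes2 : (G × G → indRep W) →ₗ[k] (↥U × ↥U → W) where
  toFun z := fun u => shEv W (z ((u.1 : G), (u.2 : G)))
  map_add' z z' := by
    funext u
    exact map_add (shEv W) (z ((u.1 : G), (u.2 : G))) (z' ((u.1 : G), (u.2 : G)))
  map_smul' c z := by
    funext u
    exact map_smul (shEv W) c (z ((u.1 : G), (u.2 : G)))

/-- the Shapiro map on `3`-cochains -/
def shRes3 : (G × G × G → indRep W) →ₗ[k] (↥U × ↥U × ↥U → W) where
  toFun z := fun u => shEv W (z ((u.1 : G), (u.2.1 : G), (u.2.2 : G)))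
  map_add' z z' := by
    funext u
    exact map_add (shEv W) (z ((u.1 : G), (u.2.1 : G), (u.2.2 : G)))
      (z' ((u.1 : G), (u.2.1 : G), (u.2.2 : G)))
  map_smul' c z := by
    funext u
    exact map_smul (shEv W) c (z ((u.1 : G), (u.2.1 : G), (u.2.2 : G)))

/-- the Shapiro map on `4`-cochains -/
def shRes4 (z : G × G × G × G → indRep W) : ↥U × ↥U × ↥U × ↥U → W :=
  fun u => shEv W (z ((u.1 : G), (u.2.1 : G), (u.2.2.1 : G), (u.2.2.2 : G)))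

@[simp] lemma shRes1_apply (z : G → indRep W) (u : ↥U) : shRes1 W z u = shEv W (z (u : G)) := rfl
@[simp] lemma shRes2_apply (z : G × G → indRep W) (u₁ u₂ : ↥U) :
    shRes2 W z (u₁, u₂) = shEv W (z ((u₁ : G), (u₂ : G))) := rfl
@[simp] lemma shRes3_apply (z : G × G × G → indRep W) (u₁ u₂ u₃ : ↥U) :
    shRes3 W z (u₁, u₂, u₃) = shEv W (z ((u₁ : G), (u₂ : G), (u₃ : G))) := rfl
@[simp] lemma shRes4_apply (z : G × G × G × G → indRep W) (u₁ u₂ u₃ u₄ : ↥U) :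
    shRes4 W z (u₁, u₂, u₃, u₄) = shEv W (z ((u₁ : G), (u₂ : G), (u₃ : G), (u₄ : G))) := rfl

theorem d₀₁_shEv (f : indRep W) :
    (d₀₁ W).hom (shEv W f) = shRes1 W ((d₀₁ (indRep W)).hom f) := by
  funext u
  simp only [d₀₁_hom_apply, shRes1_apply, map_sub, shEv_rho_coe]

theorem d₁₂_shRes1 (z : G → indRep W) :
    (d₁₂ W).hom (shRes1 W z) = shRes2 W ((d₁₂ (indRep W)).hom z) := by
  funext ⟨u₁, u₂⟩
  simp only [d₁₂_hom_apply, shRes1_apply, shRes2_apply, map_sub, map_add, shEv_rho_coe,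
    Subgroup.coe_mul]

theorem d₂₃_shRes2 (z : G × G → indRep W) :
    (d₂₃ W).hom (shRes2 W z) = shRes3 W ((d₂₃ (indRep W)).hom z) := by
  funext ⟨u₁, u₂, u₃⟩
  simp only [d₂₃_hom_apply, shRes2_apply, shRes3_apply, map_sub, map_add, shEv_rho_coe,
    Subgroup.coe_mul]

theorem d₃₄_shRes3 (z : G × G × G → indRep W) :
    d₃₄ W (shRes3 W z) = shRes4 W (d₃₄ (indRep W) z) := by
  funext ⟨u₁, u₂, u₃, u₄⟩
  simp only [d₃₄_apply, shRes3_apply, shRes4_apply, map_sub, map_add, shEv_rho_coe,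
    Subgroup.coe_mul]

/-! ### Restriction of `Ψ` to `U` -/

theorem pull0_shPsi0 (f : indRep W) :
    pull0 (Subtype.val : ↥U → G) (shPsi0 W f) = homog0 W (shEv W f) := by
  funext u₀
  simp only [pull0_apply, shPsi0, homog0_apply, shEv_rho_coe]

theorem pull1_shPsi1 (z : G → indRep W) :
    pull1 (Subtype.val : ↥U → G) (shPsi1 W z) = homog1 W (shRes1 W z) := by
  funext u₀ u₁
  simp only [pull1_apply, shPsi1, homog1_apply, shEv_rho_coe, shRes1_apply, Subgroup.coe_mul,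
    Subgroup.coe_inv]

theorem pull2_shPsi2 (z : G × G → indRep W) :
    pull2 (Subtype.val : ↥U → G) (shPsi2 W z) = homog2 W (shRes2 W z) := by
  funext u₀ u₁ u₂
  simp only [pull2_apply, shPsi2, homog2_apply, shEv_rho_coe, shRes2_apply, Subgroup.coe_mul,
    Subgroup.coe_inv]

theorem pull3_shPsi3 (z : G × G × G → indRep W) :
    pull3 (Subtype.val : ↥U → G) (shPsi3 W z) = homog3 W (shRes3 W z) := by
  funext u₀ u₁ u₂ u₃
  simp only [pull3_apply, shPsi3, homog3_apply, shEv_rho_coe, shRes3_apply, Subgroup.coe_mul,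
    Subgroup.coe_inv]

/-! ### Levels -/

variable {W} {𝒩 : Levels G}

/-- the induced module of a smooth module is smooth -/
theorem isSmooth_indRep (hU : ∃ N ∈ 𝒩.mem, N ≤ U)
    (hW : IsSmooth (restrictLevels 𝒩 U hU) W) : IsSmooth 𝒩 (indRep W) := by
  obtain ⟨N', ⟨N, hN, hNU, rfl⟩, hN'⟩ := hW
  have hNn := 𝒩.normal N hN
  refine ⟨N, hN, fun s hs f => ?_⟩
  funext c
  have hc : s⁻¹ • c = c := by
    induction c using QuotientGroup.induction_on with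
    | H g =>
      rw [MulAction.Quotient.smul_mk, smul_eq_mul, QuotientGroup.eq]
      have : (s⁻¹ * g)⁻¹ * g = g⁻¹ * s * g := by group
      rw [this]
      exact hNU (hNn.conj_mem' s hs g)
  show W.ρ (helper57.cocyc U s c) (f (s⁻¹ • c)) = f c
  rw [hc]
  refine hN' _ ?_ _
  rw [Subgroup.mem_subgroupOf, helper57.coe_cocyc, hc]
  exact hNn.conj_mem' s hs _

theorem shRes1_mem_C1 (hU : ∃ N ∈ 𝒩.mem, N ≤ U) {z : G → indRep W}
    (hz : z ∈ C1 𝒩 (indRep W)) : shRes1 W z ∈ C1 (restrictLevels 𝒩 U hU) W := by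
  obtain ⟨N, hN, h⟩ := hz
  obtain ⟨N₀, hN₀, hN₀U⟩ := hU
  obtain ⟨M, hM, hle⟩ := 𝒩.directed N hN N₀ hN₀
  refine ⟨M.subgroupOf U, ⟨M, hM, fun t ht => hN₀U (hle ht).2, rfl⟩, fun u s hs => ?_⟩
  simp only [shRes1_apply, Subgroup.coe_mul, h _ _ (hle (Subgroup.mem_subgroupOf.1 hs)).1]

theorem shRes2_mem_C2 (hU : ∃ N ∈ 𝒩.mem, N ≤ U) {z : G × G → indRep W}
    (hz : z ∈ C2 𝒩 (indRep W)) : shRes2 W z ∈ C2 (restrictLevels 𝒩 U hU) W := by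
  obtain ⟨N, hN, h⟩ := hz
  obtain ⟨N₀, hN₀, hN₀U⟩ := hU
  obtain ⟨M, hM, hle⟩ := 𝒩.directed N hN N₀ hN₀
  refine ⟨M.subgroupOf U, ⟨M, hM, fun t ht => hN₀U (hle ht).2, rfl⟩,
    fun u₁ u₂ s₁ hs₁ s₂ hs₂ => ?_⟩
  simp only [shRes2_apply, Subgroup.coe_mul,
    h _ _ _ (hle (Subgroup.mem_subgroupOf.1 hs₁)).1 _ (hle (Subgroup.mem_subgroupOf.1 hs₂)).1]

theorem shRes3_mem_C3 (hU : ∃ N ∈ 𝒩.mem, N ≤ U) {z : G × G × G → indRep W}
    (hz : z ∈ C3 𝒩 (indRep W)) : shRes3 W z ∈ C3 (restrictLevels 𝒩 U hU) W := by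
  obtain ⟨N, hN, h⟩ := hz
  obtain ⟨N₀, hN₀, hN₀U⟩ := hU
  obtain ⟨M, hM, hle⟩ := 𝒩.directed N hN N₀ hN₀
  refine ⟨M.subgroupOf U, ⟨M, hM, fun t ht => hN₀U (hle ht).2, rfl⟩,
    fun u₁ u₂ u₃ s₁ hs₁ s₂ hs₂ s₃ hs₃ => ?_⟩
  simp only [shRes3_apply, Subgroup.coe_mul,
    h _ _ _ _ (hle (Subgroup.mem_subgroupOf.1 hs₁)).1 _ (hle (Subgroup.mem_subgroupOf.1 hs₂)).1
      _ (hle (Subgroup.mem_subgroupOf.1 hs₃)).1]

theorem isLevH1_shPsi1 (hsm : IsSmooth 𝒩 (indRep W)) {z : G → indRep W}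
    (hz : z ∈ C1 𝒩 (indRep W)) : IsLevH1 𝒩 (shPsi1 W z) := by
  obtain ⟨M, hM, h⟩ := isLevH1_homog1 hsm hz
  exact ⟨M, hM, fun x₀ x₁ s₀ hs₀ s₁ hs₁ => by simp only [shPsi1, h x₀ x₁ s₀ hs₀ s₁ hs₁]⟩

theorem isLevH2_shPsi2 (hsm : IsSmooth 𝒩 (indRep W)) {z : G × G → indRep W}
    (hz : z ∈ C2 𝒩 (indRep W)) : IsLevH2 𝒩 (shPsi2 W z) := by
  obtain ⟨M, hM, h⟩ := isLevH2_homog2 hsm hz
  exact ⟨M, hM, fun x₀ x₁ x₂ s₀ hs₀ s₁ hs₁ s₂ hs₂ => by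
    simp only [shPsi2, h x₀ x₁ x₂ s₀ hs₀ s₁ hs₁ s₂ hs₂]⟩

theorem isLevH3_shPsi3 (hsm : IsSmooth 𝒩 (indRep W)) {z : G × G × G → indRep W}
    (hz : z ∈ C3 𝒩 (indRep W)) : IsLevH3 𝒩 (shPsi3 W z) := by
  obtain ⟨M, hM, h⟩ := isLevH3_homog3 hsm hz
  exact ⟨M, hM, fun x₀ x₁ x₂ x₃ s₀ hs₀ s₁ hs₁ s₂ hs₂ s₃ hs₃ => by
    simp only [shPsi3, h x₀ x₁ x₂ x₃ s₀ hs₀ s₁ hs₁ s₂ hs₂ s₃ hs₃]⟩

theorem shLam1_mem_C1 {Φ : G → G → W} (hΦ : IsLevH1 𝒩 Φ) : shLam1 W Φ ∈ C1 𝒩 (indRep W) := by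
  obtain ⟨M, hM, h⟩ := isLev₁_chain hΦ
  refine ⟨M, hM, fun g₁ s₁ hs₁ => ?_⟩
  funext c
  exact h _ g₁ s₁ hs₁

theorem shLam2_mem_C2 {Φ : G → G → G → W} (hΦ : IsLevH2 𝒩 Φ) :
    shLam2 W Φ ∈ C2 𝒩 (indRep W) := by
  obtain ⟨M, hM, h⟩ := isLev₂_chain hΦ
  refine ⟨M, hM, fun g₁ g₂ s₁ hs₁ s₂ hs₂ => ?_⟩
  funext c
  exact h _ g₁ g₂ s₁ hs₁ s₂ hs₂

theorem shLam3_mem_C3 {Φ : G → G → G → G → W} (hΦ : IsLevH3 𝒩 Φ) :
    shLam3 W Φ ∈ C3 𝒩 (indRep W) := by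
  obtain ⟨M, hM, h⟩ := isLev₃_chain hΦ
  refine ⟨M, hM, fun g₁ g₂ g₃ s₁ hs₁ s₂ hs₂ s₃ hs₃ => ?_⟩
  funext c
  exact h _ g₁ g₂ g₃ s₁ hs₁ s₂ hs₂ s₃ hs₃

end Fermat.Agent.P1.helper9
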