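import Fermat.Agent.P1.helper14_KumEqDefs2
import Fermat.Agent.P1.helper5_KumVal

/-!
# P1 / FLAT-CNT / KUMEQ / FC-TOP-B (helper9): type-level core

For a `p`-adic field `F` (S55 LOC vocabulary) and `ϖ ∈ F` with `0 < ordT ϖ`:

* `TopRep p F ϖ a y` : `a = 1 + ϖ c` with `c` integral of residue class `y`;
* `topRep_one`, `topRep_mul`, `topRep_pow`, `topRep_gal`, `topRep_exists` : calculus of `TopRep`;
* `topRep_pth_power` : from FC-TOP-A, `a` is a `p`-th power if its class with respect to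
  `(ζ - 1) ^ p` is of the form `x ^ p - x`;
* `wp_dep` : in a finite field of characteristic `p`, any two elements are `𝔽_p`-linearly
  dependent modulo `{x ^ p - x}`.
-/

set_option autoImplicit false

namespace Fermat.Agent.P1.helper9

open Fermat.Agent.S55.helper8 Fermat.Agent.S55.helper7 Fermat.Agent.P1.helper14
  Fermat.Agent.P1.helper5

variable (p : ℕ) [Fact p.Prime]

section toprep

variable (F : Type) [Field F] [Algebra ℚ_[p] F] [FiniteDimensional ℚ_[p] F]

/-- `a = 1 + ϖ c` with `c` integral of residue class `y`. -/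
def TopRep (ϖ a : F) (y : kq p F) : Prop :=
  ∃ c : Oq p F, a = 1 + ϖ * (c : F) ∧ res p F c = y

variable {F}

lemma topRep_one (ϖ : F) : TopRep p F ϖ 1 0 :=
  ⟨0, by simp, map_zero _⟩

lemma topRep_mul {ϖ a a' : F} {y y' : kq p F} (hϖ : 0 < ordT p F ϖ)
    (h : TopRep p F ϖ a y) (h' : TopRep p F ϖ a' y') :
    TopRep p F ϖ (a * a') (y + y') := by
  obtain ⟨c, rfl, rfl⟩ := h
  obtain ⟨c', rfl, rfl⟩ := h'
  let ϖ' : Oq p F := ⟨ϖ, le_of_lt hϖ⟩
  have hϖ' : res p F ϖ' = 0 := (res_eq_zero_iff p F).2 hϖ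
  refine ⟨c + c' + ϖ' * c * c', ?_, ?_⟩
  · push_cast
    change _ = 1 + ϖ * ((c : F) + (c' : F) + ϖ * (c : F) * (c' : F))
    ring
  · rw [map_add, map_add, map_mul, map_mul, hϖ']
    ring

lemma topRep_pow {ϖ a : F} {y : kq p F} (hϖ : 0 < ordT p F ϖ)
    (h : TopRep p F ϖ a y) (n : ℕ) :
    TopRep p F ϖ (a ^ n) ((n : kq p F) * y) := by
  induction n with
  | zero =>
    rw [pow_zero, Nat.cast_zero, zero_mul]
    exact topRep_one p ϖ
  | succ n ih =>
    rw [pow_succ, Nat.cast_succ, add_mul, one_mul]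
    exact topRep_mul p hϖ ih h

lemma topRep_gal {ϖ a : F} {y : kq p F} (δ : F ≃ₐ[ℚ_[p]] F) (j : ℕ)
    (hj : ∀ x : F, 0 ≤ ordT p F x → 0 < ordT p F (δ x - x ^ (p ^ j)))
    (w : Oq p F) (hw : δ ϖ = ϖ * (w : F))
    (h : TopRep p F ϖ a y) :
    TopRep p F ϖ (δ a) (res p F w * y ^ (p ^ j)) := by
  obtain ⟨c, rfl, rfl⟩ := h
  have hc : 0 ≤ ordT p F (δ (c : F)) := by
    rw [Fermat.Agent.P1.helper14.ordT_algEquiv]
    exact c.2
  refine ⟨w * ⟨δ (c : F), hc⟩, ?_, ?_⟩
  · push_cast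
    rw [map_add, map_one, map_mul, hw]
    ring
  · rw [map_mul, ← map_pow]
    congr 1
    rw [res_eq_iff]
    exact hj (c : F) c.2

lemma topRep_exists {ϖ a : F} (hϖ : ϖ ≠ 0) (h : ordT p F ϖ ≤ ordT p F (a - 1)) :
    ∃ y : kq p F, TopRep p F ϖ a y := by
  have hc : 0 ≤ ordT p F ((a - 1) * ϖ⁻¹) := by
    rw [ordT_mul, ← ordT_inv p F hϖ]
    exact add_le_add_left h _
  refine ⟨res p F ⟨(a - 1) * ϖ⁻¹, hc⟩, ⟨(a - 1) * ϖ⁻¹, hc⟩, ?_, rfl⟩
  change a = 1 + ϖ * ((a - 1) * ϖ⁻¹)
  field_simp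
  ring

/-- From FC-TOP-A: `a` is a `p`-th power if its class with respect to `(ζ - 1) ^ p` is of the
form `x ^ p - x`. -/
lemma topRep_pth_power (hA : FCTopAStatement p) {ζ : F} (hζ : IsPrimitiveRoot ζ p)
    {a : F} {x : kq p F} (h : TopRep p F ((ζ - 1) ^ p) a (x ^ p - x)) :
    ∃ b : F, b ^ p = a := by
  obtain ⟨c, rfl, hc⟩ := h
  obtain ⟨d, rfl⟩ := res_surjective p F x
  rw [← map_pow, ← map_sub, res_eq_iff] at hc
  exact (hA F ζ hζ).2 (c : F) (d : F) c.2 d.2 (by simpa using hc)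

end toprep

section wp

variable (κ : Type) [Field κ] [Finite κ] [CharP κ p]

/-- The Artin–Schreier map `x ↦ x ^ p - x`. -/
def wpHom : κ →+ κ :=
  AddMonoidHom.mk' (fun x => x ^ p - x) (by
    intro a b
    rw [add_pow_char]
    ring)

omit [Finite κ] in
lemma wpHom_apply (x : κ) : wpHom p κ x = x ^ p - x := rfl

lemma card_ker_wpHom_le : Nat.card (wpHom p κ).ker ≤ p := by
  classical
  have hp : p.Prime := Fact.out
  have hdeg : (Polynomial.X ^ p - Polynomial.X : Polynomial κ).natDegree = p :=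
    FiniteField.X_pow_card_sub_X_natDegree_eq κ hp.one_lt
  have hP : (Polynomial.X ^ p - Polynomial.X : Polynomial κ) ≠ 0 := by
    intro h
    rw [h, Polynomial.natDegree_zero] at hdeg
    exact hp.ne_zero hdeg.symm
  have hsub : ∀ x : (wpHom p κ).ker,
      (x : κ) ∈ (Polynomial.X ^ p - Polynomial.X : Polynomial κ).roots.toFinset := by
    intro x
    rw [Multiset.mem_toFinset, Polynomial.mem_roots hP, Polynomial.IsRoot.def]
    simp only [Polynomial.eval_sub, Polynomial.eval_pow, Polynomial.eval_X]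
    exact x.2
  calc Nat.card (wpHom p κ).ker
      ≤ Nat.card (Polynomial.X ^ p - Polynomial.X : Polynomial κ).roots.toFinset :=
        Nat.card_le_card_of_injective (fun x => ⟨(x : κ), hsub x⟩) (by
          intro x y h
          exact Subtype.ext (by simpa using congrArg Subtype.val h))
    _ = (Polynomial.X ^ p - Polynomial.X : Polynomial κ).roots.toFinset.card :=
        Nat.card_eq_finsetCard _
    _ ≤ Multiset.card (Polynomial.X ^ p - Polynomial.X : Polynomial κ).roots :=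
        Multiset.toFinset_card_le _
    _ ≤ (Polynomial.X ^ p - Polynomial.X : Polynomial κ).natDegree := Polynomial.card_roots' _
    _ = p := hdeg

lemma index_range_wpHom_le : (wpHom p κ).range.index ≤ p := by
  have h1 := AddSubgroup.index_ker (wpHom p κ)
  have h2 := AddSubgroup.card_mul_index (wpHom p κ).ker
  have h3 := AddSubgroup.card_mul_index (wpHom p κ).range
  have hpos : 0 < Nat.card (wpHom p κ).range := Nat.card_pos
  have h4 : (wpHom p κ).range.index = Nat.card (wpHom p κ).ker := by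
    rw [h1] at h2
    have h5 : Nat.card (wpHom p κ).range * (wpHom p κ).range.index
        = Nat.card (wpHom p κ).range * Nat.card (wpHom p κ).ker := by
      rw [h3, mul_comm, h2]
    exact Nat.eq_of_mul_eq_mul_left hpos h5
  rw [h4]
  exact card_ker_wpHom_le p κ

/-- In a finite field of characteristic `p`, any two elements are `𝔽_p`-linearly dependent
modulo the image of `x ↦ x ^ p - x`. -/
lemma wp_dep (r r' : κ) :
    ∃ n n' : ZMod p, (n ≠ 0 ∨ n' ≠ 0) ∧
      ∃ x : κ, ((n.val : ℕ) : κ) * r + ((n'.val : ℕ) : κ) * r' = x ^ p - x := by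
  classical
  have hp : p.Prime := Fact.out
  have hι : ∀ n : ZMod p, ((n.val : ℕ) : κ) = ZMod.castHom (dvd_refl p) κ n := fun n => by
    rw [ZMod.natCast_val, ZMod.castHom_apply]
  have : Fintype (κ ⧸ (wpHom p κ).range) := Fintype.ofFinite _
  have hcard : Fintype.card (κ ⧸ (wpHom p κ).range) < Fintype.card (ZMod p × ZMod p) := by
    rw [Fintype.card_prod, ZMod.card, ← Nat.card_eq_fintype_card, ← AddSubgroup.index_eq_card]
    calc (wpHom p κ).range.index ≤ p := index_range_wpHom_le p κ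
      _ < p * p := by nlinarith [hp.one_lt]
  obtain ⟨u, v, huv, hΦ⟩ := Fintype.exists_ne_map_eq_of_card_lt
    (fun n : ZMod p × ZMod p =>
      (QuotientAddGroup.mk (ZMod.castHom (dvd_refl p) κ n.1 * r
        + ZMod.castHom (dvd_refl p) κ n.2 * r') : κ ⧸ (wpHom p κ).range)) hcard
  refine ⟨v.1 - u.1, v.2 - u.2, ?_, ?_⟩
  · by_contra hcon
    rw [not_or, not_not, not_not, sub_eq_zero, sub_eq_zero] at hcon
    exact huv (Prod.ext hcon.1.symm hcon.2.symm)
  · obtain ⟨x, hx⟩ := QuotientAddGroup.eq.1 hΦ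
    refine ⟨x, ?_⟩
    rw [hι, hι, map_sub, map_sub, ← wpHom_apply, hx]
    ring

end wp

end Fermat.Agent.P1.helper9
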