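import Fermat.Agent.P1.helper9_FCTopBCore

/-!
# P1 / FLAT-CNT / KUMEQ / FC-TOP-B (helper9): the local statements

For a `p`-adic field `F` containing a primitive `p`-th root of unity `ζ`, `ϖ = (ζ - 1) ^ p`
and `a, a' ∈ U^(m)` with `m ≥ p e / (p - 1)`:

* `ordT_top_le` : `ordT ϖ ≤ ordT (a - 1)`;
* `exists_pow_eq_gal` : `δ a * a ^ k'` is a `p`-th power, for `δ ∈ Gal(F/ℚ_p)` with
  `δ ζ = ζ ^ k`, `p ∣ k + k'`  (from FC-TOP-A, FC-FROB);
* `exists_pow_eq_dep` : some non-trivial `a ^ n * a' ^ n'` is a `p`-th power (from FC-TOP-A).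
-/

set_option autoImplicit false

namespace Fermat.Agent.P1.helper9

open Fermat.Agent.S55.helper8 Fermat.Agent.S55.helper7 Fermat.Agent.P1.helper14
  Fermat.Agent.P1.helper5

variable (p : ℕ) [Fact p.Prime]

section loc

variable {F : Type} [Field F] [Algebra ℚ_[p] F] [FiniteDimensional ℚ_[p] F]

lemma ordT_top_pos {ζ : F} (hζ : IsPrimitiveRoot ζ p) : 0 < ordT p F (ζ - 1) := by
  have hp : p.Prime := Fact.out
  obtain ⟨c, hc, hce⟩ := ordT_primitiveRoot_sub_one p hζ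
  have he : (0 : ℤ) < (edeg p F : ℤ) := by exact_mod_cast Fermat.Agent.S55.helper33.edeg_pos p F
  have hc0 : 0 < c := by
    by_contra hcon
    rw [not_lt] at hcon
    have h1 : (0 : ℤ) ≤ ((p - 1 : ℕ) : ℤ) := Int.natCast_nonneg _
    have h2 : ((p - 1 : ℕ) : ℤ) * c ≤ 0 := mul_nonpos_of_nonneg_of_nonpos h1 hcon
    omega
  rw [hc]
  exact_mod_cast hc0

lemma ordT_top_pow_pos {ζ : F} (hζ : IsPrimitiveRoot ζ p) : 0 < ordT p F ((ζ - 1) ^ p) := by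
  have hp : p.Prime := Fact.out
  have h := ordT_top_pos p hζ
  have h0 : (ζ - 1) ^ p = (ζ - 1) * (ζ - 1) ^ (p - 1) := by
    rw [← pow_succ', Nat.sub_add_cancel hp.one_le]
  rw [h0, ordT_mul]
  exact lt_of_lt_of_le h (le_add_of_nonneg_right (ordT_pow_nonneg p (le_of_lt h) _))

omit [Algebra ℚ_[p] F] [FiniteDimensional ℚ_[p] F] in
lemma top_pow_ne_zero {ζ : F} (hζ : IsPrimitiveRoot ζ p) : (ζ - 1) ^ p ≠ 0 := by
  have hp : p.Prime := Fact.out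
  exact pow_ne_zero _ (sub_ne_zero.2 (hζ.ne_one hp.one_lt))

/-- `U^(m) ⊆ 1 + (ζ - 1) ^ p 𝒪` for `m ≥ p e / (p - 1)`. -/
lemma ordT_top_le {ζ : F} (hζ : IsPrimitiveRoot ζ p) {a : F} {m : ℕ}
    (hm : p * edeg p F ≤ (p - 1) * m) (ha : ((m : ℤ) : WithTop ℤ) ≤ ordT p F (a - 1)) :
    ordT p F ((ζ - 1) ^ p) ≤ ordT p F (a - 1) := by
  have hp : p.Prime := Fact.out
  obtain ⟨c, hc, hce⟩ := ordT_primitiveRoot_sub_one p hζ
  refine le_trans ?_ ha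
  rw [ordT_pow, hc]
  have h1 : (1 : ℤ) ≤ ((p - 1 : ℕ) : ℤ) := by
    have := hp.two_le
    have h2 : 1 ≤ p - 1 := by omega
    exact_mod_cast h2
  have hm' : (p : ℤ) * (edeg p F : ℤ) ≤ ((p - 1 : ℕ) : ℤ) * (m : ℤ) := by exact_mod_cast hm
  have h3 : (p : ℤ) * c ≤ (m : ℤ) := by
    by_contra hcon
    rw [not_le] at hcon
    have h4 : ((p - 1 : ℕ) : ℤ) * (m : ℤ) < ((p - 1 : ℕ) : ℤ) * ((p : ℤ) * c) :=
      mul_lt_mul_of_pos_left hcon (by omega)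
    have h5 : ((p - 1 : ℕ) : ℤ) * ((p : ℤ) * c) = (p : ℤ) * (edeg p F : ℤ) := by
      rw [← hce]; ring
    omega
  have h6 : p • ((c : ℤ) : WithTop ℤ) = (((p : ℤ) * c : ℤ) : WithTop ℤ) := by
    rw [← WithTop.coe_nsmul, nsmul_eq_mul]
  rw [h6]
  exact_mod_cast h3

/-- The class of `ζ` in the residue field is `1`. -/
lemma res_zeta {ζ : F} (hζ : IsPrimitiveRoot ζ p) (h : 0 ≤ ordT p F ζ) :
    res p F ⟨ζ, h⟩ = 1 := by
  rw [← map_one (res p F), res_eq_iff]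
  exact ordT_top_pos p hζ

lemma natCast_pow_char (κ : Type) [Field κ] [CharP κ p] (n : ℕ) : ((n : κ)) ^ p = (n : κ) := by
  rw [← frobenius_def, map_natCast]

/-- `δ a * a ^ k'` is a `p`-th power, for `a ∈ U^(m)`, `m ≥ p e / (p - 1)`, and
`δ ∈ Gal(F/ℚ_p)` with `δ ζ = ζ ^ k`, `p ∣ k + k'`. -/
lemma exists_pow_eq_gal [IsGalois ℚ_[p] F] (hA : FCTopAStatement p) (hFr : FCFrobStatement p)
    {ζ : F} (hζ : IsPrimitiveRoot ζ p) (δ : F ≃ₐ[ℚ_[p]] F) (k k' : ℕ)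
    (hk : δ ζ = ζ ^ k) (hkk' : p ∣ k + k') {a : F}
    (ha : ordT p F ((ζ - 1) ^ p) ≤ ordT p F (a - 1)) :
    ∃ b : F, b ^ p = δ a * a ^ k' := by
  have hp : p.Prime := Fact.out
  have hϖ := ordT_top_pow_pos p hζ
  obtain ⟨y, hy⟩ := topRep_exists p (top_pow_ne_zero p hζ) ha
  obtain ⟨j, hj⟩ := (hFr F).2 δ
  have hζ0 : ordT p F ζ = 0 := ordT_eq_zero_of_pow_eq_one p F hp.ne_zero hζ.pow_eq_one
  have hζ0' : 0 ≤ ordT p F ζ := le_of_eq hζ0.symm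
  have hs : 0 ≤ ordT p F (∑ i ∈ Finset.range k, ζ ^ i) :=
    ordT_sum_nonneg p _ _ fun i _ => ordT_pow_nonneg p hζ0' i
  have hsp : 0 ≤ ordT p F ((∑ i ∈ Finset.range k, ζ ^ i) ^ p) := ordT_pow_nonneg p hs p
  have hw : δ ((ζ - 1) ^ p) = (ζ - 1) ^ p * (((⟨_, hsp⟩ : Oq p F)) : F) := by
    change _ = (ζ - 1) ^ p * (∑ i ∈ Finset.range k, ζ ^ i) ^ p
    rw [map_pow, map_sub, map_one, hk, ← mul_geom_sum, mul_pow]
  have hresw : res p F ⟨_, hsp⟩ = (k : kq p F) := by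
    have h1 : (⟨_, hsp⟩ : Oq p F) = (∑ i ∈ Finset.range k, (⟨ζ, hζ0'⟩ : Oq p F) ^ i) ^ p := by
      apply Subtype.ext
      push_cast
      rfl
    rw [h1, map_pow, map_sum]
    simp only [map_pow, res_zeta p hζ hζ0', one_pow, Finset.sum_const, Finset.card_range,
      nsmul_eq_mul, mul_one]
    exact natCast_pow_char p _ k
  have h1 := topRep_gal p δ j hj _ hw hy
  rw [hresw] at h1
  have h2 := topRep_mul p hϖ h1 (topRep_pow p hϖ hy k')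
  have hk'cast : ((k' : ℕ) : kq p F) = -((k : ℕ) : kq p F) := by
    rw [eq_neg_iff_add_eq_zero, add_comm, ← Nat.cast_add]
    exact (CharP.cast_eq_zero_iff (kq p F) p _).2 hkk'
  have h3 : (k : kq p F) * y ^ p ^ j + (k' : kq p F) * y
      = ((k : kq p F) * ∑ i ∈ Finset.range j, y ^ p ^ i) ^ p
        - (k : kq p F) * ∑ i ∈ Finset.range j, y ^ p ^ i := by
    rw [mul_pow, natCast_pow_char, sum_pow_char, ← mul_sub, ← Finset.sum_sub_distrib, hk'cast]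
    have h4 : ∀ i ∈ Finset.range j, (y ^ p ^ i) ^ p - y ^ p ^ i
        = y ^ p ^ (i + 1) - y ^ p ^ i := by
      intro i _
      rw [← pow_mul, ← pow_succ]
    rw [Finset.sum_congr rfl h4, Finset.sum_range_sub (fun i => y ^ p ^ i) j, pow_zero, pow_one]
    ring
  rw [h3] at h2
  exact topRep_pth_power p hA hζ h2

/-- Some non-trivial `a ^ n * a' ^ n'` is a `p`-th power, for `a, a' ∈ U^(m)`,
`m ≥ p e / (p - 1)`. -/
lemma exists_pow_eq_dep (hA : FCTopAStatement p)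
    {ζ : F} (hζ : IsPrimitiveRoot ζ p) {a a' : F}
    (ha : ordT p F ((ζ - 1) ^ p) ≤ ordT p F (a - 1))
    (ha' : ordT p F ((ζ - 1) ^ p) ≤ ordT p F (a' - 1)) :
    ∃ n n' : ZMod p, (n ≠ 0 ∨ n' ≠ 0) ∧ ∃ b : F, b ^ p = a ^ n.val * a' ^ n'.val := by
  have hϖ := ordT_top_pow_pos p hζ
  obtain ⟨y, hy⟩ := topRep_exists p (top_pow_ne_zero p hζ) ha
  obtain ⟨y', hy'⟩ := topRep_exists p (top_pow_ne_zero p hζ) ha'
  obtain ⟨n, n', hnn', x, hx⟩ := wp_dep p (kq p F) y y'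
  refine ⟨n, n', hnn', ?_⟩
  have h := topRep_mul p hϖ (topRep_pow p hϖ hy n.val) (topRep_pow p hϖ hy' n'.val)
  rw [hx] at h
  exact topRep_pth_power p hA hζ h

end loc

end Fermat.Agent.P1.helper9
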