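import Mathlib

/-!
# P1 / FLAT-HOPF, package HOPF-2b, core (helper9, task 632)

`p`-th roots in `1 + π ^ N C` for a `π`-adically complete ring `C` with `p = π ^ e w`, `w` a
unit, `N (p - 1) > p e`: every `h ≡ 1 mod π ^ N` is `v ^ p` with `v ≡ 1 mod π ^ (N - e)`.

Proof: `h - 1 = p t` with `t ∈ π ^ (N - e) C`, and `t ^ (p - 1) = p c` with `c ∈ π C`.  The
polynomial `Q = X ^ p - ∑_{1 ≤ m < p} (binom(p, m) / p) t ^ (m - 1) X ^ (p - m) - c` is monic,
`Q(1) ∈ π C`, `Q'(1) ≡ 1 mod π`, and `(h - 1) Q(x) = h x ^ p - (x + t) ^ p`.  Hensel's lemma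
(`IsAdicComplete.henselianRing`) gives a root `a ≡ 1 mod π`, a unit, and `v = (a + t) / a`.
Mathlib only.
-/

set_option autoImplicit false

namespace Fermat.Agent.P1.helper9

open Polynomial

/-- the binomial identity behind HOPF-2b: if `p t = h - 1` and `p c = t ^ (p - 1)` then
`h x ^ p - (x + t) ^ p = (h - 1) Q(x)` with `Q` monic of degree `p`. -/
theorem hopf2b_identity {C : Type*} [CommRing C] (p : ℕ) (hp : p.Prime) (t c h x : C)
    (ht : (p : C) * t = h - 1) (hc : (p : C) * c = t ^ (p - 1)) :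
    (h - 1) * (x ^ p - ∑ m ∈ Finset.Ico 1 p,
        ((p.choose m / p : ℕ) : C) * t ^ (m - 1) * x ^ (p - m) - c)
      = h * x ^ p - (x + t) ^ p := by
  have hsum : ∑ m ∈ Finset.Ico 1 p, t ^ m * x ^ (p - m) * (p.choose m : C) =
      (h - 1) * ∑ m ∈ Finset.Ico 1 p,
        ((p.choose m / p : ℕ) : C) * t ^ (m - 1) * x ^ (p - m) := by
    rw [Finset.mul_sum]
    refine Finset.sum_congr rfl fun m hm => ?_
    obtain ⟨hm1, hmp⟩ := Finset.mem_Ico.1 hm
    have hdvd : p ∣ p.choose m := hp.dvd_choose_self (by omega) hmp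
    have e1 : (p.choose m : C) = (p : C) * ((p.choose m / p : ℕ) : C) := by
      rw [← Nat.cast_mul, Nat.mul_div_cancel' hdvd]
    have e2 : t ^ m = t * t ^ (m - 1) := by
      rw [← pow_succ']
      congr 1
      omega
    rw [e1, e2, ← ht]
    ring
  have htp : t ^ p = (h - 1) * c := by
    have : t ^ p = t * t ^ (p - 1) := by
      rw [← pow_succ']
      congr 1
      have := hp.pos
      omega
    rw [this, ← hc, ← ht]
    ring
  rw [add_comm x t, add_pow, Finset.sum_range_succ, Finset.range_eq_Ico,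
    Finset.sum_eq_sum_Ico_succ_bot hp.pos, hsum]
  simp only [pow_zero, Nat.sub_zero, Nat.choose_zero_right, Nat.cast_one, mul_one, one_mul,
    Nat.sub_self, Nat.choose_self]
  rw [htp]
  ring

/-- the monic polynomial of HOPF-2b -/
noncomputable def hopf2bPoly {C : Type*} [CommRing C] (p : ℕ) (t c : C) : C[X] :=
  X ^ p - (∑ m ∈ Finset.Ico 1 p,
    Polynomial.C (((p.choose m / p : ℕ) : C) * t ^ (m - 1)) * X ^ (p - m) + Polynomial.C c)

theorem hopf2bPoly_monic {C : Type*} [CommRing C] (p : ℕ) (hp : p.Prime) (t c : C) :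
    (hopf2bPoly p t c).Monic := by
  apply monic_X_pow_sub
  rw [← mem_degreeLT]
  refine Submodule.add_mem _ (Submodule.sum_mem _ fun m hm => ?_) ?_
  · obtain ⟨hm1, hmp⟩ := Finset.mem_Ico.1 hm
    rw [mem_degreeLT]
    refine lt_of_le_of_lt (degree_C_mul_X_pow_le _ _) ?_
    exact_mod_cast (by omega : p - m < p)
  · rw [mem_degreeLT]
    refine lt_of_le_of_lt degree_C_le ?_
    exact_mod_cast hp.pos

theorem hopf2bPoly_eval {C : Type*} [CommRing C] (p : ℕ) (t c x : C) :
    (hopf2bPoly p t c).eval x = x ^ p - ∑ m ∈ Finset.Ico 1 p,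
        ((p.choose m / p : ℕ) : C) * t ^ (m - 1) * x ^ (p - m) - c := by
  simp only [hopf2bPoly, eval_sub, eval_add, eval_pow, eval_X, eval_finsetSum, eval_mul, eval_C]
  ring

theorem hopf2bPoly_derivative_eval {C : Type*} [CommRing C] (p : ℕ) (t c x : C) :
    (hopf2bPoly p t c).derivative.eval x = (p : C) * x ^ (p - 1) - ∑ m ∈ Finset.Ico 1 p,
        ((p.choose m / p : ℕ) : C) * t ^ (m - 1) * ((p - m : ℕ) : C) * x ^ (p - m - 1) := by
  simp only [hopf2bPoly, derivative_sub, derivative_add, derivative_X_pow, derivative_sum,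
    derivative_C_mul_X_pow, derivative_C, add_zero, eval_sub, eval_mul, eval_pow, eval_X,
    eval_finsetSum, eval_C]

/-- sum of the coefficients modulo an ideal containing `t`. -/
theorem hopf2b_sum_mod {C : Type*} [CommRing C] (p : ℕ) (hp : p.Prime) (I : Ideal C) (t : C)
    (ht : t ∈ I) (g : ℕ → C) :
    Ideal.Quotient.mk I (∑ m ∈ Finset.Ico 1 p, ((p.choose m / p : ℕ) : C) * t ^ (m - 1) * g m)
      = Ideal.Quotient.mk I (g 1) := by
  have ht0 : Ideal.Quotient.mk I t = 0 := Ideal.Quotient.eq_zero_iff_mem.2 ht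
  rw [map_sum, Finset.sum_eq_single 1]
  · simp [Nat.div_self hp.pos]
  · intro m hm hm1
    obtain ⟨hm1', hmp⟩ := Finset.mem_Ico.1 hm
    rw [map_mul, map_mul, map_pow, ht0, zero_pow (by omega), mul_zero, zero_mul]
  · intro h1
    exact absurd (Finset.mem_Ico.2 ⟨le_rfl, hp.one_lt⟩) h1

/-- **HOPF-2b**, core: `p`-th roots of `h ≡ 1 mod π ^ N`. -/
theorem hopf2b_core (C : Type*) [CommRing C] (p : ℕ) (hp : p.Prime) (π w : C) (e N : ℕ)
    [IsAdicComplete (Ideal.span {π}) C] (hw : IsUnit w) (hpe : (p : C) = π ^ e * w)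
    (hN : p * e < N * (p - 1)) (h : C) (hh : π ^ N ∣ h - 1) :
    ∃ v : C, π ^ (N - e) ∣ v - 1 ∧ v ^ p = h := by
  obtain ⟨z₀, hz₀⟩ := hh
  obtain ⟨w', hw'⟩ := hw.exists_right_inv
  have hp1 : 1 ≤ p - 1 := by have := hp.two_le; omega
  have hNe : e < N := by
    by_contra hle
    rw [not_lt] at hle
    have h1 : N * (p - 1) ≤ e * (p - 1) := Nat.mul_le_mul_right _ hle
    have h2 : e * (p - 1) ≤ e * p := Nat.mul_le_mul_left _ (Nat.sub_le _ _)
    have h3 : e * p = p * e := mul_comm _ _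
    omega
  have hk : e < (N - e) * (p - 1) := by
    have h1 : (N - e) * (p - 1) + e * (p - 1) = N * (p - 1) := by
      rw [← Nat.add_mul, Nat.sub_add_cancel hNe.le]
    have h2 : e * (p - 1) + e = p * e := by
      have : p = (p - 1) + 1 := by omega
      conv_rhs => rw [this]
      ring
    omega
  set k := (N - e) * (p - 1) with hkdef
  set t : C := π ^ (N - e) * (w' * z₀) with htdef
  set c : C := π ^ (k - e) * (w' * (w' * z₀) ^ (p - 1)) with hcdef
  have ht : (p : C) * t = h - 1 := by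
    rw [hz₀, hpe, htdef]
    have : π ^ N = π ^ e * π ^ (N - e) := by rw [← pow_add]; congr 1; omega
    rw [this]
    linear_combination (π ^ e * π ^ (N - e) * z₀) * hw'
  have hc : (p : C) * c = t ^ (p - 1) := by
    have e1 : t ^ (p - 1) = π ^ k * (w' * z₀) ^ (p - 1) := by
      rw [htdef, mul_pow, ← pow_mul]
    have : π ^ k = π ^ e * π ^ (k - e) := by rw [← pow_add]; congr 1; omega
    rw [e1, hpe, hcdef, this]
    linear_combination (π ^ e * π ^ (k - e) * (w' * z₀) ^ (p - 1)) * hw'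
  set I : Ideal C := Ideal.span {π} with hI
  have hπ : π ∈ I := Ideal.subset_span rfl
  have htI : t ∈ I := by
    have : π ^ (N - e) = π * π ^ (N - e - 1) := by rw [← pow_succ']; congr 1; omega
    rw [htdef, this, mul_assoc]
    exact I.mul_mem_right _ hπ
  have hcI : c ∈ I := by
    have : π ^ (k - e) = π * π ^ (k - e - 1) := by rw [← pow_succ']; congr 1; omega
    rw [hcdef, this, mul_assoc]
    exact I.mul_mem_right _ hπ
  have hc0 : Ideal.Quotient.mk I c = 0 := Ideal.Quotient.eq_zero_iff_mem.2 hcI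
  -- Hensel
  have h1 : (hopf2bPoly p t c).eval 1 ∈ I := by
    rw [← Ideal.Quotient.eq_zero_iff_mem, hopf2bPoly_eval, map_sub, map_sub,
      hopf2b_sum_mod p hp I t htI (fun m => (1 : C) ^ (p - m)), hc0]
    simp
  have h2 : IsUnit (Ideal.Quotient.mk I ((hopf2bPoly p t c).derivative.eval 1)) := by
    have e1 : ∑ m ∈ Finset.Ico 1 p,
        ((p.choose m / p : ℕ) : C) * t ^ (m - 1) * ((p - m : ℕ) : C) * (1 : C) ^ (p - m - 1) =
        ∑ m ∈ Finset.Ico 1 p, ((p.choose m / p : ℕ) : C) * t ^ (m - 1) *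
          (((p - m : ℕ) : C) * (1 : C) ^ (p - m - 1)) :=
      Finset.sum_congr rfl fun m _ => by ring
    rw [hopf2bPoly_derivative_eval, e1, map_sub,
      hopf2b_sum_mod p hp I t htI (fun m => ((p - m : ℕ) : C) * (1 : C) ^ (p - m - 1))]
    have : ((p : C) * 1 ^ (p - 1) - ((p - 1 : ℕ) : C) * 1 ^ (p - 1 - 1)) = 1 := by
      rw [one_pow, one_pow, mul_one, mul_one, Nat.cast_sub hp.one_lt.le, Nat.cast_one]
      ring
    rw [← map_sub, this, map_one]
    exact isUnit_one
  obtain ⟨a, ha, ha1⟩ := HenselianRing.is_henselian (hopf2bPoly p t c)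
    (hopf2bPoly_monic p hp t c) 1 h1 h2
  -- `a` is a unit
  have hau : IsUnit a := by
    have hj : a - 1 ∈ (⊥ : Ideal C).jacobson := IsAdicComplete.le_jacobson_bot I ha1
    have := Ideal.mem_jacobson_bot.1 hj 1
    simpa using this
  obtain ⟨a', ha'⟩ := hau.exists_right_inv
  have hroot : h * a ^ p = (a + t) ^ p := by
    have := hopf2b_identity p hp t c h a ht hc
    rw [← hopf2bPoly_eval, IsRoot.def.1 ha, mul_zero] at this
    exact (sub_eq_zero.1 this.symm)
  refine ⟨(a + t) * a', ⟨w' * z₀ * a', ?_⟩, ?_⟩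
  · rw [htdef]
    linear_combination ha'
  · rw [mul_pow, ← hroot, mul_assoc, ← mul_pow, ha', one_pow, mul_one]

end Fermat.Agent.P1.helper9
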